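import Mathlib
import Fermat.Prelude.Def_EllipticCurve_FrobeniusTrace
import Fermat.Prelude.Def_GaloisRep_Residual
import Fermat.Prelude.Def_GroupCohomology_ContinuousUnramified
import Mathlib.RingTheory.SimpleModule.Basic
import Mathlib.RepresentationTheory.AlgebraRepresentation.Basic
import Mathlib.LinearAlgebra.FiniteDimensional.Basic
import Mathlib.Algebra.Algebra.Subalgebra.Basic
import Mathlib.LinearAlgebra.Charpoly.Basic
import Mathlib.LinearAlgebra.Charpoly.ToMatrix
import Mathlib.LinearAlgebra.Basis.VectorSpace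
import Mathlib.LinearAlgebra.Dimension.Finite
import Mathlib.RingTheory.Adjoin.Basic
import Mathlib.Tactic.NoncommRing
import Mathlib.Tactic.Module
import Mathlib.Tactic.LinearCombination
import Fermat.Prelude.Def_ModularCurve_LaurentCoeff
import Fermat.Prelude.Def_AlgebraicCurve_DivisorClassGroup
import Fermat.Prelude.Def_ModularCurve_X0ModL
import Mathlib.Analysis.Complex.BranchLogRoot
import Mathlib.Analysis.Meromorphic.FactorizedRational
import Mathlib.Analysis.SpecialFunctions.Complex.Analytic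
import Mathlib.Analysis.Convex.Contractible
import Mathlib.RingTheory.Polynomial.Cyclotomic.Roots
import Fermat.Prelude.Def_ModularCurve_GenusNumerics
import Fermat.Prelude.Def_ModularCurve_IgusaScheme
import Mathlib.RingTheory.Idempotents
import Mathlib.RingTheory.Ideal.Quotient.Operations
import Mathlib.RingTheory.Ideal.Span
import Mathlib.RingTheory.Noetherian.Basic

-- ===== PACK-BEGIN Lib/Cheb/Spec.lean
section



/-!
# Shared library CHEB — frozen interface statements

Tier 1 ("FROB", Frobenius' density theorem, qualitative): every `σ ∈ Gal(ℚ̄/ℚ)` generates, on any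
finite extension, the same cyclic group as some Frobenius element at a prime outside a given
finite set.  Needs only the simple pole of Dedekind zeta functions.

Tier 2 (exact qualitative Chebotarev): `σ` itself is a Frobenius.  Needs Dirichlet `L`-series
over number fields (statement `CycStatement`).

All blocks prove one of the `Prop`s below, e.g. `theorem primeSum : Spec.PrimeSumStatement`.
Plan, owners, status: `coord/CHEB.md` on branch `origin/helper993`.
-/

set_option autoImplicit false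

open NumberField
open scoped Pointwise

namespace Fermat.Agent.Lib.Cheb.Spec

/-- `ℚ̄`. -/
abbrev Qb : Type := AlgebraicClosure ℚ

/-- `Gal(ℚ̄/ℚ)`. -/
abbrev GQ : Type := Qb ≃ₐ[ℚ] Qb

/-- Number of prime ideals of `𝓞 F` of absolute norm `p` (the degree-one primes above `p`). -/
noncomputable def primeCount (F : Type) [Field F] [NumberField F] (p : ℕ) : ℕ :=
  Nat.card {𝔮 : Ideal (𝓞 F) // 𝔮.IsPrime ∧ Ideal.absNorm 𝔮 = p}

/-- The decomposition group of a prime `P` of `𝓞 L` in `Gal(L/ℚ)`. -/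
abbrev decomp (L : Type) [Field L] [NumberField L] (P : Ideal (𝓞 L)) :
    Subgroup (L ≃ₐ[ℚ] L) :=
  MulAction.stabilizer (L ≃ₐ[ℚ] L) P

/-- The primes `P` of `𝓞 L` above `p` whose decomposition group is contained in `H`. -/
def primesLe (L : Type) [Field L] [NumberField L] (H : Subgroup (L ≃ₐ[ℚ] L)) (p : ℕ) :
    Set (Ideal (𝓞 L)) :=
  {P | P.IsPrime ∧ (p : 𝓞 L) ∈ P ∧ decomp L P ≤ H}

/-- `∑_{P ∣ p, D_P ≤ H} |D_P|`. -/
noncomputable def decompWeight (L : Type) [Field L] [NumberField L]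
    (H : Subgroup (L ≃ₐ[ℚ] L)) (p : ℕ) : ℕ :=
  ∑ᶠ P : primesLe L H p, Nat.card (decomp L P.1)

/-- The inertia group of `P` is trivial. -/
def InertiaTrivial (L : Type) [Field L] [NumberField L] (P : Ideal (𝓞 L)) : Prop :=
  ∀ ι : L ≃ₐ[ℚ] L, (∀ x : 𝓞 L, ι • x - x ∈ P) → ι = 1

/-! ## Tier 1 -/

/-- (Z) = F1 = W1: prime sums of degree-one primes, any number field. -/
def PrimeSumStatement : Prop :=
  ∀ (F : Type) [Field F] [NumberField F], ∃ C : ℝ, ∀ s : ℝ, 1 < s → s ≤ 2 →
    |(∑' p : Nat.Primes, (primeCount F p : ℝ) * (p : ℝ) ^ (-s)) - Real.log (1 / (s - 1))| ≤ C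

/-- (B0): at most `[F:ℚ]` primes of norm `p`. -/
def PrimeCountBoundStatement : Prop :=
  ∀ (F : Type) [Field F] [NumberField F] (p : ℕ), primeCount F p ≤ Module.finrank ℚ F

/-- (A) = F2+F3: degree-one primes of the fixed field `L^H` versus decomposition groups. -/
def CountStatement : Prop :=
  ∀ (L : Type) [Field L] [NumberField L] [IsGalois ℚ L] (H : Subgroup (L ≃ₐ[ℚ] L)),
    ∃ B : Finset ℕ, ∀ p : ℕ, p.Prime → p ∉ B →
      primeCount (IntermediateField.fixedField H) p * Nat.card H = decompWeight L H p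

/-- (D) = F5: outside a finite set of primes the decomposition group is generated by an
arithmetic Frobenius and the inertia group is trivial. -/
def FrobStatement : Prop :=
  ∀ (L : Type) [Field L] [NumberField L] [IsGalois ℚ L],
    ∃ B : Finset ℕ, ∀ p : ℕ, p.Prime → p ∉ B →
      ∀ P : Ideal (𝓞 L), P.IsPrime → (p : 𝓞 L) ∈ P →
        InertiaTrivial L P ∧
        ∃ τ : L ≃ₐ[ℚ] L, IsArithFrobAt ℤ τ P ∧ decomp L P = Subgroup.zpowers τ

/-- (M) = F4: finite-level Frobenius density theorem (qualitative). -/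
def FrobFiniteStatement : Prop :=
  ∀ (L : Type) [Field L] [NumberField L] [IsGalois ℚ L] (σ : L ≃ₐ[ℚ] L) (S : Finset ℕ),
    ∃ (p : ℕ) (P : Ideal (𝓞 L)) (τ : L ≃ₐ[ℚ] L),
      p.Prime ∧ p ∉ S ∧ P.IsPrime ∧ (p : 𝓞 L) ∈ P ∧ InertiaTrivial L P ∧
      IsArithFrobAt ℤ τ P ∧ Subgroup.zpowers τ = Subgroup.zpowers σ

/-- FROB, Prelude level: on every finite extension `E` of `ℚ` inside `ℚ̄`, `σ` and some Frobenius
element `τ` (at a prime `ℓ ∉ S`, with inertia acting trivially on `E`) are powers of each other. -/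
def FrobeniusDivisionStatement : Prop :=
  ∀ (E : IntermediateField ℚ Qb), FiniteDimensional ℚ E → ∀ (σ : GQ) (S : Finset ℕ),
    ∃ (ℓ : ℕ) (A : ValuationSubring Qb) (τ : GQ) (k j : ℕ),
      ℓ.Prime ∧ ℓ ∉ S ∧ A.LiesOverPrime ℓ ∧ A.IsFrobeniusAt τ ℓ ∧
      (∀ ι ∈ A.inertiaSubgroupIn ℚ, ∀ x ∈ E, ι x = x) ∧
      (∀ x ∈ E, τ x = (σ ^ k) x) ∧ (∀ x ∈ E, (τ ^ j) x = σ x)

/-- F6 = W5 (bridge), Tier 1. -/
def BridgeDivisionStatement : Prop :=
  FrobFiniteStatement → FrobeniusDivisionStatement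

/-! ## Tier 2 -/

/-- Number of ideals of `𝓞 F` of absolute norm `n`. -/
noncomputable def idealCount (F : Type) [Field F] [NumberField F] (n : ℕ) : ℕ :=
  Nat.card {I : Ideal (𝓞 F) // Ideal.absNorm I = n}

/-- (AN) analytic core of Tier 2: for a Dirichlet character `χ` mod `m` such that `χ ∘ N` is not
trivial on the ideals of `𝓞 F` prime to `m`, the series `L_F(s, χ ∘ N) = ∑_I χ(N I) N I ^ (-s)`
has a limit as `s → 1⁺`. -/
def DirichletLimitStatement : Prop :=
  ∀ (F : Type) [Field F] [NumberField F] (m : ℕ) [NeZero m] (χ : DirichletCharacter ℂ m),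
    (∃ I : Ideal (𝓞 F), χ (Ideal.absNorm I : ZMod m) ≠ 0 ∧ χ (Ideal.absNorm I : ZMod m) ≠ 1) →
    ∃ c : ℂ, Filter.Tendsto
      (fun s : ℝ => LSeries (fun n => χ (n : ZMod m) * (idealCount F n : ℂ)) (s : ℂ))
      (nhdsWithin 1 (Set.Ioi 1)) (nhds c)

/-- (CYC) cyclotomic case, stated inside a Galois number field `L ∋ ζ_m`: if the cyclic group
`⟨g⟩` acts faithfully on `ζ`, then `g` is an arithmetic Frobenius at a prime outside `S`. -/
def CycStatement : Prop :=
  ∀ (L : Type) [Field L] [NumberField L] [IsGalois ℚ L] (m : ℕ) (ζ : L), 0 < m →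
    IsPrimitiveRoot ζ m → ∀ g : L ≃ₐ[ℚ] L, (∀ k : ℕ, (g ^ k) ζ = ζ → g ^ k = 1) →
    ∀ S : Finset ℕ, ∃ (p : ℕ) (P : Ideal (𝓞 L)),
      p.Prime ∧ p ∉ S ∧ P.IsPrime ∧ (p : 𝓞 L) ∈ P ∧ InertiaTrivial L P ∧ IsArithFrobAt ℤ g P

/-- Finite-level qualitative Chebotarev. -/
def ChebFiniteStatement : Prop :=
  ∀ (L : Type) [Field L] [NumberField L] [IsGalois ℚ L] (σ : L ≃ₐ[ℚ] L) (S : Finset ℕ),
    ∃ (p : ℕ) (P : Ideal (𝓞 L)),
      p.Prime ∧ p ∉ S ∧ P.IsPrime ∧ (p : 𝓞 L) ∈ P ∧ InertiaTrivial L P ∧ IsArithFrobAt ℤ σ P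

/-- (CROSS) field crossing (may use (D) to discard ramified primes). -/
def CrossStatement : Prop :=
  FrobStatement → CycStatement → ChebFiniteStatement

/-- Qualitative Chebotarev, Prelude level. -/
def ChebotarevStatement : Prop :=
  ∀ (E : IntermediateField ℚ Qb), FiniteDimensional ℚ E → ∀ (σ : GQ) (S : Finset ℕ),
    ∃ (ℓ : ℕ) (A : ValuationSubring Qb) (τ : GQ),
      ℓ.Prime ∧ ℓ ∉ S ∧ A.LiesOverPrime ℓ ∧ A.IsFrobeniusAt τ ℓ ∧
      (∀ ι ∈ A.inertiaSubgroupIn ℚ, ∀ x ∈ E, ι x = x) ∧ (∀ x ∈ E, τ x = σ x)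

/-- Bridge, Tier 2. -/
def BridgeStatement : Prop :=
  ChebFiniteStatement → ChebotarevStatement

end Fermat.Agent.Lib.Cheb.Spec

end
-- ===== PACK-END Lib/Cheb/Spec.lean

-- ===== PACK-BEGIN Lib/Cheb/SpecQ.lean
section




/-!
# Shared library CHEB — Tier 3 ("CHEB-Q"): quantitative Chebotarev, frozen interface

Client: row S48 (Deligne–Serre, Lemma 8.4): a set of primes whose Frobenius lies in a subset `C`
of a finite Galois group `G` has **lower Dirichlet density** at least `|C| / |G|`.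

All densities are stated in *finite-sum form* (no `tsum`, no summability side conditions):
`HasLowerDensity X d` says that for every `ε > 0` and every `s > 1` close to `1` some finite
`T ⊆ X` has `∑_{p ∈ T} p ^ (-s) ≥ (d - ε) log (1 / (s - 1))`.

Pieces (plan, owners, status: `coord/CHEB-Q.md` on branch `origin/helper993`):
* `CycDensityStatement`   (Q-CYC)   quantitative version of `Spec.CycStatement`;
* `CrossDensityStatement` (Q-CROSS) field crossing with `ℚ(ζ_m)`, `m` prime, `m ≡ 1 mod (ord g) ^ r`;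
* `BridgeDensityStatement` (Q-BR)   from number fields to valuation subrings of `ℚ̄`;
* `ChebDensityStatement`  (END-Q)   the client statement.
-/

set_option autoImplicit false

open NumberField
open scoped Pointwise

namespace Fermat.Agent.Lib.Cheb.SpecQ

open Fermat.Agent.Lib.Cheb.Spec

/-- `X` has lower Dirichlet density at least `d` (finite-sum form). -/
def HasLowerDensity (X : Set ℕ) (d : ℝ) : Prop :=
  ∀ ε : ℝ, 0 < ε → ∃ δ : ℝ, 0 < δ ∧ ∀ s : ℝ, 1 < s → s < 1 + δ →
    ∃ T : Finset ℕ, (∀ p ∈ T, p ∈ X) ∧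
      (d - ε) * Real.log (1 / (s - 1)) ≤ ∑ p ∈ T, (p : ℝ) ^ (-s)

/-- `X` has upper Dirichlet density at most `d` (finite-sum form). -/
def HasUpperDensity (X : Set ℕ) (d : ℝ) : Prop :=
  ∀ ε : ℝ, 0 < ε → ∃ δ : ℝ, 0 < δ ∧ ∀ s : ℝ, 1 < s → s < 1 + δ →
    ∀ T : Finset ℕ, (∀ p ∈ T, p ∈ X) →
      ∑ p ∈ T, (p : ℝ) ^ (-s) ≤ (d + ε) * Real.log (1 / (s - 1))

/-- The rational primes `p` such that some prime `P ∣ p` of `𝓞 L` has trivial inertia and
arithmetic Frobenius `g` (i.e. the Frobenius class of `p` is the conjugacy class of `g`). -/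
def frobPrimes (L : Type) [Field L] [NumberField L] (g : L ≃ₐ[ℚ] L) : Set ℕ :=
  {p | p.Prime ∧ ∃ P : Ideal (𝓞 L), P.IsPrime ∧ (p : 𝓞 L) ∈ P ∧ InertiaTrivial L P ∧
    IsArithFrobAt ℤ g P}

/-- `|conjugacy class of g| / |Gal(L/ℚ)|`. -/
noncomputable def classDensity (L : Type) [Field L] [NumberField L] (g : L ≃ₐ[ℚ] L) : ℝ :=
  (Nat.card (conjugatesOf g) : ℝ) / (Nat.card (L ≃ₐ[ℚ] L) : ℝ)

/-- (Q-CYC) quantitative cyclotomic case, in the situation of `Spec.CycStatement`. -/
def CycDensityStatement : Prop :=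
  ∀ (L : Type) [Field L] [NumberField L] [IsGalois ℚ L] (m : ℕ) (ζ : L), 0 < m →
    IsPrimitiveRoot ζ m → ∀ g : L ≃ₐ[ℚ] L, (∀ k : ℕ, (g ^ k) ζ = ζ → g ^ k = 1) →
    HasLowerDensity (frobPrimes L g) (classDensity L g)

/-- Finite-level Chebotarev density theorem (lower bound; the upper bound follows). -/
def ChebDensityFiniteStatement : Prop :=
  ∀ (L : Type) [Field L] [NumberField L] [IsGalois ℚ L] (g : L ≃ₐ[ℚ] L),
    HasLowerDensity (frobPrimes L g) (classDensity L g)

/-- (Q-CROSS) quantitative field crossing. -/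
def CrossDensityStatement : Prop :=
  CycDensityStatement → ChebDensityFiniteStatement

/-- The primes `p ∉ S` at which `ρ` is unramified and some Frobenius element is mapped into `C`. -/
def frobPrimesHom {G : Type} [Group G] (ρ : GQ →* G) (C : Set G) (S : Finset ℕ) : Set ℕ :=
  {p | p.Prime ∧ p ∉ S ∧ ∃ (A : ValuationSubring Qb) (τ : GQ),
    A.LiesOverPrime p ∧ A.IsFrobeniusAt τ p ∧ (∀ ι ∈ A.inertiaSubgroupIn ℚ, ρ ι = 1) ∧ ρ τ ∈ C}

/-- (END-Q) Chebotarev density theorem, client form: for a homomorphism `ρ` on `Gal(ℚ̄/ℚ)` that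
factors through a finite extension `E`, and any subset `C` of the target, the primes `p ∉ S`
(unramified for `ρ`) with a Frobenius in `C` have lower Dirichlet density at least
`|C ∩ im ρ| / |im ρ|`. -/
def ChebDensityStatement : Prop :=
  ∀ (G : Type) [Group G] (ρ : GQ →* G) (E : IntermediateField ℚ Qb), FiniteDimensional ℚ E →
    (∀ σ : GQ, (∀ x ∈ E, σ x = x) → ρ σ = 1) → ∀ (C : Set G) (S : Finset ℕ),
    HasLowerDensity (frobPrimesHom ρ C S)
      ((Nat.card ↥(C ∩ Set.range ρ) : ℝ) / (Nat.card ↥(Set.range ρ) : ℝ))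

/-- (Q-BR) bridge. -/
def BridgeDensityStatement : Prop :=
  ChebDensityFiniteStatement → ChebDensityStatement

end Fermat.Agent.Lib.Cheb.SpecQ

end
-- ===== PACK-END Lib/Cheb/SpecQ.lean

-- ===== PACK-BEGIN S48/H308/RankinCheb.lean
section


/-!
# S48 (Deligne–Serre), piece RANKIN, part 1: the local inequality

For a sequence `b 0 = 1`, `b 1 = a`, `b (e+2) = a * b (e+1) - ε * b e` with `‖ε‖ = 1`
(the Hecke eigenvalues at the powers of a prime `p ∤ N`) and `0 ≤ X < 1`:

  `exp (‖a‖² X) * (1 - X²) ≤ ∑' e, ‖b e‖² X^e`.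

Proof: expand `a^m` in the "Chebyshev basis" `b_e` (`a b_e = b_{e+1} + ε b_{e-1}`), Cauchy–Schwarz
with `∑_e κ_{m,e}² ≤ m!`, and a Cauchy product with `1/(1 - X²)`.
No roots of the Hecke polynomial and no convergence discussion is needed.
-/

set_option autoImplicit false

namespace Fermat.Agent.S48.H308

open Finset

/-- Coefficient of `b_e` in `a^m`, where `a b_e = b_{e+1} + b_{e-1}` (`b_{-1} = 0`). -/
noncomputable def kap : ℕ → ℕ → ℝ
  | 0, e => if e = 0 then 1 else 0
  | m + 1, e => (if e = 0 then 0 else kap m (e - 1)) + kap m (e + 1)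

lemma kap_zero (e : ℕ) : kap 0 e = if e = 0 then 1 else 0 := by
  rw [kap]

lemma kap_succ (m e : ℕ) :
    kap (m + 1) e = (if e = 0 then 0 else kap m (e - 1)) + kap m (e + 1) := by
  rw [kap]

lemma kap_succ_zero (m : ℕ) : kap (m + 1) 0 = kap m 1 := by
  rw [kap_succ]; simp

lemma kap_succ_succ (m e : ℕ) : kap (m + 1) (e + 1) = kap m e + kap m (e + 2) := by
  rw [kap_succ]; simp

lemma kap_nonneg (m e : ℕ) : 0 ≤ kap m e := by
  induction m generalizing e with
  | zero => rw [kap_zero]; split_ifs <;> norm_num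
  | succ m ih =>
    rw [kap_succ]
    split_ifs
    · simpa using ih (e + 1)
    · exact add_nonneg (ih _) (ih _)

lemma kap_eq_zero_of_lt {m e : ℕ} (h : m < e) : kap m e = 0 := by
  induction m generalizing e with
  | zero => rw [kap_zero, if_neg (by omega)]
  | succ m ih =>
    rw [kap_succ, if_neg (by omega), ih (by omega), ih (by omega), add_zero]

lemma kap_eq_zero_of_odd {m e : ℕ} (h : ¬ Even (m + e)) : kap m e = 0 := by
  induction m generalizing e with
  | zero =>
    rw [kap_zero, if_neg]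
    rintro rfl
    exact h (by simp)
  | succ m ih =>
    rw [kap_succ]
    have h2 : kap m (e + 1) = 0 := ih (by
      intro hev; apply h
      have : m + 1 + e = m + (e + 1) := by ring
      rw [this]; exact hev)
    rw [h2, add_zero]
    split_ifs with he
    · rfl
    · apply ih
      intro hev; apply h
      obtain ⟨e', rfl⟩ : ∃ e', e = e' + 1 := ⟨e - 1, by omega⟩
      simp only [Nat.add_sub_cancel] at hev
      have : m + 1 + (e' + 1) = (m + e') + 2 := by ring
      rw [this]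
      exact hev.add (by decide)

/-- `S m = ∑_e κ_{m,e}²` (a Catalan number). -/
noncomputable def kapSq (m : ℕ) : ℝ := ∑ e ∈ range (m + 1), kap m e ^ 2

lemma kapSq_nonneg (m : ℕ) : 0 ≤ kapSq m := sum_nonneg fun _ _ => sq_nonneg _

lemma kapSq_eq_of_le {m K : ℕ} (h : m + 1 ≤ K) : kapSq m = ∑ e ∈ range K, kap m e ^ 2 := by
  unfold kapSq
  refine Finset.sum_subset (by intro x; simp only [mem_range]; omega) ?_
  intro x _ hx
  simp only [mem_range, not_lt] at hx
  rw [kap_eq_zero_of_lt (by omega)]; norm_num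

lemma kapSq_succ_le (m : ℕ) : kapSq (m + 1) ≤ 4 * kapSq m := by
  have h1 : kapSq (m + 1) = ∑ e ∈ range (m + 2), kap (m + 1) e ^ 2 := rfl
  have hA : ∑ e ∈ range (m + 2), (if e = 0 then 0 else kap m (e - 1)) ^ 2 = kapSq m := by
    rw [Finset.sum_range_succ']
    simp only [if_true, Nat.add_sub_cancel, Nat.succ_ne_zero, if_false,
      ne_eq, not_false_eq_true, zero_pow, add_zero, OfNat.ofNat_ne_zero]
    rfl
  have hB : ∑ e ∈ range (m + 2), kap m (e + 1) ^ 2 ≤ kapSq m := by
    have : kapSq m = ∑ e ∈ range (m + 3), kap m e ^ 2 := kapSq_eq_of_le (by omega)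
    rw [this, Finset.sum_range_succ' _ (m + 2)]
    have := sq_nonneg (kap m 0)
    linarith
  rw [h1]
  calc ∑ e ∈ range (m + 2), kap (m + 1) e ^ 2
      ≤ ∑ e ∈ range (m + 2), (2 * (if e = 0 then 0 else kap m (e - 1)) ^ 2
          + 2 * kap m (e + 1) ^ 2) := by
        apply Finset.sum_le_sum
        intro e _
        rw [kap_succ]
        nlinarith [sq_nonneg ((if e = 0 then 0 else kap m (e - 1)) - kap m (e + 1))]
    _ = 2 * ∑ e ∈ range (m + 2), (if e = 0 then 0 else kap m (e - 1)) ^ 2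
          + 2 * ∑ e ∈ range (m + 2), kap m (e + 1) ^ 2 := by
        rw [Finset.sum_add_distrib, Finset.mul_sum, Finset.mul_sum]
    _ ≤ 4 * kapSq m := by rw [hA]; linarith

lemma kapSq_le_factorial (m : ℕ) : kapSq m ≤ (m.factorial : ℝ) := by
  have h0 : kapSq 0 = 1 := by simp [kapSq, kap_zero]
  have h1 : kapSq 1 = 1 := by
    simp [kapSq, Finset.sum_range_succ, kap_succ, kap_zero]
  have h2 : kapSq 2 = 2 := by
    simp [kapSq, Finset.sum_range_succ, kap_succ, kap_zero]
    norm_num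
  have h3 : kapSq 3 = 5 := by
    simp [kapSq, Finset.sum_range_succ, kap_succ, kap_zero]
    norm_num
  induction m with
  | zero => rw [h0]; simp
  | succ m ih =>
    rcases Nat.lt_or_ge m 3 with hm | hm
    · interval_cases m
      · rw [h1]; simp
      · rw [h2]; simp [Nat.factorial]
      · rw [h3]; simp [Nat.factorial]; norm_num
    · calc kapSq (m + 1) ≤ 4 * kapSq m := kapSq_succ_le m
        _ ≤ (m + 1 : ℝ) * kapSq m := by
          apply mul_le_mul_of_nonneg_right _ (kapSq_nonneg m)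
          have : (3 : ℝ) ≤ m := by exact_mod_cast hm
          linarith
        _ ≤ (m + 1 : ℝ) * (m.factorial : ℝ) := by
          apply mul_le_mul_of_nonneg_left ih; positivity
        _ = ((m + 1).factorial : ℝ) := by
          rw [Nat.factorial_succ]; push_cast; ring

/-- Expansion of `a^m` in the basis `b_e`, for `ε = 1`. -/
lemma pow_eq_sum_kap {a : ℂ} {b : ℕ → ℂ} (hb0 : b 0 = 1) (hb1 : b 1 = a)
    (hrec : ∀ e, b (e + 2) = a * b (e + 1) - b e) (m : ℕ) :
    a ^ m = ∑ e ∈ range (m + 1), (kap m e : ℂ) * b e := by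
  induction m with
  | zero => simp [kap_zero, hb0]
  | succ m ih =>
    have hab : ∀ e, a * b (e + 1) = b (e + 2) + b e := fun e => by rw [hrec e]; ring
    -- left side
    have hL : a ^ (m + 1) = (kap m 0 : ℂ) * b 1
        + ∑ e ∈ range m, (kap m (e + 1) : ℂ) * (b (e + 2) + b e) := by
      rw [pow_succ, ih, Finset.sum_mul, Finset.sum_range_succ']
      rw [add_comm]
      congr 1
      · rw [hb0, hb1]; ring
      · apply Finset.sum_congr rfl
        intro e _
        rw [← hab e]; ring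
    -- right side
    have hR : ∑ e ∈ range (m + 1 + 1), (kap (m + 1) e : ℂ) * b e
        = (∑ e ∈ range (m + 1), (kap m e : ℂ) * b (e + 1))
          + ∑ e ∈ range m, (kap m (e + 1) : ℂ) * b e := by
      have hsplit : ∀ e, (kap (m + 1) e : ℂ) * b e
          = ((if e = 0 then 0 else kap m (e - 1) : ℝ) : ℂ) * b e + (kap m (e + 1) : ℂ) * b e := by
        intro e
        rw [kap_succ]; push_cast; ring
      rw [Finset.sum_congr rfl (fun e _ => hsplit e), Finset.sum_add_distrib]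
      congr 1
      · rw [Finset.sum_range_succ']
        simp
      · rw [Finset.sum_range_succ, Finset.sum_range_succ]
        rw [kap_eq_zero_of_lt (show m < m + 1 by omega),
          kap_eq_zero_of_lt (show m < m + 1 + 1 by omega)]
        simp
    rw [hL, hR, Finset.sum_range_succ' (fun e => (kap m e : ℂ) * b (e + 1))]
    simp only [mul_add, Finset.sum_add_distrib]
    ring

end Fermat.Agent.S48.H308

end
-- ===== PACK-END S48/H308/RankinCheb.lean

-- ===== PACK-BEGIN S48/H308/RankinLocal.lean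
section


/-!
# S48 (Deligne–Serre), piece RANKIN, part 2: the local inequality

`local_ineq`: for `b 0 = 1`, `b 1 = a`, `b (e+2) = a * b (e+1) - ε * b e`, `‖ε‖ = 1`, `0 ≤ X < 1`
and `∑ ‖b e‖² X^e` summable:  `exp (‖a‖² X) * (1 - X²) ≤ ∑' e, ‖b e‖² X^e`.
-/

set_option autoImplicit false

namespace Fermat.Agent.S48.H308

open Finset

/-- `d_m = ∑_{e ≤ m, e ≡ m mod 2} ‖b_e‖²`, written over the antidiagonal. -/
noncomputable def dseq (b : ℕ → ℂ) (m : ℕ) : ℝ :=
  ∑ kl ∈ antidiagonal m, ‖b kl.1‖ ^ 2 * (if Even kl.2 then 1 else 0)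

lemma dseq_eq_range (b : ℕ → ℂ) (m : ℕ) :
    dseq b m = ∑ e ∈ range (m + 1), (if Even (m + e) then ‖b e‖ else 0) ^ 2 := by
  unfold dseq
  rw [Finset.Nat.sum_antidiagonal_eq_sum_range_succ_mk]
  apply Finset.sum_congr rfl
  intro e he
  simp only [mem_range] at he
  have hiff : Even (m - e) ↔ Even (m + e) := by
    have h1 : m + e = (m - e) + 2 * e := by omega
    rw [h1, Nat.even_add]
    simp
  by_cases h : Even (m + e)
  · rw [if_pos h, if_pos (hiff.mpr h)]; ring
  · rw [if_neg h, if_neg (fun h' => h (hiff.mp h'))]; ring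

/-- Cauchy–Schwarz step, case `ε = 1`. -/
lemma norm_pow_le_one {a : ℂ} {b : ℕ → ℂ} (hb0 : b 0 = 1) (hb1 : b 1 = a)
    (hrec : ∀ e, b (e + 2) = a * b (e + 1) - b e) (m : ℕ) :
    ‖a‖ ^ (2 * m) ≤ (m.factorial : ℝ) * dseq b m := by
  have hexp := pow_eq_sum_kap hb0 hb1 hrec m
  have h1 : ‖a‖ ^ m ≤ ∑ e ∈ range (m + 1), kap m e * (if Even (m + e) then ‖b e‖ else 0) := by
    rw [← norm_pow, hexp]
    refine (norm_sum_le _ _).trans (le_of_eq ?_)
    apply Finset.sum_congr rfl
    intro e _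
    rw [norm_mul, Complex.norm_real, Real.norm_of_nonneg (kap_nonneg m e)]
    by_cases h : Even (m + e)
    · rw [if_pos h]
    · rw [if_neg h, kap_eq_zero_of_odd h]; ring
  have h0 : (0 : ℝ) ≤ ‖a‖ ^ m := by positivity
  calc ‖a‖ ^ (2 * m) = (‖a‖ ^ m) ^ 2 := by rw [← pow_mul, mul_comm]
    _ ≤ (∑ e ∈ range (m + 1), kap m e * (if Even (m + e) then ‖b e‖ else 0)) ^ 2 :=
        pow_le_pow_left₀ h0 h1 2
    _ ≤ (∑ e ∈ range (m + 1), kap m e ^ 2)
          * ∑ e ∈ range (m + 1), (if Even (m + e) then ‖b e‖ else 0) ^ 2 :=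
        Finset.sum_mul_sq_le_sq_mul_sq _ _ _
    _ = kapSq m * dseq b m := by rw [dseq_eq_range]; rfl
    _ ≤ (m.factorial : ℝ) * dseq b m := by
        apply mul_le_mul_of_nonneg_right (kapSq_le_factorial m)
        unfold dseq
        apply Finset.sum_nonneg
        intro kl _
        split_ifs <;> positivity

/-- Cauchy–Schwarz step, general `ε` of norm one. -/
lemma norm_pow_le {a ε : ℂ} (hε : ‖ε‖ = 1) {b : ℕ → ℂ} (hb0 : b 0 = 1) (hb1 : b 1 = a)
    (hrec : ∀ e, b (e + 2) = a * b (e + 1) - ε * b e) (m : ℕ) :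
    ‖a‖ ^ (2 * m) ≤ (m.factorial : ℝ) * dseq b m := by
  obtain ⟨η, hη⟩ : ∃ η : ℂ, η ^ 2 = ε := IsAlgClosed.exists_pow_nat_eq ε (by norm_num)
  have hηn : ‖η‖ = 1 := by
    have h1 : ‖η‖ ^ 2 = 1 := by rw [← norm_pow, hη, hε]
    have h2 : (0 : ℝ) ≤ ‖η‖ := norm_nonneg _
    nlinarith [sq_nonneg (‖η‖ - 1), sq_nonneg (‖η‖ + 1)]
  have hη0 : η ≠ 0 := by
    intro h; rw [h, norm_zero] at hηn; exact zero_ne_one hηn
  set b' : ℕ → ℂ := fun e => b e * (η⁻¹) ^ e with hb'
  have hnb : ∀ e, ‖b' e‖ = ‖b e‖ := by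
    intro e
    simp only [hb', norm_mul, norm_pow, norm_inv, hηn, inv_one, one_pow, mul_one]
  have hrec' : ∀ e, b' (e + 2) = (a * η⁻¹) * b' (e + 1) - b' e := by
    intro e
    have hmi : η * η⁻¹ = 1 := mul_inv_cancel₀ hη0
    simp only [hb']
    rw [hrec e, ← hη]
    linear_combination (-(b e) * (η⁻¹) ^ e * (η * η⁻¹ + 1)) * hmi
  have h := norm_pow_le_one (a := a * η⁻¹) (b := b') (by simp [hb', hb0]) (by simp [hb', hb1])
    hrec' m
  have hna : ‖a * η⁻¹‖ = ‖a‖ := by rw [norm_mul, norm_inv, hηn, inv_one, mul_one]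
  have hd : dseq b' m = dseq b m := by
    unfold dseq
    apply Finset.sum_congr rfl
    intro kl _
    rw [hnb]
  rwa [hna, hd] at h

/-- The even-indexed geometric series. -/
lemma hasSum_even_geom {X : ℝ} (hX0 : 0 ≤ X) (hX1 : X < 1) :
    HasSum (fun i : ℕ => (if Even i then (1 : ℝ) else 0) * X ^ i) (1 - X ^ 2)⁻¹ := by
  have hX2 : X ^ 2 < 1 := by nlinarith
  have hgeo : HasSum (fun j : ℕ => (X ^ 2) ^ j) (1 - X ^ 2)⁻¹ :=
    hasSum_geometric_of_lt_one (by positivity) hX2
  have hinj : Function.Injective (fun j : ℕ => 2 * j) := fun x y h => by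
    simpa using h
  have hsupp : ∀ i, i ∉ Set.range (fun j : ℕ => 2 * j) →
      (if Even i then (1 : ℝ) else 0) * X ^ i = 0 := by
    intro i hi
    rw [if_neg, zero_mul]
    intro hev
    apply hi
    obtain ⟨j, hj⟩ := hev
    exact ⟨j, by simp only; omega⟩
  rw [← hinj.hasSum_iff hsupp]
  convert hgeo using 1
  funext j
  simp [pow_mul]

/-- **Local inequality.** -/
theorem local_ineq {a ε : ℂ} (hε : ‖ε‖ = 1) {b : ℕ → ℂ} (hb0 : b 0 = 1) (hb1 : b 1 = a)
    (hrec : ∀ e, b (e + 2) = a * b (e + 1) - ε * b e) {X : ℝ} (hX0 : 0 ≤ X) (hX1 : X < 1)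
    (hsum : Summable fun e => ‖b e‖ ^ 2 * X ^ e) :
    Real.exp (‖a‖ ^ 2 * X) * (1 - X ^ 2) ≤ ∑' e, ‖b e‖ ^ 2 * X ^ e := by
  have hX2 : X ^ 2 < 1 := by nlinarith
  have h1X : 0 < 1 - X ^ 2 := by linarith
  set u : ℕ → ℝ := fun e => ‖b e‖ ^ 2 * X ^ e with hu
  set v : ℕ → ℝ := fun i => (if Even i then (1 : ℝ) else 0) * X ^ i with hv
  have hu0 : ∀ e, 0 ≤ u e := fun e => by simp only [hu]; positivity
  have hv0 : ∀ i, 0 ≤ v i := fun i => by
    simp only [hv]; split_ifs <;> positivity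
  have hvs : HasSum v (1 - X ^ 2)⁻¹ := hasSum_even_geom hX0 hX1
  have hun : Summable fun e => ‖u e‖ := by
    simpa [Real.norm_of_nonneg (hu0 _)] using hsum
  have hvn : Summable fun i => ‖v i‖ := by
    simpa [Real.norm_of_nonneg (hv0 _)] using hvs.summable
  have hprod := tsum_mul_tsum_eq_tsum_sum_antidiagonal_of_summable_norm hun hvn
  have hsummable : Summable fun n => ∑ kl ∈ antidiagonal n, u kl.1 * v kl.2 :=
    summable_sum_mul_antidiagonal_of_summable_norm' hun hsum hvn hvs.summable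
  have hterm : ∀ n, ∑ kl ∈ antidiagonal n, u kl.1 * v kl.2 = dseq b n * X ^ n := by
    intro n
    unfold dseq
    rw [Finset.sum_mul]
    apply Finset.sum_congr rfl
    intro kl hkl
    have hkl' : kl.1 + kl.2 = n := Finset.HasAntidiagonal.mem_antidiagonal.mp hkl
    simp only [hu, hv]
    rw [← hkl', pow_add]
    ring
  have hexp : HasSum (fun n : ℕ => (‖a‖ ^ 2 * X) ^ n / (n.factorial : ℝ))
      (Real.exp (‖a‖ ^ 2 * X)) := by
    rw [Real.exp_eq_exp_ℝ]
    exact NormedSpace.expSeries_div_hasSum_exp (‖a‖ ^ 2 * X)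
  have hle : ∀ n : ℕ, (‖a‖ ^ 2 * X) ^ n / (n.factorial : ℝ)
      ≤ ∑ kl ∈ antidiagonal n, u kl.1 * v kl.2 := by
    intro n
    rw [hterm, mul_pow, ← pow_mul]
    have hf : (0 : ℝ) < n.factorial := by exact_mod_cast Nat.factorial_pos n
    rw [div_le_iff₀ hf]
    have := norm_pow_le hε hb0 hb1 hrec n
    have hXn : 0 ≤ X ^ n := by positivity
    nlinarith [mul_le_mul_of_nonneg_right this hXn]
  have hfinal : Real.exp (‖a‖ ^ 2 * X) ≤ (∑' e, u e) * (1 - X ^ 2)⁻¹ := by
    rw [← hvs.tsum_eq, hprod]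
    exact hasSum_le hle hexp hsummable.hasSum
  calc Real.exp (‖a‖ ^ 2 * X) * (1 - X ^ 2)
      ≤ ((∑' e, u e) * (1 - X ^ 2)⁻¹) * (1 - X ^ 2) :=
        mul_le_mul_of_nonneg_right hfinal h1X.le
    _ = ∑' e, u e := by field_simp

end Fermat.Agent.S48.H308

end
-- ===== PACK-END S48/H308/RankinLocal.lean

-- ===== PACK-BEGIN Lib/ChebQ/Spec.lean
section




/-!
# Shared library CHEB-Q — quantitative Chebotarev (lower Dirichlet density), frozen statements

Client: row S48 (Deligne–Serre, Lemma 8.4): a set of primes of small upper Dirichlet density cannot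
contain all primes whose Frobenius lies in a large conjugation-stable subset of a finite Galois
group.  Lib/Cheb Tier 1/2 (`Fermat.Agent.Lib.Cheb.Spec`) are qualitative; this file states the
density versions, in the "finite set" form (no summability side conditions):

* `HasLowerDensity X d` : `∃ K, ∀ s ∈ (1,2], ∃ T ⊆ X finite, d·log(1/(s-1)) - K ≤ ∑_{p∈T} p^{-s}`;
* `HasUpperDensity X d` : `∃ K, ∀ s ∈ (1,2], ∀ T ⊆ X finite, ∑_{p∈T} p^{-s} ≤ d·log(1/(s-1)) + K`.

Definitions and `Prop`s only.  Owner: helper968.  Plan: `coord/S48-CHEBQ.md` on `origin/helper968`.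
-/

set_option autoImplicit false

open NumberField

namespace Fermat.Agent.Lib.ChebQ.Spec

open Fermat.Agent.Lib.Cheb

/-- `X` has lower Dirichlet density at least `d` (finite-set form, `O(1)` error). -/
def HasLowerDensity (X : Set ℕ) (d : ℝ) : Prop :=
  ∃ K : ℝ, ∀ s : ℝ, 1 < s → s ≤ 2 → ∃ T : Finset ℕ, (↑T ⊆ X) ∧
    d * Real.log (1 / (s - 1)) - K ≤ ∑ p ∈ T, (p : ℝ) ^ (-s)

/-- `X` has upper Dirichlet density at most `d` (finite-set form, `O(1)` error). -/
def HasUpperDensity (X : Set ℕ) (d : ℝ) : Prop :=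
  ∃ K : ℝ, ∀ s : ℝ, 1 < s → s ≤ 2 → ∀ T : Finset ℕ, (↑T ⊆ X) →
    ∑ p ∈ T, (p : ℝ) ^ (-s) ≤ d * Real.log (1 / (s - 1)) + K

/-- The rational primes `p` at which `σ` is an arithmetic Frobenius, at some prime of `𝓞 L` above
`p` with trivial inertia group.  (Invariant under conjugation of `σ`.) -/
def frobPrimes (L : Type) [Field L] [NumberField L] (σ : L ≃ₐ[ℚ] L) : Set ℕ :=
  {p | p.Prime ∧ ∃ P : Ideal (𝓞 L), P.IsPrime ∧ (p : 𝓞 L) ∈ P ∧ Spec.InertiaTrivial L P ∧
    IsArithFrobAt ℤ σ P}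

/-- (ABS-Q) quantitative abstract Dirichlet lemma: same hypotheses as helper221's
`AbstractDirichletStatement` (CYC skeleton of Lib/Cheb), quantitative conclusion. -/
def AbstractDirichletQStatement : Prop :=
  ∀ (m : ℕ) [NeZero m] (c : Nat.Primes → ℝ), (∀ p, 0 ≤ c p) →
    (∀ s : ℝ, 1 < s → s ≤ 2 → Summable (fun p : Nat.Primes => c p * (p : ℝ) ^ (-s))) →
    ∀ A : Subgroup (ZMod m)ˣ,
    (∃ B : Finset ℕ, ∀ p : Nat.Primes, (p : ℕ) ∉ B → c p ≠ 0 →
      ∃ u ∈ A, ((u : (ZMod m)ˣ) : ZMod m) = ((p : ℕ) : ZMod m)) →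
    (∃ C : ℝ, ∀ s : ℝ, 1 < s → s ≤ 2 →
      |(∑' p : Nat.Primes, c p * (p : ℝ) ^ (-s)) - Real.log (1 / (s - 1))| ≤ C) →
    (∃ C : ℝ, ∀ s : ℝ, 1 < s → s ≤ 2 →
      (Nat.card A : ℝ)⁻¹ * Real.log (1 / (s - 1)) - C ≤
        ∑' p : Nat.Primes, if ((p : ℕ) : ZMod m) = 1 then c p * (p : ℝ) ^ (-s) else 0) →
    (∀ χ : DirichletCharacter ℂ m, (∃ u ∈ A, χ ((u : (ZMod m)ˣ) : ZMod m) ≠ 1) →
      ∃ (Λ : ℝ → ℂ) (ℓ : ℂ) (C : ℝ), ContinuousOn Λ (Set.Ioi 1) ∧
        Filter.Tendsto (fun s => Complex.exp (Λ s)) (nhdsWithin 1 (Set.Ioi 1)) (nhds ℓ) ∧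
        ∀ s : ℝ, 1 < s → s ≤ 2 →
          ‖Λ s - ∑' p : Nat.Primes, χ ((p : ℕ) : ZMod m) * ((c p * (p : ℝ) ^ (-s) : ℝ) : ℂ)‖ ≤ C) →
    ∀ a ∈ A, ∃ K : ℝ, ∀ s : ℝ, 1 < s → s ≤ 2 →
      |(∑' p : Nat.Primes,
          if ((p : ℕ) : ZMod m) = ((a : (ZMod m)ˣ) : ZMod m) then c p * (p : ℝ) ^ (-s) else 0) -
        (Nat.card A : ℝ)⁻¹ * Real.log (1 / (s - 1))| ≤ K

/-- (CYC-Q) quantitative cyclotomic case, in the setting of `Cheb.Spec.CycStatement`: if `⟨g⟩`
acts faithfully on `ζ_m`, the primes with Frobenius `g` have lower density `≥ 1/|C_G(g)|`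
(`= |conjugacy class of g| / |G|`). -/
def CycDensityStatement : Prop :=
  ∀ (L : Type) [Field L] [NumberField L] [IsGalois ℚ L] (m : ℕ) (ζ : L), 0 < m →
    IsPrimitiveRoot ζ m → ∀ g : L ≃ₐ[ℚ] L, (∀ k : ℕ, (g ^ k) ζ = ζ → g ^ k = 1) →
    HasLowerDensity (frobPrimes L g)
      (Nat.card (Subgroup.centralizer ({g} : Set (L ≃ₐ[ℚ] L))) : ℝ)⁻¹

/-- (CHEB-Q, finite level) **Chebotarev density theorem, lower bound**: for every `δ > 0` the
primes with Frobenius (conjugate to) `σ` have lower Dirichlet density `≥ 1/|C_G(σ)| - δ`. -/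
def ChebDensityStatement : Prop :=
  ∀ (L : Type) [Field L] [NumberField L] [IsGalois ℚ L] (σ : L ≃ₐ[ℚ] L) (δ : ℝ), 0 < δ →
    HasLowerDensity (frobPrimes L σ)
      ((Nat.card (Subgroup.centralizer ({σ} : Set (L ≃ₐ[ℚ] L))) : ℝ)⁻¹ - δ)

/-- (CROSS-Q) quantitative field crossing. -/
def CrossDensityStatement : Prop :=
  Spec.FrobStatement → CycDensityStatement → ChebDensityStatement

/-- (CLIENT) Prelude-level client form (Deligne–Serre Lemma 8.4): `ρ` a homomorphism of `G_ℚ` to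
a finite group factoring through a finite level, `C` a conjugation-stable subset; if a set `X` of
upper density `≤ η` contains every prime `p` having a Frobenius element `φ` (in the Prelude's
sense) with `ρ φ ∈ C`, then `|C ∩ im ρ| ≤ η · |im ρ|`. -/
def ChebDensityClientStatement : Prop :=
  ∀ (G : Type) [Group G] [Finite G] (ρ : Spec.GQ →* G), GaloisFactorsThroughFiniteLevel ρ →
    ∀ C : Set G, (∀ g h : G, g ∈ C → h * g * h⁻¹ ∈ C) →
    ∀ (X : Set ℕ) (η : ℝ), HasUpperDensity X η →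
      (∀ (p : ℕ) (A : ValuationSubring Spec.Qb) (φ : Spec.GQ), p.Prime → A.LiesOverPrime p →
        A.IsFrobeniusAt φ p → ρ φ ∈ C → p ∈ X) →
      (Nat.card ↥(C ∩ Set.range ρ) : ℝ) ≤ η * (Nat.card ↥(Set.range ρ) : ℝ)

/-- (BRIDGE-Q) finite level ⇒ client form. -/
def ClientBridgeStatement : Prop :=
  ChebDensityStatement → ChebDensityClientStatement

end Fermat.Agent.Lib.ChebQ.Spec

end
-- ===== PACK-END Lib/ChebQ/Spec.lean

-- ===== PACK-BEGIN Lib/Cheb/H221/CycSpec.lean
section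



/-!
# CYC (helper221): internal interface statements for
`PrimeSum + Count + Frob + FrobFinite + DirichletLimit ⇒ CycStatement`

Definitions and `Prop`s only.
-/

set_option autoImplicit false

open NumberField IsDedekindDomain Filter Topology
open Fermat.Agent.Lib.Cheb

namespace Fermat.Agent.Lib.Cheb.H221

/-- (EP) twisted Euler product -/
def EulerProductStatement : Prop :=
  ∀ (F : Type) [Field F] [NumberField F] (m : ℕ) [NeZero m] (χ : DirichletCharacter ℂ m)
    (s : ℝ), 1 < s →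
    HasProd (fun 𝔭 : HeightOneSpectrum (𝓞 F) =>
      (1 - χ (Ideal.absNorm 𝔭.asIdeal : ZMod m) *
        (((Ideal.absNorm 𝔭.asIdeal : ℝ) ^ (-s) : ℝ) : ℂ))⁻¹)
      (LSeries (fun n => χ (n : ZMod m) * (Spec.idealCount F n : ℂ)) (s : ℂ))

/-- (DEG) twisted prime-ideal sums versus twisted sums over rational primes -/
def TwistedPrimeSumStatement : Prop :=
  Spec.PrimeSumStatement →
  ∀ (F : Type) [Field F] [NumberField F] (m : ℕ) [NeZero m] (χ : DirichletCharacter ℂ m),
    ∃ C : ℝ, ∀ s : ℝ, 1 < s → s ≤ 2 →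
      Summable (fun p : Nat.Primes => (Spec.primeCount F p : ℝ) * (p : ℝ) ^ (-s)) ∧
      ‖(∑' 𝔭 : HeightOneSpectrum (𝓞 F), χ (Ideal.absNorm 𝔭.asIdeal : ZMod m) *
          (((Ideal.absNorm 𝔭.asIdeal : ℝ) ^ (-s) : ℝ) : ℂ)) -
        ∑' p : Nat.Primes, χ ((p : ℕ) : ZMod m) *
          (((Spec.primeCount F p : ℝ) * (p : ℝ) ^ (-s) : ℝ) : ℂ)‖ ≤ C

/-- (ABS) abstract Dirichlet lemma -/
def AbstractDirichletStatement : Prop :=
  ∀ (m : ℕ) [NeZero m] (c : Nat.Primes → ℝ), (∀ p, 0 ≤ c p) →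
    (∀ s : ℝ, 1 < s → s ≤ 2 → Summable (fun p : Nat.Primes => c p * (p : ℝ) ^ (-s))) →
    ∀ A : Subgroup (ZMod m)ˣ,
    (∃ B : Finset ℕ, ∀ p : Nat.Primes, (p : ℕ) ∉ B → c p ≠ 0 →
      ∃ u ∈ A, ((u : (ZMod m)ˣ) : ZMod m) = ((p : ℕ) : ZMod m)) →
    (∃ C : ℝ, ∀ s : ℝ, 1 < s → s ≤ 2 →
      |(∑' p : Nat.Primes, c p * (p : ℝ) ^ (-s)) - Real.log (1 / (s - 1))| ≤ C) →
    (∃ C : ℝ, ∀ s : ℝ, 1 < s → s ≤ 2 →
      (Nat.card A : ℝ)⁻¹ * Real.log (1 / (s - 1)) - C ≤
        ∑' p : Nat.Primes, if ((p : ℕ) : ZMod m) = 1 then c p * (p : ℝ) ^ (-s) else 0) →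
    (∀ χ : DirichletCharacter ℂ m, (∃ u ∈ A, χ ((u : (ZMod m)ˣ) : ZMod m) ≠ 1) →
      ∃ (Λ : ℝ → ℂ) (ℓ : ℂ) (C : ℝ), ContinuousOn Λ (Set.Ioi 1) ∧
        Tendsto (fun s => Complex.exp (Λ s)) (𝓝[>] 1) (𝓝 ℓ) ∧
        ∀ s : ℝ, 1 < s → s ≤ 2 →
          ‖Λ s - ∑' p : Nat.Primes, χ ((p : ℕ) : ZMod m) * ((c p * (p : ℝ) ^ (-s) : ℝ) : ℂ)‖ ≤ C) →
    ∀ a ∈ A, ∀ S : Finset ℕ, ∃ p : Nat.Primes, (p : ℕ) ∉ S ∧
      ((p : ℕ) : ZMod m) = ((a : (ZMod m)ˣ) : ZMod m) ∧ c p ≠ 0

section alg

variable (L : Type) [Field L] [NumberField L] [IsGalois ℚ L]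

/-- the fixed field of `⟨g⟩` -/
abbrev fixM (g : L ≃ₐ[ℚ] L) : IntermediateField ℚ L :=
  IntermediateField.fixedField (Subgroup.zpowers g)

/-- the fixed field of the trivial group (a copy of `L`) -/
abbrev fixBot : IntermediateField ℚ L :=
  IntermediateField.fixedField (⊥ : Subgroup (L ≃ₐ[ℚ] L))

/-- (ALG) the algebraic input of CYC, in the situation of `Spec.CycStatement` -/
def CycAlgStatement : Prop :=
  Spec.CountStatement → Spec.FrobStatement → Spec.FrobFiniteStatement →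
  ∀ (L : Type) [Field L] [NumberField L] [IsGalois ℚ L] (m : ℕ) [NeZero m] (ζ : L)
    (hζ : IsPrimitiveRoot ζ m) (g : L ≃ₐ[ℚ] L), (∀ k : ℕ, (g ^ k) ζ = ζ → g ^ k = 1) →
    Nat.card (Subgroup.zpowers (hζ.autToPow ℚ g)) = orderOf g ∧
    ∃ B : Finset ℕ,
      -- (SUPP)
      (∀ p : ℕ, p.Prime → p ∉ B → Spec.primeCount (fixM L g) p ≠ 0 →
        ∃ u ∈ Subgroup.zpowers (hζ.autToPow ℚ g), ((u : (ZMod m)ˣ) : ZMod m) = (p : ZMod m)) ∧
      -- (SPLIT)
      (∀ p : ℕ, p.Prime → p ∉ B →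
        Spec.primeCount (fixBot L) p =
          if (p : ZMod m) = 1 then orderOf g * Spec.primeCount (fixM L g) p else 0) ∧
      -- (NT)
      (∀ χ : DirichletCharacter ℂ m, χ ((hζ.autToPow ℚ g : (ZMod m)ˣ) : ZMod m) ≠ 1 →
        ∃ I : Ideal (𝓞 (fixM L g)), χ (Ideal.absNorm I : ZMod m) ≠ 0 ∧
          χ (Ideal.absNorm I : ZMod m) ≠ 1) ∧
      -- (FIN)
      (∀ p : ℕ, p.Prime → p ∉ B → Spec.primeCount (fixM L g) p ≠ 0 →
        (p : ZMod m) = ((hζ.autToPow ℚ g : (ZMod m)ˣ) : ZMod m) →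
        ∃ P : Ideal (𝓞 L), P.IsPrime ∧ (p : 𝓞 L) ∈ P ∧ Spec.InertiaTrivial L P ∧
          IsArithFrobAt ℤ g P)

end alg

end Fermat.Agent.Lib.Cheb.H221

end
-- ===== PACK-END Lib/Cheb/H221/CycSpec.lean

-- ===== PACK-BEGIN Lib/Cheb/H943/Frob.lean
section


/-!
# CHEB piece D: `Spec.FrobStatement` (helper943)

Outside the finite set of prime divisors of the absolute norm of the different ideal of a Galois
number field `L/ℚ`, every prime `P` of `𝓞 L` has trivial inertia group, an arithmetic Frobenius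
`τ`, and decomposition group `zpowers τ`.

Ingredients (all Mathlib): `not_dvd_differentIdeal_iff` (unramified ⇔ not dividing the
different), `AlgHom.IsArithFrobAt.eq_of_isUnramifiedAt` (uniqueness of Frobenius),
`IsArithFrobAt.exists_of_isInvariant` (existence), `Ideal.Quotient.stabilizerHom` and
`FiniteField.bijective_frobeniusAlgEquivOfAlgebraic_pow` (Galois groups of finite fields are
generated by Frobenius).
-/

set_option autoImplicit false
set_option linter.unusedSectionVars false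
set_option linter.style.haveILetI false

open NumberField
open scoped Pointwise

namespace Fermat.Agent.Lib.Cheb.H943

section Bad

attribute [local instance] FractionRing.liftAlgebra

variable (L : Type) [Field L] [NumberField L]

/-- The bad number: the absolute norm of the different ideal (`= |discr L|`). -/
noncomputable def badNat : ℕ := Ideal.absNorm (differentIdeal ℤ (𝓞 L))

lemma badNat_ne_zero : badNat L ≠ 0 := by
  unfold badNat
  rw [Ne, Ideal.absNorm_eq_zero_iff]
  exact differentIdeal_ne_bot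

variable {L}

/-- A rational prime contained in a prime ideal divides its absolute norm. -/
lemma prime_dvd_absNorm {p : ℕ} (hp : p.Prime) {P : Ideal (𝓞 L)} (hP : P.IsPrime)
    (hpP : (p : 𝓞 L) ∈ P) : p ∣ Ideal.absNorm P := by
  by_contra h
  have hcop : Nat.Coprime p (Ideal.absNorm P) := (Nat.Prime.coprime_iff_not_dvd hp).mpr h
  have h1 : ((Nat.gcd p (Ideal.absNorm P) : ℤ) : 𝓞 L) ∈ P := by
    rw [Nat.gcd_eq_gcd_ab]
    push_cast
    exact P.add_mem (P.mul_mem_right _ hpP) (P.mul_mem_right _ (Ideal.absNorm_mem P))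
  rw [hcop] at h1
  simp only [Nat.cast_one, Int.cast_one] at h1
  exact hP.ne_top ((Ideal.eq_top_iff_one P).mpr h1)

/-- Primes not dividing `badNat L` are unramified in `L`. -/
lemma isUnramifiedAt_of_not_dvd_badNat {p : ℕ} (hp : p.Prime) (hpB : ¬ p ∣ badNat L)
    {P : Ideal (𝓞 L)} [hP : P.IsPrime] (hpP : (p : 𝓞 L) ∈ P) :
    Algebra.IsUnramifiedAt ℤ P := by
  rw [← not_dvd_differentIdeal_iff]
  intro hdvd
  apply hpB
  exact (prime_dvd_absNorm hp hP hpP).trans
    (Ideal.absNorm_dvd_absNorm_of_le (Ideal.le_of_dvd hdvd))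

end Bad

variable {L : Type} [Field L] [NumberField L] [IsGalois ℚ L]

lemma faithful_gal : FaithfulSMul (L ≃ₐ[ℚ] L) (𝓞 L) :=
  IsGaloisGroup.faithful ℤ

lemma prime_ne_bot {p : ℕ} (hp : p.Prime) {P : Ideal (𝓞 L)} (hpP : (p : 𝓞 L) ∈ P) : P ≠ ⊥ := by
  rintro rfl
  rw [Ideal.mem_bot] at hpP
  exact hp.ne_zero (by exact_mod_cast hpP)

lemma finite_quot {p : ℕ} (hp : p.Prime) {P : Ideal (𝓞 L)} (hpP : (p : 𝓞 L) ∈ P) :
    Finite (𝓞 L ⧸ P) :=
  Ideal.finiteQuotientOfFreeOfNeBot P (prime_ne_bot hp hpP)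

/-- Existence of an arithmetic Frobenius at every prime above `p`. -/
lemma exists_isArithFrobAt {p : ℕ} (hp : p.Prime) {P : Ideal (𝓞 L)} [hP : P.IsPrime]
    (hpP : (p : 𝓞 L) ∈ P) : ∃ τ : L ≃ₐ[ℚ] L, IsArithFrobAt ℤ τ P := by
  haveI := finite_quot hp hpP
  exact IsArithFrobAt.exists_of_isInvariant ℤ (L ≃ₐ[ℚ] L) P

/-- Inertia is trivial at an unramified prime. -/
lemma inertiaTrivial_of_isUnramifiedAt {p : ℕ} (hp : p.Prime) {P : Ideal (𝓞 L)} [hP : P.IsPrime]
    (hpP : (p : 𝓞 L) ∈ P) [Algebra.IsUnramifiedAt ℤ P] : Spec.InertiaTrivial L P := by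
  intro ι hι
  obtain ⟨τ, hτ⟩ := exists_isArithFrobAt hp hpP
  have hιτ : IsArithFrobAt ℤ (ι * τ) P := by
    intro x
    have h1 := hι (τ • x)
    have h2 := hτ x
    have : (MulSemiringAction.toAlgHom ℤ (𝓞 L) (ι * τ)) x - x ^ Nat.card (ℤ ⧸ P.under ℤ)
        = (ι • (τ • x) - τ • x) + ((MulSemiringAction.toAlgHom ℤ (𝓞 L) τ) x
            - x ^ Nat.card (ℤ ⧸ P.under ℤ)) := by
      simp [mul_smul]
    rw [this]
    exact P.add_mem h1 h2
  have heq := AlgHom.IsArithFrobAt.eq_of_isUnramifiedAt hιτ hτ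
    (by intro x hx; exact mem_nonZeroDivisors_of_ne_zero (by rintro rfl; exact hx P.zero_mem))
  haveI := faithful_gal (L := L)
  have h3 : ι * τ = τ := by
    apply FaithfulSMul.eq_of_smul_eq_smul (α := 𝓞 L)
    intro x
    exact DFunLike.congr_fun heq x
  simpa using h3

attribute [local instance] Ideal.Quotient.field in
/-- If the inertia group is trivial, the decomposition group is generated by any Frobenius. -/
lemma decomp_eq_zpowers {p : ℕ} (hp : p.Prime) {P : Ideal (𝓞 L)} [hP : P.IsPrime]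
    (hpP : (p : 𝓞 L) ∈ P) (hI : Spec.InertiaTrivial L P) {τ : L ≃ₐ[ℚ] L}
    (hτ : IsArithFrobAt ℤ τ P) : Spec.decomp L P = Subgroup.zpowers τ := by
  have hne : P ≠ ⊥ := prime_ne_bot hp hpP
  haveI hmax : P.IsMaximal := Ideal.IsPrime.isMaximal hP hne
  haveI : Finite (𝓞 L ⧸ P) := Ideal.finiteQuotientOfFreeOfNeBot P hne
  haveI hmax' : (P.under ℤ).IsMaximal := Ideal.IsMaximal.under ℤ P
  haveI : Finite (ℤ ⧸ P.under ℤ) := hτ.finite_quotient
  letI : Fintype (ℤ ⧸ P.under ℤ) := Fintype.ofFinite _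
  have hτmem : τ ∈ MulAction.stabilizer (L ≃ₐ[ℚ] L) P := hτ.mem_stabilizer
  apply le_antisymm
  · intro σ hσ
    obtain ⟨n, hn⟩ := (FiniteField.bijective_frobeniusAlgEquivOfAlgebraic_pow
      (ℤ ⧸ P.under ℤ) (𝓞 L ⧸ P)).2
      (Ideal.Quotient.stabilizerHom P (P.under ℤ) (L ≃ₐ[ℚ] L) ⟨σ, hσ⟩)
    have hfrob : Ideal.Quotient.stabilizerHom P (P.under ℤ) (L ≃ₐ[ℚ] L) ⟨τ, hτmem⟩
        = FiniteField.frobeniusAlgEquivOfAlgebraic (ℤ ⧸ P.under ℤ) (𝓞 L ⧸ P) := by
      ext x
      obtain ⟨y, rfl⟩ := Ideal.Quotient.mk_surjective x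
      rw [FiniteField.coe_frobeniusAlgEquivOfAlgebraic]
      simp only [Ideal.Quotient.stabilizerHom_apply]
      rw [← Nat.card_eq_fintype_card]
      exact hτ.mk_apply y
    have hker : Ideal.Quotient.stabilizerHom P (P.under ℤ) (L ≃ₐ[ℚ] L)
        (⟨σ, hσ⟩ * (⟨τ, hτmem⟩ ^ n.1)⁻¹) = 1 := by
      rw [map_mul, map_inv, map_pow, hfrob]
      simp only at hn
      rw [hn, mul_inv_cancel]
    have h1 : σ * (τ ^ n.1)⁻¹ = 1 := by
      apply hI
      intro x
      have := DFunLike.congr_fun hker (Ideal.Quotient.mk P x)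
      simp only [Ideal.Quotient.stabilizerHom_apply, AlgEquiv.one_apply] at this
      rw [Ideal.Quotient.eq] at this
      exact this
    rw [mul_inv_eq_one] at h1
    rw [h1]
    exact Subgroup.pow_mem _ (Subgroup.mem_zpowers τ) _
  · rw [Subgroup.zpowers_le]
    exact hτmem

/-- Piece D with an explicit bad set: all conclusions at every prime not dividing `badNat L`. -/
theorem frob_of_not_dvd_badNat {p : ℕ} (hp : p.Prime) (hpB : ¬ p ∣ badNat L)
    (P : Ideal (𝓞 L)) (hP : P.IsPrime) (hpP : (p : 𝓞 L) ∈ P) :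
    Algebra.IsUnramifiedAt ℤ P ∧ Spec.InertiaTrivial L P ∧
      ∃ τ : L ≃ₐ[ℚ] L, IsArithFrobAt ℤ τ P ∧ Spec.decomp L P = Subgroup.zpowers τ := by
  haveI := hP
  haveI hU : Algebra.IsUnramifiedAt ℤ P := isUnramifiedAt_of_not_dvd_badNat hp hpB hpP
  have hI := inertiaTrivial_of_isUnramifiedAt hp hpP
  obtain ⟨τ, hτ⟩ := exists_isArithFrobAt hp hpP
  exact ⟨hU, hI, τ, hτ, decomp_eq_zpowers hp hpP hI hτ⟩

/-- **Piece D** of row CHEB: `Spec.FrobStatement`. -/
theorem frobStatement : Spec.FrobStatement := by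
  intro L _ _ _
  refine ⟨(badNat L).primeFactors, fun p hp hpB P hP hpP => ?_⟩
  have hpB' : ¬ p ∣ badNat L := fun h =>
    hpB (Nat.mem_primeFactors.mpr ⟨hp, h, badNat_ne_zero L⟩)
  obtain ⟨-, hI, hτ⟩ := frob_of_not_dvd_badNat hp hpB' P hP hpP
  exact ⟨hI, hτ⟩

end Fermat.Agent.Lib.Cheb.H943

end
-- ===== PACK-END Lib/Cheb/H943/Frob.lean

-- ===== PACK-BEGIN Lib/Cheb/H341/Abstract.lean
section


/-!
# CHEB piece M, abstract part (helper341)

Prime Dirichlet sums `pSum b s = ∑' p, b p * p ^ (-s)` of bounded coefficient functions,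
the relation `Near b c` (`pSum b s = c * log (1/(s-1)) + O(1)` on `(1, 2]`), and the
subgroup induction: if for every subgroup `H` of a finite group the sum over `X ≤ H` of `g X`
is `Near (card H)`, then each `g X` is `Near (psi X)`, `psi X` = number of generators of `X`.
-/

set_option autoImplicit false

namespace Fermat.Agent.Lib.Cheb.H341

open Finset

/-- `ell s = log (1 / (s - 1))`. -/
noncomputable def ell (s : ℝ) : ℝ := Real.log (1 / (s - 1))

/-- The prime Dirichlet sum of a coefficient function. -/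
noncomputable def pSum (b : Nat.Primes → ℝ) (s : ℝ) : ℝ :=
  ∑' p : Nat.Primes, b p * (p : ℝ) ^ (-s)

/-- Bounded coefficient function. -/
def Bdd (b : Nat.Primes → ℝ) : Prop := ∃ K : ℝ, ∀ p, |b p| ≤ K

/-- `pSum b s = c * ell s + O(1)` on `(1, 2]`. -/
def Near (b : Nat.Primes → ℝ) (c : ℝ) : Prop :=
  ∃ C : ℝ, ∀ s : ℝ, 1 < s → s ≤ 2 → |pSum b s - c * ell s| ≤ C

theorem Bdd.add {b₁ b₂ : Nat.Primes → ℝ} (h₁ : Bdd b₁) (h₂ : Bdd b₂) :
    Bdd (fun p => b₁ p + b₂ p) := by
  obtain ⟨K₁, hK₁⟩ := h₁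
  obtain ⟨K₂, hK₂⟩ := h₂
  exact ⟨K₁ + K₂, fun p => (abs_add_le _ _).trans (add_le_add (hK₁ p) (hK₂ p))⟩

theorem Bdd.neg {b : Nat.Primes → ℝ} (h : Bdd b) : Bdd (fun p => - b p) := by
  obtain ⟨K, hK⟩ := h
  exact ⟨K, fun p => by rw [abs_neg]; exact hK p⟩

theorem Bdd.sub {b₁ b₂ : Nat.Primes → ℝ} (h₁ : Bdd b₁) (h₂ : Bdd b₂) :
    Bdd (fun p => b₁ p - b₂ p) := by
  simpa [sub_eq_add_neg] using h₁.add h₂.neg

theorem Bdd.const_mul {b : Nat.Primes → ℝ} (h : Bdd b) (k : ℝ) : Bdd (fun p => k * b p) := by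
  obtain ⟨K, hK⟩ := h
  refine ⟨|k| * K, fun p => ?_⟩
  rw [abs_mul]
  exact mul_le_mul_of_nonneg_left (hK p) (abs_nonneg k)

theorem bdd_zero : Bdd (fun _ => 0) := ⟨0, fun _ => by simp⟩

theorem Bdd.finset_sum {ι : Type*} (t : Finset ι) (b : ι → Nat.Primes → ℝ)
    (h : ∀ i ∈ t, Bdd (b i)) : Bdd (fun p => ∑ i ∈ t, b i p) := by
  classical
  induction t using Finset.induction_on with
  | empty => simpa using bdd_zero
  | insert a t ha ih =>
    have h1 : Bdd (b a) := h a (mem_insert_self a t)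
    have h2 : Bdd (fun p => ∑ i ∈ t, b i p) := ih (fun i hi => h i (mem_insert_of_mem hi))
    obtain ⟨K, hK⟩ := h1.add h2
    refine ⟨K, fun p => ?_⟩
    simpa [sum_insert ha] using hK p

theorem summable_of_bdd {b : Nat.Primes → ℝ} (hb : Bdd b) {s : ℝ} (hs : 1 < s) :
    Summable (fun p : Nat.Primes => b p * (p : ℝ) ^ (-s)) := by
  obtain ⟨K, hK⟩ := hb
  have h1 : Summable (fun p : Nat.Primes => K * (p : ℝ) ^ (-s)) :=
    (Nat.Primes.summable_rpow.mpr (by linarith)).mul_left K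
  refine Summable.of_norm_bounded h1 (fun p => ?_)
  rw [Real.norm_eq_abs, abs_mul]
  have hp : (0:ℝ) ≤ (p : ℝ) ^ (-s) := Real.rpow_nonneg (Nat.cast_nonneg _) _
  rw [abs_of_nonneg hp]
  exact mul_le_mul_of_nonneg_right (hK p) hp

theorem pSum_add {b₁ b₂ : Nat.Primes → ℝ} (h₁ : Bdd b₁) (h₂ : Bdd b₂) {s : ℝ} (hs : 1 < s) :
    pSum (fun p => b₁ p + b₂ p) s = pSum b₁ s + pSum b₂ s := by
  unfold pSum
  rw [← (summable_of_bdd h₁ hs).tsum_add (summable_of_bdd h₂ hs)]
  exact tsum_congr (fun p => by ring)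

theorem pSum_neg (b : Nat.Primes → ℝ) (s : ℝ) :
    pSum (fun p => - b p) s = - pSum b s := by
  unfold pSum
  rw [← tsum_neg]
  exact tsum_congr (fun p => by ring)

theorem pSum_sub {b₁ b₂ : Nat.Primes → ℝ} (h₁ : Bdd b₁) (h₂ : Bdd b₂) {s : ℝ} (hs : 1 < s) :
    pSum (fun p => b₁ p - b₂ p) s = pSum b₁ s - pSum b₂ s := by
  have := pSum_add h₁ h₂.neg hs
  simp only [pSum_neg] at this
  simpa [sub_eq_add_neg] using this

theorem pSum_const_mul (b : Nat.Primes → ℝ) (k : ℝ) (s : ℝ) :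
    pSum (fun p => k * b p) s = k * pSum b s := by
  unfold pSum
  rw [← tsum_mul_left]
  exact tsum_congr (fun p => by ring)

theorem pSum_zero (s : ℝ) : pSum (fun _ => 0) s = 0 := by
  unfold pSum
  simp

theorem Near.add {b₁ b₂ : Nat.Primes → ℝ} {c₁ c₂ : ℝ} (hb₁ : Bdd b₁) (hb₂ : Bdd b₂)
    (h₁ : Near b₁ c₁) (h₂ : Near b₂ c₂) : Near (fun p => b₁ p + b₂ p) (c₁ + c₂) := by
  obtain ⟨C₁, hC₁⟩ := h₁
  obtain ⟨C₂, hC₂⟩ := h₂
  refine ⟨C₁ + C₂, fun s hs hs2 => ?_⟩
  rw [pSum_add hb₁ hb₂ hs]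
  have e : pSum b₁ s + pSum b₂ s - (c₁ + c₂) * ell s =
      (pSum b₁ s - c₁ * ell s) + (pSum b₂ s - c₂ * ell s) := by ring
  rw [e]
  exact (abs_add_le _ _).trans (add_le_add (hC₁ s hs hs2) (hC₂ s hs hs2))

theorem Near.neg {b : Nat.Primes → ℝ} {c : ℝ} (h : Near b c) : Near (fun p => - b p) (-c) := by
  obtain ⟨C, hC⟩ := h
  refine ⟨C, fun s hs hs2 => ?_⟩
  rw [pSum_neg]
  have e : -pSum b s - -c * ell s = -(pSum b s - c * ell s) := by ring
  rw [e, abs_neg]
  exact hC s hs hs2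

theorem Near.sub {b₁ b₂ : Nat.Primes → ℝ} {c₁ c₂ : ℝ} (hb₁ : Bdd b₁) (hb₂ : Bdd b₂)
    (h₁ : Near b₁ c₁) (h₂ : Near b₂ c₂) : Near (fun p => b₁ p - b₂ p) (c₁ - c₂) := by
  simpa [sub_eq_add_neg] using Near.add hb₁ hb₂.neg h₁ h₂.neg

theorem Near.const_mul {b : Nat.Primes → ℝ} {c : ℝ} (h : Near b c) (k : ℝ) :
    Near (fun p => k * b p) (k * c) := by
  obtain ⟨C, hC⟩ := h
  refine ⟨|k| * C, fun s hs hs2 => ?_⟩
  rw [pSum_const_mul]
  have e : k * pSum b s - k * c * ell s = k * (pSum b s - c * ell s) := by ring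
  rw [e, abs_mul]
  exact mul_le_mul_of_nonneg_left (hC s hs hs2) (abs_nonneg k)

theorem near_zero : Near (fun _ => 0) 0 :=
  ⟨0, fun s _ _ => by simp [pSum_zero]⟩

theorem Near.finset_sum {ι : Type*} (t : Finset ι) (b : ι → Nat.Primes → ℝ) (c : ι → ℝ)
    (hb : ∀ i ∈ t, Bdd (b i)) (h : ∀ i ∈ t, Near (b i) (c i)) :
    Near (fun p => ∑ i ∈ t, b i p) (∑ i ∈ t, c i) := by
  classical
  induction t using Finset.induction_on with
  | empty => simpa using near_zero
  | insert a t ha ih =>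
    have h1 : Near (b a) (c a) := h a (mem_insert_self a t)
    have hb1 : Bdd (b a) := hb a (mem_insert_self a t)
    have hb2 : Bdd (fun p => ∑ i ∈ t, b i p) :=
      Bdd.finset_sum t b (fun i hi => hb i (mem_insert_of_mem hi))
    have h2 := ih (fun i hi => hb i (mem_insert_of_mem hi)) (fun i hi => h i (mem_insert_of_mem hi))
    have := Near.add hb1 hb2 h1 h2
    rw [sum_insert ha]
    refine ⟨this.choose, fun s hs hs2 => ?_⟩
    have e : (fun p => ∑ i ∈ insert a t, b i p) = fun p => b a p + ∑ i ∈ t, b i p := by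
      funext p
      rw [sum_insert ha]
    rw [e]
    exact this.choose_spec s hs hs2

/-- A finitely supported coefficient function has bounded prime sum. -/
theorem near_zero_of_finite_support {b : Nat.Primes → ℝ} (T : Finset Nat.Primes)
    (h : ∀ p, p ∉ T → b p = 0) : Near b 0 := by
  refine ⟨∑ p ∈ T, |b p|, fun s hs _ => ?_⟩
  have e : pSum b s = ∑ p ∈ T, b p * (p : ℝ) ^ (-s) := by
    unfold pSum
    exact tsum_eq_sum (fun p hp => by rw [h p hp, zero_mul])
  rw [e, zero_mul, sub_zero]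
  refine (abs_sum_le_sum_abs _ _).trans (sum_le_sum (fun p _ => ?_))
  rw [abs_mul]
  have hp0 : (0:ℝ) ≤ (p : ℝ) ^ (-s) := Real.rpow_nonneg (Nat.cast_nonneg _) _
  rw [abs_of_nonneg hp0]
  have hp1 : (p : ℝ) ^ (-s) ≤ 1 := by
    have h1 : (1:ℝ) ≤ (p : ℝ) := by exact_mod_cast p.2.one_lt.le
    exact Real.rpow_le_one_of_one_le_of_nonpos h1 (by linarith)
  calc |b p| * (p : ℝ) ^ (-s) ≤ |b p| * 1 := mul_le_mul_of_nonneg_left hp1 (abs_nonneg _)
    _ = |b p| := mul_one _

theorem bdd_of_finite_support {b : Nat.Primes → ℝ} (T : Finset Nat.Primes)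
    (h : ∀ p, p ∉ T → b p = 0) : Bdd b := by
  refine ⟨∑ p ∈ T, |b p|, fun p => ?_⟩
  by_cases hp : p ∈ T
  · exact single_le_sum (f := fun p => |b p|) (fun i _ => abs_nonneg _) hp
  · rw [h p hp, abs_zero]
    exact sum_nonneg (fun i _ => abs_nonneg _)

/-- Changing a bounded coefficient function on a finite set does not change `Near`. -/
theorem Near.congr_off_finite {b b' : Nat.Primes → ℝ} {c : ℝ} (hb : Bdd b) (h : Near b c)
    (T : Finset Nat.Primes) (hT : ∀ p, p ∉ T → b' p = b p) : Near b' c := by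
  have hd : ∀ p, p ∉ T → (fun p => b' p - b p) p = 0 := fun p hp => by simp [hT p hp]
  have h1 := near_zero_of_finite_support T hd
  have hb1 := bdd_of_finite_support T hd
  have := Near.add hb hb1 h h1
  have e : (fun p => b p + (b' p - b p)) = b' := by funext p; ring
  rw [e, add_zero] at this
  exact this

theorem ell_unbounded (M : ℝ) : ∃ s : ℝ, 1 < s ∧ s ≤ 2 ∧ M < ell s := by
  refine ⟨1 + Real.exp (-(max M 0 + 1)), ?_, ?_, ?_⟩
  · have := Real.exp_pos (-(max M 0 + 1))
    linarith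
  · have : Real.exp (-(max M 0 + 1)) ≤ 1 := by
      rw [Real.exp_le_one_iff]
      have := le_max_right M 0
      linarith
    linarith
  · unfold ell
    have e : (1 + Real.exp (-(max M 0 + 1)) - 1) = Real.exp (-(max M 0 + 1)) := by ring
    rw [e, one_div, ← Real.exp_neg, Real.log_exp]
    have := le_max_left M 0
    linarith

/-- If `pSum b = c * ell + O(1)` with `c ≠ 0`, then `b` is not identically zero. -/
theorem Near.exists_ne_zero {b : Nat.Primes → ℝ} {c : ℝ} (h : Near b c) (hc : c ≠ 0) :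
    ∃ p, b p ≠ 0 := by
  by_contra hcon
  push Not at hcon
  obtain ⟨C, hC⟩ := h
  have hb : b = fun _ => 0 := funext hcon
  obtain ⟨s, hs, hs2, hM⟩ := ell_unbounded (C / |c|)
  have := hC s hs hs2
  rw [hb, pSum_zero, zero_sub, abs_neg, abs_mul] at this
  have hcpos : 0 < |c| := abs_pos.mpr hc
  have h2 : C / |c| < |ell s| := lt_of_lt_of_le hM (le_abs_self _)
  rw [div_lt_iff₀ hcpos] at h2
  linarith [mul_comm |c| |ell s|]

/-! ## Subgroup induction -/

section Group

variable {G : Type*} [Group G] [Finite G]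

/-- Number of generators of the subgroup `X`. -/
noncomputable def psi (X : Subgroup G) : ℕ := Nat.card {x : G // Subgroup.zpowers x = X}

/-- The finite set of subgroups contained in `H`. -/
noncomputable def subLe (H : Subgroup G) : Finset (Subgroup G) :=
  (Set.toFinite {X : Subgroup G | X ≤ H}).toFinset

/-- The finite set of subgroups strictly contained in `H`. -/
noncomputable def subLt (H : Subgroup G) : Finset (Subgroup G) :=
  (Set.toFinite {X : Subgroup G | X < H}).toFinset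

@[simp] theorem mem_subLe {H X : Subgroup G} : X ∈ subLe H ↔ X ≤ H := by
  simp [subLe]

@[simp] theorem mem_subLt {H X : Subgroup G} : X ∈ subLt H ↔ X < H := by
  simp [subLt]

theorem subLe_eq_insert (X : Subgroup G) [DecidableEq (Subgroup G)] :
    subLe X = insert X (subLt X) := by
  ext Y
  simp only [mem_subLe, mem_insert, mem_subLt]
  constructor
  · intro hY
    rcases eq_or_lt_of_le hY with h1 | h1
    · exact Or.inl h1
    · exact Or.inr h1
  · rintro (h1 | h1)
    · exact h1.le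
    · exact h1.le

theorem sum_psi (H : Subgroup G) : ∑ X ∈ subLe H, psi X = Nat.card H := by
  classical
  have : Fintype G := Fintype.ofFinite _
  have h1 : ∀ X : Subgroup G,
      psi X = (Finset.univ.filter (fun x : G => Subgroup.zpowers x = X)).card := by
    intro X
    unfold psi
    rw [Nat.card_eq_fintype_card, Fintype.card_subtype]
  have h2 : Nat.card H = (Finset.univ.filter (fun x : G => x ∈ H)).card := by
    rw [Nat.card_eq_fintype_card, Fintype.card_subtype]
  rw [h2]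
  simp only [h1]
  rw [← Finset.card_biUnion]
  · congr 1
    ext x
    simp only [mem_biUnion, mem_filter, mem_univ, true_and, mem_subLe]
    constructor
    · rintro ⟨X, hX, rfl⟩
      exact hX (Subgroup.mem_zpowers x)
    · intro hx
      exact ⟨Subgroup.zpowers x, (Subgroup.zpowers_le).mpr hx, rfl⟩
  · intro X _ Y _ hXY
    rw [Function.onFun, Finset.disjoint_left]
    intro x hx hy
    simp only [mem_filter, mem_univ, true_and] at hx hy
    exact hXY (hx.symm.trans hy)

/-- **Subgroup induction.** -/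
theorem near_psi_of_near_card (g : Subgroup G → Nat.Primes → ℝ) (hb : ∀ X, Bdd (g X))
    (h : ∀ H : Subgroup G, Near (fun p => ∑ X ∈ subLe H, g X p) (Nat.card H)) :
    ∀ X : Subgroup G, Near (g X) (psi X) := by
  classical
  intro X
  induction X using WellFoundedLT.induction with
  | ind X ih =>
    have hsplit := subLe_eq_insert X
    have hnot : X ∉ subLt X := by simp
    have hlow : Near (fun p => ∑ Y ∈ subLt X, g Y p) (∑ Y ∈ subLt X, (psi Y : ℝ)) :=
      Near.finset_sum _ g (fun Y => (psi Y : ℝ)) (fun Y _ => hb Y)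
        (fun Y hY => ih Y (by simpa using hY))
    have hblow : Bdd (fun p => ∑ Y ∈ subLt X, g Y p) :=
      Bdd.finset_sum _ g (fun Y _ => hb Y)
    have hball : Bdd (fun p => ∑ Y ∈ subLe X, g Y p) :=
      Bdd.finset_sum _ g (fun Y _ => hb Y)
    have hsub := Near.sub hball hblow (h X) hlow
    have e1 : (fun p => (∑ Y ∈ subLe X, g Y p) - ∑ Y ∈ subLt X, g Y p) = g X := by
      funext p
      rw [hsplit, sum_insert hnot]
      ring
    have e2 : ((Nat.card X : ℝ) - ∑ Y ∈ subLt X, (psi Y : ℝ)) = psi X := by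
      have := sum_psi X
      rw [hsplit, sum_insert hnot] at this
      have h3 : ((psi X : ℝ) + ∑ Y ∈ subLt X, (psi Y : ℝ)) = (Nat.card X : ℝ) := by
        exact_mod_cast this
      linarith
    rw [e1, e2] at hsub
    exact hsub

theorem psi_zpowers_pos (σ : G) : 0 < psi (Subgroup.zpowers σ) := by
  unfold psi
  have : Nonempty {x : G // Subgroup.zpowers x = Subgroup.zpowers σ} := ⟨⟨σ, rfl⟩⟩
  exact Nat.card_pos

end Group

end Fermat.Agent.Lib.Cheb.H341

end
-- ===== PACK-END Lib/Cheb/H341/Abstract.lean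

-- ===== PACK-BEGIN Lib/Cheb/H341/Main.lean
section



/-!
# CHEB piece M (helper341): `FrobFiniteStatement` from `Z`, `B0`, `A`, `D`

`frobFinite : PrimeSumStatement → PrimeCountBoundStatement → CountStatement → FrobStatement →
FrobFiniteStatement`, in the exact shapes of `Fermat/Agent/Lib/Cheb/Spec.lean`.
-/

set_option autoImplicit false

namespace Fermat.Agent.Lib.Cheb.H341

open NumberField Finset
open Fermat.Agent.Lib.Cheb

section

variable (L : Type) [Field L] [NumberField L]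

/-- The primes of `𝓞 L` containing `p` with decomposition group exactly `X`. -/
def primesEq (X : Subgroup (L ≃ₐ[ℚ] L)) (p : ℕ) : Set (Ideal (𝓞 L)) :=
  {P | P.IsPrime ∧ (p : 𝓞 L) ∈ P ∧ Spec.decomp L P = X}

theorem primesAbove_finite {p : ℕ} (hp : p.Prime) :
    {P : Ideal (𝓞 L) | P.IsPrime ∧ (p : 𝓞 L) ∈ P}.Finite := by
  have : Fact p.Prime := ⟨hp⟩
  have := Int.ideal_span_isMaximal_of_prime p
  refine (IsDedekindDomain.primesOver_finite (Ideal.span {(p : ℤ)}) (𝓞 L)).subset ?_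
  rintro P ⟨hP, hpP⟩
  refine ⟨hP, ?_⟩
  rw [Ideal.liesOver_iff]
  refine Ideal.IsMaximal.eq_of_le inferInstance ?_ ?_
  · have := hP
    exact (Ideal.IsPrime.under ℤ P).ne_top
  · rw [Ideal.span_le, Set.singleton_subset_iff]
    change (p : ℤ) ∈ Ideal.comap (algebraMap ℤ (𝓞 L)) P
    rw [Ideal.mem_comap]
    simpa using hpP

theorem primesEq_finite (X : Subgroup (L ≃ₐ[ℚ] L)) {p : ℕ} (hp : p.Prime) :
    (primesEq L X p).Finite :=
  (primesAbove_finite L hp).subset (fun _ hP => ⟨hP.1, hP.2.1⟩)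

/-- `a_X(p) = ∑_{P ∣ p, D_P = X} |D_P|`. -/
noncomputable def aCoef (X : Subgroup (L ≃ₐ[ℚ] L)) (p : ℕ) : ℕ :=
  ∑ᶠ P ∈ primesEq L X p, Nat.card (Spec.decomp L P)

theorem decompWeight_eq_sum (H : Subgroup (L ≃ₐ[ℚ] L)) {p : ℕ} (hp : p.Prime) :
    Spec.decompWeight L H p = ∑ X ∈ subLe H, aCoef L X p := by
  unfold Spec.decompWeight aCoef
  rw [finsum_set_coe_eq_finsum_mem (f := fun P : Ideal (𝓞 L) => Nat.card (Spec.decomp L P))
    (Spec.primesLe L H p)]
  have hU : Spec.primesLe L H p = ⋃ X ∈ (subLe H : Set (Subgroup (L ≃ₐ[ℚ] L))), primesEq L X p := by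
    ext P
    simp only [Spec.primesLe, primesEq, Set.mem_ofPred_eq, Set.mem_iUnion, Finset.mem_coe,
      mem_subLe, exists_prop]
    constructor
    · rintro ⟨h1, h2, h3⟩
      exact ⟨Spec.decomp L P, h3, h1, h2, rfl⟩
    · rintro ⟨X, hX, h1, h2, rfl⟩
      exact ⟨h1, h2, hX⟩
  rw [hU, finsum_mem_biUnion]
  · rw [finsum_mem_coe_finset]
  · intro X _ Y _ hXY
    rw [Function.onFun, Set.disjoint_left]
    intro P hPX hPY
    exact hXY (hPX.2.2.symm.trans hPY.2.2)
  · exact (subLe H).finite_toSet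
  · intro X _
    exact primesEq_finite L X hp

theorem exists_of_aCoef_ne_zero {X : Subgroup (L ≃ₐ[ℚ] L)} {p : ℕ} (h : aCoef L X p ≠ 0) :
    ∃ P : Ideal (𝓞 L), P.IsPrime ∧ (p : 𝓞 L) ∈ P ∧ Spec.decomp L P = X := by
  by_contra hcon
  push Not at hcon
  apply h
  unfold aCoef
  refine finsum_mem_eq_zero_of_forall_eq_zero (fun P hP => ?_)
  exact absurd hP.2.2 (hcon P hP.1 hP.2.1)

end

/-- **Piece M.** -/
theorem frobFinite (hZ : Spec.PrimeSumStatement) (hB0 : Spec.PrimeCountBoundStatement)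
    (hA : Spec.CountStatement) (hD : Spec.FrobStatement) : Spec.FrobFiniteStatement := by
  classical
  intro L _ _ _ σ S
  -- the bad sets
  obtain ⟨BD, hBD⟩ := hD L
  choose BA hBA using hA L
  set B : Finset ℕ := S ∪ BD ∪ (subLe (⊤ : Subgroup (L ≃ₐ[ℚ] L))).biUnion BA with hB
  have hBS : ∀ p, p ∉ B → p ∉ S := fun p hp hpS =>
    hp (mem_union_left _ (mem_union_left _ hpS))
  have hBBD : ∀ p, p ∉ B → p ∉ BD := fun p hp hpS =>
    hp (mem_union_left _ (mem_union_right _ hpS))
  have hBBA : ∀ p, p ∉ B → ∀ H, p ∉ BA H := fun p hp H hpS =>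
    hp (mem_union_right _ (mem_biUnion.mpr ⟨H, by simp, hpS⟩))
  -- coefficient functions
  set g : Subgroup (L ≃ₐ[ℚ] L) → Nat.Primes → ℝ :=
    fun X p => if (p : ℕ) ∈ B then 0 else (aCoef L X p : ℝ) with hg
  set f : Subgroup (L ≃ₐ[ℚ] L) → Nat.Primes → ℝ :=
    fun H p => if (p : ℕ) ∈ B then 0
      else (Spec.primeCount (IntermediateField.fixedField H) p : ℝ) with hf
  -- (i)
  have hi : ∀ H p, ∑ X ∈ subLe H, g X p = (Nat.card H : ℝ) * f H p := by
    intro H p
    by_cases hp : (p : ℕ) ∈ B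
    · simp [hg, hf, hp]
    · simp only [hg, hf, hp, if_false]
      have h1 := hBA H p p.2 (hBBA p hp H)
      rw [decompWeight_eq_sum L H p.2] at h1
      have h2 : ((∑ X ∈ subLe H, aCoef L X p : ℕ) : ℝ) =
          ((Spec.primeCount (IntermediateField.fixedField H) p * Nat.card H : ℕ) : ℝ) := by
        rw [h1]
      push_cast at h2
      rw [h2]
      ring
  -- (ii)
  have hfb : ∀ H, Bdd (f H) := by
    intro H
    refine ⟨(Module.finrank ℚ (IntermediateField.fixedField H) : ℝ), fun p => ?_⟩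
    simp only [hf]
    split_ifs
    · simp
    · rw [abs_of_nonneg (Nat.cast_nonneg _)]
      exact_mod_cast hB0 (IntermediateField.fixedField H) p
  -- (iii)
  have hfn : ∀ H, Near (f H) 1 := by
    intro H
    obtain ⟨C, hC⟩ := hZ (IntermediateField.fixedField H)
    have hb0 : Bdd (fun p : Nat.Primes =>
        (Spec.primeCount (IntermediateField.fixedField H) p : ℝ)) := by
      refine ⟨(Module.finrank ℚ (IntermediateField.fixedField H) : ℝ), fun p => ?_⟩
      beta_reduce
      rw [abs_of_nonneg (Nat.cast_nonneg _)]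
      exact_mod_cast hB0 (IntermediateField.fixedField H) p
    have hn0 : Near (fun p : Nat.Primes =>
        (Spec.primeCount (IntermediateField.fixedField H) p : ℝ)) 1 := by
      refine ⟨C, fun s hs hs2 => ?_⟩
      have := hC s hs hs2
      simpa [pSum, ell] using this
    refine Near.congr_off_finite hb0 hn0 (Finset.subtype Nat.Prime B) (fun p hp => ?_)
    have hp' : (p : ℕ) ∉ B := by
      intro h
      exact hp (Finset.mem_subtype.mpr h)
    simp [hf, hp']
  -- (iv)
  have hgnn : ∀ X p, 0 ≤ g X p := by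
    intro X p
    simp only [hg]
    split_ifs
    · exact le_refl _
    · exact Nat.cast_nonneg _
  have hgb : ∀ X, Bdd (g X) := by
    intro X
    obtain ⟨K, hK⟩ := hfb ⊤
    refine ⟨(Nat.card (⊤ : Subgroup (L ≃ₐ[ℚ] L)) : ℝ) * K, fun p => ?_⟩
    rw [abs_of_nonneg (hgnn X p)]
    have h1 : g X p ≤ ∑ Y ∈ subLe (⊤ : Subgroup (L ≃ₐ[ℚ] L)), g Y p :=
      single_le_sum (f := fun Y => g Y p) (fun Y _ => hgnn Y p) (by simp)
    rw [hi] at h1
    refine h1.trans ?_
    exact mul_le_mul_of_nonneg_left ((le_abs_self _).trans (hK p)) (Nat.cast_nonneg _)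
  -- (v)
  have hv : ∀ H : Subgroup (L ≃ₐ[ℚ] L),
      Near (fun p => ∑ X ∈ subLe H, g X p) (Nat.card H) := by
    intro H
    have := (hfn H).const_mul (Nat.card H : ℝ)
    rw [mul_one] at this
    have e : (fun p => ∑ X ∈ subLe H, g X p) = fun p => (Nat.card H : ℝ) * f H p := by
      funext p
      exact hi H p
    rw [e]
    exact this
  -- (vi)
  have hmain := near_psi_of_near_card g hgb hv (Subgroup.zpowers σ)
  have hpos : ((psi (Subgroup.zpowers σ) : ℕ) : ℝ) ≠ 0 := by
    have := psi_zpowers_pos σ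
    positivity
  obtain ⟨p, hp⟩ := hmain.exists_ne_zero hpos
  have hpB : (p : ℕ) ∉ B := by
    intro h
    apply hp
    simp [hg, h]
  have hne : aCoef L (Subgroup.zpowers σ) p ≠ 0 := by
    intro h
    apply hp
    simp [hg, hpB, h]
  obtain ⟨P, hP, hpP, hDP⟩ := exists_of_aCoef_ne_zero L hne
  obtain ⟨hin, τ, hτ, hτD⟩ := hBD p p.2 (hBBD p hpB) P hP hpP
  exact ⟨p, P, τ, p.2, hBS p hpB, hP, hpP, hin, hτ, by rw [← hτD, hDP]⟩

end Fermat.Agent.Lib.Cheb.H341

end
-- ===== PACK-END Lib/Cheb/H341/Main.lean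

-- ===== PACK-BEGIN Lib/Cheb/H764/Orbit.lean
section


/-!
# CHEB / piece A: decomposition groups and primes of a fixed field (orbit count)

Abstract setting: `R ⊆ T ⊆ S` Dedekind-like rings, `G` a finite Galois group of `S/R`,
`H ≤ G` a Galois group of `S/T`.
-/

set_option autoImplicit false
set_option linter.unusedSectionVars false

namespace Fermat.Agent.Lib.Cheb.H764

open Ideal MulAction
open scoped Pointwise

section abstract

variable {R T S : Type*} [CommRing R] [CommRing T] [CommRing S]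
  [IsDomain R] [IsDomain T] [IsDomain S]
  [Algebra R T] [Algebra T S] [Algebra R S] [IsScalarTower R T S]
  [Module.Finite R S] [Module.Finite T S]
  [Module.Flat R S] [Module.Flat T S]
  {G : Type*} [Group G] [Finite G] [MulSemiringAction G S] [IsGaloisGroup G R S]
  (H : Subgroup G) [IsGaloisGroup H T S]

/-- the stabilizer in the subgroup is the intersection with the subgroup -/
lemma stabilizer_subgroup_eq (Q : Ideal S) :
    stabilizer H Q = (stabilizer G Q).subgroupOf H := by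
  ext h
  simp [Subgroup.mem_subgroupOf, Subgroup.smul_def]

lemma card_stabilizer_eq_mul (p : Ideal R) [p.IsPrime] [PerfectField p.ResidueField]
    (Q : Ideal S) [Q.IsPrime] [Q.LiesOver p] :
    Nat.card (stabilizer G Q) = Q.ramificationIdx R * Q.inertiaDeg R := by
  rw [Ideal.card_stabilizer_eq (G := G) p Q, ramificationIdxIn_eq_ramificationIdx p Q G,
    inertiaDegIn_eq_inertiaDeg p Q G]

/-- `|D_Q(G)| = e(𝔮|p) f(𝔮|p) |D_Q(H)|` for `𝔮 = Q ∩ T`. -/
lemma card_stabilizer_eq_mul_card_stabilizer (p : Ideal R) [p.IsPrime]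
    [PerfectField p.ResidueField]
    (q : Ideal T) [q.IsPrime] [q.LiesOver p] [PerfectField q.ResidueField]
    (Q : Ideal S) [Q.IsPrime] [Q.LiesOver q] [Q.LiesOver p] :
    Nat.card (stabilizer G Q) =
      (q.ramificationIdx R * q.inertiaDeg R) * Nat.card (stabilizer H Q) := by
  have h1 : Nat.card (stabilizer H Q) = Q.ramificationIdx T * Q.inertiaDeg T :=
    card_stabilizer_eq_mul (G := H) q Q
  rw [card_stabilizer_eq_mul (G := G) p Q, h1,
    ramificationIdx_tower (R := R) q Q, inertiaDeg_tower (R := R) q Q]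
  ring

lemma card_subgroupOf_eq_iff (A B : Subgroup G) :
    Nat.card (A.subgroupOf B) = Nat.card A ↔ A ≤ B := by
  constructor
  · intro h
    have h1 : Nat.card (A.subgroupOf B) = Nat.card (A ⊓ B : Subgroup G) := by
      rw [← Subgroup.inf_subgroupOf_right]
      exact Nat.card_congr (Subgroup.subgroupOfEquivOfLe inf_le_right).toEquiv
    rw [h1] at h
    have h2 : (A ⊓ B : Subgroup G) = A :=
      Subgroup.eq_of_le_of_card_ge inf_le_left h.ge
    rw [← h2]
    exact inf_le_right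
  · intro h
    exact Nat.card_congr (Subgroup.subgroupOfEquivOfLe h).toEquiv

/-- `e(𝔮|p) f(𝔮|p) = 1` iff the decomposition group of `Q` is contained in `H`. -/
lemma ramificationIdx_mul_inertiaDeg_eq_one_iff (p : Ideal R) [p.IsPrime]
    [PerfectField p.ResidueField]
    (q : Ideal T) [q.IsPrime] [q.LiesOver p] [PerfectField q.ResidueField]
    (Q : Ideal S) [Q.IsPrime] [Q.LiesOver q] [Q.LiesOver p] :
    q.ramificationIdx R * q.inertiaDeg R = 1 ↔ stabilizer G Q ≤ H := by
  have key := card_stabilizer_eq_mul_card_stabilizer H p q Q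
  have hpos : 0 < Nat.card (stabilizer H Q) := Nat.card_pos
  rw [stabilizer_subgroup_eq H Q] at key hpos
  rw [← card_subgroupOf_eq_iff]
  constructor
  · intro h
    rw [key, h, one_mul]
  · intro h
    rw [← h] at key
    have h3 : 1 * Nat.card ((stabilizer G Q).subgroupOf H) =
        (q.ramificationIdx R * q.inertiaDeg R) * Nat.card ((stabilizer G Q).subgroupOf H) := by
      rw [one_mul]; exact key
    exact (Nat.eq_of_mul_eq_mul_right hpos h3).symm

/-- orbit-stabilizer for the primes above `p` -/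
lemma ncard_primesOver_mul_card_stabilizer_aux
    (p : Ideal R) [p.IsPrime] (P : Ideal S) [P.IsPrime] [P.LiesOver p] :
    (p.primesOver S).ncard * Nat.card (stabilizer G P) = Nat.card G := by
  rw [← Algebra.IsInvariant.orbit_eq_primesOver R S G p P]
  simpa using Nat.card_congr (MulAction.orbitProdStabilizerEquivGroup G P)

/-- the number of primes of `S` above `𝔮` times the order of the decomposition group in `H` -/
lemma ncard_primesOver_mul_card_stabilizer
    (q : Ideal T) [q.IsPrime] (Q : Ideal S) [Q.IsPrime] [Q.LiesOver q] :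
    (q.primesOver S).ncard * Nat.card (stabilizer H Q) = Nat.card H :=
  ncard_primesOver_mul_card_stabilizer_aux (G := H) q Q

/-- inner sum of the orbit count: the primes of `S` above a prime `𝔮` of `T` with `e f = 1`
contribute `|H|`. -/
lemma finsum_card_stabilizer_primesOver (p : Ideal R) [p.IsPrime] [PerfectField p.ResidueField]
    (q : Ideal T) [q.IsPrime] [q.LiesOver p] [PerfectField q.ResidueField]
    (hq : q.ramificationIdx R * q.inertiaDeg R = 1) (hfin : (q.primesOver S).Finite)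
    (hne : (q.primesOver S).Nonempty) :
    ∑ᶠ Q ∈ q.primesOver S, Nat.card (stabilizer G Q) = Nat.card H := by
  classical
  have key : ∀ Q ∈ q.primesOver S,
      (q.primesOver S).ncard * Nat.card (stabilizer G Q) = Nat.card H := by
    intro Q hQ
    haveI : Q.IsPrime := hQ.1
    haveI : Q.LiesOver q := hQ.2
    haveI : Q.LiesOver p := LiesOver.trans Q q p
    rw [card_stabilizer_eq_mul_card_stabilizer H p q Q, hq, one_mul]
    exact ncard_primesOver_mul_card_stabilizer H q Q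
  have hn : 0 < (q.primesOver S).ncard := (Set.ncard_pos hfin).mpr hne
  have hconst : ∀ Q ∈ q.primesOver S,
      Nat.card (stabilizer G Q) = Nat.card H / (q.primesOver S).ncard := by
    intro Q hQ
    rw [← key Q hQ, Nat.mul_div_cancel_left _ hn]
  rw [finsum_mem_congr rfl hconst, finsum_mem_eq_finite_toFinset_sum _ hfin, Finset.sum_const,
    smul_eq_mul, ← Set.ncard_eq_toFinset_card _ hfin]
  obtain ⟨Q, hQ⟩ := hne
  rw [← hconst Q hQ]
  exact key Q hQ

end abstract

end Fermat.Agent.Lib.Cheb.H764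

end
-- ===== PACK-END Lib/Cheb/H764/Orbit.lean

-- ===== PACK-BEGIN Lib/Cheb/H764/Count.lean
section



/-!
# CHEB / piece A: `Spec.CountStatement`

For a Galois number field `L/ℚ`, a subgroup `H ≤ Gal(L/ℚ)`, `F = L^H` and a prime `p` not dividing
the discriminant of `L`:
`#{primes of 𝓞 F of norm p} * |H| = ∑_{P ∣ p, D_P ≤ H} |D_P|`.
-/

set_option autoImplicit false
set_option linter.unusedSectionVars false
set_option linter.unusedVariables false
set_option linter.style.haveILetI false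

open NumberField Ideal MulAction
open scoped Pointwise

namespace Fermat.Agent.Lib.Cheb.H764

open Fermat.Agent.Lib.Cheb.Spec

section

variable (L : Type) [Field L] [NumberField L] [IsGalois ℚ L]

/-- the bad set: primes dividing the discriminant -/
noncomputable def badPrimes : Finset ℕ := (NumberField.discr L).natAbs.primeFactors

lemma not_dvd_discr_of_not_mem_badPrimes {p : ℕ} (hp : p.Prime) (hpB : p ∉ badPrimes L) :
    ¬ (p : ℤ) ∣ NumberField.discr L := by
  intro h
  apply hpB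
  rw [badPrimes, Nat.mem_primeFactors]
  refine ⟨hp, ?_, ?_⟩
  · exact Int.natCast_dvd.mp h
  · exact Int.natAbs_ne_zero.mpr (NumberField.discr_ne_zero L)

lemma liesOver_of_mem {F : Type} [Field F] [NumberField F] {p : ℕ} (hp : p.Prime)
    (P : Ideal (𝓞 F)) [P.IsPrime] (hP : (p : 𝓞 F) ∈ P) :
    P.LiesOver (Ideal.span {(p : ℤ)}) := by
  have hp' : Prime (p : ℤ) := Nat.prime_iff_prime_int.mp hp
  rw [Ideal.liesOver_span_iff (IsPrime.ne_top inferInstance) hp']
  simpa using hP

lemma mem_of_liesOver {F : Type} [Field F] [NumberField F] {p : ℕ} (hp : p.Prime)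
    (P : Ideal (𝓞 F)) [P.IsPrime] [hP : P.LiesOver (Ideal.span {(p : ℤ)})] :
    (p : 𝓞 F) ∈ P := by
  have hp' : Prime (p : ℤ) := Nat.prime_iff_prime_int.mp hp
  have := (Ideal.liesOver_span_iff (IsPrime.ne_top inferInstance) hp').mp hP
  simpa using this

lemma ramificationIdx_eq_one_of_not_mem_badPrimes {p : ℕ} (hp : p.Prime) (hpB : p ∉ badPrimes L)
    (P : Ideal (𝓞 L)) [P.IsPrime] (hP : (p : 𝓞 L) ∈ P) : P.ramificationIdx ℤ = 1 := by
  have hp' : Prime (p : ℤ) := Nat.prime_iff_prime_int.mp hp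
  have h := (NumberField.not_dvd_discr_iff_forall_mem L (𝓞 L) hp').mp
    (not_dvd_discr_of_not_mem_badPrimes L hp hpB) P inferInstance (by simpa using hP)
  exact Ideal.ramificationIdx_eq_one_of_isUnramifiedAt

end

section main

variable (L : Type) [Field L] [NumberField L] [IsGalois ℚ L] (H : Subgroup (L ≃ₐ[ℚ] L))

lemma isGaloisGroup_fixedField :
    IsGaloisGroup H (IntermediateField.fixedField H) L :=
  IsGaloisGroup.subgroup (L ≃ₐ[ℚ] L) ℚ L H

lemma isGaloisGroup_ringOfIntegers :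
    IsGaloisGroup H (𝓞 (IntermediateField.fixedField H)) (𝓞 L) := by
  haveI := isGaloisGroup_fixedField L H
  exact IsGaloisGroup.of_isFractionRing H (𝓞 (IntermediateField.fixedField H)) (𝓞 L)
    (IntermediateField.fixedField H) L

lemma span_isPrime {p : ℕ} (hp : p.Prime) : (Ideal.span {(p : ℤ)}).IsPrime :=
  (Ideal.span_singleton_prime (by exact_mod_cast hp.ne_zero)).mpr (Nat.prime_iff_prime_int.mp hp)

/-- data attached to a prime `𝔮` of `𝓞 F` of norm `p` -/
lemma ef_eq_one_of_absNorm_eq {p : ℕ} (hp : p.Prime) (hpB : p ∉ badPrimes L)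
    (q : Ideal (𝓞 (IntermediateField.fixedField H))) [q.IsPrime] (hq : absNorm q = p) :
    q.LiesOver (Ideal.span {(p : ℤ)}) ∧ q.ramificationIdx ℤ * q.inertiaDeg ℤ = 1 := by
  have hmem : (p : 𝓞 (IntermediateField.fixedField H)) ∈ q := by
    have := Ideal.absNorm_mem q
    rwa [hq] at this
  haveI hlo : q.LiesOver (Ideal.span {(p : ℤ)}) := liesOver_of_mem hp q hmem
  refine ⟨hlo, ?_⟩
  have hf : q.inertiaDeg ℤ = 1 := by
    have h1 := Ideal.pow_inertiaDeg p q
    rw [hq] at h1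
    exact Nat.pow_right_injective hp.two_le (by simpa using h1)
  obtain ⟨⟨P, hP1, hP2⟩⟩ := (inferInstance : Nonempty (q.primesOver (𝓞 L)))
  haveI := hP1
  haveI := hP2
  have hPmem : (p : 𝓞 L) ∈ P := by
    have h2 : algebraMap (𝓞 (IntermediateField.fixedField H)) (𝓞 L)
        (p : 𝓞 (IntermediateField.fixedField H)) ∈ P := by
      rw [← Ideal.mem_comap, ← Ideal.under_def, ← Ideal.over_def P q]
      exact hmem
    simpa using h2
  have he := ramificationIdx_eq_one_of_not_mem_badPrimes L hp hpB P hPmem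
  rw [Ideal.ramificationIdx_tower (R := ℤ) q P] at he
  rw [hf, mul_one]
  exact Nat.eq_one_of_mul_eq_one_right he

/-- a prime `P` of `𝓞 L` over `p` with `D_P ≤ H` restricts to a prime of `𝓞 F` of norm `p` -/
lemma absNorm_under_eq {p : ℕ} (hp : p.Prime)
    (P : Ideal (𝓞 L)) [P.IsPrime] (hP : (p : 𝓞 L) ∈ P)
    (hle : stabilizer (L ≃ₐ[ℚ] L) P ≤ H) :
    (P.under (𝓞 (IntermediateField.fixedField H))).IsPrime ∧
      absNorm (P.under (𝓞 (IntermediateField.fixedField H))) = p := by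
  haveI := isGaloisGroup_ringOfIntegers L H
  haveI := span_isPrime hp
  haveI : P.LiesOver (Ideal.span {(p : ℤ)}) := liesOver_of_mem hp P hP
  haveI hqp : (P.under (𝓞 (IntermediateField.fixedField H))).IsPrime := inferInstance
  haveI : (P.under (𝓞 (IntermediateField.fixedField H))).LiesOver (Ideal.span {(p : ℤ)}) :=
    LiesOver.tower_bot P _ _
  refine ⟨hqp, ?_⟩
  have h1 := (ramificationIdx_mul_inertiaDeg_eq_one_iff (G := L ≃ₐ[ℚ] L) H
    (Ideal.span {(p : ℤ)}) (P.under (𝓞 (IntermediateField.fixedField H))) P).mpr hle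
  have hf : (P.under (𝓞 (IntermediateField.fixedField H))).inertiaDeg ℤ = 1 :=
    Nat.eq_one_of_mul_eq_one_left h1
  have h2 := Ideal.pow_inertiaDeg p (P.under (𝓞 (IntermediateField.fixedField H)))
  rw [hf, pow_one] at h2
  exact h2.symm

/-- **Piece A**, for primes not dividing the discriminant. -/
theorem count_of_not_mem_badPrimes {p : ℕ} (hp : p.Prime) (hpB : p ∉ badPrimes L) :
    primeCount (IntermediateField.fixedField H) p * Nat.card H = decompWeight L H p := by
  classical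
  haveI := isGaloisGroup_ringOfIntegers L H
  haveI := span_isPrime hp
  have hfinT : {q : Ideal (𝓞 (IntermediateField.fixedField H)) |
      q.IsPrime ∧ absNorm q = p}.Finite :=
    (Ideal.finite_setOf_absNorm_eq p).subset (fun q h => h.2)
  have hfinS : (primesLe L H p).Finite := by
    refine Set.Finite.subset
      (Algebra.QuasiFinite.finite_primesOver (S := 𝓞 L) (Ideal.span {(p : ℤ)})) ?_
    rintro P ⟨hP1, hP2, -⟩
    haveI := hP1
    exact ⟨hP1, liesOver_of_mem hp P hP2⟩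
  -- the left-hand side
  have hL : primeCount (IntermediateField.fixedField H) p = hfinT.toFinset.card := by
    rw [← Set.ncard_eq_toFinset_card _ hfinT, ← Nat.card_coe_set_eq]
    rfl
  -- the right-hand side
  have hR : decompWeight L H p = ∑ P ∈ hfinS.toFinset, Nat.card (decomp L P) := by
    rw [decompWeight, finsum_set_coe_eq_finsum_mem (f := fun P => Nat.card (decomp L P)),
      finsum_mem_eq_finite_toFinset_sum _ hfinS]
  rw [hL, hR]
  have hmaps : ∀ P ∈ hfinS.toFinset,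
      P.under (𝓞 (IntermediateField.fixedField H)) ∈ hfinT.toFinset := by
    intro P hP
    rw [Set.Finite.mem_toFinset] at hP ⊢
    obtain ⟨hP1, hP2, hP3⟩ := hP
    haveI := hP1
    exact absNorm_under_eq L H hp P hP2 hP3
  rw [← Finset.sum_fiberwise_of_maps_to hmaps, Finset.card_eq_sum_ones, Finset.sum_mul]
  refine Finset.sum_congr rfl fun q hq => ?_
  rw [Set.Finite.mem_toFinset] at hq
  obtain ⟨hq1, hq2⟩ := hq
  haveI := hq1
  obtain ⟨hlo, hef⟩ := ef_eq_one_of_absNorm_eq L H hp hpB q hq2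
  haveI := hlo
  rw [one_mul, ← finsum_card_stabilizer_primesOver (G := L ≃ₐ[ℚ] L) H (Ideal.span {(p : ℤ)}) q hef
    (Algebra.QuasiFinite.finite_primesOver (S := 𝓞 L) q) Set.Nonempty.of_subtype,
    ← finsum_mem_coe_finset]
  refine finsum_mem_congr ?_ (fun _ _ => rfl)
  ext P
  rw [Finset.coe_filter, Set.mem_setOf_eq, Set.Finite.mem_toFinset]
  constructor
  · intro hP
    have hP1 : P.IsPrime := hP.1
    have hP2 : P.LiesOver q := hP.2
    haveI := hP1
    haveI := hP2
    haveI : P.LiesOver (Ideal.span {(p : ℤ)}) := LiesOver.trans P q _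
    refine ⟨⟨hP1, mem_of_liesOver hp P, ?_⟩, (Ideal.over_def P q).symm⟩
    exact (ramificationIdx_mul_inertiaDeg_eq_one_iff (G := L ≃ₐ[ℚ] L) H
      (Ideal.span {(p : ℤ)}) q P).mp hef
  · rintro ⟨hP, hP4⟩
    exact ⟨hP.1, ⟨hP4.symm⟩⟩

/-- **Piece A** of the CHEB library: `Spec.CountStatement`. -/
theorem count : Spec.CountStatement := by
  intro L _ _ _ H
  exact ⟨badPrimes L, fun p hp hpB => count_of_not_mem_badPrimes L H hp hpB⟩

end main

end Fermat.Agent.Lib.Cheb.H764

end
-- ===== PACK-END Lib/Cheb/H764/Count.lean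

-- ===== PACK-BEGIN Lib/Cheb/H223/Crossing.lean
section


/-!
# Chebotarev field crossing: the Galois-theoretic part (helper223, shared lib CHEB)

Let `L / ℚ` be a finite Galois extension inside `ℚ̄` and `σ ∈ Gal(ℚ̄/ℚ)`.  We produce a prime `ℓ`
(as large as we like), a primitive `ℓ`-th root of unity `ζ` and `g ∈ Gal(ℚ̄/ℚ)` such that
`g = σ` on `L`, `g ζ = ζ ^ t`, and every power of `g` fixing `ζ` fixes `L` pointwise.
-/

set_option autoImplicit false
set_option linter.style.haveILetI false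


namespace Fermat.Agent.Lib.Cheb.H223

open IntermediateField Polynomial

set_option backward.isDefEq.respectTransparency false in
/-- Two cyclotomic fields of distinct prime levels inside a field of characteristic zero
meet in `ℚ`. -/
theorem cyclo_inf_eq_bot {K : Type*} [Field K] [CharZero K] [Algebra.IsAlgebraic ℚ K]
    {p₁ p₂ : ℕ} (hp₁ : p₁.Prime) (hp₂ : p₂.Prime) (hne : p₁ ≠ p₂) {ζ₁ ζ₂ : K}
    (h₁ : IsPrimitiveRoot ζ₁ p₁) (h₂ : IsPrimitiveRoot ζ₂ p₂) :
    ℚ⟮ζ₁⟯ ⊓ ℚ⟮ζ₂⟯ = ⊥ := by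
  haveI : NeZero p₁ := ⟨hp₁.ne_zero⟩
  haveI : NeZero p₂ := ⟨hp₂.ne_zero⟩
  haveI : Algebra.IsIntegral ℚ K := Algebra.IsAlgebraic.isIntegral
  haveI c₁ : IsCyclotomicExtension {p₁} ℚ ℚ⟮ζ₁⟯ := h₁.intermediateField_adjoin_isCyclotomicExtension ℚ
  haveI c₂ : IsCyclotomicExtension {p₂} ℚ ℚ⟮ζ₂⟯ := h₂.intermediateField_adjoin_isCyclotomicExtension ℚ
  haveI : FiniteDimensional ℚ ℚ⟮ζ₁⟯ := IsCyclotomicExtension.finiteDimensional {p₁} ℚ _
  haveI : FiniteDimensional ℚ ℚ⟮ζ₂⟯ := IsCyclotomicExtension.finiteDimensional {p₂} ℚ _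
  have hcop : Nat.Coprime p₁ p₂ := (Nat.coprime_primes hp₁ hp₂).mpr hne
  haveI : NeZero (p₁.lcm p₂) := ⟨Nat.lcm_ne_zero hp₁.ne_zero hp₂.ne_zero⟩
  haveI c₃ : IsCyclotomicExtension {p₁.lcm p₂} ℚ ↥(ℚ⟮ζ₁⟯ ⊔ ℚ⟮ζ₂⟯) :=
    IntermediateField.isCyclotomicExtension_lcm_sup ℚ K p₁ p₂ ℚ⟮ζ₁⟯ ℚ⟮ζ₂⟯
  have f₁ : Module.finrank ℚ ℚ⟮ζ₁⟯ = p₁.totient :=
    IsCyclotomicExtension.finrank _ (cyclotomic.irreducible_rat hp₁.pos)
  have f₂ : Module.finrank ℚ ℚ⟮ζ₂⟯ = p₂.totient :=
    IsCyclotomicExtension.finrank _ (cyclotomic.irreducible_rat hp₂.pos)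
  have f₃ : Module.finrank ℚ ↥(ℚ⟮ζ₁⟯ ⊔ ℚ⟮ζ₂⟯) = (p₁.lcm p₂).totient :=
    IsCyclotomicExtension.finrank _ (cyclotomic.irreducible_rat (Nat.pos_of_ne_zero (NeZero.ne _)))
  have hld : (ℚ⟮ζ₁⟯).LinearDisjoint ℚ⟮ζ₂⟯ := by
    apply LinearDisjoint.of_finrank_sup
    rw [f₁, f₂, f₃, hcop.lcm_eq_mul, Nat.totient_mul hcop]
  exact hld.inf_eq_bot

/-- For a finite extension `L / ℚ` inside `K` there are arbitrarily large primes `ℓ ≡ 1 (mod n)`
whose cyclotomic field meets `L` in `ℚ`. -/
theorem exists_prime_disjoint {K : Type*} [Field K] [CharZero K] [Algebra.IsAlgebraic ℚ K]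
    (hroots : ∀ m : ℕ, m ≠ 0 → ∃ ζ : K, IsPrimitiveRoot ζ m)
    (L : IntermediateField ℚ K) [FiniteDimensional ℚ L] {n : ℕ} (hn : n ≠ 0) (B : ℕ) :
    ∃ (ℓ : ℕ) (ζ : K), ℓ.Prime ∧ B < ℓ ∧ ℓ ≡ 1 [MOD n] ∧ IsPrimitiveRoot ζ ℓ ∧
      L ⊓ ℚ⟮ζ⟯ = ⊥ := by
  classical
  have hfin : Finite (IntermediateField ℚ L) :=
    Field.finite_intermediateField_of_exists_primitive_element ℚ L
      (Field.exists_primitive_element ℚ L)
  -- choose primitive roots
  have hroots' : ∀ m : ℕ, ∃ ζ : K, m ≠ 0 → IsPrimitiveRoot ζ m := fun m => by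
    by_cases hm : m = 0
    · exact ⟨1, fun h => absurd hm h⟩
    · obtain ⟨ζ, hζ⟩ := hroots m hm
      exact ⟨ζ, fun _ => hζ⟩
  choose z hz using hroots'
  let f : ℕ → IntermediateField ℚ L := fun p =>
    IntermediateField.restrict (inf_le_left : L ⊓ ℚ⟮z p⟯ ≤ L)
  have hinf : ({p : ℕ | p.Prime ∧ p ≡ 1 [MOD n]} \ Set.Iic B).Infinite :=
    (Nat.infinite_setOfPred_prime_modEq_one hn).sdiff (Set.finite_Iic B)
  obtain ⟨p₁, hp₁, p₂, hp₂, hne, hf⟩ :=
    hinf.exists_ne_map_eq_of_mapsTo (f := f) (t := Set.univ) (fun _ _ => Set.mem_univ _)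
      Set.finite_univ
  have hf' : L ⊓ ℚ⟮z p₁⟯ = L ⊓ ℚ⟮z p₂⟯ := by
    have := congrArg IntermediateField.lift hf
    simpa only [f, IntermediateField.lift_restrict] using this
  refine ⟨p₁, z p₁, hp₁.1.1, ?_, hp₁.1.2, hz p₁ hp₁.1.1.ne_zero, ?_⟩
  · have := hp₁.2
    simpa using this
  · have h1 : L ⊓ ℚ⟮z p₁⟯ ≤ ℚ⟮z p₁⟯ ⊓ ℚ⟮z p₂⟯ :=
      le_inf inf_le_right (hf' ▸ inf_le_right)
    rw [cyclo_inf_eq_bot hp₁.1.1 hp₂.1.1 hne (hz p₁ hp₁.1.1.ne_zero)
      (hz p₂ hp₂.1.1.ne_zero)] at h1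
    exact le_bot_iff.mp h1

/-- `ℚ̄ / ℚ` is Galois. -/
theorem isGalois_Qb : IsGalois ℚ (AlgebraicClosure ℚ) := by
  haveI : Algebra.IsAlgebraic ℚ (AlgebraicClosure ℚ) := AlgebraicClosure.isAlgebraic ℚ
  haveI : IsAlgClosure ℚ (AlgebraicClosure ℚ) := ⟨inferInstance, inferInstance⟩
  haveI : Normal ℚ (AlgebraicClosure ℚ) := IsAlgClosure.normal ℚ (AlgebraicClosure ℚ)
  exact isGalois_iff.mpr ⟨inferInstance, inferInstance⟩

/-- If `L ∩ C = ℚ` with `C / ℚ` finite Galois, every pair `(σ|_L, τ)` with `τ ∈ Gal(C/ℚ)` is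
induced by an element of `Gal(ℚ̄/ℚ)`. -/
theorem exists_common_extension (L C : IntermediateField ℚ (AlgebraicClosure ℚ))
    [FiniteDimensional ℚ C] [IsGalois ℚ C] (h : L ⊓ C = ⊥)
    (σ : AlgebraicClosure ℚ ≃ₐ[ℚ] AlgebraicClosure ℚ) (τ : C ≃ₐ[ℚ] C) :
    ∃ g : AlgebraicClosure ℚ ≃ₐ[ℚ] AlgebraicClosure ℚ,
      (∀ x ∈ L, g x = σ x) ∧ AlgEquiv.restrictNormalHom C g = τ := by
  haveI := isGalois_Qb
  set H : Subgroup (C ≃ₐ[ℚ] C) := L.fixingSubgroup.map (AlgEquiv.restrictNormalHom C) with hH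
  have hfix : IntermediateField.fixedField H = ⊥ := by
    rw [eq_bot_iff]
    intro x hx
    rw [IntermediateField.mem_fixedField_iff] at hx
    have hxL : (x : AlgebraicClosure ℚ) ∈ L := by
      rw [← InfiniteGalois.fixedField_fixingSubgroup L, IntermediateField.mem_fixedField_iff]
      intro f hf
      have := hx (AlgEquiv.restrictNormalHom C f) (Subgroup.mem_map_of_mem _ hf)
      have h2 := congrArg (Subtype.val) this
      exact (AlgEquiv.restrictNormal_commutes f C x).symm.trans h2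
    have hxLC : (x : AlgebraicClosure ℚ) ∈ L ⊓ C := ⟨hxL, x.2⟩
    rw [h, IntermediateField.mem_bot] at hxLC
    obtain ⟨q, hq⟩ := hxLC
    rw [IntermediateField.mem_bot]
    exact ⟨q, Subtype.ext hq⟩
  have htop : H = ⊤ := by
    rw [← IntermediateField.fixingSubgroup_fixedField H, hfix,
      IntermediateField.fixingSubgroup_bot]
  have hmem : (AlgEquiv.restrictNormalHom C σ)⁻¹ * τ ∈ H := htop ▸ Subgroup.mem_top _
  obtain ⟨f, hf, hfτ⟩ := Subgroup.mem_map.mp hmem
  refine ⟨σ * f, fun x hx => ?_, ?_⟩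
  · rw [AlgEquiv.mul_apply, (IntermediateField.mem_fixingSubgroup_iff L f).mp hf x hx]
  · rw [map_mul, hfτ, mul_inv_cancel_left]

/-- primitive roots of unity exist in `ℚ̄` -/
theorem exists_primitiveRoot_Qb (m : ℕ) (hm : m ≠ 0) :
    ∃ ζ : AlgebraicClosure ℚ, IsPrimitiveRoot ζ m := by
  haveI : NeZero m := ⟨hm⟩
  haveI : NeZero (m : AlgebraicClosure ℚ) := ⟨by exact_mod_cast hm⟩
  exact HasEnoughRootsOfUnity.exists_primitiveRoot _ m

/-- a unit of prescribed order dividing `ℓ - 1` modulo a prime `ℓ` -/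
theorem exists_unit_orderOf {ℓ n : ℕ} (hℓ : ℓ.Prime) (h : ℓ ≡ 1 [MOD n]) :
    ∃ u : (ZMod ℓ)ˣ, orderOf u = n := by
  haveI : Fact ℓ.Prime := ⟨hℓ⟩
  obtain ⟨r, hr⟩ := IsCyclic.exists_ofOrder_eq_natCard (α := (ZMod ℓ)ˣ)
  have hcard : Nat.card (ZMod ℓ)ˣ = ℓ - 1 := by
    rw [Nat.card_eq_fintype_card, ZMod.card_units_eq_totient, Nat.totient_prime hℓ]
  have hdvd : n ∣ ℓ - 1 := (Nat.modEq_iff_dvd' hℓ.one_lt.le).mp h.symm
  obtain ⟨c, hc⟩ := hdvd
  have hc0 : c ≠ 0 := by
    rintro rfl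
    have := hℓ.one_lt
    omega
  refine ⟨r ^ c, ?_⟩
  rw [orderOf_pow_of_dvd hc0 (by rw [hr, hcard, hc]; exact dvd_mul_left c n), hr, hcard, hc]
  exact Nat.mul_div_cancel _ (Nat.pos_of_ne_zero hc0)

set_option backward.isDefEq.respectTransparency false in
/-- **Field crossing.** -/
theorem exists_crossing (L : IntermediateField ℚ (AlgebraicClosure ℚ)) [FiniteDimensional ℚ L]
    [IsGalois ℚ L] (σ : AlgebraicClosure ℚ ≃ₐ[ℚ] AlgebraicClosure ℚ) (B : ℕ) :
    ∃ (ℓ : ℕ) (ζ : AlgebraicClosure ℚ) (g : AlgebraicClosure ℚ ≃ₐ[ℚ] AlgebraicClosure ℚ)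
      (t : ℕ), ℓ.Prime ∧ B < ℓ ∧ IsPrimitiveRoot ζ ℓ ∧ (∀ x ∈ L, g x = σ x) ∧ g ζ = ζ ^ t ∧
        ∀ k : ℕ, ζ ^ t ^ k = ζ → ∀ x ∈ L, (g ^ k) x = x := by
  haveI : Algebra.IsAlgebraic ℚ (AlgebraicClosure ℚ) := AlgebraicClosure.isAlgebraic ℚ
  haveI : Algebra.IsIntegral ℚ (AlgebraicClosure ℚ) := Algebra.IsAlgebraic.isIntegral
  set s₀ := AlgEquiv.restrictNormalHom L σ with hs₀
  set n := orderOf s₀
  have hn0 : n ≠ 0 := (orderOf_pos s₀).ne'
  obtain ⟨ℓ, ζ, hℓ, hB, hmod, hζ, hdisj⟩ := exists_prime_disjoint exists_primitiveRoot_Qb L hn0 B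
  haveI : NeZero ℓ := ⟨hℓ.ne_zero⟩
  haveI : Fact ℓ.Prime := ⟨hℓ⟩
  haveI hcyc : IsCyclotomicExtension {ℓ} ℚ ℚ⟮ζ⟯ :=
    hζ.intermediateField_adjoin_isCyclotomicExtension ℚ
  haveI : NumberField ℚ⟮ζ⟯ := IsCyclotomicExtension.numberField {ℓ} ℚ _
  haveI : IsGalois ℚ ℚ⟮ζ⟯ := IsCyclotomicExtension.isGalois {ℓ} ℚ _
  haveI : FiniteDimensional ℚ ℚ⟮ζ⟯ := IsCyclotomicExtension.finiteDimensional {ℓ} ℚ _
  obtain ⟨u, hu⟩ := exists_unit_orderOf hℓ hmod
  set τ := (IsCyclotomicExtension.Rat.galEquivZMod ℓ ℚ⟮ζ⟯).symm u with hτ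
  obtain ⟨g, hgL, hgC⟩ := exists_common_extension L ℚ⟮ζ⟯ hdisj σ τ
  set t := (u : ZMod ℓ).val with ht
  have hgζ : g ζ = ζ ^ t := by
    let ζC : ℚ⟮ζ⟯ := ⟨ζ, mem_adjoin_simple_self ℚ ζ⟩
    have h1 : ζC ^ ℓ = 1 := Subtype.ext (by simpa using hζ.pow_eq_one)
    have h2 := IsCyclotomicExtension.Rat.galEquivZMod_apply_of_pow_eq ℓ ℚ⟮ζ⟯ τ h1
    rw [hτ, MulEquiv.apply_symm_apply] at h2
    have h3 := congrArg Subtype.val h2
    rw [← hτ, ← hgC] at h3
    have h4 := AlgEquiv.restrictNormal_commutes g ℚ⟮ζ⟯ ζC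
    have h3' : (((AlgEquiv.restrictNormalHom ↥ℚ⟮ζ⟯) g) ζC : AlgebraicClosure ℚ) = ζ ^ t := by
      simpa using h3
    exact h4.symm.trans h3'
  refine ⟨ℓ, ζ, g, t, hℓ, hB, hζ, hgL, hgζ, ?_⟩
  intro k hk x hx
  -- `t ^ k ≡ 1 mod ℓ`
  have ht0 : t ≠ 0 := by
    intro h0
    have : (u : ZMod ℓ) = 0 := (ZMod.val_eq_zero _).mp h0
    exact u.ne_zero this
  have htk : 1 ≤ t ^ k := Nat.one_le_pow _ _ (Nat.pos_of_ne_zero ht0)
  have h1 : ζ ^ (t ^ k - 1) = 1 := by
    have : ζ * ζ ^ (t ^ k - 1) = ζ * 1 := by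
      rw [← pow_succ', Nat.sub_add_cancel htk, mul_one, hk]
    exact mul_left_cancel₀ (hζ.ne_zero hℓ.ne_zero) this
  have h2 : ℓ ∣ t ^ k - 1 := (hζ.pow_eq_one_iff_dvd _).mp h1
  have h3 : ((t : ZMod ℓ)) ^ k = 1 := by
    have : ((t ^ k - 1 : ℕ) : ZMod ℓ) = 0 := (ZMod.natCast_eq_zero_iff _ _).mpr h2
    rw [Nat.cast_sub htk] at this
    push_cast at this
    exact sub_eq_zero.mp this
  have h4 : u ^ k = 1 := by
    apply Units.ext
    rw [Units.val_pow_eq_pow_val, Units.val_one, ← h3, ht, ZMod.natCast_zmod_val]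
  have h5 : n ∣ k := by rw [← hu]; exact orderOf_dvd_iff_pow_eq_one.mpr h4
  have h6 : s₀ ^ k = 1 := orderOf_dvd_iff_pow_eq_one.mp h5
  have h7 : AlgEquiv.restrictNormalHom L g = s₀ := by
    apply AlgEquiv.ext
    intro y
    apply Subtype.ext
    have e1 := AlgEquiv.restrictNormal_commutes g L y
    have e2 := AlgEquiv.restrictNormal_commutes σ L y
    exact e1.trans ((hgL y y.2).trans e2.symm)
  have h8 : AlgEquiv.restrictNormalHom L (g ^ k) = 1 := by rw [map_pow, h7, h6]
  have e3 := AlgEquiv.restrictNormal_commutes (g ^ k) L ⟨x, hx⟩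
  have e4 : (AlgEquiv.restrictNormalHom L (g ^ k)) ⟨x, hx⟩ = ⟨x, hx⟩ := by rw [h8]; rfl
  exact e3.symm.trans (congrArg Subtype.val e4)

end Fermat.Agent.Lib.Cheb.H223

end
-- ===== PACK-END Lib/Cheb/H223/Crossing.lean

-- ===== PACK-BEGIN Lib/Cheb/H223/Cross.lean
section




/-!
# Chebotarev field crossing in the `Spec` shape (helper223, shared lib CHEB)

`cross : Spec.CrossStatement`, i.e. `FrobStatement → CycStatement → ChebFiniteStatement`.
-/

set_option autoImplicit false
set_option linter.style.haveILetI false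

namespace Fermat.Agent.Lib.Cheb.H223

open NumberField IntermediateField
open Fermat.Agent.Lib.Cheb.Spec

/-- Pulling back an arithmetic Frobenius along an equivariant embedding of number fields. -/
theorem isArithFrobAt_comap {L L' : Type} [Field L] [NumberField L] [Field L'] [NumberField L']
    (ψ : L →+* L') (σ : L ≃ₐ[ℚ] L) (g' : L' ≃ₐ[ℚ] L') (hcomm : ∀ x, ψ (σ x) = g' (ψ x))
    (P' : Ideal (𝓞 L')) (h : IsArithFrobAt ℤ g' P') :
    IsArithFrobAt ℤ σ (P'.comap (RingOfIntegers.mapRingHom ψ)) := by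
  intro x
  have hx := h (RingOfIntegers.mapRingHom ψ x)
  have e1 : RingOfIntegers.mapRingHom ψ (σ • x) = g' • (RingOfIntegers.mapRingHom ψ x) := by
    apply RingOfIntegers.ext
    exact hcomm x
  have e2 : (P'.comap (RingOfIntegers.mapRingHom ψ)).under ℤ = P'.under ℤ := by
    ext n
    simp [Ideal.under, Ideal.mem_comap]
  rw [Ideal.mem_comap, e2]
  change RingOfIntegers.mapRingHom ψ (σ • x - x ^ Nat.card (ℤ ⧸ P'.under ℤ)) ∈ P'
  rw [map_sub, map_pow, e1]
  exact hx

/-- powers of `g` act on `ζ` by powers of `t` -/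
theorem pow_apply_of_apply_eq_pow {K : Type*} [Field K] [Algebra ℚ K] (g : K ≃ₐ[ℚ] K) {ζ : K}
    {t : ℕ} (h : g ζ = ζ ^ t) (k : ℕ) : (g ^ k) ζ = ζ ^ t ^ k := by
  induction k with
  | zero => simp
  | succ k ih =>
    rw [pow_succ', AlgEquiv.mul_apply, ih, map_pow, h, ← pow_mul, ← pow_succ']

/-- an automorphism fixing `L` pointwise and `ζ` fixes `L ⊔ ℚ⟮ζ⟯` pointwise -/
theorem apply_eq_of_mem_sup {K : Type*} [Field K] [Algebra ℚ K] (f : K ≃ₐ[ℚ] K)
    (L : IntermediateField ℚ K) (ζ : K) (hL : ∀ x ∈ L, f x = x) (hζ : f ζ = ζ) :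
    ∀ x ∈ L ⊔ ℚ⟮ζ⟯, f x = x := by
  let E : IntermediateField ℚ K :=
    { carrier := {x | f x = x}
      mul_mem' := fun {a b} ha hb => by
        simp only [Set.mem_ofPred_eq] at ha hb ⊢
        rw [map_mul, ha, hb]
      one_mem' := map_one f
      add_mem' := fun {a b} ha hb => by
        simp only [Set.mem_ofPred_eq] at ha hb ⊢
        rw [map_add, ha, hb]
      zero_mem' := map_zero f
      algebraMap_mem' := fun r => f.commutes r
      inv_mem' := fun x hx => by
        simp only [Set.mem_ofPred_eq] at hx ⊢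
        rw [map_inv₀, hx] }
  have h1 : L ≤ E := fun x hx => hL x hx
  have h2 : ℚ⟮ζ⟯ ≤ E := by
    rw [IntermediateField.adjoin_simple_le_iff]
    exact hζ
  intro x hx
  exact (sup_le h1 h2) hx

set_option backward.isDefEq.respectTransparency false in
/-- **Field crossing** in the `Spec` shape. -/
theorem cross : CrossStatement := by
  intro hF hC L _ _ _ σ S
  haveI := isGalois_Qb
  haveI : Algebra.IsAlgebraic ℚ Qb := AlgebraicClosure.isAlgebraic ℚ
  obtain ⟨BL, hBL⟩ := hF L
  -- embed `L` into `ℚ̄`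
  let φ : L →ₐ[ℚ] Qb := IsAlgClosed.lift
  let L₀ : IntermediateField ℚ Qb := φ.fieldRange
  let e : L ≃ₐ[ℚ] L₀ := AlgEquiv.ofInjectiveField φ
  haveI : FiniteDimensional ℚ L₀ := e.toLinearEquiv.finiteDimensional
  haveI : IsGalois ℚ L₀ := IsGalois.of_algEquiv e
  have heφ : ∀ x : L, ((e x : L₀) : Qb) = φ x := fun x => rfl
  -- transport `σ` and lift it to `ℚ̄`
  let σ₀ : L₀ ≃ₐ[ℚ] L₀ := (e.symm.trans σ).trans e
  obtain ⟨σ', hσ'⟩ := AlgEquiv.restrictNormalHom_surjective (F := ℚ) (K₁ := L₀) Qb σ₀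
  have hσφ : ∀ x : L, σ' (φ x) = φ (σ x) := by
    intro x
    have h1 := AlgEquiv.restrictNormal_commutes σ' L₀ (e x)
    have h2 : (AlgEquiv.restrictNormalHom L₀ σ') (e x) = σ₀ (e x) := by rw [hσ']
    have h3 : σ₀ (e x) = e (σ x) := by
      simp [σ₀]
    have h4 := congrArg (Subtype.val) (h2.trans h3)
    exact h1.symm.trans h4
  -- crossing
  obtain ⟨ℓ, ζ, g, t, hℓ, -, hζ, hgL, hgζ, hkey⟩ := exists_crossing L₀ σ' 0
  haveI : Algebra.IsIntegral ℚ Qb := Algebra.IsAlgebraic.isIntegral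
  haveI : NeZero ℓ := ⟨hℓ.ne_zero⟩
  haveI hcyc : IsCyclotomicExtension {ℓ} ℚ ℚ⟮ζ⟯ :=
    hζ.intermediateField_adjoin_isCyclotomicExtension ℚ
  haveI : FiniteDimensional ℚ ℚ⟮ζ⟯ := IsCyclotomicExtension.finiteDimensional {ℓ} ℚ _
  haveI : IsGalois ℚ ℚ⟮ζ⟯ := IsCyclotomicExtension.isGalois {ℓ} ℚ _
  let L' : IntermediateField ℚ Qb := L₀ ⊔ ℚ⟮ζ⟯
  haveI : FiniteDimensional ℚ L' := IntermediateField.finiteDimensional_sup L₀ ℚ⟮ζ⟯
  haveI : NumberField L' := ⟨⟩
  haveI : Normal ℚ L' := IntermediateField.normal_sup ℚ Qb L₀ ℚ⟮ζ⟯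
  haveI : IsGalois ℚ L' := isGalois_iff.mpr ⟨inferInstance, inferInstance⟩
  have hζL' : ζ ∈ L' := (le_sup_right : ℚ⟮ζ⟯ ≤ L') (mem_adjoin_simple_self ℚ ζ)
  let ζ' : L' := ⟨ζ, hζL'⟩
  have hζ' : IsPrimitiveRoot ζ' ℓ :=
    IsPrimitiveRoot.of_map_of_injective (f := L'.val) (by simpa [ζ'] using hζ) L'.val.injective
  let g' : L' ≃ₐ[ℚ] L' := AlgEquiv.restrictNormalHom L' g
  have hg'val : ∀ (k : ℕ) (y : L'), (((g' ^ k) y : L') : Qb) = (g ^ k) (y : Qb) := by
    intro k y
    have h1 : g' ^ k = AlgEquiv.restrictNormalHom L' (g ^ k) := (map_pow _ g k).symm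
    rw [h1]
    exact AlgEquiv.restrictNormal_commutes (g ^ k) L' y
  have hcond : ∀ k : ℕ, (g' ^ k) ζ' = ζ' → g' ^ k = 1 := by
    intro k hk
    have h1 : (g ^ k) ζ = ζ := by
      have := congrArg Subtype.val hk
      rw [hg'val k ζ'] at this
      exact this
    have h2 : ζ ^ t ^ k = ζ := by rw [← pow_apply_of_apply_eq_pow g hgζ k]; exact h1
    have h3 := apply_eq_of_mem_sup (g ^ k) L₀ ζ (hkey k h2) h1
    apply AlgEquiv.ext
    intro y
    apply Subtype.ext
    rw [hg'val k y]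
    exact h3 y y.2
  obtain ⟨p, P', hp, hpS, hP', hpP', -, hfrob⟩ := hC L' ℓ ζ' hℓ.pos hζ' g' hcond (S ∪ BL)
  -- pull back to `L`
  have hφL' : ∀ x : L, φ x ∈ L' := fun x => (le_sup_left : L₀ ≤ L') (e x).2
  let ψ : L →+* L' := φ.toRingHom.codRestrict L'.toSubfield hφL'
  have hψval : ∀ x : L, ((ψ x : L') : Qb) = φ x := fun x => rfl
  have hcomm : ∀ x : L, ψ (σ x) = g' (ψ x) := by
    intro x
    apply Subtype.ext
    have h1 := hg'val 1 (ψ x)
    rw [pow_one, pow_one] at h1
    rw [h1, hψval, hψval, hgL (φ x) (e x).2, hσφ]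
  have hpS' : p ∉ S := fun h => hpS (Finset.mem_union_left _ h)
  have hpB : p ∉ BL := fun h => hpS (Finset.mem_union_right _ h)
  let P : Ideal (𝓞 L) := P'.comap (RingOfIntegers.mapRingHom ψ)
  have hP : P.IsPrime := Ideal.comap_isPrime _ _
  have hpP : (p : 𝓞 L) ∈ P := by
    rw [Ideal.mem_comap, map_natCast]
    exact hpP'
  exact ⟨p, P, hp, hpS', hP, hpP, (hBL p hp hpB P hP hpP).1,
    isArithFrobAt_comap ψ σ g' hcomm P' hfrob⟩

end Fermat.Agent.Lib.Cheb.H223

end
-- ===== PACK-END Lib/Cheb/H223/Cross.lean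

-- ===== PACK-BEGIN Lib/ChebQ/H968/Count.lean
section


/-!
# CHEB-Q / CROSS-Q, combinatorial part (helper968)

In a finite cyclic group `U` whose order is divisible by `n ^ k` (`k ≥ 1`), all but a proportion
`≤ n / 2 ^ k` of the elements have order divisible by `n`.
-/

set_option autoImplicit false

namespace Fermat.Agent.Lib.ChebQ.H968

/-- If `d ∣ N`, `n ^ k ∣ N`, `1 ≤ k` and `¬ n ∣ d`, then some prime `q ∣ n` has `d ∣ N / q ^ k`. -/
theorem exists_prime_dvd_div_pow {d N n k : ℕ} (hN : N ≠ 0) (hk : 1 ≤ k) (hdN : d ∣ N)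
    (hnN : n ^ k ∣ N) (hnd : ¬ n ∣ d) :
    ∃ q : ℕ, q.Prime ∧ q ∣ n ∧ q ^ k ∣ N ∧ d ∣ N / q ^ k := by
  have hd0 : d ≠ 0 := fun h => hN (by simpa [h] using hdN)
  have hn0 : n ≠ 0 := by
    rintro rfl
    rw [zero_pow (by omega)] at hnN
    exact hN (zero_dvd_iff.mp hnN)
  -- a prime `q` with `v_q(d) < v_q(n)`
  obtain ⟨q, hq⟩ : ∃ q, d.factorization q < n.factorization q := by
    by_contra hcon
    apply hnd
    rw [← Nat.factorization_le_iff_dvd hn0 hd0]
    intro q
    exact not_lt.mp (fun h => hcon ⟨q, h⟩)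
  have hqp : q.Prime := by
    by_contra hnp
    rw [Nat.factorization_eq_zero_of_not_prime n hnp] at hq
    exact absurd hq (Nat.not_lt_zero _)
  have hqn : q ∣ n := by
    have : 0 < n.factorization q := lt_of_le_of_lt (Nat.zero_le _) hq
    exact Nat.dvd_of_factorization_pos (by omega)
  have hqk : q ^ k ∣ N := (pow_dvd_pow_of_dvd hqn k).trans hnN
  refine ⟨q, hqp, hqn, hqk, ?_⟩
  have hdiv0 : N / q ^ k ≠ 0 := by
    intro h
    have hpos : 0 < q ^ k := pow_pos hqp.pos k
    have := Nat.div_mul_cancel hqk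
    rw [h, zero_mul] at this
    exact hN this.symm
  rw [← Nat.factorization_le_iff_dvd hd0 hdiv0]
  intro r
  rw [Nat.factorization_div hqk]
  simp only [Finsupp.coe_tsub, Pi.sub_apply]
  have hdr : d.factorization r ≤ N.factorization r :=
    (Nat.factorization_le_iff_dvd hd0 hN).mpr hdN r
  by_cases hrq : r = q
  · subst hrq
    have h1 : (n ^ k).factorization r ≤ N.factorization r :=
      (Nat.factorization_le_iff_dvd (pow_ne_zero k hn0) hN).mpr hnN r
    rw [Nat.factorization_pow] at h1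
    simp only [Finsupp.coe_smul, Pi.smul_apply, smul_eq_mul] at h1
    rw [Nat.Prime.factorization_pow hqp]
    simp only [Finsupp.single_eq_same]
    -- v(d) + 1 ≤ v(n), k * v(n) ≤ v(N)
    have h2 : k * (d.factorization r + 1) ≤ N.factorization r :=
      le_trans (Nat.mul_le_mul_left k hq) h1
    have h3 : d.factorization r + k ≤ k * (d.factorization r + 1) := by
      have : d.factorization r ≤ k * d.factorization r := Nat.le_mul_of_pos_left _ (by omega)
      linarith [Nat.mul_add k (d.factorization r) 1]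
    omega
  · rw [Nat.Prime.factorization_pow hqp]
    simp only [Finsupp.single_apply]
    rw [if_neg (fun h => hrq h.symm)]
    simpa using hdr

variable {U : Type*} [Group U] [Fintype U] [DecidableEq U]

/-- In a finite cyclic group of order divisible by `n ^ k`, `k ≥ 1`, the number of elements whose
order is not divisible by `n` is at most `n * (|U| / 2 ^ k)`. -/
theorem card_filter_not_dvd_orderOf_le [IsCyclic U] {n k : ℕ} (hk : 1 ≤ k)
    (hnN : n ^ k ∣ Fintype.card U) :
    (Finset.univ.filter (fun t : U => ¬ n ∣ orderOf t)).card ≤ n * (Fintype.card U / 2 ^ k) := by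
  classical
  set N := Fintype.card U with hNdef
  have hN : N ≠ 0 := Fintype.card_ne_zero
  by_cases hn0 : n = 0
  · subst hn0
    rw [zero_pow (by omega)] at hnN
    exact absurd (zero_dvd_iff.mp hnN) hN
  -- the bad set is covered by the sets `{t | t ^ (N / q ^ k) = 1}`, `q ∈ n.primeFactors`
  have hcover : Finset.univ.filter (fun t : U => ¬ n ∣ orderOf t) ⊆
      n.primeFactors.biUnion (fun q => Finset.univ.filter (fun t : U => t ^ (N / q ^ k) = 1)) := by
    intro t ht
    rw [Finset.mem_filter] at ht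
    obtain ⟨q, hqp, hqn, -, hd⟩ :=
      exists_prime_dvd_div_pow hN hk (orderOf_dvd_card (x := t)) hnN ht.2
    rw [Finset.mem_biUnion]
    refine ⟨q, Nat.mem_primeFactors.mpr ⟨hqp, hqn, hn0⟩, ?_⟩
    rw [Finset.mem_filter]
    exact ⟨Finset.mem_univ _, orderOf_dvd_iff_pow_eq_one.mp hd⟩
  refine (Finset.card_le_card hcover).trans (Finset.card_biUnion_le.trans ?_)
  have hle : ∀ q ∈ n.primeFactors,
      (Finset.univ.filter (fun t : U => t ^ (N / q ^ k) = 1)).card ≤ N / 2 ^ k := by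
    intro q hq
    have hqp : q.Prime := (Nat.mem_primeFactors.mp hq).1
    have hqn : q ∣ n := (Nat.mem_primeFactors.mp hq).2.1
    have hqk : q ^ k ∣ N := (pow_dvd_pow_of_dvd hqn k).trans hnN
    have hpos : 0 < N / q ^ k :=
      Nat.div_pos (Nat.le_of_dvd (Nat.pos_of_ne_zero hN) hqk) (pow_pos hqp.pos k)
    refine (IsCyclic.card_pow_eq_one_le hpos).trans ?_
    exact Nat.div_le_div_left (Nat.pow_le_pow_left hqp.two_le k) (pow_pos (by norm_num) k)
  calc ∑ q ∈ n.primeFactors, (Finset.univ.filter (fun t : U => t ^ (N / q ^ k) = 1)).card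
      ≤ ∑ _q ∈ n.primeFactors, N / 2 ^ k := Finset.sum_le_sum hle
    _ = n.primeFactors.card * (N / 2 ^ k) := by rw [Finset.sum_const, smul_eq_mul]
    _ ≤ n * (N / 2 ^ k) := by
        apply Nat.mul_le_mul_right
        calc n.primeFactors.card ≤ (Finset.Icc 1 n).card := by
              apply Finset.card_le_card
              intro q hq
              have hqp : q.Prime := (Nat.mem_primeFactors.mp hq).1
              have hqn : q ∣ n := (Nat.mem_primeFactors.mp hq).2.1
              exact Finset.mem_Icc.mpr ⟨hqp.one_lt.le, Nat.le_of_dvd (Nat.pos_of_ne_zero hn0) hqn⟩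
          _ = n := by simp

/-- Real form: the good elements (order divisible by `n`) are at least `(1 - n / 2 ^ k) |U|`. -/
theorem card_filter_dvd_orderOf_ge [IsCyclic U] {n k : ℕ} (hk : 1 ≤ k)
    (hnN : n ^ k ∣ Fintype.card U) :
    (1 - (n : ℝ) / 2 ^ k) * (Fintype.card U : ℝ) ≤
      ((Finset.univ.filter (fun t : U => n ∣ orderOf t)).card : ℝ) := by
  classical
  have h1 := card_filter_not_dvd_orderOf_le (U := U) hk hnN
  have h2 : (Finset.univ.filter (fun t : U => n ∣ orderOf t)).card +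
      (Finset.univ.filter (fun t : U => ¬ n ∣ orderOf t)).card = Fintype.card U := by
    rw [Finset.card_filter_add_card_filter_not, Finset.card_univ]
  have h3 : ((Fintype.card U / 2 ^ k : ℕ) : ℝ) ≤ (Fintype.card U : ℝ) / 2 ^ k := by
    rw [le_div_iff₀ (by positivity)]
    have := Nat.div_mul_le_self (Fintype.card U) (2 ^ k)
    exact_mod_cast this
  have h4 : ((Finset.univ.filter (fun t : U => ¬ n ∣ orderOf t)).card : ℝ) ≤
      (n : ℝ) * ((Fintype.card U : ℝ) / 2 ^ k) := by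
    calc ((Finset.univ.filter (fun t : U => ¬ n ∣ orderOf t)).card : ℝ)
        ≤ ((n * (Fintype.card U / 2 ^ k) : ℕ) : ℝ) := by exact_mod_cast h1
      _ = (n : ℝ) * ((Fintype.card U / 2 ^ k : ℕ) : ℝ) := by push_cast; ring
      _ ≤ (n : ℝ) * ((Fintype.card U : ℝ) / 2 ^ k) := by gcongr
  have h5 : ((Finset.univ.filter (fun t : U => n ∣ orderOf t)).card : ℝ) +
      ((Finset.univ.filter (fun t : U => ¬ n ∣ orderOf t)).card : ℝ) = (Fintype.card U : ℝ) := by
    exact_mod_cast h2
  have h6 : (1 - (n : ℝ) / 2 ^ k) * (Fintype.card U : ℝ) =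
      (Fintype.card U : ℝ) - (n : ℝ) * ((Fintype.card U : ℝ) / 2 ^ k) := by ring
  rw [h6]
  linarith

/-- choice of `k`: `n / 2 ^ k ≤ δ` for some `k ≥ 1`. -/
theorem exists_pow_two_ge (n : ℕ) {δ : ℝ} (hδ : 0 < δ) : ∃ k : ℕ, 1 ≤ k ∧ (n : ℝ) / 2 ^ k ≤ δ := by
  obtain ⟨k, hk⟩ := pow_unbounded_of_one_lt ((n : ℝ) / δ) (by norm_num : (1 : ℝ) < 2)
  refine ⟨k + 1, by omega, ?_⟩
  rw [div_le_iff₀ (by positivity)]
  have h1 : (n : ℝ) < δ * 2 ^ k := by
    rw [div_lt_iff₀ hδ] at hk
    linarith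
  have h2 : (2 : ℝ) ^ k ≤ 2 ^ (k + 1) := by
    rw [pow_succ]
    have : (0 : ℝ) < 2 ^ k := by positivity
    linarith
  nlinarith

end Fermat.Agent.Lib.ChebQ.H968

end
-- ===== PACK-END Lib/ChebQ/H968/Count.lean

-- ===== PACK-BEGIN Lib/Cheb/H236/Cross.lean
section



/-!
# CROSS: Chebotarev's field-crossing step (shared lib CHEB, Tier 2; helper236)

`theorem cross : Spec.CrossStatement`, i.e. `FrobStatement → CycStatement → ChebFiniteStatement`.

For `σ ∈ Gal(L/ℚ)` of order `n` choose a prime `m ≡ 1 mod n` with `m > |disc L|`, put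
`M = L(ζ_m)` (`CyclotomicField m L`), extend `σ` to `g ∈ Gal(M/ℚ)` with `g ζ = ζ ^ t`, `t` a
generator of `(ℤ/m)ˣ`.  Then `⟨g⟩` acts faithfully on `ζ`, `CycStatement` gives a prime of `M`
with Frobenius `g`, and its restriction to `L` has Frobenius `σ`.
-/

set_option autoImplicit false
set_option linter.style.haveILetI false
set_option linter.unusedSectionVars false

namespace Fermat.Agent.Lib.Cheb.H236

open NumberField IntermediateField Polynomial

section Construct

variable (L : Type) [Field L] [NumberField L] (m : ℕ) [hm : Fact m.Prime]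

/-- The crossing field `M = L(ζ_m)`. -/
abbrev CrossField : Type := CyclotomicField m L

instance crossNeZero : NeZero m := ⟨hm.out.ne_zero⟩

/-- the chosen primitive `m`-th root of unity of `M` -/
noncomputable def crossZeta : CrossField L m := IsCyclotomicExtension.zeta m L (CrossField L m)

theorem crossZeta_spec : IsPrimitiveRoot (crossZeta L m) m :=
  IsCyclotomicExtension.zeta_spec m L (CrossField L m)

/-- the image of `L` in `M` -/
noncomputable def imL : IntermediateField ℚ (CrossField L m) :=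
  (IsScalarTower.toAlgHom ℚ L (CrossField L m)).fieldRange

/-- `ℚ(ζ)` inside `M` -/
noncomputable def cycQ : IntermediateField ℚ (CrossField L m) :=
  ℚ⟮crossZeta L m⟯

theorem cycQ_sup_imL : cycQ L m ⊔ imL L m = ⊤ := by
  rw [eq_top_iff]
  rintro x -
  have hx : x ∈ Algebra.adjoin L ({crossZeta L m} : Set (CrossField L m)) := by
    rw [IsCyclotomicExtension.adjoin_primitive_root_eq_top (crossZeta_spec L m)]
    trivial
  induction hx using Algebra.adjoin_induction with
  | mem y hy =>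
    rw [Set.mem_singleton_iff] at hy
    subst hy
    exact (le_sup_left : cycQ L m ≤ _) (mem_adjoin_simple_self ℚ _)
  | algebraMap r =>
    exact (le_sup_right : imL L m ≤ _) ⟨r, rfl⟩
  | add _ _ _ _ hx hy => exact add_mem hx hy
  | mul _ _ _ _ hx hy => exact mul_mem hx hy

/-- `M` is normal over `ℚ`. -/
theorem normal_crossField [IsGalois ℚ L] : Normal ℚ (CrossField L m) := by
  have hN2 : Normal ℚ (imL L m) := by
    have e : L ≃ₐ[ℚ] imL L m :=
      AlgEquiv.ofInjectiveField (IsScalarTower.toAlgHom ℚ L (CrossField L m))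
    exact Normal.of_algEquiv e
  haveI : IsCyclotomicExtension {m} ℚ (cycQ L m) :=
    (crossZeta_spec L m).intermediateField_adjoin_isCyclotomicExtension ℚ
  haveI : IsGalois ℚ (cycQ L m) := IsCyclotomicExtension.isGalois {m} ℚ (cycQ L m)
  have hN1 : Normal ℚ (cycQ L m) := IsGalois.to_normal
  have hN : Normal ℚ (cycQ L m ⊔ imL L m : IntermediateField ℚ (CrossField L m)) :=
    @IntermediateField.normal_sup ℚ (CrossField L m) _ _ _ (cycQ L m) (imL L m) hN1 hN2
  have e : (cycQ L m ⊔ imL L m : IntermediateField ℚ (CrossField L m)) ≃ₐ[ℚ] CrossField L m :=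
    (IntermediateField.equivOfEq (cycQ_sup_imL L m)).trans IntermediateField.topEquiv
  exact @Normal.of_algEquiv ℚ _ _ _ _ _ _ _ hN e

theorem isGalois_crossField [IsGalois ℚ L] : IsGalois ℚ (CrossField L m) := by
  haveI := normal_crossField L m
  exact isGalois_iff.mpr ⟨inferInstance, inferInstance⟩

/-- the degree of `M` over `L` is `m - 1` when `m ∤ disc L` -/
theorem finrank_crossField (hdisc : ¬ (m : ℤ) ∣ discr L) :
    Module.finrank L (CrossField L m) = m - 1 := by
  haveI : IsCyclotomicExtension {m} ℚ (cycQ L m) :=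
    (crossZeta_spec L m).intermediateField_adjoin_isCyclotomicExtension ℚ
  haveI : IsGalois ℚ (cycQ L m) := IsCyclotomicExtension.isGalois {m} ℚ (cycQ L m)
  have e : L ≃ₐ[ℚ] imL L m :=
    AlgEquiv.ofInjectiveField (IsScalarTower.toAlgHom ℚ L (CrossField L m))
  have hd1 : discr (cycQ L m) = (-1) ^ ((m - 1) / 2) * (m : ℤ) ^ (m - 2) :=
    IsCyclotomicExtension.Rat.discr_prime m (cycQ L m)
  have hd2 : discr (imL L m) = discr L := (discr_eq_discr_of_algEquiv L e).symm
  have hcop : IsCoprime (discr (cycQ L m)) (discr (imL L m)) := by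
    rw [hd1, hd2]
    have hp : Prime (m : ℤ) := Nat.prime_iff_prime_int.mp hm.out
    have h1 : IsCoprime (m : ℤ) (discr L) := (Prime.coprime_iff_not_dvd hp).mpr hdisc
    rw [isCoprime_mul_unit_left_left (IsUnit.pow _ (isUnit_one.neg))]
    exact h1.pow_left
  have hdisj := linearDisjoint_of_isGalois_isCoprime_discr (CrossField L m) (cycQ L m) (imL L m)
    hcop
  have h1 := hdisj.finrank_sup
  have h2 : Module.finrank ℚ (cycQ L m) = m - 1 := by
    rw [IsCyclotomicExtension.finrank (n := m) (cycQ L m)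
      (Polynomial.cyclotomic.irreducible_rat (NeZero.pos m)), Nat.totient_prime hm.out]
  have h3 : Module.finrank ℚ (imL L m) = Module.finrank ℚ L := (e.toLinearEquiv.finrank_eq).symm
  have h4 : Module.finrank ℚ (cycQ L m ⊔ imL L m : IntermediateField ℚ (CrossField L m)) =
      Module.finrank ℚ (CrossField L m) := by
    rw [cycQ_sup_imL]
    exact IntermediateField.finrank_top'
  have h5 : Module.finrank ℚ (CrossField L m) =
      Module.finrank ℚ L * Module.finrank L (CrossField L m) :=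
    (Module.finrank_mul_finrank ℚ L (CrossField L m)).symm
  rw [h4, h2, h3, h5, mul_comm] at h1
  exact Nat.eq_of_mul_eq_mul_right Module.finrank_pos h1

theorem adjoin_crossZeta_eq_top : L⟮crossZeta L m⟯ = ⊤ :=
  IntermediateField.adjoin_eq_top_of_algebra L _
    (IsCyclotomicExtension.adjoin_primitive_root_eq_top (crossZeta_spec L m))

/-- the `m`-th cyclotomic polynomial is irreducible over `L` when `m ∤ disc L` -/
theorem irreducible_cyclotomic_of_not_dvd_discr (hdisc : ¬ (m : ℤ) ∣ discr L) :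
    Irreducible (cyclotomic m L) := by
  have hζ := crossZeta_spec L m
  have hfin := finrank_crossField L m hdisc
  have hint : IsIntegral L (crossZeta L m) := IsIntegral.of_finite L _
  have hdvd : minpoly L (crossZeta L m) ∣ cyclotomic m L := by
    apply minpoly.dvd
    have h1 := hζ.isRoot_cyclotomic (NeZero.pos m)
    rw [aeval_def, eval₂_eq_eval_map, map_cyclotomic]
    exact h1
  have hdeg : (minpoly L (crossZeta L m)).natDegree = m - 1 := by
    rw [← hfin, ← IntermediateField.adjoin.finrank hint, adjoin_crossZeta_eq_top L m,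
      IntermediateField.finrank_top']
  have heq : cyclotomic m L = minpoly L (crossZeta L m) := by
    refine Polynomial.eq_of_monic_of_dvd_of_natDegree_le (minpoly.monic hint)
      (cyclotomic.monic m L) hdvd ?_
    rw [hdeg, natDegree_cyclotomic, Nat.totient_prime hm.out]
  rw [heq]
  exact minpoly.irreducible hint

/-- extension of `σ` to `M` with prescribed action on `ζ` -/
theorem exists_crossLift [IsGalois ℚ L] (hdisc : ¬ (m : ℤ) ∣ discr L) (σ : L ≃ₐ[ℚ] L)
    (t : (ZMod m)ˣ) :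
    ∃ g : CrossField L m ≃ₐ[ℚ] CrossField L m,
      (∀ x : L, g (algebraMap L (CrossField L m) x) = algebraMap L (CrossField L m) (σ x)) ∧
      g (crossZeta L m) = crossZeta L m ^ (t : ZMod m).val := by
  haveI := normal_crossField L m
  have hirr := irreducible_cyclotomic_of_not_dvd_discr L m hdisc
  set σ' : CrossField L m ≃ₐ[ℚ] CrossField L m := σ.liftNormal (CrossField L m) with hσ'
  have hμ0 : IsPrimitiveRoot (crossZeta L m ^ (t : ZMod m).val) m :=
    (crossZeta_spec L m).pow_of_coprime _ (ZMod.val_coe_unit_coprime t)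
  have hμ : IsPrimitiveRoot (σ'.symm (crossZeta L m ^ (t : ZMod m).val)) m :=
    hμ0.map_of_injective σ'.symm.injective
  set h : CrossField L m ≃ₐ[L] CrossField L m := IsCyclotomicExtension.fromZetaAut hμ hirr
    with hh
  have hspec : h (crossZeta L m) = σ'.symm (crossZeta L m ^ (t : ZMod m).val) :=
    IsCyclotomicExtension.fromZetaAut_spec hμ hirr
  refine ⟨(h.restrictScalars ℚ).trans σ', fun x => ?_, ?_⟩
  · rw [AlgEquiv.trans_apply, AlgEquiv.restrictScalars_apply, h.commutes]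
    exact σ.liftNormal_commutes (CrossField L m) x
  · rw [AlgEquiv.trans_apply, AlgEquiv.restrictScalars_apply, hspec, AlgEquiv.apply_symm_apply]

/-- the cyclic group generated by the crossing lift acts faithfully on `ζ` -/
theorem crossLift_faithful (σ : L ≃ₐ[ℚ] L) (t : (ZMod m)ˣ) (ht : orderOf σ ∣ orderOf t)
    (g : CrossField L m ≃ₐ[ℚ] CrossField L m)
    (hg1 : ∀ x : L, g (algebraMap L (CrossField L m) x) = algebraMap L (CrossField L m) (σ x))
    (hg2 : g (crossZeta L m) = crossZeta L m ^ (t : ZMod m).val) :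
    ∀ k : ℕ, (g ^ k) (crossZeta L m) = crossZeta L m → g ^ k = 1 := by
  intro k hk
  have hζ := crossZeta_spec L m
  haveI : Fact (1 < m) := ⟨hm.out.one_lt⟩
  have hord : orderOf (crossZeta L m) = m := hζ.eq_orderOf.symm
  have hpow : ∀ j : ℕ, (g ^ j) (crossZeta L m) =
      crossZeta L m ^ ((t ^ j : (ZMod m)ˣ) : ZMod m).val := by
    intro j
    induction j with
    | zero => simp [ZMod.val_one]
    | succ j ih =>
      have e1 : (g ^ (j + 1)) (crossZeta L m) = (g ^ j) (g (crossZeta L m)) := by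
        rw [pow_succ, AlgEquiv.mul_apply]
      have e2 := pow_mod_orderOf (crossZeta L m)
        (((t ^ j : (ZMod m)ˣ) : ZMod m).val * ((t : (ZMod m)ˣ) : ZMod m).val)
      rw [hord] at e2
      rw [e1, hg2, map_pow, ih, ← pow_mul, pow_succ t j, Units.val_mul, ZMod.val_mul, e2]
  have h1 : ((t ^ k : (ZMod m)ˣ) : ZMod m).val = 1 := by
    have h2 := hpow k
    rw [hk] at h2
    have h3 : crossZeta L m ^ 1 = crossZeta L m ^ ((t ^ k : (ZMod m)ˣ) : ZMod m).val := by
      rw [pow_one]; exact h2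
    exact (hζ.pow_inj hm.out.one_lt (ZMod.val_lt _) h3).symm
  have h4 : t ^ k = 1 := by
    apply Units.ext
    apply ZMod.val_injective
    rw [h1, Units.val_one, ZMod.val_one]
  have h5 : σ ^ k = 1 := orderOf_dvd_iff_pow_eq_one.mp (ht.trans (orderOf_dvd_of_pow_eq_one h4))
  have hgpow : ∀ (j : ℕ) (x : L), (g ^ j) (algebraMap L (CrossField L m) x) =
      algebraMap L (CrossField L m) ((σ ^ j) x) := by
    intro j
    induction j with
    | zero => intro x; simp
    | succ j ih =>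
      intro x
      rw [pow_succ, AlgEquiv.mul_apply, hg1, ih, pow_succ, AlgEquiv.mul_apply]
  ext y
  rw [AlgEquiv.one_apply]
  have hy : y ∈ Algebra.adjoin L ({crossZeta L m} : Set (CrossField L m)) := by
    rw [IsCyclotomicExtension.adjoin_primitive_root_eq_top hζ]
    trivial
  induction hy using Algebra.adjoin_induction with
  | mem z hz =>
    rw [Set.mem_singleton_iff] at hz
    subst hz
    exact hk
  | algebraMap r => rw [hgpow, h5, AlgEquiv.one_apply]
  | add _ _ _ _ hx hy => rw [map_add, hx, hy]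
  | mul _ _ _ _ hx hy => rw [map_mul, hx, hy]

end Construct

section Restrict

variable {L M : Type} [Field L] [NumberField L] [Field M] [NumberField M] [Algebra L M]

/-- an arithmetic Frobenius of `M` restricts to an arithmetic Frobenius of `L` -/
theorem isArithFrobAt_comap (σ : L ≃ₐ[ℚ] L) (g : M ≃ₐ[ℚ] M)
    (hg : ∀ x : L, g (algebraMap L M x) = algebraMap L M (σ x)) (P' : Ideal (𝓞 M))
    (h : IsArithFrobAt ℤ g P') :
    IsArithFrobAt ℤ σ (P'.comap (algebraMap (𝓞 L) (𝓞 M))) := by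
  intro x
  have hunder : (P'.comap (algebraMap (𝓞 L) (𝓞 M))).under ℤ = P'.under ℤ := by
    rw [Ideal.under_def, Ideal.under_def, Ideal.comap_comap]
    congr 1
    exact RingHom.ext_int _ _
  have h1 := h (algebraMap (𝓞 L) (𝓞 M) x)
  show (MulSemiringAction.toAlgHom ℤ (𝓞 L) σ) x -
    x ^ Nat.card (ℤ ⧸ (P'.comap (algebraMap (𝓞 L) (𝓞 M))).under ℤ) ∈ _
  rw [hunder, Ideal.mem_comap, map_sub, map_pow]
  have h2 : algebraMap (𝓞 L) (𝓞 M) ((MulSemiringAction.toAlgHom ℤ (𝓞 L) σ) x) =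
      (MulSemiringAction.toAlgHom ℤ (𝓞 M) g) (algebraMap (𝓞 L) (𝓞 M) x) := by
    apply RingOfIntegers.ext
    show algebraMap L M (σ (x : L)) = g (algebraMap L M (x : L))
    rw [hg]
  rw [h2]
  exact h1

end Restrict

/-- **CROSS**: Chebotarev's field-crossing step. -/
theorem cross : Spec.CrossStatement := by
  intro hD hC L _ _ _ σ S
  obtain ⟨B, hB⟩ := hD L
  -- the auxiliary prime `m`
  obtain ⟨m, hmp, hmgt, hmod⟩ :=
    Nat.exists_prime_gt_modEq_one (k := orderOf σ) (discr L).natAbs (orderOf_pos σ).ne'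
  haveI : Fact m.Prime := ⟨hmp⟩
  have hdisc : ¬ (m : ℤ) ∣ discr L := by
    intro hdvd
    have h1 : m ∣ (discr L).natAbs := Int.natCast_dvd.mp hdvd
    have h2 : (discr L).natAbs ≠ 0 := Int.natAbs_ne_zero.mpr (discr_ne_zero L)
    exact absurd (Nat.le_of_dvd (Nat.pos_of_ne_zero h2) h1) (not_le.mpr hmgt)
  -- a generator of `(ℤ/m)ˣ`
  haveI : IsCyclic (ZMod m)ˣ := ZMod.isCyclic_units_prime hmp
  obtain ⟨t, ht⟩ := isCyclic_iff_exists_orderOf_eq_natCard.mp (inferInstance : IsCyclic (ZMod m)ˣ)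
  have hcard : Nat.card (ZMod m)ˣ = m - 1 := by
    rw [Nat.card_eq_fintype_card, ZMod.card_units_eq_totient, Nat.totient_prime hmp]
  have hdvd : orderOf σ ∣ orderOf t := by
    rw [ht, hcard]
    exact (Nat.modEq_iff_dvd' hmp.one_lt.le).mp hmod.symm
  obtain ⟨g, hg1, hg2⟩ := exists_crossLift L m hdisc σ t
  haveI := isGalois_crossField L m
  obtain ⟨p, P', hp, hpS, hP', hpP', -, hfrob⟩ :=
    hC (CrossField L m) m (crossZeta L m) hmp.pos (crossZeta_spec L m) g
      (crossLift_faithful L m σ t hdvd g hg1 hg2) (S ∪ B)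
  have hpS' : p ∉ S := fun h => hpS (Finset.mem_union_left _ h)
  have hpB : p ∉ B := fun h => hpS (Finset.mem_union_right _ h)
  set P : Ideal (𝓞 L) := P'.comap (algebraMap (𝓞 L) (𝓞 (CrossField L m))) with hP
  have hPprime : P.IsPrime := Ideal.comap_isPrime _ _
  have hpP : (p : 𝓞 L) ∈ P := by
    rw [hP, Ideal.mem_comap, map_natCast]
    exact hpP'
  exact ⟨p, P, hp, hpS', hPprime, hpP, (hB p hp hpB P hPprime hpP).1,
    isArithFrobAt_comap σ g hg1 P' hfrob⟩

end Fermat.Agent.Lib.Cheb.H236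

end
-- ===== PACK-END Lib/Cheb/H236/Cross.lean

-- ===== PACK-BEGIN S23/BddDenom.lean
section


/-!
# Bounded denominators: a pure power-series lemma (S23, helper263)

`IntSpan` is the `ℂ`-subalgebra of `ℂ⟦X⟧` spanned by power series with integer coefficients.

Main result `Fermat.Agent.S23.BddDenom.bdd`:
if `x : ℂ⟦X⟧` has rational coefficients, is a root of a monic polynomial with coefficients in
`IntSpan`, and satisfies `D * x = F` with `D F ∈ IntSpan`, `D ≠ 0`, then some positive integer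
multiple of `x` has integer coefficients.
-/

set_option autoImplicit false

open PowerSeries

namespace Fermat.Agent.S23.BddDenom

noncomputable section

/-- The natural map `ℤ⟦X⟧ → ℂ⟦X⟧`. -/
abbrev iZC : ℤ⟦X⟧ →+* ℂ⟦X⟧ := PowerSeries.map (Int.castRingHom ℂ)

/-- The natural map `ℤ⟦X⟧ → ℚ⟦X⟧`. -/
abbrev iZQ : ℤ⟦X⟧ →+* ℚ⟦X⟧ := PowerSeries.map (Int.castRingHom ℚ)

/-- The natural map `ℚ⟦X⟧ → ℂ⟦X⟧`. -/
abbrev iQC : ℚ⟦X⟧ →+* ℂ⟦X⟧ := PowerSeries.map (algebraMap ℚ ℂ)

/-- The `ℂ`-subalgebra of `ℂ⟦X⟧` generated by the power series with integer coefficients. -/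
def IntSpan : Subalgebra ℂ ℂ⟦X⟧ := Algebra.adjoin ℂ (Set.range iZC)

theorem iZC_mem_IntSpan (z : ℤ⟦X⟧) : iZC z ∈ IntSpan :=
  Algebra.subset_adjoin ⟨z, rfl⟩

/-- A power series all of whose coefficients are integers lies in `IntSpan`. -/
theorem mem_IntSpan_of_int_coeff {s : ℂ⟦X⟧} (hs : ∀ n, ∃ m : ℤ, coeff n s = (m : ℂ)) :
    s ∈ IntSpan := by
  choose m hm using hs
  have : s = iZC (PowerSeries.mk m) := by
    ext n
    simp [hm n]
  rw [this]
  exact iZC_mem_IntSpan _

theorem IntSpan_toSubmodule :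
    Subalgebra.toSubmodule IntSpan = Submodule.span ℂ (Set.range iZC) := by
  rw [IntSpan, Algebra.adjoin_eq_span]
  congr 1
  have : (Submonoid.closure (Set.range iZC) : Set ℂ⟦X⟧) = ((MonoidHom.mrange (iZC : ℤ⟦X⟧ →* ℂ⟦X⟧) :
      Submonoid ℂ⟦X⟧) : Set ℂ⟦X⟧) := by
    have h : (Set.range iZC : Set ℂ⟦X⟧) =
        ((MonoidHom.mrange (iZC : ℤ⟦X⟧ →* ℂ⟦X⟧) : Submonoid ℂ⟦X⟧) : Set ℂ⟦X⟧) := by
      ext; simp
    rw [h, Submonoid.closure_eq]
  rw [this]
  ext; simp

theorem mem_IntSpan_iff {s : ℂ⟦X⟧} : s ∈ IntSpan ↔ s ∈ Submodule.span ℂ (Set.range iZC) := by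
  rw [← IntSpan_toSubmodule]
  rfl

/-- Coefficientwise application of a `ℚ`-linear map `ℂ → ℚ`. -/
def coeffMap (ρ : ℂ →ₗ[ℚ] ℚ) : ℂ⟦X⟧ →ₗ[ℚ] ℚ⟦X⟧ where
  toFun s := PowerSeries.mk fun n => ρ (coeff n s)
  map_add' s t := by
    ext n
    simp
  map_smul' r s := by
    ext n
    simp

@[simp]
theorem coeff_coeffMap (ρ : ℂ →ₗ[ℚ] ℚ) (n : ℕ) (s : ℂ⟦X⟧) :
    coeff n (coeffMap ρ s) = ρ (coeff n s) := by
  simp [coeffMap]

theorem coeffMap_mul_iQC (ρ : ℂ →ₗ[ℚ] ℚ) (s : ℂ⟦X⟧) (y : ℚ⟦X⟧) :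
    coeffMap ρ (s * iQC y) = coeffMap ρ s * y := by
  ext n
  rw [coeff_coeffMap, PowerSeries.coeff_mul, PowerSeries.coeff_mul, map_sum]
  refine Finset.sum_congr rfl fun p _ => ?_
  rw [coeff_coeffMap, PowerSeries.coeff_map]
  have : coeff p.1 s * (algebraMap ℚ ℂ) (coeff p.2 y) = (coeff p.2 y) • coeff p.1 s := by
    rw [Algebra.smul_def, mul_comm]
  rw [this, map_smul, smul_eq_mul, mul_comm]

theorem coeffMap_iQC (ρ : ℂ →ₗ[ℚ] ℚ) (h1 : ρ 1 = 1) (y : ℚ⟦X⟧) :
    coeffMap ρ (iQC y) = y := by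
  have := coeffMap_mul_iQC ρ 1 y
  rw [one_mul] at this
  rw [this]
  have h : coeffMap ρ 1 = 1 := by
    ext n
    rw [coeff_coeffMap, PowerSeries.coeff_one, PowerSeries.coeff_one]
    split_ifs
    · exact h1
    · exact map_zero ρ
  rw [h, one_mul]

/-- `ρ` precomposed with multiplication by `t`. -/
def twist (ρ : ℂ →ₗ[ℚ] ℚ) (t : ℂ) : ℂ →ₗ[ℚ] ℚ :=
  ρ.comp (LinearMap.mulLeft ℚ t)

@[simp]
theorem twist_apply (ρ : ℂ →ₗ[ℚ] ℚ) (t z : ℂ) : twist ρ t z = ρ (t * z) := rfl

theorem coeffMap_smul (ρ : ℂ →ₗ[ℚ] ℚ) (t : ℂ) (s : ℂ⟦X⟧) :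
    coeffMap ρ (t • s) = coeffMap (twist ρ t) s := by
  ext n
  simp

/-- Power series over `ℚ` with bounded denominators. -/
def BddQ (u : ℚ⟦X⟧) : Prop := ∃ c : ℕ, 0 < c ∧ ∃ z : ℤ⟦X⟧, (c : ℚ) • u = iZQ z

theorem iZQ_zsmul (a : ℤ) (z : ℤ⟦X⟧) : iZQ (a • z) = (a : ℚ) • iZQ z := by
  rw [zsmul_eq_mul, map_mul, map_intCast, Algebra.smul_def]
  congr 1
  simp

theorem BddQ.mul_nat {u : ℚ⟦X⟧} {c : ℕ} {z : ℤ⟦X⟧} (h : (c : ℚ) • u = iZQ z) (d : ℕ) :
    ((d * c : ℕ) : ℚ) • u = iZQ ((d : ℤ) • z) := by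
  rw [Nat.cast_mul, mul_smul, h, iZQ_zsmul]
  simp

theorem bddQ_coeffMap_of_mem {s : ℂ⟦X⟧} (hs : s ∈ IntSpan) :
    ∀ ρ : ℂ →ₗ[ℚ] ℚ, BddQ (coeffMap ρ s) := by
  rw [mem_IntSpan_iff] at hs
  induction hs using Submodule.span_induction with
  | mem s hs =>
    obtain ⟨β, rfl⟩ := hs
    intro ρ
    refine ⟨(ρ 1).den, (ρ 1).den_pos, (ρ 1).num • β, ?_⟩
    rw [iZQ_zsmul]
    ext n
    rw [PowerSeries.coeff_smul, coeff_coeffMap, PowerSeries.coeff_map, PowerSeries.coeff_smul,
      PowerSeries.coeff_map]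
    have h1 : ((Int.castRingHom ℂ) (coeff n β) : ℂ) = ((coeff n β : ℤ) : ℚ) • (1 : ℂ) := by
      simp [Algebra.smul_def]
    rw [h1, map_smul]
    simp only [smul_eq_mul, eq_intCast]
    have h2 : ((ρ 1).den : ℚ) * ρ 1 = ((ρ 1).num : ℚ) := by
      rw [mul_comm]
      exact Rat.mul_den_eq_num (ρ 1)
    calc ((ρ 1).den : ℚ) * (((coeff n β : ℤ) : ℚ) * ρ 1)
        = ((coeff n β : ℤ) : ℚ) * (((ρ 1).den : ℚ) * ρ 1) := by ring
      _ = ((ρ 1).num : ℚ) * ((coeff n β : ℤ) : ℚ) := by rw [h2]; ring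
  | zero =>
    intro ρ
    exact ⟨1, Nat.one_pos, 0, by simp⟩
  | add s t _ _ ihs iht =>
    intro ρ
    obtain ⟨c₁, hc₁, z₁, h₁⟩ := ihs ρ
    obtain ⟨c₂, hc₂, z₂, h₂⟩ := iht ρ
    refine ⟨c₂ * c₁, Nat.mul_pos hc₂ hc₁, (c₂ : ℤ) • z₁ + (c₁ : ℤ) • z₂, ?_⟩
    rw [map_add, smul_add, BddQ.mul_nat h₁ c₂, mul_comm c₂ c₁, BddQ.mul_nat h₂ c₁, map_add]
  | smul t s _ ih =>
    intro ρ
    rw [coeffMap_smul]
    exact ih (twist ρ t)

/-- A finite family of bounded-denominator series has a common denominator. -/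
theorem BddQ.common {ι : Type*} (s : Finset ι) (u : ι → ℚ⟦X⟧) (hu : ∀ i ∈ s, BddQ (u i)) :
    ∃ c : ℕ, 0 < c ∧ ∀ i ∈ s, ∃ z : ℤ⟦X⟧, (c : ℚ) • u i = iZQ z := by
  classical
  induction s using Finset.induction_on with
  | empty => exact ⟨1, Nat.one_pos, by simp⟩
  | insert a s ha ih =>
    obtain ⟨c, hc, hz⟩ := ih fun i hi => hu i (Finset.mem_insert_of_mem hi)
    obtain ⟨c', hc', z', hz'⟩ := hu a (Finset.mem_insert_self a s)
    refine ⟨c * c', Nat.mul_pos hc hc', fun i hi => ?_⟩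
    rcases Finset.mem_insert.mp hi with rfl | hi
    · exact ⟨_, BddQ.mul_nat hz' c⟩
    · obtain ⟨z, hz⟩ := hz i hi
      rw [mul_comm]
      exact ⟨_, BddQ.mul_nat hz c'⟩

theorem iZQ_injective : Function.Injective iZQ :=
  PowerSeries.map_injective _ (Int.cast_injective (α := ℚ))

/-- `ℤ⟦X⟧` is integrally closed, in the following concrete form: a power series over `ℚ` which is
a "fraction" of integral power series and is integral over `ℤ⟦X⟧` has integer coefficients. -/
theorem int_of_fraction_of_integral (y : ℚ⟦X⟧) (D F : ℤ⟦X⟧) (hD : D ≠ 0)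
    (hDF : iZQ D * y = iZQ F) (hy : iZQ.IsIntegralElem y) : ∃ z : ℤ⟦X⟧, iZQ z = y := by
  obtain ⟨P, hP, hPy⟩ := hy
  let K := FractionRing ℤ⟦X⟧
  let L := FractionRing ℚ⟦X⟧
  let g : ℤ⟦X⟧ →+* L := (algebraMap ℚ⟦X⟧ L).comp iZQ
  have hg : Function.Injective g :=
    (IsFractionRing.injective ℚ⟦X⟧ L).comp iZQ_injective
  let φ : K →+* L := IsFractionRing.lift hg
  have hφ : ∀ a : ℤ⟦X⟧, φ (algebraMap ℤ⟦X⟧ K a) = g a := IsFractionRing.lift_algebraMap hg
  let w : K := algebraMap ℤ⟦X⟧ K F / algebraMap ℤ⟦X⟧ K D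
  have hgD : g D ≠ 0 := fun h => hD (hg (by rw [h, map_zero]))
  have hφw : φ w = algebraMap ℚ⟦X⟧ L y := by
    have : φ w = g F / g D := by
      simp only [w, map_div₀, hφ]
    rw [this, div_eq_iff hgD]
    simp only [g, RingHom.comp_apply]
    rw [← map_mul, mul_comm, hDF]
  have hw : IsIntegral ℤ⟦X⟧ w := by
    refine ⟨P, hP, ?_⟩
    apply φ.injective
    rw [map_zero, Polynomial.hom_eval₂, hφw]
    have : φ.comp (algebraMap ℤ⟦X⟧ K) = g := RingHom.ext hφ
    rw [this]
    have h2 := Polynomial.hom_eval₂ P iZQ (algebraMap ℚ⟦X⟧ L) y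
    rw [hPy, map_zero] at h2
    exact h2.symm
  obtain ⟨z, hz⟩ := IsIntegrallyClosed.isIntegral_iff.mp hw
  refine ⟨z, ?_⟩
  have hKD : algebraMap ℤ⟦X⟧ K D ≠ 0 := fun h =>
    hD (IsFractionRing.injective ℤ⟦X⟧ K (by rw [h, map_zero]))
  have h3 : z * D = F := by
    apply IsFractionRing.injective ℤ⟦X⟧ K
    rw [map_mul, hz]
    exact div_mul_cancel₀ _ hKD
  have hQD : iZQ D ≠ 0 := fun h => hD (iZQ_injective (by rw [h, map_zero]))
  have h4 : iZQ D * iZQ z = iZQ D * y := by
    rw [hDF, ← map_mul, mul_comm, h3]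
  exact mul_left_cancel₀ hQD h4

/-- Existence of a `ℚ`-linear functional `ℂ → ℚ` taking the value `1` at a given nonzero `z`. -/
theorem exists_functional (z : ℂ) (hz : z ≠ 0) : ∃ ρ : ℂ →ₗ[ℚ] ℚ, ρ z = 1 := by
  let f : ℚ →ₗ[ℚ] ℂ := LinearMap.toSpanSingleton ℚ ℂ z
  have hf : LinearMap.ker f = ⊥ := by
    rw [LinearMap.ker_eq_bot]
    intro a b hab
    simp only [f, LinearMap.toSpanSingleton_apply] at hab
    exact smul_left_injective ℚ hz hab
  obtain ⟨ρ, hρ⟩ := LinearMap.exists_leftInverse_of_injective f hf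
  refine ⟨ρ, ?_⟩
  have := congrArg (fun l : ℚ →ₗ[ℚ] ℚ => l 1) hρ
  simpa [f, LinearMap.toSpanSingleton_apply] using this

/-- A power series with rational coefficients comes from `ℚ⟦X⟧`. -/
theorem exists_rat_series (x : ℂ⟦X⟧) (hx : ∀ n, ∃ r : ℚ, coeff n x = (r : ℂ)) :
    ∃ x₀ : ℚ⟦X⟧, iQC x₀ = x := by
  choose r hr using hx
  refine ⟨PowerSeries.mk r, ?_⟩
  ext n
  simp [hr n]

/-- **Bounded denominators.** Let `x : ℂ⟦X⟧` have rational coefficients. Assume `x` is a root of a
monic polynomial `X^μ + ∑_{m<μ} e m X^m` whose coefficients lie in `IntSpan`, and that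
`D * x = F` with `D, F ∈ IntSpan`, `D ≠ 0`. Then a positive integer multiple of `x` has integer
coefficients. -/
theorem bdd (x : ℂ⟦X⟧) (hx : ∀ n, ∃ r : ℚ, coeff n x = (r : ℂ))
    (μ : ℕ) (e : ℕ → ℂ⟦X⟧) (he : ∀ m, m < μ → e m ∈ IntSpan)
    (hmonic : x ^ μ + ∑ m ∈ Finset.range μ, e m * x ^ m = 0)
    (D F : ℂ⟦X⟧) (hD : D ∈ IntSpan) (hF : F ∈ IntSpan) (hD0 : D ≠ 0) (hDF : D * x = F) :
    ∃ c : ℕ, 0 < c ∧ ∀ n, ∃ m : ℤ, (c : ℂ) * coeff n x = (m : ℂ) := by
  obtain ⟨x₀, rfl⟩ := exists_rat_series x hx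
  -- Step 1: the monic equation over `ℚ⟦X⟧` with bounded-denominator coefficients.
  obtain ⟨ρ₁, hρ₁⟩ := exists_functional 1 one_ne_zero
  have hmonic' : x₀ ^ μ + ∑ m ∈ Finset.range μ, coeffMap ρ₁ (e m) * x₀ ^ m = 0 := by
    have := congrArg (coeffMap ρ₁) hmonic
    rw [map_add, map_sum, map_zero, ← map_pow, coeffMap_iQC ρ₁ hρ₁] at this
    rw [← this]
    congr 1
    refine Finset.sum_congr rfl fun m _ => ?_
    rw [← map_pow, coeffMap_mul_iQC]
  obtain ⟨c, hc, hcz⟩ := BddQ.common (Finset.range μ) (fun m => coeffMap ρ₁ (e m))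
    (fun m hm => bddQ_coeffMap_of_mem (he m (Finset.mem_range.mp hm)) ρ₁)
  have hcz' : ∀ m : ℕ, ∃ z : ℤ⟦X⟧, m < μ → (c : ℚ) • coeffMap ρ₁ (e m) = iZQ z := by
    intro m
    by_cases hm : m < μ
    · obtain ⟨z, hz⟩ := hcz m (Finset.mem_range.mpr hm)
      exact ⟨z, fun _ => hz⟩
    · exact ⟨0, fun h => absurd h hm⟩
  choose z hz using hcz'
  -- Step 2: the fraction relation over `ℚ⟦X⟧`.
  obtain ⟨n₀, hn₀⟩ : ∃ n, coeff n D ≠ 0 := by
    by_contra h
    exact hD0 (PowerSeries.ext fun n => by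
      rw [map_zero]
      by_contra h'
      exact h ⟨n, h'⟩)
  obtain ⟨ρ₂, hρ₂⟩ := exists_functional _ hn₀
  have hDF' : coeffMap ρ₂ D * x₀ = coeffMap ρ₂ F := by
    rw [← coeffMap_mul_iQC, hDF]
  have hD0' : coeffMap ρ₂ D ≠ 0 := by
    intro h
    have := congrArg (coeff n₀) h
    rw [coeff_coeffMap, hρ₂, map_zero] at this
    exact one_ne_zero this
  obtain ⟨cD, hcD, zD, hzD⟩ := bddQ_coeffMap_of_mem hD ρ₂
  obtain ⟨cF, hcF, zF, hzF⟩ := bddQ_coeffMap_of_mem hF ρ₂
  -- Step 3: apply normality of `ℤ⟦X⟧` to `y = c • x₀`.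
  have hcQ : (c : ℚ) ≠ 0 := Nat.cast_ne_zero.mpr hc.ne'
  have hcDQ : (cD : ℚ) ≠ 0 := Nat.cast_ne_zero.mpr hcD.ne'
  have hcFQ : (cF : ℚ) ≠ 0 := Nat.cast_ne_zero.mpr hcF.ne'
  have hzD0 : zD ≠ 0 := by
    rintro rfl
    rw [map_zero] at hzD
    exact hD0' ((smul_eq_zero.mp hzD).resolve_left hcDQ)
  have key : ∃ w : ℤ⟦X⟧, iZQ w = (c : ℚ) • x₀ := by
    refine int_of_fraction_of_integral ((c : ℚ) • x₀) ((cF : ℤ) • zD) (((cD * c : ℕ) : ℤ) • zF)
      ?_ ?_ ?_
    · intro h
      have h' := congrArg iZQ h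
      rw [iZQ_zsmul, map_zero] at h'
      rcases smul_eq_zero.mp h' with h'' | h''
      · exact hcFQ (by exact_mod_cast h'')
      · exact hzD0 (iZQ_injective (by rw [h'', map_zero]))
    · have e1 : iZQ ((cF : ℤ) • zD) = (cF : ℚ) • iZQ zD := by
        rw [iZQ_zsmul]; simp
      have e2 : iZQ (((cD * c : ℕ) : ℤ) • zF) = ((cD : ℚ) * (c : ℚ)) • iZQ zF := by
        rw [iZQ_zsmul]; simp
      rw [e1, e2, ← hzD, ← hzF, ← hDF']
      simp only [smul_mul_assoc, mul_smul_comm, smul_smul]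
      congr 1
      ring
    · -- the monic polynomial
      refine ⟨Polynomial.X ^ μ + ∑ i : Fin μ,
        Polynomial.C (((c : ℤ) ^ (μ - 1 - (i : ℕ))) • z i) * Polynomial.X ^ (i : ℕ),
        Polynomial.monic_X_pow_add (Polynomial.degree_sum_fin_lt _), ?_⟩
      rw [Polynomial.eval₂_add, Polynomial.eval₂_pow, Polynomial.eval₂_X,
        Polynomial.eval₂_finsetSum]
      simp only [Polynomial.eval₂_mul, Polynomial.eval₂_C, Polynomial.eval₂_pow,
        Polynomial.eval₂_X]
      have hsum : ∑ i : Fin μ, iZQ (((c : ℤ) ^ (μ - 1 - (i : ℕ))) • z i) * ((c : ℚ) • x₀) ^ (i : ℕ)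
          = ∑ m ∈ Finset.range μ, ((c : ℚ) ^ μ) • (coeffMap ρ₁ (e m) * x₀ ^ m) := by
        rw [Finset.sum_fin_eq_sum_range]
        refine Finset.sum_congr rfl fun m hm => ?_
        have hm' : m < μ := Finset.mem_range.mp hm
        rw [dif_pos hm']
        have e3 : iZQ (((c : ℤ) ^ (μ - 1 - m)) • z m) = ((c : ℚ) ^ (μ - 1 - m)) • iZQ (z m) := by
          rw [iZQ_zsmul]; simp
        rw [e3, ← hz m hm', smul_pow]
        simp only [smul_mul_assoc, mul_smul_comm, smul_smul]
        congr 1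
        have : μ = (μ - 1 - m) + 1 + m := by omega
        conv_rhs => rw [this]
        ring
      rw [hsum, smul_pow, ← Finset.smul_sum, ← smul_add, hmonic', smul_zero]
  obtain ⟨w, hw⟩ := key
  refine ⟨c, hc, fun n => ⟨coeff n w, ?_⟩⟩
  have := congrArg (coeff n) hw
  rw [PowerSeries.coeff_map, PowerSeries.coeff_smul, smul_eq_mul] at this
  rw [PowerSeries.coeff_map]
  have h5 := congrArg (algebraMap ℚ ℂ) this
  simp only [eq_intCast, map_mul, map_natCast, map_intCast] at h5
  rw [← h5]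

end

end Fermat.Agent.S23.BddDenom

end
-- ===== PACK-END S23/BddDenom.lean

-- ===== PACK-BEGIN S23/H548/FixedField.lean
section


namespace Fermat.Agent.S23.H548

open MvPolynomial

/-- A copy of `ℂ` used as the target of the lift, to avoid clashing algebra instances. -/
def CTarget : Type := ℂ

noncomputable instance instFieldCTarget : Field CTarget := inferInstanceAs (Field ℂ)
instance instIsAlgClosedCTarget : IsAlgClosed CTarget := inferInstanceAs (IsAlgClosed ℂ)

/-- The identity, as a ring isomorphism from the copy back to `ℂ`. -/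
noncomputable def cTargetEquiv : CTarget ≃+* ℂ := RingEquiv.refl ℂ

/-- Extension of a "twisted structure map" on the polynomial ring of a transcendence basis
to a ring endomorphism of `ℂ`. -/
theorem exists_ringHom_of_transcendenceBasis {A : Type} [Field A] [Algebra A ℂ]
    {ι : Type} (v : ι → ℂ) (hv : IsTranscendenceBasis A v)
    (g : MvPolynomial ι A →+* ℂ) (hg : Function.Injective g) :
    ∃ σ : ℂ →+* ℂ, ∀ p : MvPolynomial ι A, σ (aeval v p) = g p := by
  classical
  let R' := Algebra.adjoin A (Set.range v)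
  let e : MvPolynomial ι A ≃ₐ[A] R' := hv.1.aevalEquiv
  let g' : R' →+* CTarget :=
    (cTargetEquiv.symm : ℂ →+* CTarget).comp (g.comp (e.symm : R' →+* MvPolynomial ι A))
  have hg' : Function.Injective g' :=
    cTargetEquiv.symm.injective.comp (hg.comp e.symm.injective)
  let algM : Algebra R' CTarget := g'.toAlgebra
  have hfa : FaithfulSMul R' CTarget := (faithfulSMul_iff_algebraMap_injective R' CTarget).mpr hg'
  have halg : Algebra.IsAlgebraic R' ℂ := hv.isAlgebraic
  let L : ℂ →ₐ[R'] CTarget := IsAlgClosed.lift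
  refine ⟨(cTargetEquiv : CTarget →+* ℂ).comp (L : ℂ →+* CTarget), fun p => ?_⟩
  have h1 : (aeval v p : ℂ) = algebraMap R' ℂ (e p) := rfl
  rw [h1, RingHom.comp_apply]
  have h2 : L (algebraMap R' ℂ (e p)) = algebraMap R' CTarget (e p) := L.commutes (e p)
  have h3 : algebraMap R' CTarget (e p) = cTargetEquiv.symm (g (e.symm (e p))) := rfl
  rw [AlgHom.coe_toRingHom, h2, h3, AlgEquiv.symm_apply_apply]
  exact cTargetEquiv.apply_symm_apply _

/-- An algebraic irrational complex number is moved by some ring endomorphism of `ℂ`. -/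
theorem exists_ringHom_ne_of_isAlgebraic (x : ℂ) (hx : x ∉ Set.range (algebraMap ℚ ℂ))
    (hxa : x ∈ algebraicClosure ℚ ℂ) : ∃ σ : ℂ →+* ℂ, σ x ≠ x := by
  classical
  let A := algebraicClosure ℚ ℂ
  have : IsAlgClosure ℚ A := algebraicClosure.isAlgClosure ℚ ℂ
  have : IsGalois ℚ A := IsAlgClosure.isGalois ℚ A
  let xA : A := ⟨x, hxa⟩
  have hxA : xA ∉ Set.range (algebraMap ℚ A) := by
    rintro ⟨r, hr⟩
    exact hx ⟨r, by simpa [xA] using congrArg (algebraMap A ℂ) hr⟩
  rw [InfiniteGalois.mem_range_algebraMap_iff_fixed] at hxA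
  push Not at hxA
  obtain ⟨f, hf⟩ := hxA
  obtain ⟨ι, v, hv⟩ := exists_isTranscendenceBasis' A ℂ
  let τ : A →+* A := (f : A →+* A)
  let g : MvPolynomial ι A →+* ℂ := ((aeval v : MvPolynomial ι A →ₐ[A] ℂ) : _ →+* ℂ).comp (map τ)
  have hg : Function.Injective g := by
    have h1 : Function.Injective (map τ : MvPolynomial ι A →+* MvPolynomial ι A) :=
      map_injective τ τ.injective
    have h2 : Function.Injective (aeval v : MvPolynomial ι A →ₐ[A] ℂ) := hv.1
    intro p q hpq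
    exact h1 (h2 hpq)
  obtain ⟨σ, hσ⟩ := exists_ringHom_of_transcendenceBasis v hv g hg
  refine ⟨σ, ?_⟩
  have h := hσ (C xA)
  simp only [g, RingHom.comp_apply, map_C, AlgHom.coe_toRingHom, aeval_C] at h
  have h2 : (algebraMap A ℂ) xA = x := rfl
  rw [h2] at h
  rw [h]
  intro hc
  apply hf
  apply Subtype.ext
  exact hc

/-- A transcendental complex number is moved by some ring endomorphism of `ℂ`. -/
theorem exists_ringHom_ne_of_transcendental (x : ℂ) (hxa : x ∉ algebraicClosure ℚ ℂ) :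
    ∃ σ : ℂ →+* ℂ, σ x ≠ x := by
  classical
  let A := algebraicClosure ℚ ℂ
  have hxt : Transcendental ℚ x := fun h => hxa (mem_algebraicClosure_iff.mpr h)
  have hxtA : Transcendental A x := hxt.algebraicClosure
  have hind : AlgebraicIndepOn A id ({x} : Set ℂ) := by
    have : AlgebraicIndependent A (fun i : ({x} : Set ℂ) => (i : ℂ)) := by
      rw [algebraicIndependent_singleton_iff (⟨x, rfl⟩ : ({x} : Set ℂ))]
      exact hxtA
    exact this
  obtain ⟨t, hxt', hv⟩ := exists_isTranscendenceBasis_superset hind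
  let i0 : t := ⟨x, hxt' rfl⟩
  let ψ : MvPolynomial t A →ₐ[A] MvPolynomial t A :=
    aeval (fun i => if i = i0 then X i0 + 1 else X i)
  let ψ' : MvPolynomial t A →ₐ[A] MvPolynomial t A :=
    aeval (fun i => if i = i0 then X i0 - 1 else X i)
  have hψ : ψ'.comp ψ = AlgHom.id A _ := by
    apply MvPolynomial.algHom_ext
    intro i
    by_cases hi : i = i0
    · subst hi
      simp [ψ, ψ']
    · simp [ψ, ψ', hi]
  have hψinj : Function.Injective ψ := by
    intro p q hpq
    have := congrArg ψ' hpq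
    have h1 : ∀ r, ψ' (ψ r) = r := fun r => by
      have := congrArg (fun F : MvPolynomial t A →ₐ[A] MvPolynomial t A => F r) hψ
      simpa using this
    rwa [h1, h1] at this
  let g : MvPolynomial t A →+* ℂ :=
    ((aeval (Subtype.val : t → ℂ) : MvPolynomial t A →ₐ[A] ℂ) : _ →+* ℂ).comp
      (ψ : MvPolynomial t A →+* MvPolynomial t A)
  have hg : Function.Injective g := by
    have h2 : Function.Injective (aeval (Subtype.val : t → ℂ) : MvPolynomial t A →ₐ[A] ℂ) := hv.1
    intro p q hpq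
    exact hψinj (h2 hpq)
  obtain ⟨σ, hσ⟩ := exists_ringHom_of_transcendenceBasis (Subtype.val : t → ℂ) hv g hg
  refine ⟨σ, ?_⟩
  have h := hσ (X i0)
  simp only [g, RingHom.comp_apply, AlgHom.coe_toRingHom, aeval_X, ψ, if_true, map_add,
    map_one] at h
  have h2 : (i0 : ℂ) = x := rfl
  rw [h2] at h
  rw [h]
  simp

/-- **W1.** A complex number fixed by every ring endomorphism of `ℂ` is rational. -/
theorem mem_range_rat_of_forall_ringHom_fixed (x : ℂ) (h : ∀ σ : ℂ →+* ℂ, σ x = x) :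
    x ∈ Set.range (algebraMap ℚ ℂ) := by
  by_contra hx
  by_cases hxa : x ∈ algebraicClosure ℚ ℂ
  · obtain ⟨σ, hσ⟩ := exists_ringHom_ne_of_isAlgebraic x hx hxa
    exact hσ (h σ)
  · obtain ⟨σ, hσ⟩ := exists_ringHom_ne_of_transcendental x hxa
    exact hσ (h σ)

end Fermat.Agent.S23.H548

end
-- ===== PACK-END S23/H548/FixedField.lean

-- ===== PACK-BEGIN S55/Bridge/Level.lean
section



/-!
# S55 bridge, part B2a: a representation as in S55 factors through a finite Galois level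
unramified outside `S`.
-/

set_option autoImplicit false

namespace Fermat.Agent.S55.Bridge

open IntermediateField

/-- `ℚ̄/ℚ` is algebraic (for the `Algebra ℚ ℚ̄` instance found by instance search). -/
theorem isAlgebraic_Qbar : Algebra.IsAlgebraic ℚ (AlgebraicClosure ℚ) :=
  AlgebraicClosure.isAlgebraic ℚ

/-- `ℚ̄/ℚ` is Galois (for the `Algebra ℚ ℚ̄` instance found by instance search). -/
theorem isGalois_Qbar : IsGalois ℚ (AlgebraicClosure ℚ) := by
  haveI : Algebra.IsAlgebraic ℚ (AlgebraicClosure ℚ) := isAlgebraic_Qbar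
  haveI : IsAlgClosure ℚ (AlgebraicClosure ℚ) := ⟨inferInstance, inferInstance⟩
  haveI : Normal ℚ (AlgebraicClosure ℚ) := IsAlgClosure.normal ℚ (AlgebraicClosure ℚ)
  exact isGalois_iff.mpr ⟨inferInstance, inferInstance⟩

attribute [local instance] isAlgebraic_Qbar isGalois_Qbar

/-- A subgroup of `G_ℚ` containing `G_F` for a finite `F/ℚ` and all inertia groups outside `S`
is `G_L` for a finite `L/ℚ` unramified outside `S`. -/
theorem exists_level_of_subgroup (S : Finset Nat.Primes)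
    (N : Subgroup (AlgebraicClosure ℚ ≃ₐ[ℚ] AlgebraicClosure ℚ))
    (F : IntermediateField ℚ (AlgebraicClosure ℚ)) (hFfin : FiniteDimensional ℚ F)
    (hF : F.fixingSubgroup ≤ N)
    (hur : ∀ q : Nat.Primes, q ∉ S → ∀ A : ValuationSubring (AlgebraicClosure ℚ),
      A.LiesOverPrime (q : ℕ) → A.inertiaSubgroupIn ℚ ≤ N) :
    ∃ L : IntermediateField ℚ (AlgebraicClosure ℚ),
      L.IsUnramifiedOutside S ∧ L.fixingSubgroup = N ∧ L ≤ F := by
  have hopenF : IsOpen (F.fixingSubgroup : Set (AlgebraicClosure ℚ ≃ₐ[ℚ] AlgebraicClosure ℚ)) :=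
    IntermediateField.fixingSubgroup_isOpen F
  have hopen : IsOpen (N : Set (AlgebraicClosure ℚ ≃ₐ[ℚ] AlgebraicClosure ℚ)) :=
    Subgroup.isOpen_mono hF hopenF
  have hclosed : IsClosed (N : Set (AlgebraicClosure ℚ ≃ₐ[ℚ] AlgebraicClosure ℚ)) :=
    Subgroup.isClosed_of_isOpen N hopen
  have hfix : (IntermediateField.fixedField N).fixingSubgroup = N :=
    InfiniteGalois.fixingSubgroup_fixedField ⟨N, hclosed⟩
  have hle : IntermediateField.fixedField N ≤ F := by
    rw [← InfiniteGalois.fixedField_fixingSubgroup F]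
    exact IntermediateField.fixedField_antitone hF
  refine ⟨IntermediateField.fixedField N, ⟨?_, ?_⟩, hfix, hle⟩
  · exact FiniteDimensional.of_injective (IntermediateField.inclusion hle).toLinearMap
      (IntermediateField.inclusion_injective hle)
  · intro q hq A hA
    rw [hfix]
    exact hur q hq A hA

/-- If moreover the subgroup is normal, the level is Galois over `ℚ`. -/
theorem exists_galois_level_of_subgroup (S : Finset Nat.Primes)
    (N : Subgroup (AlgebraicClosure ℚ ≃ₐ[ℚ] AlgebraicClosure ℚ)) [N.Normal]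
    (F : IntermediateField ℚ (AlgebraicClosure ℚ)) (hFfin : FiniteDimensional ℚ F)
    (hF : F.fixingSubgroup ≤ N)
    (hur : ∀ q : Nat.Primes, q ∉ S → ∀ A : ValuationSubring (AlgebraicClosure ℚ),
      A.LiesOverPrime (q : ℕ) → A.inertiaSubgroupIn ℚ ≤ N) :
    ∃ L : IntermediateField ℚ (AlgebraicClosure ℚ),
      L.IsUnramifiedOutside S ∧ IsGalois ℚ L ∧ L.fixingSubgroup = N ∧ L ≤ F := by
  obtain ⟨L, hL, hfix, hle⟩ := exists_level_of_subgroup S N F hFfin hF hur
  refine ⟨L, hL, ?_, hfix, hle⟩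
  have h := (InfiniteGalois.normal_iff_isGalois L).1 (by rw [hfix]; infer_instance)
  convert h
  exact Subsingleton.elim _ _

section Rep

variable {k : Type} [Field k]
  (M : Rep k (AlgebraicClosure ℚ ≃ₐ[ℚ] AlgebraicClosure ℚ)) [FiniteDimensional k M]

/-- Pointwise smoothness plus finite-dimensionality gives a uniform finite level. -/
theorem exists_finite_level_of_smooth
    (hsm : ∀ m : M, ∃ F : IntermediateField ℚ (AlgebraicClosure ℚ), FiniteDimensional ℚ F ∧
      ∀ s ∈ F.fixingSubgroup, M.ρ s m = m) :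
    ∃ F : IntermediateField ℚ (AlgebraicClosure ℚ), FiniteDimensional ℚ F ∧
      ∀ s ∈ F.fixingSubgroup, M.ρ s = 1 := by
  classical
  choose F hFfin hFfix using hsm
  let b := Module.finBasis k M
  refine ⟨⨆ i, F (b i), ?_, ?_⟩
  · haveI : ∀ i, FiniteDimensional ℚ (F (b i)) := fun i => hFfin (b i)
    exact IntermediateField.finiteDimensional_iSup_of_finite
  · intro s hs
    apply b.ext
    intro i
    have hle : F (b i) ≤ ⨆ i, F (b i) := le_iSup (fun i => F (b i)) i
    exact hFfix (b i) s (IntermediateField.fixingSubgroup_antitone hle hs)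

/-- **B2a.** The representation `M` of S55 factors through `Gal(L/ℚ)` for a finite Galois
extension `L/ℚ` unramified outside `S`; in fact `G_L = ker ρ`. -/
theorem exists_galois_level_of_rep (S : Finset Nat.Primes)
    (hsm : ∀ m : M, ∃ F : IntermediateField ℚ (AlgebraicClosure ℚ), FiniteDimensional ℚ F ∧
      ∀ s ∈ F.fixingSubgroup, M.ρ s m = m)
    (hMur : ∀ q : Nat.Primes, q ∉ S → ∀ A : ValuationSubring (AlgebraicClosure ℚ),
      A.LiesOverPrime (q : ℕ) → ∀ g ∈ A.inertiaSubgroupIn ℚ, M.ρ g = 1) :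
    ∃ L : IntermediateField ℚ (AlgebraicClosure ℚ),
      L.IsUnramifiedOutside S ∧ IsGalois ℚ L ∧ ∀ s, s ∈ L.fixingSubgroup ↔ M.ρ s = 1 := by
  obtain ⟨F, hFfin, hF⟩ := exists_finite_level_of_smooth M hsm
  obtain ⟨L, hL, hgal, hfix, -⟩ := exists_galois_level_of_subgroup S (MonoidHom.ker M.ρ) F hFfin
    (fun s hs => MonoidHom.mem_ker.2 (hF s hs))
    (fun q hq A hA g hg => MonoidHom.mem_ker.2 (hMur q hq A hA g hg))
  refine ⟨L, hL, hgal, fun s => ?_⟩
  rw [hfix, MonoidHom.mem_ker]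

end Rep

end Fermat.Agent.S55.Bridge

end
-- ===== PACK-END S55/Bridge/Level.lean

-- ===== PACK-BEGIN S55/Bridge/Cyclo.lean
section


/-!
# S55 bridge, part B2b: the mod `p` cyclotomic character is unramified outside `p`,
and `M.dualTwist (cycloChar p)` inherits smoothness and unramifiedness from `M`.
-/

set_option autoImplicit false

namespace Fermat.Agent.S55.Bridge

open ExtCitation

section inertia

variable (A : ValuationSubring (AlgebraicClosure ℚ))

/-- Elements of the inertia group act trivially on the residue field. -/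
theorem inertia_val_sub_lt_one {σ : AlgebraicClosure ℚ ≃ₐ[ℚ] AlgebraicClosure ℚ}
    (hσ : σ ∈ A.inertiaSubgroupIn ℚ) (z : AlgebraicClosure ℚ)
    (hz : A.valuation z ≤ 1) : A.valuation (σ z - z) < 1 := by
  obtain ⟨g, hg, rfl⟩ := hσ
  have hzA : z ∈ A := (A.valuation_le_one_iff z).mp hz
  have h1 : MulSemiringAction.toRingAut (A.decompositionSubgroup ℚ)
      (IsLocalRing.ResidueField A) g = 1 := hg
  have h2 : g • (IsLocalRing.residue A ⟨z, hzA⟩) = IsLocalRing.residue A ⟨z, hzA⟩ := by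
    have := congrArg (fun f => f (IsLocalRing.residue A ⟨z, hzA⟩)) h1
    simpa using this
  rw [← IsLocalRing.ResidueField.residue_smul] at h2
  have h3 : (g • (⟨z, hzA⟩ : A)) - ⟨z, hzA⟩ ∈ IsLocalRing.maximalIdeal A := by
    rw [← Ideal.Quotient.eq]
    exact h2
  rw [ValuationSubring.valuation_lt_one_iff] at h3
  exact h3

variable {A}

theorem val_intCast_le_one (n : ℤ) : A.valuation (n : AlgebraicClosure ℚ) ≤ 1 :=
  (A.valuation_le_one_iff _).mpr (intCast_mem A n)

/-- A prime `p ≠ q` is a unit at a place over `q`. -/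
theorem val_prime_eq_one {q p : ℕ} (hq : A.LiesOverPrime q) (hqp : q.Prime) (hp : p.Prime)
    (hne : q ≠ p) : A.valuation (p : AlgebraicClosure ℚ) = 1 := by
  have hq' : A.valuation (q : AlgebraicClosure ℚ) < 1 := (A.mem_nonunits_iff).mp hq
  have hcop : IsCoprime (q : ℤ) (p : ℤ) := by
    rw [Int.isCoprime_iff_gcd_eq_one, Int.gcd_natCast_natCast]
    exact (Nat.coprime_primes hqp hp).2 hne
  obtain ⟨u, w, huw⟩ := hcop
  have h1 : (u : AlgebraicClosure ℚ) * (q : AlgebraicClosure ℚ)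
      + (w : AlgebraicClosure ℚ) * (p : AlgebraicClosure ℚ) = 1 := by
    exact_mod_cast congrArg (Int.cast : ℤ → AlgebraicClosure ℚ) huw
  have hsmall : A.valuation ((u : AlgebraicClosure ℚ) * (q : AlgebraicClosure ℚ)) < 1 := by
    rw [map_mul]
    exact (mul_le_of_le_one_left' (val_intCast_le_one u)).trans_lt hq'
  have hwn : A.valuation ((w : AlgebraicClosure ℚ) * (p : AlgebraicClosure ℚ)) = 1 := by
    have : (w : AlgebraicClosure ℚ) * (p : AlgebraicClosure ℚ)
        = 1 + -((u : AlgebraicClosure ℚ) * (q : AlgebraicClosure ℚ)) := by linear_combination h1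
    rw [this, (A.valuation).map_add_eq_of_lt_left
      (by rw [Valuation.map_neg, map_one]; exact hsmall), map_one]
  rw [map_mul] at hwn
  have hp1 : A.valuation (p : AlgebraicClosure ℚ) ≤ 1 := by
    have := val_intCast_le_one (A := A) (p : ℤ)
    simpa using this
  refine le_antisymm hp1 ?_
  calc (1 : A.ValueGroup)
      = A.valuation (w : AlgebraicClosure ℚ) * A.valuation (p : AlgebraicClosure ℚ) := hwn.symm
    _ ≤ 1 * A.valuation (p : AlgebraicClosure ℚ) := mul_le_mul_left (val_intCast_le_one w) _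
    _ = A.valuation (p : AlgebraicClosure ℚ) := one_mul _

/-- A nontrivial `p`-th root of unity `η` has `v (1 - η) = 1` at places where `p` is a unit. -/
theorem val_one_sub_root_eq_one {p : ℕ} (hpv : A.valuation (p : AlgebraicClosure ℚ) = 1)
    {η : AlgebraicClosure ℚ} (hη : η ^ p = 1) (hη1 : η ≠ 1) (hηA : η ∈ A) :
    A.valuation (1 - η) = 1 := by
  -- work in the ring `A`
  let e : A := ⟨η, hηA⟩
  have hdvd : (1 : A) - e ∣ ((∑ i ∈ Finset.range p, (Polynomial.X : Polynomial A) ^ i).eval 1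
      - (∑ i ∈ Finset.range p, (Polynomial.X : Polynomial A) ^ i).eval e) :=
    Polynomial.sub_dvd_eval_sub 1 e _
  have hsum : ∑ i ∈ Finset.range p, η ^ i = 0 := by
    have h := geom_sum_mul η p
    rw [hη, sub_self] at h
    rcases mul_eq_zero.1 h with h | h
    · exact h
    · exact absurd (sub_eq_zero.1 h) hη1
  have hsumA : ∑ i ∈ Finset.range p, e ^ i = 0 := by
    apply Subtype.ext
    simpa [e] using hsum
  have heval1 : (∑ i ∈ Finset.range p, (Polynomial.X : Polynomial A) ^ i).eval 1 = (p : A) := by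
    simp [Polynomial.eval_finsetSum]
  have hevale : (∑ i ∈ Finset.range p, (Polynomial.X : Polynomial A) ^ i).eval e = 0 := by
    simpa [Polynomial.eval_finsetSum] using hsumA
  rw [heval1, hevale, sub_zero] at hdvd
  obtain ⟨y, hy⟩ := hdvd
  have hy' : (p : AlgebraicClosure ℚ) = (1 - η) * (y : AlgebraicClosure ℚ) := by
    have := congrArg (fun a : A => (a : AlgebraicClosure ℚ)) hy
    simpa [e] using this
  have hle : A.valuation (1 - η) ≤ 1 :=
    (A.valuation_le_one_iff _).mpr (A.sub_mem A.one_mem hηA)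
  refine le_antisymm hle ?_
  have hyv : A.valuation (y : AlgebraicClosure ℚ) ≤ 1 := A.valuation_le_one y
  calc (1 : A.ValueGroup) = A.valuation (p : AlgebraicClosure ℚ) := hpv.symm
    _ = A.valuation (1 - η) * A.valuation (y : AlgebraicClosure ℚ) := by rw [hy', map_mul]
    _ ≤ A.valuation (1 - η) * 1 := mul_le_mul_right hyv _
    _ = A.valuation (1 - η) := mul_one _

/-- Two distinct `p`-th roots of unity stay distinct in the residue field at places where `p`
is a unit. -/
theorem val_sub_roots_eq_one {p : ℕ} (hp0 : p ≠ 0)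
    (hpv : A.valuation (p : AlgebraicClosure ℚ) = 1)
    {a b : AlgebraicClosure ℚ} (ha : a ^ p = 1) (hb : b ^ p = 1) (hab : a ≠ b) :
    A.valuation (a - b) = 1 := by
  have hb0 : b ≠ 0 := by
    rintro rfl
    rw [zero_pow hp0] at hb
    exact zero_ne_one hb
  have hvb : A.valuation b = 1 := by
    have h : (A.valuation b) ^ p = 1 := by rw [← map_pow, hb, map_one]
    exact (pow_eq_one_iff.1 h).resolve_right hp0
  have hva : A.valuation a = 1 := by
    have h : (A.valuation a) ^ p = 1 := by rw [← map_pow, ha, map_one]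
    exact (pow_eq_one_iff.1 h).resolve_right hp0
  have hη : (a / b) ^ p = 1 := by rw [div_pow, ha, hb, div_one]
  have hη1 : a / b ≠ 1 := by
    intro h
    exact hab ((div_eq_one_iff_eq hb0).1 h)
  have hηA : a / b ∈ A := by
    rw [← A.valuation_le_one_iff, map_div₀, hva, hvb, div_one]
  have h1 := val_one_sub_root_eq_one hpv hη hη1 hηA
  have : a - b = -(b * (1 - a / b)) := by
    field_simp
    ring
  rw [this, Valuation.map_neg, map_mul, hvb, h1, one_mul]

end inertia

section cyclo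

variable (p : ℕ) [Fact p.Prime]

/-- Defining property of `cycloChar`. -/
theorem cycloChar_spec (σ : AlgebraicClosure ℚ ≃ₐ[ℚ] AlgebraicClosure ℚ)
    {t : (AlgebraicClosure ℚ)ˣ} (ht : t ∈ rootsOfUnity p (AlgebraicClosure ℚ)) :
    σ (t : AlgebraicClosure ℚ)
      = (t : AlgebraicClosure ℚ) ^ ((cycloChar p σ : (ZMod p)ˣ) : ZMod p).val := by
  haveI : NeZero p := ⟨(Fact.out : p.Prime).ne_zero⟩
  have h := modularCyclotomicCharacter.spec (AlgebraicClosure ℚ) (card_rootsOfUnity_eq_self p)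
    (σ : AlgebraicClosure ℚ ≃+* AlgebraicClosure ℚ) ht
  exact h

/-- If `σ` fixes all `p`-th roots of unity then `cycloChar p σ = 1`. -/
theorem cycloChar_eq_one_of_fixes (σ : AlgebraicClosure ℚ ≃ₐ[ℚ] AlgebraicClosure ℚ)
    (hσ : ∀ t : (AlgebraicClosure ℚ)ˣ, t ∈ rootsOfUnity p (AlgebraicClosure ℚ) →
      σ (t : AlgebraicClosure ℚ) = t) : cycloChar p σ = 1 := by
  haveI : NeZero p := ⟨(Fact.out : p.Prime).ne_zero⟩
  haveI : Fact (1 < p) := ⟨(Fact.out : p.Prime).one_lt⟩
  have h := modularCyclotomicCharacter.unique (AlgebraicClosure ℚ) (card_rootsOfUnity_eq_self p)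
    (σ : AlgebraicClosure ℚ ≃+* AlgebraicClosure ℚ) (c := 1)
    (fun t ht => by rw [ZMod.val_one, pow_one]; exact hσ t ht)
  apply Units.ext
  exact h.symm

/-- `cycloChar p σ = 1` iff `σ` fixes all `p`-th roots of unity. -/
theorem cycloChar_eq_one_iff (σ : AlgebraicClosure ℚ ≃ₐ[ℚ] AlgebraicClosure ℚ) :
    cycloChar p σ = 1 ↔ ∀ t : (AlgebraicClosure ℚ)ˣ, t ∈ rootsOfUnity p (AlgebraicClosure ℚ) →
      σ (t : AlgebraicClosure ℚ) = t := by
  haveI : Fact (1 < p) := ⟨(Fact.out : p.Prime).one_lt⟩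
  refine ⟨fun h t ht => ?_, cycloChar_eq_one_of_fixes p σ⟩
  rw [cycloChar_spec p σ ht, h, Units.val_one, ZMod.val_one, pow_one]

/-- **B2b.** The mod `p` cyclotomic character is unramified at every prime `q ≠ p`. -/
theorem cycloChar_eq_one_of_mem_inertia {q : ℕ} (hq : q.Prime) (hqp : q ≠ p)
    (A : ValuationSubring (AlgebraicClosure ℚ)) (hA : A.LiesOverPrime q)
    (σ : AlgebraicClosure ℚ ≃ₐ[ℚ] AlgebraicClosure ℚ) (hσ : σ ∈ A.inertiaSubgroupIn ℚ) :
    cycloChar p σ = 1 := by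
  have hp : p.Prime := Fact.out
  apply cycloChar_eq_one_of_fixes
  intro t ht
  have htp : (t : AlgebraicClosure ℚ) ^ p = 1 := by
    have := (mem_rootsOfUnity p t).1 ht
    rw [← Units.val_pow_eq_pow_val, this, Units.val_one]
  by_contra hne
  have hpv := val_prime_eq_one (A := A) hA hq hp hqp
  have hσt : (σ (t : AlgebraicClosure ℚ)) ^ p = 1 := by rw [← map_pow, htp, map_one]
  have h1 := val_sub_roots_eq_one (A := A) hp.ne_zero hpv hσt htp hne
  have hvt : A.valuation (t : AlgebraicClosure ℚ) ≤ 1 := by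
    have h : (A.valuation (t : AlgebraicClosure ℚ)) ^ p = 1 := by rw [← map_pow, htp, map_one]
    exact ((pow_eq_one_iff.1 h).resolve_right hp.ne_zero).le
  have h2 := inertia_val_sub_lt_one A hσ t hvt
  rw [h1] at h2
  exact lt_irrefl _ h2

end cyclo

end Fermat.Agent.S55.Bridge

end
-- ===== PACK-END S55/Bridge/Cyclo.lean

-- ===== PACK-BEGIN S29/H872/Burnside.lean
section





/-!
# Burnside's theorem (from Mathlib's Schur lemma + Jacobson density)

A subalgebra of `End_K(U)` (`K` algebraically closed, `U` finite dimensional, nonzero) without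
nontrivial invariant subspaces is everything.
-/

set_option autoImplicit false

namespace Fermat.Agent.S29.H872

open Module

variable {K : Type*} [Field K] {U : Type*} [AddCommGroup U] [Module K U]

section Burnside

variable (A : Subalgebra K (Module.End K U))

theorem subalgebra_smul_def (a : A) (u : U) : a • u = (a : Module.End K U) u := rfl

instance instIsScalarTowerSubalgebraEnd : IsScalarTower K A U :=
  ⟨fun c a u => by
    rw [subalgebra_smul_def, subalgebra_smul_def]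
    simp⟩

theorem isSimpleModule_of_irr [Nontrivial U]
    (hirr : ∀ W : Submodule K U, (∀ a ∈ A, W ≤ W.comap a) → W = ⊥ ∨ W = ⊤) :
    IsSimpleModule A U := by
  rw [isSimpleModule_iff]
  have : Nontrivial (Submodule A U) := inferInstance
  refine ⟨fun W => ?_⟩
  have h := hirr (W.restrictScalars K) (fun a ha w hw => by
    change (a : Module.End K U) w ∈ W
    exact W.smul_mem (⟨a, ha⟩ : A) hw)
  rcases h with h | h
  · left
    exact Submodule.restrictScalars_injective K A U (by rw [h]; rfl)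
  · right
    exact Submodule.restrictScalars_injective K A U (by rw [h]; rfl)

variable [IsAlgClosed K] [FiniteDimensional K U]

/-- **Burnside's theorem.** -/
theorem burnside [Nontrivial U]
    (hirr : ∀ W : Submodule K U, (∀ a ∈ A, W ≤ W.comap a) → W = ⊥ ∨ W = ⊤) :
    A = ⊤ := by
  have : IsSimpleModule A U := isSimpleModule_of_irr A hirr
  have hschur : Function.Bijective (algebraMap K (Module.End A U)) :=
    IsSimpleModule.algebraMap_end_bijective_of_isAlgClosed K
  have : Module.Finite (Module.End A U) U :=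
    Module.Finite.of_restrictScalars_finite K (Module.End A U) U
  have hdens := Module.Finite.toModuleEnd_moduleEnd_surjective (R := A) (M := U)
  rw [eq_top_iff]
  intro f _
  -- `f` is linear over `End_A(U) = K`
  let f' : Module.End (Module.End A U) U :=
    { toFun := f
      map_add' := f.map_add
      map_smul' := fun e u => by
        obtain ⟨c, rfl⟩ := hschur.2 e
        simp }
  obtain ⟨a, ha⟩ := hdens f'
  have : (a : Module.End K U) = f := by
    ext u
    have := congrArg (fun g : Module.End (Module.End A U) U => g u) ha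
    have h2 : a • u = f u := by simpa [f'] using this
    exact h2
  rw [← this]
  exact a.2

end Burnside

end Fermat.Agent.S29.H872

end
-- ===== PACK-END S29/H872/Burnside.lean

-- ===== PACK-BEGIN S29/H872/Quadratic.lean
section










/-!
# The dimension lemma

`K` algebraically closed, `U` a nonzero finite dimensional irreducible representation of a
group `G` such that every `g` satisfies a quadratic relation `g² = a(g) g - d(g)` with `d`
multiplicative.  Then `dim U ≤ 2`, and if `dim U = 2` the characteristic polynomial of `g`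
is `X² - α X + d(g)` for EVERY `α` with `g² = α g - d(g)`.
No restriction on the characteristic.
-/

set_option autoImplicit false

namespace Fermat.Agent.S29.H872

open Module Polynomial

section Algebra

variable {K : Type*} [Field K] {R : Type*} [Ring R] [Algebra K R]

theorem quad_adj {x : R} {a d : K} (hx : x * x = a • x - d • 1) :
    x * (a • 1 - x) = d • 1 := by
  rw [mul_sub, hx, mul_smul_comm, mul_one]
  abel

/-- The linearised quadratic relation. -/
theorem pair_identity (x y u : R) (ax ay axy dx dy : K)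
    (hx : x * x = ax • x - dx • 1) (hy : y * y = ay • y - dy • 1)
    (hxy : (x * y) * (x * y) = axy • (x * y) - (dx * dy) • 1) (hu : u * (x * y) = 1) :
    x * y + y * x = ay • x + ax • y + (axy - ax * ay) • (1 : R) := by
  have e1 := quad_adj hx
  have e2 := quad_adj hy
  have e3 := quad_adj hxy
  have e4 : (x * y) * ((ay • 1 - y) * (ax • 1 - x)) = (dx * dy) • (1 : R) := by
    calc (x * y) * ((ay • 1 - y) * (ax • 1 - x))
        = x * (y * (ay • 1 - y)) * (ax • 1 - x) := by simp only [mul_assoc]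
      _ = dy • (x * (ax • 1 - x)) := by
          rw [e2, mul_smul_comm, mul_one, smul_mul_assoc]
      _ = (dx * dy) • (1 : R) := by rw [e1, smul_smul, mul_comm]
  have e5 : (ay • 1 - y) * (ax • 1 - x) = axy • (1 : R) - x * y := by
    have h := congrArg (fun z => u * z) (e4.trans e3.symm)
    simp only [← mul_assoc, hu, one_mul] at h
    exact h
  have e6 : (ay • 1 - y) * (ax • 1 - x)
      = (ay * ax) • (1 : R) - ay • x - ax • y + y * x := by
    have t1 : (ay • (1 : R)) * (ax • (1 : R)) = (ay * ax) • (1 : R) := by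
      rw [smul_mul_assoc, one_mul, smul_smul]
    have t2 : (ay • (1 : R)) * x = ay • x := by rw [smul_mul_assoc, one_mul]
    have t3 : y * (ax • (1 : R)) = ax • y := by rw [mul_smul_comm, mul_one]
    rw [sub_mul, mul_sub, mul_sub, t1, t2, t3]
    abel
  have e7 : (ay * ax) • (1 : R) - ay • x - ax • y + y * x = axy • (1 : R) - x * y :=
    e6.symm.trans e5
  have e8 : x * y + y * x
      = (axy • (1 : R) - x * y) - ((ay * ax) • (1 : R) - ay • x - ax • y + y * x)
        + (x * y + y * x) := by rw [e7]; abel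
  rw [e8]
  module

end Algebra

variable {K : Type*} [Field K] {U : Type*} [AddCommGroup U] [Module K U]
variable {G : Type*} [Group G]

/-- Quadratic relations with multiplicative constant term. -/
structure QuadRel (r : G →* Module.End K U) (a d : G → K) : Prop where
  d_mul : ∀ g h, d (g * h) = d g * d h
  rel : ∀ g, r g * r g = a g • r g - d g • 1

namespace QuadRel

variable {r : G →* Module.End K U} {a d : G → K}

theorem pair (hq : QuadRel r a d) (g h : G) :
    r g * r h + r h * r g = a h • r g + a g • r h + (a (g * h) - a g * a h) • 1 := by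
  refine pair_identity (r g) (r h) (r (g * h)⁻¹) (a g) (a h) (a (g * h)) (d g) (d h)
    (hq.rel g) (hq.rel h) ?_ ?_
  · rw [← map_mul, hq.rel (g * h), hq.d_mul]
  · rw [← map_mul, ← map_mul, inv_mul_cancel, map_one]

/-- the inductive invariant -/
def Good (r : G →* Module.End K U) (a : G → K) (x : Module.End K U) (τ : K) : Prop :=
  (∃ s : K, x * x = τ • x + s • 1) ∧
    ∀ g, ∃ s : K, x * r g + r g * x = a g • x + τ • r g + s • 1

theorem good_zero : Good r a 0 0 :=
  ⟨⟨0, by simp⟩, fun g => ⟨0, by simp⟩⟩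

theorem good_add_smul (hq : QuadRel r a d) {x : Module.End K U} {τ : K} (hx : Good r a x τ)
    (c : K) (g : G) : Good r a (c • r g + x) (c * a g + τ) := by
  obtain ⟨⟨s, hs⟩, hx2⟩ := hx
  obtain ⟨sg, hsg⟩ := hx2 g
  refine ⟨⟨s + c * sg - c ^ 2 * d g, ?_⟩, fun h => ?_⟩
  · have e : (c • r g + x) * (c • r g + x)
        = (c ^ 2) • (r g * r g) + c • (x * r g + r g * x) + x * x := by
      simp only [add_mul, mul_add, smul_mul_assoc, mul_smul_comm, pow_two]
      module
    rw [e, hq.rel g, hsg, hs]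
    module
  · obtain ⟨sh, hsh⟩ := hx2 h
    have hp := hq.pair g h
    refine ⟨sh + c * (a (g * h) - a g * a h), ?_⟩
    have e : (c • r g + x) * r h + r h * (c • r g + x)
        = c • (r g * r h + r h * r g) + (x * r h + r h * x) := by
      simp only [add_mul, mul_add, smul_mul_assoc, mul_smul_comm]
      module
    rw [e, hp, hsh]
    module

theorem exists_good_of_mem_span (hq : QuadRel r a d) {x : Module.End K U}
    (hx : x ∈ Submodule.span K (Set.range r)) : ∃ τ, Good r a x τ := by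
  rw [Finsupp.mem_span_range_iff_exists_finsupp] at hx
  obtain ⟨c, rfl⟩ := hx
  induction c using Finsupp.induction with
  | zero => exact ⟨0, by simpa using good_zero⟩
  | single_add g b f hg hb ih =>
    obtain ⟨τ, hτ⟩ := ih
    refine ⟨b * a g + τ, ?_⟩
    rw [Finsupp.sum_add_index' (by simp) (by intro i b₁ b₂; rw [add_smul]),
      Finsupp.sum_single_index (by simp)]
    exact good_add_smul hq hτ b g

end QuadRel

theorem adjoin_range_toSubmodule (r : G →* Module.End K U) :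
    Subalgebra.toSubmodule (Algebra.adjoin K (Set.range r)) = Submodule.span K (Set.range r) := by
  rw [Algebra.adjoin_eq_span]
  congr 1
  have : (Set.range r : Set (Module.End K U)) = (MonoidHom.mrange r : Set (Module.End K U)) :=
    (MonoidHom.coe_mrange r).symm
  rw [this, Submonoid.closure_eq]

variable [IsAlgClosed K] [FiniteDimensional K U]

/-- Under irreducibility every endomorphism is a combination of the `r g`. -/
theorem span_range_eq_top [Nontrivial U] (r : G →* Module.End K U)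
    (hirr : ∀ W : Submodule K U, (∀ g, W ≤ W.comap (r g)) → W = ⊥ ∨ W = ⊤) :
    Submodule.span K (Set.range r) = ⊤ := by
  have hA : Algebra.adjoin K (Set.range r) = ⊤ :=
    burnside _ (fun W hW => hirr W fun g => hW (r g) (Algebra.subset_adjoin ⟨g, rfl⟩))
  rw [← adjoin_range_toSubmodule, hA]
  rfl

/-- Every endomorphism satisfies a monic quadratic equation. -/
theorem exists_quadratic [Nontrivial U] {r : G →* Module.End K U} {a d : G → K}
    (hq : QuadRel r a d)
    (hirr : ∀ W : Submodule K U, (∀ g, W ≤ W.comap (r g)) → W = ⊥ ∨ W = ⊤)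
    (x : Module.End K U) : ∃ τ s : K, x * x = τ • x + s • 1 := by
  have hx : x ∈ Submodule.span K (Set.range r) := by
    rw [span_range_eq_top r hirr]; trivial
  obtain ⟨τ, ⟨s, hs⟩, _⟩ := hq.exists_good_of_mem_span hx
  exact ⟨τ, s, hs⟩

/-- **Dimension lemma.** -/
theorem finrank_le_two [Nontrivial U] {r : G →* Module.End K U} {a d : G → K}
    (hq : QuadRel r a d)
    (hirr : ∀ W : Submodule K U, (∀ g, W ≤ W.comap (r g)) → W = ⊥ ∨ W = ⊤) :
    Module.finrank K U ≤ 2 := by
  by_contra hlt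
  replace hlt := not_le.mp hlt
  let n := Module.finrank K U
  have hn : 3 ≤ n := hlt
  let b : Basis (Fin n) K U := Module.finBasis K U
  let i0 : Fin n := ⟨0, by omega⟩
  let i1 : Fin n := ⟨1, by omega⟩
  let i2 : Fin n := ⟨2, by omega⟩
  have h01 : i0 ≠ i1 := by simp [i0, i1, Fin.ext_iff]
  have h02 : i0 ≠ i2 := by simp [i0, i2, Fin.ext_iff]
  have h12 : i1 ≠ i2 := by simp [i1, i2, Fin.ext_iff]
  let x : Module.End K U :=
    b.constr K (fun i => if i = i0 then b i1 else if i = i1 then b i2 else 0)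
  have hx0 : x (b i0) = b i1 := by
    change b.constr K _ (b i0) = _
    rw [Basis.constr_basis, if_pos rfl]
  have hx1 : x (b i1) = b i2 := by
    change b.constr K _ (b i1) = _
    rw [Basis.constr_basis, if_neg h01.symm, if_pos rfl]
  obtain ⟨τ, s, hτ⟩ := exists_quadratic hq hirr x
  have h := congrArg (fun f : Module.End K U => f (b i0)) hτ
  simp only [Module.End.mul_apply, hx0, hx1, LinearMap.add_apply, LinearMap.smul_apply,
    Module.End.one_apply] at h
  -- `b i2 = τ • b i1 + s • b i0`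
  have h2 := congrArg (fun v => b.repr v i2) h
  simp only [map_add, map_smul, Basis.repr_self, Finsupp.coe_add, Finsupp.coe_smul,
    Pi.add_apply, Pi.smul_apply, Finsupp.single_eq_same, smul_eq_mul] at h2
  rw [Finsupp.single_eq_of_ne h12.symm, Finsupp.single_eq_of_ne h02.symm] at h2
  simp at h2

end Fermat.Agent.S29.H872

end
-- ===== PACK-END S29/H872/Quadratic.lean

-- ===== PACK-BEGIN S29/H872/PowRel.lean
section


/-!
# Quadratic relations pass to powers

If `T * T = a • T - d • 1` in an algebra over an algebraically closed field, then every power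
`T ^ j` satisfies a quadratic relation with constant term `d ^ j`.
-/

set_option autoImplicit false

namespace Fermat.Agent.S29.H872

open Polynomial

variable {F : Type*} [Field F] {B : Type*} [Ring B] [Algebra F B]

/-- A monic quadratic over an algebraically closed field splits. -/
theorem exists_roots_quadratic [IsAlgClosed F] (a d : F) :
    ∃ α β : F, α + β = a ∧ α * β = d := by
  have hdeg : (X ^ 2 - C a * X + C d : F[X]).degree ≠ 0 := by
    have h : (X ^ 2 - C a * X + C d : F[X]).degree = 2 := by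
      have e : (X ^ 2 - C a * X + C d : F[X]) = X ^ 2 + (C (-a) * X + C d) := by
        rw [C_neg]; ring
      rw [e, degree_add_eq_left_of_degree_lt]
      · exact degree_X_pow 2
      · rw [degree_X_pow]
        exact lt_of_le_of_lt (degree_linear_le) (by decide)
    rw [h]; decide
  obtain ⟨α, hα⟩ := IsAlgClosed.exists_root _ hdeg
  refine ⟨α, a - α, by ring, ?_⟩
  simp only [IsRoot.def, eval_add, eval_sub, eval_pow, eval_X, eval_mul, eval_C] at hα
  linear_combination -hα

theorem aeval_quad (T : B) (s t : F) (Y : F[X]) :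
    aeval T (Y * Y - C s * Y + C t) = aeval T Y * aeval T Y - s • aeval T Y + t • (1 : B) := by
  simp only [map_add, map_sub, map_mul, aeval_C, Algebra.smul_def, mul_one]

/-- If `(T - α)(T - β) = 0` then `(T ^ j - α ^ j)(T ^ j - β ^ j) = 0`. -/
theorem pow_rel_of_roots {T : B} {α β : F}
    (h : T * T = (α + β) • T - (α * β) • (1 : B)) (j : ℕ) :
    T ^ j * T ^ j = (α ^ j + β ^ j) • T ^ j - (α * β) ^ j • (1 : B) := by
  obtain ⟨P, hP⟩ : (X - C α : F[X]) ∣ X ^ j - C α ^ j := sub_dvd_pow_sub_pow _ _ _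
  obtain ⟨Q, hQ⟩ : (X - C β : F[X]) ∣ X ^ j - C β ^ j := sub_dvd_pow_sub_pow _ _ _
  have h0 : aeval T ((X - C α) * (X - C β) : F[X]) = 0 := by
    have e : ((X - C α) * (X - C β) : F[X]) = X * X - C (α + β) * X + C (α * β) := by
      rw [C_add, C_mul]; ring
    rw [e, aeval_quad, aeval_X, h]; abel
  have h1 : aeval T ((X ^ j - C α ^ j) * (X ^ j - C β ^ j) : F[X]) = 0 := by
    rw [hP, hQ, show (X - C α) * P * ((X - C β) * Q) = (X - C α) * (X - C β) * (P * Q) by ring,
      map_mul, h0, zero_mul]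
  have e : ((X ^ j - C α ^ j) * (X ^ j - C β ^ j) : F[X])
      = X ^ j * X ^ j - C (α ^ j + β ^ j) * X ^ j + C ((α * β) ^ j) := by
    rw [C_add, C_pow, C_pow, mul_pow, C_mul, C_pow, C_pow]; ring
  rw [e, aeval_quad, map_pow, aeval_X] at h1
  rw [← sub_eq_zero, ← h1]; abel

/-- **Quadratic relations pass to powers.** -/
theorem exists_pow_rel [IsAlgClosed F] {T : B} {a d : F}
    (h : T * T = a • T - d • (1 : B)) (j : ℕ) :
    ∃ a' : F, T ^ j * T ^ j = a' • T ^ j - d ^ j • (1 : B) := by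
  obtain ⟨α, β, hab, hd⟩ := exists_roots_quadratic a d
  subst hab; subst hd
  exact ⟨_, pow_rel_of_roots h j⟩

end Fermat.Agent.S29.H872

end
-- ===== PACK-END S29/H872/PowRel.lean

-- ===== PACK-BEGIN S48/H188/M4aAlg.lean
section


/-!
# S48 / Tower A1, node M4a1 (helper188): the abstract Nakayama step

* `exists_eigen_hom_of_commRing` : a commutative ring `A` acting faithfully on a `ℂ`-space `S`,
  a finitely generated group `G` with a separating, `A`-stable family of period functionals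
  `lam γ ∈ Dual S`, and a character `χ : A → F` (`F` a field of characteristic `ℓ > 0`) give a
  nonzero additive `c : G → F` with `∑ᵢ c (wᵢ) = χ x * c γ` whenever
  `lam γ ∘ x = ∑ᵢ lam (wᵢ)`.
* `exists_eigen_hom_of_per` : the same for `A = Algebra.adjoin ℤ gens` (commuting generators with
  transfer formulas) and a linear injective period map `per : S → Hom(G, ℂ)`.

No characteristic-zero eigenform is needed: only the ring homomorphism `χ`.
-/

set_option autoImplicit false
set_option linter.style.haveILetI false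

namespace Fermat.Agent.S48.H188

noncomputable section

section Abstract

variable {S : Type*} [AddCommGroup S] [Module ℂ S]
variable {A : Type*} [CommRing A]

/-- The module structure on `Module.Dual ℂ S` over a commutative ring `A` acting on `S`:
`x • φ = φ ∘ act x`. -/
@[reducible] def dualModule (act : A →+* Module.End ℂ S) : Module A (Module.Dual ℂ S) where
  smul x φ := φ.comp (act x)
  one_smul φ := by
    show φ.comp (act 1) = φ
    rw [map_one]; rfl
  mul_smul x y φ := by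
    show φ.comp (act (x * y)) = (φ.comp (act y)).comp (act x)
    rw [mul_comm x y, map_mul]; rfl
  smul_zero x := by
    show (0 : Module.Dual ℂ S).comp (act x) = 0
    exact LinearMap.zero_comp _
  smul_add x φ ψ := by
    show (φ + ψ).comp (act x) = φ.comp (act x) + ψ.comp (act x)
    exact LinearMap.add_comp _ _ _
  add_smul x y φ := by
    show φ.comp (act (x + y)) = φ.comp (act x) + φ.comp (act y)
    rw [map_add]; exact LinearMap.comp_add _ _ _
  zero_smul φ := by
    show φ.comp (act 0) = 0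
    rw [map_zero]; exact LinearMap.comp_zero _

variable {G : Type*} [AddGroup G]

/-- The period lattice as an `A`-submodule of the dual. -/
def latticeSub (act : A →+* Module.End ℂ S) (lam : G →+ Module.Dual ℂ S)
    (hstab : ∀ (x : A) (γ : G), (lam γ).comp (act x) ∈ lam.range) :
    letI := dualModule act
    Submodule A (Module.Dual ℂ S) :=
  letI := dualModule act
  { carrier := lam.range
    add_mem' := fun {a b} ha hb => lam.range.add_mem ha hb
    zero_mem' := lam.range.zero_mem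
    smul_mem' := fun x φ hφ => by
      obtain ⟨γ, rfl⟩ := hφ
      exact hstab x γ }

/-- **Abstract Nakayama step** (M4a1): a finitely generated group `G` with a separating family of
period functionals `lam γ ∈ Dual S`, a commutative ring `A` acting faithfully on `S` and
preserving the period lattice, and a character `χ : A → F` into a field of characteristic
`ℓ > 0`.  Then there is a nonzero additive `c : G → F` which is a `χ`-eigenvector for the
transposed action of `A`. -/
theorem exists_eigen_hom_of_commRing (hG : AddGroup.FG G)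
    (lam : G →+ Module.Dual ℂ S)
    (hsep : ∀ g : S, (∀ γ, lam γ g = 0) → g = 0)
    (act : A →+* Module.End ℂ S) (hact : Function.Injective act)
    (hstab : ∀ (x : A) (γ : G), (lam γ).comp (act x) ∈ lam.range)
    {F : Type*} [Field F] (ℓ : ℕ) [Fact ℓ.Prime] [CharP F ℓ] (χ : A →+* F) :
    ∃ c : G →+ F, c ≠ 0 ∧ (∀ γ, lam γ = 0 → c γ = 0) ∧
      ∀ (x : A) (γ : G) (ι : Type) (s : Finset ι) (w : ι → G),
        (lam γ).comp (act x) = ∑ i ∈ s, lam (w i) → ∑ i ∈ s, c (w i) = χ x * c γ := by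
  letI := dualModule act
  set Λ : Submodule A (Module.Dual ℂ S) := latticeSub act lam hstab with hΛ
  have hmemΛ : ∀ φ : Module.Dual ℂ S, φ ∈ Λ ↔ φ ∈ lam.range := fun φ => Iff.rfl
  -- `Λ` is finitely generated over `ℤ`
  let toΛ : G →+ Λ :=
    { toFun := fun γ => ⟨lam γ, ⟨γ, rfl⟩⟩
      map_zero' := Subtype.ext (map_zero lam)
      map_add' := fun a b => Subtype.ext (map_add lam a b) }
  have htoΛ_surj : Function.Surjective toΛ := by
    rintro ⟨φ, γ, rfl⟩
    exact ⟨γ, rfl⟩
  haveI hfinZ : Module.Finite ℤ Λ := by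
    rw [Module.Finite.iff_addGroup_fg]
    haveI := hG
    exact AddGroup.fg_of_surjective htoΛ_surj
  haveI hfinA : Module.Finite A Λ := Module.Finite.of_restrictScalars_finite ℤ A Λ
  -- faithfulness
  have hfaith : ∀ x : A, (∀ v : Λ, x • v = 0) → x = 0 := by
    intro x hx
    apply hact
    rw [map_zero]
    refine LinearMap.ext fun g => ?_
    apply hsep
    intro γ
    have h1 := hx (toΛ γ)
    have h2 : (lam γ).comp (act x) = 0 := congrArg Subtype.val h1
    have h3 := LinearMap.congr_fun h2 g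
    simpa using h3
  -- `A` is integral over `ℤ`
  haveI hint : Algebra.IsIntegral ℤ A := by
    refine ⟨fun x => ?_⟩
    obtain ⟨P, hP, hPx⟩ := LinearMap.exists_monic_and_aeval_eq_zero ℤ
      (Algebra.lsmul ℤ ℤ Λ x)
    refine ⟨P, hP, ?_⟩
    rw [← Polynomial.aeval_def]
    apply hfaith
    intro v
    rw [Polynomial.aeval_algHom_apply] at hPx
    have h1 := LinearMap.congr_fun hPx v
    simpa using h1
  set m : Ideal A := RingHom.ker χ with hm
  haveI hprime : m.IsPrime := RingHom.ker_isPrime χ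
  haveI hmax : m.IsMaximal := by
    refine Ideal.isMaximal_of_isIntegral_of_isMaximal_comap (R := ℤ) m ?_
    have hq : ((ℓ : ℤ) : A) ∈ m := by
      rw [hm, RingHom.mem_ker, map_intCast]
      exact_mod_cast CharP.cast_eq_zero F ℓ
    have hne : m.comap (algebraMap ℤ A) ≠ ⊥ := by
      intro h
      have h1 : (ℓ : ℤ) ∈ m.comap (algebraMap ℤ A) := by
        rw [Ideal.mem_comap]
        exact hq
      rw [h, Ideal.mem_bot] at h1
      exact (Fact.out : ℓ.Prime).ne_zero (by exact_mod_cast h1)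
    exact Ideal.IsPrime.isMaximal (Ideal.comap_isPrime _ _) hne
  -- Nakayama
  have hnak : ¬ ((⊤ : Submodule A Λ) ≤ m • ⊤) := by
    intro hle
    obtain ⟨r, hr1, hr0⟩ := Submodule.exists_sub_one_mem_and_smul_eq_zero_of_fg_of_le_smul m
      (⊤ : Submodule A Λ) Module.Finite.fg_top hle
    have h5 : r = 0 := hfaith r fun v => hr0 v trivial
    rw [h5, zero_sub, hm, RingHom.mem_ker, map_neg, map_one, neg_eq_zero] at hr1
    exact one_ne_zero hr1
  obtain ⟨v, -, hv⟩ := SetLike.not_le_iff_exists.mp hnak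
  letI : Field (A ⧸ m) := Ideal.Quotient.field m
  set Q := Λ ⧸ (m • ⊤ : Submodule A Λ) with hQ
  have hv0 : (Submodule.Quotient.mk v : Q) ≠ 0 := by
    rw [Ne, Submodule.Quotient.mk_eq_zero]
    exact hv
  obtain ⟨φ, hφ⟩ : ∃ φ : Module.Dual (A ⧸ m) Q, φ (Submodule.Quotient.mk v) ≠ 0 := by
    by_contra hcon
    have hcon' : ∀ φ : Module.Dual (A ⧸ m) Q, φ (Submodule.Quotient.mk v) = 0 := fun φ =>
      by_contra fun h => hcon ⟨φ, h⟩
    exact hv0 ((Module.forall_dual_apply_eq_zero_iff (A ⧸ m) _).mp hcon')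
  let ψbar : (A ⧸ m) →+* F := RingHom.kerLift χ
  have hψbar : Function.Injective ψbar := RingHom.kerLift_injective χ
  let u : Λ →+ F :=
    ((ψbar : (A ⧸ m) →+ F).comp (φ : Q →+ (A ⧸ m))).comp
      ((Submodule.mkQ (m • ⊤ : Submodule A Λ)) : Λ →+ Q)
  have hu : ∀ (x : A) (y : Λ), u (x • y) = χ x * u y := by
    intro x y
    show ψbar (φ (Submodule.Quotient.mk (x • y))) = χ x * ψbar (φ (Submodule.Quotient.mk y))
    rw [Submodule.Quotient.mk_smul]
    have h2 : (x • (Submodule.Quotient.mk y : Q))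
        = (Ideal.Quotient.mk m x) • (Submodule.Quotient.mk y : Q) := rfl
    rw [h2, map_smul, smul_eq_mul, map_mul]
    rfl
  refine ⟨u.comp toΛ, ?_, ?_, ?_⟩
  · intro h0
    obtain ⟨γ, hγ⟩ := htoΛ_surj v
    have h1 : u v = 0 := by
      rw [← hγ]
      exact DFunLike.congr_fun h0 γ
    have h2 : ψbar (φ (Submodule.Quotient.mk v)) = 0 := h1
    rw [← map_zero ψbar] at h2
    exact hφ (hψbar h2)
  · intro γ hγ
    have h1 : toΛ γ = 0 := Subtype.ext hγ
    rw [AddMonoidHom.comp_apply, h1, map_zero]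
  · intro x γ ι s w hw
    have h1 : x • toΛ γ = ∑ i ∈ s, toΛ (w i) := by
      apply Subtype.ext
      rw [Submodule.coe_sum]
      exact hw
    have h2 := hu x (toΛ γ)
    rw [h1, map_sum] at h2
    exact h2

end Abstract

/-! ### The version for an algebra generated by commuting operators and a period map -/

section Adjoin

variable {S : Type*} [AddCommGroup S] [Module ℂ S] {G : Type*} [AddGroup G]

/-- The period functionals attached to a linear period map. -/
def perDual (per : S →ₗ[ℂ] (G →+ ℂ)) : G →+ Module.Dual ℂ S where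
  toFun γ :=
    { toFun := fun g => per g γ
      map_add' := fun g g' => by rw [map_add]; rfl
      map_smul' := fun a g => by rw [map_smul]; rfl }
  map_zero' := by
    refine LinearMap.ext fun g => ?_
    exact map_zero (per g)
  map_add' γ γ' := by
    refine LinearMap.ext fun g => ?_
    exact map_add (per g) γ γ'

@[simp] theorem perDual_apply (per : S →ₗ[ℂ] (G →+ ℂ)) (γ : G) (g : S) :
    perDual per γ g = per g γ := rfl

/-- Stability of the period lattice under the algebra generated by operators with transfer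
formulas. -/
theorem perDual_comp_mem_range (per : S →ₗ[ℂ] (G →+ ℂ)) (gens : Set (Module.End ℂ S))
    (htr : ∀ t ∈ gens, ∀ γ : G, ∃ (ι : Type) (s : Finset ι) (w : ι → G),
      ∀ g : S, per (t g) γ = ∑ i ∈ s, per g (w i))
    {x : Module.End ℂ S} (hx : x ∈ Algebra.adjoin ℤ gens) (γ : G) :
    (perDual per γ).comp x ∈ (perDual per).range := by
  have key : ∀ φ ∈ (perDual per).range, φ.comp x ∈ (perDual per).range := by
    induction hx using Algebra.adjoin_induction with
    | mem t ht =>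
      rintro _ ⟨γ, rfl⟩
      obtain ⟨ι, s, w, hw⟩ := htr t ht γ
      have h1 : (perDual per γ).comp t = ∑ i ∈ s, perDual per (w i) := by
        refine LinearMap.ext fun g => ?_
        rw [LinearMap.comp_apply, perDual_apply, hw g, LinearMap.sum_apply]
        rfl
      rw [h1]
      exact (perDual per).range.sum_mem fun i _ => ⟨w i, rfl⟩
    | algebraMap r =>
      intro φ hφ
      have h1 : φ.comp (algebraMap ℤ (Module.End ℂ S) r) = r • φ := by
        refine LinearMap.ext fun g => ?_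
        rw [LinearMap.comp_apply, LinearMap.smul_apply, Algebra.algebraMap_eq_smul_one,
          LinearMap.smul_apply, map_zsmul]
        rfl
      rw [h1]
      exact (perDual per).range.zsmul_mem hφ r
    | add y z _ _ hy hz =>
      intro φ hφ
      rw [LinearMap.comp_add]
      exact (perDual per).range.add_mem (hy φ hφ) (hz φ hφ)
    | mul y z _ _ hy hz =>
      intro φ hφ
      have h1 : φ.comp (y * z) = (φ.comp y).comp z := rfl
      rw [h1]
      exact hz _ (hy φ hφ)
  exact key _ ⟨γ, rfl⟩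

open scoped IsMulCommutative in
/-- **M4a1, abstract form.**  `per : S → Hom(G, ℂ)` an injective linear period map on a finitely
generated group, `gens` a set of pairwise commuting operators on `S` each of which has a transfer
formula `per (t g) γ = ∑ᵢ per g (wᵢ)`, and `χ` a ring homomorphism from the `ℤ`-algebra generated
by `gens` to a field of characteristic `ℓ > 0`.  Then there is a nonzero additive `c : G → F`,
vanishing wherever all periods vanish, with `∑ᵢ c (wᵢ) = χ t * c γ` for EVERY transfer formula of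
every `t` in the algebra. -/
theorem exists_eigen_hom_of_per (hG : AddGroup.FG G) (per : S →ₗ[ℂ] (G →+ ℂ))
    (hinj : Function.Injective per) (gens : Set (Module.End ℂ S))
    (hcomm : ∀ x ∈ gens, ∀ y ∈ gens, x * y = y * x)
    (htr : ∀ t ∈ gens, ∀ γ : G, ∃ (ι : Type) (s : Finset ι) (w : ι → G),
      ∀ g : S, per (t g) γ = ∑ i ∈ s, per g (w i))
    {F : Type*} [Field F] (ℓ : ℕ) [Fact ℓ.Prime] [CharP F ℓ]
    (χ : Algebra.adjoin ℤ gens →+* F) :
    ∃ c : G →+ F, c ≠ 0 ∧ (∀ γ : G, (∀ g : S, per g γ = 0) → c γ = 0) ∧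
      ∀ (t : Algebra.adjoin ℤ gens) (γ : G) (ι : Type) (s : Finset ι) (w : ι → G),
        (∀ g : S, per ((t : Module.End ℂ S) g) γ = ∑ i ∈ s, per g (w i)) →
          ∑ i ∈ s, c (w i) = χ t * c γ := by
  haveI := Algebra.isMulCommutative_adjoin ℤ hcomm
  have hsep : ∀ g : S, (∀ γ, perDual per γ g = 0) → g = 0 := by
    intro g hg
    apply hinj
    rw [map_zero]
    exact AddMonoidHom.ext fun γ => hg γ
  obtain ⟨c, hc0, hcker, hceig⟩ := exists_eigen_hom_of_commRing (A := Algebra.adjoin ℤ gens) hG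
    (perDual per) hsep (Algebra.adjoin ℤ gens).val.toRingHom Subtype.val_injective
    (fun x γ => perDual_comp_mem_range per gens htr x.2 γ) ℓ χ
  refine ⟨c, hc0, fun γ hγ => hcker γ (LinearMap.ext fun g => hγ g), ?_⟩
  intro t γ ι s w hw
  refine hceig t γ ι s w ?_
  refine LinearMap.ext fun g => ?_
  rw [LinearMap.sum_apply]
  exact hw g

end Adjoin


end

end Fermat.Agent.S48.H188

end
-- ===== PACK-END S48/H188/M4aAlg.lean

-- ===== PACK-BEGIN S48/H796/Cot.lean
section


/-!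
# S48 / P2-EIS (helper796): cotangent sums

`cotPi x = π cot (π x)`; row sums `∑_{n ∈ ℤ} (1/(x+n) - 1/(y+n)) = cotPi x - cotPi y`,
exponential form of `cotPi` in the upper and lower half planes.
-/

set_option autoImplicit false

noncomputable section

namespace Fermat.Agent.S48.H796

open Complex Filter Topology Asymptotics
open scoped Real

/-- `c(x) = π cot(π x)`. -/
def cotPi (x : ℂ) : ℂ := π * Complex.cot (π * x)

lemma cotPi_def (x : ℂ) : cotPi x = π * Complex.cot (π * x) := rfl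

lemma cotPi_eq_exp (x : ℂ) :
    cotPi x = π * ((cexp (2 * π * I * x) + 1) / (I * (1 - cexp (2 * π * I * x)))) := by
  rw [cotPi, cot_pi_eq_exp_ratio]

lemma cexp_two_pi_I_add_int (x : ℂ) (n : ℤ) :
    cexp (2 * π * I * (x + n)) = cexp (2 * π * I * x) := by
  rw [mul_add, Complex.exp_add]
  have : cexp (2 * π * I * n) = 1 := by
    have := Complex.exp_int_mul_two_pi_mul_I n
    rw [← this]; congr 1; ring
  rw [this, mul_one]

lemma cotPi_add_int (x : ℂ) (n : ℤ) : cotPi (x + n) = cotPi x := by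
  rw [cotPi_eq_exp, cotPi_eq_exp, cexp_two_pi_I_add_int]

lemma cotPi_sub_int (x : ℂ) (n : ℤ) : cotPi (x - n) = cotPi x := by
  have := cotPi_add_int x (-n)
  simpa [sub_eq_add_neg] using this

lemma cotPi_neg (x : ℂ) : cotPi (-x) = -cotPi x := by
  simp only [cotPi, mul_neg, Complex.cot, Complex.cos_neg, Complex.sin_neg, div_neg]

/-- For `‖u‖ < 1` (`u = e^{2πix}`, `Im x > 0`): `cotPi x = -πi - 2πi u/(1-u)`. -/
lemma cotPi_eq_of_ne {x : ℂ} (hu : cexp (2 * π * I * x) ≠ 1) :
    cotPi x = -(π * I) - 2 * π * I * (cexp (2 * π * I * x) / (1 - cexp (2 * π * I * x))) := by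
  rw [cotPi_eq_exp]
  have h1 : (1 : ℂ) - cexp (2 * π * I * x) ≠ 0 := sub_ne_zero.mpr (Ne.symm hu)
  generalize cexp (2 * π * I * x) = u at h1 ⊢
  rw [show I * (1 - u) = (1 - u) * I by ring, ← div_div, Complex.div_I]
  field_simp
  ring

lemma norm_cexp_two_pi_I (x : ℂ) : ‖cexp (2 * π * I * x)‖ = Real.exp (-2 * π * x.im) := by
  rw [Complex.norm_exp]
  congr 1
  simp [Complex.mul_re, Complex.mul_im]

lemma cexp_ne_one_of_im_pos {x : ℂ} (hx : 0 < x.im) : cexp (2 * π * I * x) ≠ 1 := by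
  intro h
  have := norm_cexp_two_pi_I x
  rw [h, norm_one] at this
  have h2 : Real.exp (-2 * π * x.im) < 1 := by
    rw [Real.exp_lt_one_iff]
    have := Real.pi_pos
    nlinarith
  linarith

/-- Bound: for `Im x > 0`, `‖cotPi x + πi‖ ≤ 2π t/(1-t)`, `t = e^{-2π Im x}`. -/
lemma norm_cotPi_add_le {x : ℂ} (hx : 0 < x.im) :
    ‖cotPi x + π * I‖ ≤
      2 * π * (Real.exp (-2 * π * x.im) / (1 - Real.exp (-2 * π * x.im))) := by
  have ht1 : Real.exp (-2 * π * x.im) < 1 := by
    rw [Real.exp_lt_one_iff]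
    have := Real.pi_pos
    nlinarith
  rw [cotPi_eq_of_ne (cexp_ne_one_of_im_pos hx)]
  have : -(π * I) - 2 * π * I * (cexp (2 * π * I * x) / (1 - cexp (2 * π * I * x))) + π * I
      = -(2 * π * I * (cexp (2 * π * I * x) / (1 - cexp (2 * π * I * x)))) := by ring
  rw [this, norm_neg, norm_mul, norm_mul, norm_mul, norm_div, Complex.norm_I, mul_one,
    norm_cexp_two_pi_I]
  have h2 : ‖(2 : ℂ)‖ = 2 := by simp
  have h3 : ‖(π : ℂ)‖ = π := by simp [abs_of_pos Real.pi_pos]
  rw [h2, h3]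
  have hden : 1 - Real.exp (-2 * π * x.im) ≤ ‖1 - cexp (2 * π * I * x)‖ := by
    have := norm_sub_norm_le (1 : ℂ) (cexp (2 * π * I * x))
    rw [norm_one, norm_cexp_two_pi_I] at this
    exact this
  have hpos : 0 < 1 - Real.exp (-2 * π * x.im) := by linarith
  gcongr

/-- Bound in the lower half plane. -/
lemma norm_cotPi_sub_le {x : ℂ} (hx : x.im < 0) :
    ‖cotPi x - π * I‖ ≤
      2 * π * (Real.exp (2 * π * x.im) / (1 - Real.exp (2 * π * x.im))) := by
  have h := norm_cotPi_add_le (x := -x) (by simpa using hx)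
  rw [cotPi_neg] at h
  have e : -cotPi x + π * I = -(cotPi x - π * I) := by ring
  rw [e, norm_neg] at h
  simpa using h

/-! ## Row sums -/

lemma summable_inv_mul_inv (x y : ℂ) : Summable (fun n : ℤ => ((x + n) * (y + n))⁻¹) := by
  apply EisensteinSeries.summable_inv_of_isBigO_rpow_inv (a := 2) (by norm_num)
  have h1 := EisensteinSeries.linear_inv_isBigO_right 1 x
  have h2 := EisensteinSeries.linear_inv_isBigO_right 1 y
  simpa [pow_two] using h2.mul h1

lemma natCast_add_one_injective : Function.Injective (fun n : ℕ => ((n : ℤ) + 1)) := by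
  intro a b h
  simpa using h

lemma neg_natCast_add_one_injective : Function.Injective (fun n : ℕ => (-((n : ℤ) + 1))) := by
  intro a b h
  simpa using h

/-- `∑_{n ∈ ℤ} (1/(x+n) - 1/(y+n)) = π cot πx - π cot πy` (absolutely convergent). -/
theorem hasSum_inv_sub_inv {x y : ℂ} (hx : x ∈ integerComplement) (hy : y ∈ integerComplement) :
    HasSum (fun n : ℤ => 1 / (x + n) - 1 / (y + n)) (cotPi x - cotPi y) := by
  set f : ℤ → ℂ := fun n => 1 / (x + n) - 1 / (y + n) with hfdef
  have hf : ∀ n : ℤ, f n = (y - x) * ((x + n) * (y + n))⁻¹ := by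
    intro n
    have h1 := integerComplement_add_ne_zero hx n
    have h2 := integerComplement_add_ne_zero hy n
    simp only [hfdef]
    field_simp
    ring
  have hs : Summable f :=
    ((summable_inv_mul_inv x y).mul_left (y - x)).congr fun n => (hf n).symm
  have hs1 : Summable (fun n : ℕ => f ((n : ℤ) + 1)) :=
    hs.comp_injective natCast_add_one_injective
  have hs2 : Summable (fun n : ℕ => f (-((n : ℤ) + 1))) :=
    hs.comp_injective neg_natCast_add_one_injective
  have hsum := HasSum.of_add_one_of_neg_add_one hs1.hasSum hs2.hasSum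
  have hx' := cot_series_rep' hx
  have hy' := cot_series_rep' hy
  have hsx := summable_cotTerm hx
  have hsy := summable_cotTerm hy
  have e1 : ∑' n : ℕ, f ((n : ℤ) + 1) + ∑' n : ℕ, f (-((n : ℤ) + 1)) =
      ∑' n : ℕ, (cotTerm x n - cotTerm y n) := by
    rw [← Summable.tsum_add hs1 hs2]
    refine tsum_congr fun n => ?_
    simp only [cotTerm, hfdef]
    push_cast
    ring
  have e2 : ∑' n : ℕ, (cotTerm x n - cotTerm y n) =
      (cotPi x - 1 / x) - (cotPi y - 1 / y) := by
    rw [Summable.tsum_sub hsx hsy, cotPi, cotPi, hx', hy']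
  have e3 : f 0 = 1 / x - 1 / y := by simp [hfdef]
  convert hsum using 1
  rw [e3]
  linear_combination -e1 - e2

/-- Zero row: `∑_{n ∈ ℤ} (1/(x+n) - 1/n) = π cot πx` (with `1/0 = 0`). -/
theorem hasSum_inv_sub_inv_zero {x : ℂ} (hx : x ∈ integerComplement) :
    HasSum (fun n : ℤ => 1 / (x + n) - 1 / (n : ℂ)) (cotPi x) := by
  set g : ℤ → ℂ := fun n => 1 / (x + n) - 1 / (n : ℂ) with hg
  have hh : Summable (fun n : ℤ => (-x) * ((x + n) * ((0 : ℂ) + n))⁻¹) :=
    (summable_inv_mul_inv x 0).mul_left _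
  have hgn : ∀ n : ℤ, n ≠ 0 → g n = (-x) * ((x + n) * ((0 : ℂ) + n))⁻¹ := by
    intro n hn
    have h1 := integerComplement_add_ne_zero hx n
    have h2 : (n : ℂ) ≠ 0 := by exact_mod_cast hn
    simp only [hg, zero_add]
    field_simp
    ring
  have hs1 : Summable (fun n : ℕ => g ((n : ℤ) + 1)) := by
    refine (hh.comp_injective natCast_add_one_injective).congr fun n => ?_
    simp only [Function.comp_def]
    rw [hgn _ (by positivity)]
  have hs2 : Summable (fun n : ℕ => g (-((n : ℤ) + 1))) := by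
    refine (hh.comp_injective neg_natCast_add_one_injective).congr fun n => ?_
    simp only [Function.comp_def]
    rw [hgn _ (by
      have : (0 : ℤ) < (n : ℤ) + 1 := by positivity
      omega)]
  have hsum := HasSum.of_add_one_of_neg_add_one hs1.hasSum hs2.hasSum
  have hx' := cot_series_rep' hx
  have e1 : ∑' n : ℕ, g ((n : ℤ) + 1) + ∑' n : ℕ, g (-((n : ℤ) + 1)) = cotPi x - 1 / x := by
    rw [← Summable.tsum_add hs1 hs2, cotPi, hx']
    refine tsum_congr fun n => ?_
    have key : ∀ a : ℂ, 1 / (-a) = -(1 / a) := fun a => by rw [div_neg]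
    simp only [hg]
    push_cast
    rw [key]
    ring
  have e3 : g 0 = 1 / x := by simp [hg]
  convert hsum using 1
  rw [e3]
  linear_combination -e1

end Fermat.Agent.S48.H796

end
end
-- ===== PACK-END S48/H796/Cot.lean

-- ===== PACK-BEGIN S48/H796/ZetaSum.lean
section



/-!
# S48 / P2-EIS (helper796): the Weierstrass zeta sum and the function `P`

`zetaT τ w = ∑_{ω ∈ ℤτ+ℤ} (1/(w+ω) - 1/ω + w/ω²)` (absolutely convergent, with `1/0 = 0` at `ω = 0`),
its rows, and the identity `zetaT τ w = P τ w + w G₂(τ)`.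
-/

set_option autoImplicit false

noncomputable section

namespace Fermat.Agent.S48.H796

open UpperHalfPlane hiding I
open Complex Filter Topology Asymptotics EisensteinSeries
open scoped Real

/-- The lattice point `m τ + n`. -/
def lat (τ : ℍ) (p : ℤ × ℤ) : ℂ := (p.1 : ℂ) * (τ : ℂ) + (p.2 : ℂ)

/-- The summand of the Weierstrass zeta function (junk value `1/w` at `ω = 0`). -/
def zt (τ : ℍ) (w : ℂ) (p : ℤ × ℤ) : ℂ :=
  1 / (w + lat τ p) - 1 / lat τ p + w / (lat τ p) ^ 2

lemma lat_im (τ : ℍ) (p : ℤ × ℤ) : (lat τ p).im = p.1 * τ.im := by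
  simp [lat, Complex.add_im, Complex.mul_im]

lemma lat_eq_zero_iff (τ : ℍ) (p : ℤ × ℤ) : lat τ p = 0 ↔ p = 0 := by
  constructor
  · intro h
    have him := congrArg Complex.im h
    rw [lat_im] at him
    simp only [Complex.zero_im, mul_eq_zero] at him
    have h1 : p.1 = 0 := by
      rcases him with h1 | h1
      · exact_mod_cast h1
      · exact absurd h1 τ.im_ne_zero
    have h2 : p.2 = 0 := by
      simp only [lat, h1, Int.cast_zero, zero_mul, zero_add] at h
      exact_mod_cast h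
    exact Prod.ext h1 h2
  · rintro rfl
    simp [lat]

lemma lat_injective (τ : ℍ) : Function.Injective (lat τ) := by
  intro p q h
  have : lat τ (p - q) = 0 := by
    simp only [lat, Prod.fst_sub, Prod.snd_sub, Int.cast_sub] at h ⊢
    linear_combination h
  have := (lat_eq_zero_iff τ _).mp this
  exact sub_eq_zero.mp this

lemma zt_eq {τ : ℍ} {w : ℂ} {p : ℤ × ℤ} (h1 : lat τ p ≠ 0) (h2 : w + lat τ p ≠ 0) :
    zt τ w p = w ^ 2 * ((lat τ p)⁻¹ * (lat τ p)⁻¹ * (w + lat τ p)⁻¹) := by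
  rw [zt]
  field_simp
  ring

/-- `1/(m τ + n) = O(1/‖(m,n)‖)`. -/
lemma isBigO_lat_inv (τ : ℍ) :
    (fun x : Fin 2 → ℤ => (lat τ (x 0, x 1))⁻¹) =O[cofinite] fun x => ‖x‖⁻¹ := by
  have := isBigO_linear_add_const_vec τ 0 0
  simpa [lat] using this

lemma tendsto_norm_inv_cofinite :
    Tendsto (fun x : Fin 2 → ℤ => ‖x‖⁻¹) cofinite (𝓝 0) := by
  have h : Tendsto (fun x : Fin 2 → ℤ => ‖x‖) cofinite atTop :=
    tendsto_norm_comp_cofinite_atTop_of_isClosedEmbedding IsClosedEmbedding.id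
  exact tendsto_inv_atTop_zero.comp h

/-- `1/(w + m τ + n) = O(1/‖(m,n)‖)` for every `w`. -/
lemma isBigO_add_lat_inv (τ : ℍ) (w : ℂ) :
    (fun x : Fin 2 → ℤ => (w + lat τ (x 0, x 1))⁻¹) =O[cofinite] fun x => ‖x‖⁻¹ := by
  have hA := isBigO_lat_inv τ
  have hA0 : Tendsto (fun x : Fin 2 → ℤ => (lat τ (x 0, x 1))⁻¹) cofinite (𝓝 0) :=
    hA.trans_tendsto tendsto_norm_inv_cofinite
  have hwA : Tendsto (fun x : Fin 2 → ℤ => w * (lat τ (x 0, x 1))⁻¹) cofinite (𝓝 0) := by
    simpa using hA0.const_mul w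
  have hev : ∀ᶠ x : Fin 2 → ℤ in cofinite, ‖w * (lat τ (x 0, x 1))⁻¹‖ < 1 / 2 := by
    have := (tendsto_order.mp (tendsto_zero_iff_norm_tendsto_zero.mp hwA)).2 (1 / 2) (by norm_num)
    exact this
  have hne : ∀ᶠ x : Fin 2 → ℤ in cofinite, x ≠ 0 := eventually_cofinite_ne 0
  refine IsBigO.trans (IsBigO.of_bound 2 ?_) hA
  filter_upwards [hev, hne] with x hx hx0
  have hl : lat τ (x 0, x 1) ≠ 0 := by
    intro h
    have := (lat_eq_zero_iff τ _).mp h
    apply hx0
    ext i
    fin_cases i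
    · simpa using congrArg Prod.fst this
    · simpa using congrArg Prod.snd this
  have e : w + lat τ (x 0, x 1) = lat τ (x 0, x 1) * (1 + w * (lat τ (x 0, x 1))⁻¹) := by
    field_simp
    ring
  have hge : (1 : ℝ) / 2 ≤ ‖1 + w * (lat τ (x 0, x 1))⁻¹‖ := by
    have := norm_sub_norm_le (1 : ℂ) (-(w * (lat τ (x 0, x 1))⁻¹))
    rw [norm_one, norm_neg, sub_neg_eq_add] at this
    linarith
  rw [e, mul_inv, norm_mul, norm_inv (1 + _), mul_comm]
  have hpos : (0 : ℝ) < ‖1 + w * (lat τ (x 0, x 1))⁻¹‖ := by linarith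
  have : ‖1 + w * (lat τ (x 0, x 1))⁻¹‖⁻¹ ≤ 2 := by
    rw [inv_le_comm₀ hpos (by norm_num)]
    linarith
  gcongr

theorem summable_zt (τ : ℍ) (w : ℂ) : Summable (zt τ w) := by
  refine (finTwoArrowEquiv ℤ).summable_iff.mp ?_
  apply summable_of_isBigO_rpow_norm (a := 3) (by norm_num)
  have hA := isBigO_lat_inv τ
  have hB := isBigO_add_lat_inv τ w
  have hprod := ((hA.mul hA).mul hB).const_mul_left (w ^ 2)
  have hev : (zt τ w ∘ (finTwoArrowEquiv ℤ)) =ᶠ[cofinite] fun x : Fin 2 → ℤ =>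
      w ^ 2 * ((lat τ (x 0, x 1))⁻¹ * (lat τ (x 0, x 1))⁻¹ * (w + lat τ (x 0, x 1))⁻¹) := by
    have hne : ∀ᶠ x : Fin 2 → ℤ in cofinite, x ≠ 0 := eventually_cofinite_ne 0
    have hB0 : Tendsto (fun x : Fin 2 → ℤ => (w + lat τ (x 0, x 1))⁻¹) cofinite (𝓝 0) :=
      hB.trans_tendsto tendsto_norm_inv_cofinite
    by_cases hw : ∃ x : Fin 2 → ℤ, w + lat τ (x 0, x 1) = 0
    · obtain ⟨x₀, hx₀⟩ := hw
      filter_upwards [hne, eventually_cofinite_ne x₀] with x hx hxx
      have hl : lat τ (x 0, x 1) ≠ 0 := by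
        intro h
        have := (lat_eq_zero_iff τ _).mp h
        apply hx
        ext i
        fin_cases i
        · simpa using congrArg Prod.fst this
        · simpa using congrArg Prod.snd this
      have hl2 : w + lat τ (x 0, x 1) ≠ 0 := by
        intro h
        have h3 : lat τ (x 0, x 1) = lat τ (x₀ 0, x₀ 1) := by
          linear_combination h - hx₀
        have := lat_injective τ h3
        apply hxx
        ext i
        fin_cases i
        · simpa using congrArg Prod.fst this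
        · simpa using congrArg Prod.snd this
      simpa [Function.comp_def, finTwoArrowEquiv] using zt_eq hl hl2
    · push Not at hw
      filter_upwards [hne] with x hx
      have hl : lat τ (x 0, x 1) ≠ 0 := by
        intro h
        have := (lat_eq_zero_iff τ _).mp h
        apply hx
        ext i
        fin_cases i
        · simpa using congrArg Prod.fst this
        · simpa using congrArg Prod.snd this
      simpa [Function.comp_def, finTwoArrowEquiv] using zt_eq hl (hw x)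
  refine (hev.trans_isBigO hprod).trans ?_
  apply IsBigO.of_bound 1
  filter_upwards with x
  simp only [norm_mul, norm_inv, norm_norm, one_mul]
  have : ‖x‖ ^ (3 : ℝ) = ‖x‖ * ‖x‖ * ‖x‖ := by
    rw [show (3 : ℝ) = ((3 : ℕ) : ℝ) by norm_num, Real.rpow_natCast]
    ring
  rw [this, Real.norm_of_nonneg (by positivity), mul_inv, mul_inv]

/-! ## Rows -/

/-- `w ∉ ℤτ + ℤ`. -/
def OffLattice (τ : ℍ) (w : ℂ) : Prop := ∀ p : ℤ × ℤ, w + lat τ p ≠ 0

lemma OffLattice.mem_integerComplement {τ : ℍ} {w : ℂ} (h : OffLattice τ w) (m : ℤ) :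
    w + (m : ℂ) * τ ∈ integerComplement := by
  rw [mem_integerComplement_iff]
  rintro ⟨n, hn⟩
  apply h (m, -n)
  simp only [lat, Int.cast_neg]
  linear_combination -hn

lemma mul_mem_integerComplement (τ : ℍ) {m : ℤ} (hm : m ≠ 0) :
    (m : ℂ) * τ ∈ integerComplement := by
  rw [mem_integerComplement_iff]
  rintro ⟨n, hn⟩
  have him := congrArg Complex.im hn
  simp only [Complex.intCast_im, Complex.mul_im, Complex.intCast_re, zero_mul, add_zero] at him
  have h1 : (m : ℝ) * τ.im ≠ 0 := mul_ne_zero (by exact_mod_cast hm) τ.im_ne_zero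
  exact h1 him.symm

/-- The Weierstrass zeta sum. -/
def zetaT (τ : ℍ) (w : ℂ) : ℂ := ∑' p : ℤ × ℤ, zt τ w p

/-- The `m`-th row of `zetaT`. -/
def row (τ : ℍ) (w : ℂ) (m : ℤ) : ℂ :=
  (if m = 0 then cotPi w else cotPi (w + m * τ) - cotPi (m * τ)) + w * e2Summand m τ

theorem hasSum_row {τ : ℍ} {w : ℂ} (h : OffLattice τ w) (m : ℤ) :
    HasSum (fun n : ℤ => zt τ w (m, n)) (row τ w m) := by
  have he : HasSum (fun n : ℤ => w * eisSummand 2 ![m, n] τ) (w * e2Summand m τ) :=
    (e2Summand_summable m τ).hasSum.mul_left w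
  have hz : ∀ n : ℤ, zt τ w (m, n) =
      (1 / (w + m * τ + n) - 1 / ((m : ℂ) * τ + n)) + w * eisSummand 2 ![m, n] τ := by
    intro n
    simp only [zt, lat, eisSummand, Matrix.cons_val_zero, Matrix.cons_val_one,
      Matrix.cons_val_fin_one]
    rw [show (-(2 : ℤ)) = -((2 : ℕ) : ℤ) by norm_num, zpow_neg, zpow_natCast, div_eq_mul_inv w,
      add_assoc]
  simp_rw [hz]
  unfold row
  refine HasSum.add ?_ he
  by_cases hm : m = 0
  · subst hm
    simp only [Int.cast_zero, zero_mul, add_zero, zero_add, if_true]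
    exact hasSum_inv_sub_inv_zero (by simpa using h.mem_integerComplement 0)
  · simp only [hm, if_false]
    exact hasSum_inv_sub_inv (h.mem_integerComplement m) (mul_mem_integerComplement τ hm)

theorem hasSum_row_zetaT {τ : ℍ} {w : ℂ} (h : OffLattice τ w) :
    HasSum (row τ w) (zetaT τ w) :=
  (summable_zt τ w).hasSum.prod_fiberwise (hasSum_row h)

/-! ## Symmetric partial sums -/

lemma sum_Icc_neg (f : ℤ → ℂ) (M : ℕ) :
    ∑ m ∈ Finset.Icc (-(M : ℤ)) M, f m =
      f 0 + ∑ k ∈ Finset.range M, (f ((k : ℤ) + 1) + f (-((k : ℤ) + 1))) := by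
  induction M with
  | zero => simp
  | succ M ih =>
    have hd : Disjoint (Finset.Icc (-(M : ℤ)) M) {-((M : ℤ) + 1), (M : ℤ) + 1} := by
      rw [Finset.disjoint_left]
      intro a ha hb
      simp only [Finset.mem_Icc] at ha
      simp only [Finset.mem_insert, Finset.mem_singleton] at hb
      omega
    have hne : (-((M : ℤ) + 1)) ≠ (M : ℤ) + 1 := by omega
    push_cast
    rw [Finset.Icc_succ_succ, Finset.sum_union hd, ih, Finset.sum_range_succ,
      Finset.sum_pair hne]
    ring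

lemma tendsto_Icc_atTop :
    Tendsto (fun N : ℕ => Finset.Icc (-(N : ℤ)) N) atTop (atTop : Filter (Finset ℤ)) := by
  rw [Tendsto, ← SummationFilter.symmetricIcc_eq_map_Icc_nat]
  exact SummationFilter.le_atTop

lemma tendsto_sum_e2Summand (τ : ℍ) :
    Tendsto (fun N : ℕ => ∑ m ∈ Finset.Icc (-(N : ℤ)) N, e2Summand m τ) atTop (𝓝 (G2 τ)) := by
  have h := hasSum_e2Summand_symmetricIcc τ
  rw [← G2_eq_tsum_cexp] at h
  rw [HasSum, SummationFilter.symmetricIcc_eq_map_Icc_nat, tendsto_map'_iff] at h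
  exact h

/-! ## The function `P` -/

/-- The `k`-th pair of `P`. -/
def pairP (τ : ℍ) (w : ℂ) (k : ℕ) : ℂ :=
  cotPi (w + ((k : ℂ) + 1) * τ) + cotPi (w - ((k : ℂ) + 1) * τ)

/-- `P(w, τ) = π cot πw + ∑_{k ≥ 1} (π cot π(w + kτ) + π cot π(w - kτ))`. -/
def Pfun (τ : ℍ) (w : ℂ) : ℂ := cotPi w + ∑' k : ℕ, pairP τ w k

/-- Uniform version of `norm_cotPi_add_le`. -/
lemma norm_cotPi_add_le' {x : ℂ} {δ : ℝ} (hδ : 0 < δ) (hx : δ ≤ x.im) :
    ‖cotPi x + π * I‖ ≤
      2 * π / (1 - Real.exp (-2 * π * δ)) * Real.exp (-2 * π * x.im) := by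
  have hxpos : 0 < x.im := lt_of_lt_of_le hδ hx
  refine (norm_cotPi_add_le hxpos).trans ?_
  have hπ := Real.pi_pos
  have h1 : Real.exp (-2 * π * x.im) ≤ Real.exp (-2 * π * δ) := by
    apply Real.exp_le_exp.mpr
    nlinarith
  have h2 : Real.exp (-2 * π * δ) < 1 := by
    rw [Real.exp_lt_one_iff]
    nlinarith
  have h3 : 0 < 1 - Real.exp (-2 * π * δ) := by linarith
  have h4 : 0 < 1 - Real.exp (-2 * π * x.im) := by linarith
  rw [div_mul_eq_mul_div, mul_div_assoc]
  have h5 : Real.exp (-2 * π * x.im) / (1 - Real.exp (-2 * π * x.im)) ≤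
      Real.exp (-2 * π * x.im) / (1 - Real.exp (-2 * π * δ)) := by
    apply div_le_div_of_nonneg_left (Real.exp_pos _).le h3
    linarith
  have : (0 : ℝ) ≤ 2 * π := by positivity
  exact mul_le_mul_of_nonneg_left h5 this

lemma norm_cotPi_sub_le' {x : ℂ} {δ : ℝ} (hδ : 0 < δ) (hx : x.im ≤ -δ) :
    ‖cotPi x - π * I‖ ≤
      2 * π / (1 - Real.exp (-2 * π * δ)) * Real.exp (2 * π * x.im) := by
  have h := norm_cotPi_add_le' (x := -x) hδ (by simpa using (by linarith : δ ≤ -x.im))
  rw [cotPi_neg] at h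
  have e : -cotPi x + π * I = -(cotPi x - π * I) := by ring
  rw [e, norm_neg] at h
  simpa using h

/-- Key bound for a pair, when `w` is between the two shifted lines. -/
lemma norm_pairP_le {τ : ℍ} {w : ℂ} {k : ℕ} {δ : ℝ} (hδ : 0 < δ)
    (h1 : δ ≤ w.im + ((k : ℝ) + 1) * τ.im) (h2 : δ ≤ ((k : ℝ) + 1) * τ.im - w.im) :
    ‖pairP τ w k‖ ≤ 2 * π / (1 - Real.exp (-2 * π * δ)) *
      (Real.exp (-2 * π * (w.im + ((k : ℝ) + 1) * τ.im)) +
        Real.exp (-2 * π * (((k : ℝ) + 1) * τ.im - w.im))) := by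
  have im1 : (w + ((k : ℂ) + 1) * τ).im = w.im + ((k : ℝ) + 1) * τ.im := by
    simp [Complex.add_im, Complex.mul_im]
  have im2 : (w - ((k : ℂ) + 1) * τ).im = w.im - ((k : ℝ) + 1) * τ.im := by
    simp [Complex.sub_im, Complex.mul_im]
  have b1 := norm_cotPi_add_le' (x := w + ((k : ℂ) + 1) * τ) hδ (by rw [im1]; exact h1)
  have b2 := norm_cotPi_sub_le' (x := w - ((k : ℂ) + 1) * τ) hδ (by rw [im2]; linarith)
  rw [im1] at b1
  rw [im2] at b2
  have e : pairP τ w k = (cotPi (w + ((k : ℂ) + 1) * τ) + π * I) +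
      (cotPi (w - ((k : ℂ) + 1) * τ) - π * I) := by
    rw [pairP]; ring
  rw [e, mul_add]
  refine (norm_add_le _ _).trans (add_le_add b1 ?_)
  have e2 : -2 * π * (((k : ℝ) + 1) * τ.im - w.im) = 2 * π * (w.im - ((k : ℝ) + 1) * τ.im) := by
    ring
  rw [e2]
  exact b2

lemma exp_neg_mul_le (y s : ℝ) (k : ℕ) (a : ℝ) (ha : -s ≤ a) :
    Real.exp (-2 * π * (a + ((k : ℝ) + 1) * y)) ≤
      Real.exp (2 * π * s) * Real.exp (-2 * π * y) ^ (k + 1) := by
  rw [← Real.exp_nat_mul, ← Real.exp_add]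
  apply Real.exp_le_exp.mpr
  have hπ := Real.pi_pos
  push_cast
  nlinarith

theorem summable_pairP (τ : ℍ) (w : ℂ) : Summable (pairP τ w) := by
  have hy : 0 < τ.im := τ.im_pos
  have hπ := Real.pi_pos
  have hlt : Real.exp (-2 * π * τ.im) < 1 := by
    rw [Real.exp_lt_one_iff]
    nlinarith
  set C : ℝ := 2 * π / (1 - Real.exp (-2 * π * τ.im)) * (2 * Real.exp (2 * π * |w.im|)) with hC
  have hgeo : Summable (fun k : ℕ => C * Real.exp (-2 * π * τ.im) ^ (k + 1)) :=
    ((summable_nat_add_iff 1).mpr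
      (summable_geometric_of_lt_one (Real.exp_pos _).le hlt)).mul_left C
  refine Summable.of_norm_bounded_eventually_nat hgeo ?_
  obtain ⟨K, hK⟩ := exists_nat_ge (|w.im| / τ.im)
  filter_upwards [eventually_ge_atTop K] with k hk
  have hky : |w.im| ≤ k * τ.im := by
    have h1 : |w.im| / τ.im ≤ k := hK.trans (by exact_mod_cast hk)
    rwa [div_le_iff₀ hy] at h1
  have h1 : τ.im ≤ w.im + ((k : ℝ) + 1) * τ.im := by
    nlinarith [neg_abs_le w.im]
  have h2 : τ.im ≤ ((k : ℝ) + 1) * τ.im - w.im := by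
    nlinarith [le_abs_self w.im]
  refine (norm_pairP_le hy h1 h2).trans ?_
  have b1 := exp_neg_mul_le τ.im |w.im| k w.im (neg_abs_le w.im)
  have b2 := exp_neg_mul_le τ.im |w.im| k (-w.im) (by
    have := le_abs_self w.im
    linarith)
  have e2 : -2 * π * (((k : ℝ) + 1) * τ.im - w.im) = -2 * π * (-w.im + ((k : ℝ) + 1) * τ.im) := by
    ring
  rw [e2, hC]
  have hpos : 0 ≤ 2 * π / (1 - Real.exp (-2 * π * τ.im)) := by
    apply div_nonneg (by positivity)
    linarith
  calc 2 * π / (1 - Real.exp (-2 * π * τ.im)) *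
        (Real.exp (-2 * π * (w.im + ((k : ℝ) + 1) * τ.im)) +
          Real.exp (-2 * π * (-w.im + ((k : ℝ) + 1) * τ.im)))
      ≤ 2 * π / (1 - Real.exp (-2 * π * τ.im)) *
        (Real.exp (2 * π * |w.im|) * Real.exp (-2 * π * τ.im) ^ (k + 1) +
          Real.exp (2 * π * |w.im|) * Real.exp (-2 * π * τ.im) ^ (k + 1)) :=
        mul_le_mul_of_nonneg_left (add_le_add b1 b2) hpos
    _ = _ := by ring

lemma row_pair (τ : ℍ) (w : ℂ) (k : ℕ) :
    row τ w ((k : ℤ) + 1) + row τ w (-((k : ℤ) + 1)) =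
      pairP τ w k + w * (e2Summand ((k : ℤ) + 1) τ + e2Summand (-((k : ℤ) + 1)) τ) := by
  have h1 : ((k : ℤ) + 1) ≠ 0 := by positivity
  have h2 : (-((k : ℤ) + 1)) ≠ 0 := by omega
  simp only [row, h1, h2, if_false, pairP]
  push_cast
  have e : cotPi (-((k : ℂ) + 1) * τ) = -cotPi (((k : ℂ) + 1) * τ) := by
    rw [neg_mul, cotPi_neg]
  rw [e]
  ring_nf

/-- `ζ(w; τ) = P(w, τ) + w G₂(τ)`. -/
theorem zetaT_eq {τ : ℍ} {w : ℂ} (h : OffLattice τ w) :
    zetaT τ w = Pfun τ w + w * G2 τ := by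
  have T1 : Tendsto (fun M : ℕ => ∑ m ∈ Finset.Icc (-(M : ℤ)) M, row τ w m) atTop
      (𝓝 (zetaT τ w)) := (hasSum_row_zetaT h).comp tendsto_Icc_atTop
  have T2 : ∀ M : ℕ, ∑ m ∈ Finset.Icc (-(M : ℤ)) M, row τ w m =
      cotPi w + ∑ k ∈ Finset.range M, pairP τ w k +
        w * ∑ m ∈ Finset.Icc (-(M : ℤ)) M, e2Summand m τ := by
    intro M
    rw [sum_Icc_neg, sum_Icc_neg (fun m => e2Summand m τ)]
    simp_rw [row_pair]
    rw [Finset.sum_add_distrib, ← Finset.mul_sum]
    simp only [row, if_true]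
    ring
  have T3 := tendsto_sum_e2Summand τ
  have T4 : Tendsto (fun M : ℕ => ∑ k ∈ Finset.range M, pairP τ w k) atTop
      (𝓝 (∑' k, pairP τ w k)) := (summable_pairP τ w).hasSum.tendsto_sum_nat
  have T5 : Tendsto (fun M : ℕ => ∑ m ∈ Finset.Icc (-(M : ℤ)) M, row τ w m) atTop
      (𝓝 (cotPi w + ∑' k, pairP τ w k + w * G2 τ)) := by
    simp_rw [T2]
    exact (tendsto_const_nhds.add T4).add (T3.const_mul w)
  exact tendsto_nhds_unique T1 T5

end Fermat.Agent.S48.H796

end
end
-- ===== PACK-END S48/H796/ZetaSum.lean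

-- ===== PACK-BEGIN S48/H548/Chi0Alg.lean
section


/-!
# S48 / RES piece CHI0 (helper548): abstract construction of a character of a Hecke algebra
from a "graded" family of subsets

`S` is a module, `W b ⊆ S` (`b ∈ k`) a family of subsets with `W b + W b' ⊆ W (b + b')`,
`-W b ⊆ W (-b)`, `0 ∈ W 0`, pairwise disjoint, `g₀ ∈ W 1`.  If every generator `t ∈ G` of a ring of
operators maps `W b` to `W (c b)` for some `c = c(t)`, then there is a ring homomorphism
`χ : Algebra.adjoin ℤ G → k` such that every `t` in the algebra maps `W b` to `W (χ(t) b)`.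

(Application: `W b` = forms with integral `q`-expansion whose reduction is `b • c₀`, `c₀` a
simultaneous eigenvector mod `λ`.)
-/

set_option autoImplicit false

namespace Fermat.Agent.S48.H548

section

variable {S : Type*} [AddCommGroup S] [Module ℂ S] {k : Type*} [CommRing k]

/-- `t` maps `W b` to `W (c * b)` for all `b`. -/
def ActsBy (W : k → Set S) (t : Module.End ℂ S) (c : k) : Prop :=
  ∀ b g, g ∈ W b → t g ∈ W (c * b)

variable {W : k → Set S}

theorem ActsBy.unique (hsep : ∀ b b' g, g ∈ W b → g ∈ W b' → b = b') {g₀ : S} (hg₀ : g₀ ∈ W 1)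
    {t : Module.End ℂ S} {c c' : k} (h : ActsBy W t c) (h' : ActsBy W t c') : c = c' := by
  have h1 := hsep _ _ _ (h 1 g₀ hg₀) (h' 1 g₀ hg₀)
  simpa using h1

theorem ActsBy.add (hadd : ∀ b b' g g', g ∈ W b → g' ∈ W b' → g + g' ∈ W (b + b'))
    {t t' : Module.End ℂ S} {c c' : k} (h : ActsBy W t c) (h' : ActsBy W t' c') :
    ActsBy W (t + t') (c + c') := by
  intro b g hg
  rw [LinearMap.add_apply, add_mul]
  exact hadd _ _ _ _ (h b g hg) (h' b g hg)

theorem ActsBy.mul {t t' : Module.End ℂ S} {c c' : k} (h : ActsBy W t c) (h' : ActsBy W t' c') :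
    ActsBy W (t * t') (c * c') := by
  intro b g hg
  rw [Module.End.mul_apply, mul_assoc]
  exact h _ _ (h' b g hg)

theorem ActsBy.one : ActsBy W (1 : Module.End ℂ S) 1 := by
  intro b g hg
  rw [Module.End.one_apply, one_mul]
  exact hg

theorem ActsBy.neg (hneg : ∀ b g, g ∈ W b → -g ∈ W (-b))
    {t : Module.End ℂ S} {c : k} (h : ActsBy W t c) : ActsBy W (-t) (-c) := by
  intro b g hg
  rw [LinearMap.neg_apply, neg_mul]
  exact hneg _ _ (h b g hg)

theorem ActsBy.zero (h0 : (0 : S) ∈ W 0) : ActsBy W (0 : Module.End ℂ S) 0 := by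
  intro b g _
  rw [LinearMap.zero_apply, zero_mul]
  exact h0

theorem ActsBy.intCast (h0 : (0 : S) ∈ W 0)
    (hadd : ∀ b b' g g', g ∈ W b → g' ∈ W b' → g + g' ∈ W (b + b'))
    (hneg : ∀ b g, g ∈ W b → -g ∈ W (-b)) (n : ℤ) :
    ActsBy W ((n : Module.End ℂ S)) (n : k) := by
  induction n using Int.induction_on with
  | zero => simpa using ActsBy.zero h0
  | succ i ih =>
    rw [Int.cast_add, Int.cast_add, Int.cast_one, Int.cast_one]
    exact ih.add hadd ActsBy.one
  | pred i ih =>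
    rw [Int.cast_sub, Int.cast_sub, Int.cast_one, Int.cast_one, sub_eq_add_neg, sub_eq_add_neg]
    exact ih.add hadd (ActsBy.one.neg hneg)

/-- Every element of the algebra generated by `G` acts through a scalar. -/
theorem exists_actsBy_of_mem_adjoin (h0 : (0 : S) ∈ W 0)
    (hadd : ∀ b b' g g', g ∈ W b → g' ∈ W b' → g + g' ∈ W (b + b'))
    (hneg : ∀ b g, g ∈ W b → -g ∈ W (-b))
    {G : Set (Module.End ℂ S)} (hG : ∀ t ∈ G, ∃ c : k, ActsBy W t c)
    {t : Module.End ℂ S} (ht : t ∈ Algebra.adjoin ℤ G) : ∃ c : k, ActsBy W t c := by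
  induction ht using Algebra.adjoin_induction with
  | mem x hx => exact hG x hx
  | algebraMap r =>
    refine ⟨(r : k), ?_⟩
    have : (algebraMap ℤ (Module.End ℂ S)) r = (r : Module.End ℂ S) := rfl
    rw [this]
    exact ActsBy.intCast h0 hadd hneg r
  | add x y _ _ hx hy =>
    obtain ⟨c, hc⟩ := hx
    obtain ⟨c', hc'⟩ := hy
    exact ⟨c + c', hc.add hadd hc'⟩
  | mul x y _ _ hx hy =>
    obtain ⟨c, hc⟩ := hx
    obtain ⟨c', hc'⟩ := hy
    exact ⟨c * c', hc.mul hc'⟩

/-- **Abstract CHI0.** -/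
theorem exists_ringHom_actsBy (h0 : (0 : S) ∈ W 0)
    (hadd : ∀ b b' g g', g ∈ W b → g' ∈ W b' → g + g' ∈ W (b + b'))
    (hneg : ∀ b g, g ∈ W b → -g ∈ W (-b))
    (hsep : ∀ b b' g, g ∈ W b → g ∈ W b' → b = b') {g₀ : S} (hg₀ : g₀ ∈ W 1)
    {G : Set (Module.End ℂ S)} (hG : ∀ t ∈ G, ∃ c : k, ActsBy W t c) :
    ∃ χ : Algebra.adjoin ℤ G →+* k, ∀ t : Algebra.adjoin ℤ G, ActsBy W (t : Module.End ℂ S) (χ t) := by
  have key : ∀ t : Algebra.adjoin ℤ G, ∃ c : k, ActsBy W (t : Module.End ℂ S) c := fun t ↦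
    exists_actsBy_of_mem_adjoin h0 hadd hneg hG t.2
  choose χ hχ using key
  have huniq : ∀ (t : Algebra.adjoin ℤ G) (c : k), ActsBy W (t : Module.End ℂ S) c → χ t = c :=
    fun t c hc ↦ (hχ t).unique hsep hg₀ hc
  refine ⟨{ toFun := χ, map_one' := ?_, map_mul' := ?_, map_zero' := ?_, map_add' := ?_ }, hχ⟩
  · exact huniq 1 1 ActsBy.one
  · intro x y
    exact huniq (x * y) _ ((hχ x).mul (hχ y))
  · exact huniq 0 0 (ActsBy.zero h0)
  · intro x y
    exact huniq (x + y) _ ((hχ x).add hadd (hχ y))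

end

end Fermat.Agent.S48.H548

end
-- ===== PACK-END S48/H548/Chi0Alg.lean

-- ===== PACK-BEGIN S24/Deg/H457_Bound.lean
section


/-!
# S24 / DEG-ALG (helper457), part 2: bounded degree ⇒ bounded dimension

If every element of a field extension `F/k` (char. 0) is algebraic of degree `≤ n`, then
`F/k` is finite of degree `≤ n` (primitive element theorem).
-/

set_option autoImplicit false

noncomputable section

open Polynomial Module

namespace Fermat.Agent.S24.Deg457

/-- In characteristic zero, an extension all of whose elements are algebraic of degree `≤ n`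
is finite-dimensional of dimension `≤ n`. -/
theorem finiteDimensional_and_finrank_le_of_forall_natDegree_minpoly_le
    {k F : Type*} [Field k] [Field F] [Algebra k F] [CharZero k] (n : ℕ)
    (h : ∀ x : F, IsIntegral k x ∧ (minpoly k x).natDegree ≤ n) :
    FiniteDimensional k F ∧ finrank k F ≤ n := by
  haveI : Algebra.IsAlgebraic k F := ⟨fun x => (h x).1.isAlgebraic⟩
  have key : ∀ L : IntermediateField k F, FiniteDimensional k L → finrank k L ≤ n := by
    intro L hL
    obtain ⟨α, hα⟩ := Field.exists_primitive_element k L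
    have h1 : finrank k L = (minpoly k α).natDegree := by
      rw [← IntermediateField.adjoin.finrank (IsIntegral.of_finite k α), hα]
      exact (IntermediateField.finrank_top').symm
    rw [h1]
    have h2 : minpoly k (α : F) = minpoly k α :=
      (minpoly.algebraMap_eq (algebraMap L F).injective α)
    rw [← h2]
    exact (h (α : F)).2
  have hfd : FiniteDimensional k F := by
    by_contra hnot
    obtain ⟨L, hL, hlt⟩ := IntermediateField.exists_lt_finrank_of_infinite_dimensional hnot n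
    exact absurd (key L hL) (not_le.mpr hlt)
  refine ⟨hfd, ?_⟩
  have := key ⊤ inferInstance
  rwa [IntermediateField.finrank_top'] at this

end Fermat.Agent.S24.Deg457

end
end
-- ===== PACK-END S24/Deg/H457_Bound.lean

-- ===== PACK-BEGIN S24/Deg/H648Conj.lean
section


/-!
# S24 / M6-AN (helper648): function-level conjugate product

For a holomorphic `Γ₀(N)`-invariant function `f` on `ℍ` whose `SL₂(ℤ)`-translates have at most
exponential growth at `i∞`, the polynomial `∏ₓ (Y - f ∘ gₓ⁻¹)` (product over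
`x ∈ SL₂(ℤ)/Γ₀(N)`) has holomorphic, `SL₂(ℤ)`-invariant coefficients of exponential growth.
-/

set_option autoImplicit false

noncomputable section

open UpperHalfPlane ModularGroup CongruenceSubgroup Polynomial
open scoped MatrixGroups Manifold Modular Real

namespace Fermat.Agent.S24.H648

/-- At most exponential growth at `i∞` (on `im τ ≥ 1`). -/
def ExpGrowth (f : ℍ → ℂ) : Prop :=
  ∃ (C : ℝ) (m : ℕ), ∀ τ : ℍ, 1 ≤ τ.im → ‖f τ‖ ≤ C * Real.exp (2 * π * m * τ.im)

lemma ExpGrowth.mono {f : ℍ → ℂ} {C : ℝ} {m : ℕ}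
    (h : ∀ τ : ℍ, 1 ≤ τ.im → ‖f τ‖ ≤ C * Real.exp (2 * π * m * τ.im)) {C' : ℝ} {m' : ℕ}
    (hC : C ≤ C') (hC0 : 0 ≤ C') (hm : m ≤ m') (τ : ℍ) (hτ : 1 ≤ τ.im) :
    ‖f τ‖ ≤ C' * Real.exp (2 * π * m' * τ.im) := by
  refine (h τ hτ).trans ?_
  have h1 : Real.exp (2 * π * m * τ.im) ≤ Real.exp (2 * π * m' * τ.im) := by
    apply Real.exp_le_exp.mpr
    have : (m : ℝ) ≤ m' := by exact_mod_cast hm
    have hpi := Real.pi_pos
    have := τ.im_pos
    gcongr
  calc C * Real.exp (2 * π * m * τ.im) ≤ C' * Real.exp (2 * π * m * τ.im) := by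
        gcongr
    _ ≤ C' * Real.exp (2 * π * m' * τ.im) := by gcongr

lemma expGrowth_const (c : ℂ) : ExpGrowth (fun _ => c) := by
  refine ⟨‖c‖, 0, fun τ _ => ?_⟩
  simp

lemma ExpGrowth.add {f g : ℍ → ℂ} (hf : ExpGrowth f) (hg : ExpGrowth g) :
    ExpGrowth (f + g) := by
  obtain ⟨C, m, h⟩ := hf
  obtain ⟨C', m', h'⟩ := hg
  refine ⟨|C| + |C'|, max m m', fun τ hτ => ?_⟩
  have h1 := ExpGrowth.mono h (C' := |C|) (m' := max m m') (le_abs_self C) (abs_nonneg C)
    (le_max_left _ _) τ hτ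
  have h2 := ExpGrowth.mono h' (C' := |C'|) (m' := max m m') (le_abs_self C') (abs_nonneg C')
    (le_max_right _ _) τ hτ
  calc ‖(f + g) τ‖ ≤ ‖f τ‖ + ‖g τ‖ := norm_add_le _ _
    _ ≤ _ := by rw [add_mul]; exact add_le_add h1 h2

lemma ExpGrowth.mul {f g : ℍ → ℂ} (hf : ExpGrowth f) (hg : ExpGrowth g) :
    ExpGrowth (f * g) := by
  obtain ⟨C, m, h⟩ := hf
  obtain ⟨C', m', h'⟩ := hg
  refine ⟨|C| * |C'|, m + m', fun τ hτ => ?_⟩
  have h1 := ExpGrowth.mono h (C' := |C|) (m' := m) (le_abs_self C) (abs_nonneg C) le_rfl τ hτ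
  have h2 := ExpGrowth.mono h' (C' := |C'|) (m' := m') (le_abs_self C') (abs_nonneg C') le_rfl τ hτ
  have : Real.exp (2 * π * (m + m' : ℕ) * τ.im)
      = Real.exp (2 * π * m * τ.im) * Real.exp (2 * π * m' * τ.im) := by
    rw [← Real.exp_add]; push_cast; ring_nf
  calc ‖(f * g) τ‖ = ‖f τ‖ * ‖g τ‖ := norm_mul _ _
    _ ≤ (|C| * Real.exp (2 * π * m * τ.im)) * (|C'| * Real.exp (2 * π * m' * τ.im)) :=
        mul_le_mul h1 h2 (norm_nonneg _) (by positivity)
    _ = _ := by rw [this]; ring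

/-- Holomorphic functions on `ℍ` of at most exponential growth at `i∞`. -/
def niceRing : Subalgebra ℂ (ℍ → ℂ) where
  carrier := {f | MDifferentiable 𝓘(ℂ) 𝓘(ℂ) f ∧ ExpGrowth f}
  mul_mem' := fun ⟨h1, h2⟩ ⟨h1', h2'⟩ => ⟨h1.mul h1', h2.mul h2'⟩
  add_mem' := fun ⟨h1, h2⟩ ⟨h1', h2'⟩ => ⟨h1.add h1', h2.add h2'⟩
  algebraMap_mem' := fun c => ⟨mdifferentiable_const, expGrowth_const c⟩


lemma mem_niceRing {f : ℍ → ℂ} :
    f ∈ niceRing ↔ MDifferentiable 𝓘(ℂ) 𝓘(ℂ) f ∧ ExpGrowth f := Iff.rfl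

variable (N : ℕ)

/-- Holomorphic `Γ₀(N)`-invariant functions all of whose `SL₂(ℤ)`-translates have at most
exponential growth at `i∞`. -/
def goodRing : Subalgebra ℂ (ℍ → ℂ) where
  carrier := {f | MDifferentiable 𝓘(ℂ) 𝓘(ℂ) f ∧ (∀ γ ∈ Gamma0 N, ∀ τ : ℍ, f (γ • τ) = f τ) ∧
      ∀ g : SL(2, ℤ), ExpGrowth (fun τ => f (g • τ))}
  mul_mem' := by
    rintro f g ⟨h1, h2, h3⟩ ⟨h1', h2', h3'⟩
    refine ⟨h1.mul h1', fun γ hγ τ => ?_, fun g => ?_⟩
    · show f (γ • τ) * g (γ • τ) = f τ * g τ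
      rw [h2 γ hγ τ, h2' γ hγ τ]
    · exact (h3 g).mul (h3' g)
  add_mem' := by
    rintro f g ⟨h1, h2, h3⟩ ⟨h1', h2', h3'⟩
    refine ⟨h1.add h1', fun γ hγ τ => ?_, fun g => ?_⟩
    · show f (γ • τ) + g (γ • τ) = f τ + g τ
      rw [h2 γ hγ τ, h2' γ hγ τ]
    · exact (h3 g).add (h3' g)
  algebraMap_mem' := fun c =>
    ⟨mdifferentiable_const, fun _ _ _ => rfl, fun _ => expGrowth_const c⟩

lemma mem_goodRing {f : ℍ → ℂ} :
    f ∈ goodRing N ↔ MDifferentiable 𝓘(ℂ) 𝓘(ℂ) f ∧ (∀ γ ∈ Gamma0 N, ∀ τ : ℍ, f (γ • τ) = f τ) ∧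
      ∀ g : SL(2, ℤ), ExpGrowth (fun τ => f (g • τ)) := Iff.rfl

/-- The conjugate `f ∘ gₓ⁻¹` of `f` attached to the coset `x = gₓ Γ₀(N)`. -/
def conj (f : ℍ → ℂ) (x : SL(2, ℤ) ⧸ Gamma0 N) : ℍ → ℂ :=
  fun τ => f ((Quotient.out x)⁻¹ • τ)

variable {N}

lemma conj_mk {f : ℍ → ℂ} (hf : ∀ γ ∈ Gamma0 N, ∀ τ : ℍ, f (γ • τ) = f τ) (g : SL(2, ℤ))
    (τ : ℍ) : conj N f (g : SL(2, ℤ) ⧸ Gamma0 N) τ = f (g⁻¹ • τ) := by
  obtain ⟨h, hh⟩ := QuotientGroup.mk_out_eq_mul (Gamma0 N) g
  unfold conj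
  rw [hh, mul_inv_rev, mul_smul]
  exact hf _ (inv_mem h.2) _

lemma conj_smul {f : ℍ → ℂ} (hf : ∀ γ ∈ Gamma0 N, ∀ τ : ℍ, f (γ • τ) = f τ) (γ : SL(2, ℤ))
    (x : SL(2, ℤ) ⧸ Gamma0 N) (τ : ℍ) : conj N f x (γ • τ) = conj N f (γ⁻¹ • x) τ := by
  induction x using QuotientGroup.induction_on with
  | H g =>
    rw [conj_mk hf, MulAction.Quotient.smul_mk, conj_mk hf, smul_eq_mul, mul_inv_rev, inv_inv,
      mul_smul]

lemma conj_one_coset {f : ℍ → ℂ} (hf : ∀ γ ∈ Gamma0 N, ∀ τ : ℍ, f (γ • τ) = f τ) (τ : ℍ) :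
    conj N f ((1 : SL(2, ℤ)) : SL(2, ℤ) ⧸ Gamma0 N) τ = f τ := by
  rw [conj_mk hf]; simp

lemma mdifferentiable_comp_smul {f : ℍ → ℂ} (hf : MDifferentiable 𝓘(ℂ) 𝓘(ℂ) f)
    (g : SL(2, ℤ)) : MDifferentiable 𝓘(ℂ) 𝓘(ℂ) (fun τ : ℍ => f (g • τ)) := by
  have h : MDifferentiable 𝓘(ℂ) 𝓘(ℂ) (fun τ : ℍ => (g : GL (Fin 2) ℝ) • τ) :=
    UpperHalfPlane.mdifferentiable_smul (by simp)
  exact hf.comp h

lemma conj_mem_niceRing {f : ℍ → ℂ} (hf : f ∈ goodRing N) (x : SL(2, ℤ) ⧸ Gamma0 N) :
    conj N f x ∈ niceRing :=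
  ⟨mdifferentiable_comp_smul hf.1 _, hf.2.2 _⟩


/-- Coefficients of a finite product `∏ (Y - aₓ)` with `aₓ` in `niceRing` are in `niceRing`. -/
lemma coeff_prod_mem_niceRing {ι : Type*} (a : ι → ℍ → ℂ) (ha : ∀ i, a i ∈ niceRing)
    (s : Finset ι) (k : ℕ) :
    (fun τ => (∏ i ∈ s, (X - C (a i τ))).coeff k) ∈ niceRing := by
  classical
  induction s using Finset.induction_on generalizing k with
  | empty =>
    have : (fun τ : ℍ => (∏ i ∈ (∅ : Finset ι), (X - C (a i τ))).coeff k)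
        = algebraMap ℂ (ℍ → ℂ) (if k = 0 then 1 else 0) := by
      funext τ
      simp [Polynomial.coeff_one]
    rw [this]
    exact Subalgebra.algebraMap_mem _ _
  | insert i s hi ih =>
    cases k with
    | zero =>
      have : (fun τ : ℍ => (∏ j ∈ insert i s, (X - C (a j τ))).coeff 0)
          = - (a i * fun τ => (∏ j ∈ s, (X - C (a j τ))).coeff 0) := by
        funext τ
        rw [Finset.prod_insert hi, sub_mul, Polynomial.coeff_sub, Polynomial.coeff_X_mul_zero,
          Polynomial.coeff_C_mul]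
        simp
      rw [this]
      exact Subalgebra.neg_mem _ (Subalgebra.mul_mem _ (ha i) (ih 0))
    | succ k =>
      have : (fun τ : ℍ => (∏ j ∈ insert i s, (X - C (a j τ))).coeff (k + 1))
          = (fun τ => (∏ j ∈ s, (X - C (a j τ))).coeff k)
            - (a i * fun τ => (∏ j ∈ s, (X - C (a j τ))).coeff (k + 1)) := by
        funext τ
        rw [Finset.prod_insert hi, sub_mul, Polynomial.coeff_sub, Polynomial.coeff_X_mul,
          Polynomial.coeff_C_mul]
        simp
      rw [this]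
      exact Subalgebra.sub_mem _ (ih k) (Subalgebra.mul_mem _ (ha i) (ih (k + 1)))

variable (N) in
/-- The "characteristic polynomial" `∏ₓ (Y - f ∘ gₓ⁻¹)` evaluated at `τ`. -/
def charPolyAt [Fintype (SL(2, ℤ) ⧸ Gamma0 N)] (f : ℍ → ℂ) (τ : ℍ) : ℂ[X] :=
  ∏ x : SL(2, ℤ) ⧸ Gamma0 N, (X - C (conj N f x τ))

section charPoly

variable [Fintype (SL(2, ℤ) ⧸ Gamma0 N)]

lemma charPolyAt_monic (f : ℍ → ℂ) (τ : ℍ) : (charPolyAt N f τ).Monic :=
  Polynomial.monic_prod_of_monic _ _ fun _ _ => Polynomial.monic_X_sub_C _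

lemma charPolyAt_natDegree (f : ℍ → ℂ) (τ : ℍ) :
    (charPolyAt N f τ).natDegree = Fintype.card (SL(2, ℤ) ⧸ Gamma0 N) := by
  unfold charPolyAt
  rw [Polynomial.natDegree_prod_of_monic _ _ fun _ _ => Polynomial.monic_X_sub_C _]
  simp

lemma charPolyAt_smul {f : ℍ → ℂ} (hf : ∀ γ ∈ Gamma0 N, ∀ τ : ℍ, f (γ • τ) = f τ)
    (γ : SL(2, ℤ)) (τ : ℍ) : charPolyAt N f (γ • τ) = charPolyAt N f τ := by
  unfold charPolyAt
  refine Fintype.prod_equiv (MulAction.toPerm γ⁻¹) _ _ fun x => ?_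
  rw [conj_smul hf]
  rfl

lemma charPolyAt_eval_self {f : ℍ → ℂ} (hf : ∀ γ ∈ Gamma0 N, ∀ τ : ℍ, f (γ • τ) = f τ)
    (τ : ℍ) : (charPolyAt N f τ).eval (f τ) = 0 := by
  unfold charPolyAt
  rw [Polynomial.eval_prod]
  refine Finset.prod_eq_zero (Finset.mem_univ ((1 : SL(2, ℤ)) : SL(2, ℤ) ⧸ Gamma0 N)) ?_
  rw [conj_one_coset hf]
  simp

lemma charPolyAt_eval_conj (f : ℍ → ℂ) (x : SL(2, ℤ) ⧸ Gamma0 N)
    (τ : ℍ) : (charPolyAt N f τ).eval (conj N f x τ) = 0 := by
  unfold charPolyAt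
  rw [Polynomial.eval_prod]
  refine Finset.prod_eq_zero (Finset.mem_univ x) ?_
  simp

lemma coeff_charPolyAt_mem_niceRing {f : ℍ → ℂ} (hf : f ∈ goodRing N) (k : ℕ) :
    (fun τ => (charPolyAt N f τ).coeff k) ∈ niceRing :=
  coeff_prod_mem_niceRing (conj N f) (conj_mem_niceRing hf) Finset.univ k

/-- **Main theorem (M6-AN).**  Given the polynomiality principle (D5) for `J`, the conjugate
product `∏ₓ (Y - f ∘ gₓ⁻¹)` of a good function `f` has coefficients in `ℂ[J]`. -/
theorem exists_charPoly (J : ℍ → ℂ)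
    (hD5 : ∀ F : ℍ → ℂ, MDifferentiable 𝓘(ℂ) 𝓘(ℂ) F →
      (∀ (γ : SL(2, ℤ)) (τ : ℍ), F (γ • τ) = F τ) → ExpGrowth F →
      ∃ p : ℂ[X], ∀ τ, F τ = p.eval (J τ))
    {f : ℍ → ℂ} (hf : f ∈ goodRing N) :
    ∃ P : (ℂ[X])[X], P.Monic ∧ P.natDegree = Fintype.card (SL(2, ℤ) ⧸ Gamma0 N) ∧
      ∀ τ : ℍ, P.map (Polynomial.evalRingHom (J τ)) = charPolyAt N f τ := by
  classical
  set n := Fintype.card (SL(2, ℤ) ⧸ Gamma0 N) with hn
  have key : ∀ k : ℕ, ∃ p : ℂ[X], ∀ τ, (charPolyAt N f τ).coeff k = p.eval (J τ) := by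
    intro k
    have h := coeff_charPolyAt_mem_niceRing hf k
    exact hD5 _ h.1 (fun γ τ => by rw [charPolyAt_smul hf.2.1]) h.2
  choose p hp using key
  set Q : (ℂ[X])[X] := ∑ i ∈ Finset.range n, C (p i) * X ^ i with hQ
  have hQdeg : Q.degree < n := by
    rw [Polynomial.degree_lt_iff_coeff_zero]
    intro m hm
    rw [hQ, Polynomial.finsetSum_coeff]
    refine Finset.sum_eq_zero fun i hi => ?_
    rw [Polynomial.coeff_C_mul_X_pow, if_neg]
    have := Finset.mem_range.mp hi
    omega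
  refine ⟨X ^ n + Q, Polynomial.monic_X_pow_add hQdeg, ?_, fun τ => ?_⟩
  · rw [Polynomial.natDegree_add_eq_left_of_degree_lt (by rwa [Polynomial.degree_X_pow]),
      Polynomial.natDegree_X_pow]
  · have h1 := (charPolyAt_monic (N := N) f τ).as_sum
    rw [charPolyAt_natDegree] at h1
    rw [h1, Polynomial.map_add, Polynomial.map_pow, Polynomial.map_X, hQ, Polynomial.map_sum]
    congr 1
    refine Finset.sum_congr rfl fun i _ => ?_
    rw [Polynomial.map_mul, Polynomial.map_pow, Polynomial.map_X, Polynomial.map_C,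
      Polynomial.coe_evalRingHom, ← hp i τ]

/-- Corollary: function-level `HYP(n)`. -/
theorem exists_charPoly_eval_eq_zero (J : ℍ → ℂ)
    (hD5 : ∀ F : ℍ → ℂ, MDifferentiable 𝓘(ℂ) 𝓘(ℂ) F →
      (∀ (γ : SL(2, ℤ)) (τ : ℍ), F (γ • τ) = F τ) → ExpGrowth F →
      ∃ p : ℂ[X], ∀ τ, F τ = p.eval (J τ))
    {f : ℍ → ℂ} (hf : f ∈ goodRing N) :
    ∃ P : (ℂ[X])[X], P.Monic ∧ P.natDegree = Fintype.card (SL(2, ℤ) ⧸ Gamma0 N) ∧
      ∀ τ : ℍ, (P.map (Polynomial.evalRingHom (J τ))).eval (f τ) = 0 := by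
  obtain ⟨P, h1, h2, h3⟩ := exists_charPoly J hD5 hf
  exact ⟨P, h1, h2, fun τ => by rw [h3, charPolyAt_eval_self hf.2.1]⟩

end charPoly

end Fermat.Agent.S24.H648

end
end
-- ===== PACK-END S24/Deg/H648Conj.lean

-- ===== PACK-BEGIN S24/Deg/H648Height.lean
section


/-!
# S24 / M6-AN (helper648): the height lemma and `τ ↦ J (d τ) ∈ goodRing N`

No Hermite normal form is needed: an integer matrix of determinant `d` maps `{im τ ≥ 1}` into
`{im ≤ d · im τ}`.
-/

set_option autoImplicit false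

noncomputable section

open UpperHalfPlane ModularGroup CongruenceSubgroup Polynomial
open scoped MatrixGroups Manifold Modular Real

namespace Fermat.Agent.S24.H648

/-- A nonzero integral linear form in `τ` with `im τ ≥ 1` has absolute value at least `1`. -/
lemma one_le_normSq_int_linear (c e : ℤ) (τ : ℍ) (hτ : 1 ≤ τ.im)
    (h : (c : ℂ) * τ + e ≠ 0) : 1 ≤ Complex.normSq ((c : ℂ) * τ + e) := by
  have hval : Complex.normSq ((c : ℂ) * τ + e) = (c * τ.re + e) ^ 2 + (c * τ.im) ^ 2 := by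
    rw [Complex.normSq_apply]
    simp [pow_two]
  rw [hval]
  by_cases hc : c = 0
  · subst hc
    have he : e ≠ 0 := by
      rintro rfl
      simp at h
    have he1 : (1 : ℝ) ≤ (e : ℝ) ^ 2 := by
      have : (1 : ℤ) ≤ e ^ 2 := by
        have := Int.one_le_abs he
        nlinarith [abs_nonneg e, sq_abs e]
      exact_mod_cast this
    simpa using he1
  · have hc1 : (1 : ℝ) ≤ (c : ℝ) ^ 2 := by
      have : (1 : ℤ) ≤ c ^ 2 := by
        have := Int.one_le_abs hc
        nlinarith [abs_nonneg c, sq_abs c]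
      exact_mod_cast this
    have h1 : (1 : ℝ) ≤ (c * τ.im) ^ 2 := by
      rw [mul_pow]
      have : (1 : ℝ) ≤ τ.im ^ 2 := by nlinarith
      nlinarith
    nlinarith [sq_nonneg ((c : ℝ) * τ.re + e)]

/-- **Height lemma.** -/
lemma im_smul_scale_le (γ g : SL(2, ℤ)) (d : ℕ) (τ w : ℍ)
    (hw : (w : ℂ) = d * ((g • τ : ℍ) : ℂ)) (hτ : 1 ≤ τ.im) :
    (γ • w).im ≤ d * τ.im := by
  have hwim : w.im = d * (g • τ).im := by
    have := congrArg Complex.im hw
    simpa using this
  have hgτ : ((g • τ : ℍ) : ℂ) * denom g τ = num g τ := by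
    have h1 : ((g • τ : ℍ) : ℂ) = num g τ / denom g τ := by
      rw [sl_moeb, coe_smul_of_det_pos (by simp)]
    rw [h1, div_mul_cancel₀ _ (denom_ne_zero _ τ)]
  have hprod : denom γ w * denom g τ
      = ((γ 1 0 * d * g 0 0 + γ 1 1 * g 1 0 : ℤ) : ℂ) * τ
        + ((γ 1 0 * d * g 0 1 + γ 1 1 * g 1 1 : ℤ) : ℂ) := by
    have e1 : denom γ w = (γ 1 0 : ℂ) * w + γ 1 1 := by
      simp [denom]
    have e2 : denom g τ = (g 1 0 : ℂ) * τ + g 1 1 := by
      simp [denom]
    have e3 : num g τ = (g 0 0 : ℂ) * τ + g 0 1 := by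
      simp [num]
    rw [e1, hw, add_mul]
    have : (γ 1 0 : ℂ) * (d * ((g • τ : ℍ) : ℂ)) * denom g τ
        = (γ 1 0 : ℂ) * d * (((g • τ : ℍ) : ℂ) * denom g τ) := by ring
    rw [this, hgτ, e3, e2]
    push_cast
    ring
  have hne : denom γ w * denom g τ ≠ 0 :=
    mul_ne_zero (denom_ne_zero _ w) (denom_ne_zero _ τ)
  have hge : 1 ≤ Complex.normSq (denom γ w * denom g τ) := by
    rw [hprod] at hne ⊢
    exact one_le_normSq_int_linear _ _ τ hτ hne
  rw [ModularGroup.im_smul_eq_div_normSq, hwim, ModularGroup.im_smul_eq_div_normSq]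
  rw [Complex.normSq_mul] at hge
  have h1 : 0 < Complex.normSq (denom g τ) := Complex.normSq_pos.mpr (denom_ne_zero _ τ)
  have h2 : 0 < Complex.normSq (denom γ w) := Complex.normSq_pos.mpr (denom_ne_zero _ w)
  have hd : (0 : ℝ) ≤ d * τ.im := by
    have := τ.im_pos
    positivity
  have hAB : 1 ≤ Complex.normSq (denom g τ) * Complex.normSq (denom γ w) := by
    rw [mul_comm]; exact hge
  calc (d : ℝ) * (τ.im / Complex.normSq (denom g τ)) / Complex.normSq (denom γ w)
      = (d * τ.im) / (Complex.normSq (denom g τ) * Complex.normSq (denom γ w)) := by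
        field_simp
    _ ≤ d * τ.im := div_le_self hd hAB


/-- Points of the fundamental domain have imaginary part `≥ 1/2`. -/
lemma half_le_im_of_mem_fd {τ : ℍ} (h : τ ∈ 𝒟) : 1 / 2 ≤ τ.im := by
  have h1 := ModularGroup.three_le_four_mul_im_sq_of_mem_fd h
  have h2 := τ.im_pos
  nlinarith

section JScale

variable {J : ℍ → ℂ}

/-- Growth of all `SL₂(ℤ)`-translates of `τ ↦ J (d τ)`, from a bound for `J` on the fundamental
domain. -/
lemma expGrowth_J_scale (hJinv : ∀ (γ : SL(2, ℤ)) (τ : ℍ), J (γ • τ) = J τ)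
    (hJfd : ∃ C : ℝ, ∀ τ : ℍ, τ ∈ 𝒟 → ‖J τ‖ ≤ C * Real.exp (2 * π * τ.im))
    (d : ℕ) (s : ℍ → ℍ) (hs : ∀ τ : ℍ, (s τ : ℂ) = d * τ) (g : SL(2, ℤ)) :
    ExpGrowth (fun τ => J (s (g • τ))) := by
  obtain ⟨C, hC⟩ := hJfd
  refine ⟨|C|, d, fun τ hτ => ?_⟩
  obtain ⟨γ, hγ⟩ := ModularGroup.exists_smul_mem_fd (s (g • τ))
  have h1 : J (s (g • τ)) = J (γ • s (g • τ)) := (hJinv γ _).symm
  have h2 := hC _ hγ
  have h3 : (γ • s (g • τ)).im ≤ d * τ.im := im_smul_scale_le γ g d τ _ (hs _) hτ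
  show ‖J (s (g • τ))‖ ≤ _
  rw [h1]
  refine h2.trans ?_
  have h4 : Real.exp (2 * π * (γ • s (g • τ)).im) ≤ Real.exp (2 * π * d * τ.im) := by
    apply Real.exp_le_exp.mpr
    have := Real.pi_pos
    nlinarith
  calc C * Real.exp (2 * π * (γ • s (g • τ)).im)
      ≤ |C| * Real.exp (2 * π * (γ • s (g • τ)).im) := by
        gcongr
        exact le_abs_self C
    _ ≤ |C| * Real.exp (2 * π * d * τ.im) := by gcongr

/-- `τ ↦ J (d τ)` is holomorphic. -/
lemma mdifferentiable_J_scale (hJ : MDifferentiable 𝓘(ℂ) 𝓘(ℂ) J)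
    (d : ℕ) (hd : 0 < d) (s : ℍ → ℍ) (hs : ∀ τ : ℍ, (s τ : ℂ) = d * τ) :
    MDifferentiable 𝓘(ℂ) 𝓘(ℂ) (fun τ => J (s τ)) := by
  rw [UpperHalfPlane.mdifferentiable_iff] at hJ ⊢
  have hmaps : Set.MapsTo (fun z : ℂ => (d : ℂ) * z) {z | 0 < z.im} {z | 0 < z.im} := by
    intro z hz
    simp only [Set.mem_ofPred_eq] at hz ⊢
    have : ((d : ℂ) * z).im = d * z.im := by simp
    rw [this]
    positivity
  have hcomp : DifferentiableOn ℂ ((J ∘ ofComplex) ∘ fun z : ℂ => (d : ℂ) * z) {z | 0 < z.im} :=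
    hJ.comp (by fun_prop) hmaps
  refine hcomp.congr fun z hz => ?_
  simp only [Set.mem_ofPred_eq] at hz
  have hz' : 0 < ((d : ℂ) * z).im := hmaps hz
  simp only [Function.comp_apply]
  congr 1
  apply UpperHalfPlane.ext
  rw [hs, ofComplex_apply_of_im_pos hz, ofComplex_apply_of_im_pos hz']

/-- For `d ∣ N` and `γ ∈ Γ₀(N)` there is `γ' ∈ SL₂(ℤ)` with `d (γ τ) = γ' (d τ)`. -/
lemma exists_smul_scale_eq {N : ℕ} (d : ℕ) (hd : 0 < d) (hdN : d ∣ N) (γ : SL(2, ℤ))
    (hγ : γ ∈ Gamma0 N) :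
    ∃ γ' : SL(2, ℤ), ∀ τ w w' : ℍ, (w : ℂ) = d * τ → (w' : ℂ) = d * ((γ • τ : ℍ) : ℂ) →
      γ' • w = w' := by
  have hN : (N : ℤ) ∣ γ 1 0 := by
    rw [Gamma0_mem] at hγ
    exact (ZMod.intCast_zmod_eq_zero_iff_dvd _ _).mp hγ
  have hdc : (d : ℤ) ∣ γ 1 0 := (Int.natCast_dvd_natCast.mpr hdN).trans hN
  obtain ⟨k, hk⟩ := hdc
  have hdet : γ 0 0 * γ 1 1 - γ 0 1 * γ 1 0 = 1 := by
    have := γ.det_coe
    rw [Matrix.det_fin_two] at this
    exact this
  have hdet' : (!![γ 0 0, γ 0 1 * d; k, γ 1 1] : Matrix (Fin 2) (Fin 2) ℤ).det = 1 := by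
    rw [Matrix.det_fin_two_of]
    rw [hk] at hdet
    linear_combination hdet
  set γ' : SL(2, ℤ) := ⟨!![γ 0 0, γ 0 1 * d; k, γ 1 1], hdet'⟩ with hγ'def
  have e00 : γ' 0 0 = γ 0 0 := rfl
  have e01 : γ' 0 1 = γ 0 1 * d := rfl
  have e10 : γ' 1 0 = k := rfl
  have e11 : γ' 1 1 = γ 1 1 := rfl
  refine ⟨γ', fun τ w w' hw hw' => ?_⟩
  apply UpperHalfPlane.ext
  rw [hw', coe_specialLinearGroup_apply γ τ, coe_specialLinearGroup_apply γ' w, hw, e00, e01,
    e10, e11]
  simp only [algebraMap_int_eq, Int.coe_castRingHom, Complex.ofReal_intCast]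
  have hden : ((γ 1 0 : ℤ) : ℂ) * τ + ((γ 1 1 : ℤ) : ℂ) ≠ 0 := by
    have := denom_ne_zero (γ : GL (Fin 2) ℝ) τ
    simpa [denom] using this
  have hd0 : (d : ℂ) ≠ 0 := by exact_mod_cast hd.ne'
  have hk' : ((γ 1 0 : ℤ) : ℂ) = d * k := by rw [hk]; push_cast; ring
  have hden' : (k : ℂ) * (d * τ) + ((γ 1 1 : ℤ) : ℂ) ≠ 0 := by
    have : (k : ℂ) * (d * τ) + ((γ 1 1 : ℤ) : ℂ) = ((γ 1 0 : ℤ) : ℂ) * τ + ((γ 1 1 : ℤ) : ℂ) := by
      rw [hk']; ring
    rw [this]; exact hden
  rw [div_eq_iff hden', mul_div_assoc', div_mul_eq_mul_div, eq_div_iff hden, hk']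
  push_cast
  ring

variable (N : ℕ)

/-- **`τ ↦ J (d τ)` is a good function of level `N` for `d ∣ N`.** -/
theorem J_scale_mem_goodRing (hJ : MDifferentiable 𝓘(ℂ) 𝓘(ℂ) J)
    (hJinv : ∀ (γ : SL(2, ℤ)) (τ : ℍ), J (γ • τ) = J τ)
    (hJfd : ∃ C : ℝ, ∀ τ : ℍ, τ ∈ 𝒟 → ‖J τ‖ ≤ C * Real.exp (2 * π * τ.im))
    (d : ℕ) (hd : 0 < d) (hdN : d ∣ N) (s : ℍ → ℍ) (hs : ∀ τ : ℍ, (s τ : ℂ) = d * τ) :
    (fun τ => J (s τ)) ∈ goodRing N := by
  refine ⟨mdifferentiable_J_scale hJ d hd s hs, fun γ hγ τ => ?_,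
    fun g => expGrowth_J_scale hJinv hJfd d s hs g⟩
  obtain ⟨γ', hγ'⟩ := exists_smul_scale_eq d hd hdN γ hγ
  show J (s (γ • τ)) = J (s τ)
  rw [← hγ' τ (s τ) (s (γ • τ)) (hs τ) (hs _), hJinv]

end JScale

end Fermat.Agent.S24.H648

end
end
-- ===== PACK-END S24/Deg/H648Height.lean

-- ===== PACK-BEGIN S29/H32/AutOrbit.lean
section
/-
S29 row, helper32: automorphisms of an algebraically closed field over an algebraically closed
subfield.  Mathlib-only.

Main results (namespace `Fermat.Agent.S29.H32`):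
* `exists_algEquiv_apply_eq_add` : a transcendental element `z` of an algebraically closed field
  `Ω` over a field `k` can be moved to `z + c` (`c ∈ k`) by a `k`-automorphism of `Ω`.
* `mem_range_of_finite_orbit` : if `k` is algebraically closed and `z : Ω` has only finitely many
  conjugates under `Ω ≃ₐ[k] Ω`, then `z ∈ k`.
* `mem_range_of_fixed_of_finiteIndex` : the fixed field of a finite-index subgroup of
  `Ω ≃ₐ[k] Ω` is `k`.
-/


set_option autoImplicit false

namespace Fermat.Agent.S29.H32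

open MvPolynomial

section Shift

variable {k : Type*} [CommRing k] {ι : Type*} [DecidableEq ι]

/-- The `k`-algebra endomorphism of `k[X_i]` sending `X_{i₀} ↦ X_{i₀} + c` and fixing the other
variables. -/
noncomputable def shiftHom (i₀ : ι) (c : k) : MvPolynomial ι k →ₐ[k] MvPolynomial ι k :=
  aeval fun i => if i = i₀ then X i + C c else X i

theorem shiftHom_X (i₀ : ι) (c : k) (i : ι) :
    shiftHom i₀ c (X i) = if i = i₀ then X i + C c else X i := by
  simp [shiftHom]

theorem shiftHom_comp (i₀ : ι) (c d : k) :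
    (shiftHom i₀ c).comp (shiftHom i₀ d) = shiftHom i₀ (c + d) := by
  apply MvPolynomial.algHom_ext
  intro i
  by_cases h : i = i₀
  · subst h
    simp only [shiftHom, AlgHom.comp_apply, aeval_X, if_true, map_add, algHom_C,
      algebraMap_eq, map_add, add_assoc]
  · simp [shiftHom, h]

theorem shiftHom_zero (i₀ : ι) : shiftHom i₀ (0 : k) = AlgHom.id k (MvPolynomial ι k) := by
  apply MvPolynomial.algHom_ext
  intro i
  by_cases h : i = i₀ <;> simp [shiftHom, h]

/-- The shift as an algebra automorphism. -/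
noncomputable def shiftEquiv (i₀ : ι) (c : k) : MvPolynomial ι k ≃ₐ[k] MvPolynomial ι k :=
  AlgEquiv.ofAlgHom (shiftHom i₀ c) (shiftHom i₀ (-c))
    (by rw [shiftHom_comp, add_neg_cancel, shiftHom_zero])
    (by rw [shiftHom_comp, neg_add_cancel, shiftHom_zero])

theorem shiftEquiv_X_self (i₀ : ι) (c : k) : shiftEquiv i₀ c (X i₀) = X i₀ + C c := by
  simp [shiftEquiv, shiftHom_X]

end Shift

section Move

variable {k Ω : Type*} [Field k] [Field Ω] [Algebra k Ω] [IsAlgClosed Ω]

/-- A transcendental element of an algebraically closed field can be translated by any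
constant by an automorphism. -/
theorem exists_algEquiv_apply_eq_add (z : Ω) (hz : Transcendental k z) (c : k) :
    ∃ σ : Ω ≃ₐ[k] Ω, σ z = z + algebraMap k Ω c := by
  classical
  have hs : AlgebraicIndepOn k id ({z} : Set Ω) := by
    have : AlgebraicIndependent k (fun x : ({z} : Set Ω) => (x : Ω)) := by
      rw [algebraicIndependent_singleton_iff (⟨z, rfl⟩ : ({z} : Set Ω))]
      exact hz
    exact this
  obtain ⟨t, hzt, ht⟩ := exists_isTranscendenceBasis_superset hs
  set B : t → Ω := fun x => (x : Ω) with hB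
  have hzmem : z ∈ t := hzt rfl
  let i₀ : t := ⟨z, hzmem⟩
  have hcl := IsAlgClosed.isAlgClosure_of_transcendence_basis B ht
  -- the automorphism of the polynomial subalgebra
  let e₀ : Algebra.adjoin k (Set.range B) ≃ₐ[k] Algebra.adjoin k (Set.range B) :=
    (ht.1.aevalEquiv.symm.trans (shiftEquiv i₀ c)).trans ht.1.aevalEquiv
  have he₀ : ∀ x, (e₀ x : Ω) = aeval B (shiftEquiv i₀ c (ht.1.aevalEquiv.symm x)) := by
    intro x
    simp only [e₀, AlgEquiv.trans_apply]
    exact AlgebraicIndependent.algebraMap_aevalEquiv ht.1 _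
  let σ₀ : Ω ≃+* Ω := IsAlgClosure.equivOfEquiv Ω Ω e₀.toRingEquiv
  have hσ₀ : ∀ r : Algebra.adjoin k (Set.range B),
      σ₀ (algebraMap _ Ω r) = algebraMap _ Ω (e₀ r) := fun r =>
    IsAlgClosure.equivOfEquiv_algebraMap Ω Ω e₀.toRingEquiv r
  have hcomm : ∀ a : k, σ₀ (algebraMap k Ω a) = algebraMap k Ω a := by
    intro a
    have h1 : algebraMap k Ω a
        = algebraMap (Algebra.adjoin k (Set.range B)) Ω (algebraMap k _ a) := rfl
    rw [h1, hσ₀, e₀.commutes]
  refine ⟨AlgEquiv.ofRingEquiv (f := σ₀) hcomm, ?_⟩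
  have hzB : z = algebraMap (Algebra.adjoin k (Set.range B)) Ω
      ⟨z, Algebra.subset_adjoin ⟨i₀, rfl⟩⟩ := rfl
  show σ₀ z = _
  conv_lhs => rw [hzB]
  rw [hσ₀]
  show (e₀ _ : Ω) = _
  rw [he₀]
  have hsymm : ht.1.aevalEquiv.symm ⟨z, Algebra.subset_adjoin ⟨i₀, rfl⟩⟩ = X i₀ := by
    rw [AlgEquiv.symm_apply_eq]
    apply Subtype.ext
    show z = algebraMap (Algebra.adjoin k (Set.range B)) Ω (ht.1.aevalEquiv (X i₀))
    rw [AlgebraicIndependent.algebraMap_aevalEquiv, aeval_X]
  rw [hsymm, shiftEquiv_X_self]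
  simp [B, i₀]

end Move

section Orbit

variable {k Ω : Type*} [Field k] [Field Ω] [Algebra k Ω] [IsAlgClosed k] [IsAlgClosed Ω]

omit [IsAlgClosed Ω] in
/-- Over an algebraically closed field, an element which is not a constant is transcendental. -/
theorem transcendental_of_not_mem_range {z : Ω} (hz : z ∉ Set.range (algebraMap k Ω)) :
    Transcendental k z := by
  intro halg
  apply hz
  have hint : IsIntegral k z := halg.isIntegral
  have hdeg : (minpoly k z).degree = 1 :=
    IsAlgClosed.degree_eq_one_of_irreducible k (minpoly.irreducible hint)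
  exact minpoly.mem_range_of_degree_eq_one k z hdeg

/-- An element with finitely many conjugates under `Aut(Ω/k)` lies in `k`
(`k`, `Ω` algebraically closed). -/
theorem mem_range_of_finite_orbit (z : Ω)
    (h : (Set.range fun σ : Ω ≃ₐ[k] Ω => σ z).Finite) : z ∈ Set.range (algebraMap k Ω) := by
  by_contra hz
  have htr := transcendental_of_not_mem_range hz
  have hinj : Function.Injective fun c : k => z + algebraMap k Ω c := by
    intro c d hcd
    exact (algebraMap k Ω).injective (add_left_cancel hcd)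
  have hsub : (Set.range fun c : k => z + algebraMap k Ω c)
      ⊆ Set.range fun σ : Ω ≃ₐ[k] Ω => σ z := by
    rintro _ ⟨c, rfl⟩
    obtain ⟨σ, hσ⟩ := exists_algEquiv_apply_eq_add z htr c
    exact ⟨σ, hσ⟩
  have : Infinite k := IsAlgClosed.instInfinite
  exact Set.infinite_range_of_injective hinj (h.subset hsub)

/-- The fixed field of a finite-index subgroup of `Aut(Ω/k)` is `k`. -/
theorem mem_range_of_fixed_of_finiteIndex (H : Subgroup (Ω ≃ₐ[k] Ω)) [H.FiniteIndex] (z : Ω)
    (hfix : ∀ σ ∈ H, σ z = z) : z ∈ Set.range (algebraMap k Ω) := by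
  apply mem_range_of_finite_orbit
  -- the orbit map factors through the finite quotient `G ⧸ H`
  let f : (Ω ≃ₐ[k] Ω) ⧸ H → Ω := Quotient.lift (fun σ : Ω ≃ₐ[k] Ω => σ z) (by
    intro a b hab
    have hab' : a⁻¹ * b ∈ H := QuotientGroup.leftRel_apply.mp hab
    have := hfix _ hab'
    show a z = b z
    have h2 : b z = a ((a⁻¹ * b) z) := by
      simp [AlgEquiv.mul_apply, AlgEquiv.aut_inv]
    rw [h2, this])
  have : Finite ((Ω ≃ₐ[k] Ω) ⧸ H) := Subgroup.finite_quotient_of_finiteIndex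
  have : (Set.range fun σ : Ω ≃ₐ[k] Ω => σ z) ⊆ Set.range f := by
    rintro _ ⟨σ, rfl⟩
    exact ⟨QuotientGroup.mk σ, rfl⟩
  exact (Set.finite_range f).subset this

end Orbit

end Fermat.Agent.S29.H32

end
-- ===== PACK-END S29/H32/AutOrbit.lean

-- ===== PACK-BEGIN S29/H32/CoeffDescent.lean
section
/-
S29 row, helper32: descent of the field of constants for subfields of Laurent series.

Setting: `k ⊆ Ω` fields, `F₀ ⊆ ℚ((q))` an intermediate field.  The Prelude field
`laurentBaseChange Ω F₀ ⊆ Ω((q))` is generated by `Ω` and `F₀`.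

Main results (namespace `Fermat.Agent.S29.H32`):
* `exists_of_coeff_mem_range` : an element of `laurentBaseChange Ω F₀` all of whose coefficients
  lie in `k` is the image of an element of `laurentBaseChange k F₀`.
* `coeffMap_mem_laurentBaseChange_of_mem` : `laurentBaseChange k F₀` maps into
  `laurentBaseChange Ω F₀`.
-/



set_option autoImplicit false

namespace Fermat.Agent.S29.H32

open ModularCurve HahnSeries

section General

variable {k Ω : Type*} [Field k] [Field Ω] [Algebra k Ω]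

theorem coeffMap_algebraMap_injective :
    Function.Injective (coeffMap (algebraMap k Ω)) := by
  intro x y h
  ext n
  have := congrArg (fun z => z.coeff n) h
  simp only [coeffMap_coeff] at this
  exact (algebraMap k Ω).injective this

theorem coeff_algebraMap_mul (c : Ω) (z : LaurentSeries Ω) (n : ℤ) :
    (algebraMap Ω (LaurentSeries Ω) c * z).coeff n = c * z.coeff n := by
  rw [algebraMap_laurentSeries_eq_single]
  simp

/-- The `Ω`-linear combination `∑ βᵢ * ι(gᵢ)` attached to a finitely supported family of Laurent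
series over `k`. -/
noncomputable def comb {I : Type*} (β : I → Ω) (g : I →₀ LaurentSeries k) : LaurentSeries Ω :=
  g.sum fun i y => algebraMap Ω (LaurentSeries Ω) (β i) * coeffMap (algebraMap k Ω) y

theorem comb_zero {I : Type*} (β : I → Ω) : comb β (0 : I →₀ LaurentSeries k) = 0 := by
  simp [comb]

theorem comb_add {I : Type*} (β : I → Ω) (g h : I →₀ LaurentSeries k) :
    comb β (g + h) = comb β g + comb β h := by
  classical
  unfold comb
  apply Finsupp.sum_add_index'
  · intro i; simp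
  · intro i y z; simp [mul_add]

theorem comb_single {I : Type*} (β : I → Ω) (i : I) (y : LaurentSeries k) :
    comb β (Finsupp.single i y)
      = algebraMap Ω (LaurentSeries Ω) (β i) * coeffMap (algebraMap k Ω) y := by
  unfold comb
  rw [Finsupp.sum_single_index]
  simp

theorem comb_coeff {I : Type*} (β : I → Ω) (g : I →₀ LaurentSeries k) (n : ℤ) :
    (comb β g).coeff n = g.sum fun i y => algebraMap k Ω (y.coeff n) * β i := by
  classical
  induction g using Finsupp.induction with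
  | zero => simp [comb]
  | single_add i y g hi hy ih =>
    rw [comb_add, HahnSeries.coeff_add, ih, comb_single,
      Finsupp.sum_add_index' (by intro i; simp) (by intro i y z; simp [add_mul]),
      Finsupp.sum_single_index (by simp), coeff_algebraMap_mul, coeffMap_coeff, mul_comm]

/-- Left multiplication by a Laurent series over `k`, coordinatewise. -/
noncomputable def mulLeft {I : Type*} (x : LaurentSeries k) (g : I →₀ LaurentSeries k) :
    I →₀ LaurentSeries k :=
  g.mapRange (fun y => x * y) (mul_zero x)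

theorem comb_mulLeft {I : Type*} (β : I → Ω) (x : LaurentSeries k) (g : I →₀ LaurentSeries k) :
    comb β (mulLeft x g) = coeffMap (algebraMap k Ω) x * comb β g := by
  classical
  induction g using Finsupp.induction with
  | zero => simp [comb, mulLeft]
  | single_add i y g hi hy ih =>
    have h1 : mulLeft x (Finsupp.single i y + g) = Finsupp.single i (x * y) + mulLeft x g := by
      unfold mulLeft
      rw [Finsupp.mapRange_add (by intro a b; exact mul_add x a b), Finsupp.mapRange_single]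
    rw [h1, comb_add, comb_add, ih, comb_single, comb_single, map_mul, mul_add]
    congr 1
    ring

/-- Linear independence: if the `βᵢ` are `k`-linearly independent then `comb β` is injective. -/
theorem eq_zero_of_comb_eq_zero {I : Type*} {β : I → Ω} (hβ : LinearIndependent k β)
    (g : I →₀ LaurentSeries k) (h : comb β g = 0) : g = 0 := by
  classical
  ext i n
  have hn : (comb β g).coeff n = 0 := by rw [h]; rfl
  rw [comb_coeff] at hn
  let c : I →₀ k := g.mapRange (fun y => y.coeff n) rfl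
  have hc : Finsupp.linearCombination k β c = 0 := by
    rw [Finsupp.linearCombination_apply]
    rw [Finsupp.sum_mapRange_index (by intro i; simp)]
    rw [← hn]
    apply Finsupp.sum_congr
    intro j _
    rw [Algebra.smul_def]
  have := (linearIndependent_iff.mp hβ) c hc
  have hci : c i = 0 := by rw [this]; rfl
  simpa [c] using hci

end General

section BaseChange

variable {k Ω : Type*} [Field k] [Field Ω] [Algebra k Ω]

theorem coeffMap_algebraMap_up (c : k) :
    coeffMap (algebraMap k Ω) (algebraMap k (LaurentSeries k) c)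
      = algebraMap Ω (LaurentSeries Ω) (algebraMap k Ω c) := by
  rw [algebraMap_laurentSeries_eq_single, algebraMap_laurentSeries_eq_single, coeffMap_single]

variable [Algebra ℚ k] [Algebra ℚ Ω] [IsScalarTower ℚ k Ω]
variable (F₀ : IntermediateField ℚ (LaurentSeries ℚ))

theorem coeffMap_coeffEmb_up (x : LaurentSeries ℚ) :
    coeffMap (algebraMap k Ω) (coeffEmb k x) = coeffEmb Ω x := by
  rw [coeffEmb, coeffEmb, coeffMap_coeffMap]
  exact coeffMap_congr (IsScalarTower.algebraMap_eq ℚ k Ω).symm x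

/-- `laurentBaseChange k F₀` maps into `laurentBaseChange Ω F₀`. -/
theorem coeffMap_mem_laurentBaseChange_of_mem {x : LaurentSeries k}
    (hx : x ∈ laurentBaseChange k F₀) :
    coeffMap (algebraMap k Ω) x ∈ laurentBaseChange Ω F₀ := by
  rw [mem_laurentBaseChange_iff] at hx
  induction hx using Subfield.closure_induction with
  | mem y hy =>
      rcases hy with ⟨a, rfl⟩ | ⟨z, hz, rfl⟩
      · rw [coeffMap_algebraMap_up]
        exact (laurentBaseChange Ω F₀).algebraMap_mem _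
      · rw [coeffMap_coeffEmb_up]
        exact coeffEmb_mem_laurentBaseChange Ω hz
  | one => simp
  | add x y _ _ hx hy => simpa using add_mem hx hy
  | neg x _ hx => simpa using neg_mem hx
  | inv x _ hx => simpa using inv_mem hx
  | mul x y _ _ hx hy => simpa using mul_mem hx hy

/-- The generating set of `laurentBaseChange Ω F₀` is multiplicatively closed, so the generated
subalgebra is just the `Ω`-span. -/
theorem adjoin_le_span :
    (Algebra.adjoin Ω (⇑(coeffEmb Ω) '' (F₀ : Set (LaurentSeries ℚ)))).toSubmodule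
      ≤ @Submodule.span Ω (LaurentSeries Ω) _ _ Algebra.toModule
          (⇑(coeffEmb Ω) '' (F₀ : Set (LaurentSeries ℚ))) := by
  rw [Algebra.adjoin_eq_span]
  have h : ((Submonoid.closure (⇑(coeffEmb Ω) '' (F₀ : Set (LaurentSeries ℚ))) :
      Submonoid (LaurentSeries Ω)) : Set (LaurentSeries Ω))
      ⊆ (⇑(coeffEmb Ω) '' (F₀ : Set (LaurentSeries ℚ))) := by
    have : (⇑(coeffEmb Ω) '' (F₀ : Set (LaurentSeries ℚ)))
        = ((F₀.toSubfield.toSubring.toSubmonoid.map (coeffEmb Ω : LaurentSeries ℚ →* _) :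
            Submonoid (LaurentSeries Ω)) : Set (LaurentSeries Ω)) := by
      ext z
      simp
    rw [this, Submonoid.closure_eq]
  exact @Submodule.span_mono Ω (LaurentSeries Ω) _ _ Algebra.toModule _ _ h

/-- Every element of the `Ω`-span of `F₀` is a combination `∑ βᵢ * ι(gᵢ)` with
`gᵢ ∈ laurentBaseChange k F₀`, for any `k`-basis `β` of `Ω`. -/
theorem exists_comb_of_mem_span {I : Type*} (β : Module.Basis I k Ω) {a : LaurentSeries Ω}
    (ha : a ∈ Algebra.adjoin Ω (⇑(coeffEmb Ω) '' (F₀ : Set (LaurentSeries ℚ)))) :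
    ∃ g : I →₀ LaurentSeries k, (∀ i, g i ∈ laurentBaseChange k F₀) ∧ a = comb (⇑β) g := by
  classical
  -- auxiliary: `ω * ι(y)` for `y ∈ laurentBaseChange k F₀`
  have key : ∀ (ω : Ω) (y : LaurentSeries k), y ∈ laurentBaseChange k F₀ →
      ∃ g : I →₀ LaurentSeries k, (∀ i, g i ∈ laurentBaseChange k F₀) ∧
        algebraMap Ω (LaurentSeries Ω) ω * coeffMap (algebraMap k Ω) y = comb (⇑β) g := by
    intro ω y hy
    refine ⟨(β.repr ω).mapRange (fun c => algebraMap k (LaurentSeries k) c * y) (by simp),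
      fun i => ?_, ?_⟩
    · rw [Finsupp.mapRange_apply]
      exact mul_mem ((laurentBaseChange k F₀).algebraMap_mem _) hy
    · unfold comb
      rw [Finsupp.sum_mapRange_index (by intro i; simp)]
      conv_lhs => rw [← β.linearCombination_repr ω, Finsupp.linearCombination_apply]
      rw [Finsupp.sum, map_sum, Finset.sum_mul, Finsupp.sum]
      apply Finset.sum_congr rfl
      intro i _
      rw [map_mul, coeffMap_algebraMap_up, Algebra.smul_def (β.repr ω i) (β i), map_mul]
      ring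
  have ha' := adjoin_le_span (Ω := Ω) F₀ ha
  clear ha
  induction ha' using Submodule.span_induction with
  | mem x hx =>
      obtain ⟨f, hf, rfl⟩ := hx
      obtain ⟨g, hg, hge⟩ := key 1 (coeffEmb k f) (coeffEmb_mem_laurentBaseChange k hf)
      refine ⟨g, hg, ?_⟩
      rw [← hge, map_one, one_mul, coeffMap_coeffEmb_up]
  | zero => exact ⟨0, fun i => by simp, (comb_zero _).symm⟩
  | add x y _ _ hx hy =>
      obtain ⟨g, hg, rfl⟩ := hx
      obtain ⟨h, hh, rfl⟩ := hy
      exact ⟨g + h, fun i => by rw [Finsupp.add_apply]; exact add_mem (hg i) (hh i),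
        (comb_add _ g h).symm⟩
  | smul ω x _ hx =>
      obtain ⟨g, hg, rfl⟩ := hx
      rw [Algebra.smul_def]
      -- induct on `g`
      clear ‹_›
      induction g using Finsupp.induction with
      | zero => exact ⟨0, fun i => by simp, by rw [comb_zero, mul_zero]⟩
      | single_add i y g hi hy ih =>
          have hyi : y ∈ laurentBaseChange k F₀ := by
            have := hg i
            rwa [Finsupp.add_apply, Finsupp.single_eq_same,
              Finsupp.notMem_support_iff.mp hi, add_zero] at this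
          have hg' : ∀ j, g j ∈ laurentBaseChange k F₀ := by
            intro j
            by_cases hj : j = i
            · subst hj
              rw [Finsupp.notMem_support_iff.mp hi]
              exact zero_mem _
            · have := hg j
              rwa [Finsupp.add_apply, Finsupp.single_eq_of_ne hj, zero_add] at this
          obtain ⟨g₁, hg₁, e₁⟩ := key (ω * β i) y hyi
          obtain ⟨g₂, hg₂, e₂⟩ := ih hg'
          refine ⟨g₁ + g₂, fun j => by rw [Finsupp.add_apply]; exact add_mem (hg₁ j) (hg₂ j), ?_⟩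
          rw [comb_add, comb_add, mul_add, ← e₁, ← e₂, comb_single, map_mul, mul_assoc]

omit [Algebra ℚ k] [Algebra ℚ Ω] [IsScalarTower ℚ k Ω] in
/-- Lift of a Laurent series over `Ω` with coefficients in `k` to a Laurent series over `k`. -/
noncomputable def coeffDown (x : LaurentSeries Ω) : LaurentSeries k :=
  x.map (⟨Function.invFun (algebraMap k Ω), by
    have h := Function.leftInverse_invFun (algebraMap k Ω).injective (0 : k)
    rwa [map_zero] at h⟩ : ZeroHom Ω k)

omit [Algebra ℚ k] [Algebra ℚ Ω] [IsScalarTower ℚ k Ω] in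
theorem coeffMap_coeffDown {x : LaurentSeries Ω}
    (hx : ∀ n, x.coeff n ∈ Set.range (algebraMap k Ω)) :
    coeffMap (algebraMap k Ω) (coeffDown (k := k) x) = x := by
  ext n
  obtain ⟨c, hc⟩ := hx n
  simp only [coeffMap_coeff, coeffDown, HahnSeries.map_coeff, ZeroHom.coe_mk]
  rw [← hc, Function.leftInverse_invFun (algebraMap k Ω).injective c]

/-- **Descent of constants.**  An element of `laurentBaseChange Ω F₀` whose coefficients all lie
in `k` comes from `laurentBaseChange k F₀`. -/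
theorem exists_of_coeff_mem_range {x : LaurentSeries Ω} (hx : x ∈ laurentBaseChange Ω F₀)
    (hcoeff : ∀ n, x.coeff n ∈ Set.range (algebraMap k Ω)) :
    ∃ y ∈ laurentBaseChange k F₀, coeffMap (algebraMap k Ω) y = x := by
  classical
  let β := Module.Basis.ofVectorSpace k Ω
  refine ⟨coeffDown x, ?_, coeffMap_coeffDown hcoeff⟩
  set x₀ : LaurentSeries k := coeffDown x with hx₀
  have hx₀x : coeffMap (algebraMap k Ω) x₀ = x := coeffMap_coeffDown hcoeff
  obtain ⟨r, hr, s, hs, hxrs⟩ := IntermediateField.mem_adjoin_iff_div.mp hx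
  obtain ⟨gr, hgr, rfl⟩ := exists_comb_of_mem_span F₀ β hr
  obtain ⟨gs, hgs, rfl⟩ := exists_comb_of_mem_span F₀ β hs
  by_cases hs0 : comb (⇑β) gs = 0
  · -- then `x = 0`
    have hx0 : x = 0 := by rw [hxrs, hs0, div_zero]
    have : x₀ = 0 := by
      apply coeffMap_algebraMap_injective (Ω := Ω)
      rw [hx₀x, hx0, map_zero]
    rw [this]
    exact zero_mem _
  · have hmul : coeffMap (algebraMap k Ω) x₀ * comb (⇑β) gs = comb (⇑β) gr := by
      rw [hx₀x, hxrs, div_mul_cancel₀ _ hs0]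
    rw [← comb_mulLeft] at hmul
    have hgs0 : gs ≠ 0 := by
      rintro rfl
      exact hs0 (comb_zero _)
    obtain ⟨i, hi⟩ := Finsupp.ne_iff.mp hgs0
    have hsub : comb (⇑β) (mulLeft x₀ gs - gr) = 0 := by
      have := comb_add (⇑β) (mulLeft x₀ gs - gr) gr
      rw [sub_add_cancel, hmul] at this
      exact (add_eq_right.mp this.symm)
    have hz := eq_zero_of_comb_eq_zero β.linearIndependent _ hsub
    have hi' : x₀ * gs i = gr i := by
      have := congrArg (fun g => g i) hz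
      simp only [Finsupp.sub_apply, Finsupp.zero_apply, mulLeft, Finsupp.mapRange_apply] at this
      exact sub_eq_zero.mp this
    have hgsi : gs i ≠ 0 := by simpa using hi
    have : x₀ = gr i / gs i := by
      rw [eq_div_iff hgsi, hi']
    rw [this]
    exact div_mem (hgr i) (hgs i)

end BaseChange

end Fermat.Agent.S29.H32

end
-- ===== PACK-END S29/H32/CoeffDescent.lean

-- ===== PACK-BEGIN S24/H117/OrbitCount.lean
section


/-!
# S24 / H117 — an abstract orbit-counting squeeze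

Let `perm` be a permutation of a finite set `X`, `φ : X → β` a `perm`-invariant map and
`e : β → ℕ` such that `e (φ x)` divides every period of `x`.  If `#X ≤ ∑_{v ∈ range φ} e v`, then
`φ` induces a bijection between the cycles of `perm` and `range φ`, and the cycle through `x`
has exactly `e (φ x)` elements.
-/

set_option autoImplicit false

noncomputable section

open MulAction

namespace Fermat.Agent.S24.H117

variable {X β : Type*}

theorem map_eq_of_mem_orbit_zpowers (perm : Equiv.Perm X) (φ : X → β)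
    (hperm : ∀ x, φ (perm x) = φ x) {x y : X}
    (h : y ∈ orbit (Subgroup.zpowers perm) x) : φ y = φ x := by
  obtain ⟨⟨g, hg⟩, rfl⟩ := h
  obtain ⟨k, rfl⟩ := Subgroup.mem_zpowers_iff.mp hg
  show φ ((perm ^ k) x) = φ x
  have hinv : ∀ z, φ (perm⁻¹ z) = φ z := fun z => by
    have := hperm (perm⁻¹ z)
    simpa using this.symm
  induction k using Int.induction_on generalizing x with
  | zero => simp
  | succ n ih =>
    rw [zpow_add_one, Equiv.Perm.mul_apply, ih (x := perm x), hperm]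
    exact Subgroup.zpow_mem _ (Subgroup.mem_zpowers perm) _
  | pred n ih =>
    rw [zpow_sub_one, Equiv.Perm.mul_apply, ih (x := perm⁻¹ x), hinv]
    exact Subgroup.zpow_mem _ (Subgroup.mem_zpowers perm) _

theorem orbit_count_squeeze [Fintype X] [DecidableEq β] (perm : Equiv.Perm X) (φ : X → β)
    (e : β → ℕ)
    (hperm : ∀ x, φ (perm x) = φ x)
    (hdiv : ∀ x (i : ℕ), (perm ^ i) x = x → e (φ x) ∣ i)
    (hsum : Fintype.card X ≤ ∑ v ∈ Finset.univ.image φ, e v) :
    Nat.card (orbitRel.Quotient (Subgroup.zpowers perm) X) = (Finset.univ.image φ).card ∧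
      (∀ x, Nat.card (orbit (Subgroup.zpowers perm) x) = e (φ x)) ∧
      (∑ v ∈ Finset.univ.image φ, e v = Fintype.card X) := by
  classical
  -- orbit sizes
  have hper : ∀ x, e (φ x) ≤ Fintype.card (orbit (Subgroup.zpowers perm) x) := by
    intro x
    have h1 : Function.minimalPeriod (perm • ·) x
        = Fintype.card (orbit (Subgroup.zpowers perm) x) := minimalPeriod_eq_card perm x
    have h2 : (perm ^ Function.minimalPeriod (perm • ·) x) x = x := by
      have := Function.iterate_minimalPeriod (f := (perm • ·)) (x := x)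
      rw [smul_iterate] at this
      exact this
    have h3 := hdiv x _ h2
    rw [h1] at h3
    have : Nonempty (orbit (Subgroup.zpowers perm) x) := (nonempty_orbit x).to_subtype
    exact Nat.le_of_dvd Fintype.card_pos h3
  -- the orbit is inside the fibre
  have hsub : ∀ x, (Finset.univ.filter (fun y : X => y ∈ orbit (Subgroup.zpowers perm) x))
      ⊆ Finset.univ.filter (fun y : X => φ y = φ x) := by
    intro x y hy
    simp only [Finset.mem_filter, Finset.mem_univ, true_and] at hy ⊢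
    exact map_eq_of_mem_orbit_zpowers perm φ hperm hy
  have hcardO : ∀ x, (Finset.univ.filter (fun y : X => y ∈ orbit (Subgroup.zpowers perm) x)).card
      = Fintype.card (orbit (Subgroup.zpowers perm) x) := by
    intro x
    rw [Fintype.card_subtype]
  have hle : ∀ v ∈ Finset.univ.image φ, e v ≤ (Finset.univ.filter (fun y : X => φ y = v)).card := by
    intro v hv
    obtain ⟨x, -, rfl⟩ := Finset.mem_image.mp hv
    calc e (φ x) ≤ Fintype.card (orbit (Subgroup.zpowers perm) x) := hper x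
      _ = _ := (hcardO x).symm
      _ ≤ _ := Finset.card_le_card (hsub x)
  have htot : Fintype.card X = ∑ v ∈ Finset.univ.image φ, (Finset.univ.filter (fun y : X => φ y = v)).card := by
    rw [← Finset.card_univ]
    exact Finset.card_eq_sum_card_fiberwise (fun x _ => Finset.mem_image_of_mem φ (Finset.mem_univ x))
  have hsumeq : ∑ v ∈ Finset.univ.image φ, e v
      = ∑ v ∈ Finset.univ.image φ, (Finset.univ.filter (fun y : X => φ y = v)).card := by
    apply le_antisymm (Finset.sum_le_sum hle)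
    rw [← htot]
    exact hsum
  have hfib : ∀ v ∈ Finset.univ.image φ, e v = (Finset.univ.filter (fun y : X => φ y = v)).card :=
    (Finset.sum_eq_sum_iff_of_le hle).mp hsumeq
  have hOeq : ∀ x, (Finset.univ.filter (fun y : X => y ∈ orbit (Subgroup.zpowers perm) x))
      = Finset.univ.filter (fun y : X => φ y = φ x) := by
    intro x
    apply Finset.eq_of_subset_of_card_le (hsub x)
    rw [← hfib _ (Finset.mem_image_of_mem φ (Finset.mem_univ x)), hcardO]
    exact hper x
  refine ⟨?_, ?_, ?_⟩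
  · -- bijection between orbits and the image
    let Φ : orbitRel.Quotient (Subgroup.zpowers perm) X → (Finset.univ.image φ : Finset β) :=
      fun ω => Quotient.liftOn' ω
        (fun x => (⟨φ x, Finset.mem_image_of_mem φ (Finset.mem_univ x)⟩ :
          (Finset.univ.image φ : Finset β)))
        (fun a b hab => Subtype.ext (map_eq_of_mem_orbit_zpowers perm φ hperm hab))
    have hΦbij : Function.Bijective Φ := by
      constructor
      · intro ω₁ ω₂ h
        induction ω₁ using Quotient.inductionOn' with | _ x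
        induction ω₂ using Quotient.inductionOn' with | _ y
        have hxy : φ x = φ y := congrArg Subtype.val h
        apply Quotient.sound'
        show x ∈ orbit (Subgroup.zpowers perm) y
        have : x ∈ Finset.univ.filter (fun z : X => φ z = φ y) := by simp [hxy]
        rw [← hOeq y] at this
        simpa using this
      · rintro ⟨v, hv⟩
        obtain ⟨x, -, rfl⟩ := Finset.mem_image.mp hv
        exact ⟨Quotient.mk'' x, rfl⟩
    rw [Nat.card_congr (Equiv.ofBijective Φ hΦbij), Nat.card_eq_fintype_card, Fintype.card_coe]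
  · intro x
    rw [Nat.card_eq_fintype_card, ← hcardO, hOeq, hfib _ (Finset.mem_image_of_mem φ (Finset.mem_univ x))]
  · rw [hsumeq, ← htot]

end Fermat.Agent.S24.H117

end
end
-- ===== PACK-END S24/H117/OrbitCount.lean

-- ===== PACK-BEGIN S48/H856/IgusaAbs.lean
section


/-!
# S48 / RES (Tower A1) / node IGUSA1 — the abstract core (helper856), Mathlib-only

Good reduction of the full-level (hence of the `Γ₁`-) modular function field at every prime
`p ∤ M`, deduced from Igusa's theorem for `X₀(M)` (landed S28) by pure Galois theory.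

Setting: `L` a field with an action of a finite group `G` (`L` = full-level field over a number
field `E ∋ ζ_M`, `G` = image of `SL₂(ℤ)`), `V` a discrete valuation subring of `L` with
uniformiser `w` (the Gauss valuation on `X`-expansions, `X = q^{1/M}`), `A₀ ⊆ Lᴳ` a subring with
`Frac A₀ = Lᴳ` (`A₀ = R[j]`), `B ≤ G` (the image of `Γ₀(M)`), `t ∈ G` (the image of
`T = (1 1; 0 1)`, acting by `X ↦ ζ X`).

* `eq_top_of_normalClosure_of_mul` : group theory (`G = D·B`, conjugates of `t` by `B` in `D`,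
  normal closure of `t` is `G` ⟹ `D = G`);
* `smul_ideal_eq_of_unipotent`     : the same for the stabiliser of a prime ideal;
* `stable_of_unipotent`            : `V` is `G`-stable (**unique extension of the Gauss valuation**)
  as soon as `t` preserves `V` and the `q`-expansion principle holds for `B`-invariant elements;
* `qep_of_stable`, `igusa_qep`     : the `q`-expansion principle for ALL of `L`
  (`b` integral over `A₀`, `b/w ∈ V` ⟹ `b/w` integral over `A₀`), in the shape of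
  `Fermat.Agent.S18.Alg.GoodModel.qep_fin`.
-/

set_option autoImplicit false

open scoped Pointwise

namespace Fermat.Agent.S48.H856

/-! ## 1. Group theory -/

/-- If `G = D·B`, the `B`-conjugates of `t` lie in `D`, and the normal closure of `t` is `G`,
then `D = G`. -/
theorem eq_top_of_normalClosure_of_mul {G : Type*} [Group G] (B D : Subgroup G) (t : G)
    (htn : ∀ b ∈ B, b * t * b⁻¹ ∈ D)
    (hDB : ∀ g : G, ∃ d ∈ D, ∃ b ∈ B, g = d * b)
    (hgen : Subgroup.normalClosure ({t} : Set G) = ⊤) : D = ⊤ := by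
  rw [eq_top_iff, ← hgen]
  unfold Subgroup.normalClosure
  rw [Subgroup.closure_le]
  intro x hx
  rw [Group.mem_conjugatesOfSet_iff] at hx
  obtain ⟨a, ha, hax⟩ := hx
  rw [Set.mem_singleton_iff] at ha
  subst ha
  obtain ⟨c, rfl⟩ := isConj_iff.mp hax
  obtain ⟨d, hd, b, hb, rfl⟩ := hDB c
  have h : d * b * a * (d * b)⁻¹ = d * (b * a * b⁻¹) * d⁻¹ := by group
  rw [SetLike.mem_coe, h]
  exact D.mul_mem (D.mul_mem hd (htn b hb)) (D.inv_mem hd)

/-! ## 2. Prime ideals -/

section Ideal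

variable {C : Type*} [CommRing C] {G : Type*} [Group G] [Finite G] [MulSemiringAction G C]

/-- A prime ideal `P` of a ring with `G`-action is `G`-stable as soon as it is stable under an
element `t` whose normal closure is `G`, and its trace on the invariants of a subgroup `B`
normalising `⟨t⟩` is the same for all conjugates of `P`. -/
theorem smul_ideal_eq_of_unipotent (P : Ideal C) [P.IsPrime] (B : Subgroup G) (t : G)
    (htn : ∀ b ∈ B, b * t * b⁻¹ ∈ Subgroup.zpowers t)
    (htP : t • P = P)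
    (hB : ∀ g : G, ∀ x : C, (∀ b ∈ B, b • x = x) → (x ∈ g • P ↔ x ∈ P))
    (hgen : Subgroup.normalClosure ({t} : Set G) = ⊤) (g : G) : g • P = P := by
  have htD : t ∈ MulAction.stabilizer G P := htP
  have hzD : Subgroup.zpowers t ≤ MulAction.stabilizer G P := by
    rwa [Subgroup.zpowers_le]
  have hDB : ∀ g : G, ∃ d ∈ MulAction.stabilizer G P, ∃ b ∈ B, g = d * b := by
    intro g
    have : Algebra.IsInvariant (FixedPoints.subring C B) C B :=
      ⟨fun x hx => ⟨⟨x, hx⟩, rfl⟩⟩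
    have hQ : (g⁻¹ • P).IsPrime := Ideal.IsPrime.smul g⁻¹
    have hPQ : P.under (FixedPoints.subring C B) = (g⁻¹ • P).under (FixedPoints.subring C B) := by
      ext x
      simp only [Ideal.under_def, Ideal.mem_comap]
      exact (hB g⁻¹ x.1 (fun b hb => x.2 ⟨b, hb⟩)).symm
    obtain ⟨β, hβ⟩ := Algebra.IsInvariant.exists_smul_of_under_eq
      (FixedPoints.subring C B) C B P (g⁻¹ • P) hPQ
    have hβ' : g⁻¹ • P = (β : G) • P := hβ
    refine ⟨g * β, ?_, (β : G)⁻¹, B.inv_mem β.2, by group⟩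
    rw [MulAction.mem_stabilizer_iff, mul_smul, ← hβ', smul_inv_smul]
  have hD := eq_top_of_normalClosure_of_mul B (MulAction.stabilizer G P) t
    (fun b hb => hzD (htn b hb)) hDB hgen
  have hg : g ∈ MulAction.stabilizer G P := hD ▸ Subgroup.mem_top g
  exact hg

end Ideal


/-! ## 3. Discrete valuation rings with a group action -/

section Valuation

variable {L : Type*} [Field L] {G : Type*} [Group G] [MulSemiringAction G L]

/-- `V` is a discrete valuation subring of `L` with uniformiser `w`. -/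
structure IsDiscrete (V : ValuationSubring L) (w : L) : Prop where
  w_lt : V.valuation w < 1
  w_ne : w ≠ 0
  disc : ∀ y : L, y ≠ 0 → ∃ n : ℤ, V.valuation y = V.valuation w ^ n

variable {V : ValuationSubring L} {w : L}

theorem IsDiscrete.w_pos (h : IsDiscrete V w) : 0 < V.valuation w :=
  zero_lt_iff.mpr ((Valuation.ne_zero_iff _).mpr h.w_ne)

/-- an element integral over a subring of `V` lies in `V` -/
theorem mem_of_isIntegral {A₀ : Subring L} (hA_le : A₀ ≤ V.toSubring) {c : L}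
    (hc : IsIntegral A₀ c) : c ∈ V := by
  have h1 : IsIntegral V c := by
    obtain ⟨p, hmonic, hp⟩ := hc
    refine ⟨p.map (Subring.inclusion hA_le), hmonic.map _, ?_⟩
    rw [Polynomial.eval₂_map]
    exact hp
  obtain ⟨y, hy⟩ := IsIntegrallyClosed.isIntegral_iff.mp h1
  rw [← hy]
  exact y.2

/-- the image of an integral element under an automorphism fixing the base is integral -/
theorem isIntegral_smul {A₀ : Subring L} (hA_fix : ∀ a ∈ A₀, ∀ g : G, g • a = a) {c : L}
    (hc : IsIntegral A₀ c) (g : G) : IsIntegral A₀ (g • c) := by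
  obtain ⟨p, hmonic, hp⟩ := hc
  refine ⟨p, hmonic, ?_⟩
  have h1 : (MulSemiringAction.toRingHom G L g).comp (algebraMap A₀ L) = algebraMap A₀ L := by
    ext a
    exact hA_fix a.1 a.2 g
  have h2 := Polynomial.hom_eval₂ p (algebraMap A₀ L) (MulSemiringAction.toRingHom G L g) c
  rw [hp, map_zero, h1] at h2
  exact h2.symm


variable [Finite G]

/-- every element of `L` has a nonzero multiple (by an element of `A₀`) integral over `A₀`,
as soon as the invariants of the finite group `G` lie in the fraction field of `A₀` -/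
theorem exists_integral_mul (A₀ : Subring L)
    (hA_frac : ∀ y : L, (∀ g : G, g • y = y) → ∃ a ∈ A₀, ∃ s ∈ A₀, s ≠ 0 ∧ y * s = a) (x : L) :
    ∃ s ∈ A₀, s ≠ 0 ∧ IsIntegral A₀ (x * s) := by
  classical
  cases nonempty_fintype G
  set f := MulSemiringAction.charpoly G x with hf
  have hcoef : ∀ i : ℕ, ∃ a ∈ A₀, ∃ s ∈ A₀, s ≠ 0 ∧ f.coeff i * s = a := fun i =>
    hA_frac _ (fun g => MulSemiringAction.smul_coeff_charpoly x i g)
  choose a ha s hs hs0 has using hcoef
  set n := f.natDegree with hn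
  set S : L := ∏ i ∈ Finset.range (n + 1), s i with hS
  have hS0 : S ≠ 0 := Finset.prod_ne_zero_iff.mpr fun i _ => hs0 i
  have hSmem : ∀ i : ℕ, S * f.coeff i ∈ A₀ := by
    intro i
    by_cases hi : i ∈ Finset.range (n + 1)
    · have h1 : S = (∏ j ∈ (Finset.range (n + 1)).erase i, s j) * s i := by
        rw [hS, Finset.prod_erase_mul _ _ hi]
      have h2 : S * f.coeff i = (∏ j ∈ (Finset.range (n + 1)).erase i, s j) * a i := by
        rw [h1, ← has i]; ring
      rw [h2]
      exact A₀.mul_mem (A₀.prod_mem fun j _ => hs j) (ha i)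
    · have h0 : f.coeff i = 0 := by
        apply Polynomial.coeff_eq_zero_of_natDegree_lt
        rw [Finset.mem_range, not_lt] at hi
        omega
      rw [h0, mul_zero]
      exact A₀.zero_mem
  have hlift : Polynomial.C S * f ∈ Polynomial.lifts (algebraMap A₀ L) := by
    rw [Polynomial.lifts_iff_coeff_lifts]
    intro i
    rw [Polynomial.coeff_C_mul]
    exact ⟨⟨_, hSmem i⟩, rfl⟩
  obtain ⟨p, hp⟩ := hlift
  replace hp : p.map (algebraMap A₀ L) = Polynomial.C S * f := hp
  have hp0 : p ≠ 0 := by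
    rintro rfl
    rw [Polynomial.map_zero] at hp
    have hf0 : f ≠ 0 := (MulSemiringAction.monic_charpoly G x).ne_zero
    exact mul_ne_zero (Polynomial.C_ne_zero.mpr hS0) hf0 hp.symm
  have halg : IsAlgebraic A₀ x := by
    refine ⟨p, hp0, ?_⟩
    rw [Polynomial.aeval_def, Polynomial.eval₂_eq_eval_map, hp, Polynomial.eval_mul,
      MulSemiringAction.eval_charpoly, mul_zero]
  obtain ⟨y, hy0, hy⟩ := halg.exists_integral_multiple
  refine ⟨y.1, y.2, fun h => hy0 (Subtype.ext h), ?_⟩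
  have : y • x = x * (y : L) := by
    rw [Algebra.smul_def, mul_comm]; rfl
  rwa [this] at hy

variable (V w) in
/-- **Key inequality.**  If the `q`-expansion principle holds for `B`-invariant elements, then
every conjugate valuation is `≥` the given one on `B`-invariant elements. -/
theorem valuation_smul_le_of_invariant (A₀ : Subring L) (B : Subgroup G)
    (hV : IsDiscrete V w)
    (hA_fix : ∀ a ∈ A₀, ∀ g : G, g • a = a)
    (hA_frac : ∀ y : L, (∀ g : G, g • y = y) → ∃ a ∈ A₀, ∃ s ∈ A₀, s ≠ 0 ∧ y * s = a)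
    (hA_le : A₀ ≤ V.toSubring) (hw_mem : w ∈ A₀)
    (hq0 : ∀ b : L, (∀ β ∈ B, β • b = b) → IsIntegral A₀ b → b * w⁻¹ ∈ V →
      IsIntegral A₀ (b * w⁻¹))
    (x : L) (hx : ∀ β ∈ B, β • x = x) (h : G) :
    V.valuation (h • x) ≤ V.valuation x := by
  by_cases hx0 : x = 0
  · rw [hx0, smul_zero]
  obtain ⟨s, hs, hs0, hc⟩ := exists_integral_mul (G := G) A₀ hA_frac x
  set c := x * s with hcdef
  have hc0 : c ≠ 0 := mul_ne_zero hx0 hs0
  have hwfix : ∀ g : G, g • w = w := fun g => hA_fix w hw_mem g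
  have hwinvfix : ∀ g : G, g • w⁻¹ = w⁻¹ := fun g => by rw [smul_inv'', hwfix]
  have hcB : ∀ β ∈ B, β • c = c := fun β hβ => by
    rw [hcdef, smul_mul', hx β hβ, hA_fix s hs β]
  have hcV : c ∈ V := mem_of_isIntegral hA_le hc
  obtain ⟨n, hn⟩ := hV.disc c hc0
  have hn0 : 0 ≤ n := by
    have h1 : V.valuation c ≤ 1 := (V.valuation_le_one_iff c).mpr hcV
    rw [hn] at h1
    exact (zpow_le_one_iff_right_of_lt_one₀ hV.w_pos hV.w_lt).mp h1
  obtain ⟨N, rfl⟩ := Int.eq_ofNat_of_zero_le hn0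
  have hvwinv : V.valuation w⁻¹ = (V.valuation w)⁻¹ := map_inv₀ _ _
  have hval : ∀ i : ℕ, V.valuation (c * w⁻¹ ^ i) = V.valuation w ^ ((N : ℤ) - i) := by
    intro i
    rw [map_mul, map_pow, hn, hvwinv, inv_pow, ← zpow_natCast (V.valuation w) i,
      ← zpow_neg, ← zpow_add₀ hV.w_pos.ne', sub_eq_add_neg]
  have hind : ∀ i : ℕ, i ≤ N → IsIntegral A₀ (c * w⁻¹ ^ i) ∧ ∀ β ∈ B, β • (c * w⁻¹ ^ i) = c * w⁻¹ ^ i := by
    intro i
    induction i with
    | zero => intro _; simpa using ⟨hc, hcB⟩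
    | succ i ih =>
      intro hi
      obtain ⟨h1, h2⟩ := ih (by omega)
      have h3 : c * w⁻¹ ^ (i + 1) = c * w⁻¹ ^ i * w⁻¹ := by rw [pow_succ]; ring
      have h4 : c * w⁻¹ ^ i * w⁻¹ ∈ V := by
        rw [← h3, ← V.valuation_le_one_iff, hval]
        apply (zpow_le_one_iff_right_of_lt_one₀ hV.w_pos hV.w_lt).mpr
        push_cast
        omega
      refine ⟨h3 ▸ hq0 _ h2 h1 h4, fun β hβ => ?_⟩
      rw [h3, smul_mul', h2 β hβ, hwinvfix]
  have hd := (hind N le_rfl).1
  have hd' : h • (c * w⁻¹ ^ N) ∈ V := mem_of_isIntegral hA_le (isIntegral_smul hA_fix hd h)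
  rw [smul_mul', smul_pow', hwinvfix, ← V.valuation_le_one_iff, map_mul, map_pow, hvwinv,
    inv_pow] at hd'
  have h5 : V.valuation (h • c) ≤ V.valuation w ^ N := by
    have hpos : 0 < V.valuation w ^ N := pow_pos hV.w_pos N
    calc V.valuation (h • c) = V.valuation (h • c) * (V.valuation w ^ N)⁻¹ * V.valuation w ^ N := by
          rw [mul_assoc, inv_mul_cancel₀ hpos.ne', mul_one]
      _ ≤ 1 * V.valuation w ^ N := by gcongr
      _ = V.valuation w ^ N := one_mul _
  have h6 : V.valuation (h • c) = V.valuation (h • x) * V.valuation s := by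
    rw [hcdef, smul_mul', hA_fix s hs h, map_mul]
  have h7 : V.valuation c = V.valuation x * V.valuation s := by rw [hcdef, map_mul]
  have hspos : 0 < V.valuation s := zero_lt_iff.mpr ((Valuation.ne_zero_iff _).mpr hs0)
  rw [zpow_natCast] at hn
  rw [← hn, h6, h7] at h5
  exact le_of_mul_le_mul_right h5 hspos


/-! ### The `G`-stable core of `V` -/

variable (G V) in
/-- the `G`-stable subring `⋂ g, g⁻¹ • V` of `L` -/
def coreRing : Subring L where
  carrier := {y | ∀ g : G, g • y ∈ V}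
  zero_mem' := fun g => by rw [smul_zero]; exact V.zero_mem
  one_mem' := fun g => by rw [smul_one]; exact V.one_mem
  add_mem' := fun ha hb g => by rw [smul_add]; exact V.add_mem _ _ (ha g) (hb g)
  mul_mem' := fun ha hb g => by rw [smul_mul']; exact V.mul_mem _ _ (ha g) (hb g)
  neg_mem' := fun ha g => by rw [smul_neg]; exact V.neg_mem _ (ha g)

omit [Finite G] in
theorem mem_coreRing {y : L} : y ∈ coreRing G V ↔ ∀ g : G, g • y ∈ V := Iff.rfl

instance instIsInvariantSubringCoreRing : IsInvariantSubring G (coreRing G V) where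
  smul_mem g x hx := fun g' => by rw [smul_smul]; exact hx _

omit [Finite G] in
theorem coreRing_le : coreRing G V ≤ V.toSubring := fun y hy => by
  have := hy 1
  rwa [one_smul] at this

omit [Finite G] in
theorem smul_zpow_of_fixed {g : G} {w : L} (hw : g • w = w) (k : ℤ) : g • w ^ k = w ^ k := by
  cases k with
  | ofNat k => rw [Int.ofNat_eq_natCast, zpow_natCast, smul_pow', hw]
  | negSucc k => rw [zpow_negSucc, smul_inv'', smul_pow', hw]

theorem valuation_lt_one_iff_inv_notMem {y : L} (hy : y ≠ 0) :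
    V.valuation y < 1 ↔ y⁻¹ ∉ V := by
  rw [← V.valuation_le_one_iff, map_inv₀, not_le]
  have hpos : 0 < V.valuation y := zero_lt_iff.mpr ((Valuation.ne_zero_iff _).mpr hy)
  constructor
  · intro h
    exact (one_lt_inv₀ hpos).mpr h
  · intro h
    exact (one_lt_inv₀ hpos).mp h

/-- **Unique extension of the Gauss valuation.**  `V` is stable under `G` (all conjugate
valuations coincide) as soon as: `t` preserves `V`, the normal closure of `t` is `G`, the
subgroup `B` normalises `⟨t⟩`, and the `q`-expansion principle holds for `B`-invariant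
elements. -/
theorem valuation_smul_of_unipotent (V : ValuationSubring L) (w : L) (A₀ : Subring L)
    (B : Subgroup G) (t : G) (hV : IsDiscrete V w)
    (hA_fix : ∀ a ∈ A₀, ∀ g : G, g • a = a)
    (hA_frac : ∀ y : L, (∀ g : G, g • y = y) → ∃ a ∈ A₀, ∃ s ∈ A₀, s ≠ 0 ∧ y * s = a)
    (hA_le : A₀ ≤ V.toSubring) (hw_mem : w ∈ A₀)
    (htn : ∀ b ∈ B, b * t * b⁻¹ ∈ Subgroup.zpowers t)
    (hgen : Subgroup.normalClosure ({t} : Set G) = ⊤)
    (htV : ∀ y : L, t • y ∈ V ↔ y ∈ V)
    (hq0 : ∀ b : L, (∀ β ∈ B, β • b = b) → IsIntegral A₀ b → b * w⁻¹ ∈ V →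
      IsIntegral A₀ (b * w⁻¹))
    (g : G) (y : L) : V.valuation (g • y) = V.valuation y := by
  classical
  cases nonempty_fintype G
  have key := valuation_smul_le_of_invariant V w A₀ B hV hA_fix hA_frac hA_le hw_mem hq0
  have hwfix : ∀ g : G, g • w = w := fun g => hA_fix w hw_mem g
  -- the prime ideal `P` of the core
  set P : Ideal (coreRing G V) :=
    (IsLocalRing.maximalIdeal V).comap (Subring.inclusion (coreRing_le (G := G) (V := V))) with hP
  have hmemP : ∀ x : coreRing G V, x ∈ P ↔ V.valuation (x : L) < 1 := fun x => by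
    rw [hP, Ideal.mem_comap]
    exact V.valuation_lt_one_iff _
  have hmemgP : ∀ (g : G) (x : coreRing G V), x ∈ g • P ↔ V.valuation (g⁻¹ • (x : L)) < 1 :=
    fun g x => by
      rw [Ideal.mem_pointwise_smul_iff_inv_smul_mem, hmemP]
      rfl
  have : P.IsPrime := Ideal.comap_isPrime _ _
  have hB : ∀ g : G, ∀ x : coreRing G V, (∀ b ∈ B, b • x = x) → (x ∈ g • P ↔ x ∈ P) := by
    intro g x hx
    have hx' : ∀ β ∈ B, β • (x : L) = x := fun β hβ => congrArg Subtype.val (hx β hβ)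
    rw [hmemgP, hmemP]
    constructor
    · intro h1
      by_contra h2
      have hxV : V.valuation (x : L) ≤ 1 := (V.valuation_le_one_iff _).mpr (coreRing_le x.2)
      have hx1 : V.valuation (x : L) = 1 := le_antisymm hxV (not_lt.mp h2)
      have hx0 : (x : L) ≠ 0 := by
        intro h0
        rw [h0, map_zero] at hx1
        exact zero_ne_one hx1
      have hinv : ∀ β ∈ B, β • (x : L)⁻¹ = (x : L)⁻¹ := fun β hβ => by
        rw [smul_inv'', hx' β hβ]
      have h3 := key (x : L)⁻¹ hinv g⁻¹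
      rw [smul_inv'', map_inv₀, map_inv₀, hx1, inv_one] at h3
      have hgx0 : g⁻¹ • (x : L) ≠ 0 := by
        rwa [Ne, smul_eq_zero_iff_eq]
      have hpos : 0 < V.valuation (g⁻¹ • (x : L)) :=
        zero_lt_iff.mpr ((Valuation.ne_zero_iff _).mpr hgx0)
      have h4 : 1 ≤ V.valuation (g⁻¹ • (x : L)) := (inv_le_one₀ hpos).mp h3
      exact absurd h1 (not_lt.mpr h4)
    · intro h1
      exact lt_of_le_of_lt (key (x : L) hx' g⁻¹) h1
  have htP : t • P = P := by
    ext x
    rw [hmemgP, hmemP]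
    by_cases hx0 : (x : L) = 0
    · rw [hx0, smul_zero]
    have hy0 : t⁻¹ • (x : L) ≠ 0 := by rwa [Ne, smul_eq_zero_iff_eq]
    rw [valuation_lt_one_iff_inv_notMem hy0, valuation_lt_one_iff_inv_notMem hx0,
      ← htV (t⁻¹ • (x : L))⁻¹, smul_inv'', smul_inv_smul]
  have hall := smul_ideal_eq_of_unipotent P B t htn htP hB hgen
  -- the discrete trick
  by_cases hy0 : y = 0
  · rw [hy0, smul_zero]
  have hgy0 : ∀ h : G, h • y ≠ 0 := fun h => by rwa [Ne, smul_eq_zero_iff_eq]
  choose n hn using fun h : G => hV.disc (h • y) (hgy0 h)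
  obtain ⟨h₀, -, hmin⟩ := Finset.exists_min_image Finset.univ n ⟨1, Finset.mem_univ 1⟩
  set m := n h₀ with hm
  set z : L := y * w ^ (-m) with hz
  have hvz : ∀ h : G, V.valuation (h • z) = V.valuation w ^ (n h - m) := by
    intro h
    rw [hz, smul_mul', smul_zpow_of_fixed (hwfix h), map_mul, hn h, map_zpow₀,
      ← zpow_add₀ hV.w_pos.ne', sub_eq_add_neg]
  have hzcore : z ∈ coreRing G V := by
    intro h
    rw [← V.valuation_le_one_iff, hvz]
    apply (zpow_le_one_iff_right_of_lt_one₀ hV.w_pos hV.w_lt).mpr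
    have := hmin h (Finset.mem_univ h)
    omega
  have hnh : ∀ h : G, n h = m := by
    intro h
    set z' : coreRing G V := h₀ • ⟨z, hzcore⟩ with hz'
    have hz'coe : (z' : L) = h₀ • z := rfl
    have hz'P : z' ∉ P := by
      rw [hmemP, hz'coe, hvz, sub_self, zpow_zero]
      exact lt_irrefl _
    have h1 : z' ∉ (h * h₀⁻¹)⁻¹ • P := by rwa [hall]
    rw [hmemgP, inv_inv, hz'coe, smul_smul, inv_mul_cancel_right, hvz] at h1
    have h2 : V.valuation w ^ (n h - m) ≤ 1 := by
      rw [← hvz]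
      exact (V.valuation_le_one_iff _).mpr (hzcore h)
    have h3 : V.valuation w ^ (n h - m) = V.valuation w ^ (0 : ℤ) := by
      rw [zpow_zero]
      exact le_antisymm h2 (not_lt.mp h1)
    have h4 : n h - m = 0 := zpow_right_injective₀ hV.w_pos hV.w_lt.ne h3
    omega
  have h1 := hn g
  have h2 := hn 1
  rw [one_smul] at h2
  rw [h1, h2, hnh g, hnh 1]

/-- `V` is `G`-stable (same hypotheses as `valuation_smul_of_unipotent`). -/
theorem stable_of_unipotent (V : ValuationSubring L) (w : L) (A₀ : Subring L)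
    (B : Subgroup G) (t : G) (hV : IsDiscrete V w)
    (hA_fix : ∀ a ∈ A₀, ∀ g : G, g • a = a)
    (hA_frac : ∀ y : L, (∀ g : G, g • y = y) → ∃ a ∈ A₀, ∃ s ∈ A₀, s ≠ 0 ∧ y * s = a)
    (hA_le : A₀ ≤ V.toSubring) (hw_mem : w ∈ A₀)
    (htn : ∀ b ∈ B, b * t * b⁻¹ ∈ Subgroup.zpowers t)
    (hgen : Subgroup.normalClosure ({t} : Set G) = ⊤)
    (htV : ∀ y : L, t • y ∈ V ↔ y ∈ V)
    (hq0 : ∀ b : L, (∀ β ∈ B, β • b = b) → IsIntegral A₀ b → b * w⁻¹ ∈ V →
      IsIntegral A₀ (b * w⁻¹))
    (g : G) (y : L) : g • y ∈ V ↔ y ∈ V := by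
  rw [← V.valuation_le_one_iff, ← V.valuation_le_one_iff,
    valuation_smul_of_unipotent V w A₀ B t hV hA_fix hA_frac hA_le hw_mem htn hgen htV hq0]

end Valuation


/-! ## 4. The `q`-expansion principle -/

section QEP

open Polynomial

variable {L : Type*} [Field L] {G : Type*} [Group G] [Finite G] [MulSemiringAction G L]

theorem mem_of_mul_inv_pow_mem (V : ValuationSubring L) (w : L) (A₀ : Subring L)
    (hw_mem : w ∈ A₀) (hw_ne : w ≠ 0) (hA_le : A₀ ≤ V.toSubring)
    (hA_w : ∀ a ∈ A₀, a * w⁻¹ ∈ V → a * w⁻¹ ∈ A₀) :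
    ∀ k : ℕ, ∀ a ∈ A₀, a * w⁻¹ ^ k ∈ V → a * w⁻¹ ^ k ∈ A₀ := by
  intro k
  induction k with
  | zero => intro a ha _; simpa using ha
  | succ k ih =>
    intro a ha h
    have h1 : a * w⁻¹ ^ k = (a * w⁻¹ ^ (k + 1)) * w := by
      rw [pow_succ, mul_assoc, mul_assoc, inv_mul_cancel₀ hw_ne, mul_one]
    have h2 : a * w⁻¹ ^ k ∈ V := by
      rw [h1]
      exact V.mul_mem _ _ h (hA_le hw_mem)
    have h3 := ih a ha h2
    have h4 : a * w⁻¹ ^ (k + 1) = (a * w⁻¹ ^ k) * w⁻¹ := by rw [pow_succ]; ring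
    rw [h4] at h ⊢
    exact hA_w _ h3 h

/-- coefficients of a product of monic linear factors with roots in a subring -/
theorem coeff_prod_X_sub_C_mem {ι : Type*} (s : Finset ι) (r : ι → L) (T : Subring L)
    (hr : ∀ i ∈ s, r i ∈ T) (n : ℕ) : (∏ i ∈ s, (X - C (r i))).coeff n ∈ T := by
  have h : ∏ i ∈ s, (X - C (r i)) ∈ Polynomial.lifts T.subtype := by
    apply Subsemiring.prod_mem
    intro i hi
    have : (X - C (r i) : L[X]) = X + C (-(r i)) := by rw [C_neg, sub_eq_add_neg]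
    rw [this]
    exact Subsemiring.add_mem _ (X_mem_lifts _) (C'_mem_lifts ⟨⟨-(r i), T.neg_mem (hr i hi)⟩, rfl⟩)
  rw [Polynomial.lifts_iff_coeff_lifts] at h
  obtain ⟨a, ha⟩ := h n
  rw [← ha]
  exact a.2

/-- **`q`-expansion principle from stability.**  If `V` is `G`-stable, `A₀` is integrally closed
in `Lᴳ` and `A₀[1/w] ∩ V = A₀`, then `b` integral over `A₀`, `b/w ∈ V` ⟹ `b/w` integral. -/
theorem qep_of_stable (V : ValuationSubring L) (w : L) (A₀ : Subring L)
    (hA_fix : ∀ a ∈ A₀, ∀ g : G, g • a = a)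
    (hA_ic : ∀ y : L, (∀ g : G, g • y = y) → IsIntegral A₀ y → y ∈ A₀)
    (hA_le : A₀ ≤ V.toSubring) (hw_mem : w ∈ A₀) (hw_ne : w ≠ 0)
    (hA_w : ∀ a ∈ A₀, a * w⁻¹ ∈ V → a * w⁻¹ ∈ A₀)
    (hstab : ∀ g : G, ∀ y ∈ V, g • y ∈ V)
    (b : L) (hb : IsIntegral A₀ b) (hbw : b * w⁻¹ ∈ V) : IsIntegral A₀ (b * w⁻¹) := by
  classical
  cases nonempty_fintype G
  set y := b * w⁻¹ with hy
  have hwfix : ∀ g : G, g • w = w := fun g => hA_fix w hw_mem g
  have hgb : ∀ g : G, g • b = w * g • y := fun g => by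
    rw [hy, smul_mul', smul_inv'', hwfix, mul_comm (g • b), ← mul_assoc, mul_inv_cancel₀ hw_ne,
      one_mul]
  set n := Fintype.card G with hn
  -- the scaling relation between the two characteristic polynomials
  have hrel : (MulSemiringAction.charpoly G b).comp (C w * X)
      = C (w ^ n) * MulSemiringAction.charpoly G y := by
    rw [MulSemiringAction.charpoly_eq, MulSemiringAction.charpoly_eq, Polynomial.prod_comp]
    have h1 : ∀ g : G, (X - C (g • b)).comp (C w * X) = C w * (X - C (g • y)) := fun g => by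
      rw [sub_comp, X_comp, C_comp, hgb g, C_mul]
      ring
    rw [Finset.prod_congr rfl (fun g _ => h1 g), Finset.prod_mul_distrib, Finset.prod_const,
      Finset.card_univ, ← C_pow]
  have hcoef : ∀ i : ℕ, (MulSemiringAction.charpoly G b).coeff i * w ^ i
      = w ^ n * (MulSemiringAction.charpoly G y).coeff i := fun i => by
    have := congrArg (fun p => p.coeff i) hrel
    simp only [Polynomial.comp_C_mul_X_coeff, Polynomial.coeff_C_mul] at this
    exact this
  -- coefficients of `fb` lie in `A₀`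
  have hfbA : ∀ i : ℕ, (MulSemiringAction.charpoly G b).coeff i ∈ A₀ := by
    intro i
    apply hA_ic _ (fun g => MulSemiringAction.smul_coeff_charpoly b i g)
    have h1 := coeff_prod_X_sub_C_mem (Finset.univ : Finset G) (fun g => g • b)
      (integralClosure A₀ L).toSubring (fun g _ => isIntegral_smul hA_fix hb g) i
    exact h1
  -- coefficients of `fy` lie in `V`
  have hfyV : ∀ i : ℕ, (MulSemiringAction.charpoly G y).coeff i ∈ V := by
    intro i
    exact coeff_prod_X_sub_C_mem (Finset.univ : Finset G) (fun g => g • y)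
      V.toSubring (fun g _ => hstab g y hbw) i
  have hpow := mem_of_mul_inv_pow_mem V w A₀ hw_mem hw_ne hA_le hA_w
  have hfyA : ∀ i : ℕ, (MulSemiringAction.charpoly G y).coeff i ∈ A₀ := by
    intro i
    by_cases hi : i ≤ n
    · have h1 : (MulSemiringAction.charpoly G y).coeff i
          = (MulSemiringAction.charpoly G b).coeff i * w⁻¹ ^ (n - i) := by
        have h2 := hcoef i
        have hwn : w ^ n = w ^ (n - i) * w ^ i := by rw [← pow_add, Nat.sub_add_cancel hi]
        have hwi : w ^ i ≠ 0 := pow_ne_zero _ hw_ne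
        have hwni : w ^ (n - i) ≠ 0 := pow_ne_zero _ hw_ne
        rw [hwn, mul_assoc, mul_comm (w ^ i), ← mul_assoc] at h2
        have h3 := mul_right_cancel₀ hwi h2
        rw [inv_pow, h3, mul_comm (w ^ (n - i)), mul_assoc, mul_inv_cancel₀ hwni, mul_one]
      rw [h1]
      apply hpow _ _ (hfbA i)
      rw [← h1]
      exact hfyV i
    · have hdeg : (MulSemiringAction.charpoly G y).natDegree = n := by
        rw [MulSemiringAction.charpoly_eq, natDegree_prod_of_monic _ _ (fun g _ => monic_X_sub_C _)]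
        simp [hn]
      rw [Polynomial.coeff_eq_zero_of_natDegree_lt (by omega)]
      exact A₀.zero_mem
  have hlift : MulSemiringAction.charpoly G y ∈ Polynomial.lifts (algebraMap A₀ L) := by
    rw [Polynomial.lifts_iff_coeff_lifts]
    intro i
    exact ⟨⟨_, hfyA i⟩, rfl⟩
  obtain ⟨p, hp1, -, hp2⟩ := Polynomial.lifts_and_natDegree_eq_and_monic hlift
    (MulSemiringAction.monic_charpoly G y)
  exact ⟨p, hp2, by rw [← eval_map, hp1, MulSemiringAction.eval_charpoly]⟩

/-- **IGUSA1, abstract form.**  From the `q`-expansion principle for the invariants of `B`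
(= Igusa's theorem for `X₀(M)`, landed S28) to the `q`-expansion principle for the whole
field `L` (full level), hence for every intermediate field (`Γ₁(M)`, ...). -/
theorem igusa_qep (V : ValuationSubring L) (w : L) (A₀ : Subring L)
    (B : Subgroup G) (t : G) (hV : IsDiscrete V w)
    (hA_fix : ∀ a ∈ A₀, ∀ g : G, g • a = a)
    (hA_frac : ∀ y : L, (∀ g : G, g • y = y) → ∃ a ∈ A₀, ∃ s ∈ A₀, s ≠ 0 ∧ y * s = a)
    (hA_ic : ∀ y : L, (∀ g : G, g • y = y) → IsIntegral A₀ y → y ∈ A₀)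
    (hA_le : A₀ ≤ V.toSubring) (hw_mem : w ∈ A₀)
    (hA_w : ∀ a ∈ A₀, a * w⁻¹ ∈ V → a * w⁻¹ ∈ A₀)
    (htn : ∀ b ∈ B, b * t * b⁻¹ ∈ Subgroup.zpowers t)
    (hgen : Subgroup.normalClosure ({t} : Set G) = ⊤)
    (htV : ∀ y : L, t • y ∈ V ↔ y ∈ V)
    (hq0 : ∀ b : L, (∀ β ∈ B, β • b = b) → IsIntegral A₀ b → b * w⁻¹ ∈ V →
      IsIntegral A₀ (b * w⁻¹)) :
    ∀ b : L, IsIntegral A₀ b → b * w⁻¹ ∈ V → IsIntegral A₀ (b * w⁻¹) :=
  qep_of_stable V w A₀ hA_fix hA_ic hA_le hw_mem hV.w_ne hA_w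
    (fun g y hy => (stable_of_unipotent V w A₀ B t hV hA_fix hA_frac hA_le hw_mem htn hgen htV
      hq0 g y).mpr hy)

end QEP

end Fermat.Agent.S48.H856

end
-- ===== PACK-END S48/H856/IgusaAbs.lean

-- ===== PACK-BEGIN S29/H812/Tower.lean
section


/-!
# S29 / H812 — degree of `F'` over `K(x)` for `x ∈ F ⊆ F'`
-/

set_option autoImplicit false

noncomputable section

open IntermediateField

namespace Fermat.Agent.S29.H812

variable {K F F' : Type*} [Field K] [Field F] [Field F']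
  [Algebra K F] [Algebra K F'] [Algebra F F'] [IsScalarTower K F F']

/-- `[F' : K(x')] = [F : K(x)] · [F' : F]` for `x' = algebraMap F F' x`. -/
theorem finrank_adjoin_algebraMap (x : F) :
    Module.finrank K⟮algebraMap F F' x⟯ F' = Module.finrank K⟮x⟯ F * Module.finrank F F' := by
  haveI : IsScalarTower K⟮x⟯ F F' := inferInstance
  rw [Module.finrank_mul_finrank K⟮x⟯ F F']
  set f : F →ₐ[K] F' := IsScalarTower.toAlgHom K F F' with hf
  have hmap : (K⟮x⟯).map f = K⟮algebraMap F F' x⟯ := by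
    rw [IntermediateField.adjoin_map, Set.image_singleton]
    rfl
  have h1 : Module.finrank K⟮algebraMap F F' x⟯ F' = Module.finrank ((K⟮x⟯).map f) F' :=
    congrArg (fun E : IntermediateField K F' => Module.finrank E F') hmap.symm
  rw [h1]
  symm
  refine Algebra.finrank_eq_of_equiv_equiv
    ((IntermediateField.equivMap K⟮x⟯ f).toRingEquiv) (RingEquiv.refl F') ?_
  ext c
  rfl

theorem finiteDimensional_adjoin_algebraMap (x : F) [FiniteDimensional K⟮x⟯ F]
    [FiniteDimensional F F'] : FiniteDimensional K⟮algebraMap F F' x⟯ F' := by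
  apply Module.finite_of_finrank_pos
  rw [finrank_adjoin_algebraMap]
  exact Nat.mul_pos Module.finrank_pos Module.finrank_pos

theorem transcendental_algebraMap_of {x : F} (hx : Transcendental K x) :
    Transcendental K (algebraMap F F' x) :=
  (transcendental_algebraMap_iff (algebraMap F F').injective).mpr hx

/-- If `F'` is finite over `K(φ x)` with `φ x` in the image of `F`, then `F'` is finite over `F`. -/
theorem finite_of_finite_adjoin_algebraMap (x : F)
    [h : FiniteDimensional K⟮algebraMap F F' x⟯ F'] : Module.Finite F F' := by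
  obtain ⟨s, hs⟩ := (Module.finite_def.mp h)
  refine Module.finite_def.mpr ⟨s, ?_⟩
  rw [eq_top_iff]
  rintro y -
  have hy : y ∈ Submodule.span K⟮algebraMap F F' x⟯ (s : Set F') := by rw [hs]; trivial
  have hle : K⟮algebraMap F F' x⟯ ≤ (IsScalarTower.toAlgHom K F F').fieldRange := by
    rw [IntermediateField.adjoin_le_iff]
    rintro _ rfl
    exact ⟨x, rfl⟩
  induction hy using Submodule.span_induction with
  | mem z hz => exact Submodule.subset_span hz
  | zero => exact zero_mem _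
  | add a b _ _ ha hb => exact add_mem ha hb
  | smul c z _ hz =>
    obtain ⟨c₀, hc₀⟩ := hle c.2
    have : c • z = c₀ • z := by
      rw [Algebra.smul_def, Algebra.smul_def]
      congr 1
      exact hc₀.symm
    rw [this]
    exact Submodule.smul_mem _ _ hz

end Fermat.Agent.S29.H812

end
end
-- ===== PACK-END S29/H812/Tower.lean

-- ===== PACK-BEGIN S24/H864/FF3a.lean
section



/-!
# S24 / ALG / FF1+FF3 (part a): the Dedekind domain `B = integralClosure K[t] F`
-/

set_option autoImplicit false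

noncomputable section

open AlgebraicCurve IntermediateField IsDedekindDomain

namespace Fermat.Agent.S24.H864

variable {K F : Type*} [Field K] [Field F] [Algebra K F]

section Setup

variable (K) (t : F)

/-- `K[t] ⊆ F`. -/
abbrev polyRing : Subalgebra K F := Algebra.adjoin K {t}

/-- the element `t` of `K[t]` -/
def tR : polyRing K t := ⟨t, Algebra.self_mem_adjoin_singleton K t⟩

/-- `K[X] ≃ K[t]` for transcendental `t`. -/
def polyEquiv (ht : Transcendental K t) : Polynomial K ≃ₐ[K] polyRing K t :=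
  (AlgEquiv.ofInjective (Polynomial.aeval t) (transcendental_iff_injective.mp ht)).trans
    (Subalgebra.equivOfEq _ _ (Algebra.adjoin_singleton_eq_range_aeval K t).symm)

theorem polyEquiv_apply_coe (ht : Transcendental K t) (P : Polynomial K) :
    ((polyEquiv K t ht P : polyRing K t) : F) = Polynomial.aeval t P := rfl

theorem polyEquiv_X (ht : Transcendental K t) : polyEquiv K t ht Polynomial.X = tR K t := by
  apply Subtype.ext
  rw [polyEquiv_apply_coe, Polynomial.aeval_X]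
  rfl

end Setup

end Fermat.Agent.S24.H864

end
end
-- ===== PACK-END S24/H864/FF3a.lean

-- ===== PACK-BEGIN S28/H565/TExp.lean
section



/-!
# S28 analytic bridge, part 1: convergent `t`-expansions (helper565)

`HasTExp h f φ` says that the function `f : ℍ → ℂ` is given, at every point of the upper
half plane, by the (absolutely) convergent Laurent expansion `φ` in the local parameter
`t = exp (2 π i τ / h)`.  We prove that this relation is compatible with the ring operations,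
that `φ` is determined by `f`, and that it is compatible with `qExpand`.
-/

set_option autoImplicit false

noncomputable section

open UpperHalfPlane Complex Function
open scoped Real

namespace Fermat.Agent.S28.H565

local notation "𝕢" => Periodic.qParam

/-- `f` is given on all of `ℍ` by the convergent power series `P` in `t = exp (2πiτ/h)`. -/
def HasPExp (h : ℝ) (f : ℍ → ℂ) (P : PowerSeries ℂ) : Prop :=
  ∀ τ : ℍ, HasSum (fun n : ℕ => PowerSeries.coeff n P * 𝕢 h τ ^ n) (f τ)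

/-- `f` is given on all of `ℍ` by the convergent Laurent series `φ` in `t = exp (2πiτ/h)`. -/
def HasTExp (h : ℝ) (f : ℍ → ℂ) (φ : LaurentSeries ℂ) : Prop :=
  ∀ τ : ℍ, HasSum (fun n : ℤ => φ.coeff n * 𝕢 h τ ^ n) (f τ)

section PExp

variable {h : ℝ} {f g : ℍ → ℂ} {P Q : PowerSeries ℂ}

theorem HasPExp.congr (hf : HasPExp h f P) (hfg : ∀ τ, f τ = g τ) : HasPExp h g P :=
  fun τ => hfg τ ▸ hf τ

theorem HasPExp.add (hf : HasPExp h f P) (hg : HasPExp h g Q) : HasPExp h (f + g) (P + Q) := by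
  intro τ
  have := (hf τ).add (hg τ)
  simpa [add_mul] using this

theorem HasPExp.zero : HasPExp h 0 0 := by
  intro τ
  simp [hasSum_zero]

theorem HasPExp.const (c : ℂ) : HasPExp h (fun _ => c) (PowerSeries.C c) := by
  intro τ
  have := hasSum_ite_eq (0 : ℕ) c
  refine this.congr_fun ?_ |>.mono_left le_rfl
  intro n
  by_cases hn : n = 0
  · subst hn; simp
  · simp [PowerSeries.coeff_C, hn]

theorem HasPExp.smul (c : ℂ) (hf : HasPExp h f P) : HasPExp h (c • f) (c • P) := by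
  intro τ
  have := (hf τ).mul_left c
  simpa [mul_assoc] using this

theorem HasPExp.neg (hf : HasPExp h f P) : HasPExp h (-f) (-P) := by
  intro τ
  have := (hf τ).neg
  simpa using this

theorem HasPExp.sub (hf : HasPExp h f P) (hg : HasPExp h g Q) : HasPExp h (f - g) (P - Q) := by
  intro τ
  have := (hf τ).sub (hg τ)
  simpa [sub_mul] using this

theorem HasPExp.mul (hf : HasPExp h f P) (hg : HasPExp h g Q) : HasPExp h (f * g) (P * Q) := by
  intro τ
  have h1 := hf τ
  have h2 := hg τ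
  have n1 : Summable fun n : ℕ => ‖PowerSeries.coeff n P * 𝕢 h τ ^ n‖ := h1.summable.norm
  have n2 : Summable fun n : ℕ => ‖PowerSeries.coeff n Q * 𝕢 h τ ^ n‖ := h2.summable.norm
  have key := tsum_mul_tsum_eq_tsum_sum_antidiagonal_of_summable_norm n1 n2
  have hs := (summable_norm_sum_mul_antidiagonal_of_summable_norm n1 n2).of_norm
  rw [h1.tsum_eq, h2.tsum_eq] at key
  have hfun : (fun n : ℕ => PowerSeries.coeff n (P * Q) * 𝕢 h τ ^ n) =
      fun n => ∑ kl ∈ Finset.HasAntidiagonal.antidiagonal n,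
        (PowerSeries.coeff kl.1 P * 𝕢 h τ ^ kl.1) * (PowerSeries.coeff kl.2 Q * 𝕢 h τ ^ kl.2) := by
    funext n
    rw [PowerSeries.coeff_mul, Finset.sum_mul]
    refine Finset.sum_congr rfl fun kl hkl => ?_
    rw [Finset.HasAntidiagonal.mem_antidiagonal] at hkl
    rw [← hkl, pow_add]
    ring
  rw [hfun]
  simpa [Pi.mul_apply, key] using hs.hasSum

theorem HasPExp.X : HasPExp h (fun τ => 𝕢 h τ) PowerSeries.X := by
  intro τ
  have := hasSum_ite_eq (1 : ℕ) (𝕢 h τ)
  refine this.congr_fun ?_ |>.mono_left le_rfl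
  intro n
  by_cases hn : n = 1
  · subst hn; simp
  · simp [PowerSeries.coeff_X, hn]

theorem HasPExp.pow (hf : HasPExp h f P) (n : ℕ) : HasPExp h (f ^ n) (P ^ n) := by
  induction n with
  | zero =>
    have := HasPExp.const (h := h) 1
    rw [map_one] at this
    rw [pow_zero, pow_zero]
    exact this
  | succ n ih =>
    rw [pow_succ, pow_succ]
    exact ih.mul hf

theorem cuspFunction_zero_fun (h : ℝ) : cuspFunction h (0 : ℍ → ℂ) = 0 := by
  simpa [cuspFunction, Periodic.cuspFunction]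
      using! (tendsto_const_nhds.mono_left nhdsWithin_le_nhds).limUnder_eq

theorem coeff_eq_zero_of_hasSum_zero {h : ℝ} (hh : 0 < h) (c : ℕ → ℂ)
    (H : ∀ τ : ℍ, HasSum (fun n : ℕ => c n * 𝕢 h τ ^ n) 0) (m : ℕ) : c m = 0 := by
  have han : AnalyticAt ℂ (cuspFunction h (0 : ℍ → ℂ)) 0 := by
    rw [cuspFunction_zero_fun]; exact analyticAt_const
  have H' : ∀ τ : ℍ, HasSum (fun n : ℕ => c n • 𝕢 h τ ^ n) ((0 : ℍ → ℂ) τ) := fun τ => H τ
  have h1 := (hasFPowerSeriesOnBall_cuspFunction hh han H').hasFPowerSeriesAt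
  rw [cuspFunction_zero_fun] at h1
  have h2 := h1.eq_zero
  have h3 := congrArg (fun p => FormalMultilinearSeries.coeff p m) h2
  simp only [FormalMultilinearSeries.coeff_ofScalars] at h3
  rw [h3]
  rfl

theorem HasPExp.eq_zero (hh : 0 < h) (H : HasPExp h 0 P) : P = 0 := by
  ext m
  simpa using coeff_eq_zero_of_hasSum_zero hh (fun n => PowerSeries.coeff n P) (fun τ => H τ) m

theorem HasPExp.unique (hh : 0 < h) (hP : HasPExp h f P) (hQ : HasPExp h f Q) : P = Q := by
  have := (hP.sub hQ)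
  rw [sub_self] at this
  exact sub_eq_zero.mp (this.eq_zero hh)

/-- A function with a convergent power series expansion is bounded at `i∞`. -/
theorem HasPExp.isBoundedAtImInfty (hh : 0 < h) (hf : HasPExp h f P) :
    IsBoundedAtImInfty f :=
  UpperHalfPlane.isBoundedAtImInfty_of_hasSum_qExpansion (c := fun n => PowerSeries.coeff n P) hh
    (fun τ => by simpa using hf τ)

end PExp

section TExp

variable {h : ℝ} {f g : ℍ → ℂ} {φ ψ : LaurentSeries ℂ}

theorem HasTExp.congr (hf : HasTExp h f φ) (hfg : ∀ τ, f τ = g τ) : HasTExp h g φ :=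
  fun τ => hfg τ ▸ hf τ

theorem HasTExp.add (hf : HasTExp h f φ) (hg : HasTExp h g ψ) : HasTExp h (f + g) (φ + ψ) := by
  intro τ
  have := (hf τ).add (hg τ)
  simpa [add_mul] using this

theorem HasTExp.zero : HasTExp h 0 0 := by
  intro τ
  simp [hasSum_zero]

theorem HasTExp.neg (hf : HasTExp h f φ) : HasTExp h (-f) (-φ) := by
  intro τ
  have := (hf τ).neg
  simpa using this

theorem HasTExp.sub (hf : HasTExp h f φ) (hg : HasTExp h g ψ) : HasTExp h (f - g) (φ - ψ) := by
  intro τ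
  have := (hf τ).sub (hg τ)
  simpa [sub_mul] using this

theorem HasTExp.smul (c : ℂ) (hf : HasTExp h f φ) : HasTExp h (c • f) (c • φ) := by
  intro τ
  have := (hf τ).mul_left c
  simpa [mul_assoc] using this

/-- Key bridge between Laurent and power series expansions. -/
theorem hasTExp_single_mul_iff (m : ℤ) (P : PowerSeries ℂ) :
    HasTExp h f (HahnSeries.single m (1 : ℂ) * HahnSeries.ofPowerSeries ℤ ℂ P) ↔
      HasPExp h (fun τ => f τ * 𝕢 h τ ^ (-m)) P := by
  have key : ∀ τ : ℍ,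
      HasSum (fun n : ℤ =>
        (HahnSeries.single m (1 : ℂ) * HahnSeries.ofPowerSeries ℤ ℂ P).coeff n * 𝕢 h τ ^ n) (f τ) ↔
      HasSum (fun n : ℕ => PowerSeries.coeff n P * 𝕢 h τ ^ n) (f τ * 𝕢 h τ ^ (-m)) := by
    intro τ
    have hq : 𝕢 h τ ≠ 0 := Periodic.qParam_ne_zero _
    have hι : Function.Injective (fun k : ℕ => (k : ℤ) + m) := by
      intro a b hab
      simpa using hab
    have hzero : ∀ n ∉ Set.range (fun k : ℕ => (k : ℤ) + m),
        (HahnSeries.single m (1 : ℂ) * HahnSeries.ofPowerSeries ℤ ℂ P).coeff n * 𝕢 h τ ^ n = 0 := by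
      intro n hn
      have hlt : n - m < 0 := by
        by_contra hge
        rw [not_lt] at hge
        exact hn ⟨(n - m).toNat, by simp [Int.toNat_of_nonneg hge]⟩
      rw [HahnSeries.coeff_single_mul, ModularCurve.ofPowerSeries_coeff_of_neg _ hlt]
      simp
    rw [← hι.hasSum_iff hzero]
    have hfun : ((fun n : ℤ =>
        (HahnSeries.single m (1 : ℂ) * HahnSeries.ofPowerSeries ℤ ℂ P).coeff n * 𝕢 h τ ^ n) ∘
          fun k : ℕ => (k : ℤ) + m) =
        fun k : ℕ => (PowerSeries.coeff k P * 𝕢 h τ ^ k) * 𝕢 h τ ^ m := by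
      funext k
      simp only [Function.comp_apply]
      rw [HahnSeries.coeff_single_mul_add, HahnSeries.ofPowerSeries_apply_coeff, one_mul,
        zpow_add₀ hq, zpow_natCast, mul_assoc]
    rw [hfun]
    have hval : f τ = (f τ * 𝕢 h τ ^ (-m)) * 𝕢 h τ ^ m := by
      rw [mul_assoc, ← zpow_add₀ hq, neg_add_cancel, zpow_zero, mul_one]
    conv_lhs => rw [hval]
    exact hasSum_mul_right_iff (zpow_ne_zero m hq)
  exact ⟨fun H τ => (key τ).mp (H τ), fun H τ => (key τ).mpr (H τ)⟩

/-- Any Laurent expansion can be rewritten as a power series expansion. -/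
theorem HasTExp.hasPExp (hf : HasTExp h f φ) :
    HasPExp h (fun τ => f τ * 𝕢 h τ ^ (-φ.order)) φ.powerSeriesPart := by
  rw [← hasTExp_single_mul_iff, LaurentSeries.single_order_mul_powerSeriesPart]
  exact hf

theorem HasPExp.hasTExp {P : PowerSeries ℂ} (hf : HasPExp h f P) :
    HasTExp h f (HahnSeries.ofPowerSeries ℤ ℂ P) := by
  have := (hasTExp_single_mul_iff (h := h) (f := f) 0 P).mpr (by simpa using hf)
  simpa using this

theorem HasTExp.mul (hf : HasTExp h f φ) (hg : HasTExp h g ψ) : HasTExp h (f * g) (φ * ψ) := by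
  have h1 := hf.hasPExp
  have h2 := hg.hasPExp
  have h3 := h1.mul h2
  have hφψ : φ * ψ = HahnSeries.single (φ.order + ψ.order) (1 : ℂ) *
      HahnSeries.ofPowerSeries ℤ ℂ (φ.powerSeriesPart * ψ.powerSeriesPart) := by
    conv_lhs => rw [← LaurentSeries.single_order_mul_powerSeriesPart φ,
      ← LaurentSeries.single_order_mul_powerSeriesPart ψ]
    rw [map_mul, ← mul_one (1 : ℂ), ← HahnSeries.single_mul_single, mul_one]
    ring
  rw [hφψ, hasTExp_single_mul_iff]
  refine h3.congr fun τ => ?_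
  have hq : 𝕢 h τ ≠ 0 := Periodic.qParam_ne_zero _
  simp only [Pi.mul_apply]
  rw [neg_add, zpow_add₀ hq]
  ring

theorem HasTExp.const (c : ℂ) : HasTExp h (fun _ => c) (HahnSeries.C c) := by
  have := (HasPExp.const (h := h) c).hasTExp
  rwa [HahnSeries.ofPowerSeries_C] at this

theorem HasTExp.one : HasTExp h 1 1 := by
  have := HasTExp.const (h := h) 1
  rw [map_one] at this
  exact this

theorem HasTExp.pow (hf : HasTExp h f φ) (n : ℕ) : HasTExp h (f ^ n) (φ ^ n) := by
  induction n with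
  | zero =>
    rw [pow_zero, pow_zero]
    exact HasTExp.one
  | succ n ih =>
    rw [pow_succ, pow_succ]
    exact ih.mul hf

theorem HasTExp.single (m : ℤ) : HasTExp h (fun τ => 𝕢 h τ ^ m) (HahnSeries.single m (1 : ℂ)) := by
  have h1 : HasPExp h (fun τ => 𝕢 h τ ^ m * 𝕢 h τ ^ (-m)) 1 := by
    have := HasPExp.const (h := h) 1
    rw [map_one] at this
    refine this.congr fun τ => ?_
    have hq : 𝕢 h τ ≠ 0 := Periodic.qParam_ne_zero _
    rw [← zpow_add₀ hq, add_neg_cancel, zpow_zero]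
  have := (hasTExp_single_mul_iff (h := h) (f := fun τ => 𝕢 h τ ^ m) m 1).mpr h1
  simpa using this

theorem HasTExp.eq_zero (hh : 0 < h) (H : HasTExp h 0 φ) : φ = 0 := by
  have h1 := H.hasPExp
  have h2 : HasPExp h 0 φ.powerSeriesPart := h1.congr fun τ => by simp
  have h3 := h2.eq_zero hh
  rw [← LaurentSeries.single_order_mul_powerSeriesPart φ, h3]
  simp

theorem HasTExp.unique (hh : 0 < h) (hφ : HasTExp h f φ) (hψ : HasTExp h f ψ) : φ = ψ := by
  have := hφ.sub hψ
  rw [sub_self] at this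
  exact sub_eq_zero.mp (this.eq_zero hh)

/-- If a function has an expansion, the function is determined by the expansion. -/
theorem HasTExp.fun_unique (hf : HasTExp h f φ) (hg : HasTExp h g φ) : f = g :=
  funext fun τ => (hf τ).unique (hg τ)

/-- Polynomial expressions: if `f` has expansion `φ` then `Q ∘ f` has expansion `Q(φ)`. -/
theorem HasTExp.polynomial_aeval (hf : HasTExp h f φ) (Q : Polynomial ℂ) :
    HasTExp h (fun τ => Q.eval (f τ)) (Polynomial.aeval φ Q) := by
  induction Q using Polynomial.induction_on' with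
  | add p q hp hq =>
    rw [map_add]
    exact (hp.add hq).congr fun τ => by simp
  | monomial n a =>
    rw [Polynomial.aeval_monomial]
    have h1 := (HasTExp.const (h := h) a).mul (hf.pow n)
    have h2 : algebraMap ℂ (LaurentSeries ℂ) a = HahnSeries.C a := by
      rw [ModularCurve.algebraMap_laurentSeries_eq_single]; rfl
    rw [h2]
    exact h1.congr fun τ => by simp [Polynomial.eval_monomial]

theorem qParam_mul_pow (h : ℝ) (m : ℕ) (hm : m ≠ 0) (z : ℂ) (k : ℤ) :
    𝕢 (h * m) z ^ ((m : ℤ) * k) = 𝕢 h z ^ k := by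
  have hm' : (m : ℂ) ≠ 0 := by exact_mod_cast hm
  simp only [Periodic.qParam]
  rw [← Complex.exp_int_mul, ← Complex.exp_int_mul]
  congr 1
  push_cast
  rcases eq_or_ne (h : ℂ) 0 with h0 | h0
  · simp [h0]
  · field_simp

/-- Change of parameter `t ↦ t^m`: an expansion in `exp (2πiτ/h)` gives one in
`exp (2πiτ/(hm))`. -/
theorem HasTExp.qExpand (m : ℕ) [NeZero m] (hf : HasTExp h f φ) :
    HasTExp (h * m) f (ModularCurve.qExpand ℂ m φ) := by
  intro τ
  have hm : (m : ℤ) ≠ 0 := by exact_mod_cast NeZero.ne m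
  have hι : Function.Injective (fun k : ℤ => (m : ℤ) * k) := mul_right_injective₀ hm
  have hzero : ∀ n ∉ Set.range (fun k : ℤ => (m : ℤ) * k),
      (ModularCurve.qExpand ℂ m φ).coeff n * 𝕢 (h * m) τ ^ n = 0 := by
    intro n hn
    rw [ModularCurve.qExpand_coeff_of_not_dvd, zero_mul]
    rintro ⟨c, rfl⟩
    exact hn ⟨c, rfl⟩
  rw [← hι.hasSum_iff hzero]
  have hfun : ((fun n : ℤ => (ModularCurve.qExpand ℂ m φ).coeff n * 𝕢 (h * m) τ ^ n) ∘
      fun k : ℤ => (m : ℤ) * k) = fun k : ℤ => φ.coeff k * 𝕢 h τ ^ k := by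
    funext k
    simp only [Function.comp_apply]
    rw [ModularCurve.qExpand_coeff_mul, qParam_mul_pow h m (NeZero.ne m)]
  rw [hfun]
  exact hf τ

theorem HasTExp.qExpand_one (m : ℕ) [NeZero m] (hf : HasTExp 1 f φ) :
    HasTExp m f (ModularCurve.qExpand ℂ m φ) := by
  have := hf.qExpand m
  rwa [one_mul] at this

end TExp

end Fermat.Agent.S28.H565

end
end
-- ===== PACK-END S28/H565/TExp.lean

-- ===== PACK-BEGIN S29/H282/Special.lean
section


/-!
# S29 / M4b-K2 (helper282) — special elements of `SL₂(ℤ)`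

`IsSpecialElt γ`: `γ` has finite order or trace `2`.  All conjugates of powers of `1`, `S`, `S * T`
and `T` are special.  (These are the stabilisers of the points of `ℍ ∪ ℙ¹(ℚ)`; a character of
`Γ₀(N)` which is trivial on the special elements of `Γ₀(N)` is "unramified everywhere".)
-/

set_option autoImplicit false

open scoped MatrixGroups
open Matrix

namespace Fermat.Agent.S29.H282

/-- `γ` has finite order or trace `2`. -/
def IsSpecialElt (γ : SL(2, ℤ)) : Prop :=
  (∃ n : ℕ, 0 < n ∧ γ ^ n = 1) ∨ (γ : Matrix (Fin 2) (Fin 2) ℤ).trace = 2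

theorem modS_pow_four : (ModularGroup.S : SL(2, ℤ)) ^ 4 = 1 := by
  apply Subtype.ext
  rw [Matrix.SpecialLinearGroup.coe_pow, ModularGroup.coe_S]
  have h2 : (!![0, -1; 1, 0] : Matrix (Fin 2) (Fin 2) ℤ) ^ 2 = -1 := by
    rw [pow_two, Matrix.mul_fin_two]
    ext i j
    fin_cases i <;> fin_cases j <;> simp
  rw [show (4 : ℕ) = 2 * 2 from rfl, pow_mul, h2]
  simp

theorem modST_pow_six : (ModularGroup.S * ModularGroup.T : SL(2, ℤ)) ^ 6 = 1 := by
  apply Subtype.ext
  rw [Matrix.SpecialLinearGroup.coe_pow, Matrix.SpecialLinearGroup.coe_mul, ModularGroup.coe_S,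
    ModularGroup.coe_T]
  have h0 : (!![0, -1; 1, 0] * !![1, 1; 0, 1] : Matrix (Fin 2) (Fin 2) ℤ) = !![0, -1; 1, 1] := by
    rw [Matrix.mul_fin_two]
    ext i j
    fin_cases i <;> fin_cases j <;> simp
  have h2 : (!![0, -1; 1, 1] : Matrix (Fin 2) (Fin 2) ℤ) ^ 2 = !![-1, -1; 1, 0] := by
    rw [pow_two, Matrix.mul_fin_two]
    ext i j
    fin_cases i <;> fin_cases j <;> simp
  have h3 : (!![0, -1; 1, 1] : Matrix (Fin 2) (Fin 2) ℤ) ^ 3 = -1 := by
    rw [pow_succ, h2, Matrix.mul_fin_two]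
    ext i j
    fin_cases i <;> fin_cases j <;> simp
  rw [h0, show (6 : ℕ) = 3 * 2 from rfl, pow_mul, h3]
  simp

theorem trace_modT_pow (e : ℕ) :
    ((ModularGroup.T ^ e : SL(2, ℤ)) : Matrix (Fin 2) (Fin 2) ℤ).trace = 2 := by
  have h := ModularGroup.coe_T_zpow (e : ℤ)
  rw [zpow_natCast] at h
  rw [h, Matrix.trace_fin_two]
  simp

theorem trace_conj_SL (g γ : SL(2, ℤ)) :
    ((g⁻¹ * γ * g : SL(2, ℤ)) : Matrix (Fin 2) (Fin 2) ℤ).trace
      = (γ : Matrix (Fin 2) (Fin 2) ℤ).trace := by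
  rw [Matrix.SpecialLinearGroup.coe_mul, Matrix.trace_mul_comm,
    ← Matrix.SpecialLinearGroup.coe_mul, mul_inv_cancel_left]

theorem conj_pow_SL (g γ : SL(2, ℤ)) (n : ℕ) : (g⁻¹ * γ * g) ^ n = g⁻¹ * γ ^ n * g := by
  induction n with
  | zero => simp
  | succ n ih => rw [pow_succ, ih, pow_succ]; group

theorem IsSpecialElt.conj {γ : SL(2, ℤ)} (h : IsSpecialElt γ) (g : SL(2, ℤ)) :
    IsSpecialElt (g⁻¹ * γ * g) := by
  rcases h with ⟨n, hn, h⟩ | h
  · exact Or.inl ⟨n, hn, by rw [conj_pow_SL, h]; group⟩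
  · exact Or.inr (by rw [trace_conj_SL, h])

theorem isSpecialElt_of_pow_eq_one {γ : SL(2, ℤ)} {n : ℕ} (hn : 0 < n) (h : γ ^ n = 1) :
    IsSpecialElt γ := Or.inl ⟨n, hn, h⟩

theorem isSpecialElt_one_pow (e : ℕ) : IsSpecialElt ((1 : SL(2, ℤ)) ^ e) :=
  isSpecialElt_of_pow_eq_one one_pos (by simp)

theorem isSpecialElt_S_pow (e : ℕ) : IsSpecialElt ((ModularGroup.S : SL(2, ℤ)) ^ e) :=
  isSpecialElt_of_pow_eq_one (n := 4) (by norm_num)
    (by rw [← pow_mul, mul_comm, pow_mul, modS_pow_four, one_pow])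

theorem isSpecialElt_ST_pow (e : ℕ) :
    IsSpecialElt ((ModularGroup.S * ModularGroup.T : SL(2, ℤ)) ^ e) :=
  isSpecialElt_of_pow_eq_one (n := 6) (by norm_num)
    (by rw [← pow_mul, mul_comm, pow_mul, modST_pow_six, one_pow])

theorem isSpecialElt_T_pow (e : ℕ) : IsSpecialElt ((ModularGroup.T : SL(2, ℤ)) ^ e) :=
  Or.inr (trace_modT_pow e)

end Fermat.Agent.S29.H282

end
-- ===== PACK-END S29/H282/Special.lean

-- ===== PACK-BEGIN S29/H942/MeroRootLocal.lean
section






/-!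
# Roots of analytic functions: a continuous `p`-th root of a non-vanishing analytic function is
analytic
-/

set_option autoImplicit false

noncomputable section

open Filter Topology Set Complex

namespace Fermat.Agent.S29.H942

/-- `1` is an isolated `p`-th root of unity. -/
lemma eventually_pow_eq_one_imp {p : ℕ} (hp : p ≠ 0) :
    ∀ᶠ t : ℂ in 𝓝 1, t ^ p = 1 → t = 1 := by
  have hfin : ({t : ℂ | t ^ p = 1} \ {1}).Finite := by
    refine Set.Finite.subset (Polynomial.nthRootsFinset p (1 : ℂ)).finite_toSet ?_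
    intro t ht
    simp only [Finset.mem_coe]
    exact (Polynomial.mem_nthRootsFinset (Nat.pos_of_ne_zero hp) _).2 ht.1
  have hopen : IsOpen (({t : ℂ | t ^ p = 1} \ {1})ᶜ) := hfin.isClosed.isOpen_compl
  have hmem : (1 : ℂ) ∈ ({t : ℂ | t ^ p = 1} \ {1})ᶜ := by simp
  filter_upwards [hopen.mem_nhds hmem] with t ht h1
  by_contra hne
  exact ht ⟨h1, hne⟩

/-- A function which is continuous at `z₀` and whose `p`-th power is analytic and non-zero at `z₀`
is analytic at `z₀`. -/
theorem analyticAt_of_continuousAt_of_pow {r g : ℂ → ℂ} {z₀ : ℂ} {p : ℕ} (hp : p ≠ 0)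
    (hr : ContinuousAt r z₀) (hg : AnalyticAt ℂ g z₀) (hpow : ∀ᶠ z in 𝓝 z₀, r z ^ p = g z)
    (hne : g z₀ ≠ 0) : AnalyticAt ℂ r z₀ := by
  have hpz : r z₀ ^ p = g z₀ := hpow.self_of_nhds
  have hc : r z₀ ≠ 0 := by
    intro h
    rw [h, zero_pow hp] at hpz
    exact hne hpz.symm
  have hpC : (p : ℂ) ≠ 0 := by exact_mod_cast hp
  -- the analytic candidate
  set s : ℂ → ℂ := fun z => r z₀ * exp (log (g z / g z₀) / p) with hs
  have hq : AnalyticAt ℂ (fun z => g z / g z₀) z₀ := hg.div analyticAt_const hne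
  have hq1 : (fun z => g z / g z₀) z₀ ∈ slitPlane := by
    simp only [div_self hne]
    exact one_mem_slitPlane
  have hlog : AnalyticAt ℂ (fun z => log (g z / g z₀)) z₀ := hq.clog hq1
  have hsA : AnalyticAt ℂ s z₀ :=
    analyticAt_const.mul ((hlog.div analyticAt_const hpC).cexp)
  have hs0 : s z₀ = r z₀ := by
    simp [hs, div_self hne]
  have hgne : ∀ᶠ z in 𝓝 z₀, g z ≠ 0 := hg.continuousAt.eventually_ne hne
  have hspow : ∀ᶠ z in 𝓝 z₀, s z ^ p = g z := by
    filter_upwards [hgne] with z hz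
    have h1 : g z / g z₀ ≠ 0 := div_ne_zero hz hne
    simp only [hs, mul_pow]
    rw [← exp_nat_mul, mul_div_cancel₀ _ hpC, exp_log h1, hpz]
    field_simp
  have hsne : ∀ᶠ z in 𝓝 z₀, s z ≠ 0 := hsA.continuousAt.eventually_ne (by rw [hs0]; exact hc)
  -- the quotient is continuous with value `1` at `z₀`, and a root of unity
  have hquot : ContinuousAt (fun z => r z / s z) z₀ :=
    hr.div hsA.continuousAt (by rw [hs0]; exact hc)
  have hquot1 : (fun z => r z / s z) z₀ = 1 := by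
    simp only [hs0, div_self hc]
  have hev : ∀ᶠ z in 𝓝 z₀, (r z / s z) ^ p = 1 → r z / s z = 1 := by
    have h1 : Tendsto (fun z => r z / s z) (𝓝 z₀) (𝓝 1) := by
      have := hquot.tendsto
      have h2 : r z₀ / s z₀ = 1 := hquot1
      rwa [h2] at this
    exact h1.eventually (eventually_pow_eq_one_imp hp)
  have heq : r =ᶠ[𝓝 z₀] s := by
    filter_upwards [hev, hpow, hspow, hsne] with z h1 h2 h3 h4
    have : (r z / s z) ^ p = 1 := by
      rw [div_pow, h2, h3, div_self]
      rw [← h3]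
      exact pow_ne_zero p h4
    have h5 := h1 this
    rwa [div_eq_one_iff_eq h4] at h5
  exact hsA.congr heq.symm

/-- A continuous `p`-th root of a non-vanishing analytic function on an open set is analytic. -/
theorem analyticOnNhd_of_continuousOn_of_pow {r g : ℂ → ℂ} {U : Set ℂ} (hU : IsOpen U) {p : ℕ}
    (hp : p ≠ 0) (hr : ContinuousOn r U) (hg : AnalyticOnNhd ℂ g U)
    (hpow : ∀ z ∈ U, r z ^ p = g z) (hne : ∀ z ∈ U, g z ≠ 0) : AnalyticOnNhd ℂ r U := by
  intro z hz
  refine analyticAt_of_continuousAt_of_pow hp (hr.continuousAt (hU.mem_nhds hz)) (hg z hz) ?_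
    (hne z hz)
  filter_upwards [hU.mem_nhds hz] with w hw using hpow w hw

/-- Existence of analytic `p`-th roots of non-vanishing analytic functions on simply connected
open sets. -/
theorem exists_analyticOnNhd_pow_eq {g : ℂ → ℂ} {U : Set ℂ} (hUc : IsSimplyConnected U)
    (hU : IsOpen U) {p : ℕ} (hp : p ≠ 0) (hg : AnalyticOnNhd ℂ g U) (hne : ∀ z ∈ U, g z ≠ 0) :
    ∃ r : ℂ → ℂ, AnalyticOnNhd ℂ r U ∧ ∀ z, r z ^ p = g z := by
  have h0 : (0 : ℂ) ∉ g '' U := by
    rintro ⟨z, hz, h⟩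
    exact hne z hz h
  obtain ⟨r, hrc, hr⟩ := exists_continuousOn_pow_eq hUc hU hg.continuousOn h0 hp
  exact ⟨r, analyticOnNhd_of_continuousOn_of_pow hU hp hrc hg (fun z _ => hr z) hne, hr⟩

/-- Open convex nonempty sets are simply connected. -/
lemma isSimplyConnected_of_convex {U : Set ℂ} (hU : Convex ℝ U) (hne : U.Nonempty) :
    IsSimplyConnected U := by
  have := hU.contractibleSpace hne
  show SimplyConnectedSpace U
  infer_instance

end Fermat.Agent.S29.H942

end
end
-- ===== PACK-END S29/H942/MeroRootLocal.lean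

-- ===== PACK-BEGIN S20/CuspCount360.lean
section



/-!
# Number of `T`-orbits on `SL(2,ℤ) ⧸ Γ₀(N)` equals `cuspCount N`

Pure group theory / elementary number theory (no analysis).
Main result: `Fermat.Agent.S20.CuspCount360.card_orbits_T`.
-/

set_option autoImplicit false

open scoped MatrixGroups
open CongruenceSubgroup Matrix

namespace Fermat.Agent.S20.CuspCount360

/-! ## Arithmetic core -/

section Arith

/-- `→` part 1: the gcd of the lower-left entry with `N` is an invariant. -/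
theorem gcd_eq_of_dvd {N : ℕ} {a c a' c' : ℤ} (hac : IsCoprime a c) (hac' : IsCoprime a' c')
    (h : (N : ℤ) ∣ a * c' - c * a') : Int.gcd c N = Int.gcd c' N := by
  apply Nat.dvd_antisymm
  · -- d ∣ c'
    apply Int.dvd_gcd _ (Int.gcd_dvd_right c N)
    have hd1 : ((Int.gcd c N : ℕ) : ℤ) ∣ c := Int.gcd_dvd_left c N
    have hd2 : ((Int.gcd c N : ℕ) : ℤ) ∣ a * c' - c * a' := (Int.gcd_dvd_right c N).trans h
    have hd3 : ((Int.gcd c N : ℕ) : ℤ) ∣ a * c' := by
      have := dvd_add hd2 (hd1.mul_right a')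
      simpa using this
    have hcop : IsCoprime ((Int.gcd c N : ℕ) : ℤ) a :=
      (IsCoprime.of_isCoprime_of_dvd_right hac hd1).symm
    exact hcop.dvd_of_dvd_mul_left hd3
  · apply Int.dvd_gcd _ (Int.gcd_dvd_right c' N)
    have hd1 : ((Int.gcd c' N : ℕ) : ℤ) ∣ c' := Int.gcd_dvd_left c' N
    have hd2 : ((Int.gcd c' N : ℕ) : ℤ) ∣ a * c' - c * a' := (Int.gcd_dvd_right c' N).trans h
    have hd3 : ((Int.gcd c' N : ℕ) : ℤ) ∣ a' * c := by
      have := dvd_sub (hd1.mul_left a) hd2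
      have e : a * c' - (a * c' - c * a') = a' * c := by ring
      rwa [e] at this
    have hcop : IsCoprime ((Int.gcd c' N : ℕ) : ℤ) a' :=
      (IsCoprime.of_isCoprime_of_dvd_right hac' hd1).symm
    exact hcop.dvd_of_dvd_mul_left hd3

/-- `→` part 2. Here `c = d * c₁`, `c' = d * c₁'`, `N = d * M`, and `e ∣ d`, `e ∣ M`. -/
theorem dvd_of_dvd {d M e a a' c₁ c₁' k : ℤ} (hd : d ≠ 0) (hed : e ∣ d) (heM : e ∣ M)
    (h : d * M ∣ (a + k * (d * c₁)) * (d * c₁') - (d * c₁) * a') :
    e ∣ a * c₁' - a' * c₁ := by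
  have h1 : d * M ∣ d * ((a + k * (d * c₁)) * c₁' - c₁ * a') := by
    have e1 : (a + k * (d * c₁)) * (d * c₁') - (d * c₁) * a'
        = d * ((a + k * (d * c₁)) * c₁' - c₁ * a') := by ring
    rwa [e1] at h
  have h2 : M ∣ (a + k * (d * c₁)) * c₁' - c₁ * a' := (mul_dvd_mul_iff_left hd).mp h1
  have h3 : e ∣ (a + k * (d * c₁)) * c₁' - c₁ * a' := heM.trans h2
  have h4 : e ∣ d * (k * c₁ * c₁') := hed.mul_right _
  have := dvd_sub h3 h4
  have e2 : (a + k * (d * c₁)) * c₁' - c₁ * a' - d * (k * c₁ * c₁') = a * c₁' - a' * c₁ := by ring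
  rwa [e2] at this

/-- `←`: solving the linear congruence. -/
theorem exists_k {d M a a' c₁ c₁' : ℤ} (h1 : IsCoprime c₁ M) (h1' : IsCoprime c₁' M)
    (h : ((Int.gcd d M : ℕ) : ℤ) ∣ a * c₁' - a' * c₁) :
    ∃ k : ℤ, d * M ∣ (a + k * (d * c₁)) * (d * c₁') - (d * c₁) * a' := by
  obtain ⟨t, ht⟩ := h
  obtain ⟨u, v, huv⟩ := h1
  obtain ⟨u', v', huv'⟩ := h1'
  have hb := Int.gcd_eq_gcd_ab d M
  set x := Int.gcdA d M
  set y := Int.gcdB d M
  -- z := u * u' is an inverse of c₁ c₁' mod M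
  refine ⟨-t * x * (u * u'), ?_⟩
  have e1 : (a + (-t * x * (u * u')) * (d * c₁)) * (d * c₁') - (d * c₁) * a'
      = d * ((a * c₁' - a' * c₁) - t * x * d * ((u * c₁) * (u' * c₁'))) := by ring
  rw [e1]
  apply mul_dvd_mul_left
  have e2 : u * c₁ = 1 - v * M := by linear_combination huv
  have e3 : u' * c₁' = 1 - v' * M := by linear_combination huv'
  rw [e2, e3, ht]
  refine ⟨t * y + t * x * d * (v + v' - v * v' * M), ?_⟩
  linear_combination (t) * hb

/-- Comparison of the `r`-invariants inside a fixed `ZMod e`. -/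
theorem val_mul_inv_eq_iff {e : ℕ} [NeZero e] {a a' c₁ c₁' : ℤ}
    (h1 : IsCoprime c₁ (e : ℤ)) (h1' : IsCoprime c₁' (e : ℤ)) :
    ((a : ZMod e) * (c₁ : ZMod e)⁻¹).val = ((a' : ZMod e) * (c₁' : ZMod e)⁻¹).val ↔
      (e : ℤ) ∣ a * c₁' - a' * c₁ := by
  have hu : IsUnit ((c₁ : ℤ) : ZMod e) := (ZMod.coe_int_isUnit_iff_isCoprime c₁ e).2 h1.symm
  have hu' : IsUnit ((c₁' : ℤ) : ZMod e) := (ZMod.coe_int_isUnit_iff_isCoprime c₁' e).2 h1'.symm
  have hi : ((c₁ : ℤ) : ZMod e) * ((c₁ : ℤ) : ZMod e)⁻¹ = 1 := ZMod.mul_inv_of_unit _ hu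
  have hi' : ((c₁' : ℤ) : ZMod e) * ((c₁' : ℤ) : ZMod e)⁻¹ = 1 := ZMod.mul_inv_of_unit _ hu'
  rw [(ZMod.val_injective e).eq_iff, ← ZMod.intCast_zmod_eq_zero_iff_dvd]
  push_cast
  constructor
  · intro h
    have : (a : ZMod e) * c₁' - a' * c₁
        = ((a : ZMod e) * (c₁ : ZMod e)⁻¹ - (a' : ZMod e) * (c₁' : ZMod e)⁻¹) * (c₁ * c₁')
          + (a : ZMod e) * c₁' * (1 - c₁ * (c₁ : ZMod e)⁻¹)
          - (a' : ZMod e) * c₁ * (1 - c₁' * (c₁' : ZMod e)⁻¹) := by ring
    rw [this, h, hi, hi']; ring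
  · intro h
    have : (a : ZMod e) * (c₁ : ZMod e)⁻¹ - (a' : ZMod e) * (c₁' : ZMod e)⁻¹
        = ((a : ZMod e) * c₁' - a' * c₁) * ((c₁ : ZMod e)⁻¹ * (c₁' : ZMod e)⁻¹)
          + (a : ZMod e) * (c₁ : ZMod e)⁻¹ * (1 - c₁' * (c₁' : ZMod e)⁻¹)
          - (a' : ZMod e) * (c₁' : ZMod e)⁻¹ * (1 - c₁ * (c₁ : ZMod e)⁻¹) := by ring
    have h0 := sub_eq_zero.mp (by rw [this, h, hi, hi']; ring :
      (a : ZMod e) * (c₁ : ZMod e)⁻¹ - (a' : ZMod e) * (c₁' : ZMod e)⁻¹ = 0)
    exact h0

end Arith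

/-! ## The invariant -/

section Invariant

variable (N : ℕ)

/-- `e(d) = gcd (d, N / d)`. -/
def eOf (d : ℕ) : ℕ := Nat.gcd d (N / d)

/-- The `r`-invariant computed with an explicit `d`. -/
noncomputable def rAux (d : ℕ) (a c : ℤ) : ℕ :=
  (((a : ℤ) : ZMod (eOf N d)) * (((c / (d : ℤ) : ℤ)) : ZMod (eOf N d))⁻¹).val

/-- The `d`-invariant `gcd (c, N)` of `g = [a b; c d]`. -/
def dInv (g : SL(2, ℤ)) : ℕ := Int.gcd ((g : Matrix (Fin 2) (Fin 2) ℤ) 1 0) N

/-- The full invariant `(d, r)`. -/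
noncomputable def cuspInv (g : SL(2, ℤ)) : (_ : ℕ) × ℕ :=
  ⟨dInv N g, rAux N (dInv N g) ((g : Matrix (Fin 2) (Fin 2) ℤ) 0 0)
    ((g : Matrix (Fin 2) (Fin 2) ℤ) 1 0)⟩

theorem isCoprime_col (g : SL(2, ℤ)) :
    IsCoprime ((g : Matrix (Fin 2) (Fin 2) ℤ) 0 0) ((g : Matrix (Fin 2) (Fin 2) ℤ) 1 0) := by
  have h := g.det_coe
  rw [Matrix.det_fin_two] at h
  exact ⟨(g : Matrix (Fin 2) (Fin 2) ℤ) 1 1, -(g : Matrix (Fin 2) (Fin 2) ℤ) 0 1, by
    linear_combination h⟩

theorem mk_eq_mk_iff (g g' : SL(2, ℤ)) :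
    ((g : SL(2, ℤ) ⧸ Gamma0 N) = (g' : SL(2, ℤ) ⧸ Gamma0 N)) ↔
      (N : ℤ) ∣ (g : Matrix (Fin 2) (Fin 2) ℤ) 0 0 * (g' : Matrix (Fin 2) (Fin 2) ℤ) 1 0
        - (g : Matrix (Fin 2) (Fin 2) ℤ) 1 0 * (g' : Matrix (Fin 2) (Fin 2) ℤ) 0 0 := by
  rw [QuotientGroup.eq, Gamma0_mem, ZMod.intCast_zmod_eq_zero_iff_dvd]
  have : ((g⁻¹ * g' : SL(2, ℤ)) : Matrix (Fin 2) (Fin 2) ℤ) 1 0
      = (g : Matrix (Fin 2) (Fin 2) ℤ) 0 0 * (g' : Matrix (Fin 2) (Fin 2) ℤ) 1 0
        - (g : Matrix (Fin 2) (Fin 2) ℤ) 1 0 * (g' : Matrix (Fin 2) (Fin 2) ℤ) 0 0 := by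
    rw [Matrix.SpecialLinearGroup.coe_mul, Matrix.SpecialLinearGroup.SL2_inv_expl]
    rw [Matrix.mul_apply, Fin.sum_univ_two]
    simp
    ring
  rw [this]

theorem T_zpow_mul_col (k : ℤ) (g : SL(2, ℤ)) :
    ((ModularGroup.T ^ k * g : SL(2, ℤ)) : Matrix (Fin 2) (Fin 2) ℤ) 0 0
        = (g : Matrix (Fin 2) (Fin 2) ℤ) 0 0 + k * (g : Matrix (Fin 2) (Fin 2) ℤ) 1 0 ∧
    ((ModularGroup.T ^ k * g : SL(2, ℤ)) : Matrix (Fin 2) (Fin 2) ℤ) 1 0
        = (g : Matrix (Fin 2) (Fin 2) ℤ) 1 0 := by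
  rw [Matrix.SpecialLinearGroup.coe_mul, ModularGroup.coe_T_zpow]
  constructor <;> rw [Matrix.mul_apply, Fin.sum_univ_two] <;> simp

/-- Data attached to `c` and `N ≠ 0`: `d = gcd (c, N)`, `c = d * c₁`, `N = d * M`,
`e = gcd (d, M)`, and `c₁` is coprime to `M` and to `e`. -/
theorem gcd_data {N : ℕ} (hN : N ≠ 0) (c : ℤ) :
    Int.gcd c N ≠ 0 ∧ Int.gcd c N ∣ N ∧
    ((Int.gcd c N : ℕ) : ℤ) * (c / ((Int.gcd c N : ℕ) : ℤ)) = c ∧
    ((Int.gcd c N : ℕ) : ℤ) * ((N / Int.gcd c N : ℕ) : ℤ) = (N : ℤ) ∧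
    IsCoprime (c / ((Int.gcd c N : ℕ) : ℤ)) ((N / Int.gcd c N : ℕ) : ℤ) ∧
    IsCoprime (c / ((Int.gcd c N : ℕ) : ℤ)) ((eOf N (Int.gcd c N) : ℕ) : ℤ) ∧
    eOf N (Int.gcd c N) ≠ 0 := by
  have hd0 : Int.gcd c N ≠ 0 := by
    intro h
    rw [Int.gcd_eq_zero_iff] at h
    exact hN (by exact_mod_cast h.2)
  have hdN : Int.gcd c N ∣ N := Int.natCast_dvd_natCast.mp (Int.gcd_dvd_right c N)
  have hc : ((Int.gcd c N : ℕ) : ℤ) * (c / ((Int.gcd c N : ℕ) : ℤ)) = c :=
    Int.mul_ediv_cancel' (Int.gcd_dvd_left c N)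
  have hNM : ((Int.gcd c N : ℕ) : ℤ) * ((N / Int.gcd c N : ℕ) : ℤ) = (N : ℤ) := by
    exact_mod_cast Nat.mul_div_cancel' hdN
  have hcop : IsCoprime (c / ((Int.gcd c N : ℕ) : ℤ)) ((N / Int.gcd c N : ℕ) : ℤ) := by
    rw [Int.isCoprime_iff_gcd_eq_one]
    have := Int.gcd_div_gcd_div_gcd (i := c) (j := (N : ℤ)) (Nat.pos_of_ne_zero hd0)
    rwa [← Int.natCast_div] at this
  have heM : ((eOf N (Int.gcd c N) : ℕ) : ℤ) ∣ ((N / Int.gcd c N : ℕ) : ℤ) :=
    Int.natCast_dvd_natCast.mpr (Nat.gcd_dvd_right _ _)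
  refine ⟨hd0, hdN, hc, hNM, hcop, IsCoprime.of_isCoprime_of_dvd_right hcop heM, ?_⟩
  exact Nat.gcd_ne_zero_left hd0

theorem arith_iff {N : ℕ} (hN : N ≠ 0) {a c a' c' : ℤ} (hac : IsCoprime a c)
    (hac' : IsCoprime a' c') :
    (∃ k : ℤ, (N : ℤ) ∣ (a + k * c) * c' - c * a') ↔
      (Int.gcd c N = Int.gcd c' N ∧ rAux N (Int.gcd c N) a c = rAux N (Int.gcd c N) a' c') := by
  obtain ⟨hd0, hdN, hc, hNM, hcop, hcope, he0⟩ := gcd_data hN c
  obtain ⟨hd0', hdN', hc', hNM', hcop', hcope', he0'⟩ := gcd_data hN c'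
  have : NeZero (eOf N (Int.gcd c N)) := ⟨he0⟩
  have hed : ((eOf N (Int.gcd c N) : ℕ) : ℤ) ∣ ((Int.gcd c N : ℕ) : ℤ) :=
    Int.natCast_dvd_natCast.mpr (Nat.gcd_dvd_left _ _)
  have heM : ((eOf N (Int.gcd c N) : ℕ) : ℤ) ∣ ((N / Int.gcd c N : ℕ) : ℤ) :=
    Int.natCast_dvd_natCast.mpr (Nat.gcd_dvd_right _ _)
  constructor
  · rintro ⟨k, hk⟩
    have hcopk : IsCoprime (a + k * c) c := hac.add_mul_right_left k
    have hdd : Int.gcd c N = Int.gcd c' N := gcd_eq_of_dvd hcopk hac' hk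
    refine ⟨hdd, ?_⟩
    rw [← hdd] at hc' hcope'
    unfold rAux
    rw [val_mul_inv_eq_iff hcope hcope']
    refine dvd_of_dvd (k := k) (by exact_mod_cast hd0) hed heM ?_
    rw [hNM, hc, hc']
    exact hk
  · rintro ⟨hdd, hr⟩
    rw [← hdd] at hc' hcope' hcop'
    unfold rAux at hr
    rw [val_mul_inv_eq_iff hcope hcope'] at hr
    have hr' : ((Int.gcd ((Int.gcd c N : ℕ) : ℤ) ((N / Int.gcd c N : ℕ) : ℤ) : ℕ) : ℤ) ∣
        a * (c' / ((Int.gcd c N : ℕ) : ℤ)) - a' * (c / ((Int.gcd c N : ℕ) : ℤ)) := by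
      rw [Int.gcd_natCast_natCast]
      exact hr
    obtain ⟨k, hk⟩ := exists_k (a := a) (a' := a') hcop hcop' hr'
    refine ⟨k, ?_⟩
    rw [hNM, hc, hc'] at hk
    exact hk

variable [NeZero N]

/-- Two cosets `gΓ₀(N)`, `g'Γ₀(N)` lie in the same `⟨T⟩`-orbit iff they have the same
invariant. -/
theorem orbit_iff (g g' : SL(2, ℤ)) :
    (∃ k : ℤ, ((ModularGroup.T ^ k * g : SL(2, ℤ)) : SL(2, ℤ) ⧸ Gamma0 N)
        = (g' : SL(2, ℤ) ⧸ Gamma0 N)) ↔ cuspInv N g = cuspInv N g' := by
  have key := arith_iff (NeZero.ne N) (isCoprime_col g) (isCoprime_col g')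
  constructor
  · rintro ⟨k, hk⟩
    rw [mk_eq_mk_iff, (T_zpow_mul_col k g).1, (T_zpow_mul_col k g).2] at hk
    obtain ⟨h1, h2⟩ := key.1 ⟨k, hk⟩
    unfold cuspInv dInv
    rw [← h1, h2]
  · intro h
    unfold cuspInv dInv at h
    rw [Sigma.mk.injEq] at h
    obtain ⟨h1, h2⟩ := h
    have h2' := eq_of_heq h2
    rw [← h1] at h2'
    obtain ⟨k, hk⟩ := key.2 ⟨h1, h2'⟩
    refine ⟨k, ?_⟩
    rw [mk_eq_mk_iff, (T_zpow_mul_col k g).1, (T_zpow_mul_col k g).2]
    exact hk

/-- The finite set of possible invariants. -/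
def cuspSet : Finset ((_ : ℕ) × ℕ) :=
  N.divisors.sigma fun d => (Finset.range (eOf N d)).filter fun r => (eOf N d).Coprime r

omit [NeZero N] in
theorem card_cuspSet : (cuspSet N).card = ModularCurve.cuspCount N := by
  unfold cuspSet ModularCurve.cuspCount
  rw [Finset.card_sigma]
  refine Finset.sum_congr rfl fun d _ => ?_
  rw [Nat.totient_eq_card_coprime]
  rfl

theorem cuspInv_mem (g : SL(2, ℤ)) : cuspInv N g ∈ cuspSet N := by
  obtain ⟨hd0, hdN, hc, hNM, hcop, hcope, he0⟩ :=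
    gcd_data (NeZero.ne N) ((g : Matrix (Fin 2) (Fin 2) ℤ) 1 0)
  have : NeZero (eOf N (Int.gcd ((g : Matrix (Fin 2) (Fin 2) ℤ) 1 0) N)) := ⟨he0⟩
  unfold cuspSet cuspInv dInv
  rw [Finset.mem_sigma, Nat.mem_divisors, Finset.mem_filter, Finset.mem_range]
  refine ⟨⟨hdN, NeZero.ne N⟩, ZMod.val_lt _, ?_⟩
  -- the value is a unit
  have hed : ((eOf N (Int.gcd ((g : Matrix (Fin 2) (Fin 2) ℤ) 1 0) N) : ℕ) : ℤ) ∣
      (g : Matrix (Fin 2) (Fin 2) ℤ) 1 0 :=
    (Int.natCast_dvd_natCast.mpr (Nat.gcd_dvd_left _ _)).trans (Int.gcd_dvd_left _ _)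
  have hae : IsCoprime ((g : Matrix (Fin 2) (Fin 2) ℤ) 0 0)
      ((eOf N (Int.gcd ((g : Matrix (Fin 2) (Fin 2) ℤ) 1 0) N) : ℕ) : ℤ) :=
    IsCoprime.of_isCoprime_of_dvd_right (isCoprime_col g) hed
  have hua := (ZMod.coe_int_isUnit_iff_isCoprime _ _).2 hae.symm
  have huc := (ZMod.coe_int_isUnit_iff_isCoprime _ _).2 hcope.symm
  have hinv : IsUnit ((((g : Matrix (Fin 2) (Fin 2) ℤ) 1 0 /
      ((Int.gcd ((g : Matrix (Fin 2) (Fin 2) ℤ) 1 0) N : ℕ) : ℤ) : ℤ) :
        ZMod (eOf N (Int.gcd ((g : Matrix (Fin 2) (Fin 2) ℤ) 1 0) N)))⁻¹) :=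
    IsUnit.of_mul_eq_one _ (by rw [mul_comm]; exact ZMod.mul_inv_of_unit _ huc)
  have hu := hua.mul hinv
  have := ZMod.val_coe_unit_coprime hu.unit
  rw [IsUnit.unit_spec] at this
  exact this.symm

omit [NeZero N] in
/-- Every element of `cuspSet N` is the invariant of some `g`. -/
theorem exists_cuspInv_eq (p : (_ : ℕ) × ℕ) (hp : p ∈ cuspSet N) :
    ∃ g : SL(2, ℤ), cuspInv N g = p := by
  obtain ⟨d, r⟩ := p
  unfold cuspSet at hp
  rw [Finset.mem_sigma, Nat.mem_divisors, Finset.mem_filter, Finset.mem_range] at hp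
  obtain ⟨⟨hdN, hN⟩, hr, hcop⟩ := hp
  dsimp only at hdN hr hcop
  have hd0 : d ≠ 0 := fun h => hN (by rw [h] at hdN; exact Nat.eq_zero_of_zero_dvd hdN)
  have : NeZero d := ⟨hd0⟩
  have hed : eOf N d ∣ d := Nat.gcd_dvd_left _ _
  have he0 : eOf N d ≠ 0 := Nat.gcd_ne_zero_left hd0
  have : NeZero (eOf N d) := ⟨he0⟩
  -- lift the unit `r` mod `e` to a unit `v` mod `d`
  obtain ⟨v, hv⟩ := ZMod.unitsMap_surjective hed (ZMod.unitOfCoprime r hcop.symm)
  have hvcop : ((v : ZMod d).val).Coprime d := ZMod.val_coe_unit_coprime v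
  have hcast : (((v : ZMod d).val : ℕ) : ZMod (eOf N d)) = (r : ZMod (eOf N d)) := by
    have h1 := congrArg (fun u : (ZMod (eOf N d))ˣ => (u : ZMod (eOf N d))) hv
    simp only [ZMod.unitsMap_def, Units.coe_map, MonoidHom.coe_coe, ZMod.castHom_apply,
      ZMod.coe_unitOfCoprime] at h1
    rw [ZMod.natCast_val]
    exact h1
  -- Bézout
  have hco : IsCoprime (((v : ZMod d).val : ℕ) : ℤ) ((d : ℕ) : ℤ) :=
    Nat.isCoprime_iff_coprime.mpr hvcop
  obtain ⟨x, y, hxy⟩ := hco
  let g : SL(2, ℤ) := ⟨!![(((v : ZMod d).val : ℕ) : ℤ), -y; (d : ℤ), x], by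
    rw [Matrix.det_fin_two_of]; linear_combination hxy⟩
  have hg00 : (g : Matrix (Fin 2) (Fin 2) ℤ) 0 0 = (((v : ZMod d).val : ℕ) : ℤ) := rfl
  have hg10 : (g : Matrix (Fin 2) (Fin 2) ℤ) 1 0 = (d : ℤ) := rfl
  refine ⟨g, ?_⟩
  have hgcd : Int.gcd ((d : ℕ) : ℤ) (N : ℤ) = d := by
    rw [Int.gcd_natCast_natCast]; exact Nat.gcd_eq_left hdN
  unfold cuspInv dInv
  rw [hg00, hg10, hgcd]
  congr 1
  unfold rAux
  rw [Int.ediv_self (by exact_mod_cast hd0)]
  simp only [Int.cast_one, ZMod.inv_one, mul_one, Int.cast_natCast]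
  rw [hcast, ZMod.val_natCast]
  exact Nat.mod_eq_of_lt hr

/-- **Main theorem**: the number of orbits of `⟨T⟩` acting by left multiplication on
`SL(2,ℤ) ⧸ Γ₀(N)` is `cuspCount N = ∑_{d ∣ N} φ(gcd(d, N/d))`. -/
theorem card_orbits_T :
    Nat.card (MulAction.orbitRel.Quotient (Subgroup.zpowers ModularGroup.T)
      (SL(2, ℤ) ⧸ Gamma0 N)) = ModularCurve.cuspCount N := by
  rw [← card_cuspSet, ← Nat.card_eq_finsetCard]
  -- representative of an orbit
  let rep : MulAction.orbitRel.Quotient (Subgroup.zpowers ModularGroup.T)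
      (SL(2, ℤ) ⧸ Gamma0 N) → SL(2, ℤ) := fun x => Quotient.out (Quotient.out x)
  have hrep : ∀ x, (Quotient.mk'' ((rep x : SL(2, ℤ)) : SL(2, ℤ) ⧸ Gamma0 N) :
      MulAction.orbitRel.Quotient (Subgroup.zpowers ModularGroup.T)
      (SL(2, ℤ) ⧸ Gamma0 N)) = x := by
    intro x
    show Quotient.mk'' ((Quotient.out (Quotient.out x) : SL(2, ℤ)) : SL(2, ℤ) ⧸ Gamma0 N) = x
    rw [QuotientGroup.out_eq']
    exact Quotient.out_eq x
  -- orbit equivalence in terms of `T ^ k`
  have horb : ∀ g g' : SL(2, ℤ),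
      (Quotient.mk'' (g : SL(2, ℤ) ⧸ Gamma0 N) :
        MulAction.orbitRel.Quotient (Subgroup.zpowers ModularGroup.T) (SL(2, ℤ) ⧸ Gamma0 N))
        = Quotient.mk'' (g' : SL(2, ℤ) ⧸ Gamma0 N) ↔ cuspInv N g' = cuspInv N g := by
    intro g g'
    rw [Quotient.eq'', MulAction.orbitRel_apply, MulAction.mem_orbit_iff, ← orbit_iff]
    constructor
    · rintro ⟨⟨t, ht⟩, h⟩
      obtain ⟨k, rfl⟩ := Subgroup.mem_zpowers_iff.mp ht
      exact ⟨k, h⟩
    · rintro ⟨k, h⟩
      exact ⟨⟨ModularGroup.T ^ k, Subgroup.mem_zpowers_iff.mpr ⟨k, rfl⟩⟩, h⟩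
  refine Nat.card_congr (Equiv.ofBijective
    (fun x => (⟨cuspInv N (rep x), cuspInv_mem N (rep x)⟩ : cuspSet N)) ⟨?_, ?_⟩)
  · intro x y hxy
    have h := congrArg Subtype.val hxy
    dsimp only at h
    rw [← hrep x, ← hrep y]
    exact (horb _ _).2 h.symm
  · rintro ⟨p, hp⟩
    obtain ⟨g, hg⟩ := exists_cuspInv_eq N p hp
    refine ⟨Quotient.mk'' (g : SL(2, ℤ) ⧸ Gamma0 N), ?_⟩
    apply Subtype.ext
    dsimp only
    rw [← hg]
    exact (horb _ _).1 (hrep (Quotient.mk'' (g : SL(2, ℤ) ⧸ Gamma0 N))).symm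

end Invariant

end Fermat.Agent.S20.CuspCount360

end
-- ===== PACK-END S20/CuspCount360.lean

-- ===== PACK-BEGIN S28/Defs.lean
section
/-
S28 (Igusa) long-shot -- shared definitions and the interface structure `CoreData`.
All S28 declarations live in namespace `Fermat.Agent.S28`.
-/




set_option autoImplicit false

noncomputable section

open ModularCurve HahnSeries

namespace Fermat.Agent.S28

/-! ### Formal q-series over an arbitrary commutative ring -/

section Formal

variable (R : Type*) [CommRing R]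

/-- Formal discriminant `Δ = q ∏ (1 - qⁿ)²⁴` as a Laurent series over `R`. -/
def deltaL : LaurentSeries R :=
  HahnSeries.single (1 : ℤ) 1 *
    HahnSeries.ofPowerSeries ℤ R (dedekindEtaUnit.map (Int.castRingHom R))

/-- Formal inverse of `Δ`: `q⁻¹ ∏ (1 - qⁿ)⁻²⁴`. -/
def deltaInvL : LaurentSeries R :=
  HahnSeries.single (-1 : ℤ) 1 *
    HahnSeries.ofPowerSeries ℤ R (dedekindEtaUnitInv.map (Int.castRingHom R))

/-- `θ = q d/dq` on Laurent series: multiplies the coefficient of `qⁿ` by `n`. -/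
def thetaL (f : LaurentSeries R) : LaurentSeries R where
  coeff n := (n : R) * f.coeff n
  isPWO_support' := f.isPWO_support.mono fun n hn => by
    simp only [Function.mem_support, ne_eq] at hn ⊢
    intro h
    exact hn (by rw [h, mul_zero])

@[simp] theorem thetaL_coeff (f : LaurentSeries R) (n : ℤ) :
    (thetaL R f).coeff n = (n : R) * f.coeff n := rfl

/-- The modular unit `u_p = Δ(q^p)/Δ(q)` as a formal Laurent series. -/
def unitL (p : ℕ) [NeZero p] : LaurentSeries R :=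
  qExpand R p (deltaL R) * deltaInvL R

end Formal

/-! ### Fields -/

/-- `k(j) ⊂ k((q))`. -/
def jField (k : Type*) [Field k] : IntermediateField k (LaurentSeries k) :=
  IntermediateField.adjoin k {jqModC k}

/-- The integral generators `j(q^d)`, `d ∣ N`, in `ℤ((q))`. -/
def intDivisorExpansions (N : ℕ) : Set (LaurentSeries ℤ) :=
  {x | ∃ (d : ℕ) (_ : NeZero d), d ∣ N ∧ x = qExpand ℤ d (jqModC ℤ)}

/-- Evaluation `ℤ[Y] → A((q))`, `Y ↦ y`. -/
abbrev evalAt {A : Type*} [CommRing A] (y : LaurentSeries A) : Polynomial ℤ →+* LaurentSeries A :=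
  (Polynomial.aeval (R := ℤ) y).toRingHom

/-- Prime-level input from the analytic team: the modular polynomial `Φ_p ∈ ℤ[Y][X]`
(monic of degree `p+1` in `X`) with the two vanishing properties
`Φ_p(j(q^p), j(q)) = 0` and `Φ_p(j(q), j(q^p)) = 0`. -/
structure ModPolyData (p : ℕ) [NeZero p] : Type where
  Φ : Polynomial (Polynomial ℤ)
  monic : Φ.Monic
  natDegree_eq : Φ.natDegree = p + 1
  eval_jp : Φ.eval₂ (evalAt (jqModC ℤ)) (qExpand ℤ p (jqModC ℤ)) = 0
  eval_j : Φ.eval₂ (evalAt (qExpand ℤ p (jqModC ℤ))) (jqModC ℤ) = 0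

/-- Prime-level input from the analytic team: `p¹² Δ(q^p)/Δ(q)` is integral over `ℤ[j]`. -/
structure UnitPolyData (p : ℕ) [NeZero p] : Type where
  W : Polynomial (Polynomial ℤ)
  monic : W.Monic
  eval_unit : W.eval₂ (evalAt (jqModC ℤ)) ((p : LaurentSeries ℤ) ^ 12 * unitL ℤ p) = 0

/-- The interface between the field-theory part [L] and the valuation part [V]:
`n` integral "monomials" spanning `F` over `ℚ(j)` whose reductions to `K((q))`
are linearly independent over `K(j)`; plus integrality of the generators. -/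
structure CoreData (N : ℕ) [NeZero N] (K : Type) [Field K] : Prop where
  exists_basis : ∃ (n : ℕ) (y : Fin n → LaurentSeries ℤ),
    (∀ i, y i ∈ Subring.closure (intDivisorExpansions N)) ∧
    (∀ x ∈ modularFunctionFieldFull N,
      x ∈ Submodule.span (jField ℚ)
        (Set.range fun i => coeffMap (Int.castRingHom ℚ) (y i))) ∧
    LinearIndependent (jField K) (fun i => coeffMap (Int.castRingHom K) (y i))
  integral : ∀ (d : ℕ) [NeZero d], d ∣ N →
    ∃ P : Polynomial (Polynomial ℤ), P.Monic ∧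
      P.eval₂ (evalAt (jqModC ℤ)) (qExpand ℤ d (jqModC ℤ)) = 0

end Fermat.Agent.S28

end

end
-- ===== PACK-END S28/Defs.lean

-- ===== PACK-BEGIN S18/H438/Front/Chart.lean
section


/-!
# S18 / ALG-FRONT (helper438), part 1: the chart algebra `B = integral closure of R[z] in F`

Setting: `F` a field of characteristic `0`, `R : Subring F` a discrete valuation ring,
`z : F` transcendental over `R`, `F` finite over `Frac (R[z])`.

* `baseRing R z   := Algebra.adjoin R {z}`           (`R[z] ⊆ F`, isomorphic to `R[X]`)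
* `chartRing R z  := integralClosure (R[z]) F`      (the chart `B`)

All instances needed by the Kummer pieces (`H754/KummerSpec.lean`) are provided:
`IsNoetherianRing B`, `IsIntegrallyClosed B`, `IsFractionRing B F`, `Module.Finite R[z] B`.
-/

set_option autoImplicit false
set_option linter.style.haveILetI false
set_option linter.unusedSectionVars false

noncomputable section

namespace Fermat.Agent.S18.H438

open Polynomial

variable {F : Type*} [Field F]

/-- The base ring `R[z] ⊆ F`. -/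
abbrev baseRing (R : Subring F) (z : F) : Subalgebra R F := Algebra.adjoin R {z}

/-- The chart: the integral closure of `R[z]` in `F`. -/
abbrev chartRing (R : Subring F) (z : F) : Subalgebra (baseRing R z) F :=
  integralClosure (baseRing R z) F

variable (R : Subring F) (z : F)

theorem self_mem_baseRing : z ∈ baseRing R z := Algebra.self_mem_adjoin_singleton R z

theorem coe_mem_baseRing (r : R) : (r : F) ∈ baseRing R z := (baseRing R z).algebraMap_mem r

/-- `R[X] ≃ R[z]` for transcendental `z`. -/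
def baseEquiv (hz : Transcendental R z) : Polynomial R ≃ₐ[R] baseRing R z :=
  Polynomial.algEquivOfTranscendental R z hz

theorem baseEquiv_apply_coe (hz : Transcendental R z) (f : Polynomial R) :
    ((baseEquiv R z hz f : baseRing R z) : F) = Polynomial.aeval z f := by
  unfold baseEquiv
  rw [Polynomial.algEquivOfTranscendental_apply]
  have : (Polynomial.aeval (⟨z, Algebra.self_mem_adjoin_singleton R z⟩ : baseRing R z) f : F) =
      (baseRing R z).val (Polynomial.aeval (⟨z, Algebra.self_mem_adjoin_singleton R z⟩ :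
        baseRing R z) f) := rfl
  rw [this, ← Polynomial.aeval_algHom_apply]
  rfl

theorem baseRing_isNoetherianRing (hz : Transcendental R z) [IsNoetherianRing R] :
    IsNoetherianRing (baseRing R z) :=
  isNoetherianRing_of_ringEquiv (Polynomial R) (baseEquiv R z hz).toRingEquiv

theorem baseRing_isIntegrallyClosed (hz : Transcendental R z) [IsIntegrallyClosed (Polynomial R)] :
    IsIntegrallyClosed (baseRing R z) :=
  IsIntegrallyClosed.of_equiv (baseEquiv R z hz).toRingEquiv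

/-- Every element of `R[z]` is a polynomial in `z`. -/
theorem exists_aeval_eq_of_mem_baseRing {f : F} (hf : f ∈ baseRing R z) :
    ∃ P : Polynomial R, Polynomial.aeval z P = f :=
  (Algebra.adjoin_mem_exists_aeval R z hf)

section Instances

attribute [local instance] FractionRing.liftAlgebra

variable [CharZero F]

/-- The fraction field of `R[z]` is of characteristic zero. -/
theorem charZero_fractionRing_baseRing : CharZero (FractionRing (baseRing R z)) := by
  have : CharZero (baseRing R z) := RingHom.charZero (algebraMap (baseRing R z) F)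
  exact charZero_of_injective_algebraMap
    (IsFractionRing.injective (baseRing R z) (FractionRing (baseRing R z)))

variable [hfin : FiniteDimensional (FractionRing (baseRing R z)) F]

theorem chartRing_isFractionRing : IsFractionRing (chartRing R z) F :=
  integralClosure.isFractionRing_of_finite_extension (FractionRing (baseRing R z)) F

theorem chartRing_isIntegrallyClosed : IsIntegrallyClosed (chartRing R z) :=
  integralClosure.isIntegrallyClosedOfFiniteExtension (FractionRing (baseRing R z))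

theorem isSeparable_fractionRing_baseRing :
    Algebra.IsSeparable (FractionRing (baseRing R z)) F := by
  haveI := charZero_fractionRing_baseRing R z
  exact Algebra.IsAlgebraic.isSeparable_of_perfectField

variable [IsDiscreteValuationRing R]

theorem chartRing_isNoetherianRing (hz : Transcendental R z) :
    IsNoetherianRing (chartRing R z) := by
  haveI := baseRing_isNoetherianRing R z hz
  haveI := baseRing_isIntegrallyClosed R z hz
  haveI := isSeparable_fractionRing_baseRing R z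
  exact integralClosure.isNoetherianRing (K := FractionRing (baseRing R z)) F

theorem chartRing_finite (hz : Transcendental R z) :
    Module.Finite (baseRing R z) (chartRing R z) := by
  haveI := baseRing_isNoetherianRing R z hz
  haveI := baseRing_isIntegrallyClosed R z hz
  haveI := isSeparable_fractionRing_baseRing R z
  exact IsIntegralClosure.finite (baseRing R z) (FractionRing (baseRing R z)) F (chartRing R z)

end Instances

end Fermat.Agent.S18.H438

end
end
-- ===== PACK-END S18/H438/Front/Chart.lean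

-- ===== PACK-BEGIN S18/H138/Charts.lean
section


/-!
# S18, Route K, ASM (helper138): the three charts of the `x`-line model inside a field

`R` a commutative ring, `F` a field which is an `R`-algebra, `x : F`.  The *charts* are

* `chart R {x}`        : elements of `F` integral over `R[x]`        (`B_fin`),
* `chart R {x⁻¹}`      : elements of `F` integral over `R[x⁻¹]`      (`B_inf`),
* `chart R {x, x⁻¹}`   : elements of `F` integral over `R[x, x⁻¹]`   (`B_mid`).

This file proves the formal properties of the charts needed by the two-chart connectedness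
lemma (`H558.cech_connected`):

* `exists_pow_mul_mem_chart`   : `B_mid = B_fin[1/x]`,
* `exists_inv_pow_mul_mem_chart` : every element of `B_fin` lies in `x ^ D • B_inf`,
* `chart_inter_eq` (in `ChartsConst.lean`) : `B_fin ∩ B_inf = R`.
-/

set_option autoImplicit false
set_option linter.style.haveILetI false

namespace Fermat.Agent.S18.H138

open Polynomial

section Basic

variable (R : Type*) [CommRing R] {F : Type*} [Field F] [Algebra R F]

/-- The chart attached to `S ⊆ F`: the elements of `F` integral over `R[S]`. -/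
def chart (S : Set F) : Subalgebra R F :=
  (integralClosure (Algebra.adjoin R S) F).restrictScalars R

variable {R}

theorem mem_chart {S : Set F} {y : F} :
    y ∈ chart R S ↔ IsIntegral (Algebra.adjoin R S) y := Iff.rfl

theorem adjoin_le_chart (S : Set F) : Algebra.adjoin R S ≤ chart R S := by
  intro y hy
  rw [mem_chart]
  exact isIntegral_algebraMap (R := Algebra.adjoin R S) (x := ⟨y, hy⟩)

theorem mem_chart_of_mem {S : Set F} {y : F} (hy : y ∈ S) : y ∈ chart R S :=
  adjoin_le_chart S (Algebra.subset_adjoin hy)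

/-- Integrality over a smaller subalgebra implies integrality over a bigger one. -/
theorem isIntegral_of_le {A₁ A₂ : Subalgebra R F} (h : A₁ ≤ A₂) {y : F}
    (hy : IsIntegral A₁ y) : IsIntegral A₂ y := by
  have := IsIntegral.map_of_comp_eq (R := A₁) (S := F) (T := A₂) (U := F)
    (Subalgebra.inclusion h).toRingHom (RingHom.id F) (by ext; rfl) hy
  simpa using this

theorem chart_mono {S T : Set F} (h : S ⊆ T) : chart R S ≤ chart R T := fun _ hy =>
  isIntegral_of_le (Algebra.adjoin_mono h) hy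

end Basic

section Denominators

variable {R : Type*} [CommRing R] {F : Type*} [Field F] [Algebra R F]

/-- Clearing denominators in `R[x, x⁻¹]`. -/
theorem exists_pow_mul_mem_adjoin {x : F} (hx : x ≠ 0) {a : F}
    (ha : a ∈ Algebra.adjoin R ({x, x⁻¹} : Set F)) :
    ∃ K : ℕ, ∀ k : ℕ, K ≤ k → x ^ k * a ∈ Algebra.adjoin R ({x} : Set F) := by
  have hxA : x ∈ Algebra.adjoin R ({x} : Set F) := Algebra.subset_adjoin rfl
  induction ha using Algebra.adjoin_induction with
  | mem y hy =>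
    rcases hy with rfl | rfl
    · exact ⟨0, fun k _ => Subalgebra.mul_mem _ (Subalgebra.pow_mem _ hxA k) hxA⟩
    · refine ⟨1, fun k hk => ?_⟩
      obtain ⟨k, rfl⟩ : ∃ j, k = j + 1 := ⟨k - 1, by omega⟩
      rw [pow_succ, mul_assoc, mul_inv_cancel₀ hx, mul_one]
      exact Subalgebra.pow_mem _ hxA k
  | algebraMap r =>
    exact ⟨0, fun k _ => Subalgebra.mul_mem _ (Subalgebra.pow_mem _ hxA k)
      (Subalgebra.algebraMap_mem _ r)⟩
  | add y z _ _ hy hz =>
    obtain ⟨K₁, h₁⟩ := hy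
    obtain ⟨K₂, h₂⟩ := hz
    refine ⟨max K₁ K₂, fun k hk => ?_⟩
    rw [mul_add]
    exact Subalgebra.add_mem _ (h₁ k (le_trans (le_max_left _ _) hk))
      (h₂ k (le_trans (le_max_right _ _) hk))
  | mul y z _ _ hy hz =>
    obtain ⟨K₁, h₁⟩ := hy
    obtain ⟨K₂, h₂⟩ := hz
    refine ⟨K₁ + K₂, fun k hk => ?_⟩
    obtain ⟨j, rfl⟩ : ∃ j, k = K₁ + j := ⟨k - K₁, by omega⟩
    have : x ^ (K₁ + j) * (y * z) = (x ^ K₁ * y) * (x ^ j * z) := by ring
    rw [this]
    exact Subalgebra.mul_mem _ (h₁ K₁ le_rfl) (h₂ j (by omega))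

/-- `B_mid = B_fin[1/x]`: an element integral over `R[x, x⁻¹]` becomes integral over `R[x]`
after multiplication by a power of `x`. -/
theorem exists_pow_mul_mem_chart {x : F} (hx : x ≠ 0) {y : F}
    (hy : y ∈ chart R ({x, x⁻¹} : Set F)) :
    ∃ K : ℕ, x ^ K * y ∈ chart R ({x} : Set F) := by
  classical
  set Af : Subalgebra R F := Algebra.adjoin R ({x} : Set F) with hAf
  set Am : Subalgebra R F := Algebra.adjoin R ({x, x⁻¹} : Set F) with hAm
  have hle : Af ≤ Am := Algebra.adjoin_mono (by simp)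
  have hxA : x ∈ Af := Algebra.subset_adjoin rfl
  letI : Algebra Af Am := (Subalgebra.inclusion hle).toRingHom.toAlgebra
  haveI : IsScalarTower Af Am F := IsScalarTower.of_algebraMap_eq (fun _ => rfl)
  let xf : Af := ⟨x, hxA⟩
  haveI : IsLocalization (Submonoid.powers xf) Am := by
    rw [isLocalization_iff]
    refine ⟨?_, ?_, ?_⟩
    · rintro ⟨_, n, rfl⟩
      have hxinv : x⁻¹ ∈ Am := Algebra.subset_adjoin (by simp)
      refine IsUnit.of_mul_eq_one (⟨x⁻¹, hxinv⟩ ^ n) ?_
      apply Subtype.ext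
      change x ^ n * (x⁻¹) ^ n = 1
      rw [← mul_pow, mul_inv_cancel₀ hx, one_pow]
    · intro z
      obtain ⟨K, hK⟩ := exists_pow_mul_mem_adjoin (R := R) hx z.2
      refine ⟨⟨⟨x ^ K * z, hK K le_rfl⟩, ⟨xf ^ K, K, rfl⟩⟩, ?_⟩
      apply Subtype.ext
      change (z : F) * x ^ K = x ^ K * z
      ring
    · intro a b hab
      refine ⟨1, ?_⟩
      have : (a : F) = b := congrArg (fun t : Am => (t : F)) hab
      rw [Subtype.ext this]
  obtain ⟨⟨_, n, rfl⟩, hm⟩ :=
    IsIntegral.exists_multiple_integral_of_isLocalization (Submonoid.powers xf) (Rₘ := Am)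
      (S := F) y hy
  refine ⟨n, ?_⟩
  rw [mem_chart]
  have : (⟨xf ^ n, n, rfl⟩ : Submonoid.powers xf) • y = x ^ n * y := rfl
  rwa [this] at hm

/-- Every element of `B_fin` lies in `x ^ D • B_inf`. -/
theorem exists_inv_pow_mul_mem_chart {x : F} (hx : x ≠ 0) {y : F}
    (hy : y ∈ chart R ({x} : Set F)) :
    ∃ D : ℕ, x⁻¹ ^ D * y ∈ chart R ({x⁻¹} : Set F) := by
  have h1 : y ∈ chart R ({x⁻¹, x⁻¹⁻¹} : Set F) := by
    refine chart_mono ?_ hy
    rw [inv_inv]
    simp
  exact exists_pow_mul_mem_chart (inv_ne_zero hx) h1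

end Denominators

end Fermat.Agent.S18.H138

end
-- ===== PACK-END S18/H138/Charts.lean

-- ===== PACK-BEGIN S18/H438/Front/HeightOne.lean
section


/-!
# S18 / ALG-FRONT (helper438), part 3a: localisation at a height-one prime is a DVR

`B` a Noetherian integrally closed domain with fraction field `F`, `𝔭` a prime of height one.
Then `B_𝔭 ⊆ F` is a discrete valuation ring, realised as a `ValuationSubring F`:

    exists_dvr_of_height_one :
      ∃ W : ValuationSubring F, IsDiscreteValuationRing W ∧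
        ∀ f : F, f ∈ W ↔ ∃ a s : B, s ∉ 𝔭 ∧ f * algebraMap B F s = algebraMap B F a
-/

set_option autoImplicit false
set_option linter.style.haveILetI false
set_option linter.unusedSectionVars false

noncomputable section

namespace Fermat.Agent.S18.H438

open IsLocalRing

variable {B F : Type*} [CommRing B] [IsDomain B] [Field F] [Algebra B F] [IsFractionRing B F]

/-- Membership in the localisation `B_𝔭 ⊆ F`. -/
theorem mem_ofField_primeCompl_iff (𝔭 : Ideal B) [𝔭.IsPrime] (f : F) :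
    f ∈ Localization.subalgebra.ofField F 𝔭.primeCompl 𝔭.primeCompl_le_nonZeroDivisors ↔
      ∃ a s : B, s ∉ 𝔭 ∧ f * algebraMap B F s = algebraMap B F a := by
  constructor
  · rintro ⟨a, s, hs, rfl⟩
    refine ⟨a, s, hs, ?_⟩
    have hs0 : algebraMap B F s ≠ 0 := by
      intro h
      have : s = 0 := (FaithfulSMul.algebraMap_injective B F) (by rw [h, map_zero])
      exact hs (this ▸ 𝔭.zero_mem)
    field_simp
  · rintro ⟨a, s, hs, h⟩
    refine ⟨a, s, hs, ?_⟩
    have hs0 : algebraMap B F s ≠ 0 := by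
      intro h
      have : s = 0 := (FaithfulSMul.algebraMap_injective B F) (by rw [h, map_zero])
      exact hs (this ▸ 𝔭.zero_mem)
    rw [← h]
    field_simp

variable [IsNoetherianRing B] [IsIntegrallyClosed B]

/-- **Localisation at a height-one prime of a Noetherian normal domain is a DVR.** -/
theorem isDiscreteValuationRing_ofField_of_height_one (𝔭 : Ideal B) [h𝔭 : 𝔭.IsPrime]
    (h : 𝔭.height = 1) :
    IsDiscreteValuationRing
      (Localization.subalgebra.ofField F 𝔭.primeCompl 𝔭.primeCompl_le_nonZeroDivisors) := by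
  set A := Localization.subalgebra.ofField F 𝔭.primeCompl 𝔭.primeCompl_le_nonZeroDivisors with hA
  haveI hloc : IsLocalization.AtPrime A 𝔭 :=
    Localization.subalgebra.isLocalization_ofField F 𝔭.primeCompl 𝔭.primeCompl_le_nonZeroDivisors
  haveI : IsLocalRing A := IsLocalization.AtPrime.isLocalRing A 𝔭
  haveI : IsNoetherianRing A := IsLocalization.isNoetherianRing 𝔭.primeCompl A inferInstance
  haveI : IsIntegrallyClosed A :=
    isIntegrallyClosed_of_isLocalization A 𝔭.primeCompl 𝔭.primeCompl_le_nonZeroDivisors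
  have h𝔭bot : 𝔭 ≠ ⊥ := Ideal.ne_bot_of_height_eq_one h
  have hfin : 𝔭.FiniteHeight := by simp [𝔭.finiteHeight_iff, h]
  -- the maximal ideal is the extension of `𝔭`
  have hmax : maximalIdeal A = 𝔭.map (algebraMap B A) :=
    (IsLocalization.AtPrime.map_eq_maximalIdeal 𝔭 A).symm
  -- `A` is not a field
  have hnf : ¬ IsField A := by
    rw [isField_iff_maximalIdeal_eq]
    intro hbot
    obtain ⟨x, hx, hx0⟩ := Submodule.exists_mem_ne_zero_of_ne_bot h𝔭bot
    have hxmem : algebraMap B A x ∈ maximalIdeal A := by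
      rw [hmax]; exact Ideal.mem_map_of_mem _ hx
    rw [hbot, Ideal.mem_bot] at hxmem
    have hinj : Function.Injective (algebraMap B A) :=
      IsLocalization.injective A 𝔭.primeCompl_le_nonZeroDivisors
    exact hx0 (hinj (by rw [hxmem, map_zero]))
  -- every nonzero prime is the maximal ideal
  have huniq : ∀ P : Ideal A, P ≠ ⊥ → P.IsPrime → P = maximalIdeal A := by
    intro P hP hPprime
    have hP' : (P.comap (algebraMap B A)).IsPrime := Ideal.comap_isPrime _ _
    have hmapcomap : (P.comap (algebraMap B A)).map (algebraMap B A) = P :=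
      IsLocalization.map_under 𝔭.primeCompl A P
    have hle : P.comap (algebraMap B A) ≤ 𝔭 := by
      have hdisj : Disjoint (𝔭.primeCompl : Set B) (P.comap (algebraMap B A) : Set B) :=
        ((IsLocalization.isPrime_iff_isPrime_disjoint 𝔭.primeCompl A P).1 hPprime).2
      intro x hx
      by_contra hx𝔭
      exact Set.disjoint_left.1 hdisj hx𝔭 hx
    have hne : P.comap (algebraMap B A) ≠ ⊥ := by
      intro h0
      apply hP
      rw [← hmapcomap, h0, Ideal.map_bot]
    have hfin' : (P.comap (algebraMap B A)).FiniteHeight :=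
      Ideal.finiteHeight_of_le hle h𝔭.ne_top
    have h1 : 𝔭.height ≤ (P.comap (algebraMap B A)).height := by
      rw [h]
      rw [Order.one_le_iff_pos, pos_iff_ne_zero, Ne, Ideal.height_eq_zero_iff_eq_bot]
      exact hne
    have heq : P.comap (algebraMap B A) = 𝔭 := Ideal.eq_of_le_of_height_le (h := hle) (h_height := h1)
    rw [hmax, ← heq, hmapcomap]
  have htfae := (IsDiscreteValuationRing.TFAE A hnf).out 0 3
  rw [htfae]
  refine ⟨inferInstance, maximalIdeal A, ⟨?_, inferInstance⟩, ?_⟩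
  · exact isField_iff_maximalIdeal_eq.not.1 hnf
  · rintro P ⟨hP, hPprime⟩
    exact huniq P hP hPprime

/-- **`B_𝔭` as a discrete valuation subring of `F`.** -/
theorem exists_dvr_of_height_one (𝔭 : Ideal B) [h𝔭 : 𝔭.IsPrime] (h : 𝔭.height = 1) :
    ∃ W : ValuationSubring F, IsDiscreteValuationRing W ∧
      ∀ f : F, f ∈ W ↔ ∃ a s : B, s ∉ 𝔭 ∧ f * algebraMap B F s = algebraMap B F a := by
  set A := Localization.subalgebra.ofField F 𝔭.primeCompl 𝔭.primeCompl_le_nonZeroDivisors with hA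
  haveI hdvr : IsDiscreteValuationRing A := isDiscreteValuationRing_ofField_of_height_one 𝔭 h
  have hval : ∀ f : F, f ∈ A ∨ f⁻¹ ∈ A := by
    intro f
    rcases ValuationRing.isInteger_or_isInteger A f with ⟨a, ha⟩ | ⟨a, ha⟩
    · left; rw [← ha]; exact a.2
    · right; rw [← ha]; exact a.2
  let W : ValuationSubring F := { A.toSubring with mem_or_inv_mem' := hval }
  have hWA : ∀ f : F, f ∈ W ↔ f ∈ A := fun f => Iff.rfl
  refine ⟨W, ?_, fun f => ?_⟩
  · -- transfer along the identity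
    let e : A ≃+* W :=
      { toFun := fun a => ⟨a.1, (hWA _).2 a.2⟩
        invFun := fun b => ⟨b.1, (hWA _).1 b.2⟩
        left_inv := fun _ => rfl
        right_inv := fun _ => rfl
        map_mul' := fun _ _ => rfl
        map_add' := fun _ _ => rfl }
    exact IsDiscreteValuationRing.RingEquivClass.isDiscreteValuationRing e
  · rw [hWA]
    exact mem_ofField_primeCompl_iff 𝔭 f

end Fermat.Agent.S18.H438

end
end
-- ===== PACK-END S18/H438/Front/HeightOne.lean

-- ===== PACK-BEGIN S18/H845/PrimElt.lean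
section


/-!
# S18 / d1(c): compositum with algebraic constants, elementwise

`E ⊆ K ⊆ L`, `E` perfect.  If `L` is generated over `K` by elements algebraic over `E`, then every
element of `L` lies in `K[α]` for a single `α` algebraic over `E`.
-/

set_option autoImplicit false
set_option linter.unusedSectionVars false

namespace Fermat.Agent.S18.H845

open IntermediateField

section PE

variable {E K L : Type*} [Field E] [Field K] [Field L] [Algebra E K] [Algebra K L] [Algebra E L]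
  [IsScalarTower E K L] [PerfectField E]

omit [PerfectField E] in
lemma adjoin_E_le_adjoin_K (α : L) :
    ((Algebra.adjoin E {α} : Subalgebra E L) : Set L) ⊆ (Algebra.adjoin K {α} : Subalgebra K L) := by
  have h : Algebra.adjoin E {α} ≤ (Algebra.adjoin K {α}).restrictScalars E :=
    Algebra.adjoin_le (by
      rintro x ⟨rfl⟩
      exact Algebra.self_mem_adjoin_singleton K _)
  exact h

/-- Two algebraic constants lie in `E[α]` for a single algebraic constant `α`. -/
lemma exists_common_adjoin {α₁ α₂ : L} (h₁ : IsAlgebraic E α₁) (h₂ : IsAlgebraic E α₂) :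
    ∃ α : L, IsAlgebraic E α ∧ α₁ ∈ Algebra.adjoin K {α} ∧ α₂ ∈ Algebra.adjoin K {α} := by
  let M : IntermediateField E L := IntermediateField.adjoin E {α₁, α₂}
  have hfin : FiniteDimensional E M :=
    IntermediateField.finiteDimensional_adjoin_pair h₁.isIntegral h₂.isIntegral
  have halg : Algebra.IsAlgebraic E M := Algebra.IsAlgebraic.of_finite E M
  obtain ⟨β, hβ⟩ := Field.exists_primitive_element E M
  have hβalg : IsAlgebraic E (β : L) := by
    have := halg.isAlgebraic β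
    exact (isAlgebraic_algebraMap_iff (algebraMap M L).injective).mpr this
  have hM : E⟮(β : L)⟯ = M := by
    have h1 := congrArg (IntermediateField.map M.val) hβ
    rw [IntermediateField.adjoin_map, Set.image_singleton] at h1
    rw [show M.val β = (β : L) from rfl] at h1
    rw [h1]
    ext x
    simp only [IntermediateField.mem_map, IntermediateField.mem_top, true_and]
    constructor
    · rintro ⟨y, rfl⟩
      exact y.2
    · intro hx
      exact ⟨⟨x, hx⟩, rfl⟩
  have hsub : ∀ x ∈ M, x ∈ Algebra.adjoin K {(β : L)} := by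
    intro x hx
    rw [← hM] at hx
    have hx' : x ∈ (E⟮(β : L)⟯).toSubalgebra := hx
    rw [IntermediateField.adjoin_simple_toSubalgebra_of_isAlgebraic hβalg] at hx'
    exact adjoin_E_le_adjoin_K (K := K) (β : L) hx'
  refine ⟨β, hβalg, hsub _ ?_, hsub _ ?_⟩
  · exact IntermediateField.subset_adjoin E _ (by simp)
  · exact IntermediateField.subset_adjoin E _ (by simp)

/-- If `L` is generated over `K` by elements algebraic over `E`, every element of `L` lies in
`K[α]` for one `α` algebraic over `E`. -/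
theorem exists_mem_adjoin_singleton
    (hgen : IntermediateField.adjoin K {α : L | IsAlgebraic E α} = ⊤) (f : L) :
    ∃ α : L, IsAlgebraic E α ∧ f ∈ Algebra.adjoin K {α} := by
  have hf : f ∈ IntermediateField.adjoin K {α : L | IsAlgebraic E α} := by
    rw [hgen]; exact IntermediateField.mem_top
  induction hf using IntermediateField.adjoin_induction with
  | mem x hx => exact ⟨x, hx, Algebra.self_mem_adjoin_singleton K x⟩
  | algebraMap x => exact ⟨0, isAlgebraic_zero, Subalgebra.algebraMap_mem _ x⟩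
  | add x y _ _ hx hy =>
    obtain ⟨α₁, h₁, hx⟩ := hx
    obtain ⟨α₂, h₂, hy⟩ := hy
    obtain ⟨α, hα, ha₁, ha₂⟩ := exists_common_adjoin (K := K) h₁ h₂
    have l₁ : Algebra.adjoin K {α₁} ≤ Algebra.adjoin K {α} :=
      Algebra.adjoin_le (by rintro z ⟨rfl⟩; exact ha₁)
    have l₂ : Algebra.adjoin K {α₂} ≤ Algebra.adjoin K {α} :=
      Algebra.adjoin_le (by rintro z ⟨rfl⟩; exact ha₂)
    exact ⟨α, hα, add_mem (l₁ hx) (l₂ hy)⟩
  | mul x y _ _ hx hy =>
    obtain ⟨α₁, h₁, hx⟩ := hx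
    obtain ⟨α₂, h₂, hy⟩ := hy
    obtain ⟨α, hα, ha₁, ha₂⟩ := exists_common_adjoin (K := K) h₁ h₂
    have l₁ : Algebra.adjoin K {α₁} ≤ Algebra.adjoin K {α} :=
      Algebra.adjoin_le (by rintro z ⟨rfl⟩; exact ha₁)
    have l₂ : Algebra.adjoin K {α₂} ≤ Algebra.adjoin K {α} :=
      Algebra.adjoin_le (by rintro z ⟨rfl⟩; exact ha₂)
    exact ⟨α, hα, mul_mem (l₁ hx) (l₂ hy)⟩
  | inv x _ hx =>
    obtain ⟨α, hα, hx⟩ := hx
    refine ⟨α, hα, ?_⟩
    have hαK : IsAlgebraic K α := hα.tower_top K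
    rw [← IntermediateField.adjoin_simple_toSubalgebra_of_isAlgebraic hαK] at hx ⊢
    have hx' : x ∈ K⟮α⟯ := hx
    exact (show x⁻¹ ∈ K⟮α⟯ from inv_mem hx')

end PE

end Fermat.Agent.S18.H845

end
-- ===== PACK-END S18/H845/PrimElt.lean

-- ===== PACK-BEGIN S18/H558/Cech.lean
section






/-!
# S18 / piece b5: connectedness via a two-chart Cech argument (pure algebra, Mathlib only)

Setting: `A` a commutative ring, `w : A`, `B` a commutative `A`-algebra ("`B_mid`"),
`Bfin Binf : Subalgebra A B` the two charts.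

* `lift_idem_mod_pow` : an idempotent modulo `w` lifts to an idempotent modulo `w ^ n`.
* `idem_congr_mod_pow` : two idempotents modulo `w ^ n` that agree modulo `w` agree modulo `w ^ n`.
* `cech_idempotent_trivial` : if the `w`-power torsion of `B / (Bfin + Binf)` is killed by `w ^ c`,
  `Bfin ∩ Binf = A`, `A / w → Bfin / w` is injective and `(w)` is prime in `A`, then every
  compatible pair of idempotents of `Bfin / w`, `Binf / w` is `(0,0)` or `(1,1)`.
* `exists_torsion_bound` : over a noetherian ring, a f.g. module has bounded `w`-power torsion.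
-/

namespace Fermat.Agent.S18.H558

section Idem

variable {R : Type*} [CommRing R]

/-- An idempotent modulo `w` lifts to an idempotent modulo `w ^ n`. -/
theorem lift_idem_mod_pow (w e : R) (he : e ^ 2 - e ∈ Ideal.span {w}) (n : ℕ) :
    ∃ f : R, f - e ∈ Ideal.span {w} ∧ f ^ 2 - f ∈ Ideal.span {w ^ n} := by
  rcases Nat.eq_zero_or_pos n with rfl | hn
  · exact ⟨e, by simp, by simp⟩
  have hle : Ideal.span {w ^ n} ≤ Ideal.span {w} := by
    rw [Ideal.span_singleton_le_span_singleton]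
    exact dvd_pow_self w hn.ne'
  let φ : R ⧸ Ideal.span {w ^ n} →+* R ⧸ Ideal.span {w} := Ideal.Quotient.factor hle
  have hφ : ∀ x : R, φ (Ideal.Quotient.mk _ x) = Ideal.Quotient.mk _ x := fun x => rfl
  have hker : ∀ x ∈ RingHom.ker φ, IsNilpotent x := by
    intro x hx
    obtain ⟨r, rfl⟩ := Ideal.Quotient.mk_surjective x
    rw [RingHom.mem_ker, hφ, Ideal.Quotient.eq_zero_iff_mem, Ideal.mem_span_singleton] at hx
    obtain ⟨s, rfl⟩ := hx
    refine ⟨n, ?_⟩
    rw [← map_pow, Ideal.Quotient.eq_zero_iff_mem, Ideal.mem_span_singleton, mul_pow]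
    exact Dvd.intro _ rfl
  have hid : IsIdempotentElem (Ideal.Quotient.mk (Ideal.span {w}) e) := by
    have : Ideal.Quotient.mk (Ideal.span {w}) (e ^ 2 - e) = 0 :=
      Ideal.Quotient.eq_zero_iff_mem.2 he
    rw [map_sub, sub_eq_zero, map_pow, pow_two] at this
    exact this
  obtain ⟨e', he', hφe'⟩ := exists_isIdempotentElem_eq_of_ker_isNilpotent φ hker
    (Ideal.Quotient.mk _ e) ⟨Ideal.Quotient.mk _ e, hφ e⟩ hid
  obtain ⟨f, rfl⟩ := Ideal.Quotient.mk_surjective e'
  refine ⟨f, ?_, ?_⟩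
  · rw [hφ] at hφe'
    rw [← Ideal.Quotient.eq_zero_iff_mem, map_sub, hφe', sub_self]
  · rw [← Ideal.Quotient.eq_zero_iff_mem, map_sub, map_pow, pow_two, he'.eq, sub_self]

/-- Two idempotents modulo `w ^ n` which agree modulo `w` agree modulo `w ^ n`. -/
theorem idem_congr_mod_pow (w f g : R) (n : ℕ)
    (hf : f ^ 2 - f ∈ Ideal.span {w ^ n}) (hg : g ^ 2 - g ∈ Ideal.span {w ^ n})
    (hfg : f - g ∈ Ideal.span {w}) : f - g ∈ Ideal.span {w ^ n} := by
  have hf' : IsIdempotentElem (Ideal.Quotient.mk (Ideal.span {w ^ n}) f) := by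
    have := Ideal.Quotient.eq_zero_iff_mem.2 hf
    rw [map_sub, sub_eq_zero, map_pow, pow_two] at this
    exact this
  have hg' : IsIdempotentElem (Ideal.Quotient.mk (Ideal.span {w ^ n}) g) := by
    have := Ideal.Quotient.eq_zero_iff_mem.2 hg
    rw [map_sub, sub_eq_zero, map_pow, pow_two] at this
    exact this
  have hnil : IsNilpotent (Ideal.Quotient.mk (Ideal.span {w ^ n}) f -
      Ideal.Quotient.mk (Ideal.span {w ^ n}) g) := by
    rw [Ideal.mem_span_singleton] at hfg
    obtain ⟨s, hs⟩ := hfg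
    refine ⟨n, ?_⟩
    rw [← map_sub, ← map_pow, Ideal.Quotient.eq_zero_iff_mem, Ideal.mem_span_singleton, hs, mul_pow]
    exact Dvd.intro _ rfl
  have := eq_of_isNilpotent_sub_of_isIdempotentElem hf' hg' hnil
  rw [← Ideal.Quotient.eq_zero_iff_mem, map_sub, this, sub_self]

end Idem

section Cech

variable {A B : Type*} [CommRing A] [CommRing B] [Algebra A B]

/-- **Two-chart Cech connectedness lemma.**
`B` plays the role of `B_mid`, `Bfin`, `Binf` are the two charts.  If the `w`-power torsion of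
`B / (Bfin + Binf)` is killed by `w ^ c`, `Bfin ∩ Binf` is (the image of) `A`,
`A / w → Bfin / w` is injective and `(w)` is a prime ideal of `A`, then a pair of elements
`e₁ ∈ Bfin`, `e₂ ∈ Binf`, idempotent modulo `w` in their charts and congruent modulo `w` in `B`,
is congruent to `(0, 0)` or to `(1, 1)` modulo `w`. -/
theorem cech_idempotent_trivial (w : A) (Bfin Binf : Subalgebra A B) (c : ℕ)
    (hH1 : ∀ h : B, algebraMap A B w ^ (c + 1) * h ∈ Bfin.toSubmodule ⊔ Binf.toSubmodule →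
      algebraMap A B w ^ c * h ∈ Bfin.toSubmodule ⊔ Binf.toSubmodule)
    (hH0 : ∀ b : B, b ∈ Bfin → b ∈ Binf → ∃ a : A, algebraMap A B a = b)
    (hinj : ∀ a : A, (∃ t ∈ Bfin, algebraMap A B a = algebraMap A B w * t) → w ∣ a)
    (hprime : ∀ a b : A, w ∣ a * b → w ∣ a ∨ w ∣ b)
    (e₁ e₂ : B) (he₁ : e₁ ∈ Bfin) (he₂ : e₂ ∈ Binf)
    (hi₁ : ∃ t ∈ Bfin, e₁ ^ 2 - e₁ = algebraMap A B w * t)
    (hi₂ : ∃ t ∈ Binf, e₂ ^ 2 - e₂ = algebraMap A B w * t)
    (h₁₂ : ∃ t : B, e₁ - e₂ = algebraMap A B w * t) :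
    ((∃ t ∈ Bfin, e₁ = algebraMap A B w * t) ∧ (∃ t ∈ Binf, e₂ = algebraMap A B w * t)) ∨
    ((∃ t ∈ Bfin, 1 - e₁ = algebraMap A B w * t) ∧ (∃ t ∈ Binf, 1 - e₂ = algebraMap A B w * t)) := by
  set W : B := algebraMap A B w with hW
  -- Step 1: lift in the two charts.
  have key : ∀ (C : Subalgebra A B) (e : B) (he : e ∈ C)
      (hi : ∃ t ∈ C, e ^ 2 - e = W * t),
      ∃ f ∈ C, (∃ t ∈ C, f - e = W * t) ∧ ∃ t ∈ C, f ^ 2 - f = W ^ (c + 1) * t := by
    intro C e he hi
    obtain ⟨t, ht, hte⟩ := hi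
    have hw' : (⟨e, he⟩ : C) ^ 2 - ⟨e, he⟩ ∈ Ideal.span {algebraMap A C w} := by
      rw [Ideal.mem_span_singleton]
      refine ⟨⟨t, ht⟩, Subtype.ext ?_⟩
      simpa using hte
    obtain ⟨f, hf1, hf2⟩ := lift_idem_mod_pow (algebraMap A C w) ⟨e, he⟩ hw' (c + 1)
    rw [Ideal.mem_span_singleton] at hf1 hf2
    obtain ⟨s1, hs1⟩ := hf1
    obtain ⟨s2, hs2⟩ := hf2
    refine ⟨f, f.2, ⟨s1, s1.2, ?_⟩, ⟨s2, s2.2, ?_⟩⟩
    · simpa using congrArg Subtype.val hs1
    · simpa using congrArg Subtype.val hs2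
  obtain ⟨f, hfC, ⟨s₁, hs₁C, hs₁⟩, ⟨u₁, hu₁C, hu₁⟩⟩ := key Bfin e₁ he₁ hi₁
  obtain ⟨g, hgC, ⟨s₂, hs₂C, hs₂⟩, ⟨u₂, hu₂C, hu₂⟩⟩ := key Binf e₂ he₂ hi₂
  -- Step 2: compare in `B`.
  obtain ⟨t₁₂, ht₁₂⟩ := h₁₂
  have hfg : f - g ∈ Ideal.span {W ^ (c + 1)} := by
    refine idem_congr_mod_pow W f g (c + 1) ?_ ?_ ?_
    · rw [Ideal.mem_span_singleton]; exact ⟨u₁, hu₁⟩
    · rw [Ideal.mem_span_singleton]; exact ⟨u₂, hu₂⟩
    · rw [Ideal.mem_span_singleton]
      refine ⟨s₁ + t₁₂ - s₂, ?_⟩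
      have : f - g = (f - e₁) + (e₁ - e₂) - (g - e₂) := by ring
      rw [this, hs₁, ht₁₂, hs₂]; ring
  rw [Ideal.mem_span_singleton] at hfg
  obtain ⟨h, hh⟩ := hfg
  -- Step 3: kill the obstruction.
  have hmem : W ^ (c + 1) * h ∈ Bfin.toSubmodule ⊔ Binf.toSubmodule := by
    rw [← hh]
    exact Submodule.sub_mem _ (Submodule.mem_sup_left hfC) (Submodule.mem_sup_right hgC)
  obtain ⟨f', hf'C, g', hg'C, hfg'⟩ := Submodule.mem_sup.1 (hH1 h hmem)
  have hf'C' : f' ∈ Bfin := hf'C
  have hg'C' : g' ∈ Binf := hg'C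
  have hWfin : W ∈ Bfin := Bfin.algebraMap_mem w
  have hWinf : W ∈ Binf := Binf.algebraMap_mem w
  have haeq : f - W * f' = g + W * g' := by
    have h1 : f - g = W * (f' + g') := by
      rw [hh, hfg', pow_succ]; ring
    have : f - W * f' - (g + W * g') = (f - g) - W * (f' + g') := by ring
    rw [← sub_eq_zero, this, h1, sub_self]
  obtain ⟨a, ha⟩ := hH0 (f - W * f') (Bfin.sub_mem hfC (Bfin.mul_mem hWfin hf'C'))
    (by rw [haeq]; exact Binf.add_mem hgC (Binf.mul_mem hWinf hg'C'))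
  -- Step 4: `a` is idempotent modulo `w` in `A`.
  have ha1 : ∃ t ∈ Bfin, algebraMap A B a - e₁ = W * t :=
    ⟨s₁ - f', Bfin.sub_mem hs₁C hf'C', by
      rw [ha]
      have : f - W * f' - e₁ = (f - e₁) - W * f' := by ring
      rw [this, hs₁]; ring⟩
  have ha2 : ∃ t ∈ Binf, algebraMap A B a - e₂ = W * t :=
    ⟨s₂ + g', Binf.add_mem hs₂C hg'C', by
      rw [ha, haeq]
      have : g + W * g' - e₂ = (g - e₂) + W * g' := by ring
      rw [this, hs₂]; ring⟩
  obtain ⟨t₁, ht₁C, ht₁⟩ := ha1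
  obtain ⟨t₂, ht₂C, ht₂⟩ := ha2
  obtain ⟨v₁, hv₁C, hv₁⟩ := hi₁
  have hdvd : w ∣ a * (a - 1) := by
    apply hinj
    refine ⟨v₁ + t₁ * (algebraMap A B a + e₁ - 1), ?_, ?_⟩
    · exact Bfin.add_mem hv₁C (Bfin.mul_mem ht₁C
        (Bfin.sub_mem (Bfin.add_mem (Bfin.algebraMap_mem a) he₁) Bfin.one_mem))
    · have : algebraMap A B (a * (a - 1)) =
          (e₁ ^ 2 - e₁) + (algebraMap A B a - e₁) * (algebraMap A B a + e₁ - 1) := by
        rw [map_mul, map_sub, map_one]; ring
      rw [this, hv₁, ht₁]; ring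
  rcases hprime _ _ hdvd with h0 | h1
  · left
    obtain ⟨b, rfl⟩ := h0
    refine ⟨⟨algebraMap A B b - t₁, Bfin.sub_mem (Bfin.algebraMap_mem b) ht₁C, ?_⟩,
      ⟨algebraMap A B b - t₂, Binf.sub_mem (Binf.algebraMap_mem b) ht₂C, ?_⟩⟩
    · have : e₁ = algebraMap A B (w * b) - (algebraMap A B (w * b) - e₁) := by ring
      rw [this, ht₁, map_mul]; ring
    · have : e₂ = algebraMap A B (w * b) - (algebraMap A B (w * b) - e₂) := by ring
      rw [this, ht₂, map_mul]; ring
  · right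
    obtain ⟨b, hb⟩ := h1
    have hab : algebraMap A B a = 1 + W * algebraMap A B b := by
      have : a = 1 + w * b := by rw [← hb]; ring
      rw [this, map_add, map_one, map_mul]
    refine ⟨⟨t₁ - algebraMap A B b, Bfin.sub_mem ht₁C (Bfin.algebraMap_mem b), ?_⟩,
      ⟨t₂ - algebraMap A B b, Binf.sub_mem ht₂C (Binf.algebraMap_mem b), ?_⟩⟩
    · have : 1 - e₁ = (algebraMap A B a - e₁) - (algebraMap A B a - 1) := by ring
      rw [this, ht₁, hab]; ring
    · have : 1 - e₂ = (algebraMap A B a - e₂) - (algebraMap A B a - 1) := by ring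
      rw [this, ht₂, hab]; ring

end Cech

section Torsion

variable {A M : Type*} [CommRing A] [AddCommGroup M] [Module A M]

/-- Over a noetherian ring, the `w`-power torsion of a finitely generated module is killed by a
single power `w ^ c`. -/
theorem exists_torsion_bound [IsNoetherianRing A] [Module.Finite A M] (w : A) :
    ∃ c : ℕ, ∀ (n : ℕ) (x : M), w ^ n • x = 0 → w ^ c • x = 0 := by
  have hN : IsNoetherian A M := isNoetherian_of_isNoetherianRing_of_finite A M
  let K : ℕ →o Submodule A M :=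
    ⟨fun n => LinearMap.ker (LinearMap.lsmul A M (w ^ n)), by
      intro a b hab x hx
      simp only [LinearMap.mem_ker, LinearMap.lsmul_apply] at hx ⊢
      obtain ⟨d, rfl⟩ := Nat.exists_eq_add_of_le hab
      rw [pow_add, mul_comm, mul_smul, hx, smul_zero]⟩
  have hK : ∀ (n : ℕ) (x : M), x ∈ K n ↔ w ^ n • x = 0 := fun n x => by
    change x ∈ LinearMap.ker (LinearMap.lsmul A M (w ^ n)) ↔ _
    rw [LinearMap.mem_ker, LinearMap.lsmul_apply]
  obtain ⟨c, hc⟩ := monotone_stabilizes_iff_noetherian.2 hN K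
  refine ⟨c, fun n x hx => ?_⟩
  rcases le_total n c with hnc | hcn
  · obtain ⟨d, rfl⟩ := Nat.exists_eq_add_of_le hnc
    rw [pow_add, mul_comm, mul_smul, hx, smul_zero]
  · have h1 : x ∈ K n := (hK n x).2 hx
    have h2 : x ∈ K c := by rw [hc n hcn]; exact h1
    exact (hK c x).1 h2

end Torsion

end Fermat.Agent.S18.H558

end
-- ===== PACK-END S18/H558/Cech.lean

-- ===== PACK-BEGIN S18/H203/IntegralDiv.lean
section


/-!
# S18 / b1 (helper203): divisibility by a prime element in an integral closure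

`S` an integrally closed domain with fraction field `K`, `w ∈ S` a prime element, `t ∈ S` with
`w ∤ t`, `F / K` a field extension.  If `w z` and `t z` are integral over `S` for some `z ∈ F`,
then `z` is integral over `S`.

Consequence (`dvd_of_dvd_smul`): in the integral closure `B` of `S` in `F`,
`w ∣ t • b → w ∣ b`; i.e. `B / w B` is a torsion-free `S / w S`-module
(`(w, t)` is a regular sequence on `B`).
-/

set_option autoImplicit false

namespace Fermat.Agent.S18.H203

open Polynomial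

section Prime

variable {S : Type*} [CommRing S] [IsDomain S]

/-- If `w` is prime, `w ∤ t` and `w ^ i ∣ t ^ i * a`, then `w ^ i ∣ a`. -/
theorem pow_dvd_of_pow_dvd_pow_mul {w t : S} (hw : Prime w) (ht : ¬ w ∣ t) (i j : ℕ) {a : S}
    (h : w ^ i ∣ t ^ j * a) : w ^ i ∣ a :=
  hw.pow_dvd_of_dvd_mul_left i (fun h' => ht (hw.dvd_of_dvd_pow h')) h

end Prime

section Field

variable {S K : Type*} [CommRing S] [IsDomain S] [Field K] [Algebra S K] [IsFractionRing S K]

/-- An element `c` of the fraction field with `w ^ i * c ∈ S` and `t ^ i * c ∈ S`, where `w` is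
prime and `w ∤ t`, lies in `S`. -/
theorem mem_range_of_pow_mul_mem {w t : S} (hw : Prime w) (ht : ¬ w ∣ t) (i : ℕ) (c : K)
    (h1 : algebraMap S K w ^ i * c ∈ (algebraMap S K).range)
    (h2 : algebraMap S K t ^ i * c ∈ (algebraMap S K).range) :
    c ∈ (algebraMap S K).range := by
  obtain ⟨a, ha⟩ := h1
  obtain ⟨a', ha'⟩ := h2
  have hinj : Function.Injective (algebraMap S K) := IsFractionRing.injective S K
  have hw0 : algebraMap S K w ≠ 0 := by
    simpa using (map_ne_zero_iff _ hinj).mpr hw.ne_zero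
  -- `t ^ i * a = w ^ i * a'`
  have hrel : t ^ i * a = w ^ i * a' := by
    apply hinj
    simp only [map_mul, map_pow, ha, ha']
    ring
  have hdvd : w ^ i ∣ a := pow_dvd_of_pow_dvd_pow_mul hw ht i i ⟨a', hrel⟩
  obtain ⟨s, rfl⟩ := hdvd
  refine ⟨s, ?_⟩
  have h3 : algebraMap S K w ^ i * algebraMap S K s = algebraMap S K w ^ i * c := by
    rw [← ha, map_mul, map_pow]
  exact mul_left_cancel₀ (pow_ne_zero i hw0) h3

end Field

section Integral

variable {S K F : Type*} [CommRing S] [IsDomain S] [IsIntegrallyClosed S]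
  [Field K] [Algebra S K] [IsFractionRing S K]
  [Field F] [Algebra K F] [Algebra S F] [IsScalarTower S K F]

omit [IsIntegrallyClosed S] [IsDomain S] [IsFractionRing S K] in
/-- A monic polynomial over `K` all of whose coefficients lie in `S` is the image of a monic
polynomial over `S`. -/
theorem exists_monic_map_eq {P : K[X]} (hP : P.Monic)
    (hc : ∀ n, P.coeff n ∈ (algebraMap S K).range) :
    ∃ Q : S[X], Q.Monic ∧ Q.map (algebraMap S K) = P := by
  have hl : P ∈ Polynomial.lifts (algebraMap S K) := by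
    rw [Polynomial.lifts_iff_coeff_lifts]
    intro n
    obtain ⟨a, ha⟩ := hc n
    exact ⟨a, ha⟩
  obtain ⟨Q, hQ, -, hQm⟩ := Polynomial.lifts_and_degree_eq_and_monic hl hP
  exact ⟨Q, hQm, hQ⟩

/-- The coefficients of the minimal polynomial over `K` of `a • z` (`a ∈ S` nonzero, `a • z`
integral over `S`) : `coeff i * a ^ (d - i) ∈ S`. -/
theorem coeff_minpoly_mul_pow_mem {a : S} (ha : a ≠ 0) {z : F} (hz : IsIntegral K z)
    (haz : IsIntegral S (algebraMap S F a * z)) (i : ℕ) :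
    (minpoly K z).coeff i * algebraMap S K a ^ ((minpoly K z).natDegree - i) ∈
      (algebraMap S K).range := by
  have hinj : Function.Injective (algebraMap S K) := IsFractionRing.injective S K
  have ha0 : algebraMap S K a ≠ 0 := by
    simpa using (map_ne_zero_iff _ hinj).mpr ha
  -- minimal polynomial of `a • z` over `K`
  have h1 : minpoly K (algebraMap S K a • z) = (minpoly K z).scaleRoots (algebraMap S K a) :=
    IsIntegrallyClosed.minpoly_smul ha0 hz
  have h2 : algebraMap S K a • z = algebraMap S F a * z := by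
    rw [Algebra.smul_def, ← IsScalarTower.algebraMap_apply]
  rw [h2] at h1
  have h3 : minpoly K (algebraMap S F a * z) =
      (minpoly S (algebraMap S F a * z)).map (algebraMap S K) :=
    minpoly.isIntegrallyClosed_eq_field_fractions' K haz
  have h4 : ((minpoly K z).scaleRoots (algebraMap S K a)).coeff i =
      (minpoly K z).coeff i * algebraMap S K a ^ ((minpoly K z).natDegree - i) :=
    Polynomial.coeff_scaleRoots _ _ _
  rw [← h4, ← h1, h3, Polynomial.coeff_map]
  exact ⟨_, rfl⟩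

/-- **Key lemma.**  If `w z` and `t z` are integral over the integrally closed domain `S`, where
`w` is a prime element and `w ∤ t`, then `z` is integral over `S`. -/
theorem isIntegral_of_isIntegral_mul (K : Type*) [Field K] [Algebra S K] [IsFractionRing S K]
    [Algebra K F] [IsScalarTower S K F] {w t : S} (hw : Prime w) (ht : ¬ w ∣ t) {z : F}
    (h1 : IsIntegral S (algebraMap S F w * z)) (h2 : IsIntegral S (algebraMap S F t * z)) :
    IsIntegral S z := by
  have hinjK : Function.Injective (algebraMap S K) := IsFractionRing.injective S K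
  have hw0 : algebraMap S K w ≠ 0 := by
    simpa using (map_ne_zero_iff _ hinjK).mpr hw.ne_zero
  have hwF : algebraMap S F w ≠ 0 := by
    rw [IsScalarTower.algebraMap_apply S K F]
    simpa using (map_ne_zero_iff _ (algebraMap K F).injective).mpr hw0
  have ht0 : t ≠ 0 := fun h => ht (h ▸ dvd_zero w)
  -- `z` is integral (algebraic) over `K`
  have hzK : IsIntegral K z := by
    have h3 : IsIntegral K (algebraMap S F w * z) := h1.tower_top
    have h4 : IsIntegral K (algebraMap K F (algebraMap S K w)⁻¹) := isIntegral_algebraMap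
    have h5 := h4.mul h3
    rw [map_inv₀, ← IsScalarTower.algebraMap_apply S K F, inv_mul_cancel_left₀ hwF] at h5
    exact h5
  -- all coefficients of the minimal polynomial lie in `S`
  have hcoeff : ∀ n, (minpoly K z).coeff n ∈ (algebraMap S K).range := by
    intro n
    have e1 := coeff_minpoly_mul_pow_mem (K := K) hw.ne_zero hzK h1 n
    have e2 := coeff_minpoly_mul_pow_mem (K := K) ht0 hzK h2 n
    rw [mul_comm] at e1 e2
    exact mem_range_of_pow_mul_mem hw ht _ _ e1 e2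
  obtain ⟨Q, hQm, hQ⟩ := exists_monic_map_eq (minpoly.monic hzK) hcoeff
  refine ⟨Q, hQm, ?_⟩
  have h6 : Polynomial.aeval z (Q.map (algebraMap S K)) = 0 := by
    rw [hQ]; exact minpoly.aeval K z
  rwa [Polynomial.aeval_map_algebraMap] at h6

end Integral

end Fermat.Agent.S18.H203

end
-- ===== PACK-END S18/H203/IntegralDiv.lean

-- ===== PACK-BEGIN S18/H214/LocalUFD.lean
section


/-!
# S18, route K, pieces b3/b4 — local structure at a closed point of the special fibre

Mathlib-only.  `A` is a noetherian local domain, `w ∈ A` a non-unit such that `A ⧸ (w)` is a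
principal ideal domain (in the application: `A = B_𝔓`, `𝔓 ∋ w` a maximal ideal of the chart `B`,
and `A ⧸ (w)` is the local ring of the *normal* special fibre, piece b2).

* `isPrincipal_of_notMem_of_map_isPrincipal` : a prime `𝔮 ∌ w` whose image in `A ⧸ (w)` is principal
  is principal (Nakayama).
* `ufd_of_quotient_isPrincipalIdealRing` : `A` is a UFD (Kaplansky's criterion).
* `exists_unit_mul_pow_of_dvd_count` : in a UFD, an element all of whose prime multiplicities are
  divisible by `p` is a unit times a `p`-th power.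
* `local_kummer_structure` : (LS) if `u = a / s` with `a ≡ s ≢ 0 mod w` and `u ∈ (A_(π))ˣ · (Fˣ)^p`
  for every prime element `π` of `A` not associated to `w`, then `u = c · (t₁ / t₂)^p` with
  `c ∈ Aˣ`, `c ≡ 1`, `t₁ ≡ t₂ ≢ 0 mod w`.
-/

set_option autoImplicit false

namespace Fermat.Agent.S18.H214

section Principal

variable {A : Type*} [CommRing A]

/-- Nakayama: if `w` lies in the Jacobson radical, `𝔮` is a finitely generated prime ideal not
containing `w`, and the image of `𝔮` in `A ⧸ (w)` is principal, then `𝔮` is principal. -/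
theorem isPrincipal_of_notMem_of_map_isPrincipal (w : A) (hw : w ∈ (⊥ : Ideal A).jacobson)
    (𝔮 : Ideal A) [h𝔮 : 𝔮.IsPrime] (hfg : 𝔮.FG) (hq : w ∉ 𝔮)
    (hprin : (𝔮.map (Ideal.Quotient.mk (Ideal.span {w}))).IsPrincipal) :
    ∃ f : A, 𝔮 = Ideal.span {f} := by
  obtain ⟨fbar, hfbar⟩ := hprin
  have hfmem : fbar ∈ 𝔮.map (Ideal.Quotient.mk (Ideal.span {w})) := by
    rw [hfbar]; exact Submodule.mem_span_singleton_self _
  obtain ⟨f, hf, rfl⟩ :=
    (Ideal.mem_map_iff_of_surjective _ Ideal.Quotient.mk_surjective).1 hfmem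
  refine ⟨f, le_antisymm ?_ ((Ideal.span_singleton_le_iff_mem _).2 hf)⟩
  have key : 𝔮 ≤ Ideal.span {f} ⊔ (Ideal.span {w}) • 𝔮 := by
    intro g hg
    have hgm : Ideal.Quotient.mk (Ideal.span {w}) g ∈
        𝔮.map (Ideal.Quotient.mk (Ideal.span {w})) := Ideal.mem_map_of_mem _ hg
    rw [hfbar] at hgm
    obtain ⟨cbar, hc⟩ := Submodule.mem_span_singleton.1 hgm
    obtain ⟨c, rfl⟩ := Ideal.Quotient.mk_surjective cbar
    have h1 : g - c * f ∈ Ideal.span {w} := by
      rw [← Ideal.Quotient.eq, ← hc]; simp [smul_eq_mul]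
    obtain ⟨h, hh⟩ := Ideal.mem_span_singleton'.1 h1
    have h2 : h * w ∈ 𝔮 := by
      rw [hh]; exact 𝔮.sub_mem hg (𝔮.mul_mem_left _ hf)
    have h3 : h ∈ 𝔮 := (h𝔮.mem_or_mem h2).resolve_right hq
    have h4 : g = c * f + w * h := by linear_combination hh.symm
    rw [h4]
    refine Submodule.add_mem_sup (Ideal.mul_mem_left _ _ (Ideal.mem_span_singleton_self f)) ?_
    exact Submodule.smul_mem_smul (Ideal.mem_span_singleton_self w) h3
  exact Submodule.le_of_le_smul_of_le_jacobson_bot hfg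
    ((Ideal.span_singleton_le_iff_mem _).2 hw) key

/-- A noetherian local domain `A` with a nonzero non-unit `w` such that `(w)` is prime and
`A ⧸ (w)` is a principal ideal ring is a UFD. -/
theorem ufd_of_quotient_isPrincipalIdealRing [IsDomain A] [IsNoetherianRing A] [IsLocalRing A]
    (w : A) (hw0 : w ≠ 0) (hw : ¬ IsUnit w) (hwp : (Ideal.span {w}).IsPrime)
    [IsPrincipalIdealRing (A ⧸ Ideal.span {w})] : UniqueFactorizationMonoid A := by
  refine UniqueFactorizationMonoid.iff_exists_prime_mem_of_isPrime.2 fun I hI hIp => ?_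
  by_cases hwI : w ∈ I
  · exact ⟨w, hwI, (Ideal.span_singleton_prime hw0).1 hwp⟩
  · have hjac : w ∈ (⊥ : Ideal A).jacobson := by
      rw [IsLocalRing.jacobson_eq_maximalIdeal ⊥ bot_ne_top]
      exact (IsLocalRing.mem_maximalIdeal w).2 hw
    obtain ⟨f, hf⟩ := isPrincipal_of_notMem_of_map_isPrincipal w hjac I
      (IsNoetherian.noetherian I) hwI (IsPrincipalIdealRing.principal _)
    have hf0 : f ≠ 0 := by
      rintro rfl
      apply hI
      rw [hf]; simp
    refine ⟨f, hf ▸ Ideal.mem_span_singleton_self f, (Ideal.span_singleton_prime hf0).1 ?_⟩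
    rw [← hf]; exact hIp

end Principal

section UFD

variable {A : Type*} [CommRing A] [IsDomain A] [UniqueFactorizationMonoid A]

/-- In a UFD, a nonzero element `n` which at every prime `π` dividing it is a `π`-adic unit times a
`p`-th power (written without denominators: `n * s' * z₂ ^ p = a' * z₁ ^ p` with `π ∤ a' s'`) is a
unit times a `p`-th power. -/
theorem exists_unit_mul_pow_of_forall_prime (p : ℕ) (n : A) (hn : n ≠ 0)
    (h : ∀ π : A, Prime π → π ∣ n → ∃ a' s' z₁ z₂ : A, ¬ π ∣ a' ∧ ¬ π ∣ s' ∧ z₁ ≠ 0 ∧ z₂ ≠ 0 ∧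
      n * s' * z₂ ^ p = a' * z₁ ^ p) :
    ∃ (c : Aˣ) (z : A), n = c * z ^ p := by
  classical
  have hn' : Associates.mk n ≠ 0 := Associates.mk_ne_zero.2 hn
  have hcount : ∀ q : Associates A, Irreducible q →
      p ∣ Associates.count q (Associates.mk n).factors := by
    intro q hq
    obtain ⟨π, rfl⟩ := Associates.mk_surjective q
    have hπirr : Irreducible π := Associates.irreducible_mk.1 hq
    have hπ : Prime π := UniqueFactorizationMonoid.irreducible_iff_prime.1 hπirr
    by_cases hdvd : π ∣ n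
    · obtain ⟨a', s', z₁, z₂, ha', hs', hz₁, hz₂, heq⟩ := h π hπ hdvd
      have ha'0 : a' ≠ 0 := fun h0 => ha' (h0 ▸ dvd_zero π)
      have hs'0 : s' ≠ 0 := fun h0 => hs' (h0 ▸ dvd_zero π)
      have hca : Associates.count (Associates.mk π) (Associates.mk a').factors = 0 := by
        by_contra hne
        exact ha' ((Associates.count_ne_zero_iff_dvd ha'0 hπirr).1 hne)
      have hcs : Associates.count (Associates.mk π) (Associates.mk s').factors = 0 := by
        by_contra hne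
        exact hs' ((Associates.count_ne_zero_iff_dvd hs'0 hπirr).1 hne)
      have e1 : Associates.mk (n * s' * z₂ ^ p) = Associates.mk (a' * z₁ ^ p) := by rw [heq]
      have e2 := congrArg (fun x => Associates.count (Associates.mk π) x.factors) e1
      simp only [Associates.mk_mul_mk.symm, Associates.mk_pow] at e2
      rw [Associates.count_mul (mul_ne_zero hn' (Associates.mk_ne_zero.2 hs'0))
          (pow_ne_zero _ (Associates.mk_ne_zero.2 hz₂)) hq,
        Associates.count_mul hn' (Associates.mk_ne_zero.2 hs'0) hq,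
        Associates.count_mul (Associates.mk_ne_zero.2 ha'0)
          (pow_ne_zero _ (Associates.mk_ne_zero.2 hz₁)) hq,
        Associates.count_pow (Associates.mk_ne_zero.2 hz₂) hq,
        Associates.count_pow (Associates.mk_ne_zero.2 hz₁) hq, hca, hcs] at e2
      rw [add_zero, zero_add] at e2
      have e3 : Associates.count (Associates.mk π) (Associates.mk n).factors =
          p * Associates.count (Associates.mk π) (Associates.mk z₁).factors -
            p * Associates.count (Associates.mk π) (Associates.mk z₂).factors := by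
        omega
      rw [e3, ← Nat.mul_sub]
      exact dvd_mul_right _ _
    · have : Associates.count (Associates.mk π) (Associates.mk n).factors = 0 := by
        by_contra hne
        exact hdvd ((Associates.count_ne_zero_iff_dvd hn hπirr).1 hne)
      rw [this]; exact dvd_zero p
  obtain ⟨b, hb⟩ := Associates.is_pow_of_dvd_count hn' hcount
  obtain ⟨z, rfl⟩ := Associates.mk_surjective b
  rw [← Associates.mk_pow, Associates.mk_eq_mk_iff_associated] at hb
  obtain ⟨c, hc⟩ := hb.symm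
  exact ⟨c, z, by rw [← hc, mul_comm]⟩

/-- (LS) **Local structure of a Kummer datum.**  `A` a local UFD, `w` a prime element with
`A ⧸ (w)` integrally closed.  Let `u = a / s` with `a ≡ s ≢ 0 mod w`, and suppose that at every
prime element `π` not associated to `w` the element `u` is a `π`-adic unit times a `p`-th power.
Then `u = c · (t₁ / t₂) ^ p` with `c ∈ Aˣ`, `c ≡ 1 mod w` and `t₁ ≡ t₂ ≢ 0 mod w`. -/
theorem local_kummer_structure [IsLocalRing A] (w : A) (hw : Prime w)
    [IsDomain (A ⧸ Ideal.span {w})] [IsIntegrallyClosed (A ⧸ Ideal.span {w})]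
    (p : ℕ) (hp : p ≠ 0) (a s : A) (ha : ¬ w ∣ a) (hs : ¬ w ∣ s) (has : w ∣ a - s)
    (h : ∀ π : A, Prime π → ¬ Associated π w → ∃ a' s' z₁ z₂ : A, ¬ π ∣ a' ∧ ¬ π ∣ s' ∧
      z₁ ≠ 0 ∧ z₂ ≠ 0 ∧ a * s' * z₂ ^ p = a' * s * z₁ ^ p) :
    ∃ (c : Aˣ) (t₁ t₂ : A), ¬ w ∣ t₁ ∧ ¬ w ∣ t₂ ∧ w ∣ t₁ - t₂ ∧ w ∣ (c : A) - 1 ∧
      a * t₂ ^ p = c * s * t₁ ^ p := by
  have ha0 : a ≠ 0 := fun h0 => ha (h0 ▸ dvd_zero w)
  have hs0 : s ≠ 0 := fun h0 => hs (h0 ▸ dvd_zero w)
  obtain ⟨k, rfl⟩ : ∃ k, p = k + 1 := ⟨p - 1, by omega⟩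
  -- step 1: `a * s ^ k` is a unit times a `p`-th power
  have hn0 : a * s ^ k ≠ 0 := mul_ne_zero ha0 (pow_ne_zero _ hs0)
  have hwn : ¬ w ∣ a * s ^ k := by
    intro hd
    rcases hw.dvd_or_dvd hd with h1 | h1
    · exact ha h1
    · exact hs (hw.dvd_of_dvd_pow h1)
  obtain ⟨c₀, z, hz⟩ := exists_unit_mul_pow_of_forall_prime (k + 1) (a * s ^ k) hn0 (by
    intro π hπ hπn
    have hπw : ¬ Associated π w := fun hass => hwn (hass.symm.dvd.trans hπn)
    obtain ⟨a', s', z₁, z₂, ha', hs', hz₁, hz₂, heq⟩ := h π hπ hπw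
    refine ⟨a', s', s * z₁, z₂, ha', hs', mul_ne_zero hs0 hz₁, hz₂, ?_⟩
    linear_combination s ^ k * heq)
  have hwz : ¬ w ∣ z := fun hd =>
    hwn (hz ▸ Dvd.dvd.mul_left (dvd_pow hd (Nat.succ_ne_zero k)) _)
  have hz0 : z ≠ 0 := fun h0 => hwz (h0 ▸ dvd_zero w)
  -- step 2: work in the quotient
  set q := Ideal.Quotient.mk (Ideal.span {w}) with hq
  have hqz : ∀ x : A, q x = 0 ↔ w ∣ x := fun x => by
    rw [hq, Ideal.Quotient.eq_zero_iff_mem, Ideal.mem_span_singleton]
  have hqa : q a = q s := by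
    rw [← sub_eq_zero, ← map_sub, hqz]; exact has
  have hqs0 : q s ≠ 0 := fun h0 => hs ((hqz s).1 h0)
  have hqz0 : q z ≠ 0 := fun h0 => hwz ((hqz z).1 h0)
  have e1 : q s ^ (k + 1) = q c₀ * q z ^ (k + 1) := by
    have := congrArg q hz
    simp only [map_mul, map_pow] at this
    rw [hqa] at this
    rw [pow_succ, mul_comm, this]
  have hdvd : q z ∣ q s := by
    rw [← IsIntegrallyClosed.pow_dvd_pow_iff (Nat.succ_ne_zero k), e1]
    exact dvd_mul_left _ _
  obtain ⟨dbar, hdbar⟩ := hdvd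
  have e2 : dbar ^ (k + 1) = q c₀ := by
    have : q z ^ (k + 1) * dbar ^ (k + 1) = q z ^ (k + 1) * q c₀ := by
      rw [← mul_pow, ← hdbar, e1, mul_comm]
    exact mul_left_cancel₀ (pow_ne_zero _ hqz0) this
  obtain ⟨d, rfl⟩ := Ideal.Quotient.mk_surjective dbar
  -- `d` is a unit of `A`
  have hwnu : ¬ IsUnit w := hw.not_isUnit
  have hdu : IsUnit d := by
    by_contra hnd
    have hdm : d ∈ IsLocalRing.maximalIdeal A := (IsLocalRing.mem_maximalIdeal d).2 hnd
    have hc0 : IsUnit (q (c₀ : A)) := (c₀.isUnit).map q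
    rw [← e2, ← map_pow] at hc0
    obtain ⟨e, he⟩ := hc0.exists_right_inv
    obtain ⟨e', rfl⟩ := Ideal.Quotient.mk_surjective e
    rw [← map_mul, ← sub_eq_zero, ← map_one q, ← map_sub, hqz] at he
    obtain ⟨r, hr⟩ := he
    have h1 : (1 : A) = d ^ (k + 1) * e' - w * r := by linear_combination -hr
    have h2 : (1 : A) ∈ IsLocalRing.maximalIdeal A := by
      rw [h1]
      refine Ideal.sub_mem _ (Ideal.mul_mem_right _ _ (Ideal.pow_mem_of_mem _ hdm _
        (Nat.succ_pos k))) (Ideal.mul_mem_right _ _ ((IsLocalRing.mem_maximalIdeal w).2 hwnu))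
    exact (Ideal.ne_top_iff_one _).1 (IsLocalRing.maximalIdeal.isMaximal A).ne_top h2
  obtain ⟨du, rfl⟩ := hdu
  refine ⟨c₀ * du⁻¹ ^ (k + 1), du * z, s, ?_, hs, ?_, ?_, ?_⟩
  · intro hd
    exact hwz ((hw.dvd_or_dvd hd).resolve_left
      (fun h1 => hwnu (isUnit_of_dvd_unit h1 du.isUnit)))
  · rw [← hqz, map_sub, map_mul, sub_eq_zero, mul_comm]
    exact hdbar.symm
  · rw [← hqz, map_sub, sub_eq_zero, map_one]
    have h3 : q ((c₀ * du⁻¹ ^ (k + 1) : Aˣ) : A) * q ((du : A)) ^ (k + 1) = q c₀ := by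
      rw [← map_pow, ← map_mul]
      congr 1
      rw [Units.val_mul, Units.val_pow_eq_pow_val, mul_assoc, ← mul_pow, Units.inv_mul, one_pow,
        mul_one]
    rw [e2] at h3
    have hc0ne : q (c₀ : A) ≠ 0 := ((c₀.isUnit).map q).ne_zero
    exact mul_right_cancel₀ hc0ne (by rw [h3, one_mul])
  · have h4 : ((c₀ * du⁻¹ ^ (k + 1) : Aˣ) : A) * (du : A) ^ (k + 1) = c₀ := by
      rw [Units.val_mul, Units.val_pow_eq_pow_val, mul_assoc, ← mul_pow, Units.inv_mul, one_pow,
        mul_one]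
    calc a * s ^ (k + 1) = s * (a * s ^ k) := by ring
      _ = s * (c₀ * z ^ (k + 1)) := by rw [hz]
      _ = s * ((((c₀ * du⁻¹ ^ (k + 1) : Aˣ) : A) * (du : A) ^ (k + 1)) * z ^ (k + 1)) := by
          rw [h4]
      _ = ((c₀ * du⁻¹ ^ (k + 1) : Aˣ) : A) * s * ((du : A) * z) ^ (k + 1) := by ring

end UFD

end Fermat.Agent.S18.H214

end
-- ===== PACK-END S18/H214/LocalUFD.lean

-- ===== PACK-BEGIN S18/H498/Connected.lean
section


/-!
# S18, piece b5 (abstract connectedness / "formal functions by hand")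

Pure commutative algebra, Mathlib only.

Setting: `R` a local ring, `ϖ : R`, `C` a commutative `R`-algebra on which `ϖ` is a
non-zero-divisor, `B₁ B₂ : Subalgebra R C` (the two chart algebras inside the overlap
algebra `C`), `B₁ ⊓ B₂ = R`, and the `ϖ`-power torsion of `C / (B₁ + B₂)` is killed by `ϖ ^ c`.
Then every idempotent of `B₁ / ϖ` which agrees in `C / ϖ` with an idempotent of `B₂ / ϖ`
is trivial (`0` or `1`).
-/

set_option autoImplicit false

namespace Fermat.Agent.S18.H498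

section Idem

variable {S : Type*} [CommRing S]

/-- Newton step for idempotents: `b ↦ 3 b² - 2 b³`. -/
theorem newton_idem_sub (b : S) : (3 * b ^ 2 - 2 * b ^ 3) - b = (b ^ 2 - b) * (1 - 2 * b) := by
  ring

theorem newton_idem_sq (b : S) :
    (3 * b ^ 2 - 2 * b ^ 3) ^ 2 - (3 * b ^ 2 - 2 * b ^ 3) =
      (b ^ 2 - b) ^ 2 * (4 * b ^ 2 - 4 * b - 3) := by
  ring

/-- Lifting of idempotents modulo `p` to idempotents modulo `p ^ (n + 1)`. -/
theorem exists_idem_lift (p e : S) (h : p ∣ e ^ 2 - e) (n : ℕ) :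
    ∃ b : S, p ∣ b - e ∧ p ^ (n + 1) ∣ b ^ 2 - b := by
  induction n with
  | zero => exact ⟨e, by simp, by simpa using h⟩
  | succ n ih =>
    obtain ⟨b, hb1, hb2⟩ := ih
    refine ⟨3 * b ^ 2 - 2 * b ^ 3, ?_, ?_⟩
    · have h1 : p ∣ (3 * b ^ 2 - 2 * b ^ 3) - b := by
        rw [newton_idem_sub]
        exact Dvd.dvd.mul_right ((dvd_pow_self p (Nat.succ_ne_zero n)).trans hb2) _
      have : (3 * b ^ 2 - 2 * b ^ 3) - e = ((3 * b ^ 2 - 2 * b ^ 3) - b) + (b - e) := by ring
      rw [this]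
      exact dvd_add h1 hb1
    · rw [newton_idem_sq]
      refine Dvd.dvd.mul_right ?_ _
      have h2 : (p ^ (n + 1)) ^ 2 ∣ (b ^ 2 - b) ^ 2 := pow_dvd_pow_of_dvd hb2 2
      rw [← pow_mul] at h2
      exact (pow_dvd_pow p (by omega)).trans h2

theorem idem_diff_cube (b₁ b₂ : S) :
    (b₁ - b₂) ^ 3 - (b₁ - b₂) =
      (b₁ + 1 - 3 * b₂) * (b₁ ^ 2 - b₁) - (b₂ + 1 - 3 * b₁) * (b₂ ^ 2 - b₂) := by
  ring

/-- Uniqueness of idempotent lifts: two idempotents modulo `p ^ n` which are congruent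
modulo `p` are congruent modulo `p ^ n`. -/
theorem idem_lift_unique (p : S) (n : ℕ) (b₁ b₂ : S)
    (h₁ : p ^ n ∣ b₁ ^ 2 - b₁) (h₂ : p ^ n ∣ b₂ ^ 2 - b₂) (h : p ∣ b₁ - b₂) :
    p ^ n ∣ b₁ - b₂ := by
  have hcube : p ^ n ∣ (b₁ - b₂) ^ 3 - (b₁ - b₂) := by
    rw [idem_diff_cube]
    exact dvd_sub (Dvd.dvd.mul_left h₁ _) (Dvd.dvd.mul_left h₂ _)
  have key : ∀ k : ℕ, k + 1 ≤ n → p ^ (k + 1) ∣ b₁ - b₂ := by
    intro k
    induction k with
    | zero => intro _; simpa using h
    | succ k ih =>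
      intro hk
      have ih' := ih (by omega)
      have h3 : p ^ (k + 2) ∣ (b₁ - b₂) ^ 3 := by
        have h3' : (p ^ (k + 1)) ^ 3 ∣ (b₁ - b₂) ^ 3 := pow_dvd_pow_of_dvd ih' 3
        rw [← pow_mul] at h3'
        exact (pow_dvd_pow p (by omega)).trans h3'
      have hc : p ^ (k + 2) ∣ (b₁ - b₂) ^ 3 - (b₁ - b₂) := (pow_dvd_pow p hk).trans hcube
      have : b₁ - b₂ = (b₁ - b₂) ^ 3 - ((b₁ - b₂) ^ 3 - (b₁ - b₂)) := by ring
      rw [this]
      exact dvd_sub h3 hc
  rcases Nat.eq_zero_or_pos n with hn | hn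
  · subst hn; simp
  · have := key (n - 1) (by omega)
    rwa [Nat.sub_add_cancel hn] at this

end Idem

section Cech

variable {R C : Type*} [CommRing R] [IsLocalRing R] [CommRing C] [Algebra R C]

/-- **Abstract connectedness (b5).**  `B₁ ∩ B₂ = R`, `ϖ`-power torsion of `C / (B₁ + B₂)` killed
by `ϖ ^ c`: an idempotent `e₁` of `B₁ / ϖ` agreeing in `C / ϖ` with an idempotent `e₂` of
`B₂ / ϖ` is `0` or `1` in `B₁ / ϖ`. -/
theorem idem_trivial_of_cech (ϖ : R) (B₁ B₂ : Subalgebra R C)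
    (hint : ∀ y : C, y ∈ B₁ → y ∈ B₂ → ∃ r : R, algebraMap R C r = y)
    (c : ℕ)
    (hH1 : ∀ (n : ℕ) (y : C),
      (∃ b₁ ∈ B₁, ∃ b₂ ∈ B₂, algebraMap R C ϖ ^ n * y = b₁ + b₂) →
        ∃ b₁ ∈ B₁, ∃ b₂ ∈ B₂, algebraMap R C ϖ ^ c * y = b₁ + b₂)
    (e₁ e₂ : C) (he₁ : e₁ ∈ B₁) (he₂ : e₂ ∈ B₂)
    (h₁ : ∃ a ∈ B₁, e₁ ^ 2 - e₁ = algebraMap R C ϖ * a)
    (h₂ : ∃ a ∈ B₂, e₂ ^ 2 - e₂ = algebraMap R C ϖ * a)
    (h₁₂ : ∃ y : C, e₁ - e₂ = algebraMap R C ϖ * y) :
    (∃ a ∈ B₁, e₁ = algebraMap R C ϖ * a) ∨ (∃ a ∈ B₁, 1 - e₁ = algebraMap R C ϖ * a) := by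
  set p : C := algebraMap R C ϖ with hp
  -- lift inside `B₁`
  obtain ⟨a₁, ha₁, hea₁⟩ := h₁
  obtain ⟨a₂, ha₂, hea₂⟩ := h₂
  have hd₁ : (algebraMap R B₁ ϖ) ∣ (⟨e₁, he₁⟩ : B₁) ^ 2 - ⟨e₁, he₁⟩ :=
    ⟨⟨a₁, ha₁⟩, Subtype.ext (by simpa using hea₁)⟩
  have hd₂ : (algebraMap R B₂ ϖ) ∣ (⟨e₂, he₂⟩ : B₂) ^ 2 - ⟨e₂, he₂⟩ :=
    ⟨⟨a₂, ha₂⟩, Subtype.ext (by simpa using hea₂)⟩
  obtain ⟨b₁, ⟨u₁, hu₁⟩, ⟨v₁, hv₁⟩⟩ := exists_idem_lift _ _ hd₁ c
  obtain ⟨b₂, ⟨u₂, hu₂⟩, ⟨v₂, hv₂⟩⟩ := exists_idem_lift _ _ hd₂ c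
  have hu₁' : (b₁ : C) - e₁ = p * u₁ := by
    have := congrArg (Subtype.val) hu₁
    simpa using this
  have hu₂' : (b₂ : C) - e₂ = p * u₂ := by
    have := congrArg (Subtype.val) hu₂
    simpa using this
  have hv₁' : (b₁ : C) ^ 2 - b₁ = p ^ (c + 1) * v₁ := by
    have := congrArg (Subtype.val) hv₁
    simpa using this
  have hv₂' : (b₂ : C) ^ 2 - b₂ = p ^ (c + 1) * v₂ := by
    have := congrArg (Subtype.val) hv₂
    simpa using this
  obtain ⟨y₀, hy₀⟩ := h₁₂
  have hdiff : p ∣ (b₁ : C) - b₂ := by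
    refine ⟨u₁ + y₀ - u₂, ?_⟩
    have : (b₁ : C) - b₂ = ((b₁ : C) - e₁) + (e₁ - e₂) - ((b₂ : C) - e₂) := by ring
    rw [this, hu₁', hy₀, hu₂']; ring
  obtain ⟨y, hy⟩ := idem_lift_unique p (c + 1) (b₁ : C) (b₂ : C) ⟨_, hv₁'⟩ ⟨_, hv₂'⟩ hdiff
  obtain ⟨β₁, hβ₁, β₂, hβ₂, hβ⟩ := hH1 (c + 1) y
    ⟨b₁, b₁.2, -b₂, B₂.neg_mem b₂.2, by rw [← hy]; ring⟩
  have hpB₁ : p ∈ B₁ := B₁.algebraMap_mem ϖ
  have hpB₂ : p ∈ B₂ := B₂.algebraMap_mem ϖ
  -- the glued element
  have hz : (b₁ : C) - p * β₁ = b₂ + p * β₂ := by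
    have h1 : (b₁ : C) - b₂ = p * (β₁ + β₂) := by
      rw [hy, pow_succ, ← hβ]; ring
    linear_combination h1
  have hz₁ : (b₁ : C) - p * β₁ ∈ B₁ := B₁.sub_mem b₁.2 (B₁.mul_mem hpB₁ hβ₁)
  have hz₂ : (b₁ : C) - p * β₁ ∈ B₂ := by
    rw [hz]; exact B₂.add_mem b₂.2 (B₂.mul_mem hpB₂ hβ₂)
  obtain ⟨r, hr⟩ := hint _ hz₁ hz₂
  set z : C := (b₁ : C) - p * β₁ with hzdef
  -- `z² - z = p * w`, `w ∈ B₁`
  set w : C := p ^ c * v₁ - 2 * β₁ * b₁ + p * β₁ ^ 2 + β₁ with hw
  have hwB : w ∈ B₁ := by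
    refine B₁.add_mem (B₁.add_mem (B₁.sub_mem (B₁.mul_mem (B₁.pow_mem hpB₁ c) v₁.2) ?_) ?_) hβ₁
    · exact B₁.mul_mem (B₁.mul_mem (by
        have : (2 : C) = algebraMap R C 2 := (map_ofNat (algebraMap R C) 2).symm
        rw [this]; exact B₁.algebraMap_mem 2) hβ₁) b₁.2
    · exact B₁.mul_mem hpB₁ (B₁.pow_mem hβ₁ 2)
  have hzw : z ^ 2 - z = p * w := by
    have : z ^ 2 - z = ((b₁ : C) ^ 2 - b₁) + p * (-2 * β₁ * b₁ + p * β₁ ^ 2 + β₁) := by
      rw [hzdef]; ring
    rw [this, hv₁', hw, pow_succ]; ring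
  rcases IsLocalRing.isUnit_or_isUnit_one_sub_self r with hunit | hunit
  · right
    obtain ⟨s, hs⟩ := hunit.exists_right_inv
    have hs' : z * algebraMap R C s = 1 := by
      rw [← hr, ← map_mul, hs, map_one]
    refine ⟨-(algebraMap R C s * w) - β₁ + u₁, ?_, ?_⟩
    · exact B₁.add_mem (B₁.sub_mem (B₁.neg_mem (B₁.mul_mem (B₁.algebraMap_mem s) hwB)) hβ₁) u₁.2
    · have h1 : 1 - z = p * (-(algebraMap R C s * w)) := by
        have : 1 - z = -(algebraMap R C s) * (z ^ 2 - z) + (1 - z) * (1 - z * algebraMap R C s) +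
            z * (1 - z * algebraMap R C s) * 0 := by ring
        rw [this, hs', hzw]; ring
      have : 1 - e₁ = (1 - z) - p * β₁ + ((b₁ : C) - e₁) := by rw [hzdef]; ring
      rw [this, h1, hu₁']; ring
  · left
    obtain ⟨s, hs⟩ := hunit.exists_right_inv
    have hs' : (1 - z) * algebraMap R C s = 1 := by
      rw [← hr, ← map_one (algebraMap R C), ← map_sub, ← map_mul, hs, map_one]
    refine ⟨-(algebraMap R C s * w) + β₁ - u₁, ?_, ?_⟩
    · exact B₁.sub_mem (B₁.add_mem (B₁.neg_mem (B₁.mul_mem (B₁.algebraMap_mem s) hwB)) hβ₁) u₁.2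
    · have h1 : z = p * (-(algebraMap R C s * w)) := by
        have : z = -(algebraMap R C s) * (z ^ 2 - z) + z * (1 - (1 - z) * algebraMap R C s) := by
          ring
        rw [this, hs', hzw]; ring
      have : e₁ = z + p * β₁ - ((b₁ : C) - e₁) := by rw [hzdef]; ring
      rw [this, h1, hu₁']; ring

end Cech

end Fermat.Agent.S18.H498

end
-- ===== PACK-END S18/H498/Connected.lean

-- ===== PACK-BEGIN S18/H568/NormDescent.lean
section


/-!
# S18 / node D2 — abstract Kummer descent by the norm trick (helper568)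

`F'/F` finite of degree `d`, `gcd(d, m) = 1`, `u ∈ F` with `u = c · y ^ m` in `F'` (`c` a constant
of the base field `K`, `y ∈ F'`).  Then `u = c' · y' ^ m` with `c' ∈ K`, `y' ∈ F`.

Proof: `u ^ d = Nm(u) = c ^ d · Nm(y) ^ m`; with `a d + b m = 1`,
`u = (u ^ d) ^ a · (u ^ b) ^ m = c ^ (d a) · (Nm(y) ^ a · u ^ b) ^ m`.

Mathlib-only.
-/

set_option autoImplicit false

noncomputable section

namespace Fermat.Agent.S18.H568

open Module

/-- Norm trick (Kummer descent along an extension of degree prime to `m`). -/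
theorem exists_pow_of_norm_coprime {K F F' : Type*} [Field K] [Field F] [Field F']
    [Algebra K F] [Algebra K F'] [Algebra F F'] [IsScalarTower K F F']
    [FiniteDimensional F F'] (m : ℕ) (hcop : Nat.Coprime (finrank F F') m)
    (u : F) (hu : u ≠ 0) (c : K) (hc : c ≠ 0) (y : F') (hy : y ≠ 0)
    (h : algebraMap F F' u = algebraMap K F' c * y ^ m) :
    ∃ (c' : K) (y' : F), c' ≠ 0 ∧ y' ≠ 0 ∧ u = algebraMap K F c' * y' ^ m := by
  set d : ℕ := finrank F F' with hd
  -- norms
  have hN : u ^ d = (algebraMap K F c) ^ d * (Algebra.norm F y) ^ m := by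
    have h1 : Algebra.norm F (algebraMap F F' u) = u ^ d := Algebra.norm_algebraMap u
    have h2 : Algebra.norm F (algebraMap K F' c) = (algebraMap K F c) ^ d := by
      rw [IsScalarTower.algebraMap_apply K F F']
      exact Algebra.norm_algebraMap _
    rw [← h1, h, map_mul, map_pow, h2]
  have hNy : Algebra.norm F y ≠ 0 := by
    rw [Ne, Algebra.norm_eq_zero_iff]
    exact hy
  have hcF : algebraMap K F c ≠ 0 := by
    rw [Ne, map_eq_zero_iff _ (algebraMap K F).injective]
    exact hc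
  -- Bezout
  have hbez : (1 : ℤ) = (d : ℤ) * Int.gcdA d m + (m : ℤ) * Int.gcdB d m := by
    have := Int.gcd_eq_gcd_ab (d : ℤ) (m : ℤ)
    rw [Int.gcd_natCast_natCast, hcop.gcd_eq_one] at this
    exact_mod_cast this
  set a : ℤ := Int.gcdA d m
  set b : ℤ := Int.gcdB d m
  refine ⟨c ^ ((d : ℤ) * a), (Algebra.norm F y) ^ a * u ^ b, zpow_ne_zero _ hc,
    mul_ne_zero (zpow_ne_zero _ hNy) (zpow_ne_zero _ hu), ?_⟩
  have hu1 : u = u ^ ((d : ℤ) * a + (m : ℤ) * b) := by rw [← hbez, zpow_one]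
  rw [map_zpow₀]
  calc u = u ^ ((d : ℤ) * a + (m : ℤ) * b) := hu1
    _ = (u ^ d) ^ a * (u ^ b) ^ m := by
        rw [zpow_add₀ hu, zpow_mul, zpow_natCast, mul_comm (m : ℤ) b, zpow_mul, zpow_natCast]
    _ = ((algebraMap K F c) ^ d * (Algebra.norm F y) ^ m) ^ a * (u ^ b) ^ m := by rw [hN]
    _ = (algebraMap K F c) ^ ((d : ℤ) * a) * ((Algebra.norm F y) ^ a * u ^ b) ^ m := by
        rw [mul_zpow, mul_pow, zpow_mul, zpow_natCast, ← zpow_natCast ((Algebra.norm F) y) m,
          ← zpow_mul, ← zpow_natCast (((Algebra.norm F) y) ^ a) m, ← zpow_mul,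
          mul_comm (m : ℤ) a, mul_assoc]

end Fermat.Agent.S18.H568

end

end
-- ===== PACK-END S18/H568/NormDescent.lean

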