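import Mathlib
import Fermat.Prelude.Def_CuspForm_IntegralStructure
import Fermat.Prelude.Def_ModularForm_HeckeOperator
import Fermat.Prelude.Def_FLTPrelim_Modularity
import Fermat.Prelude.Def_ModularCurve_ArithmeticGalois
import Fermat.Prelude.Def_AlgebraicCurve_Correspondence
import Fermat.Prelude.Def_ModularCurve_X0ModL
import Fermat.Prelude.Def_ModularCurve_HeckeModule
import Fermat.Prelude.Thm_ModularCurve_coeffMap_qExpand
import Fermat.Prelude.Def_ModularCurve_PeriodHomPair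
import Fermat.Prelude.Thm_Subgroup_IsArithmetic_exists_nat_mem_strictPeriods_conj
import Fermat.Prelude.Def_ModularCurve_X0
import Fermat.Prelude.Def_ModularCurve_LaurentCoeff
import Fermat.Prelude.Def_ModularCurve_ModularUnit
import Mathlib.NumberTheory.ModularForms.NormTrace
import Mathlib.NumberTheory.ModularForms.Discriminant
import Mathlib.RingTheory.PowerSeries.Basic
import Mathlib.RingTheory.PowerSeries.Expand
import Mathlib.RingTheory.PowerSeries.PiTopology
import Mathlib.RingTheory.Valuation.LocalSubring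
import Mathlib.RingTheory.Valuation.ValuationSubring
import Mathlib.RingTheory.Invariant.Basic
import Mathlib.FieldTheory.Fixed
import Mathlib.Algebra.Ring.Action.Invariant

-- ===== PACK-BEGIN S48/H648/MeanSquare.lean
section
/-
S48 (Deligne–Serre), piece (P4) "elementary Rankin bound", part 1 (helper648).

Bessel/Parseval on a horocycle: for a holomorphic, `h`-periodic function `f` on the upper half
plane which is bounded at `i∞`, with `q`-expansion coefficients `a_n`,
  `∑_{n ∈ s} ‖a_n‖² e^{-4π n t / h} ≤ h⁻¹ ∫_0^h ‖f (u + i t)‖² du`   for every finite set `s`.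
For a cusp form of weight `k` this gives `∑_{n ≤ x} ‖a_n‖² = O(x^k)`.
Mathlib only.
-/


set_option autoImplicit false

open Complex UpperHalfPlane Function MeasureTheory Real
open scoped Real Manifold

noncomputable section

namespace Fermat.Agent.S48.H648

local notation "𝕢" => Function.Periodic.qParam

/-- The restriction of `f` to the horocycle of height `t`, as a function of the real part. -/
def horo (f : ℍ → ℂ) (t : ℝ) (u : ℝ) : ℂ := (f ∘ ofComplex) (u + t * Complex.I)

lemma horo_eq (f : ℍ → ℂ) {t : ℝ} (ht : 0 < t) (u : ℝ) :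
    horo f t u = f ⟨u + t * Complex.I, by simpa using ht⟩ := by
  unfold horo
  simp only [Function.comp_apply]
  rw [ofComplex_apply_of_im_pos (by simpa using ht)]

lemma continuous_horo {f : ℍ → ℂ} (hf : Continuous f) {t : ℝ} (ht : 0 < t) :
    Continuous (horo f t) := by
  have : horo f t = fun u : ℝ => f ⟨u + t * Complex.I, by simpa using ht⟩ := by
    ext u; exact horo_eq f ht u
  rw [this]
  refine hf.comp ?_
  refine Continuous.upperHalfPlaneMk ?_ _
  fun_prop

/-- Fourier coefficient of the horocycle function = `a_n e^{-2π n t / h}`. -/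
lemma fourierCoeffOn_horo {f : ℍ → ℂ} {h : ℝ} (hh : 0 < h)
    (hfper : Periodic (f ∘ ofComplex) h) (hfhol : MDifferentiable 𝓘(ℂ) 𝓘(ℂ) f)
    (hfbdd : IsBoundedAtImInfty f) (n : ℕ) {t : ℝ} (ht : 0 < t) :
    fourierCoeffOn (a := 0) (b := h) hh (horo f t) n =
      (qExpansion h f).coeff n * Real.exp (-2 * π * n * t / h) := by
  have hq : (qExpansion h f).coeff n = 1 / (h : ℂ) * ∫ u in (0:ℝ)..h,
      1 / 𝕢 h ((u : ℂ) + t * Complex.I) ^ n * f ⟨u + t * Complex.I, by simpa using ht⟩ :=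
    qExpansion_coeff_eq_intervalIntegral hh hfper hfhol hfbdd n ht
  rw [fourierCoeffOn_eq_integral, hq]
  simp only [fourier_coe_apply, smul_eq_mul, sub_zero]
  have key : ∀ u : ℝ, Complex.exp (2 * π * Complex.I * ((-(n : ℤ) : ℤ) : ℂ) * u / h) * horo f t u =
      (1 / 𝕢 h ((u : ℂ) + t * Complex.I) ^ n * f ⟨u + t * Complex.I, by simpa using ht⟩) *
        (Real.exp (-2 * π * n * t / h) : ℂ) := by
    intro u
    rw [horo_eq f ht u]
    have h1 : 𝕢 h ((u : ℂ) + t * Complex.I) ^ n =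
        Complex.exp (2 * π * Complex.I * n * u / h) * Complex.exp (-2 * π * n * t / h) := by
      rw [Function.Periodic.qParam, ← Complex.exp_nat_mul, ← Complex.exp_add]
      congr 1
      field_simp
      ring_nf
      rw [Complex.I_sq]
      ring
    rw [h1]
    have h2 : Complex.exp (2 * π * Complex.I * n * u / h) ≠ 0 := Complex.exp_ne_zero _
    have h3 : Complex.exp (-2 * π * n * t / h) ≠ 0 := Complex.exp_ne_zero _
    have h4 : Complex.exp (2 * ↑π * Complex.I * ((-(n : ℤ) : ℤ) : ℂ) * ↑u / ↑h) =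
        (Complex.exp (2 * π * Complex.I * n * u / h))⁻¹ := by
      rw [← Complex.exp_neg]
      congr 1
      push_cast
      ring
    rw [h4]
    push_cast
    field_simp
  have h5 : (∫ x in (0:ℝ)..h,
        Complex.exp (2 * π * Complex.I * ((-(n : ℤ) : ℤ) : ℂ) * x / h) * horo f t x) =
      (∫ u in (0:ℝ)..h, 1 / 𝕢 h ((u : ℂ) + t * Complex.I) ^ n *
        f ⟨u + t * Complex.I, by simpa using ht⟩) * (Real.exp (-2 * π * n * t / h) : ℂ) := by
    rw [← intervalIntegral.integral_mul_const]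
    exact intervalIntegral.integral_congr fun u _ => key u
  rw [h5]
  simp only [one_div, Complex.real_smul, Complex.ofReal_inv]
  ring

lemma memLp_horo {f : ℍ → ℂ} (hf : Continuous f) {t : ℝ} (ht : 0 < t) (h : ℝ) :
    MemLp (horo f t) 2 (volume.restrict (Set.Ioc 0 h)) := by
  have hc := continuous_horo hf ht
  obtain ⟨C, hC⟩ := (isCompact_Icc (a := (0:ℝ)) (b := h)).exists_bound_of_continuousOn
    hc.continuousOn
  refine MemLp.of_bound hc.aestronglyMeasurable C ?_
  rw [ae_restrict_iff' measurableSet_Ioc]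
  exact Filter.Eventually.of_forall fun x hx => hC x (Set.Ioc_subset_Icc_self hx)

/-- **Bessel on a horocycle.** -/
theorem sum_sq_coeff_mul_exp_le {f : ℍ → ℂ} {h : ℝ} (hh : 0 < h)
    (hfper : Periodic (f ∘ ofComplex) h) (hfhol : MDifferentiable 𝓘(ℂ) 𝓘(ℂ) f)
    (hfbdd : IsBoundedAtImInfty f) {t : ℝ} (ht : 0 < t) (s : Finset ℕ) :
    ∑ n ∈ s, ‖(qExpansion h f).coeff n‖ ^ 2 * Real.exp (-4 * π * n * t / h) ≤
      h⁻¹ * ∫ u in (0:ℝ)..h, ‖horo f t u‖ ^ 2 := by
  have hcont : Continuous f := hfhol.continuous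
  have hsum := hasSum_sq_fourierCoeffOn (a := 0) (b := h) hh (memLp_horo hcont ht h)
  simp only [sub_zero, smul_eq_mul] at hsum
  have hle := sum_le_hasSum (s.map Nat.castEmbedding) (fun i _ => by positivity) hsum
  refine le_trans (le_of_eq ?_) hle
  rw [Finset.sum_map]
  refine Finset.sum_congr rfl fun n _ => ?_
  simp only [Nat.castEmbedding_apply]
  rw [fourierCoeffOn_horo hh hfper hfhol hfbdd n ht, norm_mul, mul_pow, Complex.norm_real,
    Real.norm_of_nonneg (Real.exp_pos _).le, ← Real.exp_nat_mul]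
  congr 2
  push_cast
  ring

section CuspForm

variable {k : ℤ} {Γ : Subgroup (GL (Fin 2) ℝ)} [Γ.IsArithmetic]
  {F : Type*} [FunLike F ℍ ℂ] [CuspFormClass F Γ k]

/-- For a cusp form of weight `k`: `∑_{n ∈ s} ‖a_n‖² e^{-4π n t / h} ≤ C t^{-k}`, uniformly in
the finite set `s` and in `t > 0`. -/
theorem exists_sum_sq_coeff_mul_exp_le (f : F) {h : ℝ} (hh : 0 < h)
    (hΓ : h ∈ Γ.strictPeriods) :
    ∃ C : ℝ, 0 ≤ C ∧ ∀ t : ℝ, 0 < t → ∀ s : Finset ℕ,
      ∑ n ∈ s, ‖(qExpansion h f).coeff n‖ ^ 2 * Real.exp (-4 * π * n * t / h) ≤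
        C / t ^ (k : ℝ) := by
  obtain ⟨C₀, hC₀⟩ := CuspFormClass.exists_bound (Γ := Γ) (k := k) f
  have hC₀' : 0 ≤ C₀ := by
    have := hC₀ UpperHalfPlane.I
    have h1 : (0:ℝ) < UpperHalfPlane.I.im ^ ((k:ℝ) / 2) := by positivity
    have h2 : 0 ≤ C₀ / UpperHalfPlane.I.im ^ ((k:ℝ) / 2) := le_trans (norm_nonneg _) this
    rcases (div_nonneg_iff.mp h2) with h3 | h3
    · exact h3.1
    · exact absurd h3.2 (not_le.mpr h1)
  refine ⟨C₀ ^ 2, by positivity, fun t ht s => ?_⟩
  have : Fact (IsCusp OnePoint.infty Γ) := ⟨Γ.isCusp_of_mem_strictPeriods hh hΓ⟩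
  have hB := sum_sq_coeff_mul_exp_le (f := (f : ℍ → ℂ)) hh
    (SlashInvariantFormClass.periodic_comp_ofComplex f hΓ) (ModularFormClass.holo f)
    (ModularFormClass.bdd_at_infty f) ht s
  refine hB.trans ?_
  have hpt : ∀ u : ℝ, ‖horo (f : ℍ → ℂ) t u‖ ^ 2 ≤ C₀ ^ 2 / t ^ (k : ℝ) := by
    intro u
    rw [horo_eq _ ht u]
    have h1 := hC₀ ⟨u + t * Complex.I, by simpa using ht⟩
    have him : (⟨u + t * Complex.I, by simpa using ht⟩ : ℍ).im = t := by
      simp [UpperHalfPlane.im]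
    rw [him] at h1
    have h2 : (t ^ ((k:ℝ) / 2)) ^ 2 = t ^ (k : ℝ) := by
      rw [← Real.rpow_natCast, ← Real.rpow_mul ht.le]
      congr 1
      push_cast
      ring
    calc ‖(f : ℍ → ℂ) ⟨u + t * Complex.I, by simpa using ht⟩‖ ^ 2
        ≤ (C₀ / t ^ ((k:ℝ) / 2)) ^ 2 := by gcongr
      _ = C₀ ^ 2 / t ^ (k : ℝ) := by rw [div_pow, h2]
  have hint : (∫ u in (0:ℝ)..h, ‖horo (f : ℍ → ℂ) t u‖ ^ 2) ≤
      ∫ _u in (0:ℝ)..h, C₀ ^ 2 / t ^ (k : ℝ) := by
    refine intervalIntegral.integral_mono_on hh.le ?_ ?_ fun u _ => hpt u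
    · exact ((continuous_horo (ModularFormClass.holo f).continuous ht).norm.pow 2).intervalIntegrable _ _
    · exact continuous_const.intervalIntegrable _ _
  rw [intervalIntegral.integral_const, sub_zero, smul_eq_mul] at hint
  calc h⁻¹ * ∫ u in (0:ℝ)..h, ‖horo (f : ℍ → ℂ) t u‖ ^ 2
      ≤ h⁻¹ * (h * (C₀ ^ 2 / t ^ (k : ℝ))) := by gcongr
    _ = C₀ ^ 2 / t ^ (k : ℝ) := by field_simp

/-- **Mean-square bound** for the coefficients of a cusp form of weight `k`:
`∑_{n ≤ x} ‖a_n‖² ≤ C x^k` for all `x ≥ 1`. -/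
theorem exists_sum_sq_coeff_le (f : F) {h : ℝ} (hh : 0 < h) (hΓ : h ∈ Γ.strictPeriods) :
    ∃ C : ℝ, 0 ≤ C ∧ ∀ x : ℕ, 1 ≤ x →
      ∑ n ∈ Finset.range (x + 1), ‖(qExpansion h f).coeff n‖ ^ 2 ≤ C * (x : ℝ) ^ (k : ℝ) := by
  obtain ⟨C, hC, hbd⟩ := exists_sum_sq_coeff_mul_exp_le (Γ := Γ) (k := k) f hh hΓ
  refine ⟨C * Real.exp (4 * π / h), by positivity, fun x hx => ?_⟩
  have hx0 : (0:ℝ) < x := by exact_mod_cast hx
  have h1 := hbd (1 / x) (by positivity) (Finset.range (x + 1))
  have h2 : ∀ n ∈ Finset.range (x + 1), ‖(qExpansion h f).coeff n‖ ^ 2 * Real.exp (-(4 * π / h)) ≤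
      ‖(qExpansion h f).coeff n‖ ^ 2 * Real.exp (-4 * π * n * (1 / x) / h) := by
    intro n hn
    have hn' : (n : ℝ) ≤ x := by exact_mod_cast Nat.lt_succ_iff.mp (Finset.mem_range.mp hn)
    gcongr
    have h3 : (n : ℝ) * (1 / x) ≤ 1 := by
      rw [mul_one_div]; exact (div_le_one hx0).mpr hn'
    have h4 : 4 * π * (n * (1 / (x:ℝ))) / h ≤ 4 * π / h := by
      apply div_le_div_of_nonneg_right _ hh.le
      nlinarith [Real.pi_pos]
    have h5 : -4 * π * n * (1 / (x:ℝ)) / h = -(4 * π * (n * (1 / (x:ℝ))) / h) := by ring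
    rw [h5]
    linarith
  have h6 := (Finset.sum_le_sum h2).trans h1
  rw [← Finset.sum_mul] at h6
  have h7 : (1 / (x:ℝ)) ^ (k : ℝ) = ((x:ℝ) ^ (k : ℝ))⁻¹ := by
    rw [one_div, Real.inv_rpow hx0.le]
  rw [h7, div_inv_eq_mul] at h6
  have h8 : 0 < Real.exp (-(4 * π / h)) := Real.exp_pos _
  calc ∑ n ∈ Finset.range (x + 1), ‖(qExpansion h f).coeff n‖ ^ 2
      = (∑ n ∈ Finset.range (x + 1), ‖(qExpansion h f).coeff n‖ ^ 2) *
          Real.exp (-(4 * π / h)) * Real.exp (4 * π / h) := by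
        rw [mul_assoc, ← Real.exp_add]; simp
    _ ≤ C * (x:ℝ) ^ (k : ℝ) * Real.exp (4 * π / h) := by gcongr
    _ = C * Real.exp (4 * π / h) * (x : ℝ) ^ (k : ℝ) := by ring

end CuspForm

end Fermat.Agent.S48.H648

end
end
-- ===== PACK-END S48/H648/MeanSquare.lean

-- ===== PACK-BEGIN S14/H74/Defs.lean
section


/-!
# S14, analytic block N1 (helper74): definitions

Partial zeta functions of ideal classes and the smoothed lattice sums used to compare them.
-/

namespace Fermat.Agent.S14.H74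

open NumberField NumberField.mixedEmbedding NumberField.Units
  NumberField.Units.dirichletUnitTheorem

open scoped nonZeroDivisors

variable (K : Type*) [Field K] [NumberField K]

/-- The partial zeta function of the ideal class `C`, for a real argument `s`. -/
noncomputable def classZeta (C : ClassGroup (𝓞 K)) (s : ℝ) : ℝ :=
  ∑' I : {I : (Ideal (𝓞 K))⁰ // ClassGroup.mk0 I = C},
    (Ideal.absNorm (I.1 : Ideal (𝓞 K)) : ℝ) ^ (-s)

/-- The sum over all nonzero ideals of `N(I)^(-s)`. -/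
noncomputable def idealZeta (s : ℝ) : ℝ :=
  ∑' I : (Ideal (𝓞 K))⁰, (Ideal.absNorm (I : Ideal (𝓞 K)) : ℝ) ^ (-s)

/-- The tent function `max 0 (1 - |c|)`. -/
noncomputable def tent (c : ℝ) : ℝ := max 0 (1 - |c|)

open scoped Classical in
/-- Coordinates of `logMap x` in the real basis of `logSpace K` given by the unit lattice. -/
noncomputable def logCoord (x : mixedSpace K) (j : Fin (rank K)) : ℝ :=
  ((basisUnitLattice K).ofZLatticeBasis ℝ (unitLattice K)).repr (logMap x) j

/-- The smooth cut-off: a partition of unity for the action of the units. -/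
noncomputable def rho (x : mixedSpace K) : ℝ :=
  if mixedEmbedding.norm x = 0 then 0 else ∏ j, tent (logCoord K x j)

/-- The summand `ρ(x) N(x)^(-s)`. -/
noncomputable def fS (s : ℝ) (x : mixedSpace K) : ℝ :=
  rho K x * (mixedEmbedding.norm x) ^ (-s)

end Fermat.Agent.S14.H74

end
-- ===== PACK-END S14/H74/Defs.lean

-- ===== PACK-BEGIN S14/H74/Tent.lean
section


/-!
# S14/N1 (helper74): the tent function and its partition of unity (piece P1)
-/

namespace Fermat.Agent.S14.H74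

theorem tent_nonneg (c : ℝ) : 0 ≤ tent c := le_max_left _ _

theorem tent_le_one (c : ℝ) : tent c ≤ 1 := by
  unfold tent
  exact max_le zero_le_one (by linarith [abs_nonneg c])

theorem tent_eq_zero_of_one_le {c : ℝ} (h : 1 ≤ |c|) : tent c = 0 := by
  unfold tent
  exact max_eq_left (by linarith)

theorem tent_of_abs_le_one {c : ℝ} (h : |c| ≤ 1) : tent c = 1 - |c| := by
  unfold tent
  exact max_eq_right (by linarith)

theorem abs_lt_one_of_tent_ne_zero {c : ℝ} (h : tent c ≠ 0) : |c| < 1 := by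
  by_contra h'
  exact h (tent_eq_zero_of_one_le (not_lt.mp h'))

theorem tent_lipschitz (a b : ℝ) : |tent a - tent b| ≤ |a - b| := by
  unfold tent
  rw [max_comm 0 (1 - |a|), max_comm 0 (1 - |b|)]
  have h1 := abs_max_sub_max_le_abs (1 - |a|) (1 - |b|) 0
  have h2 : |(1 - |a|) - (1 - |b|)| ≤ |a - b| := by
    have : (1 - |a|) - (1 - |b|) = |b| - |a| := by ring
    rw [this, abs_sub_comm a b]
    exact abs_abs_sub_abs_le_abs_sub b a
  exact h1.trans h2

/-- `|∏ a - ∏ b| ≤ ∑ |a - b|` for families with values in `[0, 1]`. -/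
theorem abs_prod_sub_prod_le_sum {ι : Type*} (s : Finset ι) (a b : ι → ℝ)
    (ha0 : ∀ i, 0 ≤ a i) (ha1 : ∀ i, a i ≤ 1) (hb0 : ∀ i, 0 ≤ b i) (hb1 : ∀ i, b i ≤ 1) :
    |∏ i ∈ s, a i - ∏ i ∈ s, b i| ≤ ∑ i ∈ s, |a i - b i| := by
  classical
  induction s using Finset.induction_on with
  | empty => simp
  | insert i s hi ih =>
    rw [Finset.prod_insert hi, Finset.prod_insert hi, Finset.sum_insert hi]
    have hA0 : 0 ≤ ∏ j ∈ s, a j := Finset.prod_nonneg fun j _ ↦ ha0 j
    have hA1 : ∏ j ∈ s, a j ≤ 1 := Finset.prod_le_one (fun j _ ↦ ha0 j) fun j _ ↦ ha1 j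
    have key : a i * ∏ j ∈ s, a j - b i * ∏ j ∈ s, b j
        = (a i - b i) * ∏ j ∈ s, a j + b i * (∏ j ∈ s, a j - ∏ j ∈ s, b j) := by ring
    rw [key]
    refine (abs_add_le _ _).trans (add_le_add ?_ ?_)
    · rw [abs_mul, abs_of_nonneg hA0]
      exact mul_le_of_le_one_right (abs_nonneg _) hA1
    · rw [abs_mul, abs_of_nonneg (hb0 i)]
      exact (mul_le_of_le_one_left (abs_nonneg _) (hb1 i)).trans ih

/-- The integer translates of the tent function sum to `1`. -/
theorem tent_hasSum (c : ℝ) : HasSum (fun k : ℤ ↦ tent (c + k)) 1 := by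
  have hfl := Int.floor_le c
  have hlt := Int.lt_floor_add_one c
  set m : ℤ := ⌊c⌋ with hm
  have hne : (-m : ℤ) ≠ -m - 1 := by omega
  have hsupp : ∀ k : ℤ, k ∉ ({-m, -m - 1} : Finset ℤ) → tent (c + k) = 0 := by
    intro k hk
    simp only [Finset.mem_insert, Finset.mem_singleton, not_or] at hk
    apply tent_eq_zero_of_one_le
    rcases lt_or_gt_of_ne hk.1 with h | h
    · have h2 : k ≤ -m - 2 := by
        have : k ≠ -m - 1 := hk.2
        omega
      have h3 : (k : ℝ) ≤ -m - 2 := by exact_mod_cast h2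
      rw [abs_of_nonpos (by linarith)]
      linarith
    · have h2 : -m + 1 ≤ k := by omega
      have h3 : (-m : ℝ) + 1 ≤ k := by exact_mod_cast h2
      rw [abs_of_nonneg (by linarith)]
      linarith
  have h : HasSum (fun k : ℤ ↦ tent (c + k)) (∑ k ∈ ({-m, -m - 1} : Finset ℤ), tent (c + k)) :=
    hasSum_sum_of_ne_finset_zero hsupp
  convert h using 1
  rw [Finset.sum_pair hne]
  have e1 : tent (c + ((-m : ℤ) : ℝ)) = 1 - (c - m) := by
    rw [tent_of_abs_le_one]
    · rw [abs_of_nonneg] <;> push_cast <;> linarith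
    · rw [abs_of_nonneg] <;> push_cast <;> linarith
  have e2 : tent (c + ((-m - 1 : ℤ) : ℝ)) = c - m := by
    rw [tent_of_abs_le_one]
    · rw [abs_of_nonpos] <;> push_cast <;> linarith
    · rw [abs_of_nonpos] <;> push_cast <;> linarith
  rw [e1, e2]
  ring

/-- Product version of the partition of unity. -/
theorem tent_prod_hasSum {ι : Type*} [Fintype ι] (c : ι → ℝ) :
    HasSum (fun k : ι → ℤ ↦ ∏ j, tent (c j + k j)) 1 := by
  classical
  let S : ι → Finset ℤ := fun j ↦ {-⌊c j⌋, -⌊c j⌋ - 1}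
  have hS : ∀ j (k : ℤ), k ∉ S j → tent (c j + k) = 0 := by
    intro j k hk
    by_contra h
    have h1 := abs_lt_one_of_tent_ne_zero h
    have hfl := Int.floor_le (c j)
    have hlt := Int.lt_floor_add_one (c j)
    rw [abs_lt] at h1
    apply hk
    simp only [S, Finset.mem_insert, Finset.mem_singleton]
    have h2 : (-⌊c j⌋ - 2 : ℝ) < k := by linarith
    have h3 : (k : ℝ) < -⌊c j⌋ + 1 := by linarith
    have h2' : -⌊c j⌋ - 2 < k := by exact_mod_cast h2
    have h3' : k < -⌊c j⌋ + 1 := by exact_mod_cast h3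
    omega
  have hsum : ∀ j, ∑ k ∈ S j, tent (c j + k) = 1 := by
    intro j
    have h : HasSum (fun k : ℤ ↦ tent (c j + k)) (∑ k ∈ S j, tent (c j + k)) :=
      hasSum_sum_of_ne_finset_zero (hS j)
    exact h.unique (tent_hasSum (c j))
  have hsupp : ∀ k : ι → ℤ, k ∉ Fintype.piFinset S → ∏ j, tent (c j + k j) = 0 := by
    intro k hk
    rw [Fintype.mem_piFinset] at hk
    push Not at hk
    obtain ⟨j, hj⟩ := hk
    exact Finset.prod_eq_zero (Finset.mem_univ j) (hS j _ hj)
  have h : HasSum (fun k : ι → ℤ ↦ ∏ j, tent (c j + k j))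
      (∑ k ∈ Fintype.piFinset S, ∏ j, tent (c j + k j)) :=
    hasSum_sum_of_ne_finset_zero hsupp
  convert h using 1
  have := Finset.prod_univ_sum S (fun j (k : ℤ) ↦ tent (c j + k))
  rw [← this]
  simp [hsum]

end Fermat.Agent.S14.H74

end
-- ===== PACK-END S14/H74/Tent.lean

-- ===== PACK-BEGIN Lib/EulerProd/EulerUFM.lean
section


/-!
# Euler products over a unique factorization monoid with trivial units

`Fermat.Agent.Lib.EulerProd.hasProd_one_sub_inv`: if `M` is a commutative monoid with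
zero which is a unique factorization monoid with trivial unit group (e.g. the ideals of a
Dedekind domain), `F` is a complete normed field and `f : M → F` is completely multiplicative
(`f 0 = 0`, `f 1 = 1`, `f (a * b) = f a * f b`) and norm-summable, then
`∏ p prime, (1 - f p)⁻¹ = ∑ m, f m`.

The proof follows `Mathlib/NumberTheory/EulerProduct/Basic.lean` (the case `M = ℕ`).
-/

set_option autoImplicit false
set_option linter.unusedSectionVars false
set_option linter.overlappingInstances false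

namespace Fermat.Agent.Lib.EulerProd

open Finset

variable {M : Type*} [CommMonoidWithZero M] [UniqueFactorizationMonoid M]
  [Subsingleton Mˣ] [Nontrivial M]

/-- The nonzero elements of `M` all of whose prime divisors lie in `T`. -/
def smoothSet (T : Set M) : Set M := {m | m ≠ 0 ∧ ∀ p, Prime p → p ∣ m → p ∈ T}

theorem mem_smoothSet {T : Set M} {m : M} :
    m ∈ smoothSet T ↔ m ≠ 0 ∧ ∀ p, Prime p → p ∣ m → p ∈ T := Iff.rfl

theorem smoothSet_mono {T T' : Set M} (h : T ⊆ T') : smoothSet T ⊆ smoothSet T' :=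
  fun _ hm => ⟨hm.1, fun p hp hpm => h (hm.2 p hp hpm)⟩

theorem zero_notMem_smoothSet (T : Set M) : (0 : M) ∉ smoothSet T := fun h => h.1 rfl

theorem eq_one_of_forall_prime_not_dvd {m : M} (hm : m ≠ 0) (h : ∀ p, Prime p → ¬ p ∣ m) :
    m = 1 := by
  by_contra hne
  have hu : ¬ IsUnit m := fun hu => hne (by
    obtain ⟨u, rfl⟩ := hu
    rw [Subsingleton.elim u 1, Units.val_one])
  obtain ⟨i, hi, hdvd⟩ := WfDvdMonoid.exists_irreducible_factor hu hm
  exact h i (UniqueFactorizationMonoid.irreducible_iff_prime.mp hi) hdvd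

theorem smoothSet_empty : smoothSet (∅ : Set M) = {1} := by
  ext m
  simp only [mem_smoothSet, Set.mem_empty_iff_false, imp_false, Set.mem_singleton_iff]
  constructor
  · rintro ⟨hm, h⟩
    exact eq_one_of_forall_prime_not_dvd hm h
  · rintro rfl
    exact ⟨one_ne_zero, fun p hp hdvd => hp.not_isUnit (isUnit_of_dvd_one hdvd)⟩

/-- Inserting a non-prime does not change the smooth set. -/
theorem smoothSet_insert_of_not_prime {T : Set M} {p : M} (hp : ¬ Prime p) :
    smoothSet (insert p T) = smoothSet T := by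
  ext m
  simp only [mem_smoothSet, Set.mem_insert_iff]
  refine and_congr_right fun _ => forall_congr' fun q => ?_
  constructor
  · intro h hq hqm
    rcases h hq hqm with rfl | h'
    · exact absurd hq hp
    · exact h'
  · intro h hq hqm
    exact Or.inr (h hq hqm)

theorem pow_mul_mem_smoothSet {T : Set M} {p : M} (hp : Prime p) (e : ℕ) {m : M}
    (hm : m ∈ smoothSet T) : p ^ e * m ∈ smoothSet (insert p T) := by
  refine ⟨mul_ne_zero (pow_ne_zero _ hp.ne_zero) hm.1, fun q hq hqd => ?_⟩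
  rcases hq.dvd_or_dvd hqd with h | h
  · have := hq.dvd_of_dvd_pow h
    exact Or.inl ((prime_dvd_prime_iff_eq hq hp).mp this)
  · exact Or.inr (hm.2 q hq h)

/-- The bijection `(e, m) ↦ p ^ e * m`. -/
theorem bijective_pow_mul {T : Set M} {p : M} (hp : Prime p) (hpT : p ∉ T) :
    Function.Bijective (fun x : ℕ × smoothSet T =>
      (⟨p ^ x.1 * x.2.1, pow_mul_mem_smoothSet hp x.1 x.2.2⟩ : smoothSet (insert p T))) := by
  have hnd : ∀ m ∈ smoothSet T, ¬ p ∣ m := fun m hm hd => hpT (hm.2 p hp hd)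
  have key : ∀ (e e' : ℕ) (m m' : M), m ∈ smoothSet T → m' ∈ smoothSet T → e ≤ e' →
      p ^ e * m = p ^ e' * m' → e = e' ∧ m = m' := by
    intro e e' m m' hm hm' hle h
    obtain ⟨k, rfl⟩ := Nat.exists_eq_add_of_le hle
    rw [pow_add, mul_assoc] at h
    have h2 : m = p ^ k * m' := mul_left_cancel₀ (pow_ne_zero _ hp.ne_zero) h
    rcases Nat.eq_zero_or_pos k with rfl | hk
    · simpa using h2
    · exfalso
      apply hnd m hm
      rw [h2]
      exact Dvd.dvd.mul_right (dvd_pow_self p hk.ne') _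
  constructor
  · rintro ⟨e, m, hm⟩ ⟨e', m', hm'⟩ h
    simp only [Subtype.mk.injEq] at h
    rcases le_total e e' with hle | hle
    · obtain ⟨rfl, rfl⟩ := key e e' m m' hm hm' hle h
      rfl
    · obtain ⟨rfl, rfl⟩ := key e' e m' m hm' hm hle h.symm
      rfl
  · rintro ⟨m, hm⟩
    have hfin : FiniteMultiplicity p m := FiniteMultiplicity.of_not_isUnit hp.not_isUnit hm.1
    obtain ⟨c, hc, hnd'⟩ := hfin.exists_eq_pow_mul_and_not_dvd
    have hc0 : c ≠ 0 := by
      rintro rfl
      exact hm.1 (by rw [hc, mul_zero])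
    have hcs : c ∈ smoothSet T := by
      refine ⟨hc0, fun q hq hqc => ?_⟩
      have hqm : q ∣ m := by
        rw [hc]
        exact Dvd.dvd.mul_left hqc _
      rcases hm.2 q hq hqm with rfl | h
      · exact absurd hqc hnd'
      · exact h
    exact ⟨(multiplicity p m, ⟨c, hcs⟩), Subtype.ext hc.symm⟩

/-- The equivalence `ℕ × smoothSet T ≃ smoothSet (insert p T)`, `(e, m) ↦ p ^ e * m`. -/
noncomputable def equivProdNatSmooth {T : Set M} {p : M} (hp : Prime p) (hpT : p ∉ T) :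
    ℕ × smoothSet T ≃ smoothSet (insert p T) :=
  Equiv.ofBijective _ (bijective_pow_mul hp hpT)

@[simp]
theorem equivProdNatSmooth_apply {T : Set M} {p : M} (hp : Prime p) (hpT : p ∉ T)
    (x : ℕ × smoothSet T) : ((equivProdNatSmooth hp hpT x : smoothSet (insert p T)) : M) =
      p ^ x.1 * x.2.1 := rfl


/-! ### The analytic part -/

section Analytic

variable {F : Type*} [NormedField F] [CompleteSpace F] {f : M → F}

open Classical in
/-- A finite product over primes in `T` is the sum over `T`-smooth elements. -/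
theorem summable_and_hasSum_smoothSet (hf₁ : f 1 = 1) (hmul : ∀ a b, f (a * b) = f a * f b)
    (hlt : ∀ p, Prime p → ‖f p‖ < 1) (T : Finset M) :
    Summable (fun m : smoothSet (T : Set M) ↦ ‖f m‖) ∧
      HasSum (fun m : smoothSet (T : Set M) ↦ f m) (∏ p ∈ T with Prime p, (1 - f p)⁻¹) := by
  induction T using Finset.induction with
  | empty =>
    rw [Finset.coe_empty, smoothSet_empty]
    simp only [Finset.filter_empty, Finset.prod_empty]
    exact ⟨(Set.finite_singleton 1).summable (‖f ·‖), hf₁ ▸ hasSum_singleton 1 f⟩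
  | insert p T hp ih =>
    rw [Finset.coe_insert, Finset.filter_insert]
    split_ifs with hpp
    · have hpT : p ∉ (T : Set M) := by simpa using hp
      have hpow : ∀ e : ℕ, f (p ^ e) = f p ^ e := by
        intro e
        induction e with
        | zero => simp [hf₁]
        | succ e ihe => rw [pow_succ, hmul, ihe, pow_succ]
      have hgeo : Summable (fun e : ℕ => ‖f p ^ e‖) := by
        simp only [norm_pow]
        exact summable_geometric_of_lt_one (norm_nonneg _) (hlt p hpp)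
      constructor
      · rw [← (equivProdNatSmooth hpp hpT).summable_iff]
        simp only [Function.comp_def, equivProdNatSmooth_apply, hmul, hpow]
        refine Summable.of_nonneg_of_le (fun _ ↦ norm_nonneg _) (fun _ ↦ norm_mul_le ..) ?_
        apply Summable.mul_of_nonneg hgeo ih.1 <;> exact fun n ↦ norm_nonneg _
      · have hp' : p ∉ {p ∈ T | Prime p} := mt (Finset.mem_of_mem_filter p) hp
        rw [Finset.prod_insert hp', ← (equivProdNatSmooth hpp hpT).hasSum_iff, Function.comp_def]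
        simp only [equivProdNatSmooth_apply, hmul, hpow]
        apply (hasSum_geometric_of_norm_lt_one (hlt p hpp)).mul ih.2
        apply summable_mul_of_summable_norm hgeo ih.1
    · rwa [smoothSet_insert_of_not_prime hpp]


open Classical in
/-- Finitely many elements are simultaneously smooth for a finite set of primes. -/
theorem exists_finset_smooth (S : Finset M) :
    ∃ T : Finset M, ∀ m ∈ S, m ≠ 0 → m ∈ smoothSet (T : Set M) := by
  refine ⟨S.biUnion fun m => (UniqueFactorizationMonoid.factors m).toFinset, fun m hm hm0 => ?_⟩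
  refine ⟨hm0, fun p hp hpm => ?_⟩
  obtain ⟨q, hq, hpq⟩ := UniqueFactorizationMonoid.exists_mem_factors_of_dvd hm0 hp.irreducible hpm
  rw [associated_iff_eq] at hpq
  subst hpq
  simp only [Finset.coe_biUnion, Set.mem_iUnion, Finset.mem_coe, Multiset.mem_toFinset]
  exact ⟨m, hm, hq⟩

/-- Summing over `T`-smooth elements for `T` large gets arbitrarily close to the full sum. -/
theorem norm_tsum_smoothSet_sub_tsum_lt (hsum : Summable f) (hf₀ : f 0 = 0) {ε : ℝ}
    (εpos : 0 < ε) :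
    ∃ T₀ : Finset M, ∀ T : Finset M, T₀ ⊆ T →
      ‖(∑' m : M, f m) - ∑' m : smoothSet (T : Set M), f m‖ < ε := by
  obtain ⟨S, hS⟩ := hsum.tsum_vanishing (Metric.ball_mem_nhds 0 εpos)
  obtain ⟨T₀, hT₀⟩ := exists_finset_smooth S
  refine ⟨T₀, fun T hT => ?_⟩
  have hdisj : Disjoint ((smoothSet (T : Set M))ᶜ \ {0}) (S : Set M) := by
    rw [Set.disjoint_left]
    rintro m ⟨hm, hm0⟩ hmS
    exact hm (smoothSet_mono (by exact_mod_cast hT) (hT₀ m hmS hm0))
  have := hS _ hdisj
  rw [mem_ball_zero_iff] at this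
  rwa [← hsum.tsum_subtype_add_tsum_subtype_compl (smoothSet (T : Set M)),
    add_sub_cancel_left, tsum_eq_tsum_sdiff_singleton (smoothSet (T : Set M))ᶜ hf₀]

theorem norm_lt_one_of_summable (hf₁ : f 1 = 1) (hmul : ∀ a b, f (a * b) = f a * f b)
    (hsum : Summable (‖f ·‖)) {p : M} (hp : Prime p) : ‖f p‖ < 1 := by
  have hpow : ∀ e : ℕ, f (p ^ e) = f p ^ e := by
    intro e
    induction e with
    | zero => simp [hf₁]
    | succ e ihe => rw [pow_succ, hmul, ihe, pow_succ]
  have h1 : Summable (fun e : ℕ => ‖f (p ^ e)‖) :=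
    hsum.comp_injective (pow_injective_of_not_isUnit hp.not_isUnit hp.ne_zero)
  simp only [hpow, norm_pow] at h1
  have := summable_geometric_iff_norm_lt_one.mp h1
  simpa using this

open Classical in
/-- **Euler product** for a completely multiplicative norm-summable function on a unique
factorization monoid with trivial units. -/
theorem hasProd_one_sub_inv (hf₀ : f 0 = 0) (hf₁ : f 1 = 1)
    (hmul : ∀ a b, f (a * b) = f a * f b) (hsum : Summable (‖f ·‖)) :
    HasProd (fun p : {p : M // Prime p} ↦ (1 - f p)⁻¹) (∑' m, f m) := by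
  have hlt : ∀ p, Prime p → ‖f p‖ < 1 := fun p hp => norm_lt_one_of_summable hf₁ hmul hsum hp
  let G : M → F := fun p ↦ (1 - f p)⁻¹
  change HasProd (G ∘ Subtype.val (p := (· ∈ {x | Prime x}))) _
  rw [hasProd_subtype_iff_mulIndicator, HasProd, SummationFilter.unconditional,
    Metric.tendsto_atTop]
  intro ε hε
  obtain ⟨T₀, hT₀⟩ := norm_tsum_smoothSet_sub_tsum_lt hsum.of_norm hf₀ hε
  refine ⟨T₀, fun T hT ↦ ?_⟩
  have : ∏ p ∈ T, {p | Prime p}.mulIndicator G p = ∏ p ∈ T with Prime p, G p :=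
    Finset.prod_mulIndicator_eq_prod_filter T (fun _ ↦ G) _ id
  rw [this, dist_eq_norm, ← (summable_and_hasSum_smoothSet hf₁ hmul hlt T).2.tsum_eq,
    norm_sub_rev]
  exact hT₀ T hT

/-- Finite partial Euler products are sums over smooth elements. -/
theorem prod_one_sub_inv_eq_tsum_smoothSet (hf₁ : f 1 = 1)
    (hmul : ∀ a b, f (a * b) = f a * f b) (hsum : Summable (‖f ·‖)) (T : Finset M)
    (hT : ∀ p ∈ T, Prime p) :
    ∏ p ∈ T, (1 - f p)⁻¹ = ∑' m : smoothSet (T : Set M), f m := by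
  classical
  have hlt : ∀ p, Prime p → ‖f p‖ < 1 := fun p hp => norm_lt_one_of_summable hf₁ hmul hsum hp
  rw [(summable_and_hasSum_smoothSet hf₁ hmul hlt T).2.tsum_eq, Finset.filter_true_of_mem hT]

end Analytic

end Fermat.Agent.Lib.EulerProd

end
-- ===== PACK-END Lib/EulerProd/EulerUFM.lean

-- ===== PACK-BEGIN Lib/EulerProd/IdealSum.lean
section



/-!
# Sums over the ideals of the ring of integers of a number field

* `summable_absNorm_rpow`: `∑ I, N(I)^(-s)` converges for real `s > 1`.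
* `zetaR`: the real Dedekind zeta function as a sum over ideals, `zetaR_eq_dedekindZeta`.
* `exists_zetaR_bounds`: `c / (s - 1) ≤ zetaR K s ≤ C / (s - 1)` on `(1, 2]`.
-/

set_option autoImplicit false
set_option linter.style.haveILetI false

namespace Fermat.Agent.Lib.EulerProd

open NumberField Ideal Filter Topology Finset

variable (K : Type*) [Field K] [NumberField K]

/-- Partial sums of the coefficients of the Dedekind zeta function (from Mathlib's proof of the
class number formula). -/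
theorem tendsto_sum_card_div :
    Tendsto (fun n : ℕ ↦ (∑ k ∈ Icc 1 n,
      (Nat.card {I : Ideal (𝓞 K) // absNorm I = k} : ℝ)) / (n : ℝ)) atTop
      (𝓝 (dedekindZeta_residue K)) := by
  refine ((Ideal.tendsto_norm_le_div_atTop₀ K).comp tendsto_natCast_atTop_atTop).congr fun n ↦ ?_
  simp only [Function.comp_apply, Nat.cast_le, ← Nat.cast_sum]
  congr
  rw [← add_left_inj 1, ← card_norm_le_eq_card_norm_le_add_one,
    show Finset.Icc 1 n = Finset.Ioc 0 n from Finset.Icc_succ_left_eq_Ioc _ _,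
    show 1 = Nat.card {I : Ideal (𝓞 K) // absNorm I = 0} by simp [Ideal.absNorm_eq_zero_iff],
    Finset.sum_Ioc_add_eq_sum_Icc (n.zero_le),
    ← Finset.card_preimage_eq_sum_card_image_eq (fun k _ ↦ finite_setOfPred_absNorm_eq k)]
  simp [Set.coe_eq_subtype]

theorem lseriesSummable_card {s : ℝ} (hs : 1 < s) :
    LSeriesSummable (fun n ↦ ((Nat.card {I : Ideal (𝓞 K) // absNorm I = n} : ℝ) : ℂ)) (s : ℂ) := by
  refine LSeriesSummable_of_sum_norm_bigO_and_nonneg ?_ (fun _ ↦ Nat.cast_nonneg _) zero_le_one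
    (by simpa using hs)
  exact Asymptotics.isBigO_atTop_natCast_rpow_of_tendsto_div_rpow
    (by simpa using tendsto_sum_card_div K)


/-- The fibre sums of `N(I)^(-s)` over the norm map. -/
theorem tsum_fiber_absNorm_rpow (s : ℝ) (n : ℕ) :
    ∑' I : {I : Ideal (𝓞 K) // absNorm I = n}, ((absNorm I.1 : ℕ) : ℝ) ^ (-s) =
      (Nat.card {I : Ideal (𝓞 K) // absNorm I = n} : ℝ) * (n : ℝ) ^ (-s) := by
  haveI : Finite {I : Ideal (𝓞 K) // absNorm I = n} := finite_setOfPred_absNorm_eq n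
  haveI : Fintype {I : Ideal (𝓞 K) // absNorm I = n} := Fintype.ofFinite _
  rw [tsum_fintype, Finset.sum_congr rfl (fun I _ => by rw [I.2]), Finset.sum_const,
    Finset.card_univ, Nat.card_eq_fintype_card, nsmul_eq_mul]

theorem summable_card_mul_rpow {s : ℝ} (hs : 1 < s) :
    Summable (fun n : ℕ ↦
      (Nat.card {I : Ideal (𝓞 K) // absNorm I = n} : ℝ) * (n : ℝ) ^ (-s)) := by
  have h := (lseriesSummable_card K hs).norm
  refine h.congr fun n => ?_
  rw [LSeries.norm_term_eq]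
  split_ifs with hn
  · subst hn
    have hs0 : -s ≠ 0 := by linarith
    simp [Real.zero_rpow hs0]
  · simp only [Complex.ofReal_re, Complex.norm_real, Real.norm_eq_abs, Nat.abs_cast]
    rw [Real.rpow_neg (Nat.cast_nonneg _), div_eq_mul_inv]

/-- `∑ I, N(I)^(-s)` converges for `s > 1`. -/
theorem summable_absNorm_rpow {s : ℝ} (hs : 1 < s) :
    Summable (fun I : Ideal (𝓞 K) ↦ ((absNorm I : ℕ) : ℝ) ^ (-s)) := by
  rw [← (Equiv.sigmaFiberEquiv (fun I : Ideal (𝓞 K) => absNorm I)).summable_iff]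
  rw [summable_sigma_of_nonneg (fun _ => by
    simp only [Function.comp_apply]
    positivity)]
  refine ⟨fun n => ?_, ?_⟩
  · haveI : Finite {I : Ideal (𝓞 K) // absNorm I = n} := finite_setOfPred_absNorm_eq n
    exact Summable.of_finite
  · refine (summable_card_mul_rpow K hs).congr fun n => ?_
    simp only [Function.comp_apply, Equiv.sigmaFiberEquiv_apply]
    exact (tsum_fiber_absNorm_rpow K s n).symm

/-- The Dedekind zeta function at a real argument, as a sum over all ideals (the zero ideal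
contributes `0`). -/
noncomputable def zetaR (s : ℝ) : ℝ := ∑' I : Ideal (𝓞 K), ((absNorm I : ℕ) : ℝ) ^ (-s)

theorem zetaR_eq_tsum_nat {s : ℝ} (hs : 1 < s) :
    zetaR K s = ∑' n : ℕ,
      (Nat.card {I : Ideal (𝓞 K) // absNorm I = n} : ℝ) * (n : ℝ) ^ (-s) := by
  have hsum := summable_absNorm_rpow K hs
  rw [zetaR, ← (Equiv.sigmaFiberEquiv (fun I : Ideal (𝓞 K) => absNorm I)).tsum_eq]
  rw [← (Equiv.sigmaFiberEquiv (fun I : Ideal (𝓞 K) => absNorm I)).summable_iff] at hsum
  have hfib : ∀ n : ℕ, Summable fun c : {I : Ideal (𝓞 K) // absNorm I = n} =>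
      ((fun I : Ideal (𝓞 K) => ((absNorm I : ℕ) : ℝ) ^ (-s)) ∘
        (Equiv.sigmaFiberEquiv (fun I : Ideal (𝓞 K) => absNorm I))) ⟨n, c⟩ := by
    intro n
    haveI : Finite {I : Ideal (𝓞 K) // absNorm I = n} := finite_setOfPred_absNorm_eq n
    exact Summable.of_finite
  have := Summable.tsum_sigma' hfib hsum
  simp only [Function.comp_apply] at this
  rw [this]
  refine tsum_congr fun n => ?_
  simp only [Equiv.sigmaFiberEquiv_apply]
  exact tsum_fiber_absNorm_rpow K s n

theorem zetaR_eq_dedekindZeta {s : ℝ} (hs : 1 < s) :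
    ((zetaR K s : ℝ) : ℂ) = dedekindZeta K (s : ℂ) := by
  rw [zetaR_eq_tsum_nat K hs, dedekindZeta, LSeries, Complex.ofReal_tsum]
  refine tsum_congr fun n => ?_
  rw [LSeries.term_def]
  split_ifs with hn
  · subst hn
    have hs0 : -s ≠ 0 := by linarith
    simp [Real.zero_rpow hs0]
  · rw [Complex.ofReal_mul, Complex.ofReal_natCast, Complex.ofReal_cpow (Nat.cast_nonneg _),
      Complex.ofReal_neg, Complex.cpow_neg, Complex.ofReal_natCast, div_eq_mul_inv]


theorem tendsto_sub_one_mul_zetaR :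
    Tendsto (fun s : ℝ ↦ (s - 1) * zetaR K s) (𝓝[>] 1) (𝓝 (dedekindZeta_residue K)) := by
  have h := tendsto_sub_one_mul_dedekindZeta_nhdsGT K
  have h2 : Tendsto (fun s : ℝ ↦ (((s - 1) * zetaR K s : ℝ) : ℂ)) (𝓝[>] 1)
      (𝓝 ((dedekindZeta_residue K : ℝ) : ℂ)) := by
    refine h.congr' ?_
    filter_upwards [self_mem_nhdsWithin] with s hs
    rw [Complex.ofReal_mul, zetaR_eq_dedekindZeta K hs]
    push_cast
    rfl
  have h3 := (Complex.continuous_re.tendsto _).comp h2
  rw [Complex.ofReal_re] at h3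
  refine h3.congr fun s => ?_
  simp only [Function.comp_apply, Complex.ofReal_re]

theorem one_le_zetaR {s : ℝ} (hs : 1 < s) : 1 ≤ zetaR K s := by
  have hsum := summable_absNorm_rpow K hs
  have := hsum.le_tsum (⊤ : Ideal (𝓞 K)) (fun _ _ => by positivity)
  simpa [zetaR] using this

theorem zetaR_pos {s : ℝ} (hs : 1 < s) : 0 < zetaR K s :=
  lt_of_lt_of_le one_pos (one_le_zetaR K hs)

/-- Upper bound near `1`. -/
theorem eventually_zetaR_le :
    ∃ C : ℝ, 0 < C ∧ ∀ᶠ s in 𝓝[>] (1 : ℝ), zetaR K s ≤ C / (s - 1) := by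
  refine ⟨dedekindZeta_residue K + 1, by linarith [dedekindZeta_residue_pos K], ?_⟩
  have h := (tendsto_order.1 (tendsto_sub_one_mul_zetaR K)).2 (dedekindZeta_residue K + 1)
    (by linarith)
  filter_upwards [h, self_mem_nhdsWithin] with s hs hs1
  have hs1' : (0 : ℝ) < s - 1 := by
    have : (1 : ℝ) < s := hs1
    linarith
  rw [le_div_iff₀ hs1']
  linarith

/-- Lower bound near `1`. -/
theorem eventually_le_zetaR :
    ∃ c : ℝ, 0 < c ∧ ∀ᶠ s in 𝓝[>] (1 : ℝ), c / (s - 1) ≤ zetaR K s := by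
  refine ⟨dedekindZeta_residue K / 2, by linarith [dedekindZeta_residue_pos K], ?_⟩
  have h := (tendsto_order.1 (tendsto_sub_one_mul_zetaR K)).1 (dedekindZeta_residue K / 2)
    (by linarith [dedekindZeta_residue_pos K])
  filter_upwards [h, self_mem_nhdsWithin] with s hs hs1
  have hs1' : (0 : ℝ) < s - 1 := by
    have : (1 : ℝ) < s := hs1
    linarith
  rw [div_le_iff₀ hs1']
  linarith

end Fermat.Agent.Lib.EulerProd

end
-- ===== PACK-END Lib/EulerProd/IdealSum.lean

-- ===== PACK-BEGIN S48/H128/TsumWeight.lean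
section


/-!
# S48 / P1 (helper128): a weighted version of `tsum_prod_pow_eq_tsum_sigma`

`∑_{d, c ≥ 1} w(d) c^k r^{dc} = ∑_{e ≥ 1} (∑_{d c = e} w(d) c^k) r^e` for a bounded weight `w`.
-/

set_option autoImplicit false

open Filter Topology Nat Finset

namespace Fermat.Agent.S48.H128

/-- The twisted divisor sum `∑_{d c = n} w(d) c^k`. -/
noncomputable def sigmaW (w : ℕ → ℂ) (k n : ℕ) : ℂ :=
  ∑ x ∈ n.divisorsAntidiagonal, w x.1 * (x.2 : ℂ) ^ k

theorem sigmaW_zero (w : ℕ → ℂ) (k : ℕ) : sigmaW w k 0 = 0 := by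
  simp [sigmaW]

theorem sigmaW_one (w : ℕ → ℂ) (k : ℕ) : sigmaW w k 1 = w 1 := by
  simp [sigmaW]

theorem summable_prod_weight (w : ℕ → ℂ) (hw : ∀ n, ‖w n‖ ≤ 1) (k : ℕ) {r : ℂ} (hr : ‖r‖ < 1) :
    Summable fun c : (ℕ+ × ℕ+) ↦ w c.1 * (c.2 : ℂ) ^ k * r ^ (c.1 * c.2 : ℕ) := by
  have h := (summable_prod_mul_pow (𝕜 := ℂ) k hr).norm
  refine Summable.of_norm (h.of_nonneg_of_le (fun _ => norm_nonneg _) fun c => ?_)
  rw [mul_assoc, norm_mul]
  exact mul_le_of_le_one_left (norm_nonneg _) (hw _)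

theorem tsum_prod_weight_eq (w : ℕ → ℂ) (hw : ∀ n, ‖w n‖ ≤ 1) (k : ℕ) {r : ℂ} (hr : ‖r‖ < 1) :
    ∑' d : ℕ+, ∑' c : ℕ+, w d * (c : ℂ) ^ k * r ^ (d * c : ℕ) =
      ∑' e : ℕ+, sigmaW w k e * r ^ (e : ℕ) := by
  have hs := summable_prod_weight w hw k hr
  rw [← hs.tsum_prod (f := fun c : ℕ+ × ℕ+ => w c.1 * (c.2 : ℂ) ^ k * r ^ (c.1 * c.2 : ℕ))]
  rw [← sigmaAntidiagonalEquivProd.tsum_eq]
  have hs' : Summable fun x : (Σ n : ℕ+, Nat.divisorsAntidiagonal n) =>
      (fun c : ℕ+ × ℕ+ => w c.1 * (c.2 : ℂ) ^ k * r ^ (c.1 * c.2 : ℕ))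
        (sigmaAntidiagonalEquivProd x) :=
    sigmaAntidiagonalEquivProd.summable_iff.mpr hs
  rw [hs'.tsum_sigma]
  refine tsum_congr fun n => ?_
  rw [tsum_fintype, sigmaW, Finset.sum_mul, Finset.univ_eq_attach]
  rw [← (n : ℕ).divisorsAntidiagonal.sum_attach
    (fun x : ℕ × ℕ => w x.1 * (x.2 : ℂ) ^ k * r ^ (n : ℕ))]
  refine Finset.sum_congr rfl fun x _ => ?_
  have hx := Nat.mem_divisorsAntidiagonal.mp x.2
  simp only [sigmaAntidiagonalEquivProd, divisorsAntidiagonalFactors, Equiv.coe_fn_mk, PNat.mk_coe]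
  rw [hx.1]

end Fermat.Agent.S48.H128

end
-- ===== PACK-END S48/H128/TsumWeight.lean

-- ===== PACK-BEGIN S23/LevelOne.lean
section



/-!
# S23 helper: structure of level-one modular forms

* `qE4`, `qE6` : integral `q`-expansions of `E₄`, `E₆`.
* `levelOne_qExpansion_mem_span` : the `q`-expansion of every level-one modular form of
  weight `k` is a `ℂ`-linear combination of the integral monomials `qE4 ^ a * qE6 ^ b`
  with `4 a + 6 b = k`.
* `exists_levelOne_of_mem_span` : conversely every such combination is the `q`-expansion of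
  a level-one form of weight `k`.
* `levelOne_transport` : transport of level-one forms along an arbitrary additive map
  `ρ : ℂ →+ ℂ` applied coefficientwise.
* `levelOne_bounded_denominators` : a level-one form with rational `q`-expansion has
  bounded denominators.
-/

set_option autoImplicit false

namespace Fermat.Agent.S23.LevelOne

open ModularForm ModularFormClass EisensteinSeries UpperHalfPlane MatrixGroups

noncomputable section

/-- The integral `q`-expansion of `E₄`. -/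
def qE4 : PowerSeries ℤ :=
  PowerSeries.mk fun m => if m = 0 then 1 else 240 * (ArithmeticFunction.sigma 3 m : ℤ)

/-- The integral `q`-expansion of `E₆`. -/
def qE6 : PowerSeries ℤ :=
  PowerSeries.mk fun m => if m = 0 then 1 else -504 * (ArithmeticFunction.sigma 5 m : ℤ)

theorem qExpansion_E4 : qExpansion 1 E₄ = qE4.map (Int.castRingHom ℂ) := by
  ext m
  rw [E_qExpansion_coeff _ ⟨2, rfl⟩]
  simp only [qE4, PowerSeries.coeff_map, PowerSeries.coeff_mk]
  split_ifs with h
  · simp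
  · norm_num [show bernoulli 4 = -1 / 30 by decide +kernel]

theorem qExpansion_E6 : qExpansion 1 E₆ = qE6.map (Int.castRingHom ℂ) := by
  ext m
  rw [E_qExpansion_coeff _ ⟨3, rfl⟩]
  simp only [qE6, PowerSeries.coeff_map, PowerSeries.coeff_mk]
  split_ifs with h
  · simp
  · norm_num [show bernoulli 6 = 1 / 42 by decide +kernel]

/-- The integral monomial `qE4 ^ a * qE6 ^ b`. -/
def qMono (a b : ℕ) : PowerSeries ℤ := qE4 ^ a * qE6 ^ b

/-- The monomial `q`-expansions of weight `k`. -/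
def monoSet (k : ℤ) : Set (PowerSeries ℂ) :=
  {P | ∃ a b : ℕ, (4 * (a : ℤ) + 6 * (b : ℤ)) = k ∧ P = (qMono a b).map (Int.castRingHom ℂ)}

/-- The monomial `E₄ ^ a * E₆ ^ b` as a level one modular form. -/
def monoForm (a b : ℕ) : ModularForm 𝒮ℒ (4 * (a : ℤ) + 6 * (b : ℤ)) :=
  ModularForm.mcast (by ring) ((E₄.pow a).mul (E₆.pow b))

theorem monoForm_apply (a b : ℕ) (z : ℍ) : monoForm a b z = E₄ z ^ a * E₆ z ^ b := by
  simp [monoForm]

theorem qExpansion_monoForm (a b : ℕ) :
    qExpansion 1 (monoForm a b) = (qMono a b).map (Int.castRingHom ℂ) := by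
  rw [monoForm, ModularForm.qExpansion_mcast,
    ModularForm.qExpansion_mul one_pos one_mem_strictPeriods_SL,
    ModularForm.qExpansion_pow one_pos one_mem_strictPeriods_SL,
    ModularForm.qExpansion_pow one_pos one_mem_strictPeriods_SL,
    qExpansion_E4, qExpansion_E6, qMono]
  simp


theorem qExpansion_discriminant_eq :
    qExpansion 1 ModularForm.discriminant =
      (1 / 1728 : ℂ) • ((qMono 3 0).map (Int.castRingHom ℂ) - (qMono 0 2).map (Int.castRingHom ℂ)) := by
  have h : (ModularForm.discriminant : ℍ → ℂ) =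
      ((1 / 1728 : ℂ) • (ModularForm.mcast (by norm_num) (monoForm 3 0) -
        ModularForm.mcast (by norm_num) (monoForm 0 2) : ModularForm 𝒮ℒ 12) : ModularForm 𝒮ℒ 12) := by
    ext z
    simp only [FunLike.coe_smul, FunLike.coe_sub, coe_mcast, Pi.smul_apply, Pi.sub_apply,
      smul_eq_mul, monoForm_apply]
    rw [discriminant_eq_E₄_cube_sub_E₆_sq z]
    ring
  rw [h, FunLike.coe_smul, ModularForm.qExpansion_smul one_pos one_mem_strictPeriods_SL,
    FunLike.coe_sub, ModularForm.qExpansion_sub one_pos one_mem_strictPeriods_SL,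
    ModularForm.qExpansion_mcast, ModularForm.qExpansion_mcast, qExpansion_monoForm,
    qExpansion_monoForm]

/-- `Δ * monomial` is a combination of monomials. -/
theorem discriminant_mul_mem_span (k : ℤ) (P : PowerSeries ℂ)
    (hP : P ∈ Submodule.span ℂ (monoSet (k - 12))) :
    qExpansion 1 ModularForm.discriminant * P ∈ Submodule.span ℂ (monoSet k) := by
  induction hP using Submodule.span_induction with
  | mem x hx =>
    obtain ⟨a, b, hab, rfl⟩ := hx
    rw [qExpansion_discriminant_eq]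
    have h1 : (qMono 3 0).map (Int.castRingHom ℂ) * (qMono a b).map (Int.castRingHom ℂ) =
        (qMono (a + 3) b).map (Int.castRingHom ℂ) := by
      rw [← map_mul]; congr 1; simp only [qMono]; ring
    have h2 : (qMono 0 2).map (Int.castRingHom ℂ) * (qMono a b).map (Int.castRingHom ℂ) =
        (qMono a (b + 2)).map (Int.castRingHom ℂ) := by
      rw [← map_mul]; congr 1; simp only [qMono]; ring
    rw [smul_mul_assoc, sub_mul, h1, h2]
    refine Submodule.smul_mem _ _ (Submodule.sub_mem _ ?_ ?_)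
    · exact Submodule.subset_span ⟨a + 3, b, by push_cast; linarith, rfl⟩
    · exact Submodule.subset_span ⟨a, b + 2, by push_cast; linarith, rfl⟩
  | zero => simp
  | add x y _ _ hx hy => rw [mul_add]; exact Submodule.add_mem _ hx hy
  | smul c x _ hx => rw [mul_smul_comm]; exact Submodule.smul_mem _ _ hx



theorem constantCoeff_qE4 : PowerSeries.constantCoeff qE4 = 1 := by
  simp [qE4]

theorem constantCoeff_qE6 : PowerSeries.constantCoeff qE6 = 1 := by
  simp [qE6]

theorem constantCoeff_qMono (a b : ℕ) : PowerSeries.constantCoeff (qMono a b) = 1 := by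
  simp [qMono, constantCoeff_qE4, constantCoeff_qE6]

theorem exists_weight_decomp (k : ℤ) (hk : 4 ≤ k) (hev : Even k) :
    ∃ a b : ℕ, 4 * (a : ℤ) + 6 * (b : ℤ) = k := by
  obtain ⟨m, hm⟩ := hev
  rcases Int.even_or_odd m with ⟨n, hn⟩ | ⟨n, hn⟩
  · refine ⟨n.toNat, 0, ?_⟩
    have : 0 ≤ n := by omega
    rw [Int.toNat_of_nonneg this]; omega
  · refine ⟨(n - 1).toNat, 1, ?_⟩
    have : 0 ≤ n - 1 := by omega
    rw [Int.toNat_of_nonneg this]; omega

theorem levelOne_qExpansion_mem_span_aux (n : ℕ) : ∀ (k : ℤ), k.toNat = n →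
    ∀ f : ModularForm 𝒮ℒ k, qExpansion 1 f ∈ Submodule.span ℂ (monoSet k) := by
  induction n using Nat.strong_induction_on with
  | _ n ih =>
  intro k hk f
  rcases lt_or_ge k 0 with hneg | hnn
  · have : f = 0 := rank_zero_iff_forall_zero.mp (levelOne_neg_weight_rank_zero hneg) f
    rw [this]; simp [qExpansion_zero]
  rcases Int.even_or_odd k with hev | hodd
  swap
  · have : f = 0 := levelOne_odd_weight_eq_zero hodd f
    rw [this]; simp [qExpansion_zero]
  rcases eq_or_lt_of_le hnn with h0 | hpos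
  · subst h0
    obtain ⟨c, hc⟩ := levelOne_weight_zero_const f
    have h1 : (f : ℍ → ℂ) = c • (1 : ℍ → ℂ) := by
      rw [hc]; ext z; simp
    have hq : qExpansion 1 f = c • (1 : PowerSeries ℂ) := by
      rw [h1]
      have := ModularForm.qExpansion_smul one_pos one_mem_strictPeriods_SL c (1 : ModularForm 𝒮ℒ 0)
      have h2 : ((1 : ModularForm 𝒮ℒ 0) : ℍ → ℂ) = 1 := by ext z; simp
      rw [h2] at this
      rw [this, qExpansion_one]
    rw [hq]
    refine Submodule.smul_mem _ _ (Submodule.subset_span ⟨0, 0, by simp, ?_⟩)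
    simp [qMono]
  by_cases h2 : k = 2
  · subst h2
    have : f = 0 := rank_zero_iff_forall_zero.mp levelOne_weight_two_rank_zero f
    rw [this]; simp [qExpansion_zero]
  have hk4 : 4 ≤ k := by
    obtain ⟨m, hm⟩ := hev
    omega
  obtain ⟨a, b, hab⟩ := exists_weight_decomp k hk4 hev
  subst hab
  set c := (qExpansion 1 f).coeff 0 with hc
  set g : ModularForm 𝒮ℒ (4 * (a : ℤ) + 6 * (b : ℤ)) := f - c • monoForm a b with hg
  have hqg : qExpansion 1 g = qExpansion 1 f - c • (qMono a b).map (Int.castRingHom ℂ) := by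
    rw [hg, FunLike.coe_sub, ModularForm.qExpansion_sub one_pos one_mem_strictPeriods_SL,
      FunLike.coe_smul, ModularForm.qExpansion_smul one_pos one_mem_strictPeriods_SL,
      qExpansion_monoForm]
  have hg0 : (qExpansion 1 g).coeff 0 = 0 := by
    rw [hqg]
    have h7 : PowerSeries.constantCoeff ((qMono a b).map (Int.castRingHom ℂ)) = 1 := by
      rw [← PowerSeries.coeff_zero_eq_constantCoeff_apply, PowerSeries.coeff_map,
        PowerSeries.coeff_zero_eq_constantCoeff_apply, constantCoeff_qMono]; simp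
    simp [h7, hc]
  have h3 := qExpansion_eq_qExpansion_discriminant_mul g hg0
  have hh := ih ((4 * (a : ℤ) + 6 * (b : ℤ) - 12).toNat) (by omega) _ rfl
    (CuspForm.discriminantEquiv (toCuspForm g hg0))
  have h4 := discriminant_mul_mem_span _ _ hh
  rw [← h3, hqg] at h4
  have h5 : c • (qMono a b).map (Int.castRingHom ℂ) ∈
      Submodule.span ℂ (monoSet (4 * (a : ℤ) + 6 * (b : ℤ))) :=
    Submodule.smul_mem _ _ (Submodule.subset_span ⟨a, b, rfl, rfl⟩)
  have := Submodule.add_mem _ h4 h5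
  simpa using this

/-- The `q`-expansion of a level-one modular form of weight `k` is a `ℂ`-combination of the
integral monomials `qE4 ^ a * qE6 ^ b`, `4 a + 6 b = k`. -/
theorem levelOne_qExpansion_mem_span (k : ℤ) (f : ModularForm 𝒮ℒ k) :
    qExpansion 1 f ∈ Submodule.span ℂ (monoSet k) :=
  levelOne_qExpansion_mem_span_aux _ k rfl f

/-- Every `ℂ`-combination of monomials of weight `k` is the `q`-expansion of a level-one form. -/
theorem exists_levelOne_of_mem_span (k : ℤ) (P : PowerSeries ℂ)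
    (hP : P ∈ Submodule.span ℂ (monoSet k)) :
    ∃ f : ModularForm 𝒮ℒ k, qExpansion 1 f = P := by
  induction hP using Submodule.span_induction with
  | mem x hx =>
    obtain ⟨a, b, hab, rfl⟩ := hx
    subst hab
    exact ⟨monoForm a b, qExpansion_monoForm a b⟩
  | zero => exact ⟨0, by simp [qExpansion_zero]⟩
  | add x y _ _ hx hy =>
    obtain ⟨f, rfl⟩ := hx
    obtain ⟨g, rfl⟩ := hy
    exact ⟨f + g, by
      rw [FunLike.coe_add, ModularForm.qExpansion_add one_pos one_mem_strictPeriods_SL]⟩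
  | smul c x _ hx =>
    obtain ⟨f, rfl⟩ := hx
    exact ⟨c • f, by
      rw [FunLike.coe_smul, ModularForm.qExpansion_smul one_pos one_mem_strictPeriods_SL]⟩



/-- Coefficientwise application of an additive map to a power series. -/
def mapCoeff (ρ : ℂ →+ ℂ) (P : PowerSeries ℂ) : PowerSeries ℂ :=
  PowerSeries.mk fun n => ρ (P.coeff n)

@[simp] theorem coeff_mapCoeff (ρ : ℂ →+ ℂ) (P : PowerSeries ℂ) (n : ℕ) :
    (mapCoeff ρ P).coeff n = ρ (P.coeff n) := by
  simp [mapCoeff]

theorem mapCoeff_ringHom (σ : ℂ →+* ℂ) (P : PowerSeries ℂ) :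
    mapCoeff σ.toAddMonoidHom P = P.map σ := by
  ext n; simp

theorem mapCoeff_mem_span (k : ℤ) (P : PowerSeries ℂ)
    (hP : P ∈ Submodule.span ℂ (monoSet k)) :
    ∀ ρ : ℂ →+ ℂ, mapCoeff ρ P ∈ Submodule.span ℂ (monoSet k) := by
  induction hP using Submodule.span_induction with
  | mem x hx =>
    intro ρ
    obtain ⟨a, b, hab, rfl⟩ := hx
    have : mapCoeff ρ ((qMono a b).map (Int.castRingHom ℂ)) =
        ρ 1 • (qMono a b).map (Int.castRingHom ℂ) := by
      ext n
      simp only [coeff_mapCoeff, PowerSeries.coeff_map, PowerSeries.coeff_smul, smul_eq_mul,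
        eq_intCast]
      rw [(zsmul_one ((PowerSeries.coeff n) (qMono a b))).symm, map_zsmul]
      simp [mul_comm]
    rw [this]
    exact Submodule.smul_mem _ _ (Submodule.subset_span ⟨a, b, hab, rfl⟩)
  | zero =>
    intro ρ
    have : mapCoeff ρ 0 = 0 := by ext n; simp
    rw [this]; exact Submodule.zero_mem _
  | add x y _ _ hx hy =>
    intro ρ
    have : mapCoeff ρ (x + y) = mapCoeff ρ x + mapCoeff ρ y := by ext n; simp
    rw [this]; exact Submodule.add_mem _ (hx ρ) (hy ρ)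
  | smul c x _ hx =>
    intro ρ
    have : mapCoeff ρ (c • x) = mapCoeff (ρ.comp (AddMonoidHom.mulLeft c)) x := by
      ext n; simp
    rw [this]; exact hx _

/-- Transport of a level-one modular form along an arbitrary additive map `ρ : ℂ →+ ℂ`
applied coefficientwise to the `q`-expansion. -/
theorem levelOne_transport (ρ : ℂ →+ ℂ) (k : ℤ) (f : ModularForm 𝒮ℒ k) :
    ∃ g : ModularForm 𝒮ℒ k, ∀ n, (qExpansion 1 g).coeff n = ρ ((qExpansion 1 f).coeff n) := by
  obtain ⟨g, hg⟩ := exists_levelOne_of_mem_span k _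
    (mapCoeff_mem_span k _ (levelOne_qExpansion_mem_span k f) ρ)
  exact ⟨g, fun n => by rw [hg, coeff_mapCoeff]⟩

/-- Transport of a level-one modular form along a ring endomorphism of `ℂ`. -/
theorem levelOne_transport_ringHom (σ : ℂ →+* ℂ) (k : ℤ) (f : ModularForm 𝒮ℒ k) :
    ∃ g : ModularForm 𝒮ℒ k, qExpansion 1 g = (qExpansion 1 f).map σ := by
  obtain ⟨g, hg⟩ := levelOne_transport σ.toAddMonoidHom k f
  exact ⟨g, by ext n; rw [hg]; simp⟩

/-- Transport of a level-one cusp form along an arbitrary additive map. -/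
theorem levelOne_transport_cusp (ρ : ℂ →+ ℂ) (k : ℤ) (f : CuspForm 𝒮ℒ k) :
    ∃ g : CuspForm 𝒮ℒ k, ∀ n, (qExpansion 1 g).coeff n = ρ ((qExpansion 1 f).coeff n) := by
  obtain ⟨g, hg⟩ := levelOne_transport ρ k (CuspForm.toModularFormₗ f)
  have hcoe : (⇑(CuspForm.toModularFormₗ f) : ℍ → ℂ) = ⇑f := rfl
  rw [hcoe] at hg
  have h0 : (qExpansion 1 f).coeff 0 = 0 :=
    CuspFormClass.qExpansion_coeff_zero f one_pos one_mem_strictPeriods_SL
  have hg0 : (qExpansion 1 g).coeff 0 = 0 := by rw [hg, h0, map_zero]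
  refine ⟨toCuspForm g hg0, fun n => ?_⟩
  have hcoe2 : (⇑(toCuspForm g hg0) : ℍ → ℂ) = ⇑g := rfl
  rw [hcoe2]
  exact hg n

/-- Transport of a level-one cusp form along a ring endomorphism of `ℂ`. -/
theorem levelOne_transport_cusp_ringHom (σ : ℂ →+* ℂ) (k : ℤ) (f : CuspForm 𝒮ℒ k) :
    ∃ g : CuspForm 𝒮ℒ k, qExpansion 1 g = (qExpansion 1 f).map σ := by
  obtain ⟨g, hg⟩ := levelOne_transport_cusp σ.toAddMonoidHom k f
  exact ⟨g, by ext n; rw [hg]; simp⟩

theorem bounded_of_mem_span (k : ℤ) (P : PowerSeries ℂ)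
    (hP : P ∈ Submodule.span ℂ (monoSet k)) :
    ∀ ρ : ℂ →ₗ[ℚ] ℚ, ∃ M : ℕ, M ≠ 0 ∧ ∀ n, ∃ m : ℤ, (M : ℚ) * ρ (P.coeff n) = m := by
  induction hP using Submodule.span_induction with
  | mem x hx =>
    intro ρ
    obtain ⟨a, b, hab, rfl⟩ := hx
    refine ⟨(ρ 1).den, (ρ 1).den_nz, fun n => ⟨(ρ 1).num * (qMono a b).coeff n, ?_⟩⟩
    simp only [PowerSeries.coeff_map, eq_intCast]
    have h1 : ρ (((PowerSeries.coeff n) (qMono a b) : ℤ) : ℂ) =
        ((PowerSeries.coeff n) (qMono a b) : ℤ) * ρ 1 := by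
      rw [(zsmul_one ((PowerSeries.coeff n) (qMono a b))).symm, map_zsmul]
      simp
    rw [h1]
    push_cast
    have h2 : ((ρ 1).den : ℚ) * ρ 1 = (ρ 1).num := Rat.den_mul_eq_num (ρ 1)
    calc ((ρ 1).den : ℚ) * (((PowerSeries.coeff n) (qMono a b) : ℤ) * ρ 1)
        = ((PowerSeries.coeff n) (qMono a b) : ℤ) * (((ρ 1).den : ℚ) * ρ 1) := by ring
      _ = _ := by rw [h2]; ring
  | zero =>
    intro ρ
    exact ⟨1, one_ne_zero, fun n => ⟨0, by simp⟩⟩
  | add x y _ _ hx hy =>
    intro ρ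
    obtain ⟨M₁, hM₁, h₁⟩ := hx ρ
    obtain ⟨M₂, hM₂, h₂⟩ := hy ρ
    refine ⟨M₁ * M₂, Nat.mul_ne_zero hM₁ hM₂, fun n => ?_⟩
    obtain ⟨m₁, hm₁⟩ := h₁ n
    obtain ⟨m₂, hm₂⟩ := h₂ n
    refine ⟨M₂ * m₁ + M₁ * m₂, ?_⟩
    simp only [map_add]
    push_cast
    rw [← hm₁, ← hm₂]; ring
  | smul c x _ hx =>
    intro ρ
    obtain ⟨M, hM, h⟩ := hx (ρ.comp ((LinearMap.mulLeft ℂ c).restrictScalars ℚ))
    exact ⟨M, hM, fun n => by simpa using h n⟩

/-- There is a `ℚ`-linear retraction `ℂ → ℚ`. -/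
theorem exists_rat_retraction : ∃ π : ℂ →ₗ[ℚ] ℚ, ∀ r : ℚ, π (r : ℂ) = r := by
  obtain ⟨π, hπ⟩ := LinearMap.exists_leftInverse_of_injective
    (Algebra.linearMap ℚ ℂ) (by
      rw [LinearMap.ker_eq_bot]
      exact (algebraMap ℚ ℂ).injective)
  refine ⟨π, fun r => ?_⟩
  have := LinearMap.congr_fun hπ r
  simpa using this

/-- A level-one modular form with rational `q`-expansion has bounded denominators. -/
theorem levelOne_bounded_denominators (k : ℤ) (f : ModularForm 𝒮ℒ k)
    (hf : ∀ n, ∃ r : ℚ, (qExpansion 1 f).coeff n = (r : ℂ)) :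
    ∃ M : ℕ, M ≠ 0 ∧ ∀ n, ∃ m : ℤ, (M : ℂ) * (qExpansion 1 f).coeff n = (m : ℂ) := by
  obtain ⟨π, hπ⟩ := exists_rat_retraction
  obtain ⟨M, hM, h⟩ := bounded_of_mem_span k _ (levelOne_qExpansion_mem_span k f) π
  refine ⟨M, hM, fun n => ?_⟩
  obtain ⟨m, hm⟩ := h n
  obtain ⟨r, hr⟩ := hf n
  refine ⟨m, ?_⟩
  rw [hr] at hm ⊢
  rw [hπ] at hm
  exact_mod_cast hm

end

end Fermat.Agent.S23.LevelOne

end
-- ===== PACK-END S23/LevelOne.lean

-- ===== PACK-BEGIN S20/Core.lean
section


/-!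
# S20 long shot — core definitions (FROZEN INTERFACE, owner helper20)

Everything is stated for a subgroup `Γ : Subgroup SL(2, ℤ)` and at FUNCTION level
(no bundled forms, hence no weight casts).

* `MF Γ k`, `SF Γ k` : modular / cusp forms of weight `k` for `Γ`, as `Submodule ℂ (ℍ → ℂ)`.
* `X Γ := SL(2, ℤ) ⧸ Γ` (left cosets, left multiplication action).
* `ev Γ k τ f : X Γ → ℂ`, `x ↦ (f ∣[k] (x.out)⁻¹) τ`  (vector of conjugates of `f` at `τ`).
* `shiftT Γ`, `per Γ`, `proj Γ a`, `Theta Γ s` : the permutation operator of `T` on `ℂ^X`,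
  its order, its spectral projectors and `Theta s = ∑ₐ exp(2πi a s / h) • proj a`.
* `HasJet Γ k f v` : `Theta (-τ) (ev τ f) → v` as `im τ → ∞` ("leading coefficients at the cusps").
* `LevelOneDivisor z₀ w P` : `P` is a level one form of weight `w` with simple zeros, exactly on
  the orbit of `z₀`, not vanishing at `∞`.
* `FundSystem Γ` : a unimodular frame (fundamental system of generators).
-/

set_option autoImplicit false

noncomputable section

namespace Fermat.Agent.S20

open UpperHalfPlane ModularForm CongruenceSubgroup MatrixGroups Filter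
open scoped Manifold Topology Real

lemma smul_slash_SL (k : ℤ) (γ : SL(2, ℤ)) (c : ℂ) (f : ℍ → ℂ) :
    (c • f) ∣[k] γ = c • (f ∣[k] γ) := by
  simp

/-- Function-level space of weight `k` modular forms for `Γ ≤ SL(2, ℤ)`. -/
def MF (Γ : Subgroup SL(2, ℤ)) (k : ℤ) : Submodule ℂ (ℍ → ℂ) where
  carrier := {f | MDiff f ∧ (∀ γ ∈ Γ, f ∣[k] γ = f) ∧
    ∀ γ : SL(2, ℤ), IsBoundedAtImInfty (f ∣[k] γ)}
  zero_mem' := by
    refine ⟨mdifferentiable_const, fun γ _ => by simp, fun γ => ?_⟩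
    simpa using (zero_form_isBoundedAtImInfty : IsBoundedAtImInfty (0 : ℍ → ℂ))
  add_mem' := by
    rintro f g ⟨hf, hf', hf''⟩ ⟨hg, hg', hg''⟩
    refine ⟨hf.add hg, fun γ hγ => by rw [SlashAction.add_slash, hf' γ hγ, hg' γ hγ],
      fun γ => ?_⟩
    rw [SlashAction.add_slash]
    exact (hf'' γ).add (hg'' γ)
  smul_mem' := by
    rintro c f ⟨hf, hf', hf''⟩
    refine ⟨hf.const_smul c, fun γ hγ => by rw [smul_slash_SL, hf' γ hγ], fun γ => ?_⟩
    rw [smul_slash_SL]
    exact (hf'' γ).const_smul_left c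

/-- Function-level space of weight `k` cusp forms for `Γ ≤ SL(2, ℤ)`. -/
def SF (Γ : Subgroup SL(2, ℤ)) (k : ℤ) : Submodule ℂ (ℍ → ℂ) where
  carrier := {f | MDiff f ∧ (∀ γ ∈ Γ, f ∣[k] γ = f) ∧
    ∀ γ : SL(2, ℤ), IsZeroAtImInfty (f ∣[k] γ)}
  zero_mem' := by
    refine ⟨mdifferentiable_const, fun γ _ => by simp, fun γ => ?_⟩
    rw [SlashAction.zero_slash]
    exact Filter.zero_zeroAtFilter atImInfty
  add_mem' := by
    rintro f g ⟨hf, hf', hf''⟩ ⟨hg, hg', hg''⟩
    refine ⟨hf.add hg, fun γ hγ => by rw [SlashAction.add_slash, hf' γ hγ, hg' γ hγ],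
      fun γ => ?_⟩
    rw [SlashAction.add_slash]
    exact (hf'' γ).add (hg'' γ)
  smul_mem' := by
    rintro c f ⟨hf, hf', hf''⟩
    refine ⟨hf.const_smul c, fun γ hγ => by rw [smul_slash_SL, hf' γ hγ], fun γ => ?_⟩
    rw [smul_slash_SL]
    exact (hf'' γ).smul c

lemma mem_MF {Γ : Subgroup SL(2, ℤ)} {k : ℤ} {f : ℍ → ℂ} :
    f ∈ MF Γ k ↔ MDiff f ∧ (∀ γ ∈ Γ, f ∣[k] γ = f) ∧
      ∀ γ : SL(2, ℤ), IsBoundedAtImInfty (f ∣[k] γ) := Iff.rfl

lemma mem_SF {Γ : Subgroup SL(2, ℤ)} {k : ℤ} {f : ℍ → ℂ} :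
    f ∈ SF Γ k ↔ MDiff f ∧ (∀ γ ∈ Γ, f ∣[k] γ = f) ∧
      ∀ γ : SL(2, ℤ), IsZeroAtImInfty (f ∣[k] γ) := Iff.rfl

lemma SF_le_MF (Γ : Subgroup SL(2, ℤ)) (k : ℤ) : SF Γ k ≤ MF Γ k :=
  fun _ hf => ⟨hf.1, hf.2.1, fun γ => (hf.2.2 γ).isBoundedAtImInfty⟩

/-- The coset space, with the left multiplication action of `SL(2, ℤ)`. -/
abbrev X (Γ : Subgroup SL(2, ℤ)) : Type := SL(2, ℤ) ⧸ Γ

/-- The vector of conjugates of `f` at `τ`. -/
def ev (Γ : Subgroup SL(2, ℤ)) (k : ℤ) (τ : ℍ) : (ℍ → ℂ) →ₗ[ℂ] (X Γ → ℂ) where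
  toFun f x := (f ∣[k] (x.out)⁻¹) τ
  map_add' f g := by
    ext x
    simp [SlashAction.add_slash]
  map_smul' c f := by
    ext x
    simp

lemma ev_apply (Γ : Subgroup SL(2, ℤ)) (k : ℤ) (τ : ℍ) (f : ℍ → ℂ) (x : X Γ) :
    ev Γ k τ f x = (f ∣[k] (x.out)⁻¹) τ := rfl

section Cusp

variable (Γ : Subgroup SL(2, ℤ))

/-- The permutation operator of `T` on `ℂ^X`: `(shiftT v) x = v (T⁻¹ • x)`.
For `Γ`-invariant `f` one has `ev Γ k (T • τ) f = shiftT Γ (ev Γ k τ f)`. -/
def shiftT : (X Γ → ℂ) →ₗ[ℂ] (X Γ → ℂ) :=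
  LinearMap.funLeft ℂ ℂ (fun x : X Γ => (ModularGroup.T)⁻¹ • x)

/-- The order of `T` acting on `X Γ` (positive when `Γ` has finite index). -/
def per : ℕ := orderOf (MulAction.toPermHom SL(2, ℤ) (X Γ) ModularGroup.T)

/-- Spectral projector of `shiftT` for the eigenvalue `exp (2πi a / h)`, `h = per Γ`. -/
def proj (a : ℕ) : (X Γ → ℂ) →ₗ[ℂ] (X Γ → ℂ) :=
  ((per Γ : ℂ))⁻¹ • ∑ i ∈ Finset.range (per Γ),
    Complex.exp (-(2 * π * Complex.I * a * i / per Γ)) • (shiftT Γ) ^ i

/-- `Theta s = ∑_{a < h} exp (2πi a s / h) • proj a`. -/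
def Theta (s : ℂ) : (X Γ → ℂ) →ₗ[ℂ] (X Γ → ℂ) :=
  ∑ a ∈ Finset.range (per Γ), Complex.exp (2 * π * Complex.I * a * s / per Γ) • proj Γ a

/-- The normalised vector of conjugates, whose limit at `i∞` is the jet. -/
def jetFun (k : ℤ) (f : ℍ → ℂ) (τ : ℍ) : X Γ → ℂ := Theta Γ (-(τ : ℂ)) (ev Γ k τ f)

/-- `v` is the jet (vector of leading coefficients at the cusps) of `f`. -/
def HasJet (k : ℤ) (f : ℍ → ℂ) (v : X Γ → ℂ) : Prop :=
  Tendsto (jetFun Γ k f) atImInfty (𝓝 v)

end Cusp

/-- `P` is a level one modular form of weight `w`, with simple zeros located exactly on the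
`SL(2, ℤ)`-orbit of `z₀`, and not vanishing at `i∞`. -/
structure LevelOneDivisor (z₀ : ℍ) (w : ℤ) (P : ℍ → ℂ) : Prop where
  mem : P ∈ MF ⊤ w
  zero_iff : ∀ z : ℍ, P z = 0 ↔ ∃ γ : SL(2, ℤ), γ • z₀ = z
  simple : ∀ z : ℍ, P z = 0 → deriv (P ∘ ofComplex) z ≠ 0
  not_zero_at_infty : ¬ IsZeroAtImInfty P

/-- A fundamental system (unimodular frame) for `Γ`: homogeneous generators of `⊕ₖ MF Γ k` over
the level one forms whose vectors of conjugates are linearly independent at every point of `ℍ`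
and at `i∞`. -/
structure FundSystem (Γ : Subgroup SL(2, ℤ)) where
  J : Type
  [fintypeJ : Fintype J]
  wt : J → ℤ
  F : J → ℍ → ℂ
  mem : ∀ j, F j ∈ MF Γ (wt j)
  gen : ∀ (k : ℤ) (f : ℍ → ℂ), f ∈ MF Γ k →
    ∃ c : J → ℍ → ℂ, (∀ j, c j ∈ MF ⊤ (k - wt j)) ∧ f = ∑ j, c j * F j
  indep : ∀ τ : ℍ, LinearIndependent ℂ fun j => ev Γ (wt j) τ (F j)
  jet : J → X Γ → ℂ
  hasJet : ∀ j, HasJet Γ (wt j) (F j) (jet j)
  jet_indep : LinearIndependent ℂ jet
  card_eq : Fintype.card J = Nat.card (X Γ)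

attribute [instance] FundSystem.fintypeJ

end Fermat.Agent.S20

end
end
-- ===== PACK-END S20/Core.lean

-- ===== PACK-BEGIN S16/Defs.lean
section





/-!
# S16 (Mazur, Eisenstein ideal index): shared definitions — FROZEN INTERFACE (owner helper556)

Function-level conventions (as in `Fermat.Agent.S20.Core`):
* `MF Γ k`, `SF Γ k` (from S20.Core): weight `k` modular / cusp forms for `Γ ≤ SL(2,ℤ)`,
  as submodules of `ℍ → ℂ`.
* `ModularFormClass.qCoeff f n` (Prelude): `n`-th coefficient of the `q`-expansion at `∞` (period 1).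
* `ModularForm.heckeU k p f` (Prelude): `U_p`, i.e. `a_n ↦ a_{pn}`.

New here:
* `sigmaP p k`  : sum of the divisors of `k` prime to `p`.
* `IntFrom1 f`  : all `q`-coefficients of index `≥ 1` are integers.
* `IntAll f`    : all `q`-coefficients are integers.
* `frickeGL p`  : the Fricke matrix `[[0,-1],[p,0]] ∈ GL₂(ℝ)`.
* `hat p k F`   : `F^(z) = z^{-k} F(-1/(pz))`  ( `= p • F ∣[k] frickeGL p` ), multiplicative in `F`.
* `Vp p F`      : `F(pz)`.
* `tr p k F`    : trace to level one `F + p^{1-k} U_p (F^)`  ( `= F + ∑_{j<p} F ∣[k] S T^j` ).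
-/

set_option autoImplicit false

noncomputable section

namespace Fermat.Agent.S16

open UpperHalfPlane ModularForm CongruenceSubgroup MatrixGroups
open scoped Manifold

/-- Sum of the divisors of `k` which are prime to `p`. -/
def sigmaP (p k : ℕ) : ℕ := ∑ d ∈ k.divisors with ¬ p ∣ d, d

/-- All `q`-coefficients of index `≥ 1` are integers. -/
def IntFrom1 (f : ℍ → ℂ) : Prop :=
  ∀ k : ℕ, 1 ≤ k → ∃ m : ℤ, ModularFormClass.qCoeff f k = (m : ℂ)

/-- All `q`-coefficients are integers. -/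
def IntAll (f : ℍ → ℂ) : Prop :=
  ∀ k : ℕ, ∃ m : ℤ, ModularFormClass.qCoeff f k = (m : ℂ)

/-- The Fricke matrix `[[0,-1],[p,0]]`. -/
def frickeGL (p : ℕ) : GL (Fin 2) ℝ :=
  if hp : p = 0 then 1 else
    Matrix.GeneralLinearGroup.mkOfDetNeZero !![0, -1; (p : ℝ), 0]
      (by rw [Matrix.det_fin_two_of]; simpa using hp)

/-- `F^ = p • (F ∣[k] W_p)`, i.e. `F^(z) = z^{-k} F(-1/(pz))`. -/
def hat (p : ℕ) (k : ℤ) (F : ℍ → ℂ) : ℍ → ℂ := (p : ℂ) • (F ∣[k] frickeGL p)

/-- `V_p F (z) = F (p z)`. -/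
def Vp (p : ℕ) (F : ℍ → ℂ) : ℍ → ℂ := fun z => F (heckeDiagMatrix p • z)

/-- Trace from `Γ₀(p)` to level one: `F + p^{1-k} U_p (F^)`. -/
def tr (p : ℕ) (k : ℤ) (F : ℍ → ℂ) : ℍ → ℂ :=
  F + ((p : ℂ) ^ (1 - k)) • heckeU k p (hat p k F)

end Fermat.Agent.S16

end
end
-- ===== PACK-END S16/Defs.lean

-- ===== PACK-BEGIN S20/C0_helper516.lean
section


/-!
# S20 core piece C0 (helper516): basic API of `MF`, `SF`, `ev`

Statements are exactly those of `origin/helper20:Fermat/Agent/S20/Skeleton.lean` (C0.1 – C0.4),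
in namespace `Fermat.Agent.S20.C0h516`.
-/

set_option autoImplicit false
set_option linter.unusedSectionVars false

noncomputable section

namespace Fermat.Agent.S20.C0h516

open Fermat.Agent.S20
open UpperHalfPlane ModularForm CongruenceSubgroup MatrixGroups Filter Module
open scoped Manifold Topology Real

local notation "Sm" => ModularGroup.S
local notation "Tm" => ModularGroup.T

/-! ### generic constructions (arithmetic subgroup of `GL(2,ℝ)`) -/

theorem exists_modularForm_of_data (𝒢 : Subgroup (GL (Fin 2) ℝ)) [𝒢.IsArithmetic] (k : ℤ)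
    (f : ℍ → ℂ) (hol : MDiff f) (hinv : ∀ γ ∈ 𝒢, f ∣[k] γ = f)
    (hbd : ∀ g : SL(2, ℤ), IsBoundedAtImInfty (f ∣[k] g)) :
    ∃ F : ModularForm 𝒢 k, ⇑F = f := by
  refine ⟨⟨⟨f, hinv⟩, hol, fun {c} hc => ?_⟩, rfl⟩
  have hc' : IsCusp c 𝒮ℒ := (Subgroup.IsArithmetic.isCusp_iff_isCusp_SL2Z 𝒢).mp hc
  exact (OnePoint.isBoundedAt_iff_forall_SL2Z hc').mpr fun γ _ => hbd γ

theorem exists_cuspForm_of_data (𝒢 : Subgroup (GL (Fin 2) ℝ)) [𝒢.IsArithmetic] (k : ℤ)
    (f : ℍ → ℂ) (hol : MDiff f) (hinv : ∀ γ ∈ 𝒢, f ∣[k] γ = f)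
    (hbd : ∀ g : SL(2, ℤ), IsZeroAtImInfty (f ∣[k] g)) :
    ∃ F : CuspForm 𝒢 k, ⇑F = f := by
  refine ⟨⟨⟨f, hinv⟩, hol, fun {c} hc => ?_⟩, rfl⟩
  have hc' : IsCusp c 𝒮ℒ := (Subgroup.IsArithmetic.isCusp_iff_isCusp_SL2Z 𝒢).mp hc
  exact (OnePoint.isZeroAt_iff_forall_SL2Z hc').mpr fun γ _ => hbd γ

theorem slash_eq_of_mem_map {Γ : Subgroup SL(2, ℤ)} {k : ℤ} {f : ℍ → ℂ}
    (h : ∀ γ ∈ Γ, f ∣[k] γ = f) :
    ∀ γ ∈ (Γ : Subgroup (GL (Fin 2) ℝ)), f ∣[k] γ = f := by
  rintro γ ⟨γ', hγ', rfl⟩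
  have := h γ' hγ'
  rwa [ModularForm.SL_slash] at this

theorem slash_eq_of_mem_of_map {Γ : Subgroup SL(2, ℤ)} {k : ℤ} {f : ℍ → ℂ}
    (h : ∀ γ ∈ (Γ : Subgroup (GL (Fin 2) ℝ)), f ∣[k] γ = f) :
    ∀ γ ∈ Γ, f ∣[k] γ = f := by
  intro γ hγ
  rw [ModularForm.SL_slash]
  exact h _ (Subgroup.mem_map_of_mem _ hγ)

theorem coe_mem_MF {Γ : Subgroup SL(2, ℤ)} [Γ.FiniteIndex] {k : ℤ}
    (g : ModularForm (Γ : Subgroup (GL (Fin 2) ℝ)) k) : (⇑g : ℍ → ℂ) ∈ MF Γ k :=
  ⟨ModularFormClass.holo g,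
    slash_eq_of_mem_of_map fun γ hγ => SlashInvariantFormClass.slash_action_eq g γ hγ,
    fun γ => ModularFormClass.bdd_at_infty_slash g γ⟩

theorem coe_mem_SF {Γ : Subgroup SL(2, ℤ)} [Γ.FiniteIndex] {k : ℤ}
    (g : CuspForm (Γ : Subgroup (GL (Fin 2) ℝ)) k) : (⇑g : ℍ → ℂ) ∈ SF Γ k :=
  ⟨CuspFormClass.holo g,
    slash_eq_of_mem_of_map fun γ hγ => SlashInvariantFormClass.slash_action_eq g γ hγ,
    fun γ => CuspFormClass.zero_at_infty_slash g γ⟩

theorem mem_MF_iff_exists {Γ : Subgroup SL(2, ℤ)} [Γ.FiniteIndex] {k : ℤ} {f : ℍ → ℂ} :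
    f ∈ MF Γ k ↔ ∃ g : ModularForm (Γ : Subgroup (GL (Fin 2) ℝ)) k, ⇑g = f := by
  constructor
  · rintro ⟨h1, h2, h3⟩
    exact exists_modularForm_of_data _ k f h1 (slash_eq_of_mem_map h2) h3
  · rintro ⟨g, rfl⟩
    exact coe_mem_MF g

theorem mem_SF_iff_exists {Γ : Subgroup SL(2, ℤ)} [Γ.FiniteIndex] {k : ℤ} {f : ℍ → ℂ} :
    f ∈ SF Γ k ↔ ∃ g : CuspForm (Γ : Subgroup (GL (Fin 2) ℝ)) k, ⇑g = f := by
  constructor
  · rintro ⟨h1, h2, h3⟩
    exact exists_cuspForm_of_data _ k f h1 (slash_eq_of_mem_map h2) h3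
  · rintro ⟨g, rfl⟩
    exact coe_mem_SF g

/-- Level one: `MF ⊤ k` versus Mathlib's `ModularForm 𝒮ℒ k`. -/
theorem mem_MF_top_iff_exists {k : ℤ} {f : ℍ → ℂ} :
    f ∈ MF ⊤ k ↔ ∃ g : ModularForm 𝒮ℒ k, ⇑g = f := by
  constructor
  · rintro ⟨h1, h2, h3⟩
    refine exists_modularForm_of_data _ k f h1 ?_ h3
    rintro γ ⟨γ', rfl⟩
    have := h2 γ' (Subgroup.mem_top _)
    rwa [ModularForm.SL_slash] at this
  · rintro ⟨g, rfl⟩
    refine ⟨ModularFormClass.holo g, fun γ _ => ?_,
      fun γ => ModularFormClass.bdd_at_infty_slash g γ⟩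
    rw [ModularForm.SL_slash]
    exact SlashInvariantFormClass.slash_action_eq g _ ⟨γ, rfl⟩

/-- Level one: `SF ⊤ k` versus Mathlib's `CuspForm 𝒮ℒ k`. -/
theorem mem_SF_top_iff_exists {k : ℤ} {f : ℍ → ℂ} :
    f ∈ SF ⊤ k ↔ ∃ g : CuspForm 𝒮ℒ k, ⇑g = f := by
  constructor
  · rintro ⟨h1, h2, h3⟩
    refine exists_cuspForm_of_data _ k f h1 ?_ h3
    rintro γ ⟨γ', rfl⟩
    have := h2 γ' (Subgroup.mem_top _)
    rwa [ModularForm.SL_slash] at this
  · rintro ⟨g, rfl⟩
    refine ⟨CuspFormClass.holo g, fun γ _ => ?_,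
      fun γ => CuspFormClass.zero_at_infty_slash g γ⟩
    rw [ModularForm.SL_slash]
    exact SlashInvariantFormClass.slash_action_eq g _ ⟨γ, rfl⟩

variable (Γ : Subgroup SL(2, ℤ)) [Γ.FiniteIndex]

/-! ## C0 : basic API of `MF`, `SF`, `ev` -/

/-- the underlying linear map of `MFequiv` -/
def MFlin (k : ℤ) : ModularForm (Γ : Subgroup (GL (Fin 2) ℝ)) k →ₗ[ℂ] MF Γ k where
  toFun g := ⟨⇑g, coe_mem_MF g⟩
  map_add' _ _ := rfl
  map_smul' _ _ := rfl

theorem MFlin_bijective (k : ℤ) : Function.Bijective (MFlin Γ k) := by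
  refine ⟨fun g₁ g₂ h => DFunLike.coe_injective (congrArg Subtype.val h), ?_⟩
  rintro ⟨f, hf⟩
  obtain ⟨g, rfl⟩ := mem_MF_iff_exists.mp hf
  exact ⟨g, rfl⟩

/-- the underlying linear map of `SFequiv` -/
def SFlin (k : ℤ) : CuspForm (Γ : Subgroup (GL (Fin 2) ℝ)) k →ₗ[ℂ] SF Γ k where
  toFun g := ⟨⇑g, coe_mem_SF g⟩
  map_add' _ _ := rfl
  map_smul' _ _ := rfl

theorem SFlin_bijective (k : ℤ) : Function.Bijective (SFlin Γ k) := by
  refine ⟨fun g₁ g₂ h => DFunLike.coe_injective (congrArg Subtype.val h), ?_⟩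
  rintro ⟨f, hf⟩
  obtain ⟨g, rfl⟩ := mem_SF_iff_exists.mp hf
  exact ⟨g, rfl⟩

/-- C0.1 -/
def MFequiv (k : ℤ) : ModularForm (Γ : Subgroup (GL (Fin 2) ℝ)) k ≃ₗ[ℂ] MF Γ k :=
  LinearEquiv.ofBijective (MFlin Γ k) (MFlin_bijective Γ k)

/-- C0.1 -/
theorem MFequiv_coe (k : ℤ) (f : ModularForm (Γ : Subgroup (GL (Fin 2) ℝ)) k) :
    ((MFequiv Γ k f : MF Γ k) : ℍ → ℂ) = ⇑f := rfl

/-- C0.1 -/
def SFequiv (k : ℤ) : CuspForm (Γ : Subgroup (GL (Fin 2) ℝ)) k ≃ₗ[ℂ] SF Γ k :=
  LinearEquiv.ofBijective (SFlin Γ k) (SFlin_bijective Γ k)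

/-- C0.1 -/
theorem SFequiv_coe (k : ℤ) (f : CuspForm (Γ : Subgroup (GL (Fin 2) ℝ)) k) :
    ((SFequiv Γ k f : SF Γ k) : ℍ → ℂ) = ⇑f := rfl

variable {Γ}

/-- C0.2 (no finite index needed) -/
theorem mul_mem_MF {a k : ℤ} {E f : ℍ → ℂ} (hE : E ∈ MF ⊤ a) (hf : f ∈ MF Γ k) :
    E * f ∈ MF Γ (a + k) := by
  obtain ⟨hE1, hE2, hE3⟩ := hE
  obtain ⟨hf1, hf2, hf3⟩ := hf
  refine ⟨hE1.mul hf1, fun γ hγ => ?_, fun γ => ?_⟩
  · rw [ModularForm.mul_slash_SL2, hE2 γ (Subgroup.mem_top _), hf2 γ hγ]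
  · rw [ModularForm.mul_slash_SL2]
    exact (hE3 γ).mul (hf3 γ)

/-- C0.2 -/
theorem mul_mem_SF {a k : ℤ} {E f : ℍ → ℂ} (hE : E ∈ MF ⊤ a) (hf : f ∈ SF Γ k) :
    E * f ∈ SF Γ (a + k) := by
  obtain ⟨hE1, hE2, hE3⟩ := hE
  obtain ⟨hf1, hf2, hf3⟩ := hf
  refine ⟨hE1.mul hf1, fun γ hγ => ?_, fun γ => ?_⟩
  · rw [ModularForm.mul_slash_SL2, hE2 γ (Subgroup.mem_top _), hf2 γ hγ]
  · rw [ModularForm.mul_slash_SL2, mul_comm]
    exact (hf3 γ).mul_boundedAtFilter (hE3 γ)

/-- C0.3 -/
theorem ev_mk {k : ℤ} {f : ℍ → ℂ} (hf : ∀ γ ∈ Γ, f ∣[k] γ = f) (g : SL(2, ℤ)) (τ : ℍ) :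
    ev Γ k τ f (QuotientGroup.mk g) = (f ∣[k] g⁻¹) τ := by
  obtain ⟨h, hh⟩ := QuotientGroup.mk_out_eq_mul Γ g
  rw [ev_apply, hh, mul_inv_rev, SlashAction.slash_mul, hf _ (Γ.inv_mem h.2)]

/-- C0.3 : equivariance of the vector of conjugates. -/
theorem ev_smul {k : ℤ} {f : ℍ → ℂ} (hf : ∀ γ ∈ Γ, f ∣[k] γ = f) (γ : SL(2, ℤ)) (τ : ℍ)
    (x : X Γ) : ev Γ k (γ • τ) f x = denom γ τ ^ k * ev Γ k τ f (γ⁻¹ • x) := by
  induction x using QuotientGroup.induction_on with
  | H g =>
    rw [MulAction.Quotient.smul_mk, ev_mk hf, ev_mk hf, smul_eq_mul, mul_inv_rev, inv_inv,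
      SlashAction.slash_mul, ModularForm.SL_slash_apply (f ∣[k] g⁻¹) γ τ]
    have hd : denom γ τ ≠ 0 := denom_ne_zero _ _
    rw [mul_comm, mul_assoc, ← zpow_add₀ hd]
    simp

/-- C0.3 : in particular for `T` (`T • τ = τ + 1`). -/
theorem ev_T {k : ℤ} {f : ℍ → ℂ} (hf : ∀ γ ∈ Γ, f ∣[k] γ = f) (τ : ℍ) :
    ev Γ k (Tm • τ) f = shiftT Γ (ev Γ k τ f) := by
  funext x
  rw [ev_smul hf, shiftT, LinearMap.funLeft_apply]
  have hd : denom Tm τ = 1 := by
    simp [denom, ModularGroup.coe_T]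
  rw [hd, one_zpow, one_mul]

/-- C0.3 -/
theorem ev_mul {a k : ℤ} {E : ℍ → ℂ} (hE : E ∈ MF ⊤ a) (f : ℍ → ℂ) (τ : ℍ) :
    ev Γ (a + k) τ (E * f) = E τ • ev Γ k τ f := by
  funext x
  rw [ev_apply, ModularForm.mul_slash_SL2, hE.2.1 _ (Subgroup.mem_top _)]
  rfl

/-- C0.3 -/
theorem ev_eq_zero_iff {k : ℤ} {f : ℍ → ℂ} (hf : ∀ γ ∈ Γ, f ∣[k] γ = f) (τ : ℍ) :
    ev Γ k τ f = 0 ↔ ∀ γ : SL(2, ℤ), f (γ • τ) = 0 := by
  constructor
  · intro h γ
    have h1 := congrFun h (QuotientGroup.mk γ⁻¹)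
    rw [ev_mk hf, inv_inv, ModularForm.SL_slash_apply] at h1
    rcases mul_eq_zero.mp h1 with h2 | h2
    · exact h2
    · exact absurd h2 (zpow_ne_zero _ (denom_ne_zero _ _))
  · intro h
    funext x
    rw [ev_apply, ModularForm.SL_slash_apply, h]
    simp

variable (Γ)

/-- C0.4 (Mathlib `ModularForm.isZero_of_neg_weight`) -/
theorem MF_eq_bot_of_neg {k : ℤ} (hk : k < 0) : MF Γ k = ⊥ := by
  rw [eq_bot_iff]
  intro f hf
  obtain ⟨g, rfl⟩ := mem_MF_iff_exists.mp hf
  rw [ModularForm.isZero_of_neg_weight hk g]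
  exact Submodule.zero_mem _

/-- C0.4 (Mathlib `ModularForm.eq_const_of_weight_zero`) -/
theorem MF_zero_eq_const {f : ℍ → ℂ} (hf : f ∈ MF Γ 0) : ∃ c : ℂ, f = fun _ => c := by
  obtain ⟨g, rfl⟩ := mem_MF_iff_exists.mp hf
  obtain ⟨c, hc⟩ := ModularForm.eq_const_of_weight_zero g
  exact ⟨c, hc⟩

/-- C0.4 -/
theorem SF_eq_bot_of_nonpos {k : ℤ} (hk : k ≤ 0) : SF Γ k = ⊥ := by
  rw [eq_bot_iff]
  intro f hf
  rcases hk.lt_or_eq with hk | rfl
  · have := SF_le_MF Γ k hf
    rwa [MF_eq_bot_of_neg Γ hk] at this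
  · obtain ⟨c, rfl⟩ := MF_zero_eq_const Γ (SF_le_MF Γ 0 hf)
    have h0 : IsZeroAtImInfty ((fun _ : ℍ => c) ∣[(0 : ℤ)] (1 : SL(2, ℤ))) := hf.2.2 1
    rw [SlashAction.slash_one] at h0
    have hc : c = 0 := by
      have h1 : Filter.Tendsto (fun _ : ℍ => c) atImInfty (nhds 0) := h0
      exact tendsto_nhds_unique tendsto_const_nhds h1
    subst hc
    exact Submodule.zero_mem _

/-- C0.4 -/
theorem MF_eq_bot_of_odd (hneg : -1 ∈ Γ) {k : ℤ} (hk : Odd k) : MF Γ k = ⊥ := by
  rw [eq_bot_iff]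
  intro f hf
  obtain ⟨g, rfl⟩ := mem_MF_iff_exists.mp hf
  have hmem : (-1 : GL (Fin 2) ℝ) ∈ (Γ : Subgroup (GL (Fin 2) ℝ)) := by
    refine ⟨-1, hneg, ?_⟩
    ext i j
    simp
  rw [ModularForm.eq_zero_of_neg_one_mem hmem hk g]
  exact Submodule.zero_mem _

end Fermat.Agent.S20.C0h516

end
end
-- ===== PACK-END S20/C0_helper516.lean

-- ===== PACK-BEGIN S48/F1/Defs.lean
section





/-!
# S48 / RES (Tower A1) — sub-tower A1-FF: the function field of `X₁(M)` and its operators

FROZEN interface definitions (RES deputy helper168; row-lead decision D1/D2 of `coord/S48-lead.md`).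
Namespace `Fermat.Agent.S48.F1`.  Definitions only + the trivial membership lemmas; no `sorry`.
Design, orientation of the operators and the list of statements: `coord/S48-F1.md`.

## The field

For `a : ZMod M`, `a ≠ 0`, the **division value** `P_a` is the rational (even integral) `q`-series

  `P_a = Δ⁻¹ · ∑_{n ≥ 1} c_a(n) qⁿ`,  `c_a(n) = ∑_{m ∣ n, m ≡ a (M)} (n/m)^11 + ∑_{m ∣ n, m ≡ -a (M)} (n/m)^11`.

Analytically `∑ c_a(n) qⁿ = C₁₂⁻¹ · ∑_{(m, n') ∈ ℤ², m ≡ a (M)} (m z + n')⁻¹²`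
(`= C₁₂⁻¹ · S29.H332.wEis (fun v => if (v 0 : ZMod M) = a then 1 else 0) 12 z`,
`C_k = (-2πi)^k / (k-1)!`): a modular form of weight `12` on `Γ₁(M)`, **no constant term**, and
`P_a ∘ γ = P_{a · γ₀₀}` for `γ ∈ Γ₀(M)` (`wEis_slash`).  `P_a = P_{-a}`.

  `F1 M := ℚ(j(q^d) (d ∣ M), P_a (a ≠ 0)) ⊆ ℚ((q))`   (⊇ the Prelude field `modularFunctionFieldFull M`)

is the function field of `X₁(M)` in the `ℚ`-model in which the cusp `∞` and the `q`-expansion at `∞`
are rational.  All generators lie in `ℤ((q))` and are holomorphic on the upper half plane.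
-/

set_option autoImplicit false

noncomputable section

open PowerSeries HahnSeries IntermediateField ModularCurve AlgebraicCurve

namespace Fermat.Agent.S48.F1

/-! ### The division values -/

/-- `c_{a,k}(n) = ∑_{m ∣ n, m ≡ a (M)} (n/m)^(k-1) + (-1)^k ∑_{m ∣ n, m ≡ -a (M)} (n/m)^(k-1)`
(and `c_{a,k}(0) = 0`). -/
def divCoeff (M : ℕ) (a : ZMod M) (k n : ℕ) : ℤ :=
  ∑ m ∈ n.divisors,
    ((if ((m : ℕ) : ZMod M) = a then ((n / m : ℕ) : ℤ) ^ (k - 1) else 0) +
      (if ((m : ℕ) : ZMod M) = -a then (-1) ^ k * ((n / m : ℕ) : ℤ) ^ (k - 1) else 0))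

/-- The `q`-expansion `∑ c_{a,k}(n) qⁿ` of the weight-`k` Eisenstein series of `Γ₁(M)` attached
to the class `a` (sum over the lattice vectors `(m, n')` with `m ≡ a` mod `M`), normalised. -/
def divSeries (M : ℕ) (a : ZMod M) (k : ℕ) : PowerSeries ℤ :=
  PowerSeries.mk (divCoeff M a k)

@[simp]
theorem coeff_divSeries (M : ℕ) (a : ZMod M) (k n : ℕ) :
    PowerSeries.coeff n (divSeries M a k) = divCoeff M a k n := by
  simp [divSeries]

@[simp]
theorem divCoeff_zero (M : ℕ) (a : ZMod M) (k : ℕ) : divCoeff M a k 0 = 0 := by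
  simp [divCoeff]

/-- `q · P_a ∈ ℤ⟦q⟧`: the numerator `∑ c_a(n) qⁿ` (weight `12`) divided by `∏ (1 - qⁿ)^24`. -/
def divNum (M : ℕ) (a : ZMod M) : PowerSeries ℤ :=
  divSeries M a 12 * dedekindEtaUnitInv

/-- The division value `P_a = (∑ c_a(n) qⁿ) / Δ` with coefficients in any commutative ring `R`
(same shape as the Prelude `jqModC R`). -/
def divGenC (R : Type*) [CommRing R] (M : ℕ) (a : ZMod M) : LaurentSeries R :=
  HahnSeries.single (-1 : ℤ) 1 *
    HahnSeries.ofPowerSeries ℤ R ((divNum M a).map (Int.castRingHom R))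

/-- The division value `P_a = (∑ c_a(n) qⁿ) / Δ ∈ ℚ((q))`. -/
def divGen (M : ℕ) (a : ZMod M) : LaurentSeries ℚ := divGenC ℚ M a

theorem divGenC_rat (M : ℕ) (a : ZMod M) : divGenC ℚ M a = divGen M a := rfl

/-- Reduction of coefficients maps `P_a` to `P_a`. -/
theorem coeffMap_divGenC {R S : Type*} [CommRing R] [CommRing S] (f : R →+* S) (M : ℕ)
    (a : ZMod M) : coeffMap f (divGenC R M a) = divGenC S M a := by
  rw [divGenC, map_mul, coeffMap_single, map_one, coeffMap_ofPowerSeries,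
    ← RingHom.comp_apply (PowerSeries.map f) (PowerSeries.map (Int.castRingHom R)),
    ← PowerSeries.map_comp, RingHom.ext_int (f.comp (Int.castRingHom R)) (Int.castRingHom S)]
  rfl

/-- The set of division values `P_a`, `a ≠ 0`. -/
def divGens (M : ℕ) : Set (LaurentSeries ℚ) :=
  {x | ∃ a : ZMod M, a ≠ 0 ∧ x = divGen M a}

theorem divGen_mem_divGens (M : ℕ) {a : ZMod M} (ha : a ≠ 0) : divGen M a ∈ divGens M :=
  ⟨a, ha, rfl⟩

/-! ### The function field of `X₁(M)` -/

/-- The function field of `X₁(M)` over `ℚ`, inside `ℚ((q))`. -/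
def F1 (M : ℕ) : IntermediateField ℚ (LaurentSeries ℚ) :=
  IntermediateField.adjoin ℚ (divisorExpansions M ∪ divGens M)

theorem jqd_mem_F1 (M : ℕ) {d : ℕ} [NeZero d] (hd : d ∣ M) : qExpand ℚ d jq ∈ F1 M :=
  IntermediateField.subset_adjoin ℚ _ (Or.inl (mem_divisorExpansions M hd))

theorem jq_mem_F1 (M : ℕ) : jq ∈ F1 M := by
  have h := jqd_mem_F1 M (one_dvd M)
  rwa [qExpand_one_apply] at h

theorem divGen_mem_F1 (M : ℕ) {a : ZMod M} (ha : a ≠ 0) : divGen M a ∈ F1 M :=
  IntermediateField.subset_adjoin ℚ _ (Or.inr (divGen_mem_divGens M ha))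

/-- The function field of `X₀(M)` (Prelude) is contained in the function field of `X₁(M)`. -/
theorem full_le_F1 (M : ℕ) : modularFunctionFieldFull M ≤ F1 M := by
  rw [modularFunctionFieldFull, IntermediateField.adjoin_le_iff]
  exact fun x hx => IntermediateField.subset_adjoin ℚ _ (Or.inl hx)

/-- The set of division values `P_a`, `a ≠ 0`, over a field `K`. -/
def divGensC (K : Type*) [Field K] (M : ℕ) : Set (LaurentSeries K) :=
  {x | ∃ a : ZMod M, a ≠ 0 ∧ x = divGenC K M a}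

/-- The analogue of `F1 M` over an arbitrary field `K` (for `K` of characteristic `p ∤ M`: the
function field of the reduction of `X₁(M)`), inside `K((q))`; cf. the Prelude
`modularFunctionFieldFullC`. -/
def F1C (K : Type*) [Field K] (M : ℕ) : IntermediateField K (LaurentSeries K) :=
  IntermediateField.adjoin K (divisorExpansionsC K M ∪ divGensC K M)

theorem F1C_rat (M : ℕ) : F1C ℚ M = F1 M := rfl

theorem fullC_le_F1C (K : Type*) [Field K] (M : ℕ) : modularFunctionFieldFullC K M ≤ F1C K M := by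
  rw [modularFunctionFieldFullC, IntermediateField.adjoin_le_iff]
  exact fun x hx => IntermediateField.subset_adjoin K _ (Or.inl hx)

theorem divGenC_mem_F1C (K : Type*) [Field K] (M : ℕ) {a : ZMod M} (ha : a ≠ 0) :
    divGenC K M a ∈ F1C K M :=
  IntermediateField.subset_adjoin K _ (Or.inr ⟨a, ha, rfl⟩)

/-- The analogue of `F1p M p` over an arbitrary field `K`. -/
def F1pC (K : Type*) [Field K] (M p : ℕ) [NeZero p] : IntermediateField K (LaurentSeries K) :=
  F1C K M ⊔ (F1C K M).map (qExpandAlgHomC K p)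

/-- The function field of `X₁(M; p)` (level `Γ₁(M) ∩ Γ₀(p)`): the compositum of `F1 M` and of its
image under `q ↦ q^p`. -/
def F1p (M p : ℕ) [NeZero p] : IntermediateField ℚ (LaurentSeries ℚ) :=
  F1 M ⊔ (F1 M).map (qExpandₐ p)

theorem F1_le_F1p (M p : ℕ) [NeZero p] : F1 M ≤ F1p M p := le_sup_left

theorem qExpand_mem_F1p (M p : ℕ) [NeZero p] {x : LaurentSeries ℚ} (hx : x ∈ F1 M) :
    qExpand ℚ p x ∈ F1p M p :=
  (le_sup_right : (F1 M).map (qExpandₐ p) ≤ F1p M p)
    ((IntermediateField.mem_map _).2 ⟨x, hx, rfl⟩)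

/-! ### Generic base change of an inclusion and of `q ↦ q^p` -/

section Generic

variable (L : Type*) [Field L] [Algebra ℚ L]
variable {F₀ F₁ : IntermediateField ℚ (LaurentSeries ℚ)}

theorem lbc_mono (h : F₀ ≤ F₁) : laurentBaseChange L F₀ ≤ laurentBaseChange L F₁ := by
  rw [laurentBaseChange, IntermediateField.adjoin_le_iff]
  rintro x ⟨y, hy, rfl⟩
  exact coeffEmb_mem_laurentBaseChange L (h hy)

omit [Algebra ℚ L] in
theorem algebraMap_laurent_eq_single (a : L) :
    algebraMap L (LaurentSeries L) a = HahnSeries.single 0 a := by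
  have h1 : algebraMap L (PowerSeries L) a = PowerSeries.C a := by simp
  rw [HahnSeries.algebraMap_apply', h1, HahnSeries.ofPowerSeries_C]
  rfl

theorem qExpand_coeffEmb (p : ℕ) [NeZero p] (y : LaurentSeries ℚ) :
    qExpand L p (coeffEmb L y) = coeffEmb L (qExpand ℚ p y) := by
  ext k
  by_cases hk : (p : ℤ) ∣ k
  · obtain ⟨m, rfl⟩ := hk
    rw [qExpand_coeff_mul, coeffEmb_coeff, coeffEmb_coeff, qExpand_coeff_mul]
  · rw [qExpand_coeff_of_not_dvd p _ hk, coeffEmb_coeff, qExpand_coeff_of_not_dvd p _ hk,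
      map_zero]

theorem qExpand_mem_lbc (p : ℕ) [NeZero p] (hF : ∀ y ∈ F₀, qExpand ℚ p y ∈ F₁)
    {x : LaurentSeries L} (hx : x ∈ laurentBaseChange L F₀) :
    qExpand L p x ∈ laurentBaseChange L F₁ := by
  rw [mem_laurentBaseChange_iff] at hx
  induction hx using Subfield.closure_induction with
  | mem y hy =>
      rcases hy with ⟨a, rfl⟩ | ⟨z, hz, rfl⟩
      · rw [algebraMap_laurent_eq_single, qExpand_single, mul_zero,
          ← algebraMap_laurent_eq_single]
        exact (laurentBaseChange L F₁).algebraMap_mem _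
      · rw [qExpand_coeffEmb]
        exact coeffEmb_mem_laurentBaseChange L (hF z hz)
  | one => simp
  | add x y _ _ hx hy => simpa using add_mem hx hy
  | neg x _ hx => simpa using neg_mem hx
  | inv x _ hx => simpa using inv_mem hx
  | mul x y _ _ hx hy => simpa using mul_mem hx hy

/-- Base change of an inclusion `F₀ ≤ F₁`. -/
def inclBar (h : F₀ ≤ F₁) : laurentBaseChange L F₀ →ₐ[L] laurentBaseChange L F₁ :=
  IntermediateField.inclusion (lbc_mono L h)

@[simp]
theorem coe_inclBar (h : F₀ ≤ F₁) (x : laurentBaseChange L F₀) :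
    (inclBar L h x : LaurentSeries L) = (x : LaurentSeries L) :=
  IntermediateField.coe_inclusion _ x

/-- Base change of `q ↦ q^p : F₀ → F₁`. -/
def qMapBar (p : ℕ) [NeZero p] (hF : ∀ y ∈ F₀, qExpand ℚ p y ∈ F₁) :
    laurentBaseChange L F₀ →ₐ[L] laurentBaseChange L F₁ where
  toFun x := ⟨qExpand L p (x : LaurentSeries L), qExpand_mem_lbc L p hF x.2⟩
  map_one' := Subtype.ext (map_one (qExpand L p))
  map_mul' _ _ := Subtype.ext (map_mul (qExpand L p) _ _)
  map_zero' := Subtype.ext (map_zero (qExpand L p))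
  map_add' _ _ := Subtype.ext (map_add (qExpand L p) _ _)
  commutes' a := Subtype.ext <| by
    show qExpand L p (algebraMap L (LaurentSeries L) a) = algebraMap L (LaurentSeries L) a
    rw [algebraMap_laurent_eq_single, qExpand_single, mul_zero]

@[simp]
theorem coe_qMapBar (p : ℕ) [NeZero p] (hF : ∀ y ∈ F₀, qExpand ℚ p y ∈ F₁)
    (x : laurentBaseChange L F₀) :
    (qMapBar L p hF x : LaurentSeries L) = qExpand L p (x : LaurentSeries L) :=
  rfl

end Generic

/-! ### Generic correspondence operator on `Pic⁰` (Prelude pattern `heckeOperatorAlong`) -/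

section Corr

variable {K F F' : Type*} [Field K] [Field F] [Field F'] [Algebra K F] [Algebra K F']

/-- The inputs needed to define `ψ_* ∘ φ^*` on `Pic⁰` (same list as the Prelude
`HeckeInputsAlong`, for an arbitrary pair `φ ψ : F →ₐ[K] F'`). -/
def CorrInputs (φ ψ : F →ₐ[K] F') : Prop :=
  ∃ (hφ : φ.toRingHom.IsIntegral) (_ : ψ.toRingHom.IsIntegral)
    (_ : HasPrincipalDivisors K F') (hfin : FiniteAlong K ψ),
    FundamentalIdentityAlong K φ hφ ∧ NormFormulaAlong K ψ hfin

open Classical in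
/-- `ψ_* ∘ φ^* : Pic⁰ F → Pic⁰ F` (and `0` if the inputs fail, as in the Prelude). -/
def corrOp (φ ψ : F →ₐ[K] F') : Pic0 K F →+ Pic0 K F :=
  if h : CorrInputs φ ψ then
    haveI := h.snd.snd.fst
    Pic0.correspondence φ ψ h.fst h.snd.fst h.snd.snd.snd.snd.1 h.snd.snd.snd.fst
      h.snd.snd.snd.snd.2
  else 0

theorem corrOp_eq (φ ψ : F →ₐ[K] F') (hφ : φ.toRingHom.IsIntegral)
    (hψ : ψ.toRingHom.IsIntegral) [hP : HasPrincipalDivisors K F']
    (hFI : FundamentalIdentityAlong K φ hφ) (hfin : FiniteAlong K ψ)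
    (hN : NormFormulaAlong K ψ hfin) :
    corrOp φ ψ = Pic0.correspondence φ ψ hφ hψ hFI hfin hN := by
  have h : CorrInputs φ ψ := ⟨hφ, hψ, hP, hfin, hFI, hN⟩
  rw [corrOp, dif_pos h]

end Corr

/-! ### `J₁(M)`, Hecke and diamond operators -/

section Operators

variable (L : Type*) [Field L] [Algebra ℚ L] (M : ℕ)

/-- `L · F1 M ⊆ L((q))`. -/
abbrev F1L : IntermediateField L (LaurentSeries L) := laurentBaseChange L (F1 M)

/-- `L · F1p M p ⊆ L((q))`. -/
abbrev F1pL (p : ℕ) [NeZero p] : IntermediateField L (LaurentSeries L) :=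
  laurentBaseChange L (F1p M p)

/-- `α`: the inclusion `L·F1(M) → L·F1(M; p)` (the degeneracy map `z ↦ z`). -/
def alpha1 (p : ℕ) [NeZero p] : F1L L M →ₐ[L] F1pL L M p :=
  inclBar L (F1_le_F1p M p)

/-- `β`: `q ↦ q^p : L·F1(M) → L·F1(M; p)` (the degeneracy map `z ↦ p z`). -/
def beta1 (p : ℕ) [NeZero p] : F1L L M →ₐ[L] F1pL L M p :=
  qMapBar L p (fun _ hy => qExpand_mem_F1p M p hy)

@[simp]
theorem coe_alpha1 (p : ℕ) [NeZero p] (x : F1L L M) :
    (alpha1 L M p x : LaurentSeries L) = (x : LaurentSeries L) :=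
  coe_inclBar L _ x

@[simp]
theorem coe_beta1 (p : ℕ) [NeZero p] (x : F1L L M) :
    (beta1 L M p x : LaurentSeries L) = qExpand L p (x : LaurentSeries L) :=
  rfl

/-- The Hecke correspondence `T_p = α_* ∘ β^*` on `Pic⁰(L·F1(M))` (on points of `Γ₁(M)\ℍ`:
`[z] ↦ ∑_b [(z + b)/p] + ⟨p⟩[p z]`). -/
def heckeL (p : ℕ) [NeZero p] : Pic0 L (F1L L M) →+ Pic0 L (F1L L M) :=
  corrOp (beta1 L M p) (alpha1 L M p)

/-- The transposed Hecke correspondence `T_p^t = β_* ∘ α^*` (`= ⟨p⟩⁻¹ T_p`). -/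
def heckeTL (p : ℕ) [NeZero p] : Pic0 L (F1L L M) →+ Pic0 L (F1L L M) :=
  corrOp (alpha1 L M p) (beta1 L M p)

/-- `σ` is the diamond automorphism `δ_d` of `L·F1(M)`: it fixes the function field of `X₀(M)` and
maps `P_a` to `P_{d a}`.  (Analytically `δ_d f = f ∘ γ`, `γ ∈ Γ₀(M)` with `γ₀₀ ≡ d` mod `M`.) -/
def IsDiamond (d : (ZMod M)ˣ) (σ : F1L L M ≃ₐ[L] F1L L M) : Prop :=
  (∀ x : F1L L M, (x : LaurentSeries L) ∈ laurentBaseChange L (modularFunctionFieldFull M) →
      σ x = x) ∧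
    ∀ (a : ZMod M) (x y : F1L L M), a ≠ 0 →
      (x : LaurentSeries L) = coeffEmb L (divGen M a) →
      (y : LaurentSeries L) = coeffEmb L (divGen M ((d : ZMod M) * a)) → σ x = y

open Classical in
/-- The diamond automorphism `δ_d : P_a ↦ P_{d a}` of `L·F1(M)` (the identity if it does not
exist; it is unique, see `coord/S48-F1.md`). -/
def diamondAut (d : (ZMod M)ˣ) : F1L L M ≃ₐ[L] F1L L M :=
  if h : ∃ σ : F1L L M ≃ₐ[L] F1L L M, IsDiamond L M d σ then h.choose else AlgEquiv.refl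

theorem isDiamond_diamondAut (d : (ZMod M)ˣ)
    (h : ∃ σ : F1L L M ≃ₐ[L] F1L L M, IsDiamond L M d σ) :
    IsDiamond L M d (diamondAut L M d) := by
  rw [diamondAut, dif_pos h]
  exact h.choose_spec

/-- The diamond operator `⟨d⟩` on `Pic⁰(L·F1(M))`: the action of `δ_d` (on points of `Γ₁(M)\ℍ`:
`[z] ↦ [γ z]`, `γ ∈ Γ₀(M)` with `γ₁₁ ≡ d` mod `M`). -/
def diamondL (d : (ZMod M)ˣ) : Pic0 L (F1L L M) →+ Pic0 L (F1L L M) :=
  DistribSMul.toAddMonoidHom (Pic0 L (F1L L M)) (SemilinearAut.ofAlgAut (diamondAut L M d))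

theorem diamondL_apply (d : (ZMod M)ˣ) (x : Pic0 L (F1L L M)) :
    diamondL L M d x = SemilinearAut.ofAlgAut (diamondAut L M d) • x :=
  rfl

end Operators

section Bar

variable (M : ℕ)

/-- `ℚ̄ · F1 M`, the function field of `X₁(M)` over `ℚ̄`. -/
abbrev F1Bar : IntermediateField (AlgebraicClosure ℚ) (LaurentSeries (AlgebraicClosure ℚ)) :=
  F1L (AlgebraicClosure ℚ) M

/-- `J₁(M)(ℚ̄) = Pic⁰` of the function field of `X₁(M)` over `ℚ̄`, with the Prelude's
(coefficientwise) Galois action. -/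
abbrev J1 : Type _ := Pic0 (AlgebraicClosure ℚ) (F1Bar M)

example : DistribMulAction (AlgebraicClosure ℚ ≃ₐ[ℚ] AlgebraicClosure ℚ) (J1 M) := inferInstance

/-- `T_p = α_* β^*` on `J₁(M)` as a `ℤ`-linear map (`0` for `p = 0`). -/
def hecke1 (p : ℕ) : Module.End ℤ (J1 M) :=
  if h : p = 0 then 0 else
    haveI : NeZero p := ⟨h⟩
    (heckeL (AlgebraicClosure ℚ) M p).toIntLinearMap

theorem hecke1_eq (p : ℕ) [NeZero p] :
    hecke1 M p = (heckeL (AlgebraicClosure ℚ) M p).toIntLinearMap := by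
  rw [hecke1, dif_neg (NeZero.ne p)]

/-- `T_p^t = β_* α^*` on `J₁(M)` as a `ℤ`-linear map (`0` for `p = 0`). -/
def hecke1T (p : ℕ) : Module.End ℤ (J1 M) :=
  if h : p = 0 then 0 else
    haveI : NeZero p := ⟨h⟩
    (heckeTL (AlgebraicClosure ℚ) M p).toIntLinearMap

theorem hecke1T_eq (p : ℕ) [NeZero p] :
    hecke1T M p = (heckeTL (AlgebraicClosure ℚ) M p).toIntLinearMap := by
  rw [hecke1T, dif_neg (NeZero.ne p)]

/-- `⟨d⟩` on `J₁(M)` as a `ℤ`-linear map. -/
def diamond1 (d : (ZMod M)ˣ) : Module.End ℤ (J1 M) :=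
  (diamondL (AlgebraicClosure ℚ) M d).toIntLinearMap

theorem diamond1_apply (d : (ZMod M)ˣ) (x : J1 M) :
    diamond1 M d x = SemilinearAut.ofAlgAut (diamondAut (AlgebraicClosure ℚ) M d) • x :=
  rfl

/-- `⟨d⟩⁻¹` on `J₁(M)` as a `ℤ`-linear map. -/
def diamond1Inv (d : (ZMod M)ˣ) : Module.End ℤ (J1 M) :=
  (DistribSMul.toAddMonoidHom (J1 M)
    (SemilinearAut.ofAlgAut (diamondAut (AlgebraicClosure ℚ) M d))⁻¹).toIntLinearMap

theorem diamond1Inv_apply (d : (ZMod M)ˣ) (x : J1 M) :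
    diamond1Inv M d x = (SemilinearAut.ofAlgAut (diamondAut (AlgebraicClosure ℚ) M d))⁻¹ • x :=
  rfl

@[simp]
theorem diamond1Inv_diamond1 (d : (ZMod M)ˣ) (x : J1 M) :
    diamond1Inv M d (diamond1 M d x) = x := by
  rw [diamond1Inv_apply, diamond1_apply, inv_smul_smul]

@[simp]
theorem diamond1_diamond1Inv (d : (ZMod M)ˣ) (x : J1 M) :
    diamond1 M d (diamond1Inv M d x) = x := by
  rw [diamond1Inv_apply, diamond1_apply, smul_inv_smul]

/-- The unit of `ZMod M` attached to an integer prime to `M` (and `1` otherwise). -/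
def unitOf (n : ℕ) : (ZMod M)ˣ :=
  if h : Nat.Coprime n M then ZMod.unitOfCoprime n h else 1

theorem coe_unitOf {n : ℕ} (h : Nat.Coprime n M) : ((unitOf M n : (ZMod M)ˣ) : ZMod M) = n := by
  rw [unitOf, dif_pos h, ZMod.coe_unitOfCoprime]

/-- The `m`-torsion of `J₁(M)`. -/
abbrev J1tors (m : ℕ) : Submodule ℤ (J1 M) := Submodule.torsionBy ℤ (J1 M) (m : ℤ)

end Bar

end Fermat.Agent.S48.F1

end
end
-- ===== PACK-END S48/F1/Defs.lean

-- ===== PACK-BEGIN S29/H42/GH.lean
section
/-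
S29 row, layer M, piece GH (helper42): the Galois action on the Prelude Jacobian `JZero N`
commutes with the Prelude Hecke operators `heckeOperatorBar N ℓ`.

Abstract part: if semilinear automorphisms `g` of `F` and `g'` of `F'` are intertwined by the
field embeddings `φ, ψ : F → F'`, then pull-back along `φ` and push-forward along `ψ` of divisors
are equivariant, hence so is the correspondence `ψ_* φ^*` on `Pic0`.
-/




set_option autoImplicit false
set_option linter.style.haveILetI false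
set_option linter.unusedSectionVars false

noncomputable section

open AlgebraicCurve ModularCurve IntermediateField IsLocalRing
open scoped Pointwise

namespace Fermat.Agent.S29.H42

section Abstract

variable {K F F' : Type*} [Field K] [Field F] [Field F']
  [Algebra K F] [Algebra K F'] [Algebra F F'] [IsScalarTower K F F']
  [Algebra.IsIntegral F F']

/-- Intertwining hypothesis in instance form. -/
def Intertwines (g : SemilinearAut K F) (g' : SemilinearAut K F') : Prop :=
  ∀ x : F, g' • algebraMap F F' x = algebraMap F F' (g • x)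

theorem Intertwines.inv {g : SemilinearAut K F} {g' : SemilinearAut K F'}
    (h : Intertwines g g') : Intertwines g⁻¹ g'⁻¹ := fun x => by
  have hx := h (g⁻¹ • x)
  rw [smul_inv_smul] at hx
  rw [← hx, inv_smul_smul]

theorem mem_restrict_smul_iff {g : SemilinearAut K F} {g' : SemilinearAut K F'}
    (h : Intertwines g g') (w : Place K F') (x : F) :
    x ∈ ((g' • w).restrict F).toValuationSubring ↔ x ∈ (g • (w.restrict F)).toValuationSubring := by
  rw [Place.mem_restrict_iff, SemilinearAut.smul_toValuationSubring,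
    SemilinearAut.smul_toValuationSubring,
    ValuationSubring.mem_pointwise_smul_iff_inv_smul_mem,
    ValuationSubring.mem_pointwise_smul_iff_inv_smul_mem, Place.mem_restrict_iff, h.inv x]

theorem restrict_smul {g : SemilinearAut K F} {g' : SemilinearAut K F'}
    (h : Intertwines g g') (w : Place K F') :
    (g' • w).restrict F = g • (w.restrict F) := by
  apply Place.ext
  ext x
  exact mem_restrict_smul_iff h w x

theorem ramificationIndex_smul {g : SemilinearAut K F} {g' : SemilinearAut K F'}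
    (h : Intertwines g g') (w : Place K F') :
    (g' • w).ramificationIndex F = w.ramificationIndex F := by
  unfold Place.ramificationIndex
  congr 1
  ext n
  constructor
  · rintro ⟨hn, f, hf, hord⟩
    refine ⟨hn, g⁻¹ • f, by simpa using hf, ?_⟩
    rw [← hord]
    have h1 := SemilinearAut.ord_smul g' w (algebraMap F F' (g⁻¹ • f))
    rw [h (g⁻¹ • f), smul_inv_smul] at h1
    exact h1.symm
  · rintro ⟨hn, f, hf, hord⟩
    refine ⟨hn, g • f, by simpa using hf, ?_⟩
    rw [← hord, ← h f]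
    exact SemilinearAut.ord_smul g' w (algebraMap F F' f)

/-- The ring equivalence `x ↦ g • x` between the valuation rings of `w.restrict F` and
`(g' • w).restrict F`. -/
def restrictEquiv {g : SemilinearAut K F} {g' : SemilinearAut K F'}
    (h : Intertwines g g') (w : Place K F') :
    (w.restrict F).toValuationSubring ≃+* ((g' • w).restrict F).toValuationSubring where
  toFun x := ⟨g • (x : F), (mem_restrict_smul_iff h w _).mpr
    (ValuationSubring.smul_mem_pointwise_smul g (x : F) _ x.2)⟩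
  invFun y := ⟨g⁻¹ • (y : F),
    (ValuationSubring.mem_pointwise_smul_iff_inv_smul_mem (g := g)
      (S := (w.restrict F).toValuationSubring) (x := (y : F))).mp
      ((mem_restrict_smul_iff h w _).mp y.2)⟩
  left_inv x := by ext; simp
  right_inv y := by ext; simp
  map_mul' x y := Subtype.ext (smul_mul' g (x : F) (y : F))
  map_add' x y := Subtype.ext (smul_add g (x : F) (y : F))

@[simp]
theorem coe_restrictEquiv_apply {g : SemilinearAut K F} {g' : SemilinearAut K F'}
    (h : Intertwines g g') (w : Place K F') (x : (w.restrict F).toValuationSubring) :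
    ((restrictEquiv h w x : ((g' • w).restrict F).toValuationSubring) : F) = g • (x : F) :=
  rfl

theorem inertiaDeg_smul {g : SemilinearAut K F} {g' : SemilinearAut K F'}
    (h : Intertwines g g') (w : Place K F') :
    (g' • w).inertiaDeg F = w.inertiaDeg F := by
  unfold Place.inertiaDeg
  symm
  refine Algebra.finrank_eq_of_equiv_equiv
    (IsLocalRing.ResidueField.mapEquiv (restrictEquiv h w))
    (IsLocalRing.ResidueField.mapEquiv
      (SemilinearAut.smulValuationSubringEquiv g' w.toValuationSubring)) ?_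
  apply RingHom.ext
  intro a
  obtain ⟨a, rfl⟩ := IsLocalRing.residue_surjective a
  simp only [RingHom.comp_apply, RingEquiv.toRingHom_eq_coe, RingEquiv.coe_toRingHom,
    IsLocalRing.ResidueField.mapEquiv_apply, IsLocalRing.ResidueField.map_residue,
    Place.algebraMap_residueField_eq, Place.restrictResidueMap_residue]
  congr 1
  apply Subtype.ext
  show algebraMap F F' (g • (a : F)) = g' • algebraMap F F' (a : F)
  exact (h (a : F)).symm

/-- Push-forward of divisors is equivariant. -/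
theorem pushforward_smul {g : SemilinearAut K F} {g' : SemilinearAut K F'}
    (h : Intertwines g g') (D : Divisor K F') :
    Divisor.pushforward F (g' • D) = g • Divisor.pushforward F D := by
  induction D using Finsupp.induction with
  | zero => simp
  | single_add w n D _ _ ih =>
      rw [smul_add, map_add, map_add, smul_add, ih, SemilinearAut.smul_single,
        Divisor.pushforward_single, Divisor.pushforward_single, SemilinearAut.smul_single,
        restrict_smul h, inertiaDeg_smul h]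

/-- Pull-back of divisors is equivariant. -/
theorem pullback_smul [HasPrincipalDivisors K F'] {g : SemilinearAut K F}
    {g' : SemilinearAut K F'} (h : Intertwines g g') (D : Divisor K F) :
    Divisor.pullback F' (g • D) = g' • Divisor.pullback F' D := by
  ext w
  rw [Divisor.pullback_apply, SemilinearAut.divisor_smul_apply,
    SemilinearAut.divisor_smul_apply, Divisor.pullback_apply, restrict_smul h.inv,
    ramificationIndex_smul h.inv]

end Abstract

section Along

variable {K F F' : Type*} [Field K] [Field F] [Field F'] [Algebra K F] [Algebra K F']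

theorem pullbackAlong_smul [HasPrincipalDivisors K F'] (φ : F →ₐ[K] F')
    (hφ : φ.toRingHom.IsIntegral) {g : SemilinearAut K F} {g' : SemilinearAut K F'}
    (h : SemilinearAut.IntertwinesAlong (φ : F →+* F') g g') (D : Divisor K F) :
    Divisor.pullbackAlong φ hφ (g • D) = g' • Divisor.pullbackAlong φ hφ D := by
  letI := algebraAlong φ
  haveI := isScalarTower_along φ
  haveI := isIntegral_along φ hφ
  exact pullback_smul (fun x => h x) D

theorem pushforwardAlong_smul (φ : F →ₐ[K] F')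
    (hφ : φ.toRingHom.IsIntegral) {g : SemilinearAut K F} {g' : SemilinearAut K F'}
    (h : SemilinearAut.IntertwinesAlong (φ : F →+* F') g g') (D : Divisor K F') :
    Divisor.pushforwardAlong φ hφ (g' • D) = g • Divisor.pushforwardAlong φ hφ D := by
  letI := algebraAlong φ
  haveI := isScalarTower_along φ
  haveI := isIntegral_along φ hφ
  exact pushforward_smul (fun x => h x) D

variable [HasPrincipalDivisors K F']
variable (φ ψ : F →ₐ[K] F') (hφ : φ.toRingHom.IsIntegral) (hψ : ψ.toRingHom.IsIntegral)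

theorem divisor_correspondence_smul {g : SemilinearAut K F} {g' : SemilinearAut K F'}
    (h₁ : SemilinearAut.IntertwinesAlong (φ : F →+* F') g g')
    (h₂ : SemilinearAut.IntertwinesAlong (ψ : F →+* F') g g') (D : Divisor K F) :
    Divisor.correspondence φ ψ hφ hψ (g • D) = g • Divisor.correspondence φ ψ hφ hψ D := by
  rw [Divisor.correspondence_apply, Divisor.correspondence_apply, pullbackAlong_smul φ hφ h₁,
    pushforwardAlong_smul ψ hψ h₂]

theorem pic0_correspondence_smul (hFI : FundamentalIdentityAlong K φ hφ)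
    (hfin : FiniteAlong K ψ) (hN : NormFormulaAlong K ψ hfin)
    {g : SemilinearAut K F} {g' : SemilinearAut K F'}
    (h₁ : SemilinearAut.IntertwinesAlong (φ : F →+* F') g g')
    (h₂ : SemilinearAut.IntertwinesAlong (ψ : F →+* F') g g') (x : Pic0 K F) :
    Pic0.correspondence φ ψ hφ hψ hFI hfin hN (g • x)
      = g • Pic0.correspondence φ ψ hφ hψ hFI hfin hN x := by
  obtain ⟨D, rfl⟩ := Pic0.mk_surjective x
  rw [SemilinearAut.pic0_smul_mk, Pic0.correspondence_mk, Pic0.correspondence_mk,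
    SemilinearAut.pic0_smul_mk]
  congr 1
  apply Subtype.ext
  rw [Pic0.coe_degZeroCorrespondence, SemilinearAut.coe_degZeroSMulHom,
    SemilinearAut.coe_degZeroSMulHom, Pic0.coe_degZeroCorrespondence]
  exact divisor_correspondence_smul φ ψ hφ hψ h₁ h₂ (D : Divisor K F)

end Along

section Modular

variable (N : ℕ) [NeZero N]

theorem intertwines_heckeAlphaBar (ℓ : ℕ) [NeZero ℓ]
    (σ : AlgebraicClosure ℚ ≃ₐ[ℚ] AlgebraicClosure ℚ) :
    SemilinearAut.IntertwinesAlong
      ((heckeAlphaBar (AlgebraicClosure ℚ) N ℓ :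
        laurentBaseChange (AlgebraicClosure ℚ) (modularFunctionFieldFull N) →ₐ[AlgebraicClosure ℚ]
          laurentBaseChange (AlgebraicClosure ℚ) (modularFunctionFieldFull (N * ℓ))) :
        laurentBaseChange (AlgebraicClosure ℚ) (modularFunctionFieldFull N) →+*
          laurentBaseChange (AlgebraicClosure ℚ) (modularFunctionFieldFull (N * ℓ)))
      (arithmeticGalois (modularFunctionFieldFull N) σ)
      (arithmeticGalois (modularFunctionFieldFull (N * ℓ)) σ) := by
  intro x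
  apply Subtype.ext
  rw [coe_arithmeticGalois_smul]
  show coeffMap _ ((heckeAlphaBar (AlgebraicClosure ℚ) N ℓ x :
      laurentBaseChange (AlgebraicClosure ℚ) (modularFunctionFieldFull (N * ℓ))) :
        LaurentSeries (AlgebraicClosure ℚ)) =
    ((heckeAlphaBar (AlgebraicClosure ℚ) N ℓ
      (arithmeticGalois (modularFunctionFieldFull N) σ • x) :
      laurentBaseChange (AlgebraicClosure ℚ) (modularFunctionFieldFull (N * ℓ))) :
        LaurentSeries (AlgebraicClosure ℚ))
  rw [coe_heckeAlphaBar, coe_heckeAlphaBar, coe_arithmeticGalois_smul]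

theorem intertwines_heckeBetaBar (ℓ : ℕ) [NeZero ℓ]
    (σ : AlgebraicClosure ℚ ≃ₐ[ℚ] AlgebraicClosure ℚ) :
    SemilinearAut.IntertwinesAlong
      ((heckeBetaBar (AlgebraicClosure ℚ) N ℓ :
        laurentBaseChange (AlgebraicClosure ℚ) (modularFunctionFieldFull N) →ₐ[AlgebraicClosure ℚ]
          laurentBaseChange (AlgebraicClosure ℚ) (modularFunctionFieldFull (N * ℓ))) :
        laurentBaseChange (AlgebraicClosure ℚ) (modularFunctionFieldFull N) →+*
          laurentBaseChange (AlgebraicClosure ℚ) (modularFunctionFieldFull (N * ℓ)))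
      (arithmeticGalois (modularFunctionFieldFull N) σ)
      (arithmeticGalois (modularFunctionFieldFull (N * ℓ)) σ) := by
  intro x
  apply Subtype.ext
  rw [coe_arithmeticGalois_smul]
  show coeffMap _ ((heckeBetaBar (AlgebraicClosure ℚ) N ℓ x :
      laurentBaseChange (AlgebraicClosure ℚ) (modularFunctionFieldFull (N * ℓ))) :
        LaurentSeries (AlgebraicClosure ℚ)) =
    ((heckeBetaBar (AlgebraicClosure ℚ) N ℓ
      (arithmeticGalois (modularFunctionFieldFull N) σ • x) :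
      laurentBaseChange (AlgebraicClosure ℚ) (modularFunctionFieldFull (N * ℓ))) :
        LaurentSeries (AlgebraicClosure ℚ))
  rw [coe_heckeBetaBar, coe_heckeBetaBar, coe_arithmeticGalois_smul, coeffMap_qExpand]

/-- **GH (raw form)**: the Galois action on `JZero N` commutes with every Prelude Hecke operator
`heckeOperatorBar N ℓ`. -/
theorem galois_smul_heckeOperatorBar (ℓ : Nat.Primes)
    (σ : AlgebraicClosure ℚ ≃ₐ[ℚ] AlgebraicClosure ℚ) (x : JZero N) :
    heckeOperatorBar N ℓ (σ • x) = σ • heckeOperatorBar N ℓ x := by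
  haveI : NeZero (ℓ : ℕ) := ⟨ℓ.2.ne_zero⟩
  rw [heckeOperatorBar_apply, heckeOperatorBar_apply]
  by_cases h : HeckeInputsAlong (AlgebraicClosure ℚ) N (ℓ : ℕ)
  · obtain ⟨hα, hβ, hP, hfin, hFI, hN⟩ := h
    haveI := hP
    rw [heckeOperatorAlong_eq hα hβ hFI hfin hN, galois_smul_pic0_def, galois_smul_pic0_def]
    exact pic0_correspondence_smul _ _ hβ hα hFI hfin hN
      (intertwines_heckeBetaBar N ℓ σ) (intertwines_heckeAlphaBar N ℓ σ) x
  · rw [heckeOperatorAlong_of_not h]
    simp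

/-- Every element of the Hecke algebra acts on `JZero N` by an endomorphism commuting with the
Galois action. -/
theorem galois_smul_heckeEvalBar (h : HeckeOperatorsCommuteBar N) (t : HeckeAlg)
    (σ : AlgebraicClosure ℚ ≃ₐ[ℚ] AlgebraicClosure ℚ) (x : JZero N) :
    heckeEvalBar h t (σ • x) = σ • heckeEvalBar h t x := by
  induction t using MvPolynomial.induction_on generalizing x with
  | C a =>
      rw [heckeEvalBar_C, Module.End.intCast_apply, Module.End.intCast_apply]
      exact (map_zsmul (DistribSMul.toAddMonoidHom (JZero N) σ) a x).symm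
  | add p q hp hq =>
      rw [map_add, LinearMap.add_apply, LinearMap.add_apply, hp, hq, smul_add]
  | mul_X p ℓ hp =>
      rw [map_mul, Module.End.mul_apply, Module.End.mul_apply]
      have hX : heckeEvalBar h (MvPolynomial.X ℓ) = heckeOperatorBar N ℓ :=
        heckeEvalBar_heckeGen h ℓ
      rw [hX, galois_smul_heckeOperatorBar, hp]

/-- **GH**: the Galois action on `JZero N` commutes with the Prelude Hecke-module structure. -/
theorem smulCommClass_galois_heckeAlg :
    letI := heckeModuleBar N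
    SMulCommClass (AlgebraicClosure ℚ ≃ₐ[ℚ] AlgebraicClosure ℚ) HeckeAlg (JZero N) := by
  letI := heckeModuleBar N
  refine ⟨fun σ t x => ?_⟩
  by_cases h : HeckeOperatorsCommuteBar N
  · rw [heckeModuleBar_smul_def h, heckeModuleBar_smul_def h]
    exact (galois_smul_heckeEvalBar N h t σ x).symm
  · rw [heckeModuleBar_smul_of_not h, heckeModuleBar_smul_of_not h]
    exact map_zsmul (DistribSMul.toAddMonoidHom (JZero N) σ) _ x

end Modular

end Fermat.Agent.S29.H42

end
end
-- ===== PACK-END S29/H42/GH.lean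

-- ===== PACK-BEGIN S29/H42/Smooth.lean
section
/-
S29 row, layer M, piece SMOOTH (helper42).

Every torsion point of the Prelude Jacobian `JZero N = Pic0 (ℚ̄) (ℚ̄ · F_N)` is fixed by an open
subgroup `Gal(ℚ̄/L)`, `L/ℚ` finite.  Proof: `n • [D] = 0` gives `f` with `div f = n • D`; `f` has
coefficients in a finite extension `L`; `σ ∈ Gal(ℚ̄/L)` fixes `f`, hence `n • (σ • D) = n • D`,
hence `σ • D = D` (divisors are torsion free).
-/



set_option autoImplicit false
set_option linter.style.haveILetI false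

noncomputable section

open AlgebraicCurve ModularCurve IntermediateField

namespace Fermat.Agent.S29.H42

/-- Finite-dimensional intermediate fields of `ℚ̄/ℚ` generated by one element. -/
theorem finiteDimensional_adjoin_singleton (c : AlgebraicClosure ℚ) :
    FiniteDimensional ℚ (IntermediateField.adjoin ℚ {c}) := by
  haveI : Algebra.IsAlgebraic ℚ (AlgebraicClosure ℚ) := AlgebraicClosure.isAlgebraic ℚ
  exact IntermediateField.adjoin.finiteDimensional (Algebra.IsIntegral.isIntegral c)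

/-- **Coefficients of an element of the base-changed function field lie in a finite extension**:
every element of `ℚ̄ · F₀ ⊆ ℚ̄((q))` is fixed (coefficientwise) by an open subgroup of `G_ℚ`. -/
theorem exists_finite_level_fix (F₀ : IntermediateField ℚ (LaurentSeries ℚ))
    {f : LaurentSeries (AlgebraicClosure ℚ)}
    (hf : f ∈ laurentBaseChange (AlgebraicClosure ℚ) F₀) :
    ∃ L : IntermediateField ℚ (AlgebraicClosure ℚ), FiniteDimensional ℚ L ∧
      ∀ σ : AlgebraicClosure ℚ ≃ₐ[ℚ] AlgebraicClosure ℚ, (∀ y ∈ L, σ y = y) →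
        coeffMap (σ : AlgebraicClosure ℚ →+* AlgebraicClosure ℚ) f = f := by
  rw [mem_laurentBaseChange_iff] at hf
  induction hf using Subfield.closure_induction with
  | mem y hy =>
      rcases hy with ⟨a, rfl⟩ | ⟨z, _, rfl⟩
      · refine ⟨IntermediateField.adjoin ℚ {a}, finiteDimensional_adjoin_singleton a, ?_⟩
        intro σ hσ
        rw [coeffMap_algebraMap]
        congr 1
        exact hσ a (IntermediateField.mem_adjoin_simple_self ℚ a)
      · exact ⟨⊥, inferInstance, fun σ _ => coeffMap_coeffEmb σ z⟩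
  | one => exact ⟨⊥, inferInstance, fun σ _ => map_one _⟩
  | add x y _ _ hx hy =>
      obtain ⟨L1, h1, hL1⟩ := hx
      obtain ⟨L2, h2, hL2⟩ := hy
      haveI := h1
      haveI := h2
      refine ⟨L1 ⊔ L2, inferInstance, fun σ hσ => ?_⟩
      rw [map_add, hL1 σ fun y hy => hσ y (le_sup_left (b := L2) hy),
        hL2 σ fun y hy => hσ y (le_sup_right (a := L1) hy)]
  | neg x _ hx =>
      obtain ⟨L1, h1, hL1⟩ := hx
      exact ⟨L1, h1, fun σ hσ => by rw [map_neg, hL1 σ hσ]⟩
  | inv x _ hx =>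
      obtain ⟨L1, h1, hL1⟩ := hx
      exact ⟨L1, h1, fun σ hσ => by rw [map_inv₀, hL1 σ hσ]⟩
  | mul x y _ _ hx hy =>
      obtain ⟨L1, h1, hL1⟩ := hx
      obtain ⟨L2, h2, hL2⟩ := hy
      haveI := h1
      haveI := h2
      refine ⟨L1 ⊔ L2, inferInstance, fun σ hσ => ?_⟩
      rw [map_mul, hL1 σ fun y hy => hσ y (le_sup_left (b := L2) hy),
        hL2 σ fun y hy => hσ y (le_sup_right (a := L1) hy)]

/-- A divisor whose `n`-th multiple is the divisor of a function fixed by the semilinear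
automorphism `g` is itself fixed by `g`. -/
theorem divisor_smul_eq_of_fix {K F : Type*} [Field K] [Field F] [Algebra K F]
    (g : SemilinearAut K F) {n : ℤ} (hn : n ≠ 0) (D : Divisor K F) (f : F)
    (hD : ∀ v : Place K F, (n • D) v = v.ord f) (hgf : g • f = f) : g • D = D := by
  have h1 : g • (n • D) = n • D := by
    ext w
    rw [SemilinearAut.divisor_smul_apply, hD, hD]
    have h := SemilinearAut.ord_smul g (g⁻¹ • w) f
    rw [smul_inv_smul, hgf] at h
    exact h.symm
  have h2 : n • (g • D) = n • D := by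
    rw [← h1]
    exact (map_zsmul (DistribSMul.toAddMonoidHom (Divisor K F) g) n D).symm
  ext w
  have h3 := DFunLike.congr_fun h2 w
  simp only [Finsupp.smul_apply, smul_eq_mul] at h3
  exact mul_left_cancel₀ hn h3

/-- **SMOOTH (torsion points)**: every torsion point of `Pic0 (ℚ̄) (ℚ̄ · F₀)` is fixed by an open
subgroup of `G_ℚ`. -/
theorem exists_finite_level_fix_torsion (F₀ : IntermediateField ℚ (LaurentSeries ℚ))
    {n : ℕ} (hn : n ≠ 0)
    (x : Pic0 (AlgebraicClosure ℚ) (laurentBaseChange (AlgebraicClosure ℚ) F₀))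
    (hx : (n : ℤ) • x = 0) :
    ∃ L : IntermediateField ℚ (AlgebraicClosure ℚ), FiniteDimensional ℚ L ∧
      ∀ σ : AlgebraicClosure ℚ ≃ₐ[ℚ] AlgebraicClosure ℚ, (∀ y ∈ L, σ y = y) → σ • x = x := by
  obtain ⟨D, rfl⟩ := Pic0.mk_surjective x
  have hx' : ((n : ℤ) • D : Divisor.degZero (K := AlgebraicClosure ℚ)
      (F := laurentBaseChange (AlgebraicClosure ℚ) F₀)) ∈
      (Divisor.principal (K := AlgebraicClosure ℚ)
        (F := laurentBaseChange (AlgebraicClosure ℚ) F₀)).addSubgroupOf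
        (Divisor.degZero (K := AlgebraicClosure ℚ)
          (F := laurentBaseChange (AlgebraicClosure ℚ) F₀)) := by
    have : Pic0.mk ((n : ℤ) • D) = 0 := hx
    exact (QuotientAddGroup.eq_zero_iff _).mp this
  rw [AddSubgroup.mem_addSubgroupOf] at hx'
  obtain ⟨f, _, hD⟩ := hx'
  obtain ⟨L, hL, hfix⟩ := exists_finite_level_fix F₀ f.2
  refine ⟨L, hL, fun σ hσ => ?_⟩
  rw [galois_smul_pic0_def, SemilinearAut.pic0_smul_mk]
  congr 1
  apply Subtype.ext
  rw [SemilinearAut.coe_degZeroSMulHom]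
  refine divisor_smul_eq_of_fix (arithmeticGalois F₀ σ) (Int.natCast_ne_zero.mpr hn)
    (D : Divisor _ _) f ?_ ?_
  · intro v
    have := hD v
    simpa using this
  · apply Subtype.ext
    rw [coe_arithmeticGalois_smul]
    exact hfix σ hσ

/-- SMOOTH for the Prelude Jacobian `JZero N`. -/
theorem jZero_exists_finite_level_fix_torsion (N : ℕ) {n : ℕ} (hn : n ≠ 0) (x : JZero N)
    (hx : (n : ℤ) • x = 0) :
    ∃ L : IntermediateField ℚ (AlgebraicClosure ℚ), FiniteDimensional ℚ L ∧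
      ∀ σ : AlgebraicClosure ℚ ≃ₐ[ℚ] AlgebraicClosure ℚ, (∀ y ∈ L, σ y = y) → σ • x = x :=
  exists_finite_level_fix_torsion (modularFunctionFieldFull N) hn x hx

end Fermat.Agent.S29.H42

end
end
-- ===== PACK-END S29/H42/Smooth.lean

-- ===== PACK-BEGIN S48/F1/Basic.lean
section




/-!
# S48 / RES (Tower A1) — A1-FF: formal properties of `J₁(M)` and its operators (helper168)

Everything here is PROVED (no hypotheses):

* `lbc_ringHom_ext` : a ring hom out of `L · F₀` is determined by its values on `L` and on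
  generators of `F₀`;
* `isDiamond_unique`, `isDiamond_one`, `IsDiamond.mul`, `IsDiamond.symm`;
* `galois_smul_hecke1`, `galois_smul_hecke1T`, `galois_smul_diamond1`, `galois_smul_diamond1Inv` :
  the Hecke and diamond operators on `J₁(M)` commute with the Galois action;
* `j1_exists_finite_level_fix_torsion` : SMOOTH for `J₁(M)`;
* the torsion module `J1T M m` with its Galois action and operators `heckeT`, `diamondT`,
  `diamondInvT`.
-/

set_option autoImplicit false
set_option linter.style.haveILetI false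
set_option linter.unusedSectionVars false

noncomputable section

open PowerSeries HahnSeries IntermediateField ModularCurve AlgebraicCurve

namespace Fermat.Agent.S48.F1

/-! ### Extensionality for ring homs out of `L · F₀` -/

section Ext

variable {L : Type*} [Field L] [Algebra ℚ L]

theorem coeffEmb_algebraMap (q : ℚ) :
    coeffEmb L (algebraMap ℚ (LaurentSeries ℚ) q) =
      algebraMap L (LaurentSeries L) (algebraMap ℚ L q) := by
  rw [algebraMap_apply_eq_single, algebraMap_laurent_eq_single]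
  ext k
  rw [coeffEmb_coeff]
  by_cases hk : k = 0
  · subst hk
    simp
  · simp [HahnSeries.coeff_single_of_ne hk]

theorem lbc_ringHom_ext {S : Set (LaurentSeries ℚ)} {R : Type*} [DivisionRing R]
    (f g : laurentBaseChange L (IntermediateField.adjoin ℚ S) →+* R)
    (hL : ∀ a : L, f (algebraMap L _ a) = g (algebraMap L _ a))
    (hS : ∀ (z : LaurentSeries ℚ) (hz : z ∈ S),
      f ⟨coeffEmb L z, coeffEmb_mem_laurentBaseChange L (IntermediateField.subset_adjoin ℚ S hz)⟩
        = g ⟨coeffEmb L z,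
            coeffEmb_mem_laurentBaseChange L (IntermediateField.subset_adjoin ℚ S hz)⟩) :
    f = g := by
  -- first step: agreement on `coeffEmb '' F₀`
  have key : ∀ (z : LaurentSeries ℚ) (hz : z ∈ IntermediateField.adjoin ℚ S),
      f ⟨coeffEmb L z, coeffEmb_mem_laurentBaseChange L hz⟩
        = g ⟨coeffEmb L z, coeffEmb_mem_laurentBaseChange L hz⟩ := by
    intro z hz
    induction hz using IntermediateField.adjoin_induction with
    | mem x hx => exact hS x hx
    | algebraMap q =>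
        have h1 : (⟨coeffEmb L (algebraMap ℚ (LaurentSeries ℚ) q),
            coeffEmb_mem_laurentBaseChange L
              ((IntermediateField.adjoin ℚ S).algebraMap_mem q)⟩ :
              laurentBaseChange L (IntermediateField.adjoin ℚ S))
            = algebraMap L _ (algebraMap ℚ L q) :=
          Subtype.ext (coeffEmb_algebraMap q)
        rw [h1]
        exact hL _
    | add x y hx hy ihx ihy =>
        have h1 : (⟨coeffEmb L (x + y), coeffEmb_mem_laurentBaseChange L (add_mem hx hy)⟩ :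
            laurentBaseChange L (IntermediateField.adjoin ℚ S))
            = ⟨coeffEmb L x, coeffEmb_mem_laurentBaseChange L hx⟩
              + ⟨coeffEmb L y, coeffEmb_mem_laurentBaseChange L hy⟩ :=
          Subtype.ext (map_add (coeffEmb L) x y)
        rw [h1, map_add, map_add, ihx, ihy]
    | inv x hx ihx =>
        have h1 : (⟨coeffEmb L x⁻¹, coeffEmb_mem_laurentBaseChange L (inv_mem hx)⟩ :
            laurentBaseChange L (IntermediateField.adjoin ℚ S))
            = (⟨coeffEmb L x, coeffEmb_mem_laurentBaseChange L hx⟩ :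
                laurentBaseChange L (IntermediateField.adjoin ℚ S))⁻¹ :=
          Subtype.ext (map_inv₀ (coeffEmb L) x)
        rw [h1, map_inv₀, map_inv₀, ihx]
    | mul x y hx hy ihx ihy =>
        have h1 : (⟨coeffEmb L (x * y), coeffEmb_mem_laurentBaseChange L (mul_mem hx hy)⟩ :
            laurentBaseChange L (IntermediateField.adjoin ℚ S))
            = ⟨coeffEmb L x, coeffEmb_mem_laurentBaseChange L hx⟩
              * ⟨coeffEmb L y, coeffEmb_mem_laurentBaseChange L hy⟩ :=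
          Subtype.ext (map_mul (coeffEmb L) x y)
        rw [h1, map_mul, map_mul, ihx, ihy]
  -- second step: agreement on the compositum
  have key2 : ∀ (y : LaurentSeries L)
      (hy : y ∈ laurentBaseChange L (IntermediateField.adjoin ℚ S)), f ⟨y, hy⟩ = g ⟨y, hy⟩ := by
    intro y hy
    unfold laurentBaseChange at hy
    induction hy using IntermediateField.adjoin_induction with
    | mem x hx =>
        obtain ⟨z, hz, rfl⟩ := hx
        exact key z hz
    | algebraMap a => exact hL a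
    | add x y hx hy ihx ihy =>
        have h1 : (⟨x + y, add_mem hx hy⟩ :
            laurentBaseChange L (IntermediateField.adjoin ℚ S)) = ⟨x, hx⟩ + ⟨y, hy⟩ := rfl
        rw [h1, map_add, map_add, ihx, ihy]
    | inv x hx ihx =>
        have h1 : (⟨x⁻¹, inv_mem hx⟩ :
            laurentBaseChange L (IntermediateField.adjoin ℚ S)) = (⟨x, hx⟩)⁻¹ := rfl
        rw [h1, map_inv₀, map_inv₀, ihx]
    | mul x y hx hy ihx ihy =>
        have h1 : (⟨x * y, mul_mem hx hy⟩ :
            laurentBaseChange L (IntermediateField.adjoin ℚ S)) = ⟨x, hx⟩ * ⟨y, hy⟩ := rfl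
        rw [h1, map_mul, map_mul, ihx, ihy]
  ext ⟨y, hy⟩
  exact key2 y hy

end Ext

/-! ### The diamond automorphisms -/

section Diamond

variable {L : Type*} [Field L] [Algebra ℚ L] {M : ℕ}

/-- `P_a` as an element of `L · F1 M`. -/
def divGenL (L : Type*) [Field L] [Algebra ℚ L] (M : ℕ) (a : ZMod M) (ha : a ≠ 0) : F1L L M :=
  ⟨coeffEmb L (divGen M a), coeffEmb_mem_laurentBaseChange L (divGen_mem_F1 M ha)⟩

@[simp]
theorem coe_divGenL (a : ZMod M) (ha : a ≠ 0) :
    ((divGenL L M a ha : F1L L M) : LaurentSeries L) = coeffEmb L (divGen M a) := rfl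

theorem unit_mul_ne_zero (d : (ZMod M)ˣ) {a : ZMod M} (ha : a ≠ 0) : (d : ZMod M) * a ≠ 0 :=
  fun h => ha (by
    have := congrArg (fun x => ((d⁻¹ : (ZMod M)ˣ) : ZMod M) * x) h
    simpa using this)

theorem IsDiamond.apply_divGenL {d : (ZMod M)ˣ} {σ : F1L L M ≃ₐ[L] F1L L M}
    (h : IsDiamond L M d σ) (a : ZMod M) (ha : a ≠ 0) :
    σ (divGenL L M a ha) = divGenL L M ((d : ZMod M) * a) (unit_mul_ne_zero d ha) :=
  h.2 a _ _ ha rfl rfl

theorem isDiamond_iff {d : (ZMod M)ˣ} {σ : F1L L M ≃ₐ[L] F1L L M} :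
    IsDiamond L M d σ ↔
      (∀ x : F1L L M, (x : LaurentSeries L) ∈ laurentBaseChange L (modularFunctionFieldFull M) →
        σ x = x) ∧
      ∀ (a : ZMod M) (ha : a ≠ 0),
        σ (divGenL L M a ha) = divGenL L M ((d : ZMod M) * a) (unit_mul_ne_zero d ha) := by
  constructor
  · exact fun h => ⟨h.1, fun a ha => h.apply_divGenL a ha⟩
  · rintro ⟨h1, h2⟩
    refine ⟨h1, fun a x y ha hx hy => ?_⟩
    have hx' : x = divGenL L M a ha := Subtype.ext hx
    have hy' : y = divGenL L M ((d : ZMod M) * a) (unit_mul_ne_zero d ha) := Subtype.ext hy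
    rw [hx', hy']
    exact h2 a ha

/-- The diamond automorphism is unique. -/
theorem isDiamond_unique {d : (ZMod M)ˣ} {σ τ : F1L L M ≃ₐ[L] F1L L M}
    (hσ : IsDiamond L M d σ) (hτ : IsDiamond L M d τ) : σ = τ := by
  have h : (σ : F1L L M →+* F1L L M) = (τ : F1L L M →+* F1L L M) := by
    refine lbc_ringHom_ext (S := divisorExpansions M ∪ divGens M) _ _ ?_ ?_
    · intro a
      show σ (algebraMap L _ a) = τ (algebraMap L _ a)
      rw [σ.commutes, τ.commutes]
    · rintro z (hz | ⟨a, ha, rfl⟩)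
      · have hmem : coeffEmb L z ∈ laurentBaseChange L (modularFunctionFieldFull M) :=
          coeffEmb_mem_laurentBaseChange L (IntermediateField.subset_adjoin ℚ _ hz)
        show σ _ = τ _
        rw [hσ.1 _ hmem, hτ.1 _ hmem]
      · show σ (divGenL L M a ha) = τ (divGenL L M a ha)
        rw [hσ.apply_divGenL, hτ.apply_divGenL]
  apply AlgEquiv.ext
  intro x
  exact congrArg (fun f : F1L L M →+* F1L L M => f x) h

theorem isDiamond_one : IsDiamond L M 1 (AlgEquiv.refl : F1L L M ≃ₐ[L] F1L L M) := by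
  rw [isDiamond_iff]
  refine ⟨fun _ _ => rfl, fun a ha => ?_⟩
  apply Subtype.ext
  simp

theorem IsDiamond.mul {d d' : (ZMod M)ˣ} {σ τ : F1L L M ≃ₐ[L] F1L L M}
    (hσ : IsDiamond L M d σ) (hτ : IsDiamond L M d' τ) : IsDiamond L M (d * d') (σ * τ) := by
  rw [isDiamond_iff]
  refine ⟨fun x hx => ?_, fun a ha => ?_⟩
  · show σ (τ x) = x
    rw [hτ.1 x hx, hσ.1 x hx]
  · show σ (τ (divGenL L M a ha)) = _
    rw [hτ.apply_divGenL, hσ.apply_divGenL]
    apply Subtype.ext
    simp [mul_assoc]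

theorem IsDiamond.symm {d : (ZMod M)ˣ} {σ : F1L L M ≃ₐ[L] F1L L M}
    (hσ : IsDiamond L M d σ) : IsDiamond L M d⁻¹ σ.symm := by
  rw [isDiamond_iff]
  refine ⟨fun x hx => ?_, fun a ha => ?_⟩
  · rw [AlgEquiv.symm_apply_eq, hσ.1 x hx]
  · rw [AlgEquiv.symm_apply_eq, hσ.apply_divGenL]
    apply Subtype.ext
    simp

theorem diamondAut_eq {d : (ZMod M)ˣ} {σ : F1L L M ≃ₐ[L] F1L L M} (hσ : IsDiamond L M d σ) :
    diamondAut L M d = σ :=
  isDiamond_unique (isDiamond_diamondAut L M d ⟨σ, hσ⟩) hσ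

end Diamond

/-! ### Galois equivariance -/

section Galois

variable (M : ℕ)

local notation "Qbar" => AlgebraicClosure ℚ
local notation "GalQbar" => (AlgebraicClosure ℚ ≃ₐ[ℚ] AlgebraicClosure ℚ)

theorem intertwines_alpha1 (p : ℕ) [NeZero p] (σ : GalQbar) :
    SemilinearAut.IntertwinesAlong
      ((alpha1 Qbar M p : F1L Qbar M →ₐ[Qbar] F1pL Qbar M p) : F1L Qbar M →+* F1pL Qbar M p)
      (arithmeticGalois (F1 M) σ) (arithmeticGalois (F1p M p) σ) := by
  intro x
  apply Subtype.ext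
  rw [coe_arithmeticGalois_smul]
  show coeffMap _ ((alpha1 Qbar M p x : F1pL Qbar M p) : LaurentSeries Qbar)
    = ((alpha1 Qbar M p (arithmeticGalois (F1 M) σ • x) : F1pL Qbar M p) : LaurentSeries Qbar)
  rw [coe_alpha1, coe_alpha1, coe_arithmeticGalois_smul]

theorem intertwines_beta1 (p : ℕ) [NeZero p] (σ : GalQbar) :
    SemilinearAut.IntertwinesAlong
      ((beta1 Qbar M p : F1L Qbar M →ₐ[Qbar] F1pL Qbar M p) : F1L Qbar M →+* F1pL Qbar M p)
      (arithmeticGalois (F1 M) σ) (arithmeticGalois (F1p M p) σ) := by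
  intro x
  apply Subtype.ext
  rw [coe_arithmeticGalois_smul]
  show coeffMap _ ((beta1 Qbar M p x : F1pL Qbar M p) : LaurentSeries Qbar)
    = ((beta1 Qbar M p (arithmeticGalois (F1 M) σ • x) : F1pL Qbar M p) : LaurentSeries Qbar)
  rw [coe_beta1, coe_beta1, coe_arithmeticGalois_smul, coeffMap_qExpand]

theorem galois_smul_corrOp (p : ℕ) [NeZero p]
    (φ ψ : F1L Qbar M →ₐ[Qbar] F1pL Qbar M p)
    (hφ : ∀ σ : GalQbar, SemilinearAut.IntertwinesAlong (φ : F1L Qbar M →+* F1pL Qbar M p)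
      (arithmeticGalois (F1 M) σ) (arithmeticGalois (F1p M p) σ))
    (hψ : ∀ σ : GalQbar, SemilinearAut.IntertwinesAlong (ψ : F1L Qbar M →+* F1pL Qbar M p)
      (arithmeticGalois (F1 M) σ) (arithmeticGalois (F1p M p) σ))
    (σ : GalQbar) (x : J1 M) : corrOp φ ψ (σ • x) = σ • corrOp φ ψ x := by
  by_cases h : CorrInputs φ ψ
  · obtain ⟨h1, h2, hP, hfin, hFI, hN⟩ := h
    haveI := hP
    rw [corrOp_eq φ ψ h1 h2 hFI hfin hN, galois_smul_pic0_def, galois_smul_pic0_def]
    exact Fermat.Agent.S29.H42.pic0_correspondence_smul _ _ h1 h2 hFI hfin hN (hφ σ) (hψ σ) x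
  · rw [corrOp, dif_neg h]
    simp

/-- The Galois action on `J₁(M)` commutes with `T_p`. -/
theorem galois_smul_hecke1 (p : ℕ) (σ : GalQbar) (x : J1 M) :
    hecke1 M p (σ • x) = σ • hecke1 M p x := by
  by_cases hp : p = 0
  · rw [hecke1, dif_pos hp]
    simp
  · haveI : NeZero p := ⟨hp⟩
    rw [hecke1_eq]
    exact galois_smul_corrOp M p _ _ (intertwines_beta1 M p) (intertwines_alpha1 M p) σ x

/-- The Galois action on `J₁(M)` commutes with `T_p^t`. -/
theorem galois_smul_hecke1T (p : ℕ) (σ : GalQbar) (x : J1 M) :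
    hecke1T M p (σ • x) = σ • hecke1T M p x := by
  by_cases hp : p = 0
  · rw [hecke1T, dif_pos hp]
    simp
  · haveI : NeZero p := ⟨hp⟩
    rw [hecke1T_eq]
    exact galois_smul_corrOp M p _ _ (intertwines_alpha1 M p) (intertwines_beta1 M p) σ x

/-- The conjugate of an `L`-automorphism by the coefficientwise Galois action. -/
def conjAut (σ : GalQbar) (δ : F1Bar M ≃ₐ[Qbar] F1Bar M) : F1Bar M ≃ₐ[Qbar] F1Bar M :=
  AlgEquiv.ofRingEquiv
    (f := ((arithmeticRingAut (F1 M) σ).symm.trans (δ : F1Bar M ≃+* F1Bar M)).trans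
      (arithmeticRingAut (F1 M) σ))
    (fun a => by
      show arithmeticRingAut (F1 M) σ (δ ((arithmeticRingAut (F1 M) σ).symm
        (algebraMap Qbar (F1Bar M) a))) = algebraMap Qbar (F1Bar M) a
      have h1 : (arithmeticRingAut (F1 M) σ).symm (algebraMap Qbar (F1Bar M) a)
          = algebraMap Qbar (F1Bar M) (σ.symm a) := by
        rw [RingEquiv.symm_apply_eq, arithmeticRingAut_algebraMap, AlgEquiv.apply_symm_apply]
      rw [h1, δ.commutes, arithmeticRingAut_algebraMap, AlgEquiv.apply_symm_apply])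

theorem conjAut_apply (σ : GalQbar) (δ : F1Bar M ≃ₐ[Qbar] F1Bar M) (x : F1Bar M) :
    conjAut M σ δ x
      = arithmeticRingAut (F1 M) σ (δ ((arithmeticRingAut (F1 M) σ).symm x)) := rfl

theorem arithmeticRingAut_symm_coeffEmb (σ : GalQbar) (x : F1Bar M) (z : LaurentSeries ℚ)
    (hx : (x : LaurentSeries Qbar) = coeffEmb Qbar z) :
    (arithmeticRingAut (F1 M) σ).symm x = x := by
  rw [RingEquiv.symm_apply_eq]
  apply Subtype.ext
  rw [coe_arithmeticRingAut_apply, hx, coeffMap_coeffEmb]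

theorem arithmeticRingAut_coeffEmb (σ : GalQbar) (x : F1Bar M) (z : LaurentSeries ℚ)
    (hx : (x : LaurentSeries Qbar) = coeffEmb Qbar z) :
    arithmeticRingAut (F1 M) σ x = x := by
  apply Subtype.ext
  rw [coe_arithmeticRingAut_apply, hx, coeffMap_coeffEmb]

theorem isDiamond_conjAut {d : (ZMod M)ˣ} {δ : F1Bar M ≃ₐ[Qbar] F1Bar M}
    (hδ : IsDiamond Qbar M d δ) (σ : GalQbar) : IsDiamond Qbar M d (conjAut M σ δ) := by
  rw [isDiamond_iff]
  refine ⟨fun x hx => ?_, fun a ha => ?_⟩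
  · rw [conjAut_apply]
    have h1 : (((arithmeticRingAut (F1 M) σ).symm x : F1Bar M) : LaurentSeries Qbar)
        ∈ laurentBaseChange Qbar (modularFunctionFieldFull M) := by
      have h2 : (((arithmeticRingAut (F1 M) σ).symm x : F1Bar M) : LaurentSeries Qbar)
          = coeffMap (σ.symm : Qbar →+* Qbar) (x : LaurentSeries Qbar) := rfl
      rw [h2]
      exact coeffMap_mem_laurentBaseChange σ.symm hx
    rw [hδ.1 _ h1, RingEquiv.apply_symm_apply]
  · rw [conjAut_apply, arithmeticRingAut_symm_coeffEmb M σ _ (divGen M a) rfl,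
      hδ.apply_divGenL, arithmeticRingAut_coeffEmb M σ _ (divGen M ((d : ZMod M) * a)) rfl]

theorem conjAut_refl (σ : GalQbar) : conjAut M σ AlgEquiv.refl = AlgEquiv.refl := by
  ext x
  rw [conjAut_apply]
  simp

/-- The diamond automorphism commutes with the coefficientwise Galois action. -/
theorem conjAut_diamondAut (d : (ZMod M)ˣ) (σ : GalQbar) :
    conjAut M σ (diamondAut Qbar M d) = diamondAut Qbar M d := by
  by_cases h : ∃ τ : F1Bar M ≃ₐ[Qbar] F1Bar M, IsDiamond Qbar M d τ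
  · have h1 := isDiamond_diamondAut Qbar M d h
    exact isDiamond_unique (isDiamond_conjAut M h1 σ) h1
  · rw [diamondAut, dif_neg h]
    exact conjAut_refl M σ

theorem arithmeticGalois_mul_diamond (d : (ZMod M)ˣ) (σ : GalQbar) :
    arithmeticGalois (F1 M) σ * SemilinearAut.ofAlgAut (diamondAut Qbar M d)
      = SemilinearAut.ofAlgAut (diamondAut Qbar M d) * arithmeticGalois (F1 M) σ := by
  apply Subtype.ext
  refine Prod.ext ?_ ?_
  · apply RingEquiv.ext
    intro x
    show arithmeticRingAut (F1 M) σ (diamondAut Qbar M d x)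
      = diamondAut Qbar M d (arithmeticRingAut (F1 M) σ x)
    conv_rhs => rw [← conjAut_diamondAut M d σ, conjAut_apply, RingEquiv.symm_apply_apply]
  · show (σ.toRingEquiv * 1 : Qbar ≃+* Qbar) = 1 * σ.toRingEquiv
    rw [mul_one, one_mul]

/-- The Galois action on `J₁(M)` commutes with the diamond operators. -/
theorem galois_smul_diamond1 (d : (ZMod M)ˣ) (σ : GalQbar) (x : J1 M) :
    diamond1 M d (σ • x) = σ • diamond1 M d x := by
  rw [diamond1_apply, diamond1_apply, galois_smul_pic0_def, galois_smul_pic0_def, ← mul_smul,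
    ← mul_smul, arithmeticGalois_mul_diamond]

theorem galois_smul_diamond1Inv (d : (ZMod M)ˣ) (σ : GalQbar) (x : J1 M) :
    diamond1Inv M d (σ • x) = σ • diamond1Inv M d x := by
  have h := galois_smul_diamond1 M d σ (diamond1Inv M d x)
  rw [diamond1_diamond1Inv] at h
  rw [← h, diamond1Inv_diamond1]

/-- SMOOTH for `J₁(M)`: every torsion point is fixed by an open subgroup of `G_ℚ`. -/
theorem j1_exists_finite_level_fix_torsion {n : ℕ} (hn : n ≠ 0) (x : J1 M)
    (hx : (n : ℤ) • x = 0) :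
    ∃ K : IntermediateField ℚ Qbar, FiniteDimensional ℚ K ∧
      ∀ σ : GalQbar, (∀ y ∈ K, σ y = y) → σ • x = x :=
  Fermat.Agent.S29.H42.exists_finite_level_fix_torsion (F1 M) hn x hx

end Galois

/-! ### The torsion modules `J₁(M)[m]` -/

section Torsion

variable (M m : ℕ)

local notation "Qbar" => AlgebraicClosure ℚ
local notation "GalQbar" => (AlgebraicClosure ℚ ≃ₐ[ℚ] AlgebraicClosure ℚ)

/-- The `m`-torsion of `J₁(M)(ℚ̄)`, as a type. -/
abbrev J1T : Type := ↥(Pic0.torsion Qbar (F1Bar M) m)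

theorem galois_smul_mem_torsion1 (σ : GalQbar) {x : J1 M}
    (hx : x ∈ Pic0.torsion Qbar (F1Bar M) m) : σ • x ∈ Pic0.torsion Qbar (F1Bar M) m := by
  rw [Pic0.mem_torsion] at hx ⊢
  have := map_zsmul (DistribSMul.toAddMonoidHom (J1 M) σ) (m : ℤ) x
  rw [hx, map_zero] at this
  exact this.symm

/-- The Galois action on `J₁(M)[m]`. -/
@[implicit_reducible]
def galoisActionJ1T : DistribMulAction GalQbar (J1T M m) where
  smul σ x := ⟨σ • (x : J1 M), galois_smul_mem_torsion1 M m σ x.2⟩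
  one_smul x := Subtype.ext (one_smul _ (x : J1 M))
  mul_smul σ τ x := Subtype.ext (mul_smul σ τ (x : J1 M))
  smul_zero σ := Subtype.ext (smul_zero (A := J1 M) σ)
  smul_add σ x y := Subtype.ext (smul_add σ (x : J1 M) (y : J1 M))

theorem end_mem_torsion1 (T : Module.End ℤ (J1 M)) {x : J1 M}
    (hx : x ∈ Pic0.torsion Qbar (F1Bar M) m) : T x ∈ Pic0.torsion Qbar (F1Bar M) m := by
  rw [Pic0.mem_torsion] at hx ⊢
  rw [← map_zsmul, hx, map_zero]

/-- Restriction of an endomorphism of `J₁(M)` to the `m`-torsion. -/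
def restrictT (T : Module.End ℤ (J1 M)) : Module.End ℤ (J1T M m) where
  toFun x := ⟨T (x : J1 M), end_mem_torsion1 M m T x.2⟩
  map_add' _ _ := Subtype.ext (map_add T _ _)
  map_smul' c _ := Subtype.ext (map_zsmul T c _)

@[simp]
theorem coe_restrictT (T : Module.End ℤ (J1 M)) (x : J1T M m) :
    ((restrictT M m T x : J1T M m) : J1 M) = T (x : J1 M) := rfl

/-- `T_p` on `J₁(M)[m]`. -/
def heckeT (p : ℕ) : Module.End ℤ (J1T M m) := restrictT M m (hecke1 M p)

/-- `T_p^t` on `J₁(M)[m]`. -/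
def heckeTT (p : ℕ) : Module.End ℤ (J1T M m) := restrictT M m (hecke1T M p)

/-- `⟨d⟩` on `J₁(M)[m]`. -/
def diamondT (d : (ZMod M)ˣ) : Module.End ℤ (J1T M m) := restrictT M m (diamond1 M d)

/-- `⟨d⟩⁻¹` on `J₁(M)[m]`. -/
def diamondInvT (d : (ZMod M)ˣ) : Module.End ℤ (J1T M m) := restrictT M m (diamond1Inv M d)

@[simp] theorem coe_heckeT (p : ℕ) (x : J1T M m) :
    ((heckeT M m p x : J1T M m) : J1 M) = hecke1 M p (x : J1 M) := rfl

@[simp] theorem coe_heckeTT (p : ℕ) (x : J1T M m) :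
    ((heckeTT M m p x : J1T M m) : J1 M) = hecke1T M p (x : J1 M) := rfl

@[simp] theorem coe_diamondT (d : (ZMod M)ˣ) (x : J1T M m) :
    ((diamondT M m d x : J1T M m) : J1 M) = diamond1 M d (x : J1 M) := rfl

@[simp] theorem coe_diamondInvT (d : (ZMod M)ˣ) (x : J1T M m) :
    ((diamondInvT M m d x : J1T M m) : J1 M) = diamond1Inv M d (x : J1 M) := rfl

theorem diamondInvT_comp_diamondT (d : (ZMod M)ˣ) :
    diamondInvT M m d ∘ₗ diamondT M m d = LinearMap.id := by
  ext x
  simp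

theorem diamondT_comp_diamondInvT (d : (ZMod M)ˣ) :
    diamondT M m d ∘ₗ diamondInvT M m d = LinearMap.id := by
  ext x
  simp

section Equivariance

attribute [local instance] galoisActionJ1T

theorem coe_galois_smul_J1T (σ : GalQbar) (x : J1T M m) :
    ((σ • x : J1T M m) : J1 M) = σ • (x : J1 M) := rfl

theorem galois_smul_heckeT (p : ℕ) (σ : GalQbar) (x : J1T M m) :
    heckeT M m p (σ • x) = σ • heckeT M m p x :=
  Subtype.ext (galois_smul_hecke1 M p σ (x : J1 M))

theorem galois_smul_heckeTT (p : ℕ) (σ : GalQbar) (x : J1T M m) :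
    heckeTT M m p (σ • x) = σ • heckeTT M m p x :=
  Subtype.ext (galois_smul_hecke1T M p σ (x : J1 M))

theorem galois_smul_diamondT (d : (ZMod M)ˣ) (σ : GalQbar) (x : J1T M m) :
    diamondT M m d (σ • x) = σ • diamondT M m d x :=
  Subtype.ext (galois_smul_diamond1 M d σ (x : J1 M))

theorem galois_smul_diamondInvT (d : (ZMod M)ˣ) (σ : GalQbar) (x : J1T M m) :
    diamondInvT M m d (σ • x) = σ • diamondInvT M m d x :=
  Subtype.ext (galois_smul_diamond1Inv M d σ (x : J1 M))

end Equivariance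

end Torsion

end Fermat.Agent.S48.F1

end
end
-- ===== PACK-END S48/F1/Basic.lean

-- ===== PACK-BEGIN S48/H548/Coset.lean
section



/-!
# S48 / P0 (helper548): coset computations for `T_p` on `Γ₁(N)`

Matrix identities `β_x * g = g' * β_{x'}` for the Hecke representatives
`β_j = [[1, j], [0, p]]`, `β_∞ = [[p, 0], [0, 1]]`, `x ∈ ℙ¹(𝔽_p)`, with control of the lower row
of `g'` modulo `N` (adapted from the Prelude proof of `heckeT_slash_eq_self_of_mem_Gamma0`,
which only tracks `g' 1 0`).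
-/

set_option autoImplicit false

noncomputable section

namespace Fermat.Agent.S48.H548

open Matrix.SpecialLinearGroup UpperHalfPlane ModularForm CongruenceSubgroup
open scoped MatrixGroups ModularForm OnePoint

theorem det_eq' (g : SL(2, ℤ)) : g 0 0 * g 1 1 - g 0 1 * g 1 0 = 1 := by
  have h := g.det_coe
  rwa [Matrix.det_fin_two] at h

theorem mapGL_apply' (g : SL(2, ℤ)) (i j : Fin 2) :
    (mapGL ℝ g : GL (Fin 2) ℝ) i j = ((g i j : ℤ) : ℝ) := by
  simp

/-! ### Membership in `Γ₁(N)` from the lower row -/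

theorem mem_Gamma1_of_lower {N : ℕ} (g : SL(2, ℤ)) (h10 : ((g 1 0 : ℤ) : ZMod N) = 0)
    (h11 : ((g 1 1 : ℤ) : ZMod N) = 1) : g ∈ Gamma1 N := by
  rw [Gamma1_mem]
  refine ⟨?_, h11, h10⟩
  have := congrArg (Int.cast : ℤ → ZMod N) (det_eq' g)
  push_cast at this
  rw [h10, h11] at this
  simpa using this

theorem Gamma1_le_Gamma0' (N : ℕ) : Gamma1 N ≤ Gamma0 N := fun g hg =>
  Gamma0_mem.mpr ((Gamma1_mem N g).mp hg).2.2

theorem lower_right_mul {N : ℕ} (a b : SL(2, ℤ)) (ha : a ∈ Gamma0 N) :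
    (((a * b) 1 1 : ℤ) : ZMod N) = ((a 1 1 : ℤ) : ZMod N) * ((b 1 1 : ℤ) : ZMod N) := by
  have h0 : ((a 1 0 : ℤ) : ZMod N) = 0 := Gamma0_mem.mp ha
  rw [Matrix.SpecialLinearGroup.coe_mul, Matrix.mul_apply, Fin.sum_univ_two]
  push_cast
  rw [h0, zero_mul, zero_add]

theorem lower_right_isUnit {N : ℕ} (a : SL(2, ℤ)) (ha : a ∈ Gamma0 N) :
    ((a 0 0 : ℤ) : ZMod N) * ((a 1 1 : ℤ) : ZMod N) = 1 := by
  have h0 : ((a 1 0 : ℤ) : ZMod N) = 0 := Gamma0_mem.mp ha
  have := congrArg (Int.cast : ℤ → ZMod N) (det_eq' a)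
  push_cast at this
  rw [h0, mul_zero, sub_zero] at this
  exact this

theorem lower_right_inv {N : ℕ} (a : SL(2, ℤ)) :
    (((a⁻¹) 1 1 : ℤ) : ZMod N) = ((a 0 0 : ℤ) : ZMod N) := by
  rw [Matrix.SpecialLinearGroup.coe_inv, Matrix.adjugate_fin_two]
  simp

/-- Two elements of `Γ₀(N)` with the same lower right entry mod `N` differ by `Γ₁(N)`. -/
theorem mul_inv_mem_Gamma1 {N : ℕ} (a b : SL(2, ℤ)) (ha : a ∈ Gamma0 N) (hb : b ∈ Gamma0 N)
    (h : ((a 1 1 : ℤ) : ZMod N) = ((b 1 1 : ℤ) : ZMod N)) : a * b⁻¹ ∈ Gamma1 N := by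
  apply mem_Gamma1_of_lower
  · exact Gamma0_mem.mp ((Gamma0 N).mul_mem ha ((Gamma0 N).inv_mem hb))
  · rw [lower_right_mul a b⁻¹ ha, lower_right_inv, h, mul_comm]
    exact lower_right_isUnit b hb

/-! ### Existence of representatives -/

/-- For `d` prime to `N` there is `σ ∈ Γ₀(N)` with lower row `(N, d)`. -/
theorem exists_Gamma0_lower (N d : ℕ) (h : Nat.Coprime d N) :
    ∃ σ : SL(2, ℤ), σ ∈ Gamma0 N ∧ σ 1 0 = (N : ℤ) ∧ σ 1 1 = (d : ℤ) := by
  have hcop : IsCoprime (d : ℤ) (N : ℤ) := Nat.isCoprime_iff_coprime.mpr h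
  obtain ⟨a, b, hab⟩ := hcop
  refine ⟨⟨!![a, -b; (N : ℤ), (d : ℤ)], ?_⟩, ?_, rfl, rfl⟩
  · rw [Matrix.det_fin_two_of]
    linear_combination hab
  · exact Gamma0_mem.mpr (by simp)

/-- For `d` prime to `N p` there is `τ ∈ Γ₀(N)` with lower row `(N p, d)`. -/
theorem exists_Gamma0_lower_dvd (N p d : ℕ) (h : Nat.Coprime d (N * p)) :
    ∃ τ : SL(2, ℤ), τ ∈ Gamma0 N ∧ τ 1 0 = (N : ℤ) * (p : ℤ) ∧ τ 1 1 = (d : ℤ) := by
  have hcop : IsCoprime (d : ℤ) ((N * p : ℕ) : ℤ) := Nat.isCoprime_iff_coprime.mpr h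
  obtain ⟨a, b, hab⟩ := hcop
  refine ⟨⟨!![a, -b; (N : ℤ) * (p : ℤ), (d : ℤ)], ?_⟩, ?_, rfl, rfl⟩
  · rw [Matrix.det_fin_two_of]
    push_cast at hab
    linear_combination hab
  · exact Gamma0_mem.mpr (by simp)

/-! ### Commutation of the Hecke representatives with `SL(2, ℤ)` -/

section commutation

variable {p : ℕ} (hp : p ≠ 0)
include hp

theorem heckeMatrix_mul_of_eq (g : SL(2, ℤ)) (j j' : ℕ) (e : ℤ)
    (he : g 0 1 + j * g 1 1 = j' * (g 0 0 + j * g 1 0) + p * e) :
    ∃ g' : SL(2, ℤ), g' 1 0 = p * g 1 0 ∧ g' 1 1 = g 1 1 - g 1 0 * j' ∧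
      heckeMatrix p j * mapGL ℝ g = mapGL ℝ g' * heckeMatrix p j' := by
  have hdet := det_eq' g
  refine ⟨⟨!![g 0 0 + j * g 1 0, e; p * g 1 0, g 1 1 - g 1 0 * j'], ?_⟩, rfl, rfl, ?_⟩
  · rw [Matrix.det_fin_two_of]
    linear_combination hdet + (g 1 0) * he
  · ext i j
    fin_cases i <;> fin_cases j <;>
      simp [hp, Matrix.mul_apply, Fin.sum_univ_two]
    all_goals first
      | (have := congrArg (Int.cast : ℤ → ℝ) he; push_cast at this ⊢; linear_combination this)
      | (have := congrArg (Int.cast : ℤ → ℝ) he; push_cast at this ⊢; linear_combination -this)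
      | ring1

theorem heckeMatrix_mul_of_eq' (g : SL(2, ℤ)) (j : ℕ) (e : ℤ)
    (he : g 0 0 + j * g 1 0 = p * e) :
    ∃ g' : SL(2, ℤ), g' 1 0 = g 1 0 ∧ g' 1 1 = p * g 1 1 ∧
      heckeMatrix p j * mapGL ℝ g = mapGL ℝ g' * heckeDiagMatrix p := by
  have hdet := det_eq' g
  refine ⟨⟨!![e, g 0 1 + j * g 1 1; g 1 0, p * g 1 1], ?_⟩, rfl, rfl, ?_⟩
  · rw [Matrix.det_fin_two_of]
    linear_combination hdet - (g 1 1) * he
  · ext i j
    fin_cases i <;> fin_cases j <;>
      simp [hp, Matrix.mul_apply, Fin.sum_univ_two]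
    all_goals first
      | (have := congrArg (Int.cast : ℤ → ℝ) he; push_cast at this ⊢; linear_combination this)
      | (have := congrArg (Int.cast : ℤ → ℝ) he; push_cast at this ⊢; linear_combination -this)
      | ring1

theorem heckeDiagMatrix_mul_of_eq (g : SL(2, ℤ)) (j' : ℕ) (e : ℤ)
    (he : g 1 1 = g 1 0 * j' + p * e) :
    ∃ g' : SL(2, ℤ), g' 1 0 = g 1 0 ∧ g' 1 1 = e ∧
      heckeDiagMatrix p * mapGL ℝ g = mapGL ℝ g' * heckeMatrix p j' := by
  have hdet := det_eq' g
  refine ⟨⟨!![p * g 0 0, g 0 1 - g 0 0 * j'; g 1 0, e], ?_⟩, rfl, rfl, ?_⟩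
  · rw [Matrix.det_fin_two_of]
    linear_combination hdet - (g 0 0) * he
  · ext i j
    fin_cases i <;> fin_cases j <;>
      simp [hp, Matrix.mul_apply, Fin.sum_univ_two]
    all_goals first
      | (have := congrArg (Int.cast : ℤ → ℝ) he; push_cast at this ⊢; linear_combination this)
      | (have := congrArg (Int.cast : ℤ → ℝ) he; push_cast at this ⊢; linear_combination -this)
      | ring1

theorem heckeDiagMatrix_mul_of_eq' (g : SL(2, ℤ)) (e : ℤ) (he : g 1 0 = p * e) :
    ∃ g' : SL(2, ℤ), g' 1 0 = e ∧ g' 1 1 = g 1 1 ∧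
      heckeDiagMatrix p * mapGL ℝ g = mapGL ℝ g' * heckeDiagMatrix p := by
  have hdet := det_eq' g
  refine ⟨⟨!![g 0 0, p * g 0 1; e, g 1 1], ?_⟩, rfl, rfl, ?_⟩
  · rw [Matrix.det_fin_two_of]
    linear_combination hdet + (g 0 1) * he
  · ext i j
    fin_cases i <;> fin_cases j <;>
      simp [hp, Matrix.mul_apply, Fin.sum_univ_two]
    all_goals first
      | (have := congrArg (Int.cast : ℤ → ℝ) he; push_cast at this ⊢; linear_combination this)
      | (have := congrArg (Int.cast : ℤ → ℝ) he; push_cast at this ⊢; linear_combination -this)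
      | ring1

end commutation

/-! ### The action on `ℙ¹(𝔽_p)` -/

section onePoint

variable {p : ℕ}

/-- The Hecke representatives indexed by `ℙ¹(𝔽_p)`. -/
def heckeRep (p : ℕ) (x : OnePoint (ZMod p)) : GL (Fin 2) ℝ :=
  x.elim (heckeDiagMatrix p) (fun j ↦ heckeMatrix p j.val)

@[simp] theorem heckeRep_infty : heckeRep p ∞ = heckeDiagMatrix p := rfl

@[simp] theorem heckeRep_coe (j : ZMod p) : heckeRep p j = heckeMatrix p j.val := rfl

/-- The weight `w(∞) = 1`, `w(j) = p` keeping track of the lower right entry modulo `N`. -/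
def wt (N p : ℕ) (x : OnePoint (ZMod p)) : ZMod N :=
  x.elim 1 (fun _ ↦ (p : ZMod N))

@[simp] theorem wt_infty (N : ℕ) : wt N p ∞ = 1 := rfl

@[simp] theorem wt_coe (N : ℕ) (j : ZMod p) : wt N p j = (p : ZMod N) := rfl

theorem sum_range_eq_sum_zmod [NeZero p] {M : Type*} [AddCommMonoid M] (F : ℕ → M) :
    ∑ j ∈ Finset.range p, F j = ∑ x : ZMod p, F x.val := by
  refine Finset.sum_nbij' (fun j : ℕ ↦ (j : ZMod p)) (fun x : ZMod p ↦ x.val)
    (fun _ _ ↦ Finset.mem_univ _)
    (fun x _ ↦ Finset.mem_range.mpr x.val_lt) (fun j hj ↦ ?_) (fun x _ ↦ ?_) (fun j hj ↦ ?_)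
  · exact ZMod.val_cast_of_lt (Finset.mem_range.mp hj)
  · exact ZMod.natCast_zmod_val x
  · rw [ZMod.val_cast_of_lt (Finset.mem_range.mp hj)]

theorem heckeU_eq_sum_zmod [NeZero p] (k : ℤ) (f : ℍ → ℂ) :
    heckeU k p f = ∑ x : ZMod p, f ∣[k] heckeMatrix p x.val := by
  rw [heckeU_def]
  exact sum_range_eq_sum_zmod _

variable [Fact p.Prime]

variable (p) in
/-- The reduction mod `p` of `g`, twisted so that `β_x g = g' β_{redMatrix g • x}`. -/
def redMatrix (g : SL(2, ℤ)) : GL (Fin 2) (ZMod p) :=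
  Matrix.GeneralLinearGroup.mkOfDetNeZero
    !![((g 1 1 : ℤ) : ZMod p), ((g 0 1 : ℤ) : ZMod p); ((g 1 0 : ℤ) : ZMod p),
      ((g 0 0 : ℤ) : ZMod p)]
    (by
      have := congrArg (Int.cast : ℤ → ZMod p) (det_eq' g)
      push_cast at this
      rw [Matrix.det_fin_two_of,
        show ((g 1 1 : ℤ) : ZMod p) * ((g 0 0 : ℤ) : ZMod p)
            - ((g 0 1 : ℤ) : ZMod p) * ((g 1 0 : ℤ) : ZMod p) = 1 by linear_combination this]
      exact one_ne_zero)

@[simp] theorem redMatrix_apply_zero_zero (g : SL(2, ℤ)) :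
    redMatrix p g 0 0 = ((g 1 1 : ℤ) : ZMod p) := by
  simp [redMatrix]

@[simp] theorem redMatrix_apply_zero_one (g : SL(2, ℤ)) :
    redMatrix p g 0 1 = ((g 0 1 : ℤ) : ZMod p) := by
  simp [redMatrix]

@[simp] theorem redMatrix_apply_one_zero (g : SL(2, ℤ)) :
    redMatrix p g 1 0 = ((g 1 0 : ℤ) : ZMod p) := by
  simp [redMatrix]

@[simp] theorem redMatrix_apply_one_one (g : SL(2, ℤ)) :
    redMatrix p g 1 1 = ((g 0 0 : ℤ) : ZMod p) := by
  simp [redMatrix]

/-- `β_x g = g' β_{x'}` with `x' = redMatrix g • x`, `N ∣ g' 1 0` and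
`g' 1 1 * w(x') = g 1 1 * w(x)` modulo `N`. -/
theorem heckeRep_mul {N : ℕ} (hpN : ¬ p ∣ N) (g : SL(2, ℤ)) (hg : (N : ℤ) ∣ g 1 0)
    (x : OnePoint (ZMod p)) :
    ∃ g' : SL(2, ℤ), (N : ℤ) ∣ g' 1 0 ∧
      ((g' 1 1 : ℤ) : ZMod N) * wt N p (redMatrix p g • x) = ((g 1 1 : ℤ) : ZMod N) * wt N p x ∧
      heckeRep p x * mapGL ℝ g = mapGL ℝ g' * heckeRep p (redMatrix p g • x) := by
  have hp : p ≠ 0 := (Fact.out : p.Prime).ne_zero
  have : NeZero p := ⟨hp⟩
  have hg0 : ((g 1 0 : ℤ) : ZMod N) = 0 := (ZMod.intCast_zmod_eq_zero_iff_dvd _ _).mpr hg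
  induction x using OnePoint.rec with
  | infty =>
    rw [OnePoint.smul_infty_eq_ite]
    by_cases hc : ((g 1 0 : ℤ) : ZMod p) = 0
    · rw [if_pos (by simpa using hc), heckeRep_infty]
      obtain ⟨e, he⟩ := (ZMod.intCast_zmod_eq_zero_iff_dvd _ _).mp hc
      obtain ⟨g', hg', hg'1, hmul⟩ := heckeDiagMatrix_mul_of_eq' hp g e he
      refine ⟨g', ?_, ?_, hmul⟩
      · rw [hg']
        have hcop : IsCoprime (N : ℤ) (p : ℤ) :=
          Nat.isCoprime_iff_coprime.mpr ((Nat.Prime.coprime_iff_not_dvd Fact.out).mpr hpN).symm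
        exact hcop.dvd_of_dvd_mul_left (he ▸ hg)
      · rw [hg'1]
    · rw [if_neg (by simpa using hc), heckeRep_infty, heckeRep_coe]
      set y : ZMod p := redMatrix p g 0 0 / redMatrix p g 1 0 with hy
      obtain ⟨e, he⟩ : (p : ℤ) ∣ g 1 1 - g 1 0 * y.val := by
        rw [← ZMod.intCast_zmod_eq_zero_iff_dvd]
        push_cast
        rw [ZMod.natCast_zmod_val, hy, redMatrix_apply_zero_zero, redMatrix_apply_one_zero,
          mul_div_cancel₀ _ hc, sub_self]
      obtain ⟨g', hg', hg'1, hmul⟩ :=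
        heckeDiagMatrix_mul_of_eq hp g y.val e (by linear_combination he)
      refine ⟨g', hg' ▸ hg, ?_, hmul⟩
      rw [wt_coe, wt_infty, hg'1, mul_one]
      have := congrArg (Int.cast : ℤ → ZMod N) he
      push_cast at this
      rw [hg0, zero_mul, sub_zero] at this
      rw [this, mul_comm]
  | coe j =>
    rw [OnePoint.smul_some_eq_ite]
    by_cases h : redMatrix p g 1 0 * j + redMatrix p g 1 1 = 0
    · rw [if_pos h, heckeRep_infty, heckeRep_coe]
      rw [redMatrix_apply_one_zero, redMatrix_apply_one_one] at h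
      obtain ⟨e, he⟩ : (p : ℤ) ∣ g 0 0 + j.val * g 1 0 := by
        rw [← ZMod.intCast_zmod_eq_zero_iff_dvd]
        push_cast
        rw [ZMod.natCast_zmod_val]
        linear_combination h
      obtain ⟨g', hg', hg'1, hmul⟩ := heckeMatrix_mul_of_eq' hp g j.val e he
      refine ⟨g', hg' ▸ hg, ?_, hmul⟩
      rw [wt_coe, wt_infty, hg'1, mul_one]
      push_cast
      ring
    · rw [if_neg h, heckeRep_coe, heckeRep_coe]
      set y : ZMod p := (redMatrix p g 0 0 * j + redMatrix p g 0 1) /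
        (redMatrix p g 1 0 * j + redMatrix p g 1 1) with hy
      obtain ⟨e, he⟩ : (p : ℤ) ∣ g 0 1 + j.val * g 1 1 - y.val * (g 0 0 + j.val * g 1 0) := by
        rw [← ZMod.intCast_zmod_eq_zero_iff_dvd]
        push_cast
        rw [ZMod.natCast_zmod_val, ZMod.natCast_zmod_val,
          show ((g 0 0 : ℤ) : ZMod p) + j * ((g 1 0 : ℤ) : ZMod p)
            = redMatrix p g 1 0 * j + redMatrix p g 1 1 by
              rw [redMatrix_apply_one_zero, redMatrix_apply_one_one]; ring,
          hy, div_mul_cancel₀ _ h, redMatrix_apply_zero_zero, redMatrix_apply_zero_one]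
        ring
      obtain ⟨g', hg', hg'1, hmul⟩ :=
        heckeMatrix_mul_of_eq hp g j.val y.val e (by linear_combination he)
      refine ⟨g', hg' ▸ dvd_mul_of_dvd_right hg _, ?_, hmul⟩
      rw [wt_coe, wt_coe, hg'1]
      push_cast
      rw [hg0, zero_mul, sub_zero]

end onePoint

end Fermat.Agent.S48.H548

end
end
-- ===== PACK-END S48/H548/Coset.lean

-- ===== PACK-BEGIN S48/H548/Invariance.lean
section


/-!
# S48 / P0 (helper548): `T_p` on `Γ₁(N)`-invariant functions

For a `Γ₁(N)`-invariant function `f` (weight `k`) and a prime `p ∤ N`, with `f' = ⟨p⟩ f`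
(`= f ∣ σ` for any `σ ∈ Γ₀(N)` with lower right entry `≡ p mod N`), the function
`T_p f = U_p f + f' ∣ diag(p, 1)` is again `Γ₁(N)`-invariant.
-/

set_option autoImplicit false

noncomputable section

namespace Fermat.Agent.S48.H548

open Matrix.SpecialLinearGroup UpperHalfPlane ModularForm CongruenceSubgroup
open scoped MatrixGroups ModularForm OnePoint

/-- `Γ₁(N)`-invariance of weight `k`, at the level of functions. -/
def Inv1 (N : ℕ) (k : ℤ) (f : ℍ → ℂ) : Prop :=
  ∀ γ ∈ Gamma1 N, f ∣[k] mapGL ℝ γ = f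

variable {N : ℕ} {k : ℤ} {f : ℍ → ℂ}

theorem slash_mapGL_mul (k : ℤ) (f : ℍ → ℂ) (a b : SL(2, ℤ)) :
    f ∣[k] mapGL ℝ (a * b) = (f ∣[k] mapGL ℝ a) ∣[k] mapGL ℝ b := by
  rw [map_mul, SlashAction.slash_mul]

/-- The slash by `σ ∈ Γ₀(N)` of a `Γ₁(N)`-invariant function only depends on the lower right
entry of `σ` modulo `N`. -/
theorem Inv1.slash_eq_of_lower_eq (hf : Inv1 N k f) (a b : SL(2, ℤ)) (ha : a ∈ Gamma0 N)
    (hb : b ∈ Gamma0 N) (h : ((a 1 1 : ℤ) : ZMod N) = ((b 1 1 : ℤ) : ZMod N)) :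
    f ∣[k] mapGL ℝ a = f ∣[k] mapGL ℝ b := by
  have h1 : a = (a * b⁻¹) * b := by group
  conv_lhs => rw [h1]
  rw [slash_mapGL_mul, hf _ (mul_inv_mem_Gamma1 a b ha hb h)]

/-- The slash by `σ ∈ Γ₀(N)` of a `Γ₁(N)`-invariant function is `Γ₁(N)`-invariant. -/
theorem Inv1.slash (hf : Inv1 N k f) (a : SL(2, ℤ)) (ha : a ∈ Gamma0 N) :
    Inv1 N k (f ∣[k] mapGL ℝ a) := by
  intro γ hγ
  rw [← slash_mapGL_mul]
  refine hf.slash_eq_of_lower_eq _ _ ((Gamma0 N).mul_mem ha (Gamma1_le_Gamma0' N hγ)) ha ?_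
  rw [lower_right_mul a γ ha, ((Gamma1_mem N γ).mp hγ).2.1, mul_one]

theorem Inv1.add {g : ℍ → ℂ} (hf : Inv1 N k f) (hg : Inv1 N k g) : Inv1 N k (f + g) := by
  intro γ hγ
  rw [SlashAction.add_slash, hf γ hγ, hg γ hγ]

theorem smul_slash_mapGL (k : ℤ) (c : ℂ) (f : ℍ → ℂ) (a : SL(2, ℤ)) :
    (c • f) ∣[k] mapGL ℝ a = c • (f ∣[k] mapGL ℝ a) := by
  have := ModularForm.SL_smul_slash k a f c
  rwa [ModularForm.SL_slash, ModularForm.SL_slash] at this

theorem Inv1.smul (c : ℂ) (hf : Inv1 N k f) : Inv1 N k (c • f) := by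
  intro γ hγ
  rw [smul_slash_mapGL, hf γ hγ]

section Tp

variable {p : ℕ} [Fact p.Prime]

theorem heckeT1_eq_sum (k : ℤ) (f f' : ℍ → ℂ) :
    heckeU k p f + f' ∣[k] heckeDiagMatrix p =
      ∑ x : OnePoint (ZMod p), (x.elim f' (fun _ ↦ f)) ∣[k] heckeRep p x := by
  have : NeZero p := ⟨(Fact.out : p.Prime).ne_zero⟩
  rw [heckeU_eq_sum_zmod, add_comm]
  exact (Fintype.sum_option
    (fun x : OnePoint (ZMod p) ↦ (x.elim f' (fun _ ↦ f)) ∣[k] heckeRep p x)).symm

/-- `T_p f = U_p f + (⟨p⟩ f) ∣ diag(p,1)` is `Γ₁(N)`-invariant. -/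
theorem Inv1.heckeT1 (hpN : ¬ p ∣ N) (hf : Inv1 N k f) (σ : SL(2, ℤ)) (hσ : σ ∈ Gamma0 N)
    (hσp : ((σ 1 1 : ℤ) : ZMod N) = (p : ZMod N)) :
    Inv1 N k (heckeU k p f + (f ∣[k] mapGL ℝ σ) ∣[k] heckeDiagMatrix p) := by
  intro g hg
  have hpu : IsUnit ((p : ℕ) : ZMod N) :=
    (ZMod.isUnit_iff_coprime p N).mpr ((Nat.Prime.coprime_iff_not_dvd Fact.out).mpr hpN)
  have hg10 : ((g 1 0 : ℤ) : ZMod N) = 0 := ((Gamma1_mem N g).mp hg).2.2
  have hg11 : ((g 1 1 : ℤ) : ZMod N) = 1 := ((Gamma1_mem N g).mp hg).2.1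
  have hgN : (N : ℤ) ∣ g 1 0 := (ZMod.intCast_zmod_eq_zero_iff_dvd _ _).mp hg10
  rw [heckeT1_eq_sum, SlashAction.sum_slash]
  calc ∑ x : OnePoint (ZMod p),
        ((x.elim (f ∣[k] mapGL ℝ σ) (fun _ ↦ f)) ∣[k] heckeRep p x) ∣[k] mapGL ℝ g
      = ∑ x : OnePoint (ZMod p),
          ((redMatrix p g • x).elim (f ∣[k] mapGL ℝ σ) (fun _ ↦ f))
            ∣[k] heckeRep p (redMatrix p g • x) := by
        refine Finset.sum_congr rfl fun x _ ↦ ?_
        obtain ⟨g', hg'N, hw, hmul⟩ := heckeRep_mul hpN g hgN x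
        have hg'0 : g' ∈ Gamma0 N :=
          Gamma0_mem.mpr ((ZMod.intCast_zmod_eq_zero_iff_dvd _ _).mpr hg'N)
        rw [← SlashAction.slash_mul, hmul, SlashAction.slash_mul]
        congr 1
        rw [hg11, one_mul] at hw
        -- `hw : g' 1 1 * w(x') = w(x)`
        generalize redMatrix p g • x = x' at hw ⊢
        induction x using OnePoint.rec with
        | infty =>
          induction x' using OnePoint.rec with
          | infty =>
            simp only [wt_infty, mul_one] at hw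
            simp only [OnePoint.elim_infty]
            rw [← slash_mapGL_mul]
            refine hf.slash_eq_of_lower_eq _ _ ((Gamma0 N).mul_mem hσ hg'0) hσ ?_
            rw [lower_right_mul σ g' hσ, hw, mul_one]
          | coe j' =>
            simp only [wt_infty, wt_coe] at hw
            simp only [OnePoint.elim_infty, OnePoint.elim_some]
            rw [← slash_mapGL_mul]
            refine hf _ (mem_Gamma1_of_lower _
              (Gamma0_mem.mp ((Gamma0 N).mul_mem hσ hg'0)) ?_)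
            rw [lower_right_mul σ g' hσ, hσp, mul_comm, hw]
        | coe j =>
          induction x' using OnePoint.rec with
          | infty =>
            simp only [wt_infty, wt_coe, mul_one] at hw
            simp only [OnePoint.elim_infty, OnePoint.elim_some]
            exact hf.slash_eq_of_lower_eq _ _ hg'0 hσ (hw.trans hσp.symm)
          | coe j' =>
            simp only [wt_coe] at hw
            simp only [OnePoint.elim_some]
            refine hf _ (mem_Gamma1_of_lower _ (Gamma0_mem.mp hg'0) ?_)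
            exact hpu.mul_left_injective (show _ * _ = _ * _ by rw [hw, one_mul])
    _ = ∑ x : OnePoint (ZMod p),
          (x.elim (f ∣[k] mapGL ℝ σ) (fun _ ↦ f)) ∣[k] heckeRep p x :=
        Equiv.sum_comp (MulAction.toPerm (redMatrix p g))
          (fun x ↦ (x.elim (f ∣[k] mapGL ℝ σ) (fun _ ↦ f)) ∣[k] heckeRep p x)

end Tp

end Fermat.Agent.S48.H548

end
end
-- ===== PACK-END S48/H548/Invariance.lean

-- ===== PACK-BEGIN S48/H788/EisAlg.lean
section



/-!
# S48 / Tower A1 / piece P2-EIS, steps 5–6 (helper788): from the Eisenstein family to `E_{1,ψ}`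

Input (abstract; = output of steps 1–4 of `coord/S48-P2EIS-helper796.md`): a family
`F b : ModularForm (Gamma1 N) 1`, `b : ZMod N`, with `F_b ∣ γ = F_{b d}` for `γ ∈ Γ₀(N)` and
`F_b = π cot(π b / N) + 4π ∑_{n ≥ 1} (∑_{k ∣ n} sin(2π k b / N)) qⁿ`.

Output: for `ψ` primitive and odd, the form `E = (-4πi τ(ψ̄))⁻¹ ∑_b ψ̄(b) F_b` has nebentypus `ψ`,
constant term `-(∑_a a ψ(a)) / (2N)` and `n`-th coefficient `∑_{d ∣ n} ψ(d)`.
-/

set_option autoImplicit false

noncomputable section

namespace Fermat.Agent.S48.H788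

open UpperHalfPlane ModularFormClass CongruenceSubgroup Complex
open scoped Real MatrixGroups ModularForm

/-- The abstract Eisenstein family of weight one attached to the vectors `(0, b)`. -/
structure EisFamily (N : ℕ) [NeZero N] (F : ZMod N → ModularForm (Gamma1 N) 1) : Prop where
  slash : ∀ γ : SL(2, ℤ), γ ∈ Gamma0 N → ∀ b : ZMod N, b ≠ 0 →
    (⇑(F b)) ∣[(1 : ℤ)] γ = ⇑(F (b * ((γ 1 1 : ℤ) : ZMod N)))
  coeff_zero : ∀ b : ZMod N, b ≠ 0 →
    qCoeff (F b) 0 = π * Complex.cot (π * ((b.val : ℂ) / N))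
  coeff_pos : ∀ b : ZMod N, b ≠ 0 → ∀ n : ℕ, 1 ≤ n →
    qCoeff (F b) n =
      4 * π * ∑ k ∈ n.divisors, Complex.sin (2 * π * ((k : ℂ) * (b.val : ℂ) / N))

/-! ### Finite trigonometric sums -/

section Trig

variable {N : ℕ} [NeZero N]

theorem stdAddChar_natCast_mul (k : ℕ) (b : ZMod N) :
    ZMod.stdAddChar ((k : ZMod N) * b) = exp (2 * π * Complex.I * ((k : ℂ) * (b.val : ℂ) / N)) := by
  have h : ((k : ZMod N) * b) = (((k * b.val : ℕ) : ℤ) : ZMod N) := by
    push_cast
    rw [ZMod.natCast_zmod_val]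
  rw [h, ZMod.stdAddChar_coe]
  congr 1
  push_cast
  ring

theorem stdAddChar_neg_natCast_mul (k : ℕ) (b : ZMod N) :
    ZMod.stdAddChar ((-(k : ZMod N)) * b) = exp (-(2 * π * Complex.I * ((k : ℂ) * (b.val : ℂ) / N))) := by
  rw [neg_mul, AddChar.map_neg_eq_inv, stdAddChar_natCast_mul, ← Complex.exp_neg]

/-- `sin(2π k b / N)` through the standard additive character. -/
theorem sin_eq_stdAddChar (k : ℕ) (b : ZMod N) :
    Complex.sin (2 * π * ((k : ℂ) * (b.val : ℂ) / N)) =
      (ZMod.stdAddChar ((-(k : ZMod N)) * b) - ZMod.stdAddChar ((k : ZMod N) * b)) * Complex.I / 2 := by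
  rw [stdAddChar_neg_natCast_mul, stdAddChar_natCast_mul, Complex.sin]
  congr 3
  · congr 1; ring
  · congr 1; ring

/-- `∑_{a < n} a wᵃ` in closed form. -/
theorem sum_mul_pow_aux (w : ℂ) (n : ℕ) :
    (w - 1) * ∑ a ∈ Finset.range n, (a : ℂ) * w ^ a =
      n * w ^ n - w * ∑ a ∈ Finset.range n, w ^ a := by
  induction n with
  | zero => simp
  | succ n ih =>
    rw [Finset.sum_range_succ, Finset.sum_range_succ, mul_add, ih]
    push_cast
    ring

theorem sum_mul_pow_of_root {w : ℂ} {n : ℕ} (hw : w ^ n = 1) (hw1 : w ≠ 1) :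
    (w - 1) * ∑ a ∈ Finset.range n, (a : ℂ) * w ^ a = n := by
  have hg : ∑ a ∈ Finset.range n, w ^ a = 0 := by
    have := mul_neg_geom_sum w n
    have h2 : (1 - w) * ∑ a ∈ Finset.range n, w ^ a = 0 := by rw [this, hw, sub_self]
    rcases mul_eq_zero.mp h2 with h | h
    · exact absurd (sub_eq_zero.mp h).symm hw1
    · exact h
  rw [sum_mul_pow_aux, hw, hg]
  ring

/-- `cot(π b / N) = i + (2i/N) ∑_{a < N} a e(ab/N)` for `b ≠ 0`. -/
theorem cot_eq_sum (b : ZMod N) (hb : b ≠ 0) :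
    Complex.cot (π * ((b.val : ℂ) / N)) =
      Complex.I + 2 * Complex.I / N * ∑ a ∈ Finset.range N, (a : ℂ) * ZMod.stdAddChar ((a : ZMod N) * b) := by
  set w : ℂ := ZMod.stdAddChar b with hw
  have hw1 : w ≠ 1 := by
    intro h
    apply hb
    have := ZMod.injective_stdAddChar (N := N)
    apply this
    rw [← hw, h, AddChar.map_zero_eq_one]
  have hwN : w ^ N = 1 := by
    rw [hw, ← AddChar.map_nsmul_eq_pow]
    simp
  have hpow : ∀ a : ℕ, ZMod.stdAddChar ((a : ZMod N) * b) = w ^ a := by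
    intro a
    rw [hw, ← AddChar.map_nsmul_eq_pow, nsmul_eq_mul]
  have hwexp : w = exp (2 * π * Complex.I * ((b.val : ℂ) / N)) := by
    have := stdAddChar_natCast_mul (N := N) 1 b
    simp only [Nat.cast_one, one_mul] at this
    rw [hw, this]
  have hsum := sum_mul_pow_of_root hwN hw1
  have hN : (N : ℂ) ≠ 0 := Nat.cast_ne_zero.mpr (NeZero.ne N)
  have hw1' : w - 1 ≠ 0 := sub_ne_zero.mpr hw1
  have h1w : 1 - w ≠ 0 := sub_ne_zero.mpr (Ne.symm hw1)
  simp_rw [hpow]
  rw [Complex.cot_pi_eq_exp_ratio, ← hwexp]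
  have hS : ∑ a ∈ Finset.range N, (a : ℂ) * w ^ a = N / (w - 1) := by
    rw [eq_div_iff hw1', mul_comm]
    exact hsum
  rw [hS]
  field_simp
  ring_nf
  rw [Complex.I_sq]
  ring

end Trig

/-! ### Character sums -/

section CharSum

variable {N : ℕ} [NeZero N]

/-- The Gauss sum `τ(ψ̄)`. -/
def gTau (ψ : DirichletCharacter ℂ N) : ℂ := gaussSum ψ⁻¹ ZMod.stdAddChar

omit [NeZero N] in
theorem inv_isPrimitive {ψ : DirichletCharacter ℂ N} (h : ψ.IsPrimitive) : ψ⁻¹.IsPrimitive := by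
  rw [DirichletCharacter.isPrimitive_def] at h ⊢
  rw [DirichletCharacter.conductor_inv, h]

theorem gTau_ne_zero {ψ : DirichletCharacter ℂ N} (h : ψ.IsPrimitive) : gTau ψ ≠ 0 := by
  intro h0
  have h1 : ∀ k : ZMod N, ZMod.dft (⇑ψ⁻¹) k = 0 := by
    intro k
    rw [DirichletCharacter.IsPrimitive.fourierTransform_eq_inv_mul_gaussSum (inv_isPrimitive h)]
    unfold gTau at h0
    rw [h0, mul_zero]
  have h2 : ZMod.dft (⇑ψ⁻¹) = 0 := funext h1
  have h3 : (⇑ψ⁻¹ : ZMod N → ℂ) = 0 := by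
    have := (ZMod.dft (N := N) (E := ℂ)).injective
    apply this
    rw [h2, map_zero]
  have h4 := congrFun h3 1
  simp at h4

theorem gaussSum_shift {ψ : DirichletCharacter ℂ N} (h : ψ.IsPrimitive) (a : ZMod N) :
    ∑ b : ZMod N, ψ⁻¹ b * ZMod.stdAddChar (a * b) = ψ a * gTau ψ := by
  have := gaussSum_mulShift_of_isPrimitive (ZMod.stdAddChar (N := N)) (inv_isPrimitive h) a
  rw [inv_inv] at this
  unfold gTau
  rw [← this, gaussSum]
  simp [AddChar.mulShift_apply]

omit [NeZero N] in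
theorem odd_ne_one {ψ : DirichletCharacter ℂ N} (hodd : ψ.Odd) : ψ ≠ 1 := by
  intro h
  have h1 : ψ (-1) = -1 := hodd
  rw [h] at h1
  have h2 : (1 : DirichletCharacter ℂ N) (-1) = 1 := by
    exact MulChar.one_apply (isUnit_one.neg)
  rw [h2] at h1
  norm_num at h1

theorem sum_inv_eq_zero {ψ : DirichletCharacter ℂ N} (hodd : ψ.Odd) :
    ∑ b : ZMod N, ψ⁻¹ b = 0 := by
  apply MulChar.sum_eq_zero_of_ne_one
  intro h
  exact odd_ne_one hodd (inv_eq_one.mp h)

omit [NeZero N] in
theorem map_zero_of_odd {ψ : DirichletCharacter ℂ N} (hodd : ψ.Odd) : ψ⁻¹ 0 = 0 := by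
  apply MulChar.map_nonunit
  intro h0
  have hsub : Subsingleton (ZMod N) := by
    rw [isUnit_zero_iff] at h0
    exact subsingleton_of_zero_eq_one h0
  have h1 : ψ (-1) = -1 := hodd
  have h2 : (-1 : ZMod N) = 1 := Subsingleton.elim _ _
  rw [h2, map_one] at h1
  norm_num at h1

/-- `∑_b ψ̄(b) sin(2π k b / N) = -i ψ(k) τ(ψ̄)`. -/
theorem sum_inv_mul_sin {ψ : DirichletCharacter ℂ N} (hodd : ψ.Odd) (h : ψ.IsPrimitive) (k : ℕ) :
    ∑ b : ZMod N, ψ⁻¹ b * Complex.sin (2 * π * ((k : ℂ) * (b.val : ℂ) / N)) =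
      -Complex.I * ψ k * gTau ψ := by
  simp_rw [sin_eq_stdAddChar]
  have h1 := gaussSum_shift h (k : ZMod N)
  have h2 := gaussSum_shift h (-(k : ZMod N))
  have h3 : ψ (-(k : ZMod N)) = -ψ k := by
    rw [← neg_one_mul, map_mul, hodd, neg_one_mul]
  rw [h3] at h2
  calc ∑ b : ZMod N, ψ⁻¹ b * ((ZMod.stdAddChar (-(k : ZMod N) * b) -
        ZMod.stdAddChar ((k : ZMod N) * b)) * Complex.I / 2)
      = ((∑ b : ZMod N, ψ⁻¹ b * ZMod.stdAddChar (-(k : ZMod N) * b)) -
          ∑ b : ZMod N, ψ⁻¹ b * ZMod.stdAddChar ((k : ZMod N) * b)) * Complex.I / 2 := by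
        rw [← Finset.sum_sub_distrib, Finset.sum_mul, Finset.sum_div]
        refine Finset.sum_congr rfl fun b _ => ?_
        ring
    _ = -Complex.I * ψ k * gTau ψ := by
        rw [h1, h2]
        ring

/-- `∑_b ψ̄(b) cot(π b / N) = (2i/N) τ(ψ̄) ∑_{a < N} a ψ(a)`. -/
theorem sum_inv_mul_cot {ψ : DirichletCharacter ℂ N} (hodd : ψ.Odd) (h : ψ.IsPrimitive) :
    ∑ b : ZMod N, ψ⁻¹ b * Complex.cot (π * ((b.val : ℂ) / N)) =
      2 * Complex.I / N * gTau ψ * ∑ a ∈ Finset.range N, (a : ℂ) * ψ a := by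
  have h0 := map_zero_of_odd hodd
  have step : ∀ b : ZMod N, ψ⁻¹ b * Complex.cot (π * ((b.val : ℂ) / N)) =
      ψ⁻¹ b * (Complex.I + 2 * Complex.I / N *
        ∑ a ∈ Finset.range N, (a : ℂ) * ZMod.stdAddChar ((a : ZMod N) * b)) := by
    intro b
    by_cases hb : b = 0
    · rw [hb, h0, zero_mul, zero_mul]
    · rw [cot_eq_sum b hb]
  simp_rw [step, mul_add]
  rw [Finset.sum_add_distrib, ← Finset.sum_mul, sum_inv_eq_zero hodd, zero_mul, zero_add]
  calc ∑ b : ZMod N, ψ⁻¹ b * (2 * Complex.I / N *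
        ∑ a ∈ Finset.range N, (a : ℂ) * ZMod.stdAddChar ((a : ZMod N) * b))
      = ∑ b : ZMod N, ∑ a ∈ Finset.range N,
          2 * Complex.I / N * ((a : ℂ) * (ψ⁻¹ b * ZMod.stdAddChar ((a : ZMod N) * b))) := by
        refine Finset.sum_congr rfl fun b _ => ?_
        rw [Finset.mul_sum, Finset.mul_sum]
        refine Finset.sum_congr rfl fun a _ => ?_
        ring
    _ = ∑ a ∈ Finset.range N, ∑ b : ZMod N,
          2 * Complex.I / N * ((a : ℂ) * (ψ⁻¹ b * ZMod.stdAddChar ((a : ZMod N) * b))) :=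
        Finset.sum_comm
    _ = ∑ a ∈ Finset.range N, 2 * Complex.I / N * ((a : ℂ) * (ψ a * gTau ψ)) := by
        refine Finset.sum_congr rfl fun a _ => ?_
        rw [← Finset.mul_sum, ← Finset.mul_sum, gaussSum_shift h]
    _ = 2 * Complex.I / N * gTau ψ * ∑ a ∈ Finset.range N, (a : ℂ) * ψ a := by
        rw [Finset.mul_sum]
        refine Finset.sum_congr rfl fun a _ => ?_
        ring

end CharSum

/-! ### The form `E_{1,ψ}` -/

section Main

variable {N : ℕ} [NeZero N]

theorem one_mem_strictPeriods_Gamma1_788 (N : ℕ) :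
    (1 : ℝ) ∈ ((Gamma1 N).map (Matrix.SpecialLinearGroup.mapGL ℝ)).strictPeriods := by
  simp [strictPeriods_Gamma1]

omit [NeZero N] in
theorem coe_sum_788 {ι : Type*} (s : Finset ι) (f : ι → ModularForm (Gamma1 N) 1) :
    (⇑(∑ i ∈ s, f i : ModularForm (Gamma1 N) 1) : ℍ → ℂ) = ∑ i ∈ s, (⇑(f i) : ℍ → ℂ) := by
  classical
  induction s using Finset.induction_on with
  | empty => simp
  | insert a s ha ih =>
    rw [Finset.sum_insert ha, Finset.sum_insert ha, ← ih]
    rfl

omit [NeZero N] in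
theorem qCoeff_smul_788 (c : ℂ) (f : ModularForm (Gamma1 N) 1) (n : ℕ) :
    qCoeff (⇑(c • f : ModularForm (Gamma1 N) 1)) n = c * qCoeff (⇑f) n := by
  unfold qCoeff
  have := ModularForm.qExpansion_smul (h := 1) one_pos (one_mem_strictPeriods_Gamma1_788 N) c f
  have h2 : (⇑(c • f : ModularForm (Gamma1 N) 1) : ℍ → ℂ) = c • ⇑f := rfl
  rw [h2, this]
  simp

omit [NeZero N] in
theorem qCoeff_sum_788 {ι : Type*} (s : Finset ι) (f : ι → ModularForm (Gamma1 N) 1) (n : ℕ) :
    qCoeff (⇑(∑ i ∈ s, f i : ModularForm (Gamma1 N) 1)) n = ∑ i ∈ s, qCoeff (⇑(f i)) n := by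
  unfold qCoeff
  have h := map_sum
    (ModularForm.qExpansionAddHom (h := 1) one_pos (one_mem_strictPeriods_Gamma1_788 N) 1) f s
  have h' : qExpansion 1 (⇑(∑ i ∈ s, f i : ModularForm (Gamma1 N) 1)) =
      ∑ i ∈ s, qExpansion 1 (⇑(f i)) := h
  rw [h', map_sum]

/-- The unnormalised character sum `∑_b ψ̄(b) F_b`. -/
def eisSum (F : ZMod N → ModularForm (Gamma1 N) 1) (ψ : DirichletCharacter ℂ N) :
    ModularForm (Gamma1 N) 1 :=
  ∑ b : ZMod N, ψ⁻¹ b • F b

theorem qCoeff_eisSum (F : ZMod N → ModularForm (Gamma1 N) 1) (ψ : DirichletCharacter ℂ N)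
    (n : ℕ) : qCoeff (⇑(eisSum F ψ)) n = ∑ b : ZMod N, ψ⁻¹ b * qCoeff (⇑(F b)) n := by
  unfold eisSum
  rw [qCoeff_sum_788]
  refine Finset.sum_congr rfl fun b _ => ?_
  rw [qCoeff_smul_788]

omit [NeZero N] in
theorem isUnit_of_mem_Gamma0 {γ : SL(2, ℤ)} (hγ : γ ∈ Gamma0 N) :
    IsUnit (((γ 1 1 : ℤ)) : ZMod N) := by
  rw [Gamma0_mem] at hγ
  have hdet : γ 0 0 * γ 1 1 - γ 0 1 * γ 1 0 = 1 := by
    have := γ.det_coe
    rw [Matrix.det_fin_two] at this
    exact this
  have h : ((γ 0 0 : ℤ) : ZMod N) * ((γ 1 1 : ℤ) : ZMod N) = 1 := by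
    have h1 := congrArg (Int.cast : ℤ → ZMod N) hdet
    push_cast at h1
    rw [hγ, mul_zero, sub_zero] at h1
    exact h1
  exact IsUnit.of_mul_eq_one_right _ h

/-- The nebentypus of the character sum. -/
theorem eisSum_slash {F : ZMod N → ModularForm (Gamma1 N) 1} (hF : EisFamily N F)
    {ψ : DirichletCharacter ℂ N} (hodd : ψ.Odd) (γ : SL(2, ℤ)) (hγ : γ ∈ Gamma0 N) :
    (⇑(eisSum F ψ)) ∣[(1 : ℤ)] γ = ψ (((γ 1 1 : ℤ)) : ZMod N) • ⇑(eisSum F ψ) := by
  obtain ⟨u, hu⟩ := isUnit_of_mem_Gamma0 hγ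
  set d : ZMod N := ((γ 1 1 : ℤ) : ZMod N) with hd
  have h0 := map_zero_of_odd hodd
  unfold eisSum
  rw [coe_sum_788, SlashAction.sum_slash, Finset.smul_sum]
  have step : ∀ b : ZMod N, (⇑(ψ⁻¹ b • F b : ModularForm (Gamma1 N) 1) : ℍ → ℂ) ∣[(1 : ℤ)] γ =
      ψ⁻¹ b • (⇑(F (b * d)) : ℍ → ℂ) := by
    intro b
    by_cases hb : b = 0
    · subst hb
      rw [h0]
      have : (⇑((0 : ℂ) • F 0 : ModularForm (Gamma1 N) 1) : ℍ → ℂ) = 0 := by
        ext z; simp
      rw [this, SlashAction.zero_slash, zero_smul]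
    · have : (⇑(ψ⁻¹ b • F b : ModularForm (Gamma1 N) 1) : ℍ → ℂ) = ψ⁻¹ b • ⇑(F b) := rfl
      rw [this, ModularForm.SL_smul_slash, hF.slash γ hγ b hb]
  simp_rw [step]
  -- reindex `b ↦ b * d`
  have hre : ∑ b : ZMod N, ψ⁻¹ b • (⇑(F (b * d)) : ℍ → ℂ) =
      ∑ b : ZMod N, ψ⁻¹ (b * (↑u⁻¹ : ZMod N)) • (⇑(F b) : ℍ → ℂ) := by
    refine Fintype.sum_equiv (Units.mulRight u) _ _ fun b => ?_
    rw [Units.mulRight_apply, hu, mul_assoc, ← hu, Units.mul_inv, mul_one]
  rw [hre]
  refine Finset.sum_congr rfl fun b _ => ?_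
  have hψ : ψ⁻¹ (b * (↑u⁻¹ : ZMod N)) = ψ d * ψ⁻¹ b := by
    rw [map_mul, mul_comm]
    congr 1
    rw [MulChar.inv_apply, Ring.inverse_unit, inv_inv, hu]
  rw [hψ, mul_smul]
  rfl

/-- **P2-EIS, step 5.**  The weight-one Eisenstein series `E_{1,ψ}` for a primitive odd
character `ψ`, given the Eisenstein family. -/
theorem eisenstein_one_of_family {F : ZMod N → ModularForm (Gamma1 N) 1} (hF : EisFamily N F)
    (ψ : DirichletCharacter ℂ N) (hodd : ψ.Odd) (hprim : ψ.IsPrimitive) :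
    ∃ E : ModularForm (Gamma1 N) 1,
      (∀ γ : SL(2, ℤ), γ ∈ Gamma0 N →
        (⇑E) ∣[(1 : ℤ)] γ = ψ (((γ 1 1 : ℤ)) : ZMod N) • ⇑E) ∧
      qCoeff (⇑E) 0 = -(∑ a ∈ Finset.range N, (a : ℂ) * ψ a) / (2 * N) ∧
      ∀ n : ℕ, 1 ≤ n → qCoeff (⇑E) n = ∑ d ∈ n.divisors, ψ d := by
  have hτ := gTau_ne_zero hprim
  have hπ : (π : ℂ) ≠ 0 := by exact_mod_cast Real.pi_ne_zero
  have hN : (N : ℂ) ≠ 0 := Nat.cast_ne_zero.mpr (NeZero.ne N)
  have h0 := map_zero_of_odd hodd
  set c : ℂ := (-4 * π * Complex.I * gTau ψ)⁻¹ with hc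
  have hc4 : -4 * π * Complex.I * gTau ψ ≠ 0 := by
    simp [hπ, hτ, Complex.I_ne_zero]
  refine ⟨c • eisSum F ψ, ?_, ?_, ?_⟩
  · intro γ hγ
    have : (⇑(c • eisSum F ψ : ModularForm (Gamma1 N) 1) : ℍ → ℂ) = c • ⇑(eisSum F ψ) := rfl
    rw [this, ModularForm.SL_smul_slash, eisSum_slash hF hodd γ hγ, smul_comm]
  · rw [qCoeff_smul_788, qCoeff_eisSum]
    have step : ∀ b : ZMod N, ψ⁻¹ b * qCoeff (⇑(F b)) 0 =
        π * (ψ⁻¹ b * Complex.cot (π * ((b.val : ℂ) / N))) := by
      intro b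
      by_cases hb : b = 0
      · rw [hb, h0, zero_mul, zero_mul, mul_zero]
      · rw [hF.coeff_zero b hb]; ring
    simp_rw [step]
    rw [← Finset.mul_sum, sum_inv_mul_cot hodd hprim, hc]
    field_simp
    ring
  · intro n hn
    rw [qCoeff_smul_788, qCoeff_eisSum]
    have step : ∀ b : ZMod N, ψ⁻¹ b * qCoeff (⇑(F b)) n =
        4 * π * ∑ k ∈ n.divisors,
          ψ⁻¹ b * Complex.sin (2 * π * ((k : ℂ) * (b.val : ℂ) / N)) := by
      intro b
      by_cases hb : b = 0
      · rw [hb, h0, zero_mul]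
        simp
      · rw [hF.coeff_pos b hb n hn, Finset.mul_sum, Finset.mul_sum, Finset.mul_sum]
        refine Finset.sum_congr rfl fun k _ => ?_
        ring
    simp_rw [step]
    rw [← Finset.mul_sum, Finset.sum_comm]
    simp_rw [sum_inv_mul_sin hodd hprim]
    have : ∑ x ∈ n.divisors, -Complex.I * ψ (x : ZMod N) * gTau ψ =
        -Complex.I * gTau ψ * ∑ x ∈ n.divisors, ψ (x : ZMod N) := by
      rw [Finset.mul_sum]
      refine Finset.sum_congr rfl fun k _ => ?_
      ring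
    rw [this, hc]
    field_simp

end Main

end Fermat.Agent.S48.H788

end
end
-- ===== PACK-END S48/H788/EisAlg.lean

-- ===== PACK-BEGIN S48/H788/Teich.lean
section


/-!
# S48 / Tower A1 / piece P2 (helper788): the inverse Teichmüller character of a residue map

For a prime `ℓ`, a field `k` of characteristic `ℓ` and a ring hom `φ : ℤ̄ → k` there is a Dirichlet
character `ψ : (ℤ/ℓ)ˣ → ℂˣ` with values in `ℤ̄` (`(ℓ-1)`-th roots of unity) and `φ(ψ(a)) · a = 1`
in `k` for every unit `a`: `ψ = ω⁻¹`, `ω` the Teichmüller character relative to `φ`.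
-/

set_option autoImplicit false

noncomputable section

namespace Fermat.Agent.S48.H788

open Polynomial

/-- `ℤ̄ ⊆ ℂ`. -/
abbrev ZbarT : Type := integralClosure ℤ ℂ

section

variable (ℓ : ℕ) [hℓ : Fact ℓ.Prime] {k : Type*} [Field k] [CharP k ℓ] (φ : ZbarT →+* k)

/-- The standard primitive `(ℓ-1)`-th root of unity of `ℂ`, as an algebraic integer. -/
def zetaT : ZbarT :=
  ⟨Complex.exp (2 * Real.pi * Complex.I / ((ℓ - 1 : ℕ) : ℂ)), by
    have hn : ℓ - 1 ≠ 0 := Nat.sub_ne_zero_of_lt hℓ.out.one_lt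
    have h := Complex.isPrimitiveRoot_exp (ℓ - 1) hn
    exact IsIntegral.of_pow (Nat.pos_of_ne_zero hn) (by rw [h.pow_eq_one]; exact isIntegral_one)⟩

theorem zetaT_isPrimitiveRoot : IsPrimitiveRoot ((zetaT ℓ : ZbarT) : ℂ) (ℓ - 1) :=
  Complex.isPrimitiveRoot_exp (ℓ - 1) (Nat.sub_ne_zero_of_lt hℓ.out.one_lt)

theorem natCast_sub_one_ne_zero : (((ℓ - 1 : ℕ)) : k) ≠ 0 := by
  intro h
  have h1 : (ℓ : k) = 0 := CharP.cast_eq_zero k ℓ
  have h2 : ℓ ∣ ℓ - 1 := (CharP.cast_eq_zero_iff k ℓ (ℓ - 1)).mp h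
  have h3 := Nat.le_of_dvd (Nat.sub_pos_of_lt hℓ.out.one_lt) h2
  have := hℓ.out.one_lt
  omega

/-- The image of `ζ` in `k` is a primitive `(ℓ-1)`-th root of unity. -/
theorem map_zetaT_isPrimitiveRoot : IsPrimitiveRoot (φ (zetaT ℓ)) (ℓ - 1) := by
  have hn : 0 < ℓ - 1 := Nat.sub_pos_of_lt hℓ.out.one_lt
  have hk : NeZero (((ℓ - 1 : ℕ)) : k) := ⟨natCast_sub_one_ne_zero ℓ⟩
  have hC : NeZero (((ℓ - 1 : ℕ)) : ℂ) := ⟨Nat.cast_ne_zero.mpr hn.ne'⟩
  have h0 : (cyclotomic (ℓ - 1) ℂ).IsRoot ((zetaT ℓ : ZbarT) : ℂ) :=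
    (Polynomial.isRoot_cyclotomic_iff (R := ℂ) (n := ℓ - 1)).mpr (zetaT_isPrimitiveRoot ℓ)
  have h1 : aeval ((zetaT ℓ : ZbarT) : ℂ) (cyclotomic (ℓ - 1) ℤ) = 0 := by
    rw [aeval_def, eval₂_eq_eval_map, map_cyclotomic]
    exact h0
  have h2 : aeval (zetaT ℓ : ZbarT) (cyclotomic (ℓ - 1) ℤ) = 0 := by
    apply Subtype.ext
    have := (aeval_algebraMap_apply ℂ (zetaT ℓ : ZbarT) (cyclotomic (ℓ - 1) ℤ))
    simpa [h1] using this.symm
  have e : φ.comp (algebraMap ℤ ZbarT) = Int.castRingHom k := RingHom.ext_int _ _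
  have h3 : (cyclotomic (ℓ - 1) ℤ).eval₂ (Int.castRingHom k) (φ (zetaT ℓ)) = 0 := by
    have := congrArg φ h2
    rw [map_zero, aeval_def, hom_eval₂, e] at this
    exact this
  refine (Polynomial.isRoot_cyclotomic_iff (R := k) (n := ℓ - 1)).mp ?_
  rw [IsRoot.def, ← map_cyclotomic_int, eval_map]
  exact h3

/-- The canonical map `ℤ/ℓ → k`. -/
abbrev castT : ZMod ℓ →+* k := ZMod.castHom (dvd_refl ℓ) k

theorem exists_exponent (u : (ZMod ℓ)ˣ) :
    ∃ i : ℕ, i < ℓ - 1 ∧ (φ (zetaT ℓ)) ^ i = castT ℓ (k := k) ((u⁻¹ : (ZMod ℓ)ˣ) : ZMod ℓ) := by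
  have hz := map_zetaT_isPrimitiveRoot ℓ φ
  have hn : 0 < ℓ - 1 := Nat.sub_pos_of_lt hℓ.out.one_lt
  have h1 : (castT ℓ (k := k) ((u⁻¹ : (ZMod ℓ)ˣ) : ZMod ℓ)) ^ (ℓ - 1) = 1 := by
    rw [← map_pow, ZMod.pow_card_sub_one_eq_one (Units.ne_zero _), map_one]
  have : NeZero (ℓ - 1) := ⟨hn.ne'⟩
  obtain ⟨i, hi, h⟩ := hz.eq_pow_of_pow_eq_one h1
  exact ⟨i, hi, h⟩

/-- The exponent `i(u)` with `φ(ζ)^{i(u)} = u⁻¹` in `k`. -/
def expT (u : (ZMod ℓ)ˣ) : ℕ := Classical.choose (exists_exponent ℓ φ u)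

theorem expT_lt (u : (ZMod ℓ)ˣ) : expT ℓ φ u < ℓ - 1 :=
  (Classical.choose_spec (exists_exponent ℓ φ u)).1

theorem expT_spec (u : (ZMod ℓ)ˣ) :
    (φ (zetaT ℓ)) ^ expT ℓ φ u = castT ℓ (k := k) ((u⁻¹ : (ZMod ℓ)ˣ) : ZMod ℓ) :=
  (Classical.choose_spec (exists_exponent ℓ φ u)).2

theorem zetaT_ne_zero : ((zetaT ℓ : ZbarT) : ℂ) ≠ 0 :=
  (zetaT_isPrimitiveRoot ℓ).ne_zero (Nat.sub_ne_zero_of_lt hℓ.out.one_lt)

theorem zetaT_pow_congr {i j : ℕ} (h : (φ (zetaT ℓ)) ^ i = (φ (zetaT ℓ)) ^ j) :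
    ((zetaT ℓ : ZbarT) : ℂ) ^ i = ((zetaT ℓ : ZbarT) : ℂ) ^ j := by
  have hz := map_zetaT_isPrimitiveRoot ℓ φ
  have hζ := zetaT_isPrimitiveRoot ℓ
  have hn : 0 < ℓ - 1 := Nat.sub_pos_of_lt hℓ.out.one_lt
  have h1 : (φ (zetaT ℓ)) ^ (i % (ℓ - 1)) = (φ (zetaT ℓ)) ^ (j % (ℓ - 1)) := by
    have e1 : (φ (zetaT ℓ)) ^ (i % (ℓ - 1)) = (φ (zetaT ℓ)) ^ i := by
      conv_rhs => rw [← Nat.mod_add_div i (ℓ - 1), pow_add, pow_mul, hz.pow_eq_one, one_pow,
        mul_one]
    have e2 : (φ (zetaT ℓ)) ^ (j % (ℓ - 1)) = (φ (zetaT ℓ)) ^ j := by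
      conv_rhs => rw [← Nat.mod_add_div j (ℓ - 1), pow_add, pow_mul, hz.pow_eq_one, one_pow,
        mul_one]
    rw [e1, e2, h]
  have h2 := hz.pow_inj (Nat.mod_lt _ hn) (Nat.mod_lt _ hn) h1
  conv_lhs => rw [← Nat.mod_add_div i (ℓ - 1), pow_add, pow_mul, hζ.pow_eq_one, one_pow, mul_one]
  conv_rhs => rw [← Nat.mod_add_div j (ℓ - 1), pow_add, pow_mul, hζ.pow_eq_one, one_pow, mul_one]
  rw [h2]

/-- The inverse Teichmüller character on units. -/
def teichUnitHom : (ZMod ℓ)ˣ →* ℂˣ where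
  toFun u := Units.mk0 (((zetaT ℓ : ZbarT) : ℂ) ^ expT ℓ φ u) (pow_ne_zero _ (zetaT_ne_zero ℓ))
  map_one' := by
    apply Units.ext
    show ((zetaT ℓ : ZbarT) : ℂ) ^ expT ℓ φ 1 = 1
    rw [← pow_zero ((zetaT ℓ : ZbarT) : ℂ)]
    apply zetaT_pow_congr ℓ φ
    rw [expT_spec, pow_zero]
    simp
  map_mul' u v := by
    apply Units.ext
    show ((zetaT ℓ : ZbarT) : ℂ) ^ expT ℓ φ (u * v) =
      ((zetaT ℓ : ZbarT) : ℂ) ^ expT ℓ φ u * ((zetaT ℓ : ZbarT) : ℂ) ^ expT ℓ φ v
    rw [← pow_add]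
    apply zetaT_pow_congr ℓ φ
    rw [pow_add, expT_spec, expT_spec, expT_spec, ← map_mul]
    congr 1
    rw [mul_inv, Units.val_mul]

/-- The inverse Teichmüller character `ψ = ω⁻¹` relative to `φ`. -/
def teichInv : DirichletCharacter ℂ ℓ := MulChar.ofUnitHom (teichUnitHom ℓ φ)

theorem teichInv_coe (u : (ZMod ℓ)ˣ) :
    teichInv ℓ φ (u : ZMod ℓ) = (((zetaT ℓ) ^ expT ℓ φ u : ZbarT) : ℂ) := by
  unfold teichInv
  rw [MulChar.ofUnitHom_coe]
  rfl

theorem castT_eq_val (a : ZMod ℓ) : castT ℓ (k := k) a = ((a.val : ℕ) : k) := by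
  rw [ZMod.castHom_apply, ZMod.natCast_val]

/-- Values of `ψ` are algebraic integers, and `φ(ψ(a)) · a = 1` for `a ≠ 0`. -/
theorem teichInv_spec (a : ZMod ℓ) :
    ∃ z : ZbarT, (z : ℂ) = teichInv ℓ φ a ∧
      φ z * ((a.val : ℕ) : k) = if a = 0 then 0 else 1 := by
  by_cases ha : a = 0
  · subst ha
    refine ⟨0, ?_, by simp⟩
    have : ¬ IsUnit (0 : ZMod ℓ) := not_isUnit_zero
    rw [MulChar.map_nonunit _ this]
    rfl
  · obtain ⟨u, rfl⟩ : IsUnit a := IsUnit.mk0 a ha
    refine ⟨(zetaT ℓ) ^ expT ℓ φ u, (teichInv_coe ℓ φ u).symm, ?_⟩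
    rw [if_neg ha, map_pow, expT_spec, ← castT_eq_val, ← map_mul, Units.inv_mul, map_one]

/-- `ψ` is odd (for `ℓ ≠ 2`). -/
theorem teichInv_odd (hℓ2 : ℓ ≠ 2) : (teichInv ℓ φ).Odd := by
  have hsq : (teichInv ℓ φ (-1)) ^ 2 = 1 := by
    rw [← map_pow]; simp
  have hcases : teichInv ℓ φ (-1) = 1 ∨ teichInv ℓ φ (-1) = -1 := by
    have : (teichInv ℓ φ (-1) - 1) * (teichInv ℓ φ (-1) + 1) = 0 := by
      ring_nf; rw [hsq]; ring
    rcases mul_eq_zero.mp this with h | h
    · left; exact sub_eq_zero.mp h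
    · right; exact eq_neg_of_add_eq_zero_left h
  rcases hcases with h | h
  · exfalso
    obtain ⟨z, hz, hφ⟩ := teichInv_spec ℓ φ (-1 : ZMod ℓ)
    have hne : (-1 : ZMod ℓ) ≠ 0 := neg_ne_zero.mpr one_ne_zero
    rw [if_neg hne] at hφ
    have hz1 : z = 1 := by
      apply Subtype.ext
      rw [hz, h]
      rfl
    rw [hz1, map_one, one_mul, ← castT_eq_val, map_neg, map_one] at hφ
    -- `-1 = 1` in `k` forces `ℓ = 2`
    have h2 : (2 : k) = 0 := by
      have : (1 : k) + 1 = 0 := by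
        nth_rewrite 1 [← hφ]
        ring
      rw [← this]; norm_num
    have h3 : ((2 : ℕ) : k) = 0 := by exact_mod_cast h2
    have h4 : ℓ ∣ 2 := (CharP.cast_eq_zero_iff k ℓ 2).mp h3
    have h5 := (Nat.prime_dvd_prime_iff_eq hℓ.out Nat.prime_two).mp h4
    exact hℓ2 h5
  · exact h

end

end Fermat.Agent.S48.H788

end
end
-- ===== PACK-END S48/H788/Teich.lean

-- ===== PACK-BEGIN S48/H788/EisCong.lean
section



/-!
# S48 / Tower A1 / piece P2-EIS, step 6 (helper788): the multiplier `H ≡ 1 mod λ`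

Given the Eisenstein family of level `ℓ` (steps 1–4 of P2-EIS) and a residue map `φ : ℤ̄ → k`,
`char k = ℓ ≠ 2`: a weight-one form `H` on `Γ₁(ℓ)` with nebentypus `ψ = ω⁻¹` (inverse Teichmüller
character relative to `φ`), with `q`-coefficients in `ℤ̄`, and `φ(a₀(H)) = 1`, `φ(a_n(H)) = 0` for
`n ≥ 1`.   (`H = 2ℓ · E_{1,ψ}`.)
-/

set_option autoImplicit false

noncomputable section

namespace Fermat.Agent.S48.H788

open UpperHalfPlane ModularFormClass CongruenceSubgroup
open scoped Real MatrixGroups ModularForm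

section

variable (ℓ : ℕ) [hℓ : Fact ℓ.Prime] {k : Type*} [Field k] [CharP k ℓ] (φ : ZbarT →+* k)

theorem teichInv_isPrimitive (hℓ2 : ℓ ≠ 2) : (teichInv ℓ φ).IsPrimitive := by
  rw [DirichletCharacter.isPrimitive_def]
  have hd := DirichletCharacter.conductor_dvd_level (teichInv ℓ φ)
  rcases (Nat.dvd_prime hℓ.out).mp hd with h | h
  · exfalso
    have := (DirichletCharacter.eq_one_iff_conductor_eq_one (χ := teichInv ℓ φ)).mpr h
    exact odd_ne_one (teichInv_odd ℓ φ hℓ2) this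
  · exact h

/-- A choice of algebraic integers representing the values of `ψ`. -/
def teichVal (a : ZMod ℓ) : ZbarT := Classical.choose (teichInv_spec ℓ φ a)

theorem teichVal_coe (a : ZMod ℓ) : ((teichVal ℓ φ a : ZbarT) : ℂ) = teichInv ℓ φ a :=
  (Classical.choose_spec (teichInv_spec ℓ φ a)).1

theorem teichVal_spec (a : ZMod ℓ) :
    φ (teichVal ℓ φ a) * ((a.val : ℕ) : k) = if a = 0 then 0 else 1 :=
  (Classical.choose_spec (teichInv_spec ℓ φ a)).2

theorem sum_range_teich :
    ∑ a ∈ Finset.range ℓ, ((a : ℕ) : k) * φ (teichVal ℓ φ (a : ZMod ℓ)) = -1 := by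
  have h1 : ∀ a ∈ Finset.range ℓ, ((a : ℕ) : k) * φ (teichVal ℓ φ (a : ZMod ℓ)) =
      if a = 0 then 0 else 1 := by
    intro a ha
    have hlt : a < ℓ := Finset.mem_range.mp ha
    have hv : ((a : ZMod ℓ)).val = a := ZMod.val_natCast_of_lt hlt
    have := teichVal_spec ℓ φ (a : ZMod ℓ)
    rw [hv, mul_comm] at this
    rw [this]
    have hiff : ((a : ZMod ℓ) = 0) ↔ a = 0 := by
      constructor
      · intro h0
        have := (ZMod.natCast_eq_zero_iff a ℓ).mp h0
        exact Nat.eq_zero_of_dvd_of_lt this hlt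
      · intro h0; rw [h0]; simp
    by_cases h0 : a = 0
    · rw [if_pos h0, if_pos (hiff.mpr h0)]
    · rw [if_neg h0, if_neg (fun h => h0 (hiff.mp h))]
  rw [Finset.sum_congr rfl h1]
  have hpos : 0 < ℓ := hℓ.out.pos
  rw [Finset.sum_ite, Finset.sum_const_zero, zero_add, Finset.sum_const, nsmul_eq_mul, mul_one]
  have hcard : (Finset.filter (fun a => ¬ a = 0) (Finset.range ℓ)).card = ℓ - 1 := by
    have : Finset.filter (fun a => ¬ a = 0) (Finset.range ℓ) = (Finset.range ℓ).erase 0 := by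
      ext a
      simp [Finset.mem_erase, and_comm]
    rw [this, Finset.card_erase_of_mem (Finset.mem_range.mpr hpos), Finset.card_range]
  rw [hcard, Nat.cast_sub hℓ.out.one_le, CharP.cast_eq_zero k ℓ]
  simp

/-- **P2-EIS, step 6 (CONG).** -/
theorem exists_multiplier_of_family (hℓ2 : ℓ ≠ 2)
    {F : ZMod ℓ → ModularForm (Gamma1 ℓ) 1} (hF : EisFamily ℓ F) :
    ∃ (ψ : DirichletCharacter ℂ ℓ) (H : ModularForm (Gamma1 ℓ) 1),
      (∀ a : ZMod ℓ, ∃ z : ZbarT, (z : ℂ) = ψ a ∧
        φ z * ((a.val : ℕ) : k) = if a = 0 then 0 else 1) ∧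
      (∀ γ : SL(2, ℤ), γ ∈ Gamma0 ℓ →
        (⇑H) ∣[(1 : ℤ)] γ = ψ (((γ 1 1 : ℤ)) : ZMod ℓ) • ⇑H) ∧
      (∀ n : ℕ, ∃ z : ZbarT, (z : ℂ) = qCoeff (⇑H) n ∧ φ z = if n = 0 then 1 else 0) := by
  obtain ⟨E, hE1, hE2, hE3⟩ := eisenstein_one_of_family hF (teichInv ℓ φ)
    (teichInv_odd ℓ φ hℓ2) (teichInv_isPrimitive ℓ φ hℓ2)
  have hℓC : (ℓ : ℂ) ≠ 0 := Nat.cast_ne_zero.mpr hℓ.out.ne_zero
  refine ⟨teichInv ℓ φ, ((2 * ℓ : ℂ)) • E, teichInv_spec ℓ φ, ?_, ?_⟩
  · intro γ hγ
    have : (⇑(((2 * ℓ : ℂ)) • E : ModularForm (Gamma1 ℓ) 1) : ℍ → ℂ) = (2 * ℓ : ℂ) • ⇑E := rfl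
    rw [this, ModularForm.SL_smul_slash, hE1 γ hγ, smul_comm]
  · intro n
    by_cases hn : n = 0
    · subst hn
      refine ⟨-∑ a ∈ Finset.range ℓ, ((a : ℕ) : ZbarT) * teichVal ℓ φ (a : ZMod ℓ), ?_, ?_⟩
      · rw [qCoeff_smul_788, hE2]
        push_cast
        simp_rw [teichVal_coe]
        field_simp
      · rw [if_pos rfl, map_neg, map_sum]
        simp_rw [map_mul, map_natCast]
        rw [sum_range_teich, neg_neg]
    · refine ⟨(2 * (ℓ : ZbarT)) * ∑ d ∈ n.divisors, teichVal ℓ φ (d : ZMod ℓ), ?_, ?_⟩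
      · rw [qCoeff_smul_788, hE3 n (Nat.one_le_iff_ne_zero.mpr hn)]
        push_cast
        simp_rw [teichVal_coe]
        rfl
      · rw [if_neg hn, map_mul, map_mul, map_natCast, CharP.cast_eq_zero k ℓ, mul_zero, zero_mul]

end

end Fermat.Agent.S48.H788

end
end
-- ===== PACK-END S48/H788/EisCong.lean

-- ===== PACK-BEGIN S21/H381/Primitive.lean
section



/-!
# S21, piece A (part 1): decaying primitives of periodic holomorphic functions on `ℍ`

`exists_disc_primitive`: if `g : ℍ → ℂ` is holomorphic, `h`-periodic and tends to `0` at `i∞`,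
there is `Ψ` holomorphic on the open unit disc with `Ψ 0 = 0` such that `z ↦ Ψ (𝕢 h z)` is a
primitive of `g` on `ℍ`.
-/

set_option autoImplicit false

namespace Fermat.Agent.S21.H381

open Filter Topology Function Complex
open UpperHalfPlane hiding I
open scoped Manifold

/-- On the upper half plane, `G ∘ ofComplex` and `G' := fun z => Ψ (𝕢 h z)` agree near any point
as soon as `G τ = Ψ (𝕢 h τ)` on `ℍ`. -/
theorem comp_ofComplex_eventuallyEq {G : ℍ → ℂ} {P : ℂ → ℂ} (hGP : ∀ τ : ℍ, G τ = P ↑τ)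
    (τ : ℍ) : G ∘ ofComplex =ᶠ[𝓝 (τ : ℂ)] P := by
  have hopen : IsOpen {z : ℂ | 0 < z.im} := isOpen_lt continuous_const Complex.continuous_im
  filter_upwards [hopen.mem_nhds τ.2] with z hz
  simp only [Function.comp_apply, ofComplex_apply_of_im_pos hz, hGP]

/-- **One-step decaying primitive.** -/
theorem exists_disc_primitive {g : ℍ → ℂ} {h : ℝ} (hh : 0 < h)
    (hper : Periodic (g ∘ ofComplex) h) (hhol : MDiff g) (hzero : IsZeroAtImInfty g) :
    ∃ Ψ : ℂ → ℂ, DifferentiableOn ℂ Ψ (Metric.ball 0 1) ∧ Ψ 0 = 0 ∧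
      ∀ τ : ℍ, HasDerivAt (fun z : ℂ => (h / (2 * Real.pi * I)) * Ψ (Periodic.qParam h z))
        (g τ) ↑τ := by
  have hbdd : IsBoundedAtImInfty g := hzero.isBoundedAtImInfty
  set φ : ℂ → ℂ := cuspFunction h g with hφ
  have hφdiff : DifferentiableOn ℂ φ (Metric.ball 0 1) :=
    differentiableOn_cuspFunction_ball hh hper hhol hbdd
  have hφ0 : φ 0 = 0 := by
    have h1 := cuspFunction_apply_zero hh
      (analyticAt_cuspFunction_zero hh hper hhol hbdd) hper
    rw [hφ, h1]
    exact hzero.valueAtInfty_eq_zero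
  have hball : Metric.ball (0 : ℂ) 1 ∈ 𝓝 (0 : ℂ) := Metric.ball_mem_nhds 0 one_pos
  have hψdiff : DifferentiableOn ℂ (dslope φ 0) (Metric.ball 0 1) :=
    (Complex.differentiableOn_dslope hball).2 hφdiff
  obtain ⟨Ψ, hΨ0, hΨ⟩ := (hψdiff.isExactOn_ball).with_val_at 0 0
  refine ⟨Ψ, ?_, hΨ0, ?_⟩
  · intro z hz
    exact (hΨ z hz).differentiableAt.differentiableWithinAt
  · intro τ
    set q : ℂ := Periodic.qParam h ↑τ with hq
    have hqball : q ∈ Metric.ball (0 : ℂ) 1 := by
      rw [mem_ball_zero_iff]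
      exact Periodic.norm_qParam_lt_one hh τ.2
    have hq0 : q ≠ 0 := Periodic.qParam_ne_zero _
    have hqd : HasDerivAt (Periodic.qParam h) (q * (2 * Real.pi * I / h)) ↑τ := by
      have hs : HasStrictDerivAt (Periodic.qParam h) (q * (2 * Real.pi * I / h)) (τ : ℂ) := by
        simpa only [id_eq, mul_one] using!
          (((hasStrictDerivAt_id (τ : ℂ)).const_mul _).div_const _).cexp
      exact hs.hasDerivAt
    have hcomp := (hΨ q hqball).comp (τ : ℂ) hqd
    have hval : (h / (2 * Real.pi * I) : ℂ) * (dslope φ 0 q * (q * (2 * Real.pi * I / h)))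
        = g τ := by
      have hφq : φ q = g τ := eq_cuspFunction τ hh.ne' hper
      rw [dslope_of_ne _ hq0, slope_def_field, hφ0, sub_zero, sub_zero, hφq]
      have hh' : (h : ℂ) ≠ 0 := by exact_mod_cast hh.ne'
      have hpi : (2 * Real.pi * I : ℂ) ≠ 0 := Complex.two_pi_I_ne_zero
      field_simp
    have h3 := hcomp.const_mul (h / (2 * Real.pi * I) : ℂ)
    rw [hval] at h3
    exact h3

end Fermat.Agent.S21.H381

end
-- ===== PACK-END S21/H381/Primitive.lean

-- ===== PACK-BEGIN S21/H381/PeriodMap.lean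
section





/-!
# S21, piece A: existence of the equivariant primitive, linearity of the period map
-/

set_option autoImplicit false

namespace Fermat.Agent.S21.H381

open CongruenceSubgroup ModularCurve ModularCurve.Period Filter Topology Function Complex
open UpperHalfPlane hiding I
open scoped Manifold MatrixGroups ModularForm

/-- determinant of the image of `γ : SL(2, ℤ)` in `GL (Fin 2) ℝ` is `1`. -/
theorem det_coe_SL (γ : SL(2, ℤ)) : ((γ : GL (Fin 2) ℝ) : Matrix (Fin 2) (Fin 2) ℝ).det = 1 := by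
  rw [← Matrix.GeneralLinearGroup.val_det_apply]; simp

/-- **Chain rule for the Möbius action**: if `F` is a primitive of `f` on `ℍ`, then
`F ∘ γ` is a primitive of `f ∣[2] γ`. -/
theorem hasDerivAt_comp_smul {F f : ℍ → ℂ}
    (hF : ∀ τ : ℍ, HasDerivAt (F ∘ ofComplex) (f τ) ↑τ) (γ : SL(2, ℤ)) (τ : ℍ) :
    HasDerivAt ((fun w : ℍ => F (γ • w)) ∘ ofComplex) ((f ∣[(2 : ℤ)] γ) τ) ↑τ := by
  have hdet := det_coe_SL γ
  have hpos : 0 < ((γ : GL (Fin 2) ℝ) : Matrix (Fin 2) (Fin 2) ℝ).det := by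
    rw [hdet]; exact one_pos
  have h_smul : HasDerivAt (fun w ↦ ↑((γ : GL (Fin 2) ℝ) • ofComplex w) : ℂ → ℂ)
      ((((γ : GL (Fin 2) ℝ) : Matrix (Fin 2) (Fin 2) ℝ).det : ℂ)
        / denom (γ : GL (Fin 2) ℝ) τ ^ 2) ↑τ :=
    (hasStrictDerivAt_smul hpos τ).hasDerivAt
  have h_F : HasDerivAt (F ∘ ofComplex) (f (γ • τ))
      ↑((γ : GL (Fin 2) ℝ) • ofComplex (τ : ℂ)) := by
    rw [ofComplex_apply]
    exact hF (γ • τ)
  have hcomp := h_F.comp (τ : ℂ) h_smul
  have heq : ((fun w : ℍ => F (γ • w)) ∘ ofComplex)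
      = (F ∘ ofComplex) ∘ (fun w ↦ ↑((γ : GL (Fin 2) ℝ) • ofComplex w) : ℂ → ℂ) := by
    funext z
    simp only [Function.comp_apply, ofComplex_apply]
    rfl
  rw [heq]
  refine hcomp.congr_deriv ?_
  rw [ModularForm.SL_slash_apply, hdet]
  have hz := denom_ne_zero (γ : GL (Fin 2) ℝ) τ
  simp only [Complex.ofReal_one]
  rw [zpow_neg, div_eq_mul_inv, one_mul]
  norm_cast

/-- Two primitives (on `ℍ`) of the same function differ by a constant. -/
theorem sub_const_of_hasDerivAt {A B g : ℍ → ℂ}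
    (hA : ∀ τ : ℍ, HasDerivAt (A ∘ ofComplex) (g τ) ↑τ)
    (hB : ∀ τ : ℍ, HasDerivAt (B ∘ ofComplex) (g τ) ↑τ) (z w : ℍ) :
    A z - B z = A w - B w := by
  set D : ℂ → ℂ := fun x => (A ∘ ofComplex) x - (B ∘ ofComplex) x with hD
  have hopen : IsOpen {x : ℂ | 0 < x.im} := isOpen_lt continuous_const Complex.continuous_im
  have hconn : IsPreconnected {x : ℂ | 0 < x.im} := (convex_halfSpace_im_gt 0).isPreconnected
  have hder : ∀ x ∈ {x : ℂ | 0 < x.im}, HasDerivAt D 0 x := by
    intro x hx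
    have h1 := (hA ⟨x, hx⟩).sub (hB ⟨x, hx⟩)
    rw [sub_self] at h1
    exact h1
  have hdiff : DifferentiableOn ℂ D {x : ℂ | 0 < x.im} := fun x hx =>
    (hder x hx).differentiableAt.differentiableWithinAt
  have hderiv : Set.EqOn (deriv D) 0 {x : ℂ | 0 < x.im} := fun x hx => (hder x hx).deriv
  have := hopen.is_const_of_deriv_eq_zero hconn hdiff hderiv (x := (z : ℂ)) (y := (w : ℂ)) z.2 w.2
  simpa [hD, ofComplex_apply] using this

section CuspFormFacts

variable {N : ℕ} [NeZero N] (f : CuspForm (Gamma0 N) 2) (δ : SL(2, ℤ))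

omit [NeZero N] in
/-- `f ∣[2] δ` is holomorphic. -/
theorem mdiff_slash : MDiff ((f : ℍ → ℂ) ∣[(2 : ℤ)] δ) := by
  rw [← CuspForm.coe_translate f δ]
  exact CuspFormClass.holo _

/-- `f ∣[2] δ` vanishes at `i∞`. -/
theorem isZeroAtImInfty_slash : IsZeroAtImInfty ((f : ℍ → ℂ) ∣[(2 : ℤ)] δ) :=
  CuspFormClass.zero_at_infty_slash f δ

/-- There is a common positive integer period for all `f ∣[2] δ`. -/
theorem exists_period_slash :
    ∃ M : ℕ, 0 < M ∧ ∀ δ : SL(2, ℤ), Periodic (((f : ℍ → ℂ) ∣[(2 : ℤ)] δ) ∘ ofComplex) (M : ℝ) := by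
  obtain ⟨M, hM, hper⟩ := Subgroup.IsArithmetic.exists_nat_mem_strictPeriods_conj
    ((Gamma0 N : Subgroup SL(2, ℤ)) : Subgroup (GL (Fin 2) ℝ))
  refine ⟨M, hM, fun δ => ?_⟩
  have h1 := hper δ⁻¹
  rw [map_inv] at h1
  have h2 := SlashInvariantFormClass.periodic_comp_ofComplex
    (CuspForm.translate f (δ : GL (Fin 2) ℝ)) h1
  rw [CuspForm.coe_translate f δ] at h2
  exact_mod_cast h2

end CuspFormFacts

/-- Packaged one-step primitive on `ℍ`: derivative `g`, limit `0` at `i∞`. -/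
theorem exists_primitive_tendsto_zero {g : ℍ → ℂ} {h : ℝ} (hh : 0 < h)
    (hper : Periodic (g ∘ ofComplex) h) (hhol : MDiff g) (hzero : IsZeroAtImInfty g) :
    ∃ G : ℍ → ℂ, (∀ τ : ℍ, HasDerivAt (G ∘ ofComplex) (g τ) ↑τ) ∧
      Tendsto G atImInfty (𝓝 0) := by
  obtain ⟨Ψ, hΨd, hΨ0, hΨ⟩ := exists_disc_primitive hh hper hhol hzero
  refine ⟨fun τ => (h / (2 * Real.pi * I)) * Ψ (Periodic.qParam h ↑τ), fun τ => ?_, ?_⟩
  · exact (hΨ τ).congr_of_eventuallyEq
      (comp_ofComplex_eventuallyEq (P := fun z : ℂ => (h / (2 * Real.pi * I)) *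
        Ψ (Periodic.qParam h z)) (fun _ => rfl) τ)
  · have hcont : ContinuousAt Ψ 0 :=
      (hΨd.differentiableAt (Metric.ball_mem_nhds 0 one_pos)).continuousAt
    have h1 : Tendsto (fun τ : ℍ => Ψ (Periodic.qParam h ↑τ)) atImInfty (𝓝 (Ψ 0)) :=
      hcont.tendsto.comp (qParam_tendsto_atImInfty hh)
    rw [hΨ0] at h1
    simpa using h1.const_mul (h / (2 * Real.pi * I) : ℂ)

section Main

variable {N : ℕ} [NeZero N] (f : CuspForm (Gamma0 N) 2)

omit [NeZero N] in
theorem slash_eq_self_of_mem (γ : Gamma0 N) :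
    ((f : ℍ → ℂ) ∣[(2 : ℤ)] (γ : SL(2, ℤ))) = f := by
  have hmem : ((γ : SL(2, ℤ)) : GL (Fin 2) ℝ) ∈
      ((Gamma0 N : Subgroup SL(2, ℤ)) : Subgroup (GL (Fin 2) ℝ)) :=
    Subgroup.mem_map_of_mem _ γ.2
  exact SlashInvariantForm.slash_action_eqn f _ hmem

/-- **Piece A1**: every weight-2 cusp form on `Γ₀(N)` has an equivariant primitive. -/
theorem exists_hasEquivariantPrimitive : ∃ F : ℍ → ℂ, HasEquivariantPrimitive N f F := by
  obtain ⟨M, hM, hper⟩ := exists_period_slash f
  have hMpos : (0 : ℝ) < (M : ℝ) := by exact_mod_cast hM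
  -- primitive of `f = f ∣[2] 1`
  have hone : ((f : ℍ → ℂ) ∣[(2 : ℤ)] (1 : SL(2, ℤ))) = f := by
    rw [SlashAction.slash_one]
  obtain ⟨F, hFd, hF0⟩ := exists_primitive_tendsto_zero hMpos (hper 1)
    (mdiff_slash f 1) (isZeroAtImInfty_slash f 1)
  have hFd' : ∀ τ : ℍ, HasDerivAt (F ∘ ofComplex) (f τ) ↑τ := by
    intro τ; have := hFd τ; rwa [hone] at this
  refine ⟨F, hFd', hF0, ?_, ?_⟩
  · intro γ
    refine ⟨F ((γ : SL(2, ℤ)) • UpperHalfPlane.I) - F UpperHalfPlane.I, fun z => ?_⟩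
    have hγ : ∀ τ : ℍ, HasDerivAt ((fun w : ℍ => F ((γ : SL(2, ℤ)) • w)) ∘ ofComplex) (f τ) ↑τ := by
      intro τ
      have := hasDerivAt_comp_smul hFd' (γ : SL(2, ℤ)) τ
      rwa [slash_eq_self_of_mem f γ] at this
    exact sub_const_of_hasDerivAt hγ hFd' z UpperHalfPlane.I
  · intro δ
    obtain ⟨G, hGd, hG0⟩ := exists_primitive_tendsto_zero hMpos (hper δ)
      (mdiff_slash f δ) (isZeroAtImInfty_slash f δ)
    have hδ : ∀ τ : ℍ, HasDerivAt ((fun w : ℍ => F (δ • w)) ∘ ofComplex)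
        (((f : ℍ → ℂ) ∣[(2 : ℤ)] δ) τ) ↑τ := fun τ => hasDerivAt_comp_smul hFd' δ τ
    set c : ℂ := F (δ • UpperHalfPlane.I) - G UpperHalfPlane.I with hc
    refine ⟨c, ?_⟩
    have hEq : (fun w : ℍ => F (δ • w)) = fun w => G w + c := by
      funext w
      have := sub_const_of_hasDerivAt hδ hGd w UpperHalfPlane.I
      rw [hc, ← this]; ring
    rw [hEq]
    simpa using hG0.add_const c

variable {f}

omit [NeZero N] in
/-- **Piece A2 (uniqueness)**. -/
theorem hasEquivariantPrimitive_unique {F G : ℍ → ℂ} (hF : HasEquivariantPrimitive N f F)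
    (hG : HasEquivariantPrimitive N f G) : F = G := by
  funext z
  have hconst : ∀ w : ℍ, F w - G w = F z - G z := fun w =>
    sub_const_of_hasDerivAt hF.1 hG.1 w z
  have h1 : Tendsto (fun w : ℍ => F w - G w) atImInfty (𝓝 (0 - 0)) := hF.2.1.sub hG.2.1
  have h2 : Tendsto (fun w : ℍ => F w - G w) atImInfty (𝓝 (F z - G z)) := by
    have : (fun w : ℍ => F w - G w) = fun _ => F z - G z := funext hconst
    rw [this]; exact tendsto_const_nhds
  have := tendsto_nhds_unique h1 h2
  rw [sub_zero] at this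
  exact sub_eq_zero.mp this.symm

omit [NeZero N] in
/-- **Piece A2 (formula)**: the period map is computed by any equivariant primitive. -/
theorem periodMap_apply {F : ℍ → ℂ} (hF : HasEquivariantPrimitive N f F) (γ : Gamma0 N)
    (z : ℍ) : periodMap N f (Additive.ofMul γ) = F ((γ : SL(2, ℤ)) • z) - F z := by
  obtain ⟨F₀, h₀, hP⟩ := periodMap_def N f hF
  have hFF : F₀ = F := hasEquivariantPrimitive_unique h₀ hF
  subst hFF
  rw [hP, IsEquivariantPrimitive.periodHom_apply, ← h₀.2.2.1.sub_eq_period γ z]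

omit [NeZero N] in
theorem hasEquivariantPrimitive_add {f g : CuspForm (Gamma0 N) 2} {F G : ℍ → ℂ}
    (hF : HasEquivariantPrimitive N f F) (hG : HasEquivariantPrimitive N g G) :
    HasEquivariantPrimitive N (f + g) (F + G) := by
  refine ⟨fun τ => ?_, ?_, fun γ => ?_, fun δ => ?_⟩
  · have := (hF.1 τ).add (hG.1 τ)
    exact this
  · have h := hF.2.1.add hG.2.1
    rw [add_zero] at h
    exact h
  · obtain ⟨c, hc⟩ := hF.2.2.1 γ
    obtain ⟨d, hd⟩ := hG.2.2.1 γ
    refine ⟨c + d, fun z => ?_⟩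
    simp only [Pi.add_apply]
    rw [← hc z, ← hd z]; ring
  · obtain ⟨L, hL⟩ := hF.2.2.2 δ
    obtain ⟨L', hL'⟩ := hG.2.2.2 δ
    exact ⟨L + L', hL.add hL'⟩

omit [NeZero N] in
theorem hasEquivariantPrimitive_smul {f : CuspForm (Gamma0 N) 2} {F : ℍ → ℂ} (a : ℂ)
    (hF : HasEquivariantPrimitive N f F) :
    HasEquivariantPrimitive N (a • f) (a • F) := by
  refine ⟨fun τ => ?_, ?_, fun γ => ?_, fun δ => ?_⟩
  · have := (hF.1 τ).const_smul a
    exact this
  · have h := hF.2.1.const_smul a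
    rw [smul_zero] at h
    exact h
  · obtain ⟨c, hc⟩ := hF.2.2.1 γ
    refine ⟨a * c, fun z => ?_⟩
    simp only [Pi.smul_apply, smul_eq_mul]
    rw [← hc z]; ring
  · obtain ⟨L, hL⟩ := hF.2.2.2 δ
    exact ⟨a • L, hL.const_smul a⟩

theorem periodMap_add (f g : CuspForm (Gamma0 N) 2) :
    periodMap N (f + g) = periodMap N f + periodMap N g := by
  obtain ⟨F, hF⟩ := exists_hasEquivariantPrimitive f
  obtain ⟨G, hG⟩ := exists_hasEquivariantPrimitive g
  refine AddMonoidHom.ext fun γ => ?_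
  obtain ⟨γ, rfl⟩ : ∃ γ' : Gamma0 N, Additive.ofMul γ' = γ := ⟨Additive.toMul γ, rfl⟩
  rw [AddMonoidHom.add_apply, periodMap_apply (hasEquivariantPrimitive_add hF hG) γ UpperHalfPlane.I,
    periodMap_apply hF γ UpperHalfPlane.I, periodMap_apply hG γ UpperHalfPlane.I]
  simp only [Pi.add_apply]; ring

theorem periodMap_smul (a : ℂ) (f : CuspForm (Gamma0 N) 2) :
    periodMap N (a • f) = a • periodMap N f := by
  obtain ⟨F, hF⟩ := exists_hasEquivariantPrimitive f
  refine AddMonoidHom.ext fun γ => ?_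
  obtain ⟨γ, rfl⟩ : ∃ γ' : Gamma0 N, Additive.ofMul γ' = γ := ⟨Additive.toMul γ, rfl⟩
  rw [AddMonoidHom.smul_apply, periodMap_apply (hasEquivariantPrimitive_smul a hF) γ UpperHalfPlane.I,
    periodMap_apply hF γ UpperHalfPlane.I]
  simp only [Pi.smul_apply, smul_eq_mul]; ring

variable (N) in
/-- The period map as a `ℂ`-linear map. -/
noncomputable def periodMapLin : CuspForm (Gamma0 N) 2 →ₗ[ℂ] (Additive (Gamma0 N) →+ ℂ) where
  toFun := periodMap N
  map_add' := periodMap_add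
  map_smul' := periodMap_smul

@[simp] theorem periodMapLin_apply (f : CuspForm (Gamma0 N) 2) :
    periodMapLin N f = periodMap N f := rfl

variable (N) in
/-- **Piece A3**: the period map is linear. -/
theorem existsPeriodMapLinear : ExistsPeriodMapLinear N :=
  ⟨periodMapLin N, fun _ => rfl⟩

variable (N) in
/-- Unfolding of `periodHomPair`. -/
theorem periodHomPair_eq :
    periodHomPair N = LinearMap.coprod
      ((LinearMap.id + charInvolution N ℂ ℂ) ∘ₗ periodMapLin N)
      ((LinearMap.id - charInvolution N ℂ ℂ) ∘ₗ periodMapLin N) := by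
  obtain ⟨pml, hpml, h⟩ := periodHomPair_def N (existsPeriodMapLinear N)
  have : pml = periodMapLin N := LinearMap.ext fun f => by rw [hpml, periodMapLin_apply]
  rw [h, this]

theorem periodHomPair_apply (f g : CuspForm (Gamma0 N) 2) :
    periodHomPair N (f, g) = (periodMap N f + charInvolution N ℂ ℂ (periodMap N f))
      + (periodMap N g - charInvolution N ℂ ℂ (periodMap N g)) := by
  rw [periodHomPair_eq]
  simp [LinearMap.coprod_apply]

end Main

end Fermat.Agent.S21.H381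

end
-- ===== PACK-END S21/H381/PeriodMap.lean

-- ===== PACK-BEGIN S24/H84/Kaehler.lean
section


/-!
# Kähler differentials of a function field in one variable (helper84, S24 piece KD1)

`K` a field of characteristic zero, `F/K` a field extension, `x : F` with `F` algebraic over
`K(x)`.  Then `Ω[F⁄K]` is spanned by `D x`.
-/

set_option autoImplicit false

open KaehlerDifferential Polynomial IntermediateField TensorProduct

namespace Fermat.Agent.S24.H84

section Kaehler

variable {K F : Type*} [Field K] [Field F] [Algebra K F]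

/-- `D e ∈ span {D x}` for `e ∈ K⟮x⟯`. -/
theorem D_mem_span_of_mem_adjoin_simple (x : F) {e : F} (he : e ∈ K⟮x⟯) :
    D K F e ∈ Submodule.span F {D K F x} := by
  obtain ⟨r, s, rfl⟩ := (IntermediateField.mem_adjoin_simple_iff K e).1 he
  rw [Derivation.leibniz_div, Derivation.map_aeval, Derivation.map_aeval]
  refine Submodule.smul_mem _ _ (Submodule.sub_mem _ ?_ ?_) <;>
  exact Submodule.smul_mem _ _ (Submodule.smul_mem _ _ (Submodule.mem_span_singleton_self _))

theorem map_mem_span_D (x : F) (y : Ω[K⟮x⟯⁄K]) :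
    KaehlerDifferential.map K K K⟮x⟯ F y ∈ Submodule.span F {D K F x} := by
  have hy : y ∈ Submodule.span K⟮x⟯ (Set.range (D K K⟮x⟯)) := by
    rw [span_range_derivation]; trivial
  induction hy using Submodule.span_induction with
  | mem z hz =>
    obtain ⟨e, rfl⟩ := hz
    rw [map_D]
    exact D_mem_span_of_mem_adjoin_simple x e.2
  | zero => simp
  | add u v _ _ hu hv => rw [map_add]; exact Submodule.add_mem _ hu hv
  | smul c u _ hu =>
    rw [map_smul, ← algebraMap_smul F c]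
    exact Submodule.smul_mem _ _ hu

theorem mapBaseChange_mem_span_D (x : F) (t : F ⊗[K⟮x⟯] Ω[K⟮x⟯⁄K]) :
    KaehlerDifferential.mapBaseChange K K⟮x⟯ F t ∈ Submodule.span F {D K F x} := by
  induction t using TensorProduct.induction_on with
  | zero => simp
  | tmul b y =>
    rw [mapBaseChange_tmul]
    exact Submodule.smul_mem _ _ (map_mem_span_D x y)
  | add a b ha hb => rw [map_add]; exact Submodule.add_mem _ ha hb

/-- If `F` is algebraic over `K⟮x⟯` (characteristic zero), then `D x` spans `Ω[F⁄K]`. -/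
theorem span_D_eq_top [CharZero K] (x : F) [Algebra.IsAlgebraic K⟮x⟯ F] :
    Submodule.span F {D K F x} = ⊤ := by
  have : CharZero K⟮x⟯ := charZero_of_injective_algebraMap (algebraMap K K⟮x⟯).injective
  have : Algebra.IsSeparable K⟮x⟯ F := Algebra.IsAlgebraic.isSeparable_of_perfectField
  have : Algebra.FormallyUnramified K⟮x⟯ F := Algebra.FormallyUnramified.of_isSeparable _ _
  have : Subsingleton Ω[F⁄K⟮x⟯] := Algebra.FormallyUnramified.subsingleton_kaehlerDifferential
  rw [eq_top_iff]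
  intro ω _
  have hex := KaehlerDifferential.exact_mapBaseChange_map K K⟮x⟯ F
  have h0 : KaehlerDifferential.map K K⟮x⟯ F F ω = 0 := Subsingleton.elim _ _
  obtain ⟨t, rfl⟩ := (hex ω).1 h0
  exact mapBaseChange_mem_span_D x t

end Kaehler

end Fermat.Agent.S24.H84

end
-- ===== PACK-END S24/H84/Kaehler.lean

-- ===== PACK-BEGIN S37/H400/KronSection.lean
section
/-
S37 / helper400 — piece KRON, part (K1): `p`-sections of Laurent series and the section matrix.

For `f ∈ R((T))` the *section matrix* `secMat p f ∈ Mat_p(R((q)))` is the matrix of multiplication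
by `f` on `R((T))`, seen as a free module over `V_p (R((q)))` (`V_p = qExpand R p : q ↦ T ^ p`) with
basis `1, T, …, T^{p-1}`.  We prove that `secMat p` is multiplicative, sends `V_p a` to the scalar
matrix `a`, and satisfies Cayley–Hamilton in the form `(charpoly.map V_p).eval f = 0`.

(The section matrix idea is due to helper807, `S28/H807/Section.lean`; this file is an independent
self-contained development with the multiplicative structure needed for the Kronecker congruence.)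
-/




set_option autoImplicit false

noncomputable section

open ModularCurve HahnSeries Polynomial Matrix

namespace Fermat.Agent.S37.H400

variable {R : Type*} [CommRing R]

/-- The `r`-th `p`-section `∑ₘ f_{pm+r} qᵐ` of a Laurent series `f`. -/
def secL (p : ℕ) [NeZero p] (r : ℤ) (f : LaurentSeries R) : LaurentSeries R :=
  HahnSeries.ofSuppBddBelow (fun m : ℤ => f.coeff ((p : ℤ) * m + r))
    ⟨(f.order - r) / (p : ℤ), by
      intro m hm
      by_contra hlt
      apply hm
      apply HahnSeries.coeff_eq_zero_of_lt_order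
      have hp : (0 : ℤ) < (p : ℤ) := by exact_mod_cast Nat.pos_of_ne_zero (NeZero.ne p)
      have h1 : m + 1 ≤ (f.order - r) / (p : ℤ) := not_le.mp hlt
      have h2 : (m + 1) * (p : ℤ) ≤ f.order - r := (Int.le_ediv_iff_mul_le hp).mp h1
      nlinarith⟩

@[simp]
theorem secL_coeff (p : ℕ) [NeZero p] (r : ℤ) (f : LaurentSeries R) (m : ℤ) :
    (secL p r f).coeff m = f.coeff ((p : ℤ) * m + r) := rfl

theorem secL_coeffMap {S : Type*} [CommRing S] (φ : R →+* S) (p : ℕ) [NeZero p] (r : ℤ)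
    (f : LaurentSeries R) : secL p r (coeffMap φ f) = coeffMap φ (secL p r f) := by
  ext m
  simp

theorem secL_add (p : ℕ) [NeZero p] (r : ℤ) (f g : LaurentSeries R) :
    secL p r (f + g) = secL p r f + secL p r g := by
  ext m
  simp

theorem secL_zero (p : ℕ) [NeZero p] (r : ℤ) : secL p r (0 : LaurentSeries R) = 0 := by
  ext m
  simp

theorem secL_sum (p : ℕ) [NeZero p] (r : ℤ) {ι : Type*} (s : Finset ι)
    (F : ι → LaurentSeries R) : secL p r (∑ i ∈ s, F i) = ∑ i ∈ s, secL p r (F i) := by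
  classical
  induction s using Finset.induction_on with
  | empty => simp [secL_zero]
  | insert a s ha ih => rw [Finset.sum_insert ha, Finset.sum_insert ha, secL_add, ih]

/-- Shifting by `T ^ k` shifts the section index. -/
theorem secL_mul_single (p : ℕ) [NeZero p] (r k : ℤ) (f : LaurentSeries R) :
    secL p r (f * HahnSeries.single k (1 : R)) = secL p (r - k) f := by
  ext m
  rw [secL_coeff, secL_coeff]
  have : (p : ℤ) * m + r = ((p : ℤ) * m + (r - k)) + k := by ring
  rw [this, HahnSeries.coeff_mul_single_add, mul_one]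

/-- The recombination `∑ᵢ V_p(aᵢ) Tⁱ` of a family of sections. -/
def recomb (p : ℕ) [NeZero p] (a : Fin p → LaurentSeries R) : LaurentSeries R :=
  ∑ i : Fin p, qExpand R p (a i) * HahnSeries.single ((i : ℕ) : ℤ) (1 : R)

theorem coeff_qExpand_mul_single (p : ℕ) [NeZero p] (a : LaurentSeries R) (i : Fin p)
    (m : ℤ) (j : Fin p) :
    (qExpand R p a * HahnSeries.single ((i : ℕ) : ℤ) (1 : R)).coeff
        ((p : ℤ) * m + ((j : ℕ) : ℤ)) = if j = i then a.coeff m else 0 := by
  have hi : ((i : ℕ) : ℤ) < p := by exact_mod_cast i.2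
  have hj : ((j : ℕ) : ℤ) < p := by exact_mod_cast j.2
  have hi0 : (0 : ℤ) ≤ ((i : ℕ) : ℤ) := by positivity
  have hj0 : (0 : ℤ) ≤ ((j : ℕ) : ℤ) := by positivity
  have h : (p : ℤ) * m + ((j : ℕ) : ℤ) =
      ((p : ℤ) * m + ((j : ℕ) : ℤ) - ((i : ℕ) : ℤ)) + ((i : ℕ) : ℤ) := by ring
  rw [h, HahnSeries.coeff_mul_single_add, mul_one]
  split_ifs with hji
  · subst hji
    rw [add_sub_cancel_right, qExpand_coeff_mul]
  · apply qExpand_coeff_of_not_dvd
    intro hd
    apply hji
    apply Fin.ext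
    have h2 : (p : ℤ) ∣ ((j : ℕ) : ℤ) - ((i : ℕ) : ℤ) := by
      have : (p : ℤ) * m + ((j : ℕ) : ℤ) - ((i : ℕ) : ℤ)
          = (p : ℤ) * m + (((j : ℕ) : ℤ) - ((i : ℕ) : ℤ)) := by ring
      rw [this] at hd
      exact (Int.dvd_add_right (dvd_mul_right _ _)).mp hd
    obtain ⟨c, hc⟩ := h2
    have hc0 : c = 0 := by
      by_contra hne
      rcases lt_or_gt_of_ne hne with hlt | hgt
      · have : (p : ℤ) * c ≤ (p : ℤ) * (-1) := by
          apply mul_le_mul_of_nonneg_left _ (by positivity)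
          omega
        omega
      · have : (p : ℤ) * 1 ≤ (p : ℤ) * c := by
          apply mul_le_mul_of_nonneg_left _ (by positivity)
          omega
        omega
    rw [hc0, mul_zero] at hc
    have : ((j : ℕ) : ℤ) = ((i : ℕ) : ℤ) := by omega
    exact_mod_cast this

/-- Sections of a recombination. -/
theorem secL_recomb (p : ℕ) [NeZero p] (a : Fin p → LaurentSeries R) (j : Fin p) :
    secL p ((j : ℕ) : ℤ) (recomb p a) = a j := by
  ext m
  rw [secL_coeff, recomb, HahnSeries.coeff_sum]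
  simp_rw [coeff_qExpand_mul_single]
  simp

/-- Every Laurent series is the recombination of its sections. -/
theorem recomb_secL (p : ℕ) [NeZero p] (f : LaurentSeries R) :
    recomb p (fun i : Fin p => secL p ((i : ℕ) : ℤ) f) = f := by
  have hp : (0 : ℤ) < (p : ℤ) := by exact_mod_cast Nat.pos_of_ne_zero (NeZero.ne p)
  ext n
  have hlt : (n % (p : ℤ)).toNat < p := by
    have h1 : n % (p : ℤ) < p := Int.emod_lt_of_pos n hp
    have h0 : 0 ≤ n % (p : ℤ) := Int.emod_nonneg n hp.ne'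
    omega
  set j : Fin p := ⟨(n % (p : ℤ)).toNat, hlt⟩ with hj
  have hjv : ((j : ℕ) : ℤ) = n % (p : ℤ) := by
    simp only [hj]
    exact Int.toNat_of_nonneg (Int.emod_nonneg n hp.ne')
  have hn : n = (p : ℤ) * (n / (p : ℤ)) + ((j : ℕ) : ℤ) := by
    rw [hjv]; have := Int.emod_add_mul_ediv n (p : ℤ); linarith
  rw [recomb, HahnSeries.coeff_sum]
  conv_lhs =>
    enter [2, i]
    rw [hn, coeff_qExpand_mul_single]
  simp only [Finset.sum_ite_eq, Finset.mem_univ, if_true, secL_coeff]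
  rw [← hn]

/-- `V_p`-semilinearity of the sections. -/
theorem secL_qExpand_mul (p : ℕ) [NeZero p] (a h : LaurentSeries R) (j : Fin p) :
    secL p ((j : ℕ) : ℤ) (qExpand R p a * h) = a * secL p ((j : ℕ) : ℤ) h := by
  conv_lhs => rw [← recomb_secL p h]
  have : qExpand R p a * recomb p (fun i : Fin p => secL p ((i : ℕ) : ℤ) h)
      = recomb p (fun i : Fin p => a * secL p ((i : ℕ) : ℤ) h) := by
    simp only [recomb, Finset.mul_sum, map_mul, mul_assoc]
  rw [this, secL_recomb]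

/-- The section matrix of `f`: entry `(i', i)` is the `i'`-th section of `f · Tⁱ`,
i.e. the `(i' - i)`-th section of `f`. -/
def secMat (p : ℕ) [NeZero p] (f : LaurentSeries R) :
    Matrix (Fin p) (Fin p) (LaurentSeries R) :=
  fun i' i => secL p ((i' : ℕ) : ℤ) (f * HahnSeries.single ((i : ℕ) : ℤ) (1 : R))

theorem secMat_apply (p : ℕ) [NeZero p] (f : LaurentSeries R) (i' i : Fin p) :
    secMat p f i' i = secL p ((i' : ℕ) : ℤ) (f * HahnSeries.single ((i : ℕ) : ℤ) (1 : R)) :=
  rfl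

theorem secMat_apply' (p : ℕ) [NeZero p] (f : LaurentSeries R) (i' i : Fin p) :
    secMat p f i' i = secL p (((i' : ℕ) : ℤ) - ((i : ℕ) : ℤ)) f := by
  rw [secMat_apply, secL_mul_single]

theorem secMat_coeffMap {S : Type*} [CommRing S] (φ : R →+* S) (p : ℕ) [NeZero p]
    (f : LaurentSeries R) :
    secMat p (coeffMap φ f) = (secMat p f).map (coeffMap φ) := by
  ext i' i : 1
  simp only [secMat_apply', Matrix.map_apply, secL_coeffMap]

/-- Key identity: `f · Tⁱ = ∑_{i'} V_p(M_{i',i}) · T^{i'}`. -/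
theorem mul_single_eq_recomb (p : ℕ) [NeZero p] (f : LaurentSeries R) (i : Fin p) :
    f * HahnSeries.single ((i : ℕ) : ℤ) (1 : R) = recomb p (fun i' => secMat p f i' i) :=
  (recomb_secL p _).symm

/-- The section matrix is multiplicative. -/
theorem secMat_mul (p : ℕ) [NeZero p] (f g : LaurentSeries R) :
    secMat p (f * g) = secMat p f * secMat p g := by
  ext i' i : 1
  have hmul : (secMat p f * secMat p g) i' i = ∑ j, secMat p f i' j * secMat p g j i :=
    Matrix.mul_apply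
  rw [hmul, secMat_apply, mul_assoc, mul_single_eq_recomb p g i, recomb,
    Finset.mul_sum, secL_sum p _ Finset.univ]
  apply Finset.sum_congr rfl
  intro j _
  rw [← mul_assoc, mul_comm f, mul_assoc, secL_qExpand_mul, mul_comm]
  rfl

theorem secL_single_one (p : ℕ) [NeZero p] (i' i : Fin p) :
    secL p ((i' : ℕ) : ℤ) (HahnSeries.single ((i : ℕ) : ℤ) (1 : R)) =
      if i' = i then 1 else 0 := by
  have h := secL_recomb p (fun j : Fin p => if j = i then (1 : LaurentSeries R) else 0) i'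
  have h2 : recomb p (fun j : Fin p => if j = i then (1 : LaurentSeries R) else 0)
      = HahnSeries.single ((i : ℕ) : ℤ) (1 : R) := by
    rw [recomb, Finset.sum_eq_single i]
    · simp
    · intro b _ hb; simp [hb]
    · intro h; exact absurd (Finset.mem_univ _) h
  rw [h2] at h
  exact h

/-- The section matrix of `V_p a` is the scalar matrix `a`. -/
theorem secMat_qExpand (p : ℕ) [NeZero p] (a : LaurentSeries R) :
    secMat p (qExpand R p a) = Matrix.scalar (Fin p) a := by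
  ext i' i : 1
  rw [secMat_apply, secL_qExpand_mul, secL_single_one, Matrix.scalar_apply,
    Matrix.diagonal_apply]
  split_ifs <;> simp

theorem secMat_one (p : ℕ) [NeZero p] : secMat p (1 : LaurentSeries R) = 1 := by
  have := secMat_qExpand p (1 : LaurentSeries R)
  rwa [map_one, map_one] at this

theorem secMat_pow (p : ℕ) [NeZero p] (f : LaurentSeries R) (n : ℕ) :
    secMat p (f ^ n) = secMat p f ^ n := by
  induction n with
  | zero => rw [pow_zero, pow_zero, secMat_one]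
  | succ n ih => rw [pow_succ, pow_succ, secMat_mul, ih]

/-- **Cayley–Hamilton for the section matrix**: the characteristic polynomial of `secMat p f`,
with coefficients pushed along `V_p`, kills `f`. -/
theorem secMat_charpoly_eval (p : ℕ) [NeZero p] (f : LaurentSeries R) :
    (((secMat p f).charpoly).map (qExpand R p)).eval f = 0 := by
  set A : Matrix (Fin p) (Fin p) (LaurentSeries R) := (secMat p f).map (qExpand R p) with hA
  set v : Fin p → LaurentSeries R := fun i => HahnSeries.single ((i : ℕ) : ℤ) (1 : R) with hv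
  set B : Matrix (Fin p) (Fin p) (LaurentSeries R) := Matrix.scalar (Fin p) f - Aᵀ with hB
  have hBv : B *ᵥ v = 0 := by
    funext i
    simp only [hB, Matrix.sub_mulVec, Pi.sub_apply, Pi.zero_apply]
    rw [sub_eq_zero]
    have h1 : (Matrix.scalar (Fin p) f *ᵥ v) i = f * v i := by
      simp [Matrix.scalar_apply, Matrix.mulVec, dotProduct, Matrix.diagonal_apply]
    rw [h1]
    simp only [Matrix.mulVec, dotProduct, Matrix.transpose_apply, hA, Matrix.map_apply, hv]
    exact mul_single_eq_recomb p f i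
  have hdet : B.det • v = 0 := by
    have h : (Matrix.adjugate B * B) *ᵥ v = (B.det • (1 : Matrix (Fin p) (Fin p) _)) *ᵥ v := by
      rw [Matrix.adjugate_mul]
    rw [← Matrix.mulVec_mulVec, hBv, Matrix.mulVec_zero] at h
    rw [Matrix.smul_mulVec, Matrix.one_mulVec] at h
    exact h.symm
  have h0 : B.det * v ⟨0, Nat.pos_of_ne_zero (NeZero.ne p)⟩ = 0 := by
    have := congrFun hdet ⟨0, Nat.pos_of_ne_zero (NeZero.ne p)⟩
    simpa using this
  have hv0 : v ⟨0, Nat.pos_of_ne_zero (NeZero.ne p)⟩ = 1 := by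
    simp only [hv]
    rfl
  rw [hv0, mul_one] at h0
  rw [← Matrix.charpoly_map, ← hA, ← Matrix.charpoly_transpose, Matrix.eval_charpoly]
  exact h0

end Fermat.Agent.S37.H400

end

end
-- ===== PACK-END S37/H400/KronSection.lean

-- ===== PACK-BEGIN S28/H628/Hermite.lean
section
/-
S28 long-shot, helper628: Hermite normal form for `diag(d,1) * γ`, `γ ∈ SL(2,ℤ)`.

Pure integer-matrix statement + the corollary for the action on the upper half plane.
Mathlib only.
-/


set_option autoImplicit false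

noncomputable section

namespace Fermat.Agent.S28.H628

open Matrix MatrixGroups UpperHalfPlane

/-- **Hermite normal form** (integer matrices).  For `γ ∈ SL(2,ℤ)` and `d ≥ 1` there are
`γ' ∈ SL(2,ℤ)` and natural numbers `a, b, d'` with `a * d' = d`, `b < d'`,
`a = gcd(d, γ₁₀)`, `gcd(a, b, d') = 1` and
`diag(d,1) * γ = γ' * [[a, b], [0, d']]`. -/
theorem hermite_int (γ : SL(2, ℤ)) (d : ℕ) (hd : 0 < d) :
    ∃ (γ' : SL(2, ℤ)) (a b d' : ℕ), a * d' = d ∧ b < d' ∧ a = Nat.gcd d (γ 1 0).natAbs ∧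
      Nat.gcd a (Nat.gcd b d') = 1 ∧
      (d' : ℤ) ∣ (γ 1 0 / (a : ℤ)) * b - γ 1 1 ∧
      (!![(d : ℤ), 0; 0, 1] : Matrix (Fin 2) (Fin 2) ℤ) * (γ : Matrix (Fin 2) (Fin 2) ℤ)
        = (γ' : Matrix (Fin 2) (Fin 2) ℤ) * !![(a : ℤ), (b : ℤ); 0, (d' : ℤ)] := by
  -- entries of γ
  set A : ℤ := γ 0 0 with hA
  set B : ℤ := γ 0 1 with hB
  set C : ℤ := γ 1 0 with hC
  set D : ℤ := γ 1 1 with hD
  have hdet : A * D - B * C = 1 := by
    have := γ.det_coe
    rw [Matrix.det_fin_two] at this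
    simpa [hA, hB, hC, hD] using this
  -- the gcd
  set g : ℕ := Nat.gcd d C.natAbs with hg
  have hgpos : 0 < g := Nat.gcd_pos_of_pos_left _ hd
  obtain ⟨d', hd'⟩ : g ∣ d := Nat.gcd_dvd_left _ _
  have hgC : (g : ℤ) ∣ C := by
    have : g ∣ C.natAbs := Nat.gcd_dvd_right _ _
    exact Int.natCast_dvd.mpr this
  obtain ⟨C', hC'⟩ := hgC
  have hd'pos : 0 < d' := by
    rcases Nat.eq_zero_or_pos d' with h | h
    · rw [h, mul_zero] at hd'; omega
    · exact h
  -- coprimality of d' and C'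
  have hcop1 : IsCoprime (d' : ℤ) C' := by
    have h1 : Nat.gcd d C.natAbs = g := rfl
    have h2 : Nat.Coprime (d / g) (C.natAbs / g) := Nat.coprime_div_gcd_div_gcd hgpos
    have h3 : d / g = d' := by rw [hd']; exact Nat.mul_div_cancel_left _ hgpos
    have h4 : C.natAbs / g = C'.natAbs := by
      rw [hC', Int.natAbs_mul, Int.natAbs_natCast]; exact Nat.mul_div_cancel_left _ hgpos
    rw [h3, h4] at h2
    rw [Int.isCoprime_iff_gcd_eq_one]
    show Nat.gcd (d' : ℤ).natAbs C'.natAbs = 1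
    rw [Int.natAbs_natCast]
    exact h2
  have hcop2 : IsCoprime A C' := by
    refine ⟨D, -(B * g), ?_⟩
    rw [hC'] at hdet
    linear_combination hdet
  have hcop : IsCoprime ((d' : ℤ) * A) C' := IsCoprime.mul_left hcop1 hcop2
  obtain ⟨u, v, huv⟩ := hcop
  -- the (0,1) entry before reduction
  set B' : ℤ := u * (d * B) + v * D with hB'
  set k : ℤ := B' / (d' : ℤ) with hk
  set b : ℤ := B' % (d' : ℤ) with hb
  have hd'z : (0 : ℤ) < d' := by exact_mod_cast hd'pos
  have hb0 : 0 ≤ b := Int.emod_nonneg _ hd'z.ne'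
  have hb1 : b < d' := Int.emod_lt_of_pos _ hd'z
  have hBb : B' = b + k * d' := by
    rw [hb, hk]; have := Int.emod_add_mul_ediv B' (d' : ℤ); linarith
  have hdz : (d : ℤ) = g * d' := by exact_mod_cast hd'
  -- key relation
  have hkey : C' * (d : ℤ) * B - (d' : ℤ) * A * D + d' = 0 := by
    have : C' * (d : ℤ) * B - (d' : ℤ) * A * D + d' = (d' : ℤ) * (1 - (A * D - B * C)) := by
      rw [hC', hdz]; ring
    rw [this, hdet]; ring
  -- build γ'
  have hdet' : (!![(d' : ℤ) * A, (d' : ℤ) * A * k - v; C', C' * k + u]).det = 1 := by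
    rw [Matrix.det_fin_two]
    simp only [Matrix.of_apply, Matrix.cons_val', Matrix.cons_val_zero, Matrix.cons_val_one,
      Matrix.empty_val', Matrix.cons_val_fin_one]
    linear_combination huv
  refine ⟨⟨!![(d' : ℤ) * A, (d' : ℤ) * A * k - v; C', C' * k + u], hdet'⟩, g, b.toNat, d',
    hd'.symm, ?_, rfl, ?_, ?_, ?_⟩
  · -- b < d'
    have : (b.toNat : ℤ) = b := Int.toNat_of_nonneg hb0
    exact_mod_cast this ▸ hb1
  · -- gcd (g, b, d') = 1
    have hbn : (b.toNat : ℤ) = b := Int.toNat_of_nonneg hb0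
    set e : ℕ := Nat.gcd g (Nat.gcd b.toNat d') with he
    have he1 : (e : ℤ) ∣ g := Int.natCast_dvd_natCast.mpr (Nat.gcd_dvd_left _ _)
    have he2 : (e : ℤ) ∣ b := by
      rw [← hbn]
      exact Int.natCast_dvd_natCast.mpr ((Nat.gcd_dvd_right _ _).trans (Nat.gcd_dvd_left _ _))
    have he3 : (e : ℤ) ∣ d' :=
      Int.natCast_dvd_natCast.mpr ((Nat.gcd_dvd_right _ _).trans (Nat.gcd_dvd_right _ _))
    have heC : (e : ℤ) ∣ C := by rw [hC']; exact Dvd.dvd.mul_right he1 _
    have heD : (e : ℤ) ∣ D := by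
      have hDeq : D = C' * b + (C' * k + u) * d' := by
        have h1 : C' * B' + u * d' = D := by
          rw [hB']
          linear_combination u * hkey + D * huv
        rw [← h1, hBb]; ring
      rw [hDeq]
      exact dvd_add (Dvd.dvd.mul_left he2 _) (Dvd.dvd.mul_left he3 _)
    have he1' : (e : ℤ) ∣ 1 := by
      rw [← hdet]
      exact dvd_sub (Dvd.dvd.mul_left heD _) (Dvd.dvd.mul_left heC _)
    have : e ∣ 1 := by exact_mod_cast he1'
    exact Nat.dvd_one.mp this
  · -- the congruence determining `b`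
    have hbn : (b.toNat : ℤ) = b := Int.toNat_of_nonneg hb0
    rw [hbn]
    have hCg : C / (g : ℤ) = C' := by
      rw [hC']; exact Int.mul_ediv_cancel_left _ (by exact_mod_cast hgpos.ne')
    rw [hCg]
    have hDeq : D = C' * b + (C' * k + u) * d' := by
      have h1 : C' * B' + u * d' = D := by
        rw [hB']
        linear_combination u * hkey + D * huv
      rw [← h1, hBb]; ring
    refine ⟨-(C' * k + u), ?_⟩
    linear_combination (-1 : ℤ) * hDeq
  · -- the matrix identity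
    have hbn : (b.toNat : ℤ) = b := Int.toNat_of_nonneg hb0
    rw [hbn]
    have e00 : (d : ℤ) * A = (d' : ℤ) * A * g := by rw [hdz]; ring
    have e10 : C = C' * g := by rw [hC']; ring
    have e01 : (d : ℤ) * B = (d' : ℤ) * A * b + ((d' : ℤ) * A * k - v) * d' := by
      have h1 : (d' : ℤ) * A * B' - v * d' = d * B := by
        rw [hB']
        linear_combination (-v) * hkey + (d : ℤ) * B * huv
      rw [← h1, hBb]; ring
    have e11 : D = C' * b + (C' * k + u) * d' := by
      have h1 : C' * B' + u * d' = D := by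
        rw [hB']
        linear_combination u * hkey + D * huv
      rw [← h1, hBb]; ring
    ext i j
    fin_cases i <;> fin_cases j
    · simpa [Matrix.mul_apply, Fin.sum_univ_two] using e00
    · simpa [Matrix.mul_apply, Fin.sum_univ_two] using e01
    · simpa [Matrix.mul_apply, Fin.sum_univ_two] using e10
    · simpa [Matrix.mul_apply, Fin.sum_univ_two] using e11

/-! ### Canonical Hermite data `(hermA, hermB, hermD)` attached to `(d, γ)` -/

/-- `a = gcd(d, γ₁₀)`. -/
def hermA (d : ℕ) (γ : SL(2, ℤ)) : ℕ := Nat.gcd d (γ 1 0).natAbs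

/-- `d' = d / a`. -/
def hermD (d : ℕ) (γ : SL(2, ℤ)) : ℕ := d / hermA d γ

/-- The property characterising `b`: `b < d'` and `(γ₁₀ / a) * b ≡ γ₁₁ (mod d')`. -/
def HermBProp (d : ℕ) (γ : SL(2, ℤ)) (b : ℕ) : Prop :=
  b < hermD d γ ∧ (hermD d γ : ℤ) ∣ (γ 1 0 / (hermA d γ : ℤ)) * b - γ 1 1

open Classical in
/-- Auxiliary: some natural number satisfying `P` (or `0` if there is none). -/
def chooseNatOr0 (P : ℕ → Prop) : ℕ :=
  if h : ∃ b, P b then Classical.choose h else 0

theorem chooseNatOr0_spec {P : ℕ → Prop} (h : ∃ b, P b) : P (chooseNatOr0 P) := by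
  unfold chooseNatOr0
  rw [dif_pos h]
  exact Classical.choose_spec h

/-- `b` = the unique residue `< d'` with `(γ₁₀ / a) * b ≡ γ₁₁ (mod d')` (and `0` if `d = 0`). -/
def hermB (d : ℕ) (γ : SL(2, ℤ)) : ℕ := chooseNatOr0 (HermBProp d γ)

theorem hermA_dvd (d : ℕ) (γ : SL(2, ℤ)) : hermA d γ ∣ d := Nat.gcd_dvd_left _ _

theorem hermA_pos {d : ℕ} (hd : 0 < d) (γ : SL(2, ℤ)) : 0 < hermA d γ :=
  Nat.gcd_pos_of_pos_left _ hd

theorem hermA_mul_hermD (d : ℕ) (γ : SL(2, ℤ)) : hermA d γ * hermD d γ = d :=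
  Nat.mul_div_cancel' (hermA_dvd d γ)

theorem hermD_pos {d : ℕ} (hd : 0 < d) (γ : SL(2, ℤ)) : 0 < hermD d γ := by
  rcases Nat.eq_zero_or_pos (hermD d γ) with h | h
  · have := hermA_mul_hermD d γ
    rw [h, mul_zero] at this; omega
  · exact h

theorem hermD_dvd (d : ℕ) (γ : SL(2, ℤ)) : hermD d γ ∣ d :=
  ⟨hermA d γ, by rw [mul_comm]; exact (hermA_mul_hermD d γ).symm⟩

theorem hermA_cast_dvd (d : ℕ) (γ : SL(2, ℤ)) : (hermA d γ : ℤ) ∣ γ 1 0 :=
  Int.natCast_dvd.mpr (Nat.gcd_dvd_right _ _)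

theorem herm_isCoprime {d : ℕ} (hd : 0 < d) (γ : SL(2, ℤ)) :
    IsCoprime (hermD d γ : ℤ) (γ 1 0 / (hermA d γ : ℤ)) := by
  have hgpos := hermA_pos hd γ
  obtain ⟨C', hC'⟩ := hermA_cast_dvd d γ
  have hCg : γ 1 0 / (hermA d γ : ℤ) = C' := by
    rw [hC']; exact Int.mul_ediv_cancel_left _ (by exact_mod_cast hgpos.ne')
  rw [hCg]
  have h2 : Nat.Coprime (d / hermA d γ) ((γ 1 0).natAbs / hermA d γ) :=
    Nat.coprime_div_gcd_div_gcd hgpos
  have h4 : (γ 1 0).natAbs / hermA d γ = C'.natAbs := by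
    rw [hC', Int.natAbs_mul, Int.natAbs_natCast]; exact Nat.mul_div_cancel_left _ hgpos
  rw [h4] at h2
  rw [Int.isCoprime_iff_gcd_eq_one]
  show Nat.gcd (hermD d γ : ℤ).natAbs C'.natAbs = 1
  rw [Int.natAbs_natCast]
  exact h2

theorem hermBProp_unique {d : ℕ} (hd : 0 < d) (γ : SL(2, ℤ)) {b₁ b₂ : ℕ}
    (h₁ : HermBProp d γ b₁) (h₂ : HermBProp d γ b₂) : b₁ = b₂ := by
  obtain ⟨h₁l, h₁d⟩ := h₁
  obtain ⟨h₂l, h₂d⟩ := h₂
  have hcop := herm_isCoprime hd γ
  have hdvd : (hermD d γ : ℤ) ∣ (γ 1 0 / (hermA d γ : ℤ)) * ((b₁ : ℤ) - b₂) := by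
    have := dvd_sub h₁d h₂d
    have e : (γ 1 0 / (hermA d γ : ℤ)) * ((b₁ : ℤ) - b₂)
        = (γ 1 0 / (hermA d γ : ℤ)) * b₁ - γ 1 1 - ((γ 1 0 / (hermA d γ : ℤ)) * b₂ - γ 1 1) := by
      ring
    rw [e]; exact this
  have hdvd' : (hermD d γ : ℤ) ∣ (b₁ : ℤ) - b₂ := hcop.dvd_of_dvd_mul_left hdvd
  have := Int.eq_of_sub_eq_zero (Int.eq_zero_of_abs_lt_dvd hdvd' (by
    rw [abs_lt]; constructor <;> omega))
  exact_mod_cast this

theorem hermite_exists_hermBProp {d : ℕ} (hd : 0 < d) (γ : SL(2, ℤ)) :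
    ∃ b, HermBProp d γ b ∧ Nat.gcd (hermA d γ) (Nat.gcd b (hermD d γ)) = 1 ∧
      ∃ γ' : SL(2, ℤ),
        (!![(d : ℤ), 0; 0, 1] : Matrix (Fin 2) (Fin 2) ℤ) * (γ : Matrix (Fin 2) (Fin 2) ℤ)
          = (γ' : Matrix (Fin 2) (Fin 2) ℤ) *
            !![(hermA d γ : ℤ), (b : ℤ); 0, (hermD d γ : ℤ)] := by
  obtain ⟨γ', a, b, d', had, hb, ha, hgcd, hdvd, hmat⟩ := hermite_int γ d hd
  have haA : a = hermA d γ := ha
  have hdD : d' = hermD d γ := by
    have h1 := hermA_mul_hermD d γ
    rw [← haA] at h1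
    have hapos : 0 < a := haA ▸ hermA_pos hd γ
    exact Nat.eq_of_mul_eq_mul_left hapos (had.trans h1.symm)
  subst haA
  subst hdD
  exact ⟨b, ⟨hb, hdvd⟩, hgcd, γ', hmat⟩

theorem hermBProp_hermB {d : ℕ} (hd : 0 < d) (γ : SL(2, ℤ)) : HermBProp d γ (hermB d γ) := by
  have h : ∃ b, HermBProp d γ b := by
    obtain ⟨b, hb, -⟩ := hermite_exists_hermBProp hd γ
    exact ⟨b, hb⟩
  exact chooseNatOr0_spec h

theorem hermB_lt {d : ℕ} (hd : 0 < d) (γ : SL(2, ℤ)) : hermB d γ < hermD d γ :=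
  (hermBProp_hermB hd γ).1

theorem hermB_dvd {d : ℕ} (hd : 0 < d) (γ : SL(2, ℤ)) :
    (hermD d γ : ℤ) ∣ (γ 1 0 / (hermA d γ : ℤ)) * hermB d γ - γ 1 1 :=
  (hermBProp_hermB hd γ).2

theorem hermB_eq_of_prop {d : ℕ} (hd : 0 < d) (γ : SL(2, ℤ)) {b : ℕ} (hb : HermBProp d γ b) :
    hermB d γ = b :=
  hermBProp_unique hd γ (hermBProp_hermB hd γ) hb

/-- **Hermite normal form, canonical data.**  `diag(d,1) * γ = γ' * [[a,b],[0,d']]` with
`(a,b,d') = (hermA d γ, hermB d γ, hermD d γ)`. -/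
theorem hermite_spec {d : ℕ} (hd : 0 < d) (γ : SL(2, ℤ)) :
    ∃ γ' : SL(2, ℤ),
      (!![(d : ℤ), 0; 0, 1] : Matrix (Fin 2) (Fin 2) ℤ) * (γ : Matrix (Fin 2) (Fin 2) ℤ)
        = (γ' : Matrix (Fin 2) (Fin 2) ℤ) *
          !![(hermA d γ : ℤ), (hermB d γ : ℤ); 0, (hermD d γ : ℤ)] := by
  obtain ⟨b, hb, -, γ', hmat⟩ := hermite_exists_hermBProp hd γ
  rw [hermB_eq_of_prop hd γ hb]
  exact ⟨γ', hmat⟩

theorem herm_gcd {d : ℕ} (hd : 0 < d) (γ : SL(2, ℤ)) :
    Nat.gcd (hermA d γ) (Nat.gcd (hermB d γ) (hermD d γ)) = 1 := by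
  obtain ⟨b, hb, hg, -⟩ := hermite_exists_hermBProp hd γ
  rw [hermB_eq_of_prop hd γ hb]
  exact hg

/-- The Hermite data depend only on the bottom row of `γ`. -/
theorem herm_congr_bottom (d : ℕ) {γ₁ γ₂ : SL(2, ℤ)} (h0 : γ₁ 1 0 = γ₂ 1 0)
    (h1 : γ₁ 1 1 = γ₂ 1 1) :
    hermA d γ₁ = hermA d γ₂ ∧ hermB d γ₁ = hermB d γ₂ ∧ hermD d γ₁ = hermD d γ₂ := by
  have hA : hermA d γ₁ = hermA d γ₂ := by unfold hermA; rw [h0]
  have hD : hermD d γ₁ = hermD d γ₂ := by unfold hermD; rw [hA]
  have hP : ∀ b, HermBProp d γ₁ b ↔ HermBProp d γ₂ b := by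
    intro b; unfold HermBProp; rw [hA, hD, h0, h1]
  refine ⟨hA, ?_, hD⟩
  unfold hermB
  have hP' : HermBProp d γ₁ = HermBProp d γ₂ := funext fun b => propext (hP b)
  rw [hP']

/-- Identity element: `(a, b, d') = (d, 0, 1)`. -/
theorem herm_one {d : ℕ} (hd : 0 < d) :
    hermA d (1 : SL(2, ℤ)) = d ∧ hermB d (1 : SL(2, ℤ)) = 0 ∧ hermD d (1 : SL(2, ℤ)) = 1 := by
  have hA : hermA d (1 : SL(2, ℤ)) = d := by simp [hermA]
  have hD : hermD d (1 : SL(2, ℤ)) = 1 := by
    unfold hermD; rw [hA]; exact Nat.div_self hd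
  refine ⟨hA, ?_, hD⟩
  have := hermB_lt hd (1 : SL(2, ℤ))
  rw [hD] at this
  omega

/-! ### Independence of the coset `Γ₀(N) γ` -/

theorem herm_Gamma0_mul {N d : ℕ} (hd : 0 < d) (hdN : d ∣ N) {γ₀ : SL(2, ℤ)}
    (hγ₀ : γ₀ ∈ CongruenceSubgroup.Gamma0 N) (γ : SL(2, ℤ)) :
    hermA d (γ₀ * γ) = hermA d γ ∧ hermB d (γ₀ * γ) = hermB d γ ∧
      hermD d (γ₀ * γ) = hermD d γ := by
  -- entries
  have hN : (N : ℤ) ∣ γ₀ 1 0 := by
    rw [CongruenceSubgroup.Gamma0_mem] at hγ₀
    exact (ZMod.intCast_zmod_eq_zero_iff_dvd _ _).mp hγ₀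
  have hdc0 : (d : ℤ) ∣ γ₀ 1 0 := (Int.natCast_dvd_natCast.mpr hdN).trans hN
  have hdet0 : γ₀ 0 0 * γ₀ 1 1 - γ₀ 0 1 * γ₀ 1 0 = 1 := by
    have := γ₀.det_coe
    rw [Matrix.det_fin_two] at this
    exact this
  have hcop0 : IsCoprime (γ₀ 1 1) (d : ℤ) := by
    obtain ⟨m, hm⟩ := hdc0
    refine ⟨γ₀ 0 0, -(γ₀ 0 1 * m), ?_⟩
    rw [hm] at hdet0
    linear_combination hdet0
  have e10 : (γ₀ * γ) 1 0 = γ₀ 1 0 * γ 0 0 + γ₀ 1 1 * γ 1 0 := by
    simp [Matrix.SpecialLinearGroup.coe_mul, Matrix.mul_apply, Fin.sum_univ_two]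
  have e11 : (γ₀ * γ) 1 1 = γ₀ 1 0 * γ 0 1 + γ₀ 1 1 * γ 1 1 := by
    simp [Matrix.SpecialLinearGroup.coe_mul, Matrix.mul_apply, Fin.sum_univ_two]
  -- hermA
  have hA : hermA d (γ₀ * γ) = hermA d γ := by
    unfold hermA
    apply Nat.dvd_antisymm
    · apply Nat.dvd_gcd (Nat.gcd_dvd_left _ _)
      have h1 : ((Nat.gcd d ((γ₀ * γ) 1 0).natAbs : ℕ) : ℤ) ∣ (γ₀ * γ) 1 0 :=
        Int.natCast_dvd.mpr (Nat.gcd_dvd_right _ _)
      have h2 : ((Nat.gcd d ((γ₀ * γ) 1 0).natAbs : ℕ) : ℤ) ∣ (d : ℤ) :=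
        Int.natCast_dvd_natCast.mpr (Nat.gcd_dvd_left _ _)
      have h3 : ((Nat.gcd d ((γ₀ * γ) 1 0).natAbs : ℕ) : ℤ) ∣ γ₀ 1 1 * γ 1 0 := by
        have : γ₀ 1 1 * γ 1 0 = (γ₀ * γ) 1 0 - γ₀ 1 0 * γ 0 0 := by rw [e10]; ring
        rw [this]
        exact dvd_sub h1 (Dvd.dvd.mul_right (h2.trans hdc0) _)
      have h4 : IsCoprime ((Nat.gcd d ((γ₀ * γ) 1 0).natAbs : ℕ) : ℤ) (γ₀ 1 1) :=
        (hcop0.of_isCoprime_of_dvd_right h2).symm
      have h5 := h4.dvd_of_dvd_mul_left h3
      exact Int.natCast_dvd.mp h5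
    · apply Nat.dvd_gcd (Nat.gcd_dvd_left _ _)
      have h1 : ((Nat.gcd d (γ 1 0).natAbs : ℕ) : ℤ) ∣ γ 1 0 :=
        Int.natCast_dvd.mpr (Nat.gcd_dvd_right _ _)
      have h2 : ((Nat.gcd d (γ 1 0).natAbs : ℕ) : ℤ) ∣ (d : ℤ) :=
        Int.natCast_dvd_natCast.mpr (Nat.gcd_dvd_left _ _)
      have h3 : ((Nat.gcd d (γ 1 0).natAbs : ℕ) : ℤ) ∣ (γ₀ * γ) 1 0 := by
        rw [e10]
        exact dvd_add (Dvd.dvd.mul_right (h2.trans hdc0) _) (Dvd.dvd.mul_left h1 _)
      exact Int.natCast_dvd.mp h3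
  have hD : hermD d (γ₀ * γ) = hermD d γ := by unfold hermD; rw [hA]
  refine ⟨hA, ?_, hD⟩
  -- hermB
  apply hermB_eq_of_prop hd
  have hP := hermBProp_hermB hd γ
  refine ⟨by rw [hD]; exact hP.1, ?_⟩
  rw [hD, hA]
  have hapos : (0 : ℤ) < hermA d γ := by exact_mod_cast hermA_pos hd γ
  obtain ⟨C', hC'⟩ := hermA_cast_dvd d γ
  have hCg : γ 1 0 / (hermA d γ : ℤ) = C' := by
    rw [hC']; exact Int.mul_ediv_cancel_left _ hapos.ne'
  have hP2 := hP.2
  rw [hCg] at hP2
  -- `γ₀ 1 0 = a * d' * m`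
  obtain ⟨m, hm⟩ := hdc0
  have hdz : (d : ℤ) = hermA d γ * hermD d γ := by exact_mod_cast (hermA_mul_hermD d γ).symm
  have hquot : (γ₀ * γ) 1 0 / (hermA d γ : ℤ) = (hermD d γ : ℤ) * m * γ 0 0 + γ₀ 1 1 * C' := by
    have : (γ₀ * γ) 1 0 = (hermA d γ : ℤ) * ((hermD d γ : ℤ) * m * γ 0 0 + γ₀ 1 1 * C') := by
      linear_combination e10 + γ 0 0 * hm + m * γ 0 0 * hdz + γ₀ 1 1 * hC'
    rw [this]; exact Int.mul_ediv_cancel_left _ hapos.ne'
  rw [hquot, e11]
  obtain ⟨w, hw⟩ := hP2
  refine ⟨m * γ 0 0 * hermB d γ - hermA d γ * m * γ 0 1 + γ₀ 1 1 * w, ?_⟩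
  linear_combination (γ₀ 1 1) * hw - γ 0 1 * hm - γ 0 1 * m * hdz

/-! ### The corollary on the upper half plane -/

theorem int_lin_ne_zero (c e : ℤ) (h : c ≠ 0 ∨ e ≠ 0) (τ : ℍ) : (c : ℂ) * (τ : ℂ) + e ≠ 0 := by
  intro h0
  have him : ((c : ℂ) * (τ : ℂ) + e).im = 0 := by rw [h0]; simp
  have hre : ((c : ℂ) * (τ : ℂ) + e).re = 0 := by rw [h0]; simp
  simp only [Complex.add_im, Complex.mul_im, Complex.intCast_re, Complex.intCast_im, zero_mul,
    add_zero, UpperHalfPlane.coe_im] at him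
  have hc : (c : ℝ) = 0 := by
    rcases mul_eq_zero.mp him with h | h
    · exact h
    · exact absurd h τ.im_ne_zero
  simp only [Complex.add_re, Complex.mul_re, Complex.intCast_re, Complex.intCast_im, zero_mul,
    sub_zero, hc] at hre
  have hc' : c = 0 := by exact_mod_cast hc
  have he' : e = 0 := by
    have : (e : ℝ) = 0 := by linarith
    exact_mod_cast this
  rcases h with h | h
  · exact h hc'
  · exact h he'

theorem SL2_bottom_ne_zero (γ : SL(2, ℤ)) : γ 1 0 ≠ 0 ∨ γ 1 1 ≠ 0 := by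
  by_contra h
  rw [not_or, not_not, not_not] at h
  have := γ.det_coe
  rw [Matrix.det_fin_two, h.1, h.2] at this
  simp at this

theorem SL2_coe_smul (γ : SL(2, ℤ)) (τ : ℍ) :
    ((γ • τ : ℍ) : ℂ) = ((γ 0 0 : ℂ) * τ + (γ 0 1 : ℂ)) / ((γ 1 0 : ℂ) * τ + (γ 1 1 : ℂ)) := by
  rw [UpperHalfPlane.coe_specialLinearGroup_apply]
  simp

/-- **Hermite normal form on `ℍ`, full version.**  There is `γ' ∈ SL(2,ℤ)` (depending only on
`d`, `γ`) such that for all `τ` and `σ = (aτ + b)/d'` (with `(a,b,d')` the Hermite data):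
`γ' • σ = d • (γ • τ)` and the automorphy factors are related by
`γ'₁₀ σ + γ'₁₁ = (γ₁₀ τ + γ₁₁) / d'`. -/
theorem hermite_smul_full {d : ℕ} (hd : 0 < d) (γ : SL(2, ℤ)) :
    ∃ γ' : SL(2, ℤ), ∀ τ σ : ℍ,
      (σ : ℂ) = ((hermA d γ : ℂ) * τ + (hermB d γ : ℂ)) / (hermD d γ : ℂ) →
      ((γ' • σ : ℍ) : ℂ) = (d : ℂ) * ((γ • τ : ℍ) : ℂ) ∧
      (γ' 1 0 : ℂ) * σ + (γ' 1 1 : ℂ) = ((γ 1 0 : ℂ) * τ + (γ 1 1 : ℂ)) / (hermD d γ : ℂ) := by
  obtain ⟨γ', hmat⟩ := hermite_spec hd γ
  refine ⟨γ', fun τ σ hσ => ?_⟩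
  -- entry equations
  have h00 := congrFun (congrFun hmat 0) 0
  have h01 := congrFun (congrFun hmat 0) 1
  have h10 := congrFun (congrFun hmat 1) 0
  have h11 := congrFun (congrFun hmat 1) 1
  simp only [Matrix.mul_apply, Fin.sum_univ_two, Matrix.of_apply, Matrix.cons_val',
    Matrix.cons_val_zero, Matrix.cons_val_one, Matrix.empty_val', Matrix.cons_val_fin_one,
    zero_mul, add_zero, one_mul, zero_add, mul_zero] at h00 h01 h10 h11
  have c00 : (d : ℂ) * (γ 0 0 : ℂ) = (γ' 0 0 : ℂ) * (hermA d γ : ℂ) := by exact_mod_cast h00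
  have c01 : (d : ℂ) * (γ 0 1 : ℂ) = (γ' 0 0 : ℂ) * (hermB d γ : ℂ) + (γ' 0 1 : ℂ) * (hermD d γ : ℂ) := by
    exact_mod_cast h01
  have c10 : (γ 1 0 : ℂ) = (γ' 1 0 : ℂ) * (hermA d γ : ℂ) := by exact_mod_cast h10
  have c11 : (γ 1 1 : ℂ) = (γ' 1 0 : ℂ) * (hermB d γ : ℂ) + (γ' 1 1 : ℂ) * (hermD d γ : ℂ) := by
    exact_mod_cast h11
  have hD0 : (hermD d γ : ℂ) ≠ 0 := by exact_mod_cast (hermD_pos hd γ).ne'
  have hden1 := int_lin_ne_zero _ _ (SL2_bottom_ne_zero γ) τ
  have hden2 := int_lin_ne_zero _ _ (SL2_bottom_ne_zero γ') σ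
  have hnum : (γ' 0 0 : ℂ) * σ + (γ' 0 1 : ℂ)
      = (d : ℂ) * ((γ 0 0 : ℂ) * τ + (γ 0 1 : ℂ)) / (hermD d γ : ℂ) := by
    rw [hσ]; field_simp; linear_combination (-(τ : ℂ)) * c00 - c01
  have hdenom : (γ' 1 0 : ℂ) * σ + (γ' 1 1 : ℂ)
      = ((γ 1 0 : ℂ) * τ + (γ 1 1 : ℂ)) / (hermD d γ : ℂ) := by
    rw [hσ]; field_simp; linear_combination (-(τ : ℂ)) * c10 - c11
  refine ⟨?_, hdenom⟩
  rw [SL2_coe_smul, SL2_coe_smul]
  rw [hnum, hdenom]
  field_simp

/-- **Hermite normal form on `ℍ`.**  There is `γ' ∈ SL(2,ℤ)` (depending only on `d`, `γ`) with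
`γ' • ((aτ + b)/d') = d • (γ • τ)` for all `τ`, where `(a,b,d')` is the Hermite data. The points
`(aτ+b)/d'` are passed as arbitrary `σ : ℍ` with the right coercion to `ℂ`. -/
theorem hermite_smul {d : ℕ} (hd : 0 < d) (γ : SL(2, ℤ)) :
    ∃ γ' : SL(2, ℤ), ∀ τ σ : ℍ,
      (σ : ℂ) = ((hermA d γ : ℂ) * τ + (hermB d γ : ℂ)) / (hermD d γ : ℂ) →
      ((γ' • σ : ℍ) : ℂ) = (d : ℂ) * ((γ • τ : ℍ) : ℂ) := by
  obtain ⟨γ', h⟩ := hermite_smul_full hd γ
  exact ⟨γ', fun τ σ hσ => (h τ σ hσ).1⟩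

end Fermat.Agent.S28.H628

end

end
-- ===== PACK-END S28/H628/Hermite.lean

-- ===== PACK-BEGIN S28/H205/Conv.lean
section




/-!
# S28 analytic toolkit, part 1: convergent Laurent series on the upper half plane

`ConvTo N φ f` : the formal Laurent series `φ ∈ ℂ((t))` converges on all of `ℍ`, in the local
parameter `t = t_N(τ) = exp(2πiτ/N)`, to the function `f : ℍ → ℂ`.

Main API: closure under ring operations, uniqueness of the series, holomorphy of the limit,
inverses, substitutions `τ ↦ (aτ+b)/d`, descent along `τ ↦ τ + 1`.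
-/

set_option autoImplicit false

noncomputable section

open UpperHalfPlane Complex HahnSeries
open scoped Real Manifold

namespace Fermat.Agent.S28.H205

section Twist

variable {R : Type*} [CommRing R]

/-- The substitution `t ↦ u t` on Laurent series, for a unit `u`. -/
def twistFun (u : Rˣ) (φ : LaurentSeries R) : LaurentSeries R where
  coeff n := φ.coeff n * ((u ^ n : Rˣ) : R)
  isPWO_support' := φ.isPWO_support.mono (fun n hn => by
    simp only [Function.mem_support, ne_eq] at hn ⊢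
    exact fun h => hn (by rw [h, zero_mul]))

@[simp] theorem twistFun_coeff (u : Rˣ) (φ : LaurentSeries R) (n : ℤ) :
    (_root_.Fermat.Agent.S28.H205.twistFun u φ).coeff n = φ.coeff n * ((u ^ n : Rˣ) : R) := rfl

theorem support_twistFun (u : Rˣ) (φ : LaurentSeries R) :
    (_root_.Fermat.Agent.S28.H205.twistFun u φ).support = φ.support := by
  ext n
  simp only [HahnSeries.mem_support, _root_.Fermat.Agent.S28.H205.twistFun_coeff, ne_eq]
  constructor
  · exact fun h h0 => h (by rw [h0, zero_mul])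
  · intro h h0
    exact h ((Units.mul_left_eq_zero _).mp h0)

theorem twistFun_mul (u : Rˣ) (φ ψ : LaurentSeries R) :
    _root_.Fermat.Agent.S28.H205.twistFun u (φ * ψ) = _root_.Fermat.Agent.S28.H205.twistFun u φ * _root_.Fermat.Agent.S28.H205.twistFun u ψ := by
  ext n
  rw [_root_.Fermat.Agent.S28.H205.twistFun_coeff, HahnSeries.coeff_mul, HahnSeries.coeff_mul, Finset.sum_mul]
  have hfin : Finset.antidiagonal (_root_.Fermat.Agent.S28.H205.twistFun u φ).isPWO_support (_root_.Fermat.Agent.S28.H205.twistFun u ψ).isPWO_support n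
      = Finset.antidiagonal φ.isPWO_support ψ.isPWO_support n := by
    ext ⟨i, j⟩
    simp only [Finset.mem_antidiagonal, support_twistFun]
  rw [hfin]
  refine Finset.sum_congr rfl fun ij hij => ?_
  obtain ⟨-, -, hsum⟩ := Finset.mem_antidiagonal.mp hij
  rw [_root_.Fermat.Agent.S28.H205.twistFun_coeff, _root_.Fermat.Agent.S28.H205.twistFun_coeff, ← hsum, zpow_add, Units.val_mul]
  ring

/-- The substitution `t ↦ u t` on Laurent series, as a ring homomorphism. -/
def twist (u : Rˣ) : LaurentSeries R →+* LaurentSeries R where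
  toFun := _root_.Fermat.Agent.S28.H205.twistFun u
  map_zero' := by ext n; simp
  map_one' := by
    ext n
    rw [_root_.Fermat.Agent.S28.H205.twistFun_coeff, HahnSeries.coeff_one]
    split_ifs with h
    · subst h; simp
    · simp
  map_add' φ ψ := by ext n; simp [add_mul]
  map_mul' := twistFun_mul u

@[simp] theorem twist_coeff (u : Rˣ) (φ : LaurentSeries R) (n : ℤ) :
    (_root_.Fermat.Agent.S28.H205.twist u φ).coeff n = φ.coeff n * ((u ^ n : Rˣ) : R) := rfl

theorem twist_one (φ : LaurentSeries R) : _root_.Fermat.Agent.S28.H205.twist (1 : Rˣ) φ = φ := by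
  ext n; simp

theorem twist_mul_apply (u v : Rˣ) (φ : LaurentSeries R) :
    _root_.Fermat.Agent.S28.H205.twist (u * v) φ = _root_.Fermat.Agent.S28.H205.twist u (_root_.Fermat.Agent.S28.H205.twist v φ) := by
  ext n
  simp only [_root_.Fermat.Agent.S28.H205.twist_coeff, mul_zpow, Units.val_mul]
  ring

theorem twist_single (u : Rˣ) (n : ℤ) (r : R) :
    _root_.Fermat.Agent.S28.H205.twist u (HahnSeries.single n r) = HahnSeries.single n (r * ((u ^ n : Rˣ) : R)) := by
  ext k
  rw [_root_.Fermat.Agent.S28.H205.twist_coeff, HahnSeries.coeff_single, HahnSeries.coeff_single]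
  split_ifs with h
  · subst h; rfl
  · simp

theorem twist_C (u : Rˣ) (r : R) : _root_.Fermat.Agent.S28.H205.twist u (HahnSeries.C r) = HahnSeries.C r := by
  have h := twist_single u 0 r
  simpa [HahnSeries.C] using h

end Twist

/-- The local parameter `t_N(τ) = exp(2πiτ/N)` at the cusp `∞`. -/
def tPar (N : ℕ) (τ : ℍ) : ℂ := Function.Periodic.qParam (N : ℝ) (τ : ℂ)

theorem tPar_ne_zero (N : ℕ) (τ : ℍ) : tPar N τ ≠ 0 :=
  Function.Periodic.qParam_ne_zero _

theorem norm_tPar_lt_one (N : ℕ) [NeZero N] (τ : ℍ) : ‖tPar N τ‖ < 1 :=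
  Function.Periodic.norm_qParam_lt_one (by exact_mod_cast Nat.pos_of_ne_zero (NeZero.ne N)) τ.im_pos

theorem exists_tPar_eq (N : ℕ) [NeZero N] {q : ℂ} (hq : ‖q‖ < 1) (hq0 : q ≠ 0) :
    ∃ τ : ℍ, tPar N τ = q := by
  have hN : (0 : ℝ) < N := by exact_mod_cast Nat.pos_of_ne_zero (NeZero.ne N)
  exact ⟨⟨Function.Periodic.invQParam N q,
    Function.Periodic.im_invQParam_pos_of_norm_lt_one hN hq hq0⟩,
    Function.Periodic.qParam_right_inv hN.ne' hq0⟩

/-- Power-series level convergence. -/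
def PConv (N : ℕ) (p : PowerSeries ℂ) (F : ℍ → ℂ) : Prop :=
  ∀ τ : ℍ, HasSum (fun k : ℕ => PowerSeries.coeff k p * tPar N τ ^ k) (F τ)

/-- The sum of a power series as a function on `ℂ`. -/
def psSum (p : PowerSeries ℂ) (q : ℂ) : ℂ := ∑' k : ℕ, PowerSeries.coeff k p * q ^ k

namespace PConv

variable {N : ℕ} {p p' : PowerSeries ℂ} {F G : ℍ → ℂ}

theorem mul (hp : PConv N p F) (hq : PConv N p' G) : PConv N (p * p') (F * G) := by
  intro τ
  have h1 := hp τ
  have h2 := hq τ
  have hn1 : Summable (fun k => ‖PowerSeries.coeff k p * tPar N τ ^ k‖) := h1.summable.norm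
  have hn2 : Summable (fun k => ‖PowerSeries.coeff k p' * tPar N τ ^ k‖) := h2.summable.norm
  have hs := (summable_norm_sum_mul_antidiagonal_of_summable_norm hn1 hn2).of_norm.hasSum
  rw [← tsum_mul_tsum_eq_tsum_sum_antidiagonal_of_summable_norm hn1 hn2, h1.tsum_eq,
    h2.tsum_eq] at hs
  have hfun : (fun n : ℕ => PowerSeries.coeff n (p * p') * tPar N τ ^ n) =
      fun n => ∑ kl ∈ Finset.HasAntidiagonal.antidiagonal n,
        PowerSeries.coeff kl.1 p * tPar N τ ^ kl.1 *
          (PowerSeries.coeff kl.2 p' * tPar N τ ^ kl.2) := by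
    funext n
    rw [PowerSeries.coeff_mul, Finset.sum_mul]
    refine Finset.sum_congr rfl fun kl hkl => ?_
    rw [← Finset.HasAntidiagonal.mem_antidiagonal.mp hkl, _root_.pow_add]
    ring
  rw [hfun]
  exact hs

theorem add (hp : PConv N p F) (hq : PConv N p' G) : PConv N (p + p') (F + G) := by
  intro τ
  simpa [add_mul] using (hp τ).add (hq τ)

theorem sub (hp : PConv N p F) (hq : PConv N p' G) : PConv N (p - p') (F - G) := by
  intro τ
  simpa [sub_mul] using (hp τ).sub (hq τ)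

theorem summable_ball [NeZero N] (hp : PConv N p F) {q : ℂ} (hq : ‖q‖ < 1) :
    Summable (fun k : ℕ => PowerSeries.coeff k p * q ^ k) := by
  rcases eq_or_ne q 0 with rfl | hq0
  · refine summable_of_ne_finset_zero (s := {0}) fun k hk => ?_
    have : k ≠ 0 := by simpa using hk
    simp [this]
  · obtain ⟨τ, rfl⟩ := exists_tPar_eq N hq hq0
    exact (hp τ).summable

theorem eq_psSum (hp : PConv N p F) (τ : ℍ) : F τ = psSum p (tPar N τ) :=
  (hp τ).tsum_eq.symm

theorem hasFPowerSeriesOnBall [NeZero N] (hp : PConv N p F) :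
    HasFPowerSeriesOnBall (psSum p) (.ofScalars ℂ (fun k => PowerSeries.coeff k p)) 0 1 := by
  constructor
  · refine le_of_forall_lt_imp_le_of_dense fun r hr ↦ ?_
    lift r to NNReal using hr.ne_top
    apply FormalMultilinearSeries.le_radius_of_summable
    have hr1 : ‖((r : ℝ) : ℂ)‖ < 1 := by
      simpa using hr
    simpa [norm_mul, mul_comm, mul_left_comm, mul_assoc] using
      (hp.summable_ball hr1).norm
  · simp
  · intro y hy
    rw [← ENNReal.coe_one, Metric.eball_coe, NNReal.coe_one, mem_ball_zero_iff] at hy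
    simpa [psSum, mul_comm] using (hp.summable_ball hy).hasSum

theorem psSum_zero (p : PowerSeries ℂ) : psSum p 0 = PowerSeries.coeff 0 p := by
  rw [psSum, tsum_eq_single 0]
  · simp
  · intro k hk
    simp [hk]

theorem psSum_eq_zero_of_zero [NeZero N] (hp : PConv N p 0) {q : ℂ} (hq : ‖q‖ < 1)
    (hq0 : q ≠ 0) : psSum p q = 0 := by
  obtain ⟨τ, rfl⟩ := exists_tPar_eq N hq hq0
  exact (hp.eq_psSum τ).symm

theorem eq_zero_of_zero [NeZero N] (hp : PConv N p 0) : p = 0 := by
  have hfp := hp.hasFPowerSeriesOnBall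
  have han : AnalyticAt ℂ (psSum p) 0 := hfp.analyticAt
  rcases han.eventually_eq_zero_or_eventually_ne_zero with h | h
  · have h1 : HasFPowerSeriesAt (0 : ℂ → ℂ)
        (.ofScalars ℂ (fun k => PowerSeries.coeff k p)) 0 :=
      hfp.hasFPowerSeriesAt.congr h
    have h2 := h1.eq_zero
    have h3 := (FormalMultilinearSeries.ofScalars_series_eq_zero (E := ℂ)
      (c := fun k => PowerSeries.coeff k p)).mp h2
    ext k
    simpa using congrFun h3 k
  · exfalso
    have h2 : ∀ᶠ z in nhdsWithin (0 : ℂ) {0}ᶜ, psSum p z = 0 := by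
      filter_upwards [self_mem_nhdsWithin,
        nhdsWithin_le_nhds (Metric.ball_mem_nhds (0 : ℂ) one_pos)] with z hz hz'
      exact hp.psSum_eq_zero_of_zero (by simpa using hz') hz
    obtain ⟨z, hz1, hz2⟩ := (h.and h2).exists
    exact hz1 hz2

theorem unique [NeZero N] (hp : PConv N p F) (hp' : PConv N p' F) : p = p' := by
  have h := hp.sub hp'
  rw [sub_self] at h
  exact sub_eq_zero.mp h.eq_zero_of_zero

theorem differentiableOn_psSum [NeZero N] (hp : PConv N p F) :
    DifferentiableOn ℂ (psSum p) (Metric.ball 0 1) := by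
  have h := hp.hasFPowerSeriesOnBall.differentiableOn
  rwa [← ENNReal.ofReal_one, Metric.eball_ofReal] at h

theorem mdiff [NeZero N] (hp : PConv N p F) : MDiff F := by
  rw [UpperHalfPlane.mdifferentiable_iff]
  have hN : (0 : ℝ) < N := by exact_mod_cast Nat.pos_of_ne_zero (NeZero.ne N)
  have hG := hp.differentiableOn_psSum
  have hcomp : DifferentiableOn ℂ (psSum p ∘ Function.Periodic.qParam (N : ℝ)) {z | 0 < z.im} :=
    hG.comp (Function.Periodic.differentiable_qParam.differentiableOn) (fun z hz => by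
      simpa using Function.Periodic.norm_qParam_lt_one hN hz)
  refine hcomp.congr fun z hz => ?_
  simp only [Function.comp_apply, ofComplex_apply_of_im_pos hz]
  exact hp.eq_psSum ⟨z, hz⟩

theorem inv [NeZero N] (hp : PConv N p F) (hF : ∀ τ, F τ ≠ 0)
    (h0 : PowerSeries.coeff 0 p ≠ 0) : PConv N p⁻¹ (fun τ => (F τ)⁻¹) := by
  have hG := hp.differentiableOn_psSum
  have hne : ∀ q ∈ Metric.ball (0 : ℂ) 1, psSum p q ≠ 0 := by
    intro q hq
    rcases eq_or_ne q 0 with rfl | hq0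
    · rwa [psSum_zero]
    · obtain ⟨τ, rfl⟩ := exists_tPar_eq N (by simpa using hq) hq0
      rw [← hp.eq_psSum τ]
      exact hF τ
  have hH : DifferentiableOn ℂ (fun q => (psSum p q)⁻¹) (Metric.ball 0 1) := hG.inv hne
  set d : PowerSeries ℂ :=
    PowerSeries.mk fun n => (n.factorial : ℂ)⁻¹ * iteratedDeriv n (fun q => (psSum p q)⁻¹) 0
    with hd
  have hdconv : PConv N d (fun τ => (F τ)⁻¹) := by
    intro τ
    have hmem : tPar N τ ∈ Metric.ball (0 : ℂ) ((1 : NNReal) : ℝ) := by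
      simpa using norm_tPar_lt_one N τ
    have h := Complex.hasSum_taylorSeries_on_ball (r := 1) (by simpa using hH) hmem
    show HasSum _ ((F τ)⁻¹)
    rw [hp.eq_psSum τ]
    have hfun : (fun k : ℕ => PowerSeries.coeff k d * tPar N τ ^ k) =
        fun n : ℕ => (n.factorial : ℂ)⁻¹ • (tPar N τ - 0) ^ n •
          iteratedDeriv n (fun q => (psSum p q)⁻¹) 0 := by
      funext n
      simp only [hd, PowerSeries.coeff_mk, sub_zero, smul_eq_mul]
      ring
    rw [hfun]
    exact h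
  have hmul := hp.mul hdconv
  have hone : PConv N 1 (F * fun τ => (F τ)⁻¹) := by
    intro τ
    have : (F * fun τ => (F τ)⁻¹) τ = 1 := by simp [hF τ]
    rw [this]
    have h := hasSum_single (f := fun k : ℕ => PowerSeries.coeff k (1 : PowerSeries ℂ) *
      tPar N τ ^ k) 0 (fun k hk => by simp [PowerSeries.coeff_one, hk])
    simpa using h
  have hpd : p * d = 1 := hmul.unique hone
  have hd' : d = p⁻¹ := by
    rw [PowerSeries.eq_inv_iff_mul_eq_one (by simpa using h0), mul_comm]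
    exact hpd
  rw [← hd']
  exact hdconv

end PConv

/-- `φ` converges on `ℍ` to `f` in the parameter `t_N`. -/
def ConvTo (N : ℕ) (φ : LaurentSeries ℂ) (f : ℍ → ℂ) : Prop :=
  ∀ τ : ℍ, HasSum (fun n : ℤ => φ.coeff n * tPar N τ ^ n) (f τ)

theorem coeff_single_mul_ofPS_add (e : ℤ) (p : PowerSeries ℂ) (k : ℕ) :
    (HahnSeries.single e (1 : ℂ) * HahnSeries.ofPowerSeries ℤ ℂ p).coeff ((k : ℤ) + e) =
      PowerSeries.coeff k p := by
  rw [HahnSeries.coeff_single_mul, one_mul, add_sub_cancel_right,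
    HahnSeries.ofPowerSeries_apply_coeff]

theorem coeff_single_mul_ofPS_of_lt (e : ℤ) (p : PowerSeries ℂ) {n : ℤ} (hn : n < e) :
    (HahnSeries.single e (1 : ℂ) * HahnSeries.ofPowerSeries ℤ ℂ p).coeff n = 0 := by
  rw [HahnSeries.coeff_single_mul, one_mul,
    ModularCurve.ofPowerSeries_coeff_of_neg _ (by omega)]

/-- Reduction of Laurent-level convergence to power-series-level convergence. -/
theorem convTo_single_mul_ofPS_iff (N : ℕ) (e : ℤ) (p : PowerSeries ℂ) (f : ℍ → ℂ) :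
    ConvTo N (HahnSeries.single e (1 : ℂ) * HahnSeries.ofPowerSeries ℤ ℂ p) f ↔
      PConv N p (fun τ => tPar N τ ^ (-e) * f τ) := by
  have hinj : Function.Injective (fun k : ℕ => (k : ℤ) + e) := fun a b h => by
    simpa using h
  have hrange : ∀ (τ : ℍ) (n : ℤ), n ∉ Set.range (fun k : ℕ => (k : ℤ) + e) →
      (HahnSeries.single e (1 : ℂ) * HahnSeries.ofPowerSeries ℤ ℂ p).coeff n *
        tPar N τ ^ n = 0 := by
    intro τ n hn
    have hlt : n < e := by
      by_contra hge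
      push Not at hge
      exact hn ⟨(n - e).toNat, by simp [Int.toNat_of_nonneg (sub_nonneg.mpr hge)]⟩
    rw [coeff_single_mul_ofPS_of_lt e p hlt, zero_mul]
  have key : ∀ τ : ℍ, HasSum (fun n : ℤ =>
      (HahnSeries.single e (1 : ℂ) * HahnSeries.ofPowerSeries ℤ ℂ p).coeff n * tPar N τ ^ n)
        (f τ) ↔
      HasSum (fun k : ℕ => PowerSeries.coeff k p * tPar N τ ^ k) (tPar N τ ^ (-e) * f τ) := by
    intro τ
    have ht := tPar_ne_zero N τ
    rw [← hinj.hasSum_iff (hrange τ)]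
    have hfun : ((fun n : ℤ =>
        (HahnSeries.single e (1 : ℂ) * HahnSeries.ofPowerSeries ℤ ℂ p).coeff n * tPar N τ ^ n) ∘
          fun k : ℕ => (k : ℤ) + e) =
        fun k : ℕ => tPar N τ ^ e * (PowerSeries.coeff k p * tPar N τ ^ k) := by
      funext k
      simp only [Function.comp_apply, coeff_single_mul_ofPS_add, zpow_add₀ ht, zpow_natCast]
      ring
    rw [hfun]
    constructor
    · intro h
      have h' := h.mul_left (tPar N τ ^ (-e))
      have hfun2 : (fun k : ℕ => tPar N τ ^ (-e) *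
          (tPar N τ ^ e * (PowerSeries.coeff k p * tPar N τ ^ k))) =
          fun k : ℕ => PowerSeries.coeff k p * tPar N τ ^ k := by
        funext k
        rw [← mul_assoc, ← zpow_add₀ ht, neg_add_cancel, zpow_zero, one_mul]
      rwa [hfun2] at h'
    · intro h
      have h' := h.mul_left (tPar N τ ^ e)
      rwa [← mul_assoc, ← zpow_add₀ ht, add_neg_cancel, zpow_zero, one_mul] at h'
  exact ⟨fun h τ => (key τ).mp (h τ), fun h τ => (key τ).mpr (h τ)⟩

theorem convTo_iff (N : ℕ) (φ : LaurentSeries ℂ) (f : ℍ → ℂ) :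
    ConvTo N φ f ↔ PConv N φ.powerSeriesPart (fun τ => tPar N τ ^ (-φ.order) * f τ) := by
  conv_lhs => rw [← LaurentSeries.single_order_mul_powerSeriesPart φ]
  exact convTo_single_mul_ofPS_iff N φ.order φ.powerSeriesPart f

theorem single_mul_ofPS_mul (e₁ e₂ : ℤ) (p₁ p₂ : PowerSeries ℂ) :
    (HahnSeries.single e₁ (1 : ℂ) * HahnSeries.ofPowerSeries ℤ ℂ p₁) *
      (HahnSeries.single e₂ (1 : ℂ) * HahnSeries.ofPowerSeries ℤ ℂ p₂) =
      HahnSeries.single (e₁ + e₂) (1 : ℂ) * HahnSeries.ofPowerSeries ℤ ℂ (p₁ * p₂) := by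
  rw [map_mul, ← one_mul (1 : ℂ), ← HahnSeries.single_mul_single, one_mul]
  ring

namespace ConvTo

variable {N : ℕ} {φ ψ : LaurentSeries ℂ} {f g : ℍ → ℂ}

theorem congr_fun (h : ConvTo N φ f) (hfg : ∀ τ, f τ = g τ) : ConvTo N φ g :=
  fun τ => hfg τ ▸ h τ

theorem fun_unique (h : ConvTo N φ f) (h' : ConvTo N φ g) : f = g :=
  funext fun τ => (h τ).unique (h' τ)

theorem add (hf : ConvTo N φ f) (hg : ConvTo N ψ g) : ConvTo N (φ + ψ) (f + g) := by
  intro τ
  simpa [add_mul] using (hf τ).add (hg τ)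

theorem neg (hf : ConvTo N φ f) : ConvTo N (-φ) (-f) := by
  intro τ
  simpa using (hf τ).neg

theorem sub (hf : ConvTo N φ f) (hg : ConvTo N ψ g) : ConvTo N (φ - ψ) (f - g) := by
  intro τ
  simpa [sub_mul] using (hf τ).sub (hg τ)

theorem mul (hf : ConvTo N φ f) (hg : ConvTo N ψ g) : ConvTo N (φ * ψ) (f * g) := by
  rw [convTo_iff] at hf hg
  have h := hf.mul hg
  rw [← LaurentSeries.single_order_mul_powerSeriesPart φ,
    ← LaurentSeries.single_order_mul_powerSeriesPart ψ, single_mul_ofPS_mul,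
    convTo_single_mul_ofPS_iff]
  intro τ
  have := h τ
  have ht := tPar_ne_zero N τ
  convert this using 1
  simp only [Pi.mul_apply, neg_add, zpow_add₀ ht]
  ring

theorem zero_fun [NeZero N] (h : ConvTo N φ 0) : φ = 0 := by
  rw [convTo_iff] at h
  have h' : PConv N φ.powerSeriesPart 0 := fun τ => by simpa using h τ
  exact (LaurentSeries.powerSeriesPart_eq_zero φ).mp h'.eq_zero_of_zero

/-- Uniqueness of the expansion. -/
theorem series_unique [NeZero N] (h : ConvTo N φ f) (h' : ConvTo N ψ f) : φ = ψ := by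
  have hsub := h.sub h'
  rw [sub_self] at hsub
  exact sub_eq_zero.mp hsub.zero_fun

theorem mdiff_tPar_zpow (N : ℕ) (e : ℤ) : MDiff (fun τ : ℍ => tPar N τ ^ e) := by
  rw [UpperHalfPlane.mdifferentiable_iff]
  have hd : DifferentiableOn ℂ (fun z : ℂ => Function.Periodic.qParam (N : ℝ) z ^ e)
      {z | 0 < z.im} := fun z _ =>
    ((Function.Periodic.differentiable_qParam z).zpow
      (Or.inl (Function.Periodic.qParam_ne_zero z))).differentiableWithinAt
  refine hd.congr fun z hz => ?_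
  simp [tPar, ofComplex_apply_of_im_pos hz]

/-- The limit of a convergent expansion is holomorphic on `ℍ`. -/
theorem mdiff [NeZero N] (h : ConvTo N φ f) : MDiff f := by
  rw [convTo_iff] at h
  have h1 := h.mdiff
  have h2 := mdiff_tPar_zpow N φ.order
  have h3 : MDiff ((fun τ : ℍ => tPar N τ ^ φ.order) * fun τ => tPar N τ ^ (-φ.order) * f τ) :=
    h2.mul h1
  have heq : ((fun τ : ℍ => tPar N τ ^ φ.order) * fun τ => tPar N τ ^ (-φ.order) * f τ) = f := by
    funext τ
    have ht := tPar_ne_zero N τ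
    simp only [Pi.mul_apply]
    rw [← mul_assoc, ← zpow_add₀ ht, add_neg_cancel, zpow_zero, one_mul]
  rwa [heq] at h3

/-- Inverses: if `f` vanishes nowhere then `φ⁻¹` converges to `f⁻¹`. -/
theorem inv [NeZero N] (h : ConvTo N φ f) (hf : ∀ τ, f τ ≠ 0) :
    ConvTo N φ⁻¹ (fun τ => (f τ)⁻¹) := by
  have hφ : φ ≠ 0 := by
    rintro rfl
    have h0 : f UpperHalfPlane.I = 0 :=
      (h UpperHalfPlane.I).unique (by simp)
    exact hf _ h0
  have hp := (convTo_iff N φ f).mp h
  have hc0 : PowerSeries.coeff 0 φ.powerSeriesPart ≠ 0 := by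
    rw [LaurentSeries.powerSeriesPart_coeff]
    intro h0
    rw [Nat.cast_zero, add_zero] at h0
    exact hφ (HahnSeries.coeff_order_eq_zero.mp h0)
  have hcc : PowerSeries.constantCoeff φ.powerSeriesPart ≠ 0 := by
    rw [← PowerSeries.coeff_zero_eq_constantCoeff_apply]
    exact hc0
  have hF : ∀ τ, (fun τ => tPar N τ ^ (-φ.order) * f τ) τ ≠ 0 := fun τ =>
    mul_ne_zero (zpow_ne_zero _ (tPar_ne_zero N τ)) (hf τ)
  have hinv := hp.inv hF hc0
  have hφinv : φ⁻¹ = HahnSeries.single (-φ.order) (1 : ℂ) *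
      HahnSeries.ofPowerSeries ℤ ℂ (φ.powerSeriesPart)⁻¹ := by
    apply inv_eq_of_mul_eq_one_right
    have hrep := LaurentSeries.single_order_mul_powerSeriesPart φ
    calc φ * (HahnSeries.single (-φ.order) (1 : ℂ) *
          HahnSeries.ofPowerSeries ℤ ℂ (φ.powerSeriesPart)⁻¹)
        = (HahnSeries.single φ.order (1 : ℂ) * HahnSeries.ofPowerSeries ℤ ℂ φ.powerSeriesPart) *
          (HahnSeries.single (-φ.order) (1 : ℂ) *
            HahnSeries.ofPowerSeries ℤ ℂ (φ.powerSeriesPart)⁻¹) := by rw [hrep]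
      _ = 1 := by
        rw [single_mul_ofPS_mul, add_neg_cancel, PowerSeries.mul_inv_cancel _ hcc]
        simp
  rw [hφinv, convTo_single_mul_ofPS_iff]
  intro τ
  have := hinv τ
  have ht := tPar_ne_zero N τ
  convert this using 1
  simp only [neg_neg, mul_inv, zpow_neg, inv_inv]

end ConvTo

/-- `exp(2πi b / M)` as a unit of `ℂ`. -/
def zetaU (M : ℕ) (b : ℤ) : ℂˣ :=
  Units.mk0 (Complex.exp (2 * π * Complex.I * b / M)) (Complex.exp_ne_zero _)

@[simp] theorem coe_zetaU (M : ℕ) (b : ℤ) :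
    (zetaU M b : ℂ) = Complex.exp (2 * π * Complex.I * b / M) := rfl

theorem twist_coeff' (u : ℂˣ) (φ : LaurentSeries ℂ) (n : ℤ) :
    (_root_.Fermat.Agent.S28.H205.twist u φ).coeff n = φ.coeff n * (u : ℂ) ^ n := by
  rw [_root_.Fermat.Agent.S28.H205.twist_coeff, Units.val_zpow_eq_zpow_val]

theorem hasSum_qExpand_iff (a : ℕ) [NeZero a] (φ : LaurentSeries ℂ) (t s : ℂ) :
    HasSum (fun k : ℤ => (ModularCurve.qExpand ℂ a φ).coeff k * t ^ k) s ↔
      HasSum (fun n : ℤ => φ.coeff n * (t ^ a) ^ n) s := by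
  have ha : (a : ℤ) ≠ 0 := by exact_mod_cast NeZero.ne a
  have hinj : Function.Injective (fun n : ℤ => (a : ℤ) * n) := fun x y h =>
    mul_left_cancel₀ ha h
  rw [← hinj.hasSum_iff (f := fun k : ℤ => (ModularCurve.qExpand ℂ a φ).coeff k * t ^ k)]
  · have hfun : ((fun k : ℤ => (ModularCurve.qExpand ℂ a φ).coeff k * t ^ k) ∘
        fun n : ℤ => (a : ℤ) * n) = fun n : ℤ => φ.coeff n * (t ^ a) ^ n := by
      funext n
      simp only [Function.comp_apply, ModularCurve.qExpand_coeff_mul]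
      rw [zpow_mul, zpow_natCast]
    rw [hfun]
  · intro k hk
    rw [ModularCurve.qExpand_coeff_of_not_dvd a φ (fun ⟨m, hm⟩ => hk ⟨m, hm.symm⟩), zero_mul]

theorem tPar_subst (N : ℕ) (a d : ℕ) (b : ℤ) (τ σ : ℍ) (hσ : (σ : ℂ) = (a * τ + b) / d) :
    tPar N σ = (zetaU (N * d) b : ℂ) * tPar (N * d) τ ^ a := by
  simp only [tPar, Function.Periodic.qParam, coe_zetaU, hσ]
  rw [← Complex.exp_nat_mul, ← Complex.exp_add]
  congr 1
  push_cast
  by_cases hd : (d : ℂ) = 0
  · simp [hd]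
  by_cases hN : (N : ℂ) = 0
  · simp [hN]
  field_simp
  ring

namespace ConvTo

variable {N : ℕ} {φ ψ : LaurentSeries ℂ} {f g : ℍ → ℂ}

/-- General substitution `τ ↦ (a τ + b) / d`. -/
theorem subst (h : ConvTo N φ f) (a d : ℕ) [NeZero a] (b : ℤ)
    (σ : ℍ → ℍ) (hσ : ∀ τ, (σ τ : ℂ) = (a * τ + b) / d) :
    ConvTo (N * d) (ModularCurve.qExpand ℂ a (H205.twist (zetaU (N * d) b) φ)) (f ∘ σ) := by
  intro τ
  rw [hasSum_qExpand_iff]
  have h1 := h (σ τ)
  rw [tPar_subst N a d b τ (σ τ) (hσ τ)] at h1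
  have hfun : (fun n : ℤ => (H205.twist (zetaU (N * d) b) φ).coeff n *
      (tPar (N * d) τ ^ a) ^ n) =
      fun n : ℤ => φ.coeff n * ((zetaU (N * d) b : ℂ) * tPar (N * d) τ ^ a) ^ n := by
    funext n
    rw [twist_coeff', mul_zpow]
    ring
  rw [hfun]
  exact h1

/-- Translation `τ ↦ τ + b` corresponds to the twist `t ↦ exp(2πi b/N) t`. -/
theorem twist (h : ConvTo N φ f) (b : ℤ) (σ : ℍ → ℍ)
    (hσ : ∀ τ, (σ τ : ℂ) = τ + b) :
    ConvTo N (H205.twist (zetaU N b) φ) (f ∘ σ) := by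
  have h1 := h.subst 1 1 b σ (fun τ => by simp [hσ τ])
  rw [mul_one] at h1
  simpa [ModularCurve.qExpand_one_apply] using h1

/-- `τ ↦ a τ` corresponds to `t ↦ t ^ a`. -/
theorem qExpand (h : ConvTo N φ f) (a : ℕ) [NeZero a] (σ : ℍ → ℍ)
    (hσ : ∀ τ, (σ τ : ℂ) = a * τ) :
    ConvTo N (ModularCurve.qExpand ℂ a φ) (f ∘ σ) := by
  have h1 := h.subst a 1 0 σ (fun τ => by simp [hσ τ])
  rw [mul_one] at h1
  have hz : zetaU N 0 = 1 := by
    ext
    simp
  rwa [hz, twist_one] at h1

/-- `τ ↦ τ / d` corresponds to passing from the parameter `t_N` to `t_{N d}`. -/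
theorem scale (h : ConvTo N φ f) (d : ℕ) (σ : ℍ → ℍ)
    (hσ : ∀ τ, (σ τ : ℂ) = τ / d) :
    ConvTo (N * d) φ (f ∘ σ) := by
  have h1 := h.subst 1 d 0 σ (fun τ => by simp [hσ τ])
  have hz : zetaU (N * d) 0 = 1 := by
    ext
    simp
  rwa [hz, twist_one, ModularCurve.qExpand_one_apply] at h1

/-- Change of parameter: `t_N = t_{N d} ^ d`. -/
theorem changeLevel (h : ConvTo N φ f) (d : ℕ) [NeZero d] :
    ConvTo (N * d) (ModularCurve.qExpand ℂ d φ) f := by
  have h1 := h.subst d d 0 id (fun τ => by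
    have hd : (d : ℂ) ≠ 0 := by exact_mod_cast NeZero.ne d
    simp only [id, Int.cast_zero, add_zero]
    field_simp)
  have hz : zetaU (N * d) 0 = 1 := by
    ext
    simp
  rwa [hz, twist_one] at h1

end ConvTo

theorem zetaU_one_zpow_eq_one_iff (N : ℕ) [NeZero N] (n : ℤ) :
    (zetaU N 1 : ℂ) ^ n = 1 ↔ (N : ℤ) ∣ n := by
  have hN : (N : ℂ) ≠ 0 := by exact_mod_cast NeZero.ne N
  rw [coe_zetaU, ← Complex.exp_int_mul, Complex.exp_eq_one_iff]
  constructor
  · rintro ⟨m, hm⟩
    refine ⟨m, ?_⟩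
    have h2 : (2 * (π : ℂ) * Complex.I) ≠ 0 := by
      simp [Real.pi_ne_zero]
    have h3 : (n : ℂ) = (N : ℂ) * m := by
      field_simp at hm
      simpa using hm
    exact_mod_cast h3
  · rintro ⟨m, rfl⟩
    refine ⟨m, ?_⟩
    push_cast
    field_simp

/-- Descent: an expansion in `t_N` of a function invariant under `τ ↦ τ + 1` is an expansion
in `q = t_N ^ N`. -/
theorem ConvTo.descend {N : ℕ} {φ : LaurentSeries ℂ} {f : ℍ → ℂ} [NeZero N] (h : ConvTo N φ f)
    (hT : ∀ τ σ : ℍ, (σ : ℂ) = τ + 1 → f σ = f τ) :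
    ∃ φ₁ : LaurentSeries ℂ, φ = ModularCurve.qExpand ℂ N φ₁ ∧ ConvTo 1 φ₁ f := by
  have hNpos : (0 : ℤ) < N := by exact_mod_cast Nat.pos_of_ne_zero (NeZero.ne N)
  -- invariance under the twist
  have htw : H205.twist (zetaU N 1) φ = φ := by
    have h1 := h.twist 1 (fun τ => (1 : ℝ) +ᵥ τ) (fun τ => by
      rw [UpperHalfPlane.coe_vadd]; push_cast; ring)
    have h2 : (f ∘ fun τ => (1 : ℝ) +ᵥ τ) = f := by
      funext τ
      exact hT τ _ (by rw [UpperHalfPlane.coe_vadd]; push_cast; ring)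
    rw [h2] at h1
    exact h1.series_unique h
  have hvan : ∀ n : ℤ, ¬ (N : ℤ) ∣ n → φ.coeff n = 0 := by
    intro n hn
    have h1 := congrArg (fun x => x.coeff n) htw
    simp only [twist_coeff'] at h1
    by_contra hne
    have h2 : (zetaU N 1 : ℂ) ^ n = 1 := by
      have := mul_left_cancel₀ hne (h1.trans (mul_one _).symm)
      exact this
    exact hn ((zetaU_one_zpow_eq_one_iff N n).mp h2)
  -- the descended series
  have hbdd : BddBelow (Function.support fun k : ℤ => φ.coeff ((N : ℤ) * k)) := by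
    refine ⟨min φ.order 0, fun k hk => ?_⟩
    simp only [Function.mem_support, ne_eq] at hk
    have h1 : φ.order ≤ (N : ℤ) * k := HahnSeries.order_le_of_coeff_ne_zero hk
    rcases le_or_gt 0 k with hk0 | hk0
    · exact le_trans (min_le_right _ _) hk0
    · refine le_trans (min_le_left _ _) (le_trans h1 ?_)
      nlinarith
  refine ⟨HahnSeries.ofSuppBddBelow _ hbdd, ?_, ?_⟩
  · ext n
    by_cases hn : (N : ℤ) ∣ n
    · obtain ⟨k, rfl⟩ := hn
      rw [ModularCurve.qExpand_coeff_mul]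
      rfl
    · rw [hvan n hn, ModularCurve.qExpand_coeff_of_not_dvd N _ hn]
  · intro τ
    have h1 := h τ
    have hinj : Function.Injective (fun k : ℤ => (N : ℤ) * k) := fun x y hxy =>
      mul_left_cancel₀ hNpos.ne' hxy
    rw [← hinj.hasSum_iff (fun n hn => by
      rw [hvan n (fun ⟨m, hm⟩ => hn ⟨m, hm.symm⟩), zero_mul])] at h1
    have hfun : ((fun n : ℤ => φ.coeff n * tPar N τ ^ n) ∘ fun k : ℤ => (N : ℤ) * k) =
        fun k : ℤ => (HahnSeries.ofSuppBddBelow _ hbdd).coeff k * tPar 1 τ ^ k := by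
      funext k
      have ht : tPar 1 τ = tPar N τ ^ N := by
        have := tPar_subst 1 N N 0 τ τ (by
          have hN : (N : ℂ) ≠ 0 := by exact_mod_cast NeZero.ne N
          field_simp
          simp)
        rw [this, one_mul]
        simp
      simp only [Function.comp_apply, ht]
      rw [zpow_mul, zpow_natCast]
      rfl
    rw [hfun] at h1
    exact h1

theorem convTo_zero (N : ℕ) : ConvTo N 0 0 := by
  intro τ
  simp [hasSum_zero]

theorem convTo_single (N : ℕ) (k : ℤ) (c : ℂ) :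
    ConvTo N (HahnSeries.single k c) (fun τ => c * tPar N τ ^ k) := by
  intro τ
  have h := hasSum_single (f := fun n : ℤ => (HahnSeries.single k c).coeff n * tPar N τ ^ n) k
    (fun n hn => by simp [HahnSeries.coeff_single_of_ne hn])
  simpa using h

theorem convTo_C (N : ℕ) (c : ℂ) : ConvTo N (HahnSeries.C c) (fun _ => c) := by
  have h := convTo_single N 0 c
  simpa [HahnSeries.C] using h

theorem convTo_one (N : ℕ) : ConvTo N 1 1 := by
  have h := convTo_C N 1
  rw [map_one] at h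
  exact h

theorem ConvTo.pow {N : ℕ} {φ : LaurentSeries ℂ} {f : ℍ → ℂ} (hf : ConvTo N φ f) (k : ℕ) :
    ConvTo N (φ ^ k) (f ^ k) := by
  induction k with
  | zero => simpa using convTo_one N
  | succ k ih => rw [_root_.pow_succ, _root_.pow_succ]; exact ih.mul hf

theorem ConvTo.const_mul {N : ℕ} {φ : LaurentSeries ℂ} {f : ℍ → ℂ} (hf : ConvTo N φ f) (c : ℂ) :
    ConvTo N (HahnSeries.C c * φ) (fun τ => c * f τ) :=
  (convTo_C N c).mul hf

theorem ConvTo.sum {N : ℕ} {ι : Type*} (s : Finset ι) {φ : ι → LaurentSeries ℂ}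
    {f : ι → ℍ → ℂ} (h : ∀ i ∈ s, ConvTo N (φ i) (f i)) :
    ConvTo N (∑ i ∈ s, φ i) (∑ i ∈ s, f i) := by
  classical
  induction s using Finset.induction_on with
  | empty => simpa using convTo_zero N
  | insert a s ha ih =>
    rw [Finset.sum_insert ha, Finset.sum_insert ha]
    exact (h a (Finset.mem_insert_self a s)).add
      (ih fun i hi => h i (Finset.mem_insert_of_mem hi))

theorem ConvTo.prod {N : ℕ} {ι : Type*} (s : Finset ι) {φ : ι → LaurentSeries ℂ}
    {f : ι → ℍ → ℂ} (h : ∀ i ∈ s, ConvTo N (φ i) (f i)) :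
    ConvTo N (∏ i ∈ s, φ i) (∏ i ∈ s, f i) := by
  classical
  induction s using Finset.induction_on with
  | empty => simpa using convTo_one N
  | insert a s ha ih =>
    rw [Finset.prod_insert ha, Finset.prod_insert ha]
    exact (h a (Finset.mem_insert_self a s)).mul
      (ih fun i hi => h i (Finset.mem_insert_of_mem hi))

end Fermat.Agent.S28.H205

end
end
-- ===== PACK-END S28/H205/Conv.lean

-- ===== PACK-BEGIN S48/H368/IGrp.lean
section


/-!
# S48 / Tower A1 / node I-GRP (helper368): the group theory of the decomposition-group argument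

Mathlib-only.  Contents:

* `upperU t`, `lowerU t` : the elementary matrices of `SL₂(R)`; `elemSubgroup R` the subgroup they
  generate;
* `exists_isUnit_add_mul` : stable range one for `ZMod M` (`M ≠ 0`): if `a d - b c = 1` there is
  `t` with `a + t c` a unit;
* `elemSubgroup_zmod_eq_top` : `SL₂(ℤ/M)` is generated by elementary matrices (`M ≠ 0`), and
  `elemSubgroup_int_eq_top` for `ℤ`;
* `normalClosure_le_of_mul` : if `G = D·B`, `U ≤ D` and `B` normalises `U`, then every conjugate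
  of `U` lies in `D`;
* `map_sl2_le_of_mul` : if `ι : SL₂(ℤ/M) → G`, `G = D·B`, `ι(U) ≤ D` and `B` normalises `ι(U)` then
  `ι(SL₂(ℤ/M)) ≤ D`  (memo IGUSA1 §2 (c));
* `exists_mul_of_normal_le` : if `N ◁ G`, `N ≤ D` and `G = H·N` then `G = D·H` (memo §2 (d));
* `eq_scalar_of_conj_upper` : a `2 × 2` matrix all of whose conjugates by elementary matrices
  are upper triangular is scalar (memo §2 (e));
* `exists_conj_upperU` : an upper triangular `b ∈ GL₂(R)` normalises the unipotent radical;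
* `map_elemSubgroup_le_of_mul`, `exists_mul_of_sl2` : variants.
-/

set_option autoImplicit false

namespace Fermat.Agent.S48.H368

open Matrix

section Elem

variable {R : Type*} [CommRing R]

/-- The upper unitriangular matrix `(1 t; 0 1)`. -/
def upperU (t : R) : Matrix.SpecialLinearGroup (Fin 2) R :=
  ⟨!![1, t; 0, 1], by simp [Matrix.det_fin_two]⟩

/-- The lower unitriangular matrix `(1 0; t 1)`. -/
def lowerU (t : R) : Matrix.SpecialLinearGroup (Fin 2) R :=
  ⟨!![1, 0; t, 1], by simp [Matrix.det_fin_two]⟩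

@[simp] theorem coe_upperU (t : R) :
    ((upperU t : Matrix.SpecialLinearGroup (Fin 2) R) : Matrix (Fin 2) (Fin 2) R) =
      !![1, t; 0, 1] := rfl

@[simp] theorem coe_lowerU (t : R) :
    ((lowerU t : Matrix.SpecialLinearGroup (Fin 2) R) : Matrix (Fin 2) (Fin 2) R) =
      !![1, 0; t, 1] := rfl

theorem upperU_add (s t : R) : upperU (s + t) = upperU s * upperU t := by
  apply Subtype.ext
  simp only [Matrix.SpecialLinearGroup.coe_mul, coe_upperU]
  ext i j
  fin_cases i <;> fin_cases j <;> simp [Matrix.mul_apply, Fin.sum_univ_two, add_comm]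

theorem lowerU_add (s t : R) : lowerU (s + t) = lowerU s * lowerU t := by
  apply Subtype.ext
  simp only [Matrix.SpecialLinearGroup.coe_mul, coe_lowerU]
  ext i j
  fin_cases i <;> fin_cases j <;> simp [Matrix.mul_apply, Fin.sum_univ_two]

theorem upperU_zero : upperU (0 : R) = 1 := by
  apply Subtype.ext
  simp only [coe_upperU, Matrix.SpecialLinearGroup.coe_one]
  ext i j
  fin_cases i <;> fin_cases j <;> simp

theorem lowerU_zero : lowerU (0 : R) = 1 := by
  apply Subtype.ext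
  simp only [coe_lowerU, Matrix.SpecialLinearGroup.coe_one]
  ext i j
  fin_cases i <;> fin_cases j <;> simp

theorem upperU_neg (t : R) : upperU (-t) = (upperU t)⁻¹ := by
  rw [eq_inv_iff_mul_eq_one, ← upperU_add, neg_add_cancel, upperU_zero]

theorem lowerU_neg (t : R) : lowerU (-t) = (lowerU t)⁻¹ := by
  rw [eq_inv_iff_mul_eq_one, ← lowerU_add, neg_add_cancel, lowerU_zero]

/-- The Weyl element `w = (0 -1; 1 0)`, as a product of elementary matrices. -/
def weylW (R : Type*) [CommRing R] : Matrix.SpecialLinearGroup (Fin 2) R :=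
  upperU (-1) * lowerU 1 * upperU (-1)

theorem coe_weylW :
    ((weylW R : Matrix.SpecialLinearGroup (Fin 2) R) : Matrix (Fin 2) (Fin 2) R) =
      !![0, -1; 1, 0] := by
  simp only [weylW, Matrix.SpecialLinearGroup.coe_mul, coe_upperU, coe_lowerU]
  ext i j
  fin_cases i <;> fin_cases j <;> simp [Matrix.mul_apply, Fin.sum_univ_two]

/-- `w · (1 t; 0 1) · w⁻¹ = (1 0; -t 1)`. -/
theorem weylW_mul_upperU (t : R) : weylW R * upperU t = lowerU (-t) * weylW R := by
  apply Subtype.ext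
  simp only [Matrix.SpecialLinearGroup.coe_mul, coe_upperU, coe_lowerU, coe_weylW]
  ext i j
  fin_cases i <;> fin_cases j <;> simp [Matrix.mul_apply, Fin.sum_univ_two]

theorem lowerU_eq_conj (t : R) : lowerU t = weylW R * upperU (-t) * (weylW R)⁻¹ := by
  rw [weylW_mul_upperU, neg_neg, mul_inv_cancel_right]

variable (R) in
/-- The subgroup of `SL₂(R)` generated by the elementary matrices. -/
def elemSubgroup : Subgroup (Matrix.SpecialLinearGroup (Fin 2) R) :=
  Subgroup.closure (Set.range (upperU (R := R)) ∪ Set.range (lowerU (R := R)))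

theorem upperU_mem (t : R) : upperU t ∈ elemSubgroup R :=
  Subgroup.subset_closure (Or.inl ⟨t, rfl⟩)

theorem lowerU_mem (t : R) : lowerU t ∈ elemSubgroup R :=
  Subgroup.subset_closure (Or.inr ⟨t, rfl⟩)

theorem weylW_mem : weylW R ∈ elemSubgroup R :=
  mul_mem (mul_mem (upperU_mem _) (lowerU_mem _)) (upperU_mem _)

theorem sl2_det_eq (g : Matrix.SpecialLinearGroup (Fin 2) R) :
    g 0 0 * g 1 1 - g 0 1 * g 1 0 = 1 := by
  have := g.det_coe
  rwa [Matrix.det_fin_two] at this

/-- An upper triangular element of `SL₂(R)` is a product of elementary matrices. -/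
theorem mem_elemSubgroup_of_lowerLeft_zero (g : Matrix.SpecialLinearGroup (Fin 2) R)
    (h : g 1 0 = 0) : g ∈ elemSubgroup R := by
  have hdet := sl2_det_eq g
  rw [h, mul_zero, sub_zero] at hdet
  have key : g = upperU (g 0 0) * lowerU (-(g 1 1)) * upperU (g 0 0) * weylW R *
      upperU (g 1 1 * g 0 1) := by
    apply Subtype.ext
    simp only [Matrix.SpecialLinearGroup.coe_mul, coe_upperU, coe_lowerU, coe_weylW]
    ext i j
    fin_cases i <;> fin_cases j <;>
      simp [Matrix.mul_apply, Fin.sum_univ_two, h] <;>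
      first
      | linear_combination (g 0 0) * hdet
      | linear_combination (-(g 0 0)) * hdet
      | linear_combination (g 0 1 * (g 0 0 * g 1 1 - 1) - 1) * hdet
      | linear_combination (-(g 0 1 * (g 0 0 * g 1 1 - 1) - 1)) * hdet
      | linear_combination hdet
      | linear_combination (-1 : R) * hdet
      | linear_combination (g 1 1 * g 0 1) * hdet
      | linear_combination (-(g 1 1 * g 0 1)) * hdet
  rw [key]
  exact mul_mem (mul_mem (mul_mem (mul_mem (upperU_mem _) (lowerU_mem _)) (upperU_mem _))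
    weylW_mem) (upperU_mem _)

/-- An element of `SL₂(R)` whose upper left entry is a unit is a product of elementary
matrices. -/
theorem mem_elemSubgroup_of_isUnit (g : Matrix.SpecialLinearGroup (Fin 2) R)
    (h : IsUnit (g 0 0)) : g ∈ elemSubgroup R := by
  obtain ⟨u, hu⟩ := h
  have h1 : lowerU (-(g 1 0) * (↑u⁻¹ : R)) * g ∈ elemSubgroup R := by
    apply mem_elemSubgroup_of_lowerLeft_zero
    have : (↑u⁻¹ : R) * g 0 0 = 1 := by rw [← hu]; simp
    have e : (lowerU (-(g 1 0) * (↑u⁻¹ : R)) * g) 1 0 =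
        -(g 1 0) * (↑u⁻¹ : R) * g 0 0 + g 1 0 := by
      simp [Matrix.SpecialLinearGroup.coe_mul, Matrix.mul_apply, Fin.sum_univ_two]
    rw [e]
    linear_combination (-(g 1 0)) * this
  have := mul_mem (inv_mem (lowerU_mem (-(g 1 0) * (↑u⁻¹ : R)))) h1
  simpa using this

/-- If some `a + t c` is a unit (`a, c` the first column of `g`), then `g` is a product of
elementary matrices. -/
theorem mem_elemSubgroup_of_exists (g : Matrix.SpecialLinearGroup (Fin 2) R)
    (h : ∃ t : R, IsUnit (g 0 0 + t * g 1 0)) : g ∈ elemSubgroup R := by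
  obtain ⟨t, ht⟩ := h
  have h1 : upperU t * g ∈ elemSubgroup R := by
    apply mem_elemSubgroup_of_isUnit
    have : (upperU t * g) 0 0 = g 0 0 + t * g 1 0 := by
      simp [Matrix.SpecialLinearGroup.coe_mul, Matrix.mul_apply, Fin.sum_univ_two]
    rw [this]; exact ht
  have := mul_mem (inv_mem (upperU_mem t)) h1
  simpa using this

end Elem

section ZMod

/-- **Stable range one for `ℤ/M`.**  If `a d - b c = 1` in `ZMod M` (`M ≠ 0`) there is `t` with
`a + t c` a unit. -/
theorem exists_isUnit_add_mul (M : ℕ) [NeZero M] (a b c d : ZMod M) (h : a * d - b * c = 1) :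
    ∃ t : ZMod M, IsUnit (a + t * c) := by
  classical
  -- no prime factor of `M` divides both `a.val` and `c.val`
  have hnot : ∀ p : ℕ, p.Prime → p ∣ M → p ∣ a.val → p ∣ c.val → False := by
    intro p hp hpM hpa hpc
    have : Fact p.Prime := ⟨hp⟩
    have ha : ZMod.castHom hpM (ZMod p) a = 0 := by
      rw [ZMod.castHom_apply, ← ZMod.natCast_val, ZMod.natCast_eq_zero_iff]; exact hpa
    have hc : ZMod.castHom hpM (ZMod p) c = 0 := by
      rw [ZMod.castHom_apply, ← ZMod.natCast_val, ZMod.natCast_eq_zero_iff]; exact hpc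
    have := congrArg (ZMod.castHom hpM (ZMod p)) h
    simp only [map_sub, map_mul, ha, hc, map_one, zero_mul, mul_zero, sub_zero] at this
    exact zero_ne_one this
  set T : ℕ := ∏ p ∈ M.primeFactors.filter (fun p => ¬ p ∣ a.val), p with hT
  refine ⟨(T : ZMod M), ?_⟩
  have hcop : Nat.Coprime (a.val + T * c.val) M := by
    apply Nat.Coprime.symm
    apply Nat.coprime_of_dvd
    intro p hp hpM hpsum
    by_cases hpa : p ∣ a.val
    · -- `p ∣ a`, so `p ∤ c` and `p ∤ T`
      have hpTc : p ∣ T * c.val := (Nat.dvd_add_right hpa).mp hpsum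
      rcases (Nat.Prime.dvd_mul hp).mp hpTc with hpT | hpc
      · rw [hT] at hpT
        obtain ⟨q, hq, hpq⟩ := (Prime.dvd_finsetProd_iff (Nat.Prime.prime hp) _).mp hpT
        rw [Finset.mem_filter, Nat.mem_primeFactors] at hq
        have : p = q := (Nat.prime_dvd_prime_iff_eq hp hq.1.1).mp hpq
        exact hq.2 (this ▸ hpa)
      · exact hnot p hp hpM hpa hpc
    · -- `p ∤ a`, so `p ∣ T`
      have hpT : p ∣ T := by
        rw [hT]
        apply Finset.dvd_prod_of_mem
        rw [Finset.mem_filter, Nat.mem_primeFactors]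
        exact ⟨⟨hp, hpM, NeZero.ne M⟩, hpa⟩
      exact hpa ((Nat.dvd_add_left (Dvd.dvd.mul_right hpT _)).mp hpsum)
  have := (ZMod.isUnit_iff_coprime (a.val + T * c.val) M).mpr hcop
  simpa using this

/-- `SL₂(ℤ/M)` is generated by elementary matrices (`M ≠ 0`). -/
theorem elemSubgroup_zmod_eq_top (M : ℕ) [NeZero M] : elemSubgroup (ZMod M) = ⊤ := by
  rw [eq_top_iff]
  intro g _
  apply mem_elemSubgroup_of_exists
  exact exists_isUnit_add_mul M (g 0 0) (g 0 1) (g 1 0) (g 1 1) (sl2_det_eq g)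

/-- `SL₂(ℤ)` is generated by elementary matrices (from Mathlib's `SL2Z_generators`). -/
theorem elemSubgroup_int_eq_top : elemSubgroup ℤ = ⊤ := by
  rw [eq_top_iff, ← _root_.SpecialLinearGroup.SL2Z_generators, Subgroup.closure_le]
  intro g hg
  rcases hg with rfl | hg
  · have : ModularGroup.S = weylW ℤ := by
      apply Subtype.ext
      rw [coe_weylW]
      rfl
    rw [this]
    exact weylW_mem
  · rw [Set.mem_singleton_iff] at hg
    have : ModularGroup.T = upperU (1 : ℤ) := by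
      apply Subtype.ext
      rw [coe_upperU]
      rfl
    rw [hg, this]
    exact upperU_mem 1

end ZMod

section Abstract

variable {G : Type*} [Group G]

/-- If `G = D·B`, `U ≤ D` and `B` normalises `U`, then every conjugate of an element of `U` lies
in `D`. -/
theorem conj_mem_of_mul (D B U : Subgroup G) (hDB : ∀ g : G, ∃ d ∈ D, ∃ b ∈ B, g = d * b)
    (hUD : U ≤ D) (hBU : ∀ b ∈ B, ∀ u ∈ U, b * u * b⁻¹ ∈ U) (g u : G) (hu : u ∈ U) :
    g * u * g⁻¹ ∈ D := by
  obtain ⟨d, hd, b, hb, rfl⟩ := hDB g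
  have : d * b * u * (d * b)⁻¹ = d * (b * u * b⁻¹) * d⁻¹ := by group
  rw [this]
  exact mul_mem (mul_mem hd (hUD (hBU b hb u hu))) (inv_mem hd)

/-- If `G = D·B`, `U ≤ D` and `B` normalises `U`, then the normal closure of `U` lies in `D`. -/
theorem normalClosure_le_of_mul (D B U : Subgroup G)
    (hDB : ∀ g : G, ∃ d ∈ D, ∃ b ∈ B, g = d * b)
    (hUD : U ≤ D) (hBU : ∀ b ∈ B, ∀ u ∈ U, b * u * b⁻¹ ∈ U) :
    Subgroup.normalClosure (U : Set G) ≤ D := by
  rw [Subgroup.normalClosure, Subgroup.closure_le]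
  intro x hx
  rw [Group.mem_conjugatesOfSet_iff] at hx
  obtain ⟨u, hu, hc⟩ := hx
  rw [isConj_iff] at hc
  obtain ⟨c, rfl⟩ := hc
  exact conj_mem_of_mul D B U hDB hUD hBU c u hu

/-- **Memo IGUSA1 §2 (d).**  If `N` is a normal subgroup contained in `D` and `G = H·N`, then
`G = D·H` (so `D` acts transitively on `G/H`: a single double coset `D \ G / H`). -/
theorem exists_mul_of_normal_le (D H N : Subgroup G) [N.Normal] (hND : N ≤ D)
    (hHN : ∀ g : G, ∃ h ∈ H, ∃ n ∈ N, g = h * n) (g : G) :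
    ∃ d ∈ D, ∃ h ∈ H, g = d * h := by
  obtain ⟨h, hh, n, hn, rfl⟩ := hHN g
  refine ⟨h * n * h⁻¹, hND (Subgroup.Normal.conj_mem inferInstance n hn h), h, hh, ?_⟩
  group

/-- Variant of `exists_mul_of_normal_le` with `G = N·H`. -/
theorem exists_mul_of_normal_le' (D H N : Subgroup G) (hND : N ≤ D)
    (hNH : ∀ g : G, ∃ n ∈ N, ∃ h ∈ H, g = n * h) (g : G) :
    ∃ d ∈ D, ∃ h ∈ H, g = d * h := by
  obtain ⟨n, hn, h, hh, rfl⟩ := hNH g
  exact ⟨n, hND hn, h, hh, rfl⟩

end Abstract

section Decomposition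

variable {G : Type*} [Group G]

/-- **Memo IGUSA1 §2 (c), general ring.**  Let `ι : SL₂(R) → G`, `G = D·B`, `ι(upperU t) ∈ D` for
all `t`, and suppose `B` normalises `ι(U)`.  Then `ι` maps the elementary subgroup into `D`. -/
theorem map_elemSubgroup_le_of_mul {R : Type*} [CommRing R]
    (ι : Matrix.SpecialLinearGroup (Fin 2) R →* G) (D B : Subgroup G)
    (hDB : ∀ g : G, ∃ d ∈ D, ∃ b ∈ B, g = d * b)
    (hU : ∀ t : R, ι (upperU t) ∈ D)
    (hB : ∀ b ∈ B, ∀ t : R, ∃ s : R, b * ι (upperU t) * b⁻¹ = ι (upperU s)) :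
    (elemSubgroup R).map ι ≤ D := by
  rw [Subgroup.map_le_iff_le_comap, elemSubgroup, Subgroup.closure_le]
  rintro g (⟨t, rfl⟩ | ⟨t, rfl⟩)
  · exact hU t
  · rw [SetLike.mem_coe, Subgroup.mem_comap, lowerU_eq_conj, map_mul, map_mul, map_inv]
    obtain ⟨d, hd, b, hb, hdb⟩ := hDB (ι (weylW R))
    obtain ⟨s, hs⟩ := hB b hb (-t)
    have : ι (weylW R) * ι (upperU (-t)) * (ι (weylW R))⁻¹ = d * ι (upperU s) * d⁻¹ := by
      rw [hdb, ← hs]; group
    rw [this]
    exact mul_mem (mul_mem hd (hU s)) (inv_mem hd)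

/-- **Memo IGUSA1 §2 (c).**  Let `ι : SL₂(ℤ/M) → G` (`M ≠ 0`), `G = D·B`, `ι(U) ≤ D` for the upper
unitriangular group `U`, and suppose `B` normalises `ι(U)`.  Then `ι(SL₂(ℤ/M)) ≤ D`. -/
theorem map_sl2_le_of_mul (M : ℕ) [NeZero M]
    (ι : Matrix.SpecialLinearGroup (Fin 2) (ZMod M) →* G) (D B : Subgroup G)
    (hDB : ∀ g : G, ∃ d ∈ D, ∃ b ∈ B, g = d * b)
    (hU : ∀ t : ZMod M, ι (upperU t) ∈ D)
    (hB : ∀ b ∈ B, ∀ t : ZMod M, ∃ s : ZMod M, b * ι (upperU t) * b⁻¹ = ι (upperU s)) :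
    ι.range ≤ D := by
  have := map_elemSubgroup_le_of_mul ι D B hDB hU hB
  rwa [elemSubgroup_zmod_eq_top, ← MonoidHom.range_eq_map] at this

/-- **Memo IGUSA1 §2 (c)+(d).**  In the situation of `map_sl2_le_of_mul`, if moreover
`G = ι(SL₂(ℤ/M))·H`, then `G = D·H`. -/
theorem exists_mul_of_sl2 (M : ℕ) [NeZero M]
    (ι : Matrix.SpecialLinearGroup (Fin 2) (ZMod M) →* G) (D B H : Subgroup G)
    (hDB : ∀ g : G, ∃ d ∈ D, ∃ b ∈ B, g = d * b)
    (hU : ∀ t : ZMod M, ι (upperU t) ∈ D)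
    (hB : ∀ b ∈ B, ∀ t : ZMod M, ∃ s : ZMod M, b * ι (upperU t) * b⁻¹ = ι (upperU s))
    (hH : ∀ g : G, ∃ s : Matrix.SpecialLinearGroup (Fin 2) (ZMod M), ∃ h ∈ H, g = ι s * h)
    (g : G) : ∃ d ∈ D, ∃ h ∈ H, g = d * h := by
  obtain ⟨s, h, hh, rfl⟩ := hH g
  exact ⟨ι s, map_sl2_le_of_mul M ι D B hDB hU hB ⟨s, rfl⟩, h, hh, rfl⟩

end Decomposition

section Scalar

variable {R : Type*} [CommRing R]

/-- **Memo IGUSA1 §2 (e).**  A `2 × 2` matrix all of whose conjugates by elementary matrices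
are upper triangular is scalar. -/
theorem eq_scalar_of_conj_upper (A : Matrix (Fin 2) (Fin 2) R)
    (h : ∀ s : Matrix.SpecialLinearGroup (Fin 2) R, s ∈ elemSubgroup R →
      ((s : Matrix (Fin 2) (Fin 2) R) * A * ((s⁻¹ : Matrix.SpecialLinearGroup (Fin 2) R) :
        Matrix (Fin 2) (Fin 2) R)) 1 0 = 0) :
    A = Matrix.scalar (Fin 2) (A 0 0) := by
  have h1 := h 1 (one_mem _)
  have h2 := h (weylW R) weylW_mem
  have h3 := h (lowerU 1) (lowerU_mem 1)
  have ew : (((weylW R)⁻¹ : Matrix.SpecialLinearGroup (Fin 2) R) :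
      Matrix (Fin 2) (Fin 2) R) = !![0, 1; -1, 0] := by
    rw [Matrix.SpecialLinearGroup.coe_inv, coe_weylW, Matrix.adjugate_fin_two]
    simp
  have el : (((lowerU (1 : R))⁻¹ : Matrix.SpecialLinearGroup (Fin 2) R) :
      Matrix (Fin 2) (Fin 2) R) = !![1, 0; -1, 1] := by
    rw [Matrix.SpecialLinearGroup.coe_inv, coe_lowerU, Matrix.adjugate_fin_two]
    simp
  rw [ew, coe_weylW] at h2
  rw [el, coe_lowerU] at h3
  rw [Matrix.SpecialLinearGroup.coe_one, inv_one, Matrix.SpecialLinearGroup.coe_one, one_mul,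
    mul_one] at h1
  have e2 : ((!![0, -1; 1, 0] : Matrix (Fin 2) (Fin 2) R) * A *
      (!![0, 1; -1, 0] : Matrix (Fin 2) (Fin 2) R)) 1 0 = -(A 0 1) := by
    simp [Matrix.mul_apply, Fin.sum_univ_two, Matrix.vecMul, dotProduct]
  have e3 : ((!![1, 0; 1, 1] : Matrix (Fin 2) (Fin 2) R) * A *
      (!![1, 0; -1, 1] : Matrix (Fin 2) (Fin 2) R)) 1 0 =
      A 0 0 + A 1 0 - A 0 1 - A 1 1 := by
    simp [Matrix.mul_apply, Fin.sum_univ_two, Matrix.vecMul, dotProduct]
    ring
  rw [e2, neg_eq_zero] at h2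
  rw [e3, h1, h2] at h3
  have h4 : A 1 1 = A 0 0 := by linear_combination -h3
  ext i j
  fin_cases i <;> fin_cases j
  · simp
  · simpa using h2
  · simpa using h1
  · simpa using h4

/-- **The Borel subgroup normalises the unipotent radical.**  For an upper triangular
`b ∈ GL₂(R)` one has `b (1 t; 0 1) b⁻¹ = (1 s; 0 1)` with `s = b₀₀² t / det b`. -/
theorem exists_conj_upperU (b : GL (Fin 2) R) (hb : (b : Matrix (Fin 2) (Fin 2) R) 1 0 = 0)
    (t : R) :
    ∃ s : R, b * Matrix.SpecialLinearGroup.toGL (upperU t) * b⁻¹ =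
      Matrix.SpecialLinearGroup.toGL (upperU s) := by
  set δ : Rˣ := Matrix.GeneralLinearGroup.det b with hδ
  have hdet : (b : Matrix (Fin 2) (Fin 2) R) 0 0 * (b : Matrix (Fin 2) (Fin 2) R) 1 1 =
      (δ : R) := by
    have : (δ : R) = (b : Matrix (Fin 2) (Fin 2) R).det := rfl
    rw [this, Matrix.det_fin_two, hb, mul_zero, sub_zero]
  have hδ' : (δ : R) * (↑δ⁻¹ : R) = 1 := by simp
  refine ⟨(b : Matrix (Fin 2) (Fin 2) R) 0 0 * t *
    ((b : Matrix (Fin 2) (Fin 2) R) 0 0 * (↑δ⁻¹ : R)), ?_⟩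
  rw [mul_inv_eq_iff_eq_mul]
  apply Units.ext
  rw [Units.val_mul, Units.val_mul]
  simp only [Matrix.SpecialLinearGroup.coe_GL_coe_matrix, coe_upperU]
  ext i j
  fin_cases i <;> fin_cases j
  · simp [Matrix.mul_apply, Fin.sum_univ_two, hb]
  · simp [Matrix.mul_apply, Fin.sum_univ_two]
    linear_combination -((b : Matrix (Fin 2) (Fin 2) R) 0 0 * t) * hδ' -
      ((b : Matrix (Fin 2) (Fin 2) R) 0 0 * t * (↑δ⁻¹ : R)) * hdet
  · simp [Matrix.mul_apply, Fin.sum_univ_two]
  · simp [Matrix.mul_apply, Fin.sum_univ_two, hb]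

end Scalar

end Fermat.Agent.S48.H368

end
-- ===== PACK-END S48/H368/IGrp.lean

-- ===== PACK-BEGIN S29/H152/DescAut.lean
section
/-
S29 / DESC (helper152) — part 1: automorphisms of an algebraically closed field over an
algebraically closed subfield.  Mathlib-only.

* `descAut_exists_add_one` : `x` transcendental over `K` in an algebraically closed field `C`
  ⇒ some `σ : C ≃ₐ[K] C` has `σ x = x + 1`.
* `descAut_mem_range_of_fixed` : `K`, `C` algebraically closed, `C` of characteristic zero,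
  `H ≤ Aut(C/K)` of finite index, `x` fixed by `H` ⇒ `x ∈ K`.
-/


set_option autoImplicit false

namespace Fermat.Agent.S29.H152

open MvPolynomial

section Shift

variable {K : Type*} [Field K] {ι : Type*} [DecidableEq ι]

/-- The `K`-algebra endomorphism of `K[X_i]` with `X_{i₀} ↦ X_{i₀} + c`, other variables fixed. -/
noncomputable def descShift (i₀ : ι) (c : K) : MvPolynomial ι K →ₐ[K] MvPolynomial ι K :=
  aeval fun i => if i = i₀ then X i + C c else X i

theorem descShift_X_self (i₀ : ι) (c : K) : descShift i₀ c (X i₀) = X i₀ + C c := by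
  simp [descShift]

theorem descShift_X_of_ne (i₀ : ι) (c : K) {i : ι} (h : i ≠ i₀) :
    descShift i₀ c (X i) = X i := by
  simp [descShift, h]

theorem descShift_comp (i₀ : ι) (c d : K) :
    (descShift i₀ c).comp (descShift i₀ d) = descShift i₀ (c + d) := by
  apply MvPolynomial.algHom_ext
  intro i
  by_cases h : i = i₀
  · subst h
    simp only [AlgHom.comp_apply, descShift_X_self, map_add]
    rw [show (descShift i c) (C d) = C d from (descShift i c).commutes d]
    ring
  · simp only [AlgHom.comp_apply, descShift_X_of_ne _ _ h]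

theorem descShift_zero (i₀ : ι) : descShift i₀ (0 : K) = AlgHom.id K _ := by
  apply MvPolynomial.algHom_ext
  intro i
  by_cases h : i = i₀
  · subst h
    simp [descShift_X_self]
  · simp [descShift_X_of_ne _ _ h]

/-- The shift as an algebra automorphism. -/
noncomputable def descShiftEquiv (i₀ : ι) (c : K) : MvPolynomial ι K ≃ₐ[K] MvPolynomial ι K :=
  AlgEquiv.ofAlgHom (descShift i₀ c) (descShift i₀ (-c))
    (by rw [descShift_comp, add_neg_cancel, descShift_zero])
    (by rw [descShift_comp, neg_add_cancel, descShift_zero])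

theorem descShiftEquiv_X_self (i₀ : ι) (c : K) : descShiftEquiv i₀ c (X i₀) = X i₀ + C c :=
  descShift_X_self i₀ c

end Shift

section Aut

variable {K Ω : Type*} [Field K] [Field Ω] [Algebra K Ω] [IsAlgClosed Ω]

/-- For `x` transcendental over `K` in an algebraically closed field `C`, some `K`-automorphism
of `C` maps `x` to `x + 1`. -/
theorem descAut_exists_add_one (x : Ω) (hx : Transcendental K x) :
    ∃ σ : Ω ≃ₐ[K] Ω, σ x = x + 1 := by
  classical
  have hind : AlgebraicIndepOn K id ({x} : Set Ω) := by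
    show AlgebraicIndependent K fun i : ({x} : Set Ω) => id (i : Ω)
    let _ : Unique ({x} : Set Ω) := Set.uniqueSingleton x
    rw [algebraicIndependent_unique_type_iff]
    exact hx
  obtain ⟨B, hxB, hB⟩ := exists_isTranscendenceBasis_superset hind
  have hxB' : x ∈ B := hxB (Set.mem_singleton x)
  let i₀ : B := ⟨x, hxB'⟩
  -- the subalgebra generated by the basis
  let A := Algebra.adjoin K (Set.range ((↑) : B → Ω))
  have hAC : IsAlgClosure A Ω := IsAlgClosed.isAlgClosure_of_transcendence_basis _ hB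
  -- the automorphism of `A`
  let e : A ≃ₐ[K] A := (hB.1.aevalEquiv.symm.trans (descShiftEquiv i₀ 1)).trans hB.1.aevalEquiv
  let σ₀ : Ω ≃+* Ω := IsAlgClosure.equivOfEquiv Ω Ω e.toRingEquiv
  have hσ₀ : ∀ a : A, σ₀ (algebraMap A Ω a) = algebraMap A Ω (e a) := fun a =>
    IsAlgClosure.equivOfEquiv_algebraMap Ω Ω e.toRingEquiv a
  have hK : ∀ r : K, σ₀ (algebraMap K Ω r) = algebraMap K Ω r := by
    intro r
    have h1 : algebraMap K Ω r = algebraMap A Ω (algebraMap K A r) := rfl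
    rw [h1, hσ₀, e.commutes]
  refine ⟨AlgEquiv.ofRingEquiv (f := σ₀) hK, ?_⟩
  show σ₀ x = x + 1
  have hx1 : x = algebraMap A Ω (hB.1.aevalEquiv (X i₀)) := by
    rw [hB.1.algebraMap_aevalEquiv, aeval_X]
  have he : e (hB.1.aevalEquiv (X i₀)) = hB.1.aevalEquiv (X i₀ + C 1) := by
    show hB.1.aevalEquiv ((descShiftEquiv i₀ 1) (hB.1.aevalEquiv.symm (hB.1.aevalEquiv (X i₀)))) = _
    rw [AlgEquiv.symm_apply_apply, descShiftEquiv_X_self]
  conv_lhs => rw [hx1]
  rw [hσ₀, he, hB.1.algebraMap_aevalEquiv, map_add, aeval_X, aeval_C]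
  simp [i₀]

omit [IsAlgClosed Ω] in
/-- Iterating: `σ ^ n` maps `x` to `x + n`. -/
theorem descAut_pow_apply {σ : Ω ≃ₐ[K] Ω} {x : Ω} (h : σ x = x + 1) (n : ℕ) :
    (σ ^ n) x = x + n := by
  induction n with
  | zero => simp
  | succ n ih =>
    rw [pow_succ', AlgEquiv.mul_apply, ih, map_add, h, map_natCast]
    push_cast
    ring

end Aut

section Fixed

variable {K Ω : Type*} [Field K] [Field Ω] [Algebra K Ω] [IsAlgClosed K] [IsAlgClosed Ω]
  [CharZero Ω]

/-- An element of `C` fixed by a finite-index subgroup of `Aut(C/K)` lies in `K`. -/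
theorem descAut_mem_range_of_fixed (H : Subgroup (Ω ≃ₐ[K] Ω)) (hH : H.index ≠ 0) (x : Ω)
    (hx : ∀ σ ∈ H, σ x = x) : x ∈ Set.range (algebraMap K Ω) := by
  by_contra hxK
  have htr : Transcendental K x := by
    intro halg
    apply hxK
    have hint : IsIntegral K x := halg.isIntegral
    have hdeg : (minpoly K x).degree = 1 :=
      IsAlgClosed.degree_eq_one_of_irreducible K (minpoly.irreducible hint)
    exact minpoly.mem_range_of_degree_eq_one K x hdeg
  obtain ⟨σ, hσ⟩ := descAut_exists_add_one x htr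
  obtain ⟨n, hn, -, hmem⟩ := Subgroup.exists_pow_mem_of_index_ne_zero hH σ
  have h1 := hx _ hmem
  rw [descAut_pow_apply hσ] at h1
  have : (n : Ω) = 0 := by simpa using h1
  exact hn.ne' (by exact_mod_cast this)

end Fixed

end Fermat.Agent.S29.H152

end
-- ===== PACK-END S29/H152/DescAut.lean

-- ===== PACK-BEGIN S29/H455/NormEmb.lean
section


/-!
# The norm as a product over an explicit complete family of embeddings

Let `L / K` be a finite separable extension of degree `n` and let `τ i : L →+* E` (`i : I`,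
`|I| = n`) be pairwise distinct ring homomorphisms into a field `E` which all restrict to the same
`j : K →+* E`.  Then `j (N_{L/K} x) = ∏ i, τ i x` (and similarly for the trace).

This is the Galois-theoretic input of the "Hecke operator on Kummer classes" computation
(`K = ` function field of `X₀(N)`, `L = ` function field of `X₀(Nℓ)`, `E = ` meromorphic functions
on the upper half plane, `τ i f = f ∘ γ_i`).
-/

set_option autoImplicit false
set_option linter.style.haveILetI false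
set_option linter.unusedSectionVars false

namespace Fermat.Agent.S29.H455

open Polynomial

section

variable {K L E : Type*} [Field K] [Field L] [Field E] [Algebra K L] [FiniteDimensional K L]
  [Algebra.IsSeparable K L]
variable (j : K →+* E) {I : Type*} [Fintype I] (τ : I → (L →+* E))

/-- The `K`-algebra homomorphism into the algebraic closure of `E` induced by `τ i`. -/
noncomputable def NormEmb_lift (hτ : ∀ i, (τ i).comp (algebraMap K L) = j) (i : I) :
    letI : Algebra K E := j.toAlgebra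
    L →ₐ[K] AlgebraicClosure E :=
  letI : Algebra K E := j.toAlgebra
  { (algebraMap E (AlgebraicClosure E)).comp (τ i) with
    commutes' := fun a => by
      have h := RingHom.congr_fun (hτ i) a
      simp only [RingHom.comp_apply] at h
      show (algebraMap E (AlgebraicClosure E)) (τ i (algebraMap K L a)) = _
      rw [h]
      rfl }

theorem NormEmb_lift_apply (hτ : ∀ i, (τ i).comp (algebraMap K L) = j) (i : I) (x : L) :
    (letI : Algebra K E := j.toAlgebra; NormEmb_lift j τ hτ i x)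
      = algebraMap E (AlgebraicClosure E) (τ i x) := rfl

theorem NormEmb_lift_bijective (hτ : ∀ i, (τ i).comp (algebraMap K L) = j)
    (hinj : Function.Injective τ) (hcard : Fintype.card I = Module.finrank K L) :
    letI : Algebra K E := j.toAlgebra
    Function.Bijective (NormEmb_lift j τ hτ) := by
  letI : Algebra K E := j.toAlgebra
  rw [Fintype.bijective_iff_injective_and_card]
  refine ⟨fun i i' h => hinj ?_, ?_⟩
  · ext x
    have := DFunLike.congr_fun h x
    rw [NormEmb_lift_apply, NormEmb_lift_apply] at this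
    exact (algebraMap E (AlgebraicClosure E)).injective this
  · rw [hcard, AlgHom.card K L (AlgebraicClosure E)]

/-- The norm is the product over a complete family of distinct embeddings. -/
theorem norm_eq_prod_of_injective (hτ : ∀ i, (τ i).comp (algebraMap K L) = j)
    (hinj : Function.Injective τ) (hcard : Fintype.card I = Module.finrank K L) (x : L) :
    j (Algebra.norm K x) = ∏ i, τ i x := by
  letI : Algebra K E := j.toAlgebra
  have h1 := Algebra.norm_eq_prod_embeddings K (AlgebraicClosure E) x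
  have h2 : ∏ i, NormEmb_lift j τ hτ i x = ∏ σ : L →ₐ[K] AlgebraicClosure E, σ x :=
    Fintype.prod_bijective _ (NormEmb_lift_bijective j τ hτ hinj hcard) _ _ (fun _ => rfl)
  rw [← h2] at h1
  simp only [NormEmb_lift_apply] at h1
  rw [← map_prod] at h1
  have h3 : algebraMap K (AlgebraicClosure E) (Algebra.norm K x)
      = algebraMap E (AlgebraicClosure E) (j (Algebra.norm K x)) := rfl
  rw [h3] at h1
  exact (algebraMap E (AlgebraicClosure E)).injective h1

/-- The trace is the sum over a complete family of distinct embeddings. -/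
theorem trace_eq_sum_of_injective (hτ : ∀ i, (τ i).comp (algebraMap K L) = j)
    (hinj : Function.Injective τ) (hcard : Fintype.card I = Module.finrank K L) (x : L) :
    j (Algebra.trace K L x) = ∑ i, τ i x := by
  letI : Algebra K E := j.toAlgebra
  have h1 := trace_eq_sum_embeddings (K := K) (L := L) (AlgebraicClosure E) (x := x)
  have h2 : ∑ i, NormEmb_lift j τ hτ i x = ∑ σ : L →ₐ[K] AlgebraicClosure E, σ x :=
    Fintype.sum_bijective _ (NormEmb_lift_bijective j τ hτ hinj hcard) _ _ (fun _ => rfl)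
  rw [← h2] at h1
  simp only [NormEmb_lift_apply] at h1
  rw [← map_sum] at h1
  have h3 : algebraMap K (AlgebraicClosure E) (Algebra.trace K L x)
      = algebraMap E (AlgebraicClosure E) (j (Algebra.trace K L x)) := rfl
  rw [h3] at h1
  exact (algebraMap E (AlgebraicClosure E)).injective h1

end

end Fermat.Agent.S29.H455

end
-- ===== PACK-END S29/H455/NormEmb.lean

-- ===== PACK-BEGIN S18/Alg/Spec.lean
section


/-!
# S18 / ALG — frozen abstract interface (row-lead helper18), Mathlib-only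

v2 (18:10Z): fields `gauss` and `separable` repaired (`0⁻¹ = 0` bugs found by helper887).
v3 (18:25Z): `GoodModel` UNCHANGED; NEW `GoodFamily` (directed family of good models); `AlgMainStatement`
now takes a `GoodFamily`, so that ALG may enlarge the constant field `Ec` (needed by endgame K').
v4 = FINAL (landed on main, never to change again): (a) new field `x_mem_V : x ∈ V` (trivial for
MOD; asked for by helper467/24/187); (b) `AlgMainStatement` only for PRIME `m` (helper425/694: the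
frozen S18 for all `m` follows from prime `m`, `S18/H694/PrimeRed.lean`).

Everything is a sub-object of ONE field `Ω` (in the application `Ω = F_M = Q̄(j_d : d ∣ M)`):

* `Lc`  : the algebraically closed constant field (`Q̄`),
* `Ec ≤ Lc`, `R ⊆ Ec` : a subfield with a discrete valuation ring `R`, uniformiser `w`
  (`Ec` a number field, `R = A ∩ Ec`),
* `Fc`  : the function field over `Ec` (`Ec(j_d : d ∣ M)`), `Ω = Fc · Lc`,
* `x ∈ Fc` : the coordinate (`j`, `t₂` or `t₃`),
* `V ⊆ Fc` : the Gauss valuation ring (residue field = function field of the special fibre),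
* `S ⊆ R` : the finite branch values of `Ω / Lc(x)`.

`GoodModel`/`GoodFamily` = what MOD(M) + d1 must supply.  `AlgMainStatement` = what ALG (b1–b5, or
the polar endgame) must prove.  Together they give `CoreStatement M A m`.
-/

set_option autoImplicit false

namespace Fermat.Agent.S18.Alg

variable {Ω : Type*} [Field Ω]

/-- `R[x]` as a subring of `Ω`. -/
def polyRing (R : Subring Ω) (x : Ω) : Subring Ω := Subring.closure ((R : Set Ω) ∪ {x})

/-- `E(x)` as a subfield of `Ω`. -/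
def ratField (Ec : Subfield Ω) (x : Ω) : Subfield Ω := Subfield.closure ((Ec : Set Ω) ∪ {x})

/-- The chart: elements of `Fc` integral over `R[x]`. -/
def chart (Fc : Subfield Ω) (R : Subring Ω) (x : Ω) : Set Ω :=
  {b | b ∈ Fc ∧ IsIntegral (polyRing R x) b}

/-- The data supplied by the modular side (see the module docstring). -/
structure GoodModel (Lc Ec Fc : Subfield Ω) (R V : Subring Ω) (w x : Ω) (S : Finset Ω) : Prop where
  charZero : CharZero Ω
  -- `R` is a discrete valuation ring of `Ec` with uniformiser `w`, perfect residue field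
  R_le : (R : Set Ω) ⊆ Ec
  R_total : ∀ e ∈ Ec, e ∈ R ∨ e⁻¹ ∈ R
  w_mem : w ∈ R
  w_ne_zero : w ≠ 0
  w_inv_not_mem : w⁻¹ ∉ R
  w_gen : ∀ r ∈ R, r⁻¹ ∉ R → r * w⁻¹ ∈ R
  w_discrete : ∀ r ∈ R, r ≠ 0 → ∃ n : ℕ, r * (w⁻¹) ^ n ∈ R ∧ (r * (w⁻¹) ^ n)⁻¹ ∈ R
  residue_perfect : ∃ p : ℕ, p.Prime ∧ (p : Ω) * w⁻¹ ∈ R ∧
    ∀ r ∈ R, ∃ s ∈ R, (r - s ^ p) * w⁻¹ ∈ R
  -- the fields
  E_le_L : Ec ≤ Lc
  E_le_F : Ec ≤ Fc
  L_algebraic : ∀ a ∈ Lc, IsAlgebraic Ec a
  L_algClosed : IsAlgClosed Lc
  E_closed_in_F : ∀ f ∈ Fc, IsAlgebraic Ec f → f ∈ Ec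
  compositum : Subfield.closure ((Fc : Set Ω) ∪ Lc) = ⊤
  -- the coordinate
  x_mem : x ∈ Fc
  x_transcendental : Transcendental Lc x
  finite : ∃ s : Finset Ω, (s : Set Ω) ⊆ Fc ∧
    ∀ f ∈ Fc, f ∈ Submodule.span (ratField Ec x) (s : Set Ω)
  -- the Gauss valuation ring `V` of `Fc`
  V_le : (V : Set Ω) ⊆ Fc
  V_total : ∀ f ∈ Fc, f ∈ V ∨ f⁻¹ ∈ V
  R_le_V : R ≤ V
  w_inv_not_mem_V : w⁻¹ ∉ V
  V_gen : ∀ f ∈ V, f⁻¹ ∉ V → f * w⁻¹ ∈ V
  x_mem_V : x ∈ V
  /-- `V` restricted to `E(x)` is the Gauss valuation: a polynomial in `x` over `R` with a unit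
  coefficient is a unit of `V` (in particular `x` and `x⁻¹` lie in `V`). -/
  gauss : ∀ P : Polynomial Ω, (∀ i, P.coeff i ∈ R) → (∃ i, P.coeff i ≠ 0 ∧ (P.coeff i)⁻¹ ∈ R) →
    (P.eval x)⁻¹ ∈ V
  /-- `q`-expansion principle on both charts: `b` integral over `R[x^{±1}]`, `b/w ∈ V`
  ⟹ `b/w` integral over `R[x^{±1}]`. -/
  qep_fin : ∀ b ∈ chart Fc R x, b * w⁻¹ ∈ V → b * w⁻¹ ∈ chart Fc R x
  qep_inf : ∀ b ∈ chart Fc R x⁻¹, b * w⁻¹ ∈ V → b * w⁻¹ ∈ chart Fc R x⁻¹
  /-- the residue field of `V` is separable over `κ(x̄)` (elementwise form) -/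
  separable : ∀ f ∈ V, ∃ P : Polynomial Ω, (∀ i, P.coeff i ∈ polyRing R x) ∧
    P.eval f * w⁻¹ ∈ V ∧ (Polynomial.derivative P).eval f ≠ 0 ∧
    ((Polynomial.derivative P).eval f)⁻¹ ∈ V
  -- branch values: in `R`, pairwise distinct mod `w`, the nonzero ones are units of `R`
  S_mem : ∀ s ∈ S, s ∈ R
  S_distinct : ∀ s ∈ S, ∀ t ∈ S, s ≠ t → (s - t)⁻¹ ∈ R
  S_unit : ∀ s ∈ S, s ≠ 0 → s⁻¹ ∈ R
  /-- over `Lc`: at a place where `x` takes a value `c ∉ S`, `x - c` is a uniformiser -/
  unramified : ∀ O : ValuationSubring Ω, (∀ a ∈ Lc, a ∈ O) → ∀ c ∈ Lc, c ∉ S →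
    x - c ∈ O → (x - c)⁻¹ ∉ O → ∀ t ∈ O, t⁻¹ ∉ O → t * (x - c)⁻¹ ∈ O

/-- A model, as a tuple `(Ec, Fc, R, V, w)`. -/
abbrev Model (Ω : Type*) [Field Ω] : Type _ :=
  Subfield Ω × Subfield Ω × Subring Ω × Subring Ω × Ω

/-- `p ≤ p'` for models: all four sub-objects grow (the uniformiser may change). -/
def Model.le (p p' : Model Ω) : Prop :=
  p.1 ≤ p'.1 ∧ p.2.1 ≤ p'.2.1 ∧ p.2.2.1 ≤ p'.2.2.1 ∧ p.2.2.2.1 ≤ p'.2.2.2.1

/-- A **directed family of good models** (v3): every member is a `GoodModel`, and every member can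
be enlarged inside the family so that its constant field `Ec` contains any given finite set of
elements of `Lc`.  (In the application: all number fields `E ⊆ Q̄`.)  ALG may therefore assume
that `Ec` contains `ζ_m`, the `x`-coordinates of the zeros and poles of `u`, the constants of
`Fc(u^{1/m})`, … by passing to a larger member. -/
structure GoodFamily (Lc : Subfield Ω) (x : Ω) (S : Finset Ω) (𝓕 : Set (Model Ω)) : Prop where
  good : ∀ p ∈ 𝓕, GoodModel Lc p.1 p.2.1 p.2.2.1 p.2.2.2.1 p.2.2.2.2 x S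
  enlarge : ∀ p ∈ 𝓕, ∀ T : Finset Ω, (∀ a ∈ T, a ∈ Lc) →
    ∃ p' ∈ 𝓕, Model.le p p' ∧ ∀ a ∈ T, a ∈ p'.1

/-- **ALG main statement** (v4): for a directed family of good models, a member `p = (Ec,Fc,R,V,w)`
and a function `u ∈ Fc` with `u ≡ 1 mod w` whose divisor (over `Lc`) is divisible by `m`
(`m` a PRIME number which is a unit of `R`): `u` is a constant times an `m`-th power in
`Ω = Fc·Lc`. -/
def AlgMainStatement (Lc : Subfield Ω) (x : Ω) (S : Finset Ω) (𝓕 : Set (Model Ω)) : Prop :=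
  GoodFamily Lc x S 𝓕 →
    ∀ p ∈ 𝓕, ∀ m : ℕ, m.Prime → ((m : Ω))⁻¹ ∈ p.2.2.1 →
    ∀ u ∈ p.2.1, u ≠ 0 → (u - 1) * (p.2.2.2.2)⁻¹ ∈ p.2.2.2.1 →
      (∀ O : ValuationSubring Ω, (∀ a ∈ Lc, a ∈ O) →
        ∃ t : Ω, t ≠ 0 ∧ u * t ^ m ∈ O ∧ (u * t ^ m)⁻¹ ∈ O) →
      ∃ y : Ω, ∃ c ∈ Lc, c ≠ 0 ∧ u = c * y ^ m

end Fermat.Agent.S18.Alg

end
-- ===== PACK-END S18/Alg/Spec.lean

-- ===== PACK-BEGIN S28/H806/Transcend.lean
section



set_option autoImplicit false
set_option linter.unusedSectionVars false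
set_option linter.style.haveILetI false

noncomputable section

namespace Fermat.Agent.S28.H806

open Polynomial ModularCurve

section LemmaT

variable {D : Type*} [CommRing D] [IsDomain D]

theorem order_C_mul_pow (t : HahnSeries ℤ D) (ht : t ≠ 0) {c : D} (hc : c ≠ 0) (i : ℕ) :
    (HahnSeries.C c * t ^ i).order = (i : ℤ) * t.order := by
  have hC : (HahnSeries.C c : HahnSeries ℤ D) ≠ 0 := by
    intro h
    exact hc (HahnSeries.C_injective (by rw [h, map_zero]))
  rw [HahnSeries.order_mul hC (pow_ne_zero _ ht), HahnSeries.order_pow, HahnSeries.order_C,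
    zero_add, nsmul_eq_mul]

/-- **Lemma T.** A Laurent series of nonzero order is transcendental over the coefficients:
`∑ cᵢ tⁱ = 0` forces all `cᵢ = 0`. -/
theorem eq_zero_of_eval₂_C_eq_zero (t : HahnSeries ℤ D) (ht : t.order ≠ 0) (p : D[X])
    (hp : p.eval₂ (HahnSeries.C (Γ := ℤ) (R := D)) t = 0) : p = 0 := by
  classical
  by_contra hp0
  have ht0 : t ≠ 0 := by
    rintro rfl
    exact ht HahnSeries.order_zero
  have hne : p.support.Nonempty := by
    rw [Finset.nonempty_iff_ne_empty, Ne, Polynomial.support_eq_empty]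
    exact hp0
  obtain ⟨i0, hi0, hmin⟩ := Finset.exists_min_image p.support (fun i : ℕ => (i : ℤ) * t.order) hne
  have hci0 : p.coeff i0 ≠ 0 := Polynomial.mem_support_iff.mp hi0
  rw [Polynomial.eval₂_eq_sum, Polynomial.sum_def] at hp
  have hcoef := congrArg (fun x : HahnSeries ℤ D => x.coeff ((i0 : ℤ) * t.order)) hp
  simp only [HahnSeries.coeff_zero] at hcoef
  have hsum : (∑ i ∈ p.support, HahnSeries.C (p.coeff i) * t ^ i).coeff ((i0 : ℤ) * t.order) =
      ∑ i ∈ p.support, (HahnSeries.C (p.coeff i) * t ^ i).coeff ((i0 : ℤ) * t.order) :=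
    map_sum (HahnSeries.coeff.addMonoidHom ((i0 : ℤ) * t.order)) _ p.support
  rw [hsum, Finset.sum_eq_single i0] at hcoef
  · have h1 : (HahnSeries.C (p.coeff i0) * t ^ i0) ≠ 0 := by
      apply mul_ne_zero
      · intro h
        exact hci0 (HahnSeries.C_injective (by rw [h, map_zero]))
      · exact pow_ne_zero _ ht0
    rw [← order_C_mul_pow t ht0 hci0 i0] at hcoef
    exact h1 (HahnSeries.coeff_order_eq_zero.mp hcoef)
  · intro i hi hii0
    have hci : p.coeff i ≠ 0 := Polynomial.mem_support_iff.mp hi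
    apply HahnSeries.coeff_eq_zero_of_lt_order
    rw [order_C_mul_pow t ht0 hci i]
    have hle := hmin i hi
    rcases lt_or_eq_of_le hle with h | h
    · exact h
    · exfalso
      apply hii0
      have := mul_right_cancel₀ ht h
      exact_mod_cast this.symm
  · intro h
    exact absurd hi0 h

end LemmaT

section JOrder

variable (D : Type*) [CommRing D] [IsDomain D]

theorem jqModC_order_neg : (jqModC D).order < 0 := by
  have h1 : (jqModC D).coeff (-1) ≠ 0 := by
    rw [coeff_jqModC_neg_one]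
    exact one_ne_zero
  exact lt_of_le_of_lt (HahnSeries.order_le_of_coeff_ne_zero h1) (by norm_num)

theorem jqModC_order_ne_zero : (jqModC D).order ≠ 0 := (jqModC_order_neg D).ne

theorem jqModC_ne_zero' : jqModC D ≠ 0 := jqModC_ne_zero_of_nontrivial D

variable (k : Type*) [Field k]

theorem jqModC_inv_order_ne_zero : ((jqModC k)⁻¹).order ≠ 0 := by
  have h0 := jqModC_ne_zero' k
  have h1 : (jqModC k)⁻¹ ≠ 0 := inv_ne_zero h0
  have h2 := HahnSeries.order_mul h0 h1
  rw [mul_inv_cancel₀ h0, HahnSeries.order_one] at h2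
  have h3 := jqModC_order_neg k
  omega

end JOrder

end Fermat.Agent.S28.H806

end
end
-- ===== PACK-END S28/H806/Transcend.lean

-- ===== PACK-BEGIN S28/H626/Twist.lean
section
/-
S28 helper (helper626): twists `t ↦ c t` of Laurent series, the family `j(ξ tⁿ)`,
and transport of two-variable integral polynomial relations along ring homomorphisms.
Mathlib + Prelude only.
-/



set_option autoImplicit false

noncomputable section

open ModularCurve HahnSeries Polynomial

namespace Fermat.Agent.S28.H626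

/-! ### Twist `t ↦ c t` -/

section Twist

variable {R : Type*} [CommRing R]

theorem coeff_mul_of_support_subset {x y : LaurentSeries R} {a : ℤ} {s t : Set ℤ}
    (hs : s.IsPWO) (ht : t.IsPWO) (hxs : x.support ⊆ s) (hyt : y.support ⊆ t) :
    (x * y).coeff a =
      ∑ ij ∈ Finset.antidiagonal hs ht a, x.coeff ij.fst * y.coeff ij.snd := by
  rw [HahnSeries.coeff_mul_left' hs hxs]
  refine Finset.sum_subset (Finset.antidiagonal_mono_right hyt) ?_
  intro ij hij hnot
  have hj : ij.2 ∉ y.support := by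
    intro hj
    apply hnot
    rw [Finset.mem_antidiagonal] at hij ⊢
    exact ⟨hij.1, hj, hij.2.2⟩
  simp only [HahnSeries.mem_support, not_not] at hj
  rw [hj, mul_zero]

/-- underlying function of `twist` -/
def twistFun (c : Rˣ) (φ : LaurentSeries R) : LaurentSeries R where
  coeff n := ((c ^ n : Rˣ) : R) * φ.coeff n
  isPWO_support' := φ.isPWO_support.mono fun n hn => by
    simp only [Function.mem_support, ne_eq] at hn
    simp only [HahnSeries.mem_support, ne_eq]
    intro h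
    exact hn (by rw [h, mul_zero])

@[simp] theorem twistFun_coeff (c : Rˣ) (φ : LaurentSeries R) (n : ℤ) :
    (_root_.Fermat.Agent.S28.H626.twistFun c φ).coeff n = ((c ^ n : Rˣ) : R) * φ.coeff n := rfl

theorem twistFun_support (c : Rˣ) (φ : LaurentSeries R) :
    (_root_.Fermat.Agent.S28.H626.twistFun c φ).support ⊆ φ.support := by
  intro m hm
  simp only [HahnSeries.mem_support, _root_.Fermat.Agent.S28.H626.twistFun_coeff] at hm ⊢
  intro h0
  exact hm (by rw [h0, mul_zero])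

/-- The substitution `t ↦ c t` on Laurent series, for a unit `c`:
`(twist c φ).coeff n = c ^ n * φ.coeff n`. -/
def twist (c : Rˣ) : LaurentSeries R →+* LaurentSeries R where
  toFun := _root_.Fermat.Agent.S28.H626.twistFun c
  map_zero' := by ext n; simp
  map_one' := by
    ext n
    by_cases h : n = 0
    · subst h; simp
    · simp [HahnSeries.coeff_one, h]
  map_add' φ ψ := by ext n; simp [mul_add]
  map_mul' φ ψ := by
    ext n
    rw [coeff_mul_of_support_subset φ.isPWO_support ψ.isPWO_support (_root_.Fermat.Agent.S28.H626.twistFun_support c φ)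
      (_root_.Fermat.Agent.S28.H626.twistFun_support c ψ)]
    simp only [_root_.Fermat.Agent.S28.H626.twistFun_coeff, HahnSeries.coeff_mul, Finset.mul_sum]
    refine Finset.sum_congr rfl ?_
    intro ij hij
    rw [Finset.mem_antidiagonal] at hij
    rw [← hij.2.2, zpow_add, Units.val_mul]
    ring

@[simp] theorem twist_coeff (c : Rˣ) (φ : LaurentSeries R) (n : ℤ) :
    (_root_.Fermat.Agent.S28.H626.twist c φ).coeff n = ((c ^ n : Rˣ) : R) * φ.coeff n := rfl

theorem twist_one_apply (φ : LaurentSeries R) : _root_.Fermat.Agent.S28.H626.twist (1 : Rˣ) φ = φ := by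
  ext n; simp

theorem twist_twist (c d : Rˣ) (φ : LaurentSeries R) :
    _root_.Fermat.Agent.S28.H626.twist c (_root_.Fermat.Agent.S28.H626.twist d φ) = _root_.Fermat.Agent.S28.H626.twist (c * d) φ := by
  ext n
  simp only [_root_.Fermat.Agent.S28.H626.twist_coeff, mul_zpow, Units.val_mul]
  ring

/-- `f((c t)^m) = f(c^m t^m)`. -/
theorem twist_qExpand (c : Rˣ) (m : ℕ) [NeZero m] (φ : LaurentSeries R) :
    _root_.Fermat.Agent.S28.H626.twist c (qExpand R m φ) = qExpand R m (_root_.Fermat.Agent.S28.H626.twist (c ^ m) φ) := by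
  ext n
  by_cases hn : (m : ℤ) ∣ n
  · obtain ⟨k, rfl⟩ := hn
    rw [_root_.Fermat.Agent.S28.H626.twist_coeff, qExpand_coeff_mul, qExpand_coeff_mul, _root_.Fermat.Agent.S28.H626.twist_coeff]
    congr 2
    rw [← zpow_natCast, ← zpow_mul]
  · rw [_root_.Fermat.Agent.S28.H626.twist_coeff, qExpand_coeff_of_not_dvd _ _ hn, qExpand_coeff_of_not_dvd _ _ hn, mul_zero]

end Twist

end Fermat.Agent.S28.H626

end

end
-- ===== PACK-END S28/H626/Twist.lean

-- ===== PACK-BEGIN S28/H326/Basic.lean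
section
/-
S28 / helper326: formal conjugation operators on power series over `ℂ`
(`q ↦ ζ^b t` and `q ↦ t^(p²)`, base embedding `q ↦ t^p`) and the Hecke power-sum identity.
-/




set_option autoImplicit false
set_option linter.unusedSectionVars false

noncomputable section

namespace Fermat.Agent.S28.H326

open ModularCurve HahnSeries

/-- `ℂ⟦X⟧ → ℂ((t))`. -/
abbrev ofPS : PowerSeries ℂ →+* LaurentSeries ℂ := HahnSeries.ofPowerSeries ℤ ℂ

theorem ofPS_coeff_nat (g : PowerSeries ℂ) (n : ℕ) : (ofPS g).coeff (n : ℤ) = g.coeff n :=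
  HahnSeries.ofPowerSeries_apply_coeff g n

theorem ofPS_coeff_neg (g : PowerSeries ℂ) {n : ℤ} (hn : n < 0) : (ofPS g).coeff n = 0 :=
  ofPowerSeries_coeff_of_neg g hn

/-- The primitive `p`-th root of unity `exp(2πi/p)`. -/
def zeta (p : ℕ) : ℂ := Complex.exp (2 * Real.pi * Complex.I / p)

theorem zeta_isPrimitiveRoot (p : ℕ) [NeZero p] : IsPrimitiveRoot (zeta p) p :=
  Complex.isPrimitiveRoot_exp p (NeZero.ne p)

theorem zeta_pow_self (p : ℕ) [NeZero p] : zeta p ^ p = 1 := (zeta_isPrimitiveRoot p).pow_eq_one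

theorem zeta_ne_zero (p : ℕ) : zeta p ≠ 0 := Complex.exp_ne_zero _

/-- root-of-unity orthogonality -/
theorem sum_zeta_pow (p : ℕ) [NeZero p] (k : ℕ) :
    ∑ b ∈ Finset.range p, (zeta p ^ b) ^ k = if p ∣ k then (p : ℂ) else 0 := by
  have hz := zeta_isPrimitiveRoot p
  split_ifs with h
  · have : ∀ b ∈ Finset.range p, (zeta p ^ b) ^ k = 1 := by
      intro b _
      rw [← pow_mul, mul_comm, pow_mul, (hz.pow_eq_one_iff_dvd k).mpr h, one_pow]
    rw [Finset.sum_congr rfl this]
    simp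
  · have h1 : zeta p ^ k ≠ 1 := fun hh => h ((hz.pow_eq_one_iff_dvd k).mp hh)
    have h2 : ∑ b ∈ Finset.range p, (zeta p ^ b) ^ k = ∑ b ∈ Finset.range p, (zeta p ^ k) ^ b := by
      refine Finset.sum_congr rfl fun b _ => ?_
      rw [← pow_mul, ← pow_mul, mul_comm]
    rw [h2]
    have h3 := mul_neg_geom_sum (zeta p ^ k) p
    have h4 : (zeta p ^ k) ^ p = 1 := by
      rw [← pow_mul, mul_comm, pow_mul, zeta_pow_self, one_pow]
    rw [h4, sub_self] at h3
    rcases mul_eq_zero.mp h3 with h5 | h5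
    · exact absurd (sub_eq_zero.mp h5).symm h1
    · exact h5

variable (p : ℕ) [NeZero p]

/-- conjugate `g(q) ↦ g(ζ^b t)` -/
def cB (b : ℕ) : PowerSeries ℂ →+* LaurentSeries ℂ :=
  ofPS.comp (PowerSeries.rescale (zeta p ^ b))

/-- base embedding `g(q) ↦ g(t^p)` -/
def cBase : PowerSeries ℂ →+* LaurentSeries ℂ :=
  (qExpand ℂ p).comp ofPS

/-- conjugate `g(q) ↦ g(t^(p²))` -/
def cInf : PowerSeries ℂ →+* LaurentSeries ℂ :=
  (qExpand ℂ p).comp (cBase p)

/-- `U_p` on power series. -/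
def Up (g : PowerSeries ℂ) : PowerSeries ℂ := PowerSeries.mk fun n => g.coeff (n * p)

@[simp] theorem coeff_Up (g : PowerSeries ℂ) (n : ℕ) : (Up p g).coeff n = g.coeff (n * p) := by
  simp [Up]

theorem cB_coeff_nat (b : ℕ) (g : PowerSeries ℂ) (n : ℕ) :
    (cB p b g).coeff (n : ℤ) = (zeta p ^ b) ^ n * g.coeff n := by
  simp [cB, ofPS_coeff_nat, PowerSeries.coeff_rescale]

theorem cB_coeff_neg (b : ℕ) (g : PowerSeries ℂ) {n : ℤ} (hn : n < 0) :
    (cB p b g).coeff n = 0 := by
  simp [cB, ofPS_coeff_neg _ hn]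

theorem cB_zero (g : PowerSeries ℂ) : cB p 0 g = ofPS g := by
  simp [cB]

theorem cBase_coeff_mul (g : PowerSeries ℂ) (n : ℕ) :
    (cBase p g).coeff ((p : ℤ) * n) = g.coeff n := by
  rw [cBase, RingHom.comp_apply, qExpand_coeff_mul, ofPS_coeff_nat]

theorem cBase_coeff_of_not_dvd (g : PowerSeries ℂ) {n : ℤ} (hn : ¬ (p : ℤ) ∣ n) :
    (cBase p g).coeff n = 0 := by
  rw [cBase, RingHom.comp_apply, qExpand_coeff_of_not_dvd p _ hn]

theorem cBase_coeff_neg (g : PowerSeries ℂ) {n : ℤ} (hn : n < 0) :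
    (cBase p g).coeff n = 0 := by
  by_cases h : (p : ℤ) ∣ n
  · obtain ⟨m, rfl⟩ := h
    rw [cBase, RingHom.comp_apply, qExpand_coeff_mul]
    refine ofPS_coeff_neg _ ?_
    have hp : (0 : ℤ) < p := by exact_mod_cast Nat.pos_of_ne_zero (NeZero.ne p)
    by_contra hm
    rw [not_lt] at hm
    have := mul_nonneg hp.le hm
    omega
  · exact cBase_coeff_of_not_dvd p g h

theorem natCast_mul_coeff (c : ℕ) (x : LaurentSeries ℂ) (n : ℤ) :
    ((c : LaurentSeries ℂ) * x).coeff n = (c : ℂ) * x.coeff n := by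
  have : (c : LaurentSeries ℂ) = HahnSeries.C (c : ℂ) := by simp
  rw [this, HahnSeries.C_mul_eq_smul, HahnSeries.coeff_smul, smul_eq_mul]

/-- **Hecke power-sum identity**: `∑_b g(ζ^b t) = p · (U_p g)(t^p)`. -/
theorem sum_cB (g : PowerSeries ℂ) :
    ∑ b ∈ Finset.range p, cB p b g = (p : LaurentSeries ℂ) * cBase p (Up p g) := by
  ext n
  rw [HahnSeries.coeff_sum, natCast_mul_coeff]
  rcases lt_or_ge n 0 with hn | hn
  · rw [cBase_coeff_neg p _ hn, mul_zero]
    exact Finset.sum_eq_zero fun b _ => cB_coeff_neg p b g hn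
  · lift n to ℕ using hn
    simp only [cB_coeff_nat]
    rw [← Finset.sum_mul, sum_zeta_pow]
    split_ifs with h
    · obtain ⟨m, rfl⟩ := h
      have : ((p * m : ℕ) : ℤ) = (p : ℤ) * m := by push_cast; ring
      rw [this, cBase_coeff_mul, coeff_Up, mul_comm m p]
    · have : ¬ (p : ℤ) ∣ (n : ℤ) := by exact_mod_cast h
      rw [cBase_coeff_of_not_dvd p _ this, zero_mul, mul_zero]

end Fermat.Agent.S28.H326

end
end
-- ===== PACK-END S28/H326/Basic.lean

-- ===== PACK-BEGIN S18/H754/KummerSpec.lean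
section


/-!
# S18, Route K, pieces b3 + b4 merged: the ETALE KUMMER COVER (helper754, squad S18/S34)

Mathlib-only.  Setting (one chart):

* `B` : Noetherian integrally closed domain (chart algebra of the model, over a DVR `A'`),
  `F = Frac B`, `ϖ ∈ B` a prime element (uniformiser of `A'`), and the special fibre `B/ϖ` is
  regular: every maximal ideal `𝔪 ∋ ϖ` is locally generated by `ϖ` and one more element
  (this is the OUTPUT of b2: `B/ϖ` Dedekind).
* `u ∈ F`, `z ^ p = u` in an extension field `F'`, `p` prime and invertible in `B`,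
  `u` is a unit at `ϖ` with `u ≡ 1 mod ϖ`, and at every height-one prime of `B` the element `u`
  is a unit times a `p`-th power (`p ∣ ord_v(u)` for all places).

Conclusions (no discriminant counting for the cover is needed: the cover is étale over the
regular chart because regular local rings of this shape are UFDs):

* `KummerLift`  : every Kummer idempotent `e_η = p⁻¹ ∑_{a<p} η^a z^a` (`η^p = 1`) is congruent
  modulo `ϖ O'` to an element integral over `B` (`O'` = integral closure of `B_(ϖ)`).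
* `KummerUnmixed` : if `c ∈ F(z)` is integral over `B` and `c ∈ ϖ O'` then `c/ϖ` is integral over `B`.
* `kummerIdem_*` : idempotency / orthogonality / nontriviality of the `e_η` modulo `ϖ O'`.
-/

set_option autoImplicit false

noncomputable section

namespace Fermat.Agent.S18.H754

open Polynomial

variable {B : Type*} [CommRing B] [IsDomain B]
  {F : Type*} [Field F] [Algebra B F] [IsFractionRing B F]
  {F' : Type*} [Field F'] [Algebra F F'] [Algebra B F'] [IsScalarTower B F F']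

/-- The Kummer idempotent candidate attached to `η` (a `p`-th root of unity in `B`). -/
def kummerIdem (p : ℕ) (η : B) (z : F') : F' :=
  (p : F')⁻¹ * ∑ a ∈ Finset.range p, algebraMap B F' (η ^ a) * z ^ a

/-- `y ∈ ϖ O'`, where `O'` is the integral closure of `B_(ϖ)` in `F'`, elementwise:
`s y = ϖ c` with `s ∈ B ∖ ϖB` and `c` integral over `B`. -/
def InPiO (ϖ : B) (y : F') : Prop :=
  ∃ s : B, s ∉ Ideal.span {ϖ} ∧ ∃ c : F', IsIntegral B c ∧
    algebraMap B F' s * y = algebraMap B F' ϖ * c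

/-- The special fibre is regular at every closed point: `𝔪 B_𝔪 = (ϖ, t)`. -/
def RegularAlong (ϖ : B) : Prop :=
  ∀ 𝔪 : Ideal B, 𝔪.IsMaximal → ϖ ∈ 𝔪 →
    ∃ t ∈ 𝔪, ∀ a ∈ 𝔪, ∃ s : B, s ∉ 𝔪 ∧ s * a ∈ Ideal.span {ϖ, t}

/-- `u` is a unit at `ϖ` and `u ≡ 1 mod ϖ`. -/
def OneModPi (ϖ : B) (u : F) : Prop :=
  ∃ a s : B, s ∉ Ideal.span {ϖ} ∧ a - s ∈ Ideal.span {ϖ} ∧
    u * algebraMap B F s = algebraMap B F a

/-- `p ∣ ord_𝔭 (u)` at every height-one prime `𝔭` of `B`, elementwise. -/
def DivisibleDivisor (B : Type*) [CommRing B] {F : Type*} [Field F] [Algebra B F]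
    (p : ℕ) (u : F) : Prop :=
  ∀ 𝔭 : Ideal B, 𝔭.IsPrime → 𝔭.height = 1 →
    ∃ t : F, ∃ a s : B, a ∉ 𝔭 ∧ s ∉ 𝔭 ∧ u * t ^ p * algebraMap B F s = algebraMap B F a

/-- STATEMENT of the lifting theorem. -/
def KummerLiftStatement : Prop :=
  ∀ (B : Type) [CommRing B] [IsDomain B] [IsNoetherianRing B] [IsIntegrallyClosed B]
    (F : Type) [Field F] [Algebra B F] [IsFractionRing B F]
    (F' : Type) [Field F'] [Algebra F F'] [Algebra B F'] [IsScalarTower B F F']
    (ϖ : B) (_ : Prime ϖ) (_ : RegularAlong ϖ)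
    (p : ℕ) (_ : p.Prime) (_ : IsUnit (p : B))
    (u : F) (z : F') (_ : z ^ p = algebraMap F F' u) (_ : ∀ y : F, y ^ p ≠ u)
    (_ : OneModPi ϖ u) (_ : DivisibleDivisor B p u)
    (η : B) (_ : η ^ p = 1),
    ∃ b : F', IsIntegral B b ∧ InPiO ϖ (b - kummerIdem p η z)

/-- STATEMENT of unmixedness of `ϖ` on the integral closure in `F(z)`. -/
def KummerUnmixedStatement : Prop :=
  ∀ (B : Type) [CommRing B] [IsDomain B] [IsNoetherianRing B] [IsIntegrallyClosed B]
    (F : Type) [Field F] [Algebra B F] [IsFractionRing B F]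
    (F' : Type) [Field F'] [Algebra F F'] [Algebra B F'] [IsScalarTower B F F']
    (ϖ : B) (_ : Prime ϖ) (_ : RegularAlong ϖ)
    (p : ℕ) (_ : p.Prime) (_ : IsUnit (p : B))
    (u : F) (z : F') (_ : z ^ p = algebraMap F F' u) (_ : ∀ y : F, y ^ p ≠ u)
    (_ : OneModPi ϖ u) (_ : DivisibleDivisor B p u)
    (c : F') (_ : c ∈ IntermediateField.adjoin F {z}) (_ : IsIntegral B c) (_ : InPiO ϖ c),
    ∃ c' : F', IsIntegral B c' ∧ c = algebraMap B F' ϖ * c'

/-- STATEMENT: the Kummer idempotents are idempotent and orthogonal modulo `ϖ O'`, sum to one,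
and none of them vanishes modulo `ϖ O'`. -/
def KummerIdemStatement : Prop :=
  ∀ (B : Type) [CommRing B] [IsDomain B] [IsIntegrallyClosed B]
    (F : Type) [Field F] [Algebra B F] [IsFractionRing B F]
    (F' : Type) [Field F'] [Algebra F F'] [Algebra B F'] [IsScalarTower B F F']
    (ϖ : B) (_ : Prime ϖ)
    (p : ℕ) (_ : p.Prime) (_ : IsUnit (p : B))
    (u : F) (z : F') (_ : z ^ p = algebraMap F F' u) (_ : ∀ y : F, y ^ p ≠ u)
    (_ : OneModPi ϖ u),
    (∀ η : B, η ^ p = 1 → InPiO ϖ (kummerIdem p η z * kummerIdem p η z - kummerIdem p η z)) ∧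
    (∀ η η' : B, η ^ p = 1 → η' ^ p = 1 → η ≠ η' →
      InPiO ϖ (kummerIdem p η z * kummerIdem p η' z)) ∧
    (∀ ζ : B, IsPrimitiveRoot ζ p →
      ∑ i ∈ Finset.range p, kummerIdem p (ζ ^ i) z = 1) ∧
    (∀ η : B, η ^ p = 1 → ¬ InPiO ϖ (kummerIdem p η z))

end Fermat.Agent.S18.H754

end

end
-- ===== PACK-END S18/H754/KummerSpec.lean

-- ===== PACK-BEGIN S18/B12/Spec.lean
section


/-!
# S18, Route K, pieces b1 + b2 (squad S18/S33, squad-lead helper33) — FROZEN statements

Everything here is Mathlib-only commutative algebra.  Each `def … : Prop` below is a statement to be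
proved as `theorem <name> : <Statement>` in `Fermat/Agent/S18/B12/<Owner>/…`.
See `coord/S18-b1b2.md` (branch `helper33`) for the mathematics and the proof of each piece.

Notation: `R` = DVR `A'` with uniformiser `w`, fraction field `E` (char 0), residue field `k'`;
`B` = normal model, a finite `R[X]`-algebra (chart `B_fin`; the chart `B_inf` is the same thing with
`X = 1/x`).  `(Λ, t)` = a PID with a prime element (`(k'[X], x - c̄)` or `(E[X], x - c)`).
-/

set_option autoImplicit false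

noncomputable section

namespace Fermat.Agent.S18.B12

open Polynomial

universe u v

/-- **b1 (regular sequence).**  `B` integrally closed domain, integral over `R[X]` (`R` integrally
closed domain with `R[X]` integrally closed, e.g. a DVR), `w ≠ 0` a constant, `p` monic.
If `w * b = p * b'` in `B` then `b = p * b''` and `b' = w * b''`.
(So `p` is a non-zero-divisor on `B/wB` and `w` is a non-zero-divisor on `B/pB`.) -/
def RegSeqStatement : Prop :=
  ∀ (R : Type u) [CommRing R] [IsDomain R] [IsIntegrallyClosed R] [IsIntegrallyClosed R[X]]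
    (B : Type v) [CommRing B] [IsDomain B] [IsIntegrallyClosed B] [Algebra R[X] B]
    [Algebra.IsIntegral R[X] B] [Module.IsTorsionFree R[X] B]
    (w : R) (_ : w ≠ 0) (p : R[X]) (_ : p.Monic) (b b' : B),
    algebraMap R[X] B (C w) * b = algebraMap R[X] B p * b' →
    ∃ b'' : B, b = algebraMap R[X] B p * b'' ∧ b' = algebraMap R[X] B (C w) * b''

/-- **b1' (regular sequence, primitive version).**  Same with `p` primitive instead of monic
(`R` a DVR); needed for the primes `π` of `R[X]` in the branch-locus hypothesis. -/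
def RegSeqPrimStatement : Prop :=
  ∀ (R : Type u) [CommRing R] [IsDomain R] [IsDiscreteValuationRing R]
    (B : Type v) [CommRing B] [IsDomain B] [IsIntegrallyClosed B] [Algebra R[X] B]
    [Algebra.IsIntegral R[X] B] [Module.IsTorsionFree R[X] B]
    (w : R) (_ : w ≠ 0) (p : R[X]) (_ : p.IsPrimitive) (b b' : B),
    algebraMap R[X] B (C w) * b = algebraMap R[X] B p * b' →
    ∃ b'' : B, b = algebraMap R[X] B p * b'' ∧ b' = algebraMap R[X] B (C w) * b''

/-- **b2-ζ (reduced basis).**  A finite torsion-free algebra `R₁` over a DVR `R` has a family `y`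
which is `R`-linearly independent modulo nilpotents and spans `R₁` modulo nilpotents
(`R₁ / nilradical` is finite free). -/
def RedBasisStatement : Prop :=
  ∀ (R : Type u) [CommRing R] [IsDomain R] [IsPrincipalIdealRing R]
    (R₁ : Type v) [CommRing R₁] [Algebra R R₁] [Module.Finite R R₁] [Module.IsTorsionFree R R₁],
    ∃ (r : ℕ) (y : Fin r → R₁),
      (∀ a : Fin r → R, IsNilpotent (∑ i, a i • y i) → a = 0) ∧
      (∀ x : R₁, ∃ a : Fin r → R, IsNilpotent (x - ∑ i, a i • y i))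

/-- **b2-SF (special fibre, two lattices).**  `Λ` a PID, `t` prime.  `C ≤ Ct` two `Λ`-subalgebras of
a commutative `Λ`-algebra `L`, both free of rank `n`.  If `(C/tC)_red` is spanned by `s` elements
over `Λ/t` and `t ^ (n - s + 1)` does not divide `disc(C/Λ) ≠ 0`, then `C = Ct` locally at `t`. -/
def SFLatticeStatement : Prop :=
  ∀ (Λ : Type u) [CommRing Λ] [IsDomain Λ] [IsPrincipalIdealRing Λ] (t : Λ) (_ : Prime t)
    (L : Type v) [CommRing L] [Algebra Λ L] (C Ct : Subalgebra Λ L) (_ : C ≤ Ct)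
    (n : ℕ) (b : Module.Basis (Fin n) Λ C) (_ : Module.Basis (Fin n) Λ Ct)
    (s : ℕ) (y : Fin s → C)
    (_ : ∀ x : C, ∃ a : Fin s → Λ,
        x - ∑ i, a i • y i ∈ (Ideal.span {algebraMap Λ C t}).radical),
    Algebra.discr Λ b ≠ 0 → ¬ t ^ (n - s + 1) ∣ Algebra.discr Λ b →
    ∀ x ∈ Ct, ∃ g : Λ, ¬ t ∣ g ∧ g • x ∈ C

/-- **b2-SF' (special fibre, idempotent form).**  Same hypotheses on `C`; `ε ∈ L` idempotent with
`g₀ • ε ∈ C` for some `g₀ ≠ 0`, `L` torsion-free over `Λ`.  Then `g • ε ∈ C` for some `g ∉ (t)`. -/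
def SFIdemStatement : Prop :=
  ∀ (Λ : Type u) [CommRing Λ] [IsDomain Λ] [IsPrincipalIdealRing Λ] (t : Λ) (_ : Prime t)
    (L : Type v) [CommRing L] [Algebra Λ L] [Module.IsTorsionFree Λ L] (C : Subalgebra Λ L)
    (n : ℕ) (b : Module.Basis (Fin n) Λ C)
    (s : ℕ) (y : Fin s → C)
    (_ : ∀ x : C, ∃ a : Fin s → Λ,
        x - ∑ i, a i • y i ∈ (Ideal.span {algebraMap Λ C t}).radical),
    Algebra.discr Λ b ≠ 0 → ¬ t ^ (n - s + 1) ∣ Algebra.discr Λ b →
    ∀ ε : L, ε * ε = ε → (∃ g₀ : Λ, g₀ ≠ 0 ∧ g₀ • ε ∈ C) → ∃ g : Λ, ¬ t ∣ g ∧ g • ε ∈ C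

/-- **b2-α (tame discriminant).**  `Λ` a PID, `t` prime with residue field of characteristic `0`
(`ℚ ⊆ Λ`).  `C₀` a Dedekind domain, finite free over `Λ` of rank `n` with basis `β`.  If `y` is a
family of `r` elements of `C₀` that is `Λ/t`-linearly independent modulo `rad(t C₀)`, then
`t ^ (n - r + 1)` does not divide `disc(β)`.
(Char 0 ⇒ tame: the exponent of `t` in the discriminant is exactly `n - dim (C₀/t)_red`.) -/
def TameDiscrStatement : Prop :=
  ∀ (Λ : Type u) [CommRing Λ] [IsDomain Λ] [IsPrincipalIdealRing Λ] [Algebra ℚ Λ]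
    (t : Λ) (_ : Prime t)
    (C₀ : Type v) [CommRing C₀] [IsDomain C₀] [IsDedekindDomain C₀] [Algebra Λ C₀]
    [Module.IsTorsionFree Λ C₀]
    (n : ℕ) (β : Module.Basis (Fin n) Λ C₀) (r : ℕ) (y : Fin r → C₀)
    (_ : ∀ a : Fin r → Λ,
        (∑ i, a i • y i) ∈ (Ideal.span {algebraMap Λ C₀ t}).radical → ∀ i, t ∣ a i),
    ¬ t ^ (n - r + 1) ∣ Algebra.discr Λ β

/-- **b2 (normality of the special fibre; TOP LEVEL of this squad).**
`R` DVR of characteristic 0, uniformiser `w`; `B` an integrally closed domain, finite over `R[X]`.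
* `hsep`: some `n`-tuple of `B` (`n` = generic degree) has discriminant `≢ 0 mod w`
  (the special fibre is generically étale over `k'[x]`);
* `S`: the finite branch values, pairwise distinct mod `w`;
* `hNC`: for every prime `π` of `R[X]` other than `w` and the `X - c`, `c ∈ S`, the fibre `B/πB`
  is reduced (`F/E(x)` is unramified outside `S ∪ {∞}`).
Conclusion: every idempotent `b/g` of the total fraction ring of `B/wB` lies in `B/wB`. -/
def B2Statement : Prop :=
  ∀ (R : Type u) [CommRing R] [IsDomain R] [IsDiscreteValuationRing R] [CharZero R]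
    (w : R) (_ : Irreducible w)
    (B : Type v) [CommRing B] [IsDomain B] [IsIntegrallyClosed B] [Algebra R[X] B]
    [Module.Finite R[X] B] [Module.IsTorsionFree R[X] B]
    (_ : ∃ x : Fin (Module.finrank R[X] B) → B,
        ¬ C w ∣ (Matrix.of fun i j => Algebra.intTrace R[X] B (x i * x j)).det)
    (S : Finset R) (_ : ∀ c ∈ S, ∀ c' ∈ S, c ≠ c' → IsUnit (c - c'))
    (_ : ∀ π : R[X], Prime π → ¬ Associated π (C w) → (∀ c ∈ S, ¬ Associated π (X - C c)) →
        (Ideal.span {algebraMap R[X] B π}).IsRadical)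
    (b : B) (g : R[X]), ¬ C w ∣ g →
      b ^ 2 - algebraMap R[X] B g * b ∈ Ideal.span {algebraMap R[X] B (C w)} →
      ∃ b₀ : B, b - algebraMap R[X] B g * b₀ ∈ Ideal.span {algebraMap R[X] B (C w)}

end Fermat.Agent.S18.B12

end
end
-- ===== PACK-END S18/B12/Spec.lean

-- ===== PACK-BEGIN S18/H393/LocalFree.lean
section


/-!
# S18 / Route K / piece b1 (helper393): local freeness of the normal model

Mathlib-only commutative algebra.

Setting: `Λ` an integrally closed domain with fraction field `K` (application: `Λ = R[x]`,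
`R` a DVR with uniformiser `w`), `w ∈ Λ` a prime element, `F / K` a finite separable field
extension, `B` = the integral closure of `Λ` in `F` (elements of `F` integral over `Λ`).

* `isIntegral_of_isIntegral_mul'` : (b1.a, the "regular sequence" lemma)
  if `w` is prime, `¬ w ∣ t`, and both `w * f` and `t * f` are integral over `Λ`, then so is `f`.
* `mem_smul_top_of_smul_mem` : the same inside `B`: `t • β ∈ w B`, `¬ w ∣ t` imply `β ∈ w B`
  (`B / w B` is torsion-free over `Λ / w`; `(w, t)` is a regular sequence on `B`).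
* `exists_basis_mod` : (b1 / b2.1, local freeness) if moreover `Λ` is noetherian and `Λ / w` is a
  PID, there is `b : Fin [F : K] → F`, integral, `K`-linearly independent, with
  `ρ B ⊆ ∑ Λ bᵢ` for some `ρ ≡ 1 mod w`, and `∑ cᵢ bᵢ ∈ w B → w ∣ cᵢ`.
  So `B` is free with basis `b` over the localisation of `Λ` at `1 + wΛ`, `B / w B` is free over
  `Λ / w` with basis `b mod w`, and `B ⊗ Λ_𝔭` is free with basis `b` for every prime `𝔭`
  of `Λ` with `ρ ∉ 𝔭` (e.g. `𝔭 = (x - c)`, `c` integral, in the application).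
-/

set_option autoImplicit false

namespace Fermat.Agent.S18.H393

open Polynomial

section RegularSequence

variable {Λ : Type*} (K : Type*) {F : Type*} [CommRing Λ] [IsDomain Λ]
  [Field K] [Algebra Λ K] [IsFractionRing Λ K]
  [Field F] [Algebra K F] [Algebra Λ F] [IsScalarTower Λ K F]

/-- If `c • f` is integral over the integrally closed domain `Λ` (`c ≠ 0`), the minimal
polynomial of `f` over `K`, with roots scaled by `c`, has coefficients in `Λ`. -/
theorem coeff_minpoly_mul_pow_mem [IsIntegrallyClosed Λ] {c : Λ} (hc : c ≠ 0) {f : F}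
    (hcf : IsIntegral Λ (algebraMap Λ F c * f)) (i : ℕ) :
    ∃ a : Λ, algebraMap Λ K a =
      (minpoly K f).coeff i * algebraMap Λ K c ^ ((minpoly K f).natDegree - i) := by
  have hcK : algebraMap Λ K c ≠ 0 := by
    simpa using (IsFractionRing.injective Λ K).ne hc
  have hcfK : IsIntegral K (algebraMap Λ F c * f) := hcf.tower_top
  have hmul : algebraMap Λ F c * f = algebraMap K F (algebraMap Λ K c) * f := by
    rw [← IsScalarTower.algebraMap_apply]
  have hfK : IsIntegral K f := by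
    have h1 : IsIntegral K (algebraMap K F (algebraMap Λ K c)⁻¹ * (algebraMap Λ F c * f)) :=
      (isIntegral_algebraMap).mul hcfK
    have h2 : algebraMap K F (algebraMap Λ K c)⁻¹ * (algebraMap Λ F c * f) = f := by
      rw [hmul, ← mul_assoc, ← map_mul, inv_mul_cancel₀ hcK, map_one, one_mul]
    rwa [h2] at h1
  set π := minpoly K f with hπ
  set σ := scaleRoots π (algebraMap Λ K c) with hσ
  have hπm : π.Monic := minpoly.monic hfK
  have hσm : σ.Monic := (monic_scaleRoots_iff _).mpr hπm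
  have hσroot : aeval (algebraMap Λ F c * f) σ = 0 := by
    rw [hmul]
    exact scaleRoots_aeval_eq_zero (minpoly.aeval K f)
  -- the minimal polynomial of `c f` divides `σ`
  have hdvd : minpoly K (algebraMap Λ F c * f) ∣ σ := minpoly.dvd K _ hσroot
  -- degree comparison
  set μ := minpoly K (algebraMap Λ F c * f) with hμ
  have hμm : μ.Monic := minpoly.monic hcfK
  have hroot2 : aeval f (scaleRoots μ (algebraMap Λ K c)⁻¹) = 0 := by
    have h2 : algebraMap K F (algebraMap Λ K c)⁻¹ * (algebraMap Λ F c * f) = f := by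
      rw [hmul, ← mul_assoc, ← map_mul, inv_mul_cancel₀ hcK, map_one, one_mul]
    have := scaleRoots_aeval_eq_zero (p := μ) (r := (algebraMap Λ K c)⁻¹)
      (a := algebraMap Λ F c * f) (minpoly.aeval K _)
    rwa [h2] at this
  have hdvd2 : π ∣ scaleRoots μ (algebraMap Λ K c)⁻¹ := minpoly.dvd K _ hroot2
  have hdeg1 : μ.natDegree ≤ σ.natDegree :=
    natDegree_le_of_dvd hdvd hσm.ne_zero
  have hdeg2 : π.natDegree ≤ μ.natDegree := by
    have := natDegree_le_of_dvd hdvd2 ((monic_scaleRoots_iff _).mpr hμm).ne_zero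
    rwa [natDegree_scaleRoots] at this
  have hdegσ : σ.natDegree = π.natDegree := natDegree_scaleRoots _ _
  have hμσ : σ = μ := by
    refine eq_of_monic_of_dvd_of_natDegree_le hμm hσm hdvd ?_
    rw [hdegσ]; exact hdeg2
  have hlift : μ = (minpoly Λ (algebraMap Λ F c * f)).map (algebraMap Λ K) :=
    minpoly.isIntegrallyClosed_eq_field_fractions' K hcf
  refine ⟨(minpoly Λ (algebraMap Λ F c * f)).coeff i, ?_⟩
  rw [← coeff_map, ← hlift, ← hμσ, hσ, coeff_scaleRoots]

/-- **b1.a (regular sequence lemma).** `Λ` integrally closed domain, `w` prime, `¬ w ∣ t`.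
If `w f` and `t f` are integral over `Λ`, then `f` is integral over `Λ`. -/
theorem isIntegral_of_isIntegral_mul' {Λ : Type*} (K : Type*) {F : Type*} [CommRing Λ]
    [IsDomain Λ] [IsIntegrallyClosed Λ] [Field K] [Algebra Λ K] [IsFractionRing Λ K]
    [Field F] [Algebra K F] [Algebra Λ F] [IsScalarTower Λ K F] {w t : Λ} (hw : Prime w)
    (ht : ¬ w ∣ t) {f : F}
    (hwf : IsIntegral Λ (algebraMap Λ F w * f)) (htf : IsIntegral Λ (algebraMap Λ F t * f)) :
    IsIntegral Λ f := by
  have hw0 : w ≠ 0 := hw.ne_zero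
  have ht0 : t ≠ 0 := fun h => ht (h ▸ dvd_zero w)
  have hinj := IsFractionRing.injective Λ K
  have hwK : algebraMap Λ K w ≠ 0 := by simpa using hinj.ne hw0
  have hfK : IsIntegral K f := by
    have hcfK : IsIntegral K (algebraMap Λ F w * f) := hwf.tower_top
    have hmul : algebraMap Λ F w * f = algebraMap K F (algebraMap Λ K w) * f := by
      rw [← IsScalarTower.algebraMap_apply]
    have h1 : IsIntegral K (algebraMap K F (algebraMap Λ K w)⁻¹ * (algebraMap Λ F w * f)) :=
      (isIntegral_algebraMap).mul hcfK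
    have h2 : algebraMap K F (algebraMap Λ K w)⁻¹ * (algebraMap Λ F w * f) = f := by
      rw [hmul, ← mul_assoc, ← map_mul, inv_mul_cancel₀ hwK, map_one, one_mul]
    rwa [h2] at h1
  set π := minpoly K f with hπ
  have hπm : π.Monic := minpoly.monic hfK
  -- every coefficient of `π` lies in `Λ`
  have hcoeff : ∀ i, ∃ a : Λ, algebraMap Λ K a = π.coeff i := by
    intro i
    obtain ⟨a, ha⟩ := coeff_minpoly_mul_pow_mem K hw0 hwf i
    obtain ⟨b, hb⟩ := coeff_minpoly_mul_pow_mem K ht0 htf i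
    set e := π.natDegree - i with he
    have hab : a * t ^ e = b * w ^ e := by
      apply hinj
      rw [map_mul, map_mul, map_pow, map_pow, ha, hb]
      ring
    have hdvd : w ^ e ∣ a := by
      refine hw.pow_dvd_of_dvd_mul_right e ?_ ⟨b, by rw [hab]; ring⟩
      exact fun h => ht (hw.dvd_of_dvd_pow h)
    obtain ⟨ν, hν⟩ := hdvd
    refine ⟨ν, ?_⟩
    have hwe : algebraMap Λ K w ^ e ≠ 0 := pow_ne_zero _ hwK
    apply mul_right_cancel₀ hwe
    rw [← ha, hν, map_mul, map_pow]; ring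
  have hlifts : π ∈ lifts (algebraMap Λ K) := by
    rw [lifts_iff_coeff_lifts]
    intro i
    obtain ⟨a, ha⟩ := hcoeff i
    exact ⟨a, ha⟩
  obtain ⟨q, hq, -, hqm⟩ := lifts_and_degree_eq_and_monic hlifts hπm
  refine ⟨q, hqm, ?_⟩
  have : aeval f (q.map (algebraMap Λ K)) = 0 := by rw [hq]; exact minpoly.aeval K f
  rwa [aeval_map_algebraMap] at this

end RegularSequence

section Basis

open Pointwise

/-- `B / w B` is torsion-free over `Λ / w`, elementwise form inside `B`:
if `t • β ∈ w B` and `¬ w ∣ t` then `β ∈ w B`. -/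
theorem mem_smul_top_of_smul_mem {Λ : Type*} (K : Type*) {F : Type*} [CommRing Λ] [IsDomain Λ]
    [IsIntegrallyClosed Λ] [Field K] [Algebra Λ K] [IsFractionRing Λ K]
    [Field F] [Algebra K F] [Algebra Λ F] [IsScalarTower Λ K F]
    {w t : Λ} (hw : Prime w) (ht : ¬ w ∣ t)
    {β : integralClosure Λ F}
    (h : t • β ∈ w • (⊤ : Submodule Λ (integralClosure Λ F))) :
    β ∈ w • (⊤ : Submodule Λ (integralClosure Λ F)) := by
  rw [Submodule.mem_smul_pointwise_iff_exists] at h ⊢
  obtain ⟨β', -, hβ'⟩ := h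
  have hw0 : w ≠ 0 := hw.ne_zero
  have hwF : algebraMap Λ F w ≠ 0 := by
    have hinj : Function.Injective (algebraMap Λ F) := by
      rw [IsScalarTower.algebraMap_eq Λ K F]
      exact (algebraMap K F).injective.comp (IsFractionRing.injective Λ K)
    simpa using hinj.ne hw0
  set f : F := (β : F) / algebraMap Λ F w with hf
  have h1 : algebraMap Λ F w * f = (β : F) := by
    rw [hf]; field_simp
  have h2 : algebraMap Λ F t * f = (β' : F) := by
    have h3 : algebraMap Λ F w * (β' : F) = algebraMap Λ F t * (β : F) := by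
      have := congrArg (fun x : integralClosure Λ F => (x : F)) hβ'
      simpa [Algebra.smul_def] using this
    rw [hf]; field_simp; rw [← h3]
  have hfint : IsIntegral Λ f :=
    isIntegral_of_isIntegral_mul' K hw ht (h1 ▸ β.2) (h2 ▸ β'.2)
  refine ⟨⟨f, hfint⟩, Submodule.mem_top, ?_⟩
  apply Subtype.ext
  simpa [Algebra.smul_def] using h1

/-- **b1 (local freeness, elementwise form).**
`Λ` noetherian integrally closed domain, `K = Frac Λ`, `F / K` finite separable,
`w ∈ Λ` prime with `Λ / w` a PID (application: `Λ = R[x]`, `R` a DVR with uniformiser `w`).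
Then there is a family `b : Fin [F : K] → F` of integral elements such that
* `b` is `K`-linearly independent (hence a `K`-basis of `F`);
* (Nakayama) there is `ρ ≡ 1 mod w` with `ρ β ∈ ∑ Λ bᵢ` for every integral `β`
  (so the integral closure `B` is free with basis `b` after inverting `1 + wΛ`);
* (basis mod `w`) if `∑ cᵢ bᵢ ∈ w B` then `w ∣ cᵢ` for all `i`. -/
theorem exists_basis_mod {Λ : Type*} (K : Type*) {F : Type*} [CommRing Λ] [IsDomain Λ]
    [IsIntegrallyClosed Λ] [IsNoetherianRing Λ] [Field K] [Algebra Λ K] [IsFractionRing Λ K]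
    [Field F] [Algebra K F] [Algebra Λ F] [IsScalarTower Λ K F]
    [FiniteDimensional K F] [Algebra.IsSeparable K F]
    {w : Λ} (hw : Prime w) [IsPrincipalIdealRing (Λ ⧸ Ideal.span {w})] :
    ∃ b : Fin (Module.finrank K F) → F,
      (∀ i, IsIntegral Λ (b i)) ∧ LinearIndependent K b ∧
      (∃ ρ : Λ, w ∣ ρ - 1 ∧ ∀ β : F, IsIntegral Λ β →
        ∃ c : Fin (Module.finrank K F) → Λ,
          algebraMap Λ F ρ * β = ∑ i, algebraMap Λ F (c i) * b i) ∧
      (∀ (c : Fin (Module.finrank K F) → Λ) (β : F), IsIntegral Λ β →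
        ∑ i, algebraMap Λ F (c i) * b i = algebraMap Λ F w * β → ∀ i, w ∣ c i) := by
  classical
  have hinjF : Function.Injective (algebraMap Λ F) := by
    rw [IsScalarTower.algebraMap_eq Λ K F]
    exact (algebraMap K F).injective.comp (IsFractionRing.injective Λ K)
  have hfin : Module.Finite Λ (integralClosure Λ F) :=
    IsIntegralClosure.finite Λ K F (integralClosure Λ F)
  set I : Ideal Λ := Ideal.span {w} with hI
  have hIp : I.IsPrime := (Ideal.span_singleton_prime hw.ne_zero).mpr hw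
  have hIne : I ≠ ⊤ := hIp.ne_top
  set W : Submodule Λ (integralClosure Λ F) := w • (⊤ : Submodule Λ (integralClosure Λ F))
    with hW
  have : Module.Finite (Λ ⧸ I) (integralClosure Λ F ⧸ W) :=
    Module.Finite.of_restrictScalars_finite Λ _ _
  have : Module.IsTorsionFree (Λ ⧸ I) (integralClosure Λ F ⧸ W) := by
    refine ⟨fun r hr => ?_⟩
    rw [isSMulRegular_iff_right_eq_zero_of_smul]
    intro q hq
    obtain ⟨t, rfl⟩ := Ideal.Quotient.mk_surjective r
    obtain ⟨β, rfl⟩ := Submodule.Quotient.mk_surjective W q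
    have ht : ¬ w ∣ t := by
      intro hdvd
      have : Ideal.Quotient.mk I t = 0 :=
        Ideal.Quotient.eq_zero_iff_mem.mpr (Ideal.mem_span_singleton.mpr hdvd)
      exact hr.ne_zero this
    have hmem : t • β ∈ W := by
      rw [← Submodule.Quotient.mk_eq_zero W]
      exact hq
    exact (Submodule.Quotient.mk_eq_zero W).mpr (mem_smul_top_of_smul_mem K hw ht hmem)
  have : Module.Free (Λ ⧸ I) (integralClosure Λ F ⧸ W) :=
    Module.free_of_finite_type_torsion_free'
  let e := Module.Free.chooseBasis (Λ ⧸ I) (integralClosure Λ F ⧸ W)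
  set ι := Module.Free.ChooseBasisIndex (Λ ⧸ I) (integralClosure Λ F ⧸ W) with hι
  let _ : Fintype ι := Module.Free.ChooseBasisIndex.fintype _ _
  choose b' hb' using fun i => Submodule.Quotient.mk_surjective W (e i)
  have hmk : ∀ c : ι → Λ, Submodule.Quotient.mk (p := W) (∑ i, c i • b' i) =
      ∑ i, Ideal.Quotient.mk I (c i) • e i := by
    intro c
    change W.mkQ (∑ i, c i • b' i) = _
    rw [map_sum]
    refine Finset.sum_congr rfl fun i _ => ?_
    rw [← hb' i]
    rfl
  -- (4') basis mod w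
  have key4 : ∀ c : ι → Λ, (∑ i, c i • b' i) ∈ W → ∀ i, w ∣ c i := by
    intro c hc i
    have h0 : ∑ i, Ideal.Quotient.mk I (c i) • e i = 0 := by
      rw [← hmk, Submodule.Quotient.mk_eq_zero]; exact hc
    have := (Fintype.linearIndependent_iff.mp e.linearIndependent) _ h0 i
    exact Ideal.mem_span_singleton.mp (Ideal.Quotient.eq_zero_iff_mem.mp this)
  -- spanning mod w
  have span_mod : ∀ β : integralClosure Λ F, ∃ c : ι → Λ, β - ∑ i, c i • b' i ∈ W := by
    intro β
    choose c hc using fun i =>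
      Ideal.Quotient.mk_surjective (e.equivFun (Submodule.Quotient.mk (p := W) β) i)
    refine ⟨c, ?_⟩
    rw [← Submodule.Quotient.mk_eq_zero W, Submodule.Quotient.mk_sub, hmk, sub_eq_zero]
    conv_lhs => rw [← e.sum_equivFun (Submodule.Quotient.mk (p := W) β)]
    refine Finset.sum_congr rfl fun i _ => ?_
    rw [hc i]
  -- Nakayama
  set M : Submodule Λ (integralClosure Λ F) := Submodule.span Λ (Set.range b') with hM
  obtain ⟨ρ, hρ1, hρ⟩ : ∃ ρ : Λ, ρ - 1 ∈ I ∧ ∀ β : integralClosure Λ F, ρ • β ∈ M := by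
    have hle : (⊤ : Submodule Λ (integralClosure Λ F ⧸ M)) ≤
        I • (⊤ : Submodule Λ (integralClosure Λ F ⧸ M)) := by
      rintro q -
      obtain ⟨β, rfl⟩ := Submodule.Quotient.mk_surjective M q
      obtain ⟨c, hc⟩ := span_mod β
      rw [hW, Submodule.mem_smul_pointwise_iff_exists] at hc
      obtain ⟨β', -, hβ'⟩ := hc
      have hsum : (∑ i, c i • b' i) ∈ M :=
        Submodule.sum_mem _ fun i _ =>
          Submodule.smul_mem _ _ (Submodule.subset_span ⟨i, rfl⟩)
      have hβ : β = w • β' + ∑ i, c i • b' i := by rw [hβ']; abel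
      have : Submodule.Quotient.mk (p := M) β = w • Submodule.Quotient.mk (p := M) β' := by
        rw [hβ, Submodule.Quotient.mk_add, (Submodule.Quotient.mk_eq_zero M).mpr hsum,
          add_zero, Submodule.Quotient.mk_smul]
      rw [this]
      exact Submodule.smul_mem_smul (Ideal.mem_span_singleton_self w) Submodule.mem_top
    obtain ⟨ρ, hρ1, hρ⟩ := Submodule.exists_sub_one_mem_and_smul_eq_zero_of_fg_of_le_smul I
      (⊤ : Submodule Λ (integralClosure Λ F ⧸ M)) Module.Finite.fg_top hle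
    refine ⟨ρ, hρ1, fun β => ?_⟩
    have := hρ (Submodule.Quotient.mk β) Submodule.mem_top
    rwa [← Submodule.Quotient.mk_smul, Submodule.Quotient.mk_eq_zero] at this
  -- linear independence over Λ inside B
  have hpow : ∀ (k : ℕ) (c : ι → Λ), ∑ i, c i • b' i = 0 → ∀ i, w ^ k ∣ c i := by
    intro k
    induction k with
    | zero => intro c _ i; simp
    | succ k ih =>
      intro c hc i
      have hdiv := key4 c (hc ▸ W.zero_mem)
      choose d hd using hdiv
      have hd0 : ∑ i, d i • b' i = 0 := by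
        have h1 : w • ∑ i, d i • b' i = 0 := by
          rw [Finset.smul_sum, ← hc]
          refine Finset.sum_congr rfl fun i _ => ?_
          rw [hd i, mul_smul]
        have hw0 : w ≠ 0 := hw.ne_zero
        have hwB : algebraMap Λ (integralClosure Λ F) w ≠ 0 := by
          intro h
          apply hw0
          apply hinjF
          have := congrArg (algebraMap (integralClosure Λ F) F) h
          rw [← IsScalarTower.algebraMap_apply] at this
          simpa using this
        rw [Algebra.smul_def] at h1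
        exact (mul_eq_zero.mp h1).resolve_left hwB
      obtain ⟨x, hx⟩ := ih d hd0 i
      exact ⟨x, by rw [hd i, hx, pow_succ]; ring⟩
  have hliB : ∀ c : ι → Λ, ∑ i, c i • b' i = 0 → ∀ i, c i = 0 := by
    intro c hc i
    have hmem : c i ∈ ⨅ k : ℕ, I ^ k := by
      rw [Ideal.mem_iInf]
      intro k
      rw [hI, Ideal.span_singleton_pow, Ideal.mem_span_singleton]
      exact hpow k c hc i
    rw [Ideal.iInf_pow_eq_bot_of_isDomain I hIne] at hmem
    simpa using hmem
  have hliΛ : LinearIndependent Λ (fun i => ((b' i : integralClosure Λ F) : F)) := by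
    rw [Fintype.linearIndependent_iff]
    intro c hc i
    refine hliB c ?_ i
    apply Subtype.ext
    have : ((∑ i, c i • b' i : integralClosure Λ F) : F) = ∑ i, c i • ((b' i : integralClosure Λ F) : F) := by
      simp
    rw [this, hc]; rfl
  have hliK : LinearIndependent K (fun i => ((b' i : integralClosure Λ F) : F)) :=
    (LinearIndependent.iff_fractionRing Λ K).mp hliΛ
  -- spanning over K
  have hρ0 : ρ ≠ 0 := by
    rintro rfl
    rw [zero_sub, Ideal.neg_mem_iff] at hρ1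
    exact hIne ((Ideal.eq_top_iff_one I).mpr hρ1)
  have hspanΛ : ∀ β : integralClosure Λ F, ∃ c : ι → Λ,
      algebraMap Λ F ρ * (β : F) = ∑ i, algebraMap Λ F (c i) * ((b' i : integralClosure Λ F) : F) := by
    intro β
    have h := hρ β
    rw [hM, Submodule.mem_span_range_iff_exists_fun] at h
    obtain ⟨c, hc⟩ := h
    refine ⟨c, ?_⟩
    have := congrArg (fun x : integralClosure Λ F => (x : F)) hc
    simp only [Algebra.smul_def] at this
    simpa using this.symm
  have hspanK : (⊤ : Submodule K F) ≤ Submodule.span K (Set.range fun i => ((b' i : integralClosure Λ F) : F)) := by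
    rintro x -
    obtain ⟨y, hy0, hy⟩ := exists_integral_multiples Λ K ({x} : Finset F)
    have hyx : IsIntegral Λ (y • x) := hy x (Finset.mem_singleton_self x)
    obtain ⟨c, hc⟩ := hspanΛ ⟨y • x, hyx⟩
    have hyρ : algebraMap Λ K (ρ * y) ≠ 0 := by
      simpa using (IsFractionRing.injective Λ K).ne (mul_ne_zero hρ0 hy0)
    have hx : x = (algebraMap Λ K (ρ * y))⁻¹ • ∑ i, algebraMap Λ K (c i) • ((b' i : integralClosure Λ F) : F) := by
      rw [eq_inv_smul_iff₀ hyρ]
      have : ∑ i, algebraMap Λ K (c i) • ((b' i : integralClosure Λ F) : F) =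
          ∑ i, algebraMap Λ F (c i) * ((b' i : integralClosure Λ F) : F) := by
        refine Finset.sum_congr rfl fun i _ => ?_
        rw [Algebra.smul_def, ← IsScalarTower.algebraMap_apply]
      rw [this, ← hc, Algebra.smul_def, ← IsScalarTower.algebraMap_apply, map_mul]
      simp only [Algebra.smul_def, mul_assoc]
    rw [hx]
    refine Submodule.smul_mem _ _ (Submodule.sum_mem _ fun i _ => Submodule.smul_mem _ _ ?_)
    exact Submodule.subset_span ⟨i, rfl⟩
  let bK : Module.Basis ι K F := Module.Basis.mk hliK hspanK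
  have hcard : Fintype.card ι = Module.finrank K F :=
    (Module.finrank_eq_card_basis bK).symm
  let σ : Fin (Module.finrank K F) ≃ ι := (Fintype.equivFinOfCardEq hcard).symm
  refine ⟨fun j => ((b' (σ j) : integralClosure Λ F) : F), fun j => (b' (σ j)).2,
    hliK.comp σ σ.injective, ⟨ρ, Ideal.mem_span_singleton.mp hρ1, fun β hβ => ?_⟩,
    fun c β hβ hc j => ?_⟩
  · obtain ⟨c, hc⟩ := hspanΛ ⟨β, hβ⟩
    refine ⟨fun j => c (σ j), ?_⟩
    rw [hc]
    exact (Equiv.sum_comp σ fun i => algebraMap Λ F (c i) * ((b' i : integralClosure Λ F) : F)).symm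
  · have h1 := key4 (fun i => c (σ.symm i)) ?_ (σ j)
    · simpa using h1
    · rw [hW, Submodule.mem_smul_pointwise_iff_exists]
      refine ⟨⟨β, hβ⟩, Submodule.mem_top, ?_⟩
      apply Subtype.ext
      have e1 : ((w • (⟨β, hβ⟩ : integralClosure Λ F) : integralClosure Λ F) : F) =
          algebraMap Λ F w * β := by
        simp [Algebra.smul_def]
      have e2 : ((∑ i, c (σ.symm i) • b' i : integralClosure Λ F) : F) =
          ∑ j, algebraMap Λ F (c j) * ((b' (σ j) : integralClosure Λ F) : F) := by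
        rw [← Equiv.sum_comp σ]
        simp [Algebra.smul_def]
      rw [e1, e2, hc]

end Basis

end Fermat.Agent.S18.H393

end
-- ===== PACK-END S18/H393/LocalFree.lean

-- ===== PACK-BEGIN S18/B12/H693/RedBasis.lean
section
/-
S18 / Route K / b2, leaf P4 = `RedBasisStatement` (helper693).  Mathlib-only.

A finite torsion-free algebra `R₁` over a PID `R` has a family which is `R`-linearly independent
modulo nilpotents and spans `R₁` modulo nilpotents (`R₁ / nilradical` is finite free).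
-/


set_option autoImplicit false

namespace Fermat.Agent.S18.B12.H693

open Module

/-- `R₁ / nilradical` is torsion-free over `R` if `R₁` is. -/
theorem isTorsionFree_quotient_nilradical (R : Type*) [CommRing R] [IsDomain R]
    (R₁ : Type*) [CommRing R₁] [Algebra R R₁] [Module.IsTorsionFree R R₁] :
    Module.IsTorsionFree R (R₁ ⧸ nilradical R₁) := by
  rw [Module.isTorsionFree_iff_smul_eq_zero]
  intro r m hrm
  by_cases hr : r = 0
  · exact Or.inl hr
  right
  obtain ⟨x, rfl⟩ := Ideal.Quotient.mk_surjective m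
  have h1 : Ideal.Quotient.mk (nilradical R₁) (r • x) = 0 := by
    rw [← hrm]; rfl
  rw [Ideal.Quotient.eq_zero_iff_mem, mem_nilradical] at h1 ⊢
  obtain ⟨k, hk⟩ := h1
  refine ⟨k, ?_⟩
  rw [smul_pow] at hk
  exact (smul_eq_zero.mp hk).resolve_left (pow_ne_zero k hr)

/-- **P4 (reduced basis)**, explicit form of `Fermat.Agent.S18.B12.RedBasisStatement`. -/
theorem exists_redBasis (R : Type*) [CommRing R] [IsDomain R] [IsPrincipalIdealRing R]
    (R₁ : Type*) [CommRing R₁] [Algebra R R₁] [Module.Finite R R₁] [Module.IsTorsionFree R R₁] :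
    ∃ (r : ℕ) (y : Fin r → R₁),
      (∀ a : Fin r → R, IsNilpotent (∑ i, a i • y i) → a = 0) ∧
      (∀ x : R₁, ∃ a : Fin r → R, IsNilpotent (x - ∑ i, a i • y i)) := by
  classical
  have htf : Module.IsTorsionFree R (R₁ ⧸ nilradical R₁) :=
    isTorsionFree_quotient_nilradical R R₁
  have hfin : Module.Finite R (R₁ ⧸ nilradical R₁) :=
    Module.Finite.of_surjective (Ideal.Quotient.mkₐ R (nilradical R₁)).toLinearMap
      (Ideal.Quotient.mkₐ_surjective R (nilradical R₁))
  have hfree : Module.Free R (R₁ ⧸ nilradical R₁) := Module.free_of_finite_type_torsion_free'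
  let bQ : Basis (Fin (finrank R (R₁ ⧸ nilradical R₁))) R (R₁ ⧸ nilradical R₁) :=
    Module.finBasis R _
  choose y hy using fun i => Ideal.Quotient.mk_surjective (bQ i)
  have hsum : ∀ a : Fin (finrank R (R₁ ⧸ nilradical R₁)) → R,
      Ideal.Quotient.mk (nilradical R₁) (∑ i, a i • y i) = ∑ i, a i • bQ i := by
    intro a
    rw [map_sum]
    refine Finset.sum_congr rfl fun i _ => ?_
    rw [← hy i]
    rfl
  refine ⟨_, y, ?_, ?_⟩
  · intro a ha
    have h0 : ∑ i, a i • bQ i = 0 := by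
      rw [← hsum, Ideal.Quotient.eq_zero_iff_mem, mem_nilradical]
      exact ha
    have := (Fintype.linearIndependent_iff.mp bQ.linearIndependent) a h0
    exact funext this
  · intro x
    refine ⟨fun i => bQ.repr (Ideal.Quotient.mk (nilradical R₁) x) i, ?_⟩
    rw [← mem_nilradical, ← Ideal.Quotient.eq_zero_iff_mem, map_sub, hsum, bQ.sum_repr, sub_self]

end Fermat.Agent.S18.B12.H693

end
-- ===== PACK-END S18/B12/H693/RedBasis.lean

-- ===== PACK-BEGIN S18/H274/DetRank.lean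
section


/-!
# S18 / b2 (helper274) — DET-RANK

Mathlib-only linear algebra.  `R` a commutative ring, `π : R →+* K` a surjection onto a field
whose kernel is contained in `(t)`.  If the reduction `M.map π` of a square matrix `M` kills `s`
linearly independent vectors, then `t ^ s ∣ det M`.

Main statements (all sorry-free):

* `pow_card_dvd_det_of_col_dvd` : columns in a finset `S` divisible by `t`  ⇒ `t ^ #S ∣ det`.
* `pow_dvd_det_of_linearIndependent_ker` : the elementwise kernel form.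
* `pow_sub_rank_dvd_det` : `t ^ (card n - rank (M.map π)) ∣ det M`.
-/

namespace Fermat.Agent.S18.H274

open Matrix Module

variable {R : Type*} [CommRing R]

/-- If all columns with index in `S` of a square matrix are divisible by `t`, then
`t ^ #S` divides the determinant. -/
theorem pow_card_dvd_det_of_col_dvd {n : Type*} [Fintype n] [DecidableEq n]
    (t : R) (N : Matrix n n R) (S : Finset n) (h : ∀ j ∈ S, ∀ i, t ∣ N i j) :
    t ^ S.card ∣ N.det := by
  classical
  choose! Q hQ using h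
  let Q' : Matrix n n R := fun i j => if j ∈ S then Q j i else N i j
  let d : n → R := fun j => if j ∈ S then t else 1
  have hN : N = Q' * Matrix.diagonal d := by
    ext i j
    rw [Matrix.mul_diagonal]
    by_cases hj : j ∈ S
    · simp only [Q', d, hj, if_true]
      rw [hQ j hj i, mul_comm]
    · simp [Q', d, hj]
  have hd : ∏ j, d j = t ^ S.card := by
    simp only [d]
    rw [Finset.prod_ite_mem, Finset.univ_inter, Finset.prod_const]
  rw [hN, Matrix.det_mul, Matrix.det_diagonal, hd]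
  exact Dvd.intro_left _ rfl

/-- **DET-RANK, kernel form.**  `π : R →+* K` a surjection onto a field with `ker π ⊆ (t)`.
If the reduced matrix `M.map π` kills `s` linearly independent vectors then `t ^ s ∣ det M`. -/
theorem pow_dvd_det_of_linearIndependent_ker {K : Type*} [Field K] (π : R →+* K)
    (hπ : Function.Surjective π) (t : R) (hker : ∀ x, π x = 0 → t ∣ x)
    {n : Type*} [Fintype n] [DecidableEq n] (M : Matrix n n R) {s : ℕ}
    (v : Fin s → n → K) (hv : LinearIndependent K v)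
    (hMv : ∀ a, (M.map π).mulVec (v a) = 0) :
    t ^ s ∣ M.det := by
  classical
  -- extend `v` to a basis of `n → K`
  have hs := hv.linearIndepOn_id
  let B := Basis.extend hs
  have hB : ∀ x, B x = (x : n → K) := fun x => by rw [Basis.coe_extend]
  have hsub : Set.range v ⊆ hs.extend (Set.subset_univ _) := hs.subset_extend _
  let _ : Fintype (hs.extend (Set.subset_univ (Set.range v))) :=
    FiniteDimensional.fintypeBasisIndex B
  let e : n ≃ (hs.extend (Set.subset_univ (Set.range v))) := (Pi.basisFun K n).indexEquiv B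
  -- the matrix of the new basis and a lift
  let Pbar : Matrix n n K := fun i j => (e j : n → K) i
  have hPbar_unit : IsUnit Pbar.det := by
    rw [← Matrix.isUnit_iff_isUnit_det, ← Matrix.linearIndependent_cols_iff_isUnit]
    have h1 : LinearIndependent K (fun j => B (e j)) :=
      B.linearIndependent.comp e e.injective
    have h2 : Pbar.col = fun j => B (e j) := by
      funext j
      rw [hB]
      rfl
    rw [h2]
    exact h1
  let P : Matrix n n R := fun i j => Classical.choose (hπ (Pbar i j))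
  have hP : P.map π = Pbar := by
    ext i j
    exact Classical.choose_spec (hπ (Pbar i j))
  -- the set of columns coming from `v`
  let S : Finset n := Finset.univ.image (fun a : Fin s => e.symm ⟨v a, hsub ⟨a, rfl⟩⟩)
  have hScard : S.card = s := by
    rw [Finset.card_image_of_injective]
    · simp
    · intro a a' h
      have := e.symm.injective h
      exact hv.injective (Subtype.mk.inj this)
  have hcol : ∀ j ∈ S, ∀ i, t ∣ (M * P) i j := by
    intro j hj i
    obtain ⟨a, -, rfl⟩ := Finset.mem_image.mp hj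
    apply hker
    rw [RingHom.map_matrix_mul, hP]
    have h3 := congrFun (hMv a) i
    simp only [Matrix.mulVec, dotProduct, Pi.zero_apply] at h3
    rw [Matrix.mul_apply]
    simp only [Pbar, Equiv.apply_symm_apply]
    exact h3
  have h4 := pow_card_dvd_det_of_col_dvd t (M * P) S hcol
  rw [hScard, Matrix.det_mul] at h4
  -- `det P` is coprime to `t`
  have hdetP : π P.det = Pbar.det := by
    rw [RingHom.map_det, RingHom.mapMatrix_apply, hP]
  obtain ⟨y, hy⟩ := hπ (↑hPbar_unit.unit⁻¹ : K)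
  have h5 : π (y * P.det - 1) = 0 := by
    rw [map_sub, map_mul, hy, hdetP, map_one, sub_eq_zero]
    exact hPbar_unit.val_inv_mul
  obtain ⟨z, hz⟩ := hker _ h5
  have hcop : IsCoprime t P.det := ⟨-z, y, by linear_combination hz⟩
  exact (hcop.pow_left).dvd_of_dvd_mul_right h4

/-- **DET-RANK, rank form.**  `t ^ (card n - rank (M mod t)) ∣ det M`. -/
theorem pow_sub_rank_dvd_det {K : Type*} [Field K] (π : R →+* K)
    (hπ : Function.Surjective π) (t : R) (hker : ∀ x, π x = 0 → t ∣ x)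
    {n : Type*} [Fintype n] [DecidableEq n] (M : Matrix n n R) :
    t ^ (Fintype.card n - (M.map π).rank) ∣ M.det := by
  classical
  let f := (M.map π).mulVecLin
  have hrn := LinearMap.finrank_range_add_finrank_ker f
  have hrank : (M.map π).rank = finrank K (LinearMap.range f) := rfl
  have hcard : finrank K (n → K) = Fintype.card n := Module.finrank_fintype_fun_eq_card K
  have hk : finrank K (LinearMap.ker f) = Fintype.card n - (M.map π).rank := by
    rw [hrank]; omega
  let b := Module.finBasis K (LinearMap.ker f)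
  rw [← hk]
  refine pow_dvd_det_of_linearIndependent_ker π hπ t hker M
    (fun a => ((b a : LinearMap.ker f) : n → K)) ?_ ?_
  · have := b.linearIndependent
    exact this.map' (LinearMap.ker f).subtype (Submodule.ker_subtype _)
  · intro a
    have := (b a).2
    rw [LinearMap.mem_ker] at this
    exact this

end Fermat.Agent.S18.H274

end
-- ===== PACK-END S18/H274/DetRank.lean

-- ===== PACK-BEGIN S18/H274/Dedekind.lean
section


/-!
# S18 / b2 (helper274) — a Bezout-type splitting in Dedekind domains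

Mathlib-only.  For `p q : C` in a Dedekind domain with `q ≠ 0` (think of the fraction `u = p/q`),
the fractional ideal `C + C u` is invertible; unwinding `1 ∈ (C + C u) (C + C u)⁻¹` gives
elements `β₀ β₀' z z₁ : C` with

  `β₀ + z = 1`,  `z * q = β₀' * p`  (`z = β₀' u`),  `z₁ * q = β₀ * p`  (`z₁ = β₀ u`).

This is the only place where the TAME discriminant bound uses that `C` is integrally closed.
-/

namespace Fermat.Agent.S18.H274

open scoped nonZeroDivisors

theorem exists_split_of_isDedekindDomain {C : Type*} [CommRing C] [IsDedekindDomain C]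
    (p q : C) (hq : q ≠ 0) :
    ∃ β₀ β₀' z z₁ : C, β₀ + z = 1 ∧ z * q = β₀' * p ∧ z₁ * q = β₀ * p := by
  classical
  let K := FractionRing C
  have hinj : Function.Injective (algebraMap C K) := IsFractionRing.injective C K
  have hqK : algebraMap C K q ≠ 0 := fun h => hq (hinj (by rw [h, map_zero]))
  let u : K := algebraMap C K p / algebraMap C K q
  let 𝔟 : FractionalIdeal C⁰ K := 1 + FractionalIdeal.spanSingleton C⁰ u
  have h1𝔟 : (1 : K) ∈ 𝔟 := by
    rw [FractionalIdeal.mem_add]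
    exact ⟨1, FractionalIdeal.one_mem_one _, 0, Submodule.zero_mem _, add_zero 1⟩
  have hu𝔟 : u ∈ 𝔟 := by
    rw [FractionalIdeal.mem_add]
    exact ⟨0, Submodule.zero_mem _, u, FractionalIdeal.mem_spanSingleton_self _ u, zero_add u⟩
  have h𝔟 : 𝔟 ≠ 0 := by
    intro h
    rw [h] at h1𝔟
    exact one_ne_zero ((FractionalIdeal.mem_zero_iff _).mp h1𝔟)
  have hinv : 𝔟 * 𝔟⁻¹ = 1 := mul_inv_cancel₀ h𝔟
  have h1 : (1 : K) ∈ 𝔟 * 𝔟⁻¹ := by
    rw [hinv]
    exact FractionalIdeal.one_mem_one _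
  have hsplit : 𝔟 * 𝔟⁻¹ = 𝔟⁻¹ + FractionalIdeal.spanSingleton C⁰ u * 𝔟⁻¹ := by
    simp only [𝔟, add_mul, one_mul]
  rw [hsplit, FractionalIdeal.mem_add] at h1
  obtain ⟨p₁, hp₁, q₁, hq₁, hsum⟩ := h1
  rw [FractionalIdeal.mem_singleton_mul] at hq₁
  obtain ⟨β', hβ', rfl⟩ := hq₁
  rw [FractionalIdeal.mem_inv_iff h𝔟] at hp₁ hβ'
  obtain ⟨β₀, hβ₀⟩ := (FractionalIdeal.mem_one_iff _).mp (hp₁ 1 h1𝔟)
  obtain ⟨z₁, hz₁⟩ := (FractionalIdeal.mem_one_iff _).mp (hp₁ u hu𝔟)
  obtain ⟨β₀', hβ₀'⟩ := (FractionalIdeal.mem_one_iff _).mp (hβ' 1 h1𝔟)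
  obtain ⟨z, hz⟩ := (FractionalIdeal.mem_one_iff _).mp (hβ' u hu𝔟)
  rw [mul_one] at hβ₀ hβ₀'
  refine ⟨β₀, β₀', z, z₁, ?_, ?_, ?_⟩
  · apply hinj
    rw [map_add, map_one, hβ₀, hz, ← hsum, mul_comm]
  · apply hinj
    rw [map_mul, map_mul, hz, hβ₀']
    simp only [u]
    rw [mul_assoc, div_mul_cancel₀ _ hqK]
  · apply hinj
    rw [map_mul, map_mul, hz₁, hβ₀]
    simp only [u]
    rw [mul_assoc, div_mul_cancel₀ _ hqK]

end Fermat.Agent.S18.H274

end
-- ===== PACK-END S18/H274/Dedekind.lean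

-- ===== PACK-BEGIN S18/B12/H84/IntClosed.lean
section


/-!
# S18 / b2.5 / A8 (helper84): normality from the discriminant bounds

`intClosedOfDiscr_of_sfLattice : SFLatticeHyp → (IntClosedOfDiscrStatement, unfolded)`,
Mathlib-only; `SFLatticeHyp` is a verbatim copy of `SFLatticeStatement` of `origin/helper33`
`Fermat/Agent/S18/B12/Spec.lean`.  The `Spec`-typed wrapper
`SFLatticeStatement → IntClosedOfDiscrStatement` is `Fermat/Agent/S18/B12/H84/Stmt.lean`.

`Λ` a PID, `C` a domain, free of rank `n` over `Λ` with `disc ≠ 0`, such that at every prime `t`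
of `Λ` the reduced fibre `(C/tC)_red` is spanned by `s` elements and `t ^ (n - s + 1) ∤ disc`.
Then `C` is integrally closed.

Proof: for `f ∈ Frac C` integral over `C`, the ring `C[f]` is a free `Λ`-module of rank `n`
containing `C`; Theorem L (`SFLatticeStatement`) gives for every prime `t` a denominator
`g ∉ (t)` with `g f ∈ C`; the ideal of denominators of `f` contains a nonzero element and lies in
no maximal ideal of the PID `Λ`, so it is the unit ideal.
-/

set_option autoImplicit false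

namespace Fermat.Agent.S18.B12.H84

universe u v

/-- In a PID, an ideal containing a nonzero element and, for every prime `t`, an element not
divisible by `t`, is the unit ideal. -/
theorem ideal_eq_top_of_forall_prime {Λ : Type u} [CommRing Λ] [IsDomain Λ]
    [IsPrincipalIdealRing Λ] (I : Ideal Λ) (h0 : ∃ d ∈ I, d ≠ 0)
    (h : ∀ t : Λ, Prime t → ∃ g ∈ I, ¬ t ∣ g) : I = ⊤ := by
  by_contra hI
  obtain ⟨𝔭, h𝔭, hle⟩ := Ideal.exists_le_maximal I hI
  have hgen : Ideal.span {Submodule.IsPrincipal.generator 𝔭} = 𝔭 :=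
    Ideal.span_singleton_generator 𝔭
  set t := Submodule.IsPrincipal.generator 𝔭 with ht_def
  by_cases ht : t = 0
  · obtain ⟨d, hd, hd0⟩ := h0
    have h1 : d ∈ 𝔭 := hle hd
    rw [← hgen, ht, Ideal.mem_span_singleton, zero_dvd_iff] at h1
    exact hd0 h1
  · have hp : Prime t := by
      rw [← Ideal.span_singleton_prime ht, hgen]
      exact h𝔭.isPrime
    obtain ⟨g, hg, hgt⟩ := h t hp
    have h1 : g ∈ 𝔭 := hle hg
    rw [← hgen, Ideal.mem_span_singleton] at h1
    exact hgt h1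

/-- Every element of the fraction field of a domain `C` algebraic over `Λ` has a nonzero
denominator in `Λ`. -/
theorem exists_smul_mem_range {Λ : Type u} [CommRing Λ] [IsDomain Λ] {C : Type v} [CommRing C]
    [IsDomain C] [Algebra Λ C] [Algebra.IsAlgebraic Λ C] (x : FractionRing C) :
    ∃ d : Λ, d ≠ 0 ∧ ∃ c : C, d • x = algebraMap C (FractionRing C) c := by
  obtain ⟨a, b, hb, rfl⟩ := IsFractionRing.div_surjective C x
  have hb0 : b ≠ 0 := nonZeroDivisors.ne_zero hb
  obtain ⟨r, hr, c, hc⟩ := (Algebra.IsAlgebraic.isAlgebraic (R := Λ) b).exists_nonzero_dvd hb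
  refine ⟨r, hr, c * a, ?_⟩
  have hbK : algebraMap C (FractionRing C) b ≠ 0 := by
    intro h
    exact hb0 ((IsFractionRing.injective C (FractionRing C)) (h.trans (map_zero _).symm))
  rw [Algebra.smul_def, IsScalarTower.algebraMap_apply Λ C (FractionRing C), hc, map_mul, map_mul]
  field_simp

/-- Verbatim copy of `B12.SFLatticeStatement` (Theorem L, two-lattice form). -/
def SFLatticeHyp : Prop :=
  ∀ (Λ : Type u) [CommRing Λ] [IsDomain Λ] [IsPrincipalIdealRing Λ] (t : Λ) (_ : Prime t)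
    (L : Type v) [CommRing L] [Algebra Λ L] (C Ct : Subalgebra Λ L) (_ : C ≤ Ct)
    (n : ℕ) (b : Module.Basis (Fin n) Λ C) (_ : Module.Basis (Fin n) Λ Ct)
    (s : ℕ) (y : Fin s → C)
    (_ : ∀ x : C, ∃ a : Fin s → Λ,
        x - ∑ i, a i • y i ∈ (Ideal.span {algebraMap Λ C t}).radical),
    Algebra.discr Λ b ≠ 0 → ¬ t ^ (n - s + 1) ∣ Algebra.discr Λ b →
    ∀ x ∈ Ct, ∃ g : Λ, ¬ t ∣ g ∧ g • x ∈ C

/-- **A8** from Theorem L: `SFLatticeStatement → IntClosedOfDiscrStatement` (unfolded). -/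
theorem intClosedOfDiscr_of_sfLattice (hSF : SFLatticeHyp.{u, v})
    (Λ : Type u) [CommRing Λ] [IsDomain Λ] [IsPrincipalIdealRing Λ]
    (C : Type v) [CommRing C] [IsDomain C] [Algebra Λ C] (n : ℕ) (b : Module.Basis (Fin n) Λ C)
    (hdisc : Algebra.discr Λ b ≠ 0)
    (hbound : ∀ t : Λ, Prime t → ∃ (s : ℕ) (y : Fin s → C),
      (∀ c : C, ∃ a : Fin s → Λ,
        c - ∑ i, a i • y i ∈ (Ideal.span {algebraMap Λ C t}).radical) ∧
      ¬ t ^ (n - s + 1) ∣ Algebra.discr Λ b) :
    IsIntegrallyClosed C := by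
  classical
  have : Module.Free Λ C := Module.Free.of_basis b
  have : Module.Finite Λ C := Module.Finite.of_basis b
  have hinj : Function.Injective (algebraMap Λ C) := FaithfulSMul.algebraMap_injective Λ C
  have : Algebra.IsIntegral Λ C := Algebra.IsIntegral.of_finite Λ C
  have : Algebra.IsAlgebraic Λ C := Algebra.IsIntegral.isAlgebraic
  have hinjK : Function.Injective (algebraMap Λ (FractionRing C)) := by
    rw [IsScalarTower.algebraMap_eq Λ C (FractionRing C)]
    exact (IsFractionRing.injective C (FractionRing C)).comp hinj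
  have htfK : Module.IsTorsionFree Λ (FractionRing C) := by
    refine Module.IsTorsionFree.of_smul_eq_zero fun r m hrm => ?_
    rw [Algebra.smul_def, mul_eq_zero] at hrm
    rcases hrm with h | h
    · exact Or.inl (hinjK (h.trans (map_zero _).symm))
    · exact Or.inr h
  refine (isIntegrallyClosed_iff (FractionRing C)).mpr fun {f} hf => ?_
  have hfΛ : IsIntegral Λ f := isIntegral_trans f hf
  -- the two lattices
  let φ : C →ₐ[Λ] FractionRing C := IsScalarTower.toAlgHom Λ C (FractionRing C)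
  have hφ : Function.Injective φ := IsFractionRing.injective C (FractionRing C)
  let e : C ≃ₐ[Λ] φ.range := AlgEquiv.ofInjective φ hφ
  have hle : φ.range ≤ φ.range ⊔ Algebra.adjoin Λ {f} := le_sup_left
  have hfCt : f ∈ φ.range ⊔ Algebra.adjoin Λ {f} :=
    (le_sup_right : Algebra.adjoin Λ {f} ≤ φ.range ⊔ Algebra.adjoin Λ {f})
      (Algebra.self_mem_adjoin_singleton Λ f)
  have : Module.Finite Λ φ.range := Module.Finite.equiv e.toLinearEquiv
  have : Module.Finite Λ (Algebra.adjoin Λ {f}) :=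
    Module.Finite.iff_fg.mpr hfΛ.fg_adjoin_singleton
  have hfinCt : Module.Finite Λ ↥(φ.range ⊔ Algebra.adjoin Λ {f}) := Subalgebra.finite_sup _ _
  have : Module.IsTorsionFree Λ ↥(φ.range ⊔ Algebra.adjoin Λ {f}) :=
    Function.Injective.moduleIsTorsionFree
      (fun z : ↥(φ.range ⊔ Algebra.adjoin Λ {f}) => (z : FractionRing C))
      Subtype.val_injective (fun _ _ => rfl)
  have : Module.Free Λ ↥(φ.range ⊔ Algebra.adjoin Λ {f}) :=
    Module.free_of_finite_type_torsion_free'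
  have hrank0 : Module.finrank Λ φ.range = n := by
    rw [← e.toLinearEquiv.finrank_eq, Module.finrank_eq_card_basis b, Fintype.card_fin]
  -- a common denominator
  have hd : ∃ d : Λ, d ≠ 0 ∧ ∀ x ∈ φ.range ⊔ Algebra.adjoin Λ {f}, d • x ∈ φ.range := by
    have hfg : (Subalgebra.toSubmodule (φ.range ⊔ Algebra.adjoin Λ {f})).FG :=
      Module.Finite.iff_fg.mp hfinCt
    obtain ⟨S, hS⟩ := hfg
    choose dx hdx0 cx hcx using fun x : FractionRing C => exists_smul_mem_range (Λ := Λ) x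
    refine ⟨∏ x ∈ S, dx x, Finset.prod_ne_zero_iff.mpr fun x _ => hdx0 x, fun x hx => ?_⟩
    have hx' : x ∈ Submodule.span Λ (S : Set (FractionRing C)) := by
      rw [hS]; exact hx
    refine Submodule.span_induction (p := fun z _ => (∏ x ∈ S, dx x) • z ∈ φ.range)
      ?_ ?_ ?_ ?_ hx'
    · intro z hz
      have hzS : z ∈ S := hz
      rw [← Finset.mul_prod_erase S dx hzS, mul_comm, mul_smul, hcx z]
      have hmem : algebraMap C (FractionRing C) (cx z) ∈ φ.range := ⟨cx z, rfl⟩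
      exact Subalgebra.smul_mem _ hmem _
    · rw [smul_zero]; exact Subalgebra.zero_mem _
    · intro y z _ _ hy hz
      rw [smul_add]; exact Subalgebra.add_mem _ hy hz
    · intro a y _ hy
      rw [smul_comm]; exact Subalgebra.smul_mem _ hy _
  obtain ⟨d, hd0, hd⟩ := hd
  have hrank : Module.finrank Λ ↥(φ.range ⊔ Algebra.adjoin Λ {f}) = n := by
    apply le_antisymm
    · rw [← hrank0]
      let μ : ↥(φ.range ⊔ Algebra.adjoin Λ {f}) →ₗ[Λ] φ.range :=
        { toFun := fun z => ⟨d • (z : FractionRing C), hd z z.2⟩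
          map_add' := fun y z => Subtype.ext (smul_add d (y : FractionRing C) z)
          map_smul' := fun a z => Subtype.ext (smul_comm d a (z : FractionRing C)) }
      have hμ : Function.Injective μ := by
        intro y z hyz
        have h1 : d • (y : FractionRing C) = d • (z : FractionRing C) :=
          congrArg Subtype.val hyz
        exact Subtype.ext (smul_right_injective (FractionRing C) hd0 h1)
      exact LinearMap.finrank_le_finrank_of_injective hμ
    · rw [← hrank0]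
      exact LinearMap.finrank_le_finrank_of_injective
        (f := (Subalgebra.inclusion hle).toLinearMap) (Subalgebra.inclusion_injective hle)
  let bt : Module.Basis (Fin n) Λ ↥(φ.range ⊔ Algebra.adjoin Λ {f}) :=
    Module.finBasisOfFinrankEq Λ _ hrank
  let b₀ : Module.Basis (Fin n) Λ φ.range := b.map e.toLinearEquiv
  have hdisc₀ : Algebra.discr Λ b₀ = Algebra.discr Λ b := by
    rw [Algebra.discr_eq_discr_of_algEquiv b e]
    congr 1
  -- the ideal of denominators
  let I : Ideal Λ :=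
    { carrier := {g | g • f ∈ φ.range}
      add_mem' := fun {g h} hg hh => by
        change (g + h) • f ∈ φ.range
        rw [add_smul]; exact Subalgebra.add_mem _ hg hh
      zero_mem' := by
        change (0 : Λ) • f ∈ φ.range
        rw [zero_smul]; exact Subalgebra.zero_mem _
      smul_mem' := fun a g hg => by
        change (a • g) • f ∈ φ.range
        rw [smul_assoc]; exact Subalgebra.smul_mem _ hg _ }
  have hI : I = ⊤ := by
    refine ideal_eq_top_of_forall_prime I ⟨d, hd f hfCt, hd0⟩ fun t ht => ?_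
    obtain ⟨s, y, hy, hnd⟩ := hbound t ht
    have hy₀ : ∀ x : φ.range, ∃ a : Fin s → Λ,
        x - ∑ i, a i • e (y i) ∈ (Ideal.span {algebraMap Λ φ.range t}).radical := by
      intro x
      obtain ⟨a, ha⟩ := hy (e.symm x)
      refine ⟨a, ?_⟩
      obtain ⟨k, hk⟩ := ha
      obtain ⟨z, hz⟩ := Ideal.mem_span_singleton'.mp hk
      refine ⟨k, Ideal.mem_span_singleton'.mpr ⟨e z, ?_⟩⟩
      have h1 := congrArg e hz
      rw [map_mul, map_pow, map_sub, map_sum, AlgEquiv.apply_symm_apply, AlgEquiv.commutes] at h1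
      rw [h1]
      congr 2
      exact Finset.sum_congr rfl fun i _ => map_smul e (a i) (y i)
    obtain ⟨g, hgt, hg⟩ := hSF Λ t ht (FractionRing C) φ.range (φ.range ⊔ Algebra.adjoin Λ {f})
      hle n b₀ bt s (fun i => e (y i)) hy₀ (hdisc₀ ▸ hdisc) (hdisc₀ ▸ hnd) f hfCt
    exact ⟨g, hg, hgt⟩
  have h1 : (1 : Λ) ∈ I := by rw [hI]; exact Submodule.mem_top
  have h2 : (1 : Λ) • f ∈ φ.range := h1
  rw [one_smul] at h2
  obtain ⟨c, hc⟩ := h2
  exact ⟨c, hc⟩

end Fermat.Agent.S18.B12.H84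

end
-- ===== PACK-END S18/B12/H84/IntClosed.lean

-- ===== PACK-BEGIN S37/H278/Lattice.lean
section


/-!
# S37 / S18, piece b2-core (helper278): lattices in a finite algebra and their traces

`o` a PID with fraction field `K`, `L` a commutative `K`-algebra.  A subalgebra `R ⊆ L` which is a
finitely generated `o`-module spanning `L` is finite free over `o`, `L` is its localization, and the
trace of `L / K` restricted to `R` is the trace of `R / o`.
-/

set_option autoImplicit false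

namespace Fermat.Agent.S37.H278

open Module

section Lattice

variable {o K L : Type*} [CommRing o] [IsDomain o]
  [Field K] [Algebra o K] [IsFractionRing o K]
  [CommRing L] [Algebra K L] [Algebra o L] [IsScalarTower o K L]

omit [IsDomain o] in
theorem smul_eq_zero_of_fractionRing (K : Type*) [Field K] [Algebra o K] [IsFractionRing o K]
    [Algebra K L] [IsScalarTower o K L] {r : o} (hr : r ≠ 0) {x : L}
    (h : r • x = 0) : x = 0 := by
  have h' : (algebraMap o K r) • x = 0 := by rwa [algebraMap_smul]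
  have hne : algebraMap o K r ≠ 0 := by
    intro h0
    exact hr ((IsFractionRing.injective o K) (by rw [h0, map_zero]))
  rcases smul_eq_zero.mp h' with h1 | h1
  · exact absurd h1 hne
  · exact h1

/-- A lattice: a subalgebra of `L`, finitely generated as `o`-module, spanning `L`. -/
structure IsLattice (R : Subalgebra o L) : Prop where
  fg : (Subalgebra.toSubmodule R).FG
  span : ∀ l : L, ∃ σ : o, σ ≠ 0 ∧ σ • l ∈ R

variable {R : Subalgebra o L}

theorem IsLattice.finite (h : IsLattice R) : Module.Finite o R :=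
  Module.Finite.iff_fg.mpr h.fg

include K in
theorem isTorsionFree_subalgebra (R : Subalgebra o L) : Module.IsTorsionFree o R := by
  refine ⟨fun r hr x y hxy => ?_⟩
  have hr0 : r ≠ 0 := by
    rintro rfl
    have := hr.left
    exact one_ne_zero (this (by simp : (0 : o) * 1 = 0 * 0))
  have hxy' : r • ((x : L) - (y : L)) = 0 := by
    have := congrArg (Subtype.val) hxy
    simp only [Subalgebra.coe_smul] at this
    rw [smul_sub, this, sub_self]
  have := smul_eq_zero_of_fractionRing K hr0 hxy'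
  exact Subtype.ext (sub_eq_zero.mp this)

include K in
theorem IsLattice.free [IsPrincipalIdealRing o] (h : IsLattice R) : Module.Free o R := by
  haveI := h.finite
  haveI := isTorsionFree_subalgebra (K := K) R
  exact Module.free_of_finite_type_torsion_free'

include K in
theorem IsLattice.isLocalization (h : IsLattice R) :
    IsLocalization (Algebra.algebraMapSubmonoid R (nonZeroDivisors o)) L where
  map_units := by
    rintro ⟨y, σ, hσ, rfl⟩
    have hσ0 : σ ≠ 0 := nonZeroDivisors.ne_zero hσ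
    have hne : algebraMap o K σ ≠ 0 := by
      intro h0
      exact hσ0 ((IsFractionRing.injective o K) (by rw [h0, map_zero]))
    have : algebraMap R L (algebraMap o R σ) = algebraMap K L (algebraMap o K σ) := by
      rw [← IsScalarTower.algebraMap_apply, ← IsScalarTower.algebraMap_apply]
    rw [this]
    exact (IsUnit.mk0 _ hne).map (algebraMap K L)
  surj := by
    intro l
    obtain ⟨σ, hσ, hl⟩ := h.span l
    refine ⟨(⟨σ • l, hl⟩, ⟨algebraMap o R σ, σ, mem_nonZeroDivisors_of_ne_zero hσ, rfl⟩), ?_⟩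
    show l * algebraMap R L (algebraMap o R σ) = σ • l
    rw [← IsScalarTower.algebraMap_apply, Algebra.smul_def, mul_comm]
  exists_of_eq := by
    intro x y hxy
    refine ⟨1, ?_⟩
    have : x = y := Subtype.ext hxy
    rw [this]

include K in
theorem IsLattice.trace_eq [IsPrincipalIdealRing o] (h : IsLattice R) (a : R) :
    Algebra.trace K L (a : L) = algebraMap o K (Algebra.trace o R a) := by
  haveI := h.finite
  haveI := h.free (K := K)
  haveI := h.isLocalization (K := K)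
  exact Algebra.trace_localization o (nonZeroDivisors o) (Rₘ := K) (Sₘ := L) a

theorem isLattice_adjoin {G : Set L} (hG : G.Finite) (hint : ∀ g ∈ G, IsIntegral o g)
    (hspan : ∀ l : L, ∃ σ : o, σ ≠ 0 ∧ σ • l ∈ Algebra.adjoin o G) :
    IsLattice (Algebra.adjoin o G) :=
  ⟨fg_adjoin_of_finite hG hint, hspan⟩

end Lattice

section DVR

variable {o K L : Type*} [CommRing o] [IsDomain o] [IsDiscreteValuationRing o]
  [Field K] [Algebra o K] [IsFractionRing o K]
  [CommRing L] [Algebra K L] [Algebra o L] [IsScalarTower o K L]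

/-- In a finite free algebra over a local ring, the trace of an element which is nilpotent
modulo the maximal ideal lies in the maximal ideal. -/
theorem trace_mem_maximalIdeal_of_pow_mem {o S : Type*} [CommRing o] [IsLocalRing o]
    [CommRing S] [Algebra o S] [Module.Free o S] [Module.Finite o S] (a : S) (k : ℕ)
    (hk : a ^ k ∈ Ideal.map (algebraMap o S) (IsLocalRing.maximalIdeal o)) :
    Algebra.trace o S a ∈ IsLocalRing.maximalIdeal o := by
  have h1 := Algebra.trace_quotient_mk (R := o) (S := S) a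
  have hnil : IsNilpotent
      (Ideal.Quotient.mk (Ideal.map (algebraMap o S) (IsLocalRing.maximalIdeal o)) a) := by
    refine ⟨k, ?_⟩
    rw [← map_pow]
    exact Ideal.Quotient.eq_zero_iff_mem.mpr hk
  have h2 := Algebra.isNilpotent_trace_of_isNilpotent
    (R := o ⧸ IsLocalRing.maximalIdeal o) hnil
  rw [h1] at h2
  have h3 : (Ideal.Quotient.mk (IsLocalRing.maximalIdeal o)) (Algebra.trace o S a) = 0 := by
    haveI : IsReduced (o ⧸ IsLocalRing.maximalIdeal o) := by
      haveI : (IsLocalRing.maximalIdeal o).IsPrime := inferInstance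
      infer_instance
    exact h2.eq_zero
  exact Ideal.Quotient.eq_zero_iff_mem.mp h3

theorem dvd_trace_of_pow_mem {S : Type*} [CommRing S] [Algebra o S] [Module.Free o S]
    [Module.Finite o S] {t : o} (ht : Irreducible t) (a : S) (k : ℕ)
    (hk : ∃ a' : S, a ^ k = t • a') : t ∣ Algebra.trace o S a := by
  have hmax : IsLocalRing.maximalIdeal o = Ideal.span {t} := ht.maximalIdeal_eq
  obtain ⟨a', ha'⟩ := hk
  have hmem : a ^ k ∈ Ideal.map (algebraMap o S) (IsLocalRing.maximalIdeal o) := by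
    rw [ha', Algebra.smul_def]
    apply Ideal.mul_mem_right
    apply Ideal.mem_map_of_mem
    rw [hmax]
    exact Ideal.mem_span_singleton_self t
  have := trace_mem_maximalIdeal_of_pow_mem a k hmem
  rw [hmax] at this
  exact Ideal.mem_span_singleton.mp this

include K in
/-- trace of an element of a lattice, nilpotent modulo `t`, is divisible by `t` -/
theorem IsLattice.dvd_trace {R : Subalgebra o L} (h : IsLattice R) {t : o} (ht : Irreducible t)
    (a : R) (k : ℕ) (hk : ∃ a' : R, a ^ k = t • a') : t ∣ Algebra.trace o R a := by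
  haveI := h.finite
  haveI := h.free (K := K)
  exact dvd_trace_of_pow_mem ht a k hk

end DVR

end Fermat.Agent.S37.H278

end
-- ===== PACK-END S37/H278/Lattice.lean

-- ===== PACK-BEGIN S18/H754/HncRadical.lean
section


/-!
# S18 / ALG-FRONT / hNC adapter, part N1: a radical criterion for principal ideals

`B` a Noetherian integrally closed domain, `π ≠ 0`.  If `π` generates `𝔓 B_𝔓` for every height-one
prime `𝔓 ∋ π` (elementwise: `∀ b ∈ 𝔓, ∃ s ∉ 𝔓, π ∣ s * b`), then `(π)` is a radical ideal.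

Proof: an associated prime `P = (π : c)` of `B/π` is of height one (`y = c/π` satisfies
`y P ⊆ B`, `y P ⊄ P` by integral closedness, so `P` is locally principal; Krull).
-/

set_option autoImplicit false

noncomputable section

namespace Fermat.Agent.S18.H754

section Radical

variable {B : Type*} [CommRing B] [IsDomain B] [IsNoetherianRing B] [IsIntegrallyClosed B]

/-- An associated prime of `B/π` (`B` Noetherian normal domain, `π ≠ 0`) has height one. -/
theorem height_eq_one_of_eq_colon (π c : B) (hπ : π ≠ 0) (hc : ¬ π ∣ c)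
    (P : Ideal B) (hP : P.IsPrime) (hPc : ∀ s : B, s ∈ P ↔ π ∣ s * c) : P.height = 1 := by
  classical
  have hπP : π ∈ P := (hPc π).2 (Dvd.intro _ rfl)
  -- the map `φ : P → B`, `t ↦ t c / π`
  have hφ : ∀ t ∈ P, ∃ d : B, t * c = π * d := fun t ht => (hPc t).1 ht
  -- there is `a ∈ P` with `a c / π ∉ P`
  have hex : ∃ a ∈ P, ∃ s : B, s ∉ P ∧ a * c = π * s := by
    by_contra hcon
    -- then `y = c / π` stabilises `P`, hence is integral, hence lies in `B`
    let F := FractionRing B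
    have hinj : Function.Injective (algebraMap B F) := IsFractionRing.injective B F
    have hπF : algebraMap B F π ≠ 0 := fun h => hπ (hinj (by rw [h, map_zero]))
    set y : F := algebraMap B F c / algebraMap B F π with hy
    let N : Submodule B F := Submodule.map (Algebra.linearMap B F) P
    have hN0 : N ≠ ⊥ := by
      intro h
      have : algebraMap B F π ∈ N := ⟨π, hπP, rfl⟩
      rw [h, Submodule.mem_bot] at this
      exact hπF this
    have hNfg : N.FG := Submodule.FG.map _ (IsNoetherian.noetherian P)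
    have hstab : ∀ n ∈ N, y • n ∈ N := by
      rintro n ⟨t, ht, rfl⟩
      obtain ⟨d, hd⟩ := hφ t ht
      have hdP : d ∈ P := by
        by_contra hdP
        exact hcon ⟨t, ht, d, hdP, hd⟩
      refine ⟨d, hdP, ?_⟩
      simp only [Algebra.linearMap_apply, smul_eq_mul, hy]
      have := congrArg (algebraMap B F) hd
      simp only [map_mul] at this
      rw [div_mul_eq_mul_div, eq_div_iff hπF, mul_comm (algebraMap B F d), ← this]
      ring
    have hint : IsIntegral B y := isIntegral_of_smul_mem_submodule N hN0 hNfg y hstab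
    obtain ⟨y', hy'⟩ := IsIntegrallyClosed.isIntegral_iff.1 hint
    apply hc
    refine ⟨y', ?_⟩
    apply hinj
    rw [map_mul, hy', hy, mul_div_assoc', mul_div_cancel_left₀ _ hπF]
  obtain ⟨a, haP, s, hsP, has⟩ := hex
  -- `s P ⊆ a B`
  have hsP' : ∀ t ∈ P, a ∣ s * t := by
    intro t ht
    obtain ⟨d, hd⟩ := hφ t ht
    refine ⟨d, ?_⟩
    have h1 : π * (s * t) = π * (a * d) := by
      calc π * (s * t) = (π * s) * t := by ring
        _ = (a * c) * t := by rw [has]
        _ = a * (t * c) := by ring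
        _ = a * (π * d) := by rw [hd]
        _ = π * (a * d) := by ring
    exact mul_left_cancel₀ hπ h1
  -- `P` is minimal over `(a)`
  have hmin : P ∈ (Ideal.span {a}).minimalPrimes := by
    refine ⟨⟨hP, (Ideal.span_singleton_le_iff_mem _).2 haP⟩, ?_⟩
    rintro Q ⟨hQ, haQ⟩ hQP t ht
    have h1 : s * t ∈ Q := by
      obtain ⟨d, hd⟩ := hsP' t ht
      rw [hd]
      exact Ideal.mul_mem_right _ _ ((Ideal.span_singleton_le_iff_mem _).1 haQ)
    rcases hQ.mem_or_mem h1 with h2 | h2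
    · exact absurd (hQP h2) hsP
    · exact h2
  apply le_antisymm
  · exact Ideal.height_le_one_of_isPrincipal_of_mem_minimalPrimes (Ideal.span {a}) P hmin
  · rw [Order.one_le_iff_pos, pos_iff_ne_zero]
    intro h0
    haveI := hP
    rw [Ideal.height_eq_zero_iff, IsDomain.minimalPrimes_eq_singleton_bot] at h0
    rw [Set.mem_singleton_iff] at h0
    rw [h0, Ideal.mem_bot] at hπP
    exact hπ hπP

/-- **Radical criterion.**  If `π` generates `𝔓 B_𝔓` at every height-one prime `𝔓 ∋ π`, then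
`(π)` is radical. -/
theorem isRadical_span_singleton_of_local_gen (π : B) (hπ : π ≠ 0)
    (h : ∀ 𝔓 : Ideal B, 𝔓.IsPrime → 𝔓.height = 1 → π ∈ 𝔓 →
      ∀ b ∈ 𝔓, ∃ s : B, s ∉ 𝔓 ∧ π ∣ s * b) :
    (Ideal.span {π}).IsRadical := by
  classical
  intro b hb
  obtain ⟨n, hn⟩ := hb
  by_contra hbπ
  have hx : (Ideal.Quotient.mk (Ideal.span {π}) b) ≠ 0 := by
    rwa [Ne, Ideal.Quotient.eq_zero_iff_mem]
  obtain ⟨P, hPass, hle⟩ :=
    exists_le_isAssociatedPrime_of_isNoetherianRing B (M := B ⧸ Ideal.span {π}) _ hx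
  rw [isAssociatedPrime_iff] at hPass
  obtain ⟨hP, x, hPx⟩ := hPass
  obtain ⟨c, rfl⟩ := Ideal.Quotient.mk_surjective x
  have hPc : ∀ s : B, s ∈ P ↔ π ∣ s * c := by
    intro s
    rw [hPx, Submodule.mem_colon_singleton, Submodule.mem_bot]
    rw [← Ideal.mem_span_singleton, ← Ideal.Quotient.eq_zero_iff_mem, map_mul]
    rfl
  have hc : ¬ π ∣ c := by
    intro hd
    apply hP.ne_top
    rw [Ideal.eq_top_iff_one, hPc, one_mul]
    exact hd
  have hht : P.height = 1 := height_eq_one_of_eq_colon π c hπ hc P hP hPc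
  have hπP : π ∈ P := (hPc π).2 (Dvd.intro _ rfl)
  have hbP : b ∈ P := by
    have h1 : b ^ n ∈ P := by
      rw [Ideal.mem_span_singleton] at hn
      obtain ⟨d, hd⟩ := hn
      rw [hd]
      exact Ideal.mul_mem_right _ _ hπP
    exact hP.mem_of_pow_mem n h1
  obtain ⟨s, hsP, hs⟩ := h P hP hht hπP b hbP
  apply hsP
  apply hle
  rw [Submodule.mem_colon_singleton, Submodule.mem_bot]
  change Ideal.Quotient.mk (Ideal.span {π}) (s * b) = 0
  rw [Ideal.Quotient.eq_zero_iff_mem, Ideal.mem_span_singleton]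
  exact hs

end Radical

end Fermat.Agent.S18.H754

end

end
-- ===== PACK-END S18/H754/HncRadical.lean

-- ===== PACK-BEGIN S20/F_helper658.lean
section
/-
S20 / work package F (helper658): one modular form of level `Γ₀(N)` whose `SL(2,ℤ)`-conjugates
take pairwise distinct values at a common point.

`f0 N = Δ ∣[12] diag(N,1)` (i.e. `τ ↦ N¹¹ Δ(Nτ)`).  For `A ∈ SL(2,ℤ)` write
`diag(N,1) A = B U` with `B ∈ SL(2,ℤ)`, `U = [e b; 0 d]`, `e = gcd(N, A₁₀)`, `e d = N`.  Then
`f0 ∣ A = Δ ∣ U` decays at `i∞` exactly like `exp(-2π (N/d²) Im τ)`, so `f0 ∣ A = f0` forces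
`d = 1`, i.e. `A ∈ Γ₀(N)`.  Hence the conjugates are pairwise distinct holomorphic functions and
the product of their differences is a nonzero holomorphic function on `ℍ`.
-/



set_option autoImplicit false

open UpperHalfPlane ModularForm CongruenceSubgroup MatrixGroups
open Matrix.SpecialLinearGroup Filter Topology
open scoped Manifold

noncomputable section

namespace Fermat.Agent.S20.F658

/-- `diag(N, 1)` as an element of `GL(2, ℝ)`. -/
def gN (N : ℕ) [NeZero N] : GL (Fin 2) ℝ :=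
  Matrix.GeneralLinearGroup.mkOfDetNeZero !![(N : ℝ), 0; 0, 1]
    (by simpa [Matrix.det_fin_two] using NeZero.ne N)

lemma gN_val (N : ℕ) [NeZero N] : (gN N : Matrix (Fin 2) (Fin 2) ℝ) = !![(N : ℝ), 0; 0, 1] := rfl

lemma gN_det (N : ℕ) [NeZero N] : (gN N).det.val = N := by
  simp [gN, Matrix.det_fin_two]

/-- an element of `SL(2,ℤ)` from its entries -/
def mkSL2 (a b c d : ℤ) (h : a * d - b * c = 1) : SL(2, ℤ) :=
  ⟨!![a, b; c, d], by rw [Matrix.det_fin_two_of]; exact h⟩

lemma mkSL2_val (a b c d : ℤ) (h : a * d - b * c = 1) :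
    (mkSL2 a b c d h : Matrix (Fin 2) (Fin 2) ℤ) = !![a, b; c, d] := rfl

lemma SL2_det_eq (A : SL(2, ℤ)) : A 0 0 * A 1 1 - A 0 1 * A 1 0 = 1 := by
  have := A.det_coe
  rwa [Matrix.det_fin_two] at this

/-- for `A ∈ Γ₀(N)`, `diag(N,1) A = A' diag(N,1)` with `A' ∈ SL(2,ℤ)` -/
lemma gN_mul_Gamma0 (N : ℕ) [NeZero N] (A : SL(2, ℤ)) (hA : A ∈ Gamma0 N) :
    ∃ A' : SL(2, ℤ), gN N * mapGL ℝ A = mapGL ℝ A' * gN N := by
  rw [Gamma0_mem, ZMod.intCast_zmod_eq_zero_iff_dvd] at hA
  obtain ⟨c', hc'⟩ := hA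
  have hdet := SL2_det_eq A
  refine ⟨mkSL2 (A 0 0) (N * A 0 1) c' (A 1 1) ?_, ?_⟩
  · rw [hc'] at hdet
    linear_combination hdet
  · apply Matrix.GeneralLinearGroup.ext
    intro i j
    fin_cases i <;> fin_cases j <;>
      simp [Matrix.mul_apply, Fin.sum_univ_two, gN_val, mkSL2_val, hc', mul_comm]

open ConjAct Pointwise in
lemma Gamma0_le_conj (N : ℕ) [NeZero N] :
    (Gamma0 N : Subgroup (GL (Fin 2) ℝ)) ≤ toConjAct (gN N)⁻¹ • 𝒮ℒ := by
  rintro _ ⟨A, hA, rfl⟩
  rw [Subgroup.mem_pointwise_smul_iff_inv_smul_mem, ← map_inv, inv_inv, toConjAct_smul]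
  obtain ⟨A', hA'⟩ := gN_mul_Gamma0 N A hA
  exact ⟨A', by rw [hA', mul_inv_cancel_right]⟩

open ConjAct Pointwise in
/-- `f₀ = Δ ∣[12] diag(N,1)`, i.e. `τ ↦ N^11 Δ(N τ)`, as a modular form of level `Γ₀(N)`. -/
def f0 (N : ℕ) [NeZero N] : ModularForm (Gamma0 N : Subgroup (GL (Fin 2) ℝ)) 12 where
  toFun := (discriminant : ℍ → ℂ) ∣[(12 : ℤ)] gN N
  slash_action_eq' γ hγ :=
    (ModularForm.translate CuspForm.discriminant (gN N)).slash_action_eq' γ (Gamma0_le_conj N hγ)
  holo' := (ModularForm.translate CuspForm.discriminant (gN N)).holo'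
  bdd_at_cusps' hc :=
    (ModularForm.translate CuspForm.discriminant (gN N)).bdd_at_cusps'
      (hc.mono (Gamma0_le_conj N))

lemma coe_f0 (N : ℕ) [NeZero N] :
    (f0 N : ℍ → ℂ) = (discriminant : ℍ → ℂ) ∣[(12 : ℤ)] gN N := rfl

lemma hermite_aux (N p q r s e N' r' x y : ℤ) (hdet : p * s - q * r = 1) (hN' : N = e * N')
    (hr' : r = e * r') (hbez : e = N * x + r * y) (he0 : e ≠ 0) :
    N' * p * (x * s) - (-(y - N * x * q)) * r' = 1 ∧
    N * q = N' * p * ((x * s) * N * q + (y - N * x * q) * s) + (-(y - N * x * q)) * N' ∧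
    s = r' * ((x * s) * N * q + (y - N * x * q) * s) + (x * s) * N' := by
  have hbez' : N * p * (x * s) + (y - N * x * q) * r = e := by
    rw [hbez]; linear_combination (N * x) * hdet
  refine ⟨?_, ?_, ?_⟩
  · apply mul_left_cancel₀ he0
    linear_combination hbez' - (p * x * s) * hN' - (y - N * x * q) * hr'
  · have : p * ((x * s) * N * q + (y - N * x * q) * s) - (y - N * x * q) = q * e := by
      rw [← hbez']; linear_combination (y - N * x * q) * hdet
    linear_combination (-N') * this + q * hN'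
  · apply mul_left_cancel₀ he0
    have h1 : e * s = s * (N * p * (x * s) + (y - N * x * q) * r) := by rw [hbez']; ring
    linear_combination h1 + (x * s * N) * hdet
      + ((x * s) * N * q + (y - N * x * q) * s) * hr' + (x * s) * hN'

/-- Hermite-type decomposition: `diag(N,1) A = B U` with `B ∈ SL(2,ℤ)` and `U` upper triangular
with diagonal `(e, N/e)`, `e = gcd(N, A₁₀)`. -/
lemma exists_upper (N : ℕ) [NeZero N] (A : SL(2, ℤ)) :
    ∃ (B : SL(2, ℤ)) (U : GL (Fin 2) ℝ) (e d : ℕ), gN N * mapGL ℝ A = mapGL ℝ B * U ∧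
      U 1 0 = 0 ∧ U 1 1 = d ∧ U.det.val = N ∧ e * d = N ∧ e = Int.gcd N (A 1 0) := by
  have hN : (N : ℤ) ≠ 0 := Int.natCast_ne_zero.mpr (NeZero.ne N)
  have hdet : A 0 0 * A 1 1 - A 0 1 * A 1 0 = 1 := SL2_det_eq A
  obtain ⟨e, he⟩ : ∃ e : ℕ, e = Int.gcd N (A 1 0) := ⟨_, rfl⟩
  have he0 : (e : ℤ) ≠ 0 := by
    rw [he, Int.natCast_ne_zero]
    intro h
    rw [Int.gcd_eq_zero_iff] at h
    exact hN h.1
  obtain ⟨N', hN'⟩ : (e : ℤ) ∣ N := he ▸ Int.gcd_dvd_left _ _
  obtain ⟨r', hr'⟩ : (e : ℤ) ∣ A 1 0 := he ▸ Int.gcd_dvd_right _ _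
  have hbez : (e : ℤ) = N * Int.gcdA N (A 1 0) + A 1 0 * Int.gcdB N (A 1 0) :=
    he ▸ Int.gcd_eq_gcd_ab _ _
  obtain ⟨hB, h01, h11⟩ := hermite_aux N (A 0 0) (A 0 1) (A 1 0) (A 1 1) e N' r' _ _ hdet hN' hr'
    hbez he0
  have hN'pos : 0 < N' := by
    have h1 : (0 : ℤ) < N := by exact_mod_cast Nat.pos_of_ne_zero (NeZero.ne N)
    have h2 : (0 : ℤ) < e := by exact_mod_cast Nat.pos_of_ne_zero (by exact_mod_cast he0)
    rw [hN'] at h1
    by_contra h
    push Not at h
    nlinarith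
  obtain ⟨d, hd⟩ : ∃ d : ℕ, (d : ℤ) = N' := ⟨N'.toNat, Int.toNat_of_nonneg hN'pos.le⟩
  obtain ⟨x, hx⟩ : ∃ x : ℤ, x = Int.gcdA N (A 1 0) := ⟨_, rfl⟩
  obtain ⟨y, hy⟩ : ∃ y : ℤ, y = Int.gcdB N (A 1 0) := ⟨_, rfl⟩
  rw [← hx, ← hy] at hB h01 h11
  obtain ⟨u, hu⟩ : ∃ u : ℤ, u = x * A 1 1 := ⟨_, rfl⟩
  obtain ⟨v, hv⟩ : ∃ v : ℤ, v = y - N * x * A 0 1 := ⟨_, rfl⟩
  rw [← hu, ← hv] at hB h01 h11
  obtain ⟨b, hb⟩ : ∃ b : ℤ, b = u * N * A 0 1 + v * A 1 1 := ⟨_, rfl⟩
  rw [← hb] at h01 h11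
  have hed : e * d = N := by
    have : (e : ℤ) * d = N := by rw [hd, ← hN']
    exact_mod_cast this
  have hU : Matrix.det !![(e : ℝ), (b : ℝ); 0, (d : ℝ)] ≠ 0 := by
    rw [Matrix.det_fin_two_of]
    have : ((e : ℝ) * d) ≠ 0 := by
      have : ((e * d : ℕ) : ℝ) ≠ 0 := by rw [hed]; exact_mod_cast NeZero.ne N
      exact_mod_cast this
    simpa using this
  refine ⟨mkSL2 (N' * A 0 0) (-v) r' u hB, Matrix.GeneralLinearGroup.mkOfDetNeZero _ hU, e, d,
    ?_, rfl, rfl, ?_, hed, he⟩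
  · -- the matrix identity
    have h00 : (N : ℤ) * A 0 0 = N' * A 0 0 * e := by rw [hN']; ring
    have h01' : (N : ℤ) * A 0 1 = N' * A 0 0 * b + -(v * d) := by rw [h01, hd]; ring
    have h10 : A 1 0 = r' * e := by rw [hr']; ring
    have h11' : A 1 1 = r' * b + u * d := by rw [hd]; exact h11
    apply Matrix.GeneralLinearGroup.ext
    intro i j
    fin_cases i <;> fin_cases j <;>
      simp [Matrix.mul_apply, Fin.sum_univ_two, gN_val, mkSL2_val,
        Matrix.GeneralLinearGroup.mkOfDetNeZero]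
    · exact_mod_cast h00
    · exact_mod_cast h01'
    · exact_mod_cast h10
    · exact_mod_cast h11'
  · simp [Matrix.GeneralLinearGroup.mkOfDetNeZero, Matrix.det_fin_two_of]
    exact_mod_cast hed

/-- `‖Δ z‖ · exp(2π Im z) → 1` as `Im z → ∞`. -/
lemma tendsto_norm_discriminant_mul_exp :
    Tendsto (fun z : ℍ ↦ ‖discriminant z‖ * Real.exp (2 * Real.pi * z.im)) atImInfty (𝓝 1) := by
  have h := (tendsto_atImInfty_tprod_one_sub_eta_q_pow).norm
  rw [norm_one] at h
  refine h.congr fun z ↦ ?_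
  rw [discriminant_eq_q_prod, norm_mul]
  have hq_norm : ‖Function.Periodic.qParam 1 z‖ = Real.exp (-2 * Real.pi * z.im) := by
    simp [Function.Periodic.qParam, Complex.norm_exp]
  rw [hq_norm, mul_comm (Real.exp _), mul_assoc, ← Real.exp_add]
  simp

/-- decay rate of `Δ ∣ g` at `i∞` for upper triangular `g` -/
lemma tendsto_norm_slash_upper (g : GL (Fin 2) ℝ) (hg : g 1 0 = 0) :
    Tendsto (fun τ : ℍ ↦ ‖((discriminant : ℍ → ℂ) ∣[(12 : ℤ)] g) τ‖ *
        Real.exp (2 * Real.pi * (|g.det.val| / (g 1 1) ^ 2) * τ.im)) atImInfty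
      (𝓝 (|g.det.val| ^ 11 * (|g 1 1| ^ 12)⁻¹)) := by
  have h := (tendsto_norm_discriminant_mul_exp.comp (tendsto_smul_atImInfty hg)).mul_const
    (|g.det.val| ^ 11 * (|g 1 1| ^ 12)⁻¹)
  rw [one_mul] at h
  refine h.congr fun τ ↦ ?_
  have hden : denom g τ = ((g 1 1 : ℝ) : ℂ) := by simp [denom, hg]
  have him : (g • τ).im = |g.det.val| / (g 1 1) ^ 2 * τ.im := by
    rw [im_smul_eq_div_normSq, hden, Complex.normSq_ofReal]
    ring
  simp only [Function.comp_apply, slash_apply, norm_mul, norm_σ, norm_zpow, hden, him,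
    Complex.norm_real, Real.norm_eq_abs]
  rw [abs_abs, show ((12 : ℤ) - 1) = ((11 : ℕ) : ℤ) by norm_num, zpow_natCast,
    show (-12 : ℤ) = -((12 : ℕ) : ℤ) by norm_num, zpow_neg, zpow_natCast,
    show 2 * Real.pi * (|g.det.val| / (g 1 1) ^ 2 * τ.im)
      = 2 * Real.pi * (|g.det.val| / (g 1 1) ^ 2) * τ.im by ring]
  ring

/-- a function cannot decay at two different exponential rates -/
lemma rate_unique {f : ℍ → ℂ} {α β c c' : ℝ} (hc : c ≠ 0) (hc' : c' ≠ 0)
    (h : Tendsto (fun τ : ℍ ↦ ‖f τ‖ * Real.exp (2 * Real.pi * α * τ.im)) atImInfty (𝓝 c))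
    (h' : Tendsto (fun τ : ℍ ↦ ‖f τ‖ * Real.exp (2 * Real.pi * β * τ.im)) atImInfty (𝓝 c')) :
    α = β := by
  -- it suffices to prove `β ≤ α` for all such data, by symmetry
  suffices H : ∀ {α β c c' : ℝ}, c ≠ 0 → c' ≠ 0 →
      Tendsto (fun τ : ℍ ↦ ‖f τ‖ * Real.exp (2 * Real.pi * α * τ.im)) atImInfty (𝓝 c) →
      Tendsto (fun τ : ℍ ↦ ‖f τ‖ * Real.exp (2 * Real.pi * β * τ.im)) atImInfty (𝓝 c') →
      β ≤ α from le_antisymm (H hc' hc h' h) (H hc hc' h h')
  intro α β c c' hc hc' h h'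
  by_contra hlt
  push Not at hlt
  -- `exp (2π(β-α) Im τ) → ∞`
  have hexp : Tendsto (fun τ : ℍ ↦ Real.exp (2 * Real.pi * (β - α) * τ.im)) atImInfty atTop := by
    refine Real.tendsto_exp_atTop.comp ?_
    refine Tendsto.const_mul_atTop (by have := Real.pi_pos; nlinarith) ?_
    exact tendsto_comap
  -- hence `‖f τ‖ exp(2π β Im τ) = (‖f τ‖ exp(2π α Im τ)) * exp(2π(β-α) Im τ)` is unbounded
  have hprod : Tendsto (fun τ : ℍ ↦ |‖f τ‖ * Real.exp (2 * Real.pi * β * τ.im)|)
      atImInfty atTop := by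
    have h1 : Tendsto (fun τ : ℍ ↦ |‖f τ‖ * Real.exp (2 * Real.pi * α * τ.im)|) atImInfty
        (𝓝 |c|) := h.abs
    have h2 := Tendsto.pos_mul_atTop (abs_pos.mpr hc) h1 hexp
    refine h2.congr fun τ ↦ ?_
    rw [← abs_of_pos (Real.exp_pos (2 * Real.pi * (β - α) * τ.im)), ← abs_mul, mul_assoc,
      ← Real.exp_add]
    congr 3
    ring
  exact not_tendsto_nhds_of_tendsto_atTop hprod _ h'.abs


/-- the stabiliser of `Δ ∣ diag(N,1)` in `SL(2,ℤ)` is contained in `Γ₀(N)` -/
lemma mem_Gamma0_of_slash_eq (N : ℕ) [NeZero N] (A : SL(2, ℤ))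
    (h : ((discriminant : ℍ → ℂ) ∣[(12 : ℤ)] gN N) ∣[(12 : ℤ)] (mapGL ℝ A : GL (Fin 2) ℝ) =
      (discriminant : ℍ → ℂ) ∣[(12 : ℤ)] gN N) :
    A ∈ Gamma0 N := by
  obtain ⟨B, U, e, d, hBU, hU10, hU11, hUdet, hed, he⟩ := exists_upper N A
  have hΔB : (discriminant : ℍ → ℂ) ∣[(12 : ℤ)] (mapGL ℝ B : GL (Fin 2) ℝ) = discriminant :=
    CuspForm.discriminant.slash_action_eq' _ ⟨B, rfl⟩
  rw [← SlashAction.slash_mul, hBU, SlashAction.slash_mul, hΔB] at h
  have hN0 : (N : ℝ) ≠ 0 := by exact_mod_cast NeZero.ne N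
  have hNpos : (0 : ℝ) < N := by exact_mod_cast Nat.pos_of_ne_zero (NeZero.ne N)
  have hd0 : d ≠ 0 := by
    rintro rfl
    rw [mul_zero] at hed
    exact NeZero.ne N hed.symm
  have hdR : (d : ℝ) ≠ 0 := by exact_mod_cast hd0
  have h1 := tendsto_norm_slash_upper U hU10
  have h2 := tendsto_norm_slash_upper (gN N) (by simp [gN_val])
  rw [h] at h1
  have hg11 : (gN N) 1 1 = 1 := by simp [gN_val]
  rw [hU11, hUdet] at h1
  rw [hg11, gN_det] at h2
  have hrate := rate_unique (by positivity) (by positivity) h1 h2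
  -- `N / d^2 = N / 1`, so `d = 1`
  have hd1 : d = 1 := by
    have h3 : ((d : ℝ)) ^ 2 = 1 := by
      rw [abs_of_pos hNpos] at hrate
      field_simp at hrate
      nlinarith [hrate]
    have h4 : (d : ℝ) = 1 := by
      have hdpos : (0 : ℝ) ≤ d := Nat.cast_nonneg d
      nlinarith
    exact_mod_cast h4
  rw [hd1, mul_one] at hed
  rw [Gamma0_mem, ZMod.intCast_zmod_eq_zero_iff_dvd]
  have : (e : ℤ) ∣ A 1 0 := he ▸ Int.gcd_dvd_right _ _
  rwa [hed] at this


/-- the conjugates of `f0 N` are pairwise distinct functions -/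
lemma quotientFunc_f0_injective (N : ℕ) [NeZero N] :
    Function.Injective (fun q : 𝒮ℒ ⧸ (Gamma0 N : Subgroup (GL (Fin 2) ℝ)).subgroupOf 𝒮ℒ ↦
      SlashInvariantForm.quotientFunc (f0 N) q) := by
  intro q q' hqq'
  induction q using Quotient.inductionOn with
  | h h =>
  induction q' using Quotient.inductionOn with
  | h h' =>
  simp only [SlashInvariantForm.quotientFunc_mk] at hqq'
  -- `f₀ ∣ h⁻¹ = f₀ ∣ h'⁻¹`
  have key : ((f0 N : ℍ → ℂ) ∣[(12 : ℤ)] ((h : GL (Fin 2) ℝ)⁻¹ * (h' : GL (Fin 2) ℝ))) =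
      (f0 N : ℍ → ℂ) := by
    rw [SlashAction.slash_mul, hqq', ← SlashAction.slash_mul, inv_mul_cancel,
      SlashAction.slash_one]
  obtain ⟨A, hA⟩ : ((h : GL (Fin 2) ℝ)⁻¹ * (h' : GL (Fin 2) ℝ)) ∈ 𝒮ℒ :=
    mul_mem (inv_mem h.2) h'.2
  rw [← hA, coe_f0] at key
  have hmem := mem_Gamma0_of_slash_eq N A key
  refine Quotient.sound (QuotientGroup.leftRel_apply.mpr ?_)
  rw [Subgroup.mem_subgroupOf]
  exact ⟨A, hmem, by rw [hA]; simp⟩

end Fermat.Agent.S20.F658

namespace Fermat.Agent.S20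

open F658 in
/-- **WP F.** There is a weight 12 form of level `Γ₀(N)` and a point `z₀` at which its
`SL(2,ℤ)`-conjugates take pairwise distinct values. -/
theorem exists_form_distinct_conjugates (N : ℕ) [NeZero N] :
    ∃ (f₀ : ModularForm (Gamma0 N : Subgroup (GL (Fin 2) ℝ)) 12) (z₀ : ℍ),
      Function.Injective (fun q : 𝒮ℒ ⧸ (Gamma0 N : Subgroup (GL (Fin 2) ℝ)).subgroupOf 𝒮ℒ ↦
        SlashInvariantForm.quotientFunc f₀ q z₀) := by
  classical
  let 𝒬 := 𝒮ℒ ⧸ (Gamma0 N : Subgroup (GL (Fin 2) ℝ)).subgroupOf 𝒮ℒ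
  let _ : Fintype 𝒬 := Fintype.ofFinite 𝒬
  let F : 𝒬 → ℍ → ℂ := fun q ↦ SlashInvariantForm.quotientFunc (f0 N) q
  have hF : ∀ q, MDifferentiable 𝓘(ℂ) 𝓘(ℂ) (F q) :=
    Quotient.forall.mpr fun r ↦ (ModularForm.translate (f0 N) r.val⁻¹).holo'
  let s : Finset (𝒬 × 𝒬) := Finset.univ.filter fun p ↦ p.1 ≠ p.2
  have hne : ∏ p ∈ s, (F p.1 - F p.2) ≠ 0 := by
    intro h0
    rw [UpperHalfPlane.prod_eq_zero_iff (fun p _ ↦ (hF p.1).sub (hF p.2))] at h0
    obtain ⟨p, hp, hp0⟩ := h0
    exact (Finset.mem_filter.mp hp).2 (quotientFunc_f0_injective N (sub_eq_zero.mp hp0))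
  obtain ⟨z₀, hz₀⟩ := Function.ne_iff.mp hne
  refine ⟨f0 N, z₀, fun q q' hqq' ↦ ?_⟩
  by_contra hq
  apply hz₀
  rw [Finset.prod_apply, Pi.zero_apply]
  exact Finset.prod_eq_zero (i := (q, q')) (Finset.mem_filter.mpr ⟨Finset.mem_univ _, hq⟩)
    (by simpa [F, sub_eq_zero] using hqq')

end Fermat.Agent.S20

end
end
-- ===== PACK-END S20/F_helper658.lean

-- ===== PACK-BEGIN Lib/Haupt/Trunc.lean
section




/-!
# Truncated integer power series as lists (helper637)

A tiny verified computation model: the first `M` coefficients of a power series over `ℤ` as a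
`List ℤ`, with computable list operations mirroring `+`, `-`, `*`, scalar multiples and
`PowerSeries.expand`.  Everything reduces in the kernel, so equalities of truncations of explicit
series can be closed by `decide`.
-/

set_option autoImplicit false

namespace Fermat.Agent.Lib.Haupt

open PowerSeries

/-- The first `M` coefficients of a power series. -/
noncomputable def tr (M : ℕ) (f : PowerSeries ℤ) : List ℤ :=
  (List.range M).map fun i => coeff i f

/-- List of length `M` from a coefficient function. -/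
def ofFn (M : ℕ) (c : ℕ → ℤ) : List ℤ := (List.range M).map c

/-- Truncated product. -/
def lmul (M : ℕ) (a b : List ℤ) : List ℤ :=
  ofFn M fun n => ((List.range (n + 1)).map fun i => a.getD i 0 * b.getD (n - i) 0).sum

/-- Truncated sum. -/
def ladd (M : ℕ) (a b : List ℤ) : List ℤ := ofFn M fun n => a.getD n 0 + b.getD n 0

/-- Truncated difference. -/
def lsub (M : ℕ) (a b : List ℤ) : List ℤ := ofFn M fun n => a.getD n 0 - b.getD n 0

/-- Truncated scalar multiple. -/
def lsmul (M : ℕ) (c : ℤ) (a : List ℤ) : List ℤ := ofFn M fun n => c * a.getD n 0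

/-- Truncated `X ^ k * ·`. -/
def lshift (M k : ℕ) (a : List ℤ) : List ℤ :=
  ofFn M fun n => if k ≤ n then a.getD (n - k) 0 else 0

/-- Truncated `expand d`. -/
def lexpand (M d : ℕ) (a : List ℤ) : List ℤ :=
  ofFn M fun n => if d ∣ n then a.getD (n / d) 0 else 0

/-- The truncation of `1`. -/
def lone (M : ℕ) : List ℤ := ofFn M fun n => if n = 0 then 1 else 0

/-- Truncated power, by iterated multiplication. -/
def lpow (M : ℕ) (a : List ℤ) : ℕ → List ℤ
  | 0 => lone M
  | k + 1 => lmul M (lpow M a k) a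

theorem tr_eq_ofFn (M : ℕ) (f : PowerSeries ℤ) : tr M f = ofFn M fun i => coeff i f := rfl

theorem length_tr (M : ℕ) (f : PowerSeries ℤ) : (tr M f).length = M := by
  simp [tr]

theorem getD_tr {M : ℕ} (f : PowerSeries ℤ) {i : ℕ} (hi : i < M) :
    (tr M f).getD i 0 = coeff i f := by
  simp [tr, List.getD, hi]

theorem ofFn_congr {M : ℕ} {c c' : ℕ → ℤ} (h : ∀ n < M, c n = c' n) : ofFn M c = ofFn M c' := by
  unfold ofFn
  apply List.map_congr_left
  intro n hn
  exact h n (List.mem_range.mp hn)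

theorem coeff_eq_getD_tr {M : ℕ} (f : PowerSeries ℤ) {i : ℕ} (hi : i < M) :
    coeff i f = (tr M f).getD i 0 := (getD_tr f hi).symm

theorem sum_map_range (n : ℕ) (c : ℕ → ℤ) :
    ((List.range n).map c).sum = ∑ i ∈ Finset.range n, c i := rfl

theorem tr_mul (M : ℕ) (f g : PowerSeries ℤ) : tr M (f * g) = lmul M (tr M f) (tr M g) := by
  rw [tr_eq_ofFn]
  unfold lmul
  apply ofFn_congr
  intro n hn
  rw [coeff_mul, Finset.Nat.sum_antidiagonal_eq_sum_range_succ (fun i j => coeff i f * coeff j g),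
    sum_map_range]
  apply Finset.sum_congr rfl
  intro i hi
  have hi' : i < n + 1 := Finset.mem_range.mp hi
  rw [getD_tr f (by omega), getD_tr g (by omega)]

theorem tr_add (M : ℕ) (f g : PowerSeries ℤ) : tr M (f + g) = ladd M (tr M f) (tr M g) := by
  rw [tr_eq_ofFn]
  unfold ladd
  apply ofFn_congr
  intro n hn
  rw [map_add, getD_tr f hn, getD_tr g hn]

theorem tr_sub (M : ℕ) (f g : PowerSeries ℤ) : tr M (f - g) = lsub M (tr M f) (tr M g) := by
  rw [tr_eq_ofFn]
  unfold lsub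
  apply ofFn_congr
  intro n hn
  rw [map_sub, getD_tr f hn, getD_tr g hn]

theorem tr_C_mul (M : ℕ) (c : ℤ) (f : PowerSeries ℤ) :
    tr M (C c * f) = lsmul M c (tr M f) := by
  rw [tr_eq_ofFn]
  unfold lsmul
  apply ofFn_congr
  intro n hn
  rw [coeff_C_mul, getD_tr f hn]

theorem tr_X_pow_mul (M k : ℕ) (f : PowerSeries ℤ) :
    tr M (X ^ k * f) = lshift M k (tr M f) := by
  rw [tr_eq_ofFn]
  unfold lshift
  apply ofFn_congr
  intro n hn
  rw [coeff_X_pow_mul']
  split_ifs with h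
  · rw [getD_tr f (by omega)]
  · rfl

theorem tr_expand (M d : ℕ) (hd : d ≠ 0) (f : PowerSeries ℤ) :
    tr M (expand d hd f) = lexpand M d (tr M f) := by
  rw [tr_eq_ofFn]
  unfold lexpand
  apply ofFn_congr
  intro n hn
  rw [coeff_expand]
  split_ifs with h
  · rw [getD_tr f (lt_of_le_of_lt (Nat.div_le_self n d) hn)]
  · rfl

theorem tr_one (M : ℕ) : tr M (1 : PowerSeries ℤ) = lone M := by
  rw [tr_eq_ofFn]
  unfold lone
  apply ofFn_congr
  intro n _
  rw [coeff_one]

/-- The truncation of a constant. -/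
def lC (M : ℕ) (c : ℤ) : List ℤ := ofFn M fun n => if n = 0 then c else 0

theorem tr_C (M : ℕ) (c : ℤ) : tr M (C c : PowerSeries ℤ) = lC M c := by
  rw [tr_eq_ofFn]
  unfold lC
  apply ofFn_congr
  intro n _
  rw [coeff_C]

theorem tr_pow (M : ℕ) (f : PowerSeries ℤ) (k : ℕ) : tr M (f ^ k) = lpow M (tr M f) k := by
  induction k with
  | zero => rw [pow_zero, tr_one]; rfl
  | succ k ih => rw [pow_succ, tr_mul, ih]; rfl

/-- Two power series with the same truncation agree in degrees `< M`. -/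
theorem coeff_eq_of_tr_eq {M : ℕ} {f g : PowerSeries ℤ} (h : tr M f = tr M g) {n : ℕ}
    (hn : n < M) : coeff n f = coeff n g := by
  rw [coeff_eq_getD_tr f hn, coeff_eq_getD_tr g hn, h]

/-- A power series whose truncation is zero has vanishing coefficients in degrees `< M`. -/
theorem coeff_eq_zero_of_tr_eq {M : ℕ} {f : PowerSeries ℤ}
    (h : tr M f = List.replicate M 0) {n : ℕ} (hn : n < M) : coeff n f = 0 := by
  rw [coeff_eq_getD_tr f hn, h]
  simp [List.getD, hn]

end Fermat.Agent.Lib.Haupt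

end
-- ===== PACK-END Lib/Haupt/Trunc.lean

-- ===== PACK-BEGIN Lib/ValConj/Basic.lean
section
/-
Shared library **ValConj** (helper168).  Mathlib only.

Conjugacy of the extensions of a valuation ring in a finite Galois-type situation:

  `L` a field, `G` a finite group acting on `L` by ring automorphisms, `V V' : ValuationSubring L`
  with the same `G`-fixed elements  ⟹  `∃ g : G, g • V = V'`.

(Used for decomposition-group arguments: Igusa for `Γ₁` (row S48, node IGUSA1 (b)), sheets of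
split covers (cell A2), uniqueness of Gauss valuations.)

This file: the fixed part `W = V ∩ L^G`, the integral closure `C` of `W` in `L`, its `G`-action,
`Algebra.IsInvariant W C G`, and the "denominator trick" (`exists_mul_eq_of_mem`):
every `x ∈ V` is `z / y` with `y, z ∈ C`, `y` a unit of `V`.
-/






set_option autoImplicit false

open scoped Pointwise

namespace Fermat.Agent.Lib.ValConj

variable {L : Type*} [Field L] (G : Type*) [Group G] [MulSemiringAction G L]

/-- `W = V ∩ L^G` as a subring of `L`. -/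
def fixedPart (V : ValuationSubring L) : Subring L :=
  V.toSubring ⊓ (FixedPoints.subfield G L).toSubring

variable {G}

theorem mem_fixedPart {V : ValuationSubring L} {x : L} :
    x ∈ fixedPart G V ↔ x ∈ V ∧ ∀ g : G, g • x = x := by
  unfold fixedPart
  rw [Subring.mem_inf]
  exact Iff.rfl

theorem fixedPart_le (V : ValuationSubring L) : fixedPart G V ≤ V.toSubring := inf_le_left

theorem smul_eq_of_mem_fixedPart {V : ValuationSubring L} {x : L} (hx : x ∈ fixedPart G V)
    (g : G) : g • x = x := (mem_fixedPart.1 hx).2 g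

variable (G)

/-- The integral closure of `W = V ∩ L^G` in `L`, as a subring of `L`. -/
def intClosure (V : ValuationSubring L) : Subring L :=
  (integralClosure (fixedPart G V) L).toSubring

variable {G}

theorem mem_intClosure {V : ValuationSubring L} {x : L} :
    x ∈ intClosure G V ↔ IsIntegral (fixedPart G V) x := Iff.rfl

/-- `C` is the intersection of the valuation subrings containing `W`. -/
theorem mem_intClosure_iff_forall {V : ValuationSubring L} {x : L} :
    x ∈ intClosure G V ↔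
      ∀ U : ValuationSubring L, fixedPart G V ≤ U.toSubring → x ∈ U := by
  have h := iInf_valuationSubring_superset (K := L) (s := (fixedPart G V : Set L))
  have hcl : Subring.closure (fixedPart G V : Set L) = fixedPart G V := Subring.closure_eq _
  constructor
  · intro hx U hU
    have hx' : x ∈ (integralClosure (Subring.closure (fixedPart G V : Set L)) L).toSubring := by
      rw [mem_intClosure] at hx
      obtain ⟨p, hp, hpx⟩ := hx
      refine ⟨p.map (Subring.inclusion (le_of_eq hcl.symm)), hp.map _, ?_⟩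
      rw [← hpx, Polynomial.eval₂_map]
      rfl
    rw [← h] at hx'
    have := (Subring.mem_iInf.1 hx') ⟨U, fun y hy => hU hy⟩
    exact this
  · intro hx
    have hx' : x ∈ (⨅ U : {U : ValuationSubring L // (fixedPart G V : Set L) ⊆ U.toSubring},
        U.1.toSubring) := Subring.mem_iInf.2 fun U => hx U.1 (fun y hy => U.2 hy)
    rw [h] at hx'
    obtain ⟨p, hp, hpx⟩ := hx'
    rw [mem_intClosure]
    refine ⟨p.map (Subring.inclusion (le_of_eq hcl)), hp.map _, ?_⟩
    rw [← hpx, Polynomial.eval₂_map]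
    rfl

theorem fixedPart_le_intClosure (V : ValuationSubring L) : fixedPart G V ≤ intClosure G V := by
  intro x hx
  rw [mem_intClosure_iff_forall]
  exact fun U hU => hU hx

theorem intClosure_le (V : ValuationSubring L) : intClosure G V ≤ V.toSubring := by
  intro x hx
  exact (mem_intClosure_iff_forall.1 hx) V (fixedPart_le V)

/-- `C` is `G`-stable. -/
theorem smul_mem_intClosure {V : ValuationSubring L} (g : G) {x : L} (hx : x ∈ intClosure G V) :
    g • x ∈ intClosure G V := by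
  rw [mem_intClosure] at hx ⊢
  obtain ⟨p, hp, hpx⟩ := hx
  refine ⟨p, hp, ?_⟩
  have h1 : (MulSemiringAction.toRingHom G L g).comp (algebraMap (fixedPart G V) L)
      = algebraMap (fixedPart G V) L := by
    ext w
    exact smul_eq_of_mem_fixedPart w.2 g
  have h2 := congrArg (MulSemiringAction.toRingHom G L g) hpx
  rw [map_zero, Polynomial.hom_eval₂, h1] at h2
  exact h2

instance isInvariantSubring_intClosure (V : ValuationSubring L) :
    IsInvariantSubring G (intClosure G V) :=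
  ⟨fun g _ hx => smul_mem_intClosure g hx⟩

end Fermat.Agent.Lib.ValConj

end
-- ===== PACK-END Lib/ValConj/Basic.lean

-- ===== PACK-BEGIN S48/H248/DegGroup.lean
section


/-!
# S48 / Tower A1 / A1-RED leaf DEG (helper248), part 1: group theory (Mathlib only)

* `card_SL2_field`   : `|SL₂(F)| = q (q² - 1)` for a finite field `F` with `q` elements;
* `relIndex_Gamma1_mul_dvd` : for a prime `a ∤ M`, `[Γ₁(M) : Γ₁(M a)] ∣ a² - 1`
  (reduction mod `a`: the image of `Γ₁(M)` in `SL₂(𝔽_a)` contains the upper unitriangular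
  group `U`, `Γ₁(M a) = Γ₁(M) ∩ (preimage of U)`, Lagrange);
* `relIndex_dvd_of_central` : if `Z ≤ P'` is a normal subgroup with `P ≤ G ⊔ Z`-type
  domination (`map π P ≤ map π G`) and `G' ≤ P'`, then `[P : P'] ∣ [G : G']`.
-/

set_option autoImplicit false
set_option linter.unusedSectionVars false
set_option linter.style.haveILetI false

open Matrix CongruenceSubgroup
open scoped MatrixGroups

namespace Fermat.Agent.S48.H248

/-! ### The order of `SL₂` of a finite field -/

section CardSL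

variable (F : Type*) [Field F] [Fintype F]

theorem card_GL2_field : Nat.card (GL (Fin 2) F)
    = (Fintype.card F ^ 2 - 1) * (Fintype.card F ^ 2 - Fintype.card F) := by
  rw [Matrix.card_GL_field, Fin.prod_univ_two]
  simp

theorem card_SL2_mul : Nat.card (SL(2, F)) * Nat.card Fˣ = Nat.card (GL (Fin 2) F) := by
  classical
  have h1 : (Matrix.GeneralLinearGroup.det : GL (Fin 2) F →* Fˣ).ker.index = Nat.card Fˣ := by
    rw [Subgroup.index_ker]
    have : (Matrix.GeneralLinearGroup.det : GL (Fin 2) F →* Fˣ).range = ⊤ :=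
      MonoidHom.range_eq_top.mpr Matrix.GeneralLinearGroup.det_surjective
    rw [this]
    exact Nat.card_congr (Subgroup.topEquiv (G := Fˣ)).toEquiv
  have h2 : Nat.card (Matrix.GeneralLinearGroup.det : GL (Fin 2) F →* Fˣ).ker
      = Nat.card (SL(2, F)) := by
    symm
    refine Nat.card_congr (Equiv.ofBijective
      (fun g : SL(2, F) => (⟨Matrix.SpecialLinearGroup.toGL g, ?_⟩ :
        (Matrix.GeneralLinearGroup.det : GL (Fin 2) F →* Fˣ).ker)) ⟨?_, ?_⟩)
    · rw [MonoidHom.mem_ker]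
      ext
      simp
    · intro g g' h
      have h' := congrArg (fun x : (Matrix.GeneralLinearGroup.det : GL (Fin 2) F →* Fˣ).ker =>
        ((x : GL (Fin 2) F) : Matrix (Fin 2) (Fin 2) F)) h
      exact Subtype.ext h'
    · rintro ⟨g, hg⟩
      rw [MonoidHom.mem_ker] at hg
      have hdet : (g : Matrix (Fin 2) (Fin 2) F).det = 1 := by
        have := congrArg (fun u : Fˣ => (u : F)) hg
        simpa using this
      refine ⟨⟨(g : Matrix (Fin 2) (Fin 2) F), hdet⟩, ?_⟩
      apply Subtype.ext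
      ext i j
      rfl
  rw [← h2, ← h1]
  exact Subgroup.card_mul_index _

theorem card_SL2_field : Nat.card (SL(2, F)) = Fintype.card F * (Fintype.card F ^ 2 - 1) := by
  have hq : 2 ≤ Fintype.card F := Fintype.one_lt_card
  have h := card_SL2_mul F
  rw [card_GL2_field, Nat.card_units, Nat.card_eq_fintype_card (α := F)] at h
  generalize Fintype.card F = q at hq h ⊢
  have hq1 : 0 < q - 1 := by omega
  have e : q ^ 2 - q = q * (q - 1) := by
    rw [Nat.mul_sub, mul_one, sq]
  rw [e] at h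
  have h3 : Nat.card (SL(2, F)) * (q - 1) = (q * (q ^ 2 - 1)) * (q - 1) := by
    rw [h]; ring
  exact Nat.eq_of_mul_eq_mul_right hq1 h3

end CardSL

/-! ### The upper unitriangular subgroup -/

section Upper

variable (R : Type*) [CommRing R]

/-- The upper unitriangular subgroup of `SL₂(R)`. -/
def upperU : Subgroup SL(2, R) where
  carrier := {g | g 0 0 = 1 ∧ g 1 1 = 1 ∧ g 1 0 = 0}
  one_mem' := by simp
  mul_mem' := by
    rintro g h ⟨g00, g11, g10⟩ ⟨h00, h11, h10⟩
    have e := Matrix.two_mul_expl g.1 h.1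
    refine ⟨?_, ?_, ?_⟩
    · show (g * h).1 0 0 = 1
      rw [Matrix.SpecialLinearGroup.coe_mul, e.1]
      show g 0 0 * h 0 0 + g 0 1 * h 1 0 = 1
      rw [g00, h00, h10]; ring
    · show (g * h).1 1 1 = 1
      rw [Matrix.SpecialLinearGroup.coe_mul, e.2.2.2]
      show g 1 0 * h 0 1 + g 1 1 * h 1 1 = 1
      rw [g10, g11, h11]; ring
    · show (g * h).1 1 0 = 0
      rw [Matrix.SpecialLinearGroup.coe_mul, e.2.2.1]
      show g 1 0 * h 0 0 + g 1 1 * h 1 0 = 0
      rw [g10, h10]; ring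
  inv_mem' := by
    rintro g ⟨g00, g11, g10⟩
    rw [Set.mem_ofPred_eq, Matrix.SpecialLinearGroup.SL2_inv_expl]
    refine ⟨?_, ?_, ?_⟩
    · simpa using g11
    · simpa using g00
    · simpa using g10

variable {R}

theorem mem_upperU {g : SL(2, R)} : g ∈ upperU R ↔ g 0 0 = 1 ∧ g 1 1 = 1 ∧ g 1 0 = 0 := Iff.rfl

/-- The element `[[1, b], [0, 1]]`. -/
def upperElt (b : R) : SL(2, R) :=
  ⟨!![1, b; 0, 1], by simp [Matrix.det_fin_two]⟩

theorem upperElt_mem (b : R) : upperElt b ∈ upperU R := by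
  refine ⟨?_, ?_, ?_⟩ <;> simp [upperElt]

theorem eq_upperElt_of_mem {g : SL(2, R)} (hg : g ∈ upperU R) : g = upperElt (g 0 1) := by
  obtain ⟨h00, h11, h10⟩ := hg
  ext i j
  fin_cases i <;> fin_cases j
  · simpa [upperElt] using h00
  · simp [upperElt]
  · simpa [upperElt] using h10
  · simpa [upperElt] using h11

theorem card_upperU (R : Type*) [CommRing R] : Nat.card (upperU R) = Nat.card R := by
  refine Nat.card_congr (Equiv.ofBijective (fun g : upperU R => (g : SL(2, R)) 0 1) ⟨?_, ?_⟩)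
  · rintro ⟨g, hg⟩ ⟨h, hh⟩ hgh
    apply Subtype.ext
    show g = h
    rw [eq_upperElt_of_mem hg, eq_upperElt_of_mem hh]
    exact congrArg upperElt hgh
  · intro b
    exact ⟨⟨upperElt b, upperElt_mem b⟩, by simp [upperElt]⟩

end Upper

/-! ### `[Γ₁(M) : Γ₁(M a)]` divides `a² - 1` -/

section Gamma1Index

/-- Reduction modulo `a`. -/
def redMod (a : ℕ) : SL(2, ℤ) →* SL(2, ZMod a) :=
  Matrix.SpecialLinearGroup.map (Int.castRingHom (ZMod a))

@[simp]
theorem redMod_apply (a : ℕ) (g : SL(2, ℤ)) (i j : Fin 2) :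
    redMod a g i j = ((g i j : ℤ) : ZMod a) := rfl

theorem intCast_mul_eq_iff {M a : ℕ} (h : Nat.Coprime M a) (x y : ℤ) :
    ((x : ZMod (M * a)) = (y : ZMod (M * a))) ↔
      ((x : ZMod M) = (y : ZMod M)) ∧ ((x : ZMod a) = (y : ZMod a)) := by
  rw [ZMod.intCast_eq_intCast_iff_dvd_sub, ZMod.intCast_eq_intCast_iff_dvd_sub,
    ZMod.intCast_eq_intCast_iff_dvd_sub]
  constructor
  · intro hd
    push_cast at hd
    exact ⟨(dvd_mul_right _ _).trans hd, (dvd_mul_left _ _).trans hd⟩
  · rintro ⟨h1, h2⟩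
    push_cast
    have hc : IsCoprime (M : ℤ) (a : ℤ) := Nat.isCoprime_iff_coprime.mpr h
    exact hc.mul_dvd h1 h2

theorem Gamma1_mul_eq {M a : ℕ} (h : Nat.Coprime M a) :
    Gamma1 (M * a) = (upperU (ZMod a)).comap (redMod a) ⊓ Gamma1 M := by
  ext g
  rw [Subgroup.mem_inf, Subgroup.mem_comap, mem_upperU, Gamma1_mem, Gamma1_mem]
  simp only [redMod_apply]
  have e1 := intCast_mul_eq_iff h (g 0 0) 1
  have e2 := intCast_mul_eq_iff h (g 1 1) 1
  have e3 := intCast_mul_eq_iff h (g 1 0) 0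
  simp only [Int.cast_one, Int.cast_zero] at e1 e2 e3
  rw [e1, e2, e3]
  tauto

theorem T_zpow_mem_Gamma1 (M : ℕ) (n : ℤ) : ModularGroup.T ^ n ∈ Gamma1 M := by
  rw [Gamma1_mem]
  simp [ModularGroup.coe_T_zpow]

theorem redMod_T_zpow (a : ℕ) (n : ℤ) : redMod a (ModularGroup.T ^ n) = upperElt (n : ZMod a) := by
  ext i j
  rw [redMod_apply, ModularGroup.coe_T_zpow]
  fin_cases i <;> fin_cases j <;> simp [upperElt]

theorem upperU_le_map (M a : ℕ) : upperU (ZMod a) ≤ (Gamma1 M).map (redMod a) := by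
  intro u hu
  rw [eq_upperElt_of_mem hu]
  refine ⟨ModularGroup.T ^ ((u 0 1).cast : ℤ), T_zpow_mem_Gamma1 M _, ?_⟩
  rw [redMod_T_zpow, ZMod.intCast_zmod_cast]

/-- **`[Γ₁(M) : Γ₁(M a)]` divides `a² - 1`** for a prime `a ∤ M`. -/
theorem relIndex_Gamma1_mul_dvd {M a : ℕ} (ha : a.Prime) (haM : ¬ a ∣ M) :
    (Gamma1 (M * a)).relIndex (Gamma1 M) ∣ a ^ 2 - 1 := by
  haveI : Fact a.Prime := ⟨ha⟩
  haveI : NeZero a := ⟨ha.ne_zero⟩
  have hcop : Nat.Coprime M a := ((Nat.Prime.coprime_iff_not_dvd ha).mpr haM).symm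
  rw [Gamma1_mul_eq hcop, Subgroup.inf_relIndex_right, Subgroup.relIndex_comap]
  set H := (Gamma1 M).map (redMod a) with hH
  have hUH : upperU (ZMod a) ≤ H := upperU_le_map M a
  have h1 := Subgroup.relIndex_mul_relIndex (⊥ : Subgroup SL(2, ZMod a)) (upperU (ZMod a)) H
    bot_le hUH
  rw [Subgroup.relIndex_bot_left, Subgroup.relIndex_bot_left, card_upperU,
    Nat.card_eq_fintype_card, ZMod.card] at h1
  have h2 : Nat.card H ∣ a * (a ^ 2 - 1) := by
    have := Subgroup.card_subgroup_dvd_card H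
    rwa [card_SL2_field, ZMod.card] at this
  rw [← h1] at h2
  exact Nat.dvd_of_mul_dvd_mul_left ha.pos h2

end Gamma1Index

/-! ### Passing to `±Γ₁` -/

section Central

variable {G : Type*} [Group G]

/-- If `Z ≤ P'` is normal, `G₁' ≤ P'`, `G₁ ≤ P` and every element of `P` is in `G₁` up to `Z`,
then `[P : P ∩ P']` divides `[G₁ : G₁ ∩ G₁']`. -/
theorem relIndex_dvd_of_normal (Z : Subgroup G) [Z.Normal] {G₁ G₁' P P' : Subgroup G}
    (hZ : Z ≤ P') (hG' : G₁' ≤ P') (hGP : G₁ ≤ P) (hP : ∀ g ∈ P, ∃ z ∈ Z, g * z ∈ G₁) :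
    P'.relIndex P ∣ G₁'.relIndex G₁ := by
  have hker : (QuotientGroup.mk' Z).ker ≤ P' := by
    rw [QuotientGroup.ker_mk']; exact hZ
  have hmap : P.map (QuotientGroup.mk' Z) = G₁.map (QuotientGroup.mk' Z) := by
    apply le_antisymm
    · rintro _ ⟨g, hg, rfl⟩
      obtain ⟨z, hz, hgz⟩ := hP g hg
      refine ⟨g * z, hgz, ?_⟩
      rw [map_mul]
      have : QuotientGroup.mk' Z z = 1 := (QuotientGroup.eq_one_iff z).mpr hz
      rw [this, mul_one]
    · exact Subgroup.map_mono hGP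
  have e1 : P'.relIndex P = (P'.map (QuotientGroup.mk' Z)).relIndex
      (P.map (QuotientGroup.mk' Z)) := by
    rw [← Subgroup.relIndex_comap, Subgroup.comap_map_eq_self hker]
  have e2 : P'.relIndex G₁ = (P'.map (QuotientGroup.mk' Z)).relIndex
      (G₁.map (QuotientGroup.mk' Z)) := by
    rw [← Subgroup.relIndex_comap, Subgroup.comap_map_eq_self hker]
  rw [e1, hmap, ← e2]
  exact Subgroup.relIndex_dvd_of_le_left G₁ hG'

end Central

end Fermat.Agent.S48.H248

end
-- ===== PACK-END S48/H248/DegGroup.lean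

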