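import Mathlib
import Fermat.Prelude.Def_EllipticCurve_FrobeniusTrace
import Mathlib.GroupTheory.SpecificGroups.Cyclic
import Mathlib.Algebra.BigOperators.Group.Finset.Basic
import Mathlib.Data.Real.Basic
import Mathlib.Order.Filter.Basic
import Mathlib.Tactic
import Fermat.Prelude.Def_CuspForm_IntegralStructure
import Mathlib.NumberTheory.ModularForms.NormTrace
import Mathlib.NumberTheory.ModularForms.EisensteinSeries.QExpansion
import Mathlib.NumberTheory.ModularForms.LevelOne.DimensionFormula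
import Fermat.Prelude.Def_ModularForm_HeckeOperator
import Fermat.Prelude.Thm_CongruenceSubgroup_one_mem_strictPeriods_Gamma0
import Fermat.Prelude.Thm_ModularForm_sturm_bound_Gamma0
import Mathlib.NumberTheory.ModularForms.CongruenceSubgroups
import Mathlib.RingTheory.Polynomial.Vieta
import Fermat.Prelude.Def_GaloisRep_Residual
import Fermat.Prelude.Def_ModularCurve_HeckeModule
import Mathlib.NumberTheory.ModularForms.Basic
import Mathlib.NumberTheory.ModularForms.Cusps
import Mathlib.NumberTheory.ModularForms.BoundedAtCusp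
import Fermat.Prelude.Def_AlgebraicCurve_Correspondence
import Mathlib.NumberTheory.ModularForms.QExpansion
import Mathlib.RingTheory.LaurentSeries
import Fermat.Prelude.Def_AlgebraicCurve_DivisorClassGroup
import Fermat.Prelude.Def_ModularCurve_X0
import Fermat.Prelude.Def_ModularCurve_LaurentCoeff
import Fermat.Prelude.Def_AlgebraicCurve_Repartitions
import Fermat.Prelude.Def_ModularCurve_IgusaScheme
import Fermat.Prelude.Def_ModularCurve_X0ModL
import Mathlib.LinearAlgebra.Matrix.SpecialLinearGroup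
import Mathlib.GroupTheory.GroupAction.Quotient
import Mathlib.Data.ZMod.Basic
import Fermat.Prelude.Def_ModularCurve_GenusNumerics
import Mathlib.NumberTheory.ModularForms.LevelOne.GradedRing
import Mathlib.Analysis.Complex.LocallyUniformLimit
import Mathlib.Data.ZMod.QuotientGroup
import Mathlib.GroupTheory.GroupAction.FixedPoints
import Mathlib.Dynamics.PeriodicPts.Defs
import Mathlib.SetTheory.Cardinal.Finite
import Mathlib.Tactic.Ring
import Mathlib.Data.Nat.Prime.Basic

-- ===== PACK-BEGIN S48/H648/DirichletBound.lean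
section
/-
S48 (Deligne–Serre), piece (P4) "elementary Rankin bound", part 2 (helper648).

Pure real analysis on nonnegative sequences `b : ℕ → ℝ` with `∑_{n ≤ x} b n ≤ C x^κ`:
* `sum_mul_rpow_neg_le` : every finite partial sum of `∑ b n n^{-σ}` is `≤ 2^(κ+1) C / (σ - κ)`
  for `κ < σ ≤ κ + 1` (dyadic decomposition; no integrals, no `tsum`);
* `prod_one_add_le` : Euler product inequality for sequences multiplicative on squarefree
  products of primes from a set `S`;
* `sum_primes_le_log` / `sum_primes_ge_le_log` : `∑_{p ∈ P} b p p^{-σ} ≤ log (1/(σ-1)) + O(1)` on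
  sets of primes where `b` is bounded, and `c ∑_{p ∈ P, b p ≥ c} p^{-σ} ≤ log (1/(σ-1)) + O(1)`.
Mathlib only.
-/


set_option autoImplicit false

open Finset

noncomputable section

namespace Fermat.Agent.S48.H648

/-- `1 - 2^(-δ) ≥ δ/2` for `0 ≤ δ ≤ 1`. -/
lemma one_sub_two_rpow_neg_ge {δ : ℝ} (h0 : 0 ≤ δ) (h1 : δ ≤ 1) :
    δ / 2 ≤ 1 - (2:ℝ) ^ (-δ) := by
  have h := Real.geom_mean_le_arith_mean2_weighted (w₁ := 1 - δ) (w₂ := δ) (p₁ := 1)
    (p₂ := 1 / 2) (by linarith) h0 (by norm_num) (by norm_num) (by ring)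
  rw [Real.one_rpow, one_mul] at h
  have h2 : ((1:ℝ) / 2) ^ δ = (2:ℝ) ^ (-δ) := by
    rw [Real.rpow_neg (by norm_num), one_div, Real.inv_rpow (by norm_num)]
  rw [h2] at h
  linarith

/-- Dyadic bound: finite partial sums of the Dirichlet series of a nonnegative sequence with
`∑_{n ≤ x} b n ≤ C x^κ`. -/
theorem sum_mul_rpow_neg_le {b : ℕ → ℝ} (hb : ∀ n, 0 ≤ b n) {C κ : ℝ} (hC : 0 ≤ C) (hκ : 0 ≤ κ)
    (hsum : ∀ x : ℕ, 1 ≤ x → ∑ n ∈ range (x + 1), b n ≤ C * (x : ℝ) ^ κ)
    {σ : ℝ} (hσ : κ < σ) (hσ' : σ ≤ κ + 1) (s : Finset ℕ) (hs : ∀ n ∈ s, 1 ≤ n) :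
    ∑ n ∈ s, b n * (n : ℝ) ^ (-σ) ≤ 2 ^ (κ + 1) * C / (σ - κ) := by
  classical
  set δ := σ - κ with hδ
  have hδ0 : 0 < δ := by linarith
  have hδ1 : δ ≤ 1 := by linarith
  have hσ0 : 0 < σ := lt_of_le_of_lt hκ hσ
  set r : ℝ := (2:ℝ) ^ (-δ) with hr
  have hr0 : 0 < r := by positivity
  have hr1 : r < 1 := by
    rw [hr]; exact Real.rpow_lt_one_of_one_lt_of_neg (by norm_num) (by linarith)
  -- the index of the dyadic block
  let J : ℕ := (s.sup id) + 1
  have hmaps : ∀ n ∈ s, Nat.log 2 n ∈ range J := by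
    intro n hn
    rw [mem_range]
    have h1 : Nat.log 2 n ≤ n := Nat.log_le_self 2 n
    have h2 : n ≤ s.sup id := Finset.le_sup (f := id) hn
    omega
  rw [← Finset.sum_fiberwise_of_maps_to hmaps]
  have hblock : ∀ j ∈ range J, ∑ n ∈ s with Nat.log 2 n = j, b n * (n : ℝ) ^ (-σ) ≤
      C * 2 ^ κ * r ^ j := by
    intro j _
    have h1 : ∀ n ∈ s.filter (fun n => Nat.log 2 n = j),
        b n * (n : ℝ) ^ (-σ) ≤ b n * ((2:ℝ) ^ j) ^ (-σ) := by
      intro n hn
      rw [mem_filter] at hn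
      have hn1 : 1 ≤ n := hs n hn.1
      have h2 : 2 ^ j ≤ n := by
        rw [← hn.2]; exact Nat.pow_log_le_self 2 (by omega)
      have h3 : ((2:ℝ) ^ j) ≤ (n : ℝ) := by exact_mod_cast h2
      have h4 : (n : ℝ) ^ (-σ) ≤ ((2:ℝ) ^ j) ^ (-σ) :=
        Real.rpow_le_rpow_of_nonpos (by positivity) h3 (by linarith)
      exact mul_le_mul_of_nonneg_left h4 (hb n)
    have h5 : ∑ n ∈ s.filter (fun n => Nat.log 2 n = j), b n ≤
        ∑ n ∈ range (2 ^ (j + 1) + 1), b n := by
      refine Finset.sum_le_sum_of_subset_of_nonneg ?_ fun n _ _ => hb n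
      intro n hn
      rw [mem_filter] at hn
      rw [mem_range]
      have : n < 2 ^ (Nat.log 2 n + 1) := Nat.lt_pow_succ_log_self (by norm_num) n
      rw [hn.2] at this
      omega
    have h6 := hsum (2 ^ (j + 1)) Nat.one_le_two_pow
    calc ∑ n ∈ s with Nat.log 2 n = j, b n * (n : ℝ) ^ (-σ)
        ≤ ∑ n ∈ s with Nat.log 2 n = j, b n * ((2:ℝ) ^ j) ^ (-σ) := Finset.sum_le_sum h1
      _ = (∑ n ∈ s with Nat.log 2 n = j, b n) * ((2:ℝ) ^ j) ^ (-σ) := by rw [Finset.sum_mul]
      _ ≤ (C * ((2 ^ (j + 1) : ℕ) : ℝ) ^ κ) * ((2:ℝ) ^ j) ^ (-σ) := by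
          gcongr
          exact h5.trans h6
      _ = C * 2 ^ κ * r ^ j := by
          have e1 : (((2 ^ (j + 1) : ℕ) : ℝ)) ^ κ = (2:ℝ) ^ κ * ((2:ℝ) ^ κ) ^ j := by
            push_cast
            rw [pow_succ, Real.mul_rpow (by positivity) (by norm_num), mul_comm,
              ← Real.rpow_natCast, ← Real.rpow_natCast, ← Real.rpow_mul (by norm_num),
              ← Real.rpow_mul (by norm_num), mul_comm κ]
          have e2 : ((2:ℝ) ^ j) ^ (-σ) = ((2:ℝ) ^ (-σ)) ^ j := by
            rw [← Real.rpow_natCast, ← Real.rpow_natCast, ← Real.rpow_mul (by norm_num),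
              ← Real.rpow_mul (by norm_num), mul_comm]
          have e3 : (2:ℝ) ^ κ * (2:ℝ) ^ (-σ) = r := by
            rw [hr, ← Real.rpow_add (by norm_num)]
            congr 1
            rw [hδ]; ring
          rw [e1, e2]
          calc C * ((2:ℝ) ^ κ * ((2:ℝ) ^ κ) ^ j) * ((2:ℝ) ^ (-σ)) ^ j
              = C * 2 ^ κ * (((2:ℝ) ^ κ) * (2:ℝ) ^ (-σ)) ^ j := by rw [mul_pow]; ring
            _ = C * 2 ^ κ * r ^ j := by rw [e3]
  calc ∑ j ∈ range J, ∑ n ∈ s with Nat.log 2 n = j, b n * (n : ℝ) ^ (-σ)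
      ≤ ∑ j ∈ range J, C * 2 ^ κ * r ^ j := Finset.sum_le_sum hblock
    _ = C * 2 ^ κ * ∑ j ∈ range J, r ^ j := by rw [Finset.mul_sum]
    _ ≤ C * 2 ^ κ * (1 - r)⁻¹ := by
        gcongr
        rw [geom_sum_eq hr1.ne]
        rw [← neg_sub, ← neg_sub (1:ℝ) r, neg_div_neg_eq, div_eq_mul_inv]
        have : 1 - r ^ J ≤ 1 := by
          have := pow_nonneg hr0.le J
          linarith
        have h1r : 0 < 1 - r := by linarith
        calc (1 - r ^ J) * (1 - r)⁻¹ ≤ 1 * (1 - r)⁻¹ := by gcongr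
          _ = (1 - r)⁻¹ := one_mul _
    _ ≤ C * 2 ^ κ * (2 / δ) := by
        gcongr
        have h1r : δ / 2 ≤ 1 - r := one_sub_two_rpow_neg_ge hδ0.le hδ1
        rw [inv_le_comm₀ (by linarith) (by positivity)]
        rw [inv_div]
        exact h1r
    _ = 2 ^ (κ + 1) * C / δ := by
        rw [Real.rpow_add (by norm_num), Real.rpow_one]
        ring

/-- **Euler product inequality.**  If every finite partial sum of `∑ b n n^{-σ}` is `≤ B` and `b`
is multiplicative on the products of subsets of the finite set of primes `P`, then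
`∏_{p ∈ P} (1 + b p p^{-σ}) ≤ B`. -/
theorem prod_one_add_le {b : ℕ → ℝ} {σ B : ℝ}
    (hB : ∀ s : Finset ℕ, (∀ n ∈ s, 1 ≤ n) → ∑ n ∈ s, b n * (n : ℝ) ^ (-σ) ≤ B)
    (P : Finset ℕ) (hP : ∀ p ∈ P, p.Prime)
    (hmul : ∀ T ⊆ P, b (∏ p ∈ T, p) = ∏ p ∈ T, b p) :
    ∏ p ∈ P, (1 + b p * (p : ℝ) ^ (-σ)) ≤ B := by
  classical
  rw [Finset.prod_one_add]
  have hterm : ∀ T ∈ P.powerset, ∏ p ∈ T, b p * (p : ℝ) ^ (-σ) =
      b (∏ p ∈ T, p) * ((∏ p ∈ T, p : ℕ) : ℝ) ^ (-σ) := by
    intro T hT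
    rw [mem_powerset] at hT
    rw [Finset.prod_mul_distrib, hmul T hT]
    congr 1
    push_cast
    rw [Real.finsetProd_rpow]
    intro i _
    positivity
  rw [Finset.sum_congr rfl hterm]
  have hinj : Set.InjOn (fun T : Finset ℕ => ∏ p ∈ T, p) (P.powerset : Set (Finset ℕ)) := by
    intro T₁ h₁ T₂ h₂ h
    have h₁' : T₁ ⊆ P := mem_powerset.mp h₁
    have h₂' : T₂ ⊆ P := mem_powerset.mp h₂
    have e₁ := Nat.primeFactors_prod (s := T₁) fun p hp => hP p (h₁' hp)
    have e₂ := Nat.primeFactors_prod (s := T₂) fun p hp => hP p (h₂' hp)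
    simp only at h
    rw [← e₁, ← e₂, h]
  rw [← Finset.sum_image (f := fun n : ℕ => b n * (n : ℝ) ^ (-σ)) hinj]
  refine hB _ fun n hn => ?_
  rw [mem_image] at hn
  obtain ⟨T, hT, rfl⟩ := hn
  exact Nat.one_le_iff_ne_zero.mpr
    (Finset.prod_ne_zero_iff.mpr fun p hp => (hP p (mem_powerset.mp hT hp)).ne_zero)

lemma sum_inv_sq_le_two (P : Finset ℕ) : ∑ p ∈ P, ((p : ℝ) ^ 2)⁻¹ ≤ 2 := by
  have h := sum_le_hasSum P (fun i _ => by positivity) hasSum_zeta_two
  simp only [one_div] at h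
  refine h.trans ?_
  have : Real.pi ^ 2 ≤ 12 := by
    have h1 := Real.pi_lt_d2
    have h2 := Real.pi_pos
    nlinarith
  linarith

/-- `log (1 + y) ≥ y - y²` for `y ≥ 0`. -/
lemma le_log_one_add {y : ℝ} (hy : 0 ≤ y) : y - y ^ 2 ≤ Real.log (1 + y) := by
  have h1 : (0:ℝ) < 1 + y := by linarith
  have h2 := Real.one_sub_inv_le_log_of_pos h1
  refine le_trans ?_ h2
  rw [← sub_nonneg]
  have : 1 - (1 + y)⁻¹ - (y - y ^ 2) = y ^ 3 / (1 + y) := by
    field_simp
    ring
  rw [this]
  positivity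

/-- Prime sums from the Euler product inequality: bounded coefficients. -/
theorem sum_primes_le_of_prod_le {b : ℕ → ℝ} (hb : ∀ n, 0 ≤ b n) {σ B β : ℝ} (hσ : 1 ≤ σ)
    (P : Finset ℕ) (hP : ∀ p ∈ P, p.Prime)
    (hprod : ∏ p ∈ P, (1 + b p * (p : ℝ) ^ (-σ)) ≤ B) (hβ : ∀ p ∈ P, b p ≤ β) :
    ∑ p ∈ P, b p * (p : ℝ) ^ (-σ) ≤ Real.log B + 2 * β ^ 2 := by
  have hβ0 : ∀ p ∈ P, 0 ≤ β := fun p hp => (hb p).trans (hβ p hp)
  have hypos : ∀ p ∈ P, 0 ≤ b p * (p : ℝ) ^ (-σ) := fun p _ => by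
    have := hb p
    positivity
  have hprodpos : 0 < ∏ p ∈ P, (1 + b p * (p : ℝ) ^ (-σ)) :=
    Finset.prod_pos fun p hp => by have := hypos p hp; linarith
  have hlog : Real.log (∏ p ∈ P, (1 + b p * (p : ℝ) ^ (-σ))) ≤ Real.log B :=
    Real.log_le_log hprodpos hprod
  rw [Real.log_prod (fun p hp => by have := hypos p hp; linarith)] at hlog
  have hterm : ∀ p ∈ P, b p * (p : ℝ) ^ (-σ) - β ^ 2 * ((p : ℝ) ^ 2)⁻¹ ≤
      Real.log (1 + b p * (p : ℝ) ^ (-σ)) := by
    intro p hp
    refine le_trans ?_ (le_log_one_add (hypos p hp))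
    have hp1 : (1:ℝ) ≤ p := by exact_mod_cast (hP p hp).one_le
    have h1 : (p : ℝ) ^ (-σ) ≤ (p : ℝ)⁻¹ := by
      rw [← Real.rpow_neg_one]
      exact Real.rpow_le_rpow_of_exponent_le hp1 (by linarith)
    have h2 : (0:ℝ) ≤ (p : ℝ) ^ (-σ) := by positivity
    have h3 : (b p * (p : ℝ) ^ (-σ)) ^ 2 ≤ β ^ 2 * ((p : ℝ) ^ 2)⁻¹ := by
      rw [mul_pow, ← inv_pow]
      have := hb p
      have := hβ p hp
      gcongr
    linarith
  have hsum := (Finset.sum_le_sum hterm).trans hlog
  rw [Finset.sum_sub_distrib] at hsum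
  have h4 : ∑ p ∈ P, β ^ 2 * ((p : ℝ) ^ 2)⁻¹ ≤ 2 * β ^ 2 := by
    rw [← Finset.mul_sum]
    have := sum_inv_sq_le_two P
    have hβ2 : 0 ≤ β ^ 2 := by positivity
    calc β ^ 2 * ∑ p ∈ P, ((p : ℝ) ^ 2)⁻¹ ≤ β ^ 2 * 2 := by gcongr
      _ = 2 * β ^ 2 := by ring
  linarith

/-- Prime sums from the Euler product inequality: the primes where the coefficient is large
have small `σ`-mass. -/
theorem sum_primes_ge_le_of_prod_le {b : ℕ → ℝ} {σ B c : ℝ} (hσ : 1 ≤ σ) (hc : 0 ≤ c)
    (P : Finset ℕ) (hP : ∀ p ∈ P, p.Prime)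
    (hprod : ∏ p ∈ P, (1 + b p * (p : ℝ) ^ (-σ)) ≤ B) (hbc : ∀ p ∈ P, c ≤ b p) :
    c * ∑ p ∈ P, (p : ℝ) ^ (-σ) ≤ Real.log B + 2 * c ^ 2 := by
  have hprod' : ∏ p ∈ P, (1 + (fun _ : ℕ => c) p * (p : ℝ) ^ (-σ)) ≤ B := by
    refine le_trans ?_ hprod
    refine Finset.prod_le_prod (fun p _ => by positivity) fun p hp => ?_
    have := hbc p hp
    gcongr
  have := sum_primes_le_of_prod_le (b := fun _ => c) (fun _ => hc) hσ P hP hprod'
    (fun _ _ => le_rfl)
  rwa [← Finset.mul_sum] at this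

end Fermat.Agent.S48.H648

end
end
-- ===== PACK-END S48/H648/DirichletBound.lean

-- ===== PACK-BEGIN S48/H428/Count.lean
section


/-!
# S48 / P5 (helper428): abstract fixed point counting

`exists_index_le_two_or_index_le`: a finite group `G` acting on a set `P`, with a normal
subgroup `Z` acting trivially, such that every `g ∉ Z` has exactly two fixed points, has a point
stabilizer of index `≤ 2`, or `[G : Z] ≤ 60`.

(Classical counting proof of the classification of finite subgroups of `PGL₂`: cyclic, dihedral,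
`A₄`, `S₄`, `A₅`.)
-/

set_option autoImplicit false
set_option linter.style.haveILetI false

namespace Fermat.Agent.S48.H428

open MulAction

/-- The arithmetic of three orbits: `(2,2,m)`, `(2,3,3)`, `(2,3,4)`, `(2,3,5)`. -/
lemma three_orbits_arith (n m0 m1 m2 t0 t1 t2 : ℕ)
    (hm0 : 3 ≤ m0) (hm1 : 3 ≤ m1) (hm2 : 3 ≤ m2)
    (ht0 : 2 ≤ t0) (ht1 : 2 ≤ t1) (ht2 : 2 ≤ t2)
    (h0 : m0 * t0 = n) (h1 : m1 * t1 = n) (h2 : m2 * t2 = n)
    (hsum : m0 + m1 + m2 = n + 2) : n ≤ 60 := by
  have key : ∀ m t : ℕ, 2 ≤ t → m * t = n →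
      (n = 2 * m ∨ n = 3 * m ∨ n = 4 * m ∨ n = 5 * m ∨ 6 * m ≤ n) := by
    intro m t ht hmt
    have : t = 2 ∨ t = 3 ∨ t = 4 ∨ t = 5 ∨ 6 ≤ t := by omega
    rcases this with rfl | rfl | rfl | rfl | h6
    · left; omega
    · right; left; omega
    · right; right; left; omega
    · right; right; right; left; omega
    · right; right; right; right
      calc 6 * m = m * 6 := by ring
        _ ≤ m * t := Nat.mul_le_mul_left m h6
        _ = n := hmt
  rcases key m0 t0 ht0 h0 with a | a | a | a | a <;>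
  rcases key m1 t1 ht1 h1 with b | b | b | b | b <;>
  rcases key m2 t2 ht2 h2 with c | c | c | c | c <;>
  omega

section Counting

variable {G : Type*} [Group G] {P : Type*} [MulAction G P]

/-- The poles: the points fixed by some element outside `Z`. -/
def poles (Z : Subgroup G) [hZ : Z.Normal] : SubMulAction G P where
  carrier := {x | ∃ g : G, g ∉ Z ∧ g • x = x}
  smul_mem' := by
    rintro h x ⟨g, hg, hx⟩
    refine ⟨h * g * h⁻¹, fun hc => hg ?_, ?_⟩
    · have := hZ.conj_mem _ hc h⁻¹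
      simpa [mul_assoc] using this
    · rw [mul_smul, mul_smul, inv_smul_smul, hx]

lemma mem_poles {Z : Subgroup G} [Z.Normal] {x : P} :
    x ∈ (poles Z : SubMulAction G P) ↔ ∃ g : G, g ∉ Z ∧ g • x = x := Iff.rfl

lemma finite_poles [Finite G] (Z : Subgroup G) [Z.Normal]
    (h2 : ∀ g : G, g ∉ Z → ∃ x y : P, x ≠ y ∧ ∀ p : P, g • p = p ↔ p = x ∨ p = y) :
    Finite (poles Z : SubMulAction G P) := by
  classical
  have hfin : ∀ g : G, g ∉ Z → (fixedBy P g).Finite := by
    intro g hg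
    obtain ⟨x, y, -, h⟩ := h2 g hg
    refine (Set.toFinite ({x, y} : Set P)).subset fun p hp => ?_
    rcases (h p).mp hp with rfl | rfl <;> simp
  have hsub : ((poles Z : SubMulAction G P) : Set P) ⊆ ⋃ g : {g : G // g ∉ Z}, fixedBy P g.1 := by
    rintro x ⟨g, hg, hx⟩
    exact Set.mem_iUnion.mpr ⟨⟨g, hg⟩, hx⟩
  exact Set.finite_coe_iff.mpr ((Set.finite_iUnion fun g : {g : G // g ∉ Z} =>
    hfin g.1 g.2).subset hsub)

lemma ncard_fixedBy_poles_of_mem (Z : Subgroup G) [Z.Normal]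
    (hZ : ∀ z ∈ Z, ∀ x : P, z • x = x) {g : G} (hg : g ∈ Z) :
    Nat.card (fixedBy (poles Z : SubMulAction G P) g) = Nat.card (poles Z : SubMulAction G P) := by
  have : fixedBy (poles Z : SubMulAction G P) g = Set.univ := by
    ext x
    simp only [mem_fixedBy, Set.mem_univ, iff_true]
    exact Subtype.ext (hZ g hg x)
  rw [this]
  exact Nat.card_congr (Equiv.Set.univ _)

lemma ncard_fixedBy_poles_of_not_mem (Z : Subgroup G) [Z.Normal]
    (h2 : ∀ g : G, g ∉ Z → ∃ x y : P, x ≠ y ∧ ∀ p : P, g • p = p ↔ p = x ∨ p = y)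
    {g : G} (hg : g ∉ Z) :
    Nat.card (fixedBy (poles Z : SubMulAction G P) g) = 2 := by
  classical
  obtain ⟨x, y, hxy, h⟩ := h2 g hg
  have hx : x ∈ (poles Z : SubMulAction G P) := ⟨g, hg, (h x).mpr (Or.inl rfl)⟩
  have hy : y ∈ (poles Z : SubMulAction G P) := ⟨g, hg, (h y).mpr (Or.inr rfl)⟩
  have : fixedBy (poles Z : SubMulAction G P) g = {⟨x, hx⟩, ⟨y, hy⟩} := by
    ext p
    simp only [mem_fixedBy, Set.mem_insert_iff, Set.mem_singleton_iff]
    constructor
    · intro hp
      have hp' : g • (p : P) = p := congrArg Subtype.val hp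
      rcases (h p).mp hp' with e | e
      · exact Or.inl (Subtype.ext e)
      · exact Or.inr (Subtype.ext e)
    · rintro (rfl | rfl)
      · exact Subtype.ext ((h x).mpr (Or.inl rfl))
      · exact Subtype.ext ((h y).mpr (Or.inr rfl))
  rw [this, Nat.card_coe_set_eq, Set.ncard_pair]
  exact fun e => hxy (congrArg Subtype.val e)

/-- Burnside's lemma for the action on the poles. -/
theorem burnside_poles [Finite G] (Z : Subgroup G) [Z.Normal]
    (hZ : ∀ z ∈ Z, ∀ x : P, z • x = x)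
    (h2 : ∀ g : G, g ∉ Z → ∃ x y : P, x ≠ y ∧ ∀ p : P, g • p = p ↔ p = x ∨ p = y) :
    Nat.card Z * Nat.card (poles Z : SubMulAction G P) + 2 * (Nat.card G - Nat.card Z) =
      Nat.card (Quotient (orbitRel G (poles Z : SubMulAction G P))) * Nat.card G := by
  classical
  haveI := finite_poles Z h2
  letI := Fintype.ofFinite G
  letI : ∀ g : G, Fintype (fixedBy (poles Z : SubMulAction G P) g) := fun g => Fintype.ofFinite _
  letI := Fintype.ofFinite (Quotient (orbitRel G (poles Z : SubMulAction G P)))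
  have hB := sum_card_fixedBy_eq_card_orbits_mul_card_group G (poles Z : SubMulAction G P)
  simp only [← Nat.card_eq_fintype_card] at hB
  rw [← hB]
  have hval : ∀ g : G, Nat.card (fixedBy (poles Z : SubMulAction G P) g) =
      if g ∈ Z then Nat.card (poles Z : SubMulAction G P) else 2 := by
    intro g
    split_ifs with hg
    · exact ncard_fixedBy_poles_of_mem Z hZ hg
    · exact ncard_fixedBy_poles_of_not_mem Z h2 hg
  simp_rw [hval]
  rw [Finset.sum_ite, Finset.sum_const, Finset.sum_const, smul_eq_mul, smul_eq_mul]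
  have h1 : (Finset.univ.filter fun g : G => g ∈ Z).card = Nat.card Z := by
    rw [Nat.card_eq_fintype_card, Fintype.card_subtype]
  have h3 : (Finset.univ.filter fun g : G => g ∉ Z).card = Nat.card G - Nat.card Z := by
    rw [Finset.filter_not, Finset.card_sdiff_of_subset (Finset.filter_subset _ _), h1,
      Finset.card_univ, ← Nat.card_eq_fintype_card]
  rw [h1, h3, mul_comm (Nat.card G - Nat.card Z) 2]

lemma card_poles_eq_sum [Finite G] (Z : Subgroup G) [Z.Normal]
    [Fintype (Quotient (orbitRel G (poles Z : SubMulAction G P)))] :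
    Nat.card (poles Z : SubMulAction G P) =
      ∑ ω : Quotient (orbitRel G (poles Z : SubMulAction G P)), (stabilizer G ω.out).index := by
  rw [Nat.card_congr (selfEquivSigmaOrbitsQuotientStabilizer G (poles Z : SubMulAction G P)),
    Nat.card_sigma]
  rfl

lemma stabilizer_pole_card [Finite G] (Z : Subgroup G) [Z.Normal]
    (hZ : ∀ z ∈ Z, ∀ x : P, z • x = x) (x : (poles Z : SubMulAction G P)) :
    ∃ k : ℕ, 2 ≤ k ∧ Nat.card (stabilizer G x) = Nat.card Z * k := by
  have hle : Z ≤ stabilizer G x := fun z hz => Subtype.ext (hZ z hz x)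
  obtain ⟨k, hk⟩ := Subgroup.card_dvd_of_le hle
  refine ⟨k, ?_, hk⟩
  by_contra hk2
  have hk1 : k ≤ 1 := by omega
  have hcard : Nat.card (stabilizer G x) ≤ Nat.card Z := by
    rw [hk]
    calc Nat.card Z * k ≤ Nat.card Z * 1 := Nat.mul_le_mul_left _ hk1
      _ = Nat.card Z := mul_one _
  have heq : Z = stabilizer G x := Subgroup.eq_of_le_of_card_ge hle hcard
  obtain ⟨g, hg, hgx⟩ := x.2
  exact hg (heq ▸ (show g ∈ stabilizer G x from Subtype.ext hgx))

/-- **Counting theorem.** A finite group `G` acting on `P`, with a normal subgroup `Z` acting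
trivially and such that every `g ∉ Z` has exactly two fixed points, has a point stabilizer of
index `≤ 2`, or `[G : Z] ≤ 60`. -/
theorem exists_index_le_two_or_index_le [Finite G] (Z : Subgroup G) [Z.Normal]
    (hZ : ∀ z ∈ Z, ∀ x : P, z • x = x)
    (h2 : ∀ g : G, g ∉ Z → ∃ x y : P, x ≠ y ∧ ∀ p : P, g • p = p ↔ p = x ∨ p = y) :
    (∃ x : P, (stabilizer G x).index ≤ 2) ∨ Z.index ≤ 60 := by
  classical
  by_contra hcon
  rw [not_or, not_exists] at hcon
  obtain ⟨hst, hZ60⟩ := hcon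
  haveI := finite_poles Z h2
  letI := Fintype.ofFinite (Quotient (orbitRel G (poles Z : SubMulAction G P)))
  set Ω := Quotient (orbitRel G (poles Z : SubMulAction G P)) with hΩ
  set N := Nat.card G with hN
  set z := Nat.card Z with hz
  set n := Z.index with hn
  have hnz : n * z = N := Subgroup.index_mul_card Z
  have hzpos : 0 < z := Nat.card_pos
  have hNpos : 0 < N := Nat.card_pos
  have hzN : z ≤ N := Subgroup.card_le_card_group Z
  -- data of the orbits
  set m : Ω → ℕ := fun ω => (stabilizer G ω.out).index with hm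
  have hm3 : ∀ ω, 3 ≤ m ω := by
    intro ω
    have := hst ((ω.out : (poles Z : SubMulAction G P)) : P)
    rw [← SubMulAction.stabilizer_of_subMul] at this
    simp only [hm]
    omega
  have hk : ∀ ω : Ω, ∃ k : ℕ, 2 ≤ k ∧ m ω * k = n := by
    intro ω
    obtain ⟨k, hk2, hk⟩ := stabilizer_pole_card Z hZ ω.out
    refine ⟨k, hk2, ?_⟩
    have h1 : m ω * Nat.card (stabilizer G ω.out) = N := Subgroup.index_mul_card _
    rw [hk] at h1
    have h2' : (m ω * k) * z = n * z := by rw [hnz, ← h1]; ring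
    exact Nat.eq_of_mul_eq_mul_right hzpos h2'
  have hmle : ∀ ω : Ω, 2 * m ω ≤ n := by
    intro ω
    obtain ⟨k, hk2, hk⟩ := hk ω
    calc 2 * m ω = m ω * 2 := by ring
      _ ≤ m ω * k := Nat.mul_le_mul_left _ hk2
      _ = n := hk
  have hB := burnside_poles Z hZ h2
  rw [card_poles_eq_sum Z, ← hN, ← hz, ← hnz] at hB
  -- divide by `z`
  have hB' : ∑ ω : Ω, m ω + 2 * (n - 1) = Nat.card Ω * n := by
    have e1 : n * z - z = (n - 1) * z := by rw [Nat.sub_mul, one_mul]
    rw [e1] at hB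
    have : (∑ ω : Ω, m ω + 2 * (n - 1)) * z = (Nat.card Ω * n) * z := by
      calc (∑ ω : Ω, m ω + 2 * (n - 1)) * z
          = z * ∑ ω : Ω, (stabilizer G ω.out).index + 2 * ((n - 1) * z) := by
            simp only [hm]; ring
        _ = Nat.card Ω * (n * z) := hB
        _ = (Nat.card Ω * n) * z := by ring
    exact Nat.eq_of_mul_eq_mul_right hzpos this
  have hn1 : 1 ≤ n := by
    rcases Nat.eq_zero_or_pos n with h0 | h0
    · rw [h0, zero_mul] at hnz; omega
    · exact h0
  have hsum_le : 2 * ∑ ω : Ω, m ω ≤ Nat.card Ω * n := by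
    rw [Finset.mul_sum, Nat.card_eq_fintype_card, ← Finset.card_univ, ← smul_eq_mul]
    exact Finset.sum_le_card_nsmul _ _ _ fun ω _ => hmle ω
  have hr : Nat.card Ω ≤ 3 := by
    by_contra h4
    have h4' : 4 ≤ Nat.card Ω := by omega
    have : 4 * n ≤ Nat.card Ω * n := Nat.mul_le_mul_right n h4'
    omega
  rw [Nat.card_eq_fintype_card] at hr hB' hsum_le
  have hcases : Fintype.card Ω = 0 ∨ Fintype.card Ω = 1 ∨ Fintype.card Ω = 2 ∨
      Fintype.card Ω = 3 := by omega
  rcases hcases with h0 | h1 | h2c | h3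
  · -- no poles
    rw [h0] at hB'
    have : ∑ ω : Ω, m ω = 0 := by
      haveI : IsEmpty Ω := Fintype.card_eq_zero_iff.mp h0
      simp
    omega
  · obtain ⟨a, ha⟩ := Finset.card_eq_one.mp (Finset.card_univ.trans h1)
    rw [h1, ha, Finset.sum_singleton] at hB'
    have := hm3 a
    have := hmle a
    omega
  · obtain ⟨a, b, hab, habu⟩ := Finset.card_eq_two.mp (Finset.card_univ.trans h2c)
    rw [h2c, habu, Finset.sum_pair hab] at hB'
    have := hm3 a
    have := hm3 b
    omega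
  · obtain ⟨a, b, c, hab, hac, hbc, habu⟩ := Finset.card_eq_three.mp (Finset.card_univ.trans h3)
    rw [h3, habu, Finset.sum_insert (by simp [hab, hac]), Finset.sum_pair hbc] at hB'
    obtain ⟨ka, hka2, hka⟩ := hk a
    obtain ⟨kb, hkb2, hkb⟩ := hk b
    obtain ⟨kc, hkc2, hkc⟩ := hk c
    have hsum : m a + m b + m c = n + 2 := by omega
    exact hZ60 (three_orbits_arith n (m a) (m b) (m c) ka kb kc (hm3 a) (hm3 b) (hm3 c)
      hka2 hkb2 hkc2 hka hkb hkc hsum)

end Counting

end Fermat.Agent.S48.H428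

end
-- ===== PACK-END S48/H428/Count.lean

-- ===== PACK-BEGIN S48/H428/Eigen.lean
section


/-!
# S48 / P5 (helper428): `2 × 2` linear algebra

* `exists_two_fixed` : over an algebraically closed field `K`, a non-scalar `g ∈ GL₂(K)` of finite
  order prime to the characteristic has exactly two fixed points on `ℙ¹(K)`.
-/

set_option autoImplicit false

namespace Fermat.Agent.S48.H428

open scoped LinearAlgebra.Projectivization Matrix MatrixGroups

variable {K : Type*} [Field K]

/-- Cayley–Hamilton for `2 × 2` matrices. -/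
lemma cayley_two (M : Matrix (Fin 2) (Fin 2) K) :
    M * M = M.trace • M - M.det • (1 : Matrix (Fin 2) (Fin 2) K) := by
  ext i j
  fin_cases i <;> fin_cases j <;>
    simp [Matrix.mul_apply, Fin.sum_univ_two, Matrix.trace_fin_two, Matrix.det_fin_two] <;> ring

lemma det_sub_smul_one (M : Matrix (Fin 2) (Fin 2) K) (a : K) :
    (M - a • (1 : Matrix (Fin 2) (Fin 2) K)).det = a ^ 2 - M.trace * a + M.det := by
  simp [Matrix.det_fin_two, Matrix.trace_fin_two]
  ring

/-- An eigenvalue is a root of the characteristic polynomial. -/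
lemma eigenvalue_root (M : Matrix (Fin 2) (Fin 2) K) {v : Fin 2 → K} (hv : v ≠ 0) {a : K}
    (h : M *ᵥ v = a • v) : a ^ 2 - M.trace * a + M.det = 0 := by
  rw [← det_sub_smul_one]
  refine Matrix.exists_mulVec_eq_zero_iff.mp ⟨v, hv, ?_⟩
  rw [Matrix.sub_mulVec, Matrix.smul_mulVec, Matrix.one_mulVec, h, sub_self]

/-- Two vectors with vanishing determinant are proportional. -/
lemma proportional_of_det_eq_zero {x y : Fin 2 → K} (hx : x ≠ 0)
    (h : x 0 * y 1 - x 1 * y 0 = 0) : ∃ c : K, y = c • x := by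
  by_cases h0 : x 0 = 0
  · have h1 : x 1 ≠ 0 := by
      intro h1
      apply hx
      ext i
      fin_cases i <;> simp [h0, h1]
    refine ⟨y 1 / x 1, ?_⟩
    ext i
    fin_cases i
    · simp only [Fin.zero_eta, Pi.smul_apply, smul_eq_mul, h0, mul_zero]
      rw [h0, zero_mul, zero_sub, neg_eq_zero] at h
      exact (mul_eq_zero.mp h).resolve_left h1
    · simp only [Fin.mk_one, Pi.smul_apply, smul_eq_mul]
      field_simp
  · refine ⟨y 0 / x 0, ?_⟩
    ext i
    fin_cases i
    · simp only [Fin.zero_eta, Pi.smul_apply, smul_eq_mul]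
      field_simp
    · simp only [Fin.mk_one, Pi.smul_apply, smul_eq_mul]
      field_simp
      linear_combination h

/-- A matrix killing two non-proportional vectors vanishes. -/
lemma eq_zero_of_mulVec_eq_zero (A : Matrix (Fin 2) (Fin 2) K) {x y : Fin 2 → K}
    (h : x 0 * y 1 - x 1 * y 0 ≠ 0) (hx : A *ᵥ x = 0) (hy : A *ᵥ y = 0) : A = 0 := by
  have hx0 := congrFun hx 0
  have hx1 := congrFun hx 1
  have hy0 := congrFun hy 0
  have hy1 := congrFun hy 1
  simp only [Matrix.mulVec, dotProduct, Fin.sum_univ_two, Pi.zero_apply] at hx0 hx1 hy0 hy1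
  ext i j
  fin_cases i <;> fin_cases j <;> simp only [Fin.zero_eta, Fin.mk_one, Matrix.zero_apply]
  · have : A 0 0 * (x 0 * y 1 - x 1 * y 0) = 0 := by linear_combination y 1 * hx0 - x 1 * hy0
    exact (mul_eq_zero.mp this).resolve_right h
  · have : A 0 1 * (x 0 * y 1 - x 1 * y 0) = 0 := by linear_combination x 0 * hy0 - y 0 * hx0
    exact (mul_eq_zero.mp this).resolve_right h
  · have : A 1 0 * (x 0 * y 1 - x 1 * y 0) = 0 := by linear_combination y 1 * hx1 - x 1 * hy1
    exact (mul_eq_zero.mp this).resolve_right h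
  · have : A 1 1 * (x 0 * y 1 - x 1 * y 0) = 0 := by linear_combination x 0 * hy1 - y 0 * hx1
    exact (mul_eq_zero.mp this).resolve_right h

/-- The kernel of a nonzero `2 × 2` matrix is at most a line. -/
lemma ker_proportional (A : Matrix (Fin 2) (Fin 2) K) (hA : A ≠ 0) {x y : Fin 2 → K}
    (hx : x ≠ 0) (hAx : A *ᵥ x = 0) (hAy : A *ᵥ y = 0) : ∃ c : K, y = c • x := by
  by_cases h : x 0 * y 1 - x 1 * y 0 = 0
  · exact proportional_of_det_eq_zero hx h
  · exact absurd (eq_zero_of_mulVec_eq_zero A h hAx hAy) hA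

/-- A matrix of finite order prime to the characteristic whose characteristic polynomial has a
double root is scalar. -/
lemma eq_smul_one_of_double_root (M : Matrix (Fin 2) (Fin 2) K) (a : K)
    (htr : M.trace = a + a) (hdet : M.det = a * a) (ha : a ≠ 0)
    (m : ℕ) (hm : (m : K) ≠ 0) (hMm : M ^ m = 1) : M = a • (1 : Matrix (Fin 2) (Fin 2) K) := by
  set A : Matrix (Fin 2) (Fin 2) K := M - a • (1 : Matrix (Fin 2) (Fin 2) K) with hA
  have hM : M = a • (1 : Matrix (Fin 2) (Fin 2) K) + A := by rw [hA]; abel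
  have hAA : A * A = 0 := by
    have h := cayley_two M
    rw [htr, hdet] at h
    rw [hA, sub_mul, mul_sub, mul_sub, h]
    simp only [Matrix.smul_mul, Matrix.mul_smul, Matrix.one_mul, Matrix.mul_one, smul_smul]
    ext i j
    simp only [Matrix.sub_apply, Matrix.smul_apply, Matrix.zero_apply, smul_eq_mul]
    ring
  have hpow : ∀ k : ℕ, a • M ^ k = (a ^ (k + 1)) • (1 : Matrix (Fin 2) (Fin 2) K)
      + ((k : K) * a ^ k) • A := by
    intro k
    induction k with
    | zero => simp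
    | succ k ih =>
      rw [pow_succ, ← Matrix.smul_mul, ih]
      conv_lhs => rw [hM]
      simp only [add_mul, mul_add, Matrix.smul_mul, Matrix.mul_smul, Matrix.one_mul,
        Matrix.mul_one, smul_smul, hAA, smul_zero, add_zero]
      ext i j
      simp only [Matrix.add_apply, Matrix.smul_apply, smul_eq_mul, Nat.cast_succ]
      ring
  have h1 := hpow m
  rw [hMm] at h1
  -- multiply by `A`
  have h2 : (a - a ^ (m + 1)) • A = 0 := by
    have := congrArg (fun X => X * A) h1
    simp only [add_mul, Matrix.smul_mul, Matrix.one_mul, hAA, smul_zero, add_zero] at this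
    rw [sub_smul, this, sub_self]
  by_contra hne
  have hA0 : A ≠ 0 := by
    intro h0
    apply hne
    rw [hM, h0, add_zero]
  have h3 : a - a ^ (m + 1) = 0 := by
    rcases smul_eq_zero.mp h2 with h | h
    · exact h
    · exact absurd h hA0
  have h4 : ((m : K) * a ^ m) • A = 0 := by
    have e : a ^ (m + 1) = a := by linear_combination -h3
    rw [e] at h1
    exact left_eq_add.mp h1
  rcases smul_eq_zero.mp h4 with h | h
  · rcases mul_eq_zero.mp h with h | h
    · exact hm h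
    · exact ha (pow_eq_zero_iff (by
        rintro rfl
        simp at hm) |>.mp h)
  · exact hA0 h

/-! ### Fixed points on the projective line -/

lemma smul_mk_eq_iff (g : GL (Fin 2) K) (v : Fin 2 → K) (hv : v ≠ 0) :
    g • Projectivization.mk K v hv = Projectivization.mk K v hv ↔
      ∃ a : K, (g : Matrix (Fin 2) (Fin 2) K) *ᵥ v = a • v := by
  rw [Projectivization.smul_mk, Projectivization.mk_eq_mk_iff]
  constructor
  · rintro ⟨a, ha⟩
    exact ⟨(a : K), ha.symm⟩
  · rintro ⟨a, ha⟩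
    have hgv : g • v ≠ 0 := (smul_ne_zero_iff_ne g).mpr hv
    have ha0 : a ≠ 0 := by
      rintro rfl
      rw [zero_smul] at ha
      exact hgv ha
    exact ⟨Units.mk0 a ha0, ha.symm⟩

lemma mk_eq_mk_of_smul {v w : Fin 2 → K} (hv : v ≠ 0) (hw : w ≠ 0) {c : K} (h : v = c • w) :
    Projectivization.mk K v hv = Projectivization.mk K w hw := by
  rw [Projectivization.mk_eq_mk_iff]
  have hc : c ≠ 0 := by
    rintro rfl
    rw [zero_smul] at h
    exact hv h
  exact ⟨Units.mk0 c hc, h.symm⟩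

lemma exists_sum_prod [IsAlgClosed K] (t d : K) : ∃ a b : K, a + b = t ∧ a * b = d := by
  have hdeg : (Polynomial.X ^ 2 - Polynomial.C t * Polynomial.X + Polynomial.C d :
      Polynomial K).degree ≠ 0 := by
    have : (Polynomial.X ^ 2 - Polynomial.C t * Polynomial.X + Polynomial.C d :
        Polynomial K).degree = 2 := by
      compute_degree!
    rw [this]
    norm_num
  obtain ⟨a, ha⟩ := IsAlgClosed.exists_root _ hdeg
  simp only [Polynomial.IsRoot.def, Polynomial.eval_add, Polynomial.eval_sub, Polynomial.eval_pow,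
    Polynomial.eval_X, Polynomial.eval_mul, Polynomial.eval_C] at ha
  exact ⟨a, t - a, by ring, by linear_combination -ha⟩

lemma not_mem_center_iff {g : GL (Fin 2) K} :
    g ∉ Subgroup.center (GL (Fin 2) K) ↔
      ∀ a : K, (g : Matrix (Fin 2) (Fin 2) K) ≠ a • (1 : Matrix (Fin 2) (Fin 2) K) := by
  rw [Matrix.GeneralLinearGroup.mem_center_iff_val_mem_range_scalar]
  simp only [Set.mem_range, not_exists, Matrix.scalar_apply, ← Matrix.smul_one_eq_diagonal]
  exact ⟨fun h a e => h a e.symm, fun h a e => h a e.symm⟩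

/-- A non-scalar element of `GL₂(K)` (`K` algebraically closed) of finite order prime to the
characteristic has exactly two fixed points on the projective line. -/
theorem exists_two_fixed [IsAlgClosed K] (g : GL (Fin 2) K)
    (hg : g ∉ Subgroup.center (GL (Fin 2) K)) (m : ℕ) (hm : (m : K) ≠ 0) (hgm : g ^ m = 1) :
    ∃ x y : ℙ K (Fin 2 → K), x ≠ y ∧ ∀ p : ℙ K (Fin 2 → K), g • p = p ↔ p = x ∨ p = y := by
  set M : Matrix (Fin 2) (Fin 2) K := (g : Matrix (Fin 2) (Fin 2) K) with hM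
  have hns := not_mem_center_iff.mp hg
  have hMm : M ^ m = 1 := by
    have := congrArg (fun u : GL (Fin 2) K => (u : Matrix (Fin 2) (Fin 2) K)) hgm
    simpa using this
  have hdet : M.det ≠ 0 := by
    have := Matrix.GeneralLinearGroup.det_ne_zero g
    simpa [hM] using this
  obtain ⟨a, b, hab, hab'⟩ := exists_sum_prod M.trace M.det
  have ha0 : a ≠ 0 := by
    rintro rfl
    rw [zero_mul] at hab'
    exact hdet hab'.symm
  have hne : a ≠ b := by
    rintro rfl
    exact hns a (eq_smul_one_of_double_root M a hab.symm hab'.symm ha0 m hm hMm)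
  have hdeta : (M - a • (1 : Matrix (Fin 2) (Fin 2) K)).det = 0 := by
    rw [det_sub_smul_one, ← hab, ← hab']; ring
  have hdetb : (M - b • (1 : Matrix (Fin 2) (Fin 2) K)).det = 0 := by
    rw [det_sub_smul_one, ← hab, ← hab']; ring
  obtain ⟨va, hva, hva'⟩ := Matrix.exists_mulVec_eq_zero_iff.mpr hdeta
  obtain ⟨vb, hvb, hvb'⟩ := Matrix.exists_mulVec_eq_zero_iff.mpr hdetb
  have eva : M *ᵥ va = a • va := by
    rw [Matrix.sub_mulVec, Matrix.smul_mulVec, Matrix.one_mulVec, sub_eq_zero] at hva'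
    exact hva'
  have evb : M *ᵥ vb = b • vb := by
    rw [Matrix.sub_mulVec, Matrix.smul_mulVec, Matrix.one_mulVec, sub_eq_zero] at hvb'
    exact hvb'
  have hAa : M - a • (1 : Matrix (Fin 2) (Fin 2) K) ≠ 0 := fun h => hns a (sub_eq_zero.mp h)
  have hAb : M - b • (1 : Matrix (Fin 2) (Fin 2) K) ≠ 0 := fun h => hns b (sub_eq_zero.mp h)
  refine ⟨Projectivization.mk K va hva, Projectivization.mk K vb hvb, ?_, ?_⟩
  · intro h
    rw [Projectivization.mk_eq_mk_iff] at h
    obtain ⟨c, hc⟩ := h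
    have h1 : M *ᵥ va = b • va := by
      rw [← hc, Units.smul_def, Matrix.mulVec_smul, evb, smul_comm]
    rw [eva] at h1
    have h2 : (a - b) • va = 0 := by rw [sub_smul, h1, sub_self]
    rcases smul_eq_zero.mp h2 with h3 | h3
    · exact hne (sub_eq_zero.mp h3)
    · exact hva h3
  · intro p
    induction p using Projectivization.ind with
    | h v hv =>
      constructor
      · intro hp
        obtain ⟨e, he⟩ := (smul_mk_eq_iff g v hv).mp hp
        have hroot := eigenvalue_root M hv he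
        have hfac : (e - a) * (e - b) = 0 := by
          rw [← hab, ← hab'] at hroot
          linear_combination hroot
        have hker : ∀ c : K, e = c → (M - c • (1 : Matrix (Fin 2) (Fin 2) K)) *ᵥ v = 0 := by
          rintro c rfl
          rw [Matrix.sub_mulVec, Matrix.smul_mulVec, Matrix.one_mulVec, he, sub_self]
        rcases mul_eq_zero.mp hfac with h | h
        · left
          obtain ⟨c, hc⟩ := ker_proportional _ hAa hva hva' (hker a (sub_eq_zero.mp h))
          exact mk_eq_mk_of_smul hv hva hc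
        · right
          obtain ⟨c, hc⟩ := ker_proportional _ hAb hvb hvb' (hker b (sub_eq_zero.mp h))
          exact mk_eq_mk_of_smul hv hvb hc
      · rintro (h | h)
        · rw [h]
          exact (smul_mk_eq_iff g va hva).mpr ⟨a, eva⟩
        · rw [h]
          exact (smul_mk_eq_iff g vb hvb).mpr ⟨b, evb⟩

end Fermat.Agent.S48.H428

end
-- ===== PACK-END S48/H428/Eigen.lean

-- ===== PACK-BEGIN S48/H428/Coprime.lean
section




/-!
# S48 / P5 (helper428): finite subgroups of `GL₂(K)` of order prime to the characteristic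

`card_bound_of_coprime`: for a finite subgroup `G ≤ GL₂(K)` (`K` algebraically closed,
`|G| ≠ 0` in `K`) and a finite subset `H ⊆ G` on which `(tr, det)` takes `M` values,
`2 |H| ≤ |G| + 4 M` or `|H| ≤ 120 M`.
-/

set_option autoImplicit false
set_option linter.style.haveILetI false

namespace Fermat.Agent.S48.H428

open scoped LinearAlgebra.Projectivization Matrix MatrixGroups
open MulAction

variable {K : Type*} [Field K]

/-- The class function `(tr, det)`. -/
def trDet (g : GL (Fin 2) K) : K × K :=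
  ((g : Matrix (Fin 2) (Fin 2) K).trace, (g : Matrix (Fin 2) (Fin 2) K).det)

lemma trDet_fst (g : GL (Fin 2) K) : (trDet g).1 = (g : Matrix (Fin 2) (Fin 2) K).trace := rfl

lemma trDet_snd (g : GL (Fin 2) K) : (trDet g).2 = (g : Matrix (Fin 2) (Fin 2) K).det := rfl

/-- A unipotent element of finite order prime to the characteristic is trivial. -/
lemma eq_one_of_fixed_of_det (k : GL (Fin 2) K) {v : Fin 2 → K} (hv : v ≠ 0)
    (hkv : (k : Matrix (Fin 2) (Fin 2) K) *ᵥ v = v)
    (hdet : (k : Matrix (Fin 2) (Fin 2) K).det = 1)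
    (N : ℕ) (hN : (N : K) ≠ 0) (hkN : k ^ N = 1) : k = 1 := by
  set M : Matrix (Fin 2) (Fin 2) K := (k : Matrix (Fin 2) (Fin 2) K) with hM
  have hMN : M ^ N = 1 := by
    have := congrArg (fun u : GL (Fin 2) K => (u : Matrix (Fin 2) (Fin 2) K)) hkN
    simpa using this
  have hroot := eigenvalue_root M hv (a := 1) (by rw [one_smul]; exact hkv)
  have htr : M.trace = 1 + 1 := by
    rw [hdet] at hroot
    linear_combination -hroot
  have := eq_smul_one_of_double_root M 1 htr (by rw [hdet, mul_one]) one_ne_zero N hN hMN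
  rw [one_smul] at this
  exact Units.ext this

/-- An element fixing a line is determined by its eigenvalue on the line and its determinant. -/
lemma eq_of_eigen_of_det (g g' : GL (Fin 2) K) {v : Fin 2 → K} (hv : v ≠ 0) (c : K)
    (hg : (g : Matrix (Fin 2) (Fin 2) K) *ᵥ v = c • v)
    (hg' : (g' : Matrix (Fin 2) (Fin 2) K) *ᵥ v = c • v)
    (hdet : (g : Matrix (Fin 2) (Fin 2) K).det = (g' : Matrix (Fin 2) (Fin 2) K).det)
    (N : ℕ) (hN : (N : K) ≠ 0) (hkN : (g⁻¹ * g') ^ N = 1) : g = g' := by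
  have hk : g⁻¹ * g' = 1 := by
    refine eq_one_of_fixed_of_det (g⁻¹ * g') hv ?_ ?_ N hN hkN
    · have h1 : g • ((g⁻¹ * g') • v) = g • v := by
        rw [← mul_smul, mul_inv_cancel_left]
        exact hg'.trans hg.symm
      exact MulAction.injective g h1
    · have hd : (g : Matrix (Fin 2) (Fin 2) K).det ≠ 0 := by
        have := Matrix.GeneralLinearGroup.det_ne_zero g
        simpa using this
      have h2 : (g : Matrix (Fin 2) (Fin 2) K).det *
          ((g⁻¹ * g' : GL (Fin 2) K) : Matrix (Fin 2) (Fin 2) K).det =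
          (g : Matrix (Fin 2) (Fin 2) K).det := by
        rw [← Matrix.det_mul, ← Units.val_mul, mul_inv_cancel_left, hdet]
      exact mul_left_cancel₀ hd (h2.trans (mul_one _).symm)
  have := congrArg (fun u => g * u) hk
  simpa using this.symm

variable [IsAlgClosed K]

/-- In a finite group of order prime to the characteristic, the elements fixing a given point of
the projective line and with given `(tr, det)` are at most two. -/
lemma card_fiber_stabilizer_le (G : Subgroup (GL (Fin 2) K)) [Finite G]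
    (hN : (Nat.card G : K) ≠ 0) (x : ℙ K (Fin 2 → K)) (b : K × K)
    (S : Finset (GL (Fin 2) K))
    (hS : ∀ g ∈ S, g ∈ G ∧ g • x = x ∧ trDet g = b) : S.card ≤ 2 := by
  classical
  induction x using Projectivization.ind with
  | h v hv =>
    obtain ⟨a, a', haa, haa'⟩ := exists_sum_prod b.1 b.2
    -- the eigenvalue on `v`
    have hex : ∀ g ∈ S, ∃ c : K, (g : Matrix (Fin 2) (Fin 2) K) *ᵥ v = c • v :=
      fun g hg => (smul_mk_eq_iff g v hv).mp (hS g hg).2.1
    let χ : GL (Fin 2) K → K := fun g =>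
      if h : ∃ c : K, (g : Matrix (Fin 2) (Fin 2) K) *ᵥ v = c • v then h.choose else 0
    have hχ : ∀ g ∈ S, (g : Matrix (Fin 2) (Fin 2) K) *ᵥ v = χ g • v := by
      intro g hg
      simp only [χ, dif_pos (hex g hg)]
      exact (hex g hg).choose_spec
    refine (Finset.card_le_card_of_injOn χ (t := {a, a'}) ?_ ?_).trans Finset.card_le_two
    · intro g hg
      have hroot := eigenvalue_root _ hv (hχ g hg)
      have hb := (hS g hg).2.2
      rw [← trDet_fst, ← trDet_snd, hb, ← haa, ← haa'] at hroot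
      have hfac : (χ g - a) * (χ g - a') = 0 := by linear_combination hroot
      simp only [Finset.coe_insert, Finset.coe_singleton, Set.mem_insert_iff,
        Set.mem_singleton_iff]
      rcases mul_eq_zero.mp hfac with h | h
      · exact Or.inl (sub_eq_zero.mp h)
      · exact Or.inr (sub_eq_zero.mp h)
    · intro g hg g' hg' hgg'
      have hg1 := hχ g hg
      have hg2 := hχ g' hg'
      rw [← hgg'] at hg2
      have hdet : (g : Matrix (Fin 2) (Fin 2) K).det = (g' : Matrix (Fin 2) (Fin 2) K).det := by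
        rw [← trDet_snd, ← trDet_snd, (hS g hg).2.2, (hS g' hg').2.2]
      refine eq_of_eigen_of_det g g' hv (χ g) hg1 hg2 hdet (Nat.card G) hN ?_
      have hmem : g⁻¹ * g' ∈ G := G.mul_mem (G.inv_mem (hS g hg).1) (hS g' hg').1
      have := pow_card_eq_one' (G := G) (x := ⟨g⁻¹ * g', hmem⟩)
      exact congrArg Subtype.val this

omit [IsAlgClosed K] in
/-- Two elements of the same coset of the scalars with the same determinant differ by a sign. -/
lemma eq_or_eq_neg_of_center (g g' : GL (Fin 2) K)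
    (hz : g⁻¹ * g' ∈ Subgroup.center (GL (Fin 2) K))
    (hdet : (g : Matrix (Fin 2) (Fin 2) K).det = (g' : Matrix (Fin 2) (Fin 2) K).det) :
    g' = g ∨ g' = -g := by
  rw [Matrix.GeneralLinearGroup.mem_center_iff_val_mem_range_scalar] at hz
  obtain ⟨c, hc⟩ := hz
  rw [Matrix.scalar_apply, ← Matrix.smul_one_eq_diagonal] at hc
  have hg' : (g' : Matrix (Fin 2) (Fin 2) K) = c • (g : Matrix (Fin 2) (Fin 2) K) := by
    have h1 : (g' : Matrix (Fin 2) (Fin 2) K) =
        (g : Matrix (Fin 2) (Fin 2) K) * ((g⁻¹ * g' : GL (Fin 2) K) : Matrix (Fin 2) (Fin 2) K) := by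
      rw [← Units.val_mul, mul_inv_cancel_left]
    rw [h1, ← hc, Matrix.mul_smul, Matrix.mul_one]
  have hd : (g : Matrix (Fin 2) (Fin 2) K).det ≠ 0 := by
    have := Matrix.GeneralLinearGroup.det_ne_zero g
    simpa using this
  have hc2 : (c - 1) * (c + 1) = 0 := by
    have h2 : (g' : Matrix (Fin 2) (Fin 2) K).det = c ^ 2 * (g : Matrix (Fin 2) (Fin 2) K).det := by
      rw [hg', Matrix.det_smul, Fintype.card_fin]
    rw [← hdet] at h2
    have h3 : (c ^ 2 - 1) * (g : Matrix (Fin 2) (Fin 2) K).det = 0 := by linear_combination -h2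
    rcases mul_eq_zero.mp h3 with h | h
    · linear_combination h
    · exact absurd h hd
  rcases mul_eq_zero.mp hc2 with h | h
  · left
    have : c = 1 := by linear_combination h
    rw [this, one_smul] at hg'
    exact Units.ext hg'
  · right
    have : c = -1 := by linear_combination h
    rw [this, neg_one_smul] at hg'
    exact Units.ext (by rw [hg', Units.val_neg])

omit [IsAlgClosed K] in
/-- If the scalars have index `≤ n` in `G`, every fiber of `(tr, det)` on `G` has at most `2 n`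
elements. -/
lemma card_fiber_le_of_index (G : Subgroup (GL (Fin 2) K)) [Finite G] (b : K × K)
    (S : Finset (GL (Fin 2) K)) (hS : ∀ g ∈ S, g ∈ G ∧ trDet g = b) :
    S.card ≤ 2 * ((Subgroup.center (GL (Fin 2) K)).subgroupOf G).index := by
  classical
  set Z := (Subgroup.center (GL (Fin 2) K)).subgroupOf G with hZ
  haveI : Finite (G ⧸ Z) := Quotient.finite _
  letI := Fintype.ofFinite (G ⧸ Z)
  let f : GL (Fin 2) K → G ⧸ Z := fun g =>
    if h : g ∈ G then QuotientGroup.mk ⟨g, h⟩ else QuotientGroup.mk 1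
  have h1 : S.card ≤ 2 * (S.image f).card := by
    refine Finset.card_le_mul_card_image S 2 fun q _ => ?_
    rcases (S.filter fun a => f a = q).eq_empty_or_nonempty with he | ⟨g0, hg0⟩
    · rw [he]; simp
    · have hsub : (S.filter fun a => f a = q) ⊆ {g0, -g0} := by
        intro g hg
        rw [Finset.mem_filter] at hg hg0
        have hgG := (hS g hg.1).1
        have hg0G := (hS g0 hg0.1).1
        have hq : f g0 = f g := hg0.2.trans hg.2.symm
        simp only [f, dif_pos hgG, dif_pos hg0G] at hq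
        have hmem := QuotientGroup.eq.mp hq
        rw [hZ, Subgroup.mem_subgroupOf] at hmem
        have hdet : (g0 : Matrix (Fin 2) (Fin 2) K).det = (g : Matrix (Fin 2) (Fin 2) K).det := by
          rw [← trDet_snd, ← trDet_snd, (hS g hg.1).2, (hS g0 hg0.1).2]
        simp only [Finset.mem_insert, Finset.mem_singleton]
        exact eq_or_eq_neg_of_center g0 g hmem hdet
      exact (Finset.card_le_card hsub).trans Finset.card_le_two
  have h2 : (S.image f).card ≤ Z.index := by
    rw [Subgroup.index, Nat.card_eq_fintype_card]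
    exact Finset.card_le_univ _
  calc S.card ≤ 2 * (S.image f).card := h1
    _ ≤ 2 * Z.index := Nat.mul_le_mul_left 2 h2

/-- **Order prime to the characteristic.** -/
theorem card_bound_of_coprime (G : Subgroup (GL (Fin 2) K)) [Finite G]
    (hN : (Nat.card G : K) ≠ 0) (H : Finset (GL (Fin 2) K)) (hHG : ∀ h ∈ H, h ∈ G) :
    2 * H.card ≤ Nat.card G + 4 * (trDet '' (H : Set (GL (Fin 2) K))).ncard ∨
      H.card ≤ 120 * (trDet '' (H : Set (GL (Fin 2) K))).ncard := by
  classical
  have hncard : (trDet '' (H : Set (GL (Fin 2) K))).ncard = (H.image trDet).card := by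
    rw [← Finset.coe_image, Set.ncard_coe_finset]
  rw [hncard]
  set Z := (Subgroup.center (GL (Fin 2) K)).subgroupOf G with hZdef
  haveI : Z.Normal := Subgroup.normal_subgroupOf
  have hZ : ∀ z ∈ Z, ∀ x : ℙ K (Fin 2 → K), z • x = x := by
    intro z hz x
    rw [hZdef, Subgroup.mem_subgroupOf,
      Matrix.GeneralLinearGroup.mem_center_iff_val_mem_range_scalar] at hz
    obtain ⟨c, hc⟩ := hz
    rw [Matrix.scalar_apply, ← Matrix.smul_one_eq_diagonal] at hc
    induction x using Projectivization.ind with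
    | h v hv =>
      refine (smul_mk_eq_iff (z : GL (Fin 2) K) v hv).mpr ⟨c, ?_⟩
      rw [← hc, Matrix.smul_mulVec, Matrix.one_mulVec]
  have h2 : ∀ g : G, g ∉ Z → ∃ x y : ℙ K (Fin 2 → K), x ≠ y ∧
      ∀ p : ℙ K (Fin 2 → K), g • p = p ↔ p = x ∨ p = y := by
    intro g hg
    have hg' : (g : GL (Fin 2) K) ∉ Subgroup.center (GL (Fin 2) K) := fun h =>
      hg (Subgroup.mem_subgroupOf.mpr h)
    have hpow : (g : GL (Fin 2) K) ^ Nat.card G = 1 :=
      congrArg Subtype.val (pow_card_eq_one' (G := G) (x := g))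
    exact exists_two_fixed (g : GL (Fin 2) K) hg' (Nat.card G) hN hpow
  rcases exists_index_le_two_or_index_le Z hZ h2 with ⟨x, hx⟩ | hidx
  · left
    -- the stabilizer of `x`
    set St := stabilizer G x with hSt
    have hcard : Nat.card St * St.index = Nat.card G := Subgroup.card_mul_index St
    have hidx1 : 1 ≤ St.index := by
      rcases Nat.eq_zero_or_pos St.index with h0 | h0
      · rw [h0, mul_zero] at hcard
        have : 0 < Nat.card G := Nat.card_pos
        omega
      · exact h0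
    have hSt2 : Nat.card G ≤ 2 * Nat.card St := by
      have : Nat.card St * St.index ≤ Nat.card St * 2 := Nat.mul_le_mul_left _ hx
      omega
    set H1 := H.filter fun h => h • x = x with hH1
    set H2 := H.filter fun h => ¬ h • x = x with hH2
    have hsplit : H1.card + H2.card = H.card := Finset.card_filter_add_card_filter_not _
    have hH1le : H1.card ≤ 2 * (H.image trDet).card := by
      have : H1.card ≤ 2 * (H1.image trDet).card := by
        refine Finset.card_le_mul_card_image H1 2 fun b _ => ?_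
        refine card_fiber_stabilizer_le G hN x b _ fun g hg => ?_
        rw [Finset.mem_filter, hH1, Finset.mem_filter] at hg
        exact ⟨hHG g hg.1.1, hg.1.2, hg.2⟩
      exact this.trans (Nat.mul_le_mul_left 2
        (Finset.card_le_card (Finset.image_subset_image (Finset.filter_subset _ _))))
    have hH2le : H2.card + Nat.card St ≤ Nat.card G := by
      let F : {h // h ∈ H2} ⊕ St → G := fun u =>
        match u with
        | Sum.inl h => ⟨h.1, hHG h.1 (Finset.mem_of_mem_filter _ h.2)⟩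
        | Sum.inr s => s.1
      have hF : Function.Injective F := by
        rintro (h | s) (h' | s') e
        · have : (F (Sum.inl h)).1 = (F (Sum.inl h')).1 := congrArg Subtype.val e
          exact congrArg Sum.inl (Subtype.ext this)
        · exfalso
          have hmem : (F (Sum.inr s')) ∈ St := s'.2
          rw [← e] at hmem
          have hh := (Finset.mem_filter.mp h.2).2
          exact hh (by
            have := (mem_stabilizer_iff.mp hmem)
            exact this)
        · exfalso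
          have hmem : (F (Sum.inr s)) ∈ St := s.2
          rw [e] at hmem
          have hh := (Finset.mem_filter.mp h'.2).2
          exact hh (by
            have := (mem_stabilizer_iff.mp hmem)
            exact this)
        · have : (F (Sum.inr s)) = (F (Sum.inr s')) := e
          exact congrArg Sum.inr (Subtype.ext this)
      have := Nat.card_le_card_of_injective F hF
      rw [Nat.card_sum, Nat.card_eq_fintype_card, Fintype.card_coe] at this
      exact this
    omega
  · right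
    have hfib : ∀ b ∈ H.image trDet, (H.filter fun a => trDet a = b).card ≤ 120 := by
      intro b _
      have := card_fiber_le_of_index G b (H.filter fun a => trDet a = b) fun g hg => by
        rw [Finset.mem_filter] at hg
        exact ⟨hHG g hg.1, hg.2⟩
      calc (H.filter fun a => trDet a = b).card ≤ 2 * Z.index := this
        _ ≤ 2 * 60 := Nat.mul_le_mul_left 2 hidx
    exact Finset.card_le_mul_card_image H 120 hfib

end Fermat.Agent.S48.H428

end
-- ===== PACK-END S48/H428/Coprime.lean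

-- ===== PACK-BEGIN S54/FrobLift.lean
section


set_option autoImplicit false
set_option linter.style.haveILetI false

open scoped Pointwise

namespace Fermat.Agent.S54

/-- The absolute Galois group acts continuously on the (discrete) ring of all algebraic
integers. -/
theorem continuousSMul_integralClosure :
    letI : TopologicalSpace (integralClosure ℤ (AlgebraicClosure ℚ)) := ⊥
    ContinuousSMul (AlgebraicClosure ℚ ≃ₐ[ℚ] AlgebraicClosure ℚ)
      (integralClosure ℤ (AlgebraicClosure ℚ)) := by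
  letI : TopologicalSpace (integralClosure ℤ (AlgebraicClosure ℚ)) := ⊥
  haveI : DiscreteTopology (integralClosure ℤ (AlgebraicClosure ℚ)) := ⟨rfl⟩
  haveI : Algebra.IsAlgebraic ℚ (AlgebraicClosure ℚ) := AlgebraicClosure.isAlgebraic ℚ
  refine ⟨?_⟩
  rw [continuous_prod_of_discrete_right]
  intro b
  rw [continuous_discrete_rng]
  intro c
  rw [isOpen_iff_mem_nhds]
  intro g hg
  let E : IntermediateField ℚ (AlgebraicClosure ℚ) :=
    IntermediateField.adjoin ℚ {(b : AlgebraicClosure ℚ)}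
  haveI : FiniteDimensional ℚ E :=
    IntermediateField.adjoin.finiteDimensional (Algebra.IsIntegral.isIntegral _)
  have hopen : IsOpen ((g • (E.fixingSubgroup : Set (AlgebraicClosure ℚ ≃ₐ[ℚ] AlgebraicClosure ℚ)))) :=
    (E.fixingSubgroup_isOpen).smul g
  refine Filter.mem_of_superset (hopen.mem_nhds ⟨1, one_mem _, by simp⟩) ?_
  rintro _ ⟨h, hh, rfl⟩
  simp only [Set.mem_preimage, Set.mem_singleton_iff] at hg ⊢
  rw [← hg]
  apply Subtype.ext
  have hb : h (b : AlgebraicClosure ℚ) = b := by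
    have := (IntermediateField.mem_fixingSubgroup_iff E h).mp hh b
      (IntermediateField.subset_adjoin ℚ _ (Set.mem_singleton _))
    exact this
  show (g * h) (b : AlgebraicClosure ℚ) = g (b : AlgebraicClosure ℚ)
  rw [AlgEquiv.mul_apply, hb]

/-- `ℚ̄/ℚ` is Galois. -/
theorem isGalois_algebraicClosure_rat : IsGalois ℚ (AlgebraicClosure ℚ) := by
  haveI : Algebra.IsAlgebraic ℚ (AlgebraicClosure ℚ) := AlgebraicClosure.isAlgebraic ℚ
  haveI : IsAlgClosure ℚ (AlgebraicClosure ℚ) := ⟨inferInstance, inferInstance⟩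
  haveI : Normal ℚ (AlgebraicClosure ℚ) := IsAlgClosure.normal ℚ (AlgebraicClosure ℚ)
  exact isGalois_iff.mpr ⟨inferInstance, inferInstance⟩

/-- The algebraic integers fixed by the whole absolute Galois group are the rational
integers. -/
theorem isInvariant_integralClosure :
    Algebra.IsInvariant ℤ (integralClosure ℤ (AlgebraicClosure ℚ))
      (AlgebraicClosure ℚ ≃ₐ[ℚ] AlgebraicClosure ℚ) := by
  haveI := isGalois_algebraicClosure_rat
  refine ⟨fun b hb => ?_⟩
  have hfix : (b : AlgebraicClosure ℚ) ∈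
      IntermediateField.fixedField (⊤ : Subgroup (AlgebraicClosure ℚ ≃ₐ[ℚ] AlgebraicClosure ℚ)) := by
    rintro ⟨g, -⟩
    exact congrArg Subtype.val (hb g)
  rw [InfiniteGalois.fixedField_bot, IntermediateField.mem_bot] at hfix
  obtain ⟨q, hq⟩ := hfix
  have hint : IsIntegral ℤ (b : AlgebraicClosure ℚ) := b.2
  rw [← hq, isIntegral_algebraMap_iff (FaithfulSMul.algebraMap_injective ℚ (AlgebraicClosure ℚ))]
    at hint
  obtain ⟨n, hn⟩ := IsIntegrallyClosed.algebraMap_eq_of_integral hint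
  refine ⟨n, Subtype.ext ?_⟩
  rw [← hq, ← hn]
  simp

/-- Existence of Frobenius lifts on the ring of all algebraic integers: for every prime ideal
`Q` of `ℤ̄` containing the prime number `ℓ` there is `σ ∈ Gal(ℚ̄/ℚ)` stabilising `Q` and
inducing `x ↦ x ^ ℓ` on `ℤ̄ / Q`. -/
theorem exists_frob_integralClosure (ℓ : ℕ) (hℓ : ℓ.Prime)
    (Q : Ideal (integralClosure ℤ (AlgebraicClosure ℚ))) [Q.IsPrime]
    (hQ : (ℓ : integralClosure ℤ (AlgebraicClosure ℚ)) ∈ Q) :
    ∃ σ : AlgebraicClosure ℚ ≃ₐ[ℚ] AlgebraicClosure ℚ,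
      σ • Q = Q ∧
      ∀ x : integralClosure ℤ (AlgebraicClosure ℚ), σ • x - x ^ ℓ ∈ Q := by
  haveI := isGalois_algebraicClosure_rat
  haveI : Algebra.IsAlgebraic ℚ (AlgebraicClosure ℚ) := AlgebraicClosure.isAlgebraic ℚ
  letI : TopologicalSpace (integralClosure ℤ (AlgebraicClosure ℚ)) := ⊥
  haveI : DiscreteTopology (integralClosure ℤ (AlgebraicClosure ℚ)) := ⟨rfl⟩
  haveI := continuousSMul_integralClosure
  haveI := isInvariant_integralClosure
  haveI hℓfact : Fact ℓ.Prime := ⟨hℓ⟩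
  -- the prime `P = (ℓ)` of `ℤ`
  let P : Ideal ℤ := Ideal.span {(ℓ : ℤ)}
  haveI hPmax : P.IsMaximal :=
    PrincipalIdealRing.isMaximal_of_irreducible
      (Nat.prime_iff_prime_int.mp hℓ).irreducible
  haveI hlies : Q.LiesOver P := by
    refine ⟨?_⟩
    have hle : P ≤ Q.under ℤ := by
      rw [Ideal.span_le, Set.singleton_subset_iff]
      show algebraMap ℤ (integralClosure ℤ (AlgebraicClosure ℚ)) (ℓ : ℤ) ∈ Q
      simpa using hQ
    have hne : Q.under ℤ ≠ ⊤ := (Ideal.IsPrime.under ℤ Q).ne_top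
    exact (hPmax.eq_of_le hne hle)
  -- characteristic of the quotient
  haveI : IsDomain (integralClosure ℤ (AlgebraicClosure ℚ) ⧸ Q) := Ideal.Quotient.isDomain Q
  have hzero : ((ℓ : ℕ) : integralClosure ℤ (AlgebraicClosure ℚ) ⧸ Q) = 0 := by
    have : (Ideal.Quotient.mk Q) (ℓ : integralClosure ℤ (AlgebraicClosure ℚ)) = 0 :=
      Ideal.Quotient.eq_zero_iff_mem.mpr hQ
    simpa using this
  haveI hchar : CharP (integralClosure ℤ (AlgebraicClosure ℚ) ⧸ Q) ℓ :=
    (CharP.charP_iff_prime_eq_zero hℓ).mpr hzero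
  -- the Frobenius as an algebra automorphism
  let f : (integralClosure ℤ (AlgebraicClosure ℚ) ⧸ Q) →ₐ[ℤ ⧸ P]
      (integralClosure ℤ (AlgebraicClosure ℚ) ⧸ Q) :=
    { toRingHom := frobenius (integralClosure ℤ (AlgebraicClosure ℚ) ⧸ Q) ℓ
      commutes' := by
        intro y
        obtain ⟨n, rfl⟩ := Ideal.Quotient.mk_surjective y
        show frobenius _ ℓ (algebraMap (ℤ ⧸ P) _ (Ideal.Quotient.mk P n)) =
          algebraMap (ℤ ⧸ P) _ (Ideal.Quotient.mk P n)
        have h1 : algebraMap (ℤ ⧸ P) (integralClosure ℤ (AlgebraicClosure ℚ) ⧸ Q)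
            (Ideal.Quotient.mk P n) = ((n : ℤ) : integralClosure ℤ (AlgebraicClosure ℚ) ⧸ Q) := by
          rw [← Ideal.Quotient.algebraMap_eq, ← IsScalarTower.algebraMap_apply]
          simp
        rw [h1, map_intCast] }
  have hinj : Function.Injective f := frobenius_inj _ ℓ
  have hsurj : Function.Surjective f := by
    intro y
    obtain ⟨b, rfl⟩ := Ideal.Quotient.mk_surjective y
    obtain ⟨c, hc⟩ := IsAlgClosed.exists_pow_nat_eq (b : AlgebraicClosure ℚ) hℓ.pos
    have hcint : IsIntegral ℤ c := by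
      have hb : IsIntegral ℤ (c ^ ℓ) := hc ▸ b.2
      exact IsIntegral.of_pow hℓ.pos hb
    refine ⟨Ideal.Quotient.mk Q ⟨c, hcint⟩, ?_⟩
    show frobenius _ ℓ (Ideal.Quotient.mk Q ⟨c, hcint⟩) = _
    rw [frobenius_def, ← map_pow]
    congr 1
    exact Subtype.ext hc
  let e : (integralClosure ℤ (AlgebraicClosure ℚ) ⧸ Q) ≃ₐ[ℤ ⧸ P]
      (integralClosure ℤ (AlgebraicClosure ℚ) ⧸ Q) :=
    AlgEquiv.ofBijective f ⟨hinj, hsurj⟩
  obtain ⟨σ, hσ⟩ := Ideal.Quotient.stabilizerHom_surjective_of_profinite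
    (G := AlgebraicClosure ℚ ≃ₐ[ℚ] AlgebraicClosure ℚ) P Q e
  refine ⟨σ.1, σ.2, fun x => ?_⟩
  have h2 := congrArg (fun t => t (Ideal.Quotient.mk Q x)) hσ
  simp only [Ideal.Quotient.stabilizerHom_apply] at h2
  have h3 : e (Ideal.Quotient.mk Q x) = Ideal.Quotient.mk Q (x ^ ℓ) := by
    show frobenius _ ℓ (Ideal.Quotient.mk Q x) = _
    rw [frobenius_def, map_pow]
  rw [h3] at h2
  rw [← Ideal.Quotient.eq]
  exact h2

end Fermat.Agent.S54

end
-- ===== PACK-END S54/FrobLift.lean

-- ===== PACK-BEGIN S54/ValRing.lean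
section



set_option autoImplicit false

namespace Fermat.Agent.S54

open Polynomial

/-- Valuation subrings contain all algebraic integers. -/
theorem isIntegral_mem_valuationSubring {K : Type*} [Field K] (A : ValuationSubring K)
    {b : K} (hb : IsIntegral ℤ b) : b ∈ A := by
  have h1 : IsIntegral A.toSubring b := by
    obtain ⟨p, hp, hpb⟩ := hb
    refine ⟨p.map (algebraMap ℤ A.toSubring), hp.map _, ?_⟩
    rw [Polynomial.eval₂_map]
    have : (algebraMap A.toSubring K).comp (algebraMap ℤ A.toSubring) = algebraMap ℤ K := by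
      ext; simp
    rw [this]
    exact hpb
  have h2 := (IsIntegrallyClosed.isIntegral_iff (R := A) (K := K)).mp h1
  obtain ⟨y, hy⟩ := h2
  rw [← hy]
  exact y.2

/-- An element lying in every valuation subring is integral over `ℤ`. -/
theorem isIntegral_of_forall_mem_valuationSubring {K : Type*} [Field K] (y : K)
    (H : ∀ V : ValuationSubring K, y ∈ V) : IsIntegral ℤ y := by
  by_contra hy
  let R : Subring K := (integralClosure ℤ K).toSubring
  have hyR : y ∉ R := hy
  have : IsIntegrallyClosedIn R K := inferInstanceAs (IsIntegrallyClosedIn (integralClosure ℤ K) K)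
  obtain ⟨V, -, hV⟩ := R.exists_le_valuationSubring_of_isIntegrallyClosedIn hyR
  exact hV (H V)

theorem aeval_mem_valuationSubring {K : Type*} [Field K] (V : ValuationSubring K) {x : K}
    (hx : x ∈ V) (q : ℤ[X]) : aeval x q ∈ V := by
  induction q using Polynomial.induction_on with
  | C a => simp
  | add p q hp hq => rw [map_add]; exact V.add_mem _ _ hp hq
  | monomial n a h =>
    rw [pow_succ, ← mul_assoc, map_mul, aeval_X]
    exact V.mul_mem _ _ h hx

theorem coeff_iterate_divX (p : ℤ[X]) (r n : ℕ) :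
    ((divX^[r]) p).coeff n = p.coeff (n + r) := by
  induction r generalizing n with
  | zero => simp
  | succ r ih =>
    rw [Function.iterate_succ_apply', coeff_divX, ih]
    congr 1
    ring

/-- The Horner recursion for the tails `divX^[r] p` of a polynomial. -/
theorem aeval_iterate_divX {K : Type*} [Field K] (x : K) (p : ℤ[X]) (r : ℕ) :
    aeval x ((divX^[r]) p) = aeval x ((divX^[r + 1]) p) * x + (p.coeff r : K) := by
  conv_lhs => rw [← divX_mul_X_add ((divX^[r]) p)]
  rw [map_add, map_mul, aeval_X, aeval_C, coeff_iterate_divX, zero_add,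
    Function.iterate_succ_apply']
  simp

/-- The Horner tails of an integer polynomial killing `x` lie in every valuation subring. -/
theorem horner_mem_valuationSubring {K : Type*} [Field K] (x : K) (p : ℤ[X])
    (hp : aeval x p = 0) (V : ValuationSubring K) (r : ℕ) :
    aeval x ((divX^[r]) p) ∈ V := by
  rcases V.mem_or_inv_mem x with hx | hx
  · exact aeval_mem_valuationSubring V hx _
  · induction r with
    | zero => simp [hp]
    | succ r ih =>
      have h := aeval_iterate_divX x p r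
      by_cases hx0 : x = 0
      · exact aeval_mem_valuationSubring V (hx0 ▸ V.zero_mem) _
      have : aeval x ((divX^[r + 1]) p) = x⁻¹ * (aeval x ((divX^[r]) p) - (p.coeff r : K)) := by
        rw [h]; field_simp; ring
      rw [this]
      exact V.mul_mem _ _ hx (sub_mem ih (intCast_mem V _))

theorem horner_isIntegral {K : Type*} [Field K] (x : K) (p : ℤ[X])
    (hp : aeval x p = 0) (r : ℕ) :
    IsIntegral ℤ (aeval x ((divX^[r]) p)) :=
  isIntegral_of_forall_mem_valuationSubring _ fun V => horner_mem_valuationSubring x p hp V r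

theorem horner_mul_isIntegral {K : Type*} [Field K] (x : K) (p : ℤ[X])
    (hp : aeval x p = 0) (r : ℕ) :
    IsIntegral ℤ (x * aeval x ((divX^[r + 1]) p)) := by
  have h := aeval_iterate_divX x p r
  have : x * aeval x ((divX^[r + 1]) p) = aeval x ((divX^[r]) p) - (p.coeff r : K) := by
    rw [h]; ring
  rw [this]
  exact (horner_isIntegral x p hp r).sub isIntegral_algebraMap

/-- An integer which is a non-unit of a valuation subring over `ℓ` is divisible by `ℓ`. -/
theorem dvd_of_intCast_mem_nonunits {K : Type*} [Field K] (A : ValuationSubring K) (ℓ : ℕ)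
    (hℓ : ℓ.Prime) (hA : A.LiesOverPrime ℓ) (a : ℤ) (ha : (a : K) ∈ A.nonunits) :
    (ℓ : ℤ) ∣ a := by
  by_contra hdvd
  have hcop : IsCoprime (ℓ : ℤ) a :=
    (Nat.prime_iff_prime_int.mp hℓ).coprime_iff_not_dvd.mpr hdvd
  obtain ⟨u, v, huv⟩ := hcop
  have h1 : ((u * ℓ + v * a : ℤ) : K) ∈ A.nonunits := by
    push_cast
    refine A.nonunits.add_mem ?_ ?_
    · obtain ⟨h1, h2⟩ := ValuationSubring.mem_nonunits_iff_exists_mem_maximalIdeal.mp hA
      have := Ideal.mul_mem_left _ (⟨(u : K), intCast_mem A u⟩ : A) h2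
      exact ValuationSubring.mem_nonunits_iff_exists_mem_maximalIdeal.mpr ⟨_, this⟩
    · obtain ⟨h1, h2⟩ := ValuationSubring.mem_nonunits_iff_exists_mem_maximalIdeal.mp ha
      have := Ideal.mul_mem_left _ (⟨(v : K), intCast_mem A v⟩ : A) h2
      exact ValuationSubring.mem_nonunits_iff_exists_mem_maximalIdeal.mpr ⟨_, this⟩
  rw [huv, ValuationSubring.mem_nonunits_iff] at h1
  simp at h1

/-- (4b) A valuation subring over `ℓ` of an algebraic extension of `ℚ` is the localisation of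
the ring of algebraic integers at the prime below it. -/
theorem mem_valuationSubring_iff {K : Type*} [Field K] [CharZero K] [Algebra.IsAlgebraic ℚ K]
    (A : ValuationSubring K) (ℓ : ℕ)
    (hℓ : ℓ.Prime) (hA : A.LiesOverPrime ℓ) (x : K) :
    x ∈ A ↔ ∃ b s, IsIntegral ℤ b ∧ IsIntegral ℤ s ∧ s ∉ A.nonunits ∧ x * s = b := by
  constructor
  · intro hx
    -- a primitive integer polynomial killing `x`
    have halg : IsAlgebraic ℤ x :=
      (IsFractionRing.isAlgebraic_iff ℤ ℚ K).mpr (Algebra.IsAlgebraic.isAlgebraic x)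
    obtain ⟨f, hf0, hfx⟩ := halg
    set p := f.primPart with hp
    have hpprim : p.IsPrimitive := f.isPrimitive_primPart
    have hpx : aeval x p = 0 := by
      have h1 : f = C f.content * p := f.eq_C_content_mul_primPart
      rw [h1, map_mul, aeval_C] at hfx
      rcases mul_eq_zero.mp hfx with h | h
      · exfalso
        have : f.content = 0 := by simpa using h
        exact hf0 (Polynomial.content_eq_zero_iff.mp this)
      · exact h
    -- some coefficient is not in the maximal ideal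
    have hcoeff : ∃ i, ((p.coeff i : ℤ) : K) ∉ A.nonunits := by
      by_contra hcon
      push Not at hcon
      have hdvd : C (ℓ : ℤ) ∣ p := by
        rw [Polynomial.C_dvd_iff_dvd_coeff]
        intro i
        exact dvd_of_intCast_mem_nonunits A ℓ hℓ hA _ (hcon i)
      have hu := hpprim _ hdvd
      rw [Int.isUnit_iff] at hu
      have := hℓ.one_lt
      omega
    -- some Horner tail is a unit
    have hex : ∃ r, aeval x ((divX^[r + 1]) p) ∉ A.nonunits := by
      by_contra hcon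
      push Not at hcon
      obtain ⟨i, hi⟩ := hcoeff
      apply hi
      have h := aeval_iterate_divX x p i
      have h2 : ((p.coeff i : ℤ) : K) =
          aeval x ((divX^[i]) p) - aeval x ((divX^[i + 1]) p) * x := by
        rw [h]; ring
      rw [h2]
      have hmul : aeval x ((divX^[i + 1]) p) * x ∈ A.nonunits := by
        obtain ⟨h1, h2⟩ := ValuationSubring.mem_nonunits_iff_exists_mem_maximalIdeal.mp (hcon i)
        have := Ideal.mul_mem_right (⟨x, hx⟩ : A) _ h2
        exact ValuationSubring.mem_nonunits_iff_exists_mem_maximalIdeal.mpr ⟨_, this⟩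
      refine A.nonunits.sub_mem ?_ hmul
      rcases i with _ | i
      · simp [hpx, A.nonunits.zero_mem]
      · exact hcon i
    obtain ⟨r, hr⟩ := hex
    exact ⟨x * aeval x ((divX^[r + 1]) p), aeval x ((divX^[r + 1]) p),
      horner_mul_isIntegral x p hpx r, horner_isIntegral x p hpx (r + 1), hr, rfl⟩
  · rintro ⟨b, s, hb, hs, hsA, hxs⟩
    have hbA : b ∈ A := isIntegral_mem_valuationSubring A hb
    have hs0 : s ≠ 0 := fun h => hsA (h ▸ A.nonunits.zero_mem)
    have hsinv : s⁻¹ ∈ A := by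
      by_contra h
      exact hsA (A.mem_nonunits_iff_or.mpr (Or.inr h))
    have : x = b * s⁻¹ := by
      rw [← hxs]; field_simp
    rw [this]
    exact A.mul_mem _ _ hbA hsinv

end Fermat.Agent.S54

end
-- ===== PACK-END S54/ValRing.lean

-- ===== PACK-BEGIN S54/FrobExists.lean
section




set_option autoImplicit false

namespace Fermat.Agent.S54

open scoped Pointwise

/-- The prime of the ring of algebraic integers below a valuation subring. -/
def primeBelow (A : ValuationSubring (AlgebraicClosure ℚ)) :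
    Ideal (integralClosure ℤ (AlgebraicClosure ℚ)) where
  carrier := {b | (b : AlgebraicClosure ℚ) ∈ A.nonunits}
  add_mem' := fun {a b} ha hb => A.nonunits.add_mem ha hb
  zero_mem' := A.nonunits.zero_mem
  smul_mem' := fun c b hb => by
    obtain ⟨hb1, hb2⟩ := ValuationSubring.mem_nonunits_iff_exists_mem_maximalIdeal.mp hb
    have hc : (c : AlgebraicClosure ℚ) ∈ A := isIntegral_mem_valuationSubring A c.2
    have := Ideal.mul_mem_left _ (⟨c, hc⟩ : A) hb2
    exact ValuationSubring.mem_nonunits_iff_exists_mem_maximalIdeal.mpr ⟨_, this⟩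

theorem mem_primeBelow (A : ValuationSubring (AlgebraicClosure ℚ))
    (b : integralClosure ℤ (AlgebraicClosure ℚ)) :
    b ∈ primeBelow A ↔ (b : AlgebraicClosure ℚ) ∈ A.nonunits := Iff.rfl

theorem primeBelow_isPrime (A : ValuationSubring (AlgebraicClosure ℚ)) :
    (primeBelow A).IsPrime := by
  constructor
  · intro h
    have : (1 : integralClosure ℤ (AlgebraicClosure ℚ)) ∈ primeBelow A := by
      rw [h]; trivial
    rw [mem_primeBelow, ValuationSubring.mem_nonunits_iff] at this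
    simp at this
  · intro a b hab
    rw [mem_primeBelow, ValuationSubring.mem_nonunits_iff] at hab ⊢
    rw [mem_primeBelow, ValuationSubring.mem_nonunits_iff]
    have ha : A.valuation (a : AlgebraicClosure ℚ) ≤ 1 :=
      (A.valuation_le_one_iff _).mpr (isIntegral_mem_valuationSubring A a.2)
    have hb : A.valuation (b : AlgebraicClosure ℚ) ≤ 1 :=
      (A.valuation_le_one_iff _).mpr (isIntegral_mem_valuationSubring A b.2)
    by_contra hcon
    rw [not_or, not_lt, not_lt] at hcon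
    have ha1 : A.valuation (a : AlgebraicClosure ℚ) = 1 := le_antisymm ha hcon.1
    have hb1 : A.valuation (b : AlgebraicClosure ℚ) = 1 := le_antisymm hb hcon.2
    have : A.valuation ((a * b : integralClosure ℤ (AlgebraicClosure ℚ)) : AlgebraicClosure ℚ)
        = 1 := by
      push_cast
      rw [map_mul, ha1, hb1, mul_one]
    exact absurd hab (by rw [this]; exact lt_irrefl _)

/-- There is a valuation subring of `ℚ̄` over every prime number. -/
theorem exists_valuationSubring_liesOver (ℓ : ℕ) (hℓ : ℓ.Prime) :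
    ∃ A : ValuationSubring (AlgebraicClosure ℚ), A.LiesOverPrime ℓ := by
  let A₀ : Subring (AlgebraicClosure ℚ) := (algebraMap ℤ (AlgebraicClosure ℚ)).range
  let l₀ : A₀ := ⟨(ℓ : AlgebraicClosure ℚ), ⟨(ℓ : ℤ), by simp⟩⟩
  have hI : Ideal.span {l₀} ≠ ⊤ := by
    intro h
    rw [Ideal.span_singleton_eq_top] at h
    obtain ⟨⟨m, n, rfl⟩, hm⟩ := h.exists_right_inv
    have h1 : ((ℓ : ℤ) : AlgebraicClosure ℚ) * ((n : ℤ) : AlgebraicClosure ℚ) = 1 := by
      have := congrArg Subtype.val hm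
      simpa [l₀] using this
    have h2 : (ℓ : ℤ) * n = 1 := by exact_mod_cast h1
    have h3 : (ℓ : ℤ) ∣ 1 := ⟨n, h2.symm⟩
    have h4 : ℓ ∣ 1 := by exact_mod_cast h3
    exact hℓ.one_lt.ne' (Nat.dvd_one.mp h4)
  obtain ⟨A, -, hA⟩ := Ideal.image_subset_nonunits_valuationSubring _ hI
  refine ⟨A, ?_⟩
  apply hA
  exact ⟨l₀, Ideal.subset_span rfl, rfl⟩

/-- Existence of Frobenius elements in the absolute Galois group of `ℚ`: for every prime
number `ℓ` there are a valuation subring `A` of `ℚ̄` over `ℓ` and `σ ∈ Gal(ℚ̄/ℚ)` which is a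
Frobenius element at `A`. -/
theorem exists_frobenius (ℓ : ℕ) (hℓ : ℓ.Prime) :
    ∃ (A : ValuationSubring (AlgebraicClosure ℚ))
      (σ : AlgebraicClosure ℚ ≃ₐ[ℚ] AlgebraicClosure ℚ),
      A.LiesOverPrime ℓ ∧ A.IsFrobeniusAt σ ℓ := by
  have : Algebra.IsAlgebraic ℚ (AlgebraicClosure ℚ) := AlgebraicClosure.isAlgebraic ℚ
  obtain ⟨A, hA⟩ := exists_valuationSubring_liesOver ℓ hℓ
  have := primeBelow_isPrime A
  have hℓQ : (ℓ : integralClosure ℤ (AlgebraicClosure ℚ)) ∈ primeBelow A := by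
    rw [mem_primeBelow]
    exact hA
  obtain ⟨σ, hσQ', hσF⟩ := exists_frob_integralClosure ℓ hℓ (primeBelow A) hℓQ
  have hσQ : ∀ x, σ • x ∈ primeBelow A ↔ x ∈ primeBelow A := by
    intro x
    conv_lhs => rw [← hσQ']
    exact Ideal.smul_mem_pointwise_smul_iff
  have key : ∀ τ : AlgebraicClosure ℚ ≃ₐ[ℚ] AlgebraicClosure ℚ,
      (∀ x, τ • x ∈ primeBelow A ↔ x ∈ primeBelow A) → ∀ x ∈ A, τ x ∈ A := by
    intro τ hτ x hx
    obtain ⟨b, s, hb, hs, hsA, hxs⟩ := (mem_valuationSubring_iff A ℓ hℓ hA x).mp hx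
    refine (mem_valuationSubring_iff A ℓ hℓ hA (τ x)).mpr
      ⟨τ b, τ s, hb.map τ, hs.map τ, ?_, ?_⟩
    · exact (hτ ⟨s, hs⟩).not.mpr hsA
    · rw [← map_mul, hxs]
  have hσA : σ ∈ A.decompositionSubgroup ℚ := by
    rw [MulAction.mem_stabilizer_iff]
    ext x
    rw [ValuationSubring.mem_smul_pointwise_iff_exists]
    constructor
    · rintro ⟨s, hs, rfl⟩
      exact key σ hσQ s hs
    · intro hx
      refine ⟨σ⁻¹ • x, key σ⁻¹ ?_ x hx, by simp⟩
      intro y
      rw [← hσQ (σ⁻¹ • y)]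
      simp
  refine ⟨A, σ, hA, hσA, ?_⟩
  intro x
  obtain ⟨a, rfl⟩ := IsLocalRing.residue_surjective x
  obtain ⟨b, s, hb, hs, hsA, hxs⟩ := (mem_valuationSubring_iff A ℓ hℓ hA a).mp a.2
  have hbA : b ∈ A := isIntegral_mem_valuationSubring A hb
  have hsA' : s ∈ A := isIntegral_mem_valuationSubring A hs
  have hint : ∀ (y : AlgebraicClosure ℚ) (hy : IsIntegral ℤ y),
      (⟨σ, hσA⟩ : A.decompositionSubgroup ℚ) •
        IsLocalRing.residue A ⟨y, isIntegral_mem_valuationSubring A hy⟩ =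
      (IsLocalRing.residue A ⟨y, isIntegral_mem_valuationSubring A hy⟩) ^ ℓ := by
    intro y hy
    rw [← IsLocalRing.ResidueField.residue_smul, ← map_pow, ← sub_eq_zero, ← map_sub,
      IsLocalRing.residue_eq_zero_iff, ← ValuationSubring.coe_mem_nonunits_iff]
    exact hσF ⟨y, hy⟩
  have h1 : IsLocalRing.residue A a * IsLocalRing.residue A ⟨s, hsA'⟩ =
      IsLocalRing.residue A ⟨b, hbA⟩ := by
    rw [← map_mul]
    congr 1
    exact Subtype.ext hxs
  have h2 : IsLocalRing.residue A ⟨s, hsA'⟩ ≠ 0 := by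
    rw [Ne, IsLocalRing.residue_eq_zero_iff, ← ValuationSubring.coe_mem_nonunits_iff]
    exact hsA
  have h3 := congrArg (fun z => (⟨σ, hσA⟩ : A.decompositionSubgroup ℚ) • z) h1
  simp only [smul_mul'] at h3
  rw [hint s hs, hint b hb, ← h1, mul_pow] at h3
  exact mul_right_cancel₀ (pow_ne_zero _ h2) h3

end Fermat.Agent.S54

end
-- ===== PACK-END S54/FrobExists.lean

-- ===== PACK-BEGIN Lib/Cheb/H761/Sieve.lean
section


/-!
# Euler products over the prime ideals of a Dedekind domain, sieve form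

Let `R` be a Dedekind domain and `f : Ideal R → 𝕜` a summable, completely multiplicative function
(`f (I * J) = f I * f J`, `f ⊤ = 1`).  For a set `S` of nonzero primes let `sieveSet S` be the set
of nonzero ideals divisible by no prime of `S`.  Then

* `tsum_sieve_finset` : `∑_{I ∈ sieveSet T} f I = ∏_{𝔭 ∈ T} (1 - f 𝔭) * ∑_{I ≠ 0} f I`
  for every finite set `T` of primes;
* `tendsto_tsum_sieve` : `∑_{I ∈ sieveSet T} f I → 1` along `T → all primes`;
* `tendsto_prod_one_sub` : `∏_{𝔭 ∈ T} (1 - f 𝔭) → (∑_{I ≠ 0} f I)⁻¹`, and `∑_{I ≠ 0} f I ≠ 0`.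
-/

set_option autoImplicit false

namespace Fermat.Agent.Lib.Cheb.H761

open IsDedekindDomain Filter Topology

section Sieve

set_option linter.unusedSectionVars false

variable {R : Type*} [CommRing R] [IsDedekindDomain R]

/-- nonzero ideals not divisible by any prime of `S` -/
def sieveSet (S : Set (HeightOneSpectrum R)) : Set (Ideal R) :=
  {I | I ≠ ⊥ ∧ ∀ 𝔭 ∈ S, ¬ I ≤ 𝔭.asIdeal}

lemma mem_sieveSet {S : Set (HeightOneSpectrum R)} {I : Ideal R} :
    I ∈ sieveSet S ↔ I ≠ ⊥ ∧ ∀ 𝔭 ∈ S, ¬ I ≤ 𝔭.asIdeal := Iff.rfl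

lemma mem_sieveSet_empty {I : Ideal R} :
    I ∈ sieveSet (∅ : Set (HeightOneSpectrum R)) ↔ I ≠ ⊥ := by
  simp [sieveSet]

lemma top_mem_sieveSet (S : Set (HeightOneSpectrum R)) : (⊤ : Ideal R) ∈ sieveSet S := by
  refine ⟨top_ne_bot, fun 𝔭 _ h => ?_⟩
  exact 𝔭.isPrime.ne_top (top_le_iff.mp h)

lemma sieveSet_anti {S T : Set (HeightOneSpectrum R)} (h : S ⊆ T) : sieveSet T ⊆ sieveSet S :=
  fun _ hI => ⟨hI.1, fun 𝔭 h𝔭 => hI.2 𝔭 (h h𝔭)⟩

lemma mul_mem_sieveSet {S : Set (HeightOneSpectrum R)} {𝔭 : HeightOneSpectrum R} (h𝔭 : 𝔭 ∉ S)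
    {J : Ideal R} (hJ : J ∈ sieveSet S) : 𝔭.asIdeal * J ∈ sieveSet S := by
  refine ⟨?_, fun 𝔮 h𝔮 hle => ?_⟩
  · rw [← Ideal.zero_eq_bot]
    exact mul_ne_zero (by rw [Ideal.zero_eq_bot]; exact 𝔭.ne_bot)
      (by rw [Ideal.zero_eq_bot]; exact hJ.1)
  · rcases 𝔮.isPrime.mul_le.mp hle with h | h
    · have : 𝔭 = 𝔮 := by
        apply HeightOneSpectrum.ext
        exact (𝔭.isMaximal.eq_of_le 𝔮.isPrime.ne_top h)
      exact h𝔭 (this ▸ h𝔮)
    · exact hJ.2 𝔮 h𝔮 h

lemma sieveSet_eq_union (S : Set (HeightOneSpectrum R)) {𝔭 : HeightOneSpectrum R} (h𝔭 : 𝔭 ∉ S) :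
    sieveSet S = sieveSet (insert 𝔭 S) ∪ (fun I => 𝔭.asIdeal * I) '' sieveSet S := by
  ext I
  constructor
  · intro hI
    by_cases hle : I ≤ 𝔭.asIdeal
    · right
      obtain ⟨J, rfl⟩ := Ideal.dvd_iff_le.mpr hle
      refine ⟨J, ⟨?_, fun 𝔮 h𝔮 hJ => ?_⟩, rfl⟩
      · rintro rfl
        exact hI.1 (by simp)
      · exact hI.2 𝔮 h𝔮 (Ideal.mul_le_right.trans hJ)
    · left
      refine ⟨hI.1, fun 𝔮 h𝔮 => ?_⟩
      rcases Set.mem_insert_iff.mp h𝔮 with rfl | h
      · exact hle
      · exact hI.2 𝔮 h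
  · rintro (hI | ⟨J, hJ, rfl⟩)
    · exact sieveSet_anti (Set.subset_insert _ _) hI
    · exact mul_mem_sieveSet h𝔭 hJ

lemma disjoint_sieveSet_image (S : Set (HeightOneSpectrum R)) (𝔭 : HeightOneSpectrum R) :
    Disjoint (sieveSet (insert 𝔭 S)) ((fun I => 𝔭.asIdeal * I) '' sieveSet S) := by
  rw [Set.disjoint_left]
  rintro I hI ⟨J, -, rfl⟩
  exact hI.2 𝔭 (Set.mem_insert _ _) (show 𝔭.asIdeal * J ≤ 𝔭.asIdeal from Ideal.mul_le_left)

lemma injOn_mul (S : Set (HeightOneSpectrum R)) (𝔭 : HeightOneSpectrum R) :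
    Set.InjOn (fun I => 𝔭.asIdeal * I) (sieveSet S) := by
  intro I _ J _ h
  have h0 : 𝔭.asIdeal ≠ 0 := by rw [Ideal.zero_eq_bot]; exact 𝔭.ne_bot
  exact mul_left_cancel₀ h0 h

variable {𝕜 : Type*} [NormedField 𝕜] [CompleteSpace 𝕜] {f : Ideal R → 𝕜}

/-- One sieve step. -/
theorem tsum_sieve_insert (hf : Summable f) (hmul : ∀ I J, f (I * J) = f I * f J)
    (S : Set (HeightOneSpectrum R)) {𝔭 : HeightOneSpectrum R} (h𝔭 : 𝔭 ∉ S) :
    ∑' I : sieveSet (insert 𝔭 S), f I = (1 - f 𝔭.asIdeal) * ∑' I : sieveSet S, f I := by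
  have h1 : ∑' I : sieveSet S, f I =
      ∑' I : ↥(sieveSet (insert 𝔭 S) ∪ (fun I => 𝔭.asIdeal * I) '' sieveSet S), f I :=
    tsum_congr_set_coe f (sieveSet_eq_union S h𝔭)
  rw [(hf.subtype _).tsum_union_disjoint (disjoint_sieveSet_image S 𝔭) (hf.subtype _),
    tsum_image f (injOn_mul S 𝔭)] at h1
  simp only [hmul] at h1
  rw [tsum_mul_left] at h1
  linear_combination -h1

/-- Finitely many sieve steps. -/
theorem tsum_sieve_finset (hf : Summable f) (hmul : ∀ I J, f (I * J) = f I * f J)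
    (T : Finset (HeightOneSpectrum R)) :
    ∑' I : sieveSet (T : Set (HeightOneSpectrum R)), f I =
      (∏ 𝔭 ∈ T, (1 - f 𝔭.asIdeal)) * ∑' I : sieveSet (∅ : Set (HeightOneSpectrum R)), f I := by
  classical
  induction T using Finset.induction_on with
  | empty =>
    rw [Finset.prod_empty, one_mul]
    exact tsum_congr_set_coe f (by rw [Finset.coe_empty])
  | insert 𝔭 T h𝔭 ih =>
    rw [Finset.coe_insert, tsum_sieve_insert hf hmul _ (by simpa using h𝔭), ih,
      Finset.prod_insert h𝔭, mul_assoc]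

/-- Every nonzero proper ideal is contained in a nonzero prime. -/
lemma exists_le_heightOneSpectrum {I : Ideal R} (h0 : I ≠ ⊥) (h1 : I ≠ ⊤) :
    ∃ 𝔭 : HeightOneSpectrum R, I ≤ 𝔭.asIdeal := by
  obtain ⟨M, hM, hle⟩ := Ideal.exists_le_maximal I h1
  refine ⟨⟨M, hM.isPrime, ?_⟩, hle⟩
  rintro rfl
  exact h0 (le_bot_iff.mp hle)

/-- The sieved sums tend to `1`. -/
theorem tendsto_tsum_sieve (hf : Summable f) (h1 : f ⊤ = 1) :
    Tendsto (fun T : Finset (HeightOneSpectrum R) =>
      ∑' I : sieveSet (T : Set (HeightOneSpectrum R)), f I) atTop (𝓝 1) := by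
  classical
  rw [tendsto_nhds]
  intro e he_open he1
  have he0 : (fun x : 𝕜 => 1 + x) ⁻¹' e ∈ 𝓝 (0 : 𝕜) := by
    apply (continuous_const.add continuous_id).continuousAt.preimage_mem_nhds
    simpa using he_open.mem_nhds he1
  obtain ⟨A, hA⟩ := hf.tsum_vanishing he0
  -- a prime above each nonzero proper ideal of `A`
  let g : Ideal R → Finset (HeightOneSpectrum R) := fun I =>
    if h : I ≠ ⊥ ∧ I ≠ ⊤ then {(exists_le_heightOneSpectrum h.1 h.2).choose} else ∅
  have hg : ∀ I, I ≠ ⊥ → I ≠ ⊤ → ∃ 𝔭 ∈ g I, I ≤ 𝔭.asIdeal := by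
    intro I h0 h1
    refine ⟨(exists_le_heightOneSpectrum h0 h1).choose, ?_,
      (exists_le_heightOneSpectrum h0 h1).choose_spec⟩
    simp only [g, dif_pos (And.intro h0 h1), Finset.mem_singleton]
  rw [Filter.mem_atTop_sets]
  refine ⟨A.biUnion g, fun T hT => ?_⟩
  rw [Set.mem_preimage]
  -- split off the unit ideal
  have hsplit : sieveSet (T : Set (HeightOneSpectrum R)) =
      {⊤} ∪ (sieveSet (T : Set (HeightOneSpectrum R)) \ {⊤}) := by
    rw [Set.union_sdiff_self, Set.union_eq_self_of_subset_left]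
    exact Set.singleton_subset_iff.mpr (top_mem_sieveSet _)
  have hdisj : Disjoint ({⊤} : Set (Ideal R))
      (sieveSet (T : Set (HeightOneSpectrum R)) \ {⊤}) := Set.disjoint_sdiff_right
  have hsum : ∑' I : sieveSet (T : Set (HeightOneSpectrum R)), f I =
      1 + ∑' I : ↥(sieveSet (T : Set (HeightOneSpectrum R)) \ {⊤}), f I := by
    rw [tsum_congr_set_coe f hsplit,
      (hf.subtype _).tsum_union_disjoint hdisj (hf.subtype _), tsum_singleton (⊤ : Ideal R) f, h1]
  rw [hsum]
  apply hA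
  rw [Set.disjoint_left]
  rintro I ⟨hI, hItop⟩ hIA
  obtain ⟨𝔭, h𝔭, hle⟩ := hg I hI.1 (by simpa using hItop)
  exact hI.2 𝔭 (Finset.mem_coe.mpr (hT (Finset.mem_biUnion.mpr ⟨I, hIA, h𝔭⟩))) hle

/-- The sum over all nonzero ideals is nonzero. -/
theorem tsum_sieve_empty_ne_zero (hf : Summable f) (hmul : ∀ I J, f (I * J) = f I * f J)
    (h1 : f ⊤ = 1) : ∑' I : sieveSet (∅ : Set (HeightOneSpectrum R)), f I ≠ 0 := by
  intro h0
  have h := tendsto_tsum_sieve hf h1
  simp only [tsum_sieve_finset hf hmul, h0, mul_zero] at h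
  exact zero_ne_one (tendsto_nhds_unique tendsto_const_nhds h)

/-- **Euler product**: the finite products `∏_{𝔭 ∈ T} (1 - f 𝔭)` tend to the inverse of the sum of
`f` over all nonzero ideals. -/
theorem tendsto_prod_one_sub (hf : Summable f) (hmul : ∀ I J, f (I * J) = f I * f J)
    (h1 : f ⊤ = 1) :
    Tendsto (fun T : Finset (HeightOneSpectrum R) => ∏ 𝔭 ∈ T, (1 - f 𝔭.asIdeal)) atTop
      (𝓝 (∑' I : sieveSet (∅ : Set (HeightOneSpectrum R)), f I)⁻¹) := by
  have hZ := tsum_sieve_empty_ne_zero hf hmul h1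
  have h := (tendsto_tsum_sieve hf h1).mul_const
    (∑' I : sieveSet (∅ : Set (HeightOneSpectrum R)), f I)⁻¹
  simp only [tsum_sieve_finset hf hmul, one_mul] at h
  refine h.congr fun T => ?_
  rw [mul_assoc, mul_inv_cancel₀ hZ, mul_one]

/-- **Euler product**, `HasProd` form. -/
theorem hasProd_one_sub (hf : Summable f) (hmul : ∀ I J, f (I * J) = f I * f J)
    (h1 : f ⊤ = 1) :
    HasProd (fun 𝔭 : HeightOneSpectrum R => 1 - f 𝔭.asIdeal)
      (∑' I : sieveSet (∅ : Set (HeightOneSpectrum R)), f I)⁻¹ := by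
  simpa [HasProd] using tendsto_prod_one_sub hf hmul h1

end Sieve

end Fermat.Agent.Lib.Cheb.H761

end
-- ===== PACK-END Lib/Cheb/H761/Sieve.lean

-- ===== PACK-BEGIN Lib/Cheb/H761/ZetaEuler.lean
section


/-!
# Euler product and prime-ideal sum for the Dedekind zeta function

For a number field `K` and real `s > 1`:
* `zetaI K s = ∑_I N(I)^(-s)` (sum over all ideals; the zero ideal contributes `0`), equal to
  Mathlib's `dedekindZeta K s`;
* `tendsto_prod_zetaI` : `∏_{𝔭 ∈ T} (1 - N𝔭^(-s)) → (zetaI K s)⁻¹`;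
* `primeSum K s = ∑_𝔭 N𝔭^(-s)` and `primeSum K s ≤ log (zetaI K s) ≤ primeSum K s + 2 primeSum K (2 s)`;
* `exists_primeSum_bound` : `|primeSum K s - log (1 / (s - 1))| ≤ C` for `1 < s ≤ 2`.
-/

set_option autoImplicit false

namespace Fermat.Agent.Lib.Cheb.H761

open IsDedekindDomain Filter Topology NumberField Ideal Asymptotics

set_option linter.unusedSectionVars false
set_option linter.unusedVariables false

noncomputable section

variable (K : Type*) [Field K] [NumberField K]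

/-- `N(I)^(-s)` -/
def normPow (s : ℝ) (I : Ideal (𝓞 K)) : ℝ := (absNorm I : ℝ) ^ (-s)

lemma normPow_nonneg (s : ℝ) (I : Ideal (𝓞 K)) : 0 ≤ normPow K s I :=
  Real.rpow_nonneg (Nat.cast_nonneg _) _

lemma normPow_mul (s : ℝ) (I J : Ideal (𝓞 K)) :
    normPow K s (I * J) = normPow K s I * normPow K s J := by
  simp only [normPow, map_mul, Nat.cast_mul]
  exact Real.mul_rpow (Nat.cast_nonneg _) (Nat.cast_nonneg _)

lemma normPow_top (s : ℝ) : normPow K s ⊤ = 1 := by
  simp [normPow]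

lemma normPow_bot {s : ℝ} (hs : s ≠ 0) : normPow K s ⊥ = 0 := by
  simp [normPow, Real.zero_rpow (neg_ne_zero.mpr hs)]

/-- number of ideals of norm `n` -/
def idealCount (n : ℕ) : ℕ := Nat.card {I : Ideal (𝓞 K) // absNorm I = n}

/-- The sum of `N(I)^(-s)` over all ideals of norm `n`. -/
lemma tsum_fiber (s : ℝ) (n : ℕ) :
    ∑' I : {I : Ideal (𝓞 K) // absNorm I = n}, normPow K s I.1 =
      (idealCount K n : ℝ) * (n : ℝ) ^ (-s) := by
  have hfin : Finite {I : Ideal (𝓞 K) // absNorm I = n} :=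
    (Ideal.finite_setOfPred_absNorm_eq n).to_subtype
  have : Fintype {I : Ideal (𝓞 K) // absNorm I = n} := Fintype.ofFinite _
  rw [tsum_fintype]
  have : ∀ I : {I : Ideal (𝓞 K) // absNorm I = n}, normPow K s I.1 = (n : ℝ) ^ (-s) := by
    intro I
    simp only [normPow, I.2]
  simp only [this, Finset.sum_const, Finset.card_univ, nsmul_eq_mul, idealCount,
    Nat.card_eq_fintype_card]

lemma tendsto_sum_idealCount_div :
    Tendsto (fun n : ℕ ↦ (∑ k ∈ Finset.Icc 1 n, (idealCount K k : ℝ)) / (n : ℝ)) atTop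
      (𝓝 (dedekindZeta_residue K)) := by
  refine ((Ideal.tendsto_norm_le_div_atTop₀ K).comp tendsto_natCast_atTop_atTop).congr fun n ↦ ?_
  simp only [Function.comp_apply, Nat.cast_le, idealCount, ← Nat.cast_sum]
  congr
  rw [← add_left_inj 1, ← card_norm_le_eq_card_norm_le_add_one,
    show Finset.Icc 1 n = Finset.Ioc 0 n from Finset.Icc_succ_left_eq_Ioc _ _,
    show 1 = Nat.card {I : Ideal (𝓞 K) // absNorm I = 0} by simp [Ideal.absNorm_eq_zero_iff],
    Finset.sum_Ioc_add_eq_sum_Icc (n.zero_le),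
    ← Finset.card_preimage_eq_sum_card_image_eq (fun k _ ↦ finite_setOfPred_absNorm_eq k)]
  simp [Set.coe_eq_subtype]

lemma lseriesSummable_idealCount {s : ℝ} (hs : 1 < s) :
    LSeriesSummable (fun n ↦ ((idealCount K n : ℝ) : ℂ)) (s : ℂ) := by
  refine LSeriesSummable_of_sum_norm_bigO_and_nonneg ?_ (fun n => Nat.cast_nonneg _) zero_le_one
    (by simpa using hs)
  exact isBigO_atTop_natCast_rpow_of_tendsto_div_rpow
    (by simpa using tendsto_sum_idealCount_div K)

lemma term_eq {s : ℝ} (hs : 1 < s) (n : ℕ) :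
    LSeries.term (fun n ↦ ((idealCount K n : ℝ) : ℂ)) (s : ℂ) n =
      (((idealCount K n : ℝ) * (n : ℝ) ^ (-s) : ℝ) : ℂ) := by
  rcases eq_or_ne n 0 with rfl | hn
  · have : (0 : ℝ) ^ (-s) = 0 := Real.zero_rpow (by linarith)
    simp [this]
  · rw [LSeries.term_of_ne_zero hn, Complex.ofReal_mul,
      Complex.ofReal_cpow (Nat.cast_nonneg n), Complex.ofReal_neg, Complex.cpow_neg]
    simp [div_eq_mul_inv]

/-- the `ℕ`-indexed real series is summable for `s > 1` -/
lemma summable_idealCount {s : ℝ} (hs : 1 < s) :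
    Summable (fun n : ℕ ↦ (idealCount K n : ℝ) * (n : ℝ) ^ (-s)) := by
  have h := lseriesSummable_idealCount K hs
  have h2 : Summable (fun n : ℕ ↦ (((idealCount K n : ℝ) * (n : ℝ) ^ (-s) : ℝ) : ℂ)) :=
    h.congr fun n ↦ term_eq K hs n
  exact Complex.summable_ofReal.mp h2

/-- `N(I)^(-s)` is summable over all ideals, `s > 1`. -/
theorem summable_normPow {s : ℝ} (hs : 1 < s) : Summable (normPow K s) := by
  have key : Summable (fun x : Σ n : ℕ, {I : Ideal (𝓞 K) // absNorm I = n} =>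
      normPow K s x.2.1) := by
    rw [summable_sigma_of_nonneg (fun x => normPow_nonneg K s _)]
    refine ⟨fun n => ?_, ?_⟩
    · have hfin : Finite {I : Ideal (𝓞 K) // absNorm I = n} :=
        (Ideal.finite_setOfPred_absNorm_eq n).to_subtype
      exact Summable.of_finite
    · refine (summable_idealCount K hs).congr fun n => ?_
      exact (tsum_fiber K s n).symm
  exact ((Equiv.sigmaFiberEquiv (fun I : Ideal (𝓞 K) => absNorm I)).summable_iff
    (f := normPow K s)).mp key

/-- the Dedekind zeta function as a sum over ideals -/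
def zetaI (s : ℝ) : ℝ := ∑' I : Ideal (𝓞 K), normPow K s I

lemma zetaI_eq_tsum_nat {s : ℝ} (hs : 1 < s) :
    zetaI K s = ∑' n : ℕ, (idealCount K n : ℝ) * (n : ℝ) ^ (-s) := by
  have hsum := summable_normPow K hs
  have hsum' : Summable (fun x : Σ n : ℕ, {I : Ideal (𝓞 K) // absNorm I = n} =>
      normPow K s x.2.1) :=
    ((Equiv.sigmaFiberEquiv (fun I : Ideal (𝓞 K) => absNorm I)).summable_iff
      (f := normPow K s)).mpr hsum
  calc zetaI K s
      = ∑' x : Σ n : ℕ, {I : Ideal (𝓞 K) // absNorm I = n}, normPow K s x.2.1 :=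
        ((Equiv.sigmaFiberEquiv (fun I : Ideal (𝓞 K) => absNorm I)).tsum_eq (normPow K s)).symm
    _ = ∑' n : ℕ, ∑' I : {I : Ideal (𝓞 K) // absNorm I = n}, normPow K s I.1 :=
        hsum'.tsum_sigma
    _ = _ := tsum_congr fun n => tsum_fiber K s n

theorem dedekindZeta_eq_zetaI {s : ℝ} (hs : 1 < s) :
    dedekindZeta K (s : ℂ) = ((zetaI K s : ℝ) : ℂ) := by
  rw [zetaI_eq_tsum_nat K hs, dedekindZeta, LSeries, Complex.ofReal_tsum]
  refine tsum_congr fun n ↦ ?_
  rw [← term_eq K hs n]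
  rcases eq_or_ne n 0 with rfl | hn
  · simp
  · rw [LSeries.term_of_ne_zero hn, LSeries.term_of_ne_zero hn]
    simp [idealCount]

theorem tendsto_sub_one_mul_zetaI :
    Tendsto (fun s : ℝ ↦ (s - 1) * zetaI K s) (𝓝[>] 1) (𝓝 (dedekindZeta_residue K)) := by
  have h := tendsto_sub_one_mul_dedekindZeta_nhdsGT K
  have h2 : Tendsto (fun s : ℝ ↦ (((s - 1) * zetaI K s : ℝ) : ℂ)) (𝓝[>] 1)
      (𝓝 (dedekindZeta_residue K : ℂ)) := by
    refine h.congr' ?_
    filter_upwards [self_mem_nhdsWithin] with s hs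
    rw [dedekindZeta_eq_zetaI K hs]
    push_cast
    ring
  have h3 := (Complex.continuous_re.tendsto _).comp h2
  simpa [Function.comp_def] using h3

/-- the sum over nonzero ideals is `zetaI` -/
lemma tsum_sieveSet_empty {s : ℝ} (hs : 1 < s) :
    ∑' I : sieveSet (∅ : Set (HeightOneSpectrum (𝓞 K))), normPow K s I = zetaI K s := by
  have hsum := summable_normPow K hs
  have h : sieveSet (∅ : Set (HeightOneSpectrum (𝓞 K))) = ({⊥} : Set (Ideal (𝓞 K)))ᶜ := by
    ext I
    simp [mem_sieveSet_empty]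
  rw [tsum_congr_set_coe _ h, zetaI,
    ← (hsum.subtype _).tsum_add_tsum_compl (s := ({⊥} : Set (Ideal (𝓞 K)))) (hsum.subtype _),
    tsum_singleton (⊥ : Ideal (𝓞 K)) (normPow K s), normPow_bot K (by linarith), zero_add]

theorem one_le_zetaI {s : ℝ} (hs : 1 < s) : 1 ≤ zetaI K s := by
  have hsum := summable_normPow K hs
  have := hsum.sum_le_tsum {⊤} (fun I _ => normPow_nonneg K s I)
  simpa [normPow_top, zetaI] using this

theorem zetaI_pos {s : ℝ} (hs : 1 < s) : 0 < zetaI K s :=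
  lt_of_lt_of_le one_pos (one_le_zetaI K hs)

/-- **Euler product** for the Dedekind zeta function. -/
theorem tendsto_prod_zetaI {s : ℝ} (hs : 1 < s) :
    Tendsto (fun T : Finset (HeightOneSpectrum (𝓞 K)) =>
      ∏ 𝔭 ∈ T, (1 - normPow K s 𝔭.asIdeal)) atTop (𝓝 (zetaI K s)⁻¹) := by
  have h := tendsto_prod_one_sub (summable_normPow K hs) (normPow_mul K s) (normPow_top K s)
  rwa [tsum_sieveSet_empty K hs] at h

/-- the prime ideal sum `∑_𝔭 N𝔭^(-s)` -/
def primeSum (s : ℝ) : ℝ := ∑' 𝔭 : HeightOneSpectrum (𝓞 K), normPow K s 𝔭.asIdeal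

lemma asIdeal_injective :
    Function.Injective (fun 𝔭 : HeightOneSpectrum (𝓞 K) => 𝔭.asIdeal) :=
  fun _ _ h => HeightOneSpectrum.ext h

theorem summable_primeSum {s : ℝ} (hs : 1 < s) :
    Summable (fun 𝔭 : HeightOneSpectrum (𝓞 K) => normPow K s 𝔭.asIdeal) :=
  (summable_normPow K hs).comp_injective (asIdeal_injective K)

lemma two_le_absNorm (𝔭 : HeightOneSpectrum (𝓞 K)) : 2 ≤ absNorm 𝔭.asIdeal := by
  have h0 : absNorm 𝔭.asIdeal ≠ 0 := by
    rw [Ne, Ideal.absNorm_eq_zero_iff]; exact 𝔭.ne_bot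
  have h1 : absNorm 𝔭.asIdeal ≠ 1 := by
    rw [Ne, Ideal.absNorm_eq_one_iff]; exact 𝔭.isPrime.ne_top
  omega

lemma normPow_le_half {s : ℝ} (hs : 1 ≤ s) (𝔭 : HeightOneSpectrum (𝓞 K)) :
    normPow K s 𝔭.asIdeal ≤ 1 / 2 := by
  have h2 : (2 : ℝ) ≤ absNorm 𝔭.asIdeal := by exact_mod_cast two_le_absNorm K 𝔭
  have h0 : (0 : ℝ) < absNorm 𝔭.asIdeal := by linarith
  rw [normPow, Real.rpow_neg h0.le, one_div]
  apply inv_anti₀ (by norm_num)
  calc (2 : ℝ) ≤ absNorm 𝔭.asIdeal := h2
    _ = (absNorm 𝔭.asIdeal : ℝ) ^ (1 : ℝ) := (Real.rpow_one _).symm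
    _ ≤ (absNorm 𝔭.asIdeal : ℝ) ^ s := Real.rpow_le_rpow_of_exponent_le (by linarith) hs

lemma normPow_sq (s : ℝ) (I : Ideal (𝓞 K)) : normPow K s I ^ 2 = normPow K (2 * s) I := by
  rw [normPow, normPow, ← Real.rpow_natCast, ← Real.rpow_mul (Nat.cast_nonneg _)]
  congr 1
  push_cast
  ring

/-- `-log (1 - x) ≥ x` and `≤ x + 2 x²` for `0 ≤ x ≤ 1/2`. -/
lemma neg_log_one_sub_bounds {x : ℝ} (h0 : 0 ≤ x) (h1 : x ≤ 1 / 2) :
    x ≤ -Real.log (1 - x) ∧ -Real.log (1 - x) ≤ x + 2 * x ^ 2 := by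
  have hpos : 0 < 1 - x := by linarith
  constructor
  · have := Real.log_le_sub_one_of_pos hpos
    linarith
  · have h := Real.log_le_sub_one_of_pos (inv_pos.mpr hpos)
    rw [Real.log_inv] at h
    have h2 : (1 - x)⁻¹ - 1 ≤ x + 2 * x ^ 2 := by
      rw [sub_le_iff_le_add, inv_le_iff_one_le_mul₀ hpos]
      nlinarith [mul_nonneg h0 h0, mul_nonneg (mul_nonneg h0 h0) h0]
    linarith

/-- The sum of `log (1 - N𝔭^(-s))` over the primes is `-log ζ_K(s)`. -/
theorem hasSum_log_one_sub {s : ℝ} (hs : 1 < s) :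
    HasSum (fun 𝔭 : HeightOneSpectrum (𝓞 K) => Real.log (1 - normPow K s 𝔭.asIdeal))
      (-Real.log (zetaI K s)) := by
  have h := tendsto_prod_zetaI K hs
  have hZ : (zetaI K s)⁻¹ ≠ 0 := inv_ne_zero (zetaI_pos K hs).ne'
  have h2 := (Real.continuousAt_log hZ).tendsto.comp h
  rw [Real.log_inv] at h2
  rw [HasSum]
  refine h2.congr fun T => ?_
  simp only [Function.comp_apply]
  rw [Real.log_prod]
  intro 𝔭 _
  have := normPow_le_half K hs.le 𝔭
  linarith

/-- `∑_𝔭 N𝔭^(-s) ≤ log ζ_K(s) ≤ ∑_𝔭 N𝔭^(-s) + 2 ∑_𝔭 N𝔭^(-2s)`. -/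
theorem primeSum_le_log_zetaI {s : ℝ} (hs : 1 < s) :
    primeSum K s ≤ Real.log (zetaI K s) ∧
      Real.log (zetaI K s) ≤ primeSum K s + 2 * primeSum K (2 * s) := by
  have hlog := (hasSum_log_one_sub K hs).neg
  rw [neg_neg] at hlog
  have hP := (summable_primeSum K hs).hasSum
  have hP2 := (summable_primeSum K (show 1 < 2 * s by linarith)).hasSum
  constructor
  · refine hasSum_le (fun 𝔭 => ?_) hP hlog
    exact (neg_log_one_sub_bounds (normPow_nonneg K s _) (normPow_le_half K hs.le 𝔭)).1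
  · refine hasSum_le (fun 𝔭 => ?_) hlog (hP.add (hP2.mul_left 2))
    have := (neg_log_one_sub_bounds (normPow_nonneg K s _) (normPow_le_half K hs.le 𝔭)).2
    rw [normPow_sq] at this
    exact this

lemma normPow_anti {s t : ℝ} (hst : s ≤ t) (I : Ideal (𝓞 K)) (h0 : 0 < s) :
    normPow K t I ≤ normPow K s I := by
  rcases eq_or_ne I ⊥ with rfl | hI
  · rw [normPow_bot K h0.ne', normPow_bot K (h0.trans_le hst).ne']
  · have h1 : (1 : ℝ) ≤ absNorm I := by
      have : absNorm I ≠ 0 := by rwa [Ne, Ideal.absNorm_eq_zero_iff]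
      exact_mod_cast Nat.one_le_iff_ne_zero.mpr this
    exact Real.rpow_le_rpow_of_exponent_le h1 (by linarith)

theorem zetaI_anti {s t : ℝ} (hs : 1 < s) (hst : s ≤ t) : zetaI K t ≤ zetaI K s :=
  (summable_normPow K (hs.trans_le hst)).tsum_le_tsum
    (fun I => normPow_anti K hst I (by linarith)) (summable_normPow K hs)

theorem primeSum_nonneg (s : ℝ) : 0 ≤ primeSum K s :=
  tsum_nonneg fun _ => normPow_nonneg K s _

theorem primeSum_anti {s t : ℝ} (hs : 1 < s) (hst : s ≤ t) : primeSum K t ≤ primeSum K s :=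
  (summable_primeSum K (hs.trans_le hst)).tsum_le_tsum
    (fun 𝔭 => normPow_anti K hst 𝔭.asIdeal (by linarith)) (summable_primeSum K hs)

/-- `(s - 1) ζ_K(s)` is bounded above and below by positive constants on `(1, 2]`. -/
theorem exists_bounds_sub_one_mul_zetaI :
    ∃ c₁ c₂ : ℝ, 0 < c₁ ∧ c₁ ≤ c₂ ∧ ∀ s : ℝ, 1 < s → s ≤ 2 →
      c₁ ≤ (s - 1) * zetaI K s ∧ (s - 1) * zetaI K s ≤ c₂ := by
  have hρ := dedekindZeta_residue_pos K
  set ρ := dedekindZeta_residue K with hρdef
  have h := tendsto_sub_one_mul_zetaI K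
  have hev : ∀ᶠ s : ℝ in 𝓝[>] 1, ρ / 2 < (s - 1) * zetaI K s ∧ (s - 1) * zetaI K s < 2 * ρ :=
    (h.eventually (lt_mem_nhds (show ρ / 2 < ρ by linarith))).and
      (h.eventually (gt_mem_nhds (show ρ < 2 * ρ by linarith)))
  rw [eventually_nhdsWithin_iff, Metric.eventually_nhds_iff] at hev
  obtain ⟨δ, hδ, hδ2⟩ := hev
  set δ' := min δ 1 with hδ'
  have hδ'pos : 0 < δ' := lt_min hδ one_pos
  have hδ'le : δ' ≤ δ := min_le_left _ _
  set s₀ : ℝ := 1 + δ' / 2 with hs₀
  have hs₀1 : 1 < s₀ := by rw [hs₀]; linarith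
  have hZ₀ := one_le_zetaI K hs₀1
  refine ⟨min (ρ / 2) (δ' / 2), max (2 * ρ) (zetaI K s₀), lt_min (by linarith) (by linarith),
    (min_le_left _ _).trans ((by linarith : ρ / 2 ≤ 2 * ρ).trans (le_max_left _ _)),
    fun s hs1 hs2 => ?_⟩
  rcases lt_or_ge s s₀ with hlt | hge
  · have hd : dist s 1 < δ := by
      rw [Real.dist_eq, abs_of_pos (by linarith)]
      rw [hs₀] at hlt
      linarith
    have := hδ2 hd hs1
    exact ⟨(min_le_left _ _).trans this.1.le, this.2.le.trans (le_max_left _ _)⟩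
  · have h1 := one_le_zetaI K hs1
    have h2 := zetaI_anti K hs₀1 hge
    have hs0 : 0 < s - 1 := by linarith
    constructor
    · calc min (ρ / 2) (δ' / 2) ≤ δ' / 2 := min_le_right _ _
        _ ≤ (s - 1) * 1 := by rw [hs₀] at hge; linarith
        _ ≤ (s - 1) * zetaI K s := by gcongr
    · calc (s - 1) * zetaI K s ≤ 1 * zetaI K s₀ := by
            apply mul_le_mul (by linarith) h2 (by linarith) (by norm_num)
        _ ≤ max (2 * ρ) (zetaI K s₀) := by rw [one_mul]; exact le_max_right _ _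

/-- **The prime ideal sum** `∑_𝔭 N𝔭^(-s)` is `log (1 / (s - 1)) + O(1)` on `(1, 2]`. -/
theorem exists_primeSum_bound :
    ∃ C : ℝ, ∀ s : ℝ, 1 < s → s ≤ 2 → |primeSum K s + Real.log (s - 1)| ≤ C := by
  obtain ⟨c₁, c₂, hc₁, hc₁₂, hb⟩ := exists_bounds_sub_one_mul_zetaI K
  have hc₂ : 0 < c₂ := hc₁.trans_le hc₁₂
  refine ⟨max |Real.log c₁| |Real.log c₂| + 2 * primeSum K 2, fun s hs1 hs2 => ?_⟩
  obtain ⟨hlo, hhi⟩ := hb s hs1 hs2
  obtain ⟨hP1, hP2⟩ := primeSum_le_log_zetaI K hs1
  have hs0 : 0 < s - 1 := by linarith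
  have hZ := zetaI_pos K hs1
  have hlog : Real.log ((s - 1) * zetaI K s) = Real.log (s - 1) + Real.log (zetaI K s) :=
    Real.log_mul hs0.ne' hZ.ne'
  have hl1 : Real.log c₁ ≤ Real.log ((s - 1) * zetaI K s) := Real.log_le_log hc₁ hlo
  have hl2 : Real.log ((s - 1) * zetaI K s) ≤ Real.log c₂ :=
    Real.log_le_log (hc₁.trans_le hlo) hhi
  have hB : primeSum K (2 * s) ≤ primeSum K 2 :=
    primeSum_anti K (by norm_num) (by linarith)
  have hB0 := primeSum_nonneg K 2
  have hm1 : -max |Real.log c₁| |Real.log c₂| ≤ Real.log c₁ :=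
    (neg_le_neg (le_max_left _ _)).trans (neg_abs_le _)
  have hm2 : Real.log c₂ ≤ max |Real.log c₁| |Real.log c₂| :=
    (le_abs_self _).trans (le_max_right _ _)
  rw [abs_le]
  constructor <;> linarith

end

end Fermat.Agent.Lib.Cheb.H761

end
-- ===== PACK-END Lib/Cheb/H761/ZetaEuler.lean

-- ===== PACK-BEGIN Lib/NormL/Cop.lean
section


/-!
# `NormL`, block COP: coprime representatives of ideal classes (helper704)

Every ideal class of the ring of integers of a number field contains an integral ideal whose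
absolute norm is coprime to a given integer `m ≠ 0`.

The statement is true in every Dedekind domain in the form "every ideal class contains an
integral ideal coprime to a given nonzero ideal" (`exists_mk0_eq_and_sup_eq_top`).
-/

set_option autoImplicit false

namespace Fermat.Agent.Lib.NormL

open NumberField
open scoped nonZeroDivisors

namespace Cop

section Dedekind

variable {R : Type*} [CommRing R] [IsDedekindDomain R]

/-- In a Dedekind domain, for nonzero ideals `J₀`, `M` there are an element `a` and an ideal `J`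
with `J₀ * J = (a)` and `J` coprime to `M`. -/
theorem exists_mul_eq_span_singleton_and_sup_eq_top {J₀ M : Ideal R} (hJ₀ : J₀ ≠ ⊥)
    (hM : M ≠ ⊥) :
    ∃ (a : R) (J : Ideal R), J₀ * J = Ideal.span {a} ∧ J ⊔ M = ⊤ := by
  have hle : J₀ * M ≤ J₀ := Ideal.mul_le_left
  have hne : J₀ * M ≠ 0 := by
    rw [Ideal.zero_eq_bot]
    exact mul_ne_zero hJ₀ hM
  obtain ⟨a, ha⟩ := IsDedekindDomain.exists_sup_span_eq hle hne
  have haJ : Ideal.span {a} ≤ J₀ := by
    rw [← ha]
    exact le_sup_right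
  obtain ⟨J, hJ⟩ := Ideal.dvd_iff_le.mpr haJ
  refine ⟨a, J, hJ.symm, ?_⟩
  have h1 : J₀ * (J ⊔ M) = J₀ * ⊤ := by
    rw [Ideal.mul_top, Ideal.mul_sup, ← hJ, sup_comm]
    exact ha
  exact mul_left_cancel₀ (a := J₀) (by simpa using hJ₀) h1

/-- In a Dedekind domain every ideal class contains an integral ideal which is coprime to a
given nonzero ideal. -/
theorem exists_mk0_eq_and_sup_eq_top (C : ClassGroup R) {M : Ideal R} (hM : M ≠ ⊥) :
    ∃ J : (Ideal R)⁰, ClassGroup.mk0 J = C ∧ (J : Ideal R) ⊔ M = ⊤ := by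
  obtain ⟨J₀, hJ₀⟩ := ClassGroup.mk0_surjective C⁻¹
  have hJ₀ne : (J₀ : Ideal R) ≠ ⊥ := by
    have := mem_nonZeroDivisors_iff_ne_zero.mp J₀.2
    simpa using this
  by_cases hMtop : M = ⊤
  · obtain ⟨J, hJ⟩ := ClassGroup.mk0_surjective C
    exact ⟨J, hJ, by rw [hMtop]; exact sup_top_eq _⟩
  obtain ⟨a, J, hJ, hcop⟩ := exists_mul_eq_span_singleton_and_sup_eq_top hJ₀ne hM
  have hJne : J ≠ ⊥ := by
    rintro rfl
    rw [bot_sup_eq] at hcop
    exact hMtop hcop
  have hJmem : J ∈ (Ideal R)⁰ := mem_nonZeroDivisors_iff_ne_zero.mpr (by simpa using hJne)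
  refine ⟨⟨J, hJmem⟩, ?_, hcop⟩
  have hprod : ClassGroup.mk0 (J₀ * ⟨J, hJmem⟩) = 1 := by
    rw [ClassGroup.mk0_eq_one_iff]
    exact ⟨⟨a, by simpa using hJ⟩⟩
  rw [map_mul, hJ₀] at hprod
  exact (inv_mul_eq_one.mp hprod).symm

end Dedekind

section NumberField

variable (K : Type*) [Field K] [NumberField K]

/-- If a nonzero ideal `I` of `𝓞 K` is coprime to the ideal generated by the integer `m`, then
its absolute norm is coprime to `m`. -/
theorem absNorm_coprime_of_sup_span_eq_top {I : Ideal (𝓞 K)} (hI : I ≠ ⊥) {m : ℕ}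
    (h : I ⊔ Ideal.span {(m : 𝓞 K)} = ⊤) : (Ideal.absNorm I).Coprime m := by
  rw [Nat.coprime_iff_gcd_eq_one]
  by_contra hg
  obtain ⟨p, hp, hpg⟩ := Nat.exists_prime_and_dvd hg
  have hpI : p ∣ Ideal.absNorm I := hpg.trans (Nat.gcd_dvd_left _ _)
  obtain ⟨k, hk⟩ : p ∣ m := hpg.trans (Nat.gcd_dvd_right _ _)
  have : Fact p.Prime := ⟨hp⟩
  -- the quotient is a finite group whose cardinality is divisible by `p`
  have hcard : Nat.card (𝓞 K ⧸ I) = Ideal.absNorm I := by
    rw [Ideal.absNorm_apply, Submodule.cardQuot_apply]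
  have hpos : Ideal.absNorm I ≠ 0 := fun h0 => hI (Ideal.absNorm_eq_zero_iff.mp h0)
  have hfin : Finite (𝓞 K ⧸ I) := Nat.finite_of_card_ne_zero (by rwa [hcard])
  obtain ⟨x, hx⟩ := exists_prime_addOrderOf_dvd_card' (G := 𝓞 K ⧸ I) p (by rwa [hcard])
  -- but `p` is invertible in the quotient
  obtain ⟨i, hi, y, hy, hiy⟩ := Submodule.mem_sup.mp ((Ideal.eq_top_iff_one _).mp h)
  obtain ⟨r, rfl⟩ := Ideal.mem_span_singleton'.mp hy
  have hx0 : x ≠ 0 := by
    intro hx0
    rw [hx0, addOrderOf_zero] at hx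
    exact hp.one_lt.ne hx
  have hpx : p • x = 0 := by
    rw [← hx]
    exact addOrderOf_nsmul_eq_zero x
  apply hx0
  have h1 : (Ideal.Quotient.mk I (r * (k : 𝓞 K))) * (p : 𝓞 K ⧸ I) = 1 := by
    have : (Ideal.Quotient.mk I) (i + r * (m : 𝓞 K)) = 1 := by rw [hiy, map_one]
    rw [map_add, Ideal.Quotient.eq_zero_iff_mem.mpr hi, zero_add, hk] at this
    rw [← this]
    push_cast
    simp only [map_mul, map_natCast]
    ring
  calc x = (Ideal.Quotient.mk I (r * (k : 𝓞 K)) * (p : 𝓞 K ⧸ I)) * x := by rw [h1, one_mul]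
    _ = Ideal.Quotient.mk I (r * (k : 𝓞 K)) * (p • x) := by
        rw [nsmul_eq_mul, mul_assoc]
    _ = 0 := by rw [hpx, mul_zero]

end NumberField

end Cop

section NumberField

variable (K : Type*) [Field K] [NumberField K]

/-- COP: every ideal class contains an integral ideal of norm coprime to `m`. -/
theorem exists_mk0_eq_and_coprime (m : ℕ) [NeZero m] (C : ClassGroup (𝓞 K)) :
    ∃ J : (Ideal (𝓞 K))⁰, ClassGroup.mk0 J = C ∧
      (Ideal.absNorm (J : Ideal (𝓞 K))).Coprime m := by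
  have hM : Ideal.span {(m : 𝓞 K)} ≠ ⊥ := by
    rw [Ne, Ideal.span_singleton_eq_bot]
    exact_mod_cast NeZero.ne m
  obtain ⟨J, hJ, hcop⟩ := Cop.exists_mk0_eq_and_sup_eq_top C hM
  refine ⟨J, hJ, Cop.absNorm_coprime_of_sup_span_eq_top K ?_ hcop⟩
  have := mem_nonZeroDivisors_iff_ne_zero.mp J.2
  simpa using this

end NumberField

end Fermat.Agent.Lib.NormL

end
-- ===== PACK-END Lib/NormL/Cop.lean

-- ===== PACK-BEGIN Lib/Cheb/H583/Core.lean
section






/-!
# Frobenius density theorem: calculus of "equal up to a bounded function" (helper583)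

`BddDiff l f g` : `f - g` is eventually bounded along the filter `l`.
-/

set_option autoImplicit false

open Finset Filter

namespace Fermat.Agent.Lib.Cheb.H583

/-- `f` and `g` differ by a function which is eventually bounded along `l`. -/
def BddDiff (l : Filter ℝ) (f g : ℝ → ℝ) : Prop :=
  ∃ B : ℝ, ∀ᶠ s in l, |f s - g s| ≤ B

variable {l : Filter ℝ}

theorem BddDiff.refl (l : Filter ℝ) (f : ℝ → ℝ) : BddDiff l f f :=
  ⟨0, Eventually.of_forall fun s => by simp⟩

theorem BddDiff.symm {f g : ℝ → ℝ} (h : BddDiff l f g) : BddDiff l g f := by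
  obtain ⟨B, hB⟩ := h
  exact ⟨B, hB.mono fun s hs => by rw [abs_sub_comm]; exact hs⟩

theorem BddDiff.trans {f g k : ℝ → ℝ} (h₁ : BddDiff l f g)
    (h₂ : BddDiff l g k) : BddDiff l f k := by
  obtain ⟨B₁, hB₁⟩ := h₁
  obtain ⟨B₂, hB₂⟩ := h₂
  refine ⟨B₁ + B₂, (hB₁.and hB₂).mono fun s hs => ?_⟩
  have := abs_sub_le (f s) (g s) (k s)
  linarith [hs.1, hs.2]

theorem BddDiff.add {f g f' g' : ℝ → ℝ} (h₁ : BddDiff l f g)
    (h₂ : BddDiff l f' g') : BddDiff l (fun s => f s + f' s) (fun s => g s + g' s) := by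
  obtain ⟨B₁, hB₁⟩ := h₁
  obtain ⟨B₂, hB₂⟩ := h₂
  refine ⟨B₁ + B₂, (hB₁.and hB₂).mono fun s hs => ?_⟩
  have h : f s + f' s - (g s + g' s) = (f s - g s) + (f' s - g' s) := by ring
  rw [h]
  exact (abs_add_le _ _).trans (add_le_add hs.1 hs.2)

theorem BddDiff.sub {f g f' g' : ℝ → ℝ} (h₁ : BddDiff l f g)
    (h₂ : BddDiff l f' g') : BddDiff l (fun s => f s - f' s) (fun s => g s - g' s) := by
  obtain ⟨B₁, hB₁⟩ := h₁
  obtain ⟨B₂, hB₂⟩ := h₂
  refine ⟨B₁ + B₂, (hB₁.and hB₂).mono fun s hs => ?_⟩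
  have h : f s - f' s - (g s - g' s) = (f s - g s) - (f' s - g' s) := by ring
  rw [h]
  exact (abs_sub _ _).trans (add_le_add hs.1 hs.2)

theorem BddDiff.const_mul {f g : ℝ → ℝ} (c : ℝ) (h : BddDiff l f g) :
    BddDiff l (fun s => c * f s) (fun s => c * g s) := by
  obtain ⟨B, hB⟩ := h
  refine ⟨|c| * B, hB.mono fun s hs => ?_⟩
  have h : c * f s - c * g s = c * (f s - g s) := by ring
  rw [h, abs_mul]
  exact mul_le_mul_of_nonneg_left hs (abs_nonneg c)

theorem BddDiff.finset_sum {ι : Type*} (t : Finset ι) {f g : ι → ℝ → ℝ}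
    (h : ∀ i ∈ t, BddDiff l (f i) (g i)) :
    BddDiff l (fun s => ∑ i ∈ t, f i s) (fun s => ∑ i ∈ t, g i s) := by
  classical
  induction t using Finset.induction_on with
  | empty => exact ⟨0, Eventually.of_forall fun s => by simp⟩
  | insert a t ha ih =>
    have h1 := h a (Finset.mem_insert_self a t)
    have h2 := ih (fun i hi => h i (Finset.mem_insert_of_mem hi))
    have := h1.add h2
    simpa [Finset.sum_insert ha] using this

theorem BddDiff.congr' {f g f' g' : ℝ → ℝ} (h : BddDiff l f g)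
    (hf : ∀ᶠ s in l, f s = f' s) (hg : ∀ᶠ s in l, g s = g' s) : BddDiff l f' g' := by
  obtain ⟨B, hB⟩ := h
  exact ⟨B, (hB.and (hf.and hg)).mono fun s hs => by rw [← hs.2.1, ← hs.2.2]; exact hs.1⟩

theorem BddDiff.congr {f g f' g' : ℝ → ℝ} (h : BddDiff l f g)
    (hf : ∀ s, f s = f' s) (hg : ∀ s, g s = g' s) : BddDiff l f' g' :=
  h.congr' (Eventually.of_forall hf) (Eventually.of_forall hg)

/-- A function which is eventually bounded in absolute value. -/
theorem BddDiff.of_abs_le {f g : ℝ → ℝ} (B : ℝ) (h : ∀ᶠ s in l, |f s - g s| ≤ B) :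
    BddDiff l f g := ⟨B, h⟩

theorem bddDiff_zero_iff {f : ℝ → ℝ} :
    BddDiff l f (fun _ => 0) ↔ ∃ C : ℝ, ∀ᶠ s in l, |f s| ≤ C := by
  simp [BddDiff]

theorem bddDiff_iff_sub {f g : ℝ → ℝ} :
    BddDiff l f g ↔ ∃ C : ℝ, ∀ᶠ s in l, |(fun s => f s - g s) s| ≤ C := Iff.rfl

end Fermat.Agent.Lib.Cheb.H583

end
-- ===== PACK-END Lib/Cheb/H583/Core.lean

-- ===== PACK-BEGIN Lib/Cheb/H583/Induction.lean
section


/-!
# Frobenius density theorem: induction over cyclic subgroups (helper583)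
-/

set_option autoImplicit false

open Finset Filter

namespace Fermat.Agent.Lib.Cheb.H583

open Classical

variable {G : Type*} [Group G] [Fintype G]

/-- The elements of the cyclic subgroup generated by `g`, as a finset. -/
noncomputable def zpFinset (g : G) : Finset G :=
  univ.filter (fun x => x ∈ Subgroup.zpowers g)

/-- The generators of the cyclic subgroup generated by `g`, as a finset. -/
noncomputable def genFinset (g : G) : Finset G :=
  univ.filter (fun x => Subgroup.zpowers x = Subgroup.zpowers g)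

/-- The non-generators in the cyclic subgroup generated by `g`, as a finset. -/
noncomputable def properFinset (g : G) : Finset G :=
  univ.filter (fun x => x ∈ Subgroup.zpowers g ∧ Subgroup.zpowers x ≠ Subgroup.zpowers g)

theorem mem_zpFinset {g x : G} : x ∈ zpFinset g ↔ x ∈ Subgroup.zpowers g := by
  simp [zpFinset]

theorem mem_genFinset {g x : G} : x ∈ genFinset g ↔ Subgroup.zpowers x = Subgroup.zpowers g := by
  simp [genFinset]

theorem mem_properFinset {g x : G} :
    x ∈ properFinset g ↔ x ∈ Subgroup.zpowers g ∧ Subgroup.zpowers x ≠ Subgroup.zpowers g := by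
  simp [properFinset]

theorem self_mem_genFinset (g : G) : g ∈ genFinset g := mem_genFinset.2 rfl

theorem genFinset_card_pos (g : G) : 0 < (genFinset g).card :=
  Finset.card_pos.2 ⟨g, self_mem_genFinset g⟩

theorem genFinset_eq_of_mem {g x : G} (hx : x ∈ genFinset g) : genFinset x = genFinset g := by
  ext y
  rw [mem_genFinset, mem_genFinset, mem_genFinset.1 hx]

omit [Fintype G] in
theorem mem_zpowers_iff_le {g x : G} :
    x ∈ Subgroup.zpowers g ↔ Subgroup.zpowers x ≤ Subgroup.zpowers g := by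
  constructor
  · intro h
    exact Subgroup.zpowers_le.2 h
  · intro h
    exact h (Subgroup.mem_zpowers x)

theorem zpFinset_eq_union (g : G) : zpFinset g = genFinset g ∪ properFinset g := by
  ext x
  rw [mem_union, mem_zpFinset, mem_genFinset, mem_properFinset]
  constructor
  · intro h
    by_cases hx : Subgroup.zpowers x = Subgroup.zpowers g
    · exact Or.inl hx
    · exact Or.inr ⟨h, hx⟩
  · rintro (h | h)
    · rw [mem_zpowers_iff_le, h]
    · exact h.1

theorem disjoint_gen_proper (g : G) : Disjoint (genFinset g) (properFinset g) := by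
  rw [Finset.disjoint_left]
  intro x hx hx'
  exact (mem_properFinset.1 hx').2 (mem_genFinset.1 hx)

theorem card_zpFinset (g : G) : (zpFinset g).card = Nat.card (Subgroup.zpowers g) := by
  classical
  rw [Nat.card_eq_fintype_card, Fintype.card_subtype]
  rfl

theorem card_zpowers_lt_of_mem_proper {g x : G} (hx : x ∈ properFinset g) :
    Nat.card (Subgroup.zpowers x) < Nat.card (Subgroup.zpowers g) := by
  obtain ⟨h1, h2⟩ := mem_properFinset.1 hx
  have hle : Subgroup.zpowers x ≤ Subgroup.zpowers g := mem_zpowers_iff_le.1 h1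
  have hlt : Subgroup.zpowers x < Subgroup.zpowers g := lt_of_le_of_ne hle h2
  rw [← card_zpFinset, ← card_zpFinset]
  apply Finset.card_lt_card
  rw [Finset.ssubset_iff_of_subset]
  · obtain ⟨y, hy1, hy2⟩ := SetLike.exists_of_lt hlt
    exact ⟨y, mem_zpFinset.2 hy1, fun h => hy2 (mem_zpFinset.1 h)⟩
  · intro y hy
    exact mem_zpFinset.2 (hle (mem_zpFinset.1 hy))

/-- Double counting: a sum over the non-generators is the sum of the normalised sums over
generator classes. -/
theorem sum_proper_eq (g : G) (φ : G → ℝ) :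
    ∑ x ∈ properFinset g, φ x =
      ∑ x ∈ properFinset g, ((genFinset x).card : ℝ)⁻¹ * ∑ y ∈ genFinset x, φ y := by
  have h1 : ∑ x ∈ properFinset g, ((genFinset x).card : ℝ)⁻¹ * ∑ y ∈ genFinset x, φ y =
      ∑ x ∈ properFinset g, ∑ y ∈ genFinset x, ((genFinset x).card : ℝ)⁻¹ * φ y := by
    refine Finset.sum_congr rfl fun x _ => ?_
    rw [Finset.mul_sum]
  rw [h1]
  rw [Finset.sum_comm' (s' := fun y => genFinset y) (t' := properFinset g)]
  · refine Finset.sum_congr rfl fun y _ => ?_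
    have h2 : ∑ x ∈ genFinset y, ((genFinset x).card : ℝ)⁻¹ * φ y =
        ∑ _x ∈ genFinset y, ((genFinset y).card : ℝ)⁻¹ * φ y := by
      refine Finset.sum_congr rfl fun x hx => ?_
      rw [genFinset_eq_of_mem hx]
    rw [h2, Finset.sum_const, nsmul_eq_mul, ← mul_assoc,
      mul_inv_cancel₀ (by exact_mod_cast (genFinset_card_pos y).ne'), one_mul]
  · intro x y
    rw [mem_genFinset, mem_genFinset, mem_properFinset, mem_properFinset]
    constructor
    · rintro ⟨⟨h1, h2⟩, h3⟩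
      refine ⟨h3.symm, ?_, ?_⟩
      · rw [mem_zpowers_iff_le, h3, ← mem_zpowers_iff_le]; exact h1
      · rw [h3]; exact h2
    · rintro ⟨h3, h1, h2⟩
      refine ⟨⟨?_, ?_⟩, h3.symm⟩
      · rw [mem_zpowers_iff_le, h3, ← mem_zpowers_iff_le]; exact h1
      · rw [h3]; exact h2

/-- **Combinatorial core of the Frobenius density theorem.**  If for every cyclic subgroup
`⟨h⟩` the sum of the `Φ x` over `x ∈ ⟨h⟩` is `|⟨h⟩| * lp` up to a bounded function, then for
every `g` the sum of `Φ x` over the generators `x` of `⟨g⟩` is `#generators * lp` up to a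
bounded function. -/
theorem bddDiff_sum_genFinset (Φ : G → ℝ → ℝ) (lp : ℝ → ℝ) (l : Filter ℝ)
    (hH : ∀ h : G, BddDiff l (fun s => ∑ x ∈ zpFinset h, Φ x s)
      (fun s => (Nat.card (Subgroup.zpowers h) : ℝ) * lp s)) (g : G) :
    BddDiff l (fun s => ∑ x ∈ genFinset g, Φ x s)
      (fun s => ((genFinset g).card : ℝ) * lp s) := by
  induction' hn : Nat.card (Subgroup.zpowers g) using Nat.strong_induction_on with n ih generalizing g
  -- the sum over the proper part
  have hP : BddDiff l (fun s => ∑ x ∈ properFinset g, Φ x s)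
      (fun s => ((properFinset g).card : ℝ) * lp s) := by
    have h1 : BddDiff l
        (fun s => ∑ x ∈ properFinset g,
          ((genFinset x).card : ℝ)⁻¹ * ∑ y ∈ genFinset x, Φ y s)
        (fun s => ∑ x ∈ properFinset g,
          ((genFinset x).card : ℝ)⁻¹ * (((genFinset x).card : ℝ) * lp s)) := by
      apply BddDiff.finset_sum
      intro x hx
      apply BddDiff.const_mul
      exact ih _ (hn ▸ card_zpowers_lt_of_mem_proper hx) x rfl
    refine h1.congr (fun s => (sum_proper_eq g (fun x => Φ x s)).symm) (fun s => ?_)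
    have h2 : ∀ x ∈ properFinset g,
        ((genFinset x).card : ℝ)⁻¹ * (((genFinset x).card : ℝ) * lp s) = lp s := by
      intro x _
      rw [← mul_assoc, inv_mul_cancel₀ (by exact_mod_cast (genFinset_card_pos x).ne'), one_mul]
    rw [Finset.sum_congr rfl h2, Finset.sum_const, nsmul_eq_mul]
  have hZ := hH g
  have hsub := hZ.sub hP
  refine hsub.congr (fun s => ?_) (fun s => ?_)
  · rw [zpFinset_eq_union, Finset.sum_union (disjoint_gen_proper g)]
    ring
  · have hc : (Nat.card (Subgroup.zpowers g) : ℝ) =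
        ((genFinset g).card : ℝ) + ((properFinset g).card : ℝ) := by
      rw [← card_zpFinset, zpFinset_eq_union, Finset.card_union_of_disjoint (disjoint_gen_proper g)]
      push_cast
      ring
    rw [hc]
    ring

/-- Consequence: if `lp` tends to `+∞` along `l` (`l ≠ ⊥`), then the sum of the `Φ x` over the
generators `x` of `⟨g⟩` is not eventually bounded above along `l`. -/
theorem not_eventually_le_sum_genFinset {l : Filter ℝ} [l.NeBot] (Φ : G → ℝ → ℝ) (lp : ℝ → ℝ)
    (hH : ∀ h : G, BddDiff l (fun s => ∑ x ∈ zpFinset h, Φ x s)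
      (fun s => (Nat.card (Subgroup.zpowers h) : ℝ) * lp s))
    (hlp : Tendsto lp l atTop) (g : G) (M : ℝ) :
    ¬ ∀ᶠ s in l, ∑ x ∈ genFinset g, Φ x s ≤ M := by
  intro hM
  obtain ⟨B, hB⟩ := bddDiff_sum_genFinset Φ lp l hH g
  have hcard : (1 : ℝ) ≤ ((genFinset g).card : ℝ) := by
    exact_mod_cast genFinset_card_pos g
  have h1 : ∀ᶠ s in l, max (B + M) 0 < lp s := hlp.eventually_gt_atTop _
  obtain ⟨s, hs1, hs2, hs3⟩ := (hB.and (hM.and h1)).exists
  have h3 := abs_le.1 hs1
  have hlp_pos : 0 < lp s := lt_of_le_of_lt (le_max_right _ _) hs3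
  have h4 : lp s ≤ ((genFinset g).card : ℝ) * lp s := by
    have := mul_le_mul_of_nonneg_right hcard hlp_pos.le
    linarith
  have h5 : B + M < lp s := lt_of_le_of_lt (le_max_left _ _) hs3
  linarith [h3.1]

end Fermat.Agent.Lib.Cheb.H583

end
-- ===== PACK-END Lib/Cheb/H583/Induction.lean

-- ===== PACK-BEGIN S22T/QExpRing.lean
section


/-!
The ring of functions on the upper half plane whose cusp function (for a period `h`) is analytic
at `0`, and the `q`-expansion ring homomorphism on it.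
-/

open UpperHalfPlane
open scoped Manifold

namespace Fermat.Agent.S22T

/-- Functions `ℍ → ℂ` whose cusp function with respect to the period `h` is analytic at `0`. -/
def analyticSubring (h : ℝ) : Subring (ℍ → ℂ) where
  carrier := {F | AnalyticAt ℂ (cuspFunction h F) 0}
  mul_mem' {f g} hf hg := by
    simp only [Set.mem_ofPred_eq] at hf hg ⊢
    rw [cuspFunction_mul hf.continuousAt hg.continuousAt]
    exact hf.mul hg
  one_mem' := by
    simp only [Set.mem_ofPred_eq]
    have h1 : cuspFunction h 1 = 1 := by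
      ext q
      rcases eq_or_ne q 0 with rfl | hq
      · simpa [cuspFunction, Function.Periodic.cuspFunction] using!
          tendsto_const_nhds.limUnder_eq
      · simp [cuspFunction, Function.Periodic.cuspFunction_eq_of_nonzero h _ hq]
    rw [h1]
    exact analyticAt_const
  add_mem' {f g} hf hg := by
    simp only [Set.mem_ofPred_eq] at hf hg ⊢
    rw [cuspFunction_add hf.continuousAt hg.continuousAt]
    exact hf.add hg
  zero_mem' := by
    simp only [Set.mem_ofPred_eq]
    have h0 : cuspFunction h 0 = 0 := by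
      ext q
      rcases eq_or_ne q 0 with rfl | hq
      · simpa [cuspFunction, Function.Periodic.cuspFunction] using!
          tendsto_const_nhds.limUnder_eq
      · simp [cuspFunction, Function.Periodic.cuspFunction_eq_of_nonzero h _ hq]
    rw [h0]
    exact analyticAt_const
  neg_mem' {f} hf := by
    simp only [Set.mem_ofPred_eq] at hf ⊢
    rw [cuspFunction_neg hf.continuousAt]
    exact hf.neg

theorem mem_analyticSubring_iff {h : ℝ} {F : ℍ → ℂ} :
    F ∈ analyticSubring h ↔ AnalyticAt ℂ (cuspFunction h F) 0 := Iff.rfl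

/-- The `q`-expansion, as a ring homomorphism on `analyticSubring h`. -/
noncomputable def qExpHom (h : ℝ) : analyticSubring h →+* PowerSeries ℂ where
  toFun F := qExpansion h (F : ℍ → ℂ)
  map_one' := qExpansion_one h
  map_mul' F G := qExpansion_mul F.2 G.2
  map_zero' := qExpansion_zero h
  map_add' F G := qExpansion_add F.2 G.2

@[simp] theorem qExpHom_apply {h : ℝ} (F : analyticSubring h) :
    qExpHom h F = qExpansion h (F : ℍ → ℂ) := rfl

theorem mem_analyticSubring_of_periodic {h : ℝ} (hh : 0 < h) {F : ℍ → ℂ}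
    (hper : Function.Periodic (F ∘ ofComplex) h) (hhol : MDiff F)
    (hbdd : IsBoundedAtImInfty F) : F ∈ analyticSubring h :=
  analyticAt_cuspFunction_zero hh hper hhol hbdd

theorem smul_mem_analyticSubring {h : ℝ} {F : ℍ → ℂ} (c : ℂ) (hF : F ∈ analyticSubring h) :
    c • F ∈ analyticSubring h := by
  rw [mem_analyticSubring_iff] at hF ⊢
  rw [cuspFunction_smul hF.continuousAt]
  exact hF.const_smul

theorem qExpansion_smul_of_mem {h : ℝ} {F : ℍ → ℂ} (c : ℂ) (hF : F ∈ analyticSubring h) :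
    qExpansion h (c • F) = c • qExpansion h F :=
  qExpansion_smul hF c

end Fermat.Agent.S22T

end
-- ===== PACK-END S22T/QExpRing.lean

-- ===== PACK-BEGIN S22T/Expand.lean
section



/-!
Re-expansion of a `q`-series along a substitution `𝕢 1 (α z) = ξ * 𝕢 h z ^ e`.
-/

open UpperHalfPlane Function
open scoped Manifold

namespace Fermat.Agent.S22T

local notation "𝕢" => Function.Periodic.qParam

/-- The coefficients of the re-expanded series. -/
noncomputable def expandCoeff (c : ℕ → ℂ) (e : ℕ) (ξ : ℂ) (j : ℕ) : ℂ :=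
  if e ∣ j then c (j / e) * ξ ^ (j / e) else 0

theorem hasSum_expand {F : ℍ → ℂ} {c : ℕ → ℂ}
    (hF : ∀ w : ℍ, HasSum (fun n => c n • 𝕢 1 w ^ n) (F w))
    {h : ℝ} (α : ℍ → ℍ) (e : ℕ) (he : 0 < e) (ξ : ℂ)
    (hα : ∀ z : ℍ, 𝕢 1 (α z) = ξ * 𝕢 h z ^ e) (z : ℍ) :
    HasSum (fun j => expandCoeff c e ξ j • 𝕢 h z ^ j) (F (α z)) := by
  have h1 := hF (α z)
  have hinj : Function.Injective (fun n : ℕ => e * n) := fun a b hab =>
    Nat.eq_of_mul_eq_mul_left he hab
  rw [← hinj.hasSum_iff]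
  · convert h1 using 1
    funext n
    simp only [Function.comp_apply, expandCoeff, dvd_mul_right, if_true,
      Nat.mul_div_cancel_left n he, smul_eq_mul]
    rw [hα z, mul_pow, ← pow_mul]
    ring
  · intro j hj
    have : ¬ e ∣ j := by
      rintro ⟨n, rfl⟩
      exact hj ⟨n, rfl⟩
    simp [expandCoeff, this]

theorem qParam_add_period {h : ℝ} (hh : h ≠ 0) (w : ℂ) : 𝕢 h (w + h) = 𝕢 h w := by
  have hh' : (h : ℂ) ≠ 0 := by exact_mod_cast hh
  simp only [Function.Periodic.qParam]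
  rw [show 2 * (Real.pi : ℂ) * Complex.I * (w + h) / h
      = 2 * Real.pi * Complex.I * w / h + 2 * Real.pi * Complex.I by field_simp]
  rw [Complex.exp_add, Complex.exp_two_pi_mul_I, mul_one]

theorem periodic_of_hasSum {G : ℍ → ℂ} {c : ℕ → ℂ} {h : ℝ} (hh : h ≠ 0)
    (hG : ∀ z : ℍ, HasSum (fun j => c j • 𝕢 h z ^ j) (G z)) :
    Function.Periodic (G ∘ ofComplex) h := by
  intro w
  by_cases! hw : 0 < Complex.im w
  · have hw' : 0 < Complex.im (w + h) := by simp [hw]
    simp only [comp_apply, ofComplex_apply_of_im_pos hw', ofComplex_apply_of_im_pos hw]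
    have e1 := hG ⟨w + h, hw'⟩
    have e2 := hG ⟨w, hw⟩
    have hq : 𝕢 h ((⟨w + h, hw'⟩ : ℍ) : ℂ) = 𝕢 h ((⟨w, hw⟩ : ℍ) : ℂ) := by
      show 𝕢 h (w + h) = 𝕢 h w
      exact qParam_add_period hh w
    rw [hq] at e1
    exact e1.unique e2
  · have : Complex.im (w + h) ≤ 0 := by simpa using hw
    simp [ofComplex_apply_of_im_nonpos this, ofComplex_apply_of_im_nonpos hw]

theorem mem_analyticSubring_of_hasSum {G : ℍ → ℂ} {c : ℕ → ℂ} {h : ℝ} (hh : 0 < h)
    (hG : ∀ z : ℍ, HasSum (fun j => c j • 𝕢 h z ^ j) (G z)) (hGhol : MDiff G) :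
    G ∈ analyticSubring h :=
  mem_analyticSubring_of_periodic hh (periodic_of_hasSum hh.ne' hG) hGhol
    (isBoundedAtImInfty_of_hasSum_qExpansion hh hG)

theorem qExpansion_coeff_of_hasSum {G : ℍ → ℂ} {c : ℕ → ℂ} {h : ℝ} (hh : 0 < h)
    (hG : ∀ z : ℍ, HasSum (fun j => c j • 𝕢 h z ^ j) (G z)) (hGhol : MDiff G) (j : ℕ) :
    (qExpansion h G).coeff j = c j := by
  have hfanalytic : AnalyticAt ℂ (cuspFunction h G) 0 := mem_analyticSubring_of_hasSum hh hG hGhol
  have h1 := (hasFPowerSeriesOnBall_cuspFunction hh hfanalytic hG).hasFPowerSeriesAt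
  have h2 : HasFPowerSeriesAt (cuspFunction h G)
      (FormalMultilinearSeries.ofScalars ℂ fun m ↦ (qExpansion h G).coeff m) 0 := by
    simpa [qExpansion_coeff, div_eq_mul_inv, mul_comm]
      using hfanalytic.hasFPowerSeriesAt
  have := congr_arg (FormalMultilinearSeries.coeff · j) (h1.eq_formalMultilinearSeries h2)
  simpa [FormalMultilinearSeries.coeff_ofScalars] using this.symm

/-- Main re-expansion lemma. -/
theorem expand_main {F G : ℍ → ℂ} {c : ℕ → ℂ}
    (hF : ∀ w : ℍ, HasSum (fun n => c n • 𝕢 1 w ^ n) (F w))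
    {h : ℝ} (hh : 0 < h) (α : ℍ → ℍ) (e : ℕ) (he : 0 < e) (ξ : ℂ)
    (hα : ∀ z : ℍ, 𝕢 1 (α z) = ξ * 𝕢 h z ^ e)
    (hG : ∀ z, G z = F (α z)) (hGhol : MDiff G) :
    G ∈ analyticSubring h ∧ ∀ j, (qExpansion h G).coeff j = expandCoeff c e ξ j := by
  have hsum : ∀ z : ℍ, HasSum (fun j => expandCoeff c e ξ j • 𝕢 h z ^ j) (G z) := fun z => by
    rw [hG z]
    exact hasSum_expand hF α e he ξ hα z
  exact ⟨mem_analyticSubring_of_hasSum hh hsum hGhol,
    fun j => qExpansion_coeff_of_hasSum hh hsum hGhol j⟩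

end Fermat.Agent.S22T

end
-- ===== PACK-END S22T/Expand.lean

-- ===== PACK-BEGIN S23/Cap/Defs.lean
section



/-!
# S23 common definitions (captain: helper23)

Everything is phrased for plain functions `ℍ → ℂ` with the predicates `IsMF` / `IsCF`
("is the underlying function of a modular / cusp form of level `Γ`, weight `k`"),
so that weights never appear in types.
-/

set_option autoImplicit false

namespace Fermat.Agent.S23.Cap

open UpperHalfPlane ModularForm ModularFormClass MatrixGroups CongruenceSubgroup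

/-- `Γ₀(N)` as a subgroup of `GL(2,ℝ)` (this is what `CuspForm (Gamma0 N) k` elaborates to). -/
abbrev G0 (N : ℕ) : Subgroup (GL (Fin 2) ℝ) :=
  Subgroup.map (Matrix.SpecialLinearGroup.mapGL ℝ) (Gamma0 N)

/-- `SL(2,ℤ)` as a subgroup of `GL(2,ℝ)` (Mathlib notation `𝒮ℒ`). -/
abbrev SLZ : Subgroup (GL (Fin 2) ℝ) := 𝒮ℒ

/-- `f` is (the function underlying) a modular form of level `Γ` and weight `k`. -/
def IsMF (Γ : Subgroup (GL (Fin 2) ℝ)) (k : ℤ) (f : ℍ → ℂ) : Prop :=
  ∃ g : ModularForm Γ k, (g : ℍ → ℂ) = f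

/-- `f` is (the function underlying) a cusp form of level `Γ` and weight `k`. -/
def IsCF (Γ : Subgroup (GL (Fin 2) ℝ)) (k : ℤ) (f : ℍ → ℂ) : Prop :=
  ∃ g : CuspForm Γ k, (g : ℍ → ℂ) = f

/-- The `q`-expansion (period 1). -/
noncomputable abbrev qx (f : ℍ → ℂ) : PowerSeries ℂ := qExpansion 1 f

/-- All coefficients are integers (same shape as in `CuspForm.intLattice`). -/
def IsIntSeries (F : PowerSeries ℂ) : Prop := ∀ n : ℕ, ∃ m : ℤ, PowerSeries.coeff n F = (m : ℂ)

/-- All coefficients are rational. -/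
def IsRatSeries (F : PowerSeries ℂ) : Prop := ∀ n : ℕ, ∃ r : ℚ, PowerSeries.coeff n F = (r : ℂ)

end Fermat.Agent.S23.Cap

end
-- ===== PACK-END S23/Cap/Defs.lean

-- ===== PACK-BEGIN S23/H143/PrimElt.lean
section






set_option autoImplicit false

open UpperHalfPlane ModularForm CongruenceSubgroup Filter Topology Matrix.SpecialLinearGroup
open scoped MatrixGroups ModularForm Manifold

namespace Fermat.Agent.S23.H143

noncomputable section

theorem primElt_det_eq (g : SL(2, ℤ)) : g 0 0 * g 1 1 - g 0 1 * g 1 0 = 1 := by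
  have h := g.det_coe
  rwa [Matrix.det_fin_two] at h

/-- Hermite normal form: `diag(N,1) * g = h * [a b; 0 d]` with `h ∈ SL₂(ℤ)`, `a = gcd(N, c)`,
`a * d = N`. Integer-entry version. -/
theorem primElt_hermite_int {N : ℕ} (hN : N ≠ 0) (g : SL(2, ℤ)) :
    ∃ (h : SL(2, ℤ)) (b : ℤ) (a d : ℕ), a * d = N ∧ a = Int.gcd N (g 1 0) ∧
      (N : ℤ) * g 0 0 = h 0 0 * a ∧ (N : ℤ) * g 0 1 = h 0 0 * b + h 0 1 * d ∧
      g 1 0 = h 1 0 * a ∧ g 1 1 = h 1 0 * b + h 1 1 * d := by
  have hdet := primElt_det_eq g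
  set e : ℕ := Int.gcd N (g 1 0) with he
  have he0 : e ≠ 0 := by
    intro h0
    rw [he, Int.gcd_eq_zero_iff] at h0
    exact hN (by exact_mod_cast h0.1)
  have heN : (e : ℤ) ∣ N := Int.gcd_dvd_left _ _
  have hec : (e : ℤ) ∣ g 1 0 := Int.gcd_dvd_right _ _
  obtain ⟨n', hn'⟩ := heN
  obtain ⟨y, hy⟩ := hec
  -- gcd(n', y) = 1
  have hcop1 : IsCoprime n' y := by
    have hgcd : Int.gcd (e * n') (e * y) = e := by rw [← hn', ← hy]
    rw [Int.gcd_mul_left, Int.natAbs_natCast] at hgcd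
    have : Int.gcd n' y = 1 := by
      have he0' : 0 < e := Nat.pos_of_ne_zero he0
      exact Nat.eq_of_mul_eq_mul_left he0' (by rw [hgcd, mul_one])
    exact Int.isCoprime_iff_gcd_eq_one.mpr this
  -- gcd(g00, y) = 1 since gcd(g00, g10) = 1
  have hcop2 : IsCoprime (g 0 0) y := by
    have : IsCoprime (g 0 0) (g 1 0) := ⟨g 1 1, -g 0 1, by linear_combination hdet⟩
    rw [hy] at this
    exact this.of_mul_right_right
  have hcop : IsCoprime (n' * g 0 0) y := hcop1.mul_left hcop2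
  obtain ⟨h, h00, h10⟩ := hcop.exists_SL2_col 0
  have hdeth := primElt_det_eq h
  have hn'pos : 0 < n' := by
    have h1 : (0 : ℤ) < e * n' := by rw [← hn']; exact_mod_cast Nat.pos_of_ne_zero hN
    have h2 : (0 : ℤ) < e := by exact_mod_cast Nat.pos_of_ne_zero he0
    exact (pos_iff_pos_of_mul_pos h1).mp h2
  refine ⟨h, h 1 1 * N * g 0 1 - h 0 1 * g 1 1, e, n'.toNat, ?_, rfl, ?_, ?_, ?_, ?_⟩
  · have : ((e * n'.toNat : ℕ) : ℤ) = (N : ℤ) := by
      push_cast
      rw [Int.toNat_of_nonneg hn'pos.le, hn']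
    exact_mod_cast this
  · rw [h00, hn']; ring
  · rw [Int.toNat_of_nonneg hn'pos.le]
    rw [h00, h10] at hdeth
    rw [hy] at hdet
    rw [h00, hn']
    linear_combination (-(e * n' * g 0 1)) * hdeth + (n' * h 0 1) * hdet
  · rw [h10, hy]; ring
  · rw [Int.toNat_of_nonneg hn'pos.le]
    rw [h00, h10] at hdeth
    rw [hy] at hdet
    rw [h10, hn']
    linear_combination (-(g 1 1)) * hdeth + (h 1 1 * n') * hdet

/-- Restriction of a modular form to a smaller subgroup. -/
def restrictMF {Γ Γ' : Subgroup (GL (Fin 2) ℝ)} {k : ℤ} (h : Γ ≤ Γ') (f : ModularForm Γ' k) :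
    ModularForm Γ k where
  toFun := f
  slash_action_eq' γ hγ := f.slash_action_eq' γ (h hγ)
  holo' := f.holo'
  bdd_at_cusps' hc := f.bdd_at_cusps' (hc.mono h)

@[simp] theorem coe_restrictMF {Γ Γ' : Subgroup (GL (Fin 2) ℝ)} {k : ℤ} (h : Γ ≤ Γ')
    (f : ModularForm Γ' k) : ⇑(restrictMF h f) = ⇑f := rfl

/-- GL₂(ℝ) version of the Hermite decomposition. -/
theorem primElt_hermite {N : ℕ} (hN : N ≠ 0) (g : SL(2, ℤ)) :
    ∃ (h : SL(2, ℤ)) (b : ℤ) (a d : ℕ) (had : (a : ℝ) * (d : ℝ) ≠ 0),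
      a * d = N ∧ a = Int.gcd N (g 1 0) ∧
      heckeDiagMatrix N * mapGL ℝ g = mapGL ℝ h * upperTriangularGL a b d had := by
  obtain ⟨h, b, a, d, had, ha, h1, h2, h3, h4⟩ := primElt_hermite_int hN g
  have had' : (a : ℝ) * (d : ℝ) ≠ 0 := by
    have : ((a * d : ℕ) : ℝ) ≠ 0 := by rw [had]; exact_mod_cast hN
    exact_mod_cast this
  refine ⟨h, b, a, d, had', had, ha, ?_⟩
  have e1 := congrArg (Int.cast : ℤ → ℝ) h1
  have e2 := congrArg (Int.cast : ℤ → ℝ) h2
  have e3 := congrArg (Int.cast : ℤ → ℝ) h3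
  have e4 := congrArg (Int.cast : ℤ → ℝ) h4
  push_cast at e1 e2 e3 e4
  ext i j
  fin_cases i <;> fin_cases j <;>
    simp [hN, Matrix.mul_apply, Fin.sum_univ_two] <;> linarith

theorem det_upperTriangularGL (a b d : ℝ) (had : a * d ≠ 0) :
    ((upperTriangularGL a b d had).det : ℝ) = a * d := by
  rw [Matrix.GeneralLinearGroup.val_det_apply, val_upperTriangularGL, Matrix.det_fin_two_of]
  ring

theorem slash_upperTriangularGL_apply (k : ℤ) {a d : ℝ} (b : ℝ) (ha : 0 < a) (hd : 0 < d)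
    (had : a * d ≠ 0) (f : ℍ → ℂ) (τ : ℍ) :
    (f ∣[k] upperTriangularGL a b d had) τ =
      f (upperTriangularGL a b d had • τ) * ((a : ℂ) * d) ^ (k - 1) * (d : ℂ) ^ (-k) := by
  have hdet : 0 < ((upperTriangularGL a b d had).det : ℝ) := by
    rw [det_upperTriangularGL]; positivity
  have hσ : UpperHalfPlane.σ (upperTriangularGL a b d had) = .refl ℝ ℂ := by
    rw [UpperHalfPlane.σ, if_pos hdet]
  have hden : UpperHalfPlane.denom (upperTriangularGL a b d had) τ = d := by
    simp [UpperHalfPlane.denom]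
  rw [ModularForm.slash_apply, hσ, det_upperTriangularGL, hden]
  simp only [ContinuousAlgEquiv.refl_apply]
  rw [abs_of_pos (by positivity)]
  push_cast
  ring

theorem tendsto_E₄_atImInfty : Tendsto (⇑E₄) atImInfty (𝓝 1) := by
  have hanal := ModularFormClass.analyticAt_cuspFunction_zero E₄ one_pos
    one_mem_strictPeriods_SL
  have hper := SlashInvariantFormClass.periodic_comp_ofComplex E₄
    one_mem_strictPeriods_SL
  have h0 : cuspFunction 1 (⇑E₄) 0 = 1 := by
    rw [cuspFunction_apply_zero one_pos hanal hper,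
      ← qExpansion_coeff_zero one_pos hanal hper]
    exact EisensteinSeries.E_qExpansion_coeff_zero (by norm_num) (by decide)
  have := (hanal.continuousAt.tendsto.comp (qParam_tendsto_atImInfty one_pos)).congr
    (fun τ ↦ SlashInvariantFormClass.eq_cuspFunction E₄ τ
      one_mem_strictPeriods_SL one_ne_zero)
  rwa [h0] at this

theorem primElt_mapGL_apply (g : SL(2, ℤ)) (i j : Fin 2) :
    (mapGL ℝ g : GL (Fin 2) ℝ) i j = ((g i j : ℤ) : ℝ) := by
  simp

theorem primElt_diag_mul_of_dvd {N : ℕ} (hN : N ≠ 0) (g : SL(2, ℤ)) (e : ℤ)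
    (he : g 1 0 = N * e) :
    ∃ g' : SL(2, ℤ), heckeDiagMatrix N * mapGL ℝ g = mapGL ℝ g' * heckeDiagMatrix N := by
  have hdet := primElt_det_eq g
  refine ⟨⟨!![g 0 0, N * g 0 1; e, g 1 1], ?_⟩, ?_⟩
  · rw [Matrix.det_fin_two_of]
    linear_combination hdet + (g 0 1) * he
  · ext i j
    fin_cases i <;> fin_cases j <;>
      simp [hN, Matrix.mul_apply, Fin.sum_univ_two]
    all_goals first
      | (have := congrArg (Int.cast : ℤ → ℝ) he; push_cast at this ⊢; linear_combination this)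
      | (have := congrArg (Int.cast : ℤ → ℝ) he; push_cast at this ⊢; linear_combination -this)
      | ring1

open ConjAct Pointwise in
theorem Gamma0_le_conj_SL {N : ℕ} (hN : N ≠ 0) :
    (Gamma0 N : Subgroup (GL (Fin 2) ℝ)) ≤ toConjAct (heckeDiagMatrix N)⁻¹ • 𝒮ℒ := by
  rintro γ ⟨g, hg, rfl⟩
  rw [Subgroup.mem_pointwise_smul_iff_inv_smul_mem, ← map_inv, inv_inv, ConjAct.smul_def,
    ConjAct.ofConjAct_toConjAct]
  have hg' : ((g 1 0 : ℤ) : ZMod N) = 0 := by simpa [Gamma0_mem] using hg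
  obtain ⟨e, he⟩ := (ZMod.intCast_zmod_eq_zero_iff_dvd _ _).mp hg'
  obtain ⟨g', hg'⟩ := primElt_diag_mul_of_dvd hN g e he
  rw [hg', mul_inv_cancel_right]
  exact ⟨g', rfl⟩

/-- The primitive element `t = N³ E₄(N τ)`, a weight-4 modular form on `Γ₀(N)`. -/
def primElt (N : ℕ) [NeZero N] : ModularForm (Gamma0 N : Subgroup (GL (Fin 2) ℝ)) 4 :=
  restrictMF (Gamma0_le_conj_SL (NeZero.ne N)) (ModularForm.translate E₄ (heckeDiagMatrix N))

theorem coe_primElt (N : ℕ) [NeZero N] :
    ⇑(primElt N) = (⇑E₄) ∣[(4 : ℤ)] heckeDiagMatrix N := rfl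

theorem primElt_apply (N : ℕ) [NeZero N] (τ : ℍ) :
    primElt N τ = (N : ℂ) ^ 3 * E₄ (heckeDiagMatrix N • τ) := by
  rw [coe_primElt, slash_heckeDiagMatrix_apply 4 (NeZero.ne N)]
  norm_num

theorem tendsto_primElt_atImInfty (N : ℕ) [NeZero N] :
    Tendsto (⇑(primElt N)) atImInfty (𝓝 ((N : ℂ) ^ 3)) := by
  have h1 : Tendsto (fun τ : ℍ ↦ heckeDiagMatrix N • τ) atImInfty atImInfty :=
    tendsto_smul_atImInfty (by simp [val_heckeDiagMatrix (NeZero.ne N)])
  have h2 := (tendsto_E₄_atImInfty.comp h1).const_mul ((N : ℂ) ^ 3)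
  rw [mul_one] at h2
  exact h2.congr (fun τ ↦ (primElt_apply N τ).symm)

/-- Slash of the primitive element by an arbitrary `g ∈ SL₂(ℤ)`: its limit at `i∞` is
`N³ / d⁴` where `d = N / gcd(N, c)`. -/
theorem tendsto_primElt_slash_atImInfty (N : ℕ) [NeZero N] (g : SL(2, ℤ)) :
    ∃ a d : ℕ, a * d = N ∧ a = Int.gcd N (g 1 0) ∧
      Tendsto ((⇑(primElt N)) ∣[(4 : ℤ)] (mapGL ℝ g)) atImInfty
        (𝓝 ((N : ℂ) ^ 3 * ((d : ℂ) ^ 4)⁻¹)) := by
  obtain ⟨h, b, a, d, had, hadN, ha, hmat⟩ := primElt_hermite (NeZero.ne N) g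
  refine ⟨a, d, hadN, ha, ?_⟩
  have hN : (N : ℝ) ≠ 0 := by exact_mod_cast NeZero.ne N
  have ha0 : (0 : ℝ) < a := by
    rcases Nat.eq_zero_or_pos a with h0 | h0
    · simp [h0] at had
    · exact_mod_cast h0
  have hd0 : (0 : ℝ) < d := by
    rcases Nat.eq_zero_or_pos d with h0 | h0
    · simp [h0] at had
    · exact_mod_cast h0
  have hE : (⇑E₄) ∣[(4 : ℤ)] (mapGL ℝ h) = ⇑E₄ :=
    SlashInvariantFormClass.slash_action_eq E₄ _ ⟨h, rfl⟩
  have hfun : (⇑(primElt N)) ∣[(4 : ℤ)] (mapGL ℝ g) =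
      (⇑E₄) ∣[(4 : ℤ)] (upperTriangularGL a b d had) := by
    rw [coe_primElt, ← SlashAction.slash_mul, hmat, SlashAction.slash_mul, hE]
  rw [hfun]
  have h1 : Tendsto (fun τ : ℍ ↦ upperTriangularGL a b d had • τ) atImInfty atImInfty :=
    tendsto_smul_atImInfty (by simp)
  have h2 := ((tendsto_E₄_atImInfty.comp h1).mul_const
    (((a : ℂ) * d) ^ ((4 : ℤ) - 1))).mul_const ((d : ℂ) ^ (-(4 : ℤ)))
  have hval : (1 : ℂ) * ((a : ℂ) * d) ^ ((4 : ℤ) - 1) * (d : ℂ) ^ (-(4 : ℤ)) =
      (N : ℂ) ^ 3 * ((d : ℂ) ^ 4)⁻¹ := by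
    have : ((a : ℂ) * d) = N := by exact_mod_cast congrArg (Nat.cast : ℕ → ℂ) hadN
    rw [this, one_mul]
    norm_num [zpow_neg]
  rw [hval] at h2
  refine h2.congr (fun τ ↦ ?_)
  rw [slash_upperTriangularGL_apply 4 (b : ℝ) ha0 hd0 had]
  simp

theorem primElt_slash_ne (N : ℕ) [NeZero N] (g : SL(2, ℤ)) (hg : g ∉ Gamma0 N) :
    (⇑(primElt N)) ∣[(4 : ℤ)] (mapGL ℝ g) ≠ ⇑(primElt N) := by
  intro heq
  obtain ⟨a, d, hadN, ha, hlim⟩ := tendsto_primElt_slash_atImInfty N g
  rw [heq] at hlim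
  have huniq := tendsto_nhds_unique hlim (tendsto_primElt_atImInfty N)
  have hN : (N : ℂ) ≠ 0 := by exact_mod_cast NeZero.ne N
  have hd4 : ((d : ℂ) ^ 4)⁻¹ = 1 := by
    have := mul_left_cancel₀ (pow_ne_zero 3 hN) (huniq.trans (mul_one _).symm)
    exact this
  have hd4' : (d : ℂ) ^ 4 = 1 := by
    rw [inv_eq_one] at hd4; exact hd4
  have hd : d = 1 := by
    have : (d ^ 4 : ℕ) = 1 := by exact_mod_cast hd4'
    exact (Nat.pow_eq_one.mp this).resolve_right (by norm_num)
  rw [hd, mul_one] at hadN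
  rw [hadN] at ha
  apply hg
  rw [Gamma0_mem, ZMod.intCast_zmod_eq_zero_iff_dvd]
  have : ((Int.gcd N (g 1 0) : ℕ) : ℤ) ∣ g 1 0 := Int.gcd_dvd_right _ _
  rwa [← ha] at this

/-- The `q`-expansion coefficients of `E₄` are integers. -/
theorem E₄_qExpansion_coeff_int (m : ℕ) : ∃ z : ℤ, (qExpansion 1 E₄).coeff m = (z : ℂ) := by
  rw [EisensteinSeries.E_qExpansion_coeff (by norm_num : 3 ≤ 4) ⟨2, rfl⟩ m]
  have hb : bernoulli 4 = -1 / 30 := by
    rw [bernoulli_eq_bernoulli'_of_ne_one (by norm_num), bernoulli'_four]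
  split_ifs with h
  · exact ⟨1, by simp⟩
  · refine ⟨240 * (ArithmeticFunction.sigma 3 m : ℤ), ?_⟩
    rw [hb]
    push_cast
    norm_num

theorem qParam_heckeDiagMatrix_smul (N : ℕ) [NeZero N] (τ : ℍ) :
    Function.Periodic.qParam 1 ((heckeDiagMatrix N • τ : ℍ) : ℂ) =
      Function.Periodic.qParam 1 (τ : ℂ) ^ N := by
  rw [coe_heckeDiagMatrix_smul (NeZero.ne N), Function.Periodic.qParam, Function.Periodic.qParam,
    ← Complex.exp_nat_mul]
  congr 1
  push_cast
  ring

/-- The `q`-expansion of the primitive element `N³ E₄(N τ)`. -/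
theorem primElt_qExpansion_coeff (N : ℕ) [NeZero N] (n : ℕ) :
    (qExpansion 1 (primElt N)).coeff n =
      if N ∣ n then (N : ℂ) ^ 3 * (qExpansion 1 E₄).coeff (n / N) else 0 := by
  set c : ℕ → ℂ := fun n ↦ if N ∣ n then (N : ℂ) ^ 3 * (qExpansion 1 E₄).coeff (n / N) else 0
    with hc
  have hN : 0 < N := Nat.pos_of_ne_zero (NeZero.ne N)
  have hinj : Function.Injective (fun m : ℕ ↦ N * m) := fun a b h ↦
    Nat.eq_of_mul_eq_mul_left hN h
  have key : ∀ τ : ℍ, HasSum (fun m ↦ c m • Function.Periodic.qParam 1 (τ : ℂ) ^ m)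
      (primElt N τ) := by
    intro τ
    have h1 := ModularForm.hasSum_qExpansion E₄ one_pos one_mem_strictPeriods_SL
      (heckeDiagMatrix N • τ)
    rw [qParam_heckeDiagMatrix_smul] at h1
    have h2 := h1.mul_left ((N : ℂ) ^ 3)
    rw [← primElt_apply] at h2
    rw [← hinj.hasSum_iff]
    · have hfun : ((fun m ↦ c m • Function.Periodic.qParam 1 (τ : ℂ) ^ m) ∘ fun m : ℕ ↦ N * m) =
          fun i ↦ (N : ℂ) ^ 3 * ((qExpansion 1 E₄).coeff i *
            (Function.Periodic.qParam 1 (τ : ℂ) ^ N) ^ i) := by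
        funext m
        simp only [Function.comp_apply, hc, dvd_mul_right, if_true,
          Nat.mul_div_cancel_left m hN, smul_eq_mul]
        rw [pow_mul]
        ring
      rw [hfun]
      exact h2
    · intro x hx
      have : ¬ N ∣ x := fun ⟨m, hm⟩ ↦ hx ⟨m, hm.symm⟩
      simp [hc, this]
  exact (ModularFormClass.qExpansion_coeff_unique one_pos
    (CongruenceSubgroup.one_mem_strictPeriods_Gamma0 N) key n).symm

theorem primElt_qExpansion_coeff_int (N : ℕ) [NeZero N] (n : ℕ) :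
    ∃ z : ℤ, (qExpansion 1 (primElt N)).coeff n = (z : ℂ) := by
  rw [primElt_qExpansion_coeff]
  split_ifs with h
  · obtain ⟨z, hz⟩ := E₄_qExpansion_coeff_int (n / N)
    exact ⟨(N : ℤ) ^ 3 * z, by rw [hz]; push_cast; ring⟩
  · exact ⟨0, by simp⟩

section conjugates

open SlashInvariantForm

local notation "𝒢₀" N => (Gamma0 N : Subgroup (GL (Fin 2) ℝ))

/-- The conjugates of the primitive element under the nontrivial cosets of `Γ₀(N)` in `SL₂(ℤ)`
are all different from the primitive element itself. -/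
theorem quotientFunc_primElt_ne (N : ℕ) [NeZero N]
    (q : 𝒮ℒ ⧸ (𝒢₀ N).subgroupOf 𝒮ℒ) (hq : q ≠ QuotientGroup.mk 1) :
    quotientFunc (primElt N) q ≠ ⇑(primElt N) := by
  induction q using Quotient.inductionOn with
  | h r =>
    obtain ⟨g, hgr⟩ := MonoidHom.mem_range.mp r.2
    rw [quotientFunc_mk]
    have hg : g⁻¹ ∉ Gamma0 N := by
      intro hmem
      apply hq
      have h1 : (Quotient.mk _ r : 𝒮ℒ ⧸ (𝒢₀ N).subgroupOf 𝒮ℒ) = QuotientGroup.mk r := rfl
      rw [h1, QuotientGroup.eq, mul_one, Subgroup.mem_subgroupOf]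
      refine ⟨g⁻¹, hmem, ?_⟩
      rw [map_inv, hgr]
      rfl
    have := primElt_slash_ne N g⁻¹ hg
    rwa [map_inv, hgr] at this

theorem mdiff_quotientFunc_primElt (N : ℕ) [NeZero N]
    (q : 𝒮ℒ ⧸ (𝒢₀ N).subgroupOf 𝒮ℒ) : MDiff (quotientFunc (primElt N) q) := by
  induction q using Quotient.inductionOn with
  | h r => exact (ModularForm.translate (primElt N) r.val⁻¹).holo'

/-- The "different" `∏_{q ≠ 1} (t - t_q)` of the primitive element is not identically zero
(function version, for any finset of cosets avoiding the trivial coset). -/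
theorem prod_primElt_sub_quotientFunc_ne_zero (N : ℕ) [NeZero N]
    (s : Finset (𝒮ℒ ⧸ (𝒢₀ N).subgroupOf 𝒮ℒ)) (hs : QuotientGroup.mk 1 ∉ s) :
    (∏ q ∈ s, (⇑(primElt N) - quotientFunc (primElt N) q)) ≠ 0 := by
  intro h0
  have hmd : ∀ q ∈ s, MDiff (⇑(primElt N) - quotientFunc (primElt N) q) :=
    fun q _ ↦ (ModularFormClass.holo (primElt N)).sub (mdiff_quotientFunc_primElt N q)
  obtain ⟨q, hq, hq0⟩ := (UpperHalfPlane.prod_eq_zero_iff hmd).mp h0
  have hq1 : q ≠ QuotientGroup.mk 1 := fun h ↦ hs (h ▸ hq)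
  exact quotientFunc_primElt_ne N q hq1 (sub_eq_zero.mp hq0).symm

/-- Pointwise version. -/
theorem exists_prod_primElt_sub_quotientFunc_ne_zero (N : ℕ) [NeZero N]
    (s : Finset (𝒮ℒ ⧸ (𝒢₀ N).subgroupOf 𝒮ℒ)) (hs : QuotientGroup.mk 1 ∉ s) :
    ∃ τ : ℍ, (∏ q ∈ s, (primElt N τ - quotientFunc (primElt N) q τ)) ≠ 0 := by
  by_contra hcon
  push Not at hcon
  apply prod_primElt_sub_quotientFunc_ne_zero N s hs
  funext τ
  simpa using hcon τ

end conjugates

end

end Fermat.Agent.S23.H143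

end
-- ===== PACK-END S23/H143/PrimElt.lean

-- ===== PACK-BEGIN S23/Cap/TForm.lean
section



/-!
# S23 / WP2 : the auxiliary form `t(τ) = N³ E₄(Nτ) = E₄ ∣[4] diag(N,1)` on `Γ₀(N)`.

`t` is a modular form of weight 4 on `Γ₀(N)`, has integral q-expansion, and
`t ∣[4] γ ≠ t` for every `γ ∈ SL₂(ℤ) \ Γ₀(N)`.  (Adapter around `H143/PrimElt.lean`.)
-/

set_option autoImplicit false

namespace Fermat.Agent.S23.Cap

open UpperHalfPlane ModularForm ModularFormClass MatrixGroups CongruenceSubgroup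

/-- **WP2 main statement.** -/
theorem exists_tForm (N : ℕ) [NeZero N] :
    ∃ (w : ℤ) (t : ℍ → ℂ), IsMF (G0 N) w t ∧ IsIntSeries (qx t) ∧
      ∀ γ : GL (Fin 2) ℝ, γ ∈ SLZ → γ ∉ G0 N → t ∣[w] γ ≠ t := by
  refine ⟨4, ⇑(H143.primElt N), ⟨H143.primElt N, rfl⟩, H143.primElt_qExpansion_coeff_int N, ?_⟩
  intro γ hγ hγ'
  obtain ⟨g, rfl⟩ := MonoidHom.mem_range.mp hγ
  exact H143.primElt_slash_ne N g (fun hg ↦ hγ' ⟨g, hg, rfl⟩)

end Fermat.Agent.S23.Cap

end
-- ===== PACK-END S23/Cap/TForm.lean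

-- ===== PACK-BEGIN S23/Cap/Basic.lean
section




/-!
# S23 / WP0 : closure properties of `IsMF`, `IsCF` and of the q-expansion map `qx`.
-/

set_option autoImplicit false
set_option linter.unusedSectionVars false

namespace Fermat.Agent.S23.Cap

open UpperHalfPlane ModularForm ModularFormClass MatrixGroups CongruenceSubgroup

variable {Γ : Subgroup (GL (Fin 2) ℝ)} {k k₁ k₂ : ℤ} {f g : ℍ → ℂ}

/-! ### closure properties -/

theorem IsMF.congr_weight (h : k₁ = k₂) (hf : IsMF Γ k₁ f) : IsMF Γ k₂ f := h ▸ hf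

theorem IsCF.congr_weight (h : k₁ = k₂) (hf : IsCF Γ k₁ f) : IsCF Γ k₂ f := h ▸ hf

theorem IsCF.isMF (hf : IsCF Γ k f) : IsMF Γ k f := by
  obtain ⟨F, rfl⟩ := hf
  exact ⟨ModularFormClass.modularForm F, rfl⟩

theorem IsMF.zero : IsMF Γ k (0 : ℍ → ℂ) := ⟨0, rfl⟩

theorem IsCF.zero : IsCF Γ k (0 : ℍ → ℂ) := ⟨0, rfl⟩

theorem IsMF.add (hf : IsMF Γ k f) (hg : IsMF Γ k g) : IsMF Γ k (f + g) := by
  obtain ⟨F, rfl⟩ := hf
  obtain ⟨G, rfl⟩ := hg
  exact ⟨F + G, rfl⟩

theorem IsMF.neg (hf : IsMF Γ k f) : IsMF Γ k (-f) := by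
  obtain ⟨F, rfl⟩ := hf
  exact ⟨-F, rfl⟩

theorem IsMF.sub (hf : IsMF Γ k f) (hg : IsMF Γ k g) : IsMF Γ k (f - g) := by
  obtain ⟨F, rfl⟩ := hf
  obtain ⟨G, rfl⟩ := hg
  exact ⟨F - G, rfl⟩

theorem IsMF.smul [Γ.HasDetOne] (c : ℂ) (hf : IsMF Γ k f) : IsMF Γ k (c • f) := by
  obtain ⟨F, rfl⟩ := hf
  exact ⟨c • F, rfl⟩

theorem IsMF.sum {ι : Type*} (s : Finset ι) (F : ι → ℍ → ℂ)
    (hF : ∀ i ∈ s, IsMF Γ k (F i)) : IsMF Γ k (∑ i ∈ s, F i) := by
  classical
  induction s using Finset.induction_on with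
  | empty => simpa using (IsMF.zero : IsMF Γ k 0)
  | insert a s ha ih =>
    rw [Finset.sum_insert ha]
    exact (hF a (Finset.mem_insert_self a s)).add
      (ih fun i hi => hF i (Finset.mem_insert_of_mem hi))

theorem IsMF.const [Γ.HasDetOne] (c : ℂ) : IsMF Γ 0 (fun _ => c) :=
  ⟨ModularForm.const c, rfl⟩

theorem IsMF.one [Γ.HasDetOne] : IsMF Γ 0 (1 : ℍ → ℂ) :=
  ⟨ModularForm.const 1, rfl⟩

theorem IsMF.mul [Γ.HasDetPlusMinusOne] (hf : IsMF Γ k₁ f) (hg : IsMF Γ k₂ g) :
    IsMF Γ (k₁ + k₂) (f * g) := by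
  obtain ⟨F, rfl⟩ := hf
  obtain ⟨G, rfl⟩ := hg
  exact ⟨F.mul G, rfl⟩

theorem IsMF.pow [Γ.HasDetPlusMinusOne] (hf : IsMF Γ k f) (n : ℕ) :
    IsMF Γ (k * n) (f ^ n) := by
  obtain ⟨F, rfl⟩ := hf
  exact ⟨ModularForm.mcast (by ring) (F.pow n), by
    ext z
    simp [ModularForm.coe_pow]⟩

theorem IsCF.add (hf : IsCF Γ k f) (hg : IsCF Γ k g) : IsCF Γ k (f + g) := by
  obtain ⟨F, rfl⟩ := hf
  obtain ⟨G, rfl⟩ := hg
  exact ⟨F + G, rfl⟩

theorem IsCF.neg (hf : IsCF Γ k f) : IsCF Γ k (-f) := by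
  obtain ⟨F, rfl⟩ := hf
  exact ⟨-F, rfl⟩

theorem IsCF.smul [Γ.HasDetOne] (c : ℂ) (hf : IsCF Γ k f) : IsCF Γ k (c • f) := by
  obtain ⟨F, rfl⟩ := hf
  exact ⟨c • F, rfl⟩

theorem IsCF.sum {ι : Type*} (s : Finset ι) (F : ι → ℍ → ℂ)
    (hF : ∀ i ∈ s, IsCF Γ k (F i)) : IsCF Γ k (∑ i ∈ s, F i) := by
  classical
  induction s using Finset.induction_on with
  | empty => simpa using (IsCF.zero : IsCF Γ k 0)
  | insert a s ha ih =>
    rw [Finset.sum_insert ha]
    exact (hF a (Finset.mem_insert_self a s)).add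
      (ih fun i hi => hF i (Finset.mem_insert_of_mem hi))

theorem IsCF.mul_isMF [Γ.HasDetPlusMinusOne] (hf : IsCF Γ k₁ f) (hg : IsMF Γ k₂ g) :
    IsCF Γ (k₁ + k₂) (f * g) := by
  obtain ⟨F, rfl⟩ := hf
  obtain ⟨G, rfl⟩ := hg
  exact ⟨F.mulModularForm G, rfl⟩

theorem G0_le_SLZ (N : ℕ) : G0 N ≤ SLZ := by
  rintro _ ⟨γ, -, rfl⟩
  exact ⟨γ, rfl⟩

/-- restriction of the level: a level one form is a form of level `Γ₀(N)`. -/
theorem IsMF.of_levelOne (N : ℕ) (hf : IsMF SLZ k f) : IsMF (G0 N) k f := by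
  obtain ⟨F, rfl⟩ := hf
  exact ⟨{ toFun := F
           slash_action_eq' := fun γ hγ => F.slash_action_eq' γ (G0_le_SLZ N hγ)
           holo' := F.holo'
           bdd_at_cusps' := fun hc => F.bdd_at_cusps' (hc.mono (G0_le_SLZ N)) }, rfl⟩

theorem IsCF.of_levelOne (N : ℕ) (hf : IsCF SLZ k f) : IsCF (G0 N) k f := by
  obtain ⟨F, rfl⟩ := hf
  exact ⟨{ toFun := F
           slash_action_eq' := fun γ hγ => F.slash_action_eq' γ (G0_le_SLZ N hγ)
           holo' := F.holo'
           zero_at_cusps' := fun hc => F.zero_at_cusps' (hc.mono (G0_le_SLZ N)) }, rfl⟩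

/-- A level one modular form whose constant coefficient vanishes is a cusp form. -/
theorem IsMF.isCF_levelOne_of_coeff_zero (hf : IsMF SLZ k f)
    (h0 : PowerSeries.coeff 0 (qx f) = 0) : IsCF SLZ k f := by
  obtain ⟨F, rfl⟩ := hf
  exact ⟨toCuspForm F h0, rfl⟩

/-- The constant coefficient of a cusp form (level `Γ₀(N)`) vanishes. -/
theorem IsCF.coeff_zero (N : ℕ) [NeZero N] (hf : IsCF (G0 N) k f) :
    PowerSeries.coeff 0 (qx f) = 0 := by
  obtain ⟨F, rfl⟩ := hf
  exact CuspFormClass.qExpansion_coeff_zero F one_pos (one_mem_strictPeriods_Gamma0 N)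

theorem IsCF.coeff_zero_levelOne (hf : IsCF SLZ k f) :
    PowerSeries.coeff 0 (qx f) = 0 := by
  obtain ⟨F, rfl⟩ := hf
  exact CuspFormClass.qExpansion_coeff_zero F one_pos one_mem_strictPeriods_SL

/-! ### the q-expansion map on forms of level `Γ₀(N)` (period `1`) -/

section qx

variable (N : ℕ) [NeZero N]

theorem qx_zero : qx (0 : ℍ → ℂ) = 0 := qExpansion_zero 1

theorem qx_one : qx (1 : ℍ → ℂ) = 1 := qExpansion_one 1

theorem qx_add (hf : IsMF (G0 N) k₁ f) (hg : IsMF (G0 N) k₂ g) :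
    qx (f + g) = qx f + qx g := by
  obtain ⟨F, rfl⟩ := hf
  obtain ⟨G, rfl⟩ := hg
  exact ModularForm.qExpansion_add one_pos (one_mem_strictPeriods_Gamma0 N) F G

theorem qx_neg (hf : IsMF (G0 N) k f) : qx (-f) = - qx f := by
  obtain ⟨F, rfl⟩ := hf
  exact ModularForm.qExpansion_neg one_pos (one_mem_strictPeriods_Gamma0 N) F

theorem qx_sub (hf : IsMF (G0 N) k₁ f) (hg : IsMF (G0 N) k₂ g) :
    qx (f - g) = qx f - qx g := by
  obtain ⟨F, rfl⟩ := hf
  obtain ⟨G, rfl⟩ := hg
  exact ModularForm.qExpansion_sub one_pos (one_mem_strictPeriods_Gamma0 N) F G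

theorem qx_smul (c : ℂ) (hf : IsMF (G0 N) k f) : qx (c • f) = c • qx f := by
  obtain ⟨F, rfl⟩ := hf
  exact ModularForm.qExpansion_smul one_pos (one_mem_strictPeriods_Gamma0 N) c F

theorem qx_mul (hf : IsMF (G0 N) k₁ f) (hg : IsMF (G0 N) k₂ g) :
    qx (f * g) = qx f * qx g := by
  obtain ⟨F, rfl⟩ := hf
  obtain ⟨G, rfl⟩ := hg
  exact ModularForm.qExpansion_mul_coe one_pos (one_mem_strictPeriods_Gamma0 N) F G

theorem qx_pow (hf : IsMF (G0 N) k f) (n : ℕ) : qx (f ^ n) = qx f ^ n := by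
  induction n with
  | zero => simpa using qx_one
  | succ n ih =>
    rw [pow_succ, pow_succ, qx_mul N (hf.pow n) hf, ih]

theorem qx_sum {ι : Type*} (s : Finset ι) (F : ι → ℍ → ℂ) (w : ι → ℤ)
    (hF : ∀ i ∈ s, IsMF (G0 N) (w i) (F i)) :
    qx (∑ i ∈ s, F i) = ∑ i ∈ s, qx (F i) := by
  classical
  -- work at the level of cusp functions, which avoids any weight bookkeeping
  have han : ∀ i ∈ s, AnalyticAt ℂ (cuspFunction 1 (F i)) 0 := by
    intro i hi
    obtain ⟨G, hG⟩ := hF i hi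
    rw [← hG]
    exact ModularFormClass.analyticAt_cuspFunction_zero G one_pos
      (one_mem_strictPeriods_Gamma0 N)
  have key : ∀ s : Finset ι, (∀ i ∈ s, AnalyticAt ℂ (cuspFunction 1 (F i)) 0) →
      AnalyticAt ℂ (cuspFunction 1 (∑ i ∈ s, F i)) 0 ∧
        qExpansion 1 (∑ i ∈ s, F i) = ∑ i ∈ s, qExpansion 1 (F i) := by
    intro s
    induction s using Finset.induction_on with
    | empty =>
      intro _
      refine ⟨?_, by simpa using qExpansion_zero 1⟩
      simp only [Finset.sum_empty]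
      exact ModularFormClass.analyticAt_cuspFunction_zero (0 : ModularForm (G0 N) 0)
        one_pos (one_mem_strictPeriods_Gamma0 N)
    | insert a s ha ih =>
      intro h
      have ha' := h a (Finset.mem_insert_self a s)
      obtain ⟨hs1, hs2⟩ := ih fun i hi => h i (Finset.mem_insert_of_mem hi)
      rw [Finset.sum_insert ha, Finset.sum_insert ha]
      refine ⟨?_, ?_⟩
      · rw [UpperHalfPlane.cuspFunction_add ha'.continuousAt hs1.continuousAt]
        exact ha'.add hs1
      · rw [UpperHalfPlane.qExpansion_add ha' hs1, hs2]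
  exact (key s han).2

/-- injectivity of the q-expansion. -/
theorem eq_zero_of_qx_eq_zero (hf : IsMF (G0 N) k f) (h : qx f = 0) : f = 0 := by
  obtain ⟨F, rfl⟩ := hf
  have := (ModularForm.qExpansion_eq_zero_iff one_pos (one_mem_strictPeriods_Gamma0 N) F).mp h
  rw [this]
  rfl

theorem eq_of_qx_eq (hf : IsMF (G0 N) k f) (hg : IsMF (G0 N) k g) (h : qx f = qx g) :
    f = g := by
  have h1 : qx (f - g) = 0 := by rw [qx_sub N hf hg, h, sub_self]
  have := eq_zero_of_qx_eq_zero N (hf.sub hg) h1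
  exact sub_eq_zero.mp this

/-- Sturm bound (from the Prelude), in the `IsMF` language. -/
theorem sturm (hf : IsMF (G0 N) k f)
    (h : ∀ n : ℕ, n ≤ (k * (Gamma0 N).index).toNat / 12 → PowerSeries.coeff n (qx f) = 0) :
    f = 0 := by
  obtain ⟨F, rfl⟩ := hf
  have := ModularForm.sturm_bound_Gamma0 N F h
  rw [this]
  rfl

end qx

/-! ### integrality bookkeeping -/

theorem IsIntSeries.isRatSeries {F : PowerSeries ℂ} (hF : IsIntSeries F) : IsRatSeries F :=
  fun n => by obtain ⟨m, hm⟩ := hF n; exact ⟨m, by simp [hm]⟩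

/-- A series is integral iff it is the image of an integral power series. -/
theorem isIntSeries_iff {F : PowerSeries ℂ} :
    IsIntSeries F ↔ ∃ P : PowerSeries ℤ, P.map (Int.castRingHom ℂ) = F := by
  constructor
  · intro h
    choose m hm using h
    refine ⟨PowerSeries.mk m, ?_⟩
    ext n
    simp [hm n]
  · rintro ⟨P, rfl⟩ n
    exact ⟨PowerSeries.coeff n P, by simp⟩

theorem isRatSeries_iff {F : PowerSeries ℂ} :
    IsRatSeries F ↔ ∃ P : PowerSeries ℚ, P.map (algebraMap ℚ ℂ) = F := by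
  constructor
  · intro h
    choose m hm using h
    refine ⟨PowerSeries.mk m, ?_⟩
    ext n
    simp [hm n]
  · rintro ⟨P, rfl⟩ n
    exact ⟨PowerSeries.coeff n P, by simp⟩

theorem IsIntSeries.mul {F G : PowerSeries ℂ} (hF : IsIntSeries F) (hG : IsIntSeries G) :
    IsIntSeries (F * G) := by
  rw [isIntSeries_iff] at hF hG ⊢
  obtain ⟨P, rfl⟩ := hF
  obtain ⟨Q, rfl⟩ := hG
  exact ⟨P * Q, map_mul _ _ _⟩

theorem IsIntSeries.pow {F : PowerSeries ℂ} (hF : IsIntSeries F) (n : ℕ) :
    IsIntSeries (F ^ n) := by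
  rw [isIntSeries_iff] at hF ⊢
  obtain ⟨P, rfl⟩ := hF
  exact ⟨P ^ n, map_pow _ _ _⟩

theorem IsIntSeries.add {F G : PowerSeries ℂ} (hF : IsIntSeries F) (hG : IsIntSeries G) :
    IsIntSeries (F + G) := by
  rw [isIntSeries_iff] at hF hG ⊢
  obtain ⟨P, rfl⟩ := hF
  obtain ⟨Q, rfl⟩ := hG
  exact ⟨P + Q, map_add _ _ _⟩

/-- Integral (even rational) series are fixed by every ring endomorphism of `ℂ`. -/
theorem IsRatSeries.map_eq {F : PowerSeries ℂ} (hF : IsRatSeries F) (σ : ℂ →+* ℂ) :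
    F.map σ = F := by
  ext n
  obtain ⟨r, hr⟩ := hF n
  simp [hr]

end Fermat.Agent.S23.Cap

end
-- ===== PACK-END S23/Cap/Basic.lean

-- ===== PACK-BEGIN S23/H503/Lagrange.lean
section




/-!
# Symmetric functions of the translates of a modular form, and Lagrange interpolation

For `f` a modular form of weight `k` for `𝒢`, and `ℋ` a subgroup in which `𝒢 ⊓ ℋ` has finite
index, the elementary symmetric functions of the translates `f ∣[k] h⁻¹` (`h ∈ ℋ ⧸ 𝒢 ⊓ ℋ`) are
modular forms of weight `k * m` for `ℋ`; `f` is a root of the corresponding monic polynomial.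

Moreover, for a second form `t` of weight `w`, the coefficients of the Lagrange interpolation
polynomial `∑_q f_q ∏_{q' ≠ q} (X - t_{q'})` are modular forms for `ℋ`, and evaluating at `X = t`
gives `f * ∏_{q ≠ 1} (t - t_q)`.
-/

set_option autoImplicit false

noncomputable section

namespace Fermat.Agent.S23.H503

open UpperHalfPlane SlashInvariantForm

open scoped ModularForm Topology Filter Manifold MatrixGroups

variable {𝒢 ℋ : Subgroup (GL (Fin 2) ℝ)} {F : Type*} (f : F) [FunLike F ℍ ℂ] {k : ℤ}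

local notation "𝒬" => ℋ ⧸ (𝒢.subgroupOf ℋ)

/-! ### Pure algebra -/

section algebra

variable {ι R : Type*} [CommRing R]

/-- Vieta's formula, evaluated at a point. -/
lemma prod_sub_eq_sum_esymm (s : Finset ι) (x : ι → R) (y : R) :
    ∏ i ∈ s, (y - x i) = ∑ j ∈ Finset.range (s.card + 1),
      (-1) ^ j * (∑ t ∈ Finset.powersetCard j s, ∏ i ∈ t, x i) * y ^ (s.card - j) := by
  have h := congrArg (Polynomial.eval y) (Multiset.prod_X_sub_X_eq_sum_esymm (s.val.map x))
  simp only [Multiset.map_map, Function.comp_def, Multiset.card_map, Finset.card_val,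
    Polynomial.eval_finsetSum, Polynomial.eval_mul, Polynomial.eval_pow, Polynomial.eval_neg,
    Polynomial.eval_one, Polynomial.eval_C, Polynomial.eval_X, Finset.esymm_map_val] at h
  have h2 : Polynomial.eval y
      (Multiset.map (fun i ↦ Polynomial.X - Polynomial.C (x i)) s.val).prod =
      ∏ i ∈ s, (y - x i) := by
    rw [Polynomial.eval_multiset_prod, Multiset.map_map]
    simp only [Function.comp_def, Polynomial.eval_sub, Polynomial.eval_X, Polynomial.eval_C]
    rfl
  rw [← h2, h]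
  exact Finset.sum_congr rfl fun j _ ↦ by ring

/-- Sums over `powersetCard` are invariant under permutations of the ground type. -/
lemma sum_powersetCard_prod_comp [Fintype ι] [DecidableEq ι]
    (σ : Equiv.Perm ι) (g : ι → R) (m : ℕ) :
    ∑ s ∈ Finset.powersetCard m (Finset.univ : Finset ι), ∏ q ∈ s, g (σ q) =
      ∑ s ∈ Finset.powersetCard m (Finset.univ : Finset ι), ∏ q ∈ s, g q := by
  have h1 : Finset.powersetCard m (Finset.univ : Finset ι) =
      (Finset.powersetCard m (Finset.univ : Finset ι)).map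
        (Finset.mapEmbedding σ.toEmbedding).toEmbedding := by
    rw [← Finset.powersetCard_map, Finset.map_univ_equiv]
  conv_rhs => rw [h1]
  rw [Finset.sum_map]
  refine Finset.sum_congr rfl fun s _ ↦ ?_
  simp [Finset.mapEmbedding_apply]

/-- Reindexing lemma for the interpolation sums. -/
lemma sum_mul_sum_powersetCard_erase_comp [Fintype ι] [DecidableEq ι]
    (σ : Equiv.Perm ι) (a b : ι → R) (m : ℕ) :
    ∑ q, a (σ q) * ∑ s ∈ Finset.powersetCard m (Finset.univ.erase q), ∏ q' ∈ s, b (σ q') =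
      ∑ q, a q * ∑ s ∈ Finset.powersetCard m (Finset.univ.erase q), ∏ q' ∈ s, b q' := by
  rw [← Equiv.sum_comp σ (fun q ↦ a q *
    ∑ s ∈ Finset.powersetCard m (Finset.univ.erase q), ∏ q' ∈ s, b q')]
  refine Finset.sum_congr rfl fun q _ ↦ ?_
  congr 1
  have h1 : Finset.powersetCard m (Finset.univ.erase (σ q)) =
      (Finset.powersetCard m (Finset.univ.erase q)).map
        (Finset.mapEmbedding σ.toEmbedding).toEmbedding := by
    rw [← Finset.powersetCard_map]
    congr 1
    ext x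
    simp [Finset.mem_erase]
  rw [h1, Finset.sum_map]
  refine Finset.sum_congr rfl fun s _ ↦ ?_
  simp [Finset.mapEmbedding_apply]

end algebra

/-! ### Translates -/

section translates

lemma quotientFunc_one [SlashInvariantFormClass F 𝒢 k] :
    quotientFunc (ℋ := ℋ) f ((1 : ℋ) : 𝒬) = f := by
  change quotientFunc f ⟦(1 : ℋ)⟧ = f
  rw [quotientFunc_mk]
  simp

variable (ℋ)

lemma mdifferentiable_quotientFunc [ModularFormClass F 𝒢 k] (q : 𝒬) :
    MDiff (quotientFunc f q) := by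
  induction q using Quotient.inductionOn with
  | h r => exact (ModularForm.translate f r.val⁻¹).holo'

/-- Translates of a modular form are bounded at `i∞` after slashing with any `γ` mapping `∞` to
a cusp of `ℋ`. -/
lemma isBoundedAtImInfty_quotientFunc_slash [𝒢.IsFiniteRelIndex ℋ] [ModularFormClass F 𝒢 k]
    (q : 𝒬) {γ : GL (Fin 2) ℝ} (hγ : IsCusp (γ • OnePoint.infty) ℋ) :
    IsBoundedAtImInfty (quotientFunc f q ∣[k] γ) := by
  induction q using Quotient.inductionOn with
  | h r =>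
    obtain ⟨r, hr⟩ := r
    refine (ModularForm.translate f _).bdd_at_cusps' ?_ γ rfl
    simpa using hγ.of_isFiniteRelIndex_conj hr

lemma isZeroAtImInfty_quotientFunc_slash [𝒢.IsFiniteRelIndex ℋ] [CuspFormClass F 𝒢 k]
    (q : 𝒬) {γ : GL (Fin 2) ℝ} (hγ : IsCusp (γ • OnePoint.infty) ℋ) :
    IsZeroAtImInfty (quotientFunc f q ∣[k] γ) := by
  induction q using Quotient.inductionOn with
  | h r =>
    obtain ⟨r, hr⟩ := r
    refine (CuspForm.translate f _).zero_at_cusps' ?_ γ rfl
    simpa using hγ.of_isFiniteRelIndex_conj hr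

end translates

/-! ### Elementary symmetric functions of the translates -/

section esymm

variable (ℋ) [𝒢.IsFiniteRelIndex ℋ]

/-- The `m`-th elementary symmetric function of the translates of `f`. -/
def esymmFun [SlashInvariantFormClass F 𝒢 k] (m : ℕ) : ℍ → ℂ :=
  let := Fintype.ofFinite 𝒬
  ∑ s ∈ Finset.powersetCard m (Finset.univ : Finset 𝒬), ∏ q ∈ s, quotientFunc f q

variable {ℋ} in
lemma esymmFun_eq [SlashInvariantFormClass F 𝒢 k] [Fintype 𝒬] (m : ℕ) :
    esymmFun ℋ f m =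
      ∑ s ∈ Finset.powersetCard m (Finset.univ : Finset 𝒬), ∏ q ∈ s, quotientFunc f q := by
  unfold esymmFun
  congr!

variable {ℋ} in
lemma esymmFun_slash [SlashInvariantFormClass F 𝒢 k] [ℋ.HasDetPlusMinusOne] (m : ℕ)
    {h : GL (Fin 2) ℝ} (hh : h ∈ ℋ) :
    esymmFun ℋ f m ∣[k * m] h = esymmFun ℋ f m := by
  classical
  let := Fintype.ofFinite 𝒬
  rw [esymmFun_eq, SlashAction.sum_slash]
  have key : ∀ s ∈ Finset.powersetCard m (Finset.univ : Finset 𝒬),
      (∏ q ∈ s, quotientFunc f q) ∣[k * m] h =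
        ∏ q ∈ s, quotientFunc f ((MulAction.toPerm (⟨h, hh⟩ : ℋ)⁻¹) q) := by
    intro s hs
    rw [Finset.mem_powersetCard] at hs
    rw [← hs.2, ModularForm.prod_slash]
    simp [quotientFunc_smul f hh, Subgroup.HasDetPlusMinusOne.abs_det hh,
      -Matrix.GeneralLinearGroup.val_det_apply]
  rw [Finset.sum_congr rfl key]
  exact sum_powersetCard_prod_comp _ (fun q ↦ quotientFunc f q) m

lemma mdifferentiable_esymmFun [ModularFormClass F 𝒢 k] (m : ℕ) :
    MDiff (esymmFun ℋ f m) := by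
  let := Fintype.ofFinite 𝒬
  rw [esymmFun_eq]
  exact .sum fun s _ ↦ .prod fun q _ ↦ mdifferentiable_quotientFunc ℋ f q

/-- The elementary symmetric functions of translates of a modular form, as a modular form. -/
def esymmMF [ℋ.HasDetPlusMinusOne] [ModularFormClass F 𝒢 k] (m : ℕ) :
    ModularForm ℋ (k * m) where
  toFun := esymmFun ℋ f m
  slash_action_eq' _ hh := esymmFun_slash f m hh
  holo' := mdifferentiable_esymmFun ℋ f m
  bdd_at_cusps' h γ := by
    rintro rfl
    let := Fintype.ofFinite 𝒬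
    change IsBoundedAtImInfty (esymmFun ℋ f m ∣[k * m] γ)
    rw [esymmFun_eq, SlashAction.sum_slash, IsBoundedAtImInfty, Filter.BoundedAtFilter,
      Finset.sum_fn]
    refine .fun_sum fun s hs ↦ ?_
    rw [Finset.mem_powersetCard] at hs
    rw [← hs.2, ModularForm.prod_slash]
    apply Asymptotics.IsBigO.const_smul_left
    rw [show (1 : ℍ → ℝ) = (fun x ↦ ∏ (i ∈ s), 1) by ext; simp, Finset.prod_fn]
    exact .finsetProd fun q _ ↦ isBoundedAtImInfty_quotientFunc_slash ℋ f q h

@[simp] lemma coe_esymmMF [ℋ.HasDetPlusMinusOne] [ModularFormClass F 𝒢 k] (m : ℕ) :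
    ⇑(esymmMF ℋ f m) = esymmFun ℋ f m := rfl

/-- The elementary symmetric functions (of positive degree) of translates of a cusp form, as a
cusp form. -/
def esymmCF [ℋ.HasDetPlusMinusOne] [CuspFormClass F 𝒢 k] (m : ℕ) (hm : m ≠ 0) :
    CuspForm ℋ (k * m) where
  __ := esymmMF ℋ f m
  zero_at_cusps' h γ := by
    rintro rfl
    let := Fintype.ofFinite 𝒬
    change IsZeroAtImInfty (esymmFun ℋ f m ∣[k * m] γ)
    rw [esymmFun_eq, SlashAction.sum_slash, IsZeroAtImInfty, Filter.ZeroAtFilter,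
      Finset.sum_fn]
    rw [show (0 : ℂ) = ∑ s ∈ Finset.powersetCard m (Finset.univ : Finset 𝒬), 0 by simp]
    refine tendsto_finsetSum _ fun s hs ↦ ?_
    rw [Finset.mem_powersetCard] at hs
    have hs0 : s.card ≠ 0 := by rw [hs.2]; exact hm
    rw [← hs.2, ModularForm.prod_slash]
    have h0 : (0 : ℂ) = |(Matrix.GeneralLinearGroup.det γ : ℝ)| ^ ((s.card : ℤ) - 1) •
        ∏ q ∈ s, (0 : ℂ) := by
      rw [Finset.prod_const, zero_pow hs0, smul_zero]
    rw [h0]
    have h1 : Filter.Tendsto (fun z ↦ ∏ q ∈ s, (quotientFunc f q ∣[k] γ) z) atImInfty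
        (nhds (∏ q ∈ s, (0 : ℂ))) :=
      tendsto_finsetProd _ fun q _ ↦ isZeroAtImInfty_quotientFunc_slash ℋ f q h
    have h2 := h1.const_smul (|(Matrix.GeneralLinearGroup.det γ : ℝ)| ^ ((s.card : ℤ) - 1))
    refine h2.congr fun z ↦ ?_
    simp [Finset.prod_apply]

@[simp] lemma coe_esymmCF [ℋ.HasDetPlusMinusOne] [CuspFormClass F 𝒢 k] (m : ℕ) (hm : m ≠ 0) :
    ⇑(esymmCF ℋ f m hm) = esymmFun ℋ f m := rfl

/-- `f` is a root of the monic polynomial `∑ (-1)^j e_j X^(d-j)`, `d = [ℋ : 𝒢 ⊓ ℋ]`, whose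
coefficients are the elementary symmetric functions of the translates of `f`. -/
theorem sum_esymmFun_mul_pow_eq_zero [SlashInvariantFormClass F 𝒢 k] (z : ℍ) :
    ∑ j ∈ Finset.range (Nat.card 𝒬 + 1),
      (-1) ^ j * esymmFun ℋ f j z * (f : ℍ → ℂ) z ^ (Nat.card 𝒬 - j) = 0 := by
  classical
  let := Fintype.ofFinite 𝒬
  have h := prod_sub_eq_sum_esymm (Finset.univ : Finset 𝒬) (fun q ↦ quotientFunc f q z)
    ((f : ℍ → ℂ) z)
  rw [Finset.card_univ, ← Nat.card_eq_fintype_card] at h
  have h0 : ∏ q : 𝒬, ((f : ℍ → ℂ) z - quotientFunc f q z) = 0 :=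
    Finset.prod_eq_zero (Finset.mem_univ ((1 : ℋ) : 𝒬)) (by rw [quotientFunc_one]; simp)
  rw [h0] at h
  rw [h]
  refine Finset.sum_congr rfl fun j _ ↦ ?_
  rw [esymmFun_eq, Finset.sum_apply]
  simp [Finset.prod_apply]

end esymm

/-! ### Lagrange interpolation -/

section interp

variable {F' : Type*} (t : F') [FunLike F' ℍ ℂ] {w : ℤ}

variable (ℋ) [𝒢.IsFiniteRelIndex ℋ]

/-- The coefficients of the Lagrange interpolation polynomial
`∑_q f_q ∏_{q' ≠ q} (X - t_{q'})` (up to sign): `interpFun f t m` is, up to the sign `(-1)^m`,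
the coefficient of `X^(d-1-m)`. -/
def interpFun [SlashInvariantFormClass F 𝒢 k] [SlashInvariantFormClass F' 𝒢 w] (m : ℕ) :
    ℍ → ℂ :=
  open Classical in
  let := Fintype.ofFinite 𝒬
  ∑ q : 𝒬, quotientFunc f q *
    ∑ s ∈ Finset.powersetCard m (Finset.univ.erase q), ∏ q' ∈ s, quotientFunc t q'

variable {ℋ} in
lemma interpFun_eq [SlashInvariantFormClass F 𝒢 k] [SlashInvariantFormClass F' 𝒢 w]
    [Fintype 𝒬] [DecidableEq 𝒬] (m : ℕ) :
    interpFun ℋ f t m = ∑ q : 𝒬, quotientFunc f q *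
      ∑ s ∈ Finset.powersetCard m (Finset.univ.erase q), ∏ q' ∈ s, quotientFunc t q' := by
  unfold interpFun
  congr!

variable {ℋ} in
lemma interpFun_slash [SlashInvariantFormClass F 𝒢 k] [SlashInvariantFormClass F' 𝒢 w]
    [ℋ.HasDetPlusMinusOne] (m : ℕ) {h : GL (Fin 2) ℝ} (hh : h ∈ ℋ) :
    interpFun ℋ f t m ∣[k + w * m] h = interpFun ℋ f t m := by
  classical
  let := Fintype.ofFinite 𝒬
  rw [interpFun_eq, SlashAction.sum_slash]
  have key : ∀ q : 𝒬,
      (quotientFunc f q * ∑ s ∈ Finset.powersetCard m (Finset.univ.erase q),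
        ∏ q' ∈ s, quotientFunc t q') ∣[k + w * m] h =
      quotientFunc f ((MulAction.toPerm (⟨h, hh⟩ : ℋ)⁻¹) q) *
        ∑ s ∈ Finset.powersetCard m (Finset.univ.erase q),
          ∏ q' ∈ s, quotientFunc t ((MulAction.toPerm (⟨h, hh⟩ : ℋ)⁻¹) q') := by
    intro q
    rw [ModularForm.mul_slash, SlashAction.sum_slash, quotientFunc_smul f hh,
      Subgroup.HasDetPlusMinusOne.abs_det hh, one_smul]
    congr 1
    refine Finset.sum_congr rfl fun s hs ↦ ?_
    rw [Finset.mem_powersetCard] at hs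
    rw [← hs.2, ModularForm.prod_slash]
    simp [quotientFunc_smul t hh, Subgroup.HasDetPlusMinusOne.abs_det hh,
      -Matrix.GeneralLinearGroup.val_det_apply]
  rw [Finset.sum_congr rfl fun q _ ↦ key q]
  exact sum_mul_sum_powersetCard_erase_comp _ (fun q ↦ quotientFunc f q)
    (fun q ↦ quotientFunc t q) m

lemma mdifferentiable_interpFun [ModularFormClass F 𝒢 k] [ModularFormClass F' 𝒢 w] (m : ℕ) :
    MDiff (interpFun ℋ f t m) := by
  classical
  let := Fintype.ofFinite 𝒬
  rw [interpFun_eq]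
  exact .sum fun q _ ↦ (mdifferentiable_quotientFunc ℋ f q).mul
    (.sum fun s _ ↦ .prod fun q' _ ↦ mdifferentiable_quotientFunc ℋ t q')

/-- The coefficients of the Lagrange interpolation polynomial, as modular forms for `ℋ`. -/
def interpMF [ℋ.HasDetPlusMinusOne] [ModularFormClass F 𝒢 k] [ModularFormClass F' 𝒢 w]
    (m : ℕ) : ModularForm ℋ (k + w * m) where
  toFun := interpFun ℋ f t m
  slash_action_eq' _ hh := interpFun_slash f t m hh
  holo' := mdifferentiable_interpFun ℋ f t m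
  bdd_at_cusps' h γ := by
    rintro rfl
    classical
    let := Fintype.ofFinite 𝒬
    change IsBoundedAtImInfty (interpFun ℋ f t m ∣[k + w * m] γ)
    rw [interpFun_eq, SlashAction.sum_slash, IsBoundedAtImInfty, Filter.BoundedAtFilter,
      Finset.sum_fn]
    refine .fun_sum fun q _ ↦ ?_
    rw [ModularForm.mul_slash, SlashAction.sum_slash]
    apply Asymptotics.IsBigO.const_smul_left
    refine Filter.BoundedAtFilter.mul (isBoundedAtImInfty_quotientFunc_slash ℋ f q h) ?_
    rw [Filter.BoundedAtFilter, Finset.sum_fn]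
    refine .fun_sum fun s hs ↦ ?_
    rw [Finset.mem_powersetCard] at hs
    rw [← hs.2, ModularForm.prod_slash]
    apply Asymptotics.IsBigO.const_smul_left
    rw [show (1 : ℍ → ℝ) = (fun x ↦ ∏ (i ∈ s), 1) by ext; simp, Finset.prod_fn]
    exact .finsetProd fun q' _ ↦ isBoundedAtImInfty_quotientFunc_slash ℋ t q' h

@[simp] lemma coe_interpMF [ℋ.HasDetPlusMinusOne] [ModularFormClass F 𝒢 k]
    [ModularFormClass F' 𝒢 w] (m : ℕ) : ⇑(interpMF ℋ f t m) = interpFun ℋ f t m := rfl

/-- The "derivative of the characteristic polynomial of `t`, evaluated at `t`":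
`∏_{q ≠ 1} (t - t_q)`. -/
def charDerivFun [SlashInvariantFormClass F' 𝒢 w] : ℍ → ℂ := fun z ↦
  open Classical in
  let := Fintype.ofFinite 𝒬
  ∏ q ∈ (Finset.univ : Finset 𝒬).erase ((1 : ℋ) : 𝒬), ((t : ℍ → ℂ) z - quotientFunc t q z)

variable {ℋ} in
lemma charDerivFun_apply [SlashInvariantFormClass F' 𝒢 w] [Fintype 𝒬] [DecidableEq 𝒬]
    (z : ℍ) :
    charDerivFun ℋ t z =
      ∏ q ∈ (Finset.univ : Finset 𝒬).erase ((1 : ℋ) : 𝒬),
        ((t : ℍ → ℂ) z - quotientFunc t q z) := by
  unfold charDerivFun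
  congr!

/-- If all the nontrivial translates of `t` differ from `t`, then `∏_{q ≠ 1} (t - t_q)` is not
identically zero. -/
lemma charDerivFun_ne_zero [ModularFormClass F' 𝒢 w]
    (ht : ∀ q : 𝒬, q ≠ ((1 : ℋ) : 𝒬) → quotientFunc t q ≠ (t : ℍ → ℂ)) :
    charDerivFun ℋ t ≠ 0 := by
  classical
  let := Fintype.ofFinite 𝒬
  have h1 : charDerivFun ℋ t = ∏ q ∈ (Finset.univ : Finset 𝒬).erase ((1 : ℋ) : 𝒬),
      ((t : ℍ → ℂ) - quotientFunc t q) := by
    ext z
    rw [charDerivFun_apply, Finset.prod_apply]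
    rfl
  rw [h1, Ne, UpperHalfPlane.prod_eq_zero_iff]
  · rintro ⟨q, hq, h0⟩
    exact ht q (Finset.ne_of_mem_erase hq) (sub_eq_zero.mp h0).symm
  · intro q _
    exact (ModularFormClass.holo t).sub (mdifferentiable_quotientFunc ℋ t q)

/-- **Lagrange interpolation**: `f * ∏_{q ≠ 1} (t - t_q) = ∑_m (-1)^m a_m t^(d-1-m)`, where the
`a_m = interpFun ℋ f t m` are modular forms for `ℋ` of weight `k + w * m`. -/
theorem sum_interpFun_mul_pow [SlashInvariantFormClass F 𝒢 k] [SlashInvariantFormClass F' 𝒢 w]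
    (z : ℍ) :
    ∑ m ∈ Finset.range (Nat.card 𝒬),
      (-1) ^ m * interpFun ℋ f t m z * (t : ℍ → ℂ) z ^ (Nat.card 𝒬 - 1 - m) =
    (f : ℍ → ℂ) z * charDerivFun ℋ t z := by
  classical
  let := Fintype.ofFinite 𝒬
  have hcard : ∀ q : 𝒬, ((Finset.univ : Finset 𝒬).erase q).card = Nat.card 𝒬 - 1 := by
    intro q
    rw [Finset.card_erase_of_mem (Finset.mem_univ _), Finset.card_univ,
      Nat.card_eq_fintype_card]
  have hpos : 0 < Nat.card 𝒬 := Nat.card_pos
  have hV : ∀ q : 𝒬, ∏ q' ∈ (Finset.univ : Finset 𝒬).erase q,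
      ((t : ℍ → ℂ) z - quotientFunc t q' z) =
      ∑ m ∈ Finset.range (Nat.card 𝒬), (-1) ^ m *
        (∑ s ∈ Finset.powersetCard m ((Finset.univ : Finset 𝒬).erase q),
          ∏ q' ∈ s, quotientFunc t q' z) * (t : ℍ → ℂ) z ^ (Nat.card 𝒬 - 1 - m) := by
    intro q
    rw [prod_sub_eq_sum_esymm, hcard q, Nat.sub_add_cancel hpos]
  -- the right-hand side is the sum over all `q`, only `q = 1` contributing
  have h1 : (f : ℍ → ℂ) z * charDerivFun ℋ t z =
      ∑ q : 𝒬, quotientFunc f q z * ∏ q' ∈ (Finset.univ : Finset 𝒬).erase q,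
        ((t : ℍ → ℂ) z - quotientFunc t q' z) := by
    rw [Finset.sum_eq_single ((1 : ℋ) : 𝒬), quotientFunc_one, charDerivFun_apply]
    · intro q _ hq
      rw [Finset.prod_eq_zero (i := ((1 : ℋ) : 𝒬)), mul_zero]
      · exact Finset.mem_erase.mpr ⟨fun h ↦ hq h.symm, Finset.mem_univ _⟩
      · rw [quotientFunc_one]; simp
    · intro h; exact absurd (Finset.mem_univ _) h
  rw [h1]
  have h2 : ∀ q : 𝒬, quotientFunc f q z * ∏ q' ∈ (Finset.univ : Finset 𝒬).erase q,
      ((t : ℍ → ℂ) z - quotientFunc t q' z) =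
      ∑ m ∈ Finset.range (Nat.card 𝒬), (-1) ^ m * (quotientFunc f q z *
        (∑ s ∈ Finset.powersetCard m ((Finset.univ : Finset 𝒬).erase q),
          ∏ q' ∈ s, quotientFunc t q' z)) * (t : ℍ → ℂ) z ^ (Nat.card 𝒬 - 1 - m) := by
    intro q
    rw [hV q, Finset.mul_sum]
    exact Finset.sum_congr rfl fun m _ ↦ by ring
  rw [Finset.sum_congr rfl fun q _ ↦ h2 q, Finset.sum_comm]
  refine Finset.sum_congr rfl fun m _ ↦ ?_
  rw [interpFun_eq, Finset.sum_apply, Finset.mul_sum, Finset.sum_mul]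
  refine Finset.sum_congr rfl fun q _ ↦ ?_
  simp only [Pi.mul_apply, Finset.sum_apply, Finset.prod_apply]

/-- The special case `f = 1` of Lagrange interpolation: `∏_{q ≠ 1} (t - t_q)` is a polynomial in
`t` whose coefficients are modular forms for `ℋ`. -/
theorem sum_interpFun_one_mul_pow [𝒢.HasDetPlusMinusOne] [SlashInvariantFormClass F' 𝒢 w]
    (z : ℍ) :
    ∑ m ∈ Finset.range (Nat.card 𝒬),
      (-1) ^ m * interpFun ℋ (1 : ModularForm 𝒢 0) t m z *
        (t : ℍ → ℂ) z ^ (Nat.card 𝒬 - 1 - m) = charDerivFun ℋ t z := by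
  rw [sum_interpFun_mul_pow ℋ (1 : ModularForm 𝒢 0) t z]
  simp [ModularForm.one_coe_eq_one]

end interp

/-! ### Packaged statements -/

section packaged

variable {F' : Type*} (t : F') [FunLike F' ℍ ℂ] {w : ℤ}

/-- **Monic equation** (packaged, for cusp forms for an arithmetic subgroup `𝒢`): a cusp form `f`
of weight `k` satisfies `f ^ n + ∑_{m = 1}^{n} b_m f ^ (n - m) = 0` where `b_m` is a level one
cusp form of weight `k * m`. -/
theorem exists_monic_cusp [𝒢.IsArithmetic] [CuspFormClass F 𝒢 k] :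
    ∃ (n : ℕ) (b : (m : ℕ) → CuspForm 𝒮ℒ (k * m)), 0 < n ∧
      ∀ τ : ℍ, (f : ℍ → ℂ) τ ^ n +
        ∑ m ∈ Finset.Icc 1 n, b m τ * (f : ℍ → ℂ) τ ^ (n - m) = 0 := by
  classical
  refine ⟨Nat.card (𝒮ℒ ⧸ 𝒢.subgroupOf 𝒮ℒ),
    fun m ↦ if hm : m = 0 then 0 else ((-1 : ℂ) ^ m) • esymmCF 𝒮ℒ f m hm, Nat.card_pos,
    fun τ ↦ ?_⟩
  have h := sum_esymmFun_mul_pow_eq_zero 𝒮ℒ f τ
  rw [Finset.range_eq_Ico, Finset.sum_eq_sum_Ico_succ_bot (Nat.succ_pos _)] at h
  have h0 : esymmFun 𝒮ℒ f 0 τ = 1 := by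
    let := Fintype.ofFinite (𝒮ℒ ⧸ 𝒢.subgroupOf 𝒮ℒ)
    rw [esymmFun_eq]
    simp
  rw [h0] at h
  simp only [pow_zero, one_mul, Nat.sub_zero] at h
  rw [← h]
  congr 1
  refine Finset.sum_congr (by ext; simp [Nat.succ_le_iff]) fun m hm ↦ ?_
  have hm0 : m ≠ 0 := by
    have := (Finset.mem_Icc.mp hm).1
    omega
  simp [hm0]

/-- **Lagrange interpolation** (packaged, for an arithmetic subgroup `𝒢`, e.g. the image of
`Gamma0 N`): if no nontrivial `𝒮ℒ`-translate of `t` equals
`t`, then there is `D = ∑_{m < n} c_m t ^ (n - 1 - m) ≢ 0` with `c_m` of level one and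
weight `w * m`, such that `f * D = ∑_{m < n} a_m t ^ (n - 1 - m)` with `a_m` of level one and
weight `k + w * m`. -/
theorem exists_lagrange [𝒢.IsArithmetic] [ModularFormClass F 𝒢 k] [ModularFormClass F' 𝒢 w]
    (ht : ∀ q : 𝒮ℒ ⧸ 𝒢.subgroupOf 𝒮ℒ, q ≠ ((1 : 𝒮ℒ) : 𝒮ℒ ⧸ 𝒢.subgroupOf 𝒮ℒ) →
      quotientFunc t q ≠ (t : ℍ → ℂ)) :
    ∃ (n : ℕ) (a : (m : ℕ) → ModularForm 𝒮ℒ (k + w * m))
      (c : (m : ℕ) → ModularForm 𝒮ℒ (w * m)), 0 < n ∧
      (∃ τ : ℍ, ∑ m ∈ Finset.range n, c m τ * (t : ℍ → ℂ) τ ^ (n - 1 - m) ≠ 0) ∧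
      ∀ τ : ℍ, (f : ℍ → ℂ) τ * (∑ m ∈ Finset.range n, c m τ * (t : ℍ → ℂ) τ ^ (n - 1 - m)) =
        ∑ m ∈ Finset.range n, a m τ * (t : ℍ → ℂ) τ ^ (n - 1 - m) := by
  have hD : ∀ τ : ℍ, ∑ m ∈ Finset.range (Nat.card (𝒮ℒ ⧸ 𝒢.subgroupOf 𝒮ℒ)),
      (ModularForm.mcast (zero_add _)
        (((-1 : ℂ) ^ m) • interpMF 𝒮ℒ (1 : ModularForm 𝒢 0) t m) :
          ModularForm 𝒮ℒ (w * m)) τ *
        (t : ℍ → ℂ) τ ^ (Nat.card (𝒮ℒ ⧸ 𝒢.subgroupOf 𝒮ℒ) - 1 - m) = charDerivFun 𝒮ℒ t τ := by
    intro τ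
    rw [← sum_interpFun_one_mul_pow 𝒮ℒ t τ]
    refine Finset.sum_congr rfl fun m _ ↦ ?_
    simp
  refine ⟨Nat.card (𝒮ℒ ⧸ 𝒢.subgroupOf 𝒮ℒ), fun m ↦ ((-1 : ℂ) ^ m) • interpMF 𝒮ℒ f t m,
    fun m ↦ ModularForm.mcast (zero_add _)
      (((-1 : ℂ) ^ m) • interpMF 𝒮ℒ (1 : ModularForm 𝒢 0) t m), Nat.card_pos, ?_, fun τ ↦ ?_⟩
  · by_contra hcon
    rw [not_exists] at hcon
    replace hcon := fun τ ↦ not_not.mp (hcon τ)
    refine charDerivFun_ne_zero 𝒮ℒ t ht ?_
    ext τ
    rw [← hD τ, hcon τ]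
    rfl
  · rw [hD τ, ← sum_interpFun_mul_pow 𝒮ℒ f t τ]
    refine Finset.sum_congr rfl fun m _ ↦ ?_
    simp

end packaged

end Fermat.Agent.S23.H503

end
end
-- ===== PACK-END S23/H503/Lagrange.lean

-- ===== PACK-BEGIN S23/FixedField.lean
section


set_option autoImplicit false
set_option linter.style.haveILetI false

/-!
# An element of `ℂ` fixed by every ring automorphism of `ℂ` is rational.
-/

namespace Fermat.Agent.S23

open MvPolynomial

theorem exists_ringEquiv_ne_of_transcendental (x : ℂ) (hx : Transcendental ℚ x) :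
    ∃ σ : ℂ ≃+* ℂ, σ x ≠ x := by
  have hs : AlgebraicIndepOn ℚ id ({x} : Set ℂ) := by
    have : AlgebraicIndependent ℚ (fun i : ({x} : Set ℂ) => (i : ℂ)) := by
      rw [algebraicIndependent_unique_type_iff]
      exact hx
    exact this
  obtain ⟨t, hst, ht⟩ := exists_isTranscendenceBasis_superset hs
  let i₀ : t := ⟨x, hst (Set.mem_singleton x)⟩
  let _ := IsAlgClosed.isAlgClosure_of_transcendence_basis (Subtype.val : t → ℂ) ht
  let f : t → MvPolynomial t ℚ := fun i => if i = i₀ then X i + 1 else X i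
  let g : t → MvPolynomial t ℚ := fun i => if i = i₀ then X i - 1 else X i
  let ψ : MvPolynomial t ℚ ≃ₐ[ℚ] MvPolynomial t ℚ :=
    AlgEquiv.ofAlgHom (aeval f) (aeval g)
      (by
        ext i
        by_cases h : i = i₀
        · simp [f, g, h]
        · simp [f, g, h])
      (by
        ext i
        by_cases h : i = i₀
        · simp [f, g, h]
        · simp [f, g, h])
  let e : Algebra.adjoin ℚ (Set.range (Subtype.val : t → ℂ)) ≃+*
      Algebra.adjoin ℚ (Set.range (Subtype.val : t → ℂ)) :=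
    (ht.1.aevalEquiv.symm.trans (ψ.trans ht.1.aevalEquiv)).toRingEquiv
  refine ⟨IsAlgClosure.equivOfEquiv ℂ ℂ e, ?_⟩
  have hxmem : x ∈ Algebra.adjoin ℚ (Set.range (Subtype.val : t → ℂ)) :=
    Algebra.subset_adjoin ⟨i₀, rfl⟩
  have h1 : (IsAlgClosure.equivOfEquiv ℂ ℂ e) x =
      ((e ⟨x, hxmem⟩ : Algebra.adjoin ℚ (Set.range (Subtype.val : t → ℂ))) : ℂ) := by
    have := IsAlgClosure.equivOfEquiv_algebraMap ℂ ℂ e ⟨x, hxmem⟩
    simpa using this
  have h3 : ht.1.aevalEquiv.symm ⟨x, hxmem⟩ = X i₀ := by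
    apply ht.1.aevalEquiv.injective
    rw [AlgEquiv.apply_symm_apply]
    ext
    simp [i₀]
  have h2 : ((e ⟨x, hxmem⟩ : Algebra.adjoin ℚ (Set.range (Subtype.val : t → ℂ))) : ℂ) = x + 1 := by
    have : e ⟨x, hxmem⟩ = ht.1.aevalEquiv (ψ (ht.1.aevalEquiv.symm ⟨x, hxmem⟩)) := rfl
    rw [this, h3]
    simp [ψ, f, i₀]
  rw [h1, h2]
  simp

theorem exists_ringEquiv_ne_of_algebraic (x : ℂ) (hx : IsAlgebraic ℚ x)
    (hx' : x ∉ Set.range (algebraMap ℚ ℂ)) :
    ∃ σ : ℂ ≃+* ℂ, σ x ≠ x := by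
  have hxA : x ∈ algebraicClosure ℚ ℂ := mem_algebraicClosure_iff.mpr hx
  haveI hcl : IsAlgClosure ℚ (algebraicClosure ℚ ℂ) := algebraicClosure.isAlgClosure ℚ ℂ
  haveI : IsAlgClosed (algebraicClosure ℚ ℂ) := hcl.isAlgClosed
  haveI : Normal ℚ (algebraicClosure ℚ ℂ) := IsAlgClosure.normal ℚ _
  have hx'' : (⟨x, hxA⟩ : algebraicClosure ℚ ℂ) ∉ (⊥ : Subalgebra ℚ (algebraicClosure ℚ ℂ)) := by
    intro h
    rw [Algebra.mem_bot] at h
    obtain ⟨r, hr⟩ := h
    apply hx'
    refine ⟨r, ?_⟩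
    have := congrArg (fun z : algebraicClosure ℚ ℂ => (z : ℂ)) hr
    simpa using this
  have hsep : IsSeparable ℚ (⟨x, hxA⟩ : algebraicClosure ℚ ℂ) :=
    Algebra.IsSeparable.isSeparable ℚ _
  have hsplit : ((minpoly ℚ (⟨x, hxA⟩ : algebraicClosure ℚ ℂ)).map
      (algebraMap ℚ (algebraicClosure ℚ ℂ))).Splits := IsAlgClosed.splits _
  obtain ⟨y, hne, hconj⟩ := (notMem_iff_exists_ne_and_isConjRoot hsep hsplit).mp hx''
  obtain ⟨τ, hτ⟩ := hconj.exists_algEquiv
  obtain ⟨ι, v, hv⟩ := exists_isTranscendenceBasis' (algebraicClosure ℚ ℂ) ℂ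
  let _ := IsAlgClosed.isAlgClosure_of_transcendence_basis v hv
  let e : Algebra.adjoin (algebraicClosure ℚ ℂ) (Set.range v) ≃+*
      Algebra.adjoin (algebraicClosure ℚ ℂ) (Set.range v) :=
    hv.1.aevalEquiv.symm.toRingEquiv.trans
      ((MvPolynomial.mapEquiv ι τ.toRingEquiv).trans hv.1.aevalEquiv.toRingEquiv)
  refine ⟨(IsAlgClosure.equivOfEquiv ℂ ℂ e).symm, ?_⟩
  -- τ y = x', so e maps y to x; hence σ = (ext e)⁻¹ maps x to y ≠ x
  have hymem : (y : ℂ) ∈ Algebra.adjoin (algebraicClosure ℚ ℂ) (Set.range v) :=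
    Subalgebra.algebraMap_mem _ y
  have hxmem : x ∈ Algebra.adjoin (algebraicClosure ℚ ℂ) (Set.range v) :=
    Subalgebra.algebraMap_mem _ (⟨x, hxA⟩ : algebraicClosure ℚ ℂ)
  have h3 : hv.1.aevalEquiv.symm ⟨(y : ℂ), hymem⟩ = C y := by
    apply hv.1.aevalEquiv.injective
    rw [AlgEquiv.apply_symm_apply]
    ext
    simp
  have h2 : e ⟨(y : ℂ), hymem⟩ = ⟨x, hxmem⟩ := by
    have : e ⟨(y : ℂ), hymem⟩ = hv.1.aevalEquiv
        ((MvPolynomial.mapEquiv ι τ.toRingEquiv) (hv.1.aevalEquiv.symm ⟨(y : ℂ), hymem⟩)) := rfl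
    rw [this, h3]
    ext
    simp [hτ]
  have h1 : (IsAlgClosure.equivOfEquiv ℂ ℂ e) (y : ℂ) = x := by
    have := IsAlgClosure.equivOfEquiv_algebraMap ℂ ℂ e ⟨(y : ℂ), hymem⟩
    rw [h2] at this
    simpa using this
  intro h
  apply hne
  have h4 : (IsAlgClosure.equivOfEquiv ℂ ℂ e).symm x = (y : ℂ) := by
    rw [← h1, RingEquiv.symm_apply_apply]
  rw [h4] at h
  exact Subtype.ext h.symm

/-- **Fixed field of `Aut(ℂ)`**: a complex number which is not rational is moved by some ring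
automorphism of `ℂ`. -/
theorem exists_ringEquiv_ne (x : ℂ) (hx : x ∉ Set.range (algebraMap ℚ ℂ)) :
    ∃ σ : ℂ ≃+* ℂ, σ x ≠ x := by
  by_cases h : IsAlgebraic ℚ x
  · exact exists_ringEquiv_ne_of_algebraic x h hx
  · exact exists_ringEquiv_ne_of_transcendental x h

/-- A complex number fixed by every ring automorphism of `ℂ` is rational. -/
theorem mem_range_ratCast_of_forall_ringEquiv (x : ℂ) (hx : ∀ σ : ℂ ≃+* ℂ, σ x = x) :
    ∃ r : ℚ, (r : ℂ) = x := by
  by_contra h
  obtain ⟨σ, hσ⟩ := exists_ringEquiv_ne x (by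
    rintro ⟨r, hr⟩
    exact h ⟨r, by simpa using hr⟩)
  exact hσ (hx σ)

end Fermat.Agent.S23

end
-- ===== PACK-END S23/FixedField.lean

-- ===== PACK-BEGIN S23/Cap/AutC.lean
section


/-!
# S23 / Cap : enough ring endomorphisms of `ℂ` (adapter around helper683's `FixedField.lean`).
-/

set_option autoImplicit false

namespace Fermat.Agent.S23.Cap

/-- For `x ∈ ℂ \ ℚ` there is a ring endomorphism of `ℂ` moving `x`. -/
theorem exists_ringHom_ne (x : ℂ) (hx : x ∉ Set.range (algebraMap ℚ ℂ)) :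
    ∃ σ : ℂ →+* ℂ, σ x ≠ x := by
  obtain ⟨σ, hσ⟩ := Fermat.Agent.S23.exists_ringEquiv_ne x hx
  exact ⟨σ.toRingHom, hσ⟩

end Fermat.Agent.S23.Cap

end
-- ===== PACK-END S23/Cap/AutC.lean

-- ===== PACK-BEGIN S23/H683/Descent.lean
section



set_option autoImplicit false
set_option linter.style.haveILetI false

/-!
# Galois descent for a finite-dimensional space of "q-expansions"

`V` is a finite dimensional complex vector space with a jointly injective family of linear
functionals `a n` ("q-expansion coefficients").  If for every automorphism `σ` of `ℂ` and every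
`f : V` there is a `g : V` with `a n g = σ (a n f)`, then `V` is spanned by the elements all of
whose coefficients are rational.
-/

namespace Fermat.Agent.S23.H683

open Module

theorem descent_span_dual_eq_top {V : Type*} [AddCommGroup V] [Module ℂ V] [FiniteDimensional ℂ V]
    (a : ℕ → V →ₗ[ℂ] ℂ) (hinj : ∀ f, (∀ n, a n f = 0) → f = 0) :
    Submodule.span ℂ (Set.range a) = (⊤ : Submodule ℂ (Module.Dual ℂ V)) := by
  have h1 : (Submodule.span ℂ (Set.range a) : Submodule ℂ (Module.Dual ℂ V)).dualCoannihilator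
      = ⊥ := by
    rw [eq_bot_iff]
    intro f hf
    rw [Submodule.mem_dualCoannihilator] at hf
    rw [Submodule.mem_bot]
    exact hinj f fun n => hf (a n) (Submodule.subset_span ⟨n, rfl⟩)
  have h2 := Subspace.dualCoannihilator_dualAnnihilator_eq
    (W := (Submodule.span ℂ (Set.range a) : Subspace ℂ (Module.Dual ℂ V)))
  rw [h1] at h2
  rw [← h2]
  simp

theorem descent {V : Type*} [AddCommGroup V] [Module ℂ V] [FiniteDimensional ℂ V]
    (a : ℕ → V →ₗ[ℂ] ℂ) (hinj : ∀ f, (∀ n, a n f = 0) → f = 0)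
    (hσ : ∀ (σ : ℂ ≃+* ℂ) (f : V), ∃ g : V, ∀ n, a n g = σ (a n f)) :
    Submodule.span ℂ {f : V | ∀ n, ∃ r : ℚ, a n f = (r : ℂ)} = ⊤ := by
  classical
  have hS := descent_span_dual_eq_top a hinj
  obtain ⟨b, hbS, hbspan, hbli⟩ := exists_linearIndependent ℂ (Set.range a)
  let B : Basis b ℂ (Module.Dual ℂ V) :=
    Basis.mk hbli (by rw [Subtype.range_coe, hbspan, hS])
  haveI : Finite b := Module.Finite.finite_basis B
  haveI : Fintype b := Fintype.ofFinite b
  have hBi : ∀ i : b, B i = (i : Module.Dual ℂ V) := fun i => by simp [B]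
  let F : Basis b ℂ V := B.dualBasis.map (Module.evalEquiv ℂ V).symm
  have hBF : ∀ i j : b, (B i) (F j) = if j = i then 1 else 0 := by
    intro i j
    have h1 : Module.evalEquiv ℂ V (F j) = B.dualBasis j := by
      simp [F]
    have h2 : (B i) (F j) = Module.evalEquiv ℂ V (F j) (B i) := by
      simp
    rw [h2, h1, Basis.dualBasis_apply_self]
    by_cases h : i = j
    · simp [h]
    · simp [h, Ne.symm h]
  have hsep : ∀ g g' : V, (∀ i : b, B i g = B i g') → g = g' := by
    intro g g' h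
    apply (Module.evalEquiv ℂ V).injective
    apply B.ext
    intro i
    simpa using h i
  have hn : ∀ i : b, ∃ n : ℕ, a n = B i := fun i => by
    rw [hBi]
    exact hbS i.2
  choose n hn using hn
  have hmem : ∀ j : b, F j ∈ {f : V | ∀ n, ∃ r : ℚ, a n f = (r : ℂ)} := by
    intro j m
    have hfix : ∀ σ : ℂ ≃+* ℂ, σ (a m (F j)) = a m (F j) := by
      intro σ
      obtain ⟨g, hg⟩ := hσ σ (F j)
      have hgF : g = F j := by
        apply hsep
        intro i
        rw [← hn i, hg, hn i, hBF]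
        split_ifs <;> simp
      rw [← hg m, hgF]
    obtain ⟨r, hr⟩ := Fermat.Agent.S23.mem_range_ratCast_of_forall_ringEquiv _ hfix
    exact ⟨r, hr.symm⟩
  rw [eq_top_iff, ← F.span_eq]
  apply Submodule.span_mono
  rintro _ ⟨j, rfl⟩
  exact hmem j

end Fermat.Agent.S23.H683

end
-- ===== PACK-END S23/H683/Descent.lean

-- ===== PACK-BEGIN S29/Defs.lean
section
/-
S29 row — FROZEN interface definitions (row-lead helper269).
Namespace `Fermat.Agent.S29`.  Do not edit; propose changes via a note kind='question' stmt='S29'.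
-/



set_option autoImplicit false

namespace Fermat.Agent.S29

open Polynomial

/-- The absolute Galois group of `ℚ`, as used by every frozen statement. -/
abbrev GQ : Type := AlgebraicClosure ℚ ≃ₐ[ℚ] AlgebraicClosure ℚ

/-- Valuation subrings of `ℚ̄` (the "places" of the frozen statements). -/
abbrev VQ : Type := ValuationSubring (AlgebraicClosure ℚ)

section Module

variable {F : Type} [Field F] {M : Type} [AddCommGroup M] [Module F M]

/-- Every vector is fixed by an open subgroup `Gal(ℚ̄/L)`, `L/ℚ` finite. -/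
def IsSmoothRep (ρ : GQ →* Module.End F M) : Prop :=
  ∀ x : M, ∃ L : IntermediateField ℚ (AlgebraicClosure ℚ), FiniteDimensional ℚ L ∧
    ∀ σ : GQ, (∀ y ∈ L, σ y = y) → ρ σ x = x

/-- Inertia at every prime `ℓ ∤ S` (all places above `ℓ`) acts trivially. -/
def IsUnramOutside (ρ : GQ →* Module.End F M) (S : ℕ) : Prop :=
  ∀ ℓ : ℕ, ℓ.Prime → ¬ ℓ ∣ S → ∀ A : VQ, A.LiesOverPrime ℓ →
    ∀ σ ∈ A.inertiaSubgroupIn ℚ, ρ σ = 1

/-- Every Frobenius element at every place above every prime `ℓ ∤ S` satisfies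
`σ² - a ℓ • σ + ℓ = 0` on the module. -/
def IsFrobQuadratic (ρ : GQ →* Module.End F M) (S : ℕ) (a : ℕ → F) : Prop :=
  ∀ ℓ : ℕ, ℓ.Prime → ¬ ℓ ∣ S → ∀ A : VQ, A.LiesOverPrime ℓ →
    ∀ σ : GQ, A.IsFrobeniusAt σ ℓ →
      ρ σ * ρ σ - a ℓ • ρ σ + (ℓ : F) • (1 : Module.End F M) = 0

end Module

/-- (UNUSED since skeleton v2: the assembly consumes CHEB Tier 1
`Fermat.Agent.Lib.Cheb.Spec.FrobeniusDivisionStatement` instead.)  Qualitative Chebotarev:
every element of `Gal(L/ℚ)` (`L/ℚ` finite) is the restriction of a Frobenius element at a place over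
some prime `ℓ ∤ S`. -/
def ChebStatement : Prop :=
  ∀ (L : IntermediateField ℚ (AlgebraicClosure ℚ)), FiniteDimensional ℚ L →
    ∀ (σ : GQ) (S : ℕ), S ≠ 0 →
      ∃ (ℓ : ℕ) (A : VQ) (τ : GQ), ℓ.Prime ∧ ¬ ℓ ∣ S ∧ A.LiesOverPrime ℓ ∧
        A.IsFrobeniusAt τ ℓ ∧ ∀ x ∈ L, τ x = σ x

/-- The conclusion of the assembly layer for a coefficient field `F` and a system `a`. -/
def HasAttachedRep (F : Type) [Field F] (S : ℕ) (a : ℕ → F) : Prop :=
  ∃ r : ResidualGaloisRep F,
    (∀ ℓ : ℕ, ℓ.Prime → ¬ ℓ ∣ S → ∀ A : VQ, A.LiesOverPrime ℓ →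
      ∀ σ : GQ, A.IsFrobeniusAt σ ℓ →
        LinearMap.charpoly (r.ρ σ) = X ^ 2 - C (a ℓ) * X + C ((ℓ : F))) ∧
    (∀ ℓ : ℕ, ℓ.Prime → ¬ ℓ ∣ S → r.IsUnramifiedAt ℓ)

/-- The output of the module layer ("torsion module"): a nonzero smooth `F[G_ℚ]`-module,
unramified outside `S`, on which all Frobenii at `ℓ ∤ S` satisfy the Eichler–Shimura relation. -/
def HasFrobModule (F : Type) [Field F] (S : ℕ) (a : ℕ → F) : Prop :=
  ∃ (M : Type) (_ : AddCommGroup M) (_ : Module F M) (ρ : GQ →* Module.End F M),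
    Nontrivial M ∧ IsSmoothRep ρ ∧ IsUnramOutside ρ S ∧ IsFrobQuadratic ρ S a

end Fermat.Agent.S29

end
-- ===== PACK-END S29/Defs.lean

-- ===== PACK-BEGIN S29/H449/Orb.lean
section
/-
S29 row, piece `Orb` (helper449): a nonzero smooth `F[G_ℚ]`-module contains a nonzero
finite-dimensional stable subspace on which an open subgroup acts trivially.
Statement `exists_finite_stable_submodule` has EXACTLY the type of the row skeleton.
-/


set_option autoImplicit false

namespace Fermat.Agent.S29.H449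

theorem Orb_isAlgebraic : Algebra.IsAlgebraic ℚ (AlgebraicClosure ℚ) :=
  AlgebraicClosure.isAlgebraic ℚ

theorem Orb_normal : Normal ℚ (AlgebraicClosure ℚ) := by
  have := Orb_isAlgebraic
  have : IsAlgClosure ℚ (AlgebraicClosure ℚ) := ⟨inferInstance, inferInstance⟩
  exact IsAlgClosure.normal ℚ (AlgebraicClosure ℚ)

/-- A finite-dimensional subfield of `ℚ̄` is contained in a finite-dimensional subfield which is
stable under `G_ℚ`. -/
theorem Orb_exists_normal (L₀ : IntermediateField ℚ (AlgebraicClosure ℚ))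
    (h₀ : FiniteDimensional ℚ L₀) :
    ∃ L : IntermediateField ℚ (AlgebraicClosure ℚ), FiniteDimensional ℚ L ∧ L₀ ≤ L ∧
      ∀ (σ : GQ) (y : AlgebraicClosure ℚ), y ∈ L → σ y ∈ L := by
  have := Orb_isAlgebraic
  have := Orb_normal
  have := h₀
  refine ⟨IntermediateField.normalClosure ℚ L₀ (AlgebraicClosure ℚ),
    normalClosure.is_finiteDimensional ℚ L₀ (AlgebraicClosure ℚ),
    IntermediateField.le_normalClosure L₀, ?_⟩
  intro σ y hy
  have hn : Normal ℚ (IntermediateField.normalClosure ℚ L₀ (AlgebraicClosure ℚ)) :=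
    normalClosure.normal ℚ L₀ (AlgebraicClosure ℚ)
  have := (IntermediateField.normal_iff_forall_map_le'.1 hn) σ
  exact this ⟨y, hy, rfl⟩

theorem exists_finite_stable_submodule {F : Type} [Field F] {M : Type} [AddCommGroup M]
    [Module F M] [Nontrivial M] (ρ : GQ →* Module.End F M) (hsm : IsSmoothRep ρ) :
    ∃ W : Submodule F M, W ≠ ⊥ ∧ Module.Finite F W ∧ (∀ σ : GQ, ∀ x ∈ W, ρ σ x ∈ W) ∧
      ∃ L : IntermediateField ℚ (AlgebraicClosure ℚ), FiniteDimensional ℚ L ∧
        ∀ σ : GQ, (∀ y ∈ L, σ y = y) → ∀ x ∈ W, ρ σ x = x := by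
  obtain ⟨x, hx⟩ := exists_ne (0 : M)
  obtain ⟨L₀, hL₀, hfix₀⟩ := hsm x
  obtain ⟨L, hL, hle, hstab⟩ := Orb_exists_normal L₀ hL₀
  have := hL
  -- elements fixing `L` pointwise fix `x`
  have hfix : ∀ σ : GQ, (∀ y ∈ L, σ y = y) → ρ σ x = x :=
    fun σ hσ => hfix₀ σ (fun y hy => hσ y (hle hy))
  -- `ρ σ x` depends only on the restriction of `σ` to `L`
  let res : GQ → (L →ₐ[ℚ] AlgebraicClosure ℚ) := fun σ => (σ : AlgebraicClosure ℚ →ₐ[ℚ]
    AlgebraicClosure ℚ).comp L.val
  have hres : ∀ σ τ : GQ, res σ = res τ → ρ σ x = ρ τ x := by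
    intro σ τ h
    have h1 : ∀ y ∈ L, (σ⁻¹ * τ) y = y := by
      intro y hy
      have := congrArg (fun f : L →ₐ[ℚ] AlgebraicClosure ℚ => f ⟨y, hy⟩) h
      have h' : σ y = τ y := this
      rw [AlgEquiv.mul_apply, ← h']
      exact σ.symm_apply_apply y
    have h2 := hfix _ h1
    have h3 : ρ τ x = ρ σ (ρ (σ⁻¹ * τ) x) := by
      rw [← Module.End.mul_apply, ← map_mul, mul_inv_cancel_left]
    rw [h3, h2]
  have hfin : (Set.range fun σ : GQ => ρ σ x).Finite := by
    have hft : Function.FactorsThrough (fun σ : GQ => ρ σ x) res := fun σ τ h => hres σ τ h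
    have : (fun σ : GQ => ρ σ x) =
        (Function.extend res (fun σ : GQ => ρ σ x) (fun _ => (0 : M))) ∘ res :=
      (hft.extend_comp (fun _ => (0 : M))).symm
    rw [this]
    exact (Set.finite_range _).subset (Set.range_comp_subset_range _ _)
  refine ⟨Submodule.span F (Set.range fun σ : GQ => ρ σ x), ?_, ?_, ?_, L, hL, ?_⟩
  · intro h
    have hxW : x ∈ Submodule.span F (Set.range fun σ : GQ => ρ σ x) :=
      Submodule.subset_span ⟨1, by simp⟩
    rw [h, Submodule.mem_bot] at hxW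
    exact hx hxW
  · exact Module.Finite.span_of_finite F hfin
  · intro σ y hy
    induction hy using Submodule.span_induction with
    | mem z hz =>
      obtain ⟨τ, rfl⟩ := hz
      apply Submodule.subset_span
      exact ⟨σ * τ, by simp [map_mul]⟩
    | zero => simp
    | add a b _ _ ha hb => rw [map_add]; exact add_mem ha hb
    | smul c a _ ha => rw [map_smul]; exact Submodule.smul_mem _ c ha
  · intro σ hσ y hy
    induction hy using Submodule.span_induction with
    | mem z hz =>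
      obtain ⟨τ, rfl⟩ := hz
      have h1 : ∀ y ∈ L, (τ⁻¹ * σ * τ) y = y := by
        intro y hy
        rw [AlgEquiv.mul_apply, AlgEquiv.mul_apply, hσ _ (hstab τ y hy)]
        exact τ.symm_apply_apply y
      have h2 := hfix _ h1
      have h3 : ρ σ (ρ τ x) = ρ τ (ρ (τ⁻¹ * σ * τ) x) := by
        rw [← Module.End.mul_apply, ← Module.End.mul_apply, ← map_mul, ← map_mul]
        congr 2
        group
      show ρ σ (ρ τ x) = ρ τ x
      rw [h3, h2]
    | zero => simp
    | add a b _ _ ha hb => rw [map_add, ha, hb]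
    | smul c a _ ha => rw [map_smul, ha]

end Fermat.Agent.S29.H449

end
-- ===== PACK-END S29/H449/Orb.lean

-- ===== PACK-BEGIN S29/H42/MAsm.lean
section
/-
S29 row, layer M, abstract assembly (helper42).

From an abelian group `A` with a `G_ℚ`-action and commuting operators `T ℓ` such that
* every element has an open stabiliser,
* inertia at `ℓ ∤ S` acts trivially,
* every Frobenius at `ℓ ∤ S` satisfies `σ² - T_ℓ σ + ℓ = 0`,
* the system `a` occurs in `F ⊗ A` (a nonzero simultaneous eigenvector),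
we build the module required by `HasFrobModule F S a`: the simultaneous eigenspace in `F ⊗[ℤ] A`.
-/



set_option autoImplicit false
set_option linter.style.haveILetI false
set_option linter.unusedSectionVars false

noncomputable section

open TensorProduct

namespace Fermat.Agent.S29.H42

variable {F : Type} [Field F] {A : Type} [AddCommGroup A] [DistribMulAction GQ A]

/-- The action of `σ` as a `ℤ`-linear map. -/
def actLin (σ : GQ) : Module.End ℤ A :=
  (DistribSMul.toAddMonoidHom A σ).toIntLinearMap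

@[simp] theorem actLin_apply (σ : GQ) (x : A) : actLin σ x = σ • x := rfl

theorem actLin_one : actLin (A := A) 1 = 1 := by
  ext x; simp

theorem actLin_mul (σ τ : GQ) : actLin (A := A) (σ * τ) = actLin σ * actLin τ := by
  ext x; simp [mul_smul]

variable (F A) in
/-- The action of `G_ℚ` on `F ⊗[ℤ] A`. -/
def tensorRep : GQ →* Module.End F (F ⊗[ℤ] A) where
  toFun σ := (actLin σ).baseChange F
  map_one' := by rw [actLin_one]; exact LinearMap.baseChange_one ℤ A
  map_mul' σ τ := by rw [actLin_mul]; exact LinearMap.baseChange_mul _ _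

@[simp] theorem tensorRep_tmul (σ : GQ) (f : F) (x : A) :
    tensorRep F A σ (f ⊗ₜ[ℤ] x) = f ⊗ₜ[ℤ] (σ • x) := by
  simp [tensorRep]

variable (F) in
/-- The simultaneous eigenspace of the operators `T ℓ` (`ℓ` prime, `ℓ ∤ S`) in `F ⊗[ℤ] A`. -/
def eigenSub (S : ℕ) (a : ℕ → F) (T : ℕ → Module.End ℤ A) : Submodule F (F ⊗[ℤ] A) where
  carrier := {v | ∀ ℓ : ℕ, ℓ.Prime → ¬ ℓ ∣ S → (T ℓ).baseChange F v = a ℓ • v}
  zero_mem' := fun ℓ _ _ => by simp
  add_mem' := fun {v w} hv hw ℓ hℓ hS => by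
    rw [map_add, hv ℓ hℓ hS, hw ℓ hℓ hS, smul_add]
  smul_mem' := fun c v hv ℓ hℓ hS => by
    rw [map_smul, hv ℓ hℓ hS, smul_comm]

theorem mem_eigenSub {S : ℕ} {a : ℕ → F} {T : ℕ → Module.End ℤ A} {v : F ⊗[ℤ] A} :
    v ∈ eigenSub F S a T ↔ ∀ ℓ : ℕ, ℓ.Prime → ¬ ℓ ∣ S → (T ℓ).baseChange F v = a ℓ • v :=
  Iff.rfl

theorem baseChange_comm {T : Module.End ℤ A} (σ : GQ)
    (hT : ∀ x : A, T (σ • x) = σ • T x) (v : F ⊗[ℤ] A) :
    T.baseChange F (tensorRep F A σ v) = tensorRep F A σ (T.baseChange F v) := by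
  induction v using TensorProduct.induction_on with
  | zero => simp
  | tmul f x => simp [hT]
  | add v w hv hw => rw [map_add, map_add, hv, hw, map_add, map_add]

theorem tensorRep_mem_eigenSub {S : ℕ} {a : ℕ → F} {T : ℕ → Module.End ℤ A}
    (hT : ∀ (ℓ : ℕ) (σ : GQ) (x : A), T ℓ (σ • x) = σ • T ℓ x) (σ : GQ)
    {v : F ⊗[ℤ] A} (hv : v ∈ eigenSub F S a T) : tensorRep F A σ v ∈ eigenSub F S a T := by
  intro ℓ hℓ hS
  rw [baseChange_comm σ (hT ℓ σ), hv ℓ hℓ hS, map_smul]

/-- The representation on the eigenspace. -/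
def eigenRep (S : ℕ) (a : ℕ → F) (T : ℕ → Module.End ℤ A)
    (hT : ∀ (ℓ : ℕ) (σ : GQ) (x : A), T ℓ (σ • x) = σ • T ℓ x) :
    GQ →* Module.End F (eigenSub F S a T) where
  toFun σ := (tensorRep F A σ).restrict fun _ hv => tensorRep_mem_eigenSub hT σ hv
  map_one' := by
    ext v
    simp
  map_mul' σ τ := by
    ext v
    simp

@[simp] theorem coe_eigenRep_apply (S : ℕ) (a : ℕ → F) (T : ℕ → Module.End ℤ A)
    (hT : ∀ (ℓ : ℕ) (σ : GQ) (x : A), T ℓ (σ • x) = σ • T ℓ x) (σ : GQ)
    (v : eigenSub F S a T) :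
    ((eigenRep S a T hT σ v : eigenSub F S a T) : F ⊗[ℤ] A) = tensorRep F A σ v := rfl

theorem tensorRep_smooth
    (hsmooth : ∀ x : A, ∃ L : IntermediateField ℚ (AlgebraicClosure ℚ), FiniteDimensional ℚ L ∧
      ∀ σ : GQ, (∀ y ∈ L, σ y = y) → σ • x = x) (v : F ⊗[ℤ] A) :
    ∃ L : IntermediateField ℚ (AlgebraicClosure ℚ), FiniteDimensional ℚ L ∧
      ∀ σ : GQ, (∀ y ∈ L, σ y = y) → tensorRep F A σ v = v := by
  induction v using TensorProduct.induction_on with
  | zero => exact ⟨⊥, inferInstance, fun σ _ => map_zero _⟩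
  | tmul f x =>
      obtain ⟨L, hL, hx⟩ := hsmooth x
      exact ⟨L, hL, fun σ hσ => by rw [tensorRep_tmul, hx σ hσ]⟩
  | add v w hv hw =>
      obtain ⟨L1, h1, hL1⟩ := hv
      obtain ⟨L2, h2, hL2⟩ := hw
      haveI := h1
      haveI := h2
      refine ⟨L1 ⊔ L2, inferInstance, fun σ hσ => ?_⟩
      rw [map_add, hL1 σ fun y hy => hσ y (le_sup_left (b := L2) hy),
        hL2 σ fun y hy => hσ y (le_sup_right (a := L1) hy)]

theorem tensorRep_eq_one_of_trivial (σ : GQ) (h : ∀ x : A, σ • x = x) :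
    tensorRep F A σ = 1 := by
  refine LinearMap.ext fun v => ?_
  induction v using TensorProduct.induction_on with
  | zero => simp
  | tmul f x => simp [h x]
  | add v w hv hw => simp only [map_add, hv, hw]

theorem tensorRep_quadratic {T : Module.End ℤ A} (σ : GQ) (ℓ : ℕ)
    (h : ∀ x : A, σ • σ • x - T (σ • x) + (ℓ : ℤ) • x = 0) (v : F ⊗[ℤ] A) :
    tensorRep F A σ (tensorRep F A σ v) - T.baseChange F (tensorRep F A σ v)
      + (ℓ : F) • v = 0 := by
  induction v using TensorProduct.induction_on with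
  | zero => simp
  | tmul f x =>
      simp only [tensorRep_tmul, LinearMap.baseChange_tmul]
      have h1 : (ℓ : F) • (f ⊗ₜ[ℤ] x) = f ⊗ₜ[ℤ] ((ℓ : ℤ) • x) := by
        calc (ℓ : F) • (f ⊗ₜ[ℤ] x) = ((ℓ : F) • f) ⊗ₜ[ℤ] x := TensorProduct.smul_tmul' _ _ _
          _ = ((ℓ : ℤ) • f) ⊗ₜ[ℤ] x := by
              congr 1
              simp [zsmul_eq_mul]
          _ = f ⊗ₜ[ℤ] ((ℓ : ℤ) • x) := TensorProduct.smul_tmul _ _ _
      rw [h1, ← TensorProduct.tmul_sub, ← TensorProduct.tmul_add, h x, TensorProduct.tmul_zero]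
  | add v w hv hw =>
      have : tensorRep F A σ (tensorRep F A σ (v + w)) - T.baseChange F (tensorRep F A σ (v + w))
          + (ℓ : F) • (v + w)
          = (tensorRep F A σ (tensorRep F A σ v) - T.baseChange F (tensorRep F A σ v)
              + (ℓ : F) • v)
            + (tensorRep F A σ (tensorRep F A σ w) - T.baseChange F (tensorRep F A σ w)
              + (ℓ : F) • w) := by
        simp only [map_add, smul_add]
        abel
      rw [this, hv, hw, add_zero]

/-- **Abstract assembly of layer M.** -/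
theorem hasFrobModule_of_eigenvector (S : ℕ) (a : ℕ → F) (T : ℕ → Module.End ℤ A)
    (hT : ∀ (ℓ : ℕ) (σ : GQ) (x : A), T ℓ (σ • x) = σ • T ℓ x)
    (hsmooth : ∀ x : A, ∃ L : IntermediateField ℚ (AlgebraicClosure ℚ), FiniteDimensional ℚ L ∧
      ∀ σ : GQ, (∀ y ∈ L, σ y = y) → σ • x = x)
    (hunr : ∀ ℓ : ℕ, ℓ.Prime → ¬ ℓ ∣ S → ∀ V : VQ, V.LiesOverPrime ℓ →
      ∀ σ ∈ V.inertiaSubgroupIn ℚ, ∀ x : A, σ • x = x)
    (hfrob : ∀ ℓ : ℕ, ℓ.Prime → ¬ ℓ ∣ S → ∀ V : VQ, V.LiesOverPrime ℓ →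
      ∀ σ : GQ, V.IsFrobeniusAt σ ℓ → ∀ x : A, σ • σ • x - T ℓ (σ • x) + (ℓ : ℤ) • x = 0)
    (hocc : ∃ v : F ⊗[ℤ] A, v ≠ 0 ∧
      ∀ ℓ : ℕ, ℓ.Prime → ¬ ℓ ∣ S → (T ℓ).baseChange F v = a ℓ • v) :
    HasFrobModule F S a := by
  obtain ⟨v, hv0, hv⟩ := hocc
  refine ⟨eigenSub F S a T, inferInstance, inferInstance, eigenRep S a T hT, ?_, ?_, ?_, ?_⟩
  · exact ⟨⟨⟨v, hv⟩, 0, fun h => hv0 (congrArg Subtype.val h)⟩⟩
  · intro x
    obtain ⟨L, hL, hfix⟩ := tensorRep_smooth (F := F) hsmooth (x : F ⊗[ℤ] A)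
    exact ⟨L, hL, fun σ hσ => Subtype.ext (hfix σ hσ)⟩
  · intro ℓ hℓ hS V hV σ hσ
    ext x
    have := tensorRep_eq_one_of_trivial (F := F) σ (hunr ℓ hℓ hS V hV σ hσ)
    simp [this]
  · intro ℓ hℓ hS V hV σ hσ
    ext x
    have h1 := tensorRep_quadratic (F := F) σ ℓ (hfrob ℓ hℓ hS V hV σ hσ) (x : F ⊗[ℤ] A)
    have h2 := tensorRep_mem_eigenSub hT σ x.2 ℓ hℓ hS
    rw [h2] at h1
    simpa using h1

end Fermat.Agent.S29.H42

end
end
-- ===== PACK-END S29/H42/MAsm.lean

-- ===== PACK-BEGIN S29/DefsM.lean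
section
/-
S29 row — FROZEN interface definitions for layer M (the torsion module).  Row-lead helper269.
Namespace `Fermat.Agent.S29`.  Do not edit; propose changes via a note kind='question' stmt='S29'.
-/



set_option autoImplicit false

noncomputable section

namespace Fermat.Agent.S29

open ModularCurve AlgebraicCurve
open scoped TensorProduct MatrixGroups

/-! ### The `p`-torsion of `J₀(N)(ℚ̄)` (Prelude `JZero N`) with Hecke and Galois operators -/

section Jp

variable (N : ℕ) [NeZero N] (p : ℕ)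

/-- `J₀(N)(ℚ̄)[p]` as a `ℤ`-submodule of the Prelude's `JZero N`. -/
abbrev Jp : Submodule ℤ (JZero N) := Submodule.torsionBy ℤ (JZero N) (p : ℤ)

/-- The Prelude Hecke operator `T_ℓ` restricted to `J₀(N)[p]`. -/
def heckeJp (ℓ : Nat.Primes) : Jp N p →ₗ[ℤ] Jp N p :=
  (heckeOperatorBar N ℓ).restrict (p := Jp N p) (q := Jp N p) (fun x hx => by
    rw [Submodule.mem_torsionBy_iff] at hx ⊢
    rw [← map_smul, hx, map_zero])

@[simp] theorem coe_heckeJp (ℓ : Nat.Primes) (x : Jp N p) :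
    ((heckeJp N p ℓ x : Jp N p) : JZero N) = heckeOperatorBar N ℓ (x : JZero N) := rfl

/-- The Galois action on `J₀(N)[p]`. -/
def galJp (σ : GQ) : Jp N p →ₗ[ℤ] Jp N p :=
  ((DistribSMul.toAddMonoidHom (JZero N) σ).toIntLinearMap).restrict
    (p := Jp N p) (q := Jp N p) (fun x hx => by
    rw [Submodule.mem_torsionBy_iff] at hx ⊢
    rw [← map_smul, hx, map_zero])

omit [NeZero N] in
@[simp] theorem coe_galJp (σ : GQ) (x : Jp N p) :
    ((galJp N p σ x : Jp N p) : JZero N) = σ • (x : JZero N) := rfl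

end Jp

/-! ### Parabolic additive characters of `Γ₀(N)` and the cohomological Hecke operator -/

section ParHom

variable (N : ℕ)

/-- The group `Γ₀(N)` as a type. -/
abbrev G0 : Type := ↥(CongruenceSubgroup.Gamma0 N)

/-- Integer matrix of an element of `Γ₀(N)`. -/
def G0.mat {N : ℕ} (γ : G0 N) : Matrix (Fin 2) (Fin 2) ℤ := ((γ : SL(2, ℤ)) : Matrix (Fin 2) (Fin 2) ℤ)

/-- `c : Γ₀(N) → A` is an additive character vanishing on all elements of trace `±2`
(cusp stabilisers, `-1`) and on all torsion (elliptic) elements. -/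
structure IsParHom {N : ℕ} {A : Type*} [AddCommGroup A] (c : G0 N → A) : Prop where
  map_mul : ∀ γ γ' : G0 N, c (γ * γ') = c γ + c γ'
  parabolic : ∀ γ : G0 N, (γ.mat.trace = 2 ∨ γ.mat.trace = -2) → c γ = 0
  elliptic : ∀ (γ : G0 N) (n : ℕ), 0 < n → γ ^ n = 1 → c γ = 0

/-- Coset representatives of `Γ₀(N) \ Γ₀(N) diag(1,ℓ) Γ₀(N)` (`ℓ ∤ N` prime):
`none ↦ [[ℓ,0],[0,1]]`, `some b ↦ [[1,b],[0,ℓ]]`. -/
def heckeRep (ℓ : ℕ) : Option (Fin ℓ) → Matrix (Fin 2) (Fin 2) ℤ
  | none => !![(ℓ : ℤ), 0; 0, 1]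
  | some b => !![1, ((b : ℕ) : ℤ); 0, (ℓ : ℤ)]

/-- `heckeRep i * γ = γ' * heckeRep j`. -/
def IsHeckeFactor {N : ℕ} (ℓ : ℕ) (γ : G0 N) (i : Option (Fin ℓ)) (q : Option (Fin ℓ) × G0 N) :
    Prop :=
  heckeRep ℓ i * γ.mat = q.2.mat * heckeRep ℓ q.1

open Classical in
/-- The (unique, for `ℓ ∤ N` prime) pair `(j, γ')` with `heckeRep i * γ = γ' * heckeRep j`. -/
def heckeFac (ℓ : ℕ) (γ : G0 N) (i : Option (Fin ℓ)) : Option (Fin ℓ) × G0 N :=
  if h : ∃ q : Option (Fin ℓ) × G0 N, IsHeckeFactor ℓ γ i q then Classical.choose h else (i, 1)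

/-- The cohomological Hecke operator on functions `Γ₀(N) → A`:
`(T_ℓ c)(γ) = ∑ᵢ c(γ'ᵢ)` where `αᵢ γ = γ'ᵢ α_{π(i)}`. -/
def heckeCoh {A : Type*} [AddCommMonoid A] (ℓ : ℕ) (c : G0 N → A) : G0 N → A :=
  fun γ => ∑ i : Option (Fin ℓ), c (heckeFac N ℓ γ i).2

end ParHom

/-! ### External input: the frozen statement S37 -/

/-- The frozen statement S37 as a `Prop` (row S37 proves it as `Fermat.Agent.S37.result`). -/
def S37Statement : Prop :=
  ∀ (N p : ℕ) [NeZero N] (_ : ModularCurve.HeckeOperatorsCommuteBar N),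
    letI := ModularCurve.heckeModuleBar N
    ∀ (_ : SMulCommClass GQ ModularCurve.HeckeAlg (ModularCurve.JZero N)),
      ModularCurve.SpecializationExists (K := ℚ) (L := AlgebraicClosure ℚ) N p
        (ModularCurve.JZero N)

end Fermat.Agent.S29

end
end
-- ===== PACK-END S29/DefsM.lean

-- ===== PACK-BEGIN S48/H228/DepleteCusp.lean
section






/-!
# S48 / RES piece PACKET (helper228), part 1: slashing a cusp form by a rational matrix

If `f` is a cusp form for an arithmetic group and `g ∈ GL₂(ℝ)` has rational entries, then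
`f ∣[k] g` vanishes at every cusp of every arithmetic group (`isZeroAt_slash_of_isRatGL`).
-/

set_option autoImplicit false

open scoped MatrixGroups ModularForm
open Matrix Matrix.SpecialLinearGroup UpperHalfPlane ModularForm

namespace Fermat.Agent.S48.H228

/-- `g ∈ GL₂(ℝ)` has rational entries. -/
def IsRatGL (g : GL (Fin 2) ℝ) : Prop :=
  ∃ g₀ : GL (Fin 2) ℚ, g₀.map (Rat.castHom ℝ) = g

lemma IsRatGL.mul {g h : GL (Fin 2) ℝ} (hg : IsRatGL g) (hh : IsRatGL h) : IsRatGL (g * h) := by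
  obtain ⟨g₀, rfl⟩ := hg
  obtain ⟨h₀, rfl⟩ := hh
  exact ⟨g₀ * h₀, map_mul _ _ _⟩

/-- An invertible real matrix all of whose entries are rational is in `IsRatGL`. -/
lemma isRatGL_of_entries (g : GL (Fin 2) ℝ) (a b c d : ℚ)
    (h00 : g 0 0 = a) (h01 : g 0 1 = b) (h10 : g 1 0 = c) (h11 : g 1 1 = d) : IsRatGL g := by
  have hdet : (g : Matrix (Fin 2) (Fin 2) ℝ).det = ((a * d - b * c : ℚ) : ℝ) := by
    rw [Matrix.det_fin_two, h00, h01, h10, h11]
    push_cast
    ring
  have hne : (a * d - b * c : ℚ) ≠ 0 := by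
    intro h0
    have hu : IsUnit (g : Matrix (Fin 2) (Fin 2) ℝ).det :=
      (Matrix.isUnit_iff_isUnit_det _).mp g.isUnit
    rw [hdet, h0] at hu
    simp at hu
  refine ⟨Matrix.GeneralLinearGroup.mkOfDetNeZero !![a, b; c, d]
    (by rw [Matrix.det_fin_two_of]; exact hne), ?_⟩
  ext i j
  fin_cases i <;> fin_cases j <;>
    simp [Matrix.GeneralLinearGroup.mkOfDetNeZero, h00, h01, h10, h11]

lemma isRatGL_heckeMatrix (p j : ℕ) : IsRatGL (heckeMatrix p j) := by
  by_cases hp : p = 0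
  · subst hp
    rw [ModularForm.heckeMatrix_zero]
    exact ⟨1, map_one _⟩
  · refine isRatGL_of_entries _ 1 j 0 p ?_ ?_ ?_ ?_ <;> simp [hp]

lemma isRatGL_heckeDiagMatrix (p : ℕ) : IsRatGL (heckeDiagMatrix p) := by
  by_cases hp : p = 0
  · subst hp
    refine ⟨1, ?_⟩
    rw [map_one]
    simp [ModularForm.heckeDiagMatrix]
  · refine isRatGL_of_entries _ p 0 0 1 ?_ ?_ ?_ ?_ <;> simp [hp]

/-- Rational matrices preserve the set of cusps `ℙ¹(ℚ)`. -/
lemma isCusp_smul_of_isRatGL {g : GL (Fin 2) ℝ} (hg : IsRatGL g) {c : OnePoint ℝ}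
    (hc : IsCusp c 𝒮ℒ) : IsCusp (g • c) 𝒮ℒ := by
  obtain ⟨g₀, rfl⟩ := hg
  rw [isCusp_SL2Z_iff] at hc ⊢
  obtain ⟨c₀, rfl⟩ := hc
  refine ⟨g₀ • c₀, ?_⟩
  rw [← Rat.coe_castHom, OnePoint.map_smul]

/-- The slash of a cusp form by a rational matrix vanishes at all cusps. -/
theorem isZeroAt_slash_of_isRatGL {Γ Γ' : Subgroup (GL (Fin 2) ℝ)} [Γ.IsArithmetic]
    [Γ'.IsArithmetic] {k : ℤ} {F : Type*} [FunLike F ℍ ℂ] [CuspFormClass F Γ k] (f : F)
    {g : GL (Fin 2) ℝ} (hg : IsRatGL g) {c : OnePoint ℝ} (hc : IsCusp c Γ') :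
    c.IsZeroAt (⇑f ∣[k] g) k := by
  rw [← OnePoint.IsZeroAt.smul_iff]
  apply CuspFormClass.zero_at_cusps f
  rw [Subgroup.IsArithmetic.isCusp_iff_isCusp_SL2Z] at hc ⊢
  exact isCusp_smul_of_isRatGL hg hc

/-- Finite sums of functions vanishing at a cusp. -/
theorem isZeroAt_sum {ι : Type*} (s : Finset ι) (F : ι → ℍ → ℂ) {k : ℤ} {c : OnePoint ℝ}
    (h : ∀ i ∈ s, c.IsZeroAt (F i) k) : c.IsZeroAt (∑ i ∈ s, F i) k := by
  classical
  induction s using Finset.induction_on with
  | empty =>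
    intro g _
    simp only [Finset.sum_empty]
    rw [SlashAction.zero_slash]
    exact Filter.zero_zeroAtFilter _
  | insert a s ha ih =>
    rw [Finset.sum_insert ha]
    exact (h a (Finset.mem_insert_self a s)).add
      (ih fun i hi => h i (Finset.mem_insert_of_mem hi))

theorem isZeroAt_smul {F : ℍ → ℂ} {k : ℤ} {c : OnePoint ℝ} (a : ℂ)
    (h : c.IsZeroAt F k) : c.IsZeroAt (a • F) k := by
  intro g hg
  rw [ModularForm.smul_slash]
  exact Filter.ZeroAtFilter.smul _ (h g hg)

end Fermat.Agent.S48.H228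

end
-- ===== PACK-END S48/H228/DepleteCusp.lean

-- ===== PACK-BEGIN S29/H455/KummerCorr.lean
section


/-!
# Kummer classes in `Pic⁰` and correspondences (Prelude language)

`IsKummerClass n f x` : the class `x ∈ Pic⁰(F)` is represented by a degree-zero divisor `D` with
`n • D = div f`.  Main results:

* `exists_isKummerClass_of_zsmul_eq_zero` : every `n`-torsion class is a Kummer class;
* `IsKummerClass.unique`, `.add`, `.neg`, `.mul_pow`, `.eq_zero_iff` ;
* `IsKummerClass.correspondence` : the correspondence `ψ_* φ^*` (Prelude `Pic0.correspondence`,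
  e.g. the Hecke operator `T_ℓ = α_* β^*`) sends the Kummer class of `f` to the Kummer class of
  `Norm_ψ (φ f)`;
* `IsKummerClass.smul` : semilinear automorphisms send the Kummer class of `f` to that of `g • f`.
-/

set_option autoImplicit false
set_option linter.style.haveILetI false
set_option linter.unusedSectionVars false

noncomputable section

namespace Fermat.Agent.S29.H455

open AlgebraicCurve

variable {K F F' : Type*} [Field K] [Field F] [Field F'] [Algebra K F] [Algebra K F']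

/-- The norm along an algebra homomorphism `ψ : F → F'` (Prelude `algebraAlong`). -/
def normAlong (ψ : F →ₐ[K] F') (y : F') : F :=
  letI := algebraAlong ψ
  Algebra.norm F y

theorem normAlong_ne_zero (ψ : F →ₐ[K] F') (hfin : FiniteAlong K ψ) {y : F'} (hy : y ≠ 0) :
    normAlong ψ y ≠ 0 := by
  letI := algebraAlong ψ
  haveI : Module.Finite F F' := hfin
  exact Algebra.norm_ne_zero_iff.mpr hy

theorem normAlong_mul (ψ : F →ₐ[K] F') (y z : F') :
    normAlong ψ (y * z) = normAlong ψ y * normAlong ψ z := by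
  letI := algebraAlong ψ
  exact map_mul (Algebra.norm F) y z

theorem normAlong_pow (ψ : F →ₐ[K] F') (y : F') (n : ℕ) :
    normAlong ψ (y ^ n) = normAlong ψ y ^ n := by
  letI := algebraAlong ψ
  exact map_pow (Algebra.norm F) y n

section Divisors

variable [HasPrincipalDivisors K F']
variable (φ ψ : F →ₐ[K] F') (hφ : φ.toRingHom.IsIntegral) (hψ : ψ.toRingHom.IsIntegral)

theorem pullbackAlong_apply_of_ord {f : F} {D : Divisor K F}
    (hD : ∀ v : Place K F, D v = v.ord f) (w : Place K F') :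
    Divisor.pullbackAlong φ hφ D w = w.ord (φ f) := by
  letI := algebraAlong φ
  haveI := isScalarTower_along φ
  haveI := isIntegral_along φ hφ
  exact Divisor.pullback_apply_eq_ord hD w

theorem pushforwardAlong_apply_of_ord (hfin : FiniteAlong K ψ) (hN : NormFormulaAlong K ψ hfin)
    {g : F'} (hg : g ≠ 0) {D : Divisor K F'} (hD : ∀ w : Place K F', D w = w.ord g)
    (v : Place K F) :
    Divisor.pushforwardAlong ψ hψ D v = v.ord (normAlong ψ g) := by
  letI := algebraAlong ψ
  haveI := isScalarTower_along ψ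
  haveI := isIntegral_along ψ hψ
  haveI : Module.Finite F F' := hfin
  exact hN g hg D hD v

/-- The correspondence `ψ_* φ^*` sends `div f` to `div (Norm_ψ (φ f))`. -/
theorem correspondence_apply_of_ord (hfin : FiniteAlong K ψ) (hN : NormFormulaAlong K ψ hfin)
    {f : F} (hf : f ≠ 0) {D : Divisor K F} (hD : ∀ v : Place K F, D v = v.ord f)
    (v : Place K F) :
    Divisor.correspondence φ ψ hφ hψ D v = v.ord (normAlong ψ (φ f)) := by
  rw [Divisor.correspondence_apply]
  refine pushforwardAlong_apply_of_ord ψ hψ hfin hN ?_ (fun w => ?_) v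
  · exact (map_ne_zero φ).mpr hf
  · exact pullbackAlong_apply_of_ord φ hφ hD w

/-- If `n • D = div f` then `n • (ψ_* φ^* D) = div (Norm_ψ (φ f))`. -/
theorem correspondence_kummer (hfin : FiniteAlong K ψ) (hN : NormFormulaAlong K ψ hfin)
    {n : ℤ} {f : F} (hf : f ≠ 0) {D : Divisor K F}
    (hD : ∀ v : Place K F, n * D v = v.ord f) (v : Place K F) :
    n * Divisor.correspondence φ ψ hφ hψ D v = v.ord (normAlong ψ (φ f)) := by
  have h := correspondence_apply_of_ord φ ψ hφ hψ hfin hN hf (D := n • D)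
    (fun v => by rw [Finsupp.smul_apply, smul_eq_mul, hD]) v
  rw [map_zsmul, Finsupp.smul_apply, smul_eq_mul] at h
  exact h

end Divisors

/-! ### The Kummer relation -/

/-- `x` is the `n`-Kummer class of `f`: `x = [D]` with `D` of degree zero and `n • D = div f`. -/
def IsKummerClass (n : ℤ) (f : F) (x : Pic0 K F) : Prop :=
  f ≠ 0 ∧ ∃ D : Divisor.degZero (K := K) (F := F),
    Pic0.mk D = x ∧ ∀ v : Place K F, n * (D : Divisor K F) v = v.ord f

namespace IsKummerClass

variable {n : ℤ} {f g : F} {x y : Pic0 K F}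

theorem ne_zero (h : IsKummerClass n f x) : f ≠ 0 := h.1

/-- A Kummer class is `n`-torsion. -/
theorem zsmul_eq_zero (h : IsKummerClass n f x) : n • x = 0 := by
  obtain ⟨hf, D, rfl, hD⟩ := h
  have h1 : n • Pic0.mk D = Pic0.mk (n • D) := rfl
  rw [h1]
  refine (QuotientAddGroup.eq_zero_iff _).mpr ?_
  rw [AddSubgroup.mem_addSubgroupOf]
  refine ⟨f, hf, fun v => ?_⟩
  rw [← hD v]
  simp

theorem add (hx : IsKummerClass n f x) (hy : IsKummerClass n g y) :
    IsKummerClass n (f * g) (x + y) := by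
  obtain ⟨hf, D, rfl, hD⟩ := hx
  obtain ⟨hg, E, rfl, hE⟩ := hy
  refine ⟨mul_ne_zero hf hg, D + E, rfl, fun v => ?_⟩
  rw [Place.ord_mul v hf hg, ← hD v, ← hE v]
  simp [mul_add]

theorem neg (hx : IsKummerClass n f x) : IsKummerClass n f⁻¹ (-x) := by
  obtain ⟨hf, D, rfl, hD⟩ := hx
  refine ⟨inv_ne_zero hf, -D, rfl, fun v => ?_⟩
  rw [Place.ord_inv, ← hD v]
  simp

theorem zero : IsKummerClass n (1 : F) (0 : Pic0 K F) :=
  ⟨one_ne_zero, 0, rfl, fun v => by simp⟩

/-- Changing `f` by an `n`-th power changes the divisor by a principal divisor. -/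
theorem mul_zpow [HasPrincipalDivisors K F] (hx : IsKummerClass n f x) (hg : g ≠ 0) :
    IsKummerClass n (f * g ^ n) x := by
  obtain ⟨hf, D, rfl, hD⟩ := hx
  obtain ⟨E, hE, hE0⟩ := HasPrincipalDivisors.exists_divisor (K := K) g hg
  refine ⟨mul_ne_zero hf (zpow_ne_zero n hg), D + ⟨E, hE0⟩, ?_, fun v => ?_⟩
  · rw [Pic0.mk_add]
    have : Pic0.mk (⟨E, hE0⟩ : Divisor.degZero (K := K) (F := F)) = 0 := by
      refine (QuotientAddGroup.eq_zero_iff _).mpr ?_
      rw [AddSubgroup.mem_addSubgroupOf]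
      exact ⟨g, hg, hE⟩
    rw [this, add_zero]
  · rw [Place.ord_mul v hf (zpow_ne_zero n hg), Place.ord_zpow, ← hD v]
    simp [mul_add, hE v]

/-- The Kummer class of `f` is unique (for `n ≠ 0`). -/
theorem unique (hn : n ≠ 0) (hx : IsKummerClass n f x) (hy : IsKummerClass n f y) : x = y := by
  obtain ⟨-, D, rfl, hD⟩ := hx
  obtain ⟨-, E, rfl, hE⟩ := hy
  congr 1
  apply Subtype.ext
  apply Finsupp.ext
  intro v
  have := (hD v).trans (hE v).symm
  exact mul_left_cancel₀ hn this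

/-- The Kummer class of `f` vanishes iff `div f = n • div g` for some `g`. -/
theorem eq_zero_iff (hn : n ≠ 0) (hx : IsKummerClass n f x) :
    x = 0 ↔ ∃ g : F, g ≠ 0 ∧ ∀ v : Place K F, v.ord f = n * v.ord g := by
  obtain ⟨hf, D, rfl, hD⟩ := hx
  constructor
  · intro h
    have h1 := (QuotientAddGroup.eq_zero_iff _).mp h
    rw [AddSubgroup.mem_addSubgroupOf] at h1
    obtain ⟨g, hg, hDg⟩ := h1
    exact ⟨g, hg, fun v => by rw [← hD v, hDg v]⟩
  · rintro ⟨g, hg, hfg⟩
    refine (QuotientAddGroup.eq_zero_iff _).mpr ?_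
    rw [AddSubgroup.mem_addSubgroupOf]
    refine ⟨g, hg, fun v => ?_⟩
    have := (hD v).trans (hfg v)
    exact mul_left_cancel₀ hn this

/-- **Correspondences on Kummer classes**: `ψ_* φ^*` sends the Kummer class of `f` to the
Kummer class of `Norm_ψ (φ f)`. -/
theorem correspondence [HasPrincipalDivisors K F'] (φ ψ : F →ₐ[K] F')
    (hφ : φ.toRingHom.IsIntegral) (hψ : ψ.toRingHom.IsIntegral)
    (hFI : FundamentalIdentityAlong K φ hφ) (hfin : FiniteAlong K ψ)
    (hN : NormFormulaAlong K ψ hfin) (hx : IsKummerClass n f x) :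
    IsKummerClass n (normAlong ψ (φ f)) (Pic0.correspondence φ ψ hφ hψ hFI hfin hN x) := by
  obtain ⟨hf, D, rfl, hD⟩ := hx
  refine ⟨normAlong_ne_zero ψ hfin ((map_ne_zero φ).mpr hf),
    Pic0.degZeroCorrespondence φ ψ hφ hψ hFI D, (Pic0.correspondence_mk _ _ _ _ _ _ _ D).symm,
    fun v => ?_⟩
  rw [Pic0.coe_degZeroCorrespondence]
  exact correspondence_kummer φ ψ hφ hψ hfin hN hf hD v

/-- **Semilinear automorphisms on Kummer classes**. -/
theorem smul (σ : SemilinearAut K F) (hx : IsKummerClass n f x) :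
    IsKummerClass n (σ • f) (σ • x) := by
  obtain ⟨hf, D, rfl, hD⟩ := hx
  refine ⟨?_, SemilinearAut.degZeroSMulHom σ D, (SemilinearAut.pic0_smul_mk σ D).symm,
    fun v => ?_⟩
  · rw [SemilinearAut.smul_def]
    exact (map_ne_zero _).mpr hf
  · rw [SemilinearAut.coe_degZeroSMulHom, SemilinearAut.divisor_smul_apply, hD (σ⁻¹ • v)]
    have h := SemilinearAut.ord_smul σ (σ⁻¹ • v) f
    rw [smul_inv_smul] at h
    exact h.symm

end IsKummerClass

/-- Every `n`-torsion class is a Kummer class. -/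
theorem exists_isKummerClass_of_zsmul_eq_zero {n : ℤ} {x : Pic0 K F} (hx : n • x = 0) :
    ∃ f : F, IsKummerClass n f x := by
  obtain ⟨D, rfl⟩ := Pic0.mk_surjective x
  have h1 : n • Pic0.mk D = Pic0.mk (n • D) := rfl
  rw [h1] at hx
  have h2 := (QuotientAddGroup.eq_zero_iff _).mp hx
  rw [AddSubgroup.mem_addSubgroupOf] at h2
  obtain ⟨f, hf, hDf⟩ := h2
  refine ⟨f, hf, D, rfl, fun v => ?_⟩
  rw [← hDf v]
  simp

end Fermat.Agent.S29.H455

end
end
-- ===== PACK-END S29/H455/KummerCorr.lean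

-- ===== PACK-BEGIN S24/Mod/H708QInf.lean
section



/-!
# S24 / MOD-QINF (helper708): Laurent `q^(1/h)`-expansions at `i∞`

For `h : ℕ`, `h ≠ 0`, we consider functions `f : ℍ → ℂ` which are holomorphic, `h`-periodic and
meromorphic at `i∞` (`f * q_h ^ M` bounded at `i∞` for some `M`, `q_h τ = exp (2 π i τ / h)`).
They form a subalgebra `merInf h`, and the Laurent expansion in `q_h` is an injective algebra
homomorphism `qexpInf h : merInf h →ₐ[ℂ] LaurentSeries ℂ`.

Everything is over `ℂ`, Mathlib only.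
-/

set_option autoImplicit false
set_option linter.unusedSectionVars false

noncomputable section

namespace Fermat.Agent.S24.H708

open Complex Function Filter
open UpperHalfPlane hiding I
open scoped Manifold Real Topology

/-- The local parameter `q_h τ = exp (2 π i τ / h)` at `i∞`, as a function on `ℍ`. -/
def qh (h : ℕ) : ℍ → ℂ := fun τ => Function.Periodic.qParam (h : ℝ) (τ : ℂ)

lemma qh_apply (h : ℕ) (τ : ℍ) : qh h τ = Function.Periodic.qParam (h : ℝ) (τ : ℂ) := rfl

lemma qh_ne_zero (h : ℕ) (τ : ℍ) : qh h τ ≠ 0 := Function.Periodic.qParam_ne_zero _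

lemma qh_pow_ne_zero (h : ℕ) (M : ℕ) (τ : ℍ) : (qh h ^ M) τ ≠ 0 := by
  simpa using pow_ne_zero M (qh_ne_zero h τ)

section basic

variable (h : ℕ) [NeZero h]

lemma hpos : (0 : ℝ) < (h : ℝ) := by exact_mod_cast Nat.pos_of_ne_zero (NeZero.ne h)

lemma norm_qh_lt_one (τ : ℍ) : ‖qh h τ‖ < 1 :=
  Function.Periodic.norm_qParam_lt_one (hpos h) τ.im_pos

omit [NeZero h] in
lemma mdiff_qh : MDiff (qh h) := by
  rw [UpperHalfPlane.mdifferentiable_iff]
  have hd : DifferentiableOn ℂ (Function.Periodic.qParam (h : ℝ)) {z : ℂ | 0 < z.im} :=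
    (Function.Periodic.differentiable_qParam (h := (h : ℝ))).differentiableOn
  refine hd.congr ?_
  intro z hz
  simp only [comp_apply, qh_apply, ofComplex_apply_of_im_pos hz]

lemma periodic_qh : Periodic (qh h ∘ ofComplex) (h : ℝ) := by
  intro w
  by_cases hw : 0 < im w
  · have hw' : 0 < im (w + (h : ℝ)) := by simpa using hw
    simp only [comp_apply, qh_apply, ofComplex_apply_of_im_pos hw',
      ofComplex_apply_of_im_pos hw]
    simp only [Function.Periodic.qParam]
    have hh : ((h : ℝ) : ℂ) ≠ 0 := by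
      exact_mod_cast (NeZero.ne h)
    rw [show 2 * (π : ℂ) * I * (w + ((h : ℝ) : ℂ)) / ((h : ℝ) : ℂ)
        = 2 * (π : ℂ) * I * w / ((h : ℝ) : ℂ) + 2 * π * I by field_simp]
    rw [Complex.exp_add, Complex.exp_two_pi_mul_I, mul_one]
  · have hw0 : im w ≤ 0 := not_lt.mp hw
    have hw' : im (w + (h : ℝ)) ≤ 0 := by simpa using hw0
    simp only [comp_apply]
    rw [ofComplex_apply_of_im_nonpos hw', ofComplex_apply_of_im_nonpos hw0]

lemma isBounded_qh : IsBoundedAtImInfty (qh h) := by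
  rw [UpperHalfPlane.isBoundedAtImInfty_iff]
  exact ⟨1, 0, fun τ _ => (norm_qh_lt_one h τ).le⟩

end basic

/-- The class of holomorphic `h`-periodic functions bounded at `i∞`. -/
structure IsHolInf (h : ℕ) (f : ℍ → ℂ) : Prop where
  hol : MDiff f
  per : Periodic (f ∘ ofComplex) (h : ℝ)
  bdd : IsBoundedAtImInfty f

namespace IsHolInf

variable {h : ℕ} {f g : ℍ → ℂ}

lemma mul (hf : IsHolInf h f) (hg : IsHolInf h g) : IsHolInf h (f * g) :=
  ⟨hf.hol.mul hg.hol, hf.per.mul hg.per, hf.bdd.mul hg.bdd⟩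

lemma add (hf : IsHolInf h f) (hg : IsHolInf h g) : IsHolInf h (f + g) :=
  ⟨hf.hol.add hg.hol, hf.per.add hg.per, hf.bdd.add hg.bdd⟩

lemma const (h : ℕ) (c : ℂ) : IsHolInf h (fun _ => c) :=
  ⟨mdifferentiable_const, fun _ => rfl, Filter.const_boundedAtFilter _ c⟩

lemma one (h : ℕ) : IsHolInf h (1 : ℍ → ℂ) := const h 1

lemma qh (h : ℕ) [NeZero h] : IsHolInf h (_root_.Fermat.Agent.S24.H708.qh h) :=
  ⟨mdiff_qh h, periodic_qh h, isBounded_qh h⟩

lemma pow (hf : IsHolInf h f) (n : ℕ) : IsHolInf h (f ^ n) := by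
  induction n with
  | zero => simpa using one h
  | succ n ih => rw [pow_succ]; exact ih.mul hf

lemma analyticAt [NeZero h] (hf : IsHolInf h f) : AnalyticAt ℂ (cuspFunction (h : ℝ) f) 0 :=
  analyticAt_cuspFunction_zero (hpos h) hf.per hf.hol hf.bdd

lemma qExpansion_mul [NeZero h] (hf : IsHolInf h f) (hg : IsHolInf h g) :
    qExpansion (h : ℝ) (f * g) = qExpansion (h : ℝ) f * qExpansion (h : ℝ) g :=
  UpperHalfPlane.qExpansion_mul hf.analyticAt hg.analyticAt

lemma qExpansion_add [NeZero h] (hf : IsHolInf h f) (hg : IsHolInf h g) :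
    qExpansion (h : ℝ) (f + g) = qExpansion (h : ℝ) f + qExpansion (h : ℝ) g :=
  UpperHalfPlane.qExpansion_add hf.analyticAt hg.analyticAt

lemma hasSum [NeZero h] (hf : IsHolInf h f) (τ : ℍ) :
    HasSum (fun m : ℕ => (qExpansion (h : ℝ) f).coeff m * H708.qh h τ ^ m) (f τ) := by
  simpa [smul_eq_mul, qh_apply] using hasSum_qExpansion (hpos h) hf.per hf.hol hf.bdd τ

lemma qExpansion_eq_zero_iff [NeZero h] (hf : IsHolInf h f) :
    qExpansion (h : ℝ) f = 0 ↔ f = 0 :=
  UpperHalfPlane.qExpansion_eq_zero_iff (hpos h) hf.per hf.hol hf.bdd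

end IsHolInf


section qExpansion_qh

variable (h : ℕ) [NeZero h]

omit [NeZero h] in
/-- `UpperHalfPlane.qExpansion_coeff_unique` for plain functions. -/
lemma qExpansion_coeff_unique_fun {g : ℍ → ℂ} (hh : (0 : ℝ) < (h : ℝ)) (hcont : Continuous g)
    {c : ℕ → ℂ} (hg : AnalyticAt ℂ (cuspFunction (h : ℝ) g) 0)
    (hs : ∀ τ : ℍ, HasSum (fun m ↦ c m • Function.Periodic.qParam (h : ℝ) (τ : ℂ) ^ m) (g τ))
    (m : ℕ) : c m = (qExpansion (h : ℝ) g).coeff m :=
  UpperHalfPlane.qExpansion_coeff_unique (ContinuousMap.mk g hcont) hh hg hs m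

omit [NeZero h] in
lemma hasSum_qh_aux (τ : ℍ) : HasSum (fun m : ℕ => (if m = 1 then (1 : ℂ) else 0) •
      Function.Periodic.qParam (h : ℝ) (τ : ℂ) ^ m) (qh h τ) := by
  have h1 := hasSum_ite_eq (1 : ℕ) (qh h τ)
  have h2 : (fun m : ℕ => (if m = 1 then (1 : ℂ) else 0) •
      Function.Periodic.qParam (h : ℝ) (τ : ℂ) ^ m) = fun m : ℕ => if m = 1 then qh h τ else 0 := by
    funext m
    by_cases hm : m = 1
    · subst hm; simp [qh_apply]
    · simp [hm]
  rw [h2]
  exact h1

lemma qExpansion_qh : qExpansion (h : ℝ) (qh h) = PowerSeries.X := by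
  ext m
  have h3 := qExpansion_coeff_unique_fun h (hpos h) (mdiff_qh h).continuous
    (IsHolInf.qh h).analyticAt (hasSum_qh_aux h) m
  rw [PowerSeries.coeff_X]
  exact h3.symm

end qExpansion_qh

/-- `f` is holomorphic on `ℍ`, `h`-periodic, and meromorphic at `i∞`. -/
structure IsMerInf (h : ℕ) (f : ℍ → ℂ) : Prop where
  hol : MDiff f
  per : Periodic (f ∘ ofComplex) (h : ℝ)
  bdd : ∃ M : ℕ, IsBoundedAtImInfty (f * qh h ^ M)

/-- The candidate Laurent expansion of `f` computed with pole order bound `M`. -/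
def lau (h : ℕ) (M : ℕ) (f : ℍ → ℂ) : LaurentSeries ℂ :=
  HahnSeries.single (-(M : ℤ)) (1 : ℂ) *
    HahnSeries.ofPowerSeries ℤ ℂ (qExpansion (h : ℝ) (f * qh h ^ M))

namespace IsMerInf

variable {h : ℕ} {f g : ℍ → ℂ}

lemma isHolInf_mul_pow [NeZero h] (hf : IsMerInf h f) {M : ℕ}
    (hM : IsBoundedAtImInfty (f * qh h ^ M)) : IsHolInf h (f * qh h ^ M) :=
  ⟨hf.hol.mul ((mdiff_qh h).pow M), hf.per.mul ((IsHolInf.qh h).pow M).per, hM⟩

lemma of_isHolInf [NeZero h] (hf : IsHolInf h f) : IsMerInf h f :=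
  ⟨hf.hol, hf.per, 0, by simpa using hf.bdd⟩

lemma bdd_succ [NeZero h] {M : ℕ}
    (hM : IsBoundedAtImInfty (f * qh h ^ M)) : IsBoundedAtImInfty (f * qh h ^ (M + 1)) := by
  rw [pow_succ, ← mul_assoc]
  exact hM.mul (isBounded_qh h)

lemma bdd_of_le [NeZero h] {M M' : ℕ} (hle : M ≤ M')
    (hM : IsBoundedAtImInfty (f * qh h ^ M)) : IsBoundedAtImInfty (f * qh h ^ M') := by
  induction M', hle using Nat.le_induction with
  | base => exact hM
  | succ n _ ih => exact bdd_succ ih

lemma lau_succ [NeZero h] (hf : IsMerInf h f) {M : ℕ}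
    (hM : IsBoundedAtImInfty (f * qh h ^ M)) : lau h (M + 1) f = lau h M f := by
  unfold lau
  have h1 : f * qh h ^ (M + 1) = (f * qh h ^ M) * qh h := by rw [pow_succ, mul_assoc]
  rw [h1, (hf.isHolInf_mul_pow hM).qExpansion_mul (IsHolInf.qh h), qExpansion_qh, map_mul,
    HahnSeries.ofPowerSeries_X, mul_comm (HahnSeries.ofPowerSeries ℤ ℂ _), ← mul_assoc,
    HahnSeries.single_mul_single]
  have h2 : (-((M + 1 : ℕ) : ℤ) + 1) = -(M : ℤ) := by push_cast; ring1
  rw [h2, mul_one]

lemma lau_of_le [NeZero h] (hf : IsMerInf h f) {M M' : ℕ} (hle : M ≤ M')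
    (hM : IsBoundedAtImInfty (f * qh h ^ M)) : lau h M' f = lau h M f := by
  induction M', hle using Nat.le_induction with
  | base => rfl
  | succ n hn ih => rw [hf.lau_succ (bdd_of_le hn hM), ih]

lemma lau_eq [NeZero h] (hf : IsMerInf h f) {M M' : ℕ}
    (hM : IsBoundedAtImInfty (f * qh h ^ M)) (hM' : IsBoundedAtImInfty (f * qh h ^ M')) :
    lau h M f = lau h M' f := by
  rcases le_total M M' with hle | hle
  · exact (hf.lau_of_le hle hM).symm
  · exact hf.lau_of_le hle hM'


lemma mul [NeZero h] (hf : IsMerInf h f) (hg : IsMerInf h g) : IsMerInf h (f * g) := by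
  obtain ⟨M, hM⟩ := hf.bdd
  obtain ⟨M', hM'⟩ := hg.bdd
  refine ⟨hf.hol.mul hg.hol, hf.per.mul hg.per, M + M', ?_⟩
  have : f * g * qh h ^ (M + M') = (f * qh h ^ M) * (g * qh h ^ M') := by
    rw [pow_add]; ring1
  rw [this]
  exact hM.mul hM'

lemma add [NeZero h] (hf : IsMerInf h f) (hg : IsMerInf h g) : IsMerInf h (f + g) := by
  obtain ⟨M, hM⟩ := hf.bdd
  obtain ⟨M', hM'⟩ := hg.bdd
  refine ⟨hf.hol.add hg.hol, hf.per.add hg.per, max M M', ?_⟩
  rw [add_mul]
  exact (bdd_of_le (le_max_left _ _) hM).add (bdd_of_le (le_max_right _ _) hM')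

lemma const (h : ℕ) [NeZero h] (c : ℂ) : IsMerInf h (fun _ => c) :=
  of_isHolInf (IsHolInf.const h c)

lemma one (h : ℕ) [NeZero h] : IsMerInf h (1 : ℍ → ℂ) := const h 1

lemma zero (h : ℕ) [NeZero h] : IsMerInf h (0 : ℍ → ℂ) := const h 0

lemma neg [NeZero h] (hf : IsMerInf h f) : IsMerInf h (-f) := by
  have := (const h (-1)).mul hf
  convert this using 1
  ext τ; simp

lemma sub [NeZero h] (hf : IsMerInf h f) (hg : IsMerInf h g) : IsMerInf h (f - g) := by
  rw [sub_eq_add_neg]; exact hf.add hg.neg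

lemma pow [NeZero h] (hf : IsMerInf h f) (n : ℕ) : IsMerInf h (f ^ n) := by
  induction n with
  | zero => simpa using one h
  | succ n ih => rw [pow_succ]; exact ih.mul hf

end IsMerInf

/-- The Laurent `q_h`-expansion of a function (junk value `0` outside `IsMerInf`). -/
def qexpFun (h : ℕ) (f : ℍ → ℂ) : LaurentSeries ℂ := by
  classical
  exact if hf : IsMerInf h f then lau h hf.bdd.choose f else 0

section qexpFun

variable {h : ℕ} [NeZero h] {f g : ℍ → ℂ}

lemma qexpFun_eq_lau (hf : IsMerInf h f) {M : ℕ} (hM : IsBoundedAtImInfty (f * qh h ^ M)) :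
    qexpFun h f = lau h M f := by
  classical
  rw [qexpFun, dif_pos hf]
  exact hf.lau_eq hf.bdd.choose_spec hM

lemma qexpFun_of_isHolInf (hf : IsHolInf h f) :
    qexpFun h f = HahnSeries.ofPowerSeries ℤ ℂ (qExpansion (h : ℝ) f) := by
  have hb : IsBoundedAtImInfty (f * qh h ^ 0) := by simpa using hf.bdd
  rw [qexpFun_eq_lau (IsMerInf.of_isHolInf hf) hb, lau]
  simp

lemma qexpFun_mul (hf : IsMerInf h f) (hg : IsMerInf h g) :
    qexpFun h (f * g) = qexpFun h f * qexpFun h g := by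
  obtain ⟨M, hM⟩ := hf.bdd
  obtain ⟨M', hM'⟩ := hg.bdd
  have hfg : f * g * qh h ^ (M + M') = (f * qh h ^ M) * (g * qh h ^ M') := by
    rw [pow_add]; ring1
  have hb : IsBoundedAtImInfty (f * g * qh h ^ (M + M')) := by
    rw [hfg]; exact hM.mul hM'
  rw [qexpFun_eq_lau (hf.mul hg) hb, qexpFun_eq_lau hf hM, qexpFun_eq_lau hg hM']
  unfold lau
  rw [hfg, (hf.isHolInf_mul_pow hM).qExpansion_mul (hg.isHolInf_mul_pow hM'), map_mul]
  have hs : (HahnSeries.single (-((M + M' : ℕ) : ℤ)) (1 : ℂ) : LaurentSeries ℂ)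
      = HahnSeries.single (-(M : ℤ)) 1 * HahnSeries.single (-(M' : ℤ)) 1 := by
    rw [HahnSeries.single_mul_single, mul_one]
    have h2 : (-((M + M' : ℕ) : ℤ)) = -(M : ℤ) + -(M' : ℤ) := by push_cast; ring1
    rw [h2]
  rw [hs]
  ring1

lemma qexpFun_add (hf : IsMerInf h f) (hg : IsMerInf h g) :
    qexpFun h (f + g) = qexpFun h f + qexpFun h g := by
  obtain ⟨M, hM⟩ := hf.bdd
  obtain ⟨M', hM'⟩ := hg.bdd
  have hM1 := IsMerInf.bdd_of_le (le_max_left M M') hM
  have hM2 := IsMerInf.bdd_of_le (le_max_right M M') hM'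
  have hb : IsBoundedAtImInfty ((f + g) * qh h ^ (max M M')) := by
    rw [add_mul]; exact hM1.add hM2
  rw [qexpFun_eq_lau (hf.add hg) hb, qexpFun_eq_lau hf hM1, qexpFun_eq_lau hg hM2]
  unfold lau
  rw [add_mul, (hf.isHolInf_mul_pow hM1).qExpansion_add (hg.isHolInf_mul_pow hM2), map_add,
    mul_add]

lemma qExpansion_const (h : ℕ) [NeZero h] (c : ℂ) :
    qExpansion (h : ℝ) (fun _ : ℍ => c) = PowerSeries.C c := by
  have h1 : (fun _ : ℍ => c) = c • (1 : ℍ → ℂ) := by
    ext τ; simp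
  rw [h1, UpperHalfPlane.qExpansion_smul (IsHolInf.one h).analyticAt, qExpansion_one]
  ext n
  simp [PowerSeries.coeff_C, PowerSeries.coeff_one]

lemma qexpFun_const (h : ℕ) [NeZero h] (c : ℂ) :
    qexpFun h (fun _ : ℍ => c) = HahnSeries.C c := by
  rw [qexpFun_of_isHolInf (IsHolInf.const h c), qExpansion_const, HahnSeries.ofPowerSeries_C]

lemma qexpFun_eq_zero_iff (hf : IsMerInf h f) : qexpFun h f = 0 ↔ f = 0 := by
  obtain ⟨M, hM⟩ := hf.bdd
  rw [qexpFun_eq_lau hf hM, lau]
  have hne : (HahnSeries.single (-(M : ℤ)) (1 : ℂ) : LaurentSeries ℂ) ≠ 0 := by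
    simp
  rw [mul_eq_zero, or_iff_right hne, map_eq_zero_iff _ HahnSeries.ofPowerSeries_injective,
    (hf.isHolInf_mul_pow hM).qExpansion_eq_zero_iff]
  constructor
  · intro h0
    ext τ
    have := congrFun h0 τ
    simp only [Pi.mul_apply, Pi.zero_apply, mul_eq_zero] at this
    exact this.resolve_right (qh_pow_ne_zero h M τ)
  · rintro rfl; simp

end qexpFun

/-- The algebra of holomorphic `h`-periodic functions on `ℍ`, meromorphic at `i∞`. -/
def merInf (h : ℕ) [NeZero h] : Subalgebra ℂ (ℍ → ℂ) where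
  carrier := {f | IsMerInf h f}
  mul_mem' := fun hf hg => IsMerInf.mul hf hg
  add_mem' := fun hf hg => IsMerInf.add hf hg
  algebraMap_mem' := fun c => IsMerInf.const h c

lemma mem_merInf {h : ℕ} [NeZero h] {f : ℍ → ℂ} : f ∈ merInf h ↔ IsMerInf h f := Iff.rfl

/-- The Laurent expansion in `q_h = exp (2 π i τ / h)` at `i∞`. -/
def qexpInf (h : ℕ) [NeZero h] : merInf h →ₐ[ℂ] LaurentSeries ℂ where
  toFun f := qexpFun h (f : ℍ → ℂ)
  map_one' := by
    show qexpFun h (1 : ℍ → ℂ) = 1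
    have := qexpFun_const h (1 : ℂ)
    rw [show (1 : ℍ → ℂ) = fun _ => (1 : ℂ) from rfl, this]
    simp
  map_mul' f g := qexpFun_mul f.2 g.2
  map_zero' := by
    show qexpFun h (0 : ℍ → ℂ) = 0
    exact (qexpFun_eq_zero_iff (IsMerInf.zero h)).mpr rfl
  map_add' f g := qexpFun_add f.2 g.2
  commutes' c := by
    show qexpFun h (fun _ : ℍ => c) = algebraMap ℂ (LaurentSeries ℂ) c
    rw [qexpFun_const]
    have h1 : algebraMap ℂ (PowerSeries ℂ) c = PowerSeries.C c := by simp
    rw [HahnSeries.algebraMap_apply', h1, HahnSeries.ofPowerSeries_C]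

lemma qexpInf_apply {h : ℕ} [NeZero h] (f : merInf h) : qexpInf h f = qexpFun h (f : ℍ → ℂ) := rfl

lemma qexpInf_injective (h : ℕ) [NeZero h] : Function.Injective (qexpInf h) := by
  rw [injective_iff_map_eq_zero]
  intro f hf
  have := (qexpFun_eq_zero_iff f.2).mp hf
  exact Subtype.ext this


/-! ### Convergence of the Laurent expansion and uniqueness -/

section hasSum

/-- Reindexing a Laurent-type sum over `ℤ` (vanishing below `-M`) as a sum over `ℕ`. -/
lemma hasSum_int_iff_nat (φ : ℤ → ℂ) (M : ℕ) (hφ : ∀ n : ℤ, n < -(M : ℤ) → φ n = 0)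
    (x : ℂ) (hx : x ≠ 0) (s : ℂ) :
    HasSum (fun n : ℤ => φ n * x ^ n) s ↔
      HasSum (fun m : ℕ => φ ((m : ℤ) - M) * x ^ m) (s * x ^ M) := by
  have hinj : Function.Injective (fun m : ℕ => (m : ℤ) - (M : ℤ)) := by
    intro a b hab
    simp only [sub_left_inj] at hab
    exact_mod_cast hab
  have hrange : ∀ n : ℤ, n ∉ Set.range (fun m : ℕ => (m : ℤ) - (M : ℤ)) →
      (fun n : ℤ => φ n * x ^ n) n = 0 := by
    intro n hn
    have hlt : n < -(M : ℤ) := by
      by_contra hge
      rw [not_lt] at hge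
      apply hn
      refine ⟨(n + M).toNat, ?_⟩
      simp only
      rw [Int.toNat_of_nonneg (by omega)]
      ring
    simp [hφ n hlt]
  rw [← hinj.hasSum_iff hrange]
  have hxM : x ^ M ≠ 0 := pow_ne_zero M hx
  rw [← hasSum_mul_right_iff hxM]
  have hfun : (fun i : ℕ => ((fun n : ℤ => φ n * x ^ n) ∘ fun m : ℕ => (m : ℤ) - (M : ℤ)) i * x ^ M)
      = fun m : ℕ => φ ((m : ℤ) - M) * x ^ m := by
    funext m
    simp only [comp_apply]
    rw [zpow_sub₀ hx, zpow_natCast, zpow_natCast]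
    field_simp
  rw [hfun]

variable {h : ℕ} [NeZero h] {f : ℍ → ℂ}

lemma lau_coeff (M : ℕ) (f : ℍ → ℂ) (n : ℤ) :
    (lau h M f).coeff n = (HahnSeries.ofPowerSeries ℤ ℂ
      (qExpansion (h : ℝ) (f * qh h ^ M))).coeff (n + M) := by
  rw [lau, HahnSeries.coeff_single_mul, one_mul, sub_neg_eq_add]

lemma lau_coeff_of_lt (M : ℕ) (f : ℍ → ℂ) {n : ℤ} (hn : n < -(M : ℤ)) :
    (lau h M f).coeff n = 0 := by
  rw [lau_coeff, PowerSeries.coeff_coe, if_pos (by omega)]

lemma lau_coeff_natCast_sub (M : ℕ) (f : ℍ → ℂ) (m : ℕ) :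
    (lau h M f).coeff ((m : ℤ) - M) = (qExpansion (h : ℝ) (f * qh h ^ M)).coeff m := by
  rw [lau_coeff, sub_add_cancel, HahnSeries.ofPowerSeries_apply_coeff]

/-- The Laurent expansion converges to `f` on all of `ℍ`. -/
theorem hasSum_qexpFun (hf : IsMerInf h f) (τ : ℍ) :
    HasSum (fun n : ℤ => (qexpFun h f).coeff n * qh h τ ^ n) (f τ) := by
  obtain ⟨M, hM⟩ := hf.bdd
  rw [qexpFun_eq_lau hf hM,
    hasSum_int_iff_nat _ M (fun n hn => lau_coeff_of_lt M f hn) _ (qh_ne_zero h τ)]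
  have := (hf.isHolInf_mul_pow hM).hasSum τ
  simpa [lau_coeff_natCast_sub] using this

/-- If a Laurent series converges to a holomorphic `f` on all of `ℍ`, then `f` is `h`-periodic
and meromorphic at `i∞`. -/
theorem IsMerInf.of_hasSum (hol : MDiff f) (φ : LaurentSeries ℂ)
    (hs : ∀ τ : ℍ, HasSum (fun n : ℤ => φ.coeff n * qh h τ ^ n) (f τ)) : IsMerInf h f := by
  refine ⟨hol, ?_, ?_⟩
  · intro w
    by_cases hw : 0 < im w
    · have hw' : 0 < im (w + (h : ℝ)) := by simpa using hw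
      have hq : qh h (ofComplex (w + (h : ℝ))) = qh h (ofComplex w) := periodic_qh h w
      have h1 := hs (ofComplex (w + (h : ℝ)))
      rw [hq] at h1
      exact h1.unique (hs (ofComplex w))
    · have hw0 : im w ≤ 0 := not_lt.mp hw
      have hw' : im (w + (h : ℝ)) ≤ 0 := by simpa using hw0
      simp only [comp_apply]
      rw [ofComplex_apply_of_im_nonpos hw', ofComplex_apply_of_im_nonpos hw0]
  · refine ⟨(-φ.order).toNat, ?_⟩
    set M := (-φ.order).toNat with hMdef
    have hφ : ∀ n : ℤ, n < -(M : ℤ) → φ.coeff n = 0 := by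
      intro n hn
      apply HahnSeries.coeff_eq_zero_of_lt_order
      have : -φ.order ≤ (M : ℤ) := by rw [hMdef]; exact Int.self_le_toNat _
      omega
    have hs' : ∀ τ : ℍ, HasSum (fun m : ℕ => φ.coeff ((m : ℤ) - M) •
        Function.Periodic.qParam (h : ℝ) (τ : ℂ) ^ m) ((f * qh h ^ M) τ) := by
      intro τ
      have := (hasSum_int_iff_nat _ M hφ _ (qh_ne_zero h τ) _).mp (hs τ)
      simpa [smul_eq_mul, qh_apply] using this
    exact isBoundedAtImInfty_of_hasSum_qExpansion (hpos h) hs'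

/-- Uniqueness of the Laurent expansion. -/
theorem qexpFun_eq_of_hasSum (hol : MDiff f) (φ : LaurentSeries ℂ)
    (hs : ∀ τ : ℍ, HasSum (fun n : ℤ => φ.coeff n * qh h τ ^ n) (f τ)) : qexpFun h f = φ := by
  have hf := IsMerInf.of_hasSum hol φ hs
  obtain ⟨M₀, hM₀⟩ := hf.bdd
  set M := max M₀ (-φ.order).toNat with hMdef
  have hM : IsBoundedAtImInfty (f * qh h ^ M) := IsMerInf.bdd_of_le (le_max_left _ _) hM₀
  have hφ : ∀ n : ℤ, n < -(M : ℤ) → φ.coeff n = 0 := by
    intro n hn
    apply HahnSeries.coeff_eq_zero_of_lt_order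
    have h1 : -φ.order ≤ ((-φ.order).toNat : ℤ) := Int.self_le_toNat _
    have h2 : ((-φ.order).toNat : ℤ) ≤ (M : ℤ) := by
      exact_mod_cast le_max_right M₀ (-φ.order).toNat
    omega
  have hs' : ∀ τ : ℍ, HasSum (fun m : ℕ => φ.coeff ((m : ℤ) - M) •
      Function.Periodic.qParam (h : ℝ) (τ : ℂ) ^ m) ((f * qh h ^ M) τ) := by
    intro τ
    have := (hasSum_int_iff_nat _ M hφ _ (qh_ne_zero h τ) _).mp (hs τ)
    simpa [smul_eq_mul, qh_apply] using this
  have hco := qExpansion_coeff_unique_fun h (hpos h)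
    (hf.isHolInf_mul_pow hM).hol.continuous (hf.isHolInf_mul_pow hM).analyticAt hs'
  rw [qexpFun_eq_lau hf hM]
  ext n
  by_cases hn : n < -(M : ℤ)
  · rw [lau_coeff_of_lt M f hn, hφ n hn]
  · rw [not_lt] at hn
    obtain ⟨m, rfl⟩ : ∃ m : ℕ, n = (m : ℤ) - M := ⟨(n + M).toNat, by
      rw [Int.toNat_of_nonneg (by omega)]; ring⟩
    rw [lau_coeff_natCast_sub, ← hco m]

end hasSum

/-- `HasQExp h f φ`: `f` is holomorphic on `ℍ`, `h`-periodic, meromorphic at `i∞` and `φ` is its
Laurent expansion in `q_h = exp (2 π i τ / h)`. -/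
def HasQExp (h : ℕ) (f : ℍ → ℂ) (φ : LaurentSeries ℂ) : Prop :=
  IsMerInf h f ∧ qexpFun h f = φ

namespace HasQExp

variable {h : ℕ} [NeZero h] {f g : ℍ → ℂ} {φ ψ : LaurentSeries ℂ}

lemma isMerInf (hf : HasQExp h f φ) : IsMerInf h f := hf.1

lemma qexpFun_eq (hf : HasQExp h f φ) : qexpFun h f = φ := hf.2

lemma mdiff (hf : HasQExp h f φ) : MDiff f := hf.1.hol

lemma of_isMerInf (hf : IsMerInf h f) : HasQExp h f (qexpFun h f) := ⟨hf, rfl⟩

lemma hasSum (hf : HasQExp h f φ) (τ : ℍ) :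
    HasSum (fun n : ℤ => φ.coeff n * qh h τ ^ n) (f τ) := by
  have := hasSum_qexpFun hf.1 τ
  rwa [hf.2] at this

lemma of_hasSum (hol : MDiff f)
    (hs : ∀ τ : ℍ, HasSum (fun n : ℤ => φ.coeff n * qh h τ ^ n) (f τ)) : HasQExp h f φ :=
  ⟨IsMerInf.of_hasSum hol φ hs, qexpFun_eq_of_hasSum hol φ hs⟩

lemma iff_hasSum (hol : MDiff f) :
    HasQExp h f φ ↔ ∀ τ : ℍ, HasSum (fun n : ℤ => φ.coeff n * qh h τ ^ n) (f τ) :=
  ⟨fun hf => hf.hasSum, of_hasSum hol⟩

lemma mul (hf : HasQExp h f φ) (hg : HasQExp h g ψ) : HasQExp h (f * g) (φ * ψ) :=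
  ⟨hf.1.mul hg.1, by rw [qexpFun_mul hf.1 hg.1, hf.2, hg.2]⟩

lemma add (hf : HasQExp h f φ) (hg : HasQExp h g ψ) : HasQExp h (f + g) (φ + ψ) :=
  ⟨hf.1.add hg.1, by rw [qexpFun_add hf.1 hg.1, hf.2, hg.2]⟩

lemma const (h : ℕ) [NeZero h] (c : ℂ) : HasQExp h (fun _ => c) (HahnSeries.C c) :=
  ⟨IsMerInf.const h c, qexpFun_const h c⟩

lemma one (h : ℕ) [NeZero h] : HasQExp h (1 : ℍ → ℂ) 1 := by
  have := const h 1
  rwa [map_one] at this

lemma zero (h : ℕ) [NeZero h] : HasQExp h (0 : ℍ → ℂ) 0 := by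
  have := const h 0
  rwa [map_zero] at this

lemma neg (hf : HasQExp h f φ) : HasQExp h (-f) (-φ) := by
  have := (const h (-1)).mul hf
  have e1 : (fun _ : ℍ => (-1 : ℂ)) * f = -f := by ext τ; simp
  have e2 : (HahnSeries.C (-1 : ℂ) : LaurentSeries ℂ) * φ = -φ := by
    rw [map_neg, map_one, neg_one_mul]
  rwa [e1, e2] at this

lemma sub (hf : HasQExp h f φ) (hg : HasQExp h g ψ) : HasQExp h (f - g) (φ - ψ) := by
  rw [sub_eq_add_neg, sub_eq_add_neg]; exact hf.add hg.neg

lemma pow (hf : HasQExp h f φ) (n : ℕ) : HasQExp h (f ^ n) (φ ^ n) := by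
  induction n with
  | zero => simpa using one h
  | succ n ih => rw [pow_succ, pow_succ]; exact ih.mul hf

/-- The expansion determines the function. -/
lemma eq_of_eq (hf : HasQExp h f φ) (hg : HasQExp h g φ) : f = g := by
  ext τ
  exact (hf.hasSum τ).unique (hg.hasSum τ)

/-- The function determines the expansion. -/
lemma unique (hf : HasQExp h f φ) (hg : HasQExp h f ψ) : φ = ψ := hf.2.symm.trans hg.2

lemma eq_zero_iff (hf : HasQExp h f φ) : φ = 0 ↔ f = 0 := by
  rw [← hf.2]; exact qexpFun_eq_zero_iff hf.1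

lemma qexpInf_eq (hf : HasQExp h f φ) : qexpInf h ⟨f, hf.1⟩ = φ := hf.2

end HasQExp

lemma hasQExp_qh (h : ℕ) [NeZero h] : HasQExp h (qh h) (HahnSeries.single 1 1) := by
  refine ⟨IsMerInf.of_isHolInf (IsHolInf.qh h), ?_⟩
  rw [qexpFun_of_isHolInf (IsHolInf.qh h), qExpansion_qh, HahnSeries.ofPowerSeries_X]

end Fermat.Agent.S24.H708

end
end
-- ===== PACK-END S24/Mod/H708QInf.lean

-- ===== PACK-BEGIN S24/FFBasic.lean
section



/-!
# S24 / FF layer: basic facts on `AlgebraicCurve.Place`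

Embedding-free algebraic core (helper804).
-/

set_option autoImplicit false

namespace Fermat.Agent.S24.FF

open AlgebraicCurve

variable {K F : Type*} [Field K] [Field F] [Algebra K F]

section Basic

variable (v : Place K F)

theorem exists_irreducible_coe :
    ∃ π : v.toValuationSubring, Irreducible π ∧ v.ord (π : F) = 1 := by
  obtain ⟨π, hπ⟩ := IsDiscreteValuationRing.exists_irreducible v.toValuationSubring
  exact ⟨π, hπ, v.ord_coe_irreducible hπ⟩

theorem mem_of_ord_nonneg {f : F} (h : 0 ≤ v.ord f) : f ∈ v.toValuationSubring := by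
  rcases eq_or_ne f 0 with rfl | hf
  · exact zero_mem _
  obtain ⟨π, hπ⟩ := IsDiscreteValuationRing.exists_irreducible v.toValuationSubring
  obtain ⟨u, hu⟩ := v.exists_unit_mul_zpow hf hπ
  rw [hu]
  refine mul_mem (u : v.toValuationSubring).2 ?_
  obtain ⟨n, hn⟩ := Int.eq_ofNat_of_zero_le h
  rw [hn, zpow_natCast]
  exact pow_mem π.2 n

theorem ord_nonneg_of_mem {f : F} (h : f ∈ v.toValuationSubring) : 0 ≤ v.ord f := by
  rcases eq_or_ne f 0 with rfl | hf
  · simp
  by_contra hneg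
  rw [not_le] at hneg
  obtain ⟨π, hπ⟩ := IsDiscreteValuationRing.exists_irreducible v.toValuationSubring
  obtain ⟨u, hu⟩ := v.exists_unit_mul_zpow hf hπ
  have hπF : (π : F) ≠ 0 := by
    simpa [ne_eq, ZeroMemClass.coe_eq_zero] using hπ.ne_zero
  -- `f * π ^ (-ord f) = u`
  obtain ⟨n, hn⟩ := Int.eq_ofNat_of_zero_le (show 0 ≤ -v.ord f - 1 by omega)
  have hord : v.ord f = -((n : ℤ) + 1) := by omega
  have key : f * (π : F) ^ (n + 1) = ((u : v.toValuationSubring) : F) := by
    conv_lhs => rw [hu, hord]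
    rw [zpow_neg, mul_assoc, ← zpow_natCast (π : F) (n + 1)]
    push_cast
    rw [inv_mul_cancel₀ (zpow_ne_zero _ hπF), mul_one]
  have hmem : (⟨f, h⟩ : v.toValuationSubring) * π ^ (n + 1) = (u : v.toValuationSubring) :=
    Subtype.ext (by simpa using key)
  have hunit : IsUnit ((⟨f, h⟩ : v.toValuationSubring) * π ^ (n + 1)) := hmem ▸ u.isUnit
  have := (IsUnit.mul_iff.mp hunit).2
  rw [pow_succ] at this
  exact hπ.not_isUnit (IsUnit.mul_iff.mp this).2

theorem mem_iff_ord_nonneg {f : F} : f ∈ v.toValuationSubring ↔ 0 ≤ v.ord f :=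
  ⟨ord_nonneg_of_mem v, mem_of_ord_nonneg v⟩

theorem ord_algebraMap (a : K) : v.ord (algebraMap K F a) = 0 := by
  rcases eq_or_ne a 0 with rfl | ha
  · simp
  have h1 := ord_nonneg_of_mem v (v.algebraMap_mem' a)
  have h2 := ord_nonneg_of_mem v (v.algebraMap_mem' a⁻¹)
  rw [map_inv₀, v.ord_inv] at h2
  omega

theorem ord_pos_iff_mem_nonunits {f : F} (hf : f ≠ 0) :
    0 < v.ord f ↔ f ∈ v.toValuationSubring.nonunits := by
  rw [ValuationSubring.mem_nonunits_iff_exists_mem_maximalIdeal]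
  constructor
  · intro h
    refine ⟨mem_of_ord_nonneg v h.le, ?_⟩
    rw [IsLocalRing.mem_maximalIdeal, mem_nonunits_iff]
    intro hu
    have := v.ord_coe_unit hu.unit
    simp only [IsUnit.unit_spec] at this
    omega
  · rintro ⟨hmem, hmax⟩
    have h0 := ord_nonneg_of_mem v hmem
    rcases h0.lt_or_eq with h | h
    · exact h
    exfalso
    have hinv : f⁻¹ ∈ v.toValuationSubring := mem_of_ord_nonneg v (by rw [v.ord_inv]; omega)
    rw [IsLocalRing.mem_maximalIdeal, mem_nonunits_iff] at hmax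
    apply hmax
    refine IsUnit.of_mul_eq_one (⟨f⁻¹, hinv⟩ : v.toValuationSubring) (Subtype.ext ?_)
    simp [hf]

theorem ord_add_ge {f g : F} (hfg : f + g ≠ 0) :
    min (v.ord f) (v.ord g) ≤ v.ord (f + g) := by
  rcases eq_or_ne f 0 with rfl | hf
  · simp
  rcases eq_or_ne g 0 with rfl | hg
  · simp
  obtain ⟨π, hπ⟩ := IsDiscreteValuationRing.exists_irreducible v.toValuationSubring
  have hπF : (π : F) ≠ 0 := by
    simpa [ne_eq, ZeroMemClass.coe_eq_zero] using hπ.ne_zero
  set m := min (v.ord f) (v.ord g) with hm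
  have hf' : (π : F) ^ (-m) * f ∈ v.toValuationSubring := by
    apply mem_of_ord_nonneg v
    rw [v.ord_mul (zpow_ne_zero _ hπF) hf, v.ord_zpow, v.ord_coe_irreducible hπ]
    have := min_le_left (v.ord f) (v.ord g)
    omega
  have hg' : (π : F) ^ (-m) * g ∈ v.toValuationSubring := by
    apply mem_of_ord_nonneg v
    rw [v.ord_mul (zpow_ne_zero _ hπF) hg, v.ord_zpow, v.ord_coe_irreducible hπ]
    have := min_le_right (v.ord f) (v.ord g)
    omega
  have hsum := ord_nonneg_of_mem v (add_mem hf' hg')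
  rw [← mul_add, v.ord_mul (zpow_ne_zero _ hπF) hfg, v.ord_zpow, v.ord_coe_irreducible hπ] at hsum
  omega

end Basic

end Fermat.Agent.S24.FF

end
-- ===== PACK-END S24/FFBasic.lean

-- ===== PACK-BEGIN S24/FFPoint.lean
section




/-!
# S24 / FF layer: the point of `P^1` below a place, residue degree one

Embedding-free algebraic core (helper804).
-/

set_option autoImplicit false

namespace Fermat.Agent.S24.FF

open AlgebraicCurve Polynomial IntermediateField

variable {K F : Type*} [Field K] [Field F] [Algebra K F]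

/-- `ord` of a product of a multiset of nonzero elements with `ord = 0` is `0`. -/
theorem ord_multiset_prod_eq_zero (v : Place K F) (s : Multiset F)
    (h : ∀ y ∈ s, y ≠ 0 ∧ v.ord y = 0) : s.prod ≠ 0 ∧ v.ord s.prod = 0 := by
  induction s using Multiset.induction_on with
  | empty => simp
  | cons a s ih =>
    have ha := h a (Multiset.mem_cons_self a s)
    have hs := ih (fun y hy => h y (Multiset.mem_cons_of_mem hy))
    rw [Multiset.prod_cons]
    refine ⟨mul_ne_zero ha.1 hs.1, ?_⟩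
    rw [v.ord_mul ha.1 hs.1, ha.2, hs.2, add_zero]

/-- If `x` is integral at `v` and no `x - a` vanishes at `v`, every nonzero polynomial
expression in `x` is a unit at `v`. -/
theorem ord_aeval_eq_zero [IsAlgClosed K] (v : Place K F) (x : F) (hx : 0 ≤ v.ord x)
    (hno : ∀ a : K, ¬ 0 < v.ord (x - algebraMap K F a)) (p : K[X]) (hp : aeval x p ≠ 0) :
    v.ord (aeval x p) = 0 := by
  have hsplit := IsAlgClosed.splits p
  have hp0 : p ≠ 0 := by
    rintro rfl
    simp at hp
  have hprod := hsplit.eq_prod_roots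
  have hval : aeval x p = algebraMap K F p.leadingCoeff *
      ((p.roots.map fun a => x - algebraMap K F a)).prod := by
    conv_lhs => rw [hprod]
    simp [aeval_def, eval₂_mul, Polynomial.eval₂_multiset_prod, Multiset.map_map, Function.comp_def]
  rw [hval] at hp ⊢
  have hc : algebraMap K F p.leadingCoeff ≠ 0 := left_ne_zero_of_mul hp
  have hr : ((p.roots.map fun a => x - algebraMap K F a)).prod ≠ 0 := right_ne_zero_of_mul hp
  have key := ord_multiset_prod_eq_zero v (p.roots.map fun a => x - algebraMap K F a) (by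
    intro y hy
    obtain ⟨a, -, rfl⟩ := Multiset.mem_map.mp hy
    have hne : x - algebraMap K F a ≠ 0 := by
      intro h0
      apply hr
      rw [Multiset.prod_eq_zero_iff]
      exact h0 ▸ hy
    refine ⟨hne, ?_⟩
    have h1 : 0 ≤ v.ord (x - algebraMap K F a) :=
      ord_nonneg_of_mem v (sub_mem (mem_of_ord_nonneg v hx) (v.algebraMap_mem' a))
    have h2 := hno a
    omega)
  rw [v.ord_mul hc hr, _root_.Fermat.Agent.S24.FF.ord_algebraMap, key.2, add_zero]

/-- **FF4, existence.** If `F` is algebraic over `K(x)` and `x` is integral at the place `v`,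
then `v` lies over a finite point `a` of the `x`-line. -/
theorem exists_ord_sub_pos [IsAlgClosed K] (v : Place K F) (x : F)
    [halg : Algebra.IsAlgebraic K⟮x⟯ F] (hx : 0 ≤ v.ord x) :
    ∃ a : K, 0 < v.ord (x - algebraMap K F a) := by
  by_contra hno
  rw [not_exists] at hno
  apply v.ne_top'
  -- `K(x) ⊆ O_v`
  have hsub : ∀ y ∈ K⟮x⟯, y ∈ v.toValuationSubring := by
    intro y hy
    obtain ⟨r, s, rfl⟩ := (mem_adjoin_simple_iff K y).mp hy
    rcases eq_or_ne (aeval x s) 0 with hs | hs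
    · rw [hs, div_zero]; exact zero_mem _
    rcases eq_or_ne (aeval x r) 0 with hr | hr
    · rw [hr, zero_div]; exact zero_mem _
    apply mem_of_ord_nonneg v
    rw [div_eq_mul_inv, v.ord_mul hr (inv_ne_zero hs), v.ord_inv,
      ord_aeval_eq_zero v x hx hno r hr, ord_aeval_eq_zero v x hx hno s hs]
    simp
  -- hence every element of `F` is integral over `O_v`
  let φ : K⟮x⟯ →+* v.toValuationSubring :=
    { toFun := fun y => ⟨y, hsub y y.2⟩
      map_one' := rfl
      map_mul' := fun _ _ => rfl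
      map_zero' := rfl
      map_add' := fun _ _ => rfl }
  refine SetLike.ext fun f => ⟨fun _ => ValuationSubring.mem_top f, fun _ => ?_⟩
  have hint : IsIntegral K⟮x⟯ f := (halg.isAlgebraic f).isIntegral
  have hint' : IsIntegral v.toValuationSubring f := by
    obtain ⟨p, hpm, hp⟩ := hint
    refine ⟨p.map φ, hpm.map φ, ?_⟩
    rw [← hp, Polynomial.eval₂_map]
    rfl
  obtain ⟨y, hy⟩ := IsIntegrallyClosed.isIntegral_iff.mp hint'
  rw [← hy]
  exact y.2

/-- **FF4, uniqueness.** -/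
theorem ord_sub_pos_unique (v : Place K F) (x : F) {a b : K}
    (ha : 0 < v.ord (x - algebraMap K F a)) (hb : 0 < v.ord (x - algebraMap K F b)) : a = b := by
  by_contra hab
  have hne : algebraMap K F (b - a) ≠ 0 := by
    rw [Ne, map_eq_zero_iff _ (algebraMap K F).injective, sub_eq_zero]
    exact fun h => hab h.symm
  have h0 := _root_.Fermat.Agent.S24.FF.ord_algebraMap v (b - a)
  have hsum : (x - algebraMap K F a) + (-(x - algebraMap K F b)) = algebraMap K F (b - a) := by
    rw [map_sub]; ring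
  have hxa : x - algebraMap K F a ≠ 0 := by
    intro h; rw [h, v.ord_zero] at ha; exact lt_irrefl _ ha
  have hxb : x - algebraMap K F b ≠ 0 := by
    intro h; rw [h, v.ord_zero] at hb; exact lt_irrefl _ hb
  have hneg : v.ord (-(x - algebraMap K F b)) = v.ord (x - algebraMap K F b) := by
    rw [neg_eq_neg_one_mul, v.ord_mul (neg_ne_zero.mpr one_ne_zero) hxb]
    have : v.ord (-1 : F) = 0 := by
      have := _root_.Fermat.Agent.S24.FF.ord_algebraMap v (-1 : K)
      simpa using this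
    rw [this, zero_add]
  have := ord_add_ge v (f := x - algebraMap K F a) (g := -(x - algebraMap K F b))
    (by rw [hsum]; exact hne)
  rw [hsum, h0, hneg] at this
  have := min_le_iff.mp this
  omega

end Fermat.Agent.S24.FF

end
-- ===== PACK-END S24/FFPoint.lean

-- ===== PACK-BEGIN S37/H400/KronFrob.lean
section
/-
S37 / helper400 — piece KRON, part (K0): Frobenius on Laurent series in characteristic `p`.

`f ^ p = V_p (frob f)`, where `V_p = qExpand R p` is `q ↦ q ^ p` and `frob` raises every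
coefficient to the `p`-th power.
-/




set_option autoImplicit false
set_option linter.style.haveILetI false

noncomputable section

open ModularCurve HahnSeries

namespace Fermat.Agent.S37.H400

variable {R : Type*} [CommRing R]

/-- Coefficients of the `p`-th power of a power series in characteristic `p`. -/
theorem powerSeries_coeff_pow_char (p : ℕ) [Fact p.Prime] [CharP R p] (g : PowerSeries R)
    (n : ℕ) :
    PowerSeries.coeff n (g ^ p) = if p ∣ n then (PowerSeries.coeff (n / p) g) ^ p else 0 := by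
  have hp : 0 < p := (Fact.out : p.Prime).pos
  have h1 : PowerSeries.coeff n (g ^ p) =
      PowerSeries.coeff n ((PowerSeries.trunc (n + 1) g : PowerSeries R) ^ p) := by
    rw [← PowerSeries.coeff_coe_trunc_of_lt (Nat.lt_succ_self n) (f := g ^ p),
      ← PowerSeries.trunc_trunc_pow,
      PowerSeries.coeff_coe_trunc_of_lt (Nat.lt_succ_self n)]
  rw [h1, ← Polynomial.coe_pow, Polynomial.coeff_coe, ← Polynomial.map_frobenius_expand,
    Polynomial.coeff_map, Polynomial.coeff_expand hp]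
  split_ifs with h
  · rw [PowerSeries.coeff_trunc, if_pos, frobenius_def]
    exact lt_of_le_of_lt (Nat.div_le_self n p) (Nat.lt_succ_self n)
  · simp

/-- The power-series case of `laurent_pow_char`. -/
theorem ofPowerSeries_pow_char (p : ℕ) [Fact p.Prime] [CharP R p] (g : PowerSeries R) :
    (HahnSeries.ofPowerSeries ℤ R g) ^ p =
      qExpand R p (coeffMap (frobenius R p) (HahnSeries.ofPowerSeries ℤ R g)) := by
  haveI : NeZero p := ⟨(Fact.out : p.Prime).ne_zero⟩
  have hp : 0 < p := (Fact.out : p.Prime).pos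
  have hpz : (0 : ℤ) < (p : ℤ) := by exact_mod_cast hp
  rw [← map_pow]
  ext k
  by_cases hk : (p : ℤ) ∣ k
  · obtain ⟨m, rfl⟩ := hk
    rw [qExpand_coeff_mul, coeffMap_coeff, PowerSeries.coeff_coe, PowerSeries.coeff_coe]
    by_cases hm : m < 0
    · have : (p : ℤ) * m < 0 := by nlinarith
      rw [if_pos this, if_pos hm, map_zero]
    · have hm' : 0 ≤ m := not_lt.mp hm
      have : ¬ (p : ℤ) * m < 0 := by
        have := mul_nonneg hpz.le hm'
        omega
      rw [if_neg this, if_neg hm, powerSeries_coeff_pow_char, frobenius_def]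
      have h1 : ((p : ℤ) * m).natAbs = p * m.natAbs := by
        rw [Int.natAbs_mul, Int.natAbs_natCast]
      rw [h1, if_pos (dvd_mul_right p _), Nat.mul_div_cancel_left _ hp]
  · rw [qExpand_coeff_of_not_dvd p _ hk, PowerSeries.coeff_coe]
    split_ifs with h
    · rfl
    · rw [powerSeries_coeff_pow_char, if_neg]
      intro hd
      apply hk
      have h0 : 0 ≤ k := not_lt.mp h
      have : (k.natAbs : ℤ) = k := Int.natAbs_of_nonneg h0
      rw [← this]
      exact_mod_cast hd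

/-- **(K0)** In characteristic `p`, the `p`-th power of a Laurent series is obtained by
raising the coefficients to the `p`-th power and substituting `q ↦ q ^ p`. -/
theorem laurent_pow_char (p : ℕ) [Fact p.Prime] [CharP R p] (f : LaurentSeries R) :
    haveI : NeZero p := ⟨(Fact.out : p.Prime).ne_zero⟩
    f ^ p = qExpand R p (coeffMap (frobenius R p) f) := by
  haveI : NeZero p := ⟨(Fact.out : p.Prime).ne_zero⟩
  show f ^ p = qExpand R p (coeffMap (frobenius R p) f)
  conv_lhs => rw [← LaurentSeries.single_order_mul_powerSeriesPart f]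
  conv_rhs => rw [← LaurentSeries.single_order_mul_powerSeriesPart f]
  rw [mul_pow, map_mul, map_mul, ofPowerSeries_pow_char, coeffMap_single, qExpand_single,
    HahnSeries.single_pow, map_one, one_pow, nsmul_eq_mul]

end Fermat.Agent.S37.H400

end
end
-- ===== PACK-END S37/H400/KronFrob.lean

-- ===== PACK-BEGIN S24/Mod/H368Lift.lean
section


/-!
# S24 / MOD glue (helper368): lifting a ring hom from polynomial generators to a generated field

`exists_lift`: if `F' = K(s i : i ∈ ι) ⊆ E` and `Φ : MvPolynomial ι K →+* L` has the same kernel as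
evaluation at the generators `s`, then `Φ` induces a ring hom `σ : F' →+* L`.
-/

set_option autoImplicit false

noncomputable section

open MvPolynomial

namespace Fermat.Agent.S24.H368

variable {K E L ι : Type*} [Field K] [Field E] [Algebra K E] [Field L]

/-- The ring hom `Algebra.adjoin K (range s) →+* L` induced by `Φ`, when `ker (aeval s) ≤ ker Φ`. -/
theorem exists_ringHom_adjoin (s : ι → E) (Φ : MvPolynomial ι K →+* L)
    (h : ∀ p, aeval s p = 0 → Φ p = 0) :
    ∃ g : Algebra.adjoin K (Set.range s) →+* L,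
      ∀ (p : MvPolynomial ι K) (x : Algebra.adjoin K (Set.range s)),
        (x : E) = aeval s p → g x = Φ p := by
  classical
  have hrange : Algebra.adjoin K (Set.range s) = (aeval s : MvPolynomial ι K →ₐ[K] E).range :=
    Algebra.adjoin_range_eq_range_aeval K s
  -- a section of `aeval s` on the adjoin
  have hsec : ∀ x : Algebra.adjoin K (Set.range s), ∃ p : MvPolynomial ι K, aeval s p = (x : E) := by
    intro x
    have hx : (x : E) ∈ (aeval s : MvPolynomial ι K →ₐ[K] E).range := hrange ▸ x.2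
    exact hx
  choose sec hsec' using hsec
  have key : ∀ (p : MvPolynomial ι K) (x : Algebra.adjoin K (Set.range s)),
      (x : E) = aeval s p → Φ (sec x) = Φ p := by
    intro p x hx
    have : aeval s (sec x - p) = 0 := by rw [map_sub, hsec', hx, sub_self]
    have := h _ this
    rwa [map_sub, sub_eq_zero] at this
  refine ⟨{ toFun := fun x => Φ (sec x), map_one' := ?_, map_mul' := ?_, map_zero' := ?_,
            map_add' := ?_ }, fun p x hx => key p x hx⟩
  · rw [key 1 1 (by simp), map_one]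
  · intro x y
    rw [key (sec x * sec y) (x * y) (by simp [hsec']), map_mul]
  · rw [key 0 0 (by simp), map_zero]
  · intro x y
    rw [key (sec x + sec y) (x + y) (by simp [hsec']), map_add]

open scoped IntermediateField.algebraAdjoinAdjoin in
/-- **Lift.** If `Φ : MvPolynomial ι K →+* L` has the same kernel as evaluation at `s : ι → E`,
it induces a ring hom from the field `K(s)` to `L`. -/
theorem exists_lift (s : ι → E) (F' : IntermediateField K E)
    (hF : F' = IntermediateField.adjoin K (Set.range s))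
    (Φ : MvPolynomial ι K →+* L) (h : ∀ p, Φ p = 0 ↔ aeval s p = 0) :
    ∃ σ : F' →+* L, ∀ (p : MvPolynomial ι K) (x : F'), (x : E) = aeval s p → σ x = Φ p := by
  subst hF
  obtain ⟨g, hg⟩ := exists_ringHom_adjoin s Φ (fun p hp => (h p).2 hp)
  have hginj : Function.Injective g := by
    rw [injective_iff_map_eq_zero]
    intro x hx
    obtain ⟨p, hp⟩ : ∃ p : MvPolynomial ι K, aeval s p = (x : E) := by
      have hx' : (x : E) ∈ (aeval s : MvPolynomial ι K →ₐ[K] E).range :=
        (Algebra.adjoin_range_eq_range_aeval K s) ▸ x.2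
      exact hx'
    have h1 : Φ p = 0 := by rw [← hg p x hp.symm, hx]
    have h2 := (h p).1 h1
    exact Subtype.ext (by rw [← hp, h2]; rfl)
  refine ⟨IsFractionRing.lift (A := Algebra.adjoin K (Set.range s)) hginj, fun p x hx => ?_⟩
  have hxmem : (x : E) ∈ Algebra.adjoin K (Set.range s) := by
    rw [hx, Algebra.adjoin_range_eq_range_aeval]
    exact ⟨p, rfl⟩
  have hx' : x = algebraMap (Algebra.adjoin K (Set.range s))
      (IntermediateField.adjoin K (Set.range s)) ⟨(x : E), hxmem⟩ := Subtype.ext rfl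
  rw [hx', IsFractionRing.lift_algebraMap]
  exact hg p _ hx

end Fermat.Agent.S24.H368

end
end
-- ===== PACK-END S24/Mod/H368Lift.lean

-- ===== PACK-BEGIN Lib/RR/Defs.lean
section




/-!
# Shared library RR: Riemann's theorem and the Riemann–Roch theorem for function fields

Language: the Prelude's `AlgebraicCurve.Place`, `Divisor`, `riemannRochSpace`, `repartitions`,
`repartitionsOf`, `principalRepartitions`, `H1`, `genusFF`.

Standing hypotheses (`FF1 K F`): every nonzero function has a divisor of degree `0`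
(`HasPrincipalDivisors`), every place has degree one (e.g. `K` algebraically closed and finite
residue fields), there is at least one place, and `F` is finite over `K(x)` for some
transcendental `x`.
-/

set_option autoImplicit false

noncomputable section

open AlgebraicCurve

namespace Fermat.Agent.Lib.RR

variable (K F : Type*) [Field K] [Field F] [Algebra K F]

/-- Standing hypotheses of the RR library: a function field of one variable over `K`, all of whose
places have degree one. -/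
class FF1 : Prop where
  /-- every nonzero function has a divisor, of degree zero -/
  hpd : HasPrincipalDivisors K F
  /-- every place has degree one -/
  deg_eq_one : ∀ v : Place K F, v.deg = 1
  /-- there is a place -/
  nonempty_place : Nonempty (Place K F)
  /-- `F` is a finite extension of a rational function field -/
  exists_finite : ∃ x : F, Transcendental K x ∧
    FiniteDimensional (IntermediateField.adjoin K {x}) F

variable {K F}

/-- `ℓ(D) = dim_K L(D)`. -/
def ell (D : Divisor K F) : ℕ := Module.finrank K (riemannRochSpace D)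

/-- The prime divisor of a place. -/
def prim (v : Place K F) : Divisor K F := Finsupp.single v 1

end Fermat.Agent.Lib.RR

end
end
-- ===== PACK-END Lib/RR/Defs.lean

-- ===== PACK-BEGIN S28/H868/Interface.lean
section




/-!
# S28 (Igusa) -- shared interface between the analytic side and the algebraic core

`ModFunPackage N` is the ONLY thing the decomposition-group core needs from the analytic theory.
Everything is phrased with formal Laurent series in `t = q^{1/N}` with complex coefficients.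
-/

set_option autoImplicit false

noncomputable section

namespace Fermat.Agent.S28

open ModularCurve HahnSeries

theorem coeff_mul_both' {R : Type*} [CommRing R] {x y : LaurentSeries R} {a : ℤ} {s t : Set ℤ}
    (hs : s.IsPWO) (ht : t.IsPWO) (hxs : x.support ⊆ s) (hyt : y.support ⊆ t) :
    (x * y).coeff a =
      ∑ ij ∈ Finset.antidiagonal hs ht a, x.coeff ij.fst * y.coeff ij.snd := by
  rw [HahnSeries.coeff_mul_left' hs hxs]
  refine Finset.sum_subset (Finset.antidiagonal_mono_right hyt) ?_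
  intro ij hij hnot
  have hj : ij.2 ∉ y.support := by
    intro hj
    apply hnot
    rw [Finset.mem_antidiagonal] at hij ⊢
    exact ⟨hij.1, hj, hij.2.2⟩
  simp only [HahnSeries.mem_support, not_not] at hj
  rw [hj, mul_zero]

/-- underlying function of `twist` -/
def twistFun {R : Type*} [CommRing R] (c : Rˣ) (φ : LaurentSeries R) : LaurentSeries R :=
  HahnSeries.ofSuppBddBelow (fun n : ℤ => ((c ^ n : Rˣ) : R) * φ.coeff n)
    ⟨φ.order, fun m hm => by
      by_contra h
      exact hm (by simp [HahnSeries.coeff_eq_zero_of_lt_order (not_le.mp h)])⟩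

@[simp] theorem twistFun_coeff {R : Type*} [CommRing R] (c : Rˣ) (φ : LaurentSeries R) (n : ℤ) :
    (twistFun c φ).coeff n = ((c ^ n : Rˣ) : R) * φ.coeff n := rfl

theorem twistFun_support {R : Type*} [CommRing R] (c : Rˣ) (φ : LaurentSeries R) :
    (twistFun c φ).support ⊆ φ.support := by
  intro m hm
  simp only [HahnSeries.mem_support, twistFun_coeff] at hm ⊢
  intro h0
  exact hm (by rw [h0, mul_zero])

/-- The substitution `t ↦ c t` on Laurent series, for a unit `c`:
`(twist c φ).coeff n = c ^ n * φ.coeff n`. -/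
def twist {R : Type*} [CommRing R] (c : Rˣ) : LaurentSeries R →+* LaurentSeries R where
  toFun := twistFun c
  map_zero' := by ext n; simp
  map_one' := by
    ext n
    by_cases h : n = 0
    · subst h; simp
    · simp [HahnSeries.coeff_one, h]
  map_add' φ ψ := by ext n; simp [mul_add]
  map_mul' φ ψ := by
    ext n
    rw [coeff_mul_both' φ.isPWO_support ψ.isPWO_support (twistFun_support c φ)
      (twistFun_support c ψ)]
    simp only [twistFun_coeff, HahnSeries.coeff_mul, Finset.mul_sum]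
    refine Finset.sum_congr rfl ?_
    intro ij hij
    rw [Finset.mem_antidiagonal] at hij
    rw [← hij.2.2, zpow_add, Units.val_mul]
    ring

@[simp] theorem twist_coeff {R : Type*} [CommRing R] (c : Rˣ) (φ : LaurentSeries R) (n : ℤ) :
    (twist c φ).coeff n = ((c ^ n : Rˣ) : R) * φ.coeff n := rfl

/-- The embedding `ℚ((q)) → ℂ((t))`, `q ↦ t ^ N` (so `t = q^{1/N}`). -/
def iotaN (N : ℕ) [NeZero N] : LaurentSeries ℚ →+* LaurentSeries ℂ :=
  (qExpand ℂ N).comp (coeffMap (algebraMap ℚ ℂ))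

/-- The formal discriminant `Δ = q ∏ (1 - q^n)^24 ∈ ℚ((q))`. -/
def deltaq : LaurentSeries ℚ :=
  HahnSeries.single (1 : ℤ) 1 *
    HahnSeries.ofPowerSeries ℤ ℚ (dedekindEtaUnit.map (Int.castRingHom ℚ))

/-- The formal modular unit `u_d = Δ(q^d) / Δ(q) ∈ ℚ((q))`. -/
def unitq (d : ℕ) [NeZero d] : LaurentSeries ℚ := qExpand ℚ d deltaq / deltaq

open scoped MatrixGroups

/-- **The analytic package.**  A finite family of Laurent series in `t = q^{1/N}` (in practice: the
`j(ζ_δ^b t^{aN/δ})` and `δ^{-12} Δ(ζ_δ^b t^{aN/δ}) / Δ(t^N)`, i.e. the expansions of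
`J((aτ+b)/δ)` and of `δ^{-12} Δ((aτ+b)/δ)/Δ(τ)`), permuted by `SL(2,ℤ)`, such that polynomial
relations are preserved and invariant polynomial expressions are polynomials in `j`. -/
structure ModFunPackage (N : ℕ) [NeZero N] where
  /-- index type of the generators -/
  ι : Type
  fin : Fintype ι
  /-- the generators, as Laurent series in `t = q^{1/N}` -/
  gen : ι → LaurentSeries ℂ
  /-- the (left) action of `SL(2,ℤ)` on the indices -/
  perm : SL(2, ℤ) →* Equiv.Perm ι
  /-- polynomial relations between the generators are preserved by the action -/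
  rel : ∀ (γ : SL(2, ℤ)) (p : MvPolynomial ι ℂ),
    MvPolynomial.aeval gen p = 0 → MvPolynomial.aeval (gen ∘ perm γ) p = 0
  /-- invariant polynomial expressions in the generators are polynomials in `j` -/
  inv : ∀ p : MvPolynomial ι ℂ,
    (∀ γ : SL(2, ℤ), MvPolynomial.aeval (gen ∘ perm γ) p = MvPolynomial.aeval gen p) →
      MvPolynomial.aeval gen p ∈ Algebra.adjoin ℂ {iotaN N jq}
  /-- the coefficients of the generators lie in `ℤ[ζ_N, 1/N]` -/
  coeff_mem : ∀ (i : ι) (n : ℤ), (gen i).coeff n ∈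
    Subring.closure ({Complex.exp (2 * Real.pi * Complex.I / N), (N : ℂ)⁻¹} : Set ℂ)
  /-- the translation `T` acts through `t ↦ c t` for some `N`-th root of unity `c` -/
  twistUnit : ℂˣ
  twistUnit_pow : twistUnit ^ N = 1
  perm_T : ∀ i : ι, gen (perm ModularGroup.T i) = twist twistUnit (gen i)
  /-- the index of `j(q^d)`, `d ∣ N` -/
  idxJ : ∀ (d : ℕ) [NeZero d], d ∣ N → ι
  gen_idxJ : ∀ (d : ℕ) [NeZero d] (hd : d ∣ N), gen (idxJ d hd) = iotaN N (qExpand ℚ d jq)
  fixJ : ∀ (d : ℕ) [NeZero d] (hd : d ∣ N), ∀ γ ∈ CongruenceSubgroup.Gamma0 N,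
    perm γ (idxJ d hd) = idxJ d hd
  /-- the index of the modular unit `u_p = Δ(q^p)/Δ(q)`, `p ∣ N` prime -/
  idxU : ∀ (p : ℕ) [NeZero p], p.Prime → p ∣ N → ι
  gen_idxU : ∀ (p : ℕ) [NeZero p] (hp : p.Prime) (hpN : p ∣ N),
    gen (idxU p hp hpN) = iotaN N (unitq p)
  fixU : ∀ (p : ℕ) [NeZero p] (hp : p.Prime) (hpN : p ∣ N), ∀ γ ∈ CongruenceSubgroup.Gamma0 p,
    perm γ (idxU p hp hpN) = idxU p hp hpN

end Fermat.Agent.S28

end
end
-- ===== PACK-END S28/H868/Interface.lean

-- ===== PACK-BEGIN S29/H152/DescLin.lean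
section
/-
S29 / DESC (helper152) — part 4: linear disjointness of `Ω` and `K((q))` over `K`.

* `descLin μ` : coefficientwise application of a `K`-linear functional `μ : Ω → K`,
  `descLin μ (ι z * y) = z * descLin μ y`.
* `descLin_mem_of_coeffMap_mem` : `x ∈ K((q))` with `ι x ∈ Ω·F₀` lies in `K·F₀`
  (`laurentBaseChange Ω F₀ ∩ K((q)) = laurentBaseChange K F₀`).
* `descLin_exists_preimage` : a series all of whose coefficients lie in `K` comes from `K((q))`.
-/



set_option autoImplicit false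

namespace Fermat.Agent.S29.H152

open ModularCurve

variable {K Ω : Type*} [Field K] [Field Ω] [Algebra K Ω]

/-- Coefficientwise application of a `K`-linear functional. -/
noncomputable def descLin (μ : Ω →ₗ[K] K) (y : LaurentSeries Ω) : LaurentSeries K :=
  y.map μ

@[simp]
theorem descLin_coeff (μ : Ω →ₗ[K] K) (y : LaurentSeries Ω) (k : ℤ) :
    (descLin μ y).coeff k = μ (y.coeff k) := rfl

theorem descLin_add (μ : Ω →ₗ[K] K) (y z : LaurentSeries Ω) :
    descLin μ (y + z) = descLin μ y + descLin μ z := by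
  ext k
  simp

theorem descLin_zero (μ : Ω →ₗ[K] K) : descLin μ (0 : LaurentSeries Ω) = 0 := by
  ext k
  simp

theorem descLin_support_subset (μ : Ω →ₗ[K] K) (y : LaurentSeries Ω) :
    (descLin μ y).support ⊆ y.support := by
  intro k hk
  rw [HahnSeries.mem_support] at hk ⊢
  intro h
  apply hk
  rw [descLin_coeff, h, map_zero]

theorem descLin_coeffMap_support_subset {R S : Type*} [CommRing R] [CommRing S] (φ : R →+* S)
    (z : LaurentSeries R) : (coeffMap φ z).support ⊆ z.support := by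
  intro k hk
  rw [HahnSeries.mem_support] at hk ⊢
  intro h
  apply hk
  rw [coeffMap_coeff, h, map_zero]

/-- `descLin μ` is `K((q))`-linear. -/
theorem descLin_coeffMap_mul (μ : Ω →ₗ[K] K) (z : LaurentSeries K) (y : LaurentSeries Ω) :
    descLin μ (coeffMap (algebraMap K Ω) z * y) = z * descLin μ y := by
  ext n
  rw [descLin_coeff,
    HahnSeries.coeff_mul_left' z.isPWO_support (descLin_coeffMap_support_subset _ z),
    HahnSeries.coeff_mul_right' y.isPWO_support (descLin_support_subset μ y), map_sum]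
  refine Finset.sum_congr rfl fun ij _ => ?_
  rw [coeffMap_coeff, descLin_coeff, ← Algebra.smul_def, map_smul, smul_eq_mul]

/-- Constants. -/
theorem descLin_algebraMap (μ : Ω →ₗ[K] K) (c : Ω) :
    descLin μ (algebraMap Ω (LaurentSeries Ω) c) = algebraMap K (LaurentSeries K) (μ c) := by
  rw [algebraMap_laurentSeries_eq_single, algebraMap_laurentSeries_eq_single]
  ext k
  rw [descLin_coeff]
  rcases eq_or_ne k 0 with rfl | hk
  · simp [HahnSeries.coeff_single_same]
  · simp [HahnSeries.coeff_single_of_ne hk]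

/-- A series whose coefficients all lie in `K` comes from `K((q))`. -/
theorem descLin_exists_preimage (v : LaurentSeries Ω)
    (hv : ∀ k, v.coeff k ∈ Set.range (algebraMap K Ω)) :
    ∃ v' : LaurentSeries K, coeffMap (algebraMap K Ω) v' = v := by
  obtain ⟨μ, hμ⟩ := LinearMap.exists_leftInverse_of_injective (Algebra.linearMap K Ω)
    (LinearMap.ker_eq_bot.mpr (algebraMap K Ω).injective)
  refine ⟨descLin μ v, ?_⟩
  ext k
  rw [coeffMap_coeff, descLin_coeff]
  obtain ⟨c, hc⟩ := hv k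
  rw [← hc]
  congr 1
  exact LinearMap.congr_fun hμ c

section LD

variable [Algebra ℚ K] [Algebra ℚ Ω]

theorem descLin_coeffEmb (y : LaurentSeries ℚ) :
    coeffMap (algebraMap K Ω) (coeffEmb K y) = coeffEmb Ω y := by
  rw [coeffEmb, coeffEmb, coeffMap_coeffMap]
  exact coeffMap_congr (RingHom.ext_rat _ _) y

variable (F₀ : IntermediateField ℚ (LaurentSeries ℚ))

/-- The image of `F₀` in `L((q))` as a submonoid. -/
theorem descLin_closure_image (L : Type*) [Field L] [Algebra ℚ L] :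
    (Submonoid.closure (⇑(coeffEmb L) '' (F₀ : Set (LaurentSeries ℚ))) : Set (LaurentSeries L))
      = ⇑(coeffEmb L) '' (F₀ : Set (LaurentSeries ℚ)) := by
  have : (⇑(coeffEmb L) '' (F₀ : Set (LaurentSeries ℚ)))
      = ((F₀.toSubfield.toSubring.toSubmonoid.map (coeffEmb L : _ →* _) :
          Submonoid (LaurentSeries L)) : Set (LaurentSeries L)) := rfl
  rw [this, Submonoid.closure_eq]

omit [Algebra ℚ K] [Algebra ℚ Ω] in
/-- Multiplying by a constant inside a functional. -/
theorem descLin_algebraMap_mul (μ : Ω →ₗ[K] K) (c : Ω) (x : LaurentSeries Ω) :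
    descLin μ (algebraMap Ω (LaurentSeries Ω) c * x)
      = descLin (μ.comp (LinearMap.mulLeft K c)) x := by
  ext k
  rw [descLin_coeff, descLin_coeff, algebraMap_laurentSeries_eq_single,
    HahnSeries.coeff_single_zero_mul]
  rfl

/-- Every functional maps `Ω[F₀]` into `K[F₀]`. -/
theorem descLin_mem_adjoin (μ : Ω →ₗ[K] K) {a : LaurentSeries Ω}
    (ha : a ∈ Algebra.adjoin Ω (⇑(coeffEmb Ω) '' (F₀ : Set (LaurentSeries ℚ)))) :
    descLin μ a ∈ Algebra.adjoin K (⇑(coeffEmb K) '' (F₀ : Set (LaurentSeries ℚ))) := by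
  have ha' : a ∈ Subalgebra.toSubmodule
      (Algebra.adjoin Ω (⇑(coeffEmb Ω) '' (F₀ : Set (LaurentSeries ℚ)))) := ha
  rw [Algebra.adjoin_eq_span, descLin_closure_image] at ha'
  clear ha
  revert μ
  induction ha' using Submodule.span_induction with
  | mem x hx =>
    intro μ
    obtain ⟨y, hy, rfl⟩ := hx
    have h1 : coeffEmb Ω y = coeffMap (algebraMap K Ω) (coeffEmb K y) * algebraMap Ω _ 1 := by
      rw [map_one, mul_one, descLin_coeffEmb]
    rw [h1, descLin_coeffMap_mul, descLin_algebraMap]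
    exact Subalgebra.mul_mem _ (Algebra.subset_adjoin ⟨y, hy, rfl⟩) (Subalgebra.algebraMap_mem _ _)
  | zero =>
    intro μ
    rw [descLin_zero]
    exact Subalgebra.zero_mem _
  | add x y _ _ hx hy =>
    intro μ
    rw [descLin_add]
    exact Subalgebra.add_mem _ (hx μ) (hy μ)
  | smul c x _ hx =>
    intro μ
    rw [Algebra.smul_def, descLin_algebraMap_mul]
    exact hx _

/-- **Linear disjointness**: `Ω·F₀ ∩ K((q)) = K·F₀`. -/
theorem descLin_mem_of_coeffMap_mem (x : LaurentSeries K)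
    (hx : coeffMap (algebraMap K Ω) x ∈ laurentBaseChange Ω F₀) :
    x ∈ laurentBaseChange K F₀ := by
  rw [laurentBaseChange, IntermediateField.mem_adjoin_iff_div] at hx
  obtain ⟨r, hr, s, hs, hrs⟩ := hx
  by_cases hs0 : s = 0
  · rw [hs0, div_zero] at hrs
    have hx0 : x = 0 := by
      ext k
      have := congrArg (fun y => HahnSeries.coeff y k) hrs
      simp only [coeffMap_coeff, HahnSeries.coeff_zero] at this
      rw [HahnSeries.coeff_zero]
      exact (map_eq_zero (algebraMap K Ω)).mp this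
    rw [hx0]
    exact zero_mem _
  · have hmul : coeffMap (algebraMap K Ω) x * s = r := by
      rw [hrs, div_mul_cancel₀ _ hs0]
    obtain ⟨n₀, hn₀⟩ : ∃ n₀, s.coeff n₀ ≠ 0 := by
      by_contra h
      push Not at h
      exact hs0 (HahnSeries.ext (funext h))
    obtain ⟨μ, hμ⟩ : ∃ μ : Ω →ₗ[K] K, μ (s.coeff n₀) ≠ 0 := by
      by_contra h
      push Not at h
      exact hn₀ ((Module.forall_dual_apply_eq_zero_iff K (s.coeff n₀)).mp h)
    have hΛs : descLin μ s ≠ 0 := by
      intro h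
      apply hμ
      have := congrArg (fun y => HahnSeries.coeff y n₀) h
      simpa using this
    have hrel : x * descLin μ s = descLin μ r := by
      rw [← descLin_coeffMap_mul, hmul]
    have hx' : x = descLin μ r / descLin μ s := by
      rw [← hrel, mul_div_cancel_right₀ _ hΛs]
    rw [hx', laurentBaseChange]
    exact div_mem (IntermediateField.algebra_adjoin_le_adjoin K _ (descLin_mem_adjoin F₀ μ hr))
      (IntermediateField.algebra_adjoin_le_adjoin K _ (descLin_mem_adjoin F₀ μ hs))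

end LD

end Fermat.Agent.S29.H152

end
-- ===== PACK-END S29/H152/DescLin.lean

-- ===== PACK-BEGIN S29/H152/DescStab.lean
section
/-
S29 / DESC (helper152) — part 5: the coefficientwise action of `Aut(Ω/K)` on `Ω((q))`, the
stabiliser of a Kummer class and its finite index.
-/



set_option autoImplicit false

namespace Fermat.Agent.S29.H152

open ModularCurve

variable {K Ω : Type*} [Field K] [Field Ω] [Algebra K Ω]

/-- The coefficientwise action of `σ ∈ Aut(Ω/K)` on Laurent series. -/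
noncomputable def descSig (σ : Ω ≃ₐ[K] Ω) : LaurentSeries Ω →+* LaurentSeries Ω :=
  coeffMap (σ : Ω →+* Ω)

theorem descSig_def (σ : Ω ≃ₐ[K] Ω) (x : LaurentSeries Ω) :
    descSig σ x = coeffMap (σ : Ω →+* Ω) x := rfl

@[simp]
theorem descSig_coeff (σ : Ω ≃ₐ[K] Ω) (x : LaurentSeries Ω) (k : ℤ) :
    (descSig σ x).coeff k = σ (x.coeff k) := rfl

@[simp]
theorem descSig_one (x : LaurentSeries Ω) : descSig (1 : Ω ≃ₐ[K] Ω) x = x := by
  ext k
  simp

theorem descSig_mul (σ τ : Ω ≃ₐ[K] Ω) (x : LaurentSeries Ω) :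
    descSig (σ * τ) x = descSig σ (descSig τ x) := by
  ext k
  simp

@[simp]
theorem descSig_inv_apply (σ : Ω ≃ₐ[K] Ω) (x : LaurentSeries Ω) :
    descSig σ⁻¹ (descSig σ x) = x := by
  rw [← descSig_mul, inv_mul_cancel, descSig_one]

@[simp]
theorem descSig_apply_inv (σ : Ω ≃ₐ[K] Ω) (x : LaurentSeries Ω) :
    descSig σ (descSig σ⁻¹ x) = x := by
  rw [← descSig_mul, mul_inv_cancel, descSig_one]

theorem descSig_injective (σ : Ω ≃ₐ[K] Ω) : Function.Injective (descSig σ) :=
  Function.LeftInverse.injective (descSig_inv_apply σ)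

theorem descSig_algebraMap (σ : Ω ≃ₐ[K] Ω) (c : Ω) :
    descSig σ (algebraMap Ω (LaurentSeries Ω) c) = algebraMap Ω (LaurentSeries Ω) (σ c) :=
  coeffMap_algebraMap _ c

theorem descSig_coeffMap (σ : Ω ≃ₐ[K] Ω) (x : LaurentSeries K) :
    descSig σ (coeffMap (algebraMap K Ω) x) = coeffMap (algebraMap K Ω) x := by
  ext k
  simp

theorem descSig_coeffEmb [Algebra ℚ Ω] (σ : Ω ≃ₐ[K] Ω) (y : LaurentSeries ℚ) :
    descSig σ (coeffEmb Ω y) = coeffEmb Ω y := by
  rw [descSig, coeffEmb, coeffMap_coeffMap]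
  exact coeffMap_congr (RingHom.ext_rat _ _) y

/-- The base-changed field is stable under the coefficientwise action. -/
theorem descSig_mem_laurentBaseChange [Algebra ℚ Ω] (F₀ : IntermediateField ℚ (LaurentSeries ℚ))
    (σ : Ω ≃ₐ[K] Ω) {x : LaurentSeries Ω} (hx : x ∈ laurentBaseChange Ω F₀) :
    descSig σ x ∈ laurentBaseChange Ω F₀ := by
  rw [mem_laurentBaseChange_iff] at hx
  induction hx using Subfield.closure_induction with
  | mem y hy =>
      rcases hy with ⟨a, rfl⟩ | ⟨z, hz, rfl⟩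
      · rw [descSig_algebraMap]
        exact (laurentBaseChange Ω F₀).algebraMap_mem _
      · rw [descSig_coeffEmb]
        exact coeffEmb_mem_laurentBaseChange Ω hz
  | one => simp
  | add x y _ _ hx hy => simpa using add_mem hx hy
  | neg x _ hx => simpa using neg_mem hx
  | inv x _ hx => simpa using inv_mem hx
  | mul x y _ _ hx hy => simpa using mul_mem hx hy

/-! ### The stabiliser of a Kummer class -/

section Stab

variable (F : IntermediateField Ω (LaurentSeries Ω))
  (hF : ∀ (σ : Ω ≃ₐ[K] Ω) (x : LaurentSeries Ω), x ∈ F → descSig σ x ∈ F)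
  (f : LaurentSeries Ω) (p : ℕ)

/-- The stabiliser of the class of `f` modulo `p`-th powers of `F`. -/
def descStab : Subgroup (Ω ≃ₐ[K] Ω) where
  carrier := {σ | ∃ u ∈ F, u ≠ 0 ∧ descSig σ f = f * u ^ p}
  one_mem' := ⟨1, one_mem _, one_ne_zero, by simp⟩
  mul_mem' := by
    rintro σ τ ⟨u, hu, hu0, hσ⟩ ⟨w, hw, hw0, hτ⟩
    refine ⟨u * descSig σ w, mul_mem hu (hF σ w hw),
      mul_ne_zero hu0 ((map_ne_zero_iff _ (descSig_injective σ)).mpr hw0), ?_⟩
    rw [descSig_mul, hτ, map_mul, map_pow, hσ]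
    ring
  inv_mem' := by
    rintro σ ⟨u, hu, hu0, hσ⟩
    have hu' : descSig σ⁻¹ u ≠ 0 := (map_ne_zero_iff _ (descSig_injective σ⁻¹)).mpr hu0
    refine ⟨(descSig σ⁻¹ u)⁻¹, inv_mem (hF σ⁻¹ u hu), inv_ne_zero hu', ?_⟩
    have h1 : descSig σ⁻¹ (descSig σ f) = descSig σ⁻¹ f * descSig σ⁻¹ u ^ p := by
      rw [hσ, map_mul, map_pow]
    rw [descSig_inv_apply] at h1
    conv_rhs => rw [h1]
    rw [inv_pow, mul_assoc, mul_inv_cancel₀ (pow_ne_zero _ hu'), mul_one]

theorem mem_descStab {σ : Ω ≃ₐ[K] Ω} :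
    σ ∈ descStab F hF f p ↔ ∃ u ∈ F, u ≠ 0 ∧ descSig σ f = f * u ^ p := Iff.rfl

/-- If the orbit of the class of `f` is contained in a finite set of classes, the stabiliser has
finite index. -/
theorem descStab_index_ne_zero (T : Set (LaurentSeries Ω)) (hT : T.Finite)
    (horb : ∀ σ : Ω ≃ₐ[K] Ω, ∃ t ∈ T, ∃ u ∈ F, u ≠ 0 ∧ descSig σ f = t * u ^ p) :
    (descStab F hF f p).index ≠ 0 := by
  classical
  have hTfin : Finite T := hT
  choose t ht u hu hu0 hσ using horb
  have key : ∀ σ τ : Ω ≃ₐ[K] Ω, t σ = t τ → τ⁻¹ * σ ∈ descStab F hF f p := by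
    intro σ τ hst
    have huτ : u τ ^ p ≠ 0 := pow_ne_zero _ (hu0 τ)
    -- `σ f = τ f * (u σ / u τ)^p`
    have h1 : descSig σ f = descSig τ f * (u σ / u τ) ^ p := by
      rw [hσ σ, hσ τ, hst, div_pow]
      field_simp
    refine ⟨descSig τ⁻¹ (u σ / u τ), hF _ _ (div_mem (hu σ) (hu τ)),
      (map_ne_zero_iff _ (descSig_injective τ⁻¹)).mpr (div_ne_zero (hu0 σ) (hu0 τ)), ?_⟩
    rw [descSig_mul, h1, map_mul, map_pow, descSig_inv_apply]
  have hinj : Function.Injective
      (fun Q : (Ω ≃ₐ[K] Ω) ⧸ descStab F hF f p => (⟨t Q.out, ht Q.out⟩ : T)) := by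
    intro Q Q' hQ
    have h1 : t Q.out = t Q'.out := congrArg Subtype.val hQ
    have h2 := key Q'.out Q.out h1.symm
    have h3 : (Q.out : (Ω ≃ₐ[K] Ω) ⧸ descStab F hF f p) = Q'.out :=
      QuotientGroup.eq.mpr h2
    rwa [QuotientGroup.out_eq', QuotientGroup.out_eq'] at h3
  have hfin : Finite ((Ω ≃ₐ[K] Ω) ⧸ descStab F hF f p) := Finite.of_injective _ hinj
  exact (Subgroup.finiteIndex_of_finite_quotient (H := descStab F hF f p)).index_ne_zero

end Stab

end Fermat.Agent.S29.H152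

end
-- ===== PACK-END S29/H152/DescStab.lean

-- ===== PACK-BEGIN S20/Comb694/Basic.lean
section






/-!
# Combinatorics on `SL(2,ℤ) ⧸ Gamma0 N` : basic coset criterion, fixed points of `S` and `S * T`.

Left cosets, Mathlib's left-multiplication action (`MulAction.quotient`).
-/

set_option autoImplicit false

namespace Fermat.Agent.S20.Comb694

open Matrix MatrixGroups CongruenceSubgroup

/-- The `(1,0)` entry of `g⁻¹ * g'`. -/
lemma inv_mul_apply_one_zero (g g' : SL(2, ℤ)) :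
    (g⁻¹ * g') 1 0 = g 0 0 * g' 1 0 - g 1 0 * g' 0 0 := by
  rw [Matrix.SpecialLinearGroup.coe_mul, Matrix.SpecialLinearGroup.coe_inv,
    Matrix.adjugate_fin_two, Matrix.mul_apply, Fin.sum_univ_two]
  simp
  ring

/-- Coset criterion: `g Γ₀(N) = g' Γ₀(N)` iff `a c' - c a' ≡ 0 mod N`, where `(a, c)`, `(a', c')`
are the first columns of `g`, `g'`. -/
lemma mk_eq_mk_iff (N : ℕ) (g g' : SL(2, ℤ)) :
    (QuotientGroup.mk g : SL(2, ℤ) ⧸ Gamma0 N) = QuotientGroup.mk g' ↔
      ((g 0 0 : ℤ) : ZMod N) * ((g' 1 0 : ℤ) : ZMod N)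
        - ((g 1 0 : ℤ) : ZMod N) * ((g' 0 0 : ℤ) : ZMod N) = 0 := by
  rw [QuotientGroup.eq, Gamma0_mem, inv_mul_apply_one_zero]
  push_cast
  rfl

/-- Determinant relation in `ZMod N`. -/
lemma det_cast (N : ℕ) (g : SL(2, ℤ)) :
    ((g 0 0 : ℤ) : ZMod N) * ((g 1 1 : ℤ) : ZMod N)
      - ((g 0 1 : ℤ) : ZMod N) * ((g 1 0 : ℤ) : ZMod N) = 1 := by
  have h := g.det_coe
  rw [Matrix.det_fin_two] at h
  have := congrArg (fun z : ℤ => (z : ZMod N)) h
  simpa using this

/-- Fixed-point criterion for a general element `γ`. -/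
lemma smul_mk_eq_mk_iff (N : ℕ) (γ g : SL(2, ℤ)) :
    γ • (QuotientGroup.mk g : SL(2, ℤ) ⧸ Gamma0 N) = QuotientGroup.mk g ↔
      ((g 0 0 : ℤ) : ZMod N) * (((γ * g) 1 0 : ℤ) : ZMod N)
        - ((g 1 0 : ℤ) : ZMod N) * (((γ * g) 0 0 : ℤ) : ZMod N) = 0 := by
  rw [MulAction.Quotient.smul_mk, smul_eq_mul, eq_comm, mk_eq_mk_iff]

lemma S_mul_apply_zero_zero (g : SL(2, ℤ)) : (ModularGroup.S * g) 0 0 = - g 1 0 := by
  rw [Matrix.SpecialLinearGroup.coe_mul, ModularGroup.coe_S, Matrix.mul_apply, Fin.sum_univ_two]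
  simp

lemma S_mul_apply_one_zero (g : SL(2, ℤ)) : (ModularGroup.S * g) 1 0 = g 0 0 := by
  rw [Matrix.SpecialLinearGroup.coe_mul, ModularGroup.coe_S, Matrix.mul_apply, Fin.sum_univ_two]
  simp

lemma coe_S_mul_T : ((ModularGroup.S * ModularGroup.T : SL(2, ℤ)) : Matrix (Fin 2) (Fin 2) ℤ)
    = !![0, -1; 1, 1] := by
  rw [Matrix.SpecialLinearGroup.coe_mul, ModularGroup.coe_S, ModularGroup.coe_T]
  ext i j
  fin_cases i <;> fin_cases j <;> simp [Matrix.mul_apply, Fin.sum_univ_two]

lemma ST_mul_apply_zero_zero (g : SL(2, ℤ)) :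
    (ModularGroup.S * ModularGroup.T * g) 0 0 = - g 1 0 := by
  rw [Matrix.SpecialLinearGroup.coe_mul, coe_S_mul_T, Matrix.mul_apply, Fin.sum_univ_two]
  simp

lemma ST_mul_apply_one_zero (g : SL(2, ℤ)) :
    (ModularGroup.S * ModularGroup.T * g) 1 0 = g 0 0 + g 1 0 := by
  rw [Matrix.SpecialLinearGroup.coe_mul, coe_S_mul_T, Matrix.mul_apply, Fin.sum_univ_two]
  simp

/-- `g Γ₀(N)` is fixed by `S` iff `a² + c² ≡ 0 mod N`. -/
lemma S_smul_mk_eq_mk_iff (N : ℕ) (g : SL(2, ℤ)) :
    ModularGroup.S • (QuotientGroup.mk g : SL(2, ℤ) ⧸ Gamma0 N) = QuotientGroup.mk g ↔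
      ((g 0 0 : ℤ) : ZMod N) ^ 2 + ((g 1 0 : ℤ) : ZMod N) ^ 2 = 0 := by
  rw [smul_mk_eq_mk_iff, S_mul_apply_zero_zero, S_mul_apply_one_zero]
  push_cast
  constructor <;> intro h <;> linear_combination h

/-- `g Γ₀(N)` is fixed by `S * T` iff `a² + a c + c² ≡ 0 mod N`. -/
lemma ST_smul_mk_eq_mk_iff (N : ℕ) (g : SL(2, ℤ)) :
    (ModularGroup.S * ModularGroup.T) • (QuotientGroup.mk g : SL(2, ℤ) ⧸ Gamma0 N)
        = QuotientGroup.mk g ↔
      ((g 0 0 : ℤ) : ZMod N) ^ 2 + ((g 0 0 : ℤ) : ZMod N) * ((g 1 0 : ℤ) : ZMod N)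
        + ((g 1 0 : ℤ) : ZMod N) ^ 2 = 0 := by
  rw [smul_mk_eq_mk_iff, ST_mul_apply_zero_zero, ST_mul_apply_one_zero]
  push_cast
  constructor <;> intro h <;> linear_combination h

/-- The matrix `[[x, -1], [1, 0]]` in `SL(2,ℤ)`. -/
def colRep (x : ℤ) : SL(2, ℤ) := ⟨!![x, -1; 1, 0], by simp [Matrix.det_fin_two]⟩

@[simp] lemma colRep_apply_zero_zero (x : ℤ) : colRep x 0 0 = x := rfl
@[simp] lemma colRep_apply_one_zero (x : ℤ) : colRep x 1 0 = 1 := rfl

/-- If `a² = c * r` in `ZMod N` for the first column `(a, c)` of `g ∈ SL(2,ℤ)`, then `c` has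
an explicit inverse. -/
lemma c_mul_inv_eq_one (N : ℕ) (g : SL(2, ℤ)) (r : ZMod N)
    (h : ((g 0 0 : ℤ) : ZMod N) ^ 2 = ((g 1 0 : ℤ) : ZMod N) * r) :
    ((g 1 0 : ℤ) : ZMod N) *
      (r * ((g 1 1 : ℤ) : ZMod N) ^ 2
        - 2 * ((g 0 0 : ℤ) : ZMod N) * ((g 0 1 : ℤ) : ZMod N) * ((g 1 1 : ℤ) : ZMod N)
        + ((g 0 1 : ℤ) : ZMod N) ^ 2 * ((g 1 0 : ℤ) : ZMod N)) = 1 := by
  have hdet := det_cast N g
  linear_combination (-(((g 1 1 : ℤ) : ZMod N)) ^ 2) * h
    + (((g 0 0 : ℤ) : ZMod N) * ((g 1 1 : ℤ) : ZMod N)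
        - ((g 0 1 : ℤ) : ZMod N) * ((g 1 0 : ℤ) : ZMod N) + 1) * hdet

end Fermat.Agent.S20.Comb694

end
-- ===== PACK-END S20/Comb694/Basic.lean

-- ===== PACK-BEGIN S48/H248/IVBasic.lean
section



/-!
# S48 / RES (Tower A1) / node IGUSA1, piece I-V (helper248) — part 1: the Gauss valuation ring

GENERIC in the field.  `K` a field (`Q̄`), `A` a valuation subring of `K`, `E` a subfield of `K`,
`Ω` a field with a ring hom `ι : Ω →+* K((X))` (`Ω = K((X))`, `ι = id`, or `Ω` a subfield of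
`K((X))`, `ι` the inclusion), `F` a subfield of `Ω`.

* `IsInt A E ι F U`  : `U ∈ A((X))` has coefficients in `E` and is (the expansion of) an element
                        of `F`  (same shape as `S18.Mod.IsIntE`);
* `VSet A E ι F`     : quotients `U₁/U₂` of such series with `U₂ ≢ 0` modulo the maximal ideal of
                        `A`  (same shape as `S18.Mod.VcSet`);
* `VRing`            : `VSet` is a subring;
* `R_le_V`, `w_inv_not_mem_V`, `VSet_mono`.

`inc = coeffMap A.subtype`, `red = coeffMap (residue A)`.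
-/

set_option autoImplicit false

noncomputable section

namespace Fermat.Agent.S48.H248

open HahnSeries ModularCurve

variable {K : Type*} [Field K] (A : ValuationSubring K) (E : Subfield K)
variable {Ω : Type*} [Field Ω] (ι : Ω →+* LaurentSeries K) (F : Subfield Ω)

/-- `A((X)) → K((X))`. -/
abbrev ivInc : LaurentSeries A →+* LaurentSeries K := coeffMap A.subtype

/-- `A((X)) → κ((X))`. -/
abbrev ivRed : LaurentSeries A →+* LaurentSeries (IsLocalRing.ResidueField A) :=
  coeffMap (IsLocalRing.residue A)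

variable {A} in
theorem ivInc_injective : Function.Injective (ivInc A) := by
  intro x y hxy
  ext k
  have := congrArg (fun z => z.coeff k) hxy
  simpa using this

variable {A} in
theorem ivInc_coeff (U : LaurentSeries A) (n : ℤ) : (ivInc A U).coeff n = (U.coeff n : K) := by
  rw [coeffMap_coeff]; rfl

variable {A} in
theorem ivRed_coeff (U : LaurentSeries A) (n : ℤ) :
    (ivRed A U).coeff n = IsLocalRing.residue A (U.coeff n) := by
  rw [coeffMap_coeff]

variable {A} in
/-- A series over `K` with coefficients in `A` comes from `A((X))`. -/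
theorem exists_ivInc_eq {g : LaurentSeries K} (hg : ∀ n, g.coeff n ∈ A) :
    ∃ U : LaurentSeries A, ivInc A U = g := by
  have hsupp : (Function.support fun n => (⟨g.coeff n, hg n⟩ : A)) = g.support := by
    ext n
    simp only [Function.mem_support, HahnSeries.mem_support, ne_eq]
    constructor
    · intro h h0
      exact h (Subtype.ext h0)
    · intro h h0
      exact h (congrArg Subtype.val h0)
  refine ⟨⟨fun n => ⟨g.coeff n, hg n⟩, ?_⟩, ?_⟩
  · rw [hsupp]; exact g.isPWO_support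
  · ext n
    rw [ivInc_coeff]

variable {A} in
theorem ivRed_eq_zero_iff (U : LaurentSeries A) :
    ivRed A U = 0 ↔ ∀ n, U.coeff n ∈ IsLocalRing.maximalIdeal A := by
  constructor
  · intro h n
    have := congrArg (fun z => z.coeff n) h
    simp only [ivRed_coeff, HahnSeries.coeff_zero] at this
    exact (IsLocalRing.residue_eq_zero_iff _).mp this
  · intro h
    ext n
    rw [ivRed_coeff, HahnSeries.coeff_zero]
    exact (IsLocalRing.residue_eq_zero_iff _).mpr (h n)

variable {A} in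
/-- an element of `A` is in the maximal ideal iff it is `0` or its inverse is not in `A`. -/
theorem iv_mem_maximalIdeal_iff (c : A) :
    c ∈ IsLocalRing.maximalIdeal A ↔ (c : K) = 0 ∨ (c : K)⁻¹ ∉ A := by
  rw [IsLocalRing.mem_maximalIdeal, mem_nonunits_iff]
  constructor
  · intro h
    by_contra hcon
    rw [not_or, not_not] at hcon
    apply h
    exact isUnit_iff_exists_inv.mpr ⟨⟨(c : K)⁻¹, hcon.2⟩, Subtype.ext (by
      show (c : K) * (c : K)⁻¹ = 1
      exact mul_inv_cancel₀ hcon.1)⟩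
  · rintro (h | h) hu
    · have : c = 0 := Subtype.ext h
      rw [this] at hu
      exact not_isUnit_zero hu
    · obtain ⟨d, hd⟩ := isUnit_iff_exists_inv.mp hu
      apply h
      have h1 : (c : K) * (d : K) = 1 := congrArg Subtype.val hd
      have : (c : K)⁻¹ = d := inv_eq_of_mul_eq_one_right h1
      rw [this]; exact d.2

variable {A} in
theorem ivRed_ne_zero_imp_ivInc_ne_zero {U : LaurentSeries A} (h : ivRed A U ≠ 0) :
    ivInc A U ≠ 0 := by
  intro h0
  apply h
  have : U = 0 := ivInc_injective (by rw [h0, map_zero])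
  rw [this, map_zero]

theorem ivInc_C (c : A) : ivInc A (HahnSeries.C c) = HahnSeries.C (c : K) := by
  ext n
  rw [ivInc_coeff]
  by_cases hn : n = 0
  · subst hn
    simp [HahnSeries.C_apply]
  · rw [HahnSeries.C_apply, HahnSeries.C_apply, HahnSeries.coeff_single_of_ne hn,
      HahnSeries.coeff_single_of_ne hn]
    rfl

theorem ivRed_C (c : A) : ivRed A (HahnSeries.C c) = HahnSeries.C (IsLocalRing.residue A c) := by
  ext n
  rw [ivRed_coeff]
  by_cases hn : n = 0
  · subst hn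
    simp [HahnSeries.C_apply]
  · rw [HahnSeries.C_apply, HahnSeries.C_apply, HahnSeries.coeff_single_of_ne hn,
      HahnSeries.coeff_single_of_ne hn, map_zero]

/-! ### Integral series -/

/-- `U ∈ A((X))` is `E`-rational and is the expansion of an element of `F`. -/
def IsInt (U : LaurentSeries A) : Prop :=
  (∀ n : ℤ, ((U.coeff n : A) : K) ∈ E) ∧ ∃ f ∈ F, ι f = ivInc A U

variable {A E ι F}

theorem IsInt.mono {F' : Subfield Ω} (hF : F ≤ F') {U : LaurentSeries A}
    (h : IsInt A E ι F U) : IsInt A E ι F' U :=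
  ⟨h.1, let ⟨f, hf, hfU⟩ := h.2; ⟨f, hF hf, hfU⟩⟩

theorem isInt_zero : IsInt A E ι F 0 :=
  ⟨fun n => by simp, 0, zero_mem _, by simp⟩

theorem isInt_one : IsInt A E ι F 1 := by
  refine ⟨fun n => ?_, 1, one_mem _, by simp⟩
  rw [HahnSeries.coeff_one]
  split_ifs
  · exact E.one_mem
  · exact E.zero_mem

theorem IsInt.add {U U' : LaurentSeries A} (h : IsInt A E ι F U) (h' : IsInt A E ι F U') :
    IsInt A E ι F (U + U') := by
  obtain ⟨f, hf, hfU⟩ := h.2
  obtain ⟨f', hf', hfU'⟩ := h'.2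
  refine ⟨fun n => ?_, f + f', add_mem hf hf', by rw [map_add, map_add, hfU, hfU']⟩
  rw [HahnSeries.coeff_add]
  exact E.add_mem (h.1 n) (h'.1 n)

theorem IsInt.neg {U : LaurentSeries A} (h : IsInt A E ι F U) : IsInt A E ι F (-U) := by
  obtain ⟨f, hf, hfU⟩ := h.2
  refine ⟨fun n => ?_, -f, neg_mem hf, by rw [map_neg, map_neg, hfU]⟩
  rw [HahnSeries.coeff_neg]
  exact E.neg_mem (h.1 n)

/-- the coefficients of `ι f` lie in `E` when `ι f = inc U` with `U` integral. -/
theorem IsInt.coeff_mem {U : LaurentSeries A} (h : IsInt A E ι F U) (n : ℤ) :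
    (ivInc A U).coeff n ∈ E := by
  rw [ivInc_coeff]; exact h.1 n

theorem IsInt.mul {U U' : LaurentSeries A} (h : IsInt A E ι F U) (h' : IsInt A E ι F U') :
    IsInt A E ι F (U * U') := by
  obtain ⟨f, hf, hfU⟩ := h.2
  obtain ⟨f', hf', hfU'⟩ := h'.2
  refine ⟨fun n => ?_, f * f', mul_mem hf hf', by rw [map_mul, map_mul, hfU, hfU']⟩
  have hc : ((U * U').coeff n : K) = (ivInc A (U * U')).coeff n := (ivInc_coeff _ n).symm
  rw [hc, map_mul, HahnSeries.coeff_mul]
  refine E.sum_mem fun ij _ => E.mul_mem ?_ ?_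
  · exact h.coeff_mem ij.1
  · exact h'.coeff_mem ij.2

theorem IsInt.pow {U : LaurentSeries A} (h : IsInt A E ι F U) (n : ℕ) :
    IsInt A E ι F (U ^ n) := by
  induction n with
  | zero => rw [pow_zero]; exact isInt_one
  | succ n ih => rw [pow_succ]; exact IsInt.mul ih h

/-- From an element of `F` whose expansion has coefficients in `A ∩ E`. -/
theorem exists_isInt_of_coeff_mem {f : Ω} (hf : f ∈ F) (hA : ∀ n, (ι f).coeff n ∈ A)
    (hE : ∀ n, (ι f).coeff n ∈ E) : ∃ U : LaurentSeries A, IsInt A E ι F U ∧ ι f = ivInc A U := by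
  obtain ⟨U, hU⟩ := exists_ivInc_eq hA
  refine ⟨U, ⟨fun n => ?_, f, hf, hU.symm⟩, hU.symm⟩
  rw [← ivInc_coeff, hU]
  exact hE n

/-! ### Constants -/

section Constants

variable (cst : K →+* Ω) (hcst : ∀ c : K, ι (cst c) = HahnSeries.C c)
  (hEF : ∀ c ∈ E, cst c ∈ F)

include hcst hEF

/-- A constant `c ∈ A ∩ E` as an integral series. -/
theorem isInt_C {c : A} (hc : (c : K) ∈ E) : IsInt A E ι F (HahnSeries.C c) := by
  refine ⟨fun n => ?_, cst (c : K), hEF _ hc, by rw [hcst, ivInc_C]⟩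
  by_cases hn : n = 0
  · subst hn
    simpa [HahnSeries.C_apply] using hc
  · rw [HahnSeries.C_apply, HahnSeries.coeff_single_of_ne hn]
    exact E.zero_mem

end Constants

/-! ### The Gauss valuation ring -/

variable (A E ι F) in
/-- The Gauss valuation ring of `F`, as a set (same shape as `S18.Mod.VcSet`). -/
def VSet : Set Ω :=
  {f | f ∈ F ∧ ∃ U₁ U₂ : LaurentSeries A, IsInt A E ι F U₁ ∧ IsInt A E ι F U₂ ∧
    ivRed A U₂ ≠ 0 ∧ ι f * ivInc A U₂ = ivInc A U₁}

theorem mem_VSet_iff {f : Ω} :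
    f ∈ VSet A E ι F ↔ f ∈ F ∧ ∃ U₁ U₂ : LaurentSeries A, IsInt A E ι F U₁ ∧
      IsInt A E ι F U₂ ∧ ivRed A U₂ ≠ 0 ∧ ι f * ivInc A U₂ = ivInc A U₁ := Iff.rfl

/-- An integral series defines an element of `V`. -/
theorem mem_VSet_of_isInt {f : Ω} {U : LaurentSeries A} (hU : IsInt A E ι F U)
    (hf : ι f = ivInc A U) : f ∈ VSet A E ι F := by
  obtain ⟨g, hg, hgU⟩ := hU.2
  have hfg : f = g := ι.injective (by rw [hf, hgU])
  refine ⟨hfg ▸ hg, U, 1, hU, isInt_one, ?_, ?_⟩
  · rw [map_one]; exact one_ne_zero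
  · rw [map_one, mul_one, hf]

variable (A E ι F) in
/-- The Gauss valuation ring `V` of `F`, as a subring of `Ω`. -/
def VRing : Subring Ω where
  carrier := VSet A E ι F
  zero_mem' := mem_VSet_of_isInt isInt_zero (by simp)
  one_mem' := mem_VSet_of_isInt isInt_one (by simp)
  add_mem' := by
    rintro f g ⟨hf, U₁, U₂, h₁, h₂, hr, hfU⟩ ⟨hg, W₁, W₂, k₁, k₂, kr, hgW⟩
    refine ⟨add_mem hf hg, U₁ * W₂ + W₁ * U₂, U₂ * W₂,
      IsInt.add (IsInt.mul h₁ k₂) (IsInt.mul k₁ h₂), IsInt.mul h₂ k₂, ?_, ?_⟩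
    · rw [map_mul]; exact mul_ne_zero hr kr
    · rw [map_add, map_mul, map_add, map_mul, map_mul, ← hfU, ← hgW]
      ring
  mul_mem' := by
    rintro f g ⟨hf, U₁, U₂, h₁, h₂, hr, hfU⟩ ⟨hg, W₁, W₂, k₁, k₂, kr, hgW⟩
    refine ⟨mul_mem hf hg, U₁ * W₁, U₂ * W₂, IsInt.mul h₁ k₁, IsInt.mul h₂ k₂, ?_, ?_⟩
    · rw [map_mul]; exact mul_ne_zero hr kr
    · rw [map_mul, map_mul, map_mul, ← hfU, ← hgW]
      ring
  neg_mem' := by
    rintro f ⟨hf, U₁, U₂, h₁, h₂, hr, hfU⟩
    refine ⟨neg_mem hf, -U₁, U₂, IsInt.neg h₁, h₂, hr, ?_⟩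
    rw [map_neg, map_neg, ← hfU]
    ring

variable (A E ι F) in
theorem coe_VRing : (VRing A E ι F : Set Ω) = VSet A E ι F := rfl

theorem mem_VRing_iff {f : Ω} : f ∈ VRing A E ι F ↔ f ∈ VSet A E ι F := Iff.rfl

variable (A E ι F) in
/-- field `V_le` of `GoodModel`. -/
theorem VRing_le : (VRing A E ι F : Set Ω) ⊆ F := fun _ hf => hf.1

/-- `V` is monotone in the field. -/
theorem VRing_mono {F' : Subfield Ω} (hF : F ≤ F') : VRing A E ι F ≤ VRing A E ι F' := by
  rintro f ⟨hf, U₁, U₂, h₁, h₂, hr, hfU⟩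
  exact ⟨hF hf, U₁, U₂, h₁.mono hF, h₂.mono hF, hr, hfU⟩

section Constants

variable (cst : K →+* Ω) (hcst : ∀ c : K, ι (cst c) = HahnSeries.C c)
  (hEF : ∀ c ∈ E, cst c ∈ F)

variable (A E) in
/-- The constants from `A ∩ E`, as a subring of `Ω`. -/
def RcG : Subring Ω := (A.toSubring ⊓ E.toSubring).map cst

variable (E) in
/-- The constants from `E`, as a subfield of `Ω`. -/
def EcG : Subfield Ω := E.map cst

theorem mem_RcG_iff {y : Ω} : y ∈ RcG A E cst ↔ ∃ c : K, c ∈ A ∧ c ∈ E ∧ cst c = y := by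
  unfold RcG
  rw [Subring.mem_map]
  constructor
  · rintro ⟨c, ⟨hA, hE⟩, rfl⟩
    exact ⟨c, hA, hE, rfl⟩
  · rintro ⟨c, hA, hE, rfl⟩
    exact ⟨c, ⟨hA, hE⟩, rfl⟩

theorem mem_EcG_iff {y : Ω} : y ∈ EcG E cst ↔ ∃ c : K, c ∈ E ∧ cst c = y := by
  unfold EcG
  rw [Subfield.mem_map]

theorem RcG_le_EcG : ∀ r ∈ RcG A E cst, r ∈ EcG E cst := by
  intro r hr
  obtain ⟨c, -, hE, rfl⟩ := (mem_RcG_iff cst).mp hr
  exact (mem_EcG_iff cst).mpr ⟨c, hE, rfl⟩

include hcst hEF in
/-- field `R_le_V`. -/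
theorem RcG_le_VRing : RcG A E cst ≤ VRing A E ι F := by
  intro r hr
  obtain ⟨c, hcA, hcE, rfl⟩ := (mem_RcG_iff cst).mp hr
  refine mem_VSet_of_isInt (U := HahnSeries.C (⟨c, hcA⟩ : A)) (isInt_C cst hcst hEF hcE) ?_
  rw [hcst, ivInc_C]

include hcst in
/-- field `w_inv_not_mem_V`: a non-unit `w₀ ≠ 0` of `A` is not invertible in `V`. -/
theorem w_inv_not_mem_VRing {w₀ : K} (hw0 : w₀ ≠ 0) (hwn : w₀⁻¹ ∉ A) :
    (cst w₀)⁻¹ ∉ VRing A E ι F := by
  rintro ⟨-, U₁, U₂, -, -, hr, hU⟩
  apply hr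
  rw [ivRed_eq_zero_iff]
  intro n
  rw [iv_mem_maximalIdeal_iff]
  have hval : ι ((cst w₀)⁻¹) = HahnSeries.C (w₀⁻¹) := by
    rw [← map_inv₀, hcst]
  rw [hval] at hU
  have hn := congrArg (fun z => z.coeff n) hU
  simp only [HahnSeries.C_mul_eq_smul, HahnSeries.coeff_smul, ivInc_coeff, smul_eq_mul] at hn
  by_cases h0 : ((U₂.coeff n : A) : K) = 0
  · exact Or.inl h0
  · right
    intro hinv
    apply hwn
    have : w₀⁻¹ = (U₁.coeff n : K) * ((U₂.coeff n : A) : K)⁻¹ := by
      rw [← hn]; field_simp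
    rw [this]
    exact A.mul_mem _ _ (U₁.coeff n).2 hinv

end Constants

end Fermat.Agent.S48.H248

end
end
-- ===== PACK-END S48/H248/IVBasic.lean

-- ===== PACK-BEGIN S28/H145/PowIndep.lean
section



/-!
# Leaf [L.I] of the S28 plan

If `x` is a Laurent series whose order is prime to `p`, then `1, x, …, x^(p-1)` are linearly
independent over (any subring of) the range of `V_p = qExpand k p`.
-/

set_option autoImplicit false

noncomputable section

open ModularCurve HahnSeries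

namespace Fermat.Agent.S28.H145

variable {k : Type*} [Field k]

/-- A finite sum of nonzero Laurent series with pairwise distinct orders is nonzero. -/
theorem sum_ne_zero_of_injOn_order {ι : Type*} (s : Finset ι) (t : ι → LaurentSeries k)
    (hs : s.Nonempty) (h0 : ∀ i ∈ s, t i ≠ 0)
    (hinj : Set.InjOn (fun i => (t i).order) (s : Set ι)) : ∑ i ∈ s, t i ≠ 0 := by
  classical
  obtain ⟨i₀, hi₀, hmin⟩ := Finset.exists_min_image s (fun i => (t i).order) hs
  intro hsum
  have hc : (∑ i ∈ s, t i).coeff (t i₀).order = (t i₀).coeff (t i₀).order := by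
    rw [HahnSeries.coeff_sum]
    refine Finset.sum_eq_single_of_mem i₀ hi₀ ?_
    intro i hi hne
    refine HahnSeries.coeff_eq_zero_of_lt_order ?_
    refine lt_of_le_of_ne (hmin i hi) ?_
    intro h
    exact hne (hinj hi hi₀ h.symm)
  rw [hsum] at hc
  exact h0 i₀ hi₀ (HahnSeries.coeff_order_eq_zero.mp hc.symm)

/-- The order of a nonzero element of the range of `qExpand k p` is divisible by `p`. -/
theorem dvd_order_qExpand (p : ℕ) [NeZero p] (z : LaurentSeries k) :
    (p : ℤ) ∣ (qExpand k p z).order := by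
  by_cases hz : qExpand k p z = 0
  · rw [hz, HahnSeries.order_zero]; exact dvd_zero _
  · by_contra h
    exact hz (HahnSeries.coeff_order_eq_zero.mp (qExpand_coeff_of_not_dvd p z h))

/-- **[L.I], core form.** If `p ∤ ord x`... more precisely if `ord x` is prime to `p`, a relation
`∑_{i<p} V_p(c i) * x^i = 0` forces all `c i = 0`. -/
theorem eq_zero_of_sum_qExpand_mul_pow_eq_zero (p : ℕ) [NeZero p] (x : LaurentSeries k)
    (hx : x ≠ 0) (hord : IsCoprime x.order (p : ℤ)) (c : Fin p → LaurentSeries k)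
    (h : ∑ i : Fin p, qExpand k p (c i) * x ^ (i : ℕ) = 0) : ∀ i, c i = 0 := by
  classical
  by_contra hne
  push Not at hne
  set s : Finset (Fin p) := Finset.univ.filter (fun i => c i ≠ 0) with hs
  have hsne : s.Nonempty := by
    obtain ⟨i, hi⟩ := hne
    exact ⟨i, by simp [hs, hi]⟩
  have hterm : ∀ i ∈ s, qExpand k p (c i) * x ^ (i : ℕ) ≠ 0 := by
    intro i hi
    have hci : c i ≠ 0 := by simpa [hs] using hi
    exact mul_ne_zero (fun h0 => hci (qExpand_injective p (by rw [h0, map_zero])))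
      (pow_ne_zero _ hx)
  have hordterm : ∀ i ∈ s, (qExpand k p (c i) * x ^ (i : ℕ)).order =
      (qExpand k p (c i)).order + (i : ℕ) * x.order := by
    intro i hi
    have hci : c i ≠ 0 := by simpa [hs] using hi
    have h1 : qExpand k p (c i) ≠ 0 := fun h0 => hci (qExpand_injective p (by rw [h0, map_zero]))
    rw [HahnSeries.order_mul h1 (pow_ne_zero _ hx), HahnSeries.order_pow, nsmul_eq_mul]
  have hsum : ∑ i ∈ s, qExpand k p (c i) * x ^ (i : ℕ) = 0 := by
    rw [← h]
    refine Finset.sum_subset (Finset.subset_univ _) ?_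
    intro i _ hi
    have hci : c i = 0 := by simpa [hs] using hi
    rw [hci, map_zero, zero_mul]
  refine sum_ne_zero_of_injOn_order s _ hsne hterm ?_ hsum
  intro i hi j hj hij
  simp only at hij
  rw [hordterm i hi, hordterm j hj] at hij
  -- reduce modulo `p`
  obtain ⟨a, ha⟩ := dvd_order_qExpand p (c i)
  obtain ⟨b, hb⟩ := dvd_order_qExpand p (c j)
  rw [ha, hb] at hij
  have hdvd : (p : ℤ) ∣ ((i : ℕ) - (j : ℕ) : ℤ) * x.order := ⟨b - a, by linear_combination hij⟩
  have hdvd' : (p : ℤ) ∣ ((i : ℕ) : ℤ) - (j : ℕ) := hord.symm.dvd_of_dvd_mul_right hdvd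
  have hi' : ((i : ℕ) : ℤ) < p := by exact_mod_cast i.2
  have hj' : ((j : ℕ) : ℤ) < p := by exact_mod_cast j.2
  have hi0 : (0 : ℤ) ≤ ((i : ℕ) : ℤ) := Int.natCast_nonneg _
  have hj0 : (0 : ℤ) ≤ ((j : ℕ) : ℤ) := Int.natCast_nonneg _
  have : ((i : ℕ) : ℤ) - (j : ℕ) = 0 := by
    apply Int.eq_zero_of_abs_lt_dvd hdvd'
    rw [abs_lt]
    constructor <;> linarith
  exact Fin.ext (by exact_mod_cast sub_eq_zero.mp this)

/-- **[L.I].** If `B` is a subfield of `k((q))` contained in the range of `V_p` and `ord x` is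
prime to `p`, then `1, x, …, x^(p-1)` are linearly independent over `B`. -/
theorem linearIndependent_pow_of_le_range (p : ℕ) [NeZero p] (B : Subfield (LaurentSeries k))
    (hB : ∀ b ∈ B, b ∈ (qExpand k p).range) (x : LaurentSeries k)
    (hx : x ≠ 0) (hord : IsCoprime x.order (p : ℤ)) :
    LinearIndependent B (fun i : Fin p => x ^ (i : ℕ)) := by
  rw [Fintype.linearIndependent_iff]
  intro g hg i
  choose c hc using fun i => hB (g i) (g i).2
  have h : ∑ i : Fin p, qExpand k p (c i) * x ^ (i : ℕ) = 0 := by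
    rw [← hg]
    refine Finset.sum_congr rfl fun i _ => ?_
    rw [hc i]
    rfl
  have := eq_zero_of_sum_qExpand_mul_pow_eq_zero p x hx hord c h i
  apply Subtype.ext
  rw [← hc i, this, map_zero]
  rfl

/-- Polynomial form of [L.I]: a polynomial of degree `< p` with coefficients in the range of
`V_p` that kills `x` (with `ord x` prime to `p`) is zero. -/
theorem eq_zero_of_eval_eq_zero_of_natDegree_lt (p : ℕ) [NeZero p] (x : LaurentSeries k)
    (hx : x ≠ 0) (hord : IsCoprime x.order (p : ℤ)) (f : Polynomial (LaurentSeries k))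
    (hf : ∀ n, f.coeff n ∈ (qExpand k p).range) (hdeg : f.natDegree < p)
    (h : f.eval x = 0) : f = 0 := by
  choose c hc using hf
  have hsum : ∑ i : Fin p, qExpand k p (c i) * x ^ (i : ℕ) = 0 := by
    rw [← h, Polynomial.eval_eq_sum_range' hdeg, ← Fin.sum_univ_eq_sum_range
      (fun i => f.coeff i * x ^ i) p]
    refine Finset.sum_congr rfl fun i _ => ?_
    rw [hc]
  have hall := eq_zero_of_sum_qExpand_mul_pow_eq_zero p x hx hord (fun i => c i) hsum
  ext n
  by_cases hn : n < p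
  · have := hall ⟨n, hn⟩
    simp only at this
    rw [← hc n, this, map_zero, Polynomial.coeff_zero]
  · rw [Polynomial.coeff_eq_zero_of_natDegree_lt (lt_of_lt_of_le hdeg (not_lt.mp hn)),
      Polynomial.coeff_zero]

end Fermat.Agent.S28.H145

end

end
-- ===== PACK-END S28/H145/PowIndep.lean

-- ===== PACK-BEGIN S28/H807/Section.lean
section
/-
S28 / helper807 — formal `p`-sections of Laurent series and the section matrix.

For `f ∈ R((T))` and `p ≥ 1`, the *section matrix* `secMat p f ∈ Mat_p(R((q)))` is the matrix of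
multiplication by `f` on `R((T))`, seen as a free module over `R((T^p)) = V_p(R((q)))` with
basis `1, T, …, T^{p-1}`.  Main result (`secMat_charpoly_eval`): the characteristic polynomial
of `secMat p f`, with coefficients pushed along `V_p = qExpand p`, kills `f`.
-/




set_option autoImplicit false

noncomputable section

open ModularCurve HahnSeries Polynomial Matrix

namespace Fermat.Agent.S28.H807

variable {R : Type*} [CommRing R]

/-- The `r`-th `p`-section `∑ₘ f_{pm+r} qᵐ` of a Laurent series `f`. -/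
def secL (p : ℕ) [NeZero p] (r : ℤ) (f : LaurentSeries R) : LaurentSeries R :=
  HahnSeries.ofSuppBddBelow (fun m : ℤ => f.coeff ((p : ℤ) * m + r))
    (HahnSeries.forallLTEqZero_supp_BddBelow _ ((f.order - r) / (p : ℤ)) (by
      intro m hm
      apply HahnSeries.coeff_eq_zero_of_lt_order
      have hp : (0 : ℤ) < (p : ℤ) := by exact_mod_cast Nat.pos_of_ne_zero (NeZero.ne p)
      have h1 : m + 1 ≤ (f.order - r) / (p : ℤ) := hm
      have h2 : (m + 1) * (p : ℤ) ≤ f.order - r := (Int.le_ediv_iff_mul_le hp).mp h1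
      nlinarith))

@[simp]
theorem secL_coeff (p : ℕ) [NeZero p] (r : ℤ) (f : LaurentSeries R) (m : ℤ) :
    (secL p r f).coeff m = f.coeff ((p : ℤ) * m + r) := by
  simp [secL]

theorem secL_coeffMap {S : Type*} [CommRing S] (φ : R →+* S) (p : ℕ) [NeZero p] (r : ℤ)
    (f : LaurentSeries R) : secL p r (coeffMap φ f) = coeffMap φ (secL p r f) := by
  ext m
  simp

/-- The section matrix of `f`: entry `(i', i)` is the `(i' - i)`-th section. -/
def secMat (p : ℕ) [NeZero p] (f : LaurentSeries R) :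
    Matrix (Fin p) (Fin p) (LaurentSeries R) :=
  fun i' i => secL p ((i' : ℤ) - (i : ℤ)) f

theorem secMat_apply (p : ℕ) [NeZero p] (f : LaurentSeries R) (i' i : Fin p) :
    secMat p f i' i = secL p ((i' : ℤ) - (i : ℤ)) f := rfl

theorem secMat_coeffMap {S : Type*} [CommRing S] (φ : R →+* S) (p : ℕ) [NeZero p]
    (f : LaurentSeries R) :
    secMat p (coeffMap φ f) = (secMat p f).map (coeffMap φ) := by
  ext i' i : 2
  simp [secMat_apply, Matrix.map_apply, secL_coeffMap]

/-- Key identity: `f · Tⁱ = ∑_{i'} V_p(M_{i',i}) · T^{i'}`. -/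
theorem mul_single_eq_sum_secMat (p : ℕ) [NeZero p] (f : LaurentSeries R) (i : Fin p) :
    f * HahnSeries.single ((i : ℕ) : ℤ) (1 : R) =
      ∑ i' : Fin p, qExpand R p (secMat p f i' i) * HahnSeries.single ((i' : ℕ) : ℤ) (1 : R) := by
  have hp : (0 : ℤ) < (p : ℤ) := by exact_mod_cast Nat.pos_of_ne_zero (NeZero.ne p)
  ext n
  rw [HahnSeries.coeff_mul_single, mul_one, HahnSeries.coeff_sum]
  -- the unique index i' with p ∣ n - i'
  have hlt : (n % (p : ℤ)).toNat < p := by
    have h1 : n % (p : ℤ) < p := Int.emod_lt_of_pos n hp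
    have h0 : 0 ≤ n % (p : ℤ) := Int.emod_nonneg n hp.ne'
    omega
  set i0 : Fin p := ⟨(n % (p : ℤ)).toNat, hlt⟩ with hi0
  have hi0v : ((i0 : ℕ) : ℤ) = n % (p : ℤ) := by
    simp only [hi0]
    exact Int.toNat_of_nonneg (Int.emod_nonneg n hp.ne')
  rw [Finset.sum_eq_single i0]
  · rw [HahnSeries.coeff_mul_single, mul_one]
    have hdvd : n - ((i0 : ℕ) : ℤ) = (p : ℤ) * (n / (p : ℤ)) := by
      rw [hi0v]; have := Int.emod_add_mul_ediv n (p : ℤ); linarith
    rw [hdvd, qExpand_coeff_mul, secMat_apply, secL_coeff]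
    congr 1
    rw [← hdvd]; ring
  · intro i' _ hne
    rw [HahnSeries.coeff_mul_single, mul_one]
    apply qExpand_coeff_of_not_dvd
    intro hdvd
    apply hne
    apply Fin.ext
    have h1 : n % (p : ℤ) = ((i' : ℕ) : ℤ) % (p : ℤ) := by
      have := (Int.emod_emod_of_dvd n (dvd_refl (p : ℤ)))
      exact (Int.emod_eq_emod_iff_emod_sub_eq_zero).mpr (Int.emod_eq_zero_of_dvd hdvd)
    have h2 : ((i' : ℕ) : ℤ) % (p : ℤ) = ((i' : ℕ) : ℤ) :=
      Int.emod_eq_of_lt (by positivity) (by exact_mod_cast i'.2)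
    have h3 : ((i0 : ℕ) : ℤ) = ((i' : ℕ) : ℤ) := by rw [hi0v, h1, h2]
    exact_mod_cast h3.symm
  · intro h; exact absurd (Finset.mem_univ _) h

/-- **Lemma F1** (Cayley–Hamilton for the section matrix): the characteristic polynomial of
`secMat p f`, with coefficients pushed along `V_p`, kills `f`. -/
theorem secMat_charpoly_eval (p : ℕ) [NeZero p] (f : LaurentSeries R) :
    (((secMat p f).charpoly).map (qExpand R p)).eval f = 0 := by
  set A : Matrix (Fin p) (Fin p) (LaurentSeries R) := (secMat p f).map (qExpand R p) with hA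
  set v : Fin p → LaurentSeries R := fun i => HahnSeries.single ((i : ℕ) : ℤ) (1 : R) with hv
  set B : Matrix (Fin p) (Fin p) (LaurentSeries R) := Matrix.scalar (Fin p) f - Aᵀ with hB
  have hBv : B *ᵥ v = 0 := by
    funext i
    simp only [hB, Matrix.sub_mulVec, Pi.sub_apply, Pi.zero_apply]
    rw [sub_eq_zero]
    have h1 : (Matrix.scalar (Fin p) f *ᵥ v) i = f * v i := by
      simp [Matrix.scalar_apply, Matrix.mulVec, dotProduct, Matrix.diagonal_apply]
    rw [h1]
    simp only [Matrix.mulVec, dotProduct, Matrix.transpose_apply, hA, Matrix.map_apply, hv]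
    exact mul_single_eq_sum_secMat p f i
  have hdet : B.det • v = 0 := by
    have h : (Matrix.adjugate B * B) *ᵥ v = (B.det • (1 : Matrix (Fin p) (Fin p) _)) *ᵥ v := by
      rw [Matrix.adjugate_mul]
    rw [← Matrix.mulVec_mulVec, hBv, Matrix.mulVec_zero] at h
    rw [Matrix.smul_mulVec, Matrix.one_mulVec] at h
    exact h.symm
  have h0 : B.det * v ⟨0, Nat.pos_of_ne_zero (NeZero.ne p)⟩ = 0 := by
    have := congrFun hdet ⟨0, Nat.pos_of_ne_zero (NeZero.ne p)⟩
    simpa using this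
  have hv0 : v ⟨0, Nat.pos_of_ne_zero (NeZero.ne p)⟩ = 1 := by
    simp only [hv]
    rfl
  rw [hv0, mul_one] at h0
  rw [← Matrix.charpoly_map, ← hA, ← Matrix.charpoly_transpose, Matrix.eval_charpoly]
  exact h0

end Fermat.Agent.S28.H807

end

end
-- ===== PACK-END S28/H807/Section.lean

-- ===== PACK-BEGIN S28/H25/DerivQExp.lean
section


/-!
# `q`-expansion of the normalised derivative `D = (2πi)⁻¹ d/dτ`

(helper25, S28 piece [A-θ], route independent.)
If `F : ℍ → ℂ` is holomorphic, `h`-periodic and bounded at `i∞` with `q`-expansion `∑ aₙ qₕⁿ`,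
then `D F` is given by the convergent series `h⁻¹ ∑ n aₙ qₕⁿ`; in particular (for `h = 1`)
`qExpansion 1 (D F) = θ (qExpansion 1 F)` with `θ = q d/dq`.
-/

set_option autoImplicit false

open UpperHalfPlane hiding I
open Function Derivative Complex
open scoped Manifold

noncomputable section

namespace Fermat.Agent.S28.H25

local notation "𝕢" => Function.Periodic.qParam

theorem hasDerivAt_qParam (h : ℝ) (z : ℂ) :
    HasDerivAt (𝕢 h) (𝕢 h z * (2 * Real.pi * I / h)) z := by
  unfold Function.Periodic.qParam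
  have h1 : HasDerivAt (fun z : ℂ => 2 * Real.pi * I * z / h) (2 * Real.pi * I / h) z := by
    have := ((hasDerivAt_id z).const_mul (2 * Real.pi * I)).div_const (h : ℂ)
    simpa using this
  exact h1.cexp

/-- `D F = h⁻¹ · q · g'(q)` with `g` the cusp function of `F`. -/
theorem D_eq_qParam_mul_deriv_cuspFunction {F : ℍ → ℂ} {h : ℝ} (hh : 0 < h)
    (hper : Periodic (F ∘ ofComplex) h) (hhol : MDiff F) (hbdd : IsBoundedAtImInfty F) (τ : ℍ) :
    D F τ = (h : ℂ)⁻¹ * (𝕢 h τ * deriv (cuspFunction h F) (𝕢 h τ)) := by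
  have hq : ‖𝕢 h τ‖ < 1 := Periodic.norm_qParam_lt_one hh τ.im_pos
  have hg : DifferentiableAt ℂ (cuspFunction h F) (𝕢 h τ) :=
    differentiableAt_cuspFunction hh hper hhol hbdd hq
  have heq : (F ∘ ofComplex) =ᶠ[nhds (τ : ℂ)] (cuspFunction h F) ∘ (𝕢 h) := by
    filter_upwards [isOpen_upperHalfPlaneSet.mem_nhds τ.im_pos] with z hz
    have := eq_cuspFunction (f := F) ⟨z, hz⟩ hh.ne' hper
    simp only [comp_apply, ofComplex_apply_of_im_pos hz]
    exact this.symm
  have hcomp := (hg.hasDerivAt.comp (τ : ℂ) (hasDerivAt_qParam h τ)).deriv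
  rw [normalizedDerivOfComplex, heq.deriv_eq, hcomp]
  have hpi : (2 * (Real.pi : ℂ) * I) ≠ 0 := by
    simp [Real.pi_ne_zero]
  have hh' : (h : ℂ) ≠ 0 := by exact_mod_cast hh.ne'
  field_simp

/-- Termwise differentiation of the `q`-expansion. -/
theorem hasSum_D_of_bounded {F : ℍ → ℂ} {h : ℝ} (hh : 0 < h)
    (hper : Periodic (F ∘ ofComplex) h) (hhol : MDiff F) (hbdd : IsBoundedAtImInfty F) (τ : ℍ) :
    HasSum (fun n : ℕ => ((h : ℂ)⁻¹ * ((n : ℂ) * (qExpansion h F).coeff n)) • 𝕢 h τ ^ n)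
      (D F τ) := by
  set g := cuspFunction h F with hgdef
  have hgdiff : DifferentiableOn ℂ g (Metric.ball 0 1) :=
    differentiableOn_cuspFunction_ball hh hper hhol hbdd
  have hg'diff : DifferentiableOn ℂ (deriv g) (Metric.ball 0 1) :=
    hgdiff.deriv Metric.isOpen_ball
  have hq : 𝕢 h τ ∈ Metric.ball (0 : ℂ) 1 := by
    simpa using Periodic.norm_qParam_lt_one hh τ.im_pos
  have hT := hasSum_taylorSeries_on_ball hg'diff hq
  rw [D_eq_qParam_mul_deriv_cuspFunction hh hper hhol hbdd τ]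
  have hT2 := (hT.mul_left (𝕢 h τ)).mul_left ((h : ℂ)⁻¹)
  have hfun : (fun n : ℕ => ((h : ℂ)⁻¹ * (((n + 1 : ℕ) : ℂ) *
      (qExpansion h F).coeff (n + 1))) • 𝕢 h τ ^ (n + 1)) =
      (fun i : ℕ => (h : ℂ)⁻¹ * (𝕢 h τ * (((i.factorial : ℕ) : ℂ))⁻¹ • (𝕢 h τ - 0) ^ i •
        iteratedDeriv i (deriv g) 0)) := by
    funext n
    rw [qExpansion_coeff, ← iteratedDeriv_succ', sub_zero]
    have hn : ((n.factorial : ℕ) : ℂ) ≠ 0 := by exact_mod_cast n.factorial_ne_zero
    have hn1 : ((n : ℂ) + 1) ≠ 0 := by exact_mod_cast n.succ_ne_zero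
    simp only [smul_eq_mul]
    rw [Nat.factorial_succ]
    push_cast
    field_simp
    rw [hgdef]
    ring
  have hshift : HasSum (fun n : ℕ => ((h : ℂ)⁻¹ * (((n + 1 : ℕ) : ℂ) *
      (qExpansion h F).coeff (n + 1))) • 𝕢 h τ ^ (n + 1))
      ((h : ℂ)⁻¹ * (𝕢 h τ * deriv g (𝕢 h τ))) := by
    rw [hfun]
    exact hT2
  have := (hasSum_nat_add_iff' (f := fun n : ℕ => ((h : ℂ)⁻¹ * ((n : ℂ) *
      (qExpansion h F).coeff n)) • 𝕢 h τ ^ n) 1).mp (by simpa using hshift)
  simpa using this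

/-- `D F` is periodic if `F` is. -/
theorem periodic_D {F : ℍ → ℂ} {h : ℝ} (hh : 0 < h)
    (hper : Periodic (F ∘ ofComplex) h) (hhol : MDiff F) (hbdd : IsBoundedAtImInfty F) :
    Periodic (D F ∘ ofComplex) h := by
  intro w
  by_cases! hw : 0 < Complex.im w
  · have hw' : 0 < Complex.im (w + h) := by simp [hw]
    simp only [comp_apply, ofComplex_apply_of_im_pos hw', ofComplex_apply_of_im_pos hw]
    rw [D_eq_qParam_mul_deriv_cuspFunction hh hper hhol hbdd,
      D_eq_qParam_mul_deriv_cuspFunction hh hper hhol hbdd]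
    have hq : 𝕢 h ((⟨w + h, hw'⟩ : ℍ) : ℂ) = 𝕢 h ((⟨w, hw⟩ : ℍ) : ℂ) := by
      show 𝕢 h (w + h) = 𝕢 h w
      have hh' : (h : ℂ) ≠ 0 := by exact_mod_cast hh.ne'
      simp only [Function.Periodic.qParam]
      rw [show 2 * (Real.pi : ℂ) * Complex.I * (w + h) / h
          = 2 * Real.pi * Complex.I * w / h + 2 * Real.pi * Complex.I by field_simp]
      rw [Complex.exp_add, Complex.exp_two_pi_mul_I, mul_one]
    rw [hq]
  · have : Complex.im (w + h) ≤ 0 := by simpa using hw
    simp [ofComplex_apply_of_im_nonpos this, ofComplex_apply_of_im_nonpos hw]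

theorem isBoundedAtImInfty_D {F : ℍ → ℂ} {h : ℝ} (hh : 0 < h)
    (hper : Periodic (F ∘ ofComplex) h) (hhol : MDiff F) (hbdd : IsBoundedAtImInfty F) :
    IsBoundedAtImInfty (D F) :=
  isBoundedAtImInfty_of_hasSum_qExpansion hh (hasSum_D_of_bounded hh hper hhol hbdd)

theorem analyticAt_cuspFunction_D {F : ℍ → ℂ} {h : ℝ} (hh : 0 < h)
    (hper : Periodic (F ∘ ofComplex) h) (hhol : MDiff F) (hbdd : IsBoundedAtImInfty F) :
    AnalyticAt ℂ (cuspFunction h (D F)) 0 :=
  analyticAt_cuspFunction_zero hh (periodic_D hh hper hhol hbdd)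
    (normalizedDerivOfComplex_mdifferentiable hhol) (isBoundedAtImInfty_D hh hper hhol hbdd)

/-- The `q`-expansion of `D F` is `h⁻¹ θ` of the `q`-expansion of `F`. -/
theorem qExpansion_D_coeff {F : ℍ → ℂ} {h : ℝ} (hh : 0 < h)
    (hper : Periodic (F ∘ ofComplex) h) (hhol : MDiff F) (hbdd : IsBoundedAtImInfty F) (n : ℕ) :
    (qExpansion h (D F)).coeff n = (h : ℂ)⁻¹ * ((n : ℂ) * (qExpansion h F).coeff n) := by
  have hfanalytic := analyticAt_cuspFunction_D hh hper hhol hbdd
  have h1 := (hasFPowerSeriesOnBall_cuspFunction hh hfanalytic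
    (hasSum_D_of_bounded hh hper hhol hbdd)).hasFPowerSeriesAt
  have h2 : HasFPowerSeriesAt (cuspFunction h (D F))
      (FormalMultilinearSeries.ofScalars ℂ fun m ↦ (qExpansion h (D F)).coeff m) 0 := by
    simpa [qExpansion_coeff, div_eq_mul_inv, mul_comm]
      using hfanalytic.hasFPowerSeriesAt
  have := congr_arg (FormalMultilinearSeries.coeff · n) (h1.eq_formalMultilinearSeries h2)
  simpa [FormalMultilinearSeries.coeff_ofScalars] using this.symm

/-- `θ = X d/dX` on power series. -/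
def thetaP {R : Type*} [CommRing R] (f : PowerSeries R) : PowerSeries R :=
  PowerSeries.X * PowerSeries.derivative R f

theorem coeff_thetaP {R : Type*} [CommRing R] (f : PowerSeries R) (n : ℕ) :
    (thetaP f).coeff n = (n : R) * f.coeff n := by
  rcases n with _ | n
  · simp [thetaP]
  · rw [thetaP, PowerSeries.coeff_succ_X_mul, PowerSeries.coeff_derivative]
    push_cast
    ring

theorem qExpansion_D {F : ℍ → ℂ}
    (hper : Periodic (F ∘ ofComplex) 1) (hhol : MDiff F) (hbdd : IsBoundedAtImInfty F) :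
    qExpansion 1 (D F) = thetaP (qExpansion 1 F) := by
  ext n
  rw [qExpansion_D_coeff one_pos hper hhol hbdd, coeff_thetaP]
  simp

end Fermat.Agent.S28.H25

end
end
-- ===== PACK-END S28/H25/DerivQExp.lean

-- ===== PACK-BEGIN S28/H505/Bridge.lean
section






open UpperHalfPlane ModularForm EisensteinSeries Filter Topology
open scoped PowerSeries.WithPiTopology

namespace Fermat.Agent.S28.H505

theorem bernoulli_four_eq : bernoulli 4 = -1 / 30 := by
  rw [bernoulli_eq_bernoulli'_of_ne_one (by norm_num)]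
  simp [bernoulli'_four]

/-- (B1) The Mathlib `q`-expansion of `E₄` is the Prelude's formal series `eisenstein4`. -/
theorem qExpansion_E₄_eq :
    qExpansion 1 E₄ = ModularCurve.eisenstein4.map (Int.castRingHom ℂ) := by
  ext m
  rw [E_qExpansion_coeff (by norm_num) (by decide) m, PowerSeries.coeff_map,
    ModularCurve.eisenstein4, PowerSeries.coeff_mk]
  split_ifs with h
  · simp
  · rw [bernoulli_four_eq, ArithmeticFunction.sigma_apply]
    simp only [eq_intCast]
    push_cast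
    ring

/-- Taylor power series at `0` of a function `ℂ → ℂ`. -/
noncomputable def taylorPS (g : ℂ → ℂ) : PowerSeries ℂ :=
  .mk fun m => (m.factorial : ℂ)⁻¹ * iteratedDeriv m g 0

theorem coeff_taylorPS (g : ℂ → ℂ) (m : ℕ) :
    (taylorPS g).coeff m = (m.factorial : ℂ)⁻¹ * iteratedDeriv m g 0 := by
  simp [taylorPS]

theorem qExpansion_eq_taylorPS (h : ℝ) (f : ℍ → ℂ) :
    qExpansion h f = taylorPS (cuspFunction h f) := rfl

theorem taylorPS_congr {g h : ℂ → ℂ} (hgh : g =ᶠ[𝓝 0] h) : taylorPS g = taylorPS h := by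
  ext m
  simp [coeff_taylorPS, hgh.iteratedDeriv_eq m]

theorem taylorPS_mul {g h : ℂ → ℂ} (hg : AnalyticAt ℂ g 0) (hh : AnalyticAt ℂ h 0) :
    taylorPS (g * h) = taylorPS g * taylorPS h := by
  ext
  simp only [coeff_taylorPS,
    iteratedDeriv_mul hg.contDiffAt hh.contDiffAt, Finset.mul_sum, PowerSeries.coeff_mul,
    Finset.Nat.sum_antidiagonal_eq_sum_range_succ_mk, Nat.succ_eq_add_one]
  refine Finset.sum_congr rfl fun i hi ↦ ?_
  rw [Nat.cast_choose _ (by grind)]
  field_simp [Nat.factorial_ne_zero]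

theorem iteratedDeriv_polynomial_eval (p : Polynomial ℂ) (m : ℕ) :
    iteratedDeriv m (fun x => p.eval x) = fun x => ((⇑Polynomial.derivative)^[m] p).eval x := by
  induction m generalizing p with
  | zero => simp
  | succ m ih =>
    rw [iteratedDeriv_succ']
    have : deriv (fun x => p.eval x) = fun x => (Polynomial.derivative p).eval x :=
      funext fun x => Polynomial.deriv p
    rw [this, ih, Function.iterate_succ_apply]

theorem taylorPS_polynomial (p : Polynomial ℂ) :
    taylorPS (fun x => p.eval x) = (p : PowerSeries ℂ) := by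
  ext m
  rw [coeff_taylorPS, iteratedDeriv_polynomial_eval, Polynomial.coeff_coe]
  beta_reduce
  rw [← Polynomial.coeff_zero_eq_eval_zero, Polynomial.coeff_iterate_derivative, zero_add,
    Nat.descFactorial_self, nsmul_eq_mul, ← mul_assoc,
    inv_mul_cancel₀ (by exact_mod_cast Nat.factorial_ne_zero m), one_mul]

theorem differentiableOn_iteratedDeriv {g : ℂ → ℂ} {U : Set ℂ} (hU : IsOpen U)
    (hg : DifferentiableOn ℂ g U) (k : ℕ) : DifferentiableOn ℂ (iteratedDeriv k g) U := by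
  induction k with
  | zero => simpa using hg
  | succ k ih => rw [iteratedDeriv_succ]; exact ih.deriv hU

theorem tendstoLocallyUniformlyOn_iteratedDeriv {ι : Type*} {φ : Filter ι} {F : ι → ℂ → ℂ}
    {f : ℂ → ℂ} {U : Set ℂ} (hU : IsOpen U) (hf : TendstoLocallyUniformlyOn F f φ U)
    (hF : ∀ᶠ n in φ, DifferentiableOn ℂ (F n) U) (k : ℕ) :
    TendstoLocallyUniformlyOn (fun n => iteratedDeriv k (F n)) (iteratedDeriv k f) φ U := by
  induction k with
  | zero => simpa using hf
  | succ k ih =>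
    have h1 : ∀ᶠ n in φ, DifferentiableOn ℂ (iteratedDeriv k (F n)) U := by
      filter_upwards [hF] with n hn using differentiableOn_iteratedDeriv hU hn k
    have := ih.deriv h1 hU
    simpa only [iteratedDeriv_succ, Function.comp_def] using this

/-- the analytic Euler product on the unit disc -/
noncomputable def eulerFun (q : ℂ) : ℂ := ∏' n : ℕ, (1 - q ^ (n + 1))

theorem eulerFun_differentiableOn : DifferentiableOn ℂ eulerFun (Metric.ball 0 1) :=
  differentiableOn_tprod_one_sub_pow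

theorem eulerFun_analyticAt : AnalyticAt ℂ eulerFun 0 :=
  eulerFun_differentiableOn.analyticAt (Metric.ball_mem_nhds 0 one_pos)

/-- partial Euler products as polynomials over `ℤ` -/
noncomputable def eulerPoly (t : Finset ℕ) : Polynomial ℤ :=
  ∏ i ∈ t, (1 - Polynomial.X ^ (i + 1))

theorem eulerPoly_eval (t : Finset ℕ) (q : ℂ) :
    ((eulerPoly t).map (Int.castRingHom ℂ)).eval q = ∏ i ∈ t, (1 - q ^ (i + 1)) := by
  simp [eulerPoly, Polynomial.map_prod, Polynomial.eval_prod]

theorem eulerPoly_coe (t : Finset ℕ) :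
    ((eulerPoly t : Polynomial ℤ) : PowerSeries ℤ) = ∏ i ∈ t, (1 - PowerSeries.X ^ (i + 1)) := by
  rw [eulerPoly, ← Polynomial.coeToPowerSeries.ringHom_apply, map_prod]
  simp [Polynomial.coeToPowerSeries.ringHom_apply]

theorem tendsto_coeff_eulerPoly (k : ℕ) :
    Tendsto (fun t : Finset ℕ => (((eulerPoly t).coeff k : ℤ) : ℂ)) atTop
      (𝓝 ((ModularCurve.etaProd.coeff k : ℤ) : ℂ)) := by
  have h1 : Tendsto (fun t : Finset ℕ => ∏ i ∈ t, ((1 : PowerSeries ℤ) - PowerSeries.X ^ (i + 1)))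
      atTop (𝓝 ModularCurve.etaProd) :=
    (PowerSeries.WithPiTopology.multipliable_one_sub_X_pow ℤ).hasProd
  have h2 := ((PowerSeries.WithPiTopology.continuous_coeff ℤ k).tendsto _).comp h1
  have h3 : Continuous (fun n : ℤ => (n : ℂ)) := continuous_of_discreteTopology
  have h4 := (h3.tendsto _).comp h2
  refine h4.congr fun t => ?_
  simp only [Function.comp_apply, ← eulerPoly_coe, Polynomial.coeff_coe]

theorem taylorPS_eulerFun :
    taylorPS eulerFun = ModularCurve.etaProd.map (Int.castRingHom ℂ) := by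
  ext k
  rw [coeff_taylorPS, PowerSeries.coeff_map]
  have hU : IsOpen (Metric.ball (0 : ℂ) 1) := Metric.isOpen_ball
  have h0 : (0 : ℂ) ∈ Metric.ball (0 : ℂ) 1 := Metric.mem_ball_self one_pos
  have hloc : TendstoLocallyUniformlyOn
      (fun (t : Finset ℕ) (q : ℂ) => ∏ i ∈ t, (1 - q ^ (i + 1))) eulerFun atTop
      (Metric.ball 0 1) :=
    hasProdLocallyUniformlyOn_iff_tendstoLocallyUniformlyOn.mp
      multipliableLocallyUniformlyOn_one_sub_pow.hasProdLocallyUniformlyOn
  have hdiff : ∀ᶠ t : Finset ℕ in atTop,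
      DifferentiableOn ℂ (fun q : ℂ => ∏ i ∈ t, (1 - q ^ (i + 1))) (Metric.ball 0 1) :=
    .of_forall fun t => by
      simpa [Finset.prod_fn] using
        DifferentiableOn.finsetProd (u := t) (f := fun i (q : ℂ) => 1 - q ^ (i + 1))
          (fun _ _ ↦ by fun_prop)
  have h1 := (tendstoLocallyUniformlyOn_iteratedDeriv hU hloc hdiff k).tendsto_at h0
  have h2 : ∀ t : Finset ℕ, iteratedDeriv k (fun q : ℂ => ∏ i ∈ t, (1 - q ^ (i + 1))) 0
      = (k.factorial : ℂ) * (((eulerPoly t).coeff k : ℤ) : ℂ) := by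
    intro t
    have := congrArg (PowerSeries.coeff k)
      (taylorPS_polynomial ((eulerPoly t).map (Int.castRingHom ℂ)))
    rw [coeff_taylorPS, Polynomial.coeff_coe, Polynomial.coeff_map] at this
    simp only [eulerPoly_eval, eq_intCast] at this
    rw [← this, ← mul_assoc, mul_inv_cancel₀ (by exact_mod_cast Nat.factorial_ne_zero k), one_mul]
  simp only [h2] at h1
  have h3 := (tendsto_coeff_eulerPoly k).const_mul (k.factorial : ℂ)
  have h4 := tendsto_nhds_unique h1 h3
  rw [h4, ← mul_assoc, inv_mul_cancel₀ (by exact_mod_cast Nat.factorial_ne_zero k), one_mul]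
  simp

theorem taylorPS_id : taylorPS (fun q : ℂ => q) = PowerSeries.X := by
  have := taylorPS_polynomial Polynomial.X
  simpa using this

theorem taylorPS_pow {g : ℂ → ℂ} (hg : AnalyticAt ℂ g 0) (n : ℕ) :
    taylorPS (g ^ n) = taylorPS g ^ n := by
  induction n with
  | zero =>
    have := taylorPS_polynomial 1
    simpa [Pi.one_def] using this
  | succ n ih => rw [pow_succ, pow_succ, taylorPS_mul (hg.pow n) hg, ih]

/-- (B2) The Mathlib `q`-expansion of `Δ` is `X * etaProd ^ 24`. -/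
theorem qExpansion_discriminant_eq :
    qExpansion 1 ModularForm.discriminant =
      PowerSeries.X * (ModularCurve.etaProd.map (Int.castRingHom ℂ)) ^ 24 := by
  rw [qExpansion_eq_taylorPS]
  have h1 : cuspFunction 1 ModularForm.discriminant =ᶠ[𝓝 0]
      ((fun q : ℂ => q) * eulerFun ^ 24) := by
    filter_upwards [Metric.ball_mem_nhds (0 : ℂ) one_pos] with q hq
    rw [discriminant_cuspFunction_eqOn hq]
    simp only [Pi.mul_apply, Pi.pow_apply, eulerFun]
    rw [(multipliable_one_sub_pow (by simpa using hq)).tprod_pow 24]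
  rw [taylorPS_congr h1, taylorPS_mul (by fun_prop) (eulerFun_analyticAt.pow 24), taylorPS_id,
    taylorPS_pow eulerFun_analyticAt, taylorPS_eulerFun]

end Fermat.Agent.S28.H505

end
-- ===== PACK-END S28/H505/Bridge.lean

-- ===== PACK-BEGIN S18/H264/SepLaurent.lean
section


/-!
# S18 / G-SEP core (helper264): subfields of `κ((q))` are separable over `κ(x)`

Mathlib-only.  Let `κ` be a perfect field of characteristic `p`, and `x ∈ κ((q))` a Laurent
series whose `q`-order is prime to `p` (e.g. `x = j̄, t̄₂, t̄₃`, of order `-1`).  Then every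
`y ∈ κ((q))` that is algebraic over `κ(x)` is separable over `κ(x)`.

Main statements (namespace `Fermat.Agent.S18.H264`):

* `isSeparable_of_isAlgebraic_of_addVal` : abstract form, for a field `L ⊇ κ` with an additive
  valuation `v : AddValuation L (WithTop ℤ)` and `p ∤ v x`.
* `isSeparable_laurent` : the Laurent series form, hypothesis `¬ (p : ℤ) ∣ x.order`.
* `isSeparable_laurent_of_order_eq_neg_one` : the same for `x.order = -1`.
* `exists_poly_simple_root_laurent` : liftable polynomial form, `∃ P ∈ κ[X][Y]` with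
  `P(x, y) = 0` and `(∂P/∂Y)(x, y) ≠ 0`.

Proof: `1, x, …, x^(p-1)` is a `p`-basis: every element of `κ(x)` is `∑_{r<p} x^r b_r^p`
(`κ` perfect), and `∑_{r<p} x^r z_r^p = 0` in `L` forces all `z_r = 0` (the valuations of the
nonzero terms are pairwise distinct mod `p`).  If the minimal polynomial `g` of `y` were
inseparable, `g = h(Y^p)`, `h = ∑_r x^r h_r^{(p)}`, so `0 = h(y^p) = ∑_r x^r (h_r(y))^p`, whence
`h_r(y) = 0` with `deg h_r < deg g`, so `h_r = 0`, `h = 0`: contradiction.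
-/

set_option autoImplicit false

namespace Fermat.Agent.S18.H264

open Polynomial

section Valuation

variable {L : Type*} [Field L] (v : AddValuation L (WithTop ℤ))

/-- Finitely many nonzero terms with pairwise distinct valuations cannot sum to zero. -/
theorem sum_ne_zero_of_val_injOn {ι : Type*} (s : Finset ι) (f : ι → L) (hs : s.Nonempty)
    (hne : ∀ i ∈ s, f i ≠ 0) (hinj : ∀ i ∈ s, ∀ j ∈ s, v (f i) = v (f j) → i = j) :
    ∑ i ∈ s, f i ≠ 0 := by
  classical
  obtain ⟨i₀, hi₀, hmin⟩ := Finset.exists_min_image s (fun i => v (f i)) hs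
  have hlt : ∀ i ∈ s.erase i₀, v (f i₀) < v (f i) := by
    intro i hi
    rw [Finset.mem_erase] at hi
    exact lt_of_le_of_ne (hmin i hi.2) (fun h => hi.1 (hinj _ hi₀ _ hi.2 h).symm)
  have htop : v (f i₀) ≠ ⊤ := by
    rw [Ne, AddValuation.top_iff]
    exact hne i₀ hi₀
  have hrest : v (f i₀) < v (∑ i ∈ s.erase i₀, f i) := AddValuation.map_lt_sum v htop hlt
  rw [← Finset.add_sum_erase s f hi₀]
  intro h0
  have h1 := AddValuation.map_add_eq_of_lt_left v hrest
  rw [h0, AddValuation.map_zero] at h1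
  exact htop h1.symm

/-- `1, x, …, x^(p-1)` are linearly independent over `L^p` when `p ∤ v x`. -/
theorem eq_zero_of_sum_pow_mul_pow_eq_zero (p : ℕ) (hp : p.Prime) (x : L) (n : ℤ)
    (hx : v x = (n : WithTop ℤ)) (hn : ¬ (p : ℤ) ∣ n) (z : ℕ → L)
    (h : ∑ r ∈ Finset.range p, x ^ r * z r ^ p = 0) : ∀ r < p, z r = 0 := by
  classical
  by_contra hcon
  push Not at hcon
  obtain ⟨r₁, hr₁, hz₁⟩ := hcon
  have hx0 : x ≠ 0 := by
    intro h0
    rw [h0, AddValuation.map_zero] at hx
    exact WithTop.top_ne_coe hx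
  set s := (Finset.range p).filter (fun r => z r ≠ 0) with hs
  have hsum : ∑ r ∈ s, x ^ r * z r ^ p = 0 := by
    have h1 : ∑ r ∈ s, x ^ r * z r ^ p = ∑ r ∈ Finset.range p, x ^ r * z r ^ p := by
      rw [hs, Finset.sum_filter]
      refine Finset.sum_congr rfl fun r _ => ?_
      by_cases hz : z r = 0
      · simp [hz, hp.ne_zero]
      · simp [hz]
    rw [h1, h]
  have hval : ∀ r ∈ s, ∃ a : ℤ, v (x ^ r * z r ^ p) = ((r * n + p * a : ℤ) : WithTop ℤ) := by
    intro r hr
    have hz : z r ≠ 0 := (Finset.mem_filter.mp hr).2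
    have hzt : v (z r) ≠ ⊤ := by rw [Ne, AddValuation.top_iff]; exact hz
    obtain ⟨a, ha⟩ := WithTop.ne_top_iff_exists.mp hzt
    refine ⟨a, ?_⟩
    rw [AddValuation.map_mul, AddValuation.map_pow, AddValuation.map_pow, hx, ← ha]
    rw [← WithTop.coe_nsmul, ← WithTop.coe_nsmul, ← WithTop.coe_add, nsmul_eq_mul, nsmul_eq_mul]
  refine sum_ne_zero_of_val_injOn v s _ ⟨r₁, Finset.mem_filter.mpr ⟨Finset.mem_range.mpr hr₁, hz₁⟩⟩
    ?_ ?_ hsum
  · intro r hr
    have hz : z r ≠ 0 := (Finset.mem_filter.mp hr).2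
    exact mul_ne_zero (pow_ne_zero _ hx0) (pow_ne_zero _ hz)
  · intro r hr r' hr' hrr'
    obtain ⟨a, ha⟩ := hval r hr
    obtain ⟨a', ha'⟩ := hval r' hr'
    rw [ha, ha', WithTop.coe_eq_coe] at hrr'
    have hrp : r < p := Finset.mem_range.mp (Finset.mem_filter.mp hr).1
    have hrp' : r' < p := Finset.mem_range.mp (Finset.mem_filter.mp hr').1
    have hdvd : (p : ℤ) ∣ ((r : ℤ) - r') * n := ⟨a' - a, by linarith⟩
    have hdvd' : (p : ℤ) ∣ (r : ℤ) - r' :=
      ((Nat.prime_iff_prime_int.mp hp).dvd_or_dvd hdvd).resolve_right hn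
    have h0 : (r : ℤ) - r' = 0 := by
      apply Int.eq_zero_of_abs_lt_dvd hdvd'
      rw [abs_lt]
      constructor <;> omega
    omega

end Valuation

section Decomp

variable {κ : Type*} [Field κ] [PerfectField κ] (p : ℕ) [hp : Fact p.Prime] [CharP κ p]

/-- Every polynomial over a perfect field of characteristic `p` is `∑_{r<p} X^r c_r^p`. -/
theorem exists_pBasis_decomp_poly (w : κ[X]) :
    ∃ c : ℕ → κ[X], w = ∑ r ∈ Finset.range p, X ^ r * c r ^ p := by
  induction w using Polynomial.induction_on' with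
  | add w₁ w₂ h₁ h₂ =>
    obtain ⟨c₁, hc₁⟩ := h₁
    obtain ⟨c₂, hc₂⟩ := h₂
    refine ⟨fun r => c₁ r + c₂ r, ?_⟩
    have h : ∀ r, X ^ r * (c₁ r + c₂ r) ^ p = X ^ r * c₁ r ^ p + X ^ r * c₂ r ^ p := by
      intro r
      rw [add_pow_char, mul_add]
    simp only [h, Finset.sum_add_distrib]
    rw [← hc₁, ← hc₂]
  | monomial n a =>
    refine ⟨fun r => if r = n % p then monomial (n / p) ((frobeniusEquiv κ p).symm a) else 0, ?_⟩
    rw [Finset.sum_eq_single (n % p)]
    · simp only [if_true]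
      rw [monomial_pow, X_pow_mul_monomial, frobeniusEquiv_symm_pow_p, Nat.div_add_mod' n p]
    · intro r _ hr
      simp only [if_neg hr]
      rw [zero_pow hp.out.ne_zero, mul_zero]
    · intro h
      exact absurd (Finset.mem_range.mpr (Nat.mod_lt _ hp.out.pos)) h

/-- Every element of `κ(x)` is `∑_{r<p} x^r b_r^p` with `b_r ∈ κ(x)` (`κ` perfect). -/
theorem exists_pBasis_decomp {L : Type*} [Field L] [Algebra κ L] (x : L) (a : L)
    (ha : a ∈ IntermediateField.adjoin κ {x}) :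
    ∃ b : ℕ → L, (∀ r, b r ∈ IntermediateField.adjoin κ {x}) ∧
      a = ∑ r ∈ Finset.range p, x ^ r * b r ^ p := by
  obtain ⟨u, w, rfl⟩ := (IntermediateField.mem_adjoin_simple_iff κ a).mp ha
  by_cases hw : aeval x w = 0
  · refine ⟨fun _ => 0, fun _ => zero_mem _, ?_⟩
    simp [hw, hp.out.ne_zero]
  · obtain ⟨c, hc⟩ := exists_pBasis_decomp_poly p (u * w ^ (p - 1))
    refine ⟨fun r => aeval x (c r) / aeval x w, fun r => ?_, ?_⟩
    · exact (IntermediateField.mem_adjoin_simple_iff κ _).mpr ⟨c r, w, rfl⟩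
    · have hpp : p - 1 + 1 = p := Nat.sub_add_cancel hp.out.one_le
      have h1 : aeval x u / aeval x w = aeval x (u * w ^ (p - 1)) / (aeval x w) ^ p := by
        rw [map_mul, map_pow, eq_div_iff (pow_ne_zero _ hw), div_mul_eq_mul_div,
          div_eq_iff hw, mul_assoc, ← pow_succ, hpp]
      rw [h1, hc, map_sum, Finset.sum_div]
      refine Finset.sum_congr rfl fun r _ => ?_
      rw [map_mul, map_pow, map_pow, aeval_X, div_pow, mul_div_assoc]

end Decomp

section Main

variable {κ L : Type*} [Field κ] [PerfectField κ] [Field L] [Algebra κ L]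
  (p : ℕ) [hp : Fact p.Prime] [CharP κ p]

/-- **Separability from a valuation** (abstract form).  `κ` perfect of characteristic `p`,
`L ⊇ κ` a field with a `ℤ`-valued additive valuation `v`, `x ∈ L` with `p ∤ v x`.  Then every
`y ∈ L` algebraic over `κ(x)` is separable over `κ(x)`. -/
theorem isSeparable_of_isAlgebraic_of_addVal (v : AddValuation L (WithTop ℤ)) (x : L) (n : ℤ)
    (hx : v x = (n : WithTop ℤ)) (hn : ¬ (p : ℤ) ∣ n) (y : L)
    (hy : IsAlgebraic (IntermediateField.adjoin κ {x}) y) :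
    IsSeparable (IntermediateField.adjoin κ {x}) y := by
  classical
  have : CharP (IntermediateField.adjoin κ {x}) p :=
    charP_of_injective_algebraMap (algebraMap κ (IntermediateField.adjoin κ {x})).injective p
  have : CharP L p := charP_of_injective_algebraMap (algebraMap κ L).injective p
  have hint : IsIntegral (IntermediateField.adjoin κ {x}) y := hy.isIntegral
  have hirr := minpoly.irreducible hint
  rcases Polynomial.separable_or p hirr with hsep | ⟨_, h, hh, hexp⟩
  · exact hsep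
  exfalso
  have h0 : aeval (y ^ p) h = 0 := by
    rw [← expand_aeval, hexp, minpoly.aeval]
  have hdec : ∀ i : ℕ, ∃ b : ℕ → L, (∀ r, b r ∈ IntermediateField.adjoin κ {x}) ∧
      ((h.coeff i : IntermediateField.adjoin κ {x}) : L) =
        ∑ r ∈ Finset.range p, x ^ r * b r ^ p :=
    fun i => exists_pBasis_decomp p x _ (h.coeff i).2
  choose b hbE hb using hdec
  set H : ℕ → (IntermediateField.adjoin κ {x})[X] := fun r =>
    ∑ i ∈ Finset.range (h.natDegree + 1),
      monomial i (⟨b i r, hbE i r⟩ : IntermediateField.adjoin κ {x}) with hH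
  have haev : ∀ r, aeval y (H r) = ∑ i ∈ Finset.range (h.natDegree + 1), b i r * y ^ i := by
    intro r
    rw [hH]
    simp only [map_sum, aeval_monomial]
    rfl
  have hsum : ∑ r ∈ Finset.range p, x ^ r * (aeval y (H r)) ^ p = 0 := by
    calc ∑ r ∈ Finset.range p, x ^ r * (aeval y (H r)) ^ p
        = ∑ r ∈ Finset.range p, ∑ i ∈ Finset.range (h.natDegree + 1),
            x ^ r * b i r ^ p * (y ^ p) ^ i := by
          refine Finset.sum_congr rfl fun r _ => ?_
          rw [haev, sum_pow_char, Finset.mul_sum]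
          refine Finset.sum_congr rfl fun i _ => ?_
          rw [mul_pow, ← pow_mul, ← pow_mul, mul_comm i p, mul_assoc]
      _ = ∑ i ∈ Finset.range (h.natDegree + 1),
            (∑ r ∈ Finset.range p, x ^ r * b i r ^ p) * (y ^ p) ^ i := by
          rw [Finset.sum_comm]
          refine Finset.sum_congr rfl fun i _ => ?_
          rw [Finset.sum_mul]
      _ = aeval (y ^ p) h := by
          rw [aeval_eq_sum_range]
          refine Finset.sum_congr rfl fun i _ => ?_
          rw [← hb i, Algebra.smul_def]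
          rfl
      _ = 0 := h0
  have hz := eq_zero_of_sum_pow_mul_pow_eq_zero v p hp.out x n hx hn
    (fun r => aeval y (H r)) hsum
  have hdegH : ∀ r, (H r).natDegree ≤ h.natDegree := by
    intro r
    rw [hH]
    refine natDegree_sum_le_of_forall_le _ _ fun i hi => ?_
    exact (natDegree_monomial_le _).trans (Nat.lt_succ_iff.mp (Finset.mem_range.mp hi))
  have hdegh : 0 < h.natDegree := hh.natDegree_pos
  have hdegm : (minpoly (IntermediateField.adjoin κ {x}) y).natDegree = h.natDegree * p := by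
    rw [← hexp, natDegree_expand]
  have hzero : ∀ r < p, H r = 0 := by
    intro r hrp
    by_contra hne
    have h1 := natDegree_le_natDegree
      (minpoly.degree_le_of_ne_zero (IntermediateField.adjoin κ {x}) y hne (hz r hrp))
    have h2 := hdegH r
    have h3 : h.natDegree * 2 ≤ h.natDegree * p := Nat.mul_le_mul_left _ hp.out.two_le
    omega
  have hbzero : ∀ i ≤ h.natDegree, ∀ r < p, b i r = 0 := by
    intro i hi r hrp
    have h1 : (H r).coeff i = 0 := by rw [hzero r hrp, coeff_zero]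
    rw [hH] at h1
    simp only [finsetSum_coeff, coeff_monomial] at h1
    rw [Finset.sum_eq_single i] at h1
    · rw [if_pos rfl] at h1
      exact congrArg Subtype.val h1
    · intro j _ hj
      rw [if_neg hj]
    · intro hi'
      exact absurd (Finset.mem_range.mpr (Nat.lt_succ_iff.mpr hi)) hi'
  apply hh.ne_zero
  refine Polynomial.ext fun i => ?_
  rw [coeff_zero]
  by_cases hi : i ≤ h.natDegree
  · apply Subtype.ext
    rw [hb i, ZeroMemClass.coe_zero]
    refine Finset.sum_eq_zero fun r hr => ?_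
    rw [hbzero i hi r (Finset.mem_range.mp hr), zero_pow hp.out.ne_zero, mul_zero]
  · exact coeff_eq_zero_of_natDegree_lt (not_le.mp hi)

end Main

section Laurent

variable {κ : Type*} [Field κ] [PerfectField κ] (p : ℕ) [hp : Fact p.Prime] [CharP κ p]

/-- **G-SEP core.**  `κ` perfect of characteristic `p`, `x ∈ κ((q))` of `q`-order prime to `p`.
Every `y ∈ κ((q))` algebraic over `κ(x)` is separable over `κ(x)`. -/
theorem isSeparable_laurent (x y : LaurentSeries κ) (hx : ¬ (p : ℤ) ∣ x.order)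
    (hy : IsAlgebraic (IntermediateField.adjoin κ {x}) y) :
    IsSeparable (IntermediateField.adjoin κ {x}) y := by
  have hx0 : x ≠ 0 := by
    rintro rfl
    exact hx (by rw [HahnSeries.order_zero]; exact dvd_zero _)
  exact isSeparable_of_isAlgebraic_of_addVal p (HahnSeries.addVal ℤ κ) x x.order
    (HahnSeries.addVal_apply_of_ne hx0) hx y hy

theorem not_prime_dvd_neg_one (q : ℕ) (hq : q.Prime) : ¬ (q : ℤ) ∣ -1 := by
  rw [dvd_neg]
  intro h
  have h1 : (q : ℤ) ≤ 1 := Int.le_of_dvd one_pos h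
  have h2 := hq.two_le
  omega

include hp in
/-- The case `ord_q x = -1` (`x = j̄, t̄₂, t̄₃`). -/
theorem isSeparable_laurent_of_order_eq_neg_one (x y : LaurentSeries κ) (hx : x.order = -1)
    (hy : IsAlgebraic (IntermediateField.adjoin κ {x}) y) :
    IsSeparable (IntermediateField.adjoin κ {x}) y :=
  isSeparable_laurent p x y (by rw [hx]; exact not_prime_dvd_neg_one p hp.out) hy

/-- Every intermediate field of `κ((q)) / κ(x)` that is algebraic over `κ(x)` is separable
over `κ(x)`. -/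
theorem isSeparable_intermediateField_laurent (x : LaurentSeries κ) (hx : ¬ (p : ℤ) ∣ x.order)
    (F : IntermediateField (IntermediateField.adjoin κ {x}) (LaurentSeries κ))
    [Algebra.IsAlgebraic (IntermediateField.adjoin κ {x}) F] :
    Algebra.IsSeparable (IntermediateField.adjoin κ {x}) F := by
  refine ⟨fun z => ?_⟩
  have hz : IsAlgebraic (IntermediateField.adjoin κ {x}) (z : LaurentSeries κ) :=
    (Algebra.IsAlgebraic.isAlgebraic z).algebraMap
  have h := isSeparable_laurent p x (z : LaurentSeries κ) hx hz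
  rwa [IsSeparable, ← IntermediateField.minpoly_eq] at h

end Laurent

section PolyForm

variable {κ L : Type*} [Field κ] [Field L] [Algebra κ L]

/-- Clearing denominators: a polynomial over `κ(x)` is, up to a nonzero factor `V(x)`, the image
of a polynomial in `κ[X][Y]`. -/
theorem exists_clear_denominators (x : L) (g : (IntermediateField.adjoin κ {x})[X]) :
    ∃ (P : Polynomial (Polynomial κ)) (V : Polynomial κ), aeval x V ≠ 0 ∧
      P.map (aeval x : Polynomial κ →ₐ[κ] L).toRingHom =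
        C (aeval x V) * g.map (algebraMap (IntermediateField.adjoin κ {x}) L) := by
  induction g using Polynomial.induction_on' with
  | add g₁ g₂ h₁ h₂ =>
    obtain ⟨P₁, V₁, hV₁, hP₁⟩ := h₁
    obtain ⟨P₂, V₂, hV₂, hP₂⟩ := h₂
    refine ⟨C V₂ * P₁ + C V₁ * P₂, V₁ * V₂, ?_, ?_⟩
    · rw [map_mul]
      exact mul_ne_zero hV₁ hV₂
    · rw [Polynomial.map_add, Polynomial.map_mul, Polynomial.map_mul, hP₁, hP₂, Polynomial.map_C,
        Polynomial.map_C, Polynomial.map_add, map_mul, C_mul]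
      simp only [AlgHom.toRingHom_eq_coe, RingHom.coe_coe]
      ring
  | monomial i a =>
    obtain ⟨u, w, hu⟩ := (IntermediateField.mem_adjoin_simple_iff κ (a : L)).mp a.2
    by_cases hw : aeval x w = 0
    · refine ⟨0, 1, ?_, ?_⟩
      · rw [map_one]
        exact one_ne_zero
      · have ha : a = 0 := by
          apply Subtype.ext
          rw [hu, hw, div_zero]
          rfl
        rw [ha]
        simp
    · refine ⟨monomial i u, w, hw, ?_⟩
      rw [Polynomial.map_monomial, Polynomial.map_monomial, C_mul_monomial]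
      congr 1
      show aeval x u = aeval x w * (a : L)
      rw [hu, mul_div_cancel₀ _ hw]

/-- **Liftable polynomial form of separability.**  If `y` is integral and separable over `κ(x)`
then there is `P ∈ κ[X][Y]` with `P(x, y) = 0` and `(∂P/∂Y)(x, y) ≠ 0`. -/
theorem exists_bivariate_simple_root (x y : L)
    (hsep : IsSeparable (IntermediateField.adjoin κ {x}) y) :
    ∃ P : Polynomial (Polynomial κ),
      P.eval₂ (aeval x : Polynomial κ →ₐ[κ] L).toRingHom y = 0 ∧
      (derivative P).eval₂ (aeval x : Polynomial κ →ₐ[κ] L).toRingHom y ≠ 0 := by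
  obtain ⟨P, V, hV, hP⟩ := exists_clear_denominators x (minpoly (IntermediateField.adjoin κ {x}) y)
  refine ⟨P, ?_, ?_⟩
  · rw [eval₂_eq_eval_map, hP, eval_mul, eval_C, eval_map_algebraMap, minpoly.aeval, mul_zero]
  · rw [eval₂_eq_eval_map, ← derivative_map, hP, derivative_C_mul, eval_mul, eval_C, derivative_map,
      eval_map_algebraMap]
    exact mul_ne_zero hV (hsep.aeval_derivative_ne_zero (minpoly.aeval _ _))

end PolyForm

section LaurentPolyForm

variable {κ : Type*} [Field κ] [PerfectField κ] (p : ℕ) [hp : Fact p.Prime] [CharP κ p]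

/-- **G-SEP, liftable form.**  `κ` perfect of characteristic `p`, `x ∈ κ((q))` of order prime to
`p`, `y ∈ κ((q))` algebraic over `κ(x)`: there is `P ∈ κ[X][Y]` with `P(x, y) = 0` and
`(∂P/∂Y)(x, y) ≠ 0`. -/
theorem exists_bivariate_simple_root_laurent (x y : LaurentSeries κ) (hx : ¬ (p : ℤ) ∣ x.order)
    (hy : IsAlgebraic (IntermediateField.adjoin κ {x}) y) :
    ∃ P : Polynomial (Polynomial κ),
      P.eval₂ (aeval x : Polynomial κ →ₐ[κ] LaurentSeries κ).toRingHom y = 0 ∧
      (derivative P).eval₂ (aeval x : Polynomial κ →ₐ[κ] LaurentSeries κ).toRingHom y ≠ 0 :=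
  exists_bivariate_simple_root x y (isSeparable_laurent p x y hx hy)

end LaurentPolyForm

end Fermat.Agent.S18.H264

end
-- ===== PACK-END S18/H264/SepLaurent.lean

-- ===== PACK-BEGIN S20/Comb/Orbits.lean
section








/-!
# Counting orbits of a cyclic group whose generator has prime order on a finite set

If `g ^ n` acts trivially on the finite set `X` and `n` is prime then
`n * #(X / ⟨g⟩) = #X + (n - 1) * #Fix(g)`.
-/

set_option autoImplicit false

namespace Fermat.Agent.S20.Comb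

open MulAction Subgroup Function

variable {G X : Type*} [Group G] [MulAction G X]

lemma card_eq_sum_minimalPeriod [Fintype X] (g : G)
    [Fintype (orbitRel.Quotient (zpowers g) X)] :
    Fintype.card X
      = ∑ q : orbitRel.Quotient (zpowers g) X, minimalPeriod (g • ·) q.out := by
  have (q : orbitRel.Quotient (zpowers g) X) :
      Fintype (MulAction.orbit (zpowers g) q.out) := Fintype.ofFinite _
  simp only [MulAction.minimalPeriod_eq_card]
  rw [← Fintype.card_sigma]
  exact Fintype.card_congr (MulAction.selfEquivSigmaOrbits (zpowers g) X)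

lemma minimalPeriod_eq_of_prime (g : G) (n : ℕ) (hn : n.Prime) (hg : ∀ x : X, g ^ n • x = x)
    (x : X) [Decidable (g • x = x)] :
    minimalPeriod (g • ·) x = if g • x = x then 1 else n := by
  have hper : IsPeriodicPt (g • ·) n x := by
    rw [IsPeriodicPt, IsFixedPt, smul_iterate]
    exact hg x
  have hdvd := hper.minimalPeriod_dvd
  rcases (Nat.dvd_prime hn).mp hdvd with h1 | h2
  · have hfix : g • x = x := minimalPeriod_eq_one_iff_isFixedPt.mp h1
    rw [h1, if_pos hfix]
  · have hfix : ¬ g • x = x := fun h => by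
      have h1 : minimalPeriod (g • ·) x = 1 := minimalPeriod_eq_one_iff_isFixedPt.mpr h
      rw [h2] at h1
      exact hn.one_lt.ne' h1
    rw [h2, if_neg hfix]

lemma smul_eq_of_mem_orbit_zpowers_of_fixed (g : G) (x y : X) (hx : g • x = x)
    (hy : y ∈ MulAction.orbit (zpowers g) x) : y = x := by
  obtain ⟨⟨h, hh⟩, rfl⟩ := hy
  obtain ⟨k, rfl⟩ := Subgroup.mem_zpowers_iff.mp hh
  exact fixedBy_subset_fixedBy_zpow X g k hx

/-- If `g ^ n` acts trivially on the finite set `X` (`n` prime), then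
`n * #orbits = #X + (n - 1) * #Fix(g)`. -/
theorem prime_mul_card_orbits [Finite X] (g : G) (n : ℕ) (hn : n.Prime)
    (hg : ∀ x : X, g ^ n • x = x) :
    n * Nat.card (orbitRel.Quotient (zpowers g) X)
      = Nat.card X + (n - 1) * Nat.card (fixedBy X g) := by
  classical
  haveI := Fintype.ofFinite X
  haveI : Fintype (orbitRel.Quotient (zpowers g) X) := Fintype.ofFinite _
  have h1 := card_eq_sum_minimalPeriod (X := X) g
  simp only [minimalPeriod_eq_of_prime g n hn hg] at h1
  rw [Finset.sum_ite, Finset.sum_const, Finset.sum_const, smul_eq_mul, mul_one,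
    smul_eq_mul] at h1
  have h2 : (Finset.univ.filter
      (fun q : orbitRel.Quotient (zpowers g) X => g • q.out = q.out)).card
        = Nat.card (fixedBy X g) := by
    rw [← Fintype.card_subtype, ← Nat.card_eq_fintype_card]
    refine Nat.card_eq_of_bijective
      (fun q : {q : orbitRel.Quotient (zpowers g) X // g • q.out = q.out} =>
        (⟨q.1.out, q.2⟩ : fixedBy X g)) ⟨?_, ?_⟩
    · intro q q' h
      have h' : q.1.out = q'.1.out := congrArg Subtype.val h
      exact Subtype.ext (Quotient.out_injective h')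
    · rintro ⟨x, hx⟩
      have hx' : g • x = x := hx
      have hout : (Quotient.mk'' x : orbitRel.Quotient (zpowers g) X).out = x := by
        apply smul_eq_of_mem_orbit_zpowers_of_fixed g x _ hx'
        have := Quotient.exact (Quotient.out_eq (Quotient.mk'' x : orbitRel.Quotient (zpowers g) X))
        exact (MulAction.orbitRel_apply).mp this
      refine ⟨⟨Quotient.mk'' x, ?_⟩, ?_⟩
      · rw [hout]; exact hx'
      · exact Subtype.ext hout
  have h3 := Finset.card_filter_add_card_filter_not (s := (Finset.univ :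
      Finset (orbitRel.Quotient (zpowers g) X)))
      (fun q : orbitRel.Quotient (zpowers g) X => g • q.out = q.out)
  rw [Finset.card_univ] at h3
  rw [Nat.card_eq_fintype_card, Nat.card_eq_fintype_card, ← h3, h1, ← h2]
  obtain ⟨m, rfl⟩ : ∃ m, n = m + 1 := ⟨n - 1, (Nat.succ_pred_eq_of_pos hn.pos).symm⟩
  simp only [Nat.add_sub_cancel]
  ring

end Fermat.Agent.S20.Comb

end
-- ===== PACK-END S20/Comb/Orbits.lean

-- ===== PACK-BEGIN S20/Comb/Basic.lean
section






/-!
# Combinatorics on `SL(2,ℤ) ⧸ Gamma0 N` : basic coset criterion, fixed points of `S` and `S * T`.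

Left cosets, Mathlib's left-multiplication action (`MulAction.quotient`).
-/

set_option autoImplicit false

namespace Fermat.Agent.S20.Comb

open Matrix MatrixGroups CongruenceSubgroup

/-- The `(1,0)` entry of `g⁻¹ * g'`. -/
lemma inv_mul_apply_one_zero (g g' : SL(2, ℤ)) :
    (g⁻¹ * g') 1 0 = g 0 0 * g' 1 0 - g 1 0 * g' 0 0 := by
  rw [Matrix.SpecialLinearGroup.coe_mul, Matrix.SpecialLinearGroup.coe_inv,
    Matrix.adjugate_fin_two, Matrix.mul_apply, Fin.sum_univ_two]
  simp
  ring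

/-- Coset criterion: `g Γ₀(N) = g' Γ₀(N)` iff `a c' - c a' ≡ 0 mod N`, where `(a, c)`, `(a', c')`
are the first columns of `g`, `g'`. -/
lemma mk_eq_mk_iff (N : ℕ) (g g' : SL(2, ℤ)) :
    (QuotientGroup.mk g : SL(2, ℤ) ⧸ Gamma0 N) = QuotientGroup.mk g' ↔
      ((g 0 0 : ℤ) : ZMod N) * ((g' 1 0 : ℤ) : ZMod N)
        - ((g 1 0 : ℤ) : ZMod N) * ((g' 0 0 : ℤ) : ZMod N) = 0 := by
  rw [QuotientGroup.eq, Gamma0_mem, inv_mul_apply_one_zero]
  push_cast
  rfl

/-- Determinant relation in `ZMod N`. -/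
lemma det_cast (N : ℕ) (g : SL(2, ℤ)) :
    ((g 0 0 : ℤ) : ZMod N) * ((g 1 1 : ℤ) : ZMod N)
      - ((g 0 1 : ℤ) : ZMod N) * ((g 1 0 : ℤ) : ZMod N) = 1 := by
  have h := g.det_coe
  rw [Matrix.det_fin_two] at h
  have := congrArg (fun z : ℤ => (z : ZMod N)) h
  simpa using this

/-- Fixed-point criterion for a general element `γ`. -/
lemma smul_mk_eq_mk_iff (N : ℕ) (γ g : SL(2, ℤ)) :
    γ • (QuotientGroup.mk g : SL(2, ℤ) ⧸ Gamma0 N) = QuotientGroup.mk g ↔
      ((g 0 0 : ℤ) : ZMod N) * (((γ * g) 1 0 : ℤ) : ZMod N)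
        - ((g 1 0 : ℤ) : ZMod N) * (((γ * g) 0 0 : ℤ) : ZMod N) = 0 := by
  rw [MulAction.Quotient.smul_mk, smul_eq_mul, eq_comm, mk_eq_mk_iff]

lemma S_mul_apply_zero_zero (g : SL(2, ℤ)) : (ModularGroup.S * g) 0 0 = - g 1 0 := by
  rw [Matrix.SpecialLinearGroup.coe_mul, ModularGroup.coe_S, Matrix.mul_apply, Fin.sum_univ_two]
  simp

lemma S_mul_apply_one_zero (g : SL(2, ℤ)) : (ModularGroup.S * g) 1 0 = g 0 0 := by
  rw [Matrix.SpecialLinearGroup.coe_mul, ModularGroup.coe_S, Matrix.mul_apply, Fin.sum_univ_two]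
  simp

lemma coe_S_mul_T : ((ModularGroup.S * ModularGroup.T : SL(2, ℤ)) : Matrix (Fin 2) (Fin 2) ℤ)
    = !![0, -1; 1, 1] := by
  rw [Matrix.SpecialLinearGroup.coe_mul, ModularGroup.coe_S, ModularGroup.coe_T]
  ext i j
  fin_cases i <;> fin_cases j <;> simp [Matrix.mul_apply, Fin.sum_univ_two]

lemma ST_mul_apply_zero_zero (g : SL(2, ℤ)) :
    (ModularGroup.S * ModularGroup.T * g) 0 0 = - g 1 0 := by
  rw [Matrix.SpecialLinearGroup.coe_mul, coe_S_mul_T, Matrix.mul_apply, Fin.sum_univ_two]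
  simp

lemma ST_mul_apply_one_zero (g : SL(2, ℤ)) :
    (ModularGroup.S * ModularGroup.T * g) 1 0 = g 0 0 + g 1 0 := by
  rw [Matrix.SpecialLinearGroup.coe_mul, coe_S_mul_T, Matrix.mul_apply, Fin.sum_univ_two]
  simp

/-- `g Γ₀(N)` is fixed by `S` iff `a² + c² ≡ 0 mod N`. -/
lemma S_smul_mk_eq_mk_iff (N : ℕ) (g : SL(2, ℤ)) :
    ModularGroup.S • (QuotientGroup.mk g : SL(2, ℤ) ⧸ Gamma0 N) = QuotientGroup.mk g ↔
      ((g 0 0 : ℤ) : ZMod N) ^ 2 + ((g 1 0 : ℤ) : ZMod N) ^ 2 = 0 := by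
  rw [smul_mk_eq_mk_iff, S_mul_apply_zero_zero, S_mul_apply_one_zero]
  push_cast
  constructor <;> intro h <;> linear_combination h

/-- `g Γ₀(N)` is fixed by `S * T` iff `a² + a c + c² ≡ 0 mod N`. -/
lemma ST_smul_mk_eq_mk_iff (N : ℕ) (g : SL(2, ℤ)) :
    (ModularGroup.S * ModularGroup.T) • (QuotientGroup.mk g : SL(2, ℤ) ⧸ Gamma0 N)
        = QuotientGroup.mk g ↔
      ((g 0 0 : ℤ) : ZMod N) ^ 2 + ((g 0 0 : ℤ) : ZMod N) * ((g 1 0 : ℤ) : ZMod N)
        + ((g 1 0 : ℤ) : ZMod N) ^ 2 = 0 := by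
  rw [smul_mk_eq_mk_iff, ST_mul_apply_zero_zero, ST_mul_apply_one_zero]
  push_cast
  constructor <;> intro h <;> linear_combination h

/-- The matrix `[[x, -1], [1, 0]]` in `SL(2,ℤ)`. -/
def colRep (x : ℤ) : SL(2, ℤ) := ⟨!![x, -1; 1, 0], by simp [Matrix.det_fin_two]⟩

@[simp] lemma colRep_apply_zero_zero (x : ℤ) : colRep x 0 0 = x := rfl
@[simp] lemma colRep_apply_one_zero (x : ℤ) : colRep x 1 0 = 1 := rfl

/-- If `a² = c * r` in `ZMod N` for the first column `(a, c)` of `g ∈ SL(2,ℤ)`, then `c` has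
an explicit inverse. -/
lemma c_mul_inv_eq_one (N : ℕ) (g : SL(2, ℤ)) (r : ZMod N)
    (h : ((g 0 0 : ℤ) : ZMod N) ^ 2 = ((g 1 0 : ℤ) : ZMod N) * r) :
    ((g 1 0 : ℤ) : ZMod N) *
      (r * ((g 1 1 : ℤ) : ZMod N) ^ 2
        - 2 * ((g 0 0 : ℤ) : ZMod N) * ((g 0 1 : ℤ) : ZMod N) * ((g 1 1 : ℤ) : ZMod N)
        + ((g 0 1 : ℤ) : ZMod N) ^ 2 * ((g 1 0 : ℤ) : ZMod N)) = 1 := by
  have hdet := det_cast N g
  linear_combination (-(((g 1 1 : ℤ) : ZMod N)) ^ 2) * h
    + (((g 0 0 : ℤ) : ZMod N) * ((g 1 1 : ℤ) : ZMod N)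
        - ((g 0 1 : ℤ) : ZMod N) * ((g 1 0 : ℤ) : ZMod N) + 1) * hdet

end Fermat.Agent.S20.Comb

end
-- ===== PACK-END S20/Comb/Basic.lean

-- ===== PACK-BEGIN S18/H504/ValDvr.lean
section



/-!
# S18 — every nontrivial valuation ring of a function field is discrete (char-free)

`F/K` a field extension, `O` a valuation subring of `F` containing `K`, `u ∈ O` a non-unit,
`u ≠ 0`, with `F` finite over `K(u)`.  Then `O` is a principal ideal ring, hence a `Place K F`.
No hypothesis on the characteristic, no separability, `K` arbitrary.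

Main results:
* `isPrincipalIdealRing_of_finite` : `IsPrincipalIdealRing O`;
* `placeOfValuationSubring` : the `Place K F` with valuation ring `O`.
-/

set_option autoImplicit false

namespace Fermat.Agent.S18.H504

open AlgebraicCurve IntermediateField Polynomial

variable {K F : Type*} [Field K] [Field F] [Algebra K F]

/-- If a finite sum vanishes and some term is nonzero, the maximal valuation is attained by two
distinct (nonzero) terms. -/
theorem exists_ne_valuation_eq {Γ₀ : Type*} [LinearOrderedCommGroupWithZero Γ₀]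
    (v : Valuation F Γ₀) {ι : Type*} [DecidableEq ι] (s : Finset ι) (a : ι → F)
    (hsum : ∑ i ∈ s, a i = 0) (hne : ∃ i ∈ s, a i ≠ 0) :
    ∃ i ∈ s, ∃ j ∈ s, i ≠ j ∧ a i ≠ 0 ∧ a j ≠ 0 ∧ v (a i) = v (a j) := by
  obtain ⟨i₁, hi₁, hai₁⟩ := hne
  obtain ⟨i₀, hi₀, hmax⟩ := Finset.exists_max_image s (fun i => v (a i)) ⟨i₁, hi₁⟩
  have hv0 : v (a i₀) ≠ 0 := by
    intro h0
    have := hmax i₁ hi₁
    rw [h0] at this
    exact hai₁ ((v.zero_iff).mp (le_antisymm this zero_le))
  have hai₀ : a i₀ ≠ 0 := fun h => hv0 (by rw [h, map_zero])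
  by_contra hcon
  push Not at hcon
  have hlt : ∀ i ∈ s \ {i₀}, v (a i) < v (a i₀) := by
    intro i hi
    rw [Finset.mem_sdiff, Finset.mem_singleton] at hi
    refine lt_of_le_of_ne (hmax i hi.1) ?_
    intro heq
    have hai : a i ≠ 0 := fun h => hv0 (by rw [← heq, h, map_zero])
    exact hcon i₀ hi₀ i hi.1 (Ne.symm hi.2) hai₀ hai heq.symm
  have := v.map_sum_eq_of_lt hi₀ hlt
  rw [hsum, map_zero] at this
  exact hv0 this.symm

section

variable (O : ValuationSubring F) (hK : ∀ a : K, algebraMap K F a ∈ O)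

include hK in
theorem valuation_algebraMap {c : K} (hc : c ≠ 0) : O.valuation (algebraMap K F c) = 1 := by
  have h1 : O.valuation (algebraMap K F c) ≤ 1 := (O.valuation_le_one_iff _).mpr (hK c)
  have h2 : O.valuation (algebraMap K F c⁻¹) ≤ 1 := (O.valuation_le_one_iff _).mpr (hK c⁻¹)
  rw [map_inv₀, map_inv₀] at h2
  have hne : O.valuation (algebraMap K F c) ≠ 0 :=
    (Valuation.ne_zero_iff _).mpr (by simpa using hc)
  exact le_antisymm h1 ((inv_le_one₀ (zero_lt_iff.mpr hne)).mp h2)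

include hK in
theorem aeval_mem {u : F} (hu : u ∈ O) (p : K[X]) : aeval u p ∈ O := by
  rw [aeval_eq_sum_range]
  refine Subring.sum_mem O.toSubring fun i _ => ?_
  rw [Algebra.smul_def]
  exact O.mul_mem _ _ (hK _) (pow_mem hu i)

include hK in
theorem valuation_aeval_of_coeff_zero_ne {u : F} (hu : u ∈ O) (hu' : u⁻¹ ∉ O) (q : K[X])
    (hq : q.coeff 0 ≠ 0) : O.valuation (aeval u q) = 1 := by
  have hdecomp : aeval u q = aeval u q.divX * u + algebraMap K F (q.coeff 0) := by
    conv_lhs => rw [← divX_mul_X_add q]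
    simp only [map_add, map_mul, aeval_X, aeval_C]
  have hu1 : O.valuation u < 1 := by
    have h1 : O.valuation u ≤ 1 := (O.valuation_le_one_iff _).mpr hu
    refine lt_of_le_of_ne h1 fun h => hu' ?_
    rw [← O.valuation_le_one_iff, map_inv₀, h, inv_one]
  have h2 : O.valuation (aeval u q.divX * u) < 1 := by
    rw [map_mul]
    have h3 : O.valuation (aeval u q.divX) ≤ 1 := (O.valuation_le_one_iff _).mpr (aeval_mem O hK hu _)
    calc O.valuation (aeval u q.divX) * O.valuation u ≤ 1 * O.valuation u :=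
          mul_le_mul_left (α := O.ValueGroup) h3 _
      _ < 1 := by rwa [one_mul]
  rw [hdecomp, Valuation.map_add_eq_of_lt_right _ (by rwa [valuation_algebraMap O hK hq]),
    valuation_algebraMap O hK hq]

include hK in
theorem valuation_aeval {u : F} (hu : u ∈ O) (hu' : u⁻¹ ∉ O) (p : K[X]) (hp : p ≠ 0) :
    O.valuation (aeval u p) = O.valuation u ^ p.rootMultiplicity 0 := by
  obtain ⟨q, hpq, hq⟩ := exists_eq_pow_rootMultiplicity_mul_and_not_dvd p hp 0
  have hq0 : q.coeff 0 ≠ 0 := by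
    intro h
    apply hq
    rw [C_0, sub_zero]
    exact X_dvd_iff.mpr h
  conv_lhs => rw [hpq]
  rw [map_mul, map_pow, C_0, sub_zero, aeval_X, map_mul, map_pow,
    valuation_aeval_of_coeff_zero_ne O hK hu hu' q hq0, mul_one]

include hK in
/-- On `K(u)` the valuation is a power of the valuation of `u`. -/
theorem exists_zpow_of_mem_adjoin {u : F} (hu : u ∈ O) (hu' : u⁻¹ ∉ O) {g : F}
    (hg : g ∈ K⟮u⟯) (hg0 : g ≠ 0) : ∃ a : ℤ, O.valuation g = O.valuation u ^ a := by
  obtain ⟨r, s, rfl⟩ := (mem_adjoin_simple_iff K g).mp hg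
  have hr : r ≠ 0 := by
    rintro rfl
    simp at hg0
  have hs : s ≠ 0 := by
    rintro rfl
    simp at hg0
  refine ⟨(r.rootMultiplicity 0 : ℤ) - s.rootMultiplicity 0, ?_⟩
  have hu0 : O.valuation u ≠ 0 := by
    rw [Valuation.ne_zero_iff]
    rintro rfl
    exact hu' (by simp)
  rw [map_div₀, valuation_aeval O hK hu hu' r hr, valuation_aeval O hK hu hu' s hs,
    zpow_sub₀ hu0, zpow_natCast, zpow_natCast]

include hK in
/-- Some positive power `≤ [F : K(u)]` of the valuation of any `f ≠ 0` is a power of the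
valuation of `u`. -/
theorem exists_pow_eq_zpow {u : F} (hu : u ∈ O) (hu' : u⁻¹ ∉ O) [FiniteDimensional K⟮u⟯ F]
    {f : F} (hf : f ≠ 0) :
    ∃ d : ℕ, 0 < d ∧ d ≤ Module.finrank K⟮u⟯ F ∧
      ∃ a : ℤ, O.valuation f ^ d = O.valuation u ^ a := by
  classical
  set n := Module.finrank K⟮u⟯ F with hn
  have hdep : ¬ LinearIndependent K⟮u⟯ (fun i : Fin (n + 1) => f ^ (i : ℕ)) := by
    intro hli
    have := hli.fintype_card_le_finrank
    rw [Fintype.card_fin] at this
    omega
  obtain ⟨c, hsum, i₁, hi₁⟩ := Fintype.not_linearIndependent_iff.mp hdep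
  have hne : ∃ i ∈ (Finset.univ : Finset (Fin (n + 1))), c i • f ^ (i : ℕ) ≠ 0 := by
    refine ⟨i₁, Finset.mem_univ _, ?_⟩
    rw [Algebra.smul_def]
    exact mul_ne_zero (by simpa using hi₁) (pow_ne_zero _ hf)
  obtain ⟨i, -, j, -, hij, hai, haj, hval⟩ :=
    exists_ne_valuation_eq O.valuation Finset.univ (fun i => c i • f ^ (i : ℕ)) hsum hne
  have hci : c i ≠ 0 := fun h => hai (by simp [h])
  have hcj : c j ≠ 0 := fun h => haj (by simp [h])
  obtain ⟨ai, hvi⟩ := exists_zpow_of_mem_adjoin O hK hu hu' (c i).2 (by simpa using hci)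
  obtain ⟨aj, hvj⟩ := exists_zpow_of_mem_adjoin O hK hu hu' (c j).2 (by simpa using hcj)
  have hu0 : O.valuation u ≠ 0 := by
    rw [Valuation.ne_zero_iff]
    rintro rfl
    exact hu' (by simp)
  have hf0 : O.valuation f ≠ 0 := (Valuation.ne_zero_iff _).mpr hf
  simp only [Algebra.smul_def, map_mul, map_pow] at hval
  have hvi' : O.valuation (algebraMap K⟮u⟯ F (c i)) = O.valuation u ^ ai := hvi
  have hvj' : O.valuation (algebraMap K⟮u⟯ F (c j)) = O.valuation u ^ aj := hvj
  rw [hvi', hvj'] at hval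
  -- wlog i < j
  have key : ∀ (i j : ℕ) (ai aj : ℤ), i < j → j ≤ n →
      O.valuation u ^ ai * O.valuation f ^ i = O.valuation u ^ aj * O.valuation f ^ j →
      ∃ d : ℕ, 0 < d ∧ d ≤ n ∧ ∃ a : ℤ, O.valuation f ^ d = O.valuation u ^ a := by
    intro i j ai aj hlt hjn h
    refine ⟨j - i, by omega, by omega, ai - aj, ?_⟩
    have hj : j = (j - i) + i := by omega
    rw [hj, pow_add] at h
    have hfi : O.valuation f ^ i ≠ 0 := pow_ne_zero _ hf0
    have h2 : O.valuation u ^ ai = O.valuation u ^ aj * O.valuation f ^ (j - i) :=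
      mul_right_cancel₀ hfi (h.trans (mul_assoc _ _ _).symm)
    have huaj : O.valuation u ^ aj ≠ 0 := zpow_ne_zero _ hu0
    rw [zpow_sub₀ hu0, h2, mul_comm (O.valuation u ^ aj), mul_div_assoc, div_self huaj, mul_one]
  have hi_le : (i : ℕ) ≤ n := Nat.lt_succ_iff.mp i.2
  have hj_le : (j : ℕ) ≤ n := Nat.lt_succ_iff.mp j.2
  rcases lt_or_gt_of_ne (fun h => hij (Fin.ext h) : (i : ℕ) ≠ j) with h | h
  · exact key i j ai aj h hj_le hval
  · exact key j i aj ai h hi_le hval.symm

include hK in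
theorem exists_factorial_pow_eq_zpow {u : F} (hu : u ∈ O) (hu' : u⁻¹ ∉ O)
    [FiniteDimensional K⟮u⟯ F] {f : F} (hf : f ≠ 0) :
    ∃ a : ℤ, O.valuation f ^ (Module.finrank K⟮u⟯ F).factorial = O.valuation u ^ a := by
  obtain ⟨d, hd0, hdn, a, h⟩ := exists_pow_eq_zpow O hK hu hu' hf
  obtain ⟨k, hk⟩ := Nat.dvd_factorial hd0 hdn
  refine ⟨a * k, ?_⟩
  rw [hk, pow_mul, h, zpow_mul, zpow_natCast]

include hK in
/-- **Discreteness.** A valuation ring of `F` containing `K`, with a nonzero non-unit `u` such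
that `F` is finite over `K(u)`, is a principal ideal ring. -/
theorem isPrincipalIdealRing_of_finite {u : F} (hu : u ∈ O) (hu' : u⁻¹ ∉ O)
    [FiniteDimensional K⟮u⟯ F] : IsPrincipalIdealRing O := by
  classical
  set M := (Module.finrank K⟮u⟯ F).factorial with hM
  have hM0 : M ≠ 0 := Nat.factorial_ne_zero _
  have hu0 : u ≠ 0 := by
    rintro rfl
    exact hu' (by simp)
  have hγ0 : O.valuation u ≠ 0 := (Valuation.ne_zero_iff _).mpr hu0
  have hγ1 : O.valuation u < 1 := by
    have h1 : O.valuation u ≤ 1 := (O.valuation_le_one_iff _).mpr hu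
    refine lt_of_le_of_ne h1 fun h => hu' ?_
    rw [← O.valuation_le_one_iff, map_inv₀, h, inv_one]
  -- integral elements have natural exponents
  have hnat : ∀ b : F, b ∈ O → b ≠ 0 → ∃ k : ℕ, O.valuation b ^ M = O.valuation u ^ k := by
    intro b hb hb0
    obtain ⟨a, ha⟩ := exists_factorial_pow_eq_zpow O hK hu hu' hb0
    rw [← hM] at ha
    have hle : O.valuation b ^ M ≤ 1 := pow_le_one₀ zero_le ((O.valuation_le_one_iff _).mpr hb)
    rcases le_or_gt 0 a with h0 | h0
    · refine ⟨a.toNat, ?_⟩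
      rw [ha, ← zpow_natCast, Int.toNat_of_nonneg h0]
    · exfalso
      rw [ha] at hle
      have h1 : O.valuation u ^ a = (O.valuation u ^ (-a).toNat)⁻¹ := by
        rw [← zpow_natCast, Int.toNat_of_nonneg (by omega), zpow_neg, inv_inv]
      have h2 : O.valuation u ^ (-a).toNat < 1 :=
        pow_lt_one₀ zero_le hγ1 (by omega)
      have h3 : 1 < (O.valuation u ^ (-a).toNat)⁻¹ :=
        (one_lt_inv₀ (zero_lt_iff.mpr (pow_ne_zero _ hγ0))).mpr h2
      rw [h1] at hle
      exact absurd hle (not_le.mpr h3)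
  refine ⟨fun I => ?_⟩
  by_cases hI : I = ⊥
  · rw [hI]; exact bot_isPrincipal
  have hex : ∃ k : ℕ, ∃ a ∈ I, a ≠ 0 ∧ O.valuation (a : F) ^ M = O.valuation u ^ k := by
    obtain ⟨a, haI, ha0⟩ := Submodule.exists_mem_ne_zero_of_ne_bot hI
    obtain ⟨k, hk⟩ := hnat a a.2 (by simpa using ha0)
    exact ⟨k, a, haI, ha0, hk⟩
  obtain ⟨a, haI, ha0, hak⟩ := Nat.find_spec hex
  refine ⟨⟨a, ?_⟩⟩
  apply le_antisymm
  · intro b hb
    rw [Submodule.mem_span_singleton]
    rcases eq_or_ne b 0 with rfl | hb0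
    · exact ⟨0, by simp⟩
    have haF : (a : F) ≠ 0 := by simpa using ha0
    have hbF : (b : F) ≠ 0 := by simpa using hb0
    obtain ⟨kb, hkb⟩ := hnat b b.2 hbF
    have hmin : Nat.find hex ≤ kb := Nat.find_min' hex ⟨b, hb, hb0, hkb⟩
    have hle : O.valuation (b : F) ^ M ≤ O.valuation (a : F) ^ M := by
      rw [hkb, hak]
      exact pow_le_pow_of_le_one zero_le hγ1.le hmin
    have hle' : O.valuation (b : F) ≤ O.valuation (a : F) :=
      (pow_le_pow_iff_left₀ zero_le zero_le hM0).mp hle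
    have hq : (b : F) / (a : F) ∈ O := by
      rw [← O.valuation_le_one_iff, map_div₀]
      exact (div_le_one₀ (zero_lt_iff.mpr ((Valuation.ne_zero_iff _).mpr haF))).mpr hle'
    refine ⟨⟨_, hq⟩, ?_⟩
    ext
    simp only [smul_eq_mul, MulMemClass.coe_mul]
    field_simp
  · rw [Submodule.span_le]
    simpa using haI

theorem ne_top_of_not_mem {u : F} (hu' : u⁻¹ ∉ O) : O ≠ ⊤ :=
  fun h => hu' (h ▸ ValuationSubring.mem_top _)

/-- The place of `F/K` defined by a valuation ring with a non-unit `u`, `[F : K(u)] < ∞`. -/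
noncomputable def placeOfValuationSubring {u : F} (hu : u ∈ O) (hu' : u⁻¹ ∉ O)
    [FiniteDimensional K⟮u⟯ F] : Place K F where
  toValuationSubring := O
  algebraMap_mem' := hK
  ne_top' := fun h => hu' (h ▸ ValuationSubring.mem_top _)
  isPrincipalIdealRing' := isPrincipalIdealRing_of_finite O hK hu hu'

@[simp]
theorem placeOfValuationSubring_toValuationSubring {u : F} (hu : u ∈ O) (hu' : u⁻¹ ∉ O)
    [FiniteDimensional K⟮u⟯ F] :
    (placeOfValuationSubring O hK hu hu').toValuationSubring = O := rfl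

end

end Fermat.Agent.S18.H504

end
-- ===== PACK-END S18/H504/ValDvr.lean

-- ===== PACK-BEGIN S18/H438/Front/Dvr.lean
section


/-!
# S18 / ALG-FRONT (helper438), part 0: a subring with a uniformiser is a DVR

`A : Subring K` (`K` a field), `w ∈ A`, `w ≠ 0`, `w⁻¹ ∉ A`, every nonzero element of `A` is
`w ^ n * unit`.  Then `A` is a discrete valuation ring with uniformiser `w`.
-/

set_option autoImplicit false
set_option linter.unusedSectionVars false

noncomputable section

namespace Fermat.Agent.S18.H438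

variable {K : Type*} [Field K] (A : Subring K) {w : K}

/-- units of a subring of a field, elementwise -/
theorem isUnit_subring_iff {a : A} : IsUnit a ↔ (a : K) ≠ 0 ∧ (a : K)⁻¹ ∈ A := by
  constructor
  · rintro ⟨⟨u, v, huv, hvu⟩, rfl⟩
    have h1 : (u : K) * (v : K) = 1 := congrArg Subtype.val huv
    have hu0 : (u : K) ≠ 0 := left_ne_zero_of_mul_eq_one h1
    refine ⟨hu0, ?_⟩
    have : (u : K)⁻¹ = (v : K) := (eq_inv_of_mul_eq_one_right h1).symm
    rw [show ((⟨u, v, huv, hvu⟩ : Aˣ) : A) = u from rfl, this]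
    exact v.2
  · rintro ⟨h0, hinv⟩
    refine ⟨⟨a, ⟨(a : K)⁻¹, hinv⟩, Subtype.ext ?_, Subtype.ext ?_⟩, rfl⟩
    · show (a : K) * (a : K)⁻¹ = 1
      exact mul_inv_cancel₀ h0
    · show (a : K)⁻¹ * (a : K) = 1
      exact inv_mul_cancel₀ h0

variable (hwA : w ∈ A) (hw0 : w ≠ 0) (hwinv : w⁻¹ ∉ A)
  (hdisc : ∀ r ∈ A, r ≠ 0 → ∃ n : ℕ, r * (w⁻¹) ^ n ∈ A ∧ (r * (w⁻¹) ^ n)⁻¹ ∈ A)

include hwA hw0 hwinv hdisc

/-- `w` is irreducible in `A`. -/
theorem irreducible_unif_of_disc : Irreducible (⟨w, hwA⟩ : A) := by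
  have hnu : ¬ IsUnit (⟨w, hwA⟩ : A) := fun h => hwinv ((isUnit_subring_iff A).1 h).2
  refine ⟨hnu, ?_⟩
  intro a b hab
  have habK : w = (a : K) * (b : K) := congrArg Subtype.val hab
  have ha0 : (a : K) ≠ 0 := fun h => hw0 (by rw [habK, h, zero_mul])
  have hb0 : (b : K) ≠ 0 := fun h => hw0 (by rw [habK, h, mul_zero])
  obtain ⟨n, hn1, hn2⟩ := hdisc a a.2 ha0
  obtain ⟨m, hm1, hm2⟩ := hdisc b b.2 hb0
  -- `w = w^(n+m) * unit`
  have hprod : ((a : K) * (w⁻¹) ^ n) * ((b : K) * (w⁻¹) ^ m) = w * (w⁻¹) ^ (n + m) := by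
    rw [habK, pow_add]; ring
  have hunit : w * (w⁻¹) ^ (n + m) ∈ A ∧ (w * (w⁻¹) ^ (n + m))⁻¹ ∈ A := by
    rw [← hprod]
    refine ⟨A.mul_mem hn1 hm1, ?_⟩
    rw [mul_inv]
    exact A.mul_mem hn2 hm2
  -- so `n + m = 1`
  have hnm : n + m = 1 := by
    rcases Nat.lt_or_ge (n + m) 1 with h | h
    · -- `n + m = 0`: `w` would be a unit
      have h0 : n + m = 0 := by omega
      rw [h0, pow_zero, mul_one] at hunit
      exact absurd hunit.2 hwinv
    · rcases Nat.eq_or_lt_of_le h with h1 | h1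
      · exact h1.symm
      · -- `n + m ≥ 2`: `w⁻¹ = (w * w^-(n+m)) * w^(n+m-2) ∈ A`
        exfalso
        obtain ⟨k, hk⟩ : ∃ k, n + m = k + 2 := ⟨n + m - 2, by omega⟩
        have : w⁻¹ = (w * (w⁻¹) ^ (n + m)) * w ^ k := by
          rw [hk, pow_add, inv_pow, inv_pow]
          field_simp
        apply hwinv
        rw [this]
        exact A.mul_mem hunit.1 (A.pow_mem hwA k)
  rcases Nat.eq_zero_or_pos n with hn | hn
  · left
    rw [isUnit_subring_iff]
    refine ⟨ha0, ?_⟩
    rw [hn, pow_zero, mul_one] at hn2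
    exact hn2
  · right
    have hm : m = 0 := by omega
    rw [isUnit_subring_iff]
    refine ⟨hb0, ?_⟩
    rw [hm, pow_zero, mul_one] at hm2
    exact hm2

/-- **`A` is a discrete valuation ring.** -/
theorem isDiscreteValuationRing_of_disc : IsDiscreteValuationRing A := by
  refine IsDiscreteValuationRing.ofHasUnitMulPowIrreducibleFactorization
    ⟨⟨w, hwA⟩, irreducible_unif_of_disc A hwA hw0 hwinv hdisc, ?_⟩
  intro r hr
  have hr0 : (r : K) ≠ 0 := fun h => hr (Subtype.ext h)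
  obtain ⟨n, hn1, hn2⟩ := hdisc r r.2 hr0
  refine ⟨n, ?_⟩
  have hu : IsUnit (⟨(r : K) * (w⁻¹) ^ n, hn1⟩ : A) := by
    rw [isUnit_subring_iff]
    refine ⟨mul_ne_zero hr0 (pow_ne_zero n (inv_ne_zero hw0)), hn2⟩
  obtain ⟨u, hu'⟩ := hu
  refine ⟨u, Subtype.ext ?_⟩
  rw [hu']
  show w ^ n * ((r : K) * (w⁻¹) ^ n) = r
  rw [inv_pow]
  field_simp

end Fermat.Agent.S18.H438

end
end
-- ===== PACK-END S18/H438/Front/Dvr.lean

-- ===== PACK-BEGIN S37/H278/DetDvd.lean
section


/-!
# S37 / S18, piece b2-core (helper278): determinant divisibility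

A matrix whose rows indexed by `Z` are divisible by `t`, whose column `i₀` is divisible by `t`, and
whose entries `(i, i₀)` with `i ∈ Z` are divisible by `t ^ 2`, has determinant divisible by
`t ^ (#Z + 1)`.
-/

set_option autoImplicit false

namespace Fermat.Agent.S37.H278

open Matrix

theorem pow_card_dvd_det {R : Type*} [CommRing R] {ι : Type*} [Fintype ι] [DecidableEq ι]
    (t : R) (T : Matrix ι ι R) (Z : Finset ι)
    (h1 : ∀ i ∈ Z, ∀ j, t ∣ T i j) :
    t ^ Z.card ∣ T.det := by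
  classical
  choose! r hr using h1
  let T' : Matrix ι ι R := Matrix.of fun i j => if i ∈ Z then r i j else T i j
  have hT : T = Matrix.of fun i j => (if i ∈ Z then t else 1) * T' i j := by
    ext i j
    by_cases hi : i ∈ Z
    · simp [T', hi, hr i hi j]
    · simp [T', hi]
  rw [hT, Matrix.det_mul_column]
  have : (∏ i : ι, if i ∈ Z then t else 1) = t ^ Z.card := by
    rw [Finset.prod_ite_mem, Finset.univ_inter, Finset.prod_const]
  rw [this]
  exact Dvd.intro _ rfl

theorem pow_card_succ_dvd_det {R : Type*} [CommRing R] {ι : Type*} [Fintype ι] [DecidableEq ι]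
    (t : R) (T : Matrix ι ι R) (Z : Finset ι) (i₀ : ι)
    (h1 : ∀ i ∈ Z, ∀ j, t ∣ T i j)
    (h2 : ∀ i ∈ Z, t ^ 2 ∣ T i i₀)
    (h3 : ∀ j, t ∣ T j i₀) :
    t ^ (Z.card + 1) ∣ T.det := by
  classical
  choose! r hr using h1
  choose! q hq using h2
  choose p hp using h3
  let T' : Matrix ι ι R := Matrix.of fun i j =>
    if j = i₀ then (if i ∈ Z then q i else p i) else (if i ∈ Z then r i j else T i j)
  have hT : T = Matrix.of fun i j =>
      (if i ∈ Z then t else 1) * ((Matrix.of fun i j => (if j = i₀ then t else 1) * T' i j) i j) := by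
    ext i j
    by_cases hi : i ∈ Z <;> by_cases hj : j = i₀
    · subst hj; simp [T', hi, hq i hi]; ring
    · simp [T', hi, hj, hr i hi j]
    · subst hj; simp [T', hi, hp i]
    · simp [T', hi, hj]
  rw [hT, Matrix.det_mul_column, Matrix.det_mul_row]
  have e1 : (∏ i : ι, if i ∈ Z then t else 1) = t ^ Z.card := by
    rw [Finset.prod_ite_mem, Finset.univ_inter, Finset.prod_const]
  have e2 : (∏ j : ι, if j = i₀ then t else 1) = t := by
    rw [Finset.prod_ite_eq' Finset.univ i₀ (fun _ => t)]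
    simp
  rw [e1, e2, pow_succ]
  exact Dvd.intro (T'.det) (by ring)

end Fermat.Agent.S37.H278

end
-- ===== PACK-END S37/H278/DetDvd.lean

-- ===== PACK-BEGIN S18/H425/HsepLocal.lean
section


/-!
# S18 / b2.5 HSEP (helper425): local lemmas

* `isSeparable_of_aeval_derivative_ne_zero` : over a field, a root `y` of `P` with `P'(y) ≠ 0`
  is separable.
* `isUnit_discr_of_isSeparable_quotient` : `R` local, `S` finite free over `R`, `𝔪 S` maximal and
  `S/𝔪S` separable over `R/𝔪` (elementwise) ⟹ the discriminant of any basis is a unit.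

Mathlib-only.
-/

set_option autoImplicit false

namespace Fermat.Agent.S18.H425

open Polynomial

/-- A root `y` of `P` with `P'(y) ≠ 0` is separable over the base field. -/
theorem isSeparable_of_aeval_derivative_ne_zero {K F : Type*} [Field K] [Field F] [Algebra K F]
    (y : F) (P : K[X]) (h0 : aeval y P = 0) (h1 : aeval y (derivative P) ≠ 0) :
    IsSeparable K y := by
  have hP0 : P ≠ 0 := by
    rintro rfl
    simp at h1
  have hint : IsIntegral K y := (isAlgebraic_iff_isIntegral).mp ⟨P, hP0, h0⟩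
  obtain ⟨Q, hQ⟩ := minpoly.dvd K y h0
  have hirr : Irreducible (minpoly K y) := minpoly.irreducible hint
  rw [IsSeparable, separable_iff_derivative_ne_zero hirr]
  intro hd
  apply h1
  rw [hQ, derivative_mul, hd, zero_mul, zero_add, map_mul, minpoly.aeval, zero_mul]

open IsLocalRing in
/-- `R` local, `S` finite free over `R` with basis `b`.  If `𝔪 S` is a maximal ideal of `S` and
every element of `S / 𝔪 S` is separable over `R / 𝔪`, then `discr R b` is a unit. -/
theorem isUnit_discr_of_isSeparable_quotient {R S : Type*} [CommRing R] [CommRing S]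
    [Algebra R S] [IsLocalRing R] [Module.Free R S] [Module.Finite R S]
    {ι : Type*} [Fintype ι] [DecidableEq ι] (b : Module.Basis ι R S)
    (hmax : (Ideal.map (algebraMap R S) (maximalIdeal R)).IsMaximal)
    (hsep : ∀ y : S ⧸ Ideal.map (algebraMap R S) (maximalIdeal R),
      IsSeparable (R ⧸ maximalIdeal R) y) :
    IsUnit (Algebra.discr R b) := by
  let : Field (R ⧸ maximalIdeal R) := Ideal.Quotient.field _
  let : Field (S ⧸ Ideal.map (algebraMap R S) (maximalIdeal R)) := Ideal.Quotient.field _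
  have : Algebra.IsSeparable (R ⧸ maximalIdeal R)
      (S ⧸ Ideal.map (algebraMap R S) (maximalIdeal R)) := ⟨hsep⟩
  have : Module.Finite (R ⧸ maximalIdeal R)
      (S ⧸ Ideal.map (algebraMap R S) (maximalIdeal R)) :=
    Module.Finite.of_restrictScalars_finite R _ _
  have hne := Algebra.discr_not_zero_of_basis (R ⧸ maximalIdeal R) (basisQuotient b)
  have hmk : Algebra.discr (R ⧸ maximalIdeal R) (basisQuotient b) =
      Ideal.Quotient.mk (maximalIdeal R) (Algebra.discr R b) := by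
    rw [Algebra.discr_def, Algebra.discr_def, RingHom.map_det]
    congr 1
    ext i j
    simp only [Algebra.traceMatrix_apply, Algebra.traceForm_apply, basisQuotient_apply,
      RingHom.mapMatrix_apply, Matrix.map_apply, ← map_mul]
    exact Algebra.trace_quotient_mk (b i * b j)
  rw [hmk] at hne
  by_contra hu
  apply hne
  rw [Ideal.Quotient.eq_zero_iff_mem]
  exact (IsLocalRing.mem_maximalIdeal _).mpr hu

end Fermat.Agent.S18.H425

end
-- ===== PACK-END S18/H425/HsepLocal.lean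

-- ===== PACK-BEGIN S18/H425/HsepDvd.lean
section


/-!
# S18 / b2.5 HSEP (helper425): divisibility descends along an integral extension of an
integrally closed domain

`dvd_of_algebraMap_dvd`: `Λ` integrally closed domain, `B` a domain, integral and torsion-free
over `Λ`.  If `algebraMap w ∣ algebraMap s` in `B` (`w ≠ 0`) then `w ∣ s` in `Λ`.
Mathlib-only.
-/

set_option autoImplicit false

namespace Fermat.Agent.S18.H425

theorem dvd_of_algebraMap_dvd {Λ B : Type*} [CommRing Λ] [IsDomain Λ] [IsIntegrallyClosed Λ]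
    [CommRing B] [IsDomain B] [Algebra Λ B] [Algebra.IsIntegral Λ B] [Module.IsTorsionFree Λ B]
    {w s : Λ} (hw : w ≠ 0) (h : algebraMap Λ B w ∣ algebraMap Λ B s) : w ∣ s := by
  obtain ⟨b, hb⟩ := h
  have hinj : Function.Injective (algebraMap Λ B) := FaithfulSMul.algebraMap_injective Λ B
  let K := FractionRing Λ
  let L := FractionRing B
  let _ : Algebra K L := FractionRing.liftAlgebra Λ L
  have hwK : algebraMap Λ K w ≠ 0 := by
    simpa using (IsFractionRing.injective Λ K).ne hw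
  -- the element `s / w` of `K` maps to `b` in `L`
  have hb' : algebraMap K L (algebraMap Λ K s / algebraMap Λ K w) = algebraMap B L b := by
    rw [map_div₀, ← IsScalarTower.algebraMap_apply, ← IsScalarTower.algebraMap_apply,
      IsScalarTower.algebraMap_apply Λ B L s, IsScalarTower.algebraMap_apply Λ B L w, hb, map_mul]
    rw [mul_div_assoc, mul_comm, div_mul_cancel₀]
    · rw [← IsScalarTower.algebraMap_apply, IsScalarTower.algebraMap_apply Λ K L]
      exact (map_ne_zero_iff _ (algebraMap K L).injective).mpr hwK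
  have hbint : IsIntegral Λ (algebraMap B L b) := (Algebra.IsIntegral.isIntegral b).algebraMap
  rw [← hb'] at hbint
  have hint : IsIntegral Λ (algebraMap Λ K s / algebraMap Λ K w) :=
    (isIntegral_algebraMap_iff (algebraMap K L).injective).mp hbint
  obtain ⟨c, hc⟩ := IsIntegrallyClosed.algebraMap_eq_of_integral hint
  refine ⟨c, ?_⟩
  apply IsFractionRing.injective Λ K
  rw [map_mul, hc, mul_div_cancel₀ _ hwK]

end Fermat.Agent.S18.H425

end
-- ===== PACK-END S18/H425/HsepDvd.lean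

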