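import Mathlib
import Fermat.Prelude.Def_GaloisRep_Residual
import Fermat.Prelude.Def_Deformations_MatrixRepresentation
import Fermat.Prelude.Def_EllipticCurve_FrobeniusTrace
import Fermat.Prelude.Thm_UpperHalfPlane_qCoeff_heckeU
import Fermat.Prelude.Thm_ModularForm_mdifferentiable_heckeU
import Fermat.Prelude.Thm_ModularForm_isBoundedAtImInfty_heckeU
import Fermat.Prelude.Thm_ModularForm_periodic_heckeU_comp_ofComplex
import Fermat.Prelude.Def_ModularForm_HeckeOperatorForms
import Fermat.Prelude.Def_ModularCurve_JqCoeff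
import Fermat.Prelude.Def_ModularCurve_LaurentCoeff
import Mathlib.GroupTheory.Index
import Mathlib.SetTheory.Cardinal.NatCard
import Mathlib.SetTheory.Cardinal.Finite
import Mathlib.Data.Nat.Factorization.Induction
import Mathlib.Algebra.Squarefree.Basic
import Mathlib.Data.Nat.Squarefree
import Fermat.Prelude.Def_ModularCurve_X0ModL
import Fermat.Agent.Pack.S48.G0E0L0
import Fermat.Agent.Pack.S48.G0E0L3
import Fermat.Agent.Pack.S48.G0E0L2
import Fermat.Agent.Pack.S48.G0E0L1

-- ===== PACK-BEGIN S48/Top/Spec.lean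
section





/-!
# S48 (Deligne–Serre) — TOP-LEVEL frozen interface (row deputy helper948)

Everything in this file is a `Prop` (no proofs, no `sorry`).  The row is assembled as

  `RankinStatement` + `EigenConjStatement`                       ⟹ `ValuesStatement`        (VAL)
  `ResidualStatement` (TOWER A1 + P2)                            ⟹ `ResidualMatStatement`   (MAT)
  MAT + VAL + `ChebDensityStatement` + `FiniteImageStatement`    ⟹ `BoundedImageStatement`  (BND)
  BND + `LiftStatement`                                          ⟹ `ComplexLiftStatement`   (CLIFT)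
  CLIFT                                                          ⟹ `ExactAwayStatement`     (EXA)
  EXA + `ChebDensityStatement`                                   ⟹ `ExactStatement`         (TWO)
  `RankinStatement` + `ChebDensityStatement`                     ⟹ `IrreducibleStatement`   (IRR)
  `ExactStatement` + `IrreducibleStatement`                      ⟹ `S48Statement`           (END)

External inputs (deep): `ResidualStatement`, `EigenConjStatement`, `RankinStatement`,
`FiniteImageStatement`, `LiftStatement`, `Lib.Cheb.SpecQ.ChebDensityStatement`.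
Plan, owners, status: `coord/S48.md` on branch `origin/helper948`.
-/

set_option autoImplicit false

open CongruenceSubgroup
open scoped MatrixGroups
open Matrix

namespace Fermat.Agent.S48.Top

open Fermat.Agent.Lib.Cheb.Spec Fermat.Agent.Lib.Cheb.SpecQ

/-- `ℤ̄ ⊆ ℂ`, the ring of algebraic integers (the coefficient ring of the Prelude). -/
abbrev Zbar : Type := integralClosure ℤ ℂ

/-! ## The hypotheses of S48 -/

/-- The hypotheses of S48 on `(N, ε, f)`: `a₁ = 1` and the Hecke relations at `p ∤ N`. -/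
def IsEigen (N : ℕ) [NeZero N] (ε : DirichletCharacter ℂ N) (f : CuspForm (Gamma1 N) 1) : Prop :=
  ModularFormClass.qCoeff f 1 = 1 ∧
  ∀ p : ℕ, p.Prime → ¬ p ∣ N → ∀ n : ℕ,
    ModularFormClass.qCoeff f (p * n) +
        ε (p : ZMod N) * (if p ∣ n then ModularFormClass.qCoeff f (n / p) else 0) =
      ModularFormClass.qCoeff f p * ModularFormClass.qCoeff f n

/-! ## Attachment predicates -/

/-- `r : G_ℚ → GL₂(k)` is attached to `(f, ε)` through `φ : ℤ̄ → k` away from `D`: it is unramified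
at every prime `p ∤ D`, and every Frobenius at `p` has trace `φ(a_p)` and determinant `φ(ε(p))`. -/
def IsAttachedMod {N : ℕ} [NeZero N] (ε : DirichletCharacter ℂ N) (f : CuspForm (Gamma1 N) 1)
    {k : Type} [Field k] (φ : Zbar →+* k) (D : ℕ) (r : GQ →* GL (Fin 2) k) : Prop :=
  ∀ p : ℕ, p.Prime → ¬ p ∣ D → ∀ A : ValuationSubring Qb, A.LiesOverPrime p →
    (∀ σ ∈ A.inertiaSubgroupIn ℚ, r σ = 1) ∧
    ∀ σ : GQ, A.IsFrobeniusAt σ p →
      ∃ a e : Zbar, (a : ℂ) = ModularFormClass.qCoeff f p ∧ (e : ℂ) = ε (p : ZMod N) ∧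
        ((r σ : GL (Fin 2) k) : Matrix (Fin 2) (Fin 2) k).trace = φ a ∧
        ((r σ : GL (Fin 2) k) : Matrix (Fin 2) (Fin 2) k).det = φ e

/-- `ρ : G_ℚ → GL₂(ℂ)` is congruent to `(f, ε)` modulo `φ` away from `D`: unramified at `p ∤ D`, and
trace and determinant of every Frobenius at `p` are algebraic integers with the same image under
`φ` as `a_p` and `ε(p)`. -/
def IsCongruentC {N : ℕ} [NeZero N] (ε : DirichletCharacter ℂ N) (f : CuspForm (Gamma1 N) 1)
    {k : Type} [Field k] (φ : Zbar →+* k) (D : ℕ) (ρ : GQ →* GL (Fin 2) ℂ) : Prop :=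
  ∀ p : ℕ, p.Prime → ¬ p ∣ D → ∀ A : ValuationSubring Qb, A.LiesOverPrime p →
    (∀ σ ∈ A.inertiaSubgroupIn ℚ, ρ σ = 1) ∧
    ∀ σ : GQ, A.IsFrobeniusAt σ p →
      ∃ a e t d : Zbar, (a : ℂ) = ModularFormClass.qCoeff f p ∧ (e : ℂ) = ε (p : ZMod N) ∧
        (t : ℂ) = ((ρ σ : GL (Fin 2) ℂ) : Matrix (Fin 2) (Fin 2) ℂ).trace ∧
        (d : ℂ) = ((ρ σ : GL (Fin 2) ℂ) : Matrix (Fin 2) (Fin 2) ℂ).det ∧
        φ t = φ a ∧ φ d = φ e

/-- `ρ : G_ℚ → GL₂(ℂ)` is attached to `(f, ε)` away from `D` (the last clause of S48 for `D = N`). -/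
def IsAttachedC {N : ℕ} [NeZero N] (ε : DirichletCharacter ℂ N) (f : CuspForm (Gamma1 N) 1)
    (D : ℕ) (ρ : GQ →* GL (Fin 2) ℂ) : Prop :=
  ∀ p : ℕ, p.Prime → ¬ p ∣ D → ∀ A : ValuationSubring Qb, A.LiesOverPrime p →
    (∀ σ ∈ A.inertiaSubgroupIn ℚ, ρ σ = 1) ∧
    ∀ σ : GQ, A.IsFrobeniusAt σ p →
      ((ρ σ : GL (Fin 2) ℂ) : Matrix (Fin 2) (Fin 2) ℂ).trace = ModularFormClass.qCoeff f p ∧
      ((ρ σ : GL (Fin 2) ℂ) : Matrix (Fin 2) (Fin 2) ℂ).det = ε (p : ZMod N)

/-! ## Group-theoretic predicates (same bodies as `S48/FI/Spec.lean` of helper768) -/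

section Defs

variable {F : Type*} [Field F]

/-- `(trace, det)` of an invertible `2 × 2` matrix. -/
def trDet (g : GL (Fin 2) F) : F × F :=
  ((g : Matrix (Fin 2) (Fin 2) F).trace, (g : Matrix (Fin 2) (Fin 2) F).det)

/-- Semisimplicity of the tautological representation of `G` on `F²`: every `G`-stable line
has a `G`-stable complement. -/
def StableLinesSplit (G : Subgroup (GL (Fin 2) F)) : Prop :=
  ∀ v : Fin 2 → F, v ≠ 0 →
    (∀ g ∈ G, ∃ c : F, (g : Matrix (Fin 2) (Fin 2) F) *ᵥ v = c • v) →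
    ∃ w : Fin 2 → F, (∀ c : F, w ≠ c • v) ∧
      ∀ g ∈ G, ∃ c : F, (g : Matrix (Fin 2) (Fin 2) F) *ᵥ w = c • w

/-- The condition `C(η, M)` of Deligne–Serre: a subset `H` of proportion at least `1 - η` on
which `(trace, det)` takes at most `M` values. -/
def CondC (η : ℝ) (M : ℕ) (G : Subgroup (GL (Fin 2) F)) : Prop :=
  ∃ H : Set (GL (Fin 2) F), H ⊆ (G : Set (GL (Fin 2) F)) ∧
    (1 - η) * (Nat.card G : ℝ) ≤ (Nat.card H : ℝ) ∧
    ∃ P : Finset (F × F), P.card ≤ M ∧ ∀ h ∈ H, trDet h ∈ P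

end Defs

/-! ## External inputs -/

/-- **P4 (RANKIN), sharp form.**  `∑_{p ∈ T} |a_p|² p^{-s} ≤ log (1/(s-1)) + C` for `1 < s ≤ 2`
and every finite set `T` of primes not dividing `N`. -/
def RankinStatement : Prop :=
  ∀ (N : ℕ) [NeZero N] (ε : DirichletCharacter ℂ N) (f : CuspForm (Gamma1 N) 1),
    IsEigen N ε f → ∃ C : ℝ, ∀ s : ℝ, 1 < s → s ≤ 2 → ∀ T : Finset ℕ,
      (∀ p ∈ T, p.Prime ∧ ¬ p ∣ N) →
      ∑ p ∈ T, ‖ModularFormClass.qCoeff f p‖ ^ 2 * (p : ℝ) ^ (-s) ≤
        Real.log (1 / (s - 1)) + C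

/-- **P1 (INT / rational structure of `S₁(Γ₁(N))`), in the form consumed by the row.**  The
eigenvalues `a_p` (`p ∤ N`) are algebraic integers of a number field `K ⊆ ℂ`, and for every
embedding `τ` of `K` the conjugate system `(τ a_p)` is again the system of eigenvalues of a
form satisfying the hypotheses of S48 (for some character `ε'`, in fact `τ ∘ ε`). -/
def EigenConjStatement : Prop :=
  ∀ (N : ℕ) [NeZero N] (ε : DirichletCharacter ℂ N) (f : CuspForm (Gamma1 N) 1),
    IsEigen N ε f → ∃ K : IntermediateField ℚ ℂ, FiniteDimensional ℚ K ∧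
      (∀ p : ℕ, p.Prime → ¬ p ∣ N →
        ModularFormClass.qCoeff f p ∈ K ∧ IsIntegral ℤ (ModularFormClass.qCoeff f p)) ∧
      ∀ τ : K →ₐ[ℚ] ℂ, ∃ (ε' : DirichletCharacter ℂ N) (f' : CuspForm (Gamma1 N) 1),
        IsEigen N ε' f' ∧ ∀ p : ℕ, p.Prime → ¬ p ∣ N → ∀ x : K,
          (x : ℂ) = ModularFormClass.qCoeff f p → ModularFormClass.qCoeff f' p = τ x

/-- **P2 + P3 (TOWER A1), in the shape of the frozen S29.**  For every large prime `ℓ`, every
field `k` of characteristic `ℓ` and every `φ : ℤ̄ → k` there is a residual Galois representation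
over `k`, unramified outside `Nℓ`, with Frobenius characteristic polynomials
`X² - φ(a_p) X + φ(ε(p))` (`p ∤ Nℓ`). -/
def ResidualStatement : Prop :=
  ∀ (N : ℕ) [NeZero N] (ε : DirichletCharacter ℂ N) (f : CuspForm (Gamma1 N) 1),
    IsEigen N ε f → ∃ B : ℕ, ∀ ℓ : ℕ, ℓ.Prime → B < ℓ →
      ∀ (k : Type) [Field k] [CharP k ℓ] (φ : Zbar →+* k),
        ∃ ρ : ResidualGaloisRep k,
          ∀ p : ℕ, p.Prime → ¬ p ∣ N * ℓ → ρ.IsUnramifiedAt p ∧
            ∀ A : ValuationSubring Qb, A.LiesOverPrime p →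
              ∀ σ : GQ, A.IsFrobeniusAt σ p →
                ∃ a e : Zbar, (a : ℂ) = ModularFormClass.qCoeff f p ∧
                  (e : ℂ) = ε (p : ZMod N) ∧
                  LinearMap.charpoly (ρ.ρ σ) =
                    Polynomial.X ^ 2 - Polynomial.C (φ a) * Polynomial.X + Polynomial.C (φ e)

/-- **P5 (FI), general-field form.**  For `η < 1/2` and `M` there is `A` such that for every
prime `ℓ > A`, every field `k` of characteristic `ℓ` and every finite semisimple subgroup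
`G ≤ GL₂(k)` with `C(η, M)` one has `|G| ≤ A`. -/
def FiniteImageStatement : Prop :=
  ∀ (η : ℝ) (M : ℕ), η < 1 / 2 → ∃ A : ℕ, ∀ ℓ : ℕ, ℓ.Prime → A < ℓ →
    ∀ (k : Type) [Field k] [CharP k ℓ] (G : Subgroup (GL (Fin 2) k)), Finite G →
      StableLinesSplit G → CondC η M G → Nat.card G ≤ A

/-- **P6a (LIFT).**  For every prime `ℓ` there are a field `k` of characteristic `ℓ` and
`φ : ℤ̄ → k` such that every homomorphism `r` from a finite group of order prime to `ℓ` to
`GL₂(k)` lifts to `GL₂(ℂ)`: traces and determinants of the lift are algebraic integers reducing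
to those of `r` under `φ`. -/
def LiftStatement : Prop :=
  ∀ ℓ : ℕ, ℓ.Prime → ∃ (k : Type) (_ : Field k) (_ : CharP k ℓ) (φ : Zbar →+* k),
    ∀ (G : Type) [Group G] [Finite G], ¬ ℓ ∣ Nat.card G → ∀ r : G →* GL (Fin 2) k,
      ∃ R : G →* GL (Fin 2) ℂ, ∀ g : G, ∃ t d : Zbar,
        (t : ℂ) = ((R g : GL (Fin 2) ℂ) : Matrix (Fin 2) (Fin 2) ℂ).trace ∧
        (d : ℂ) = ((R g : GL (Fin 2) ℂ) : Matrix (Fin 2) (Fin 2) ℂ).det ∧
        φ t = ((r g : GL (Fin 2) k) : Matrix (Fin 2) (Fin 2) k).trace ∧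
        φ d = ((r g : GL (Fin 2) k) : Matrix (Fin 2) (Fin 2) k).det

/-! ## Derived statements (the layers of the assembly) -/

/-- **VAL** (D–S Prop. 5.5): outside a set of primes of upper density `≤ η`, the eigenvalues
`a_p` take finitely many values. -/
def ValuesStatement : Prop :=
  ∀ (N : ℕ) [NeZero N] (ε : DirichletCharacter ℂ N) (f : CuspForm (Gamma1 N) 1),
    IsEigen N ε f → ∀ η : ℝ, 0 < η → ∃ Y : Finset ℂ,
      HasUpperDensity {p : ℕ | p.Prime ∧ ¬ p ∣ N ∧ ModularFormClass.qCoeff f p ∉ Y} η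

/-- **MAT**: `ResidualStatement` in matrix form, semisimplified. -/
def ResidualMatStatement : Prop :=
  ∀ (N : ℕ) [NeZero N] (ε : DirichletCharacter ℂ N) (f : CuspForm (Gamma1 N) 1),
    IsEigen N ε f → ∃ B : ℕ, ∀ ℓ : ℕ, ℓ.Prime → B < ℓ →
      ∀ (k : Type) [Field k] [CharP k ℓ] (φ : Zbar →+* k),
        ∃ r : GQ →* GL (Fin 2) k, GaloisFactorsThroughFiniteLevel r ∧
          StableLinesSplit r.range ∧ IsAttachedMod ε f φ (N * ℓ) r

/-- **BND** (D–S §8, first half): the images of the mod-`ℓ` representations have bounded order. -/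
def BoundedImageStatement : Prop :=
  ∀ (N : ℕ) [NeZero N] (ε : DirichletCharacter ℂ N) (f : CuspForm (Gamma1 N) 1),
    IsEigen N ε f → ∃ A B : ℕ, ∀ ℓ : ℕ, ℓ.Prime → B < ℓ →
      ∀ (k : Type) [Field k] [CharP k ℓ] (φ : Zbar →+* k),
        ∃ r : GQ →* GL (Fin 2) k, GaloisFactorsThroughFiniteLevel r ∧
          IsAttachedMod ε f φ (N * ℓ) r ∧ Finite r.range ∧ Nat.card r.range ≤ A

/-- **CLIFT**: complex representations of bounded image, congruent to `(f, ε)` modulo a place
above `ℓ`, for every large `ℓ`. -/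
def ComplexLiftStatement : Prop :=
  ∀ (N : ℕ) [NeZero N] (ε : DirichletCharacter ℂ N) (f : CuspForm (Gamma1 N) 1),
    IsEigen N ε f → ∃ A B : ℕ, ∀ ℓ : ℕ, ℓ.Prime → B < ℓ →
      ∃ (k : Type) (_ : Field k) (_ : CharP k ℓ) (φ : Zbar →+* k) (ρ : GQ →* GL (Fin 2) ℂ),
        GaloisFactorsThroughFiniteLevel ρ ∧ IsCongruentC ε f φ (N * ℓ) ρ ∧
          Finite ρ.range ∧ Nat.card ρ.range ≤ A

/-- **EXA** (D–S §8, second half): for every large `ℓ` a complex representation of finite image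
attached to `(f, ε)` away from `Nℓ`. -/
def ExactAwayStatement : Prop :=
  ∀ (N : ℕ) [NeZero N] (ε : DirichletCharacter ℂ N) (f : CuspForm (Gamma1 N) 1),
    IsEigen N ε f → ∃ B : ℕ, ∀ ℓ : ℕ, ℓ.Prime → B < ℓ →
      ∃ ρ : GQ →* GL (Fin 2) ℂ, GaloisFactorsThroughFiniteLevel ρ ∧ IsAttachedC ε f (N * ℓ) ρ

/-- **TWO** (removing `ℓ` by comparing two primes): a complex representation of finite image
attached to `(f, ε)` away from `N`. -/
def ExactStatement : Prop :=
  ∀ (N : ℕ) [NeZero N] (ε : DirichletCharacter ℂ N) (f : CuspForm (Gamma1 N) 1),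
    IsEigen N ε f →
      ∃ ρ : GQ →* GL (Fin 2) ℂ, GaloisFactorsThroughFiniteLevel ρ ∧ IsAttachedC ε f N ρ

/-- **IRR**: such a representation is irreducible. -/
def IrreducibleStatement : Prop :=
  ∀ (N : ℕ) [NeZero N] (ε : DirichletCharacter ℂ N) (f : CuspForm (Gamma1 N) 1),
    IsEigen N ε f → ∀ ρ : GQ →* GL (Fin 2) ℂ, GaloisFactorsThroughFiniteLevel ρ →
      IsAttachedC ε f N ρ → (Deformation.matrixRepresentation ρ).IsIrreducible

/-- The frozen statement S48, as a `Prop`. -/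
def S48Statement : Prop :=
  ∀ (N : ℕ) [NeZero N] (ε : DirichletCharacter ℂ N) (f : CuspForm (Gamma1 N) 1),
    ModularFormClass.qCoeff f 1 = 1 →
    (∀ p : ℕ, p.Prime → ¬ p ∣ N → ∀ n : ℕ,
        ModularFormClass.qCoeff f (p * n) +
            ε (p : ZMod N) * (if p ∣ n then ModularFormClass.qCoeff f (n / p) else 0) =
          ModularFormClass.qCoeff f p * ModularFormClass.qCoeff f n) →
    ∃ ρ : GQ →* GL (Fin 2) ℂ, GaloisFactorsThroughFiniteLevel ρ ∧
      (Deformation.matrixRepresentation ρ).IsIrreducible ∧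
      ∀ p : ℕ, p.Prime → ¬ p ∣ N →
        ∀ A : ValuationSubring (AlgebraicClosure ℚ), A.LiesOverPrime p →
          (∀ σ ∈ A.inertiaSubgroupIn ℚ, ρ σ = 1) ∧
          ∀ σ : GQ, A.IsFrobeniusAt σ p →
            ((ρ σ : GL (Fin 2) ℂ) : Matrix (Fin 2) (Fin 2) ℂ).trace =
              ModularFormClass.qCoeff f p ∧
            ((ρ σ : GL (Fin 2) ℂ) : Matrix (Fin 2) (Fin 2) ℂ).det = ε (p : ZMod N)

/-! ## The pieces of the assembly (each is to be proved as `theorem foo : FooPiece`) -/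

/-- (VAL) -/
def ValuesPiece : Prop := RankinStatement → EigenConjStatement → ValuesStatement
/-- (MAT) -/
def ResidualMatPiece : Prop := ResidualStatement → ResidualMatStatement
/-- (BND) -/
def BoundedImagePiece : Prop :=
  ResidualMatStatement → ValuesStatement → ChebDensityStatement → FiniteImageStatement →
    BoundedImageStatement
/-- (CLIFT) -/
def ComplexLiftPiece : Prop := BoundedImageStatement → LiftStatement → ComplexLiftStatement
/-- (EXA) -/
def ExactAwayPiece : Prop := ComplexLiftStatement → ExactAwayStatement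
/-- (TWO) -/
def ExactPiece : Prop := ExactAwayStatement → ChebDensityStatement → ExactStatement
/-- (IRR) -/
def IrreduciblePiece : Prop := RankinStatement → ChebDensityStatement → IrreducibleStatement
/-- (END) -/
def EndPiece : Prop := ExactStatement → IrreducibleStatement → S48Statement

end Fermat.Agent.S48.Top

end
-- ===== PACK-END S48/Top/Spec.lean

-- ===== PACK-BEGIN S48/Top/End.lean
section


/-!
# S48 — top-level assembly, last step (END) and the chain of the pieces (helper948)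
-/

set_option autoImplicit false

open CongruenceSubgroup
open scoped MatrixGroups

namespace Fermat.Agent.S48.Top

open Fermat.Agent.Lib.Cheb.Spec Fermat.Agent.Lib.Cheb.SpecQ

/-- (END) -/
theorem endPiece : EndPiece := by
  intro hE hI N _ ε f hf₁ hT
  have hyp : IsEigen N ε f := ⟨hf₁, hT⟩
  obtain ⟨ρ, hfin, hatt⟩ := hE N ε f hyp
  exact ⟨ρ, hfin, hI N ε f hyp ρ hfin hatt, hatt⟩

/-- The whole chain: S48 from the six external inputs and the seven pieces. -/
theorem s48_of_pieces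
    (pVal : ValuesPiece) (pMat : ResidualMatPiece) (pBnd : BoundedImagePiece)
    (pLift : ComplexLiftPiece) (pExa : ExactAwayPiece) (pTwo : ExactPiece)
    (pIrr : IrreduciblePiece)
    (hRankin : RankinStatement) (hConj : EigenConjStatement) (hRes : ResidualStatement)
    (hFI : FiniteImageStatement) (hLift : LiftStatement) (hCheb : ChebDensityStatement) :
    S48Statement :=
  endPiece
    (pTwo (pExa (pLift (pBnd (pMat hRes) (pVal hRankin hConj) hCheb hFI) hLift)) hCheb)
    (pIrr hRankin hCheb)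

end Fermat.Agent.S48.Top

end
-- ===== PACK-END S48/Top/End.lean

-- ===== PACK-BEGIN S48/H308/Values.lean
section


/-!
# S48 (Deligne–Serre), glue piece VAL (D–S Prop. 5.5)

`values : Top.ValuesPiece`, i.e. `RankinStatement → EigenConjStatement → ValuesStatement`:
outside a set of primes of upper Dirichlet density `≤ η` the eigenvalues `a_p` take finitely
many values.

Proof: let `K` be the number field of `EigenConjStatement`, `d` the number of its complex
embeddings and `c = d / η`.  For each embedding `τ` the Rankin bound for the conjugate form gives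
`c · ∑_{p ∈ T, ‖τ a_p‖² ≥ c} p^{-s} ≤ log (1/(s-1)) + C_τ`; summing over `τ`, the primes `p` such that
some conjugate of `a_p` has `‖τ a_p‖² > c` have upper density `≤ d / c = η`; the other `a_p` are
algebraic integers of `K` all of whose conjugates are bounded by `√c`: a finite set.
-/

set_option autoImplicit false

namespace Fermat.Agent.S48.H308

open Fermat.Agent.S48.Top Fermat.Agent.Lib.Cheb.SpecQ

/-- From an `O(1)`-bound on `(1, 2]` to `HasUpperDensity` (which absorbs the constant). -/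
theorem hasUpperDensity_of_bound (X : Set ℕ) (d K : ℝ)
    (h : ∀ s : ℝ, 1 < s → s ≤ 2 → ∀ T : Finset ℕ, (∀ p ∈ T, p ∈ X) →
      ∑ p ∈ T, (p : ℝ) ^ (-s) ≤ d * Real.log (1 / (s - 1)) + K) :
    HasUpperDensity X d := by
  intro ε hε
  refine ⟨min 1 (Real.exp (-(|K| / ε))), lt_min one_pos (Real.exp_pos _), ?_⟩
  intro s hs hsδ T hT
  have hs2 : s ≤ 2 := by
    have := min_le_left 1 (Real.exp (-(|K| / ε)))
    linarith
  have hs0 : 0 < s - 1 := by linarith
  have hse : s - 1 < Real.exp (-(|K| / ε)) := by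
    have := min_le_right 1 (Real.exp (-(|K| / ε)))
    linarith
  have hlog : |K| / ε ≤ Real.log (1 / (s - 1)) := by
    rw [one_div, Real.log_inv]
    have h1 : Real.log (s - 1) < -(|K| / ε) := by
      rw [Real.log_lt_iff_lt_exp hs0]
      exact hse
    linarith
  have hK : K ≤ ε * Real.log (1 / (s - 1)) := by
    have h1 : |K| ≤ ε * Real.log (1 / (s - 1)) := by
      rw [div_le_iff₀ hε] at hlog
      linarith
    exact (le_abs_self K).trans h1
  calc ∑ p ∈ T, (p : ℝ) ^ (-s) ≤ d * Real.log (1 / (s - 1)) + K := h s hs hs2 T hT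
    _ ≤ d * Real.log (1 / (s - 1)) + ε * Real.log (1 / (s - 1)) := by linarith
    _ = (d + ε) * Real.log (1 / (s - 1)) := by ring

/-- **VAL**, exact `Top/Spec.lean` shape. -/
theorem values : ValuesPiece := by
  intro hR hE N _ ε f hf η hη
  classical
  obtain ⟨K, hKfd, hKa, hKτ⟩ := hE N ε f hf
  have : FiniteDimensional ℚ K := hKfd
  have : NumberField K := ⟨⟩
  choose ε' f' hf' hcoef using hKτ
  choose C hC using fun τ : K →ₐ[ℚ] ℂ => hR N (ε' τ) (f' τ) (hf' τ)
  set d : ℕ := Fintype.card (K →ₐ[ℚ] ℂ) with hd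
  have hdpos : 0 < d := Fintype.card_pos_iff.mpr ⟨K.val⟩
  have hdR : (0 : ℝ) < d := by exact_mod_cast hdpos
  set c : ℝ := d / η with hc
  have hcpos : 0 < c := div_pos hdR hη
  have hfin := NumberField.Embeddings.finite_of_norm_le K ℂ (Real.sqrt c)
  refine ⟨hfin.toFinset.image (fun x : K => (x : ℂ)), ?_⟩
  -- for every exceptional prime some conjugate is large
  have hex : ∀ p : ℕ, p.Prime → ¬ p ∣ N →
      ModularFormClass.qCoeff f p ∉ hfin.toFinset.image (fun x : K => (x : ℂ)) →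
      ∃ τ : K →ₐ[ℚ] ℂ, c ≤ ‖ModularFormClass.qCoeff (f' τ) p‖ ^ 2 := by
    intro p hp hpN hY
    obtain ⟨hmem, hint⟩ := hKa p hp hpN
    set x : K := ⟨ModularFormClass.qCoeff f p, hmem⟩ with hx
    have hxint : IsIntegral ℤ x := by
      have : IsIntegral ℤ (algebraMap K ℂ x) := hint
      exact (isIntegral_algebraMap_iff (algebraMap K ℂ).injective).mp this
    have hnot : ¬ (IsIntegral ℤ x ∧ ∀ φ : K →+* ℂ, ‖φ x‖ ≤ Real.sqrt c) := by
      intro hcon
      apply hY
      rw [Finset.mem_image]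
      exact ⟨x, hfin.mem_toFinset.mpr hcon, rfl⟩
    have hφ : ∃ φ : K →+* ℂ, Real.sqrt c < ‖φ x‖ := by
      by_contra hcon
      push Not at hcon
      exact hnot ⟨hxint, hcon⟩
    obtain ⟨φ, hφ⟩ := hφ
    refine ⟨φ.toRatAlgHom, ?_⟩
    rw [hcoef φ.toRatAlgHom p hp hpN x rfl]
    have h1 : Real.sqrt c ^ 2 = c := Real.sq_sqrt hcpos.le
    have h2 : Real.sqrt c ^ 2 ≤ ‖φ x‖ ^ 2 :=
      pow_le_pow_left₀ (Real.sqrt_nonneg c) hφ.le 2
    have h3 : (φ.toRatAlgHom : K → ℂ) x = φ x := rfl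
    rw [h3]
    linarith
  refine hasUpperDensity_of_bound _ η ((∑ τ : K →ₐ[ℚ] ℂ, C τ) / c) ?_
  intro s hs hs2 T hT
  have hL : 0 ≤ Real.log (1 / (s - 1)) := by
    apply Real.log_nonneg
    rw [le_div_iff₀ (by linarith)]
    linarith
  -- choose a large conjugate for every prime of `T`
  have hT' : ∀ p ∈ T, ∃ τ : K →ₐ[ℚ] ℂ, c ≤ ‖ModularFormClass.qCoeff (f' τ) p‖ ^ 2 :=
    fun p hp => hex p (hT p hp).1 (hT p hp).2.1 (hT p hp).2.2
  have hT'' : ∀ p : ℕ, ∃ τ : K →ₐ[ℚ] ℂ, p ∈ T → c ≤ ‖ModularFormClass.qCoeff (f' τ) p‖ ^ 2 := by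
    intro p
    by_cases hp : p ∈ T
    · obtain ⟨τ, hτ⟩ := hT' p hp
      exact ⟨τ, fun _ => hτ⟩
    · exact ⟨K.val, fun h => absurd h hp⟩
  choose τof hτof using hT''
  have hfib : ∑ p ∈ T, (p : ℝ) ^ (-s) =
      ∑ τ : K →ₐ[ℚ] ℂ, ∑ p ∈ T with τof p = τ, (p : ℝ) ^ (-s) :=
    (Finset.sum_fiberwise T τof fun p => (p : ℝ) ^ (-s)).symm
  have hτ : ∀ τ : K →ₐ[ℚ] ℂ, ∑ p ∈ T with τof p = τ, (p : ℝ) ^ (-s) ≤
      (Real.log (1 / (s - 1)) + C τ) / c := by
    intro τ
    rw [le_div_iff₀ hcpos, Finset.sum_mul]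
    refine le_trans ?_ (hC τ s hs hs2 (T.filter fun p => τof p = τ) ?_)
    · refine Finset.sum_le_sum fun p hp => ?_
      rw [Finset.mem_filter] at hp
      have h1 := hτof p hp.1
      rw [hp.2] at h1
      rw [mul_comm]
      exact mul_le_mul_of_nonneg_right h1 (Real.rpow_nonneg (Nat.cast_nonneg p) _)
    · intro p hp
      rw [Finset.mem_filter] at hp
      exact ⟨(hT p hp.1).1, (hT p hp.1).2.1⟩
  calc ∑ p ∈ T, (p : ℝ) ^ (-s)
      = ∑ τ : K →ₐ[ℚ] ℂ, ∑ p ∈ T with τof p = τ, (p : ℝ) ^ (-s) := hfib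
    _ ≤ ∑ τ : K →ₐ[ℚ] ℂ, (Real.log (1 / (s - 1)) + C τ) / c :=
        Finset.sum_le_sum fun τ _ => hτ τ
    _ = η * Real.log (1 / (s - 1)) + (∑ τ : K →ₐ[ℚ] ℂ, C τ) / c := by
        rw [← Finset.sum_div, Finset.sum_add_distrib, Finset.sum_const, Finset.card_univ,
          nsmul_eq_mul, add_div]
        congr 1
        rw [hc, ← hd]
        field_simp

end Fermat.Agent.S48.H308

end
-- ===== PACK-END S48/H308/Values.lean

-- ===== PACK-BEGIN S48/H108/Mat.lean
section


/-!
# S48 (Deligne–Serre) — glue piece MAT (helper108)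

`residualMat : Top.ResidualMatPiece`: `ResidualStatement ⟹ ResidualMatStatement`.

* choose a basis of the `2`-dimensional space `V` of the `ResidualGaloisRep`: `matRep`;
* `charpoly = X² - t X + d` gives trace `t` and determinant `d`;
* semisimplification: if some stable line has no stable complement, replace the representation
  by `diag(χ₁, det / χ₁)` where `χ₁` is the character of the stable line (`diagRep`).
-/

set_option autoImplicit false

open CongruenceSubgroup
open scoped MatrixGroups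
open Matrix

namespace Fermat.Agent.S48.H108

open Fermat.Agent.Lib.Cheb.Spec Fermat.Agent.Lib.Cheb.SpecQ Fermat.Agent.S48.Top

/-! ## Matrix form of a `ResidualGaloisRep` -/

section MatRep

variable {k : Type} [Field k]

/-- A basis of the underlying space of a residual representation. -/
noncomputable def resBasis (ρ : ResidualGaloisRep k) : Module.Basis (Fin 2) k ρ.V :=
  Module.finBasisOfFinrankEq k ρ.V ρ.finrank_eq

/-- The matrix form of a residual representation (with respect to `resBasis`). -/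
noncomputable def matRep (ρ : ResidualGaloisRep k) : GQ →* GL (Fin 2) k :=
  (((LinearMap.toMatrixAlgEquiv (resBasis ρ)).toAlgHom.toRingHom.toMonoidHom).comp
    ρ.ρ).toHomUnits

theorem matRep_coe (ρ : ResidualGaloisRep k) (σ : GQ) :
    ((matRep ρ σ : GL (Fin 2) k) : Matrix (Fin 2) (Fin 2) k) =
      LinearMap.toMatrix (resBasis ρ) (resBasis ρ) (ρ.ρ σ) := rfl

theorem matRep_eq_one (ρ : ResidualGaloisRep k) {σ : GQ} (h : ρ.ρ σ = 1) : matRep ρ σ = 1 := by
  apply Units.ext
  rw [matRep_coe, h]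
  exact LinearMap.toMatrix_one (resBasis ρ)

theorem matRep_charpoly (ρ : ResidualGaloisRep k) (σ : GQ) :
    ((matRep ρ σ : GL (Fin 2) k) : Matrix (Fin 2) (Fin 2) k).charpoly =
      LinearMap.charpoly (ρ.ρ σ) := by
  rw [matRep_coe]
  exact LinearMap.charpoly_toMatrix (ρ.ρ σ) (resBasis ρ)

/-- Trace and determinant from the characteristic polynomial. -/
theorem trace_det_of_charpoly (M : Matrix (Fin 2) (Fin 2) k) (t d : k)
    (h : M.charpoly = Polynomial.X ^ 2 - Polynomial.C t * Polynomial.X + Polynomial.C d) :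
    M.trace = t ∧ M.det = d := by
  rw [Matrix.charpoly_fin_two] at h
  have h1 := congrArg (fun q : Polynomial k => q.coeff 1) h
  have h0 := congrArg (fun q : Polynomial k => q.coeff 0) h
  simp only [Polynomial.coeff_add, Polynomial.coeff_sub, Polynomial.coeff_X_pow,
    Polynomial.coeff_C_mul, Polynomial.coeff_X_one, Polynomial.coeff_X_zero,
    Polynomial.coeff_C] at h1 h0
  constructor
  · simpa using h1
  · simpa using h0

end MatRep

/-! ## Semisimplification -/

section Diag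

variable {F : Type*} [Field F]

/-- An eigenvalue of a `2 × 2` matrix is a root of `X² - tr X + det`. -/
theorem eigen_quadratic (M : Matrix (Fin 2) (Fin 2) F) {v : Fin 2 → F} (hv : v ≠ 0) {c : F}
    (h : M *ᵥ v = c • v) : c * c - M.trace * c + M.det = 0 := by
  have h0 : (M - c • (1 : Matrix (Fin 2) (Fin 2) F)) *ᵥ v = 0 := by
    rw [Matrix.sub_mulVec, h, Matrix.smul_mulVec, Matrix.one_mulVec, sub_self]
  have hdet : (M - c • (1 : Matrix (Fin 2) (Fin 2) F)).det = 0 :=
    Matrix.exists_mulVec_eq_zero_iff.1 ⟨v, hv, h0⟩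
  rw [Matrix.det_fin_two] at hdet
  rw [Matrix.trace_fin_two, Matrix.det_fin_two]
  simp only [Matrix.sub_apply, Matrix.smul_apply, Matrix.one_apply_eq, smul_eq_mul, mul_one,
    ne_eq, Fin.reduceEq, not_false_eq_true, Matrix.one_apply_ne, mul_zero, sub_zero] at hdet
  linear_combination hdet

/-- The diagonal `2 × 2` matrix. -/
def diag2 (a b : F) : Matrix (Fin 2) (Fin 2) F := !![a, 0; 0, b]

theorem diag2_mul (a b a' b' : F) : diag2 a b * diag2 a' b' = diag2 (a * a') (b * b') := by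
  unfold diag2
  rw [Matrix.mul_fin_two]
  simp

theorem diag2_one : diag2 (1 : F) 1 = 1 := by
  unfold diag2
  exact Matrix.one_fin_two.symm

theorem diag2_trace (a b : F) : (diag2 a b).trace = a + b := by
  unfold diag2
  exact Matrix.trace_fin_two_of a 0 0 b

theorem diag2_det (a b : F) : (diag2 a b).det = a * b := by
  unfold diag2
  rw [Matrix.det_fin_two_of]
  ring

theorem diag2_mulVec (a b : F) (w : Fin 2 → F) : diag2 a b *ᵥ w = ![a * w 0, b * w 1] := by
  unfold diag2
  ext i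
  fin_cases i <;> simp [Matrix.mulVec, dotProduct, Fin.sum_univ_two]

/-- Every group of diagonal matrices is semisimple in the sense of `StableLinesSplit`. -/
theorem stableLinesSplit_of_diag (G : Subgroup (GL (Fin 2) F))
    (hG : ∀ g ∈ G, ∃ a b : F, (g : Matrix (Fin 2) (Fin 2) F) = diag2 a b) :
    StableLinesSplit G := by
  intro v _ _
  by_cases hv1 : v 1 = 0
  · refine ⟨![0, 1], ?_, ?_⟩
    · intro c hc
      have := congrFun hc 1
      simp [hv1] at this
    · intro g hg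
      obtain ⟨a, b, hab⟩ := hG g hg
      refine ⟨b, ?_⟩
      rw [hab, diag2_mulVec]
      ext i
      fin_cases i <;> simp
  · refine ⟨![1, 0], ?_, ?_⟩
    · intro c hc
      have h1 := congrFun hc 1
      have h0 := congrFun hc 0
      simp only [Matrix.cons_val_one, Matrix.cons_val_zero, Pi.smul_apply, smul_eq_mul] at h1 h0
      have hc0 : c = 0 := by
        rcases mul_eq_zero.1 h1.symm with h | h
        · exact h
        · exact absurd h hv1
      rw [hc0, zero_mul] at h0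
      exact one_ne_zero h0
    · intro g hg
      obtain ⟨a, b, hab⟩ := hG g hg
      refine ⟨a, ?_⟩
      rw [hab, diag2_mulVec]
      ext i
      fin_cases i <;> simp

variable {Γ : Type*} [Group Γ]

/-- The character by which `Γ` acts on a stable line `F v`. -/
noncomputable def lineChar (r : Γ →* GL (Fin 2) F) (v : Fin 2 → F)
    (hstab : ∀ σ : Γ, ∃ c : F, ((r σ : GL (Fin 2) F) : Matrix (Fin 2) (Fin 2) F) *ᵥ v = c • v)
    (σ : Γ) : F :=
  Classical.choose (hstab σ)

theorem lineChar_spec (r : Γ →* GL (Fin 2) F) (v : Fin 2 → F)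
    (hstab : ∀ σ : Γ, ∃ c : F, ((r σ : GL (Fin 2) F) : Matrix (Fin 2) (Fin 2) F) *ᵥ v = c • v)
    (σ : Γ) :
    ((r σ : GL (Fin 2) F) : Matrix (Fin 2) (Fin 2) F) *ᵥ v = lineChar r v hstab σ • v :=
  Classical.choose_spec (hstab σ)

theorem lineChar_unique (r : Γ →* GL (Fin 2) F) {v : Fin 2 → F} (hv : v ≠ 0)
    (hstab : ∀ σ : Γ, ∃ c : F, ((r σ : GL (Fin 2) F) : Matrix (Fin 2) (Fin 2) F) *ᵥ v = c • v)
    (σ : Γ) {c : F}
    (h : ((r σ : GL (Fin 2) F) : Matrix (Fin 2) (Fin 2) F) *ᵥ v = c • v) :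
    lineChar r v hstab σ = c := by
  have := (lineChar_spec r v hstab σ).symm.trans h
  exact smul_left_injective F hv this

theorem lineChar_one (r : Γ →* GL (Fin 2) F) {v : Fin 2 → F} (hv : v ≠ 0)
    (hstab : ∀ σ : Γ, ∃ c : F, ((r σ : GL (Fin 2) F) : Matrix (Fin 2) (Fin 2) F) *ᵥ v = c • v)
    {σ : Γ} (h : r σ = 1) : lineChar r v hstab σ = 1 := by
  apply lineChar_unique r hv hstab σ
  rw [h, Units.val_one, Matrix.one_mulVec, one_smul]

theorem lineChar_mul (r : Γ →* GL (Fin 2) F) {v : Fin 2 → F} (hv : v ≠ 0)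
    (hstab : ∀ σ : Γ, ∃ c : F, ((r σ : GL (Fin 2) F) : Matrix (Fin 2) (Fin 2) F) *ᵥ v = c • v)
    (σ τ : Γ) : lineChar r v hstab (σ * τ) = lineChar r v hstab σ * lineChar r v hstab τ := by
  apply lineChar_unique r hv hstab (σ * τ)
  rw [map_mul, Units.val_mul, ← Matrix.mulVec_mulVec, lineChar_spec r v hstab τ,
    Matrix.mulVec_smul, lineChar_spec r v hstab σ, smul_smul, mul_comm]

/-- The semisimplification `diag(χ₁, det / χ₁)` as a monoid homomorphism to matrices. -/
noncomputable def diagHom (r : Γ →* GL (Fin 2) F) {v : Fin 2 → F} (hv : v ≠ 0)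
    (hstab : ∀ σ : Γ, ∃ c : F, ((r σ : GL (Fin 2) F) : Matrix (Fin 2) (Fin 2) F) *ᵥ v = c • v) :
    Γ →* Matrix (Fin 2) (Fin 2) F where
  toFun σ := diag2 (lineChar r v hstab σ)
    (((r σ : GL (Fin 2) F) : Matrix (Fin 2) (Fin 2) F).det * (lineChar r v hstab σ)⁻¹)
  map_one' := by
    rw [lineChar_one r hv hstab (map_one r), map_one, Units.val_one, Matrix.det_one, inv_one,
      mul_one, diag2_one]
  map_mul' σ τ := by
    rw [diag2_mul, lineChar_mul r hv hstab, map_mul, Units.val_mul, Matrix.det_mul, mul_inv]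
    congr 1
    ring

/-- The semisimplification `diag(χ₁, det / χ₁)`. -/
noncomputable def diagRep (r : Γ →* GL (Fin 2) F) {v : Fin 2 → F} (hv : v ≠ 0)
    (hstab : ∀ σ : Γ, ∃ c : F, ((r σ : GL (Fin 2) F) : Matrix (Fin 2) (Fin 2) F) *ᵥ v = c • v) :
    Γ →* GL (Fin 2) F :=
  (diagHom r hv hstab).toHomUnits

theorem diagRep_coe (r : Γ →* GL (Fin 2) F) {v : Fin 2 → F} (hv : v ≠ 0)
    (hstab : ∀ σ : Γ, ∃ c : F, ((r σ : GL (Fin 2) F) : Matrix (Fin 2) (Fin 2) F) *ᵥ v = c • v)
    (σ : Γ) :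
    ((diagRep r hv hstab σ : GL (Fin 2) F) : Matrix (Fin 2) (Fin 2) F) =
      diag2 (lineChar r v hstab σ)
        (((r σ : GL (Fin 2) F) : Matrix (Fin 2) (Fin 2) F).det * (lineChar r v hstab σ)⁻¹) :=
  rfl

theorem lineChar_ne_zero (r : Γ →* GL (Fin 2) F) {v : Fin 2 → F} (hv : v ≠ 0)
    (hstab : ∀ σ : Γ, ∃ c : F, ((r σ : GL (Fin 2) F) : Matrix (Fin 2) (Fin 2) F) *ᵥ v = c • v)
    (σ : Γ) : lineChar r v hstab σ ≠ 0 := by
  intro h0
  have h1 : lineChar r v hstab (σ * σ⁻¹) = 1 :=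
    lineChar_one r hv hstab (by rw [mul_inv_cancel, map_one])
  rw [lineChar_mul r hv hstab, h0, zero_mul] at h1
  exact zero_ne_one h1

theorem diagRep_det (r : Γ →* GL (Fin 2) F) {v : Fin 2 → F} (hv : v ≠ 0)
    (hstab : ∀ σ : Γ, ∃ c : F, ((r σ : GL (Fin 2) F) : Matrix (Fin 2) (Fin 2) F) *ᵥ v = c • v)
    (σ : Γ) :
    ((diagRep r hv hstab σ : GL (Fin 2) F) : Matrix (Fin 2) (Fin 2) F).det =
      ((r σ : GL (Fin 2) F) : Matrix (Fin 2) (Fin 2) F).det := by
  rw [diagRep_coe, diag2_det]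
  field_simp [lineChar_ne_zero r hv hstab σ]

theorem diagRep_trace (r : Γ →* GL (Fin 2) F) {v : Fin 2 → F} (hv : v ≠ 0)
    (hstab : ∀ σ : Γ, ∃ c : F, ((r σ : GL (Fin 2) F) : Matrix (Fin 2) (Fin 2) F) *ᵥ v = c • v)
    (σ : Γ) :
    ((diagRep r hv hstab σ : GL (Fin 2) F) : Matrix (Fin 2) (Fin 2) F).trace =
      ((r σ : GL (Fin 2) F) : Matrix (Fin 2) (Fin 2) F).trace := by
  rw [diagRep_coe, diag2_trace]
  have hq := eigen_quadratic _ hv (lineChar_spec r v hstab σ)
  have hne := lineChar_ne_zero r hv hstab σ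
  field_simp
  linear_combination hq

theorem diagRep_eq_one (r : Γ →* GL (Fin 2) F) {v : Fin 2 → F} (hv : v ≠ 0)
    (hstab : ∀ σ : Γ, ∃ c : F, ((r σ : GL (Fin 2) F) : Matrix (Fin 2) (Fin 2) F) *ᵥ v = c • v)
    {σ : Γ} (h : r σ = 1) : diagRep r hv hstab σ = 1 := by
  apply Units.ext
  rw [diagRep_coe, lineChar_one r hv hstab h, h, Units.val_one, Matrix.det_one, inv_one,
    mul_one, diag2_one]

theorem diagRep_stableLinesSplit (r : Γ →* GL (Fin 2) F) {v : Fin 2 → F} (hv : v ≠ 0)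
    (hstab : ∀ σ : Γ, ∃ c : F, ((r σ : GL (Fin 2) F) : Matrix (Fin 2) (Fin 2) F) *ᵥ v = c • v) :
    StableLinesSplit (diagRep r hv hstab).range := by
  apply stableLinesSplit_of_diag
  rintro g ⟨σ, rfl⟩
  exact ⟨_, _, diagRep_coe r hv hstab σ⟩

/-- **Semisimplification.**  Every `r : Γ → GL₂(F)` can be replaced by a semisimple `r'` with the
same traces and determinants and with `r σ = 1 → r' σ = 1`. -/
theorem exists_semisimplification (r : Γ →* GL (Fin 2) F) :
    ∃ r' : Γ →* GL (Fin 2) F, StableLinesSplit r'.range ∧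
      (∀ σ : Γ, r σ = 1 → r' σ = 1) ∧
      ∀ σ : Γ,
        ((r' σ : GL (Fin 2) F) : Matrix (Fin 2) (Fin 2) F).trace =
          ((r σ : GL (Fin 2) F) : Matrix (Fin 2) (Fin 2) F).trace ∧
        ((r' σ : GL (Fin 2) F) : Matrix (Fin 2) (Fin 2) F).det =
          ((r σ : GL (Fin 2) F) : Matrix (Fin 2) (Fin 2) F).det := by
  by_cases hss : StableLinesSplit r.range
  · exact ⟨r, hss, fun _ h => h, fun _ => ⟨rfl, rfl⟩⟩
  · unfold StableLinesSplit at hss
    rw [not_forall] at hss
    obtain ⟨v, hv⟩ := hss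
    rw [Classical.not_imp] at hv
    obtain ⟨hv0, hv⟩ := hv
    rw [Classical.not_imp] at hv
    obtain ⟨hstab0, -⟩ := hv
    have hstab : ∀ σ : Γ, ∃ c : F,
        ((r σ : GL (Fin 2) F) : Matrix (Fin 2) (Fin 2) F) *ᵥ v = c • v :=
      fun σ => hstab0 (r σ) ⟨σ, rfl⟩
    exact ⟨diagRep r hv0 hstab, diagRep_stableLinesSplit r hv0 hstab,
      fun σ h => diagRep_eq_one r hv0 hstab h,
      fun σ => ⟨diagRep_trace r hv0 hstab σ, diagRep_det r hv0 hstab σ⟩⟩

end Diag

/-! ## MAT -/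

/-- **MAT**: `ResidualStatement ⟹ ResidualMatStatement`. -/
theorem residualMat : ResidualMatPiece := by
  intro hRES N _ ε f hf
  obtain ⟨B, hB⟩ := hRES N ε f hf
  refine ⟨B, ?_⟩
  intro ℓ hℓ hBℓ k _ _ φ
  obtain ⟨ρ, hρ⟩ := hB ℓ hℓ hBℓ k φ
  obtain ⟨r, hss, hone, htd⟩ := exists_semisimplification (matRep ρ)
  refine ⟨r, ?_, hss, ?_⟩
  · obtain ⟨L, hL, hker⟩ := ρ.factorsThroughFiniteLevel
    exact ⟨L, hL, fun σ hσ => hone σ (matRep_eq_one ρ (hker σ hσ))⟩
  · intro p hp hpNℓ A hA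
    obtain ⟨hunr, hfrob⟩ := hρ p hp hpNℓ
    refine ⟨fun σ hσ => hone σ (matRep_eq_one ρ (hunr A hA σ hσ)), ?_⟩
    intro σ hσ
    obtain ⟨a, e, ha, he, hcp⟩ := hfrob A hA σ hσ
    rw [← matRep_charpoly] at hcp
    obtain ⟨ht, hd⟩ := trace_det_of_charpoly _ _ _ hcp
    exact ⟨a, e, ha, he, (htd σ).1.trans ht, (htd σ).2.trans hd⟩

end Fermat.Agent.S48.H108

end
-- ===== PACK-END S48/H108/Mat.lean

-- ===== PACK-BEGIN S48/H108/Bnd.lean
section


/-!
# S48 (Deligne–Serre) — glue piece BND (helper108)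

`boundedImage : Top.BoundedImagePiece`:
MAT + VAL + `ChebDensityStatement` + `FiniteImageStatement` ⟹ `BoundedImageStatement`.

Small shared lemmas (own namespace):
* `lowerDensity_le_upperDensity` : `HasLowerDensity X d`, `X ⊆ X'`, `HasUpperDensity X' e` ⟹ `d ≤ e`;
* `finite_range_of_factors`      : `GaloisFactorsThroughFiniteLevel r` ⟹ `Finite r.range`.
-/

set_option autoImplicit false

open CongruenceSubgroup
open scoped MatrixGroups
open Matrix

namespace Fermat.Agent.S48.H108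

open Fermat.Agent.Lib.Cheb.Spec Fermat.Agent.Lib.Cheb.SpecQ Fermat.Agent.S48.Top

/-- A lower density of a subset is at most an upper density of a superset. -/
theorem lowerDensity_le_upperDensity {X X' : Set ℕ} {d e : ℝ} (hXX' : X ⊆ X')
    (hl : HasLowerDensity X d) (hu : HasUpperDensity X' e) : d ≤ e := by
  by_contra hlt
  rw [not_le] at hlt
  have hεpos : 0 < (d - e) / 4 := by linarith
  obtain ⟨δ₁, hδ₁, h₁⟩ := hl ((d - e) / 4) hεpos
  obtain ⟨δ₂, hδ₂, h₂⟩ := hu ((d - e) / 4) hεpos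
  have hδpos : 0 < min (min δ₁ δ₂) (1 / 2) := lt_min (lt_min hδ₁ hδ₂) (by norm_num)
  have hle₁ : min (min δ₁ δ₂) (1 / 2) ≤ δ₁ := (min_le_left _ _).trans (min_le_left _ _)
  have hle₂ : min (min δ₁ δ₂) (1 / 2) ≤ δ₂ := (min_le_left _ _).trans (min_le_right _ _)
  have hle₃ : min (min δ₁ δ₂) (1 / 2) ≤ 1 / 2 := min_le_right _ _
  set δ := min (min δ₁ δ₂) (1 / 2) with hδ
  have hs1 : (1 : ℝ) < 1 + δ / 2 := by linarith
  obtain ⟨T, hT, hsum⟩ := h₁ (1 + δ / 2) hs1 (by linarith)
  have hsum' := h₂ (1 + δ / 2) hs1 (by linarith) T (fun p hp => hXX' (hT p hp))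
  have hL : 0 < Real.log (1 / (1 + δ / 2 - 1)) := by
    apply Real.log_pos
    rw [lt_div_iff₀ (by linarith)]
    linarith
  have := hsum.trans hsum'
  nlinarith

/-- A lower density which is positive forces the set to be non-empty. -/
theorem nonempty_of_lowerDensity_pos {X : Set ℕ} {d : ℝ} (hd : 0 < d)
    (hl : HasLowerDensity X d) : X.Nonempty := by
  by_contra hne
  rw [Set.not_nonempty_iff_eq_empty] at hne
  have hu : HasUpperDensity X 0 := by
    intro ε hε
    refine ⟨1 / 2, by norm_num, ?_⟩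
    intro s hs1 hs2 T hT
    have hTe : T = ∅ := by
      apply Finset.eq_empty_of_forall_notMem
      intro p hp
      have := hT p hp
      rw [hne] at this
      exact this
    subst hTe
    have hL : 0 < Real.log (1 / (s - 1)) := by
      apply Real.log_pos
      rw [lt_div_iff₀ (by linarith)]
      linarith
    simp only [Finset.sum_empty, zero_add]
    positivity
  have := lowerDensity_le_upperDensity (le_refl X) hl hu
  linarith

/-- `ℚ̄ / ℚ` is Galois (for the `Algebra` instance used by the Prelude). -/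
theorem isGalois_Qb : IsGalois ℚ (AlgebraicClosure ℚ) := by
  have h1 : Algebra.IsAlgebraic ℚ (AlgebraicClosure ℚ) := AlgebraicClosure.isAlgebraic ℚ
  have h2 : IsAlgClosure ℚ (AlgebraicClosure ℚ) := ⟨inferInstance, h1⟩
  have h3 : Normal ℚ (AlgebraicClosure ℚ) := IsAlgClosure.normal ℚ (AlgebraicClosure ℚ)
  exact isGalois_iff.mpr ⟨inferInstance, h3⟩

/-- A homomorphism on `Gal(ℚ̄/ℚ)` which factors through a finite level has finite range. -/
theorem finite_range_of_factors {M : Type} [Group M] (r : GQ →* M)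
    (h : GaloisFactorsThroughFiniteLevel r) : Finite r.range := by
  obtain ⟨L, hL, hker⟩ := h
  have hle : L.fixingSubgroup ≤ r.ker := by
    intro σ hσ
    rw [MonoidHom.mem_ker]
    apply hker
    intro x hx
    exact (IntermediateField.mem_fixingSubgroup_iff L σ).1 hσ x hx
  have hGal : IsGalois ℚ (AlgebraicClosure ℚ) := isGalois_Qb
  have hidx : L.fixingSubgroup.index ≠ 0 := by
    rw [← IntermediateField.finrank_eq_fixingSubgroup_index]
    exact Module.finrank_pos.ne'
  have hidx' : r.ker.index ≠ 0 := fun h0 =>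
    hidx (Nat.eq_zero_of_zero_dvd (h0 ▸ Subgroup.index_dvd_of_le hle))
  rw [Subgroup.index_ker] at hidx'
  exact Nat.finite_of_card_ne_zero hidx'

/-! ## The finite set of candidate `(trace, det)` pairs -/

section Pairs

variable {k : Type} [Field k]

/-- Extension by zero of `φ : ℤ̄ → k` to `ℂ`. -/
noncomputable def extZero (φ : Zbar →+* k) (y : ℂ) : k :=
  open Classical in if h : y ∈ integralClosure ℤ ℂ then φ ⟨y, h⟩ else 0

theorem extZero_coe (φ : Zbar →+* k) (a : Zbar) : extZero φ (a : ℂ) = φ a := by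
  unfold extZero
  rw [dif_pos a.2]

/-- The candidate pairs `(φ y, φ (ε u))`, `y ∈ Y`, `u ∈ ℤ/N`. -/
noncomputable def pairSet {N : ℕ} [NeZero N] (ε : DirichletCharacter ℂ N) (Y : Finset ℂ)
    (φ : Zbar →+* k) : Finset (k × k) :=
  open Classical in
  (Y ×ˢ (Finset.univ : Finset (ZMod N))).image
    (fun x : ℂ × ZMod N => (extZero φ x.1, extZero φ (ε x.2)))

theorem card_pairSet_le {N : ℕ} [NeZero N] (ε : DirichletCharacter ℂ N) (Y : Finset ℂ)
    (φ : Zbar →+* k) : (pairSet ε Y φ).card ≤ Y.card * N := by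
  classical
  unfold pairSet
  refine Finset.card_image_le.trans ?_
  rw [Finset.card_product, Finset.card_univ, ZMod.card]

theorem mem_pairSet {N : ℕ} [NeZero N] (ε : DirichletCharacter ℂ N) (Y : Finset ℂ)
    (φ : Zbar →+* k) {a e : Zbar} {u : ZMod N} (ha : (a : ℂ) ∈ Y) (he : (e : ℂ) = ε u) :
    (φ a, φ e) ∈ pairSet ε Y φ := by
  classical
  unfold pairSet
  rw [Finset.mem_image]
  refine ⟨((a : ℂ), u), ?_, ?_⟩
  · exact Finset.mem_product.2 ⟨ha, Finset.mem_univ _⟩
  · simp only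
    rw [← he, extZero_coe, extZero_coe]

end Pairs

/-! ## BND -/

/-- **BND**: MAT + VAL + Chebotarev density + FI ⟹ the mod-`ℓ` images have bounded order. -/
theorem boundedImage : BoundedImagePiece := by
  intro hMAT hVAL hCheb hFI N _ ε f hf
  classical
  obtain ⟨Y, hY⟩ := hVAL N ε f hf (1 / 8) (by norm_num)
  obtain ⟨A₀, hA₀⟩ := hFI (1 / 4) (Y.card * N) (by norm_num)
  obtain ⟨B₀, hB₀⟩ := hMAT N ε f hf
  refine ⟨A₀, max A₀ B₀, ?_⟩
  intro ℓ hℓ hBℓ k _ _ φ
  obtain ⟨r, hr_fin, hr_ss, hr_att⟩ :=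
    hB₀ ℓ hℓ (lt_of_le_of_lt (le_max_right _ _) hBℓ) k φ
  have hfin : Finite r.range := finite_range_of_factors r hr_fin
  refine ⟨r, hr_fin, hr_att, hfin, ?_⟩
  apply hA₀ ℓ hℓ (lt_of_le_of_lt (le_max_left _ _) hBℓ) k r.range hfin hr_ss
  -- the condition `C(1/4, M)`
  set P : Finset (k × k) := pairSet ε Y φ with hP
  set C : Set (GL (Fin 2) k) := {g | trDet g ∉ P} with hC
  have hNℓ : N * ℓ ≠ 0 := Nat.mul_ne_zero (NeZero.ne N) hℓ.ne_zero
  obtain ⟨E, hE, hEker⟩ := hr_fin
  have hdens := hCheb (GL (Fin 2) k) r E hE hEker C (N * ℓ).primeFactors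
  -- the Frobenius primes of `C` are exceptional
  have hsub : frobPrimesHom r C (N * ℓ).primeFactors ⊆
      {p : ℕ | p.Prime ∧ ¬ p ∣ N ∧ ModularFormClass.qCoeff f p ∉ Y} := by
    rintro p ⟨hp, hpS, A, τ, hA, hτ, -, hτC⟩
    have hpNℓ : ¬ p ∣ N * ℓ := fun hdvd => hpS (Nat.mem_primeFactors.2 ⟨hp, hdvd, hNℓ⟩)
    refine ⟨hp, fun hdvd => hpNℓ (Dvd.dvd.mul_right hdvd ℓ), fun hmem => ?_⟩
    obtain ⟨a, e, ha, he, htr, hdet⟩ := (hr_att p hp hpNℓ A hA).2 τ hτ
    apply hτC
    have : trDet (r τ) = (φ a, φ e) := by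
      unfold trDet
      rw [htr, hdet]
    rw [this]
    exact mem_pairSet ε Y φ (by rw [ha]; exact hmem) he
  have hratio := lowerDensity_le_upperDensity hsub hdens hY
  -- counting
  have hrange : (Set.range r) = (r.range : Set (GL (Fin 2) k)) := (MonoidHom.coe_range r).symm
  have hfinS : (r.range : Set (GL (Fin 2) k)).Finite := Set.toFinite _
  have hcard_pos : 0 < (r.range : Set (GL (Fin 2) k)).ncard :=
    (Set.ncard_pos hfinS).2 ⟨1, r.range.one_mem⟩
  rw [hrange, Nat.card_coe_set_eq, Nat.card_coe_set_eq] at hratio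
  refine ⟨(r.range : Set (GL (Fin 2) k)) \ C, Set.sdiff_subset, ?_, P, card_pairSet_le ε Y φ, ?_⟩
  · have hsplit := Set.ncard_inter_add_ncard_sdiff_eq_ncard (r.range : Set (GL (Fin 2) k)) C hfinS
    rw [Set.inter_comm] at hsplit
    have hG : (Nat.card r.range : ℝ) = ((r.range : Set (GL (Fin 2) k)).ncard : ℝ) := by
      rw [← Nat.card_coe_set_eq]
      rfl
    rw [Nat.card_coe_set_eq, hG]
    have hsplit' : ((C ∩ (r.range : Set (GL (Fin 2) k))).ncard : ℝ) +
        (((r.range : Set (GL (Fin 2) k)) \ C).ncard : ℝ) =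
        ((r.range : Set (GL (Fin 2) k)).ncard : ℝ) := by
      exact_mod_cast hsplit
    have hpos : (0 : ℝ) < ((r.range : Set (GL (Fin 2) k)).ncard : ℝ) := by exact_mod_cast hcard_pos
    rw [div_le_iff₀ hpos] at hratio
    linarith
  · rintro h ⟨-, hhC⟩
    by_contra hne
    exact hhC hne

end Fermat.Agent.S48.H108

end
-- ===== PACK-END S48/H108/Bnd.lean

-- ===== PACK-BEGIN S48/H468/CLift.lean
section


/-!
# S48 (Deligne–Serre) / glue piece CLIFT (helper468)

`complexLiftPiece : Top.ComplexLiftPiece`, i.e.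
`BoundedImageStatement → LiftStatement → ComplexLiftStatement`: the mod-`ℓ` representations of
bounded image lift to complex representations of bounded image, congruent to `(f, ε)`.
-/

set_option autoImplicit false

open CongruenceSubgroup
open scoped MatrixGroups
open Matrix

namespace Fermat.Agent.S48.H468

open Fermat.Agent.S48.Top
open Fermat.Agent.Lib.Cheb.Spec Fermat.Agent.Lib.Cheb.SpecQ

/-- (CLIFT) -/
theorem complexLiftPiece : ComplexLiftPiece := by
  intro hB hL N _ ε f hf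
  obtain ⟨A, B, hAB⟩ := hB N ε f hf
  refine ⟨A, max A B, ?_⟩
  intro ℓ hℓ hlt
  obtain ⟨k, instF, instC, φ, hlift⟩ := hL ℓ hℓ
  obtain ⟨r, hfin, hatt, hfinR, hcard⟩ :=
    hAB ℓ hℓ (lt_of_le_of_lt (le_max_right _ _) hlt) k φ
  have hAℓ : A < ℓ := lt_of_le_of_lt (le_max_left _ _) hlt
  have hndvd : ¬ ℓ ∣ Nat.card r.range := by
    intro h
    have hpos : 0 < Nat.card r.range := Nat.card_pos
    have := Nat.le_of_dvd hpos h
    omega
  obtain ⟨R, hR⟩ := hlift r.range hndvd r.range.subtype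
  refine ⟨k, instF, instC, φ, R.comp r.rangeRestrict, ?_, ?_, ?_, ?_⟩
  · -- finite level
    obtain ⟨L, hLfin, hker⟩ := hfin
    refine ⟨L, hLfin, fun σ hσ => ?_⟩
    have h1 : r.rangeRestrict σ = 1 := Subtype.ext (hker σ hσ)
    rw [MonoidHom.comp_apply, h1, map_one]
  · -- congruence
    intro p hp hpN V hV
    obtain ⟨hin, hfrob⟩ := hatt p hp hpN V hV
    refine ⟨fun σ hσ => ?_, fun σ hσ => ?_⟩
    · have h1 : r.rangeRestrict σ = 1 := Subtype.ext (hin σ hσ)
      rw [MonoidHom.comp_apply, h1, map_one]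
    · obtain ⟨a, e, ha, he, htr, hdet⟩ := hfrob σ hσ
      obtain ⟨t, d, ht, hd, hφt, hφd⟩ := hR (r.rangeRestrict σ)
      refine ⟨a, e, t, d, ha, he, ht, hd, ?_, ?_⟩
      · rw [hφt, ← htr]; rfl
      · rw [hφd, ← hdet]; rfl
  · -- finiteness
    have hsurj : Function.Surjective
        (fun x : r.range => (⟨R x, ⟨(Classical.choose x.2), by
          have := Classical.choose_spec x.2
          rw [MonoidHom.comp_apply]
          congr 1
          exact Subtype.ext this⟩⟩ : (R.comp r.rangeRestrict).range)) := by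
      rintro ⟨y, σ, rfl⟩
      exact ⟨r.rangeRestrict σ, rfl⟩
    exact Finite.of_surjective _ hsurj
  · have hsurj : Function.Surjective
        (fun x : r.range => (⟨R x, ⟨(Classical.choose x.2), by
          have := Classical.choose_spec x.2
          rw [MonoidHom.comp_apply]
          congr 1
          exact Subtype.ext this⟩⟩ : (R.comp r.rangeRestrict).range)) := by
      rintro ⟨y, σ, rfl⟩
      exact ⟨r.rangeRestrict σ, rfl⟩
    exact (Nat.card_le_card_of_surjective _ hsurj).trans hcard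

end Fermat.Agent.S48.H468

end
-- ===== PACK-END S48/H468/CLift.lean

-- ===== PACK-BEGIN S48/H948/ZLemma.lean
section


/-!
# S48 glue (helper948): the Z-lemma and roots of unity

* `exists_nat_cast_eq_zero`: a non-zero algebraic number `z` has a non-zero "norm" `n : ℕ` such
  that every ring hom `φ : ℤ̄ → k` killing (a preimage of) `z` kills `n`.
* `killNat`, `killProd`: the choice of such an `n`, and its product over a finite set.
* `exists_roots_of_pow_eq_one`: a matrix `g ∈ GL₂(ℂ)` with `g ^ m = 1` has trace `α + β` and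
  determinant `α β` with `α ^ m = β ^ m = 1`.
-/

set_option autoImplicit false

namespace Fermat.Agent.S48.H948

open Polynomial Fermat.Agent.S48.Top

/-- An algebraic element `x ≠ 0` of a domain is a root of an integer polynomial with non-zero
constant term. -/
theorem exists_poly_coeff_zero_ne_zero {R : Type*} [CommRing R] [IsDomain R] (x : R) (hx : x ≠ 0) :
    ∀ (n : ℕ) (P : ℤ[X]), P.natDegree ≤ n → P ≠ 0 → aeval x P = 0 →
      ∃ Q : ℤ[X], aeval x Q = 0 ∧ Q.coeff 0 ≠ 0 := by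
  intro n
  induction n with
  | zero =>
    intro P hdeg hP hroot
    by_cases h0 : P.coeff 0 = 0
    · exfalso
      apply hP
      rw [Polynomial.eq_C_of_natDegree_le_zero hdeg, h0, map_zero]
    · exact ⟨P, hroot, h0⟩
  | succ n ih =>
    intro P hdeg hP hroot
    by_cases h0 : P.coeff 0 = 0
    · have hPX : P = P.divX * X := by
        have := Polynomial.divX_mul_X_add P
        rw [h0, map_zero, add_zero] at this
        exact this.symm
      have hQ : P.divX ≠ 0 := by
        intro h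
        apply hP
        rw [hPX, h, zero_mul]
      have hroot' : aeval x P.divX = 0 := by
        rw [hPX, map_mul, aeval_X] at hroot
        rcases mul_eq_zero.mp hroot with h | h
        · exact h
        · exact absurd h hx
      have hdeg' : P.divX.natDegree ≤ n := by
        rw [Polynomial.natDegree_divX_eq_natDegree_tsub_one]
        omega
      exact ih P.divX hdeg' hQ hroot'
    · exact ⟨P, hroot, h0⟩

/-- **Z-lemma.**  A non-zero algebraic integer `z ∈ ℂ` has a non-zero natural number `n` which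
vanishes in every field `k` receiving a ring hom `φ : ℤ̄ → k` with `φ z = 0`. -/
theorem exists_nat_cast_eq_zero (z : ℂ) (hz : IsIntegral ℤ z) (h0 : z ≠ 0) :
    ∃ n : ℕ, n ≠ 0 ∧ ∀ (k : Type) [Field k] (φ : Zbar →+* k) (x : Zbar),
      (x : ℂ) = z → φ x = 0 → (n : k) = 0 := by
  obtain ⟨P, hPm, hPz⟩ := hz
  have hP0 : P ≠ 0 := hPm.ne_zero
  have hPz' : aeval z P = 0 := by
    rw [Polynomial.aeval_def]; exact hPz
  obtain ⟨Q, hQz, hQ0⟩ := exists_poly_coeff_zero_ne_zero z h0 P.natDegree P le_rfl hP0 hPz'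
  refine ⟨(Q.coeff 0).natAbs, Int.natAbs_ne_zero.mpr hQ0, ?_⟩
  intro k _ φ x hx hφ
  have hQx : aeval x Q = 0 := by
    have h1 : ((aeval x Q : Zbar) : ℂ) = aeval z Q := by
      rw [← hx]
      exact (Polynomial.aeval_algebraMap_apply ℂ x Q).symm ▸ rfl
    have h2 : ((aeval x Q : Zbar) : ℂ) = 0 := by rw [h1, hQz]
    exact_mod_cast h2
  have h3 : φ (aeval x Q) = 0 := by rw [hQx, map_zero]
  have h4 : φ (aeval x Q) = ((Q.coeff 0 : ℤ) : k) := by
    rw [Polynomial.aeval_eq_sum_range, map_sum]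
    rw [Finset.sum_eq_single 0]
    · simp
    · intro i _ hi
      rw [zsmul_eq_mul, map_mul, map_pow, hφ, zero_pow hi, mul_zero]
    · intro h
      exact absurd (Finset.mem_range.mpr (Nat.succ_pos _)) h
  rw [h4] at h3
  have h5 : (((Q.coeff 0).natAbs : ℤ) : k) = 0 := by
    rcases Int.natAbs_eq (Q.coeff 0) with h | h
    · rw [← h]; exact h3
    · have : ((Q.coeff 0).natAbs : ℤ) = - Q.coeff 0 := by omega
      rw [this, Int.cast_neg, h3, neg_zero]
  rw [Int.cast_natCast] at h5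
  exact h5

open Classical in
/-- A natural number killed by every `φ : ℤ̄ → k` that kills `z` (`1` if `z` is zero or not
integral). -/
noncomputable def killNat (z : ℂ) : ℕ :=
  if h : IsIntegral ℤ z ∧ z ≠ 0 then (exists_nat_cast_eq_zero z h.1 h.2).choose else 1

theorem killNat_ne_zero (z : ℂ) : killNat z ≠ 0 := by
  unfold killNat
  split_ifs with h
  · exact (exists_nat_cast_eq_zero z h.1 h.2).choose_spec.1
  · exact one_ne_zero

theorem killNat_cast {z : ℂ} (h0 : z ≠ 0) {k : Type} [Field k] (φ : Zbar →+* k) (x : Zbar)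
    (hx : (x : ℂ) = z) (hφ : φ x = 0) : (killNat z : k) = 0 := by
  have hz : IsIntegral ℤ z := hx ▸ x.2
  unfold killNat
  rw [dif_pos ⟨hz, h0⟩]
  exact (exists_nat_cast_eq_zero z hz h0).choose_spec.2 k φ x hx hφ

/-- The product of the `killNat z`, `z ∈ D`. -/
noncomputable def killProd (D : Finset ℂ) : ℕ := ∏ z ∈ D, killNat z

theorem killProd_ne_zero (D : Finset ℂ) : killProd D ≠ 0 :=
  Finset.prod_ne_zero_iff.mpr fun z _ => killNat_ne_zero z

/-- If `ℓ = char k` exceeds `killProd D`, then `φ` is injective on pairs with difference in `D`: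
`φ a = φ b`, `a - b ∈ D` imply `a = b`. -/
theorem eq_of_map_eq_of_lt_char (D : Finset ℂ) {ℓ : ℕ} {k : Type} [Field k] [CharP k ℓ]
    (hℓ : killProd D < ℓ) (φ : Zbar →+* k) (a b : Zbar) (hD : (a : ℂ) - (b : ℂ) ∈ D)
    (hφ : φ a = φ b) : a = b := by
  by_contra hab
  have h0 : ((a - b : Zbar) : ℂ) ≠ 0 := by
    intro h
    apply hab
    have : (a - b : Zbar) = 0 := by exact_mod_cast h
    exact sub_eq_zero.mp this
  have hx : ((a - b : Zbar) : ℂ) = (a : ℂ) - (b : ℂ) := by push_cast; rfl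
  have h1 : (killNat ((a : ℂ) - (b : ℂ)) : k) = 0 :=
    killNat_cast (hx ▸ h0) φ (a - b) hx (by rw [map_sub, hφ, sub_self])
  have h2 : (killProd D : k) = 0 := by
    unfold killProd
    rw [Nat.cast_prod]
    exact Finset.prod_eq_zero hD h1
  have h3 : ℓ ∣ killProd D := (CharP.cast_eq_zero_iff k ℓ _).mp h2
  have h4 := Nat.le_of_dvd (Nat.pos_of_ne_zero (killProd_ne_zero D)) h3
  omega

end Fermat.Agent.S48.H948

end
-- ===== PACK-END S48/H948/ZLemma.lean

-- ===== PACK-BEGIN S48/H948/Roots.lean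
section


/-!
# S48 glue (helper948): matrices of finite order in `GL₂(ℂ)`

* `exists_roots_of_pow_eq_one`: `g ^ m = 1` ⟹ `tr g = α + β`, `det g = α β`, `α ^ m = β ^ m = 1`.
* `unitPairs m`: the finite set `{(α + β, α β) : α ^ m = β ^ m = 1}`.
* `eq_one_of_pow_eq_one_of_trace_det`: `g ^ m = 1`, `m ≠ 0`, `tr g = 2`, `det g = 1` ⟹ `g = 1`.
-/

set_option autoImplicit false

namespace Fermat.Agent.S48.H948

open Polynomial Matrix

/-- A matrix `g ∈ GL₂(ℂ)` with `g ^ m = 1` has trace `α + β` and determinant `α β` with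
`α ^ m = β ^ m = 1`. -/
theorem exists_roots_of_pow_eq_one (g : GL (Fin 2) ℂ) (m : ℕ) (hg : g ^ m = 1) :
    ∃ α β : ℂ, α ^ m = 1 ∧ β ^ m = 1 ∧
      (g : Matrix (Fin 2) (Fin 2) ℂ).trace = α + β ∧
      (g : Matrix (Fin 2) (Fin 2) ℂ).det = α * β ∧
      (g : Matrix (Fin 2) (Fin 2) ℂ).charpoly.roots = {α, β} := by
  set M : Matrix (Fin 2) (Fin 2) ℂ := (g : Matrix (Fin 2) (Fin 2) ℂ) with hM
  have hMm : M ^ m = 1 := by
    have := congrArg (fun u : GL (Fin 2) ℂ => (u : Matrix (Fin 2) (Fin 2) ℂ)) hg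
    simpa using this
  have hcard : M.charpoly.roots.card = 2 := by
    rw [Polynomial.splits_iff_card_roots.mp (IsAlgClosed.splits M.charpoly),
      Matrix.charpoly_natDegree_eq_dim, Fintype.card_fin]
  obtain ⟨α, β, hαβ⟩ := Multiset.card_eq_two.mp hcard
  have hroot : ∀ x ∈ M.charpoly.roots, x ^ m = 1 := by
    intro x hx
    have h1 : IsRoot M.charpoly x := (Polynomial.mem_roots'.mp hx).2
    have h2 : x ∈ spectrum ℂ M := Matrix.mem_spectrum_iff_isRoot_charpoly.mpr h1
    have h3 : x ^ m ∈ spectrum ℂ (M ^ m) := spectrum.pow_mem_pow M m h2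
    rw [hMm, spectrum.one_eq] at h3
    exact h3
  refine ⟨α, β, hroot α (by rw [hαβ]; simp), hroot β (by rw [hαβ]; simp), ?_, ?_, hαβ⟩
  · rw [Matrix.trace_eq_sum_roots_charpoly, hαβ]
    simp
  · rw [Matrix.det_eq_prod_roots_charpoly, hαβ]
    simp

/-- The finite set of complex `m`-th roots of unity (`m ≠ 0`). -/
noncomputable def unitRoots (m : ℕ) : Finset ℂ := Polynomial.nthRootsFinset m (1 : ℂ)

theorem mem_unitRoots {m : ℕ} (hm : 0 < m) {z : ℂ} : z ∈ unitRoots m ↔ z ^ m = 1 :=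
  Polynomial.mem_nthRootsFinset hm 1

/-- The finite set `{(α + β, α β) : α ^ m = β ^ m = 1}`. -/
noncomputable def unitPairs (m : ℕ) : Finset (ℂ × ℂ) :=
  (unitRoots m ×ˢ unitRoots m).image fun x => (x.1 + x.2, x.1 * x.2)

theorem trace_det_mem_unitPairs (g : GL (Fin 2) ℂ) {m : ℕ} (hm : 0 < m) (hg : g ^ m = 1) :
    ((g : Matrix (Fin 2) (Fin 2) ℂ).trace, (g : Matrix (Fin 2) (Fin 2) ℂ).det) ∈ unitPairs m := by
  obtain ⟨α, β, hα, hβ, htr, hdet, -⟩ := exists_roots_of_pow_eq_one g m hg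
  rw [unitPairs, Finset.mem_image]
  exact ⟨(α, β), Finset.mem_product.mpr ⟨(mem_unitRoots hm).mpr hα, (mem_unitRoots hm).mpr hβ⟩,
    by rw [htr, hdet]⟩

/-- Elements of `unitPairs m` are pairs of algebraic integers. -/
theorem isIntegral_of_mem_unitPairs {m : ℕ} (hm : 0 < m) {y : ℂ × ℂ} (hy : y ∈ unitPairs m) :
    IsIntegral ℤ y.1 ∧ IsIntegral ℤ y.2 := by
  rw [unitPairs, Finset.mem_image] at hy
  obtain ⟨x, hx, rfl⟩ := hy
  rw [Finset.mem_product] at hx
  have h1 : IsIntegral ℤ x.1 :=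
    IsIntegral.of_pow hm (by rw [(mem_unitRoots hm).mp hx.1]; exact isIntegral_one)
  have h2 : IsIntegral ℤ x.2 :=
    IsIntegral.of_pow hm (by rw [(mem_unitRoots hm).mp hx.2]; exact isIntegral_one)
  exact ⟨h1.add h2, h1.mul h2⟩

/-- A matrix of finite order in `GL₂(ℂ)` with trace `2` and determinant `1` is the identity. -/
theorem eq_one_of_pow_eq_one_of_trace_det (g : GL (Fin 2) ℂ) {m : ℕ} (hm : 0 < m)
    (hg : g ^ m = 1) (htr : (g : Matrix (Fin 2) (Fin 2) ℂ).trace = 2)
    (hdet : (g : Matrix (Fin 2) (Fin 2) ℂ).det = 1) : g = 1 := by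
  set M : Matrix (Fin 2) (Fin 2) ℂ := (g : Matrix (Fin 2) (Fin 2) ℂ) with hM
  have hMm : M ^ m = 1 := by
    have := congrArg (fun u : GL (Fin 2) ℂ => (u : Matrix (Fin 2) (Fin 2) ℂ)) hg
    simpa using this
  -- Cayley–Hamilton: (M - 1)^2 = 0
  have hCH : M ^ 2 - (1 + 1) * M + 1 = 0 := by
    have h := Matrix.aeval_self_charpoly M
    rw [Matrix.charpoly_fin_two, htr, hdet] at h
    simpa [map_sub, map_add, map_mul, map_pow, aeval_X, aeval_C, two_smul, two_mul,
      Algebra.algebraMap_eq_smul_one] using h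
  set n : Matrix (Fin 2) (Fin 2) ℂ := M - 1 with hn
  have hn2 : n * n = 0 := by
    have : n * n = M ^ 2 - (1 + 1) * M + 1 := by
      rw [hn]; noncomm_ring
    rw [this, hCH]
  have hMn : M = 1 + n := by rw [hn]; abel
  -- (1 + n)^m = 1 + m n
  have hpow : ∀ j : ℕ, (1 + n) ^ j = 1 + (j : ℂ) • n := by
    intro j
    induction j with
    | zero => simp
    | succ j ih =>
      rw [pow_succ, ih]
      have : (1 + (j : ℂ) • n) * (1 + n) = 1 + ((j : ℂ) + 1) • n + (j : ℂ) • (n * n) := by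
        rw [add_smul, one_smul]
        simp only [mul_add, add_mul, mul_one, one_mul, smul_mul_assoc]
        abel
      rw [this, hn2, smul_zero, add_zero]
      push_cast
      rfl
  have h1 : (m : ℂ) • n = 0 := by
    have := hpow m
    rw [← hMn, hMm] at this
    have h2 : (1 : Matrix (Fin 2) (Fin 2) ℂ) + (m : ℂ) • n = 1 + 0 := by rw [← this, add_zero]
    exact add_left_cancel h2
  have hn0 : n = 0 := by
    rcases smul_eq_zero.mp h1 with h | h
    · exact absurd (by exact_mod_cast h : m = 0) hm.ne'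
    · exact h
  apply Units.ext
  show M = 1
  rw [hMn, hn0, add_zero]

end Fermat.Agent.S48.H948

end
-- ===== PACK-END S48/H948/Roots.lean

-- ===== PACK-BEGIN S48/H948/Basic.lean
section


/-!
# S48 glue (helper948): small shared lemmas

* `finite_range_of_finiteLevel`: a homomorphism on `G_ℚ` of finite level has finite image.
* `HasLowerDensity.nonempty`: positive lower density ⟹ non-empty.
* `le_of_lowerDensity_of_upperDensity`: lower density of a subset `≤` upper density.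
-/

set_option autoImplicit false

namespace Fermat.Agent.S48.H948

open Fermat.Agent.Lib.Cheb.Spec Fermat.Agent.Lib.Cheb.SpecQ Fermat.Agent.S48.Top

/-- A homomorphism on `G_ℚ` which factors through a finite level has finite image. -/
theorem finite_range_of_finiteLevel {M : Type} [Group M] (ρ : GQ →* M)
    (h : GaloisFactorsThroughFiniteLevel ρ) : Finite ρ.range := by
  obtain ⟨L, hL, hρ⟩ := h
  have : FiniteDimensional ℚ L := hL
  -- restriction to `L`
  let res : GQ → (L →ₐ[ℚ] Qb) := fun σ => (σ : Qb →ₐ[ℚ] Qb).comp L.val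
  have hres : ∀ σ τ : GQ, res σ = res τ → ρ σ = ρ τ := by
    intro σ τ hστ
    have h1 : ρ (σ⁻¹ * τ) = 1 := by
      apply hρ
      intro x hx
      have h2 : σ x = τ x := congrArg (fun g : L →ₐ[ℚ] Qb => g ⟨x, hx⟩) hστ
      show σ⁻¹ (τ x) = x
      rw [← h2]
      exact σ.symm_apply_apply x
    rw [map_mul, map_inv, inv_mul_eq_one] at h1
    exact h1
  -- the image of `ρ` is the image of a map from the finite set `Set.range res`
  let g : Set.range res → ρ.range := fun y => ⟨ρ y.2.choose, y.2.choose, rfl⟩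
  have hg : Function.Surjective g := by
    rintro ⟨_, σ, rfl⟩
    refine ⟨⟨res σ, σ, rfl⟩, ?_⟩
    apply Subtype.ext
    show ρ _ = ρ σ
    exact hres _ _ (Set.mem_range_self (f := res) σ).choose_spec
  exact Finite.of_surjective g hg

/-- Positive lower density implies non-empty. -/
theorem nonempty_of_hasLowerDensity {X : Set ℕ} {d : ℝ} (h : HasLowerDensity X d)
    (hd : 0 < d) : X.Nonempty := by
  obtain ⟨δ, hδ, hs⟩ := h (d / 2) (by positivity)
  set s : ℝ := 1 + min δ 1 / 2 with hsdef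
  have hmin : 0 < min δ 1 := lt_min hδ one_pos
  have hs1 : 1 < s := by rw [hsdef]; linarith
  have hs2 : s < 1 + δ := by
    rw [hsdef]
    have : min δ 1 ≤ δ := min_le_left _ _
    linarith
  obtain ⟨T, hT, hsum⟩ := hs s hs1 hs2
  have hlog : 0 < Real.log (1 / (s - 1)) := by
    apply Real.log_pos
    have h1 : s - 1 = min δ 1 / 2 := by rw [hsdef]; ring
    rw [h1]
    have h2 : min δ 1 ≤ 1 := min_le_right _ _
    rw [lt_div_iff₀ (by positivity)]
    linarith
  have hpos : 0 < ∑ p ∈ T, (p : ℝ) ^ (-s) := by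
    refine lt_of_lt_of_le ?_ hsum
    have : d - d / 2 = d / 2 := by ring
    rw [this]
    positivity
  by_contra hX
  rw [Set.not_nonempty_iff_eq_empty] at hX
  have hTe : T = ∅ := by
    apply Finset.eq_empty_of_forall_notMem
    intro p hp
    have := hT p hp
    rw [hX] at this
    exact this
  rw [hTe, Finset.sum_empty] at hpos
  exact lt_irrefl _ hpos

/-- The lower density of a subset is at most the upper density of the set. -/
theorem le_of_lowerDensity_of_upperDensity {X X' : Set ℕ} {d e : ℝ}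
    (hX : HasLowerDensity X d) (hsub : X ⊆ X') (hX' : HasUpperDensity X' e) : d ≤ e := by
  by_contra hlt'
  have hlt : e < d := not_le.mp hlt'
  set η : ℝ := (d - e) / 4 with hη
  have hηpos : 0 < η := by rw [hη]; linarith
  obtain ⟨δ₁, hδ₁, h1⟩ := hX η hηpos
  obtain ⟨δ₂, hδ₂, h2⟩ := hX' η hηpos
  set s : ℝ := 1 + min (min δ₁ δ₂) 1 / 2 with hsdef
  have hmin : 0 < min (min δ₁ δ₂) 1 := lt_min (lt_min hδ₁ hδ₂) one_pos
  have hs1 : 1 < s := by rw [hsdef]; linarith
  have hm1 : min (min δ₁ δ₂) 1 ≤ δ₁ := (min_le_left _ _).trans (min_le_left _ _)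
  have hm2 : min (min δ₁ δ₂) 1 ≤ δ₂ := (min_le_left _ _).trans (min_le_right _ _)
  have hs2 : s < 1 + δ₁ := by rw [hsdef]; linarith
  have hs3 : s < 1 + δ₂ := by rw [hsdef]; linarith
  obtain ⟨T, hT, hsum⟩ := h1 s hs1 hs2
  have hup := h2 s hs1 hs3 T (fun p hp => hsub (hT p hp))
  have hlog : 0 < Real.log (1 / (s - 1)) := by
    apply Real.log_pos
    have h1 : s - 1 = min (min δ₁ δ₂) 1 / 2 := by rw [hsdef]; ring
    rw [h1]
    have h2 : min (min δ₁ δ₂) 1 ≤ 1 := min_le_right _ _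
    rw [lt_div_iff₀ (by positivity)]
    linarith
  have h3 : (d - η) * Real.log (1 / (s - 1)) ≤ (e + η) * Real.log (1 / (s - 1)) :=
    hsum.trans hup
  have h4 : d - η ≤ e + η := le_of_mul_le_mul_right h3 hlog
  rw [hη] at h4
  linarith

end Fermat.Agent.S48.H948

end
-- ===== PACK-END S48/H948/Basic.lean

-- ===== PACK-BEGIN S48/H948/Irr1.lean
section


/-!
# S48 glue piece IRR, algebraic part (helper948)

* `mul_trace_sub_eq_det`: an eigenvalue `c` of a `2 × 2` matrix satisfies `c (tr - c) = det`.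
* `two_mul_card_le_sum_normSq_trace`: a finite subgroup `Γ ≤ GL₂(ℂ)` stabilising a line satisfies
  `2 |Γ| ≤ ∑_{g ∈ Γ} ‖tr g‖²`.
* `isIrreducible_of_no_stable_line`: a representation `G → GL₂(k)` without stable line is
  irreducible (in the sense of `Representation.IsIrreducible`).
-/

set_option autoImplicit false

namespace Fermat.Agent.S48.H948

open Matrix

/-- An eigenvalue `c` of a `2 × 2` matrix satisfies `c (tr - c) = det`. -/
theorem mul_trace_sub_eq_det {F : Type*} [Field F] (M : Matrix (Fin 2) (Fin 2) F)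
    (v : Fin 2 → F) (hv : v ≠ 0) (c : F) (h : M *ᵥ v = c • v) :
    c * (M.trace - c) = M.det := by
  have h0 : (M - c • (1 : Matrix (Fin 2) (Fin 2) F)) *ᵥ v = 0 := by
    rw [Matrix.sub_mulVec, h, Matrix.smul_mulVec, Matrix.one_mulVec, sub_self]
  have hdet : (M - c • (1 : Matrix (Fin 2) (Fin 2) F)).det = 0 :=
    Matrix.exists_mulVec_eq_zero_iff.mp ⟨v, hv, h0⟩
  rw [Matrix.det_fin_two] at hdet
  simp only [Matrix.sub_apply, Matrix.smul_apply, Matrix.one_apply_eq, smul_eq_mul, mul_one,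
    Matrix.one_apply_ne (show (0 : Fin 2) ≠ 1 by decide),
    Matrix.one_apply_ne (show (1 : Fin 2) ≠ 0 by decide), mul_zero, sub_zero] at hdet
  rw [Matrix.trace_fin_two, Matrix.det_fin_two]
  linear_combination -hdet

section Stable

variable (Γ : Subgroup (GL (Fin 2) ℂ)) (v : Fin 2 → ℂ) (hv : v ≠ 0)
  (hstab : ∀ g ∈ Γ, ∃ c : ℂ, ((g : GL (Fin 2) ℂ) : Matrix (Fin 2) (Fin 2) ℂ) *ᵥ v = c • v)

/-- the eigenvalue of `g ∈ Γ` on the stable line -/
noncomputable def eigVal
    (hstab : ∀ g ∈ Γ, ∃ c : ℂ, ((g : GL (Fin 2) ℂ) : Matrix (Fin 2) (Fin 2) ℂ) *ᵥ v = c • v)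
    (g : Γ) : ℂ :=
  (hstab g g.2).choose

theorem eigVal_spec (g : Γ) :
    ((g : GL (Fin 2) ℂ) : Matrix (Fin 2) (Fin 2) ℂ) *ᵥ v = eigVal Γ v hstab g • v :=
  (hstab g g.2).choose_spec

include hv in
theorem eigVal_unique (g : Γ) (c : ℂ)
    (h : ((g : GL (Fin 2) ℂ) : Matrix (Fin 2) (Fin 2) ℂ) *ᵥ v = c • v) :
    eigVal Γ v hstab g = c := by
  have h1 := eigVal_spec Γ v hstab g
  rw [h] at h1
  have h2 : (c - eigVal Γ v hstab g) • v = 0 := by rw [sub_smul, h1, sub_self]
  rcases smul_eq_zero.mp h2 with h3 | h3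
  · exact (sub_eq_zero.mp h3).symm
  · exact absurd h3 hv

/-- the eigenvalue character -/
noncomputable def eigHom : Γ →* ℂ where
  toFun := eigVal Γ v hstab
  map_one' := by
    apply eigVal_unique Γ v hv hstab
    simp
  map_mul' g h := by
    apply eigVal_unique Γ v hv hstab
    have : (((g * h : Γ) : GL (Fin 2) ℂ) : Matrix (Fin 2) (Fin 2) ℂ) =
        ((g : GL (Fin 2) ℂ) : Matrix (Fin 2) (Fin 2) ℂ) *
          ((h : GL (Fin 2) ℂ) : Matrix (Fin 2) (Fin 2) ℂ) := by simp
    rw [this, ← Matrix.mulVec_mulVec, eigVal_spec Γ v hstab h, Matrix.mulVec_smul,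
      eigVal_spec Γ v hstab g, smul_smul, mul_comm]

/-- the determinant character -/
noncomputable def detHom : Γ →* ℂ where
  toFun g := ((g : GL (Fin 2) ℂ) : Matrix (Fin 2) (Fin 2) ℂ).det
  map_one' := by simp
  map_mul' g h := by simp

theorem eigHom_apply (g : Γ) : eigHom Γ v hv hstab g = eigVal Γ v hstab g := rfl

/-- values of a homomorphism from a finite group to `ℂ` have norm one -/
theorem norm_hom_eq_one [Fintype Γ] (f : Γ →* ℂ) (g : Γ) : ‖f g‖ = 1 := by
  have h1 : f g ^ Fintype.card Γ = 1 := by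
    rw [← map_pow, pow_card_eq_one, map_one]
  exact Complex.norm_eq_one_of_pow_eq_one h1 Fintype.card_ne_zero

/-- the character `c² · conj(det) = c / c'` -/
noncomputable def ratioHom : Γ →* ℂ :=
  (eigHom Γ v hv hstab) ^ 2 * ((starRingEnd ℂ : ℂ →+* ℂ) : ℂ →* ℂ).comp (detHom Γ)

theorem normSq_trace_eq [Fintype Γ] (g : Γ) :
    ‖((g : GL (Fin 2) ℂ) : Matrix (Fin 2) (Fin 2) ℂ).trace‖ ^ 2 =
      2 + 2 * (ratioHom Γ v hv hstab g).re := by
  set c := eigVal Γ v hstab g with hc
  set M := ((g : GL (Fin 2) ℂ) : Matrix (Fin 2) (Fin 2) ℂ) with hM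
  set c' := M.trace - c with hc'
  have hcc' : c * c' = M.det := mul_trace_sub_eq_det M v hv c (eigVal_spec Γ v hstab g)
  have hnc : ‖c‖ = 1 := norm_hom_eq_one Γ (eigHom Γ v hv hstab) g
  have hnd : ‖M.det‖ = 1 := norm_hom_eq_one Γ (detHom Γ) g
  have hnc' : ‖c'‖ = 1 := by
    have : ‖c‖ * ‖c'‖ = 1 := by rw [← norm_mul, hcc', hnd]
    rw [hnc, one_mul] at this
    exact this
  have htr : M.trace = c + c' := by rw [hc']; ring
  have hNc : Complex.normSq c = 1 := by
    rw [Complex.normSq_eq_norm_sq, hnc]; norm_num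
  have hNc' : Complex.normSq c' = 1 := by
    rw [Complex.normSq_eq_norm_sq, hnc']; norm_num
  have hratio : ratioHom Γ v hv hstab g = c * (starRingEnd ℂ) c' := by
    show (eigVal Γ v hstab g) ^ 2 * (starRingEnd ℂ) M.det = c * (starRingEnd ℂ) c'
    rw [← hcc', map_mul, ← hc]
    have h1 : c * (starRingEnd ℂ) c = 1 := by
      rw [Complex.mul_conj, hNc]; norm_num
    calc c ^ 2 * ((starRingEnd ℂ) c * (starRingEnd ℂ) c')
        = (c * (starRingEnd ℂ) c) * (c * (starRingEnd ℂ) c') := by ring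
      _ = c * (starRingEnd ℂ) c' := by rw [h1, one_mul]
  rw [← Complex.normSq_eq_norm_sq, htr, Complex.normSq_add, hNc, hNc', hratio]
  ring

include hv hstab in
/-- A finite subgroup of `GL₂(ℂ)` stabilising a line satisfies `2 |Γ| ≤ ∑ ‖tr g‖²`. -/
theorem two_mul_card_le_sum_normSq_trace [Fintype Γ] :
    2 * (Fintype.card Γ : ℝ) ≤
      ∑ g : Γ, ‖((g : GL (Fin 2) ℂ) : Matrix (Fin 2) (Fin 2) ℂ).trace‖ ^ 2 := by
  classical
  have h1 : ∀ g : Γ, ‖((g : GL (Fin 2) ℂ) : Matrix (Fin 2) (Fin 2) ℂ).trace‖ ^ 2 =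
      2 + 2 * (ratioHom Γ v hv hstab g).re := normSq_trace_eq Γ v hv hstab
  rw [Finset.sum_congr rfl (fun g _ => h1 g), Finset.sum_add_distrib, ← Finset.mul_sum,
    Finset.sum_const, Finset.card_univ, nsmul_eq_mul]
  have h2 : (∑ g : Γ, (ratioHom Γ v hv hstab g).re) = (∑ g : Γ, ratioHom Γ v hv hstab g).re := by
    rw [Complex.re_sum]
  have h3 : 0 ≤ (∑ g : Γ, ratioHom Γ v hv hstab g).re := by
    rw [sum_hom_units (ratioHom Γ v hv hstab)]
    split_ifs
    · simp
    · simp
  rw [h2]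
  nlinarith

end Stable

/-- A representation `G → GL₂(k)` without stable line is irreducible. -/
theorem isIrreducible_of_no_stable_line {G : Type} [Group G] {k : Type} [Field k]
    (ρ : G →* GL (Fin 2) k)
    (h : ¬ ∃ v : Fin 2 → k, v ≠ 0 ∧
      ∀ σ : G, ∃ c : k, ((ρ σ : GL (Fin 2) k) : Matrix (Fin 2) (Fin 2) k) *ᵥ v = c • v) :
    (Deformation.matrixRepresentation ρ).IsIrreducible := by
  have hnt : Nontrivial (Subrepresentation (Deformation.matrixRepresentation ρ)) := by
    refine ⟨⊥, ⊤, fun hbt => ?_⟩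
    have h1 := congrArg Subrepresentation.toSubmodule hbt
    exact bot_ne_top h1
  refine { toNontrivial := hnt, eq_bot_or_eq_top := ?_ }
  intro W
  have hdim : Module.finrank k (Fin 2 → k) = 2 := by simp
  have hle : Module.finrank k W.toSubmodule ≤ 2 :=
    (Submodule.finrank_le _).trans hdim.le
  have hcases : Module.finrank k W.toSubmodule = 0 ∨ Module.finrank k W.toSubmodule = 1 ∨
      Module.finrank k W.toSubmodule = 2 := by omega
  rcases hcases with h0 | h1 | h2
  · left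
    apply Subrepresentation.toSubmodule_injective
    exact Submodule.finrank_eq_zero.mp h0
  · exfalso
    apply h
    obtain ⟨v, hv0, hv⟩ := finrank_eq_one_iff'.mp h1
    refine ⟨(v : Fin 2 → k), fun hz => hv0 (Subtype.ext hz), ?_⟩
    intro σ
    have hmem : (Deformation.matrixRepresentation ρ) σ (v : Fin 2 → k) ∈ W.toSubmodule :=
      W.apply_mem_toSubmodule σ v.2
    obtain ⟨c, hc⟩ := hv ⟨_, hmem⟩
    refine ⟨c, ?_⟩
    have h3 := congrArg (fun x : W.toSubmodule => (x : Fin 2 → k)) hc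
    simp only [Submodule.coe_smul] at h3
    rw [h3, Deformation.matrixRepresentation_apply, Matrix.mulVecLin_apply]
  · right
    apply Subrepresentation.toSubmodule_injective
    apply Submodule.eq_top_of_finrank_eq
    rw [h2, hdim]

end Fermat.Agent.S48.H948

end
-- ===== PACK-END S48/H948/Irr1.lean

-- ===== PACK-BEGIN S48/H428/Coset.lean
section


/-!
# S48 / P5 (helper428): the coset lemma (case `ℓ ∣ |G|`, any field of characteristic `ℓ`)

Let `k` be a field of characteristic `ℓ`, `Γ` a finite group of order divisible by `ℓ` with an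
injective homomorphism `ρ : Γ → GL₂(k)` whose image stabilises no line, and `H ⊆ Γ` a subset on
which `(tr, det)` takes its values in `P`.  Then `2 ℓ |H| ≤ (ℓ + 2 |P|) |Γ|` (`coset_bound`).

Proof.  An element `u` of order `ℓ` is `1 + N`, `N² = 0`, `N ≠ 0`.  Let `v = N w ≠ 0` and let `B`
be the stabiliser of the line `k v`; it is a proper subgroup.  For `h ∉ B` one has
`tr(ρ(h) N) ≠ 0` (`N g N = tr(g N) N`), and `tr(ρ(h uʲ)) = tr ρ(h) + j tr(ρ(h) N)`, so the map
`h ↦ ((tr, det)(h), h ⟨u⟩)` is injective on `H ∖ B`.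
-/

set_option autoImplicit false
set_option linter.style.haveILetI false

namespace Fermat.Agent.S48.H428

open scoped LinearAlgebra.Projectivization Matrix MatrixGroups
open MulAction

variable {k : Type*} [Field k]

/-- For a `2 × 2` matrix `N` of determinant `0` (rank `≤ 1`): `N g N = tr(g N) N`. -/
lemma mul_mul_eq_trace_smul (N g : Matrix (Fin 2) (Fin 2) k) (hdet : N.det = 0) :
    N * g * N = (g * N).trace • N := by
  rw [Matrix.det_fin_two] at hdet
  ext i j
  fin_cases i <;> fin_cases j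
  · simp only [Fin.zero_eta, Matrix.mul_apply, Fin.sum_univ_two, Matrix.smul_apply,
      Matrix.trace_fin_two, smul_eq_mul]
    linear_combination (-(g 1 1)) * hdet
  · simp only [Fin.zero_eta, Fin.mk_one, Matrix.mul_apply, Fin.sum_univ_two, Matrix.smul_apply,
      Matrix.trace_fin_two, smul_eq_mul]
    linear_combination (g 0 1) * hdet
  · simp only [Fin.zero_eta, Fin.mk_one, Matrix.mul_apply, Fin.sum_univ_two, Matrix.smul_apply,
      Matrix.trace_fin_two, smul_eq_mul]
    linear_combination (g 1 0) * hdet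
  · simp only [Fin.mk_one, Matrix.mul_apply, Fin.sum_univ_two, Matrix.smul_apply,
      Matrix.trace_fin_two, smul_eq_mul]
    linear_combination (-(g 0 0)) * hdet

/-- A nilpotent `2 × 2` matrix over a field has square zero. -/
lemma mul_self_eq_zero_of_pow_eq_zero {N : Matrix (Fin 2) (Fin 2) k} {n : ℕ} (h : N ^ n = 0) :
    N * N = 0 := by
  have hN : IsNilpotent N := ⟨n, h⟩
  have h1 := Matrix.isNilpotent_charpoly_sub_pow_of_isNilpotent hN
  have h2 : N.charpoly = Polynomial.X ^ 2 := by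
    have := h1.eq_zero
    simpa [sub_eq_zero] using this
  have h3 := Matrix.aeval_self_charpoly N
  rw [h2] at h3
  simpa [pow_two] using h3

/-- `(1 + N)ⁿ = 1 + n N` when `N² = 0`. -/
lemma one_add_pow_of_mul_self {N : Matrix (Fin 2) (Fin 2) k} (hN : N * N = 0) (n : ℕ) :
    (1 + N) ^ n = 1 + (n : k) • N := by
  induction n with
  | zero => simp
  | succ n ih =>
    rw [pow_succ, ih, mul_add, mul_one, add_mul, one_mul, smul_mul_assoc, hN, smul_zero,
      add_zero, Nat.cast_succ, add_smul, one_smul, add_assoc]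

/-- A nonzero matrix does not kill every vector. -/
lemma exists_mulVec_ne_zero {N : Matrix (Fin 2) (Fin 2) k} (hN : N ≠ 0) :
    ∃ w : Fin 2 → k, N *ᵥ w ≠ 0 := by
  by_contra h
  push Not at h
  apply hN
  ext i j
  have := congrFun (h (Pi.single j 1)) i
  simpa using this

/-- **The coset lemma.** -/
theorem coset_bound {Γ : Type*} [Group Γ] [Finite Γ] (ρ : Γ →* GL (Fin 2) k)
    (hρ : Function.Injective ρ) (ℓ : ℕ) (hℓ : ℓ.Prime) [CharP k ℓ] (hdvd : ℓ ∣ Nat.card Γ)
    (hns : ∀ v : Fin 2 → k, v ≠ 0 →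
      ∃ g : Γ, ∀ c : k, (ρ g : Matrix (Fin 2) (Fin 2) k) *ᵥ v ≠ c • v)
    (H : Finset Γ) (P : Finset (k × k)) (hP : ∀ h ∈ H, trDet (ρ h) ∈ P) :
    2 * ℓ * H.card ≤ (ℓ + 2 * P.card) * Nat.card Γ := by
  classical
  haveI : Fact ℓ.Prime := ⟨hℓ⟩
  haveI : Fintype Γ := Fintype.ofFinite Γ
  obtain ⟨u, hu⟩ := exists_prime_orderOf_dvd_card' ℓ hdvd
  have hu1 : u ≠ 1 := by
    rintro rfl
    rw [orderOf_one] at hu
    exact hℓ.one_lt.ne hu
  have hul : u ^ ℓ = 1 := by
    have := pow_orderOf_eq_one u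
    rwa [hu] at this
  -- the nilpotent part
  set U : Matrix (Fin 2) (Fin 2) k := (ρ u : Matrix (Fin 2) (Fin 2) k) with hU
  set N : Matrix (Fin 2) (Fin 2) k := U - 1 with hNdef
  have hUN : U = 1 + N := by rw [hNdef]; abel
  have hN0 : N ≠ 0 := by
    intro h
    apply hu1
    apply hρ
    rw [map_one]
    exact Units.ext (by rw [Units.val_one]; exact sub_eq_zero.mp h)
  have hUl : U ^ ℓ = 1 := by
    rw [hU, ← Units.val_pow_eq_pow_val, ← map_pow, hul, map_one, Units.val_one]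
  have hNl : N ^ ℓ = 0 := by
    rw [hNdef, sub_pow_char_of_commute ℓ (Commute.one_right U), hUl, one_pow, sub_self]
  have hNN : N * N = 0 := mul_self_eq_zero_of_pow_eq_zero hNl
  have hNdet : N.det = 0 := by
    have h1 : (N * N).det = 0 := by rw [hNN]; simp
    rw [Matrix.det_mul] at h1
    exact mul_self_eq_zero.mp h1
  obtain ⟨w, hw⟩ := exists_mulVec_ne_zero hN0
  set v : Fin 2 → k := N *ᵥ w with hv
  have hNv : N *ᵥ v = 0 := by rw [hv, Matrix.mulVec_mulVec, hNN, Matrix.zero_mulVec]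
  -- vanishing of `tr (g N)` forces `g` to stabilise the line of `v`
  have key : ∀ g : Matrix (Fin 2) (Fin 2) k, (g * N).trace = 0 → ∃ c : k, g *ᵥ v = c • v := by
    intro g hg
    have h1 : N *ᵥ (g *ᵥ v) = 0 := by
      rw [hv, Matrix.mulVec_mulVec, Matrix.mulVec_mulVec,
        mul_mul_eq_trace_smul N g hNdet, hg, zero_smul, Matrix.zero_mulVec]
    exact ker_proportional N hN0 hw hNv h1
  -- powers of `u`
  have hUpow : ∀ n : ℕ, ((ρ (u ^ n) : GL (Fin 2) k) : Matrix (Fin 2) (Fin 2) k) =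
      1 + (n : k) • N := by
    intro n
    rw [map_pow, Units.val_pow_eq_pow_val, ← hU, hUN, one_add_pow_of_mul_self hNN]
  -- the stabiliser of the line of `v`
  let x : ℙ k (Fin 2 → k) := Projectivization.mk k v hw
  let B : Subgroup Γ := (MulAction.stabilizer (GL (Fin 2) k) x).comap ρ
  have hBmem : ∀ g : Γ, g ∈ B ↔ ∃ c : k, (ρ g : Matrix (Fin 2) (Fin 2) k) *ᵥ v = c • v := by
    intro g
    rw [Subgroup.mem_comap, MulAction.mem_stabilizer_iff]
    exact smul_mk_eq_iff (ρ g) v hw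
  have hBtop : B ≠ ⊤ := by
    intro h
    obtain ⟨g, hg⟩ := hns v hw
    have : g ∈ B := by rw [h]; exact Subgroup.mem_top g
    obtain ⟨c, hc⟩ := (hBmem g).mp this
    exact hg c hc
  have hBcard : 2 * Nat.card B ≤ Nat.card Γ := by
    have h1 : B.index * Nat.card B = Nat.card Γ := Subgroup.index_mul_card B
    have h2 : B.index ≠ 1 := fun h => hBtop (Subgroup.index_eq_one.mp h)
    have h3 : B.index ≠ 0 := Subgroup.index_ne_zero_of_finite
    have h4 : 2 ≤ B.index := by omega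
    calc 2 * Nat.card B ≤ B.index * Nat.card B := Nat.mul_le_mul_right _ h4
      _ = Nat.card Γ := h1
  -- the part of `H` inside `B`
  have hHB : (H.filter (fun h => h ∈ B)).card ≤ Nat.card B := by
    have h1 : ((H.filter (fun h => h ∈ B) : Finset Γ) : Set Γ) ⊆ (B : Set Γ) := by
      intro h hh
      exact (Finset.mem_filter.mp (Finset.mem_coe.mp hh)).2
    have h2 := Set.ncard_le_ncard h1 (Set.toFinite _)
    rw [Set.ncard_coe_finset] at h2
    exact h2.trans (le_of_eq (Nat.card_coe_set_eq (B : Set Γ)).symm)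
  -- the part of `H` outside `B`
  let Z : Subgroup Γ := Subgroup.zpowers u
  have hZcard : Nat.card (Γ ⧸ Z) * ℓ = Nat.card Γ := by
    have h1 := Subgroup.card_eq_card_quotient_mul_card_subgroup Z
    rw [Nat.card_zpowers, hu] at h1
    exact h1.symm
  haveI : Fintype (Γ ⧸ Z) := Fintype.ofFinite _
  have hS : (H.filter (fun h => h ∉ B)).card ≤ P.card * Nat.card (Γ ⧸ Z) := by
    have hmaps : ∀ h ∈ H.filter (fun h => h ∉ B),
        ((trDet (ρ h), (QuotientGroup.mk h : Γ ⧸ Z)) : (k × k) × (Γ ⧸ Z)) ∈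
          P ×ˢ (Finset.univ : Finset (Γ ⧸ Z)) := by
      intro h hh
      rw [Finset.mem_product]
      exact ⟨hP h (Finset.mem_filter.mp hh).1, Finset.mem_univ _⟩
    have hinj : Set.InjOn
        (fun h : Γ => ((trDet (ρ h), (QuotientGroup.mk h : Γ ⧸ Z)) : (k × k) × (Γ ⧸ Z)))
        (H.filter (fun h => h ∉ B) : Finset Γ) := by
      intro h hh h' _ heq
      rw [Finset.mem_coe, Finset.mem_filter] at hh
      simp only [Prod.mk.injEq] at heq
      obtain ⟨htd, hq⟩ := heq
      have hmem : h⁻¹ * h' ∈ Z := QuotientGroup.eq.mp hq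
      obtain ⟨n, hn⟩ : h⁻¹ * h' ∈ Submonoid.powers u := mem_powers_iff_mem_zpowers.mpr hmem
      have hn' : u ^ n = h⁻¹ * h' := hn
      have hh' : h' = h * u ^ n := by rw [hn', mul_inv_cancel_left]
      have htr : ((ρ h' : GL (Fin 2) k) : Matrix (Fin 2) (Fin 2) k).trace =
          ((ρ h : GL (Fin 2) k) : Matrix (Fin 2) (Fin 2) k).trace +
            (n : k) * ((ρ h : Matrix (Fin 2) (Fin 2) k) * N).trace := by
        rw [hh', map_mul, Units.val_mul, hUpow n, mul_add, mul_one, Matrix.trace_add,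
          Matrix.mul_smul, Matrix.trace_smul, smul_eq_mul]
      have htr0 : ((ρ h : Matrix (Fin 2) (Fin 2) k) * N).trace ≠ 0 := by
        intro h0
        exact hh.2 ((hBmem h).mpr (key _ h0))
      have h1 : (n : k) * ((ρ h : Matrix (Fin 2) (Fin 2) k) * N).trace = 0 := by
        have := congrArg Prod.fst htd
        simp only [trDet] at this
        rw [htr] at this
        linear_combination -this
      have h2 : (n : k) = 0 := (mul_eq_zero.mp h1).resolve_right htr0
      have h3 : ℓ ∣ n := (CharP.cast_eq_zero_iff k ℓ n).mp h2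
      have h4 : u ^ n = 1 := by
        rw [← hu] at h3
        exact orderOf_dvd_iff_pow_eq_one.mp h3
      rw [hh', h4, mul_one]
    have := Finset.card_le_card_of_injOn _ hmaps hinj
    rw [Finset.card_product, Finset.card_univ, ← Nat.card_eq_fintype_card] at this
    exact this
  have hsplit : H.card = (H.filter (fun h => h ∈ B)).card +
      (H.filter (fun h => h ∉ B)).card :=
    (Finset.card_filter_add_card_filter_not (fun h => h ∈ B)).symm
  calc 2 * ℓ * H.card
      = ℓ * (2 * (H.filter (fun h => h ∈ B)).card) +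
          2 * ((H.filter (fun h => h ∉ B)).card * ℓ) := by rw [hsplit]; ring
    _ ≤ ℓ * (2 * Nat.card B) + 2 * (P.card * Nat.card (Γ ⧸ Z) * ℓ) := by
        gcongr
    _ ≤ ℓ * Nat.card Γ + 2 * (P.card * Nat.card Γ) := by
        rw [mul_assoc P.card, hZcard]
        gcongr
    _ = (ℓ + 2 * P.card) * Nat.card Γ := by ring

end Fermat.Agent.S48.H428

end
-- ===== PACK-END S48/H428/Coset.lean

-- ===== PACK-BEGIN S48/H428/FiniteImage.lean
section



/-!
# S48 (Deligne–Serre) / P5 = FI (helper428): the finite image lemma, general-field form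

`finiteImage : Top.FiniteImageStatement` (Deligne–Serre 1974, Prop. 7.2), unconditional, in the
exact shape of `Fermat/Agent/S48/Top/Spec.lean`:
for `η < 1/2` and `M` there is `A` such that for every prime `ℓ > A`, every field `k` of
characteristic `ℓ` and every finite semisimple subgroup `G ≤ GL₂(k)` with `C(η, M)` one has
`|G| ≤ A`.  Here `A = 240 M + ⌈4 M / (1 - 2 η)⌉`.

* `ℓ ∣ |G|` is impossible for `ℓ > 2 M / (1 - 2 η)`: `coset_bound` (the coset lemma), using
  that a semisimple `G` of order divisible by `ℓ` stabilises no line (`noStableLine_of_split`).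
* `ℓ ∤ |G|`: base change to the algebraic closure of `k` and `card_bound_of_coprime`
  (Burnside count on the fixed points on the projective line; no trichotomy needed):
  `|G| ≤ 4 M / (1 - 2 η)` or `|G| ≤ 240 M`.
-/

set_option autoImplicit false
set_option linter.style.haveILetI false

namespace Fermat.Agent.S48.H428

open Matrix

section Transfer

variable {F K : Type*} [Field F] [Field K] (f : F →+* K)

/-- `GL₂(F) → GL₂(K)` is injective. -/
lemma glMap_injective :
    Function.Injective (Matrix.GeneralLinearGroup.map (n := Fin 2) f) := by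
  intro g h hgh
  apply Units.ext
  ext i j
  have := congrArg (fun x : GL (Fin 2) K => x i j) hgh
  simp only [Matrix.GeneralLinearGroup.map_apply] at this
  exact f.injective this

/-- `(trace, det)` is compatible with base change. -/
lemma trDet_glMap (g : GL (Fin 2) F) :
    trDet (Matrix.GeneralLinearGroup.map (n := Fin 2) f g) = Prod.map f f (Top.trDet g) := by
  ext
  · simp [trDet, Top.trDet, Matrix.trace_fin_two]
  · simp [trDet, Top.trDet, Matrix.det_fin_two]

end Transfer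

/-- The coprime case over any field of characteristic `ℓ`. -/
theorem card_bound_field (ℓ : ℕ) (k : Type*) [Field k] [CharP k ℓ]
    (G : Subgroup (GL (Fin 2) k)) [Finite G]
    (hl : ¬ ℓ ∣ Nat.card G) (H : Set (GL (Fin 2) k))
    (hHG : H ⊆ (G : Set (GL (Fin 2) k)))
    (P : Finset (k × k)) (hP : ∀ h ∈ H, Top.trDet h ∈ P) :
    2 * Nat.card H ≤ Nat.card G + 4 * P.card ∨ Nat.card H ≤ 120 * P.card := by
  classical
  let K := AlgebraicClosure k
  let f : k →+* K := algebraMap k K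
  let φ : GL (Fin 2) k →* GL (Fin 2) K := Matrix.GeneralLinearGroup.map f
  have hφ : Function.Injective φ := glMap_injective f
  haveI : CharP K ℓ := charP_of_injective_algebraMap f.injective ℓ
  have hcardG : Nat.card (G.map φ) = Nat.card G := Subgroup.card_map_of_injective hφ
  have hGpos : 0 < Nat.card G := Nat.card_pos
  haveI : Finite (G.map φ) := Nat.finite_of_card_ne_zero (by omega)
  have hN : (Nat.card (G.map φ) : K) ≠ 0 := by
    rw [hcardG, Ne, CharP.cast_eq_zero_iff K ℓ]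
    exact hl
  have hHfin : H.Finite := (Set.toFinite (G : Set (GL (Fin 2) k))).subset hHG
  let H' : Finset (GL (Fin 2) K) := hHfin.toFinset.image φ
  have hH'G : ∀ h ∈ H', h ∈ G.map φ := by
    intro h hh
    obtain ⟨x, hx, rfl⟩ := Finset.mem_image.mp hh
    exact Subgroup.mem_map_of_mem φ (hHG ((Set.Finite.mem_toFinset _).mp hx))
  have hH'card : H'.card = Nat.card H := by
    rw [Finset.card_image_of_injective _ hφ, ← Set.ncard_eq_toFinset_card H hHfin,
      Nat.card_coe_set_eq]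
  have himg : (trDet '' (H' : Set (GL (Fin 2) K))).ncard ≤ P.card := by
    have hsub : trDet '' (H' : Set (GL (Fin 2) K)) ⊆
        ((P.image (Prod.map f f) : Finset (K × K)) : Set (K × K)) := by
      rintro _ ⟨h, hh, rfl⟩
      obtain ⟨x, hx, rfl⟩ := Finset.mem_image.mp (Finset.mem_coe.mp hh)
      rw [Finset.mem_coe, Finset.mem_image]
      exact ⟨Top.trDet x, hP x ((Set.Finite.mem_toFinset _).mp hx), (trDet_glMap f x).symm⟩
    calc (trDet '' (H' : Set (GL (Fin 2) K))).ncard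
        ≤ ((P.image (Prod.map f f) : Finset (K × K)) : Set (K × K)).ncard :=
          Set.ncard_le_ncard hsub (Finset.finite_toSet _)
      _ = (P.image (Prod.map f f)).card := Set.ncard_coe_finset _
      _ ≤ P.card := Finset.card_image_le
  rcases card_bound_of_coprime (G.map φ) hN H' hH'G with h | h
  · left
    rw [hH'card, hcardG] at h
    omega
  · right
    rw [hH'card] at h
    omega

/-- A semisimple subgroup of `GL₂(k)`, `k` of characteristic `ℓ`, of order divisible by `ℓ`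
stabilises no line. -/
theorem noStableLine_of_split (ℓ : ℕ) (hℓ : ℓ.Prime) (k : Type*) [Field k] [CharP k ℓ]
    (G : Subgroup (GL (Fin 2) k)) [Finite G]
    (hs : Top.StableLinesSplit G) (hl : ℓ ∣ Nat.card G) (v : Fin 2 → k) (hv : v ≠ 0) :
    ∃ g : G, ∀ c : k, ((g : GL (Fin 2) k) : Matrix (Fin 2) (Fin 2) k) *ᵥ v ≠ c • v := by
  haveI : Fact ℓ.Prime := ⟨hℓ⟩
  by_contra hns
  push Not at hns
  have hstab : ∀ g ∈ G, ∃ c : k, (g : Matrix (Fin 2) (Fin 2) k) *ᵥ v = c • v :=
    fun g hg => hns ⟨g, hg⟩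
  obtain ⟨w, hw, hwstab⟩ := hs v hv hstab
  obtain ⟨u, hu⟩ := exists_prime_orderOf_dvd_card' ℓ hl
  have hUord : orderOf (u : GL (Fin 2) k) = ℓ := by
    rw [Subgroup.orderOf_coe]; exact hu
  obtain ⟨U, hUG⟩ := u
  simp only at hUord
  have hU1 : U ≠ 1 := by
    intro h
    rw [h, orderOf_one] at hUord
    exact hℓ.one_lt.ne hUord
  have hUl : U ^ ℓ = 1 := by
    have := pow_orderOf_eq_one U
    rwa [hUord] at this
  have hUl' : (U : Matrix (Fin 2) (Fin 2) k) ^ ℓ = 1 := by
    rw [← Units.val_pow_eq_pow_val, hUl, Units.val_one]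
  have key : ∀ x : Fin 2 → k, x ≠ 0 →
      (∃ c : k, (U : Matrix (Fin 2) (Fin 2) k) *ᵥ x = c • x) →
      ((U : Matrix (Fin 2) (Fin 2) k) - 1) *ᵥ x = 0 := by
    rintro x hx ⟨c, hc⟩
    have hpow : ∀ n : ℕ, ((U : Matrix (Fin 2) (Fin 2) k) ^ n) *ᵥ x = c ^ n • x := by
      intro n
      induction n with
      | zero => simp
      | succ n ih =>
        rw [pow_succ, ← Matrix.mulVec_mulVec, hc, Matrix.mulVec_smul, ih, smul_smul, pow_succ,
          mul_comm]
    have h1 := hpow ℓ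
    rw [hUl', Matrix.one_mulVec] at h1
    have h2 : c ^ ℓ = 1 := by
      by_contra hne
      have h3 : (c ^ ℓ - 1) • x = 0 := by rw [sub_smul, one_smul, ← h1, sub_self]
      rcases smul_eq_zero.mp h3 with h4 | h4
      · exact hne (sub_eq_zero.mp h4)
      · exact hx h4
    have h5 : c = 1 := by
      have h6 : (c - 1) ^ ℓ = 0 := by rw [sub_pow_char, h2, one_pow, sub_self]
      exact sub_eq_zero.mp (pow_eq_zero_iff hℓ.ne_zero |>.mp h6)
    rw [Matrix.sub_mulVec, Matrix.one_mulVec, hc, h5, one_smul, sub_self]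
  have hw0 : w ≠ 0 := by
    intro h
    exact hw 0 (by rw [h, zero_smul])
  have hA : (U : Matrix (Fin 2) (Fin 2) k) - 1 ≠ 0 := by
    intro h
    exact hU1 (Units.ext (by rw [Units.val_one]; exact sub_eq_zero.mp h))
  obtain ⟨c, hc⟩ := ker_proportional _ hA hv (key v hv (hstab U hUG)) (key w hw0 (hwstab U hUG))
  exact hw c hc

/-- The case `ℓ ∣ |G|`: the coset lemma for a subgroup and a subset. -/
theorem coset_bound_subgroup (ℓ : ℕ) (hℓ : ℓ.Prime) (k : Type*) [Field k] [CharP k ℓ]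
    (G : Subgroup (GL (Fin 2) k)) [Finite G]
    (hs : Top.StableLinesSplit G) (hl : ℓ ∣ Nat.card G) (H : Set (GL (Fin 2) k))
    (hHG : H ⊆ (G : Set (GL (Fin 2) k)))
    (P : Finset (k × k)) (hP : ∀ h ∈ H, Top.trDet h ∈ P) :
    2 * ℓ * Nat.card H ≤ (ℓ + 2 * P.card) * Nat.card G := by
  classical
  have hHfin : H.Finite := (Set.toFinite (G : Set (GL (Fin 2) k))).subset hHG
  let H' : Finset G := hHfin.toFinset.subtype (fun g => g ∈ G)
  have hH'card : H'.card = Nat.card H := by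
    have hfil : hHfin.toFinset.filter (fun g => g ∈ G) = hHfin.toFinset :=
      Finset.filter_true_of_mem (fun h hh => hHG ((Set.Finite.mem_toFinset _).mp hh))
    rw [Finset.card_subtype, hfil, ← Set.ncard_eq_toFinset_card H hHfin,
      Nat.card_coe_set_eq]
  have h := coset_bound (G.subtype) (Subgroup.subtype_injective G) ℓ hℓ hl
    (noStableLine_of_split ℓ hℓ k G hs hl) H' P (fun h hh => by
      rw [Finset.mem_subtype] at hh
      exact hP _ ((Set.Finite.mem_toFinset _).mp hh))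
  rwa [hH'card] at h

/-- **P5 = FI: the finite image lemma** (Deligne–Serre, Prop. 7.2), general-field form. -/
theorem finiteImage : Top.FiniteImageStatement := by
  intro η M hη
  refine ⟨240 * M + ⌈4 * (M : ℝ) / (1 - 2 * η)⌉₊, ?_⟩
  intro ℓ hℓ hAℓ k _ _ G hGfin hs hC
  obtain ⟨H, hHG, hcard, P, hPM, hP⟩ := hC
  haveI : Finite G := hGfin
  have hGpos : 0 < Nat.card G := Nat.card_pos
  have hGpos' : (0 : ℝ) < (Nat.card G : ℝ) := by exact_mod_cast hGpos
  have hPM' : (P.card : ℝ) ≤ (M : ℝ) := by exact_mod_cast hPM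
  have hpos : (0 : ℝ) < 1 - 2 * η := by linarith
  have hM0 : (0 : ℝ) ≤ (M : ℝ) := Nat.cast_nonneg M
  by_cases hl : ℓ ∣ Nat.card G
  · exfalso
    have h1 := coset_bound_subgroup ℓ hℓ k G hs hl H hHG P hP
    have h1' : 2 * (ℓ : ℝ) * (Nat.card H : ℝ) ≤
        ((ℓ : ℝ) + 2 * (P.card : ℝ)) * (Nat.card G : ℝ) := by exact_mod_cast h1
    have hℓpos : (0 : ℝ) < (ℓ : ℝ) := by exact_mod_cast hℓ.pos
    -- `ℓ (1 - 2 η) ≤ 2 M`
    have h2 : 2 * (ℓ : ℝ) * ((1 - η) * (Nat.card G : ℝ)) ≤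
        ((ℓ : ℝ) + 2 * (M : ℝ)) * (Nat.card G : ℝ) := by
      calc 2 * (ℓ : ℝ) * ((1 - η) * (Nat.card G : ℝ))
          ≤ 2 * (ℓ : ℝ) * (Nat.card H : ℝ) :=
            mul_le_mul_of_nonneg_left hcard (by positivity)
        _ ≤ ((ℓ : ℝ) + 2 * (P.card : ℝ)) * (Nat.card G : ℝ) := h1'
        _ ≤ ((ℓ : ℝ) + 2 * (M : ℝ)) * (Nat.card G : ℝ) :=
            mul_le_mul_of_nonneg_right (by linarith) hGpos'.le
    have h3 : 2 * (ℓ : ℝ) * (1 - η) ≤ (ℓ : ℝ) + 2 * (M : ℝ) := by
      have h4 : (2 * (ℓ : ℝ) * (1 - η)) * (Nat.card G : ℝ) ≤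
          ((ℓ : ℝ) + 2 * (M : ℝ)) * (Nat.card G : ℝ) := by linarith
      exact le_of_mul_le_mul_right h4 hGpos'
    have h5 : (ℓ : ℝ) * (1 - 2 * η) ≤ 2 * (M : ℝ) := by linarith
    have h6 : (ℓ : ℝ) ≤ 4 * (M : ℝ) / (1 - 2 * η) := by
      rw [le_div_iff₀ hpos]
      linarith
    have h7 : ℓ ≤ ⌈4 * (M : ℝ) / (1 - 2 * η)⌉₊ :=
      Nat.cast_le.mp (le_trans h6 (Nat.le_ceil _))
    omega
  · have hhalf : (Nat.card G : ℝ) / 2 < (1 - η) * (Nat.card G : ℝ) := by nlinarith
    rcases card_bound_field ℓ k G hl H hHG P hP with h | h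
    · have h' : 2 * (Nat.card H : ℝ) ≤ (Nat.card G : ℝ) + 4 * (P.card : ℝ) := by
        exact_mod_cast h
      have h8 : (Nat.card G : ℝ) ≤ 4 * (M : ℝ) / (1 - 2 * η) := by
        rw [le_div_iff₀ hpos]
        nlinarith
      have h9 : Nat.card G ≤ ⌈4 * (M : ℝ) / (1 - 2 * η)⌉₊ :=
        Nat.cast_le.mp (le_trans h8 (Nat.le_ceil _))
      omega
    · have h' : (Nat.card H : ℝ) ≤ 120 * (P.card : ℝ) := by exact_mod_cast h
      have h8 : (Nat.card G : ℝ) < 240 * (M : ℝ) := by linarith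
      have h9 : Nat.card G < 240 * M := by exact_mod_cast h8
      omega

end Fermat.Agent.S48.H428

end
-- ===== PACK-END S48/H428/FiniteImage.lean

-- ===== PACK-BEGIN S48/H528/LiftTop.lean
section



/-!
# S48 / P6a — `liftStatement : Top.LiftStatement`  (helper528)

For every prime `ℓ` we take a valuation subring `R` of `ℂ` in which `ℓ` is not a unit
(Chevalley), `k := ResidueField R` and `φ : ℤ̄ ⊆ R → k`.  Every representation
`r : G →* GL₂(k)` of a finite group of order prime to `ℓ` lifts to `G →* GL₂(R) ⊆ GL₂(ℂ)`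
(`exists_lift_matrix`, via idempotent lifting in `M_{2|G|}(R)`), and traces and determinants of
finite-order matrices are algebraic integers.
-/

set_option autoImplicit false
set_option linter.unusedSectionVars false

noncomputable section

open Polynomial IsLocalRing Matrix

namespace Fermat.Agent.S48.H528

/-- trace and determinant of a complex matrix of finite order are algebraic integers -/
theorem isIntegral_trace_det_of_pow_eq_one (M : Matrix (Fin 2) (Fin 2) ℂ) (N : ℕ) (hN : 0 < N)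
    (h : M ^ N = 1) : IsIntegral ℤ M.trace ∧ IsIntegral ℤ M.det := by
  have hroot : ∀ γ ∈ M.charpoly.roots, IsIntegral ℤ γ := by
    intro γ hγ
    have h1 : γ ∈ spectrum ℂ M :=
      Matrix.mem_spectrum_iff_isRoot_charpoly.2 (Polynomial.isRoot_of_mem_roots hγ)
    have h2 := spectrum.pow_mem_pow M N h1
    rw [h, spectrum.one_eq] at h2
    have h3 : γ ^ N = 1 := h2
    exact IsIntegral.of_pow hN (h3 ▸ isIntegral_one)
  constructor
  · rw [Matrix.trace_eq_sum_roots_charpoly]
    exact IsIntegral.multiset_sum hroot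
  · rw [Matrix.det_eq_prod_roots_charpoly]
    exact IsIntegral.multiset_prod hroot

/-- a valuation subring of `ℂ` in which the prime `ℓ` is not a unit -/
theorem exists_valuationSubring_natCast_eq_zero (ℓ : ℕ) (hℓ : ℓ.Prime) :
    ∃ R : ValuationSubring ℂ, ((ℓ : ℕ) : ResidueField R) = 0 := by
  let A : Subring ℂ := (Int.castRingHom ℂ).range
  have hmem : ((ℓ : ℕ) : ℂ) ∈ A := ⟨(ℓ : ℤ), by simp⟩
  let I : Ideal A := Ideal.span {⟨((ℓ : ℕ) : ℂ), hmem⟩}
  have hI : I ≠ ⊤ := by
    intro htop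
    have h1 : (1 : A) ∈ I := by rw [htop]; trivial
    obtain ⟨a, ha⟩ := Ideal.mem_span_singleton'.mp h1
    obtain ⟨m, hm⟩ := a.2
    have h2 : ((m * (ℓ : ℤ) : ℤ) : ℂ) = ((1 : ℤ) : ℂ) := by
      have := congrArg (fun x : A => (x : ℂ)) ha
      simp only [Subring.coe_mul, Subring.coe_one] at this
      rw [← hm] at this
      push_cast
      simpa using this
    have h3 : m * (ℓ : ℤ) = 1 := by exact_mod_cast h2
    have h4 : (ℓ : ℤ) ∣ 1 := Dvd.intro_left m h3
    have h5 : ℓ ∣ 1 := by exact_mod_cast h4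
    exact hℓ.one_lt.ne' (Nat.dvd_one.mp h5)
  obtain ⟨B, hAB, hB⟩ := Ideal.image_subset_nonunits_valuationSubring I hI
  refine ⟨B, ?_⟩
  have h1 : ((ℓ : ℕ) : ℂ) ∈ B.nonunits :=
    hB ⟨⟨((ℓ : ℕ) : ℂ), hmem⟩, Ideal.subset_span rfl, rfl⟩
  obtain ⟨hb, hmax⟩ := ValuationSubring.mem_nonunits_iff_exists_mem_maximalIdeal.mp h1
  have h2 : ((ℓ : ℕ) : B) = ⟨((ℓ : ℕ) : ℂ), hb⟩ := Subtype.ext (by simp)
  rw [← map_natCast (residue B), h2]
  exact (residue_eq_zero_iff _).mpr hmax

/-- algebraic integers lie in every valuation subring of `ℂ` -/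
theorem zbar_mem_valuationSubring (R : ValuationSubring ℂ) (x : Top.Zbar) : (x : ℂ) ∈ R := by
  have h1 : IsIntegral ℤ (x : ℂ) := x.2
  have h2 : IsIntegral R (x : ℂ) := h1.tower_top
  obtain ⟨y, hy⟩ := (IsIntegrallyClosed.isIntegral_iff (R := R) (K := ℂ)).mp h2
  rw [← hy]
  exact y.2

/-- the inclusion `ℤ̄ ⊆ R` -/
def zbarToVal (R : ValuationSubring ℂ) : Top.Zbar →+* R :=
  RingHom.codRestrict (algebraMap Top.Zbar ℂ) R (zbar_mem_valuationSubring R)

theorem coe_zbarToVal (R : ValuationSubring ℂ) (x : Top.Zbar) :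
    ((zbarToVal R x : R) : ℂ) = (x : ℂ) := rfl

/-- **P6a (LIFT).** -/
theorem liftStatement : Top.LiftStatement := by
  intro ℓ hℓ
  obtain ⟨R, hR0⟩ := exists_valuationSubring_natCast_eq_zero ℓ hℓ
  have hchar : CharP (ResidueField R) ℓ := (CharP.charP_iff_prime_eq_zero hℓ).mpr hR0
  refine ⟨ResidueField R, inferInstance, hchar, (residue R).comp (zbarToVal R), ?_⟩
  intro G _ _ hcard r
  classical
  let _ : Fintype G := Fintype.ofFinite G
  have hN : ((Fintype.card G : ℕ) : ResidueField R) ≠ 0 := by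
    rw [Ne, CharP.cast_eq_zero_iff (ResidueField R) ℓ, ← Nat.card_eq_fintype_card]
    exact hcard
  obtain ⟨ρ₀, hρ₀⟩ := exists_lift_matrix (monicSplits_valuationSubring R)
    ((Units.coeHom (Matrix (Fin 2) (Fin 2) (ResidueField R))).comp r) hN
  let Rc : G →* GL (Fin 2) ℂ :=
    (Units.map (R.subtype.mapMatrix (m := Fin 2)).toMonoidHom).comp ρ₀.toHomUnits
  have hRc : ∀ g, ((Rc g : GL (Fin 2) ℂ) : Matrix (Fin 2) (Fin 2) ℂ) =
      (ρ₀ g).map R.subtype := fun g => rfl
  refine ⟨Rc, fun g => ?_⟩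
  have hpow : ((Rc g : GL (Fin 2) ℂ) : Matrix (Fin 2) (Fin 2) ℂ) ^ Fintype.card G = 1 := by
    rw [← Units.val_pow_eq_pow_val, ← map_pow, pow_card_eq_one, map_one, Units.val_one]
  obtain ⟨hint_t, hint_d⟩ := isIntegral_trace_det_of_pow_eq_one _ _ Fintype.card_pos hpow
  have htr : ((Rc g : GL (Fin 2) ℂ) : Matrix (Fin 2) (Fin 2) ℂ).trace =
      (((ρ₀ g).trace : R) : ℂ) := by
    rw [hRc]
    exact (AddMonoidHom.map_trace R.subtype.toAddMonoidHom (ρ₀ g)).symm
  have hdet : ((Rc g : GL (Fin 2) ℂ) : Matrix (Fin 2) (Fin 2) ℂ).det =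
      (((ρ₀ g).det : R) : ℂ) := by
    rw [hRc]
    exact (RingHom.map_det R.subtype (ρ₀ g)).symm
  have hrtr : residue R (ρ₀ g).trace =
      ((r g : GL (Fin 2) (ResidueField R)) : Matrix (Fin 2) (Fin 2) (ResidueField R)).trace := by
    have h1 : residue R (ρ₀ g).trace = ((ρ₀ g).map (residue R)).trace :=
      AddMonoidHom.map_trace (residue R).toAddMonoidHom (ρ₀ g)
    rw [h1, hρ₀ g]
    rfl
  have hrdet : residue R (ρ₀ g).det =
      ((r g : GL (Fin 2) (ResidueField R)) : Matrix (Fin 2) (Fin 2) (ResidueField R)).det := by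
    rw [RingHom.map_det]
    congr 1
    exact hρ₀ g
  refine ⟨⟨_, hint_t⟩, ⟨_, hint_d⟩, rfl, rfl, ?_, ?_⟩
  · rw [← hrtr]
    change residue R (zbarToVal R ⟨_, hint_t⟩) = _
    have h1 : zbarToVal R ⟨_, hint_t⟩ = (ρ₀ g).trace := Subtype.ext htr
    rw [h1]
  · rw [← hrdet]
    change residue R (zbarToVal R ⟨_, hint_d⟩) = _
    have h1 : zbarToVal R ⟨_, hint_d⟩ = (ρ₀ g).det := Subtype.ext hdet
    rw [h1]

end Fermat.Agent.S48.H528

end
end
-- ===== PACK-END S48/H528/LiftTop.lean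

-- ===== PACK-BEGIN Lib/Cheb/H476/FrobAt.lean
section





/-!
# CHEB piece F6 (bridge), part 1: Frobenius elements at a GIVEN valuation subring of `ℚ̄`

`exists_frobenius_at`: for every valuation subring `A` of `ℚ̄` over a prime number `ℓ` there is
`σ ∈ Gal(ℚ̄/ℚ)` which is a Frobenius element at `A`, and which satisfies `σ x ≡ x ^ ℓ` modulo
the prime of `ℤ̄` below `A`.

Also: elementwise descriptions of Frobenius elements and of the inertia group.
-/

set_option autoImplicit false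

open scoped Pointwise

namespace Fermat.Agent.Lib.Cheb.H476

open Fermat.Agent.Lib.Cheb.Spec

/-- Frobenius elements exist at every valuation subring of `ℚ̄` over a prime number. -/
theorem exists_frobenius_at (ℓ : ℕ) (hℓ : ℓ.Prime) (A : ValuationSubring Qb)
    (hA : A.LiesOverPrime ℓ) :
    ∃ σ : GQ, A.IsFrobeniusAt σ ℓ ∧
      ∀ x : integralClosure ℤ Qb, σ • x - x ^ ℓ ∈ Fermat.Agent.S54.primeBelow A := by
  have : Algebra.IsAlgebraic ℚ (AlgebraicClosure ℚ) := AlgebraicClosure.isAlgebraic ℚ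
  have := Fermat.Agent.S54.primeBelow_isPrime A
  have hℓQ : (ℓ : integralClosure ℤ (AlgebraicClosure ℚ)) ∈ Fermat.Agent.S54.primeBelow A := by
    rw [Fermat.Agent.S54.mem_primeBelow]
    exact hA
  obtain ⟨σ, hσQ', hσF⟩ :=
    Fermat.Agent.S54.exists_frob_integralClosure ℓ hℓ (Fermat.Agent.S54.primeBelow A) hℓQ
  have hσQ : ∀ x, σ • x ∈ Fermat.Agent.S54.primeBelow A ↔
      x ∈ Fermat.Agent.S54.primeBelow A := by
    intro x
    conv_lhs => rw [← hσQ']
    exact Ideal.smul_mem_pointwise_smul_iff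
  have key : ∀ τ : AlgebraicClosure ℚ ≃ₐ[ℚ] AlgebraicClosure ℚ,
      (∀ x, τ • x ∈ Fermat.Agent.S54.primeBelow A ↔ x ∈ Fermat.Agent.S54.primeBelow A) →
      ∀ x ∈ A, τ x ∈ A := by
    intro τ hτ x hx
    obtain ⟨b, s, hb, hs, hsA, hxs⟩ :=
      (Fermat.Agent.S54.mem_valuationSubring_iff A ℓ hℓ hA x).mp hx
    refine (Fermat.Agent.S54.mem_valuationSubring_iff A ℓ hℓ hA (τ x)).mpr
      ⟨τ b, τ s, hb.map τ, hs.map τ, ?_, ?_⟩
    · exact (hτ ⟨s, hs⟩).not.mpr hsA
    · rw [← map_mul, hxs]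
  have hσA : σ ∈ A.decompositionSubgroup ℚ := by
    rw [MulAction.mem_stabilizer_iff]
    ext x
    rw [ValuationSubring.mem_smul_pointwise_iff_exists]
    constructor
    · rintro ⟨s, hs, rfl⟩
      exact key σ hσQ s hs
    · intro hx
      refine ⟨σ⁻¹ • x, key σ⁻¹ ?_ x hx, by simp⟩
      intro y
      rw [← hσQ (σ⁻¹ • y)]
      simp
  refine ⟨σ, ⟨hσA, ?_⟩, hσF⟩
  intro x
  obtain ⟨a, rfl⟩ := IsLocalRing.residue_surjective x
  obtain ⟨b, s, hb, hs, hsA, hxs⟩ :=
    (Fermat.Agent.S54.mem_valuationSubring_iff A ℓ hℓ hA a).mp a.2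
  have hbA : b ∈ A := Fermat.Agent.S54.isIntegral_mem_valuationSubring A hb
  have hsA' : s ∈ A := Fermat.Agent.S54.isIntegral_mem_valuationSubring A hs
  have hint : ∀ (y : AlgebraicClosure ℚ) (hy : IsIntegral ℤ y),
      (⟨σ, hσA⟩ : A.decompositionSubgroup ℚ) •
        IsLocalRing.residue A ⟨y, Fermat.Agent.S54.isIntegral_mem_valuationSubring A hy⟩ =
      (IsLocalRing.residue A ⟨y, Fermat.Agent.S54.isIntegral_mem_valuationSubring A hy⟩) ^ ℓ := by
    intro y hy
    rw [← IsLocalRing.ResidueField.residue_smul, ← map_pow, ← sub_eq_zero, ← map_sub,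
      IsLocalRing.residue_eq_zero_iff, ← ValuationSubring.coe_mem_nonunits_iff]
    exact hσF ⟨y, hy⟩
  have h1 : IsLocalRing.residue A a * IsLocalRing.residue A ⟨s, hsA'⟩ =
      IsLocalRing.residue A ⟨b, hbA⟩ := by
    rw [← map_mul]
    congr 1
    exact Subtype.ext hxs
  have h2 : IsLocalRing.residue A ⟨s, hsA'⟩ ≠ 0 := by
    rw [Ne, IsLocalRing.residue_eq_zero_iff, ← ValuationSubring.coe_mem_nonunits_iff]
    exact hsA
  have h3 := congrArg (fun z => (⟨σ, hσA⟩ : A.decompositionSubgroup ℚ) • z) h1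
  simp only [smul_mul'] at h3
  rw [hint s hs, hint b hb, ← h1, mul_pow] at h3
  exact mul_right_cancel₀ (pow_ne_zero _ h2) h3

/-- Elements of the inertia group move elements of the valuation ring by nonunits. -/
theorem sub_mem_nonunits_of_mem_inertia (A : ValuationSubring Qb) (ι : GQ)
    (hι : ι ∈ A.inertiaSubgroupIn ℚ) (a : Qb) (ha : a ∈ A) : ι a - a ∈ A.nonunits := by
  obtain ⟨ι', hι', rfl⟩ := hι
  have h1 : ι' • IsLocalRing.residue A ⟨a, ha⟩ = IsLocalRing.residue A ⟨a, ha⟩ := by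
    have := congrArg (fun f => f (IsLocalRing.residue A ⟨a, ha⟩)) (MonoidHom.mem_ker.mp hι')
    simpa using this
  rw [← IsLocalRing.ResidueField.residue_smul, ← sub_eq_zero, ← map_sub,
    IsLocalRing.residue_eq_zero_iff, ← ValuationSubring.coe_mem_nonunits_iff] at h1
  exact h1

end Fermat.Agent.Lib.Cheb.H476

end
-- ===== PACK-END Lib/Cheb/H476/FrobAt.lean

-- ===== PACK-BEGIN Lib/Cheb/H476/Core.lean
section






/-!
# CHEB piece F6 (bridge), part 2: from a prime of a Galois number field inside `ℚ̄`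
to a valuation subring of `ℚ̄` with a Frobenius element
-/

set_option autoImplicit false

open NumberField
open scoped Pointwise

namespace Fermat.Agent.Lib.Cheb.H476

open Fermat.Agent.Lib.Cheb.Spec

/-- The inclusion of the ring of integers of a subfield of `ℚ̄` into `ℚ̄`. -/
noncomputable def incl (L : IntermediateField ℚ Qb) : 𝓞 L →+* Qb :=
  (algebraMap L Qb).comp (algebraMap (𝓞 L) L)

theorem incl_apply (L : IntermediateField ℚ Qb) (x : 𝓞 L) :
    incl L x = ((x : L) : Qb) := rfl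

theorem incl_injective (L : IntermediateField ℚ Qb) : Function.Injective (incl L) := by
  intro x y h
  have h1 : ((x : L) : Qb) = ((y : L) : Qb) := h
  exact RingOfIntegers.ext (Subtype.ext h1)

theorem incl_isIntegral (L : IntermediateField ℚ Qb) (x : 𝓞 L) : IsIntegral ℤ (incl L x) := by
  have h1 : IsIntegral ℤ (x : L) := RingOfIntegers.isIntegral_coe x
  exact h1.map (IsScalarTower.toAlgHom ℤ L Qb)

/-- A valuation subring of `ℚ̄` whose maximal ideal contains a given proper ideal of the ring of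
integers of a subfield. -/
theorem exists_valuationSubring_over (L : IntermediateField ℚ Qb) (P : Ideal (𝓞 L))
    (hP : P ≠ ⊤) : ∃ A : ValuationSubring Qb, ∀ x ∈ P, incl L x ∈ A.nonunits := by
  let I : Ideal (incl L).range := P.map (incl L).rangeRestrict
  have hI : I ≠ ⊤ := by
    intro h
    have h1 : (1 : (incl L).range) ∈ I := by rw [h]; trivial
    rw [Ideal.mem_map_iff_of_surjective _ (incl L).rangeRestrict_surjective] at h1
    obtain ⟨x, hx, hx1⟩ := h1
    have h2 : incl L x = incl L 1 := by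
      have := congrArg Subtype.val hx1
      simpa using this
    have h3 : x = 1 := incl_injective L h2
    exact hP ((Ideal.eq_top_iff_one P).mpr (h3 ▸ hx))
  obtain ⟨A, -, hA⟩ := Ideal.image_subset_nonunits_valuationSubring I hI
  refine ⟨A, fun x hx => hA ⟨(incl L).rangeRestrict x, Ideal.mem_map_of_mem _ hx, rfl⟩⟩

/-- The maximal ideal of `A` cuts out exactly `P`. -/
theorem incl_mem_nonunits_iff (L : IntermediateField ℚ Qb) [NumberField L]
    (A : ValuationSubring Qb) (P : Ideal (𝓞 L)) (hP : P.IsMaximal)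
    (hA : ∀ x ∈ P, incl L x ∈ A.nonunits) (x : 𝓞 L) :
    incl L x ∈ A.nonunits ↔ x ∈ P := by
  refine ⟨fun hx => ?_, hA x⟩
  by_contra hxP
  obtain ⟨y, m, hm, hxy⟩ := hP.exists_inv hxP
  have h1 : incl L y * incl L x + incl L m = 1 := by
    rw [← map_mul, ← map_add, hxy, map_one]
  have hy : A.valuation (incl L y) ≤ 1 :=
    (A.valuation_le_one_iff _).mpr
      (Fermat.Agent.S54.isIntegral_mem_valuationSubring A (incl_isIntegral L y))
  have hx' : A.valuation (incl L x) < 1 := A.mem_nonunits_iff.mp hx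
  have hm' : A.valuation (incl L m) < 1 := A.mem_nonunits_iff.mp (hA m hm)
  have h2 : A.valuation (incl L y * incl L x) < 1 := by
    rw [map_mul]
    exact mul_lt_of_le_one_of_lt hy hx'
  have h3 : A.valuation (incl L y * incl L x + incl L m) < 1 :=
    lt_of_le_of_lt (A.valuation.map_add _ _) (max_lt h2 hm')
  rw [h1, map_one] at h3
  exact lt_irrefl _ h3


/-- The prime of `ℤ` below a prime of `𝓞 L` containing the prime number `p` has residue field of
cardinality `p`. -/
theorem card_quot_under (L : IntermediateField ℚ Qb) [NumberField L] (p : ℕ) (hp : p.Prime)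
    (P : Ideal (𝓞 L)) (hP : P.IsPrime) (hpP : (p : 𝓞 L) ∈ P) :
    Nat.card (ℤ ⧸ P.under ℤ) = p := by
  have : Fact p.Prime := ⟨hp⟩
  have hle : Ideal.span {(p : ℤ)} ≤ P.under ℤ := by
    rw [Ideal.span_le, Set.singleton_subset_iff]
    show algebraMap ℤ (𝓞 L) (p : ℤ) ∈ P
    simpa using hpP
  have hne : P.under ℤ ≠ ⊤ := (Ideal.IsPrime.under ℤ P).ne_top
  have heq : Ideal.span {(p : ℤ)} = P.under ℤ :=
    (Int.ideal_span_isMaximal_of_prime p).eq_of_le hne hle
  rw [← heq, Int.card_ideal_quot]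

/-- **Core of the bridge.**  A prime `P` of a Galois number field `L ⊆ ℚ̄` above `p`, with trivial
inertia group and arithmetic Frobenius `τ`, is induced by a valuation subring `A` of `ℚ̄`
over `p` carrying a Frobenius element `φ` which restricts to `τ`; the inertia group of `A` acts
trivially on `L`. -/
theorem exists_frobenius_restrict (L : IntermediateField ℚ Qb) [NumberField L] [IsGalois ℚ L]
    (p : ℕ) (hp : p.Prime) (P : Ideal (𝓞 L)) (hP : P.IsPrime) (hpP : (p : 𝓞 L) ∈ P)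
    (hI : InertiaTrivial L P) (τ : L ≃ₐ[ℚ] L) (hτ : IsArithFrobAt ℤ τ P) :
    ∃ (A : ValuationSubring Qb) (φ : GQ), A.LiesOverPrime p ∧ A.IsFrobeniusAt φ p ∧
      (∀ ι ∈ A.inertiaSubgroupIn ℚ, ∀ x : L, ι (x : Qb) = x) ∧
      (∀ x : L, φ (x : Qb) = (τ x : L)) := by
  have hP0 : P ≠ ⊥ := by
    intro h
    rw [h, Ideal.mem_bot] at hpP
    exact hp.ne_zero (by exact_mod_cast hpP)
  have hPmax : P.IsMaximal := hP.isMaximal hP0
  obtain ⟨A, hA⟩ := exists_valuationSubring_over L P hP.ne_top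
  have hAp : A.LiesOverPrime p := by
    have h := hA _ hpP
    have h' : incl L (p : 𝓞 L) = (p : Qb) := by simp
    rw [h'] at h
    exact h
  obtain ⟨φ, hφ, hφF⟩ := exists_frobenius_at p hp A hAp
  have hmem := incl_mem_nonunits_iff L A P hPmax hA
  have hres : ∀ (g : GQ) (x : L), ((AlgEquiv.restrictNormal g L x : L) : Qb) = g (x : Qb) :=
    fun g x => AlgEquiv.restrictNormal_commutes g L x
  have hcard := card_quot_under L p hp P hP hpP
  refine ⟨A, φ, hAp, hφ, ?_, ?_⟩
  · intro ι hι x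
    have h1 : AlgEquiv.restrictNormal ι L = 1 := by
      apply hI
      intro y
      rw [← hmem]
      have h2 : incl L (AlgEquiv.restrictNormal ι L • y - y) = ι (incl L y) - incl L y := by
        rw [map_sub]
        congr 1
        exact hres ι y
      rw [h2]
      exact sub_mem_nonunits_of_mem_inertia A ι hι _
        (Fermat.Agent.S54.isIntegral_mem_valuationSubring A (incl_isIntegral L y))
    rw [← hres, h1]
    rfl
  · have h1 : IsArithFrobAt ℤ (AlgEquiv.restrictNormal φ L) P := by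
      intro y
      rw [hcard]
      rw [← hmem]
      have h2 : incl L ((MulSemiringAction.toAlgHom ℤ (𝓞 L) (AlgEquiv.restrictNormal φ L)) y
          - y ^ p) = φ (incl L y) - incl L y ^ p := by
        rw [map_sub, map_pow]
        congr 1
        exact hres φ y
      rw [h2]
      exact hφF ⟨incl L y, incl_isIntegral L y⟩
    have h2 := IsArithFrobAt.mul_inv_mem_inertia h1 hτ
    have h3 : AlgEquiv.restrictNormal φ L * τ⁻¹ = 1 := hI _ h2
    have h4 : AlgEquiv.restrictNormal φ L = τ := mul_inv_eq_one.mp h3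
    intro x
    rw [← hres, h4]

end Fermat.Agent.Lib.Cheb.H476

end
-- ===== PACK-END Lib/Cheb/H476/Core.lean

-- ===== PACK-BEGIN S14/H74/Support.lean
section


/-!
# S14/N1 (helper74): the support of `rho` (piece P5a)

On the support of `rho` all the `normAtPlace w x` are comparable with `‖x‖`.
-/

namespace Fermat.Agent.S14.H74

open NumberField NumberField.mixedEmbedding NumberField.Units
  NumberField.Units.dirichletUnitTheorem NumberField.InfinitePlace Module

open scoped Classical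

variable {K : Type*} [Field K] [NumberField K]

theorem normAtPlace_le_norm (w : InfinitePlace K) (x : mixedSpace K) :
    normAtPlace w x ≤ ‖x‖ := by
  classical
  rw [norm_eq_sup'_normAtPlace]
  exact Finset.le_sup' (fun w ↦ normAtPlace w x) (Finset.mem_univ w)

theorem exists_norm_eq_normAtPlace (x : mixedSpace K) : ∃ w, ‖x‖ = normAtPlace w x := by
  classical
  obtain ⟨w, -, hw⟩ := Finset.exists_mem_eq_sup' Finset.univ_nonempty
    (fun w : InfinitePlace K ↦ normAtPlace w x)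
  exact ⟨w, by rw [norm_eq_sup'_normAtPlace, hw]⟩

theorem log_norm_eq_sum {x : mixedSpace K} (hx : mixedEmbedding.norm x ≠ 0) :
    Real.log (mixedEmbedding.norm x) = ∑ w, (mult w : ℝ) * Real.log (normAtPlace w x) := by
  rw [mixedEmbedding.norm_apply, Real.log_prod]
  · exact Finset.sum_congr rfl fun w _ ↦ by rw [Real.log_pow]
  · intro w _
    exact pow_ne_zero _ (mixedEmbedding.norm_ne_zero_iff.mp hx w)

theorem norm_ne_zero_of_rho_ne_zero {x : mixedSpace K} (h : rho K x ≠ 0) :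
    mixedEmbedding.norm x ≠ 0 := by
  intro h0
  exact h (by simp [rho, h0])

theorem rho_eq_prod {x : mixedSpace K} (hx : mixedEmbedding.norm x ≠ 0) :
    rho K x = ∏ j, tent (logCoord K x j) := by
  simp [rho, hx]

theorem rho_nonneg (x : mixedSpace K) : 0 ≤ rho K x := by
  unfold rho
  split_ifs
  · exact le_rfl
  · exact Finset.prod_nonneg fun j _ ↦ tent_nonneg _

theorem rho_le_one (x : mixedSpace K) : rho K x ≤ 1 := by
  unfold rho
  split_ifs
  · exact zero_le_one
  · exact Finset.prod_le_one (fun j _ ↦ tent_nonneg _) fun j _ ↦ tent_le_one _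

theorem abs_logCoord_lt_one_of_rho_ne_zero {x : mixedSpace K} (h : rho K x ≠ 0)
    (j : Fin (rank K)) : |logCoord K x j| < 1 := by
  have hx := norm_ne_zero_of_rho_ne_zero h
  rw [rho_eq_prod hx] at h
  exact abs_lt_one_of_tent_ne_zero fun h0 ↦ h (Finset.prod_eq_zero (Finset.mem_univ j) h0)

theorem logMap_eq_sum_logCoord (x : mixedSpace K) :
    logMap x = ∑ j, logCoord K x j • ((basisUnitLattice K).ofZLatticeBasis ℝ (unitLattice K)) j :=
  (((basisUnitLattice K).ofZLatticeBasis ℝ (unitLattice K)).sum_repr (logMap x)).symm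

/-- A bound for `logMap` on the support of `rho`. -/
theorem exists_logMap_bound : ∃ B : ℝ, 0 ≤ B ∧ ∀ x : mixedSpace K, rho K x ≠ 0 →
    ‖logMap x‖ ≤ B := by
  refine ⟨∑ j, ‖((basisUnitLattice K).ofZLatticeBasis ℝ (unitLattice K)) j‖,
    Finset.sum_nonneg fun j _ ↦ norm_nonneg _, fun x hx ↦ ?_⟩
  rw [logMap_eq_sum_logCoord x]
  refine (norm_sum_le _ _).trans (Finset.sum_le_sum fun j _ ↦ ?_)
  rw [_root_.norm_smul, Real.norm_eq_abs]
  exact mul_le_of_le_one_left (norm_nonneg _) (abs_logCoord_lt_one_of_rho_ne_zero hx j).le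

theorem sum_mult_mul_log_sub {x : mixedSpace K} (hx : mixedEmbedding.norm x ≠ 0) :
    ∑ w : InfinitePlace K, (mult w : ℝ) * (Real.log (normAtPlace w x) -
      Real.log (mixedEmbedding.norm x) * (finrank ℚ K : ℝ)⁻¹) = 0 := by
  have h1 : (∑ w : InfinitePlace K, (mult w : ℝ)) = (finrank ℚ K : ℝ) := by
    rw [← Nat.cast_sum, sum_mult_eq]
  have h2 : (finrank ℚ K : ℝ) ≠ 0 := Nat.cast_ne_zero.mpr finrank_pos.ne'
  simp_rw [mul_sub]
  rw [Finset.sum_sub_distrib, ← log_norm_eq_sum hx, ← Finset.sum_mul, h1]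
  field_simp
  ring

/-- On the support of `rho`, all `log (normAtPlace w x)` are within a bounded distance of
`log (norm x) / n`. -/
theorem exists_log_normAtPlace_bound : ∃ B : ℝ, 0 ≤ B ∧ ∀ x : mixedSpace K, rho K x ≠ 0 →
    ∀ w, |Real.log (normAtPlace w x) -
      Real.log (mixedEmbedding.norm x) * (finrank ℚ K : ℝ)⁻¹| ≤ B := by
  obtain ⟨B, hB0, hB⟩ := exists_logMap_bound (K := K)
  refine ⟨(Fintype.card (InfinitePlace K) + 1) * B, by positivity, fun x hx w ↦ ?_⟩
  have hN := norm_ne_zero_of_rho_ne_zero hx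
  set d : InfinitePlace K → ℝ := fun w ↦ Real.log (normAtPlace w x) -
      Real.log (mixedEmbedding.norm x) * (finrank ℚ K : ℝ)⁻¹ with hd
  have hne : ∀ w : InfinitePlace K, w ≠ w₀ → |(mult w : ℝ) * d w| ≤ B := by
    intro w hw
    have h1 : logMap x ⟨w, hw⟩ = (mult w : ℝ) * d w := by simp [hd]
    rw [← h1]
    exact (norm_le_pi_norm (logMap x) ⟨w, hw⟩).trans (hB x hx)
  have hall : ∀ w : InfinitePlace K, |(mult w : ℝ) * d w| ≤ Fintype.card (InfinitePlace K) * B := by
    intro w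
    by_cases hw : w = w₀
    · have hsum := sum_mult_mul_log_sub hN
      rw [← Finset.add_sum_erase Finset.univ _ (Finset.mem_univ w)] at hsum
      have h2 : (mult w : ℝ) * d w = - ∑ v ∈ Finset.univ.erase w, (mult v : ℝ) * d v := by
        linarith
      rw [h2, abs_neg]
      refine (Finset.abs_sum_le_sum_abs _ _).trans ?_
      calc ∑ v ∈ Finset.univ.erase w, |(mult v : ℝ) * d v|
          ≤ ∑ v ∈ Finset.univ.erase w, B := by
            refine Finset.sum_le_sum fun v hv ↦ hne v ?_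
            rw [← hw]
            exact Finset.ne_of_mem_erase hv
        _ = (Finset.univ.erase w).card * B := by rw [Finset.sum_const, nsmul_eq_mul]
        _ ≤ Fintype.card (InfinitePlace K) * B := by
            gcongr
            exact Finset.card_le_univ _
    · refine (hne w hw).trans ?_
      have : (1 : ℝ) ≤ Fintype.card (InfinitePlace K) := by
        exact_mod_cast Fintype.card_pos
      nlinarith
  have h1 : |d w| ≤ |(mult w : ℝ) * d w| := by
    rw [abs_mul, abs_of_nonneg (by positivity : (0 : ℝ) ≤ mult w)]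
    exact le_mul_of_one_le_left (abs_nonneg _) one_le_mult
  refine h1.trans ((hall w).trans ?_)
  nlinarith

/-- On the support of `rho`, all `normAtPlace w x` are comparable with `‖x‖`. -/
theorem exists_support_bound : ∃ A : ℝ, 1 ≤ A ∧ ∀ x : mixedSpace K, rho K x ≠ 0 →
    ∀ w, ‖x‖ ≤ A * normAtPlace w x := by
  obtain ⟨B, hB0, hB⟩ := exists_log_normAtPlace_bound (K := K)
  refine ⟨Real.exp (2 * B), Real.one_le_exp (by positivity), fun x hx w ↦ ?_⟩
  have hN := norm_ne_zero_of_rho_ne_zero hx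
  have hpos : ∀ v, 0 < normAtPlace v x := fun v ↦
    lt_of_le_of_ne (normAtPlace_nonneg v x) (mixedEmbedding.norm_ne_zero_iff.mp hN v).symm
  obtain ⟨v, hv⟩ := exists_norm_eq_normAtPlace x
  rw [hv]
  have h1 := abs_le.mp (hB x hx v)
  have h2 := abs_le.mp (hB x hx w)
  have h3 : Real.log (normAtPlace v x) ≤ 2 * B + Real.log (normAtPlace w x) := by linarith
  calc normAtPlace v x = Real.exp (Real.log (normAtPlace v x)) := (Real.exp_log (hpos v)).symm
    _ ≤ Real.exp (2 * B + Real.log (normAtPlace w x)) := Real.exp_le_exp.mpr h3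
    _ = Real.exp (2 * B) * normAtPlace w x := by rw [Real.exp_add, Real.exp_log (hpos w)]

end Fermat.Agent.S14.H74

end
-- ===== PACK-END S14/H74/Support.lean

-- ===== PACK-BEGIN S14/H74/Lipschitz.lean
section


/-!
# S14/N1 (helper74): Lipschitz estimate for `fS` (piece P5)
-/

namespace Fermat.Agent.S14.H74

open NumberField NumberField.mixedEmbedding NumberField.Units
  NumberField.Units.dirichletUnitTheorem NumberField.InfinitePlace Module

open scoped Classical

variable {K : Type*} [Field K] [NumberField K]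

theorem abs_log_sub_log_le {a b : ℝ} (ha : 0 < a) (hab : |b - a| ≤ a / 2) :
    |Real.log b - Real.log a| ≤ 2 * |b - a| / a := by
  have hb : 0 < b := by
    have := (abs_le.mp hab).1
    linarith
  have hb2 : a / 2 ≤ b := by
    have := (abs_le.mp hab).1
    linarith
  rw [← Real.log_div hb.ne' ha.ne']
  have hr : 0 < b / a := div_pos hb ha
  have h1 : Real.log (b / a) ≤ b / a - 1 := Real.log_le_sub_one_of_pos hr
  have h2 : 1 - (b / a)⁻¹ ≤ Real.log (b / a) := Real.one_sub_inv_le_log_of_pos hr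
  have e1 : b / a - 1 = (b - a) / a := by field_simp
  have e2 : 1 - (b / a)⁻¹ = (b - a) / b := by field_simp
  rw [e1] at h1
  rw [e2] at h2
  have h3 : (b - a) / a ≤ 2 * |b - a| / a := by
    apply div_le_div_of_nonneg_right _ ha.le
    have := le_abs_self (b - a)
    have := abs_nonneg (b - a)
    linarith
  have h4 : -(2 * |b - a| / a) ≤ (b - a) / b := by
    rw [neg_le, ← neg_div, div_le_div_iff₀ hb ha]
    have h5 := neg_abs_le (b - a)
    have h6 := abs_nonneg (b - a)
    have h7 : -(b - a) ≤ |b - a| := by linarith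
    calc -(b - a) * a ≤ |b - a| * a := by gcongr
      _ ≤ |b - a| * (2 * b) := by gcongr; linarith
      _ = 2 * |b - a| * b := by ring
  exact abs_le.mpr ⟨by linarith, by linarith⟩

theorem abs_normAtPlace_add_sub_le (w : InfinitePlace K) (x t : mixedSpace K) :
    |normAtPlace w (x + t) - normAtPlace w x| ≤ ‖t‖ := by
  have h1 := normAtPlace_add_le w x t
  have h2 := normAtPlace_add_le w (x + t) (-t)
  rw [normAtPlace_neg, add_neg_cancel_right] at h2
  have h3 := normAtPlace_le_norm w t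
  exact abs_le.mpr ⟨by linarith, by linarith⟩

/-- Bound for the coordinates in the unit lattice basis. -/
theorem exists_logCoord_bound : ∃ M : ℝ, 0 ≤ M ∧ ∀ (v : logSpace K) (j : Fin (rank K)),
    |((basisUnitLattice K).ofZLatticeBasis ℝ (unitLattice K)).repr v j| ≤ M * ‖v‖ := by
  set b := (basisUnitLattice K).ofZLatticeBasis ℝ (unitLattice K) with hb
  refine ⟨‖(b.equivFunL : logSpace K →L[ℝ] (Fin (rank K) → ℝ))‖, norm_nonneg _, fun v j ↦ ?_⟩
  have h1 := (b.equivFunL : logSpace K →L[ℝ] (Fin (rank K) → ℝ)).le_opNorm v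
  have h2 : b.repr v j = (b.equivFunL : logSpace K →L[ℝ] (Fin (rank K) → ℝ)) v j := by
    simp [Basis.equivFunL]
  rw [h2, ← Real.norm_eq_abs]
  exact (norm_le_pi_norm _ j).trans h1

theorem mult_le_two_real (w : InfinitePlace K) : (mult w : ℝ) ≤ 2 := by
  unfold mult
  split_ifs <;> norm_num

theorem normAtPlace_pos_of_norm_ne_zero {x : mixedSpace K} (hx : mixedEmbedding.norm x ≠ 0)
    (w : InfinitePlace K) : 0 < normAtPlace w x :=
  lt_of_le_of_ne (normAtPlace_nonneg w x) (mixedEmbedding.norm_ne_zero_iff.mp hx w).symm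

/-- L1: a small perturbation keeps the norm nonzero and moves the logarithms of the
`normAtPlace` by a small amount. -/
theorem log_normAtPlace_add_sub {x t : mixedSpace K} (hx : mixedEmbedding.norm x ≠ 0)
    (ht : ∀ w, ‖t‖ ≤ normAtPlace w x / 2) :
    mixedEmbedding.norm (x + t) ≠ 0 ∧ ∀ w, |Real.log (normAtPlace w (x + t)) -
      Real.log (normAtPlace w x)| ≤ 2 * ‖t‖ / normAtPlace w x := by
  have hpos := normAtPlace_pos_of_norm_ne_zero hx
  have h1 : ∀ w, |normAtPlace w (x + t) - normAtPlace w x| ≤ normAtPlace w x / 2 :=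
    fun w ↦ (abs_normAtPlace_add_sub_le w x t).trans (ht w)
  refine ⟨mixedEmbedding.norm_ne_zero_iff.mpr fun w ↦ ?_, fun w ↦ ?_⟩
  · have := (abs_le.mp (h1 w)).1
    have := hpos w
    exact ne_of_gt (by linarith)
  · refine (abs_log_sub_log_le (hpos w) (h1 w)).trans ?_
    apply div_le_div_of_nonneg_right _ (hpos w).le
    have := abs_normAtPlace_add_sub_le w x t
    linarith

/-- L2 (i): the logarithm of the norm moves by at most `n δ`. -/
theorem abs_log_norm_sub_le {x y : mixedSpace K} (hx : mixedEmbedding.norm x ≠ 0)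
    (hy : mixedEmbedding.norm y ≠ 0) {δ : ℝ}
    (h : ∀ w, |Real.log (normAtPlace w y) - Real.log (normAtPlace w x)| ≤ δ) :
    |Real.log (mixedEmbedding.norm y) - Real.log (mixedEmbedding.norm x)|
      ≤ (finrank ℚ K : ℝ) * δ := by
  rw [log_norm_eq_sum hx, log_norm_eq_sum hy, ← Finset.sum_sub_distrib]
  refine (Finset.abs_sum_le_sum_abs _ _).trans ?_
  have h1 : (∑ w : InfinitePlace K, (mult w : ℝ)) = (finrank ℚ K : ℝ) := by
    rw [← Nat.cast_sum, sum_mult_eq]
  rw [← h1, Finset.sum_mul]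
  refine Finset.sum_le_sum fun w _ ↦ ?_
  rw [← mul_sub, abs_mul, abs_of_nonneg (by positivity : (0 : ℝ) ≤ mult w)]
  exact mul_le_mul_of_nonneg_left (h w) (by positivity)

/-- L2 (ii): `logMap` moves by at most `4 δ`. -/
theorem norm_logMap_sub_le {x y : mixedSpace K} (hx : mixedEmbedding.norm x ≠ 0)
    (hy : mixedEmbedding.norm y ≠ 0) {δ : ℝ} (hδ : 0 ≤ δ)
    (h : ∀ w, |Real.log (normAtPlace w y) - Real.log (normAtPlace w x)| ≤ δ) :
    ‖logMap y - logMap x‖ ≤ 4 * δ := by
  rw [pi_norm_le_iff_of_nonneg (by positivity)]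
  intro w
  have hn : (0 : ℝ) < finrank ℚ K := Nat.cast_pos.mpr finrank_pos
  have h1 := abs_log_norm_sub_le hx hy h
  have h2 := h w.1
  rw [Pi.sub_apply, logMap_apply, logMap_apply, ← mul_sub, Real.norm_eq_abs, abs_mul,
    abs_of_nonneg (by positivity : (0 : ℝ) ≤ mult w.1)]
  have h3 : |Real.log (normAtPlace w.1 y) -
      Real.log (mixedEmbedding.norm y) * (finrank ℚ K : ℝ)⁻¹ -
      (Real.log (normAtPlace w.1 x) - Real.log (mixedEmbedding.norm x) * (finrank ℚ K : ℝ)⁻¹)|
      ≤ 2 * δ := by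
    have e : Real.log (normAtPlace w.1 y) -
      Real.log (mixedEmbedding.norm y) * (finrank ℚ K : ℝ)⁻¹ -
      (Real.log (normAtPlace w.1 x) - Real.log (mixedEmbedding.norm x) * (finrank ℚ K : ℝ)⁻¹)
      = (Real.log (normAtPlace w.1 y) - Real.log (normAtPlace w.1 x)) -
        (Real.log (mixedEmbedding.norm y) - Real.log (mixedEmbedding.norm x)) *
          (finrank ℚ K : ℝ)⁻¹ := by ring
    rw [e]
    refine (abs_sub _ _).trans ?_
    rw [abs_mul, abs_of_pos (inv_pos.mpr hn)]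
    have h4 : |Real.log (mixedEmbedding.norm y) - Real.log (mixedEmbedding.norm x)| *
        (finrank ℚ K : ℝ)⁻¹ ≤ δ := by
      rw [← div_eq_mul_inv, div_le_iff₀ hn]
      linarith
    linarith
  calc (mult w.1 : ℝ) * _ ≤ 2 * (2 * δ) :=
        mul_le_mul (mult_le_two_real w.1) h3 (abs_nonneg _) (by norm_num)
    _ = 4 * δ := by ring

/-- L2 (iii): `rho` moves by at most `r M 4 δ`. -/
theorem exists_rho_sub_bound : ∃ M : ℝ, 0 ≤ M ∧ ∀ (x y : mixedSpace K),
    mixedEmbedding.norm x ≠ 0 → mixedEmbedding.norm y ≠ 0 → ∀ δ : ℝ, 0 ≤ δ →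
    (∀ w, |Real.log (normAtPlace w y) - Real.log (normAtPlace w x)| ≤ δ) →
    |rho K y - rho K x| ≤ M * δ := by
  obtain ⟨M, hM0, hM⟩ := exists_logCoord_bound (K := K)
  refine ⟨rank K * (M * 4), by positivity, fun x y hx hy δ hδ h ↦ ?_⟩
  rw [rho_eq_prod hx, rho_eq_prod hy]
  refine (abs_prod_sub_prod_le_sum _ _ _ (fun _ ↦ tent_nonneg _) (fun _ ↦ tent_le_one _)
    (fun _ ↦ tent_nonneg _) (fun _ ↦ tent_le_one _)).trans ?_
  have h1 : ∀ j, |tent (logCoord K y j) - tent (logCoord K x j)| ≤ M * 4 * δ := by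
    intro j
    refine (tent_lipschitz _ _).trans ?_
    have e : logCoord K y j - logCoord K x j =
        ((basisUnitLattice K).ofZLatticeBasis ℝ (unitLattice K)).repr (logMap y - logMap x) j := by
      simp [logCoord]
    rw [e]
    refine (hM _ j).trans ?_
    rw [mul_assoc]
    exact mul_le_mul_of_nonneg_left (norm_logMap_sub_le hx hy hδ h) hM0
  calc ∑ j, |tent (logCoord K y j) - tent (logCoord K x j)|
      ≤ ∑ _j : Fin (rank K), M * 4 * δ := Finset.sum_le_sum fun j _ ↦ h1 j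
    _ = rank K * (M * 4) * δ := by
        rw [Finset.sum_const, Finset.card_univ, Fintype.card_fin, nsmul_eq_mul]
        ring

theorem pow_le_norm_of_support {A : ℝ} (hA : 1 ≤ A) {x : mixedSpace K}
    (h : ∀ w, ‖x‖ ≤ A * normAtPlace w x) :
    (‖x‖ / A) ^ (finrank ℚ K) ≤ mixedEmbedding.norm x := by
  have hA0 : 0 < A := by linarith
  rw [mixedEmbedding.norm_apply, ← sum_mult_eq, ← Finset.prod_pow_eq_pow_sum]
  refine Finset.prod_le_prod (fun w _ ↦ by positivity) fun w _ ↦ ?_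
  refine pow_le_pow_left₀ (by positivity) ?_ _
  rw [div_le_iff₀ hA0, mul_comm]
  exact h w

theorem fS_eq_zero_of_rho_eq_zero {s : ℝ} {x : mixedSpace K} (h : rho K x = 0) :
    fS K s x = 0 := by
  simp [fS, h]

/-- P5, core case: Lipschitz estimate at points of the support of `rho`. -/
theorem exists_fS_lipschitz_core : ∃ C A : ℝ, 0 ≤ C ∧ 1 ≤ A ∧ ∀ s : ℝ, 1 ≤ s → s ≤ 2 →
    ∀ x t : mixedSpace K, rho K x ≠ 0 → 4 * (finrank ℚ K : ℝ) * A * ‖t‖ ≤ ‖x‖ → A ≤ ‖x‖ →
    |fS K s (x + t) - fS K s x| ≤ C * ‖t‖ / ‖x‖ ^ (finrank ℚ K + 1) := by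
  obtain ⟨A, hA1, hA⟩ := exists_support_bound (K := K)
  obtain ⟨M, hM0, hM⟩ := exists_rho_sub_bound (K := K)
  have hA0 : 0 < A := by linarith
  have hn1 : (1 : ℝ) ≤ finrank ℚ K := by exact_mod_cast finrank_pos
  set n : ℕ := finrank ℚ K with hn
  refine ⟨(3 * M + 4 * n) * 2 * A ^ (n + 1), A, by positivity, hA1,
    fun s hs1 hs2 x t hρ hxt hxA ↦ ?_⟩
  have hN := norm_ne_zero_of_rho_ne_zero hρ
  have hsupp := hA x hρ
  have hxpos : 0 < ‖x‖ := by linarith
  have hapos := normAtPlace_pos_of_norm_ne_zero hN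
  have htn : 0 ≤ ‖t‖ := norm_nonneg t
  -- `‖t‖` is small with respect to all `normAtPlace w x`
  have ht4 : ∀ w, 4 * (n : ℝ) * ‖t‖ ≤ normAtPlace w x := by
    intro w
    have h1 := hsupp w
    have h2 : A * (4 * (n : ℝ) * ‖t‖) ≤ A * normAtPlace w x := by
      calc A * (4 * (n : ℝ) * ‖t‖) = 4 * (n : ℝ) * A * ‖t‖ := by ring
        _ ≤ ‖x‖ := hxt
        _ ≤ A * normAtPlace w x := h1
    exact le_of_mul_le_mul_left h2 hA0
  have ht : ∀ w, ‖t‖ ≤ normAtPlace w x / 2 := by
    intro w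
    have := ht4 w
    nlinarith
  obtain ⟨hN', hlog⟩ := log_normAtPlace_add_sub hN ht
  set δ : ℝ := 2 * A * ‖t‖ / ‖x‖ with hδ
  have hδ0 : 0 ≤ δ := by positivity
  have hδ1 : 2 * (n : ℝ) * δ ≤ 1 := by
    rw [hδ, ← mul_div_assoc, div_le_one hxpos]
    calc 2 * (n : ℝ) * (2 * A * ‖t‖) = 4 * (n : ℝ) * A * ‖t‖ := by ring
      _ ≤ ‖x‖ := hxt
  have hlogδ : ∀ w, |Real.log (normAtPlace w (x + t)) - Real.log (normAtPlace w x)| ≤ δ := by
    intro w
    refine (hlog w).trans ?_
    rw [hδ, div_le_div_iff₀ (hapos w) hxpos]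
    calc 2 * ‖t‖ * ‖x‖ ≤ 2 * ‖t‖ * (A * normAtPlace w x) := by gcongr; exact hsupp w
      _ = 2 * A * ‖t‖ * normAtPlace w x := by ring
  have hΔ := abs_log_norm_sub_le hN hN' hlogδ
  have hρ' := hM x (x + t) hN hN' δ hδ0 hlogδ
  set Δ : ℝ := Real.log (mixedEmbedding.norm (x + t)) - Real.log (mixedEmbedding.norm x) with hΔdef
  have hNpos : 0 < mixedEmbedding.norm x :=
    lt_of_le_of_ne (mixedEmbedding.norm_nonneg x) hN.symm
  have hNpos' : 0 < mixedEmbedding.norm (x + t) :=
    lt_of_le_of_ne (mixedEmbedding.norm_nonneg _) hN'.symm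
  -- the exponential factor
  have hsΔ : |(-s) * Δ| ≤ 2 * (n : ℝ) * δ := by
    rw [abs_mul, abs_neg, abs_of_nonneg (by linarith : (0 : ℝ) ≤ s)]
    calc s * |Δ| ≤ 2 * ((n : ℝ) * δ) := mul_le_mul hs2 hΔ (abs_nonneg _) (by norm_num)
      _ = 2 * (n : ℝ) * δ := by ring
  have he1 : |Real.exp ((-s) * Δ) - 1| ≤ 4 * (n : ℝ) * δ := by
    refine (Real.abs_exp_sub_one_le (hsΔ.trans hδ1)).trans ?_
    linarith
  have he2 : Real.exp ((-s) * Δ) ≤ 3 := by
    have := (abs_le.mp he1).2
    linarith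
  have he0 : 0 ≤ Real.exp ((-s) * Δ) := (Real.exp_pos _).le
  have hpow : (mixedEmbedding.norm (x + t)) ^ (-s) =
      (mixedEmbedding.norm x) ^ (-s) * Real.exp ((-s) * Δ) := by
    rw [Real.rpow_def_of_pos hNpos, Real.rpow_def_of_pos hNpos', ← Real.exp_add, hΔdef]
    congr 1
    ring
  -- bound for `N(x)^(-s)`
  have hNge := pow_le_norm_of_support hA1 hsupp
  have hxA1 : 1 ≤ ‖x‖ / A := by rwa [le_div_iff₀ hA0, one_mul]
  have hN1 : 1 ≤ mixedEmbedding.norm x := (one_le_pow₀ hxA1).trans hNge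
  have hNs : (mixedEmbedding.norm x) ^ (-s) ≤ (A / ‖x‖) ^ n := by
    calc (mixedEmbedding.norm x) ^ (-s) ≤ (mixedEmbedding.norm x) ^ (-1 : ℝ) :=
          Real.rpow_le_rpow_of_exponent_le hN1 (by linarith)
      _ = (mixedEmbedding.norm x)⁻¹ := Real.rpow_neg_one _
      _ ≤ ((‖x‖ / A) ^ n)⁻¹ := inv_anti₀ (by positivity) hNge
      _ = (A / ‖x‖) ^ n := by rw [← inv_pow, inv_div]
  have hNs0 : 0 ≤ (mixedEmbedding.norm x) ^ (-s) := Real.rpow_nonneg hNpos.le _
  -- assemble
  have hρ0 := rho_nonneg (K := K) x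
  have hρ1 := rho_le_one (K := K) x
  have key : fS K s (x + t) - fS K s x = (mixedEmbedding.norm x) ^ (-s) *
      ((rho K (x + t) - rho K x) * Real.exp ((-s) * Δ) +
        rho K x * (Real.exp ((-s) * Δ) - 1)) := by
    have e1 : fS K s (x + t) = rho K (x + t) * (mixedEmbedding.norm (x + t)) ^ (-s) := rfl
    have e2 : fS K s x = rho K x * (mixedEmbedding.norm x) ^ (-s) := rfl
    rw [e1, e2, hpow]
    generalize rho K (x + t) = r1
    generalize rho K x = r2
    generalize (mixedEmbedding.norm x) ^ (-s) = q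
    generalize Real.exp ((-s) * Δ) = e
    ring
  rw [key, abs_mul, abs_of_nonneg hNs0]
  have hin : |(rho K (x + t) - rho K x) * Real.exp ((-s) * Δ) +
        rho K x * (Real.exp ((-s) * Δ) - 1)| ≤ (3 * M + 4 * n) * δ := by
    refine (abs_add_le _ _).trans ?_
    rw [abs_mul, abs_mul, abs_of_nonneg he0, abs_of_nonneg hρ0]
    have h1 : |rho K (x + t) - rho K x| * Real.exp ((-s) * Δ) ≤ (M * δ) * 3 :=
      mul_le_mul hρ' he2 he0 (mul_nonneg hM0 hδ0)
    have h2 : rho K x * |Real.exp ((-s) * Δ) - 1| ≤ 1 * (4 * (n : ℝ) * δ) :=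
      mul_le_mul hρ1 he1 (abs_nonneg _) (by norm_num)
    linarith
  calc (mixedEmbedding.norm x) ^ (-s) * _ ≤ (A / ‖x‖) ^ n * ((3 * M + 4 * n) * δ) :=
        mul_le_mul hNs hin (abs_nonneg _) (by positivity)
    _ = (3 * M + 4 * n) * 2 * A ^ (n + 1) * ‖t‖ / ‖x‖ ^ (n + 1) := by
        rw [hδ, div_pow]
        field_simp
        ring

/-- **P5**: Lipschitz estimate for `fS`, uniform in `s ∈ [1, 2]`. -/
theorem exists_fS_lipschitz {T : ℝ} (hT : 0 ≤ T) : ∃ R C : ℝ, 0 < R ∧ 0 ≤ C ∧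
    ∀ s : ℝ, 1 ≤ s → s ≤ 2 → ∀ x t : mixedSpace K, ‖t‖ ≤ T → R ≤ ‖x‖ →
    |fS K s (x + t) - fS K s x| ≤ C / ‖x‖ ^ (finrank ℚ K + 1) := by
  obtain ⟨C, A, hC0, hA1, h⟩ := exists_fS_lipschitz_core (K := K)
  have hA0 : 0 < A := by linarith
  have hn1 : (1 : ℝ) ≤ finrank ℚ K := by exact_mod_cast finrank_pos
  set n : ℕ := finrank ℚ K with hn
  have hnAT : 0 ≤ (n : ℝ) * A * T := by positivity
  refine ⟨2 * A + 8 * n * A * T + 2 * T, C * T * 2 ^ (n + 1), by positivity, by positivity,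
    fun s hs1 hs2 x t ht hx ↦ ?_⟩
  have hxpos : 0 < ‖x‖ := by linarith
  have htn : 0 ≤ ‖t‖ := norm_nonneg t
  have h2pow : (1 : ℝ) ≤ 2 ^ (n + 1) := one_le_pow₀ (by norm_num)
  by_cases hρ : rho K x = 0
  · by_cases hρ' : rho K (x + t) = 0
    · rw [fS_eq_zero_of_rho_eq_zero hρ, fS_eq_zero_of_rho_eq_zero hρ', sub_zero, abs_zero]
      positivity
    · -- apply the core case at `x + t` with `-t`
      have hxt : ‖x‖ / 2 ≤ ‖x + t‖ := by
        have h1 : ‖x‖ ≤ ‖x + t‖ + ‖t‖ := by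
          calc ‖x‖ = ‖(x + t) - t‖ := by rw [add_sub_cancel_right]
            _ ≤ ‖x + t‖ + ‖t‖ := norm_sub_le _ _
        linarith
      have hxt0 : 0 < ‖x + t‖ := by linarith
      have h1 := h s hs1 hs2 (x + t) (-t) hρ' (by
        rw [norm_neg]
        calc 4 * (n : ℝ) * A * ‖t‖ ≤ 4 * (n : ℝ) * A * T := by gcongr
          _ ≤ ‖x‖ / 2 := by linarith
          _ ≤ ‖x + t‖ := hxt) (by linarith)
      rw [add_neg_cancel_right, norm_neg, abs_sub_comm] at h1
      refine h1.trans ?_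
      rw [div_le_div_iff₀ (by positivity) (by positivity)]
      have h3 : ‖x‖ ^ (n + 1) ≤ 2 ^ (n + 1) * ‖x + t‖ ^ (n + 1) := by
        rw [← mul_pow]
        exact pow_le_pow_left₀ hxpos.le (by linarith) _
      calc C * ‖t‖ * ‖x‖ ^ (n + 1) ≤ C * T * (2 ^ (n + 1) * ‖x + t‖ ^ (n + 1)) := by gcongr
        _ = C * T * 2 ^ (n + 1) * ‖x + t‖ ^ (n + 1) := by ring
  · have h1 := h s hs1 hs2 x t hρ (by
      calc 4 * (n : ℝ) * A * ‖t‖ ≤ 4 * (n : ℝ) * A * T := by gcongr
        _ ≤ ‖x‖ := by linarith) (by linarith)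
    refine h1.trans ?_
    apply div_le_div_of_nonneg_right _ (by positivity)
    calc C * ‖t‖ ≤ C * T * 1 := by rw [mul_one]; gcongr
      _ ≤ C * T * 2 ^ (n + 1) := by gcongr

end Fermat.Agent.S14.H74

end
-- ===== PACK-END S14/H74/Lipschitz.lean

-- ===== PACK-BEGIN S14/H74/UnitSum.lean
section


/-!
# S14/N1 (helper74): `rho` is a partition of unity for the action of the units (piece P2)
-/

namespace Fermat.Agent.S14.H74

open NumberField NumberField.mixedEmbedding NumberField.Units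
  NumberField.Units.dirichletUnitTheorem NumberField.InfinitePlace Module

open scoped Classical

variable (K : Type*) [Field K] [NumberField K]

/-- The decomposition of the units as torsion times the free part. -/
noncomputable def unitsEquiv : torsion K × (Fin (rank K) → ℤ) ≃ (𝓞 K)ˣ :=
  Equiv.ofBijective (fun p ↦ (p.1 : (𝓞 K)ˣ) * ∏ i, (fundSystem K i) ^ (p.2 i)) (by
    constructor
    · intro p q h
      obtain ⟨c, -, hc⟩ := exist_unique_eq_mul_prod K
        ((p.1 : (𝓞 K)ˣ) * ∏ i, (fundSystem K i) ^ (p.2 i))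
      rw [hc p rfl, hc q h]
    · intro x
      obtain ⟨c, hc, -⟩ := exist_unique_eq_mul_prod K x
      exact ⟨c, hc.symm⟩)

theorem unitsEquiv_apply (p : torsion K × (Fin (rank K) → ℤ)) :
    unitsEquiv K p = (p.1 : (𝓞 K)ˣ) * ∏ i, (fundSystem K i) ^ (p.2 i) := rfl

theorem logEmbedding_unitsEquiv (p : torsion K × (Fin (rank K) → ℤ)) :
    logEmbedding K (Additive.ofMul (unitsEquiv K p)) =
      ∑ i, ((p.2 i : ℤ) : ℝ) • ((basisUnitLattice K).ofZLatticeBasis ℝ (unitLattice K)) i := by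
  rw [unitsEquiv_apply, ofMul_mul, map_add, ofMul_prod, map_sum]
  have h1 : logEmbedding K (Additive.ofMul (p.1 : (𝓞 K)ˣ)) = 0 := by
    rw [logEmbedding_eq_zero_iff]
    exact p.1.2
  rw [h1, zero_add]
  refine Finset.sum_congr rfl fun i _ ↦ ?_
  rw [ofMul_zpow, map_zsmul, logEmbedding_fundSystem, Basis.ofZLatticeBasis_apply,
    Int.cast_smul_eq_zsmul]

variable {K}

theorem logCoord_unitsEquiv_smul (p : torsion K × (Fin (rank K) → ℤ)) {x : mixedSpace K}
    (hx : mixedEmbedding.norm x ≠ 0) (j : Fin (rank K)) :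
    logCoord K (unitsEquiv K p • x) j = logCoord K x j + p.2 j := by
  unfold logCoord
  rw [logMap_unit_smul _ hx, map_add, Finsupp.add_apply, logEmbedding_unitsEquiv,
    Basis.repr_sum_self, add_comm]

theorem rho_unitsEquiv_smul (p : torsion K × (Fin (rank K) → ℤ)) {x : mixedSpace K}
    (hx : mixedEmbedding.norm x ≠ 0) :
    rho K (unitsEquiv K p • x) = ∏ j, tent (logCoord K x j + p.2 j) := by
  have h : mixedEmbedding.norm (unitsEquiv K p • x) ≠ 0 := by rwa [norm_unit_smul]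
  rw [rho_eq_prod h]
  exact Finset.prod_congr rfl fun j _ ↦ by rw [logCoord_unitsEquiv_smul p hx]

/-- **P2**: the translates of `rho` by the units sum to the number of roots of unity. -/
theorem hasSum_rho_unit_smul {x : mixedSpace K} (hx : mixedEmbedding.norm x ≠ 0) :
    HasSum (fun u : (𝓞 K)ˣ ↦ rho K (u • x)) (torsionOrder K) := by
  rw [← (unitsEquiv K).hasSum_iff]
  have hfun : ((fun u : (𝓞 K)ˣ ↦ rho K (u • x)) ∘ unitsEquiv K) =
      fun p : torsion K × (Fin (rank K) → ℤ) ↦ ∏ j, tent (logCoord K x j + p.2 j) := by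
    funext p
    exact rho_unitsEquiv_smul p hx
  rw [hfun]
  have h1 := tent_prod_hasSum (fun j ↦ logCoord K x j)
  have hnn : (0 : torsion K × (Fin (rank K) → ℤ) → ℝ) ≤
      fun p ↦ ∏ j, tent (logCoord K x j + p.2 j) :=
    fun p ↦ Finset.prod_nonneg fun j _ ↦ tent_nonneg _
  have : Fintype (torsion K) := Fintype.ofFinite _
  have hsum : Summable fun p : torsion K × (Fin (rank K) → ℤ) ↦
      ∏ j, tent (logCoord K x j + p.2 j) := by
    rw [summable_prod_of_nonneg hnn]
    exact ⟨fun _ ↦ h1.summable, Summable.of_finite⟩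
  have h2 := hsum.tsum_prod' (fun _ ↦ h1.summable)
  simp only [h1.tsum_eq, tsum_fintype, Finset.sum_const, Finset.card_univ, nsmul_eq_mul,
    mul_one] at h2
  have h3 : (Fintype.card (torsion K) : ℝ) = torsionOrder K := by
    rw [torsionOrder, Nat.card_eq_fintype_card]
  rw [← h3, ← h2]
  exact hsum.hasSum

end Fermat.Agent.S14.H74

end
-- ===== PACK-END S14/H74/UnitSum.lean

-- ===== PACK-BEGIN S48/H128/EisChar.lean
section





/-!
# S48 / P1 (helper128): the weight 3 Eisenstein series with character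

For a Dirichlet character `χ` mod `N`, `eisChar χ z = ∑_{(c,d) ∈ ℤ²} χ(c) (c z + d)^{-3}`.

* `eisChar_slash` : `eisChar χ ∣[3] γ = χ(d_γ) • eisChar χ` for `γ ∈ Γ₀(N)`;
* `eisChar_mdiff`, `eisChar_slash_isBoundedAtImInfty`;
* `eisChar_eq_tsum`, `qExpansion_eisChar_coeff` : for odd `χ`,
  `eisChar χ = (-2πi)³ ∑_{n ≥ 1} (∑_{d c = n} χ(d) c²) qⁿ`.
-/

set_option autoImplicit false

open UpperHalfPlane EisensteinSeries ModularForm Filter Topology Complex CongruenceSubgroup
open scoped Matrix MatrixGroups Manifold Real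

noncomputable section

namespace Fermat.Agent.S48.H128

open Fermat.Agent.S29

variable {N : ℕ} (χ : DirichletCharacter ℂ N)

/-- The weight `v ↦ χ(v₀)`. -/
def chiWeight (v : Fin 2 → ℤ) : ℂ := χ ((v 0 : ℤ) : ZMod N)

theorem norm_chiWeight_le (v : Fin 2 → ℤ) : ‖chiWeight χ v‖ ≤ 1 :=
  DirichletCharacter.norm_le_one χ _

/-- The weight 3 Eisenstein series `∑ χ(c) (c z + d)^{-3}`. -/
def eisChar : ℍ → ℂ := H332.wEis (chiWeight χ) 3

theorem eisChar_mdiff : MDiff (eisChar χ) :=
  H332.wEis_mdifferentiable (norm_chiWeight_le χ) le_rfl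

theorem eisChar_slash_isBoundedAtImInfty (g : SL(2, ℤ)) :
    IsBoundedAtImInfty (eisChar χ ∣[(3 : ℤ)] g) :=
  H332.wEis_slash_isBoundedAtImInfty (norm_chiWeight_le χ) le_rfl g

theorem chiWeight_vecMul_inv (γ : SL(2, ℤ)) (hγ : γ ∈ Gamma0 N) (v : Fin 2 → ℤ) :
    chiWeight χ (v ᵥ* (γ⁻¹).1) = χ ((γ 1 1 : ℤ) : ZMod N) * chiWeight χ v := by
  have h10 : ((γ 1 0 : ℤ) : ZMod N) = 0 := Gamma0_mem.mp hγ
  have hinv : (γ⁻¹).1 = !![γ 1 1, -γ 0 1; -γ 1 0, γ 0 0] := by
    rw [Matrix.SpecialLinearGroup.coe_inv, Matrix.adjugate_fin_two]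
  have h0 : (v ᵥ* (γ⁻¹).1) 0 = v 0 * γ 1 1 + v 1 * (-γ 1 0) := by
    rw [hinv]
    simp [Matrix.vecMul, dotProduct, Fin.sum_univ_two]
  unfold chiWeight
  rw [h0, ← map_mul]
  congr 1
  push_cast
  rw [h10]
  ring

theorem eisChar_slash (γ : SL(2, ℤ)) (hγ : γ ∈ Gamma0 N) :
    eisChar χ ∣[(3 : ℤ)] γ = χ ((γ 1 1 : ℤ) : ZMod N) • eisChar χ := by
  unfold eisChar
  rw [H332.wEis_slash]
  ext z
  simp only [H332.wEis, Pi.smul_apply, smul_eq_mul]
  rw [← tsum_mul_left]
  refine tsum_congr fun v => ?_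
  rw [chiWeight_vecMul_inv χ γ hγ, mul_assoc]

/-! ## The `q`-expansion -/

/-- The character as a weight on `ℕ`. -/
def chiNat (d : ℕ) : ℂ := χ ((d : ℕ) : ZMod N)

theorem norm_chiNat_le (d : ℕ) : ‖chiNat χ d‖ ≤ 1 := DirichletCharacter.norm_le_one χ _

/-- The twisted divisor sum `∑_{d c = n} χ(d) c²`. -/
def sigmaChi (n : ℕ) : ℂ := sigmaW (chiNat χ) 2 n

theorem sigmaChi_zero : sigmaChi χ 0 = 0 := sigmaW_zero _ _

theorem sigmaChi_one : sigmaChi χ 1 = 1 := by
  rw [sigmaChi, sigmaW_one, chiNat]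
  simp

theorem summable_chi_prod (z : ℍ) :
    Summable fun x : ℤ × ℤ ↦ chiWeight χ ![x.1, x.2] * eisSummand 3 ![x.1, x.2] z := by
  have h := H332.summable_wEis (norm_chiWeight_le χ) (k := 3) le_rfl z
  refine (finTwoArrowEquiv ℤ).summable_iff.mp (h.congr fun v => ?_)
  simp [show ![v 0, v 1] = v from List.ofFn_inj.mp rfl]

theorem chi_zero_of_odd (hodd : χ (-1) = -1) : χ (0 : ZMod N) = 0 := by
  apply χ.map_nonunit
  intro h0
  have hN : N = 1 := by
    by_contra hN
    rcases Nat.eq_zero_or_pos N with rfl | hpos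
    · simp at h0
    · have : Fact (1 < N) := ⟨by omega⟩
      exact not_isUnit_zero h0
  subst hN
  have h1 : (-1 : ZMod 1) = 1 := Subsingleton.elim _ _
  rw [h1, map_one] at hodd
  norm_num at hodd

theorem eisChar_eq_tsum (hodd : χ (-1) = -1) (z : ℍ) :
    eisChar χ z = (-2 * π * Complex.I) ^ 3 *
      ∑' n : ℕ+, sigmaChi χ n * cexp (2 * π * Complex.I * z) ^ (n : ℕ) := by
  have hsum := summable_chi_prod χ z
  unfold eisChar H332.wEis
  rw [← (finTwoArrowEquiv ℤ).symm.tsum_eq]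
  simp only [finTwoArrowEquiv_symm_apply]
  rw [hsum.tsum_prod, tsum_int_eq_zero_add_two_mul_tsum_pnat (fun n ↦ ?h₁)
      (by simpa using hsum.prod)]
  case h₁ =>
    nth_rewrite 1 [← tsum_comp_neg]
    refine tsum_congr fun y => ?_
    have hc : chiWeight χ ![-n, -y] = - chiWeight χ ![n, y] := by
      simp only [chiWeight, Matrix.cons_val_zero]
      rw [Int.cast_neg, ← neg_one_mul, map_mul, hodd, neg_one_mul]
    have he : eisSummand 3 ![-n, -y] z = - eisSummand 3 ![n, y] z := by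
      simp only [eisSummand, Matrix.cons_val_zero, Matrix.cons_val_one, Int.cast_neg]
      rw [show (-(n : ℂ) * (z : ℂ) + -(y : ℂ)) = -((n : ℂ) * z + y) by ring]
      rw [Odd.neg_zpow (by decide : Odd (-3 : ℤ))]
    rw [hc, he, neg_mul_neg]
  have h0 : ∑' d : ℤ, chiWeight χ ![0, d] * eisSummand 3 ![0, d] z = 0 := by
    have : ∀ d : ℤ, chiWeight χ ![0, d] * eisSummand 3 ![0, d] z = 0 := fun d => by
      simp [chiWeight, chi_zero_of_odd χ hodd]
    simp [this]
  rw [h0, zero_add]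
  have H (b : ℕ+) := qExpansion_identity_pnat (k := 2) (by norm_num)
    ⟨b * z, by simpa using z.2⟩
  have hterm : ∀ b : ℕ+, ∑' d : ℤ, chiWeight χ ![(b : ℤ), d] * eisSummand 3 ![(b : ℤ), d] z =
      ((-2 * π * Complex.I) ^ 3 / 2) * ∑' c : ℕ+, chiNat χ b * (c : ℂ) ^ 2 *
        cexp (2 * π * Complex.I * z) ^ (b * c : ℕ) := by
    intro b
    have hb := H b
    simp only at hb
    have h1 : ∀ d : ℤ, chiWeight χ ![(b : ℤ), d] * eisSummand 3 ![(b : ℤ), d] z =
        chiNat χ b * (1 / ((b : ℂ) * z + d) ^ (2 + 1)) := by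
      intro d
      simp only [chiWeight, chiNat, eisSummand, Matrix.cons_val_zero, Matrix.cons_val_one]
      congr 1
      · simp
      · rw [show (-(3 : ℤ)) = -((3 : ℕ) : ℤ) by norm_num, zpow_neg, zpow_natCast]
        simp
    simp_rw [h1]
    rw [tsum_mul_left, hb, Nat.factorial_two]
    rw [← tsum_mul_left, ← tsum_mul_left, ← tsum_mul_left]
    refine tsum_congr fun c => ?_
    rw [← Complex.exp_nat_mul, ← Complex.exp_nat_mul]
    push_cast
    ring_nf
  simp_rw [hterm]
  simp only [sigmaChi]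
  rw [tsum_mul_left, ← tsum_prod_weight_eq (chiNat χ) (norm_chiNat_le χ) 2
    (norm_exp_two_pi_I_lt_one z), nsmul_eq_mul]
  push_cast
  ring

theorem norm_sigmaChi_le (n : ℕ) : ‖sigmaChi χ n‖ ≤ (n : ℝ) ^ 3 := by
  unfold sigmaChi sigmaW
  refine (norm_sum_le _ _).trans ?_
  have h1 : ∀ x ∈ n.divisorsAntidiagonal, ‖chiNat χ x.1 * (x.2 : ℂ) ^ 2‖ ≤ (n : ℝ) ^ 2 := by
    intro x hx
    rw [norm_mul, norm_pow, Complex.norm_natCast]
    have hx' := Nat.mem_divisorsAntidiagonal.mp hx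
    have hle : x.2 ≤ n := Nat.le_of_dvd (Nat.pos_of_ne_zero hx'.2) ⟨x.1, by rw [← hx'.1, mul_comm]⟩
    have hle' : (x.2 : ℝ) ≤ n := by exact_mod_cast hle
    calc ‖chiNat χ x.1‖ * (x.2 : ℝ) ^ 2 ≤ 1 * (n : ℝ) ^ 2 := by
          gcongr
          exact norm_chiNat_le χ _
      _ = (n : ℝ) ^ 2 := one_mul _
  refine (Finset.sum_le_card_nsmul _ _ _ h1).trans ?_
  rw [nsmul_eq_mul]
  have hcard : (n.divisorsAntidiagonal.card : ℝ) ≤ n := by
    rw [← Nat.map_div_right_divisors, Finset.card_map]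
    exact_mod_cast Nat.card_divisors_le_self n
  calc (n.divisorsAntidiagonal.card : ℝ) * (n : ℝ) ^ 2 ≤ n * (n : ℝ) ^ 2 := by gcongr
    _ = (n : ℝ) ^ 3 := by ring

theorem summable_sigmaChi_mul_pow (z : ℍ) :
    Summable fun n : ℕ ↦ sigmaChi χ n * cexp (2 * π * Complex.I * z) ^ n := by
  apply Summable.of_norm_bounded
    (summable_norm_pow_mul_geometric_of_norm_lt_one 3 (norm_exp_two_pi_I_lt_one z))
  intro n
  simp only [norm_mul, norm_pow, Complex.norm_natCast]
  gcongr
  exact norm_sigmaChi_le χ n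

local notation "𝕢" => Function.Periodic.qParam

theorem hasSum_eisChar (hodd : χ (-1) = -1) (z : ℍ) :
    HasSum (fun n : ℕ => ((-2 * π * Complex.I) ^ 3 * sigmaChi χ n) • 𝕢 1 z ^ n) (eisChar χ z) := by
  have hS := summable_sigmaChi_mul_pow χ z
  have h1 : ∑' n : ℕ+, sigmaChi χ n * cexp (2 * π * Complex.I * z) ^ (n : ℕ) =
      ∑' n : ℕ, sigmaChi χ n * cexp (2 * π * Complex.I * z) ^ n := by
    rw [← tsum_zero_pnat_eq_tsum_nat hS]
    simp [sigmaChi_zero]
  rw [eisChar_eq_tsum χ hodd z, h1]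
  have h2 := (hS.mul_left ((-2 * π * Complex.I) ^ 3)).hasSum
  rw [tsum_mul_left] at h2
  convert! h2 using 1
  funext n
  simp only [smul_eq_mul, Function.Periodic.qParam, Complex.ofReal_one, div_one]
  ring

/-- The `q`-expansion of `eisChar χ`, `χ` odd. -/
theorem qExpansion_eisChar_coeff (hodd : χ (-1) = -1) (n : ℕ) :
    (qExpansion 1 (eisChar χ)).coeff n = (-2 * π * Complex.I) ^ 3 * sigmaChi χ n :=
  Fermat.Agent.S22T.qExpansion_coeff_of_hasSum one_pos (hasSum_eisChar χ hodd) (eisChar_mdiff χ) n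

theorem analyticAt_cuspFunction_eisChar (hodd : χ (-1) = -1) :
    AnalyticAt ℂ (cuspFunction 1 (eisChar χ)) 0 :=
  Fermat.Agent.S22T.mem_analyticSubring_of_hasSum one_pos (hasSum_eisChar χ hodd)
    (eisChar_mdiff χ)

end Fermat.Agent.S48.H128

end
end
-- ===== PACK-END S48/H128/EisChar.lean

-- ===== PACK-BEGIN S16/H260/QCalc.lean
section







/-!
# S16 (helper260): `q`-expansion calculus at function level

`Nice f` : `f` is `1`-periodic, holomorphic and bounded at `i∞`; for such functions the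
`q`-coefficients of products, scalar multiples, `U_p f` and `V_p f = f(p·)` are computed.
-/

set_option autoImplicit false

noncomputable section

namespace Fermat.Agent.S16.H260

open UpperHalfPlane ModularForm CongruenceSubgroup MatrixGroups ModularFormClass
open Fermat.Agent.S20 (MF SF)
open scoped Manifold

local notation "𝕢" => Function.Periodic.qParam

/-- `1`-periodic, holomorphic, bounded at `i∞`. -/
structure Nice (f : ℍ → ℂ) : Prop where
  per : Function.Periodic (f ∘ ofComplex) 1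
  hol : MDiff f
  bdd : IsBoundedAtImInfty f

namespace Nice

variable {f g : ℍ → ℂ}

theorem analyticAt (hf : Nice f) : AnalyticAt ℂ (cuspFunction 1 f) 0 :=
  analyticAt_cuspFunction_zero one_pos hf.per hf.hol hf.bdd

theorem mul (hf : Nice f) (hg : Nice g) : Nice (f * g) where
  per := by
    intro w
    have h1 := hf.per w
    have h2 := hg.per w
    simp only [Function.comp_apply, Pi.mul_apply] at h1 h2 ⊢
    rw [h1, h2]
  hol := hf.hol.mul hg.hol
  bdd := hf.bdd.mul hg.bdd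

theorem smul (c : ℂ) (hf : Nice f) : Nice (c • f) where
  per := by
    intro w
    have h1 := hf.per w
    simp only [Function.comp_apply, Pi.smul_apply] at h1 ⊢
    rw [h1]
  hol := hf.hol.const_smul c
  bdd := hf.bdd.const_smul_left c

theorem heckeU (hf : Nice f) (k : ℤ) (p : ℕ) : Nice (ModularForm.heckeU k p f) where
  per := ModularForm.periodic_heckeU_comp_ofComplex hf.per k p
  hol := ModularForm.mdifferentiable_heckeU hf.hol k p
  bdd := ModularForm.isBoundedAtImInfty_heckeU hf.bdd k p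

theorem hasSum (hf : Nice f) (z : ℍ) :
    HasSum (fun n : ℕ => qCoeff f n • 𝕢 1 z ^ n) (f z) :=
  hasSum_qExpansion one_pos hf.per hf.hol hf.bdd z

end Nice

theorem qCoeff_mul {f g : ℍ → ℂ} (hf : Nice f) (hg : Nice g) (n : ℕ) :
    qCoeff (f * g) n = ∑ x ∈ Finset.HasAntidiagonal.antidiagonal n, qCoeff f x.1 * qCoeff g x.2 := by
  unfold qCoeff
  rw [qExpansion_mul hf.analyticAt hg.analyticAt, PowerSeries.coeff_mul]

theorem qCoeff_smul {f : ℍ → ℂ} (hf : Nice f) (c : ℂ) (n : ℕ) :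
    qCoeff (c • f) n = c * qCoeff f n := by
  unfold qCoeff
  rw [qExpansion_smul hf.analyticAt]
  simp

theorem qCoeff_heckeU {f : ℍ → ℂ} (hf : Nice f) (k : ℤ) {p : ℕ} (hp : p ≠ 0) (n : ℕ) :
    qCoeff (ModularForm.heckeU k p f) n = qCoeff f (n * p) := by
  rw [UpperHalfPlane.qCoeff_heckeU hf.per hf.hol hf.bdd k hp n]
  rfl

/-- product formula with analyticity hypotheses only -/
theorem qCoeff_mul' {f g : ℍ → ℂ} (hf : AnalyticAt ℂ (cuspFunction 1 f) 0)
    (hg : AnalyticAt ℂ (cuspFunction 1 g) 0) (n : ℕ) :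
    qCoeff (f * g) n = ∑ x ∈ Finset.HasAntidiagonal.antidiagonal n, qCoeff f x.1 * qCoeff g x.2 := by
  unfold qCoeff
  rw [qExpansion_mul hf hg, PowerSeries.coeff_mul]

/-- Elements of `MF Γ k` are nice as soon as `T ∈ Γ`. -/
theorem nice_of_mem_MF {Γ : Subgroup SL(2, ℤ)} (hT : ModularGroup.T ∈ Γ) {k : ℤ} {f : ℍ → ℂ}
    (hf : f ∈ MF Γ k) : Nice f where
  per := by
    have hshift : ∀ z : ℍ, f ((1 : ℝ) +ᵥ z) = f z := by
      intro z
      have h1 := congrFun (hf.2.1 _ hT) z
      rw [ModularForm.SL_slash_apply, UpperHalfPlane.modular_T_smul] at h1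
      have : denom ModularGroup.T z = 1 := by
        rw [ModularGroup.denom_apply]
        simp [ModularGroup.T]
      rwa [this, one_zpow, mul_one] at h1
    intro w
    by_cases! hw : 0 < Complex.im w
    · have hw' : 0 < Complex.im (w + 1) := by simp [hw]
      simp only [Function.comp_apply, ofComplex_apply_of_im_pos hw',
        ofComplex_apply_of_im_pos hw]
      rw [← hshift ⟨w, hw⟩]
      congr 1
      ext
      simp [add_comm]
    · have hw' : Complex.im (w + 1) ≤ 0 := by simpa using hw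
      simp only [Function.comp_apply]
      rw [ofComplex_apply_eq_of_im_nonpos hw' hw]
  hol := hf.1
  bdd := by
    have := hf.2.2 1
    rwa [SlashAction.slash_one] at this

theorem T_mem_Gamma0 (N : ℕ) : ModularGroup.T ∈ Gamma0 N := by
  rw [Gamma0_mem]
  simp [ModularGroup.T]

theorem nice_of_mem_MF_Gamma0 {N : ℕ} {k : ℤ} {f : ℍ → ℂ} (hf : f ∈ MF (Gamma0 N) k) : Nice f :=
  nice_of_mem_MF (T_mem_Gamma0 N) hf

theorem nice_of_mem_MF_top {k : ℤ} {f : ℍ → ℂ} (hf : f ∈ MF ⊤ k) : Nice f :=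
  nice_of_mem_MF (Subgroup.mem_top _) hf

/-- `V_p F` is holomorphic. -/
theorem mdiff_Vp {F : ℍ → ℂ} (hF : MDiff F) {p : ℕ} (hp : p ≠ 0) : MDiff (Vp p F) := by
  have h1 : Vp p F = F ∣[(1 : ℤ)] heckeDiagMatrix p := by
    funext z
    rw [slash_heckeDiagMatrix_apply 1 hp]
    simp [Vp]
  rw [h1]
  exact hF.slash 1 _

/-- `q`-coefficients of `V_p F = F(p·)`. -/
theorem qCoeff_Vp {F : ℍ → ℂ} (hF : Nice F) {p : ℕ} (hp : 0 < p) :
    AnalyticAt ℂ (cuspFunction 1 (Vp p F)) 0 ∧
      ∀ n, qCoeff (Vp p F) n = if p ∣ n then qCoeff F (n / p) else 0 := by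
  have hα : ∀ z : ℍ, 𝕢 1 ((heckeDiagMatrix p • z : ℍ) : ℂ) = 1 * 𝕢 1 (z : ℂ) ^ p := by
    intro z
    rw [coe_heckeDiagMatrix_smul hp.ne', one_mul]
    simp only [Function.Periodic.qParam, ← Complex.exp_nat_mul]
    congr 1
    push_cast
    ring
  obtain ⟨h1, h2⟩ := Fermat.Agent.S22T.expand_main (F := F) (G := Vp p F) (c := qCoeff F)
    hF.hasSum one_pos (fun z => heckeDiagMatrix p • z) p hp 1 hα (fun z => rfl)
    (mdiff_Vp hF.hol hp.ne')
  refine ⟨h1, fun n => ?_⟩
  have := h2 n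
  unfold qCoeff
  rw [this]
  simp [Fermat.Agent.S22T.expandCoeff, qCoeff]

end Fermat.Agent.S16.H260

end
end
-- ===== PACK-END S16/H260/QCalc.lean

-- ===== PACK-BEGIN S48/H548/Forms.lean
section




/-!
# S48 / P0 (helper548): diamond operators and `T_p` on `S_k(Γ₁(N))` (bundled)

* `mkCusp` : bundle a function into `CuspForm (Gamma1 N) k`;
* `dia a f` : `f ∣ a` for `a ∈ Γ₀(N)` (diamond operator);
* `Tp σ f` : `U_p f + (f ∣ σ) ∣ diag(p,1)` (Hecke operator, `σ ∈ Γ₀(N)` of class `p`).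
-/

set_option autoImplicit false

noncomputable section

namespace Fermat.Agent.S48.H548

open Matrix.SpecialLinearGroup UpperHalfPlane ModularForm CongruenceSubgroup ModularFormClass
open scoped MatrixGroups ModularForm OnePoint Manifold

variable {N : ℕ} {k : ℤ}

theorem one_mem_strictPeriods_Gamma1 (N : ℕ) :
    (1 : ℝ) ∈ ((Gamma1 N).map (mapGL ℝ)).strictPeriods := by
  simp [CongruenceSubgroup.strictPeriods_Gamma1]

theorem coe_inv1 (f : CuspForm (Gamma1 N) k) : Inv1 N k ⇑f := fun γ hγ ↦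
  SlashInvariantFormClass.slash_action_eq f _ (Subgroup.mem_map_of_mem (mapGL ℝ) hγ)

theorem coe_nice [NeZero N] (f : CuspForm (Gamma1 N) k) : Nice (⇑f : ℍ → ℂ) where
  per := SlashInvariantFormClass.periodic_comp_ofComplex f (one_mem_strictPeriods_Gamma1 N)
  hol := ModularFormClass.holo f
  bdd := ModularFormClass.bdd_at_infty f

theorem coe_qCoeff_zero [NeZero N] (f : CuspForm (Gamma1 N) k) : qCoeff (⇑f : ℍ → ℂ) 0 = 0 :=
  CuspFormClass.qExpansion_coeff_zero f one_pos (one_mem_strictPeriods_Gamma1 N)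

/-- Bundle a `Γ₁(N)`-invariant holomorphic function vanishing at the cusps. -/
def mkCusp (F : ℍ → ℂ) (hinv : Inv1 N k F) (hhol : MDiff F)
    (hzero : ∀ {c : OnePoint ℝ}, IsCusp c ((Gamma1 N).map (mapGL ℝ)) → c.IsZeroAt F k) :
    CuspForm (Gamma1 N) k where
  toFun := F
  slash_action_eq' := by
    rintro γ ⟨g, hg, rfl⟩
    exact hinv g hg
  holo' := hhol
  zero_at_cusps' := hzero

@[simp] theorem coe_mkCusp (F : ℍ → ℂ) (hinv : Inv1 N k F) (hhol : MDiff F)
    (hzero : ∀ {c : OnePoint ℝ}, IsCusp c ((Gamma1 N).map (mapGL ℝ)) → c.IsZeroAt F k) :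
    (⇑(mkCusp F hinv hhol hzero) : ℍ → ℂ) = F := rfl

theorem isZeroAt_sub {c : OnePoint ℝ} {F G : ℍ → ℂ} (hF : c.IsZeroAt F k)
    (hG : c.IsZeroAt G k) : c.IsZeroAt (F - G) k := by
  intro g hg
  rw [sub_eq_add_neg, SlashAction.add_slash, SlashAction.neg_slash]
  exact (hF g hg).add (hG g hg).neg

theorem isCusp_smul_mapGL [NeZero N] {c : OnePoint ℝ}
    (hc : IsCusp c ((Gamma1 N).map (mapGL ℝ))) (a : SL(2, ℤ)) :
    IsCusp (mapGL ℝ a • c) ((Gamma1 N).map (mapGL ℝ)) := by
  rw [Subgroup.IsArithmetic.isCusp_iff_isCusp_SL2Z] at hc ⊢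
  exact hc.smul_of_mem ⟨a, rfl⟩

/-- The diamond operator `f ↦ f ∣ a`, `a ∈ Γ₀(N)`. -/
def dia [NeZero N] (a : SL(2, ℤ)) (ha : a ∈ Gamma0 N) (f : CuspForm (Gamma1 N) k) :
    CuspForm (Gamma1 N) k :=
  mkCusp (⇑f ∣[k] mapGL ℝ a) ((coe_inv1 f).slash a ha) ((ModularFormClass.holo f).slash k _)
    (fun {_} hc ↦ OnePoint.IsZeroAt.smul_iff.mp
      (CuspFormClass.zero_at_cusps f (isCusp_smul_mapGL hc a)))

@[simp] theorem coe_dia [NeZero N] (a : SL(2, ℤ)) (ha : a ∈ Gamma0 N)
    (f : CuspForm (Gamma1 N) k) : (⇑(dia a ha f) : ℍ → ℂ) = ⇑f ∣[k] mapGL ℝ a := rfl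

section Tp

variable {p : ℕ} [Fact p.Prime] [NeZero N]

theorem diag_eq_heckeT_sub (k : ℤ) (p : ℕ) (F : ℍ → ℂ) :
    F ∣[k] heckeDiagMatrix p = heckeT k p F - heckeU k p F := by
  rw [heckeT_eq_heckeU_add, add_sub_cancel_left]

/-- The Hecke operator `T_p` on `S_k(Γ₁(N))`, `p ∤ N`. -/
def Tp (hpN : ¬ p ∣ N) (σ : SL(2, ℤ)) (hσ : σ ∈ Gamma0 N)
    (hσp : ((σ 1 1 : ℤ) : ZMod N) = (p : ZMod N)) (f : CuspForm (Gamma1 N) k) :
    CuspForm (Gamma1 N) k :=
  mkCusp (heckeU k p ⇑f + (⇑f ∣[k] mapGL ℝ σ) ∣[k] heckeDiagMatrix p)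
    ((coe_inv1 f).heckeT1 hpN σ hσ hσp)
    ((mdifferentiable_heckeU (ModularFormClass.holo f) k p).add
      (((ModularFormClass.holo f).slash k _).slash k _))
    (fun {c} hc ↦ by
      refine (CuspFormClass.isZeroAt_heckeU f p hc).add ?_
      rw [← coe_dia σ hσ f, diag_eq_heckeT_sub]
      exact isZeroAt_sub (CuspFormClass.isZeroAt_heckeT (dia σ hσ f) p hc)
        (CuspFormClass.isZeroAt_heckeU (dia σ hσ f) p hc))

@[simp] theorem coe_Tp (hpN : ¬ p ∣ N) (σ : SL(2, ℤ)) (hσ : σ ∈ Gamma0 N)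
    (hσp : ((σ 1 1 : ℤ) : ZMod N) = (p : ZMod N)) (f : CuspForm (Gamma1 N) k) :
    (⇑(Tp hpN σ hσ hσp f) : ℍ → ℂ) =
      heckeU k p ⇑f + (⇑f ∣[k] mapGL ℝ σ) ∣[k] heckeDiagMatrix p := rfl

end Tp

end Fermat.Agent.S48.H548

end
end
-- ===== PACK-END S48/H548/Forms.lean

-- ===== PACK-BEGIN S29/Orb.lean
section
/-
S29 row, PIECE `Orb` (helper449): exact skeleton statement `exists_finite_stable_submodule`,
proved in `Fermat/Agent/S29/H449/Orb.lean`.
-/



set_option autoImplicit false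

namespace Fermat.Agent.S29

/-- PIECE `Orb` (a smooth nonzero module contains a nonzero finite-dimensional stable subspace on
which an open subgroup acts trivially). -/
theorem exists_finite_stable_submodule {F : Type} [Field F] {M : Type} [AddCommGroup M]
    [Module F M] [Nontrivial M] (ρ : GQ →* Module.End F M) (hsm : IsSmoothRep ρ) :
    ∃ W : Submodule F M, W ≠ ⊥ ∧ Module.Finite F W ∧ (∀ σ : GQ, ∀ x ∈ W, ρ σ x ∈ W) ∧
      ∃ L : IntermediateField ℚ (AlgebraicClosure ℚ), FiniteDimensional ℚ L ∧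
        ∀ σ : GQ, (∀ y ∈ L, σ y = y) → ∀ x ∈ W, ρ σ x = x :=
  H449.exists_finite_stable_submodule ρ hsm

end Fermat.Agent.S29

end
-- ===== PACK-END S29/Orb.lean

-- ===== PACK-BEGIN S24/JFun/Laurent.lean
section



/-!
# Laurent (ℤ-indexed) form of the bridge `j(τ) = ∑ₙ jq_n qⁿ`

Adapters of `hasSum_qjFun` to the Prelude's Laurent series `ModularCurve.jqModC ℂ`.
-/

set_option autoImplicit false

namespace Fermat.Agent.S24.JFun

open Filter Topology Complex Function
open UpperHalfPlane hiding I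
open ModularForm EisensteinSeries MatrixGroups

local notation "𝕢" => Function.Periodic.qParam

/-- Coefficients of the Prelude's Laurent series `jqModC ℂ` in terms of `jNum`. -/
theorem coeff_jqModC_natCast_sub_one (k : ℕ) :
    (ModularCurve.jqModC ℂ).coeff ((k : ℤ) - 1) = ((ModularCurve.jNum.coeff k : ℤ) : ℂ) := by
  rw [ModularCurve.jqModC, HahnSeries.coeff_single_mul, one_mul,
    show ((k : ℤ) - 1 - (-1)) = (k : ℤ) by ring, HahnSeries.ofPowerSeries_apply_coeff,
    PowerSeries.coeff_map]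
  simp

theorem coeff_jqModC_of_lt {n : ℤ} (hn : n < -1) : (ModularCurve.jqModC ℂ).coeff n = 0 := by
  rw [ModularCurve.jqModC, HahnSeries.coeff_single_mul, one_mul]
  exact ModularCurve.ofPowerSeries_coeff_of_neg _ (by omega)

/-- **Bridge, Laurent form**: `j(τ) = ∑_{n ∈ ℤ} (jqModC ℂ)_n qⁿ` for every `τ : ℍ`. -/
theorem hasSum_jFun (τ : ℍ) :
    HasSum (fun n : ℤ => (ModularCurve.jqModC ℂ).coeff n * 𝕢 1 (τ : ℂ) ^ n) (jFun τ) := by
  have hq : 𝕢 1 (τ : ℂ) ≠ 0 := qParam_one_ne_zero _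
  have hinj : Function.Injective (fun k : ℕ => ((k : ℤ) - 1)) := by
    intro a b hab
    simp only [sub_left_inj, Nat.cast_inj] at hab
    exact hab
  have hsupp : ∀ n : ℤ, n ∉ Set.range (fun k : ℕ => ((k : ℤ) - 1)) →
      (ModularCurve.jqModC ℂ).coeff n * 𝕢 1 (τ : ℂ) ^ n = 0 := by
    intro n hn
    have hlt : n < -1 := by
      by_contra hcon
      have hcon : -1 ≤ n := not_lt.mp hcon
      apply hn
      refine ⟨(n + 1).toNat, ?_⟩
      simp only
      rw [Int.toNat_of_nonneg (by omega)]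
      ring
    rw [coeff_jqModC_of_lt hlt, zero_mul]
  rw [← hinj.hasSum_iff hsupp]
  have h := (hasSum_qjFun τ).mul_left ((𝕢 1 (τ : ℂ))⁻¹)
  rw [← mul_assoc, inv_mul_cancel₀ hq, one_mul] at h
  have hfun : ((fun n : ℤ => (ModularCurve.jqModC ℂ).coeff n * 𝕢 1 (τ : ℂ) ^ n) ∘
      fun k : ℕ => ((k : ℤ) - 1))
      = fun i : ℕ => (𝕢 1 (τ : ℂ))⁻¹ *
          (((ModularCurve.jNum.coeff i : ℤ) : ℂ) * 𝕢 1 (τ : ℂ) ^ i) := by
    funext k
    simp only [comp_apply]
    rw [coeff_jqModC_natCast_sub_one, zpow_sub₀ hq, zpow_natCast, zpow_one]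
    field_simp
  rw [hfun]
  exact h

/-- The same with `q` written out as `exp (2πiτ)`. -/
theorem hasSum_jFun_cexp (τ : ℍ) :
    HasSum (fun n : ℤ => (ModularCurve.jqModC ℂ).coeff n *
      Complex.exp (2 * (Real.pi : ℂ) * I * (τ : ℂ)) ^ n) (jFun τ) := by
  have h := hasSum_jFun τ
  have hq : 𝕢 1 (τ : ℂ) = Complex.exp (2 * (Real.pi : ℂ) * I * (τ : ℂ)) := by
    simp [Function.Periodic.qParam]
  rw [hq] at h
  exact h

/-- `ℕ`-indexed form with `q` written out as `exp (2πiτ)`. -/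
theorem hasSum_qjFun_cexp (τ : ℍ) :
    HasSum (fun n : ℕ => ((ModularCurve.jNum.coeff n : ℤ) : ℂ) *
      Complex.exp (2 * (Real.pi : ℂ) * I * (τ : ℂ)) ^ n)
      (Complex.exp (2 * (Real.pi : ℂ) * I * (τ : ℂ)) * jFun τ) := by
  have h := hasSum_qjFun τ
  have hq : 𝕢 1 (τ : ℂ) = Complex.exp (2 * (Real.pi : ℂ) * I * (τ : ℂ)) := by
    simp [Function.Periodic.qParam]
  rw [hq] at h
  exact h

end Fermat.Agent.S24.JFun

end
-- ===== PACK-END S24/JFun/Laurent.lean

-- ===== PACK-BEGIN S24/H624/Moebius.lean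
section


/-!
# Order of vanishing under Möbius transformations; the rotation lemma
-/

set_option autoImplicit false

namespace Fermat.Agent.S24.H624

open UpperHalfPlane Complex
open scoped Manifold Topology MatrixGroups

/-- The Möbius map of `g` on `ℂ` (junk where the denominator vanishes). -/
noncomputable def moeb (g : GL (Fin 2) ℝ) (z : ℂ) : ℂ := num g z / denom g z

theorem moeb_coe {g : GL (Fin 2) ℝ} (hg : 0 < g.det.val) (τ : ℍ) :
    moeb g (τ : ℂ) = ((g • τ : ℍ) : ℂ) :=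
  (coe_smul_of_det_pos hg τ).symm

theorem hasDerivAt_num (g : GL (Fin 2) ℝ) (z : ℂ) :
    HasDerivAt (num g) ((g 0 0 : ℝ) : ℂ) z := by
  have h : HasDerivAt (fun w : ℂ => ((g 0 0 : ℝ) : ℂ) * w + ((g 0 1 : ℝ) : ℂ))
      (((g 0 0 : ℝ) : ℂ) * 1) z :=
    ((hasDerivAt_id z).const_mul _).add_const _
  rw [mul_one] at h
  exact h

theorem hasDerivAt_denom (g : GL (Fin 2) ℝ) (z : ℂ) :
    HasDerivAt (denom g) ((g 1 0 : ℝ) : ℂ) z := by
  have h : HasDerivAt (fun w : ℂ => ((g 1 0 : ℝ) : ℂ) * w + ((g 1 1 : ℝ) : ℂ))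
      (((g 1 0 : ℝ) : ℂ) * 1) z :=
    ((hasDerivAt_id z).const_mul _).add_const _
  rw [mul_one] at h
  exact h

theorem det_eq (g : GL (Fin 2) ℝ) :
    ((g.det.val : ℝ) : ℂ) = (g 0 0 : ℂ) * (g 1 1 : ℂ) - (g 0 1 : ℂ) * (g 1 0 : ℂ) := by
  rw [Matrix.GeneralLinearGroup.val_det_apply, Matrix.det_fin_two]
  push_cast
  rfl

theorem hasDerivAt_moeb (g : GL (Fin 2) ℝ) {z : ℂ} (hz : denom g z ≠ 0) :
    HasDerivAt (moeb g) (((g.det.val : ℝ) : ℂ) / denom g z ^ 2) z := by
  have h := (hasDerivAt_num g z).div (hasDerivAt_denom g z) hz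
  have e : (((g 0 0 : ℝ) : ℂ) * denom g z - num g z * ((g 1 0 : ℝ) : ℂ)) / denom g z ^ 2
      = ((g.det.val : ℝ) : ℂ) / denom g z ^ 2 := by
    rw [det_eq]
    congr 1
    simp only [num, denom]
    ring
  rw [e] at h
  exact h

theorem analyticAt_moeb (g : GL (Fin 2) ℝ) {z : ℂ} (hz : denom g z ≠ 0) :
    AnalyticAt ℂ (moeb g) z := by
  have hn : AnalyticAt ℂ (num g) z := by
    have : num g = fun w : ℂ => ((g 0 0 : ℝ) : ℂ) * w + ((g 0 1 : ℝ) : ℂ) := by
      funext w; simp [num]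
    rw [this]
    fun_prop
  have hd : AnalyticAt ℂ (denom g) z := by
    have : denom g = fun w : ℂ => ((g 1 0 : ℝ) : ℂ) * w + ((g 1 1 : ℝ) : ℂ) := by
      funext w; simp [denom]
    rw [this]
    fun_prop
  exact hn.div hd hz

theorem deriv_moeb_ne_zero {g : GL (Fin 2) ℝ} (hg : 0 < g.det.val) {z : ℂ}
    (hz : denom g z ≠ 0) : deriv (moeb g) z ≠ 0 := by
  rw [(hasDerivAt_moeb g hz).deriv]
  refine div_ne_zero ?_ (pow_ne_zero _ hz)
  exact_mod_cast hg.ne'

theorem eventuallyEq_comp_smul {g : GL (Fin 2) ℝ} (hg : 0 < g.det.val) (f : ℍ → ℂ) (τ : ℍ) :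
    ((fun z : ℍ => f (g • z)) ∘ ofComplex) =ᶠ[𝓝 (τ : ℂ)] ((f ∘ ofComplex) ∘ moeb g) := by
  filter_upwards [isOpen_upperHalfPlaneSet.mem_nhds τ.im_pos] with z hz
  have hz' : 0 < z.im := hz
  simp only [Function.comp_apply]
  rw [ofComplex_apply_of_im_pos hz']
  have : moeb g z = ((g • (⟨z, hz'⟩ : ℍ) : ℍ) : ℂ) := moeb_coe hg ⟨z, hz'⟩
  rw [this, ofComplex_apply]

/-- Order of vanishing is invariant under Möbius transformations. -/
theorem ordAt_comp_smul {g : GL (Fin 2) ℝ} (hg : 0 < g.det.val) (f : ℍ → ℂ) (τ : ℍ) :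
    ordAt τ (fun z : ℍ => f (g • z)) = ordAt (g • τ) f := by
  have hd : denom g (τ : ℂ) ≠ 0 := denom_ne_zero g τ
  rw [ordAt_def, analyticOrderAt_congr (eventuallyEq_comp_smul hg f τ),
    analyticOrderAt_comp_of_deriv_ne_zero (analyticAt_moeb g hd) (deriv_moeb_ne_zero hg hd),
    moeb_coe hg, ordAt_def]

theorem mdiff_comp_smul {g : GL (Fin 2) ℝ} (hg : 0 < g.det.val) {f : ℍ → ℂ} (hf : MDiff f) :
    MDiff (fun z : ℍ => f (g • z)) :=
  hf.comp (mdifferentiable_smul hg)

/-- Key algebraic identity: `g z - g w = det g * (z - w) / (denom z * denom w)`. -/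
theorem moeb_sub_moeb (g : GL (Fin 2) ℝ) {z w : ℂ} (hz : denom g z ≠ 0) (hw : denom g w ≠ 0) :
    moeb g z - moeb g w = ((g.det.val : ℝ) : ℂ) * (z - w) / (denom g z * denom g w) := by
  rw [det_eq]
  unfold moeb
  rw [div_sub_div _ _ hz hw]
  congr 1
  simp only [num, denom]
  ring

/-- **Rotation lemma.** If `g` fixes `τ`, and the nonzero holomorphic function `f` is invariant
under `g`, then `(deriv of g at τ) ^ ord_τ f = 1`, i.e. `(det g / denom g τ ^ 2) ^ n = 1`. -/
theorem rotation_lemma {g : GL (Fin 2) ℝ} (hg : 0 < g.det.val) {f : ℍ → ℂ} (hf : MDiff f)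
    (hf0 : f ≠ 0) {τ : ℍ} (hτ : g • τ = τ) (hinv : ∀ z : ℍ, f (g • z) = f z) :
    (((g.det.val : ℝ) : ℂ) / denom g (τ : ℂ) ^ 2) ^ (ordAt τ f).toNat = 1 := by
  set n := (ordAt τ f).toNat with hn
  have hne := ordAt_ne_top hf hf0 τ
  have hord : analyticOrderAt (f ∘ ofComplex) (τ : ℂ) = (n : ℕ∞) := by
    rw [← ordAt_def, hn, ENat.natCast_toNat hne]
  obtain ⟨u, hu, hu0, hfu⟩ :=
    ((analyticAt_of_mdiff hf τ).analyticOrderAt_eq_natCast).mp hord
  have hd : denom g (τ : ℂ) ≠ 0 := denom_ne_zero g τ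
  have hmτ : moeb g (τ : ℂ) = (τ : ℂ) := by rw [moeb_coe hg, hτ]
  have hmcont : ContinuousAt (moeb g) (τ : ℂ) := (analyticAt_moeb g hd).continuousAt
  -- near τ: f ∘ ofComplex ∘ moeb = f ∘ ofComplex
  have h1 : ∀ᶠ z in 𝓝 (τ : ℂ), (f ∘ ofComplex) (moeb g z) = (f ∘ ofComplex) z := by
    filter_upwards [eventuallyEq_comp_smul hg f τ] with z hz
    have := hz
    simp only [Function.comp_apply] at this ⊢
    rw [← this, hinv]
  -- near τ: moeb z is near τ so factorization applies at moeb z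
  have h2 : ∀ᶠ z in 𝓝 (τ : ℂ), (f ∘ ofComplex) (moeb g z)
      = (moeb g z - (τ : ℂ)) ^ n • u (moeb g z) := by
    have : Filter.Tendsto (moeb g) (𝓝 (τ : ℂ)) (𝓝 (τ : ℂ)) := by
      have := hmcont.tendsto
      rwa [hmτ] at this
    exact this.eventually hfu
  have h3 : ∀ᶠ z in 𝓝 (τ : ℂ), denom g z ≠ 0 :=
    (hasDerivAt_denom g _).continuousAt.eventually_ne hd
  set c : ℂ := ((g.det.val : ℝ) : ℂ) with hc
  -- on a punctured neighbourhood: (c / (denom z * denom τ))^n * u (moeb z) = u z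
  have h4 : ∀ᶠ z in 𝓝[≠] (τ : ℂ),
      (c / (denom g z * denom g (τ : ℂ))) ^ n * u (moeb g z) = u z := by
    have hall := (h1.and (h2.and (h3.and hfu)))
    filter_upwards [hall.filter_mono nhdsWithin_le_nhds, self_mem_nhdsWithin] with z hz hzne
    obtain ⟨e1, e2, e3, e4⟩ := hz
    have hzne' : z - (τ : ℂ) ≠ 0 := sub_ne_zero.mpr hzne
    have e5 : moeb g z - (τ : ℂ) = c * (z - (τ : ℂ)) / (denom g z * denom g (τ : ℂ)) := by
      have := moeb_sub_moeb g e3 hd
      rwa [hmτ] at this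
    rw [e2, e4, e5] at e1
    simp only [smul_eq_mul] at e1
    have e6 : c * (z - (τ : ℂ)) / (denom g z * denom g (τ : ℂ))
        = (z - (τ : ℂ)) * (c / (denom g z * denom g (τ : ℂ))) := by ring
    rw [e6, mul_pow, mul_assoc] at e1
    exact mul_left_cancel₀ (pow_ne_zero n hzne') e1
  -- pass to the limit
  have hL : Filter.Tendsto (fun z => (c / (denom g z * denom g (τ : ℂ))) ^ n * u (moeb g z))
      (𝓝[≠] (τ : ℂ)) (𝓝 ((c / (denom g (τ : ℂ) * denom g (τ : ℂ))) ^ n * u (τ : ℂ))) := by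
    have hcd : ContinuousAt (fun z => (c / (denom g z * denom g (τ : ℂ))) ^ n) (τ : ℂ) := by
      have hden : ContinuousAt (fun z => denom g z * denom g (τ : ℂ)) (τ : ℂ) :=
        ((hasDerivAt_denom g _).continuousAt).mul continuousAt_const
      exact ((continuousAt_const.div hden (mul_ne_zero hd hd))).pow n
    have hu' : ContinuousAt (fun z => u (moeb g z)) (τ : ℂ) := by
      have : ContinuousAt u (moeb g (τ : ℂ)) := by rw [hmτ]; exact hu.continuousAt
      exact ContinuousAt.comp (f := moeb g) (g := u) this hmcont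
    have hmul : ContinuousAt
        (fun z => (c / (denom g z * denom g (τ : ℂ))) ^ n * u (moeb g z)) (τ : ℂ) := hcd.mul hu'
    have := hmul.tendsto
    simp only [hmτ] at this
    exact this.mono_left nhdsWithin_le_nhds
  have hR : Filter.Tendsto u (𝓝[≠] (τ : ℂ)) (𝓝 (u (τ : ℂ))) :=
    hu.continuousAt.tendsto.mono_left nhdsWithin_le_nhds
  have hlim := tendsto_nhds_unique (hL.congr' h4) hR
  have hfin : (c / (denom g (τ : ℂ) * denom g (τ : ℂ))) ^ n = 1 := by
    have := mul_right_cancel₀ hu0 (hlim.trans (one_mul _).symm)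
    exact this
  rw [← hfin, sq]

end Fermat.Agent.S24.H624

end
-- ===== PACK-END S24/H624/Moebius.lean

-- ===== PACK-BEGIN S29/H751/PthRootUHP.lean
section


/-!
# Holomorphic `p`-th roots on `ℍ` and the character of a root (helper751, S29 / P5)

* `exists_pow_eq_UHP`: a holomorphic `F : ℍ → ℂ` all of whose orders of vanishing are finite and
  divisible by `p` is a `p`-th power of a holomorphic function.
* `eq_of_pow_eq_UHP`: two holomorphic functions on `ℍ` with the same `p`-th power which agree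
  at one point where they do not vanish are equal.
* `exists_character_of_pow_eq`: if `U ^ p` is weakly modular of weight `k * p` for a group `Γ`
  of matrices of positive determinant, then `U` is weakly modular of weight `k` with a character
  `χ : Γ →* ℂˣ`, `χ ^ p = 1`.
-/

set_option autoImplicit false

open Complex Set Metric Filter Topology UpperHalfPlane
open scoped Manifold MatrixGroups

namespace Fermat.Agent.S29.H751

/-- `F ∘ ofComplex` agrees with `u` on the upper half plane when `F τ = u τ`. -/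
theorem comp_ofComplex_eqOn (u : ℂ → ℂ) :
    EqOn ((fun τ : ℍ => u τ) ∘ ofComplex) u {z : ℂ | 0 < z.im} := by
  intro z hz
  simp only [Function.comp_apply, ofComplex_apply_of_im_pos hz]

/-- **Holomorphic `p`-th roots on `ℍ`.** -/
theorem exists_pow_eq_UHP {F : ℍ → ℂ} (hF : MDifferentiable 𝓘(ℂ) 𝓘(ℂ) F) (p : ℕ) (hp : p ≠ 0)
    (hord : ∀ τ : ℍ, ∃ m : ℕ, analyticOrderAt (F ∘ ofComplex) (τ : ℂ) = ((p * m : ℕ) : ℕ∞)) :
    ∃ U : ℍ → ℂ, MDifferentiable 𝓘(ℂ) 𝓘(ℂ) U ∧ ∀ τ : ℍ, U τ ^ p = F τ := by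
  obtain ⟨u, hu, hup⟩ := exists_pow_eq_on_upperHalfPlane (G := F ∘ ofComplex) p hp
    (UpperHalfPlane.mdifferentiable_iff.1 hF) (fun z hz => hord ⟨z, hz⟩)
  refine ⟨fun τ => u τ, ?_, fun τ => ?_⟩
  · rw [UpperHalfPlane.mdifferentiable_iff]
    exact hu.congr (comp_ofComplex_eqOn u)
  · have := hup τ τ.im_pos
    rw [this, comp_ofComplex]

/-- Uniqueness of normalised holomorphic `p`-th roots on `ℍ`. -/
theorem eq_of_pow_eq_UHP {A B : ℍ → ℂ} (hA : MDifferentiable 𝓘(ℂ) 𝓘(ℂ) A)
    (hB : MDifferentiable 𝓘(ℂ) 𝓘(ℂ) B) {p : ℕ} (hp : p ≠ 0)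
    (h : ∀ τ : ℍ, A τ ^ p = B τ ^ p) {τ₀ : ℍ} (h0 : A τ₀ = B τ₀) (hne : A τ₀ ≠ 0) : A = B := by
  have hHo : IsOpen {z : ℂ | 0 < z.im} := isOpen_lt continuous_const Complex.continuous_im
  have hHc : IsPreconnected {z : ℂ | 0 < z.im} :=
    (convex_halfSpace_im_gt 0).isPreconnected
  have key := eqOn_of_pow_eq_of_eq hHo hHc (UpperHalfPlane.mdifferentiable_iff.1 hA)
    (UpperHalfPlane.mdifferentiable_iff.1 hB) hp
    (fun z hz => by
      simp only [Function.comp_apply]
      exact h _)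
    (z₀ := (τ₀ : ℂ)) τ₀.im_pos
    (by simp only [Function.comp_apply, ofComplex_apply]; exact h0)
    (by simp only [Function.comp_apply, ofComplex_apply]; exact hne)
  funext τ
  have := key τ.im_pos
  simpa only [Function.comp_apply, ofComplex_apply] using this

/-- **The character of a `p`-th root.**  Let `Γ` be a group of real matrices of positive
determinant and `U` a holomorphic function on `ℍ`, not identically zero, such that `U ^ p`
is weakly modular of weight `k * p` for `Γ`.  Then `U` is weakly modular of weight `k` up to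
a character `χ` of `Γ` with `χ ^ p = 1`. -/
theorem exists_character_of_pow_eq (Γ : Subgroup (GL (Fin 2) ℝ))
    (hdet : ∀ γ ∈ Γ, 0 < (γ.det : ℝ)) (k : ℤ) {p : ℕ} (hp : p ≠ 0) {U : ℍ → ℂ}
    (hU : MDifferentiable 𝓘(ℂ) 𝓘(ℂ) U) (hne : ∃ τ, U τ ≠ 0)
    (hpow : ∀ γ ∈ Γ, ∀ τ : ℍ, U (γ • τ) ^ p = (denom γ τ ^ k * U τ) ^ p) :
    ∃ χ : Γ →* ℂˣ, (∀ γ, χ γ ^ p = 1) ∧
      ∀ (γ : Γ) (τ : ℍ), U ((γ : GL (Fin 2) ℝ) • τ) = χ γ * denom γ τ ^ k * U τ := by
  classical
  obtain ⟨τ₁, hτ₁⟩ := hne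
  -- for each `γ`, the constant
  have key : ∀ γ : Γ, ∃ ζ : ℂˣ, ζ ^ p = 1 ∧
      ∀ τ : ℍ, U ((γ : GL (Fin 2) ℝ) • τ) = ζ * denom γ τ ^ k * U τ := by
    intro γ
    have hB1 : denom (γ : GL (Fin 2) ℝ) τ₁ ^ k * U τ₁ ≠ 0 :=
      mul_ne_zero (zpow_ne_zero _ (denom_ne_zero _ _)) hτ₁
    have hA1 : U ((γ : GL (Fin 2) ℝ) • τ₁) ≠ 0 := by
      intro h0
      have := hpow γ γ.2 τ₁
      rw [h0, zero_pow hp] at this
      exact pow_ne_zero p hB1 this.symm
    set z : ℂ := U ((γ : GL (Fin 2) ℝ) • τ₁) / (denom (γ : GL (Fin 2) ℝ) τ₁ ^ k * U τ₁) with hz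
    have hz0 : z ≠ 0 := div_ne_zero hA1 hB1
    have hzp : z ^ p = 1 := by
      rw [hz, div_pow, hpow γ γ.2 τ₁, div_self (pow_ne_zero p hB1)]
    refine ⟨Units.mk0 z hz0, ?_, ?_⟩
    · ext
      simp [hzp]
    · intro τ
      have hAd : MDifferentiable 𝓘(ℂ) 𝓘(ℂ) (fun τ : ℍ => U ((γ : GL (Fin 2) ℝ) • τ)) :=
        hU.comp (UpperHalfPlane.mdifferentiable_smul (hdet γ γ.2))
      have hBd : MDifferentiable 𝓘(ℂ) 𝓘(ℂ)
          (fun τ : ℍ => z * denom (γ : GL (Fin 2) ℝ) τ ^ k * U τ) := by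
        have h1 : MDifferentiable 𝓘(ℂ) 𝓘(ℂ)
            (fun τ : ℍ => denom (γ : GL (Fin 2) ℝ) τ ^ k) := mdifferentiable_denom_zpow _ k
        have h2 : MDifferentiable 𝓘(ℂ) 𝓘(ℂ)
            (fun τ : ℍ => z * denom (γ : GL (Fin 2) ℝ) τ ^ k) :=
          (mdifferentiable_const (c := z)).mul h1
        exact h2.mul hU
      have := eq_of_pow_eq_UHP hAd hBd hp (fun τ => by
        rw [hpow γ γ.2 τ, mul_assoc, mul_pow z, hzp, one_mul]) (τ₀ := τ₁)
        (by
          simp only [hz]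
          field_simp) hA1
      simpa using congrFun this τ
  choose χ hχp hχ using key
  have hmul : ∀ γ δ : Γ, χ (γ * δ) = χ γ * χ δ := by
    intro γ δ
    have h1 := hχ (γ * δ) τ₁
    have h2 := hχ γ ((δ : GL (Fin 2) ℝ) • τ₁)
    have h3 := hχ δ τ₁
    have hco : denom ((γ : GL (Fin 2) ℝ) * δ) τ₁ =
        denom (γ : GL (Fin 2) ℝ) (((δ : GL (Fin 2) ℝ) • τ₁ : ℍ) : ℂ) *
          denom (δ : GL (Fin 2) ℝ) τ₁ := by
      rw [denom_cocycle _ _ τ₁.im_ne_zero, coe_smul_of_det_pos (hdet δ δ.2)]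
    have hsm : ((γ * δ : Γ) : GL (Fin 2) ℝ) • τ₁ =
        (γ : GL (Fin 2) ℝ) • ((δ : GL (Fin 2) ℝ) • τ₁) := by
      rw [Subgroup.coe_mul, mul_smul]
    rw [hsm, h2, h3, Subgroup.coe_mul, hco, mul_zpow] at h1
    have hd1 := zpow_ne_zero k (denom_ne_zero (γ : GL (Fin 2) ℝ) ((δ : GL (Fin 2) ℝ) • τ₁))
    have hd2 := zpow_ne_zero k (denom_ne_zero (δ : GL (Fin 2) ℝ) τ₁)
    have h4 : ((χ (γ * δ) : ℂˣ) : ℂ) = (χ γ : ℂ) * (χ δ : ℂ) := by
      have h5 : (χ γ : ℂ) * (χ δ : ℂ) *
          (denom (γ : GL (Fin 2) ℝ) (((δ : GL (Fin 2) ℝ) • τ₁ : ℍ) : ℂ) ^ k *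
            denom (δ : GL (Fin 2) ℝ) τ₁ ^ k * U τ₁) =
          (χ (γ * δ) : ℂ) *
          (denom (γ : GL (Fin 2) ℝ) (((δ : GL (Fin 2) ℝ) • τ₁ : ℍ) : ℂ) ^ k *
            denom (δ : GL (Fin 2) ℝ) τ₁ ^ k * U τ₁) := by
        linear_combination h1
      exact (mul_right_cancel₀ (mul_ne_zero (mul_ne_zero hd1 hd2) hτ₁) h5).symm
    exact Units.ext (by simpa using h4)
  exact ⟨MonoidHom.mk' χ hmul, fun γ => hχp γ, fun γ τ => hχ γ τ⟩

end Fermat.Agent.S29.H751

end
-- ===== PACK-END S29/H751/PthRootUHP.lean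

-- ===== PACK-BEGIN S48/H76/GenQX.lean
section




/-!
# S48 / Tower A1, piece GEN-QX (helper76): `q`-expansion of level-`M` Eisenstein series

For a weight `w : ZMod M → ZMod M → ℂ` (periodic modulo `M` in both variables) and `k ≥ 3` the
weighted Eisenstein series of `S29/H332`

  `G_w(z) = ∑_{(c,d) ∈ ℤ²} w(c,d) (c z + d)^{-k}`

has the expansion in `X = e^{2πiz/M}`

  `G_w(z) = ∑_d w(0,d) d^{-k} + ((-2πi)^k / ((k-1)! M^k)) ∑_{n ≥ 1} A_w(n) X^n`,
  `A_w(n) = ∑_{c m = n} m^{k-1} ∑_{b mod M} (w(c,b) + (-1)^k w(-c,-b)) ζ^{b m}`,  `ζ = e^{2πi/M}`.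
-/

set_option autoImplicit false

open UpperHalfPlane EisensteinSeries ModularForm Filter Topology Complex
open scoped Matrix MatrixGroups Manifold Real

noncomputable section

namespace Fermat.Agent.S48.H76

open Fermat.Agent.S29

local notation "𝕢" => Function.Periodic.qParam

/-- `ζ_M^a = e^{2πi a/M}` for an integer `a`. -/
def zetaPow (M : ℕ) (a : ℤ) : ℂ := cexp (2 * π * Complex.I * a / M)

theorem zetaPow_add (M : ℕ) (a b : ℤ) : zetaPow M (a + b) = zetaPow M a * zetaPow M b := by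
  unfold zetaPow
  rw [← Complex.exp_add]
  congr 1
  push_cast
  ring

theorem zetaPow_zero (M : ℕ) : zetaPow M 0 = 1 := by
  simp [zetaPow]

theorem norm_zetaPow (M : ℕ) (a : ℤ) : ‖zetaPow M a‖ = 1 := by
  unfold zetaPow
  rw [Complex.norm_exp]
  have : (2 * (π : ℂ) * Complex.I * a / M).re = 0 := by
    have h : (2 * (π : ℂ) * Complex.I * a / M) = ((2 * π * a / M : ℝ) : ℂ) * Complex.I := by
      push_cast
      ring
    rw [h]
    simp
  rw [this, Real.exp_zero]

theorem zetaPow_mul_self (M : ℕ) [NeZero M] (a : ℤ) : zetaPow M (a * M) = 1 := by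
  unfold zetaPow
  have hM : (M : ℂ) ≠ 0 := Nat.cast_ne_zero.mpr (NeZero.ne M)
  have : 2 * (π : ℂ) * Complex.I * ((a * M : ℤ) : ℂ) / M = a * (2 * π * Complex.I) := by
    push_cast
    field_simp
  rw [this]
  exact Complex.exp_int_mul_two_pi_mul_I a

theorem zetaPow_add_mul (M : ℕ) [NeZero M] (a t : ℤ) : zetaPow M (a + t * M) = zetaPow M a := by
  rw [zetaPow_add, zetaPow_mul_self, mul_one]

/-- **Lipschitz formula on an arithmetic progression.** -/
theorem lipschitz_shift (M : ℕ) [NeZero M] {k : ℕ} (hk : 1 ≤ k) (z : ℍ) (b : ℤ) :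
    ∑' t : ℤ, 1 / ((z : ℂ) + b + t * M) ^ (k + 1) =
      ((-2 * π * Complex.I) ^ (k + 1) / (k.factorial * (M : ℂ) ^ (k + 1))) *
        ∑' m : ℕ+, (m : ℂ) ^ k * (zetaPow M (b * m) * cexp (2 * π * Complex.I * z / M) ^ (m : ℕ)) := by
  have hM : (M : ℂ) ≠ 0 := Nat.cast_ne_zero.mpr (NeZero.ne M)
  have hMpos : (0 : ℝ) < M := Nat.cast_pos.mpr (Nat.pos_of_ne_zero (NeZero.ne M))
  have him : 0 < (((z : ℂ) + b) / M).im := by
    have h1 : (((z : ℂ) + b) / M) = (((z : ℂ) + b)) * (((M : ℝ)⁻¹ : ℝ) : ℂ) := by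
      push_cast
      rw [div_eq_mul_inv]
    rw [h1, Complex.mul_im]
    simp only [Complex.add_im, Complex.intCast_im, add_zero, Complex.ofReal_re,
      Complex.ofReal_im, mul_zero]
    rw [zero_add]
    exact mul_pos z.2 (inv_pos.mpr hMpos)
  have H := qExpansion_identity_pnat hk ⟨((z : ℂ) + b) / M, him⟩
  simp only at H
  have hL : ∀ t : ℤ, 1 / ((z : ℂ) + b + t * M) ^ (k + 1) =
      (1 / (M : ℂ) ^ (k + 1)) * (1 / (((z : ℂ) + b) / M + t) ^ (k + 1)) := by
    intro t
    have : ((z : ℂ) + b) / M + t = ((z : ℂ) + b + t * M) / M := by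
      field_simp
    rw [this, div_pow]
    field_simp
  simp_rw [hL]
  rw [tsum_mul_left, H]
  have hR : ∀ m : ℕ+, (m : ℂ) ^ k * cexp (2 * π * Complex.I * (((z : ℂ) + b) / M)) ^ (m : ℕ) =
      (m : ℂ) ^ k * (zetaPow M (b * m) * cexp (2 * π * Complex.I * z / M) ^ (m : ℕ)) := by
    intro m
    congr 1
    unfold zetaPow
    rw [← Complex.exp_nat_mul, ← Complex.exp_nat_mul, ← Complex.exp_add]
    congr 1
    push_cast
    field_simp
    ring
  simp_rw [hR]
  field_simp

/-- Summation over `ℤ` by residue classes modulo `M`. -/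
theorem tsum_int_eq_sum_residue (M : ℕ) [NeZero M] {F : ℤ → ℂ} (hF : Summable F) :
    ∑' d : ℤ, F d = ∑ b ∈ Finset.range M, ∑' t : ℤ, F (t * M + b) := by
  have e := (Int.divModEquiv M).symm
  have hS : Summable fun p : ℤ × Fin M => F ((Int.divModEquiv M).symm p) :=
    (Int.divModEquiv M).symm.summable_iff.mpr hF
  rw [← (Int.divModEquiv M).symm.tsum_eq F, hS.tsum_prod]
  simp only [Int.divModEquiv_symm_apply, tsum_fintype]
  rw [Summable.tsum_finsetSum]
  · rw [Fin.sum_univ_eq_sum_range (fun b : ℕ => ∑' t : ℤ, F (t * M + b)) M]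
  · intro b _
    have hinj : Function.Injective (fun t : ℤ => ((t, b) : ℤ × Fin M)) :=
      fun t t' h => (Prod.mk.inj h).1
    have h1 := hS.comp_injective hinj
    simpa [Function.comp_def, Int.divModEquiv_symm_apply] using h1

/-- The finite Fourier transform `ĝ(m) = ∑_{b mod M} g(b) ζ^{b m}`. -/
def hatG (M : ℕ) (g : ZMod M → ℂ) (m : ℤ) : ℂ :=
  ∑ b ∈ Finset.range M, g (b : ZMod M) * zetaPow M ((b : ℤ) * m)

theorem norm_hatG_le (M : ℕ) (g : ZMod M → ℂ) (m : ℤ) :
    ‖hatG M g m‖ ≤ ∑ b ∈ Finset.range M, ‖g (b : ZMod M)‖ := by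
  unfold hatG
  refine (norm_sum_le _ _).trans (Finset.sum_le_sum fun b _ => ?_)
  rw [norm_mul, norm_zetaPow, mul_one]

theorem norm_qM_lt_one (M : ℕ) [NeZero M] (z : ℍ) :
    ‖cexp (2 * π * Complex.I * z / M)‖ < 1 := by
  have hMpos : (0 : ℝ) < M := Nat.cast_pos.mpr (Nat.pos_of_ne_zero (NeZero.ne M))
  rw [Complex.norm_exp]
  have : (2 * (π : ℂ) * Complex.I * z / M).re = -(2 * π * z.im / M) := by
    have h : (2 * (π : ℂ) * Complex.I * z / M) =
        (((2 * π / M : ℝ) : ℂ) * Complex.I) * (z : ℂ) := by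
      push_cast
      ring
    rw [h, Complex.mul_re]
    simp
    ring
  rw [this]
  have hz := z.2
  have h2 : 0 < 2 * π * z.im / M := by positivity
  calc rexp (-(2 * π * z.im / M)) < rexp 0 := Real.exp_lt_exp.mpr (by linarith)
    _ = 1 := Real.exp_zero

/-- The constant `(-2πi)^{k+1} / (k! M^{k+1})`. -/
def lipConst (M k : ℕ) : ℂ :=
  (-2 * π * Complex.I) ^ (k + 1) / (k.factorial * (M : ℂ) ^ (k + 1))

theorem summable_row (M : ℕ) [NeZero M] {k : ℕ} (hk : 1 ≤ k) (g : ZMod M → ℂ) (z : ℂ) :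
    Summable fun d : ℤ => g (d : ZMod M) * (1 / (z + d) ^ (k + 1)) := by
  have h1 : Summable fun d : ℤ => (((1 : ℤ) * z + d) ^ ((k + 1 : ℕ) : ℤ))⁻¹ :=
    linear_right_summable z 1 (by omega)
  have h2 : Summable fun d : ℤ => ‖(((1 : ℤ) * z + d) ^ ((k + 1 : ℕ) : ℤ))⁻¹‖ := h1.norm
  obtain ⟨B, hB⟩ : ∃ B : ℝ, ∀ x : ZMod M, ‖g x‖ ≤ B := by
    exact ⟨∑ x : ZMod M, ‖g x‖, fun x =>
      Finset.single_le_sum (f := fun x => ‖g x‖) (fun _ _ => norm_nonneg _) (Finset.mem_univ x)⟩
  refine Summable.of_norm_bounded (h2.mul_left B) fun d => ?_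
  rw [norm_mul]
  have e : (1 / (z + d) ^ (k + 1)) = (((1 : ℤ) * z + d) ^ ((k + 1 : ℕ) : ℤ))⁻¹ := by
    rw [zpow_natCast]
    simp
  rw [e]
  exact mul_le_mul_of_nonneg_right (hB _) (norm_nonneg _)

theorem summable_qterm {k : ℕ} {r : ℂ} (hr : ‖r‖ < 1) (a : ℕ+ → ℂ) (B : ℝ)
    (ha : ∀ m, ‖a m‖ ≤ B) :
    Summable fun m : ℕ+ => (m : ℂ) ^ k * (a m * r ^ (m : ℕ)) := by
  have h := summable_norm_pow_mul_geometric_of_norm_lt_one k hr
  have h' : Summable fun m : ℕ+ => ‖((m : ℕ) : ℂ) ^ k * r ^ (m : ℕ)‖ :=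
    h.subtype _
  refine Summable.of_norm_bounded (h'.mul_left B) fun m => ?_
  rw [norm_mul, norm_mul, norm_mul]
  calc ‖(m : ℂ) ^ k‖ * (‖a m‖ * ‖r ^ (m : ℕ)‖)
      = ‖a m‖ * (‖(m : ℂ) ^ k‖ * ‖r ^ (m : ℕ)‖) := by ring
    _ ≤ B * (‖(m : ℂ) ^ k‖ * ‖r ^ (m : ℕ)‖) :=
        mul_le_mul_of_nonneg_right (ha m) (by positivity)

/-- **Row sum.** `∑_d g(d) (z+d)^{-(k+1)} = c ∑_m m^k ĝ(m) X^m`, `X = e^{2πiz/M}`. -/
theorem row_sum (M : ℕ) [NeZero M] {k : ℕ} (hk : 1 ≤ k) (g : ZMod M → ℂ) (z : ℍ) :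
    ∑' d : ℤ, g (d : ZMod M) * (1 / ((z : ℂ) + d) ^ (k + 1)) =
      lipConst M k * ∑' m : ℕ+, (m : ℂ) ^ k *
        (hatG M g m * cexp (2 * π * Complex.I * z / M) ^ (m : ℕ)) := by
  rw [tsum_int_eq_sum_residue M (summable_row M hk g z)]
  have hb : ∀ b ∈ Finset.range M,
      ∑' t : ℤ, g (((t * M + b : ℤ)) : ZMod M) * (1 / ((z : ℂ) + ((t * M + b : ℤ))) ^ (k + 1)) =
        ∑' m : ℕ+, lipConst M k * ((m : ℂ) ^ k * (g (b : ZMod M) * zetaPow M ((b : ℤ) * m) *
          cexp (2 * π * Complex.I * z / M) ^ (m : ℕ))) := by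
    intro b _
    have h1 : ∀ t : ℤ, g (((t * M + b : ℤ)) : ZMod M) *
        (1 / ((z : ℂ) + ((t * M + b : ℤ))) ^ (k + 1)) =
        g (b : ZMod M) * (1 / ((z : ℂ) + (b : ℤ) + t * M) ^ (k + 1)) := by
      intro t
      congr 2
      · push_cast
        simp
      · push_cast
        ring
    simp_rw [h1]
    rw [tsum_mul_left, lipschitz_shift M hk z b, tsum_mul_left, ← mul_assoc,
      mul_comm (g (b : ZMod M)), mul_assoc, ← tsum_mul_left]
    congr 1
    refine tsum_congr fun m => ?_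
    ring
  rw [Finset.sum_congr rfl hb]
  rw [← Summable.tsum_finsetSum]
  · rw [← tsum_mul_left]
    refine tsum_congr fun m => ?_
    unfold hatG
    rw [Finset.sum_mul, Finset.mul_sum, Finset.mul_sum]
  · intro b _
    refine Summable.mul_left _ ?_
    refine summable_qterm (norm_qM_lt_one M z) (fun m => g (b : ZMod M) * zetaPow M ((b : ℤ) * m))
      ‖g (b : ZMod M)‖ (fun m => ?_) |>.congr fun m => by ring
    rw [norm_mul, norm_zetaPow, mul_one]

/-! ### Rearrangement of the double series -/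

/-- The divisor sum `∑_{c m = n} m^k a(c,m)`. -/
def sigma2 (a : ℕ → ℕ → ℂ) (k n : ℕ) : ℂ :=
  ∑ x ∈ n.divisorsAntidiagonal, (x.2 : ℂ) ^ k * a x.1 x.2

theorem sigma2_zero (a : ℕ → ℕ → ℂ) (k : ℕ) : sigma2 a k 0 = 0 := by
  simp [sigma2]

theorem summable_prod_weight2 (a : ℕ → ℕ → ℂ) (B : ℝ) (ha : ∀ c m, ‖a c m‖ ≤ B) (k : ℕ)
    {r : ℂ} (hr : ‖r‖ < 1) :
    Summable fun c : (ℕ+ × ℕ+) ↦ (c.2 : ℂ) ^ k * (a c.1 c.2 * r ^ (c.1 * c.2 : ℕ)) := by
  have h := (summable_prod_mul_pow (𝕜 := ℂ) k hr).norm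
  refine Summable.of_norm_bounded (h.mul_left B) fun c => ?_
  rw [norm_mul, norm_mul, norm_mul]
  calc ‖((c.2 : ℕ) : ℂ) ^ k‖ * (‖a c.1 c.2‖ * ‖r ^ (c.1 * c.2 : ℕ)‖)
      = ‖a c.1 c.2‖ * (‖((c.2 : ℕ) : ℂ) ^ k‖ * ‖r ^ (c.1 * c.2 : ℕ)‖) := by ring
    _ ≤ B * (‖((c.2 : ℕ) : ℂ) ^ k‖ * ‖r ^ (c.1 * c.2 : ℕ)‖) :=
        mul_le_mul_of_nonneg_right (ha _ _) (by positivity)

theorem sigma2_term_eq (a : ℕ → ℕ → ℂ) (k : ℕ) (r : ℂ) (n : ℕ+) :
    ∑' x : Nat.divisorsAntidiagonal n,
      (fun c : ℕ+ × ℕ+ => (c.2 : ℂ) ^ k * (a c.1 c.2 * r ^ (c.1 * c.2 : ℕ)))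
        (sigmaAntidiagonalEquivProd ⟨n, x⟩) = sigma2 a k n * r ^ (n : ℕ) := by
  rw [tsum_fintype, sigma2, Finset.sum_mul, Finset.univ_eq_attach]
  rw [← (n : ℕ).divisorsAntidiagonal.sum_attach
    (fun x : ℕ × ℕ => (x.2 : ℂ) ^ k * a x.1 x.2 * r ^ (n : ℕ))]
  refine Finset.sum_congr rfl fun x _ => ?_
  have hx := Nat.mem_divisorsAntidiagonal.mp x.2
  simp only [sigmaAntidiagonalEquivProd, divisorsAntidiagonalFactors, Equiv.coe_fn_mk, PNat.mk_coe]
  rw [hx.1]
  ring

theorem summable_sigma2_mul_pow (a : ℕ → ℕ → ℂ) (B : ℝ) (ha : ∀ c m, ‖a c m‖ ≤ B) (k : ℕ)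
    {r : ℂ} (hr : ‖r‖ < 1) :
    Summable fun n : ℕ+ => sigma2 a k n * r ^ (n : ℕ) := by
  have hs := summable_prod_weight2 a B ha k hr
  have hs' : Summable fun x : (Σ n : ℕ+, Nat.divisorsAntidiagonal n) =>
      (fun c : ℕ+ × ℕ+ => (c.2 : ℂ) ^ k * (a c.1 c.2 * r ^ (c.1 * c.2 : ℕ)))
        (sigmaAntidiagonalEquivProd x) :=
    sigmaAntidiagonalEquivProd.summable_iff.mpr hs
  exact hs'.sigma.congr fun n => sigma2_term_eq a k r n

theorem tsum_prod_weight2_eq (a : ℕ → ℕ → ℂ) (B : ℝ) (ha : ∀ c m, ‖a c m‖ ≤ B) (k : ℕ)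
    {r : ℂ} (hr : ‖r‖ < 1) :
    ∑' c : ℕ+, ∑' m : ℕ+, (m : ℂ) ^ k * (a c m * r ^ (c * m : ℕ)) =
      ∑' n : ℕ+, sigma2 a k n * r ^ (n : ℕ) := by
  have hs := summable_prod_weight2 a B ha k hr
  rw [← hs.tsum_prod (f := fun c : ℕ+ × ℕ+ =>
    (c.2 : ℂ) ^ k * (a c.1 c.2 * r ^ (c.1 * c.2 : ℕ)))]
  rw [← sigmaAntidiagonalEquivProd.tsum_eq]
  have hs' : Summable fun x : (Σ n : ℕ+, Nat.divisorsAntidiagonal n) =>
      (fun c : ℕ+ × ℕ+ => (c.2 : ℂ) ^ k * (a c.1 c.2 * r ^ (c.1 * c.2 : ℕ)))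
        (sigmaAntidiagonalEquivProd x) :=
    sigmaAntidiagonalEquivProd.summable_iff.mpr hs
  rw [hs'.tsum_sigma]
  exact tsum_congr fun n => sigma2_term_eq a k r n

/-! ### The periodic weights -/

/-- The weight on `ℤ²` attached to `w : ZMod M → ZMod M → ℂ`. -/
def perWeight (M : ℕ) (w : ZMod M → ZMod M → ℂ) (v : Fin 2 → ℤ) : ℂ :=
  w ((v 0 : ℤ) : ZMod M) ((v 1 : ℤ) : ZMod M)

/-- A bound for `w`. -/
def wBound (M : ℕ) [NeZero M] (w : ZMod M → ZMod M → ℂ) : ℝ := ∑ x : ZMod M, ∑ y : ZMod M, ‖w x y‖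

theorem norm_le_wBound (M : ℕ) [NeZero M] (w : ZMod M → ZMod M → ℂ) (x y : ZMod M) :
    ‖w x y‖ ≤ wBound M w := by
  unfold wBound
  calc ‖w x y‖ ≤ ∑ y' : ZMod M, ‖w x y'‖ :=
        Finset.single_le_sum (f := fun y' => ‖w x y'‖) (fun _ _ => norm_nonneg _)
          (Finset.mem_univ y)
    _ ≤ ∑ x' : ZMod M, ∑ y' : ZMod M, ‖w x' y'‖ :=
        Finset.single_le_sum (f := fun x' => ∑ y' : ZMod M, ‖w x' y'‖)
          (fun _ _ => Finset.sum_nonneg fun _ _ => norm_nonneg _) (Finset.mem_univ x)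

theorem wBound_nonneg (M : ℕ) [NeZero M] (w : ZMod M → ZMod M → ℂ) : 0 ≤ wBound M w :=
  Finset.sum_nonneg fun _ _ => Finset.sum_nonneg fun _ _ => norm_nonneg _

theorem norm_perWeight_le (M : ℕ) [NeZero M] (w : ZMod M → ZMod M → ℂ) (v : Fin 2 → ℤ) :
    ‖perWeight M w v‖ ≤ wBound M w :=
  norm_le_wBound M w _ _

theorem summable_perWeight (M : ℕ) [NeZero M] (w : ZMod M → ZMod M → ℂ) {k : ℤ} (hk : 3 ≤ k)
    (z : ℍ) : Summable fun v : Fin 2 → ℤ => perWeight M w v * eisSummand k v z := by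
  refine Summable.of_norm_bounded ((summable_norm_eisSummand hk z).mul_left (wBound M w))
    fun v => ?_
  rw [norm_mul]
  exact mul_le_mul_of_nonneg_right (norm_perWeight_le M w v) (norm_nonneg _)

/-- The symmetrised row weight `b ↦ w(c,b) + (-1)^{k+1} w(-c,-b)`. -/
def symW (M : ℕ) (w : ZMod M → ZMod M → ℂ) (k c : ℕ) (b : ZMod M) : ℂ :=
  w (c : ZMod M) b + (-1) ^ (k + 1) * w (-(c : ZMod M)) (-b)

/-- The coefficient `A_w(n) = ∑_{c m = n} m^k ∑_b (w(c,b) + (-1)^{k+1} w(-c,-b)) ζ^{bm}`. -/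
def coefA (M : ℕ) (w : ZMod M → ZMod M → ℂ) (k n : ℕ) : ℂ :=
  sigma2 (fun c m => hatG M (symW M w k c) m) k n

theorem hatG_add_smul (M : ℕ) (g h : ZMod M → ℂ) (a : ℂ) (m : ℤ) :
    hatG M (fun b => g b + a * h b) m = hatG M g m + a * hatG M h m := by
  unfold hatG
  rw [Finset.mul_sum, ← Finset.sum_add_distrib]
  refine Finset.sum_congr rfl fun b _ => ?_
  ring

theorem qM_pow_mul (M : ℕ) (z : ℍ) (c : ℕ+) (hc : 0 < (((c : ℕ) : ℂ) * (z : ℂ)).im) (m : ℕ) :
    cexp (2 * π * Complex.I * ((⟨((c : ℕ) : ℂ) * z, hc⟩ : ℍ) : ℂ) / M) ^ m =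
      cexp (2 * π * Complex.I * z / M) ^ ((c : ℕ) * m) := by
  rw [← Complex.exp_nat_mul, ← Complex.exp_nat_mul]
  congr 1
  push_cast
  show _ * (2 * π * Complex.I * (((c : ℕ) : ℂ) * (z : ℂ)) / M) = _
  ring

theorem row_pos (M : ℕ) [NeZero M] {k : ℕ} (hk : 1 ≤ k) (w : ZMod M → ZMod M → ℂ) (z : ℍ)
    (c : ℕ+) :
    ∑' d : ℤ, perWeight M w ![((c : ℕ) : ℤ), d] * eisSummand ((k + 1 : ℕ) : ℤ) ![((c : ℕ) : ℤ), d] z
      = lipConst M k * ∑' m : ℕ+, (m : ℂ) ^ k *
          (hatG M (w (c : ℕ)) m * cexp (2 * π * Complex.I * z / M) ^ ((c : ℕ) * (m : ℕ))) := by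
  have hc : 0 < (((c : ℕ) : ℂ) * (z : ℂ)).im := by
    rw [Complex.mul_im]
    simp only [Complex.natCast_re, Complex.natCast_im, zero_mul, add_zero]
    exact mul_pos (Nat.cast_pos.mpr c.pos) z.2
  have H := row_sum M hk (w (c : ℕ)) ⟨((c : ℕ) : ℂ) * z, hc⟩
  simp_rw [qM_pow_mul M z c hc] at H
  rw [← H]
  refine tsum_congr fun d => ?_
  simp only [perWeight, eisSummand, Matrix.cons_val_zero, Matrix.cons_val_one]
  congr 1
  · simp
  · rw [zpow_neg, zpow_natCast]
    simp

theorem row_neg (M : ℕ) [NeZero M] {k : ℕ} (hk : 1 ≤ k) (w : ZMod M → ZMod M → ℂ) (z : ℍ)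
    (c : ℕ+) :
    ∑' d : ℤ, perWeight M w ![-((c : ℕ) : ℤ), d] *
        eisSummand ((k + 1 : ℕ) : ℤ) ![-((c : ℕ) : ℤ), d] z
      = lipConst M k * ∑' m : ℕ+, (m : ℂ) ^ k *
          (((-1) ^ (k + 1) * hatG M (fun b => w (-((c : ℕ) : ZMod M)) (-b)) m) *
            cexp (2 * π * Complex.I * z / M) ^ ((c : ℕ) * (m : ℕ))) := by
  have hc : 0 < (((c : ℕ) : ℂ) * (z : ℂ)).im := by
    rw [Complex.mul_im]
    simp only [Complex.natCast_re, Complex.natCast_im, zero_mul, add_zero]
    exact mul_pos (Nat.cast_pos.mpr c.pos) z.2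
  have H := row_sum M hk (fun b => w (-((c : ℕ) : ZMod M)) (-b)) ⟨((c : ℕ) : ℂ) * z, hc⟩
  simp_rw [qM_pow_mul M z c hc] at H
  have H' : lipConst M k * ∑' m : ℕ+, (m : ℂ) ^ k *
          (((-1) ^ (k + 1) * hatG M (fun b => w (-((c : ℕ) : ZMod M)) (-b)) m) *
            cexp (2 * π * Complex.I * z / M) ^ ((c : ℕ) * (m : ℕ))) =
      (-1) ^ (k + 1) * (lipConst M k * ∑' m : ℕ+, (m : ℂ) ^ k *
          (hatG M (fun b => w (-((c : ℕ) : ZMod M)) (-b)) m *
            cexp (2 * π * Complex.I * z / M) ^ ((c : ℕ) * (m : ℕ)))) := by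
    have e : ∀ m : ℕ+, (m : ℂ) ^ k *
          (((-1) ^ (k + 1) * hatG M (fun b => w (-((c : ℕ) : ZMod M)) (-b)) m) *
            cexp (2 * π * Complex.I * z / M) ^ ((c : ℕ) * (m : ℕ))) =
        (-1) ^ (k + 1) * ((m : ℂ) ^ k *
          (hatG M (fun b => w (-((c : ℕ) : ZMod M)) (-b)) m *
            cexp (2 * π * Complex.I * z / M) ^ ((c : ℕ) * (m : ℕ)))) := fun m => by ring
    simp_rw [e]
    rw [tsum_mul_left]
    ring
  rw [H', ← H, ← tsum_mul_left]
  rw [← tsum_comp_neg (fun d : ℤ => perWeight M w ![-((c : ℕ) : ℤ), d] *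
        eisSummand ((k + 1 : ℕ) : ℤ) ![-((c : ℕ) : ℤ), d] z)]
  refine tsum_congr fun d => ?_
  simp only [perWeight, eisSummand, Matrix.cons_val_zero, Matrix.cons_val_one]
  have e1 : ((-((c : ℕ) : ℤ) : ℤ) : ℂ) * (z : ℂ) + ((-d : ℤ) : ℂ) =
      -((((c : ℕ) : ℂ) * (z : ℂ)) + (d : ℂ)) := by
    push_cast
    ring
  rw [e1, zpow_neg, zpow_natCast, neg_pow]
  have e2 : (((-((c : ℕ) : ℤ) : ℤ)) : ZMod M) = -((c : ℕ) : ZMod M) := by
    push_cast
    rfl
  rw [e2]
  have e3 : (((-d : ℤ)) : ZMod M) = -((d : ℤ) : ZMod M) := by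
    push_cast
    rfl
  rw [e3]
  have hne : ((-1 : ℂ)) ^ (k + 1) ≠ 0 := pow_ne_zero _ (by norm_num)
  have hsq : ((-1 : ℂ)) ^ (k + 1) * (-1) ^ (k + 1) = 1 := by
    rw [← mul_pow]
    norm_num
  show _ * ((-1 : ℂ) ^ (k + 1) * (((c : ℕ) : ℂ) * (z : ℂ) + (d : ℂ)) ^ (k + 1))⁻¹ =
    (-1) ^ (k + 1) * (_ * (1 / (((c : ℕ) : ℂ) * (z : ℂ) + (d : ℂ)) ^ (k + 1)))
  rw [mul_inv, one_div]
  have : ((-1 : ℂ) ^ (k + 1))⁻¹ = (-1) ^ (k + 1) := by
    rw [← inv_pow]
    norm_num
  rw [this]
  ring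

theorem norm_hatG_symW_le (M : ℕ) [NeZero M] (w : ZMod M → ZMod M → ℂ) (k c : ℕ) (m : ℤ) :
    ‖hatG M (symW M w k c) m‖ ≤ M * (2 * wBound M w) := by
  refine (norm_hatG_le M _ m).trans ?_
  have h1 : ∀ b ∈ Finset.range M, ‖symW M w k c (b : ZMod M)‖ ≤ 2 * wBound M w := by
    intro b _
    unfold symW
    refine (norm_add_le _ _).trans ?_
    rw [norm_mul, norm_pow, norm_neg, norm_one, one_pow, one_mul, two_mul]
    exact add_le_add (norm_le_wBound M w _ _) (norm_le_wBound M w _ _)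
  calc ∑ b ∈ Finset.range M, ‖symW M w k c (b : ZMod M)‖
      ≤ ∑ _b ∈ Finset.range M, 2 * wBound M w := Finset.sum_le_sum h1
    _ = M * (2 * wBound M w) := by
        rw [Finset.sum_const, Finset.card_range, nsmul_eq_mul]

/-- **The expansion of a level-`M` Eisenstein series** (weight `k + 1 ≥ 3`), `tsum` form. -/
theorem wEis_periodic_eq_tsum (M : ℕ) [NeZero M] {k : ℕ} (hk : 2 ≤ k)
    (w : ZMod M → ZMod M → ℂ) (z : ℍ) :
    H332.wEis (perWeight M w) ((k + 1 : ℕ) : ℤ) z =
      (∑' d : ℤ, perWeight M w ![0, d] * eisSummand ((k + 1 : ℕ) : ℤ) ![0, d] z) +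
      lipConst M k *
        ∑' n : ℕ+, coefA M w k n * cexp (2 * π * Complex.I * z / M) ^ (n : ℕ) := by
  have hk3 : (3 : ℤ) ≤ ((k + 1 : ℕ) : ℤ) := by
    push_cast
    omega
  have hk1 : 1 ≤ k := by omega
  have hsum0 := summable_perWeight M w hk3 z
  have hsum : Summable fun p : ℤ × ℤ =>
      perWeight M w ![p.1, p.2] * eisSummand ((k + 1 : ℕ) : ℤ) ![p.1, p.2] z := by
    have := (finTwoArrowEquiv ℤ).symm.summable_iff.mpr hsum0
    simpa [Function.comp_def, finTwoArrowEquiv_symm_apply] using this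
  unfold H332.wEis
  rw [← (finTwoArrowEquiv ℤ).symm.tsum_eq]
  simp only [finTwoArrowEquiv_symm_apply]
  rw [hsum.tsum_prod, tsum_int_eq_zero_add_tsum_pnat hsum.prod]
  have hS1 : Summable fun c : ℕ+ => ∑' d : ℤ,
      perWeight M w ![((c : ℕ) : ℤ), d] * eisSummand ((k + 1 : ℕ) : ℤ) ![((c : ℕ) : ℤ), d] z := by
    have hinj : Function.Injective (fun c : ℕ+ => (((c : ℕ) : ℤ))) := fun a b h => by
      have h' : ((a : ℕ) : ℤ) = ((b : ℕ) : ℤ) := h
      exact PNat.eq (by exact_mod_cast h')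
    exact hsum.prod.comp_injective hinj
  have hS2 : Summable fun c : ℕ+ => ∑' d : ℤ,
      perWeight M w ![-((c : ℕ) : ℤ), d] *
        eisSummand ((k + 1 : ℕ) : ℤ) ![-((c : ℕ) : ℤ), d] z := by
    have hinj : Function.Injective (fun c : ℕ+ => (-((c : ℕ) : ℤ))) := fun a b h => by
      have h' : ((a : ℕ) : ℤ) = ((b : ℕ) : ℤ) := neg_injective h
      exact PNat.eq (by exact_mod_cast h')
    exact hsum.prod.comp_injective hinj
  rw [add_assoc, ← hS1.tsum_add hS2]
  congr 1
  have hterm : ∀ c : ℕ+,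
      (∑' d : ℤ, perWeight M w ![((c : ℕ) : ℤ), d] *
          eisSummand ((k + 1 : ℕ) : ℤ) ![((c : ℕ) : ℤ), d] z) +
      (∑' d : ℤ, perWeight M w ![-((c : ℕ) : ℤ), d] *
          eisSummand ((k + 1 : ℕ) : ℤ) ![-((c : ℕ) : ℤ), d] z) =
      lipConst M k * ∑' m : ℕ+, (m : ℂ) ^ k *
        (hatG M (symW M w k c) m * cexp (2 * π * Complex.I * z / M) ^ ((c : ℕ) * (m : ℕ))) := by
    intro c
    rw [row_pos M hk1 w z c, row_neg M hk1 w z c, ← mul_add]
    congr 1
    have hr := norm_qM_lt_one M z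
    have hs1 : Summable fun m : ℕ+ => (m : ℂ) ^ k *
        (hatG M (w (c : ℕ)) m * cexp (2 * π * Complex.I * z / M) ^ ((c : ℕ) * (m : ℕ))) := by
      have := summable_prod_weight2 (fun c m => hatG M (w (c : ℕ)) m) (M * wBound M w)
        (fun c m => (norm_hatG_le M _ _).trans (by
          calc ∑ b ∈ Finset.range M, ‖w (c : ℕ) (b : ZMod M)‖
              ≤ ∑ _b ∈ Finset.range M, wBound M w :=
                Finset.sum_le_sum fun b _ => norm_le_wBound M w _ _
            _ = M * wBound M w := by rw [Finset.sum_const, Finset.card_range, nsmul_eq_mul])) k hr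
      exact this.prod_factor c
    have hs2 : Summable fun m : ℕ+ => (m : ℂ) ^ k *
        (((-1) ^ (k + 1) * hatG M (fun b => w (-((c : ℕ) : ZMod M)) (-b)) m) *
          cexp (2 * π * Complex.I * z / M) ^ ((c : ℕ) * (m : ℕ))) := by
      have := summable_prod_weight2
        (fun c m => (-1) ^ (k + 1) * hatG M (fun b => w (-((c : ℕ) : ZMod M)) (-b)) m)
        (M * wBound M w)
        (fun c m => by
          rw [norm_mul, norm_pow, norm_neg, norm_one, one_pow, one_mul]
          exact (norm_hatG_le M _ _).trans (by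
            calc ∑ b ∈ Finset.range M, ‖w (-((c : ℕ) : ZMod M)) (-(b : ZMod M))‖
                ≤ ∑ _b ∈ Finset.range M, wBound M w :=
                  Finset.sum_le_sum fun b _ => norm_le_wBound M w _ _
              _ = M * wBound M w := by
                  rw [Finset.sum_const, Finset.card_range, nsmul_eq_mul])) k hr
      exact this.prod_factor c
    rw [← hs1.tsum_add hs2]
    refine tsum_congr fun m => ?_
    unfold symW
    rw [hatG_add_smul]
    ring
  simp_rw [hterm]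
  rw [tsum_mul_left]
  congr 1
  exact tsum_prod_weight2_eq (fun c m => hatG M (symW M w k c) m) (M * (2 * wBound M w))
    (fun c m => norm_hatG_symW_le M w k c m) k (norm_qM_lt_one M z)

/-- The constant term `∑_{d ≠ 0} w(0,d) d^{-(k+1)}`. -/
def constTerm (M : ℕ) (w : ZMod M → ZMod M → ℂ) (k : ℕ) : ℂ :=
  ∑' d : ℤ, w 0 ((d : ℤ) : ZMod M) * ((d : ℂ) ^ (k + 1))⁻¹

/-- The coefficients of the expansion in `X = e^{2πiz/M}`. -/
def coefX (M : ℕ) (w : ZMod M → ZMod M → ℂ) (k n : ℕ) : ℂ :=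
  if n = 0 then constTerm M w k else lipConst M k * coefA M w k n

theorem coefA_zero (M : ℕ) (w : ZMod M → ZMod M → ℂ) (k : ℕ) : coefA M w k 0 = 0 :=
  sigma2_zero _ _

theorem qParam_M (M : ℕ) (z : ℍ) :
    𝕢 (M : ℝ) (z : ℂ) = cexp (2 * π * Complex.I * z / M) := by
  simp [Function.Periodic.qParam]

theorem summable_coefA (M : ℕ) [NeZero M] (w : ZMod M → ZMod M → ℂ) (k : ℕ) (z : ℍ) :
    Summable fun n : ℕ => coefA M w k n * cexp (2 * π * Complex.I * z / M) ^ n := by
  have h := summable_sigma2_mul_pow (fun c m => hatG M (symW M w k c) m) (M * (2 * wBound M w))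
    (fun c m => norm_hatG_symW_le M w k c m) k (norm_qM_lt_one M z)
  have h' : Summable fun n : ℕ+ =>
      (fun n : ℕ => coefA M w k n * cexp (2 * π * Complex.I * z / M) ^ n) n := h
  exact (summable_pnat_iff_summable_nat (f := fun n : ℕ =>
    coefA M w k n * cexp (2 * π * Complex.I * z / M) ^ n)).mp h'

/-- **The expansion of a level-`M` Eisenstein series** (weight `k + 1 ≥ 3`), `HasSum` form. -/
theorem hasSum_wEis_periodic (M : ℕ) [NeZero M] {k : ℕ} (hk : 2 ≤ k)
    (w : ZMod M → ZMod M → ℂ) (z : ℍ) :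
    HasSum (fun n : ℕ => coefX M w k n • 𝕢 (M : ℝ) (z : ℂ) ^ n)
      (H332.wEis (perWeight M w) ((k + 1 : ℕ) : ℤ) z) := by
  have hS := summable_coefA M w k z
  have h1 : ∑' n : ℕ+, coefA M w k n * cexp (2 * π * Complex.I * z / M) ^ (n : ℕ) =
      ∑' n : ℕ, coefA M w k n * cexp (2 * π * Complex.I * z / M) ^ n := by
    rw [← tsum_zero_pnat_eq_tsum_nat hS]
    simp [coefA_zero]
  have h0 : (∑' d : ℤ, perWeight M w ![0, d] * eisSummand ((k + 1 : ℕ) : ℤ) ![0, d] z) =
      constTerm M w k := by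
    unfold constTerm
    refine tsum_congr fun d => ?_
    simp only [perWeight, eisSummand, Matrix.cons_val_zero, Matrix.cons_val_one]
    congr 1
    · simp
    · rw [zpow_neg, zpow_natCast]
      simp
  rw [wEis_periodic_eq_tsum M hk w z, h0, h1, qParam_M]
  have h2 := (hS.mul_left (lipConst M k)).hasSum
  rw [tsum_mul_left] at h2
  have h3 : HasSum (fun n : ℕ => if n = 0 then constTerm M w k else 0) (constTerm M w k) := by
    convert hasSum_ite_eq (0 : ℕ) (constTerm M w k) using 2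
  convert h3.add h2 using 1
  funext n
  by_cases hn : n = 0
  · subst hn
    simp [coefX, coefA_zero]
  · simp [coefX, hn]
    ring

/-! ### Holomorphy, slash action, boundedness, `q`-expansion coefficients -/

theorem wEis_const_mul (a : ℂ) (c : (Fin 2 → ℤ) → ℂ) (k : ℤ) :
    H332.wEis (fun v => a * c v) k = fun z => a * H332.wEis c k z := by
  funext z
  unfold H332.wEis
  simp_rw [mul_assoc]
  rw [tsum_mul_left]

/-- Normalisation of a periodic weight: `w = B * w'` with `‖w'‖ ≤ 1`. -/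
theorem perWeight_normalise (M : ℕ) [NeZero M] (w : ZMod M → ZMod M → ℂ) :
    ∃ (B : ℂ) (c : (Fin 2 → ℤ) → ℂ), (∀ v, ‖c v‖ ≤ 1) ∧ perWeight M w = fun v => B * c v := by
  have hpos : (0 : ℝ) < wBound M w + 1 := by
    have := wBound_nonneg M w
    linarith
  have hne : ((wBound M w + 1 : ℝ) : ℂ) ≠ 0 := by
    exact_mod_cast hpos.ne'
  refine ⟨((wBound M w + 1 : ℝ) : ℂ), fun v => ((wBound M w + 1 : ℝ) : ℂ)⁻¹ * perWeight M w v,
    fun v => ?_, ?_⟩
  · rw [norm_mul, norm_inv, Complex.norm_real, Real.norm_of_nonneg hpos.le,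
      inv_mul_le_iff₀ hpos, mul_one]
    have := norm_perWeight_le M w v
    linarith
  · funext v
    rw [← mul_assoc, mul_inv_cancel₀ hne, one_mul]

theorem perWeight_mdiff (M : ℕ) [NeZero M] (w : ZMod M → ZMod M → ℂ) {k : ℤ} (hk : 3 ≤ k) :
    MDiff (H332.wEis (perWeight M w) k) := by
  obtain ⟨B, c, hc, hw⟩ := perWeight_normalise M w
  rw [hw, wEis_const_mul]
  exact (mdifferentiable_const (c := B)).mul (H332.wEis_mdifferentiable hc hk)

theorem perWeight_slash_isBoundedAtImInfty (M : ℕ) [NeZero M] (w : ZMod M → ZMod M → ℂ)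
    {k : ℤ} (hk : 3 ≤ k) (γ : SL(2, ℤ)) :
    IsBoundedAtImInfty (H332.wEis (perWeight M w) k ∣[k] γ) := by
  obtain ⟨B, c, hc, hw⟩ := perWeight_normalise M w
  rw [hw, wEis_const_mul]
  have h1 : (fun z => B * H332.wEis c k z) = B • H332.wEis c k := by
    funext z
    simp
  rw [h1, ModularForm.SL_smul_slash]
  exact (H332.wEis_slash_isBoundedAtImInfty hc hk γ).const_smul_left B

/-- The action of `γ` on periodic weights: `(γ · w)(v) = w(v γ⁻¹)`. -/
def actW (M : ℕ) (γ : SL(2, ℤ)) (w : ZMod M → ZMod M → ℂ) : ZMod M → ZMod M → ℂ :=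
  fun x y =>
    w (x * (((γ⁻¹ : SL(2, ℤ)) 0 0 : ℤ) : ZMod M) + y * (((γ⁻¹ : SL(2, ℤ)) 1 0 : ℤ) : ZMod M))
      (x * (((γ⁻¹ : SL(2, ℤ)) 0 1 : ℤ) : ZMod M) + y * (((γ⁻¹ : SL(2, ℤ)) 1 1 : ℤ) : ZMod M))

theorem perWeight_vecMul (M : ℕ) (γ : SL(2, ℤ)) (w : ZMod M → ZMod M → ℂ) (v : Fin 2 → ℤ) :
    perWeight M w (v ᵥ* (γ⁻¹).1) = perWeight M (actW M γ w) v := by
  simp only [perWeight, actW, Matrix.vecMul, dotProduct, Fin.sum_univ_two]
  push_cast
  rfl

/-- **Slash action** on level-`M` Eisenstein series. -/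
theorem perWeight_slash (M : ℕ) (w : ZMod M → ZMod M → ℂ) (k : ℤ) (γ : SL(2, ℤ)) :
    H332.wEis (perWeight M w) k ∣[k] γ = H332.wEis (perWeight M (actW M γ w)) k := by
  rw [H332.wEis_slash]
  congr 1
  funext v
  exact perWeight_vecMul M γ w v

/-- **`q`-expansion coefficients** (period `M`) of a level-`M` Eisenstein series. -/
theorem qExpansion_wEis_periodic (M : ℕ) [NeZero M] {k : ℕ} (hk : 2 ≤ k)
    (w : ZMod M → ZMod M → ℂ) (n : ℕ) :
    (qExpansion (M : ℝ) (H332.wEis (perWeight M w) ((k + 1 : ℕ) : ℤ))).coeff n =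
      coefX M w k n := by
  have hMpos : (0 : ℝ) < M := Nat.cast_pos.mpr (Nat.pos_of_ne_zero (NeZero.ne M))
  have hk3 : (3 : ℤ) ≤ ((k + 1 : ℕ) : ℤ) := by
    push_cast
    omega
  exact Fermat.Agent.S22T.qExpansion_coeff_of_hasSum hMpos (hasSum_wEis_periodic M hk w)
    (perWeight_mdiff M w hk3) n

/-- The level-`M` Eisenstein series of a `Γ`-invariant weight, as a modular form on `Γ`. -/
def perMF (M : ℕ) [NeZero M] (w : ZMod M → ZMod M → ℂ) {k : ℤ} (hk : 3 ≤ k)
    (Γ : Subgroup SL(2, ℤ)) [Γ.FiniteIndex] (hΓ : ∀ γ ∈ Γ, actW M γ w = w) :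
    ModularForm (Γ : Subgroup (GL (Fin 2) ℝ)) k where
  toFun := H332.wEis (perWeight M w) k
  slash_action_eq' A hA := by
    obtain ⟨A, hA, rfl⟩ := hA
    show H332.wEis (perWeight M w) k ∣[k] A = _
    rw [perWeight_slash, hΓ A hA]
  holo' := perWeight_mdiff M w hk
  bdd_at_cusps' {c} hc := by
    rw [Subgroup.IsArithmetic.isCusp_iff_isCusp_SL2Z] at hc
    rw [OnePoint.isBoundedAt_iff_forall_SL2Z hc]
    intro γ _
    exact perWeight_slash_isBoundedAtImInfty M w hk γ

@[simp] theorem perMF_apply (M : ℕ) [NeZero M] (w : ZMod M → ZMod M → ℂ) {k : ℤ} (hk : 3 ≤ k)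
    (Γ : Subgroup SL(2, ℤ)) [Γ.FiniteIndex] (hΓ : ∀ γ ∈ Γ, actW M γ w = w) (z : ℍ) :
    perMF M w hk Γ hΓ z = H332.wEis (perWeight M w) k z := rfl

end Fermat.Agent.S48.H76

end
end
-- ===== PACK-END S48/H76/GenQX.lean

-- ===== PACK-BEGIN S48/H368/IGrpT.lean
section


/-!
# S48 / Tower A1 / node I-GRP, part 2 (helper368): the normal closure of `T`

The hypothesis `hgen : Subgroup.normalClosure {t} = ⊤` of `H856.igusa_qep` /
`H856.eq_top_of_normalClosure_of_mul`:

* `normalClosure_upperU_one_zmod` : the normal closure of `T = (1 1; 0 1)` in `SL₂(ℤ/M)` is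
  everything (`M ≠ 0`);
* `normalClosure_upperU_one_int`, `normalClosure_T` : the same in `SL₂(ℤ)`;
* `normalClosure_map_of_surjective` : normal closures of singletons push forward along
  surjections; `normalClosure_map_T`, `normalClosure_map_upperU_zmod` : the images of `T` in any
  quotient of `SL₂(ℤ)`, `SL₂(ℤ/M)` normally generate.
-/

set_option autoImplicit false

namespace Fermat.Agent.S48.H368

open Matrix

section General

variable {R : Type*} [CommRing R]

theorem upperU_nsmul (n : ℕ) (t : R) : upperU (n • t) = upperU t ^ n := by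
  induction n with
  | zero => simp [upperU_zero]
  | succ n ih => rw [succ_nsmul, upperU_add, ih, pow_succ]

theorem upperU_zsmul (n : ℤ) (t : R) : upperU (n • t) = upperU t ^ n := by
  cases n with
  | ofNat n => simpa using upperU_nsmul n t
  | negSucc n =>
    rw [negSucc_zsmul, upperU_neg, upperU_nsmul, zpow_negSucc]

/-- If every `upperU t` is a power of `upperU 1`, the normal closure of `upperU 1` contains the
elementary subgroup. -/
theorem elemSubgroup_le_normalClosure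
    (h : ∀ t : R, upperU t ∈ Subgroup.zpowers (upperU (1 : R))) :
    elemSubgroup R ≤ Subgroup.normalClosure ({upperU (1 : R)} : Set _) := by
  have hz : Subgroup.zpowers (upperU (1 : R)) ≤
      Subgroup.normalClosure ({upperU (1 : R)} : Set _) := by
    rw [Subgroup.zpowers_le]
    exact Subgroup.subset_normalClosure (Set.mem_singleton _)
  rw [elemSubgroup, Subgroup.closure_le]
  rintro g (⟨t, rfl⟩ | ⟨t, rfl⟩)
  · exact hz (h t)
  · rw [lowerU_eq_conj]
    exact Subgroup.Normal.conj_mem inferInstance _ (hz (h (-t))) _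

end General

/-- The normal closure of `T = (1 1; 0 1)` in `SL₂(ℤ/M)` is the whole group (`M ≠ 0`). -/
theorem normalClosure_upperU_one_zmod (M : ℕ) [NeZero M] :
    Subgroup.normalClosure ({upperU (1 : ZMod M)} : Set _) = ⊤ := by
  rw [eq_top_iff, ← elemSubgroup_zmod_eq_top M]
  apply elemSubgroup_le_normalClosure
  intro t
  refine ⟨(t.val : ℤ), ?_⟩
  change upperU (1 : ZMod M) ^ (t.val : ℤ) = upperU t
  rw [← upperU_zsmul]
  congr 1
  simp

/-- The normal closure of `T = (1 1; 0 1)` in `SL₂(ℤ)` is the whole group. -/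
theorem normalClosure_upperU_one_int :
    Subgroup.normalClosure ({upperU (1 : ℤ)} : Set _) = ⊤ := by
  rw [eq_top_iff, ← elemSubgroup_int_eq_top]
  apply elemSubgroup_le_normalClosure
  intro t
  refine ⟨t, ?_⟩
  change upperU (1 : ℤ) ^ t = upperU t
  rw [← upperU_zsmul]
  congr 1
  simp

theorem modularGroup_T_eq : ModularGroup.T = upperU (1 : ℤ) := by
  apply Subtype.ext
  rw [coe_upperU]
  rfl

/-- The normal closure of Mathlib's `ModularGroup.T` in `SL₂(ℤ)` is the whole group. -/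
theorem normalClosure_T :
    Subgroup.normalClosure ({ModularGroup.T} : Set (Matrix.SpecialLinearGroup (Fin 2) ℤ)) = ⊤ := by
  rw [modularGroup_T_eq]
  exact normalClosure_upperU_one_int

/-- Normal generation pushes forward along surjections. -/
theorem normalClosure_map_of_surjective {H G : Type*} [Group H] [Group G] (π : H →* G)
    (hπ : Function.Surjective π) (t : H)
    (ht : Subgroup.normalClosure ({t} : Set H) = ⊤) :
    Subgroup.normalClosure ({π t} : Set G) = ⊤ := by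
  rw [eq_top_iff]
  have h1 : Subgroup.normalClosure ({t} : Set H) ≤
      (Subgroup.normalClosure ({π t} : Set G)).comap π := by
    apply Subgroup.normalClosure_le_normal
    intro x hx
    rw [Set.mem_singleton_iff] at hx
    subst hx
    exact Subgroup.subset_normalClosure (Set.mem_singleton _)
  intro g _
  obtain ⟨h, rfl⟩ := hπ g
  exact h1 (ht ▸ Subgroup.mem_top h)

/-- The image of `T` normally generates every quotient of `SL₂(ℤ)`. -/
theorem normalClosure_map_T {G : Type*} [Group G]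
    (π : Matrix.SpecialLinearGroup (Fin 2) ℤ →* G) (hπ : Function.Surjective π) :
    Subgroup.normalClosure ({π ModularGroup.T} : Set G) = ⊤ :=
  normalClosure_map_of_surjective π hπ _ normalClosure_T

/-- The image of `T` normally generates every quotient of `SL₂(ℤ/M)` (`M ≠ 0`). -/
theorem normalClosure_map_upperU_zmod (M : ℕ) [NeZero M] {G : Type*} [Group G]
    (π : Matrix.SpecialLinearGroup (Fin 2) (ZMod M) →* G) (hπ : Function.Surjective π) :
    Subgroup.normalClosure ({π (upperU (1 : ZMod M))} : Set G) = ⊤ :=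
  normalClosure_map_of_surjective π hπ _ (normalClosure_upperU_one_zmod M)

/-- The image of `T` normally generates the range of any homomorphism from `SL₂(ℤ)`. -/
theorem normalClosure_rangeRestrict_T {G : Type*} [Group G]
    (π : Matrix.SpecialLinearGroup (Fin 2) ℤ →* G) :
    Subgroup.normalClosure ({π.rangeRestrict ModularGroup.T} : Set π.range) = ⊤ :=
  normalClosure_map_T π.rangeRestrict π.rangeRestrict_surjective

end Fermat.Agent.S48.H368

end
-- ===== PACK-END S48/H368/IGrpT.lean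

-- ===== PACK-BEGIN S29/H152/DescInt.lean
section
/-
S29 / DESC (helper152) — part 6: integrality lemmas.  Mathlib-only.
-/



set_option autoImplicit false

namespace Fermat.Agent.S29.H152

open Polynomial

variable {C : Type*} [Field C]

/-- A root of a monic polynomial with coefficients in a subalgebra is integral over it. -/
theorem descInt_isIntegral_of_poly {A : Type*} [CommRing A] [Algebra C A] (S : Subalgebra C A)
    (Q : A[X]) (hQ : Q.Monic) (hc : ∀ i, Q.coeff i ∈ S) {x : A} (hx : Q.eval x = 0) :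
    IsIntegral S x := by
  have hl : Q ∈ Polynomial.lifts (algebraMap S A) := by
    rw [Polynomial.lifts_iff_coeff_lifts]
    intro n
    exact ⟨⟨Q.coeff n, hc n⟩, rfl⟩
  obtain ⟨q, hq, -, hqm⟩ := Polynomial.lifts_and_natDegree_eq_and_monic hl hQ
  refine ⟨q, hqm, ?_⟩
  rw [← Polynomial.eval_map, hq]
  exact hx

/-- Converse: an integral element is a root of a monic polynomial with coefficients in `S`. -/
theorem descInt_exists_poly {A : Type*} [CommRing A] [Algebra C A] (S : Subalgebra C A)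
    {x : A} (hx : IsIntegral S x) :
    ∃ Q : A[X], Q.Monic ∧ (∀ i, Q.coeff i ∈ S) ∧ Q.eval x = 0 := by
  obtain ⟨P, hP, hPx⟩ := hx
  refine ⟨P.map (algebraMap S A), hP.map _, fun i => ?_, ?_⟩
  · rw [Polynomial.coeff_map]
    exact (P.coeff i).2
  · rw [Polynomial.eval_map]
    exact hPx

/-- Ring endomorphisms preserving a subalgebra (as a set) preserve integrality over it. -/
theorem descInt_isIntegral_map {A : Type*} [CommRing A] [Algebra C A] (S : Subalgebra C A)
    (Φ : A →+* A) (hS : ∀ x ∈ S, Φ x ∈ S) {x : A} (hx : IsIntegral S x) :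
    IsIntegral S (Φ x) := by
  obtain ⟨Q, hQ, hc, hQx⟩ := descInt_exists_poly S hx
  refine descInt_isIntegral_of_poly S (Q.map Φ) (hQ.map _) (fun i => ?_) ?_
  · rw [Polynomial.coeff_map]
    exact hS _ (hc i)
  · rw [Polynomial.eval_map, Polynomial.eval₂_hom, hQx, map_zero]

/-- A ring endomorphism fixing `s` and mapping constants to constants preserves `C[s]`. -/
theorem descInt_map_mem_adjoin {A : Type*} [CommRing A] [Algebra C A] (Φ : A →+* A) (s : A)
    (hs : Φ s = s) (hconst : ∀ c : C, ∃ c' : C, Φ (algebraMap C A c) = algebraMap C A c')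
    {x : A} (hx : x ∈ Algebra.adjoin C {s}) : Φ x ∈ Algebra.adjoin C {s} := by
  induction hx using Algebra.adjoin_induction with
  | mem y hy =>
    rw [Set.mem_singleton_iff] at hy
    rw [hy, hs]
    exact Algebra.self_mem_adjoin_singleton C s
  | algebraMap c =>
    obtain ⟨c', hc'⟩ := hconst c
    rw [hc']
    exact Subalgebra.algebraMap_mem _ _
  | add x y _ _ hx hy =>
    rw [map_add]
    exact Subalgebra.add_mem _ hx hy
  | mul x y _ _ hx hy =>
    rw [map_mul]
    exact Subalgebra.mul_mem _ hx hy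

/-- An element integral over `C[j]` becomes integral over `C[j⁻¹]` after multiplication by a
power of `j⁻¹`. -/
theorem descInt_exists_pow {j : LaurentSeries C} (hj : j.order = -1) {y : LaurentSeries C}
    (hy : IsIntegral (Algebra.adjoin C {j}) y) :
    ∃ M : ℕ, IsIntegral (Algebra.adjoin C {j⁻¹}) (y * j⁻¹ ^ M) := by
  classical
  obtain ⟨P, hP, hc, hPy⟩ := descInt_exists_poly _ hy
  choose D hD using fun i => descBound_mul_inv_pow_mem hj (hc i)
  set d := P.natDegree with hd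
  set M := (Finset.range (d + 1)).sup D with hM
  have hDM : ∀ i, i ≤ d → D i ≤ M := fun i hi =>
    Finset.le_sup (f := D) (Finset.mem_range.mpr (Nat.lt_succ_of_le hi))
  refine ⟨M, descInt_isIntegral_of_poly _ (P.scaleRoots (j⁻¹ ^ M))
    ((monic_scaleRoots_iff _).mpr hP) (fun i => ?_) ?_⟩
  · rw [coeff_scaleRoots, ← hd]
    rcases lt_trichotomy i d with hi | hi | hi
    · rw [← pow_mul]
      refine hD i _ ((hDM i hi.le).trans ?_)
      exact Nat.le_mul_of_pos_right M (Nat.sub_pos_of_lt hi)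
    · rw [hi, Nat.sub_self, pow_zero, mul_one, hd, hP.coeff_natDegree]
      exact Subalgebra.one_mem _
    · rw [Polynomial.coeff_eq_zero_of_natDegree_lt (hd ▸ hi), zero_mul]
      exact Subalgebra.zero_mem _
  · rw [mul_comm, scaleRoots_eval_mul, hPy, mul_zero]

/-- In a field extension of an algebraically closed field, algebraic elements are constants. -/
theorem descInt_mem_range_of_isIntegral {Ω A : Type*} [Field Ω] [IsAlgClosed Ω] [Field A]
    [Algebra Ω A] {x : A} (hx : IsIntegral Ω x) : x ∈ Set.range (algebraMap Ω A) := by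
  have hdeg : (minpoly Ω x).degree = 1 :=
    IsAlgClosed.degree_eq_one_of_irreducible Ω (minpoly.irreducible hx)
  exact minpoly.mem_range_of_degree_eq_one Ω x hdeg

/-- Roots of unity in a field extension of an algebraically closed field are constants. -/
theorem descInt_mem_range_of_pow_eq_one {Ω A : Type*} [Field Ω] [IsAlgClosed Ω] [Field A]
    [Algebra Ω A] {x : A} {p : ℕ} (hp : 0 < p) (hx : x ^ p = 1) :
    x ∈ Set.range (algebraMap Ω A) := by
  apply descInt_mem_range_of_isIntegral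
  refine IsIntegral.of_pow hp ?_
  rw [hx]
  exact isIntegral_one

end Fermat.Agent.S29.H152

end
-- ===== PACK-END S29/H152/DescInt.lean

-- ===== PACK-BEGIN S29/H152/DescMain.lean
section
/-
S29 / DESC (helper152) — DESCENT `Ω → K` of Kummer classes (piece K3 of the S29 row plan).

Main result `desc_main`: let `K ⊆ Ω` be algebraically closed fields of characteristic `0`,
`F₀ ⊆ ℚ((q))` a field containing a series `j₀` of order `-1` such that `Ω·F₀` has bounded degree
over `Ω(j₀)`.  If `f ∈ Ω·F₀` has a `p`-th root in `Ω((q))` and the `Aut(Ω/K)`-orbit of the class of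
`f` modulo `p`-th powers of `Ω·F₀` is finite, then `f · g ^ p` has coefficients in `K` and lies in
`K·F₀` for some nonzero `g ∈ Ω·F₀`.

No places, no Riemann–Roch, no analysis: the space `W = h·(Ω·F₀) ∩ {integral over Ω[j], pole order
≤ m at the cusps}` is nonzero, stable under the finite-index stabiliser `H` of the class, and the
orders of its nonzero elements are bounded (`descBound_order_le`); its element of maximal order
with leading coefficient `1` is fixed by `H`, so its coefficients lie in `Ω^H = K`.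
-/









set_option autoImplicit false

namespace Fermat.Agent.S29.H152

open ModularCurve Polynomial

variable {K Ω : Type*} [Field K] [Field Ω] [Algebra K Ω]

theorem descMain_smul_eq (c : Ω) (v : LaurentSeries Ω) :
    c • v = algebraMap Ω (LaurentSeries Ω) c * v := by
  rw [algebraMap_laurentSeries_eq_single, HahnSeries.single_zero_mul_eq_smul]

theorem descMain_order_coeffMap {R S : Type*} [CommRing R] [CommRing S] (φ : R →+* S)
    (hφ : Function.Injective φ) (x : LaurentSeries R) : (coeffMap φ x).order = x.order := by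
  by_cases hx : x = 0
  · rw [hx, map_zero, HahnSeries.order_zero, HahnSeries.order_zero]
  have hx' : coeffMap φ x ≠ 0 := by
    intro h
    apply hx
    ext k
    have := congrArg (fun y => HahnSeries.coeff y k) h
    simp only [coeffMap_coeff, HahnSeries.coeff_zero] at this
    rw [HahnSeries.coeff_zero]
    exact hφ (by rw [this, map_zero])
  apply le_antisymm
  · apply HahnSeries.order_le_of_coeff_ne_zero
    rw [coeffMap_coeff]
    intro h
    exact hx (HahnSeries.coeff_order_eq_zero.mp (hφ (by rw [h, map_zero])))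
  · apply HahnSeries.order_le_of_coeff_ne_zero
    intro h
    apply hx'
    apply HahnSeries.coeff_order_eq_zero.mp
    rw [coeffMap_coeff, h, map_zero]

/-! ### The space `W` -/

section W

variable (F : IntermediateField Ω (LaurentSeries Ω)) (j h : LaurentSeries Ω) (m : ℕ)

/-- `W = {v ∈ h·F : v integral over Ω[j], v·j⁻ᵐ integral over Ω[j⁻¹]}`. -/
def descW : Submodule Ω (LaurentSeries Ω) where
  carrier := {v | (∃ g ∈ F, v = h * g) ∧ IsIntegral (Algebra.adjoin Ω {j}) v ∧
      IsIntegral (Algebra.adjoin Ω {j⁻¹}) (v * j⁻¹ ^ m)}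
  zero_mem' := ⟨⟨0, zero_mem _, (mul_zero h).symm⟩, isIntegral_zero, by
    rw [zero_mul]; exact isIntegral_zero⟩
  add_mem' := by
    rintro v w ⟨⟨g, hg, rfl⟩, hv1, hv2⟩ ⟨⟨g', hg', rfl⟩, hw1, hw2⟩
    refine ⟨⟨g + g', add_mem hg hg', (mul_add _ _ _).symm⟩, hv1.add hw1, ?_⟩
    rw [add_mul]
    exact hv2.add hw2
  smul_mem' := by
    rintro c v ⟨⟨g, hg, rfl⟩, hv1, hv2⟩
    show c • (h * g) ∈ _
    rw [descMain_smul_eq]
    refine ⟨⟨algebraMap Ω _ c * g, mul_mem (F.algebraMap_mem c) hg, by ring⟩, ?_, ?_⟩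
    · exact (isIntegral_algebraMap
        (x := (⟨_, Subalgebra.algebraMap_mem _ c⟩ : Algebra.adjoin Ω {j}))).mul hv1
    · rw [mul_assoc]
      exact (isIntegral_algebraMap
        (x := (⟨_, Subalgebra.algebraMap_mem _ c⟩ : Algebra.adjoin Ω {j⁻¹}))).mul hv2

variable {F j h m}

theorem mem_descW {v : LaurentSeries Ω} :
    v ∈ descW F j h m ↔ (∃ g ∈ F, v = h * g) ∧ IsIntegral (Algebra.adjoin Ω {j}) v ∧
      IsIntegral (Algebra.adjoin Ω {j⁻¹}) (v * j⁻¹ ^ m) := Iff.rfl

end W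

/-! ### The main theorem -/

section Main

variable [IsAlgClosed K] [IsAlgClosed Ω] [CharZero Ω] [Algebra ℚ K] [Algebra ℚ Ω]

open scoped IntermediateField.algebraAdjoinAdjoin in
/-- **DESCENT of Kummer classes** from `Ω` to `K`. -/
theorem desc_main (F₀ : IntermediateField ℚ (LaurentSeries ℚ))
    (j₀ : LaurentSeries ℚ) (hj₀ : j₀ ∈ F₀) (hj₀ord : j₀.order = -1) (n : ℕ)
    (hdeg : ∀ u ∈ laurentBaseChange Ω F₀,
      IsIntegral (IntermediateField.adjoin Ω {coeffEmb Ω j₀}) u ∧
        (minpoly (IntermediateField.adjoin Ω {coeffEmb Ω j₀}) u).natDegree ≤ n)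
    (p : ℕ) (hp : 0 < p) (f h : LaurentSeries Ω) (hf : f ∈ laurentBaseChange Ω F₀)
    (hf0 : f ≠ 0) (hh : h ^ p = f) (T : Set (LaurentSeries Ω)) (hT : T.Finite)
    (horb : ∀ σ : Ω ≃ₐ[K] Ω, ∃ t ∈ T, ∃ u ∈ laurentBaseChange Ω F₀, u ≠ 0 ∧
      coeffMap (σ : Ω →+* Ω) f = t * u ^ p) :
    ∃ g ∈ laurentBaseChange Ω F₀, g ≠ 0 ∧
      IsIntegral (Algebra.adjoin Ω {coeffEmb Ω j₀}) (h * g) ∧
      (∃ m : ℕ, IsIntegral (Algebra.adjoin Ω {(coeffEmb Ω j₀)⁻¹}) (h * g * (coeffEmb Ω j₀)⁻¹ ^ m)) ∧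
      (∃ v' : LaurentSeries K, h * g = coeffMap (algebraMap K Ω) v') ∧
      ∃ f' ∈ laurentBaseChange K F₀, f * g ^ p = coeffMap (algebraMap K Ω) f' := by
  classical
  set F := laurentBaseChange Ω F₀ with hFdef
  set j := coeffEmb Ω j₀ with hjdef
  have hjF : j ∈ F := coeffEmb_mem_laurentBaseChange Ω hj₀
  have hj : j.order = -1 := by
    rw [hjdef, coeffEmb, descMain_order_coeffMap _ (algebraMap ℚ Ω).injective, hj₀ord]
  have hj0 : j ≠ 0 := descBound_j_ne_zero hj
  have hh0 : h ≠ 0 := by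
    rintro rfl
    rw [zero_pow hp.ne'] at hh
    exact hf0 hh.symm
  have hFstab : ∀ (σ : Ω ≃ₐ[K] Ω) (x : LaurentSeries Ω), x ∈ F → descSig σ x ∈ F :=
    fun σ x hx => descSig_mem_laurentBaseChange F₀ σ hx
  have hσj : ∀ σ : Ω ≃ₐ[K] Ω, descSig σ j = j := fun σ => descSig_coeffEmb σ j₀
  have hσjinv : ∀ σ : Ω ≃ₐ[K] Ω, descSig σ j⁻¹ = j⁻¹ := fun σ => by
    rw [map_inv₀, hσj]
  have hadjF : ∀ x ∈ Algebra.adjoin Ω {j}, x ∈ F := by
    intro x hx
    have hle : Algebra.adjoin Ω {j} ≤ F.toSubalgebra :=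
      Algebra.adjoin_le (Set.singleton_subset_iff.mpr hjF)
    exact hle hx
  -- the stabiliser
  set H := descStab F hFstab f p with hH
  have hidx : H.index ≠ 0 := descStab_index_ne_zero F hFstab f p T hT horb
  -- a nonzero element of `W`
  obtain ⟨b, hbR, hb0, hbf⟩ : ∃ b ∈ Algebra.adjoin Ω {j}, b ≠ 0 ∧
      IsIntegral (Algebra.adjoin Ω {j}) (b * f) := by
    have halg : IsAlgebraic (Algebra.adjoin Ω {j}) f :=
      (IsFractionRing.isAlgebraic_iff (Algebra.adjoin Ω {j})
        (IntermediateField.adjoin Ω {j}) (LaurentSeries Ω)).mpr (hdeg f hf).1.isAlgebraic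
    obtain ⟨y, hy0, hy⟩ := halg.exists_integral_multiple
    refine ⟨y, y.2, fun h0 => hy0 (Subtype.ext h0), ?_⟩
    rwa [Algebra.smul_def] at hy
  have hbint : IsIntegral (Algebra.adjoin Ω {j}) b :=
    isIntegral_algebraMap (x := (⟨b, hbR⟩ : Algebra.adjoin Ω {j}))
  have hv₀int : IsIntegral (Algebra.adjoin Ω {j}) (h * b) := by
    refine IsIntegral.of_pow hp ?_
    have : (h * b) ^ p = (b * f) * b ^ (p - 1) := by
      rw [mul_pow, hh, mul_comm f, mul_assoc, mul_comm f, ← mul_assoc, ← pow_succ',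
        Nat.sub_add_cancel hp, mul_comm]
    rw [this]
    exact hbf.mul (hbint.pow _)
  obtain ⟨m, hm⟩ := descInt_exists_pow hj hv₀int
  have hv₀W : h * b ∈ descW F j h m := ⟨⟨b, hadjF b hbR, rfl⟩, hv₀int, hm⟩
  have hv₀0 : h * b ≠ 0 := mul_ne_zero hh0 hb0
  -- bounded orders
  have hbound : ∀ v ∈ descW F j h m, v ≠ 0 → v.order ≤ (m : ℤ) * ((n * p : ℕ) : ℤ) := by
    rintro v ⟨⟨g, hg, rfl⟩, hv1, hv2⟩ hv0
    refine descBound_order_le hj m (n * p) hv0 hv1 hv2 ?_
    have hvp : (h * g) ^ p ∈ F := by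
      rw [mul_pow, hh]
      exact mul_mem hf (pow_mem hg p)
    obtain ⟨hint, hdegp⟩ := hdeg _ hvp
    set E := IntermediateField.adjoin Ω {j} with hE
    have hQ0 : minpoly E ((h * g) ^ p) ≠ 0 := minpoly.ne_zero hint
    have hexp0 : Polynomial.expand E p (minpoly E ((h * g) ^ p)) ≠ 0 := by
      rwa [Ne, Polynomial.expand_eq_zero hp]
    have hroot : aeval (h * g) (Polynomial.expand E p (minpoly E ((h * g) ^ p))) = 0 := by
      rw [Polynomial.expand_aeval, minpoly.aeval]
    have h1 := minpoly.degree_le_of_ne_zero E (h * g) hexp0 hroot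
    have h2 := Polynomial.natDegree_le_natDegree h1
    rw [Polynomial.natDegree_expand] at h2
    exact h2.trans (Nat.mul_le_mul_right p hdegp)
  -- stability under `H`
  have hstab : ∀ φ ∈ {φ : Ω →+* Ω | ∃ σ ∈ H, φ = (σ : Ω →+* Ω)}, ∀ v ∈ descW F j h m,
      coeffMap φ v ∈ descW F j h m := by
    rintro φ ⟨σ, ⟨u, hu, hu0, hσ⟩, rfl⟩ v ⟨⟨g, hg, rfl⟩, hv1, hv2⟩
    show descSig σ (h * g) ∈ _
    -- `σ h = h * (ζ u)` with `ζ` a constant
    have hhu0 : h * u ≠ 0 := mul_ne_zero hh0 hu0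
    have hζ : (descSig σ h / (h * u)) ^ p = 1 := by
      rw [div_pow, ← map_pow, hh, hσ, mul_pow, hh]
      exact div_self (mul_ne_zero hf0 (pow_ne_zero _ hu0))
    obtain ⟨c, hc⟩ := descInt_mem_range_of_pow_eq_one (Ω := Ω) hp hζ
    have hσh : descSig σ h = h * (algebraMap Ω _ c * u) := by
      rw [hc, mul_comm (descSig σ h / (h * u)), ← mul_assoc, mul_div_assoc', mul_comm (h * u),
        mul_div_assoc, div_self hhu0, mul_one]
    refine ⟨⟨algebraMap Ω _ c * u * descSig σ g,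
      mul_mem (mul_mem (F.algebraMap_mem c) hu) (hFstab σ g hg), ?_⟩, ?_, ?_⟩
    · rw [map_mul, hσh]
      ring
    · exact descInt_isIntegral_map _ (descSig σ)
        (fun x hx => descInt_map_mem_adjoin (descSig σ) j (hσj σ)
          (fun c => ⟨σ c, descSig_algebraMap σ c⟩) hx) hv1
    · have h3 : descSig σ (h * g) * j⁻¹ ^ m = descSig σ (h * g * j⁻¹ ^ m) := by
        rw [map_mul (descSig σ) (h * g), map_pow, hσjinv]
      rw [h3]
      exact descInt_isIntegral_map _ (descSig σ)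
        (fun x hx => descInt_map_mem_adjoin (descSig σ) j⁻¹ (hσjinv σ)
          (fun c => ⟨σ c, descSig_algebraMap σ c⟩) hx) hv2
  -- the fixed vector
  obtain ⟨v, hvW, hv0, hvfix⟩ :=
    descEchelon_exists_fixed (descW F j h m) ⟨h * b, hv₀W, hv₀0⟩ _ hbound _ hstab
  have hcoeff : ∀ k, v.coeff k ∈ Set.range (algebraMap K Ω) := by
    intro k
    refine descAut_mem_range_of_fixed H hidx (v.coeff k) fun σ hσ => ?_
    have := congrArg (fun y => HahnSeries.coeff y k) (hvfix _ ⟨σ, hσ, rfl⟩)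
    simpa using this
  obtain ⟨v', hv'⟩ := descLin_exists_preimage v hcoeff
  obtain ⟨⟨g, hg, hvg⟩, hv1, hv2⟩ := hvW
  have hg0 : g ≠ 0 := by
    rintro rfl
    rw [mul_zero] at hvg
    exact hv0 hvg
  have hfg : f * g ^ p = coeffMap (algebraMap K Ω) (v' ^ p) := by
    rw [map_pow, hv', hvg, mul_pow, hh]
  refine ⟨g, hg, hg0, hvg ▸ hv1, ⟨m, hvg ▸ hv2⟩, ⟨v', by rw [hv', hvg]⟩, v' ^ p, ?_, hfg⟩
  apply descLin_mem_of_coeffMap_mem (Ω := Ω) F₀
  rw [← hfg]
  exact mul_mem hf (pow_mem hg p)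

end Main

end Fermat.Agent.S29.H152

end
-- ===== PACK-END S29/H152/DescMain.lean

-- ===== PACK-BEGIN S29/H942/MeroRootFinite.lean
section


/-!
# `p`-th roots of meromorphic functions with finitely many zeros and poles on simply connected
open sets
-/

set_option autoImplicit false

noncomputable section

open Filter Topology Set Complex MeromorphicOn Function

namespace Fermat.Agent.S29.H942

/-- The `p`-th power of the factorized rational function with exponents `e` is the factorized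
rational function with exponents `p * e`. -/
lemma factorizedRational_pow {e : ℂ → ℤ} (he : e.HasFiniteSupport) (p : ℕ) :
    (∏ᶠ u, ((· - u) : ℂ → ℂ) ^ e u) ^ p = ∏ᶠ u, ((· - u) : ℂ → ℂ) ^ ((p : ℤ) * e u) := by
  have h1 : (fun u => ((· - u) : ℂ → ℂ) ^ e u).HasFiniteMulSupport := by
    have := FactorizedRational.mulSupport e
    unfold Function.HasFiniteMulSupport
    rw [this]
    exact he
  rw [finprod_pow h1]
  refine finprod_congr fun u => ?_
  rw [← zpow_natCast, ← zpow_mul, mul_comm]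

/-- **Finite case.** A meromorphic function on a simply connected open set with finitely many
zeros and poles, all of order divisible by `p`, has a meromorphic `p`-th root. -/
theorem exists_meromorphicOn_pow_eq_of_finite {f : ℂ → ℂ} {U : Set ℂ}
    (hUc : IsSimplyConnected U) (hU : IsOpen U) (hf : MeromorphicOn f U)
    (h₂f : ∀ u : U, meromorphicOrderAt f u ≠ ⊤) (h₃f : (divisor f U).support.Finite)
    {p : ℕ} (hp : p ≠ 0) (hdiv : ∀ z, (p : ℤ) ∣ divisor f U z) :
    ∃ h : ℂ → ℂ, MeromorphicOn h U ∧ (h ^ p) =ᶠ[codiscreteWithin U] f := by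
  obtain ⟨g, hg, hgne, hfg⟩ := hf.extract_zeros_poles h₂f h₃f
  obtain ⟨r, hr, hrp⟩ := exists_analyticOnNhd_pow_eq hUc hU hp hg (fun z hz => hgne ⟨z, hz⟩)
  set e : ℂ → ℤ := fun u => divisor f U u / (p : ℤ) with he
  have hpe : ∀ u, (p : ℤ) * e u = divisor f U u := fun u => Int.mul_ediv_cancel' (hdiv u)
  have hesupp : e.HasFiniteSupport := by
    refine Set.Finite.subset h₃f ?_
    intro u hu
    simp only [Function.mem_support, ne_eq] at hu ⊢
    intro h0
    apply hu
    simp [he, h0]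
  refine ⟨(∏ᶠ u, ((· - u) : ℂ → ℂ) ^ e u) * r, ?_, ?_⟩
  · exact ((FactorizedRational.meromorphicNFOn e U).meromorphicOn).mul hr.meromorphicOn
  · have h1 : ((∏ᶠ u, ((· - u) : ℂ → ℂ) ^ e u) * r) ^ p =
        (∏ᶠ u, ((· - u) : ℂ → ℂ) ^ divisor f U u) • g := by
      rw [mul_pow, factorizedRational_pow hesupp]
      simp_rw [hpe]
      ext z
      simp [hrp z]
    rw [h1]
    exact hfg.symm

end Fermat.Agent.S29.H942

end
end
-- ===== PACK-END S29/H942/MeroRootFinite.lean

-- ===== PACK-BEGIN S29/H942/MeroRootUnique.lean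
section


/-!
# Uniqueness of meromorphic `p`-th roots up to a root of unity
-/

set_option autoImplicit false

noncomputable section

open Filter Topology Set Complex MeromorphicOn Function

namespace Fermat.Agent.S29.H942

/-- `h` is a `p`-th root of `f` on `V`, in normal form: `h` is meromorphic in normal form on `V`
and `h ^ p = f` on a punctured neighbourhood of every point of `V`. -/
def IsNFRootOn (h f : ℂ → ℂ) (V : Set ℂ) (p : ℕ) : Prop :=
  MeromorphicNFOn h V ∧ ∀ x ∈ V, (h ^ p) =ᶠ[𝓝[≠] x] f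

lemma IsNFRootOn.mono {h f : ℂ → ℂ} {V W : Set ℂ} {p : ℕ} (hh : IsNFRootOn h f V p)
    (hWV : W ⊆ V) : IsNFRootOn h f W p :=
  ⟨fun _ hz => hh.1 (hWV hz), fun x hx => hh.2 x (hWV hx)⟩

/-- Equality on a codiscrete subset of an open set gives equality on punctured neighbourhoods. -/
lemma eventuallyEq_nhdsNE_of_codiscreteWithin {f g : ℂ → ℂ} {V : Set ℂ} (hV : IsOpen V)
    (h : f =ᶠ[codiscreteWithin V] g) {x : ℂ} (hx : x ∈ V) : f =ᶠ[𝓝[≠] x] g := by
  have h1 := (mem_codiscreteWithin_iff_forall_mem_nhdsNE.1 h) x hx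
  have h2 : V ∈ 𝓝[≠] x := mem_nhdsWithin_of_mem_nhds (hV.mem_nhds hx)
  filter_upwards [h1, h2] with y hy hyV
  rcases hy with hy | hy
  · exact hy
  · exact absurd hyV hy

/-- From a meromorphic root to a root in normal form. -/
lemma isNFRootOn_toMeromorphicNFOn {h f : ℂ → ℂ} {V : Set ℂ} (hV : IsOpen V) {p : ℕ}
    (hh : MeromorphicOn h V) (hpow : (h ^ p) =ᶠ[codiscreteWithin V] f) :
    IsNFRootOn (toMeromorphicNFOn h V) f V p := by
  refine ⟨meromorphicNFOn_toMeromorphicNFOn h V, fun x hx => ?_⟩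
  have h1 := hh.toMeromorphicNFOn_eq_self_on_nhdsNE hx
  have h2 := eventuallyEq_nhdsNE_of_codiscreteWithin hV hpow hx
  filter_upwards [h1, h2] with y hy1 hy2
  simp only [Pi.pow_apply] at hy2 ⊢
  rw [hy1, hy2]

/-- The order of a root is finite if the order of the function is finite. -/
lemma IsNFRootOn.order_ne_top {h f : ℂ → ℂ} {V : Set ℂ} {p : ℕ} (hp : p ≠ 0)
    (hh : IsNFRootOn h f V p) {x : ℂ} (hx : x ∈ V) (hf : meromorphicOrderAt f x ≠ ⊤) :
    meromorphicOrderAt h x ≠ ⊤ := by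
  intro htop
  apply hf
  rw [← meromorphicOrderAt_congr (hh.2 x hx), meromorphicOrderAt_pow (hh.1 hx).meromorphicAt,
    htop]
  exact WithTop.mul_top (by exact_mod_cast hp)

/-- A root of a function of finite order does not vanish on a punctured neighbourhood. -/
lemma IsNFRootOn.eventually_ne_zero {h f : ℂ → ℂ} {V : Set ℂ} {p : ℕ} (hp : p ≠ 0)
    (hh : IsNFRootOn h f V p) {x : ℂ} (hx : x ∈ V) (hf : meromorphicOrderAt f x ≠ ⊤) :
    ∀ᶠ y in 𝓝[≠] x, h y ≠ 0 :=
  (meromorphicOrderAt_ne_top_iff_eventually_ne_zero (hh.1 hx).meromorphicAt).1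
    (hh.order_ne_top hp hx hf)

/-- A function in normal form whose `p`-th power is `1` on a punctured neighbourhood of `x` is
analytic at `x` and its `p`-th power is `1` at `x`. -/
lemma analyticAt_of_nf_pow_eq_one {q : ℂ → ℂ} {x : ℂ} {p : ℕ} (hp : p ≠ 0)
    (hq : MeromorphicNFAt q x) (hpow : (q ^ p) =ᶠ[𝓝[≠] x] (fun _ => (1 : ℂ))) :
    AnalyticAt ℂ q x ∧ q x ^ p = 1 := by
  have h1 : meromorphicOrderAt (q ^ p) x = 0 := by
    rw [meromorphicOrderAt_congr hpow]
    have : AnalyticAt ℂ (fun _ : ℂ => (1 : ℂ)) x := analyticAt_const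
    rw [this.meromorphicOrderAt_eq]
    simp [analyticOrderAt_eq_zero]
  rw [meromorphicOrderAt_pow hq.meromorphicAt] at h1
  have h2 : meromorphicOrderAt q x = 0 := by
    have hne : meromorphicOrderAt q x ≠ ⊤ := by
      intro h3
      rw [h3, WithTop.mul_top (by exact_mod_cast hp)] at h1
      exact absurd h1 (by simp)
    obtain ⟨n, hn⟩ := WithTop.ne_top_iff_exists.1 hne
    rw [← hn] at h1 ⊢
    have h4 : (((p : ℤ) * n : ℤ) : WithTop ℤ) = 0 := by
      rw [← h1]
      push_cast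
      rfl
    have h5 : (p : ℤ) * n = 0 := by exact_mod_cast h4
    have h6 : n = 0 := by
      rcases mul_eq_zero.1 h5 with h | h
      · exact absurd (by exact_mod_cast h) hp
      · exact h
    rw [h6]
    rfl
  have hA : AnalyticAt ℂ q x := hq.meromorphicOrderAt_nonneg_iff_analyticAt.1 (le_of_eq h2.symm)
  refine ⟨hA, ?_⟩
  have hc : ContinuousAt (q ^ p) x := (hA.pow p).continuousAt
  have hc1 : ContinuousAt (fun _ : ℂ => (1 : ℂ)) x := continuousAt_const
  have := (hc.eventuallyEq_nhds_iff_eventuallyEq_nhdsNE hc1).1 hpow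
  exact this.self_of_nhds

/-- **Uniqueness.** Two roots in normal form of the same function (of finite order everywhere)
on a preconnected open set differ by a `p`-th root of unity. -/
theorem IsNFRootOn.exists_eq_mul {h₁ h₂ f : ℂ → ℂ} {V : Set ℂ} {p : ℕ} (hp : p ≠ 0)
    (hV : IsOpen V) (hVc : IsPreconnected V) (hf : ∀ x ∈ V, meromorphicOrderAt f x ≠ ⊤)
    (hh₁ : IsNFRootOn h₁ f V p) (hh₂ : IsNFRootOn h₂ f V p) :
    ∃ ζ : ℂ, ζ ^ p = 1 ∧ ∀ x ∈ V, h₂ x = ζ * h₁ x := by
  have hm₁ : MeromorphicOn h₁ V := hh₁.1.meromorphicOn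
  have hm₂ : MeromorphicOn h₂ V := hh₂.1.meromorphicOn
  have hmq : MeromorphicOn (h₂ / h₁) V := hm₂.div hm₁
  set q := toMeromorphicNFOn (h₂ / h₁) V with hq
  have hqNF : MeromorphicNFOn q V := meromorphicNFOn_toMeromorphicNFOn _ _
  -- `q = h₂ / h₁` on punctured neighbourhoods
  have hq1 : ∀ x ∈ V, q =ᶠ[𝓝[≠] x] (h₂ / h₁) := fun x hx =>
    hmq.toMeromorphicNFOn_eq_self_on_nhdsNE hx
  -- `q ^ p = 1` on punctured neighbourhoods
  have hq2 : ∀ x ∈ V, (q ^ p) =ᶠ[𝓝[≠] x] (fun _ => (1 : ℂ)) := by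
    intro x hx
    filter_upwards [hq1 x hx, hh₁.2 x hx, hh₂.2 x hx, hh₁.eventually_ne_zero hp hx (hf x hx)]
      with y hy1 hy2 hy3 hy4
    simp only [Pi.pow_apply, Pi.div_apply] at hy1 hy2 hy3 ⊢
    rw [hy1, div_pow, hy2, hy3, div_self]
    rw [← hy2]
    exact pow_ne_zero p hy4
  have hq3 : ∀ x ∈ V, AnalyticAt ℂ q x ∧ q x ^ p = 1 := fun x hx =>
    analyticAt_of_nf_pow_eq_one hp (hqNF hx) (hq2 x hx)
  -- `q` is constant
  have hqc : ContinuousOn q V := fun x hx => (hq3 x hx).1.continuousAt.continuousWithinAt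
  have hT : IsDiscrete {t : ℂ | t ^ p = 1} := by
    have hfin : {t : ℂ | t ^ p = 1}.Finite := by
      refine Set.Finite.subset (Polynomial.nthRootsFinset p (1 : ℂ)).finite_toSet ?_
      intro t ht
      simp only [Finset.mem_coe]
      exact (Polynomial.mem_nthRootsFinset (Nat.pos_of_ne_zero hp) _).2 ht
    exact hfin.isDiscrete
  obtain ⟨ζ, hζ, hqζ⟩ := hVc.eqOn_const_of_mapsTo hT hqc (fun x hx => (hq3 x hx).2)
    ⟨1, by simp⟩
  have hζ0 : ζ ≠ 0 := by
    intro h0
    have hζ' : ζ ^ p = 1 := hζ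
    rw [h0, zero_pow hp] at hζ'
    exact zero_ne_one hζ'
  refine ⟨ζ, hζ, fun x hx => ?_⟩
  -- both sides are in normal form at `x` and agree on a punctured neighbourhood
  have hNF2 : MeromorphicNFAt h₂ x := hh₂.1 hx
  have hNF1 : MeromorphicNFAt ((fun _ : ℂ => ζ) • h₁) x :=
    (hh₁.1 hx).smul_analytic analyticAt_const hζ0
  have hVn : V ∈ 𝓝[≠] x := mem_nhdsWithin_of_mem_nhds (hV.mem_nhds hx)
  have heq : h₂ =ᶠ[𝓝[≠] x] ((fun _ : ℂ => ζ) • h₁) := by
    filter_upwards [hq1 x hx, hh₁.eventually_ne_zero hp hx (hf x hx), hVn] with y hy1 hy2 hyV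
    have h3 : q y = ζ := hqζ hyV
    simp only [Pi.div_apply] at hy1
    simp only [Pi.smul_apply', smul_eq_mul]
    rw [← h3, hy1, div_mul_cancel₀ _ hy2]
  have := (hNF2.eventuallyEq_nhdsNE_iff_eventuallyEq_nhds hNF1).1 heq
  simpa using this.self_of_nhds

end Fermat.Agent.S29.H942

end
end
-- ===== PACK-END S29/H942/MeroRootUnique.lean

-- ===== PACK-BEGIN S20/Comb694/RelIndex.lean
section





/-!
# Relative index of `Gamma0 (p * M)` in `Gamma0 M`

`(Gamma0 (p * M)).relIndex (Gamma0 M) = p` if `p ∣ M`, and `p + 1` otherwise (`p` prime, `M ≠ 0`).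
-/

set_option autoImplicit false

namespace Fermat.Agent.S20.Comb694

open Matrix MatrixGroups CongruenceSubgroup

lemma mem_Gamma0_iff_dvd (N : ℕ) (g : SL(2, ℤ)) : g ∈ Gamma0 N ↔ (N : ℤ) ∣ g 1 0 := by
  rw [Gamma0_mem]
  exact ZMod.intCast_zmod_eq_zero_iff_dvd _ _

lemma Gamma0_mul_le (p M : ℕ) : Gamma0 (p * M) ≤ Gamma0 M := by
  intro g hg
  rw [mem_Gamma0_iff_dvd] at hg ⊢
  refine dvd_trans ?_ hg
  push_cast
  exact dvd_mul_left _ _

/-- The matrix `[[1, 0], [c, 1]]` in `SL(2,ℤ)`. -/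
def lowRep (c : ℤ) : SL(2, ℤ) := ⟨!![1, 0; c, 1], by simp [Matrix.det_fin_two]⟩

@[simp] lemma lowRep_apply_zero_zero (c : ℤ) : lowRep c 0 0 = 1 := rfl
@[simp] lemma lowRep_apply_one_zero (c : ℤ) : lowRep c 1 0 = c := rfl

lemma lowRep_mem (M : ℕ) (t : ℤ) : lowRep ((M : ℤ) * t) ∈ Gamma0 M := by
  rw [mem_Gamma0_iff_dvd, lowRep_apply_one_zero]
  exact dvd_mul_right _ _

/-- Coset criterion for `Gamma0 M ⧸ (Gamma0 (p * M)).subgroupOf (Gamma0 M)`. -/
lemma subMk_eq_iff (p M : ℕ) (hM : M ≠ 0) (g g' : Gamma0 M) (c₁ c₁' : ℤ)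
    (hc : (g : SL(2, ℤ)) 1 0 = M * c₁) (hc' : (g' : SL(2, ℤ)) 1 0 = M * c₁') :
    (QuotientGroup.mk g : Gamma0 M ⧸ (Gamma0 (p * M)).subgroupOf (Gamma0 M))
        = QuotientGroup.mk g' ↔
      (p : ℤ) ∣ ((g : SL(2, ℤ)) 0 0 * c₁' - c₁ * (g' : SL(2, ℤ)) 0 0) := by
  rw [QuotientGroup.eq, Subgroup.mem_subgroupOf, mem_Gamma0_iff_dvd]
  simp only [Subgroup.coe_mul, Subgroup.coe_inv, inv_mul_apply_one_zero, hc, hc']
  have h : (g : SL(2, ℤ)) 0 0 * ((M : ℤ) * c₁') - (M : ℤ) * c₁ * (g' : SL(2, ℤ)) 0 0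
      = (M : ℤ) * ((g : SL(2, ℤ)) 0 0 * c₁' - c₁ * (g' : SL(2, ℤ)) 0 0) := by ring
  rw [h]
  push_cast
  rw [mul_comm (p : ℤ) (M : ℤ)]
  exact mul_dvd_mul_iff_left (by exact_mod_cast hM)

/-- For `g ∈ Gamma0 M` with `p ∣ M`, the entry `g 0 0` is nonzero mod `p`. -/
lemma a_ne_zero_of_dvd (p M : ℕ) (hp : p.Prime) (h : p ∣ M) (g : Gamma0 M) :
    ¬ (p : ℤ) ∣ (g : SL(2, ℤ)) 0 0 := by
  intro ha
  have hg := (mem_Gamma0_iff_dvd M _).mp g.2
  have hpc : (p : ℤ) ∣ (g : SL(2, ℤ)) 1 0 := dvd_trans (by exact_mod_cast h) hg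
  have hdet := (g : SL(2, ℤ)).det_coe
  rw [Matrix.det_fin_two] at hdet
  have h1 : (p : ℤ) ∣ 1 := by
    rw [← hdet]
    exact dvd_sub (dvd_mul_of_dvd_left ha _) (dvd_mul_of_dvd_right hpc _)
  have := Int.natCast_dvd_natCast.mp (by simpa using h1 : ((p : ℕ) : ℤ) ∣ ((1 : ℕ) : ℤ))
  exact hp.one_lt.ne' (Nat.dvd_one.mp this)

/-- The coset representative attached to `t : ZMod p`. -/
noncomputable def relRep (p M : ℕ) (t : ZMod p) :
    Gamma0 M ⧸ (Gamma0 (p * M)).subgroupOf (Gamma0 M) :=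
  QuotientGroup.mk ⟨lowRep ((M : ℤ) * (ZMod.cast t : ℤ)), lowRep_mem M _⟩

lemma relRep_injective (p M : ℕ) (hM : M ≠ 0) : Function.Injective (relRep p M) := by
  intro t t' h
  simp only [relRep] at h
  rw [subMk_eq_iff p M hM _ _ (ZMod.cast t : ℤ) (ZMod.cast t' : ℤ) rfl rfl] at h
  simp only [lowRep_apply_zero_zero, one_mul, mul_one] at h
  have := (ZMod.intCast_zmod_eq_zero_iff_dvd _ p).mpr h
  push_cast at this
  exact (sub_eq_zero.mp this).symm

/-- Elements with `p ∤ a` are in the range of `relRep`. -/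
lemma mem_range_relRep (p M : ℕ) (hM : M ≠ 0) (hp : p.Prime) (g : Gamma0 M)
    (ha : ¬ (p : ℤ) ∣ (g : SL(2, ℤ)) 0 0) :
    (QuotientGroup.mk g : Gamma0 M ⧸ (Gamma0 (p * M)).subgroupOf (Gamma0 M))
      ∈ Set.range (relRep p M) := by
  haveI : Fact p.Prime := ⟨hp⟩
  obtain ⟨c₁, hc₁⟩ := (mem_Gamma0_iff_dvd M _).mp g.2
  have ha' : (((g : SL(2, ℤ)) 0 0 : ℤ) : ZMod p) ≠ 0 := by
    rwa [Ne, ZMod.intCast_zmod_eq_zero_iff_dvd]
  refine ⟨(c₁ : ZMod p) * (((g : SL(2, ℤ)) 0 0 : ℤ) : ZMod p)⁻¹, ?_⟩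
  simp only [relRep]
  rw [subMk_eq_iff p M hM _ _ _ c₁ rfl hc₁]
  simp only [lowRep_apply_zero_zero, one_mul]
  rw [← ZMod.intCast_zmod_eq_zero_iff_dvd]
  push_cast
  rw [mul_assoc, inv_mul_cancel₀ ha', mul_one, sub_self]

/-- **Relative index, ramified case**: `[Γ₀(M) : Γ₀(pM)] = p` if `p ∣ M`. -/
theorem relIndex_Gamma0_of_dvd (p M : ℕ) (hM : M ≠ 0) (hp : p.Prime) (h : p ∣ M) :
    (Gamma0 (p * M)).relIndex (Gamma0 M) = p := by
  have hbij : Function.Bijective (relRep p M) := by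
    refine ⟨relRep_injective p M hM, ?_⟩
    intro q
    obtain ⟨g, rfl⟩ := QuotientGroup.mk_surjective q
    exact mem_range_relRep p M hM hp g (a_ne_zero_of_dvd p M hp h g)
  rw [Subgroup.relIndex, Subgroup.index, ← Nat.card_eq_of_bijective _ hbij, Nat.card_zmod]

/-- An element of `Gamma0 M` with first column `(p, M)`, for `p ∤ M`. -/
lemma exists_special (p M : ℕ) (hp : p.Prime) (h : ¬ p ∣ M) :
    ∃ g : Gamma0 M, (g : SL(2, ℤ)) 0 0 = p ∧ (g : SL(2, ℤ)) 1 0 = M := by
  have hcop : IsCoprime (p : ℤ) (M : ℤ) := by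
    rw [Int.isCoprime_iff_gcd_eq_one, Int.gcd_natCast_natCast]
    exact (Nat.Prime.coprime_iff_not_dvd hp).mpr h
  obtain ⟨g, hg0, hg1⟩ := IsCoprime.exists_SL2_col hcop 0
  refine ⟨⟨g, ?_⟩, hg0, hg1⟩
  rw [mem_Gamma0_iff_dvd, hg1]

/-- **Relative index, unramified case**: `[Γ₀(M) : Γ₀(pM)] = p + 1` if `p ∤ M`. -/
theorem relIndex_Gamma0_of_not_dvd (p M : ℕ) (hM : M ≠ 0) (hp : p.Prime) (h : ¬ p ∣ M) :
    (Gamma0 (p * M)).relIndex (Gamma0 M) = p + 1 := by
  haveI : Fact p.Prime := ⟨hp⟩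
  obtain ⟨g₀, hg₀0, hg₀1⟩ := exists_special p M hp h
  let f : Option (ZMod p) → Gamma0 M ⧸ (Gamma0 (p * M)).subgroupOf (Gamma0 M) :=
    fun o => o.elim (QuotientGroup.mk g₀) (relRep p M)
  have hne : ∀ t : ZMod p, relRep p M t ≠ QuotientGroup.mk g₀ := by
    intro t ht
    simp only [relRep] at ht
    rw [subMk_eq_iff p M hM _ _ (ZMod.cast t : ℤ) 1 rfl (by rw [hg₀1, mul_one])] at ht
    simp only [lowRep_apply_zero_zero, one_mul, hg₀0] at ht
    have h1 : (p : ℤ) ∣ 1 := by
      have := dvd_add ht (dvd_mul_left (p : ℤ) (ZMod.cast t : ℤ))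
      simpa using this
    have := Int.natCast_dvd_natCast.mp (by simpa using h1 : ((p : ℕ) : ℤ) ∣ ((1 : ℕ) : ℤ))
    exact hp.one_lt.ne' (Nat.dvd_one.mp this)
  have hbij : Function.Bijective f := by
    constructor
    · rintro (_ | t) (_ | t') hh
      · rfl
      · exact absurd hh.symm (hne t')
      · exact absurd hh (hne t)
      · exact congrArg some (relRep_injective p M hM hh)
    · intro q
      obtain ⟨g, rfl⟩ := QuotientGroup.mk_surjective q
      by_cases ha : (p : ℤ) ∣ (g : SL(2, ℤ)) 0 0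
      · refine ⟨none, ?_⟩
        obtain ⟨c₁, hc₁⟩ := (mem_Gamma0_iff_dvd M _).mp g.2
        show QuotientGroup.mk g₀ = _
        rw [subMk_eq_iff p M hM _ _ 1 c₁ (by rw [hg₀1, mul_one]) hc₁, hg₀0]
        exact dvd_sub (dvd_mul_right _ _) (by simpa using ha)
      · obtain ⟨t, ht⟩ := mem_range_relRep p M hM hp g ha
        exact ⟨some t, ht⟩
  rw [Subgroup.relIndex, Subgroup.index, ← Nat.card_eq_of_bijective _ hbij, Finite.card_option,
    Nat.card_zmod]

end Fermat.Agent.S20.Comb694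

end
-- ===== PACK-END S20/Comb694/RelIndex.lean

-- ===== PACK-BEGIN S20/Comb694/Index.lean
section





/-!
# The index of `Gamma0 N` in `SL(2,ℤ)` is the Dedekind psi function

* `index_Gamma0 : (Gamma0 N).index = ModularCurve.dedekindPsi N` (all `N`, including `N = 0`)
* `card_quotient_Gamma0 : Nat.card (SL(2,ℤ) ⧸ Gamma0 N) = ModularCurve.dedekindPsi N`
-/

set_option autoImplicit false

namespace Fermat.Agent.S20.Comb694

open Matrix MatrixGroups CongruenceSubgroup

lemma dedekindPsi_prime_mul_of_dvd (p M : ℕ) (hp : p.Prime) (hM : M ≠ 0) (h : p ∣ M) :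
    ModularCurve.dedekindPsi (p * M) = p * ModularCurve.dedekindPsi M := by
  unfold ModularCurve.dedekindPsi
  have hset : (p * M).divisors.filter Squarefree = M.divisors.filter Squarefree := by
    ext d
    simp only [Finset.mem_filter, Nat.mem_divisors]
    constructor
    · rintro ⟨⟨hd, -⟩, hsq⟩
      refine ⟨⟨?_, hM⟩, hsq⟩
      by_cases hpd : p ∣ d
      · obtain ⟨d', rfl⟩ := hpd
        have hd' : d' ∣ M := (Nat.mul_dvd_mul_iff_left hp.pos).mp hd
        have hcop : Nat.Coprime p d' := by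
          rw [Nat.Prime.coprime_iff_not_dvd hp]
          intro hpd'
          have h2 : p * p ∣ p * d' := Nat.mul_dvd_mul_left p hpd'
          have h3 := hsq p h2
          exact hp.one_lt.ne' (Nat.isUnit_iff.mp h3)
        exact Nat.Coprime.mul_dvd_of_dvd_of_dvd hcop h hd'
      · exact Nat.Coprime.dvd_of_dvd_mul_left
          ((Nat.Prime.coprime_iff_not_dvd hp).mpr hpd).symm hd
    · rintro ⟨⟨hd, -⟩, hsq⟩
      exact ⟨⟨dvd_mul_of_dvd_right hd p, mul_ne_zero hp.ne_zero hM⟩, hsq⟩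
  rw [hset, Finset.mul_sum]
  refine Finset.sum_congr rfl fun d hd => ?_
  have hd' : d ∣ M := (Nat.mem_divisors.mp (Finset.mem_filter.mp hd).1).1
  exact Nat.mul_div_assoc p hd'

lemma dedekindPsi_prime_mul_of_not_dvd (p M : ℕ) (hp : p.Prime) (hM : M ≠ 0) (h : ¬ p ∣ M) :
    ModularCurve.dedekindPsi (p * M) = (p + 1) * ModularCurve.dedekindPsi M := by
  unfold ModularCurve.dedekindPsi
  rw [← Finset.sum_filter_add_sum_filter_not ((p * M).divisors.filter Squarefree) (fun d => p ∣ d)]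
  have hset1 : ((p * M).divisors.filter Squarefree).filter (fun d => ¬ p ∣ d)
      = M.divisors.filter Squarefree := by
    ext d
    simp only [Finset.mem_filter, Nat.mem_divisors]
    constructor
    · rintro ⟨⟨⟨hd, -⟩, hsq⟩, hpd⟩
      exact ⟨⟨Nat.Coprime.dvd_of_dvd_mul_left
        ((Nat.Prime.coprime_iff_not_dvd hp).mpr hpd).symm hd, hM⟩, hsq⟩
    · rintro ⟨⟨hd, -⟩, hsq⟩
      exact ⟨⟨⟨dvd_mul_of_dvd_right hd p, mul_ne_zero hp.ne_zero hM⟩, hsq⟩,
        fun hpd => h (dvd_trans hpd hd)⟩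
  have hset2 : ((p * M).divisors.filter Squarefree).filter (fun d => p ∣ d)
      = (M.divisors.filter Squarefree).image (fun d => p * d) := by
    ext d
    simp only [Finset.mem_filter, Nat.mem_divisors, Finset.mem_image]
    constructor
    · rintro ⟨⟨⟨hd, -⟩, hsq⟩, ⟨d', rfl⟩⟩
      exact ⟨d', ⟨⟨(Nat.mul_dvd_mul_iff_left hp.pos).mp hd, hM⟩, hsq.of_mul_right⟩, rfl⟩
    · rintro ⟨d', ⟨⟨hd', -⟩, hsq'⟩, rfl⟩
      have hcop : Nat.Coprime p d' :=
        (Nat.Prime.coprime_iff_not_dvd hp).mpr fun hpd => h (dvd_trans hpd hd')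
      exact ⟨⟨⟨Nat.mul_dvd_mul_left p hd', mul_ne_zero hp.ne_zero hM⟩,
        (Nat.squarefree_mul hcop).mpr ⟨hp.prime.squarefree, hsq'⟩⟩, dvd_mul_right _ _⟩
  rw [hset1, hset2, Finset.sum_image (fun x _ y _ hxy => Nat.eq_of_mul_eq_mul_left hp.pos hxy),
    add_mul, one_mul, Finset.mul_sum, add_comm]
  congr 1
  · refine Finset.sum_congr rfl fun d hd => ?_
    have hd' : d ∣ M := (Nat.mem_divisors.mp (Finset.mem_filter.mp hd).1).1
    exact Nat.mul_div_assoc p hd'
  · refine Finset.sum_congr rfl fun d hd => ?_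
    exact Nat.mul_div_mul_left M d hp.pos

lemma Gamma0_one_eq_top : Gamma0 1 = ⊤ := by
  ext g
  simp only [Gamma0_mem, Subgroup.mem_top, iff_true]
  exact Subsingleton.elim _ _

lemma index_Gamma0_zero : (Gamma0 0).index = 0 := by
  rw [Subgroup.index]
  haveI : Infinite (SL(2, ℤ) ⧸ Gamma0 0) := by
    refine Infinite.of_injective
      (fun t : ℤ => (QuotientGroup.mk (lowRep t) : SL(2, ℤ) ⧸ Gamma0 0)) ?_
    intro t t' h
    simp only at h
    rw [mk_eq_mk_iff] at h
    simp only [lowRep_apply_zero_zero, lowRep_apply_one_zero, Int.cast_one, one_mul,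
      mul_one] at h
    have h' : ((t' - t : ℤ) : ZMod 0) = 0 := h
    have h'' := (ZMod.intCast_zmod_eq_zero_iff_dvd (t' - t) 0).mp h'
    simp only [Nat.cast_zero, zero_dvd_iff] at h''
    exact (sub_eq_zero.mp h'').symm
  exact Nat.card_eq_zero_of_infinite

lemma dedekindPsi_zero : ModularCurve.dedekindPsi 0 = 0 := by
  simp [ModularCurve.dedekindPsi]

/-- **(I1)** The index of `Γ₀(N)` in `SL(2,ℤ)` is `ψ(N)` (for `N ≠ 0`). -/
theorem index_Gamma0_of_ne_zero (N : ℕ) (hN : N ≠ 0) :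
    (Gamma0 N).index = ModularCurve.dedekindPsi N := by
  induction N using induction_on_primes with
  | zero => exact absurd rfl hN
  | one => rw [ModularCurve.dedekindPsi_one, Gamma0_one_eq_top, Subgroup.index_top]
  | prime_mul p M hp ih =>
    have hM : M ≠ 0 := fun h => hN (by rw [h, mul_zero])
    rw [← Subgroup.relIndex_mul_index (Gamma0_mul_le p M), ih hM]
    by_cases h : p ∣ M
    · rw [relIndex_Gamma0_of_dvd p M hM hp h, dedekindPsi_prime_mul_of_dvd p M hp hM h]
    · rw [relIndex_Gamma0_of_not_dvd p M hM hp h, dedekindPsi_prime_mul_of_not_dvd p M hp hM h]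

/-- **(I1)** The index of `Γ₀(N)` in `SL(2,ℤ)` is `ψ(N)` (all `N`; both sides are `0` for
`N = 0`). -/
theorem index_Gamma0 (N : ℕ) : (Gamma0 N).index = ModularCurve.dedekindPsi N := by
  rcases eq_or_ne N 0 with rfl | hN
  · rw [index_Gamma0_zero, dedekindPsi_zero]
  · exact index_Gamma0_of_ne_zero N hN

/-- **(I1)** `#(SL(2,ℤ) ⧸ Γ₀(N)) = ψ(N)`. -/
theorem card_quotient_Gamma0 (N : ℕ) :
    Nat.card (SL(2, ℤ) ⧸ Gamma0 N) = ModularCurve.dedekindPsi N :=
  index_Gamma0 N

end Fermat.Agent.S20.Comb694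

end
-- ===== PACK-END S20/Comb694/Index.lean

-- ===== PACK-BEGIN S37/H340/KronTwist.lean
section


/-!
# S37 / R3-K : twists `q ↦ ζ q` and the product formula (helper340)

* `twHom ℓ ζ hζ : R((q)) →+* R((q))`, `f(q) ↦ f(ζ q)` for `ζ ^ ℓ = 1`
  (coefficientwise `aₙ ↦ ζ ^ (n mod ℓ) aₙ`);
* `twHom_qExpand` : it fixes `R((q^ℓ))`;
* `kron_map_qExpand_eq_prod` : over a domain with a primitive `ℓ`-th root of unity `ζ`,
  `(kron ℓ f).map V = ∏_{b < ℓ} (Y - f(ζ^b q))`.
-/

set_option autoImplicit false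

noncomputable section

namespace Fermat.Agent.S37.H340

open ModularCurve Polynomial Matrix

variable {R : Type*} [CommRing R] (ℓ : ℕ) [NeZero ℓ]

/-- `ζ ^ (k mod ℓ)` for an integer exponent `k`. -/
def zpw (ζ : R) (k : ℤ) : R := ζ ^ (k % (ℓ : ℤ)).toNat

variable {ℓ}

lemma zpw_natCast {ζ : R} (hζ : ζ ^ ℓ = 1) (n : ℕ) : zpw ℓ ζ (n : ℤ) = ζ ^ n := by
  have hℓ : (ℓ : ℤ) ≠ 0 := by exact_mod_cast NeZero.ne ℓ
  unfold zpw
  have h1 : ((n : ℤ) % (ℓ : ℤ)).toNat = n % ℓ := by
    have : ((n : ℤ) % (ℓ : ℤ)) = ((n % ℓ : ℕ) : ℤ) := by push_cast; rfl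
    rw [this, Int.toNat_natCast]
  rw [h1]
  conv_rhs => rw [← Nat.div_add_mod n ℓ, _root_.pow_add, pow_mul, hζ, one_pow, one_mul]

lemma zpw_add {ζ : R} (hζ : ζ ^ ℓ = 1) (i j : ℤ) :
    zpw ℓ ζ (i + j) = zpw ℓ ζ i * zpw ℓ ζ j := by
  have hℓ : (0 : ℤ) < ℓ := by exact_mod_cast Nat.pos_of_ne_zero (NeZero.ne ℓ)
  unfold zpw
  rw [← _root_.pow_add]
  have hi0 := Int.emod_nonneg i hℓ.ne'
  have hj0 := Int.emod_nonneg j hℓ.ne'
  have hij0 := Int.emod_nonneg (i + j) hℓ.ne'
  -- (i % ℓ + j % ℓ) and (i+j) % ℓ differ by 0 or ℓ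
  have key : ((i % ℓ).toNat + (j % ℓ).toNat) % ℓ = ((i + j) % (ℓ : ℤ)).toNat := by
    have : (((i % ℓ).toNat + (j % ℓ).toNat : ℕ) : ℤ) % ℓ = (i + j) % ℓ := by
      push_cast
      rw [Int.toNat_of_nonneg hi0, Int.toNat_of_nonneg hj0, ← Int.add_emod]
    have h2 : ((((i % ℓ).toNat + (j % ℓ).toNat) % ℓ : ℕ) : ℤ) = (i + j) % ℓ := by
      rw [← this]; push_cast; rfl
    have := congrArg Int.toNat h2
    rwa [Int.toNat_natCast] at this
  rw [← key]
  conv_rhs => rw [← Nat.div_add_mod ((i % ℓ).toNat + (j % ℓ).toNat) ℓ, _root_.pow_add, pow_mul,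
    hζ, one_pow, one_mul]

omit [NeZero ℓ] in
lemma zpw_mul_left {ζ : R} (n : ℤ) : zpw ℓ ζ ((ℓ : ℤ) * n) = 1 := by
  unfold zpw
  simp

omit [NeZero ℓ] in
lemma zpw_zero {ζ : R} : zpw ℓ ζ 0 = 1 := by
  unfold zpw
  simp

variable (ℓ)

/-- The twist `f(q) ↦ f(ζ q)` as a function (needs `ζ ^ ℓ = 1` only for good properties). -/
def tw (ζ : R) (f : LaurentSeries R) : LaurentSeries R :=
  HahnSeries.ofSuppBddBelow (fun n : ℤ => zpw ℓ ζ n * f.coeff n) <| by
    obtain ⟨b, hb⟩ := exists_coeff_eq_zero_of_lt f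
    refine ⟨b, fun m hm => ?_⟩
    by_contra hlt
    rw [not_le] at hlt
    exact hm (by simp [hb m hlt])

omit [NeZero ℓ] in
@[simp]
lemma tw_coeff (ζ : R) (f : LaurentSeries R) (n : ℤ) :
    (tw ℓ ζ f).coeff n = zpw ℓ ζ n * f.coeff n := by
  simp [tw]

omit [NeZero ℓ] in
lemma tw_support_subset (ζ : R) (f : LaurentSeries R) : (tw ℓ ζ f).support ⊆ f.support := by
  intro n hn
  rw [HahnSeries.mem_support] at hn ⊢
  intro h
  exact hn (by simp [h])

variable {ℓ}

omit [NeZero ℓ] in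
lemma coeff_mul_of_subsets {x y : LaurentSeries R} {s t : Set ℤ} (hs : s.IsPWO) (ht : t.IsPWO)
    (hxs : x.support ⊆ s) (hyt : y.support ⊆ t) (a : ℤ) :
    (x * y).coeff a = ∑ ij ∈ Finset.antidiagonal hs ht a, x.coeff ij.1 * y.coeff ij.2 := by
  rw [HahnSeries.coeff_mul_left' hs hxs]
  refine Finset.sum_subset (Finset.antidiagonal_mono_right hyt) fun ij hij hnot => ?_
  have h1 := Finset.mem_antidiagonal.mp hij
  have h2 : ij.2 ∉ y.support := fun h => hnot (Finset.mem_antidiagonal.mpr ⟨h1.1, h, h1.2.2⟩)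
  rw [HahnSeries.mem_support, not_not] at h2
  rw [h2, mul_zero]

lemma tw_mul {ζ : R} (hζ : ζ ^ ℓ = 1) (f g : LaurentSeries R) :
    tw ℓ ζ (f * g) = tw ℓ ζ f * tw ℓ ζ g := by
  ext a
  rw [tw_coeff, HahnSeries.coeff_mul,
    coeff_mul_of_subsets f.isPWO_support g.isPWO_support (tw_support_subset ℓ ζ f)
      (tw_support_subset ℓ ζ g), Finset.mul_sum]
  refine Finset.sum_congr rfl fun ij hij => ?_
  have hsum : ij.1 + ij.2 = a := (Finset.mem_antidiagonal.mp hij).2.2
  rw [tw_coeff, tw_coeff, ← hsum, zpw_add hζ]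
  ring

variable (ℓ) in
/-- The twist `f(q) ↦ f(ζ q)` as a ring homomorphism. -/
def twHom (ζ : R) (hζ : ζ ^ ℓ = 1) : LaurentSeries R →+* LaurentSeries R where
  toFun := tw ℓ ζ
  map_one' := by
    ext n
    rw [tw_coeff, HahnSeries.coeff_one]
    split_ifs with h
    · subst h; simp [zpw_zero]
    · simp
  map_mul' := tw_mul hζ
  map_zero' := by ext n; simp
  map_add' f g := by ext n; simp [mul_add]

@[simp]
lemma twHom_apply {ζ : R} (hζ : ζ ^ ℓ = 1) (f : LaurentSeries R) :
    twHom ℓ ζ hζ f = tw ℓ ζ f := rfl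

lemma twHom_coeff {ζ : R} (hζ : ζ ^ ℓ = 1) (f : LaurentSeries R) (n : ℤ) :
    (twHom ℓ ζ hζ f).coeff n = zpw ℓ ζ n * f.coeff n := tw_coeff ℓ ζ f n

/-- The twist fixes `R((q^ℓ))`. -/
lemma tw_qExpand (ζ : R) (g : LaurentSeries R) :
    tw ℓ ζ (qExpand R ℓ g) = qExpand R ℓ g := by
  ext n
  rw [tw_coeff]
  by_cases h : (ℓ : ℤ) ∣ n
  · obtain ⟨m, rfl⟩ := h
    rw [zpw_mul_left, one_mul]
  · rw [qExpand_coeff_of_not_dvd ℓ g h, mul_zero]

lemma tw_qq_pow {ζ : R} (hζ : ζ ^ ℓ = 1) (n : ℕ) :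
    tw ℓ ζ ((qq : LaurentSeries R) ^ n) = HahnSeries.C (ζ ^ n) * (qq : LaurentSeries R) ^ n := by
  ext k
  rw [tw_coeff, qq_pow, HahnSeries.C_mul_eq_smul, HahnSeries.coeff_smul, HahnSeries.coeff_single]
  split_ifs with h
  · subst h; rw [zpw_natCast hζ]; simp
  · simp

omit [NeZero ℓ] in
/-- `tw` by a power of `ζ`. -/
lemma pow_pow_eq_one {ζ : R} (hζ : ζ ^ ℓ = 1) (b : ℕ) : (ζ ^ b) ^ ℓ = 1 := by
  rw [← pow_mul, mul_comm, pow_mul, hζ, one_pow]

/-- If `P * M = D * P` with `det P ≠ 0` over a domain, then `M` and `D` have the same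
characteristic polynomial. -/
lemma charpoly_eq_of_intertwine {S : Type*} [CommRing S] [IsDomain S] {n : Type*} [Fintype n]
    [DecidableEq n] (P M D : Matrix n n S) (hPM : P * M = D * P) (hdet : P.det ≠ 0) :
    M.charpoly = D.charpoly := by
  have hscal : (P.map C) * Matrix.scalar n (X : S[X]) = Matrix.scalar n (X : S[X]) * (P.map C) :=
    ((Matrix.scalar_commute (X : S[X]) (fun r' => Commute.all _ _)) (P.map C)).eq.symm
  have hmap : (P.map C) * (M.map C) = (D.map C) * (P.map (C : S →+* S[X])) := by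
    rw [← Matrix.map_mul, ← Matrix.map_mul, hPM]
  have hchar : (P.map C) * charmatrix M = charmatrix D * (P.map C) := by
    rw [charmatrix, charmatrix, Matrix.mul_sub, Matrix.sub_mul, hscal]
    congr 1
  have hdets := congrArg Matrix.det hchar
  rw [Matrix.det_mul, Matrix.det_mul] at hdets
  have hPC : (P.map (C : S →+* S[X])).det ≠ 0 := by
    have : (P.map (C : S →+* S[X])).det = C P.det := by
      rw [← RingHom.mapMatrix_apply, ← RingHom.map_det]
    rw [this]
    exact (map_ne_zero_iff _ C_injective).mpr hdet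
  rw [mul_comm (charmatrix D).det] at hdets
  exact mul_left_cancel₀ hPC hdets

/-- the nodes `ζ^b q` -/
def node (ζ : R) (b : Fin ℓ) : LaurentSeries R :=
  HahnSeries.C (ζ ^ (b : ℕ)) * (qq : LaurentSeries R)

lemma vandermonde_mul_kronMat {ζ : R} (hζ : ζ ^ ℓ = 1) (f : LaurentSeries R) :
    Matrix.vandermonde (node (ℓ := ℓ) ζ) * (kronMat ℓ f).map (qExpand R ℓ) =
      Matrix.diagonal (fun b : Fin ℓ => tw ℓ (ζ ^ (b : ℕ)) f) * Matrix.vandermonde (node ζ) := by
  ext b j
  rw [Matrix.mul_apply, Matrix.diagonal_mul]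
  simp only [Matrix.vandermonde_apply, Matrix.map_apply, node]
  have hb : (ζ ^ (b : ℕ)) ^ ℓ = 1 := pow_pow_eq_one hζ b
  have h1 := congrArg (tw ℓ (ζ ^ (b : ℕ))) (qq_pow_mul_eq_sum ℓ f j)
  rw [tw_mul hb, tw_qq_pow hb] at h1
  have h2 : tw ℓ (ζ ^ (b : ℕ))
      (∑ i : Fin ℓ, (qq : LaurentSeries R) ^ (i : ℕ) * qExpand R ℓ (kronMat ℓ f i j)) =
      ∑ i : Fin ℓ, (HahnSeries.C ((ζ ^ (b : ℕ)) ^ (i : ℕ)) * (qq : LaurentSeries R) ^ (i : ℕ))
        * qExpand R ℓ (kronMat ℓ f i j) := by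
    rw [← twHom_apply hb, map_sum]
    refine Finset.sum_congr rfl fun i _ => ?_
    rw [map_mul, twHom_apply, twHom_apply, tw_qq_pow hb, tw_qExpand]
  rw [h2] at h1
  simp only [mul_pow, ← map_pow]
  rw [← h1]
  ring_nf

omit [NeZero ℓ] in
lemma node_injective [IsDomain R] {ζ : R} (hζ : IsPrimitiveRoot ζ ℓ) :
    Function.Injective (node (ℓ := ℓ) ζ) := by
  intro b b' hbb'
  have hq : (qq : LaurentSeries R) ≠ 0 := by
    rw [qq]; exact HahnSeries.single_ne_zero one_ne_zero
  have h1 : HahnSeries.C (ζ ^ (b : ℕ)) = (HahnSeries.C (ζ ^ (b' : ℕ)) : LaurentSeries R) :=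
    mul_right_cancel₀ hq hbb'
  have h2 : ζ ^ (b : ℕ) = ζ ^ (b' : ℕ) := HahnSeries.C_injective h1
  exact Fin.ext (hζ.pow_inj b.2 b'.2 h2)

/-- **Product formula**: over a domain containing a primitive `ℓ`-th root of unity `ζ`, the
Kronecker polynomial (with coefficients pushed to `R((q^ℓ))`) is `∏_b (Y - f(ζ^b q))`. -/
theorem kron_map_qExpand_eq_prod [IsDomain R] {ζ : R} (hζ : IsPrimitiveRoot ζ ℓ)
    (f : LaurentSeries R) :
    (kron ℓ f).map (qExpand R ℓ) =
      ∏ b : Fin ℓ, (X - Polynomial.C (tw ℓ (ζ ^ (b : ℕ)) f)) := by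
  classical
  rw [kron, ← Matrix.charpoly_map,
    charpoly_eq_of_intertwine _ _ _ (vandermonde_mul_kronMat hζ.pow_eq_one f)
      (Matrix.det_vandermonde_ne_zero_iff.mpr (node_injective hζ)),
    Matrix.charpoly_diagonal]

end Fermat.Agent.S37.H340

end
end
-- ===== PACK-END S37/H340/KronTwist.lean

-- ===== PACK-BEGIN S18/H107/IntTools.lean
section



/-!
# helper107 — S18 / M3-T : integrality toolkit for subrings of a field (Mathlib-only)

All objects are sub-objects of one field `Ω` (as in the frozen interface `Alg/Spec.lean`).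

* `intCl107 T`            : the integral closure of the subring `T` in `Ω`, as a subring.
* `isIntegral_iff_exists_poly107` : `IsIntegral T b ↔ ∃ P : Polynomial Ω` monic with coefficients in `T`,
  `P.eval b = 0`.
* `isIntegral_of_coeffs107` : a root of a monic polynomial with coefficients integral over `T` is
  integral over `T`.
* `exists_pow_mul_isIntegral107` (SCALING): `b` integral over `R'[y]`, `R' ≤ intCl T`,
  `e, y·e ∈ intCl T`  ⟹  `∃ D, b·e^D ∈ intCl T`.
* `mem_of_comaximal107` (GLUING): `z·g₁^k₁, z·g₂^k₂ ∈ B`, `a g₁ + b g₂ = 1` in `B` ⟹ `z ∈ B`.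
-/

set_option autoImplicit false

namespace Fermat.Agent.S18.H107

open Polynomial Fermat.Agent.S18.Alg

variable {Ω : Type*} [Field Ω]

/-- The integral closure of a subring `T` of `Ω` in `Ω`, as a subring of `Ω`. -/
def intCl107 (T : Subring Ω) : Subring Ω := (integralClosure T Ω).toSubring

theorem mem_intCl107 {T : Subring Ω} {b : Ω} : b ∈ intCl107 T ↔ IsIntegral T b := Iff.rfl

theorem le_intCl107 (T : Subring Ω) : T ≤ intCl107 T := fun b hb =>
  mem_intCl107.2 (isIntegral_algebraMap (R := T) (A := Ω) (x := ⟨b, hb⟩))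

theorem isIntegral_iff_exists_poly107 (T : Subring Ω) (b : Ω) :
    IsIntegral T b ↔ ∃ P : Polynomial Ω, P.Monic ∧ (∀ i, P.coeff i ∈ T) ∧ P.eval b = 0 := by
  constructor
  · rintro ⟨p, hp, hpb⟩
    refine ⟨p.map (algebraMap T Ω), hp.map _, fun i => ?_, ?_⟩
    · rw [coeff_map]
      exact (p.coeff i).2
    · rw [eval_map]
      exact hpb
  · rintro ⟨P, hP, hc, hb⟩
    have hl : P ∈ lifts (algebraMap T Ω) := by
      rw [lifts_iff_coeff_lifts]
      intro n
      exact ⟨⟨P.coeff n, hc n⟩, rfl⟩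
    obtain ⟨q, hq, -, hqm⟩ := lifts_and_degree_eq_and_monic hl hP
    refine ⟨q, hqm, ?_⟩
    rw [← eval_map, hq]
    exact hb

theorem isIntegral_of_coeffs107 (T : Subring Ω) (P : Polynomial Ω) (hP : P.Monic)
    (hc : ∀ i, P.coeff i ∈ intCl107 T) (b : Ω) (hb : P.eval b = 0) : b ∈ intCl107 T := by
  have hl : P ∈ lifts (algebraMap (integralClosure T Ω) Ω) := by
    rw [lifts_iff_coeff_lifts]
    intro n
    exact ⟨⟨P.coeff n, hc n⟩, rfl⟩
  obtain ⟨q, hq, -, hqm⟩ := lifts_and_degree_eq_and_monic hl hP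
  have hint : IsIntegral (integralClosure T Ω) b := by
    refine ⟨q, hqm, ?_⟩
    rw [← eval_map, hq]
    exact hb
  exact mem_intCl107.2 (isIntegral_trans (R := T) (A := integralClosure T Ω) b hint)

/-- Integral closedness of `intCl107 T` in polynomial form over another subring. -/
theorem isIntegral_mono107 {T T' : Subring Ω} (h : T ≤ intCl107 T') {b : Ω}
    (hb : IsIntegral T b) : b ∈ intCl107 T' := by
  obtain ⟨P, hP, hc, hPb⟩ := (isIntegral_iff_exists_poly107 T b).1 hb
  exact isIntegral_of_coeffs107 T' P hP (fun i => h (hc i)) b hPb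

theorem intCl107_mono {T T' : Subring Ω} (h : T ≤ intCl107 T') : intCl107 T ≤ intCl107 T' :=
  fun _ hb => isIntegral_mono107 h (mem_intCl107.1 hb)

theorem polyRing_le107 {R B : Subring Ω} {x : Ω} (hR : R ≤ B) (hx : x ∈ B) :
    polyRing R x ≤ B := by
  refine Subring.closure_le.2 ?_
  rintro c (hc | hc)
  · exact hR hc
  · rw [Set.mem_singleton_iff] at hc
    rw [hc]
    exact hx

theorem le_polyRing107 (R : Subring Ω) (x : Ω) : R ≤ polyRing R x := fun _ hc =>
  Subring.subset_closure (Or.inl hc)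

theorem self_mem_polyRing107 (R : Subring Ω) (x : Ω) : x ∈ polyRing R x :=
  Subring.subset_closure (Or.inr rfl)

/-- Elements of `R'[y]` become elements of `B` after multiplication by a high power of `e`,
if `e ∈ B` and `y * e ∈ B`. -/
theorem exists_pow_mul_mem107 {R' B : Subring Ω} {y e : Ω} (hR : R' ≤ B) (he : e ∈ B)
    (hye : y * e ∈ B) {c : Ω} (hc : c ∈ polyRing R' y) :
    ∃ d : ℕ, ∀ d', d ≤ d' → c * e ^ d' ∈ B := by
  induction hc using Subring.closure_induction with
  | mem c hc =>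
    rcases hc with hc | hc
    · exact ⟨0, fun d' _ => B.mul_mem (hR hc) (B.pow_mem he d')⟩
    · rw [Set.mem_singleton_iff] at hc
      subst hc
      refine ⟨1, fun d' hd' => ?_⟩
      obtain ⟨k, rfl⟩ := Nat.exists_eq_add_of_le hd'
      have : c * e ^ (1 + k) = (c * e) * e ^ k := by ring
      rw [this]
      exact B.mul_mem hye (B.pow_mem he k)
  | zero => exact ⟨0, fun d' _ => by rw [zero_mul]; exact B.zero_mem⟩
  | one => exact ⟨0, fun d' _ => by rw [one_mul]; exact B.pow_mem he d'⟩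
  | add a b _ _ ha hb =>
    obtain ⟨da, hda⟩ := ha
    obtain ⟨db, hdb⟩ := hb
    refine ⟨max da db, fun d' hd' => ?_⟩
    rw [add_mul]
    exact B.add_mem (hda d' (le_trans (le_max_left _ _) hd')) (hdb d' (le_trans (le_max_right _ _) hd'))
  | neg a _ ha =>
    obtain ⟨da, hda⟩ := ha
    refine ⟨da, fun d' hd' => ?_⟩
    rw [neg_mul]
    exact B.neg_mem (hda d' hd')
  | mul a b _ _ ha hb =>
    obtain ⟨da, hda⟩ := ha
    obtain ⟨db, hdb⟩ := hb
    refine ⟨da + db, fun d' hd' => ?_⟩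
    obtain ⟨k, rfl⟩ := Nat.exists_eq_add_of_le hd'
    have : a * b * e ^ (da + db + k) = (a * e ^ da) * (b * e ^ (db + k)) := by ring
    rw [this]
    exact B.mul_mem (hda da le_rfl) (hdb (db + k) (Nat.le_add_right _ _))

/-- **SCALING LEMMA.**  If `b` is integral over `R'[y]`, `R' ≤ intCl T` and `e`, `y * e` are
integral over `T`, then `b * e ^ D` is integral over `T` for some `D`. -/
theorem exists_pow_mul_isIntegral107 {R' T : Subring Ω} {y e : Ω} (hR : R' ≤ intCl107 T)
    (he : e ∈ intCl107 T) (hye : y * e ∈ intCl107 T) {b : Ω}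
    (hb : IsIntegral (polyRing R' y) b) : ∃ D : ℕ, b * e ^ D ∈ intCl107 T := by
  obtain ⟨P, hP, hc, hPb⟩ := (isIntegral_iff_exists_poly107 _ b).1 hb
  -- a uniform exponent for all coefficients
  have hex : ∀ i, ∃ d : ℕ, ∀ d', d ≤ d' → P.coeff i * e ^ d' ∈ intCl107 T := fun i =>
    exists_pow_mul_mem107 hR he hye (hc i)
  choose d hd using hex
  obtain ⟨D, hD⟩ : ∃ D : ℕ, ∀ i ∈ Finset.range (P.natDegree + 1), d i ≤ D :=
    ⟨(Finset.range (P.natDegree + 1)).sup d, fun i hi => Finset.le_sup hi⟩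
  refine ⟨D, ?_⟩
  refine isIntegral_of_coeffs107 T (scaleRoots P (e ^ D)) ((monic_scaleRoots_iff _).2 hP)
    (fun i => ?_) (b * e ^ D) ?_
  · rw [coeff_scaleRoots]
    rcases lt_trichotomy i P.natDegree with hi | hi | hi
    · rw [← pow_mul]
      refine hd i _ ?_
      have h1 : d i ≤ D := hD i (Finset.mem_range.2 (by omega))
      have h2 : 1 ≤ P.natDegree - i := by omega
      calc d i ≤ D := h1
        _ = D * 1 := (mul_one D).symm
        _ ≤ D * (P.natDegree - i) := Nat.mul_le_mul_left D h2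
    · subst hi
      rw [Nat.sub_self, pow_zero, mul_one]
      have : P.coeff P.natDegree = 1 := hP
      rw [this]
      exact (intCl107 T).one_mem
    · rw [coeff_eq_zero_of_natDegree_lt hi, zero_mul]
      exact (intCl107 T).zero_mem
  · have h := scaleRoots_eval₂_mul (p := P) (RingHom.id Ω) b (e ^ D)
    rw [eval₂_id, eval₂_id, RingHom.id_apply, hPb, mul_zero] at h
    rw [mul_comm]
    exact h

/-- **GLUING over two comaximal opens.** -/
theorem mem_of_comaximal107 (B : Subring Ω) (z g₁ g₂ a b : Ω) (hg₁ : g₁ ∈ B) (hg₂ : g₂ ∈ B)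
    (ha : a ∈ B) (hb : b ∈ B) (hab : a * g₁ + b * g₂ = 1) (k₁ k₂ : ℕ)
    (h₁ : z * g₁ ^ k₁ ∈ B) (h₂ : z * g₂ ^ k₂ ∈ B) : z ∈ B := by
  have hcop : IsCoprime (⟨g₁, hg₁⟩ : B) ⟨g₂, hg₂⟩ :=
    ⟨⟨a, ha⟩, ⟨b, hb⟩, Subtype.ext hab⟩
  obtain ⟨a', b', hab'⟩ := (hcop.pow (m := k₁) (n := k₂))
  have h := congrArg (Subtype.val) hab'
  simp only [Subring.coe_add, Subring.coe_mul, Subring.coe_pow, Subring.coe_one] at h
  have hz : z = (a' : Ω) * (z * g₁ ^ k₁) + (b' : Ω) * (z * g₂ ^ k₂) := by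
    calc z = z * 1 := (mul_one z).symm
      _ = z * ((a' : Ω) * g₁ ^ k₁ + (b' : Ω) * g₂ ^ k₂) := by rw [h]
      _ = _ := by ring
  rw [hz]
  exact B.add_mem (B.mul_mem a'.2 h₁) (B.mul_mem b'.2 h₂)

end Fermat.Agent.S18.H107

end
-- ===== PACK-END S18/H107/IntTools.lean

-- ===== PACK-BEGIN S18/H107/QepTransfer.lean
section




/-!
# helper107 — S18 / M3-T : transfer of the `q`-expansion principle between coordinates

`Qep107 Fc R V w y` is the field `qep_fin` of the frozen `GoodModel` for the coordinate `y`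
(`qep_inf` is `Qep107 Fc R V w y⁻¹`).

`qep_transfer107`: if QEP holds for the charts of `y₁` and `y₂` (application: `j`, `j⁻¹`) and
`Spec R[x]` is covered by two comaximal opens `D(g₁)`, `D(g₂)` on which `x` is "controlled" by
`y₁` resp. `y₂` (`OpenData107`), then QEP holds for the chart of `x`.
No noetherian / S2 / finiteness hypothesis is used.
-/

set_option autoImplicit false

namespace Fermat.Agent.S18.H107

open Polynomial Fermat.Agent.S18.Alg

variable {Ω : Type*} [Field Ω]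

/-- The `q`-expansion principle on the chart of the coordinate `y`
(= `GoodModel.qep_fin` with `x := y`). -/
def Qep107 (Fc : Subfield Ω) (R V : Subring Ω) (w y : Ω) : Prop :=
  ∀ b ∈ chart Fc R y, b * w⁻¹ ∈ V → b * w⁻¹ ∈ chart Fc R y

/-- The open `D(g) ⊆ Spec R[x]` is controlled by the chart of `y`:
* `e` is a unit-like multiplier: `e ∈ V`, `e` and `x·e` integral over `R[y]`;
* `y ∈ R[x][1/g]` : `y * g ^ k` integral over `R[x]`;
* `e⁻¹ ∈ R[x][1/g]` : `e * f = g ^ k'` with `f` integral over `R[x]`. -/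
structure OpenData107 (Fc : Subfield Ω) (R V : Subring Ω) (x y g e : Ω) : Prop where
  g_mem : g ∈ polyRing R x
  e_mem_Fc : e ∈ Fc
  e_mem_V : e ∈ V
  e_int : e ∈ intCl107 (polyRing R y)
  xe_int : x * e ∈ intCl107 (polyRing R y)
  y_loc : ∃ k : ℕ, y * g ^ k ∈ intCl107 (polyRing R x)
  e_inv : ∃ f ∈ intCl107 (polyRing R x), ∃ k : ℕ, e * f = g ^ k

theorem OpenData107.exists_pow_mul_mem {Fc : Subfield Ω} {R V : Subring Ω} {w x y g e : Ω}
    (o : OpenData107 Fc R V x y g e) (q : Qep107 Fc R V w y) {b : Ω} (hb : b ∈ chart Fc R x)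
    (hz : b * w⁻¹ ∈ V) : ∃ K : ℕ, b * w⁻¹ * g ^ K ∈ intCl107 (polyRing R x) := by
  obtain ⟨hbF, hbI⟩ := hb
  -- step 1: `b * e ^ D` is integral over `R[y]`
  obtain ⟨D, hD⟩ := exists_pow_mul_isIntegral107 (R' := R) (T := polyRing R y) (y := x) (e := e)
    ((le_polyRing107 R y).trans (le_intCl107 _)) o.e_int o.xe_int hbI
  have hchart : b * e ^ D ∈ chart Fc R y := ⟨Fc.mul_mem hbF (Fc.pow_mem o.e_mem_Fc D), hD⟩
  -- step 2/3: QEP for `y`
  have hV : b * e ^ D * w⁻¹ ∈ V := by
    have : b * e ^ D * w⁻¹ = b * w⁻¹ * e ^ D := by ring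
    rw [this]
    exact V.mul_mem hz (V.pow_mem o.e_mem_V D)
  have h3 := (q _ hchart hV).2
  -- step 4: back to `R[x]`
  obtain ⟨k, hk⟩ := o.y_loc
  have hgI : g ∈ intCl107 (polyRing R x) := le_intCl107 _ o.g_mem
  obtain ⟨D', hD'⟩ := exists_pow_mul_isIntegral107 (R' := R) (T := polyRing R x) (y := y)
    (e := g ^ k) ((le_polyRing107 R x).trans (le_intCl107 _)) ((intCl107 _).pow_mem hgI k) hk h3
  -- step 5: remove `e ^ D`
  obtain ⟨f, hf, k', hef⟩ := o.e_inv
  refine ⟨k' * D + k * D', ?_⟩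
  have : b * w⁻¹ * g ^ (k' * D + k * D') = (b * e ^ D * w⁻¹ * (g ^ k) ^ D') * f ^ D := by
    rw [pow_add, pow_mul, pow_mul, ← hef]
    ring
  rw [this]
  exact (intCl107 _).mul_mem hD' ((intCl107 _).pow_mem hf D)

/-- **QEP transfer.** -/
theorem qep_transfer107 {Fc : Subfield Ω} {R V : Subring Ω} {w x y₁ y₂ g₁ g₂ e₁ e₂ a b : Ω}
    (hw : w ∈ Fc) (q₁ : Qep107 Fc R V w y₁) (q₂ : Qep107 Fc R V w y₂)
    (o₁ : OpenData107 Fc R V x y₁ g₁ e₁) (o₂ : OpenData107 Fc R V x y₂ g₂ e₂)
    (ha : a ∈ polyRing R x) (hb : b ∈ polyRing R x) (hab : a * g₁ + b * g₂ = 1) :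
    Qep107 Fc R V w x := by
  intro c hc hz
  obtain ⟨K₁, h₁⟩ := o₁.exists_pow_mul_mem q₁ hc hz
  obtain ⟨K₂, h₂⟩ := o₂.exists_pow_mul_mem q₂ hc hz
  refine ⟨Fc.mul_mem hc.1 (Fc.inv_mem hw), ?_⟩
  exact mem_intCl107.1 (mem_of_comaximal107 (intCl107 (polyRing R x)) (c * w⁻¹) g₁ g₂ a b
    (le_intCl107 _ o₁.g_mem) (le_intCl107 _ o₂.g_mem) (le_intCl107 _ ha) (le_intCl107 _ hb)
    hab K₁ K₂ h₁ h₂)

end Fermat.Agent.S18.H107

end
-- ===== PACK-END S18/H107/QepTransfer.lean

-- ===== PACK-BEGIN S18/Mod/Defs.lean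
section



/-!
# S18 / MOD — frozen CONCRETE objects at level `M` (row-lead helper18)

For a valuation subring `A` of `Q̄` and an intermediate field `E` of `Q̄/ℚ` (a number field in the
application) we define the sub-objects of `Ω := F_M = modularFunctionFieldBar M` that instantiate
`Alg.GoodModel`:

* `Lc M`       constants `Q̄`
* `Ec M E`     constants in `E`
* `Rc M A E`   constants in `A ∩ E`
* `Fc M E`     `E(j_d : d ∣ M)`
* `Vc M A E`   Gauss valuation ring: quotients `U₁/U₂` of series `U_i ∈ (A ∩ E)((q))` lying in `Fc`,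
               with `U₂ ≢ 0` mod the maximal ideal of `A`.

MOD deliverable: `GoodModelStatement` below.  GLUE deliverable: `GlueStatement` below (needed for
PRIME `m` only, see `Integ/Skeleton.lean`).

v4 = FINAL (landed on main): unchanged from v3 except that `Alg.GoodModel` has the new field
`x_mem_V` and `Alg.AlgMainStatement` is for prime `m`.
-/

set_option autoImplicit false

noncomputable section

namespace Fermat.Agent.S18.Mod

open ModularCurve AlgebraicCurve HahnSeries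

/-- `Ω = F_M`, the function field of `X₀(M)` over `Q̄`, as a type. -/
abbrev Om (M : ℕ) : Type := ↥(modularFunctionFieldBar M)

/-- The constants `Q̄ ⊆ Ω`. -/
def Lc (M : ℕ) : Subfield (Om M) := (algebraMap Qb (Om M)).fieldRange

/-- The constants from `E`. -/
def Ec (M : ℕ) (E : IntermediateField ℚ Qb) : Subfield (Om M) :=
  E.toSubfield.map (algebraMap Qb (Om M))

/-- The constants from `A ∩ E`. -/
def Rc (M : ℕ) (A : ValuationSubring Qb) (E : IntermediateField ℚ Qb) : Subring (Om M) :=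
  (A.toSubring ⊓ E.toSubfield.toSubring).map (algebraMap Qb (Om M))

/-- The generator `j(q^d)` of `Ω`. -/
def jd (M : ℕ) (d : ℕ) [NeZero d] (hd : d ∣ M) : Om M :=
  ⟨coeffEmb Qb (qExpand ℚ d jq), coeffEmb_mem_laurentBaseChange Qb (jqd_mem_full M hd)⟩

/-- `j ∈ Ω`. -/
def jOm (M : ℕ) : Om M := jd M 1 (one_dvd M)

/-- The set of generators `j(q^d)`, `d ∣ M`. -/
def gens (M : ℕ) : Set (Om M) := {y | ∃ (d : ℕ) (_ : NeZero d) (hd : d ∣ M), y = jd M d hd}

/-- `Fc = E(j_d : d ∣ M)`. -/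
def Fc (M : ℕ) (E : IntermediateField ℚ Qb) : Subfield (Om M) :=
  Subfield.closure ((Ec M E : Set (Om M)) ∪ gens M)

/-- A series over `A` is `E`-rational, lies in `Fc`, (and is automatically `A`-integral). -/
def IsIntE (M : ℕ) (A : ValuationSubring Qb) (E : IntermediateField ℚ Qb)
    (U : LaurentSeries A) : Prop :=
  (∀ n : ℤ, ((U.coeff n : A) : Qb) ∈ E) ∧
    ∃ f ∈ Fc M E, (f : LaurentSeries Qb) = coeffMap A.subtype U

/-- The Gauss valuation ring of `Fc`, as a set; it is a subring (part of the MOD deliverable). -/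
def VcSet (M : ℕ) (A : ValuationSubring Qb) (E : IntermediateField ℚ Qb) : Set (Om M) :=
  {f | f ∈ Fc M E ∧ ∃ U₁ U₂ : LaurentSeries A, IsIntE M A E U₁ ∧ IsIntE M A E U₂ ∧
    coeffMap (IsLocalRing.residue A) U₂ ≠ 0 ∧
    (f : LaurentSeries Qb) * coeffMap A.subtype U₂ = coeffMap A.subtype U₁}

/-- `x` is an admissible coordinate with finite branch set `S` for the residue characteristic `ℓ`:
`ℓ ≥ 5`: `x = j`, `S = {0, 1728}`;
`ℓ = 3`: `2 ∣ M`, `j x² = (x+256)³`, `S = {0, -64}`;
`ℓ = 2`: `3 ∣ M`, `j x³ = (x+27)(x+243)³`, `S = {0, -27}`;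
in the last two cases `x` is the image of an integral series `q⁻¹ + …` lying in `ℚ(j_d : d ∣ M)`. -/
def IsCoordinate (M ℓ : ℕ) (x : Om M) (S : Finset (Om M)) : Prop :=
  (5 ≤ ℓ ∧ x = jOm M ∧ ∀ s, s ∈ S ↔ s = 0 ∨ s = 1728) ∨
  ((ℓ = 3 ∧ jOm M * x ^ 2 = (x + 256) ^ 3 ∧ ∀ s, s ∈ S ↔ s = 0 ∨ s = -64) ∨
    (ℓ = 2 ∧ jOm M * x ^ 3 = (x + 27) * (x + 243) ^ 3 ∧ ∀ s, s ∈ S ↔ s = 0 ∨ s = -27)) ∧
   ∃ X : LaurentSeries ℤ, X.coeff (-1) = 1 ∧ (∀ k : ℤ, k < -1 → X.coeff k = 0) ∧
     (x : LaurentSeries Qb) = coeffMap (Int.castRingHom Qb) X ∧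
     coeffMap (Int.castRingHom ℚ) X ∈ modularFunctionFieldFull M

/-- The family of all concrete models: one for each intermediate field `E` of `Q̄/ℚ` that is
finite over `ℚ`, with `V` the subring with underlying set `VcSet M A E` and `w` any element. -/
def family (M : ℕ) (A : ValuationSubring Qb) : Set (Alg.Model (Om M)) :=
  {p | ∃ E : IntermediateField ℚ Qb, FiniteDimensional ℚ E ∧ p.1 = Ec M E ∧ p.2.1 = Fc M E ∧
    p.2.2.1 = Rc M A E ∧ (p.2.2.2.1 : Set (Om M)) = VcSet M A E}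

/-- **MOD deliverable** (v3).  For every admissible coordinate `x` there is a directed family `𝓕`
of good models, consisting of concrete models, and containing a model over a number field
`E ∋ T` for every finite set `T` of elements of `Q̄`. -/
def GoodModelStatement (M ℓ : ℕ) (A : ValuationSubring Qb) : Prop :=
  ∀ (x : Om M) (S : Finset (Om M)), IsCoordinate M ℓ x S →
    ∃ 𝓕 : Set (Alg.Model (Om M)), 𝓕 ⊆ family M A ∧ Alg.GoodFamily (Lc M) x S 𝓕 ∧
      ∀ T : Finset Qb, ∃ (E : IntermediateField ℚ Qb) (V : Subring (Om M)) (w : Om M),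
        FiniteDimensional ℚ E ∧ (∀ a ∈ T, a ∈ E) ∧ (V : Set (Om M)) = VcSet M A E ∧
        ((Ec M E, Fc M E, Rc M A E, V, w) : Alg.Model (Om M)) ∈ 𝓕

/-- **Existence of coordinates** (c3): for `ℓ ∤ M`, with `2 ∣ M` if `ℓ = 3` and `3 ∣ M` if `ℓ = 2`. -/
def CoordinateStatement (M ℓ : ℕ) : Prop :=
  ∃ (x : Om M) (S : Finset (Om M)), IsCoordinate M ℓ x S

/-- **ALG deliverable**, instantiated: `Alg.AlgMainStatement` for all arguments over `Ω = Om M`. -/
def AlgStatement (M : ℕ) : Prop :=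
  ∀ (Lc : Subfield (Om M)) (x : Om M) (S : Finset (Om M)) (𝓕 : Set (Alg.Model (Om M))),
    Alg.AlgMainStatement Lc x S 𝓕

/-- **GLUE deliverable** (d1): the hub statement at level `M` from MOD and ALG. -/
def GlueStatement (M ℓ : ℕ) (A : ValuationSubring Qb) (m : ℕ) : Prop :=
  CoordinateStatement M ℓ → GoodModelStatement M ℓ A → AlgStatement M → CoreStatement M A m

end Fermat.Agent.S18.Mod

end
end
-- ===== PACK-END S18/Mod/Defs.lean

-- ===== PACK-BEGIN S18/Mod/H216/Vc.lean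
section


/-!
# S18 / MOD-ASM (helper216): the Gauss valuation ring `Vc M A E` as a `Subring`

`Mod.VcSet M A E` (frozen in `Mod/Defs.lean`) is only a set.  Here:

* `intE M A E : Subring (LaurentSeries A)` — the series satisfying `IsIntE M A E`;
* `Vc M A E : Subring (Om M)` with `(Vc M A E : Set (Om M)) = VcSet M A E` (`coe_Vc`);
* `mem_Vc_iff`, `mem_Vc_of_isIntE`.
-/

set_option autoImplicit false

noncomputable section

namespace Fermat.Agent.S18.Mod.H216

open ModularCurve AlgebraicCurve HahnSeries Fermat.Agent.S18 Fermat.Agent.S18.Mod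

variable (M : ℕ) (A : ValuationSubring Qb) (E : IntermediateField ℚ Qb)

/-- The coercion `Ω = F_M → Q̄((q))` as a ring homomorphism. -/
def omVal : Om M →+* LaurentSeries Qb := (modularFunctionFieldBar M).val.toRingHom

@[simp] theorem omVal_apply (f : Om M) : omVal M f = (f : LaurentSeries Qb) := rfl

theorem omVal_injective : Function.Injective (omVal M) := Subtype.val_injective

/-- Series over `Q̄` all of whose coefficients lie in `E`. -/
def coeffsIn : Subring (LaurentSeries Qb) where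
  carrier := {U | ∀ n : ℤ, U.coeff n ∈ E}
  zero_mem' := fun n => by simp
  one_mem' := fun n => by
    rw [HahnSeries.coeff_one]
    split_ifs
    · exact one_mem _
    · exact zero_mem _
  add_mem' := fun {a b} ha hb n => by
    rw [HahnSeries.coeff_add]
    exact add_mem (ha n) (hb n)
  neg_mem' := fun {a} ha n => by
    rw [HahnSeries.coeff_neg]
    exact neg_mem (ha n)
  mul_mem' := fun {a b} ha hb n => by
    rw [HahnSeries.coeff_mul]
    exact sum_mem fun ij _ => mul_mem (ha _) (hb _)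

theorem mem_coeffsIn {U : LaurentSeries Qb} : U ∈ coeffsIn E ↔ ∀ n : ℤ, U.coeff n ∈ E := Iff.rfl

/-- The subring of `A((q))` cut out by `IsIntE`. -/
def intE : Subring (LaurentSeries A) :=
  (coeffsIn E).comap (coeffMap A.subtype) ⊓
    ((Fc M E).toSubring.map (omVal M)).comap (coeffMap A.subtype)

theorem mem_intE {U : LaurentSeries A} : U ∈ intE M A E ↔ IsIntE M A E U := by
  constructor
  · rintro ⟨h1, f, hf, hfU⟩
    exact ⟨fun n => h1 n, f, hf, hfU⟩
  · rintro ⟨h1, f, hf, hfU⟩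
    exact ⟨fun n => h1 n, f, hf, hfU⟩

theorem red_mul_ne_zero {U V : LaurentSeries A}
    (hU : coeffMap (IsLocalRing.residue A) U ≠ 0) (hV : coeffMap (IsLocalRing.residue A) V ≠ 0) :
    coeffMap (IsLocalRing.residue A) (U * V) ≠ 0 := by
  rw [map_mul]
  exact mul_ne_zero hU hV

theorem red_one_ne_zero : coeffMap (IsLocalRing.residue A) (1 : LaurentSeries A) ≠ 0 := by
  rw [map_one]
  exact one_ne_zero

/-- The Gauss valuation ring of `Fc M E`, as a subring of `Ω`. -/
def Vc : Subring (Om M) where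
  carrier := VcSet M A E
  zero_mem' := by
    refine ⟨zero_mem _, 0, 1, (mem_intE M A E).mp (zero_mem _), (mem_intE M A E).mp (one_mem _),
      red_one_ne_zero A, ?_⟩
    simp
  one_mem' := by
    refine ⟨one_mem _, 1, 1, (mem_intE M A E).mp (one_mem _), (mem_intE M A E).mp (one_mem _),
      red_one_ne_zero A, ?_⟩
    simp
  add_mem' := by
    rintro f g ⟨hf, U₁, U₂, h₁, h₂, hne, heq⟩ ⟨hg, W₁, W₂, k₁, k₂, kne, keq⟩
    rw [← mem_intE] at h₁ h₂ k₁ k₂
    refine ⟨add_mem hf hg, U₁ * W₂ + W₁ * U₂, U₂ * W₂,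
      (mem_intE M A E).mp (add_mem (mul_mem h₁ k₂) (mul_mem k₁ h₂)),
      (mem_intE M A E).mp (mul_mem h₂ k₂), red_mul_ne_zero A hne kne, ?_⟩
    push_cast
    rw [map_add, map_mul, map_mul, map_mul, ← heq, ← keq]
    ring
  neg_mem' := by
    rintro f ⟨hf, U₁, U₂, h₁, h₂, hne, heq⟩
    rw [← mem_intE] at h₁ h₂
    refine ⟨neg_mem hf, -U₁, U₂, (mem_intE M A E).mp (neg_mem h₁), (mem_intE M A E).mp h₂,
      hne, ?_⟩
    push_cast
    rw [map_neg, ← heq]
    ring
  mul_mem' := by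
    rintro f g ⟨hf, U₁, U₂, h₁, h₂, hne, heq⟩ ⟨hg, W₁, W₂, k₁, k₂, kne, keq⟩
    rw [← mem_intE] at h₁ h₂ k₁ k₂
    refine ⟨mul_mem hf hg, U₁ * W₁, U₂ * W₂, (mem_intE M A E).mp (mul_mem h₁ k₁),
      (mem_intE M A E).mp (mul_mem h₂ k₂), red_mul_ne_zero A hne kne, ?_⟩
    push_cast
    rw [map_mul, map_mul, ← heq, ← keq]
    ring

@[simp] theorem coe_Vc : (Vc M A E : Set (Om M)) = VcSet M A E := rfl

theorem mem_Vc_iff {f : Om M} : f ∈ Vc M A E ↔ f ∈ VcSet M A E := Iff.rfl

theorem Vc_le_Fc : (Vc M A E : Set (Om M)) ⊆ Fc M E := fun _ hf => hf.1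

/-- An `E`-rational integral series lying in `Fc` gives an element of `Vc`. -/
theorem mem_Vc_of_isIntE {f : Om M} {U : LaurentSeries A} (hU : IsIntE M A E U)
    (hfU : (f : LaurentSeries Qb) = coeffMap A.subtype U) : f ∈ Vc M A E := by
  obtain ⟨h1, g, hg, hgU⟩ := hU
  have hfg : f = g := Subtype.ext (hfU.trans hgU.symm)
  refine ⟨hfg ▸ hg, U, 1, ⟨h1, g, hg, hgU⟩, (mem_intE M A E).mp (one_mem _), red_one_ne_zero A, ?_⟩
  rw [map_one, mul_one, hfU]

end Fermat.Agent.S18.Mod.H216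

end
end
-- ===== PACK-END S18/Mod/H216/Vc.lean

-- ===== PACK-BEGIN S18/Mod/H216/Family.lean
section


/-!
# S18 / MOD-ASM (helper216): `GoodModelStatement` from `GoodAt`

`GoodAt M A x S` : for EVERY number field `E ⊆ Q̄` the concrete objects
`(Ec M E, Fc M E, Rc M A E, V, w)` (with `V` the subring whose carrier is `VcSet M A E` and `w` some
uniformiser) form an `Alg.GoodModel`.

`goodModelStatement_of_goodAt` : the frozen MOD deliverable `Mod.GoodModelStatement M ℓ A`
(node_mod of `Integ/Skeleton.lean`) follows from `GoodAt` for every admissible coordinate.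
The family is `{ all concrete good models }`; directedness is monotonicity in `E`.
-/

set_option autoImplicit false
set_option linter.style.haveILetI false

noncomputable section

namespace Fermat.Agent.S18.Mod.H216

open ModularCurve AlgebraicCurve HahnSeries Fermat.Agent.S18 Fermat.Agent.S18.Mod

/-- The per-number-field MOD deliverable. -/
def GoodAt (M : ℕ) (A : ValuationSubring Qb) (x : Om M) (S : Finset (Om M)) : Prop :=
  ∀ E : IntermediateField ℚ Qb, FiniteDimensional ℚ E →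
    ∃ (V : Subring (Om M)) (w : Om M), (V : Set (Om M)) = VcSet M A E ∧
      Alg.GoodModel (Lc M) (Ec M E) (Fc M E) (Rc M A E) V w x S

section Mono

variable (M : ℕ) (A : ValuationSubring Qb) {E E' : IntermediateField ℚ Qb}

theorem Ec_mono (h : E ≤ E') : Ec M E ≤ Ec M E' := by
  rintro _ ⟨a, ha, rfl⟩
  exact ⟨a, h ha, rfl⟩

theorem Fc_mono (h : E ≤ E') : Fc M E ≤ Fc M E' :=
  Subfield.closure_mono (Set.union_subset_union_left _ (Ec_mono M h))

theorem Rc_mono (h : E ≤ E') : Rc M A E ≤ Rc M A E' := by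
  rintro _ ⟨a, ha, rfl⟩
  exact ⟨a, ⟨ha.1, h ha.2⟩, rfl⟩

theorem IsIntE_mono (h : E ≤ E') {U : LaurentSeries A} (hU : IsIntE M A E U) :
    IsIntE M A E' U := by
  obtain ⟨h1, f, hf, hfU⟩ := hU
  exact ⟨fun n => h (h1 n), f, Fc_mono M h hf, hfU⟩

theorem VcSet_mono (h : E ≤ E') : VcSet M A E ⊆ VcSet M A E' := by
  rintro f ⟨hf, U₁, U₂, h₁, h₂, hne, heq⟩
  exact ⟨Fc_mono M h hf, U₁, U₂, IsIntE_mono M A h h₁, IsIntE_mono M A h h₂, hne, heq⟩

end Mono

/-- Every finite set of elements of `Q̄` lies in a number field containing a given one. -/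
theorem exists_finite_ge (E : IntermediateField ℚ Qb) (hE : FiniteDimensional ℚ E)
    (T : Set Qb) (hT : T.Finite) :
    ∃ E' : IntermediateField ℚ Qb, FiniteDimensional ℚ E' ∧ E ≤ E' ∧ ∀ a ∈ T, a ∈ E' := by
  haveI := hE
  haveI : Finite T := hT
  haveI : Algebra.IsAlgebraic ℚ Qb := AlgebraicClosure.isAlgebraic ℚ
  haveI : FiniteDimensional ℚ (IntermediateField.adjoin ℚ T) :=
    IntermediateField.finiteDimensional_adjoin
      (fun x _ => (Algebra.IsAlgebraic.isAlgebraic (R := ℚ) x).isIntegral)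
  refine ⟨E ⊔ IntermediateField.adjoin ℚ T, inferInstance, le_sup_left, fun a ha => ?_⟩
  exact (le_sup_right : IntermediateField.adjoin ℚ T ≤ E ⊔ IntermediateField.adjoin ℚ T)
    (IntermediateField.subset_adjoin ℚ T ha)

/-- **MOD assembly, top step**: the frozen `GoodModelStatement` from `GoodAt`. -/
theorem goodModelStatement_of_goodAt (M ℓ : ℕ) (A : ValuationSubring Qb)
    (h : ∀ (x : Om M) (S : Finset (Om M)), IsCoordinate M ℓ x S → GoodAt M A x S) :
    GoodModelStatement M ℓ A := by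
  intro x S hxS
  have hg := h x S hxS
  refine ⟨{p | ∃ E : IntermediateField ℚ Qb, FiniteDimensional ℚ E ∧ p.1 = Ec M E ∧
      p.2.1 = Fc M E ∧ p.2.2.1 = Rc M A E ∧ (p.2.2.2.1 : Set (Om M)) = VcSet M A E ∧
      Alg.GoodModel (Lc M) p.1 p.2.1 p.2.2.1 p.2.2.2.1 p.2.2.2.2 x S}, ?_, ⟨?_, ?_⟩, ?_⟩
  · rintro p ⟨E, hE, h1, h2, h3, h4, -⟩
    exact ⟨E, hE, h1, h2, h3, h4⟩
  · rintro p ⟨E, hE, h1, h2, h3, h4, h5⟩
    exact h5
  · rintro p ⟨E, hE, h1, h2, h3, h4, h5⟩ T hT
    have hfin : {b : Qb | algebraMap Qb (Om M) b ∈ T}.Finite :=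
      T.finite_toSet.preimage (Set.injOn_of_injective (algebraMap Qb (Om M)).injective)
    obtain ⟨E', hE', hle, hT'⟩ := exists_finite_ge E hE _ hfin
    obtain ⟨V', w', hV', hgood'⟩ := hg E' hE'
    refine ⟨(Ec M E', Fc M E', Rc M A E', V', w'), ⟨E', hE', rfl, rfl, rfl, hV', hgood'⟩,
      ⟨?_, ?_, ?_, ?_⟩, ?_⟩
    · rw [h1]; exact Ec_mono M hle
    · rw [h2]; exact Fc_mono M hle
    · rw [h3]; exact Rc_mono M A hle
    · intro f hf
      have hf' : f ∈ (p.2.2.2.1 : Set (Om M)) := hf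
      rw [h4] at hf'
      have := VcSet_mono M A hle hf'
      rw [← hV'] at this
      exact this
    · intro a ha
      obtain ⟨b, rfl⟩ := hT a ha
      exact ⟨b, hT' b ha, rfl⟩
  · intro T
    obtain ⟨E', hE', -, hT'⟩ := exists_finite_ge ⊥ inferInstance (T : Set Qb) T.finite_toSet
    obtain ⟨V', w', hV', hgood'⟩ := hg E' hE'
    exact ⟨E', V', w', hE', fun a ha => hT' a ha, hV', ⟨E', hE', rfl, rfl, rfl, hV', hgood'⟩⟩

end Fermat.Agent.S18.Mod.H216

end
end
-- ===== PACK-END S18/Mod/H216/Family.lean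

-- ===== PACK-BEGIN S18/H456/ModBasic.lean
section


/-!
# S18 / MOD assembly (helper456, backup MOD-ASM): basic facts on the concrete objects

Membership lemmas for `Lc`, `Ec`, `Rc`, `Fc` and the "easy" fields of `Alg.GoodModel`
(`charZero`, `R_le`, `R_total`, `E_le_L`, `E_le_F`, `L_algebraic`, `L_algClosed`, `compositum`).
-/

set_option autoImplicit false

noncomputable section

namespace Fermat.Agent.S18.H456

open ModularCurve AlgebraicCurve HahnSeries Fermat.Agent.S18 Fermat.Agent.S18.Mod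

variable (M : ℕ) (A : ValuationSubring Qb) (E : IntermediateField ℚ Qb)

/-- The constant `c ∈ Q̄` as an element of `Ω`. -/
abbrev cst (c : Qb) : Om M := algebraMap Qb (Om M) c

theorem cst_injective : Function.Injective (cst M) := (algebraMap Qb (Om M)).injective

theorem mem_Lc_iff {f : Om M} : f ∈ Lc M ↔ ∃ c : Qb, cst M c = f := Iff.rfl

theorem cst_mem_Lc (c : Qb) : cst M c ∈ Lc M := ⟨c, rfl⟩

theorem mem_Ec_iff {f : Om M} : f ∈ Ec M E ↔ ∃ c ∈ E, cst M c = f := by
  unfold Ec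
  rw [Subfield.mem_map]
  rfl

theorem cst_mem_Ec {c : Qb} (hc : c ∈ E) : cst M c ∈ Ec M E := (mem_Ec_iff M E).2 ⟨c, hc, rfl⟩

theorem cst_mem_Ec_iff {c : Qb} : cst M c ∈ Ec M E ↔ c ∈ E := by
  refine ⟨fun h => ?_, cst_mem_Ec M E⟩
  obtain ⟨c', hc', h⟩ := (mem_Ec_iff M E).1 h
  rwa [← cst_injective M h]

theorem mem_Rc_iff {f : Om M} : f ∈ Rc M A E ↔ ∃ c, c ∈ A ∧ c ∈ E ∧ cst M c = f := by
  unfold Rc
  rw [Subring.mem_map]
  constructor
  · rintro ⟨c, hc, rfl⟩
    exact ⟨c, hc.1, hc.2, rfl⟩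
  · rintro ⟨c, hA, hE, rfl⟩
    exact ⟨c, ⟨hA, hE⟩, rfl⟩

theorem cst_mem_Rc {c : Qb} (hA : c ∈ A) (hE : c ∈ E) : cst M c ∈ Rc M A E :=
  (mem_Rc_iff M A E).2 ⟨c, hA, hE, rfl⟩

theorem cst_mem_Rc_iff {c : Qb} : cst M c ∈ Rc M A E ↔ c ∈ A ∧ c ∈ E := by
  refine ⟨fun h => ?_, fun h => cst_mem_Rc M A E h.1 h.2⟩
  obtain ⟨c', hA, hE, h⟩ := (mem_Rc_iff M A E).1 h
  rw [← cst_injective M h]
  exact ⟨hA, hE⟩

/-! ### The easy fields -/

theorem field_charZero : CharZero (Om M) :=
  charZero_of_injective_algebraMap (algebraMap Qb (Om M)).injective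

theorem field_R_le : (Rc M A E : Set (Om M)) ⊆ Ec M E := by
  intro f hf
  obtain ⟨c, -, hE, rfl⟩ := (mem_Rc_iff M A E).1 hf
  exact cst_mem_Ec M E hE

theorem field_R_total : ∀ e ∈ Ec M E, e ∈ Rc M A E ∨ e⁻¹ ∈ Rc M A E := by
  intro e he
  obtain ⟨c, hE, rfl⟩ := (mem_Ec_iff M E).1 he
  rcases A.mem_or_inv_mem c with h | h
  · exact Or.inl (cst_mem_Rc M A E h hE)
  · right
    rw [← map_inv₀]
    exact cst_mem_Rc M A E h (inv_mem hE)

theorem field_E_le_L : Ec M E ≤ Lc M := by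
  intro f hf
  obtain ⟨c, -, rfl⟩ := (mem_Ec_iff M E).1 hf
  exact cst_mem_Lc M c

theorem field_E_le_F : Ec M E ≤ Fc M E := by
  intro f hf
  exact Subfield.subset_closure (Or.inl hf)

theorem field_L_algebraic : ∀ a ∈ Lc M, IsAlgebraic (Ec M E) a := by
  intro a ha
  obtain ⟨c, rfl⟩ := (mem_Lc_iff M).1 ha
  have hc : IsAlgebraic ℚ c := (AlgebraicClosure.isAlgebraic ℚ).isAlgebraic c
  obtain ⟨p, hp0, hp⟩ := hc
  -- the ring hom ℚ → Ec
  let φ : ℚ →+* Ec M E := algebraMap ℚ (Ec M E)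
  refine ⟨p.map φ, (Polynomial.map_ne_zero_iff φ.injective).2 hp0, ?_⟩
  rw [Polynomial.aeval_def, Polynomial.eval₂_map]
  have hcomp : (algebraMap (Ec M E) (Om M)).comp φ = (algebraMap Qb (Om M)).comp (algebraMap ℚ Qb) :=
    RingHom.ext_rat _ _
  rw [hcomp, ← Polynomial.hom_eval₂]
  rw [Polynomial.aeval_def] at hp
  rw [hp, map_zero]

theorem field_L_algClosed : IsAlgClosed (Lc M) := by
  let e : Qb ≃+* Lc M := RingEquiv.ofBijective (algebraMap Qb (Om M)).rangeRestrictField
    ⟨(algebraMap Qb (Om M)).rangeRestrictField.injective, fun ⟨y, c, hc⟩ => ⟨c, Subtype.ext hc⟩⟩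
  exact IsAlgClosed.of_ringEquiv Qb (Lc M) e

end Fermat.Agent.S18.H456

end
end
-- ===== PACK-END S18/H456/ModBasic.lean

-- ===== PACK-BEGIN S28/H326/Integral.lean
section
/-
S28 / helper326: integrality bookkeeping for Laurent series over `ℂ`:
* `IntCoeff` : the subring of series all of whose coefficients are algebraic integers;
* `jP p = j(t^p)` and the leading-coefficient lemma for `Q(j(t^p))`;
* `exists_int_poly_of_integral` : `Q ∈ ℚ[X]` with `Q(j(t^p))` having algebraic-integer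
  coefficients has integer coefficients.
-/




set_option autoImplicit false
set_option linter.unusedSectionVars false

noncomputable section

namespace Fermat.Agent.S28.H326

open ModularCurve HahnSeries

/-- Laurent series over `ℂ` whose coefficients are all algebraic integers. -/
def IntCoeff : Subring (LaurentSeries ℂ) where
  carrier := {x | ∀ n, IsIntegral ℤ (x.coeff n)}
  mul_mem' {x y} hx hy n := by
    rw [HahnSeries.coeff_mul]
    exact IsIntegral.sum _ fun ij _ => (hx _).mul (hy _)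
  one_mem' n := by
    rw [HahnSeries.coeff_one]
    split_ifs
    · exact isIntegral_one
    · exact isIntegral_zero
  add_mem' {x y} hx hy n := by
    rw [HahnSeries.coeff_add]
    exact (hx n).add (hy n)
  zero_mem' n := by
    rw [HahnSeries.coeff_zero]
    exact isIntegral_zero
  neg_mem' {x} hx n := by
    rw [HahnSeries.coeff_neg]
    exact (hx n).neg

theorem mem_IntCoeff {x : LaurentSeries ℂ} : x ∈ IntCoeff ↔ ∀ n, IsIntegral ℤ (x.coeff n) :=
  Iff.rfl

/-- coefficient cast `ℤ((q)) → ℂ((q))` -/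
abbrev kap : LaurentSeries ℤ →+* LaurentSeries ℂ := coeffMap (Int.castRingHom ℂ)

theorem kap_injective : Function.Injective kap := by
  intro x y h
  ext n
  have := congrArg (fun z => z.coeff n) h
  simpa using this

theorem kap_mem_IntCoeff (x : LaurentSeries ℤ) : kap x ∈ IntCoeff := fun n => by
  rw [coeffMap_coeff]
  exact isIntegral_algebraMap (R := ℤ) (A := ℂ) (x := x.coeff n)

variable (p : ℕ) [NeZero p]

theorem qExpand_mem_IntCoeff {x : LaurentSeries ℂ} (hx : x ∈ IntCoeff) :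
    qExpand ℂ p x ∈ IntCoeff := fun n => by
  by_cases h : (p : ℤ) ∣ n
  · obtain ⟨m, rfl⟩ := h
    rw [qExpand_coeff_mul]
    exact hx m
  · rw [qExpand_coeff_of_not_dvd p _ h]
    exact isIntegral_zero

theorem zeta_isIntegral : IsIntegral ℤ (zeta p) :=
  (zeta_isPrimitiveRoot p).isIntegral (Nat.pos_of_ne_zero (NeZero.ne p))

theorem cB_mem_IntCoeff (b : ℕ) (g : PowerSeries ℤ) :
    cB p b (g.map (Int.castRingHom ℂ)) ∈ IntCoeff := fun n => by
  rcases lt_or_ge n 0 with hn | hn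
  · rw [cB_coeff_neg p b _ hn]
    exact isIntegral_zero
  · lift n to ℕ using hn
    rw [cB_coeff_nat, PowerSeries.coeff_map]
    exact (((zeta_isIntegral p).pow b).pow n).mul
      (isIntegral_algebraMap (R := ℤ) (A := ℂ) (x := g.coeff n))

/-- `j(t^p)` over `ℂ`. -/
def jP : LaurentSeries ℂ := qExpand ℂ p (jqModC ℂ)

theorem jP_pow_coeff_self (n : ℕ) : (jP p ^ n).coeff (-((p : ℤ) * n)) = 1 := by
  rw [jP, ← map_pow, show -((p : ℤ) * n) = (p : ℤ) * (-(n : ℤ)) by ring, qExpand_coeff_mul,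
    coeff_jqModC_pow_self]

theorem jP_pow_coeff_of_lt {i n : ℕ} (h : i < n) : (jP p ^ i).coeff (-((p : ℤ) * n)) = 0 := by
  rw [jP, ← map_pow, show -((p : ℤ) * n) = (p : ℤ) * (-(n : ℤ)) by ring, qExpand_coeff_mul]
  exact coeff_jqModC_pow_of_lt ℂ (by omega)

theorem jP_pow_mem_IntCoeff (n : ℕ) : jP p ^ n ∈ IntCoeff := by
  refine Subring.pow_mem _ ?_ n
  rw [jP, ← coeffMap_jqModC (Int.castRingHom ℂ)]
  exact qExpand_mem_IntCoeff p (kap_mem_IntCoeff _)

theorem ratCast_mul_coeff (c : ℚ) (x : LaurentSeries ℂ) (n : ℤ) :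
    ((c : LaurentSeries ℂ) * x).coeff n = (c : ℂ) * x.coeff n := by
  have : (c : LaurentSeries ℂ) = HahnSeries.C (c : ℂ) := (map_ratCast HahnSeries.C c).symm
  rw [this, HahnSeries.C_mul_eq_smul, HahnSeries.coeff_smul, smul_eq_mul]

theorem rat_algebraMap_mul_coeff (c : ℚ) (x : LaurentSeries ℂ) (n : ℤ) :
    (algebraMap ℚ (LaurentSeries ℂ) c * x).coeff n = (c : ℂ) * x.coeff n := by
  rw [eq_ratCast, ratCast_mul_coeff]

/-- leading coefficient of `Q(j(t^p))` -/
theorem aeval_jP_coeff (Q : Polynomial ℚ) {n : ℕ} (hn : Q.natDegree ≤ n) :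
    (Polynomial.aeval (jP p) Q).coeff (-((p : ℤ) * n)) = (Q.coeff n : ℂ) := by
  rw [Polynomial.aeval_eq_sum_range' (Nat.lt_succ_of_le hn), HahnSeries.coeff_sum,
    Finset.sum_range_succ]
  rw [Finset.sum_eq_zero, zero_add, Algebra.smul_def, rat_algebraMap_mul_coeff,
    jP_pow_coeff_self, mul_one]
  · intro i hi
    rw [Algebra.smul_def, rat_algebraMap_mul_coeff, jP_pow_coeff_of_lt p (Finset.mem_range.mp hi),
      mul_zero]

theorem rat_of_isIntegral {a : ℚ} (h : IsIntegral ℤ (a : ℂ)) : ∃ m : ℤ, (m : ℚ) = a := by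
  have h1 : IsIntegral ℤ a := by
    have := (isIntegral_algebraMap_iff (R := ℤ) (A := ℚ) (B := ℂ)
      (algebraMap ℚ ℂ).injective (x := a)).mp (by simpa using h)
    exact this
  obtain ⟨m, hm⟩ := IsIntegrallyClosed.isIntegral_iff.mp h1
  exact ⟨m, by simpa using hm⟩

/-- **Integrality by leading terms**: if `Q(j(t^p))` has algebraic-integer coefficients,
then `Q` has integer coefficients. -/
theorem exists_int_poly_of_integral (Q : Polynomial ℚ)
    (h : Polynomial.aeval (jP p) Q ∈ IntCoeff) :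
    ∃ Q' : Polynomial ℤ, Q'.map (Int.castRingHom ℚ) = Q := by
  suffices H : ∀ d : ℕ, ∀ Q : Polynomial ℚ, Q.natDegree < d →
      Polynomial.aeval (jP p) Q ∈ IntCoeff → ∃ Q' : Polynomial ℤ,
        Q'.map (Int.castRingHom ℚ) = Q from H (Q.natDegree + 1) Q (Nat.lt_succ_self _) h
  intro d
  induction d with
  | zero => intro Q hQ; omega
  | succ d ih =>
    intro Q hQ hint
    have hle : Q.natDegree ≤ d := Nat.lt_succ_iff.mp hQ
    have hlead := aeval_jP_coeff p Q hle
    obtain ⟨m, hm⟩ := rat_of_isIntegral (hlead ▸ hint _)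
    set Q1 : Polynomial ℚ := Q - Polynomial.C (Q.coeff d) * Polynomial.X ^ d with hQ1
    have hdeg : Q1.natDegree < d ∨ Q1 = 0 := by
      by_cases h0 : Q1 = 0
      · exact Or.inr h0
      left
      have h1 : Q1.natDegree ≤ d := by
        refine (Polynomial.natDegree_sub_le _ _).trans (max_le hle ?_)
        exact Polynomial.natDegree_C_mul_X_pow_le _ _
      rcases Nat.lt_or_ge Q1.natDegree d with h2 | h2
      · exact h2
      · have h3 : Q1.natDegree = d := le_antisymm h1 h2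
        have h4 : Q1.coeff d = 0 := by
          simp [hQ1]
        have h5 : Q1.leadingCoeff = 0 := by
          rw [Polynomial.leadingCoeff, h3, h4]
        exact absurd (Polynomial.leadingCoeff_eq_zero.mp h5) h0
    have hint1 : Polynomial.aeval (jP p) Q1 ∈ IntCoeff := by
      rw [hQ1, map_sub, map_mul, Polynomial.aeval_C, map_pow, Polynomial.aeval_X]
      refine Subring.sub_mem _ hint ?_
      rw [← hm]
      have : algebraMap ℚ (LaurentSeries ℂ) (m : ℚ) = ((m : ℤ) : LaurentSeries ℂ) := by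
        simp
      rw [this]
      exact Subring.mul_mem _ (intCast_mem _ m) (jP_pow_mem_IntCoeff p d)
    have hQ1' : ∃ Q' : Polynomial ℤ, Q'.map (Int.castRingHom ℚ) = Q1 := by
      rcases hdeg with h1 | h1
      · rcases Nat.eq_zero_or_pos d with hd | hd
        · omega
        · exact ih Q1 (by omega) hint1 |>.elim (fun Q' h' => ⟨Q', h'⟩) |> fun x => x
      · exact ⟨0, by simp [h1]⟩
    obtain ⟨Q', hQ'⟩ := hQ1'
    refine ⟨Q' + Polynomial.C m * Polynomial.X ^ d, ?_⟩
    rw [Polynomial.map_add, hQ', Polynomial.map_mul, Polynomial.map_pow, Polynomial.map_X,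
      Polynomial.map_C, hQ1]
    simp [hm]

end Fermat.Agent.S28.H326

end
end
-- ===== PACK-END S28/H326/Integral.lean

-- ===== PACK-BEGIN S28/H326/Pairs.lean
section
/-
S28 / helper326: the conjugate families `w i` (of the modular unit `p¹² Δ(q^p)/Δ(q)`),
`Y i`, and `y i` (of `j(q^p)`), `i ∈ P¹(𝔽_p) = Option (Fin p)`, as Laurent series over `ℂ`
in `t = q^(1/p)`; their mixed power sums in terms of the integer Hecke series.
-/





set_option autoImplicit false
set_option linter.unusedSectionVars false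

noncomputable section

namespace Fermat.Agent.S28.H326

open ModularCurve HahnSeries

/-! ### Integer data -/

/-- formal `Δ = q ∏ (1 - qⁿ)²⁴` as a power series over `ℤ` -/
def DZ : PowerSeries ℤ := PowerSeries.X * dedekindEtaUnit

/-- formal `E₄³` -/
def EZ : PowerSeries ℤ := eisenstein4 ^ 3

theorem jNum_mul_unit : jNum * dedekindEtaUnit = EZ := by
  rw [jNum, EZ, mul_assoc, mul_comm dedekindEtaUnitInv, dedekindEtaUnit_mul_inv, mul_one]

/-- formal `Δ` as a Laurent series over `ℤ` -/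
def deltaZ : LaurentSeries ℤ := HahnSeries.ofPowerSeries ℤ ℤ DZ

/-- formal `Δ⁻¹` as a Laurent series over `ℤ` -/
def deltaInvZ : LaurentSeries ℤ :=
  HahnSeries.single (-1 : ℤ) 1 * HahnSeries.ofPowerSeries ℤ ℤ dedekindEtaUnitInv

theorem deltaZ_mul_deltaInvZ : deltaZ * deltaInvZ = 1 := by
  rw [deltaZ, deltaInvZ, DZ, map_mul, HahnSeries.ofPowerSeries_X]
  calc single (1 : ℤ) (1 : ℤ) * (HahnSeries.ofPowerSeries ℤ ℤ) dedekindEtaUnit *
        (single (-1 : ℤ) (1 : ℤ) * (HahnSeries.ofPowerSeries ℤ ℤ) dedekindEtaUnitInv)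
      = (single (1 : ℤ) (1 : ℤ) * single (-1 : ℤ) (1 : ℤ)) *
          ((HahnSeries.ofPowerSeries ℤ ℤ) dedekindEtaUnit *
            (HahnSeries.ofPowerSeries ℤ ℤ) dedekindEtaUnitInv) := by ring
    _ = 1 := by
      rw [← map_mul, dedekindEtaUnit_mul_inv, HahnSeries.single_mul_single]
      simp

/-- `jq · Δ = E₄³` in `ℤ((q))`. -/
theorem jq_mul_deltaZ : jqModC ℤ * deltaZ = HahnSeries.ofPowerSeries ℤ ℤ EZ := by
  rw [jqModC, deltaZ, DZ, map_mul, HahnSeries.ofPowerSeries_X, ← jNum_mul_unit, map_mul]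
  have h : (jNum.map (Int.castRingHom ℤ)) = jNum := by
    ext n; simp
  rw [h]
  calc single (-1 : ℤ) (1 : ℤ) * (HahnSeries.ofPowerSeries ℤ ℤ) jNum *
        (single (1 : ℤ) (1 : ℤ) * (HahnSeries.ofPowerSeries ℤ ℤ) dedekindEtaUnit)
      = (single (-1 : ℤ) (1 : ℤ) * single (1 : ℤ) (1 : ℤ)) *
          ((HahnSeries.ofPowerSeries ℤ ℤ) jNum *
            (HahnSeries.ofPowerSeries ℤ ℤ) dedekindEtaUnit) := by ring
    _ = _ := by
      rw [HahnSeries.single_mul_single]
      simp

/-! ### Complex versions -/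

/-- cast of power series `ℤ⟦X⟧ → ℂ⟦X⟧` -/
abbrev toC : PowerSeries ℤ →+* PowerSeries ℂ := PowerSeries.map (Int.castRingHom ℂ)

theorem kap_ofPS (g : PowerSeries ℤ) : kap (HahnSeries.ofPowerSeries ℤ ℤ g) = ofPS (toC g) :=
  coeffMap_ofPowerSeries _ g

variable (p : ℕ) [NeZero p]

/-- `U_p` on integer power series -/
def UpZ (g : PowerSeries ℤ) : PowerSeries ℤ := PowerSeries.mk fun n => g.coeff (n * p)

theorem toC_UpZ (g : PowerSeries ℤ) : toC (UpZ p g) = Up p (toC g) := by
  ext n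
  simp [UpZ, Up]

/-- the integer Hecke series `p · T_p^{(k)} φ = p^k φ(q^p) + p (U_p φ)(q)` -/
def heckeL (k : ℕ) (φ : PowerSeries ℤ) : LaurentSeries ℤ :=
  (p : LaurentSeries ℤ) ^ k * qExpand ℤ p (HahnSeries.ofPowerSeries ℤ ℤ φ) +
    (p : LaurentSeries ℤ) * HahnSeries.ofPowerSeries ℤ ℤ (UpZ p φ)

/-- **The analytic input** (to be supplied from the Hecke operator `T_p` on level one forms):
`p · T_p(E₄^{3a} Δ^r) = P(j) · Δ^{a+r}` with `P ∈ ℤ[X]`. -/
def HeckeInput : Prop :=
  ∀ a r : ℕ, ∃ P : Polynomial ℤ,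
    heckeL p (12 * (a + r)) (EZ ^ a * DZ ^ r) =
      Polynomial.aeval (jqModC ℤ) P * deltaZ ^ (a + r)

/-- `θ : ℤ[Y] → ℂ((t))`, `Y ↦ j(t^p)` -/
def theta : Polynomial ℤ →+* LaurentSeries ℂ :=
  (qExpand ℂ p).comp (kap.comp (Polynomial.aeval (jqModC ℤ)).toRingHom)

theorem theta_apply (P : Polynomial ℤ) :
    theta p P = qExpand ℂ p (kap (Polynomial.aeval (jqModC ℤ) P)) := rfl

theorem theta_X : theta p Polynomial.X = jP p := by
  rw [theta_apply, Polynomial.aeval_X, jP, coeffMap_jqModC]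

theorem theta_eq_aeval (P : Polynomial ℤ) :
    theta p P = Polynomial.aeval (jP p) (P.map (Int.castRingHom ℚ)) := by
  induction P using Polynomial.induction_on' with
  | add a b ha hb => rw [map_add, ha, hb, Polynomial.map_add, map_add]
  | monomial n c =>
    rw [← Polynomial.C_mul_X_pow_eq_monomial, map_mul, map_pow, theta_X, Polynomial.map_mul,
      Polynomial.map_pow, Polynomial.map_X, Polynomial.map_C, map_mul, map_pow,
      Polynomial.aeval_X, Polynomial.aeval_C]
    congr 1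
    rw [theta_apply, Polynomial.aeval_C]
    simp

/-- The `ℚ`-subalgebra `ℚ[j(t^p)]` of `ℂ((t))`. -/
def Bsub : Subalgebra ℚ (LaurentSeries ℂ) := (Polynomial.aeval (jP p)).range

theorem theta_mem_Bsub (P : Polynomial ℤ) : theta p P ∈ Bsub p :=
  ⟨P.map (Int.castRingHom ℚ), (theta_eq_aeval p P).symm⟩

/-! ### The conjugates -/

/-- `E₄³` over `ℂ` -/
def EC : PowerSeries ℂ := toC EZ
/-- `Δ` over `ℂ` -/
def DC : PowerSeries ℂ := toC DZ

/-- the `p + 1` conjugation maps, indexed by `P¹(𝔽_p)` -/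
def conj : Option (Fin p) → (PowerSeries ℂ →+* LaurentSeries ℂ)
  | none => cInf p
  | some b => cB p b

/-- the weight-12 scalars -/
def scal : Option (Fin p) → LaurentSeries ℂ
  | none => (p : LaurentSeries ℂ) ^ 12
  | some _ => 1

/-- `Δ(t^p)` -/
def del : LaurentSeries ℂ := cBase p DC

/-- `Δ(t^p)⁻¹` -/
def delInv : LaurentSeries ℂ := qExpand ℂ p (kap deltaInvZ)

theorem del_eq : del p = qExpand ℂ p (kap deltaZ) := by
  rw [del, cBase, RingHom.comp_apply, deltaZ, kap_ofPS, DC]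

theorem del_mul_delInv : del p * delInv p = 1 := by
  rw [del_eq, delInv, ← map_mul, ← map_mul, deltaZ_mul_deltaInvZ, map_one, map_one]

theorem delInv_mem_IntCoeff : delInv p ∈ IntCoeff :=
  qExpand_mem_IntCoeff p (kap_mem_IntCoeff _)

/-- conjugates of the unit: `w_∞ = p¹² Δ(t^(p²))/Δ(t^p)`, `w_b = Δ(ζ^b t)/Δ(t^p)` -/
def w (i : Option (Fin p)) : LaurentSeries ℂ := scal p i * conj p i DC * delInv p

/-- `Y_∞ = p¹² E₄³(t^(p²))/Δ(t^p)`, `Y_b = E₄³(ζ^b t)/Δ(t^p)` -/
def Y (i : Option (Fin p)) : LaurentSeries ℂ := scal p i * conj p i EC * delInv p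

theorem sum_scal_pow_conj (m : ℕ) (φ : PowerSeries ℤ) :
    ∑ i, scal p i ^ m * conj p i (toC φ) = qExpand ℂ p (kap (heckeL p (12 * m) φ)) := by
  rw [Fintype.sum_option]
  simp only [scal, conj, one_pow, one_mul]
  rw [Fin.sum_univ_eq_sum_range (fun b => cB p b (toC φ)) p, sum_cB, heckeL]
  simp only [map_add, map_mul, map_pow, map_natCast, coeffMap_qExpand, kap_ofPS, toC_UpZ,
    ← pow_mul]
  rfl

/-- **Mixed power sums** are in `ℤ[j(t^p)]`. -/
theorem sum_Y_pow_mul_w_pow (h : HeckeInput p) (a r : ℕ) :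
    ∃ P : Polynomial ℤ, ∑ i, Y p i ^ a * w p i ^ r = theta p P := by
  obtain ⟨P, hP⟩ := h a r
  refine ⟨P, ?_⟩
  have h1 : ∀ i, Y p i ^ a * w p i ^ r =
      (scal p i ^ (a + r) * conj p i (toC (EZ ^ a * DZ ^ r))) * delInv p ^ (a + r) := by
    intro i
    rw [Y, w, EC, DC, map_mul, map_mul, map_pow, map_pow, map_pow, map_pow]
    ring
  simp only [h1]
  rw [← Finset.sum_mul, sum_scal_pow_conj, hP, map_mul, map_mul, map_pow, map_pow, ← del_eq,
    ← theta_apply, mul_assoc, ← mul_pow, del_mul_delInv, one_pow, mul_one]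

theorem sum_w_pow_mem (h : HeckeInput p) (r : ℕ) : ∑ i, w p i ^ r ∈ Bsub p := by
  obtain ⟨P, hP⟩ := sum_Y_pow_mul_w_pow p h 0 r
  simp only [pow_zero, one_mul] at hP
  rw [hP]
  exact theta_mem_Bsub p P

end Fermat.Agent.S28.H326

end
end
-- ===== PACK-END S28/H326/Pairs.lean

-- ===== PACK-BEGIN S18/H576/Skel.lean
section


/-!
# S18 / MOD-ASM (helper576): `node_mod` from field lemmas about the concrete objects

Skeleton: each `field_*` lemma below is one field (or group of fields) of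
`Alg.GoodModel (Lc M) (Ec M E) (Fc M E) (Rc M A E) V w x S` for the concrete objects of
`Mod/Defs.lean`.  `goodModelStatement_of_fields` assembles them into `Mod.GoodModelStatement`.
-/

set_option autoImplicit false

noncomputable section

namespace Fermat.Agent.S18.H576

open ModularCurve AlgebraicCurve HahnSeries Fermat.Agent.S18 Fermat.Agent.S18.Mod

/-- The part of `GoodModel` that does not mention `V`, `w`, `x`, `S`. -/
structure FieldFacts (M : ℕ) (A : ValuationSubring Qb) (E : IntermediateField ℚ Qb) : Prop where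
  R_le : (Rc M A E : Set (Om M)) ⊆ Ec M E
  R_total : ∀ e ∈ Ec M E, e ∈ Rc M A E ∨ e⁻¹ ∈ Rc M A E
  E_le_L : Ec M E ≤ Lc M
  E_le_F : Ec M E ≤ Fc M E
  L_algebraic : ∀ a ∈ Lc M, IsAlgebraic (Ec M E) a
  L_algClosed : IsAlgClosed (Lc M)
  E_closed_in_F : ∀ f ∈ Fc M E, IsAlgebraic (Ec M E) f → f ∈ Ec M E
  compositum : Subfield.closure ((Fc M E : Set (Om M)) ∪ Lc M) = ⊤

/-- The uniformiser facts. -/
structure UnifFacts (M : ℕ) (A : ValuationSubring Qb) (E : IntermediateField ℚ Qb)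
    (w : Om M) : Prop where
  w_mem : w ∈ Rc M A E
  w_ne_zero : w ≠ 0
  w_inv_not_mem : w⁻¹ ∉ Rc M A E
  w_gen : ∀ r ∈ Rc M A E, r⁻¹ ∉ Rc M A E → r * w⁻¹ ∈ Rc M A E
  w_discrete : ∀ r ∈ Rc M A E, r ≠ 0 →
    ∃ n : ℕ, r * (w⁻¹) ^ n ∈ Rc M A E ∧ (r * (w⁻¹) ^ n)⁻¹ ∈ Rc M A E
  residue_perfect : ∃ p : ℕ, p.Prime ∧ (p : Om M) * w⁻¹ ∈ Rc M A E ∧
    ∀ r ∈ Rc M A E, ∃ s ∈ Rc M A E, (r - s ^ p) * w⁻¹ ∈ Rc M A E

/-- The coordinate facts. -/
structure CoordFacts (M : ℕ) (E : IntermediateField ℚ Qb) (x : Om M) : Prop where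
  x_mem : x ∈ Fc M E
  x_transcendental : Transcendental (Lc M) x
  finite : ∃ s : Finset (Om M), (s : Set (Om M)) ⊆ Fc M E ∧
    ∀ f ∈ Fc M E, f ∈ Submodule.span (Alg.ratField (Ec M E) x) (s : Set (Om M))

/-- The Gauss valuation ring facts. -/
structure ValFacts (M : ℕ) (A : ValuationSubring Qb) (E : IntermediateField ℚ Qb)
    (V : Subring (Om M)) (w x : Om M) : Prop where
  V_le : (V : Set (Om M)) ⊆ Fc M E
  x_mem_V : x ∈ V
  V_total : ∀ f ∈ Fc M E, f ∈ V ∨ f⁻¹ ∈ V
  R_le_V : Rc M A E ≤ V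
  w_inv_not_mem_V : w⁻¹ ∉ V
  V_gen : ∀ f ∈ V, f⁻¹ ∉ V → f * w⁻¹ ∈ V
  gauss : ∀ P : Polynomial (Om M), (∀ i, P.coeff i ∈ Rc M A E) →
    (∃ i, P.coeff i ≠ 0 ∧ (P.coeff i)⁻¹ ∈ Rc M A E) → (P.eval x)⁻¹ ∈ V
  separable : ∀ f ∈ V, ∃ P : Polynomial (Om M),
    (∀ i, P.coeff i ∈ Alg.polyRing (Rc M A E) x) ∧
    P.eval f * w⁻¹ ∈ V ∧ (Polynomial.derivative P).eval f ≠ 0 ∧
    ((Polynomial.derivative P).eval f)⁻¹ ∈ V

/-- The `q`-expansion principle on both charts. -/
structure QepFacts (M : ℕ) (A : ValuationSubring Qb) (E : IntermediateField ℚ Qb)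
    (V : Subring (Om M)) (w x : Om M) : Prop where
  qep_fin : ∀ b ∈ Alg.chart (Fc M E) (Rc M A E) x, b * w⁻¹ ∈ V →
    b * w⁻¹ ∈ Alg.chart (Fc M E) (Rc M A E) x
  qep_inf : ∀ b ∈ Alg.chart (Fc M E) (Rc M A E) x⁻¹, b * w⁻¹ ∈ V →
    b * w⁻¹ ∈ Alg.chart (Fc M E) (Rc M A E) x⁻¹

/-- The branch facts. -/
structure BranchFacts (M : ℕ) (A : ValuationSubring Qb) (E : IntermediateField ℚ Qb)
    (x : Om M) (S : Finset (Om M)) : Prop where
  S_mem : ∀ s ∈ S, s ∈ Rc M A E
  S_distinct : ∀ s ∈ S, ∀ t ∈ S, s ≠ t → (s - t)⁻¹ ∈ Rc M A E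
  S_unit : ∀ s ∈ S, s ≠ 0 → s⁻¹ ∈ Rc M A E
  unramified : ∀ O : ValuationSubring (Om M), (∀ a ∈ Lc M, a ∈ O) → ∀ c ∈ Lc M, c ∉ S →
    x - c ∈ O → (x - c)⁻¹ ∉ O → ∀ t ∈ O, t⁻¹ ∉ O → t * (x - c)⁻¹ ∈ O

/-- Assembly of one `GoodModel` from the six groups of facts. -/
theorem goodModel_of_facts {M : ℕ} {A : ValuationSubring Qb} {E : IntermediateField ℚ Qb}
    {V : Subring (Om M)} {w x : Om M} {S : Finset (Om M)}
    (hcz : CharZero (Om M))
    (hF : FieldFacts M A E) (hU : UnifFacts M A E w) (hC : CoordFacts M E x)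
    (hV : ValFacts M A E V w x) (hQ : QepFacts M A E V w x) (hB : BranchFacts M A E x S) :
    Alg.GoodModel (Lc M) (Ec M E) (Fc M E) (Rc M A E) V w x S where
  charZero := hcz
  R_le := hF.R_le
  R_total := hF.R_total
  w_mem := hU.w_mem
  w_ne_zero := hU.w_ne_zero
  w_inv_not_mem := hU.w_inv_not_mem
  w_gen := hU.w_gen
  w_discrete := hU.w_discrete
  residue_perfect := hU.residue_perfect
  E_le_L := hF.E_le_L
  E_le_F := hF.E_le_F
  L_algebraic := hF.L_algebraic
  L_algClosed := hF.L_algClosed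
  E_closed_in_F := hF.E_closed_in_F
  compositum := hF.compositum
  x_mem := hC.x_mem
  x_transcendental := hC.x_transcendental
  finite := hC.finite
  V_le := hV.V_le
  x_mem_V := hV.x_mem_V
  V_total := hV.V_total
  R_le_V := hV.R_le_V
  w_inv_not_mem_V := hV.w_inv_not_mem_V
  V_gen := hV.V_gen
  gauss := hV.gauss
  qep_fin := hQ.qep_fin
  qep_inf := hQ.qep_inf
  separable := hV.separable
  S_mem := hB.S_mem
  S_distinct := hB.S_distinct
  S_unit := hB.S_unit
  unramified := hB.unramified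

end Fermat.Agent.S18.H576

end
end
-- ===== PACK-END S18/H576/Skel.lean

-- ===== PACK-BEGIN S18/H264/SepModular.lean
section



/-!
# S18 / G-SEP at the modular function field (helper264)

Prelude-level consequences of `SepLaurent.lean`, for a perfect field `k` of characteristic `p`
(no hypothesis on the level `N`, not even `NeZero N`):

* `order_jqModC` : `ord_q (j̄) = -1`;
* `isSeparable_laurent_jqModC` : every `y ∈ k((q))` algebraic over `k(j̄)` is separable over it;
* `isSeparable_full` : every `y ∈ F_k = modularFunctionFieldFullC k N` algebraic over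
  `k(j̄) ⊆ F_k` is separable over `k(j̄)`;
* `algebra_isSeparable_full` : if `F_k` is algebraic (e.g. finite: Sq05 `ModFiniteStatement`)
  over `k(j̄)`, then `F_k / k(j̄)` is separable;
* `exists_bivariate_simple_root_jqModC` : liftable form, `∃ P ∈ k[X][Y]`, `P(j̄, y) = 0`,
  `(∂P/∂Y)(j̄, y) ≠ 0`.
-/

set_option autoImplicit false

noncomputable section

namespace Fermat.Agent.S18.H264

open ModularCurve IntermediateField Polynomial

section Order

variable (k : Type*) [Field k]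

/-- The `q`-order of `j̄ = q⁻¹ + 744 + …` is `-1`. -/
theorem order_jqModC : (jqModC k).order = -1 := by
  have hne : jqModC k ≠ 0 := jqModC_ne_zero_of_nontrivial k
  apply le_antisymm
  · apply HahnSeries.order_le_of_coeff_ne_zero
    rw [coeff_jqModC_neg_one]
    exact one_ne_zero
  · rw [HahnSeries.le_order_iff_forall hne]
    intro j hj
    exact coeff_jqModC_of_lt k hj

end Order

section Sep

variable (k : Type*) [Field k] [PerfectField k] (p : ℕ) [hp : Fact p.Prime] [CharP k p]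

include hp in
/-- Every Laurent series algebraic over `k(j̄)` is separable over `k(j̄)`. -/
theorem isSeparable_laurent_jqModC (y : LaurentSeries k)
    (hy : IsAlgebraic (IntermediateField.adjoin k {jqModC k}) y) :
    IsSeparable (IntermediateField.adjoin k {jqModC k}) y :=
  isSeparable_laurent_of_order_eq_neg_one p (jqModC k) y (order_jqModC k) hy

include hp in
/-- Liftable form: `∃ P ∈ k[X][Y]` with `P(j̄, y) = 0` and `(∂P/∂Y)(j̄, y) ≠ 0`. -/
theorem exists_bivariate_simple_root_jqModC (y : LaurentSeries k)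
    (hy : IsAlgebraic (IntermediateField.adjoin k {jqModC k}) y) :
    ∃ P : Polynomial (Polynomial k),
      P.eval₂ (aeval (jqModC k) : Polynomial k →ₐ[k] LaurentSeries k).toRingHom y = 0 ∧
      (derivative P).eval₂
        (aeval (jqModC k) : Polynomial k →ₐ[k] LaurentSeries k).toRingHom y ≠ 0 :=
  exists_bivariate_simple_root (jqModC k) y (isSeparable_laurent_jqModC k p y hy)

variable (N : ℕ)

include hp in
/-- Inside `F_k = modularFunctionFieldFullC k N`: every element algebraic over `k(j̄)` is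
separable over `k(j̄)`.  (The element `⟨jqModC k, _⟩` is `Sq05.jC k N` unfolded.) -/
theorem isSeparable_full (y : modularFunctionFieldFullC k N)
    (hy : IsAlgebraic
      (IntermediateField.adjoin k
        {(⟨jqModC k, jqModC_mem_full k N⟩ : modularFunctionFieldFullC k N)}) y) :
    IsSeparable
      (IntermediateField.adjoin k
        {(⟨jqModC k, jqModC_mem_full k N⟩ : modularFunctionFieldFullC k N)}) y := by
  refine isSeparable_of_isAlgebraic_of_addVal p
    ((HahnSeries.addVal ℤ k).comap (algebraMap (modularFunctionFieldFullC k N) (LaurentSeries k)))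
    (⟨jqModC k, jqModC_mem_full k N⟩ : modularFunctionFieldFullC k N) (-1) ?_
    (not_prime_dvd_neg_one p hp.out) y hy
  have h : (HahnSeries.addVal ℤ k) (jqModC k) = (((jqModC k).order : ℤ) : WithTop ℤ) :=
    HahnSeries.addVal_apply_of_ne (jqModC_ne_zero_of_nontrivial k)
  rw [order_jqModC] at h
  exact h

include hp in
/-- If `F_k` is algebraic over `k(j̄)` (e.g. finite), then `F_k / k(j̄)` is separable. -/
theorem algebra_isSeparable_full
    [Algebra.IsAlgebraic
      (IntermediateField.adjoin k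
        {(⟨jqModC k, jqModC_mem_full k N⟩ : modularFunctionFieldFullC k N)})
      (modularFunctionFieldFullC k N)] :
    Algebra.IsSeparable
      (IntermediateField.adjoin k
        {(⟨jqModC k, jqModC_mem_full k N⟩ : modularFunctionFieldFullC k N)})
      (modularFunctionFieldFullC k N) :=
  ⟨fun y => isSeparable_full k p N y (Algebra.IsAlgebraic.isAlgebraic y)⟩

end Sep

end Fermat.Agent.S18.H264

end
end
-- ===== PACK-END S18/H264/SepModular.lean

-- ===== PACK-BEGIN S18/H107/PolyInt.lean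
section




/-!
# helper107 — S18 / M3-T : explicit monic equations (cubic, quartic) give integrality
-/

set_option autoImplicit false

namespace Fermat.Agent.S18.H107

open Polynomial Fermat.Agent.S18.Alg

variable {Ω : Type*} [Field Ω]

theorem mem_intCl_of_cubic107 (T : Subring Ω) (b a₂ a₁ a₀ : Ω) (h₂ : a₂ ∈ T) (h₁ : a₁ ∈ T)
    (h₀ : a₀ ∈ T) (h : b ^ 3 + a₂ * b ^ 2 + a₁ * b + a₀ = 0) : b ∈ intCl107 T := by
  rw [mem_intCl107]
  refine ⟨X ^ 3 + (C (⟨a₂, h₂⟩ : T) * X ^ 2 + C (⟨a₁, h₁⟩ : T) * X + C (⟨a₀, h₀⟩ : T)),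
    monic_X_pow_add (lt_of_le_of_lt degree_quadratic_le (by norm_num)), ?_⟩
  simp only [eval₂_add, eval₂_mul, eval₂_pow, eval₂_X, eval₂_C]
  show b ^ 3 + (a₂ * b ^ 2 + a₁ * b + a₀) = 0
  linear_combination h

theorem mem_intCl_of_quartic107 (T : Subring Ω) (b a₃ a₂ a₁ a₀ : Ω) (h₃ : a₃ ∈ T) (h₂ : a₂ ∈ T)
    (h₁ : a₁ ∈ T) (h₀ : a₀ ∈ T) (h : b ^ 4 + a₃ * b ^ 3 + a₂ * b ^ 2 + a₁ * b + a₀ = 0) :
    b ∈ intCl107 T := by
  rw [mem_intCl107]
  refine ⟨X ^ 4 + (C (⟨a₃, h₃⟩ : T) * X ^ 3 + C (⟨a₂, h₂⟩ : T) * X ^ 2 + C (⟨a₁, h₁⟩ : T) * X +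
      C (⟨a₀, h₀⟩ : T)),
    monic_X_pow_add (lt_of_le_of_lt degree_cubic_le (by norm_num)), ?_⟩
  simp only [eval₂_add, eval₂_mul, eval₂_pow, eval₂_X, eval₂_C]
  show b ^ 4 + (a₃ * b ^ 3 + a₂ * b ^ 2 + a₁ * b + a₀) = 0
  linear_combination h

theorem natCast_mem_polyRing107 (R : Subring Ω) (x : Ω) (n : ℕ) : (n : Ω) ∈ polyRing R x :=
  natCast_mem _ n

end Fermat.Agent.S18.H107

end
-- ===== PACK-END S18/H107/PolyInt.lean

-- ===== PACK-BEGIN S18/H203/TorsionFree.lean
section


/-!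
# S18 / b1 (helper203): `B / w B` is torsion-free over `S / w S`

`S` an integrally closed domain, `w ∈ S` prime, `F / Frac S` a field extension, `B` the integral
closure of `S` in `F`.

* `dvd_of_dvd_smul` : `w ∣ t • b` in `B`, `w ∤ t` in `S`  ⟹  `w ∣ b` in `B`.
* `dvd_of_dvd_mul` : the same with `algebraMap S B t * b`.
* `not_dvd_of_not_dvd` : if `w ∤ b` in `B` and `w ∤ t` in `S` then `w ∤ t • b`.
-/

set_option autoImplicit false

namespace Fermat.Agent.S18.H203

section

variable {S B : Type*} [CommRing S] [IsDomain S] [IsIntegrallyClosed S]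
  [CommRing B] [Algebra S B]

/-- **b1, regular sequence.** In the integral closure `B` of `S`: if the prime element `w`
divides `t • b` and `w ∤ t` in `S`, then `w ∣ b` in `B`. -/
theorem dvd_of_dvd_smul (K F : Type*) [Field K] [Algebra S K] [IsFractionRing S K]
    [Field F] [Algebra K F] [Algebra S F] [IsScalarTower S K F]
    [Algebra B F] [IsScalarTower S B F] [IsIntegralClosure B S F]
    {w t : S} (hw : Prime w) (ht : ¬ w ∣ t) {b : B}
    (h : algebraMap S B w ∣ t • b) : algebraMap S B w ∣ b := by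
  obtain ⟨y, hy⟩ := h
  have hinjK : Function.Injective (algebraMap S K) := IsFractionRing.injective S K
  have hw0 : algebraMap S K w ≠ 0 := by
    simpa using (map_ne_zero_iff _ hinjK).mpr hw.ne_zero
  have hwF : algebraMap S F w ≠ 0 := by
    rw [IsScalarTower.algebraMap_apply S K F]
    simpa using (map_ne_zero_iff _ (algebraMap K F).injective).mpr hw0
  set z : F := (algebraMap S F w)⁻¹ * algebraMap B F b with hz
  have h1 : algebraMap S F w * z = algebraMap B F b := by
    rw [hz, mul_inv_cancel_left₀ hwF]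
  have h2 : algebraMap S F t * z = algebraMap B F y := by
    have e1 : algebraMap B F (t • b) = algebraMap S F t * algebraMap B F b := by
      rw [Algebra.smul_def, map_mul, ← IsScalarTower.algebraMap_apply]
    have e2 : algebraMap B F (t • b) = algebraMap S F w * algebraMap B F y := by
      rw [hy, map_mul, ← IsScalarTower.algebraMap_apply]
    rw [hz]
    calc algebraMap S F t * ((algebraMap S F w)⁻¹ * algebraMap B F b)
        = (algebraMap S F w)⁻¹ * (algebraMap S F t * algebraMap B F b) := by ring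
      _ = (algebraMap S F w)⁻¹ * (algebraMap S F w * algebraMap B F y) := by rw [← e1, e2]
      _ = algebraMap B F y := inv_mul_cancel_left₀ hwF _
  have hi1 : IsIntegral S (algebraMap S F w * z) := by
    rw [h1]; exact (IsIntegralClosure.isIntegral S F b).algebraMap
  have hi2 : IsIntegral S (algebraMap S F t * z) := by
    rw [h2]; exact (IsIntegralClosure.isIntegral S F y).algebraMap
  have hzi : IsIntegral S z := isIntegral_of_isIntegral_mul K hw ht hi1 hi2
  obtain ⟨b', hb'⟩ := (IsIntegralClosure.isIntegral_iff (A := B)).mp hzi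
  refine ⟨b', ?_⟩
  apply IsIntegralClosure.algebraMap_injective B S F
  rw [map_mul, hb', ← IsScalarTower.algebraMap_apply, h1]

/-- Multiplicative form of `dvd_of_dvd_smul`. -/
theorem dvd_of_dvd_mul (K F : Type*) [Field K] [Algebra S K] [IsFractionRing S K]
    [Field F] [Algebra K F] [Algebra S F] [IsScalarTower S K F]
    [Algebra B F] [IsScalarTower S B F] [IsIntegralClosure B S F]
    {w t : S} (hw : Prime w) (ht : ¬ w ∣ t) {b : B}
    (h : algebraMap S B w ∣ algebraMap S B t * b) : algebraMap S B w ∣ b := by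
  rw [← Algebra.smul_def] at h
  exact dvd_of_dvd_smul K F hw ht h

end

end Fermat.Agent.S18.H203

end
-- ===== PACK-END S18/H203/TorsionFree.lean

-- ===== PACK-BEGIN S18/H203/QuotFree.lean
section


/-!
# S18 / b1 (helper203): the special fibre `B / w B` is free over `S / w S`

`S` an integrally closed domain, `w ∈ S` prime, `F / Frac S` a field extension, `B` the integral
closure of `S` in `F`.  Put `S̄ := S ⧸ (w)` and `B̄ := B ⧸ (w) B` (Mathlib instance
`Ideal.Quotient.algebraQuotientMapQuotient : Algebra S̄ B̄`).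

* `isTorsionFree_quotient` : `B̄` is a torsion-free `S̄`-module.
* `finite_quotient`        : `B̄` is a finite `S̄`-module if `B` is a finite `S`-module.
* `free_quotient`          : `B̄` is a free `S̄`-module if moreover `S̄` is a PID
  (application: `S = R[x]`, `R` a DVR with uniformiser `w`, `S̄ = κ[x]`).
-/

set_option autoImplicit false

namespace Fermat.Agent.S18.H203

open Ideal

section

variable {S B : Type*} [CommRing S] [IsDomain S] [IsIntegrallyClosed S]
  [CommRing B] [Algebra S B]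

omit [IsDomain S] [IsIntegrallyClosed S] in
/-- `(w) B` is the principal ideal generated by the image of `w`. -/
theorem map_span_singleton_eq (w : S) :
    (Ideal.span {w}).map (algebraMap S B) = Ideal.span {algebraMap S B w} := by
  rw [Ideal.map_span, Set.image_singleton]

omit [IsDomain S] [IsIntegrallyClosed S] in
/-- membership in `(w) B` is divisibility by `w`. -/
theorem mem_map_span_singleton_iff (w : S) (b : B) :
    b ∈ (Ideal.span {w}).map (algebraMap S B) ↔ algebraMap S B w ∣ b := by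
  rw [map_span_singleton_eq, Ideal.mem_span_singleton]

/-- **b1, torsion-freeness of the special fibre.** -/
theorem isTorsionFree_quotient (K F : Type*) [Field K] [Algebra S K] [IsFractionRing S K]
    [Field F] [Algebra K F] [Algebra S F] [IsScalarTower S K F]
    [Algebra B F] [IsScalarTower S B F] [IsIntegralClosure B S F]
    {w : S} (hw : Prime w) :
    Module.IsTorsionFree (S ⧸ Ideal.span {w}) (B ⧸ (Ideal.span {w}).map (algebraMap S B)) := by
  have : (Ideal.span {w}).IsPrime := (Ideal.span_singleton_prime hw.ne_zero).mpr hw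
  refine ⟨fun r hr => ?_⟩
  obtain ⟨t, rfl⟩ := Ideal.Quotient.mk_surjective r
  have ht : ¬ w ∣ t := by
    intro hdvd
    have h0 : (Ideal.Quotient.mk (Ideal.span {w}) t) = 0 := by
      rw [Ideal.Quotient.eq_zero_iff_mem, Ideal.mem_span_singleton]
      exact hdvd
    exact hr.ne_zero h0
  intro x y hxy
  obtain ⟨x, rfl⟩ := Ideal.Quotient.mk_surjective x
  obtain ⟨y, rfl⟩ := Ideal.Quotient.mk_surjective y
  simp only [Ideal.Quotient.mk_smul_mk_quotient_map_quotient] at hxy
  rw [Ideal.Quotient.eq, ← mul_sub, mem_map_span_singleton_iff] at hxy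
  rw [Ideal.Quotient.eq, mem_map_span_singleton_iff]
  exact dvd_of_dvd_mul K F hw ht hxy

omit [IsDomain S] [IsIntegrallyClosed S] in
/-- The special fibre is a finite module. -/
theorem finite_quotient [Module.Finite S B] (I : Ideal S) :
    Module.Finite (S ⧸ I) (B ⧸ I.map (algebraMap S B)) := by
  have : Module.Finite S (B ⧸ I.map (algebraMap S B)) :=
    Module.Finite.of_surjective (Ideal.Quotient.mkₐ S (I.map (algebraMap S B))).toLinearMap
      (Ideal.Quotient.mkₐ_surjective S _)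
  exact Module.Finite.of_restrictScalars_finite S (S ⧸ I) (B ⧸ I.map (algebraMap S B))

/-- **b1, freeness of the special fibre.** -/
theorem free_quotient (K F : Type*) [Field K] [Algebra S K] [IsFractionRing S K]
    [Field F] [Algebra K F] [Algebra S F] [IsScalarTower S K F]
    [Algebra B F] [IsScalarTower S B F] [IsIntegralClosure B S F] [Module.Finite S B]
    {w : S} (hw : Prime w) [IsPrincipalIdealRing (S ⧸ Ideal.span {w})] :
    Module.Free (S ⧸ Ideal.span {w}) (B ⧸ (Ideal.span {w}).map (algebraMap S B)) := by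
  have : (Ideal.span {w}).IsPrime := (Ideal.span_singleton_prime hw.ne_zero).mpr hw
  have := isTorsionFree_quotient (B := B) K F hw
  have := finite_quotient (B := B) (Ideal.span {w})
  exact Module.free_of_finite_type_torsion_free'

end

end Fermat.Agent.S18.H203

end
-- ===== PACK-END S18/H203/QuotFree.lean

-- ===== PACK-BEGIN S18/H274/TraceNil.lean
section


/-!
# S18 / b2 (helper274) — the radical of the trace form consists of nilpotents (char 0)

Mathlib-only.  `C` a commutative `Λ`-algebra with a finite basis `β`, `φ : Λ →+* K` a ring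
homomorphism to a field of characteristic zero.

* `exists_pow_leftMulMatrix_map_eq_zero` : if `φ (Tr (z c)) = 0` for all `c`, then the matrix of
  multiplication by some power `z ^ m` vanishes under `φ`.
* `exists_pow_dvd_of_trace_dvd` : (`φ` = reduction mod `t`)  if `t ∣ Tr (z c)` for all `c` then
  `t ∣ z ^ m` in `C` for some `m`.
* `eq_zero_of_trace_eq_zero` : (`φ` = inclusion into the fraction field) if `Tr (z c) = 0` for all
  `c` and `C` is reduced, then `z = 0`.
* `discr_ne_zero_of_charZero` : the discriminant of a basis of a reduced finite free algebra over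
  a domain of characteristic zero is nonzero.
-/

namespace Fermat.Agent.S18.H274

open Module

section basic

variable {Λ : Type*} [CommRing Λ] {C : Type*} [CommRing C] [Algebra Λ C]
variable {ι : Type*} [Fintype ι] [DecidableEq ι] (β : Basis ι Λ C)

omit [DecidableEq ι] in
include β in
theorem dvd_of_forall_dvd_repr (t : Λ) (x : C) (h : ∀ i, t ∣ β.repr x i) :
    algebraMap Λ C t ∣ x := by
  choose e he using h
  refine ⟨∑ i, e i • β i, ?_⟩
  conv_lhs => rw [← β.sum_repr x]
  rw [Finset.mul_sum]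
  refine Finset.sum_congr rfl fun i _ => ?_
  rw [he i, mul_smul, Algebra.smul_def t]

omit [Fintype ι] [DecidableEq ι] in
include β in
theorem dvd_repr_of_dvd (t : Λ) (x : C) (h : algebraMap Λ C t ∣ x) (i : ι) :
    t ∣ β.repr x i := by
  obtain ⟨c, rfl⟩ := h
  rw [← Algebra.smul_def, map_smul]
  exact ⟨β.repr c i, rfl⟩

omit [DecidableEq ι] in
theorem trace_mul_dvd_of_basis (d : Λ) (y : C)
    (h : ∀ k, d ∣ Algebra.trace Λ C (y * β k)) (c : C) :
    d ∣ Algebra.trace Λ C (y * c) := by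
  conv_rhs => rw [← β.sum_repr c]
  rw [Finset.mul_sum, map_sum]
  refine Finset.dvd_sum fun k _ => ?_
  rw [mul_smul_comm, map_smul, smul_eq_mul]
  exact Dvd.dvd.mul_left (h k) _

theorem exists_pow_leftMulMatrix_map_eq_zero {K : Type*} [Field K] [CharZero K]
    (φ : Λ →+* K) (z : C) (hz : ∀ c, φ (Algebra.trace Λ C (z * c)) = 0) :
    ∃ m : ℕ, (Algebra.leftMulMatrix β (z ^ m)).map φ = 0 := by
  let A := Algebra.leftMulMatrix β z
  have hA : ∀ k, 1 ≤ k → ((φ.mapMatrix A) ^ k).trace = 0 := by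
    intro k hk
    obtain ⟨k, rfl⟩ : ∃ j, k = j + 1 := ⟨k - 1, by omega⟩
    rw [← map_pow, RingHom.mapMatrix_apply, ← AddMonoidHom.map_trace, ← map_pow,
      ← Algebra.trace_eq_matrix_trace β, pow_succ']
    exact hz _
  obtain ⟨m, hm⟩ := matrix_isNilpotent_of_trace_pow_eq_zero (φ.mapMatrix A) hA
  refine ⟨m, ?_⟩
  rw [map_pow, ← RingHom.mapMatrix_apply, map_pow]
  exact hm

end basic

section quotient

variable {Λ : Type*} [CommRing Λ] {C : Type*} [CommRing C] [Algebra Λ C]
variable {ι : Type*} [Fintype ι] [DecidableEq ι] (β : Basis ι Λ C)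

include β in
/-- If `K` is a characteristic zero field, `π : Λ →+* K` has kernel contained in `(t)` and
`π (Tr (z c)) = 0` for all `c`, then `z` is nilpotent modulo `t C`. -/
theorem exists_pow_dvd_of_trace_map_eq_zero {K : Type*} [Field K] [CharZero K]
    (π : Λ →+* K) (t : Λ) (hker : ∀ x, π x = 0 → t ∣ x)
    (z : C) (hz : ∀ c, π (Algebra.trace Λ C (z * c)) = 0) :
    ∃ m : ℕ, algebraMap Λ C t ∣ z ^ m := by
  classical
  obtain ⟨m, hm⟩ := exists_pow_leftMulMatrix_map_eq_zero β π z hz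
  refine ⟨m, dvd_of_forall_dvd_repr β t _ fun i => ?_⟩
  have h1 := Algebra.leftMulMatrix_mulVec_repr β (z ^ m) 1
  rw [mul_one] at h1
  rw [← h1]
  simp only [Matrix.mulVec, dotProduct]
  refine Finset.dvd_sum fun j _ => ?_
  apply Dvd.dvd.mul_right
  apply hker
  have := congrFun (congrFun hm i) j
  simpa using this

end quotient

section domain

variable {Λ : Type*} [CommRing Λ] [IsDomain Λ] [CharZero Λ]
variable {C : Type*} [CommRing C] [IsReduced C] [Algebra Λ C]
variable {ι : Type*} [Fintype ι] [DecidableEq ι] (β : Basis ι Λ C)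

include β in
theorem eq_zero_of_trace_eq_zero (z : C) (hz : ∀ c, Algebra.trace Λ C (z * c) = 0) : z = 0 := by
  classical
  let K := FractionRing Λ
  have : CharZero K := charZero_of_injective_algebraMap (IsFractionRing.injective Λ K)
  obtain ⟨m, hm⟩ := exists_pow_leftMulMatrix_map_eq_zero β (algebraMap Λ K) z
    (fun c => by rw [hz c, map_zero])
  have h0 : Algebra.leftMulMatrix β (z ^ m) = 0 := by
    ext i j
    have := congrFun (congrFun hm i) j
    simp only [Matrix.map_apply, Matrix.zero_apply] at this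
    rw [Matrix.zero_apply]
    exact IsFractionRing.injective Λ K (by rw [this, map_zero])
  have h1 : z ^ m = 0 := Algebra.leftMulMatrix_injective β (by rw [h0, map_zero])
  exact IsReduced.eq_zero _ ⟨m, h1⟩

/-- The discriminant of a basis of a reduced finite free algebra over a domain of
characteristic zero is nonzero. -/
theorem discr_ne_zero_of_charZero : Algebra.discr Λ β ≠ 0 := by
  classical
  intro hD
  rw [Algebra.discr_def] at hD
  obtain ⟨v, hv0, hv⟩ := Matrix.exists_mulVec_eq_zero_iff.mpr hD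
  have hz : ∀ c, Algebra.trace Λ C ((∑ i, v i • β i) * c) = 0 := by
    intro c
    have hk : ∀ k, (0 : Λ) ∣ Algebra.trace Λ C ((∑ i, v i • β i) * β k) := by
      intro k
      rw [zero_dvd_iff]
      have := congrFun hv k
      simp only [Matrix.mulVec, dotProduct, Algebra.traceMatrix_apply, Algebra.traceForm_apply,
        Pi.zero_apply] at this
      rw [Finset.sum_mul, map_sum, ← this]
      refine Finset.sum_congr rfl fun i _ => ?_
      rw [smul_mul_assoc, map_smul, smul_eq_mul, mul_comm (β i) (β k), mul_comm]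
    exact zero_dvd_iff.mp (trace_mul_dvd_of_basis β 0 _ hk c)
  have h0 := eq_zero_of_trace_eq_zero β _ hz
  apply hv0
  funext i
  have h1 := congrArg (fun x => β.repr x i) h0
  simp only [β.repr_sum_self, map_zero, Finsupp.coe_zero, Pi.zero_apply] at h1
  exact h1

end domain

end Fermat.Agent.S18.H274

end
-- ===== PACK-END S18/H274/TraceNil.lean

-- ===== PACK-BEGIN S18/H274/Tame.lean
section




/-!
# S18 / b2.3 (helper274) — TAME discriminant bound

Mathlib-only, sorry-free.  `Λ` a domain, `t` a prime element, `π : Λ →+* K` a surjection onto a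
field of characteristic `0` with kernel `(t)`.  `C` a Dedekind domain which is free of finite rank
over `Λ` with basis `β`.

* `pow_dvd_mul_of_trace_dvd` : if `t ^ a ∣ Tr (y c)` for all `c : C`, then `t ^ a ∣ t * y` in `C`
  ("`t` times the trace dual is integral").
* `tame_discr_of_residue` : if `y : Fin r → C` is linearly independent modulo `rad (t C)` then
  `¬ t ^ (card ι - r + 1) ∣ discr β`.
* `tameDiscr` : the same in the frozen shape `TameDiscrStatement` of
  `origin/helper33:Fermat/Agent/S18/B12/Spec.lean` (`Λ` a PID containing `ℚ`).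
-/

namespace Fermat.Agent.S18.H274

open Module

section

variable {Λ : Type*} [CommRing Λ] [IsDomain Λ]
variable {C : Type*} [CommRing C] [IsDedekindDomain C] [Algebra Λ C]
variable {ι : Type*} [Fintype ι] [DecidableEq ι] (β : Basis ι Λ C)
variable {K : Type*} [Field K] [CharZero K] (π : Λ →+* K)

include β π in
/-- **`t` times the trace dual is integral.**  If `t ^ a` divides `Tr (y c)` for all `c`, then
`t ^ a` divides `t * y` in `C`. -/
theorem pow_dvd_mul_of_trace_dvd (t : Λ) (ht0 : t ≠ 0) (hπt : π t = 0)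
    (hker : ∀ x, π x = 0 → t ∣ x) (y : C) (a : ℕ)
    (hy : ∀ c, t ^ a ∣ Algebra.trace Λ C (y * c)) :
    algebraMap Λ C t ^ a ∣ algebraMap Λ C t * y := by
  classical
  have hinj : Function.Injective (algebraMap Λ C) := β.algebraMap_injective
  have hτ : algebraMap Λ C t ≠ 0 := fun h => ht0 (hinj (by rw [h, map_zero]))
  obtain ⟨β₀, β₀', z, z₁, h1, hz, hz₁⟩ :=
    exists_split_of_isDedekindDomain (algebraMap Λ C t * y) (algebraMap Λ C t ^ a)
      (pow_ne_zero a hτ)
  have hzc : ∀ c, π (Algebra.trace Λ C (z * c)) = 0 := by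
    intro c
    obtain ⟨e, he⟩ := hy (β₀' * c)
    have h2 : t ^ a * Algebra.trace Λ C (z * c) = t ^ a * (t * e) := by
      calc t ^ a * Algebra.trace Λ C (z * c)
          = Algebra.trace Λ C ((z * algebraMap Λ C t ^ a) * c) := by
            rw [← smul_eq_mul, ← map_smul, Algebra.smul_def, map_pow]
            congr 1; ring
        _ = Algebra.trace Λ C (t • (y * (β₀' * c))) := by
            rw [hz, Algebra.smul_def]
            congr 1; ring
        _ = t ^ a * (t * e) := by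
            rw [map_smul, he, smul_eq_mul]; ring
    have h3 := mul_left_cancel₀ (pow_ne_zero a ht0) h2
    rw [h3, map_mul, hπt, zero_mul]
  obtain ⟨m, c₀, hc₀⟩ := exists_pow_dvd_of_trace_map_eq_zero β π t hker z hzc
  have hβ₀ : β₀ = 1 - z := by rw [← h1]; ring
  have hgeom := mul_neg_geom_sum z (m * a)
  refine ⟨(∑ i ∈ Finset.range (m * a), z ^ i) * z₁ + c₀ ^ a * (algebraMap Λ C t * y), ?_⟩
  have hzma : z ^ (m * a) = algebraMap Λ C t ^ a * c₀ ^ a := by
    rw [pow_mul, hc₀, mul_pow]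
  calc algebraMap Λ C t * y
      = (1 - z ^ (m * a)) * (algebraMap Λ C t * y) + z ^ (m * a) * (algebraMap Λ C t * y) := by
        ring
    _ = (∑ i ∈ Finset.range (m * a), z ^ i) * (β₀ * (algebraMap Λ C t * y))
          + z ^ (m * a) * (algebraMap Λ C t * y) := by
        rw [← hgeom, hβ₀]; ring
    _ = algebraMap Λ C t ^ a *
          ((∑ i ∈ Finset.range (m * a), z ^ i) * z₁ + c₀ ^ a * (algebraMap Λ C t * y)) := by
        rw [← hz₁, hzma]; ring

include π in
/-- **TAME discriminant bound**, residue-field form.  `π : Λ →+* K` a surjection onto a field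
of characteristic `0` with kernel `(t)`, `t` prime; `C` Dedekind, free over `Λ` with basis `β`.
If `y : Fin r → C` is linearly independent modulo `rad (t C)`, then
`t ^ (card ι - r + 1)` does not divide the discriminant of `β`. -/
theorem tame_discr_of_residue [WfDvdMonoid Λ] (hπ : Function.Surjective π)
    (t : Λ) (ht : Prime t) (hπt : π t = 0) (hker : ∀ x, π x = 0 → t ∣ x)
    (r : ℕ) (y : Fin r → C)
    (hy : ∀ a : Fin r → Λ,
        (∑ i, a i • y i) ∈ (Ideal.span {algebraMap Λ C t}).radical → ∀ i, t ∣ a i) :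
    ¬ t ^ (Fintype.card ι - r + 1) ∣ Algebra.discr Λ β := by
  classical
  have ht0 : t ≠ 0 := ht.ne_zero
  have hchar : CharZero Λ := ⟨fun n m h => by
    have := congrArg π h
    simpa using this⟩
  -- Step 1: the discriminant is nonzero
  have hD0 : Algebra.discr Λ β ≠ 0 := discr_ne_zero_of_charZero β
  -- Step 2: `D = t ^ a * D'`
  obtain ⟨a, D', hD', hD⟩ := WfDvdMonoid.max_power_factor hD0 ht.irreducible
  set G := Algebra.traceMatrix Λ β with hG
  have hGdet : G.det = t ^ a * D' := by rw [← hD, Algebra.discr_def]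
  have hGsymm : ∀ i k, G i k = G k i := by
    intro i k
    simp only [hG, Algebra.traceMatrix_apply, Algebra.traceForm_apply, mul_comm]
  have hGapp : ∀ i k, G i k = Algebra.trace Λ C (β i * β k) := by
    intro i k
    simp only [hG, Algebra.traceMatrix_apply, Algebra.traceForm_apply]
  -- trace of `(∑ i, M i j • β i) * β k` is `(G * M) k j`
  have htrcol : ∀ (M : Matrix ι ι Λ) (j k : ι),
      Algebra.trace Λ C ((∑ i, M i j • β i) * β k) = (G * M) k j := by
    intro M j k
    rw [Finset.sum_mul, map_sum, Matrix.mul_apply]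
    refine Finset.sum_congr rfl fun i _ => ?_
    rw [smul_mul_assoc, map_smul, smul_eq_mul, hGsymm k i, hGapp, mul_comm]
  -- Step 3: the matrix `N` with `t • adj G = t ^ a • N`
  have hdual : ∀ j, algebraMap Λ C t ^ a ∣ algebraMap Λ C t * (∑ i, G.adjugate i j • β i) := by
    intro j
    apply pow_dvd_mul_of_trace_dvd β π t ht0 hπt hker
    apply trace_mul_dvd_of_basis β
    intro k
    rw [htrcol, Matrix.mul_adjugate, hGdet, Matrix.smul_apply, Matrix.one_apply, smul_eq_mul]
    split_ifs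
    · rw [mul_one]; exact Dvd.intro _ rfl
    · rw [mul_zero]; exact dvd_zero _
  choose x hx using hdual
  let N : Matrix ι ι Λ := fun i j => β.repr (x j) i
  have hxN : ∀ j, x j = ∑ i, N i j • β i := fun j => (β.sum_repr (x j)).symm
  have hN : ∀ i j, t * G.adjugate i j = t ^ a * N i j := by
    intro i j
    have h1 : β.repr (algebraMap Λ C t * ∑ i, G.adjugate i j • β i) i
        = β.repr (algebraMap Λ C t ^ a * x j) i := by rw [hx j]
    rw [← Algebra.smul_def, map_smul, Finsupp.smul_apply, β.repr_sum_self, ← map_pow,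
      ← Algebra.smul_def, map_smul, Finsupp.smul_apply, smul_eq_mul, smul_eq_mul] at h1
    exact h1
  -- Step 4: `G * N = (t * D') • 1`
  have hGN : G * N = (t * D') • (1 : Matrix ι ι Λ) := by
    ext i j
    apply mul_left_cancel₀ (pow_ne_zero a ht0)
    have h2 : t ^ a * (G * N) i j = t * (G * G.adjugate) i j := by
      rw [Matrix.mul_apply, Matrix.mul_apply, Finset.mul_sum, Finset.mul_sum]
      refine Finset.sum_congr rfl fun k _ => ?_
      rw [mul_left_comm, ← hN, mul_left_comm]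
    rw [h2, Matrix.mul_adjugate, hGdet]
    simp only [Matrix.smul_apply, smul_eq_mul]
    ring
  -- Step 5: the columns of `N` are nilpotent modulo `t`
  have hxrad : ∀ j, x j ∈ (Ideal.span {algebraMap Λ C t}).radical := by
    intro j
    have h3 : ∀ c, π (Algebra.trace Λ C (x j * c)) = 0 := by
      intro c
      have h4 : t ∣ Algebra.trace Λ C (x j * c) := by
        apply trace_mul_dvd_of_basis β
        intro k
        rw [hxN j, htrcol, hGN, Matrix.smul_apply, smul_eq_mul, mul_assoc]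
        exact Dvd.intro _ rfl
      obtain ⟨e, he⟩ := h4
      rw [he, map_mul, hπt, zero_mul]
    obtain ⟨m, hm⟩ := exists_pow_dvd_of_trace_map_eq_zero β π t hker (x j) h3
    rw [Ideal.mem_radical_iff]
    exact ⟨m, Ideal.mem_span_singleton.mpr hm⟩
  -- Step 6: rank bound
  let Nbar : Matrix ι ι K := N.map π
  let Ybar : Matrix ι (Fin r) K := fun i' i => π (β.repr (y i) i')
  let W : Submodule K (ι → K) := LinearMap.range Nbar.mulVecLin
  let f : (Fin r → K) →ₗ[K] ((ι → K) ⧸ W) := W.mkQ ∘ₗ Ybar.mulVecLin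
  have hfinj : Function.Injective f := by
    rw [← LinearMap.ker_eq_bot, LinearMap.ker_eq_bot']
    intro abar habar
    have h5 : Ybar.mulVec abar ∈ W := by
      have : W.mkQ (Ybar.mulVecLin abar) = 0 := habar
      rwa [Submodule.mkQ_apply, Submodule.Quotient.mk_eq_zero] at this
    obtain ⟨vbar, hvbar⟩ := h5
    choose a₀ ha₀ using fun i => hπ (abar i)
    choose v hv using fun j => hπ (vbar j)
    -- the element `e = ∑ a i • y i - ∑ v j • x j` is divisible by `t`
    have he : algebraMap Λ C t ∣ (∑ i, a₀ i • y i) - ∑ j, v j • x j := by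
      apply dvd_of_forall_dvd_repr β
      intro i'
      apply hker
      have h6 := congrFun hvbar i'
      simp only [Matrix.mulVecLin_apply, Matrix.mulVec, dotProduct, Nbar, Ybar,
        Matrix.map_apply] at h6
      rw [map_sub, Finsupp.sub_apply, map_sum, map_sum, Finsupp.finsetSum_apply,
        Finsupp.finsetSum_apply, map_sub, map_sum, map_sum, sub_eq_zero]
      have e1 : ∀ i, π ((β.repr (a₀ i • y i)) i') = π (β.repr (y i) i') * abar i := by
        intro i
        rw [map_smul, Finsupp.smul_apply, smul_eq_mul, map_mul, ha₀, mul_comm]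
      have e2 : ∀ j, π ((β.repr (v j • x j)) i') = π (N i' j) * vbar j := by
        intro j
        rw [map_smul, Finsupp.smul_apply, smul_eq_mul, map_mul, hv, mul_comm]
      simp only [e1, e2]
      exact h6.symm
    -- hence `∑ a i • y i` is in the radical
    have hrad : (∑ i, a₀ i • y i) ∈ (Ideal.span {algebraMap Λ C t}).radical := by
      have h7 : (∑ i, a₀ i • y i) = ((∑ i, a₀ i • y i) - ∑ j, v j • x j) + ∑ j, v j • x j := by
        ring
      rw [h7]
      refine Ideal.add_mem _ (Ideal.le_radical (Ideal.mem_span_singleton.mpr he)) ?_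
      refine Ideal.sum_mem _ fun j _ => ?_
      rw [Algebra.smul_def]
      exact Ideal.mul_mem_left _ _ (hxrad j)
    funext i
    rw [← ha₀ i]
    obtain ⟨e, he'⟩ := hy a₀ hrad i
    rw [he', map_mul, hπt, zero_mul, Pi.zero_apply]
  have hrank : r + Nbar.rank ≤ Fintype.card ι := by
    have h8 := LinearMap.finrank_le_finrank_of_injective hfinj
    have h9 := Submodule.finrank_quotient_add_finrank W
    rw [Module.finrank_fin_fun, ] at h8
    rw [Module.finrank_fintype_fun_eq_card] at h9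
    have h10 : Nbar.rank = finrank K W := rfl
    omega
  -- Step 7: DET-RANK
  have hdetN : t ^ r ∣ N.det := by
    refine dvd_trans (pow_dvd_pow t ?_) (pow_sub_rank_dvd_det π hπ t hker N)
    have : (N.map π).rank = Nbar.rank := rfl
    omega
  -- Step 8: `a + r ≤ card ι`
  have hdet : t ^ a * D' * N.det = t ^ Fintype.card ι * D' ^ Fintype.card ι := by
    rw [← hGdet, ← Matrix.det_mul, hGN, Matrix.det_smul, Matrix.det_one, mul_one, mul_pow]
  have har : a + r ≤ Fintype.card ι := by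
    by_contra hlt
    rw [not_le] at hlt
    obtain ⟨e, he⟩ := hdetN
    obtain ⟨d, hd⟩ : ∃ d, a + r = Fintype.card ι + (d + 1) :=
      ⟨a + r - Fintype.card ι - 1, by omega⟩
    have h11 : t ^ Fintype.card ι * (t * (t ^ d * (D' * e)))
        = t ^ Fintype.card ι * D' ^ Fintype.card ι := by
      rw [← hdet, he]
      have : t ^ a * D' * (t ^ r * e) = t ^ (a + r) * (D' * e) := by ring
      rw [this, hd]
      ring
    have h12 := mul_left_cancel₀ (pow_ne_zero _ ht0) h11
    exact hD' (ht.dvd_of_dvd_pow (Dvd.intro _ h12))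
  -- Step 9: conclusion
  intro hdvd
  rw [hD] at hdvd
  obtain ⟨d, hd⟩ : ∃ d, Fintype.card ι - r + 1 = a + (d + 1) :=
    ⟨Fintype.card ι - r - a, by omega⟩
  rw [hd, pow_add, pow_succ] at hdvd
  have h13 := (mul_dvd_mul_iff_left (pow_ne_zero a ht0)).mp hdvd
  exact hD' (dvd_trans (Dvd.intro_left _ rfl) h13)

end

universe u v

/-- **b2-α (tame discriminant)** in the frozen shape `TameDiscrStatement` of
`origin/helper33:Fermat/Agent/S18/B12/Spec.lean` (unfolded):
`theorem foo : TameDiscrStatement := fun Λ _ _ _ _ t ht C₀ _ _ _ _ _ n β r y hy =>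
   tameDiscr Λ t ht C₀ n β r y hy`. -/
theorem tameDiscr
    (Λ : Type u) [CommRing Λ] [IsDomain Λ] [IsPrincipalIdealRing Λ] [Algebra ℚ Λ]
    (t : Λ) (ht : Prime t)
    (C₀ : Type v) [CommRing C₀] [IsDomain C₀] [IsDedekindDomain C₀] [Algebra Λ C₀]
    [Module.IsTorsionFree Λ C₀]
    (n : ℕ) (β : Module.Basis (Fin n) Λ C₀) (r : ℕ) (y : Fin r → C₀)
    (hy : ∀ a : Fin r → Λ,
        (∑ i, a i • y i) ∈ (Ideal.span {algebraMap Λ C₀ t}).radical → ∀ i, t ∣ a i) :
    ¬ t ^ (n - r + 1) ∣ Algebra.discr Λ β := by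
  have hmax : (Ideal.span {t}).IsMaximal :=
    PrincipalIdealRing.isMaximal_of_irreducible ht.irreducible
  let _ : Field (Λ ⧸ Ideal.span {t}) := Ideal.Quotient.field _
  have hchar : CharZero (Λ ⧸ Ideal.span {t}) := algebraRat.charZero _
  have h := tame_discr_of_residue β (Ideal.Quotient.mk (Ideal.span {t}))
    Ideal.Quotient.mk_surjective t ht
    ((Ideal.Quotient.eq_zero_iff_dvd t t).mpr dvd_rfl)
    (fun x hx => (Ideal.Quotient.eq_zero_iff_dvd t x).mp hx) r y hy
  rwa [Fintype.card_fin] at h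

end Fermat.Agent.S18.H274

end
-- ===== PACK-END S18/H274/Tame.lean

-- ===== PACK-BEGIN S37/H278/Normal.lean
section




/-!
# S37 / S18, piece b2-core (helper278): normality criterion via the discriminant

`o` a DVR with uniformizer `t` and fraction field `K`; `C` a finite free `o`-algebra with basis `b`
(rank `n`); `L = K ⊗ C` (any localization of `C` at `o \ {0}`).  Let `J = rad(tC)` (equal to the
Jacobson radical of `C`).  If `C / J` is generated by `s` elements as an `o`-module (e.g. `C` has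
at most `s` maximal ideals, all with residue field `o / t`) and `t ^ (n - s + 1) ∤ disc(b)`, then
`C` is integrally closed in `L`.

No differents, no completions: the trace form kills `J` modulo `t`, and an integral element
`y = z / t ∉ C` produces one more factor `t` in the Gram determinant of an adapted basis.
-/

set_option autoImplicit false
set_option linter.style.haveILetI false
set_option linter.unusedSectionVars false

namespace Fermat.Agent.S37.H278

open Module Polynomial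

section Basics

variable {o : Type*} [CommRing o] [IsDomain o]
  {C : Type*} [CommRing C] [Algebra o C]

/-- divisibility of the discriminant by `r` does not depend on the basis -/
theorem dvd_discr_of_dvd_discr {ι ι' : Type*} [Fintype ι] [Fintype ι'] [DecidableEq ι]
    [DecidableEq ι'] (b : Basis ι o C) (b' : Basis ι' o C) (r : o)
    (h : r ∣ Algebra.discr o b') : r ∣ Algebra.discr o b := by
  let e : ι' ≃ ι := b'.indexEquiv b
  let b'' : Basis ι o C := b'.reindex e
  have h1 : Algebra.discr o b'' = Algebra.discr o b' := by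
    have := Algebra.discr_reindex o b' e
    rwa [← Basis.coe_reindex] at this
  have h2 : Algebra.discr o b'' = (b.toMatrix b'').det ^ 2 * Algebra.discr o b := by
    rw [← Algebra.discr_of_matrix_vecMul, Basis.toMatrix_map_vecMul]
  have h3 : IsUnit (b.toMatrix b'').det := by
    rw [← LinearMap.toMatrix_id_eq_basis_toMatrix b'' b]
    exact LinearEquiv.isUnit_det (LinearEquiv.refl o C) b'' b
  rw [← h1, h2] at h
  exact ((h3.pow 2).dvd_mul_left).mp h

end Basics

section Main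

variable {o : Type*} [CommRing o] [IsDomain o] [IsDiscreteValuationRing o]
  {K : Type*} [Field K] [Algebra o K] [IsFractionRing o K]
  {C : Type*} [CommRing C] [Algebra o C] [Module.Free o C] [Module.Finite o C]
  {L : Type*} [CommRing L] [Algebra K L] [Algebra o L] [Algebra C L]
  [IsScalarTower o K L] [IsScalarTower o C L]
  [IsLocalization (Algebra.algebraMapSubmonoid C (nonZeroDivisors o)) L]

omit [IsDiscreteValuationRing o] [Module.Finite o C] in
theorem smul_eq_zero_imp {σ : o} (hσ : σ ≠ 0) {c : C} (h : σ • c = 0) : c = 0 := by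
  have hreg : IsSMulRegular C σ :=
    Module.IsTorsionFree.isSMulRegular (IsRegular.of_ne_zero hσ)
  exact hreg (by simpa using h)

omit [IsDiscreteValuationRing o] [Module.Finite o C] in
include o in
theorem algebraMap_injective_of_free (L : Type*) [CommRing L] [Algebra o L] [Algebra C L]
    [IsScalarTower o C L]
    [IsLocalization (Algebra.algebraMapSubmonoid C (nonZeroDivisors o)) L] :
    Function.Injective (algebraMap C L) := by
  apply IsLocalization.injective L (M := Algebra.algebraMapSubmonoid C (nonZeroDivisors o))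
  rintro _ ⟨σ, hσ, rfl⟩
  rw [mem_nonZeroDivisors_iff_right]
  intro c hc
  have hσ0 : σ ≠ 0 := nonZeroDivisors.ne_zero hσ
  apply smul_eq_zero_imp hσ0
  rw [Algebra.smul_def, mul_comm]
  exact hc

omit [IsDiscreteValuationRing o] [Module.Free o C] [Module.Finite o C] in
include o in
theorem exists_smul_mem_range (l : L) :
    ∃ σ : o, σ ≠ 0 ∧ σ • l ∈ (algebraMap C L).range := by
  obtain ⟨⟨c, ⟨_, σ, hσ, rfl⟩⟩, h⟩ :=
    IsLocalization.surj (Algebra.algebraMapSubmonoid C (nonZeroDivisors o)) l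
  refine ⟨σ, nonZeroDivisors.ne_zero hσ, c, ?_⟩
  simp only at h
  rw [← h, ← IsScalarTower.algebraMap_apply, Algebra.smul_def, mul_comm]

include K in
/-- Step A: a minimal counterexample. -/
theorem exists_minimal_counterexample {t : o} (ht : Irreducible t) (x : L) (hx : IsIntegral o x)
    (hxC : x ∉ (algebraMap C L).range) :
    ∃ (y : L) (z : C), IsIntegral o y ∧ y ∉ (algebraMap C L).range ∧
      algebraMap C L z = t • y ∧
      z ∉ (IsLocalRing.maximalIdeal o • ⊤ : Submodule o C) := by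
  classical
  -- some power of t moves x into the range
  have hex : ∃ k : ℕ, t ^ k • x ∈ (algebraMap C L).range := by
    obtain ⟨σ, hσ, c, hc⟩ := exists_smul_mem_range (o := o) (C := C) x
    obtain ⟨n, w, hw⟩ := IsDiscreteValuationRing.eq_unit_mul_pow_irreducible hσ ht
    refine ⟨n, (↑w⁻¹ : o) • c, ?_⟩
    rw [Algebra.smul_def, map_mul, hc, ← IsScalarTower.algebraMap_apply, ← Algebra.smul_def,
      smul_smul, hw]
    congr 1
    rw [← mul_assoc, Units.inv_mul, one_mul]
  let k := Nat.find hex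
  have hk : t ^ k • x ∈ (algebraMap C L).range := Nat.find_spec hex
  have hk0 : k ≠ 0 := by
    intro h0
    rw [h0, pow_zero, one_smul] at hk
    exact hxC hk
  obtain ⟨k', hk'⟩ : ∃ k', k = k' + 1 := ⟨k - 1, by omega⟩
  have hmin : t ^ k' • x ∉ (algebraMap C L).range := by
    have : k' < k := by omega
    exact Nat.find_min hex this
  obtain ⟨z, hz⟩ := hk
  refine ⟨t ^ k' • x, z, ?_, hmin, ?_, ?_⟩
  · rw [Algebra.smul_def]
    exact (isIntegral_algebraMap).mul hx
  · rw [hz, hk', pow_succ, smul_smul, mul_comm]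
  · intro hzmem
    rw [ht.maximalIdeal_eq, Submodule.ideal_span_singleton_smul] at hzmem
    obtain ⟨z', -, hz'⟩ := hzmem
    have hz'' : t • z' = z := hz'
    apply hmin
    refine ⟨z', ?_⟩
    have h1 : t • (algebraMap C L z' - t ^ k' • x) = 0 := by
      rw [smul_sub, smul_smul, ← pow_succ', ← hk', ← hz, ← hz'']
      rw [Algebra.smul_def t z', map_mul, ← IsScalarTower.algebraMap_apply, ← Algebra.smul_def,
        sub_self]
    have := smul_eq_zero_of_fractionRing K ht.ne_zero h1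
    exact sub_eq_zero.mp this

omit [IsDiscreteValuationRing o] [Module.Finite o C] in
include o in
/-- Step A': `z = t y` with `y` integral is nilpotent modulo `t`. -/
theorem exists_pow_eq_smul {t : o} {y : L} {z : C} (hy : IsIntegral o y)
    (hz : algebraMap C L z = t • y) : ∃ (d : ℕ) (c : C), z ^ d = t • c := by
  obtain ⟨p, hp, hpy⟩ := hy
  have hq : eval₂ (algebraMap o L) (algebraMap o L t * y) (p.scaleRoots t) = 0 :=
    scaleRoots_eval₂_eq_zero (algebraMap o L) hpy
  rw [← Algebra.smul_def, ← hz] at hq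
  have hq' : algebraMap C L (eval₂ (algebraMap o C) z (p.scaleRoots t)) = 0 := by
    rw [Polynomial.hom_eval₂, ← IsScalarTower.algebraMap_eq]
    exact hq
  have hq0 : eval₂ (algebraMap o C) z (p.scaleRoots t) = 0 :=
    (algebraMap_injective_of_free (o := o) L) (by rw [hq', map_zero])
  have hmonic : (p.scaleRoots t).Monic := (monic_scaleRoots_iff t).mpr hp
  have hsum := hmonic.as_sum
  rw [natDegree_scaleRoots] at hsum
  rw [hsum, eval₂_add, eval₂_pow, eval₂_X, eval₂_finsetSum] at hq0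
  refine ⟨p.natDegree, -∑ i ∈ Finset.range p.natDegree,
    (p.coeff i * t ^ (p.natDegree - i - 1)) • z ^ i, ?_⟩
  rw [eq_neg_of_add_eq_zero_left hq0, smul_neg, Finset.smul_sum]
  congr 1
  refine Finset.sum_congr rfl fun i hi => ?_
  have hi' : i < p.natDegree := Finset.mem_range.mp hi
  have hpow : t ^ (p.natDegree - i) = t * t ^ (p.natDegree - i - 1) := by
    rw [← pow_succ']
    congr 1
    omega
  rw [eval₂_mul, eval₂_C, eval₂_pow, eval₂_X, coeff_scaleRoots, smul_smul, Algebra.smul_def, hpow]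
  congr 2
  ring

omit [IsDiscreteValuationRing o] [Module.Free o C] [Module.Finite o C] in
theorem mem_radical_span_iff {t : o} (c : C) :
    c ∈ (Ideal.span {algebraMap o C t}).radical ↔ ∃ (k : ℕ) (c' : C), c ^ k = t • c' := by
  constructor
  · rintro ⟨k, hk⟩
    obtain ⟨c', hc'⟩ := Ideal.mem_span_singleton'.mp hk
    exact ⟨k, c', by rw [← hc', Algebra.smul_def, mul_comm]⟩
  · rintro ⟨k, c', hk⟩
    refine ⟨k, Ideal.mem_span_singleton'.mpr ⟨c', ?_⟩⟩
    rw [hk, Algebra.smul_def, mul_comm]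

include K in
/-- **Normality criterion (b2-core).**  `o` a DVR with uniformizer `t`, `C` a finite free
`o`-algebra with basis `b`, `L` its localization at `o \ {0}`.  If `C / rad(tC)` is generated by
`s` elements as `o`-module and `t ^ (n - s + 1) ∤ disc(b)` (`n = #ι`), then every element of `L`
integral over `o` lies in (the image of) `C`. -/
theorem mem_range_of_isIntegral {t : o} (ht : Irreducible t)
    {ι : Type*} [Fintype ι] [DecidableEq ι] (b : Basis ι o C)
    (s : ℕ) (u : Fin s → C)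
    (hu : ((Ideal.span {algebraMap o C t}).radical.restrictScalars o) ⊔
        Submodule.span o (Set.range u) = ⊤)
    (hd : ¬ t ^ (Fintype.card ι - s + 1) ∣ Algebra.discr o b)
    (x : L) (hx : IsIntegral o x) : x ∈ (algebraMap C L).range := by
  classical
  by_contra hxC
  obtain ⟨y, z, hy, hyC, hzy, hzt⟩ := exists_minimal_counterexample (K := K) ht x hx hxC
  set J : Ideal C := (Ideal.span {algebraMap o C t}).radical with hJ
  have hzJ : z ∈ J := (mem_radical_span_iff z).mpr (exists_pow_eq_smul hy hzy)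
  obtain ⟨ι', _, _, b', Z, i₀, hi₀Z, hbi₀, hbZ, hcard⟩ :=
    exists_adapted_basis (J.restrictScalars o) z hzJ hzt s u hu
  -- the lattice generated by `C` and `y`
  let G : Set L := Set.range (fun i => algebraMap C L (b' i)) ∪ {y}
  have hGfin : G.Finite := (Set.finite_range _).union (Set.finite_singleton y)
  have hGint : ∀ g ∈ G, IsIntegral o g := by
    rintro g (⟨i, rfl⟩ | rfl)
    · exact (Algebra.IsIntegral.isIntegral (R := o) (b' i)).map (IsScalarTower.toAlgHom o C L)
    · exact hy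
  have hrange : ∀ c : C, algebraMap C L c ∈ Algebra.adjoin o G := by
    intro c
    have hc : c = ∑ i, (b'.repr c i) • b' i := (b'.sum_repr c).symm
    rw [hc, map_sum]
    refine Subalgebra.sum_mem _ fun i _ => ?_
    rw [Algebra.smul_def, map_mul, ← IsScalarTower.algebraMap_apply, ← Algebra.smul_def]
    exact Subalgebra.smul_mem _
      (Algebra.subset_adjoin (Set.mem_union_left _ (Set.mem_range_self i))) _
  have hspan : ∀ l : L, ∃ σ : o, σ ≠ 0 ∧ σ • l ∈ Algebra.adjoin o G := by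
    intro l
    obtain ⟨σ, hσ, c, hc⟩ := exists_smul_mem_range (o := o) (C := C) l
    exact ⟨σ, hσ, hc ▸ hrange c⟩
  have hR : IsLattice (Algebra.adjoin o G) := isLattice_adjoin hGfin hGint hspan
  let φ : C →ₐ[o] Algebra.adjoin o G :=
    (IsScalarTower.toAlgHom o C L).codRestrict (Algebra.adjoin o G) hrange
  let yR : Algebra.adjoin o G :=
    ⟨y, Algebra.subset_adjoin (Set.mem_union_right _ (Set.mem_singleton y))⟩
  have hφ : ∀ c : C, ((φ c : Algebra.adjoin o G) : L) = algebraMap C L c := fun c => rfl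
  have hφz : φ z = t • yR := Subtype.ext (by
    rw [hφ, hzy]; rfl)
  -- compatibility of traces
  have hτ : ∀ c : C, Algebra.trace o C c = Algebra.trace o (Algebra.adjoin o G) (φ c) := by
    intro c
    apply IsFractionRing.injective o K
    rw [← hR.trace_eq (K := K), hφ,
      ← Algebra.trace_localization o (nonZeroDivisors o) (Rₘ := K) (Sₘ := L)]
  have hE1 : ∀ c ∈ J, t ∣ Algebra.trace o C c := fun c hc => by
    obtain ⟨k, c', hk⟩ := (mem_radical_span_iff c).mp hc
    exact dvd_trace_of_pow_mem ht c k ⟨c', hk⟩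
  have hE2 : ∀ c : C, Algebra.trace o C (z * c) =
      t * Algebra.trace o (Algebra.adjoin o G) (yR * φ c) := by
    intro c
    rw [hτ, map_mul, hφz, smul_mul_assoc, map_smul, smul_eq_mul]
  have hE3 : ∀ c ∈ J, t ∣ Algebra.trace o (Algebra.adjoin o G) (yR * φ c) := by
    intro c hc
    obtain ⟨k, c', hk⟩ := (mem_radical_span_iff c).mp hc
    refine hR.dvd_trace (K := K) ht _ k ⟨yR ^ k * φ c', ?_⟩
    rw [mul_pow, ← map_pow, hk, map_smul, mul_smul_comm]
  -- the Gram matrix of the adapted basis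
  have hdet : t ^ (Z.card + 1) ∣ Algebra.discr o b' := by
    rw [Algebra.discr_def]
    refine pow_card_succ_dvd_det t _ Z i₀ ?_ ?_ ?_
    · intro i hi j
      rw [Algebra.traceMatrix_apply, Algebra.traceForm_apply]
      exact hE1 _ (J.mul_mem_right _ (hbZ i hi))
    · intro i hi
      rw [Algebra.traceMatrix_apply, Algebra.traceForm_apply, hbi₀, mul_comm, hE2, pow_two]
      exact mul_dvd_mul_left t (hE3 _ (hbZ i hi))
    · intro j
      rw [Algebra.traceMatrix_apply, Algebra.traceForm_apply, hbi₀, mul_comm, hE2]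
      exact dvd_mul_right t _
  have hcard' : Fintype.card ι = Fintype.card ι' := Fintype.card_congr (b.indexEquiv b')
  have hfin : t ^ (Fintype.card ι - s + 1) ∣ Algebra.discr o b' :=
    (pow_dvd_pow t (by omega)).trans hdet
  exact hd (dvd_discr_of_dvd_discr b b' _ hfin)

include K in
/-- **Normality criterion**, `IsIntegrallyClosedIn` form. -/
theorem isIntegrallyClosedIn_of_discr {t : o} (ht : Irreducible t)
    {ι : Type*} [Fintype ι] [DecidableEq ι] (b : Basis ι o C)
    (s : ℕ) (u : Fin s → C)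
    (hu : ((Ideal.span {algebraMap o C t}).radical.restrictScalars o) ⊔
        Submodule.span o (Set.range u) = ⊤)
    (hd : ¬ t ^ (Fintype.card ι - s + 1) ∣ Algebra.discr o b) :
    IsIntegrallyClosedIn C L := by
  refine ⟨algebraMap_injective_of_free (o := o) L, fun {x} => ⟨fun hx => ?_, ?_⟩⟩
  · have hx' : IsIntegral o x := isIntegral_trans (R := o) (A := C) x hx
    exact mem_range_of_isIntegral (K := K) ht b s u hu hd x hx'
  · rintro ⟨c, rfl⟩
    exact isIntegral_algebraMap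

omit [Module.Free o C] [Module.Finite o C] in
/-- The discriminant is always divisible by `t ^ (n - s)` when `C / rad(tC)` is generated by
`s` elements (no hypothesis on `L`). -/
theorem pow_dvd_discr [Module.Free o C] [Module.Finite o C] {t : o} (ht : Irreducible t)
    {ι : Type*} [Fintype ι] [DecidableEq ι] (b : Basis ι o C)
    (s : ℕ) (u : Fin s → C)
    (hu : ((Ideal.span {algebraMap o C t}).radical.restrictScalars o) ⊔
        Submodule.span o (Set.range u) = ⊤) :
    t ^ (Fintype.card ι - s) ∣ Algebra.discr o b := by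
  classical
  by_cases hn : Fintype.card ι ≤ s
  · rw [Nat.sub_eq_zero_of_le hn, pow_zero]
    exact one_dvd _
  -- `t • b i₁` is a nonzero element of `rad(tC)`, not in `t 𝔪`... we use `z := t`-free variant:
  -- pick an element of the radical outside `𝔪 C`; it exists since `n > s`.
  set J : Ideal C := (Ideal.span {algebraMap o C t}).radical with hJ
  have hex : ∃ z ∈ J, z ∉ (IsLocalRing.maximalIdeal o • ⊤ : Submodule o C) := by
    by_contra hcon
    -- then `C = 𝔪 C + span u`, so `C` is generated by `s` elements (Nakayama), contradiction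
    have hle : (J.restrictScalars o) ≤ (IsLocalRing.maximalIdeal o • ⊤ : Submodule o C) := by
      intro z hz
      by_contra hz'
      exact hcon ⟨z, hz, hz'⟩
    have htop : (⊤ : Submodule o C) ≤
        Submodule.span o (Set.range u) ⊔ (IsLocalRing.maximalIdeal o • ⊤ : Submodule o C) :=
      calc (⊤ : Submodule o C) = J.restrictScalars o ⊔ Submodule.span o (Set.range u) := hu.symm
        _ ≤ (IsLocalRing.maximalIdeal o • ⊤ : Submodule o C) ⊔ Submodule.span o (Set.range u) :=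
            sup_le_sup_right hle _
        _ = _ := sup_comm _ _
    have hjac : IsLocalRing.maximalIdeal o ≤ Ideal.jacobson ⊥ :=
      (IsLocalRing.jacobson_eq_maximalIdeal ⊥ bot_ne_top).ge
    have hspan : (⊤ : Submodule o C) ≤ Submodule.span o (Set.range u) :=
      Submodule.le_of_le_smul_of_le_jacobson_bot (Module.Finite.fg_top) hjac htop
    have hcardle : Fintype.card ι ≤ s := by
      have h1 : Module.finrank o C = Fintype.card ι := Module.finrank_eq_card_basis b
      have h2 := finrank_span_le_card (R := o) (Set.range u)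
      rw [top_le_iff.mp hspan, finrank_top] at h2
      have h4 : (Set.range u).toFinset.card ≤ s := by
        calc (Set.range u).toFinset.card ≤ (Finset.univ : Finset (Fin s)).card := by
              rw [Set.toFinset_range]
              exact Finset.card_image_le
          _ = s := by simp
      omega
    exact hn hcardle
  obtain ⟨z, hzJ, hzt⟩ := hex
  obtain ⟨ι', _, _, b', Z, i₀, hi₀Z, hbi₀, hbZ, hcard⟩ :=
    exists_adapted_basis (J.restrictScalars o) z hzJ hzt s u hu
  have hE1 : ∀ c ∈ J, t ∣ Algebra.trace o C c := fun c hc => by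
    obtain ⟨k, c', hk⟩ := (mem_radical_span_iff c).mp hc
    exact dvd_trace_of_pow_mem ht c k ⟨c', hk⟩
  have hdet : t ^ Z.card ∣ Algebra.discr o b' := by
    rw [Algebra.discr_def]
    refine pow_card_dvd_det t _ Z ?_
    intro i hi j
    rw [Algebra.traceMatrix_apply, Algebra.traceForm_apply]
    exact hE1 _ (J.mul_mem_right _ (hbZ i hi))
  have hcard' : Fintype.card ι = Fintype.card ι' := Fintype.card_congr (b.indexEquiv b')
  have hfin : t ^ (Fintype.card ι - s) ∣ Algebra.discr o b' :=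
    (pow_dvd_pow t (by omega)).trans hdet
  exact dvd_discr_of_dvd_discr b b' _ hfin

end Main

end Fermat.Agent.S37.H278

end
-- ===== PACK-END S37/H278/Normal.lean

-- ===== PACK-BEGIN S18/B12/H278/Transfer.lean
section


/-!
# b2-SF core over a PID (helper278)

`Λ` a PID, `t` a prime element, `C` a finite free commutative `Λ`-algebra with basis `b`,
`f : C →ₐ[Λ] L` an injective map into a commutative `Λ`-algebra without `Λ`-torsion.
If `C / rad(tC)` is spanned by `s` elements over `Λ` and `t ^ (n - s + 1) ∤ disc(b)`, then every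
`x : L` integral over `Λ` with `g₀ • x ∈ C` for some `g₀ ≠ 0` satisfies `g • x ∈ C` for some
`g ∉ (t)`:  **`C` is integrally closed in `L ∩ (C ⊗ Frac Λ)` locally at `t`**.

Proof: localise at `(t)` and apply the DVR criterion `mem_range_of_isIntegral` of
`Fermat/Agent/S37/H278/Normal.lean`.
-/

set_option autoImplicit false
set_option linter.style.haveILetI false
set_option linter.unusedSectionVars false

namespace Fermat.Agent.S18.B12.H278

open Module Polynomial Fermat.Agent.S37.H278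

section Transfer

variable {Λ : Type*} [CommRing Λ] [IsDomain Λ] [IsPrincipalIdealRing Λ]
  {C : Type*} [CommRing C] [Algebra Λ C]
  {L : Type*} [CommRing L] [Algebra Λ L]

/-- Divisibility by powers of `t` can be tested in the localisation at `(t)`. -/
theorem pow_dvd_of_pow_dvd_algebraMap {t : Λ} (ht : Prime t) (P : Ideal Λ) [P.IsPrime]
    (hP : P = Ideal.span {t})
    (o : Type*) [CommRing o] [Algebra Λ o] [IsLocalization.AtPrime o P] (k : ℕ) (d : Λ)
    (h : algebraMap Λ o t ^ k ∣ algebraMap Λ o d) : t ^ k ∣ d := by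
  obtain ⟨e, he⟩ := h
  obtain ⟨⟨a, g⟩, hag⟩ := IsLocalization.surj P.primeCompl e
  simp only at hag
  have hinj : Function.Injective (algebraMap Λ o) :=
    IsLocalization.injective o (Ideal.primeCompl_le_nonZeroDivisors P)
  have h1 : g.1 * d = t ^ k * a := by
    apply hinj
    rw [map_mul, map_mul, map_pow, he, ← hag]
    ring
  have hg : ¬ t ∣ g.1 := by
    intro hdiv
    exact g.2 (hP.ge (Ideal.mem_span_singleton.mpr hdiv))
  exact ht.pow_dvd_of_dvd_mul_left k hg ⟨a, h1⟩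

/-- The image of `t` is a uniformiser of the localisation at `(t)`. -/
theorem irreducible_algebraMap_of_atPrime {t : Λ} (P : Ideal Λ) [P.IsPrime]
    (hP : P = Ideal.span {t})
    (o : Type*) [CommRing o] [IsDomain o] [IsDiscreteValuationRing o] [Algebra Λ o]
    [IsLocalization.AtPrime o P] : Irreducible (algebraMap Λ o t) := by
  rw [IsDiscreteValuationRing.irreducible_iff_uniformizer,
    ← IsLocalization.AtPrime.map_eq_maximalIdeal P o, hP, Ideal.map_span, Set.image_singleton]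

/-- Transfer of the spanning hypothesis to the localisation. -/
theorem sup_eq_top_of_atPrime {t : Λ} (P : Ideal Λ) [P.IsPrime]
    (o : Type*) [CommRing o] [Algebra Λ o] [IsLocalization.AtPrime o P]
    (C' : Type*) [CommRing C'] [Algebra C C'] [Algebra o C'] [Algebra Λ C']
    [IsScalarTower Λ o C'] [IsScalarTower Λ C C']
    [IsLocalization (Algebra.algebraMapSubmonoid C P.primeCompl) C']
    (s : ℕ) (y : Fin s → C)
    (hy : ∀ x : C, ∃ a : Fin s → Λ,
        x - ∑ i, a i • y i ∈ (Ideal.span {algebraMap Λ C t}).radical) :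
    ((Ideal.span {algebraMap o C' (algebraMap Λ o t)}).radical.restrictScalars o) ⊔
        Submodule.span o (Set.range fun i => algebraMap C C' (y i)) = ⊤ := by
  rw [eq_top_iff]
  intro c' _
  obtain ⟨⟨c, m⟩, hcm⟩ := IsLocalization.surj (Algebra.algebraMapSubmonoid C P.primeCompl) c'
  obtain ⟨g, hg, hgm⟩ := m.2
  simp only at hcm
  -- `algebraMap g` is a unit of `o`
  obtain ⟨v, hv⟩ := (IsLocalization.map_units o (⟨g, hg⟩ : P.primeCompl)).exists_right_inv
  simp only at hv
  have hc' : c' = v • algebraMap C C' c := by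
    rw [← hcm, ← hgm, ← IsScalarTower.algebraMap_apply, IsScalarTower.algebraMap_apply Λ o C',
      Algebra.smul_def, mul_comm c', ← mul_assoc, ← map_mul, mul_comm v, hv, map_one, one_mul]
  rw [hc']
  refine Submodule.smul_mem _ _ ?_
  obtain ⟨a, ha⟩ := hy c
  have h1 : algebraMap C C' c =
      algebraMap C C' (c - ∑ i, a i • y i) + ∑ i, algebraMap Λ o (a i) • algebraMap C C' (y i) := by
    rw [map_sub, map_sum]
    have : ∀ i, algebraMap C C' (a i • y i) = algebraMap Λ o (a i) • algebraMap C C' (y i) := by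
      intro i
      rw [Algebra.smul_def, map_mul, Algebra.smul_def, ← IsScalarTower.algebraMap_apply,
        ← IsScalarTower.algebraMap_apply]
    simp only [this]
    ring
  rw [h1]
  refine Submodule.add_mem_sup ?_ ?_
  · show algebraMap C C' (c - ∑ i, a i • y i) ∈
      (Ideal.span {algebraMap o C' (algebraMap Λ o t)}).radical
    have h2 := Ideal.map_radical_le (algebraMap C C') (Ideal.mem_map_of_mem (algebraMap C C') ha)
    rw [Ideal.map_span, Set.image_singleton, ← IsScalarTower.algebraMap_apply,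
      IsScalarTower.algebraMap_apply Λ o C'] at h2
    exact h2
  · refine Submodule.sum_mem _ fun i _ => Submodule.smul_mem _ _ (Submodule.subset_span ⟨i, rfl⟩)

/-- Main transfer theorem, with abstract localisations `o = Λ_(t)`, `C' = C_(t)`,
`L' = C' ⊗ Frac o`. -/
theorem exists_smul_mem_range_aux {t : Λ} (ht : Prime t) (P : Ideal Λ) [P.IsPrime]
    (hP : P = Ideal.span {t})
    (o : Type*) [CommRing o] [IsDomain o] [IsDiscreteValuationRing o] [Algebra Λ o]
    [IsLocalization.AtPrime o P]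
    (C' : Type*) [CommRing C'] [Algebra C C'] [Algebra o C'] [Algebra Λ C']
    [IsScalarTower Λ o C'] [IsScalarTower Λ C C']
    [IsLocalization (Algebra.algebraMapSubmonoid C P.primeCompl) C']
    (L' : Type*) [CommRing L'] [Algebra o L'] [Algebra C' L']
    [IsScalarTower o C' L']
    [IsLocalization (Algebra.algebraMapSubmonoid C' (nonZeroDivisors o)) L']
    (hL : ∀ (g : Λ) (l : L), g ≠ 0 → g • l = 0 → l = 0)
    (f : C →ₐ[Λ] L) (hf : Function.Injective f)
    {ι : Type*} [Fintype ι] [DecidableEq ι] (b : Basis ι Λ C) (s : ℕ) (y : Fin s → C)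
    (hy : ∀ x : C, ∃ a : Fin s → Λ,
        x - ∑ i, a i • y i ∈ (Ideal.span {algebraMap Λ C t}).radical)
    (hd : ¬ t ^ (Fintype.card ι - s + 1) ∣ Algebra.discr Λ b)
    (x : L) (hx : IsIntegral Λ x) (hx0 : ∃ g₀ : Λ, g₀ ≠ 0 ∧ g₀ • x ∈ f.range) :
    ∃ g : Λ, ¬ t ∣ g ∧ g • x ∈ f.range := by
  classical
  -- `L'` is an algebra over `K = Frac o`
  have hunitK : ∀ z : nonZeroDivisors o, IsUnit (algebraMap o L' z) := by
    intro z
    rw [IsScalarTower.algebraMap_apply o C' L']
    exact IsLocalization.map_units L' (⟨algebraMap o C' z, ⟨z, z.2, rfl⟩⟩ :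
      Algebra.algebraMapSubmonoid C' (nonZeroDivisors o))
  letI : Algebra (FractionRing o) L' :=
    (IsLocalization.lift (M := nonZeroDivisors o) (g := algebraMap o L') hunitK).toAlgebra
  haveI : IsScalarTower o (FractionRing o) L' :=
    IsScalarTower.of_algebraMap_eq (fun z => (IsLocalization.lift_eq hunitK z).symm)
  obtain ⟨g₀, hg₀, c₀, hc₀'⟩ := hx0
  have hc₀ : f c₀ = g₀ • x := hc₀'
  obtain ⟨p, hpm, hpx⟩ := hx
  let b' : Basis ι o C' := b.localizationLocalization o P.primeCompl C'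
  haveI : Module.Free o C' := Module.Free.of_basis b'
  haveI : Module.Finite o C' := Module.Finite.of_basis b'
  haveI : Module.Free Λ C := Module.Free.of_basis b
  have ht' : Irreducible (algebraMap Λ o t) := irreducible_algebraMap_of_atPrime P hP o
  have hu' := sup_eq_top_of_atPrime (t := t) P o C' s y hy
  have hd' : ¬ algebraMap Λ o t ^ (Fintype.card ι - s + 1) ∣ Algebra.discr o b' := by
    rw [Algebra.discr_localizationLocalization Λ P.primeCompl C' b]
    exact fun h => hd (pow_dvd_of_pow_dvd_algebraMap ht P hP o _ _ h)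
  -- the maps
  have hinjΛo : Function.Injective (algebraMap Λ o) :=
    IsLocalization.injective o (Ideal.primeCompl_le_nonZeroDivisors P)
  have hinjC : Function.Injective (algebraMap C C') := by
    apply IsLocalization.injective C' (M := Algebra.algebraMapSubmonoid C P.primeCompl)
    rintro _ ⟨g, hg, rfl⟩
    rw [mem_nonZeroDivisors_iff_right]
    intro c hc
    have hg0 : g ≠ 0 := fun h => hg (h ▸ P.zero_mem)
    apply smul_eq_zero_imp hg0
    rw [Algebra.smul_def, mul_comm]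
    exact hc
  have hinjC' : Function.Injective (algebraMap C' L') := algebraMap_injective_of_free (o := o) L'
  let φ : C →+* L' := (algebraMap C' L').comp (algebraMap C C')
  have hφ : Function.Injective φ := hinjC'.comp hinjC
  let ψ : Λ →+* L' := φ.comp (algebraMap Λ C)
  have hψ : ∀ a, ψ a = algebraMap o L' (algebraMap Λ o a) := by
    intro a
    show algebraMap C' L' (algebraMap C C' (algebraMap Λ C a)) = _
    rw [← IsScalarTower.algebraMap_apply Λ C C', IsScalarTower.algebraMap_apply Λ o C',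
      ← IsScalarTower.algebraMap_apply o C' L']
  have hunit : IsUnit (ψ g₀) := by
    have hmem : algebraMap o C' (algebraMap Λ o g₀) ∈
        Algebra.algebraMapSubmonoid C' (nonZeroDivisors o) :=
      ⟨algebraMap Λ o g₀, mem_nonZeroDivisors_of_ne_zero
        (fun h => hg₀ (hinjΛo (by rw [h, map_zero]))), rfl⟩
    have := IsLocalization.map_units L' (⟨_, hmem⟩ :
      Algebra.algebraMapSubmonoid C' (nonZeroDivisors o))
    rw [hψ, IsScalarTower.algebraMap_apply o C' L']
    exact this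
  obtain ⟨w, hw⟩ := hunit.exists_left_inv
  -- the element `x' = c₀ / g₀` of `L'`
  set x' : L' := w * φ c₀ with hx'
  have hgx' : ψ g₀ * x' = φ c₀ := by
    rw [hx', ← mul_assoc, mul_comm (ψ g₀), hw, one_mul]
  -- `c₀` is a root of the scaled polynomial
  have hq : eval₂ (algebraMap Λ C) c₀ (scaleRoots p g₀) = 0 := by
    apply hf
    rw [map_zero]
    have h1 : f (eval₂ (algebraMap Λ C) c₀ (scaleRoots p g₀)) =
        eval₂ (algebraMap Λ L) (f c₀) (scaleRoots p g₀) := by
      rw [← Polynomial.aeval_def, ← Polynomial.aeval_def, Polynomial.aeval_algHom_apply]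
    rw [h1, hc₀, Algebra.smul_def, scaleRoots_eval₂_mul, hpx, mul_zero]
  have hx'int : IsIntegral o x' := by
    refine ⟨p.map (algebraMap Λ o), hpm.map _, ?_⟩
    rw [eval₂_map]
    have h2 : eval₂ ((algebraMap o L').comp (algebraMap Λ o)) x' p = eval₂ ψ x' p := by
      congr 1
      ext a
      exact (hψ a).symm
    rw [h2]
    have h3 : ψ g₀ ^ p.natDegree * eval₂ ψ x' p = 0 := by
      rw [← scaleRoots_eval₂_mul, hgx']
      have : eval₂ ψ (φ c₀) (scaleRoots p g₀) = φ (eval₂ (algebraMap Λ C) c₀ (scaleRoots p g₀)) := by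
        rw [Polynomial.hom_eval₂]
      rw [this, hq, map_zero]
    have hu2 : IsUnit (ψ g₀ ^ p.natDegree) := hunit.pow _
    exact (hu2.mul_right_eq_zero).mp h3
  -- apply the DVR criterion
  obtain ⟨c', hc'⟩ := mem_range_of_isIntegral (K := FractionRing o) ht' b' s
    (fun i => algebraMap C C' (y i)) hu' hd' x' hx'int
  obtain ⟨⟨c, m⟩, hcm⟩ := IsLocalization.surj (Algebra.algebraMapSubmonoid C P.primeCompl) c'
  obtain ⟨g, hg, hgm⟩ := m.2
  simp only at hcm
  refine ⟨g, fun hdiv => hg (hP.ge (Ideal.mem_span_singleton.mpr hdiv)), c, ?_⟩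
  -- `g • c₀ = g₀ • c` in `C`
  have hkey : g • c₀ = g₀ • c := by
    apply hφ
    have e1 : φ (g • c₀) = ψ g * φ c₀ := by
      rw [Algebra.smul_def, map_mul]; rfl
    have e2 : φ (g₀ • c) = ψ g₀ * φ c := by
      rw [Algebra.smul_def, map_mul]; rfl
    have e3 : φ c = x' * ψ g := by
      show algebraMap C' L' (algebraMap C C' c) = _
      rw [← hcm, map_mul, hc', ← hgm]
      rfl
    rw [e1, e2, e3, ← hgx']
    ring
  show f c = g • x
  have hfin : g₀ • (f c - g • x) = 0 := by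
    rw [smul_sub, smul_comm g₀ g x, ← hc₀, ← map_smul, ← map_smul, hkey, sub_self]
  exact sub_eq_zero.mp (hL g₀ _ hg₀ hfin)

/-- **Normality criterion over a PID, local at a prime `t`.**
`C` finite free `Λ`-algebra with basis `b`, `f : C → L` injective, `L` without `Λ`-torsion.  If
`C / rad(tC)` is spanned by `s` elements and `t ^ (n - s + 1) ∤ disc(b)`, then every `x : L`
integral over `Λ` which is a fraction of an element of `C` lies in `C` locally at `t`. -/
theorem exists_smul_mem_range_of_isIntegral {t : Λ} (ht : Prime t)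
    (hL : ∀ (g : Λ) (l : L), g ≠ 0 → g • l = 0 → l = 0)
    (f : C →ₐ[Λ] L) (hf : Function.Injective f)
    {ι : Type*} [Fintype ι] [DecidableEq ι] (b : Basis ι Λ C) (s : ℕ) (y : Fin s → C)
    (hy : ∀ x : C, ∃ a : Fin s → Λ,
        x - ∑ i, a i • y i ∈ (Ideal.span {algebraMap Λ C t}).radical)
    (hd : ¬ t ^ (Fintype.card ι - s + 1) ∣ Algebra.discr Λ b)
    (x : L) (hx : IsIntegral Λ x) (hx0 : ∃ g₀ : Λ, g₀ ≠ 0 ∧ g₀ • x ∈ f.range) :
    ∃ g : Λ, ¬ t ∣ g ∧ g • x ∈ f.range := by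
  haveI hP : (Ideal.span {t} : Ideal Λ).IsPrime := (Ideal.span_singleton_prime ht.ne_zero).mpr ht
  haveI : IsDiscreteValuationRing (Localization.AtPrime (Ideal.span {t} : Ideal Λ)) :=
    IsLocalization.AtPrime.isDiscreteValuationRing_of_dedekind_domain Λ
      (P := Ideal.span {t}) (by
        rw [Ne, Ideal.span_singleton_eq_bot]; exact ht.ne_zero) _
  exact exists_smul_mem_range_aux ht (Ideal.span {t}) rfl
    (Localization.AtPrime (Ideal.span {t} : Ideal Λ))
    (Localization (Algebra.algebraMapSubmonoid C (Ideal.span {t} : Ideal Λ).primeCompl))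
    (Localization (Algebra.algebraMapSubmonoid
      (Localization (Algebra.algebraMapSubmonoid C (Ideal.span {t} : Ideal Λ).primeCompl))
      (nonZeroDivisors (Localization.AtPrime (Ideal.span {t} : Ideal Λ)))))
    hL f hf b s y hy hd x hx hx0

end Transfer

end Fermat.Agent.S18.B12.H278

end
-- ===== PACK-END S18/B12/H278/Transfer.lean

-- ===== PACK-BEGIN S18/H394/KummerFinite.lean
section



/-!
# S18, Route K, pieces b3+b4 (helper394): finiteness of the Kummer chart

If `B` is contained in a finitely generated `R[x]`-submodule of `F` and `u` has a denominator in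
`B`, then `kummerSub B` is finitely generated over `R[x]` (in the explicit form consumed by the
two-chart connectedness theorem).
-/

set_option autoImplicit false

namespace Fermat.Agent.S18.H394

open Polynomial

section Finite

variable {R F C : Type*} [CommRing R] [IsNoetherianRing R] [Field F] [Algebra R F]
  [CommRing C] [Algebra F C] [Algebra R C] [IsScalarTower R F C]

omit [IsNoetherianRing R] [Algebra R C] [IsScalarTower R F C] [CommRing C] [Algebra F C] in
theorem pow_mul_mem_of_mem_degSet {m : ℕ} (hm0 : 0 < m) {u : F} (hu : u ≠ 0)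
    {B : Subalgebra R F} (hB : RootClosed m B) {d : F} (hdB : d ∈ B) (hdu : d * u⁻¹ ∈ B)
    {k : ℕ} {f : F} (hf : f ∈ degSet B m u k) : d ^ k * f ∈ B := by
  apply hB
  obtain ⟨m', rfl⟩ : ∃ m', m = m' + 1 := Nat.exists_eq_succ_of_ne_zero hm0.ne'
  have hf' : f ^ (m' + 1) * u ^ k ∈ B := hf
  have key : (d ^ k * f) ^ (m' + 1) = (d * u⁻¹) ^ k * (d ^ k) ^ m' * (f ^ (m' + 1) * u ^ k) := by
    have hu' : (u⁻¹) ^ k * u ^ k = 1 := by rw [← mul_pow, inv_mul_cancel₀ hu, one_pow]
    calc (d ^ k * f) ^ (m' + 1) = d ^ k * (d ^ k) ^ m' * f ^ (m' + 1) * 1 := by ring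
      _ = d ^ k * (d ^ k) ^ m' * f ^ (m' + 1) * ((u⁻¹) ^ k * u ^ k) := by rw [hu']
      _ = (d * u⁻¹) ^ k * (d ^ k) ^ m' * (f ^ (m' + 1) * u ^ k) := by ring
  rw [key]
  exact B.mul_mem (B.mul_mem (B.pow_mem hdu k) (B.pow_mem (B.pow_mem hdB k) m')) hf'

theorem kummerSub_fg (pb : PowerBasis F C) (u : F) (hu : u ≠ 0)
    (hT : pb.gen ^ pb.dim = algebraMap F C u) (hm0 : 0 < pb.dim)
    (B : Subalgebra R F) (hB : RootClosed pb.dim B)
    (x : F) (hx : x ∈ B)
    (hfin : ∃ s : Finset F, ∀ b ∈ B, ∃ P : F → Polynomial R,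
      b = ∑ β ∈ s, Polynomial.aeval x (P β) * β)
    (hden : ∃ d ∈ B, d ≠ 0 ∧ d * u⁻¹ ∈ B) :
    ∃ S : Finset C, (∀ c ∈ S, c ∈ kummerSub pb u hT hm0 B hB) ∧
      ∀ b ∈ kummerSub pb u hT hm0 B hB, ∃ P : C → Polynomial R,
        b = ∑ c ∈ S, Polynomial.aeval (algebraMap F C x) (P c) * c := by
  classical
  letI modF : Module R[X] F := Module.compHom F (aeval x : R[X] →ₐ[R] F).toRingHom
  letI modC : Module R[X] C :=
    Module.compHom C (aeval (algebraMap F C x) : R[X] →ₐ[R] C).toRingHom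
  have smulF : ∀ (p : R[X]) (f : F), p • f = aeval x p * f := fun _ _ => rfl
  have smulC : ∀ (p : R[X]) (c : C), p • c = aeval (algebraMap F C x) p * c := fun _ _ => rfl
  have haevalB : ∀ p : R[X], aeval x p ∈ B := fun p => by
    have : aeval x p ∈ Algebra.adjoin R {x} := Polynomial.aeval_mem_adjoin_singleton R x
    exact (Algebra.adjoin_le (Set.singleton_subset_iff.mpr hx)) this
  set K := kummerSub pb u hT hm0 B hB with hK
  have haevalC : ∀ p : R[X], aeval (algebraMap F C x) p = algebraMap F C (aeval x p) := fun p =>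
    Polynomial.aeval_algebraMap_apply C x p
  obtain ⟨s₀, hs₀⟩ := hfin
  obtain ⟨d, hdB, hd0, hdu⟩ := hden
  -- the ambient finitely generated module
  let N : Submodule R[X] F := Submodule.span R[X] (s₀ : Set F)
  have hNfg : N.FG := Submodule.fg_span (Finset.finite_toSet s₀)
  have hBN : ∀ b ∈ B, b ∈ N := by
    intro b hb
    obtain ⟨P, hP⟩ := hs₀ b hb
    rw [hP]
    refine N.sum_mem fun β hβ => ?_
    rw [← smulF]
    exact N.smul_mem (P β) (Submodule.subset_span hβ)
  -- the graded pieces as `R[X]`-submodules of `F`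
  let I : ℕ → Submodule R[X] F := fun k =>
    { carrier := degSet B pb.dim u k
      add_mem' := fun ha hb => add_mem_degSet hB ha hb
      zero_mem' := zero_mem_degSet hm0 k
      smul_mem' := fun p f hf => by
        show p • f ∈ degSet B pb.dim u k
        rw [smulF]
        exact smul_mem_degSet (haevalB p) hf }
  -- multiplication by a constant as an `R[X]`-linear map
  let mulL : F → (F →ₗ[R[X]] F) := fun a =>
    { toFun := fun f => a * f
      map_add' := fun f g => mul_add a f g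
      map_smul' := fun p f => by
        show a * (p • f) = p • (a * f)
        rw [smulF, smulF]; ring }
  have hIfg : ∀ k, (I k).FG := by
    intro k
    have hJle : (I k).map (mulL (d ^ k)) ≤ N := by
      rintro _ ⟨f, hf, rfl⟩
      exact hBN _ (pow_mul_mem_of_mem_degSet hm0 hu hB hdB hdu hf)
    have hJfg : ((I k).map (mulL (d ^ k))).FG := Submodule.FG.of_le hNfg hJle
    have hI : I k = ((I k).map (mulL (d ^ k))).map (mulL (d ^ k)⁻¹) := by
      rw [← Submodule.map_comp]
      have : (mulL (d ^ k)⁻¹).comp (mulL (d ^ k)) = LinearMap.id := by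
        apply LinearMap.ext
        intro f
        show (d ^ k)⁻¹ * (d ^ k * f) = f
        rw [← mul_assoc, inv_mul_cancel₀ (pow_ne_zero k hd0), one_mul]
      rw [this, Submodule.map_id]
    rw [hI]
    exact hJfg.map _
  -- the Kummer algebra as an `R[X]`-submodule of `C`
  let K' : Submodule R[X] C :=
    { carrier := K
      add_mem' := fun ha hb => K.add_mem ha hb
      zero_mem' := K.zero_mem
      smul_mem' := fun p c hc => by
        show p • c ∈ K
        rw [smulC, haevalC]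
        exact K.mul_mem (algebraMap_mem_kummerSub hT hm0 hB (haevalB p)) hc }
  let φ : ℕ → (F →ₗ[R[X]] C) := fun k =>
    { toFun := fun f => algebraMap F C f * pb.gen ^ k
      map_add' := fun f g => by rw [map_add, add_mul]
      map_smul' := fun p f => by
        show algebraMap F C (p • f) * pb.gen ^ k = p • (algebraMap F C f * pb.gen ^ k)
        rw [smulF, smulC, haevalC, map_mul, mul_assoc] }
  have hK' : K' = ⨆ k : Fin pb.dim, (I (k : ℕ)).map (φ (k : ℕ)) := by
    apply le_antisymm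
    · intro c hc
      have hcK : c ∈ K := hc
      rw [← sum_co pb c]
      refine Submodule.sum_mem _ fun k _ => ?_
      refine (le_iSup (fun k : Fin pb.dim => (I (k : ℕ)).map (φ (k : ℕ))) k) ?_
      exact ⟨co pb k c, hcK k, rfl⟩
    · refine iSup_le fun k => ?_
      rintro _ ⟨f, hf, rfl⟩
      exact monomial_mem_kummerSub hT hm0 hB hf
  have hK'fg : K'.FG := by
    rw [hK']
    exact Submodule.fg_iSup _ fun k => (hIfg k).map _
  obtain ⟨S, hS⟩ := hK'fg
  refine ⟨S, fun c hc => ?_, fun b hb => ?_⟩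
  · have : c ∈ K' := hS ▸ Submodule.subset_span hc
    exact this
  · have hb' : b ∈ Submodule.span R[X] (S : Set C) := by rw [hS]; exact hb
    obtain ⟨f, -, hf⟩ := Submodule.mem_span_finset.mp hb'
    exact ⟨f, hf.symm⟩

end Finite

end Fermat.Agent.S18.H394

end
-- ===== PACK-END S18/H394/KummerFinite.lean

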