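import Mathlib
import Fermat.Prelude.Def_EllipticCurve_FrobeniusTrace
import Mathlib.NumberTheory.SumPrimeReciprocals
import Mathlib.Analysis.SpecialFunctions.Log.Basic
import Mathlib.Analysis.SpecialFunctions.Pow.Real
import Fermat.Prelude.Thm_UpperHalfPlane_qCoeff_heckeT
import Fermat.Prelude.Thm_UpperHalfPlane_qCoeff_heckeU
import Fermat.Prelude.Thm_UpperHalfPlane_eq_of_forall_qCoeff_eq
import Fermat.Prelude.Thm_ModularForm_periodic_heckeT_comp_ofComplex
import Fermat.Prelude.Thm_ModularForm_periodic_heckeU_comp_ofComplex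
import Fermat.Prelude.Thm_ModularForm_isBoundedAtImInfty_heckeT
import Fermat.Prelude.Thm_ModularForm_isBoundedAtImInfty_heckeU
import Fermat.Prelude.Def_GaloisRep_Residual
import Fermat.Prelude.Def_ModularCurve_PeriodHomPair
import Fermat.Prelude.Def_ModularCurve_ArithmeticGalois
import Fermat.Prelude.Def_ModularCurve_ReductionModL
import Fermat.Prelude.Def_ModularCurve_JqCoeff
import Fermat.Prelude.Def_ModularCurve_X0
import Fermat.Agent.Pack.S48.G0E0L0
import Fermat.Agent.Pack.S48.G0E0L3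
import Fermat.Agent.Pack.S48.G0E0L2
import Fermat.Agent.Pack.S48.G0E0L1
import Fermat.Agent.Pack.S48.G1E0L0

-- ===== PACK-BEGIN Lib/Cheb/SpecQ2.lean
section





/-!
# Shared library CHEB — Tier 3 ("CHEB-Q"): frozen statements of the internal pieces

Top-level interface: `SpecQ.lean`.  Plan, owners, status: `coord/CHEB-Q.md` on `origin/helper993`.

* `AbstractDirichletQStatement` (Q-ABS): the abstract Dirichlet lemma of CYC (helper221's
  `AbstractDirichletStatement`, same hypotheses) with the **quantitative** conclusion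
  `∑_{p ≡ a} c(p) p^{-s} ≥ |A|⁻¹ log (1/(s-1)) - C`.
* `CycSumStatement` (Q-SUM): the same for `c = primeCount (L^⟨g⟩)` in the situation of CYC
  (= helper221's GLUE with Q-ABS instead of ABS).
* `CycCountStatement` (Q-ALG): for `p ≡ a mod m` the degree-one primes of `L^⟨g⟩` over `p`
  are the primes of `L` with Frobenius `g`; orbit count `c(p) · ord g · |C_g| ≤ |G|`.
* `FrobDisjointStatement` (Q-DISJ): a prime has at most one Frobenius class.
* `ChebDensitySetStatement` (Q-SET): finite level, arbitrary subsets `C ⊆ Gal(L/ℚ)`.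
* `BridgeDensitySetStatement` (Q-BR): from Q-SET to the client statement.
-/

set_option autoImplicit false

open NumberField Filter Topology
open scoped Pointwise

namespace Fermat.Agent.Lib.Cheb.SpecQ

open Fermat.Agent.Lib.Cheb.Spec

/-- (Q-ABS) quantitative abstract Dirichlet lemma. -/
def AbstractDirichletQStatement : Prop :=
  ∀ (m : ℕ) [NeZero m] (c : Nat.Primes → ℝ), (∀ p, 0 ≤ c p) →
    (∀ s : ℝ, 1 < s → s ≤ 2 → Summable (fun p : Nat.Primes => c p * (p : ℝ) ^ (-s))) →
    ∀ A : Subgroup (ZMod m)ˣ,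
    (∃ B : Finset ℕ, ∀ p : Nat.Primes, (p : ℕ) ∉ B → c p ≠ 0 →
      ∃ u ∈ A, ((u : (ZMod m)ˣ) : ZMod m) = ((p : ℕ) : ZMod m)) →
    (∃ C : ℝ, ∀ s : ℝ, 1 < s → s ≤ 2 →
      |(∑' p : Nat.Primes, c p * (p : ℝ) ^ (-s)) - Real.log (1 / (s - 1))| ≤ C) →
    (∃ C : ℝ, ∀ s : ℝ, 1 < s → s ≤ 2 →
      (Nat.card A : ℝ)⁻¹ * Real.log (1 / (s - 1)) - C ≤
        ∑' p : Nat.Primes, if ((p : ℕ) : ZMod m) = 1 then c p * (p : ℝ) ^ (-s) else 0) →
    (∀ χ : DirichletCharacter ℂ m, (∃ u ∈ A, χ ((u : (ZMod m)ˣ) : ZMod m) ≠ 1) →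
      ∃ (Λ : ℝ → ℂ) (ℓ : ℂ) (C : ℝ), ContinuousOn Λ (Set.Ioi 1) ∧
        Tendsto (fun s => Complex.exp (Λ s)) (𝓝[>] 1) (𝓝 ℓ) ∧
        ∀ s : ℝ, 1 < s → s ≤ 2 →
          ‖Λ s - ∑' p : Nat.Primes, χ ((p : ℕ) : ZMod m) * ((c p * (p : ℝ) ^ (-s) : ℝ) : ℂ)‖ ≤ C) →
    ∀ a ∈ A, ∃ C : ℝ, ∀ s : ℝ, 1 < s → s ≤ 2 →
      (Nat.card A : ℝ)⁻¹ * Real.log (1 / (s - 1)) - C ≤
        ∑' p : Nat.Primes, if ((p : ℕ) : ZMod m) = ((a : (ZMod m)ˣ) : ZMod m)
          then c p * (p : ℝ) ^ (-s) else 0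

/-- (Q-SUM) quantitative prime sum in the class of `g`, situation of `Spec.CycStatement`. -/
def CycSumStatement : Prop :=
  ∀ (L : Type) [Field L] [NumberField L] [IsGalois ℚ L] (m : ℕ) [NeZero m] (ζ : L)
    (hζ : IsPrimitiveRoot ζ m) (g : L ≃ₐ[ℚ] L), (∀ k : ℕ, (g ^ k) ζ = ζ → g ^ k = 1) →
    ∃ C : ℝ, ∀ s : ℝ, 1 < s → s ≤ 2 →
      Summable (fun p : Nat.Primes =>
        (primeCount (IntermediateField.fixedField (Subgroup.zpowers g)) p : ℝ) *
          (p : ℝ) ^ (-s)) ∧
      (orderOf g : ℝ)⁻¹ * Real.log (1 / (s - 1)) - C ≤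
        ∑' p : Nat.Primes,
          if ((p : ℕ) : ZMod m) = ((hζ.autToPow ℚ g : (ZMod m)ˣ) : ZMod m)
          then (primeCount (IntermediateField.fixedField (Subgroup.zpowers g)) p : ℝ) *
            (p : ℝ) ^ (-s)
          else 0

/-- (Q-ALG) orbit count in the situation of `Spec.CycStatement`. -/
def CycCountStatement : Prop :=
  ∀ (L : Type) [Field L] [NumberField L] [IsGalois ℚ L] (m : ℕ) [NeZero m] (ζ : L)
    (hζ : IsPrimitiveRoot ζ m) (g : L ≃ₐ[ℚ] L), (∀ k : ℕ, (g ^ k) ζ = ζ → g ^ k = 1) →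
    ∃ B : Finset ℕ, ∀ p : ℕ, p.Prime → p ∉ B →
      (p : ZMod m) = ((hζ.autToPow ℚ g : (ZMod m)ˣ) : ZMod m) →
      primeCount (IntermediateField.fixedField (Subgroup.zpowers g)) p ≠ 0 →
      p ∈ frobPrimes L g ∧
      primeCount (IntermediateField.fixedField (Subgroup.zpowers g)) p * orderOf g *
        Nat.card (conjugatesOf g) ≤ Nat.card (L ≃ₐ[ℚ] L)

/-- (Q-CYC) assembly of the quantitative cyclotomic case. -/
def CycDensityGlueStatement : Prop :=
  CycSumStatement → CycCountStatement → CycDensityStatement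

/-- (Q-DISJ) a rational prime has at most one Frobenius class. -/
def FrobDisjointStatement : Prop :=
  ∀ (L : Type) [Field L] [NumberField L] [IsGalois ℚ L] (g h : L ≃ₐ[ℚ] L) (p : ℕ),
    p ∈ frobPrimes L g → p ∈ frobPrimes L h → IsConj g h

/-- (Q-SET) finite-level Chebotarev density theorem for arbitrary subsets of the Galois group. -/
def ChebDensitySetStatement : Prop :=
  ∀ (L : Type) [Field L] [NumberField L] [IsGalois ℚ L] (C : Set (L ≃ₐ[ℚ] L)),
    HasLowerDensity {p | ∃ g ∈ C, p ∈ frobPrimes L g}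
      ((Nat.card ↥C : ℝ) / (Nat.card (L ≃ₐ[ℚ] L) : ℝ))

/-- (Q-SET glue) -/
def ChebDensitySetGlueStatement : Prop :=
  FrobDisjointStatement → ChebDensityFiniteStatement → ChebDensitySetStatement

/-- (Q-BR) bridge from Q-SET to the client statement. -/
def BridgeDensitySetStatement : Prop :=
  ChebDensitySetStatement → ChebDensityStatement

end Fermat.Agent.Lib.Cheb.SpecQ

end
-- ===== PACK-END Lib/Cheb/SpecQ2.lean

-- ===== PACK-BEGIN Lib/Cheb/DensityBasic.lean
section



/-!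
# CHEB-Q: calculus of finite-sum Dirichlet densities (`SpecQ.HasLowerDensity`)

* `HasLowerDensity.mono`, `.anti`, `.diff_finset`, `.union`, `hasLowerDensity_biUnion`
* `hasLowerDensity_of_forall_lt`, `hasLowerDensity_of_bound` (from the `O(1)`-form)
* `hasLowerDensity_of_tsum` (from a `tsum` lower bound with weights)
* `HasLowerDensity.le_of_bound` : the client lemma (lower density `d` inside a set with
  `∑_{p ∈ T} p^(-s) ≤ u log (1/(s-1)) + K` forces `d ≤ u`).
-/

set_option autoImplicit false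

namespace Fermat.Agent.Lib.Cheb.SpecQ

/-- `log (1 / (s - 1))` is positive on `(1, 2)`. -/
theorem log_inv_sub_one_pos {s : ℝ} (h1 : 1 < s) (h2 : s < 2) : 0 < Real.log (1 / (s - 1)) := by
  apply Real.log_pos
  rw [lt_div_iff₀ (by linarith)]
  linarith

/-- `log (1 / (s - 1)) ≥ M` as soon as `s - 1 ≤ exp (-M)`. -/
theorem le_log_inv_sub_one {s M : ℝ} (h1 : 1 < s) (h2 : s - 1 ≤ Real.exp (-M)) :
    M ≤ Real.log (1 / (s - 1)) := by
  have hpos : 0 < s - 1 := by linarith
  rw [one_div, Real.log_inv]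
  have := Real.log_le_log hpos h2
  rw [Real.log_exp] at this
  linarith

theorem rpow_neg_le_one (p : ℕ) {s : ℝ} (hs : 0 < s) : (p : ℝ) ^ (-s) ≤ 1 := by
  rcases Nat.eq_zero_or_pos p with rfl | hp
  · rw [Nat.cast_zero, Real.zero_rpow (by linarith)]
    exact zero_le_one
  · apply Real.rpow_le_one_of_one_le_of_nonpos
    · exact_mod_cast hp
    · linarith

theorem rpow_neg_nonneg (p : ℕ) (s : ℝ) : 0 ≤ (p : ℝ) ^ (-s) :=
  Real.rpow_nonneg (Nat.cast_nonneg p) _

theorem HasLowerDensity.mono {X Y : Set ℕ} {d : ℝ} (h : HasLowerDensity X d) (hXY : X ⊆ Y) :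
    HasLowerDensity Y d := by
  intro ε hε
  obtain ⟨δ, hδ, H⟩ := h ε hε
  refine ⟨δ, hδ, fun s h1 h2 => ?_⟩
  obtain ⟨T, hT, hsum⟩ := H s h1 h2
  exact ⟨T, fun p hp => hXY (hT p hp), hsum⟩

theorem HasLowerDensity.anti {X : Set ℕ} {d d' : ℝ} (h : HasLowerDensity X d) (hd : d' ≤ d) :
    HasLowerDensity X d' := by
  intro ε hε
  obtain ⟨δ, hδ, H⟩ := h ε hε
  refine ⟨min δ 1, lt_min hδ one_pos, fun s h1 h2 => ?_⟩
  have h3 : s < 1 + δ := lt_of_lt_of_le h2 (by linarith [min_le_left δ 1])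
  have h4 : s < 2 := lt_of_lt_of_le h2 (by linarith [min_le_right δ 1])
  obtain ⟨T, hT, hsum⟩ := H s h1 h3
  refine ⟨T, hT, le_trans ?_ hsum⟩
  exact mul_le_mul_of_nonneg_right (by linarith) (log_inv_sub_one_pos h1 h4).le

theorem hasLowerDensity_of_forall_lt {X : Set ℕ} {d : ℝ}
    (h : ∀ d' : ℝ, d' < d → HasLowerDensity X d') : HasLowerDensity X d := by
  intro ε hε
  obtain ⟨δ, hδ, H⟩ := h (d - ε / 2) (by linarith) (ε / 2) (by linarith)
  refine ⟨δ, hδ, fun s h1 h2 => ?_⟩
  obtain ⟨T, hT, hsum⟩ := H s h1 h2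
  refine ⟨T, hT, ?_⟩
  have : d - ε / 2 - ε / 2 = d - ε := by ring
  rwa [this] at hsum

/-- From the `O(1)`-form on `(1, 2]`. -/
theorem hasLowerDensity_of_bound {X : Set ℕ} {d K : ℝ}
    (h : ∀ s : ℝ, 1 < s → s ≤ 2 → ∃ T : Finset ℕ, (∀ p ∈ T, p ∈ X) ∧
      d * Real.log (1 / (s - 1)) - K ≤ ∑ p ∈ T, (p : ℝ) ^ (-s)) :
    HasLowerDensity X d := by
  intro ε hε
  refine ⟨min 1 (Real.exp (-(K / ε))), lt_min one_pos (Real.exp_pos _), fun s h1 h2 => ?_⟩
  have h3 : s < 2 := lt_of_lt_of_le h2 (by linarith [min_le_left 1 (Real.exp (-(K / ε)))])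
  have h4 : s - 1 ≤ Real.exp (-(K / ε)) := by
    linarith [min_le_right 1 (Real.exp (-(K / ε)))]
  obtain ⟨T, hT, hsum⟩ := h s h1 h3.le
  refine ⟨T, hT, le_trans ?_ hsum⟩
  have h5 : K / ε ≤ Real.log (1 / (s - 1)) := le_log_inv_sub_one h1 h4
  have h6 : K ≤ ε * Real.log (1 / (s - 1)) := by
    rw [div_le_iff₀ hε] at h5
    linarith
  linarith [sub_mul d ε (Real.log (1 / (s - 1)))]

theorem hasLowerDensity_empty_zero : HasLowerDensity (∅ : Set ℕ) 0 := by
  apply hasLowerDensity_of_bound (K := 0)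
  intro s _ _
  exact ⟨∅, by simp, by simp⟩

theorem HasLowerDensity.diff_finset {X : Set ℕ} {d : ℝ} (h : HasLowerDensity X d)
    (S : Finset ℕ) : HasLowerDensity (X \ (S : Set ℕ)) d := by
  classical
  intro ε hε
  obtain ⟨δ, hδ, H⟩ := h (ε / 2) (by linarith)
  set M : ℝ := (S.card : ℝ) / (ε / 2) with hM
  refine ⟨min δ (min 1 (Real.exp (-M))), lt_min hδ (lt_min one_pos (Real.exp_pos _)),
    fun s h1 h2 => ?_⟩
  have h3 : s < 1 + δ := lt_of_lt_of_le h2 (by linarith [min_le_left δ (min 1 (Real.exp (-M)))])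
  have h4' : min δ (min 1 (Real.exp (-M))) ≤ min 1 (Real.exp (-M)) := min_le_right _ _
  have h4 : s < 2 := by linarith [min_le_left 1 (Real.exp (-M))]
  have h5 : s - 1 ≤ Real.exp (-M) := by linarith [min_le_right 1 (Real.exp (-M))]
  obtain ⟨T, hT, hsum⟩ := H s h1 h3
  refine ⟨T \ S, fun p hp => ?_, ?_⟩
  · rw [Finset.mem_sdiff] at hp
    exact ⟨hT p hp.1, fun hpS => hp.2 (by exact_mod_cast hpS)⟩
  · have hsplit : ∑ p ∈ T, (p : ℝ) ^ (-s) =
        ∑ p ∈ T \ S, (p : ℝ) ^ (-s) + ∑ p ∈ T ∩ S, (p : ℝ) ^ (-s) := by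
      rw [← Finset.sum_union (Finset.disjoint_sdiff_inter T S), Finset.sdiff_union_inter]
    have hS : ∑ p ∈ T ∩ S, (p : ℝ) ^ (-s) ≤ (S.card : ℝ) := by
      calc ∑ p ∈ T ∩ S, (p : ℝ) ^ (-s) ≤ ∑ _p ∈ T ∩ S, (1 : ℝ) :=
            Finset.sum_le_sum fun p _ => rpow_neg_le_one p (by linarith)
        _ = ((T ∩ S).card : ℝ) := by simp
        _ ≤ (S.card : ℝ) := by
            exact_mod_cast Finset.card_le_card Finset.inter_subset_right
    have h6 : M ≤ Real.log (1 / (s - 1)) := le_log_inv_sub_one h1 h5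
    have h7 : (S.card : ℝ) ≤ ε / 2 * Real.log (1 / (s - 1)) := by
      rw [hM, div_le_iff₀ (by linarith)] at h6
      linarith
    have h8 : (d - ε) * Real.log (1 / (s - 1)) =
        (d - ε / 2) * Real.log (1 / (s - 1)) - ε / 2 * Real.log (1 / (s - 1)) := by ring
    linarith

theorem HasLowerDensity.union {X Y : Set ℕ} {d e : ℝ} (hX : HasLowerDensity X d)
    (hY : HasLowerDensity Y e) (hdisj : Disjoint X Y) : HasLowerDensity (X ∪ Y) (d + e) := by
  classical
  intro ε hε
  obtain ⟨δ₁, hδ₁, H₁⟩ := hX (ε / 2) (by linarith)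
  obtain ⟨δ₂, hδ₂, H₂⟩ := hY (ε / 2) (by linarith)
  refine ⟨min δ₁ δ₂, lt_min hδ₁ hδ₂, fun s h1 h2 => ?_⟩
  obtain ⟨T₁, hT₁, hs₁⟩ := H₁ s h1 (lt_of_lt_of_le h2 (by linarith [min_le_left δ₁ δ₂]))
  obtain ⟨T₂, hT₂, hs₂⟩ := H₂ s h1 (lt_of_lt_of_le h2 (by linarith [min_le_right δ₁ δ₂]))
  have hd : Disjoint T₁ T₂ := by
    rw [Finset.disjoint_left]
    intro p hp1 hp2
    exact (Set.disjoint_left.mp hdisj) (hT₁ p hp1) (hT₂ p hp2)
  refine ⟨T₁ ∪ T₂, fun p hp => ?_, ?_⟩
  · rcases Finset.mem_union.mp hp with h | h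
    · exact Or.inl (hT₁ p h)
    · exact Or.inr (hT₂ p h)
  · rw [Finset.sum_union hd]
    have : (d + e - ε) * Real.log (1 / (s - 1)) =
        (d - ε / 2) * Real.log (1 / (s - 1)) + (e - ε / 2) * Real.log (1 / (s - 1)) := by ring
    linarith

theorem hasLowerDensity_biUnion {ι : Type*} (I : Finset ι) (X : ι → Set ℕ) (d : ι → ℝ)
    (h : ∀ i ∈ I, HasLowerDensity (X i) (d i))
    (hdisj : ∀ i ∈ I, ∀ j ∈ I, i ≠ j → Disjoint (X i) (X j)) :
    HasLowerDensity (⋃ i ∈ I, X i) (∑ i ∈ I, d i) := by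
  classical
  induction I using Finset.induction_on with
  | empty => simpa using hasLowerDensity_empty_zero
  | insert a I ha ih =>
    have h1 : HasLowerDensity (⋃ i ∈ I, X i) (∑ i ∈ I, d i) :=
      ih (fun i hi => h i (Finset.mem_insert_of_mem hi))
        (fun i hi j hj hij => hdisj i (Finset.mem_insert_of_mem hi) j
          (Finset.mem_insert_of_mem hj) hij)
    have h2 : HasLowerDensity (X a) (d a) := h a (Finset.mem_insert_self a I)
    have h3 : Disjoint (X a) (⋃ i ∈ I, X i) := by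
      rw [Set.disjoint_iUnion₂_right]
      intro i hi
      exact hdisj a (Finset.mem_insert_self a I) i (Finset.mem_insert_of_mem hi)
        (fun hai => ha (hai ▸ hi))
    have h4 := h2.union h1 h3
    rw [Finset.sum_insert ha]
    have h5 : (⋃ i ∈ insert a I, X i) = X a ∪ ⋃ i ∈ I, X i := by
      ext p
      simp
    rw [h5]
    exact h4

/-- From a weighted `tsum` lower bound: if `0 ≤ f p ≤ w * p^(-s)` on primes, `f` vanishes off
`X`, and `∑' f ≥ d' log (1/(s-1)) - K`, then `X` has lower density at least `d' / w`. -/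
theorem hasLowerDensity_of_tsum {X : Set ℕ} {d' w K : ℝ} (hw : 0 < w)
    (f : ℝ → Nat.Primes → ℝ)
    (hsum : ∀ s : ℝ, 1 < s → s ≤ 2 → Summable (f s))
    (hle : ∀ s : ℝ, 1 < s → s ≤ 2 → ∀ p : Nat.Primes, f s p ≤ w * ((p : ℕ) : ℝ) ^ (-s))
    (hX : ∀ s : ℝ, 1 < s → s ≤ 2 → ∀ p : Nat.Primes, (p : ℕ) ∉ X → f s p ≤ 0)
    (hbound : ∀ s : ℝ, 1 < s → s ≤ 2 → d' * Real.log (1 / (s - 1)) - K ≤ ∑' p, f s p) :
    HasLowerDensity X (d' / w) := by
  classical
  apply hasLowerDensity_of_bound (K := (K + 1) / w)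
  intro s h1 h2
  have hS := (hsum s h1 h2).hasSum
  -- a finite partial sum within `1` of the total
  have hev := hS.eventually (lt_mem_nhds (show ∑' p, f s p - 1 < ∑' p, f s p by linarith))
  obtain ⟨F, hF⟩ := hev.exists
  -- keep only the primes in `X`
  set F' : Finset Nat.Primes := F.filter (fun p => (p : ℕ) ∈ X) with hF'
  have h3 : ∑ p ∈ F, f s p ≤ ∑ p ∈ F', f s p := by
    rw [hF', Finset.sum_filter]
    apply Finset.sum_le_sum
    intro p _
    split_ifs with hp
    · exact le_rfl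
    · exact hX s h1 h2 p hp
  have h4 : ∑ p ∈ F', f s p ≤ w * ∑ p ∈ F', ((p : ℕ) : ℝ) ^ (-s) := by
    rw [Finset.mul_sum]
    exact Finset.sum_le_sum fun p _ => hle s h1 h2 p
  refine ⟨F'.image (fun p : Nat.Primes => (p : ℕ)), fun p hp => ?_, ?_⟩
  · obtain ⟨q, hq, rfl⟩ := Finset.mem_image.mp hp
    rw [hF', Finset.mem_filter] at hq
    exact hq.2
  · have himg : ∑ p ∈ F'.image (fun p : Nat.Primes => (p : ℕ)), (p : ℝ) ^ (-s) =
        ∑ p ∈ F', ((p : ℕ) : ℝ) ^ (-s) :=
      Finset.sum_image (f := fun n : ℕ => (n : ℝ) ^ (-s)) (g := fun p : Nat.Primes => (p : ℕ))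
        (fun a _ b _ hab => Nat.Primes.coe_nat_injective hab)
    rw [himg]
    have h5 := hbound s h1 h2
    have h6 : d' * Real.log (1 / (s - 1)) - (K + 1) ≤ w * ∑ p ∈ F', ((p : ℕ) : ℝ) ^ (-s) := by
      linarith
    have h7 : d' / w * Real.log (1 / (s - 1)) - (K + 1) / w =
        (d' * Real.log (1 / (s - 1)) - (K + 1)) / w := by ring
    rw [h7, div_le_iff₀ hw]
    linarith

/-- **Client lemma**: a set of lower density `≥ d` all of whose finite subsets satisfy
`∑ p^(-s) ≤ u log (1/(s-1)) + K` on `(1, 2]` has `d ≤ u`. -/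
theorem HasLowerDensity.le_of_bound {X : Set ℕ} {d u K : ℝ} (h : HasLowerDensity X d)
    (hb : ∀ s : ℝ, 1 < s → s ≤ 2 → ∀ T : Finset ℕ, (∀ p ∈ T, p ∈ X) →
      ∑ p ∈ T, (p : ℝ) ^ (-s) ≤ u * Real.log (1 / (s - 1)) + K) : d ≤ u := by
  by_contra hlt
  rw [not_le] at hlt
  set ε : ℝ := (d - u) / 2 with hε
  have hεpos : 0 < ε := by rw [hε]; linarith
  obtain ⟨δ, hδ, H⟩ := h ε hεpos
  set M : ℝ := K / ε + 1 with hM
  set t : ℝ := min (δ / 2) (min 1 (Real.exp (-M))) with ht
  have htpos : 0 < t := lt_min (by linarith) (lt_min one_pos (Real.exp_pos _))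
  have ht1 : t ≤ δ / 2 := min_le_left _ _
  have ht2 : t ≤ 1 := le_trans (min_le_right _ _) (min_le_left _ _)
  have ht3 : t ≤ Real.exp (-M) := le_trans (min_le_right _ _) (min_le_right _ _)
  have h1 : (1 : ℝ) < 1 + t := by linarith
  obtain ⟨T, hT, hsum⟩ := H (1 + t) h1 (by linarith)
  have hub := hb (1 + t) h1 (by linarith) T hT
  have hlog : M ≤ Real.log (1 / (1 + t - 1)) := le_log_inv_sub_one h1 (by linarith)
  have h2 : (d - ε - u) * Real.log (1 / (1 + t - 1)) ≤ K := by
    have := sub_mul (d - ε) u (Real.log (1 / (1 + t - 1)))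
    linarith
  have h3 : d - ε - u = ε := by rw [hε]; ring
  rw [h3] at h2
  have h4 : ε * M ≤ K := le_trans (mul_le_mul_of_nonneg_left hlog hεpos.le) h2
  have h5 : ε * M = K + ε := by
    rw [hM]
    field_simp
  linarith

theorem HasLowerDensity.le_of_hasUpperDensity {X Y : Set ℕ} {d u : ℝ}
    (hX : HasLowerDensity X d) (hY : HasUpperDensity Y u) (hXY : X ⊆ Y) : d ≤ u := by
  by_contra hlt
  rw [not_le] at hlt
  set ε : ℝ := (d - u) / 3 with hε
  have hεpos : 0 < ε := by rw [hε]; linarith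
  obtain ⟨δ₁, hδ₁, H₁⟩ := hX ε hεpos
  obtain ⟨δ₂, hδ₂, H₂⟩ := hY ε hεpos
  set t : ℝ := min (min δ₁ δ₂ / 2) (1 / 2) with ht
  have htpos : 0 < t := lt_min (by have := lt_min hδ₁ hδ₂; linarith) (by norm_num)
  have ht1 : t ≤ min δ₁ δ₂ / 2 := min_le_left _ _
  have ht2 : t ≤ 1 / 2 := min_le_right _ _
  have hmin1 : min δ₁ δ₂ ≤ δ₁ := min_le_left _ _
  have hmin2 : min δ₁ δ₂ ≤ δ₂ := min_le_right _ _
  have hmpos : 0 < min δ₁ δ₂ := lt_min hδ₁ hδ₂
  have h1 : (1 : ℝ) < 1 + t := by linarith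
  obtain ⟨T, hT, hsum⟩ := H₁ (1 + t) h1 (by linarith)
  have hub := H₂ (1 + t) h1 (by linarith) T (fun p hp => hXY (hT p hp))
  have hlog : 0 < Real.log (1 / (1 + t - 1)) := log_inv_sub_one_pos h1 (by linarith)
  have h2 : (d - ε) * Real.log (1 / (1 + t - 1)) ≤ (u + ε) * Real.log (1 / (1 + t - 1)) :=
    le_trans hsum hub
  have h3 : d - ε ≤ u + ε := le_of_mul_le_mul_right h2 hlog
  rw [hε] at h3
  linarith

end Fermat.Agent.Lib.Cheb.SpecQ

end
-- ===== PACK-END Lib/Cheb/DensityBasic.lean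

-- ===== PACK-BEGIN Lib/Cheb/H993/QCyc.lean
section




/-!
# CHEB-Q piece Q-CYC (glue): `CycSumStatement → CycCountStatement → CycDensityStatement`

In the cyclotomic situation (`ζ_m ∈ L`, `⟨g⟩` faithful on `ζ_m`), with `a = autToPow g`,
`c(p) = primeCount (L^⟨g⟩) p`:  `∑_{p ≡ a} c(p) p^(-s) ≥ (1/ord g) log (1/(s-1)) - C` (Q-SUM) and
`c(p) ≤ |G| / (ord g · |C_g|)`, `c(p) ≠ 0 ⇒ p ∈ frobPrimes L g` (Q-ALG) give lower density
`≥ |C_g| / |G|` for `frobPrimes L g`.
-/

set_option autoImplicit false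

open NumberField

namespace Fermat.Agent.Lib.Cheb.H993

open Fermat.Agent.Lib.Cheb.Spec Fermat.Agent.Lib.Cheb.SpecQ

theorem summable_of_finset_support_h993 {f : Nat.Primes → ℝ} (B : Finset ℕ)
    (h : ∀ p : Nat.Primes, (p : ℕ) ∉ B → f p = 0) : Summable f := by
  apply summable_of_hasFiniteSupport
  have hfin : {p : Nat.Primes | (p : ℕ) ∈ B}.Finite :=
    Set.Finite.preimage (Nat.Primes.coe_nat_injective.injOn) B.finite_toSet
  refine hfin.subset ?_
  intro p hp
  by_contra hpB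
  exact hp (h p hpB)

/-- **Q-CYC** -/
theorem cycDensityGlue : CycDensityGlueStatement := by
  classical
  intro hSum hCount L _ _ _ m ζ hm hζ g hfaith
  have : NeZero m := ⟨hm.ne'⟩
  obtain ⟨C, hC⟩ := hSum L m ζ hζ g hfaith
  obtain ⟨B, hB⟩ := hCount L m ζ hζ g hfaith
  set a : ZMod m := ((hζ.autToPow ℚ g : (ZMod m)ˣ) : ZMod m) with ha
  set c : ℕ → ℕ := fun p =>
    primeCount (IntermediateField.fixedField (Subgroup.zpowers g)) p with hc
  set n : ℕ := orderOf g with hn
  set cg : ℕ := Nat.card (conjugatesOf g) with hcg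
  set G : ℕ := Nat.card (L ≃ₐ[ℚ] L) with hG
  have hnpos : 0 < n := orderOf_pos g
  have hcgpos : 0 < cg := by
    have : Nonempty (conjugatesOf g) := ⟨⟨g, mem_conjugatesOf_self⟩⟩
    exact Nat.card_pos
  have hGpos : 0 < G := Nat.card_pos
  have hnR : (0 : ℝ) < n := by exact_mod_cast hnpos
  have hcgR : (0 : ℝ) < cg := by exact_mod_cast hcgpos
  have hGR : (0 : ℝ) < G := by exact_mod_cast hGpos
  -- the weight
  set w : ℝ := (G : ℝ) / ((n : ℝ) * (cg : ℝ)) with hw
  have hwpos : 0 < w := div_pos hGR (mul_pos hnR hcgR)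
  -- the truncated series
  set f : ℝ → Nat.Primes → ℝ := fun s p =>
    if ((p : ℕ) : ZMod m) = a ∧ (p : ℕ) ∉ B then (c p : ℝ) * ((p : ℕ) : ℝ) ^ (-s) else 0 with hf
  set g₀ : ℝ → Nat.Primes → ℝ := fun s p =>
    if ((p : ℕ) : ZMod m) = a then (c p : ℝ) * ((p : ℕ) : ℝ) ^ (-s) else 0 with hg₀
  set h₀ : Nat.Primes → ℝ := fun p => if (p : ℕ) ∈ B then (c p : ℝ) else 0 with hh₀
  have hterm_nonneg : ∀ (s : ℝ) (p : Nat.Primes), 0 ≤ (c p : ℝ) * ((p : ℕ) : ℝ) ^ (-s) :=
    fun s p => mul_nonneg (Nat.cast_nonneg _) (rpow_neg_nonneg _ _)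
  have hh₀sum : Summable h₀ := by
    apply summable_of_finset_support_h993 B
    intro p hp
    simp only [hh₀, if_neg hp]
  have hfsum : ∀ s : ℝ, 1 < s → s ≤ 2 → Summable (f s) := by
    intro s h1 h2
    refine Summable.of_nonneg_of_le (fun p => ?_) (fun p => ?_) (hC s h1 h2).1
    · simp only [hf]
      split_ifs
      · exact hterm_nonneg s p
      · exact le_rfl
    · simp only [hf]
      split_ifs
      · exact le_rfl
      · exact hterm_nonneg s p
  have hg₀sum : ∀ s : ℝ, 1 < s → s ≤ 2 → Summable (g₀ s) := by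
    intro s h1 h2
    refine Summable.of_nonneg_of_le (fun p => ?_) (fun p => ?_) (hC s h1 h2).1
    · simp only [hg₀]
      split_ifs
      · exact hterm_nonneg s p
      · exact le_rfl
    · simp only [hg₀]
      split_ifs
      · exact le_rfl
      · exact hterm_nonneg s p
  have hdens : (n : ℝ)⁻¹ / w = classDensity L g := by
    rw [hw, classDensity, ← hcg, ← hG]
    field_simp
  rw [← hdens]
  refine hasLowerDensity_of_tsum (X := frobPrimes L g) (d' := (n : ℝ)⁻¹) (w := w)
    (K := C + ∑' p, h₀ p) hwpos f hfsum ?_ ?_ ?_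
  · -- `f s p ≤ w * p^(-s)`
    intro s h1 h2 p
    simp only [hf]
    split_ifs with hcond
    · by_cases hcp : c p = 0
      · rw [hcp, Nat.cast_zero, zero_mul]
        exact mul_nonneg hwpos.le (rpow_neg_nonneg _ _)
      · have h3 := (hB p p.2 hcond.2 hcond.1 hcp).2
        have h4 : (c p : ℝ) * (n : ℝ) * (cg : ℝ) ≤ (G : ℝ) := by exact_mod_cast h3
        have h5 : (c p : ℝ) ≤ w := by
          rw [hw, le_div_iff₀ (mul_pos hnR hcgR)]
          linarith
        exact mul_le_mul_of_nonneg_right h5 (rpow_neg_nonneg _ _)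
    · exact mul_nonneg hwpos.le (rpow_neg_nonneg _ _)
  · -- `f` vanishes off `frobPrimes`
    intro s h1 h2 p hp
    simp only [hf]
    split_ifs with hcond
    · by_cases hcp : c p = 0
      · rw [hcp, Nat.cast_zero, zero_mul]
      · exact absurd (hB p p.2 hcond.2 hcond.1 hcp).1 hp
    · exact le_rfl
  · -- the lower bound
    intro s h1 h2
    have h3 := (hC s h1 h2).2
    have hspos : 0 < s := by linarith
    have h4 : ∀ p : Nat.Primes, g₀ s p ≤ f s p + h₀ p := by
      intro p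
      simp only [hg₀, hf, hh₀]
      by_cases hpa : ((p : ℕ) : ZMod m) = a
      · by_cases hpB : (p : ℕ) ∈ B
        · rw [if_pos hpa, if_neg (fun h => h.2 hpB), if_pos hpB, zero_add]
          calc (c p : ℝ) * ((p : ℕ) : ℝ) ^ (-s) ≤ (c p : ℝ) * 1 :=
                mul_le_mul_of_nonneg_left (rpow_neg_le_one _ hspos) (Nat.cast_nonneg _)
            _ = (c p : ℝ) := mul_one _
        · rw [if_pos hpa, if_pos ⟨hpa, hpB⟩, if_neg hpB, add_zero]
      · rw [if_neg hpa, if_neg (fun h => hpa h.1)]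
        split_ifs
        · simp
        · simp
    have h5 : ∑' p, g₀ s p ≤ ∑' p, (f s p + h₀ p) :=
      (hg₀sum s h1 h2).tsum_le_tsum h4 ((hfsum s h1 h2).add hh₀sum)
    rw [(hfsum s h1 h2).tsum_add hh₀sum] at h5
    have h6 : ∑' p, g₀ s p = ∑' p : Nat.Primes,
        if ((p : ℕ) : ZMod m) = ((hζ.autToPow ℚ g : (ZMod m)ˣ) : ZMod m)
          then (primeCount (IntermediateField.fixedField (Subgroup.zpowers g)) p : ℝ) *
            ((p : ℕ) : ℝ) ^ (-s)
          else 0 := rfl
    rw [h6] at h5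
    linarith

end Fermat.Agent.Lib.Cheb.H993

end
-- ===== PACK-END Lib/Cheb/H993/QCyc.lean

-- ===== PACK-BEGIN Lib/Cheb/H993/QSet.lean
section




/-!
# CHEB-Q piece Q-SET (glue):
`FrobDisjointStatement → ChebDensityFiniteStatement → ChebDensitySetStatement`

Strong induction on the finite set `C ⊆ Gal(L/ℚ)`: split off the conjugacy class of one element;
the Frobenius sets of different classes are disjoint, lower densities add up.
-/

set_option autoImplicit false

open NumberField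

namespace Fermat.Agent.Lib.Cheb.H993

open Fermat.Agent.Lib.Cheb.Spec Fermat.Agent.Lib.Cheb.SpecQ

theorem chebDensity_finset_h993 (hDisj : FrobDisjointStatement)
    (hFin : ChebDensityFiniteStatement)
    (L : Type) [Field L] [NumberField L] [IsGalois ℚ L] :
    ∀ (n : ℕ) (C : Finset (L ≃ₐ[ℚ] L)), C.card = n →
      HasLowerDensity {p | ∃ g ∈ C, p ∈ frobPrimes L g}
        ((C.card : ℝ) / (Nat.card (L ≃ₐ[ℚ] L) : ℝ)) := by
  classical
  intro n
  induction n using Nat.strong_induction_on with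
  | _ n ih =>
    intro C hCn
    rcases Finset.eq_empty_or_nonempty C with rfl | ⟨g, hg⟩
    · have h0 : {p | ∃ g ∈ (∅ : Finset (L ≃ₐ[ℚ] L)), p ∈ frobPrimes L g} = (∅ : Set ℕ) := by
        ext p
        simp
      rw [h0]
      simpa using hasLowerDensity_empty_zero
    · set C' : Finset (L ≃ₐ[ℚ] L) := C.filter (fun h => ¬ IsConj g h) with hC'
      set K : Finset (L ≃ₐ[ℚ] L) := C.filter (fun h => IsConj g h) with hK
      have hsplit : K.card + C'.card = C.card :=
        Finset.card_filter_add_card_filter_not (s := C) (fun h => IsConj g h)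
      have hgK : g ∈ K := Finset.mem_filter.mpr ⟨hg, IsConj.refl g⟩
      have hKpos : 0 < K.card := Finset.card_pos.mpr ⟨g, hgK⟩
      have hlt : C'.card < n := by omega
      have h1 := ih C'.card hlt C' rfl
      have h2 : HasLowerDensity (frobPrimes L g) (classDensity L g) := hFin L g
      have hdisj : Disjoint (frobPrimes L g) {p | ∃ h ∈ C', p ∈ frobPrimes L h} := by
        rw [Set.disjoint_left]
        rintro p hp ⟨h, hh, hph⟩
        exact (Finset.mem_filter.mp hh).2 (hDisj L g h p hp hph)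
      have h3 := h2.union h1 hdisj
      have hsub : frobPrimes L g ∪ {p | ∃ h ∈ C', p ∈ frobPrimes L h} ⊆
          {p | ∃ h ∈ C, p ∈ frobPrimes L h} := by
        rintro p (hp | ⟨h, hh, hph⟩)
        · exact ⟨g, hg, hp⟩
        · exact ⟨h, (Finset.mem_filter.mp hh).1, hph⟩
      refine (h3.mono hsub).anti ?_
      -- `|C| ≤ |conjugacy class of g| + |C'|`
      have hKle : K.card ≤ Nat.card (conjugatesOf g) := by
        have hfin : (conjugatesOf g).Finite := Set.toFinite _
        have h4 : (K : Set (L ≃ₐ[ℚ] L)) ⊆ conjugatesOf g := by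
          intro h hh
          exact (Finset.mem_filter.mp (Finset.mem_coe.mp hh)).2
        have h5 := Set.ncard_le_ncard h4 hfin
        rw [Set.ncard_coe_finset] at h5
        rw [Nat.card_coe_set_eq]
        exact h5
      have hGpos : (0 : ℝ) < (Nat.card (L ≃ₐ[ℚ] L) : ℝ) := by
        exact_mod_cast (Nat.card_pos : 0 < Nat.card (L ≃ₐ[ℚ] L))
      rw [classDensity, ← add_div]
      apply div_le_div_of_nonneg_right _ hGpos.le
      have h6 : (C.card : ℝ) = (K.card : ℝ) + (C'.card : ℝ) := by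
        exact_mod_cast hsplit.symm
      have h7 : (K.card : ℝ) ≤ (Nat.card (conjugatesOf g) : ℝ) := by exact_mod_cast hKle
      linarith

/-- **Q-SET (glue)** -/
theorem chebDensitySetGlue : ChebDensitySetGlueStatement := by
  classical
  intro hDisj hFin L _ _ _ C
  have hfin : C.Finite := Set.toFinite C
  have h := chebDensity_finset_h993 hDisj hFin L hfin.toFinset.card hfin.toFinset rfl
  have h1 : {p | ∃ g ∈ hfin.toFinset, p ∈ frobPrimes L g} = {p | ∃ g ∈ C, p ∈ frobPrimes L g} := by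
    ext p
    constructor
    · rintro ⟨g, hg, hp⟩
      exact ⟨g, (Set.Finite.mem_toFinset hfin).mp hg, hp⟩
    · rintro ⟨g, hg, hp⟩
      exact ⟨g, (Set.Finite.mem_toFinset hfin).mpr hg, hp⟩
  have h2 : (hfin.toFinset.card : ℝ) = (Nat.card ↥C : ℝ) := by
    rw [Nat.card_coe_set_eq, Set.ncard_eq_toFinset_card C hfin]
  rw [h1, h2] at h
  exact h

end Fermat.Agent.Lib.Cheb.H993

end
-- ===== PACK-END Lib/Cheb/H993/QSet.lean

-- ===== PACK-BEGIN Lib/Cheb/H993/QDisj.lean
section



/-!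
# CHEB-Q piece Q-DISJ: a rational prime has at most one Frobenius class

`theorem frobDisjoint : SpecQ.FrobDisjointStatement`.
If `P, P'` are primes of `𝓞 L` over `p` with trivial inertia and arithmetic Frobenius `g`, `h`,
then `P' = τ • P` for some `τ ∈ Gal(L/ℚ)`, `τ g τ⁻¹` is a Frobenius at `P'`, hence equals `h`.
-/

set_option autoImplicit false

open NumberField
open scoped Pointwise

namespace Fermat.Agent.Lib.Cheb.H993

open Fermat.Agent.Lib.Cheb.Spec Fermat.Agent.Lib.Cheb.SpecQ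

theorem under_eq_span_of_natCast_mem_h993 {L : Type} [Field L] [NumberField L]
    {p : ℕ} (hp : p.Prime) (P : Ideal (𝓞 L)) [P.IsPrime] (hpP : (p : 𝓞 L) ∈ P) :
    P.under ℤ = Ideal.span {(p : ℤ)} := by
  have hmax : (Ideal.span {(p : ℤ)}).IsMaximal :=
    (Ideal.span_singleton_prime (by exact_mod_cast hp.ne_zero)).mpr
      (Nat.prime_iff_prime_int.mp hp) |>.isMaximal (by
        simpa using (show (p : ℤ) ≠ 0 by exact_mod_cast hp.ne_zero))
  have hle : Ideal.span {(p : ℤ)} ≤ P.under ℤ := by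
    rw [Ideal.span_singleton_le_iff_mem, Ideal.under_def, Ideal.mem_comap]
    simpa using hpP
  have hne : P.under ℤ ≠ ⊤ := by
    have : (P.under ℤ).IsPrime := inferInstance
    exact this.ne_top
  exact (hmax.eq_of_le hne hle).symm

/-- **Q-DISJ** -/
theorem frobDisjoint : FrobDisjointStatement := by
  intro L _ _ _ g h p hg hh
  obtain ⟨hp, P, hP, hpP, -, hgP⟩ := hg
  obtain ⟨-, P', hP', hpP', hI', hhP'⟩ := hh
  have hGG : IsGaloisGroup (L ≃ₐ[ℚ] L) ℤ (𝓞 L) :=
    IsGaloisGroup.of_isFractionRing (L ≃ₐ[ℚ] L) ℤ (𝓞 L) ℚ L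
  haveI : Algebra.IsInvariant ℤ (𝓞 L) (L ≃ₐ[ℚ] L) := hGG.isInvariant
  haveI : SMulCommClass (L ≃ₐ[ℚ] L) ℤ (𝓞 L) := hGG.commutes
  have hunder : P.under ℤ = P'.under ℤ := by
    rw [under_eq_span_of_natCast_mem_h993 hp P hpP, under_eq_span_of_natCast_mem_h993 hp P' hpP']
  obtain ⟨τ, hτ⟩ := Algebra.IsInvariant.exists_smul_of_under_eq ℤ (𝓞 L) (L ≃ₐ[ℚ] L) P P' hunder
  have hconj : IsArithFrobAt ℤ (τ * g * τ⁻¹) P' := by
    rw [hτ]
    exact hgP.conj τ
  have hin := hconj.mul_inv_mem_inertia hhP'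
  have h1 : τ * g * τ⁻¹ * h⁻¹ = 1 := by
    apply hI'
    intro x
    exact hin x
  rw [isConj_iff]
  refine ⟨τ, ?_⟩
  exact mul_inv_eq_one.mp h1

end Fermat.Agent.Lib.Cheb.H993

end
-- ===== PACK-END Lib/Cheb/H993/QDisj.lean

-- ===== PACK-BEGIN Lib/Cheb/H116/Bridge.lean
section





/-!
# CHEB, piece F6 / BR2: the bridge from Galois number fields to `Gal(ℚ̄/ℚ)`

* `bridgeDivision : Spec.BridgeDivisionStatement` (Tier 1),
* `bridge : Spec.BridgeStatement` (Tier 2).

Both follow from `bridge_core`: a prime `P` of a Galois number field `L ⊆ ℚ̄` with trivial inertia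
group and arithmetic Frobenius `τ` lies under a valuation subring `A` of `ℚ̄`, every Frobenius
element at `A` restricts to `τ`, and the inertia group at `A` acts trivially on `L`.
-/

set_option autoImplicit false

open NumberField
open scoped Pointwise

namespace Fermat.Agent.Lib.Cheb.H116

open Fermat.Agent.Lib.Cheb.Spec (Qb GQ)
open Fermat.Agent.S54 (primeBelow mem_primeBelow)

/-- An automorphism of `ℚ̄` which fixes the prime of `ℤ̄` below a valuation subring `A` and
induces the `ℓ`-th power map modulo this prime is a Frobenius element at `A`. -/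
theorem isFrobeniusAt_of_primeBelow (A : ValuationSubring Qb) (ℓ : ℕ) (hℓ : ℓ.Prime)
    (hA : A.LiesOverPrime ℓ) (σ : GQ)
    (hσQ' : σ • primeBelow A = primeBelow A)
    (hσF : ∀ x : integralClosure ℤ Qb, σ • x - x ^ ℓ ∈ primeBelow A) :
    A.IsFrobeniusAt σ ℓ := by
  have : Algebra.IsAlgebraic ℚ Qb := AlgebraicClosure.isAlgebraic ℚ
  have hσQ : ∀ x, σ • x ∈ primeBelow A ↔ x ∈ primeBelow A := by
    intro x
    conv_lhs => rw [← hσQ']
    exact Ideal.smul_mem_pointwise_smul_iff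
  have key : ∀ τ : GQ,
      (∀ x, τ • x ∈ primeBelow A ↔ x ∈ primeBelow A) → ∀ x ∈ A, τ x ∈ A := by
    intro τ hτ x hx
    obtain ⟨b, s, hb, hs, hsA, hxs⟩ :=
      (Fermat.Agent.S54.mem_valuationSubring_iff A ℓ hℓ hA x).mp hx
    refine (Fermat.Agent.S54.mem_valuationSubring_iff A ℓ hℓ hA (τ x)).mpr
      ⟨τ b, τ s, hb.map τ, hs.map τ, ?_, ?_⟩
    · exact (hτ ⟨s, hs⟩).not.mpr hsA
    · rw [← map_mul, hxs]
  have hσA : σ ∈ A.decompositionSubgroup ℚ := by
    rw [MulAction.mem_stabilizer_iff]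
    ext x
    rw [ValuationSubring.mem_smul_pointwise_iff_exists]
    constructor
    · rintro ⟨s, hs, rfl⟩
      exact key σ hσQ s hs
    · intro hx
      refine ⟨σ⁻¹ • x, key σ⁻¹ ?_ x hx, by simp⟩
      intro y
      rw [← hσQ (σ⁻¹ • y)]
      simp
  refine ⟨hσA, ?_⟩
  intro x
  obtain ⟨a, rfl⟩ := IsLocalRing.residue_surjective x
  obtain ⟨b, s, hb, hs, hsA, hxs⟩ :=
    (Fermat.Agent.S54.mem_valuationSubring_iff A ℓ hℓ hA a).mp a.2
  have hbA : b ∈ A := Fermat.Agent.S54.isIntegral_mem_valuationSubring A hb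
  have hsA' : s ∈ A := Fermat.Agent.S54.isIntegral_mem_valuationSubring A hs
  have hint : ∀ (y : Qb) (hy : IsIntegral ℤ y),
      (⟨σ, hσA⟩ : A.decompositionSubgroup ℚ) •
        IsLocalRing.residue A ⟨y, Fermat.Agent.S54.isIntegral_mem_valuationSubring A hy⟩ =
      (IsLocalRing.residue A ⟨y, Fermat.Agent.S54.isIntegral_mem_valuationSubring A hy⟩) ^ ℓ := by
    intro y hy
    rw [← IsLocalRing.ResidueField.residue_smul, ← map_pow, ← sub_eq_zero, ← map_sub,
      IsLocalRing.residue_eq_zero_iff, ← ValuationSubring.coe_mem_nonunits_iff]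
    exact hσF ⟨y, hy⟩
  have h1 : IsLocalRing.residue A a * IsLocalRing.residue A ⟨s, hsA'⟩ =
      IsLocalRing.residue A ⟨b, hbA⟩ := by
    rw [← map_mul]
    congr 1
    exact Subtype.ext hxs
  have h2 : IsLocalRing.residue A ⟨s, hsA'⟩ ≠ 0 := by
    rw [Ne, IsLocalRing.residue_eq_zero_iff, ← ValuationSubring.coe_mem_nonunits_iff]
    exact hsA
  have h3 := congrArg (fun z => (⟨σ, hσA⟩ : A.decompositionSubgroup ℚ) • z) h1
  simp only [smul_mul'] at h3
  rw [hint s hs, hint b hb, ← h1, mul_pow] at h3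
  exact mul_right_cancel₀ (pow_ne_zero _ h2) h3

/-- Every valuation subring of `ℚ̄` over a prime number `ℓ` has a Frobenius element, which
moreover is congruent to the `ℓ`-th power map on all algebraic integers. -/
theorem exists_isFrobeniusAt (A : ValuationSubring Qb) (ℓ : ℕ) (hℓ : ℓ.Prime)
    (hA : A.LiesOverPrime ℓ) :
    ∃ φ : GQ, A.IsFrobeniusAt φ ℓ ∧ ∀ x : Qb, IsIntegral ℤ x → φ x - x ^ ℓ ∈ A.nonunits := by
  have := Fermat.Agent.S54.primeBelow_isPrime A
  have hℓQ : (ℓ : integralClosure ℤ Qb) ∈ primeBelow A := by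
    rw [mem_primeBelow]
    exact hA
  obtain ⟨σ, hσQ', hσF⟩ := Fermat.Agent.S54.exists_frob_integralClosure ℓ hℓ (primeBelow A) hℓQ
  refine ⟨σ, isFrobeniusAt_of_primeBelow A ℓ hℓ hA σ hσQ' hσF, fun x hx => ?_⟩
  exact hσF ⟨x, hx⟩

/-- The algebraic integers of a subfield of `ℚ̄` are algebraic integers of `ℚ̄`. -/
theorem isIntegral_coe_ringOfIntegers (L : IntermediateField ℚ Qb) (x : 𝓞 L) :
    IsIntegral ℤ ((x : L) : Qb) :=
  (NumberField.RingOfIntegers.isIntegral_coe x).map (IsScalarTower.toAlgHom ℤ L Qb)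

/-- Every maximal ideal of the ring of integers of a subfield of `ℚ̄` is the contraction of the
maximal ideal of a valuation subring of `ℚ̄`. -/
theorem exists_valuationSubring_over (L : IntermediateField ℚ Qb)
    (P : Ideal (𝓞 L)) (hP : P.IsMaximal) :
    ∃ A : ValuationSubring Qb, ∀ x : 𝓞 L, x ∈ P ↔ ((x : L) : Qb) ∈ A.nonunits := by
  let f : 𝓞 L →+* Qb := (algebraMap L Qb).comp (algebraMap (𝓞 L) L)
  have hf : Function.Injective f :=
    (algebraMap L Qb).injective.comp NumberField.RingOfIntegers.coe_injective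
  have hfx : ∀ x : 𝓞 L, f x = ((x : L) : Qb) := fun x => rfl
  let g : 𝓞 L →+* f.range := f.rangeRestrict
  have hI : P.map g ≠ ⊤ := by
    intro h
    have h1 : (1 : f.range) ∈ P.map g := by rw [h]; trivial
    obtain ⟨x, hx, hx1⟩ := (Ideal.mem_map_iff_of_surjective g f.rangeRestrict_surjective).mp h1
    have h2 : f x = f 1 := by
      have := congrArg Subtype.val hx1
      simpa [g] using this
    rw [hf h2] at hx
    exact hP.ne_top ((Ideal.eq_top_iff_one P).mpr hx)
  obtain ⟨B, -, hB⟩ := Ideal.image_subset_nonunits_valuationSubring _ hI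
  refine ⟨B, fun x => ⟨fun hx => ?_, fun hx => ?_⟩⟩
  · exact hB ⟨g x, Ideal.mem_map_of_mem g hx, rfl⟩
  · by_contra hxP
    obtain ⟨y, i, hi, hyx⟩ := hP.exists_inv hxP
    have h1 : f y * f x + f i = 1 := by rw [← map_mul, ← map_add, hyx, map_one]
    have h2 : f y * f x ∈ B.nonunits := by
      have hyB : f y ∈ B :=
        Fermat.Agent.S54.isIntegral_mem_valuationSubring B (isIntegral_coe_ringOfIntegers L y)
      have := ValuationSubring.mem_nonunits_iff_exists_mem_maximalIdeal.mp hx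
      obtain ⟨hx1, hx2⟩ := this
      have := Ideal.mul_mem_left _ (⟨f y, hyB⟩ : B) hx2
      exact ValuationSubring.mem_nonunits_iff_exists_mem_maximalIdeal.mpr ⟨_, this⟩
    have h3 : f i ∈ B.nonunits := hB ⟨g i, Ideal.mem_map_of_mem g hi, rfl⟩
    have h4 : (1 : Qb) ∈ B.nonunits := by
      rw [← h1]
      exact B.nonunits.add_mem h2 h3
    rw [ValuationSubring.mem_nonunits_iff] at h4
    simp at h4

/-- Elements of the inertia group at `A` are congruent to the identity on `A`. -/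
theorem inertia_sub_mem_nonunits (A : ValuationSubring Qb) (ι : GQ)
    (hι : ι ∈ A.inertiaSubgroupIn ℚ) (x : Qb) (hx : x ∈ A) : ι x - x ∈ A.nonunits := by
  obtain ⟨ι', hι', rfl⟩ := Subgroup.mem_map.mp hι
  have h1 : MulSemiringAction.toRingAut (A.decompositionSubgroup ℚ)
      (IsLocalRing.ResidueField A) ι' = 1 := MonoidHom.mem_ker.mp hι'
  have h2 : ι' • IsLocalRing.residue A ⟨x, hx⟩ = IsLocalRing.residue A ⟨x, hx⟩ := by
    have := congrArg (fun e : RingAut (IsLocalRing.ResidueField A) =>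
      e (IsLocalRing.residue A ⟨x, hx⟩)) h1
    simpa using this
  rw [← IsLocalRing.ResidueField.residue_smul, ← sub_eq_zero, ← map_sub,
    IsLocalRing.residue_eq_zero_iff, ← ValuationSubring.coe_mem_nonunits_iff] at h2
  exact h2

theorem coe_smul_ringOfIntegers (L : IntermediateField ℚ Qb) (ι : L ≃ₐ[ℚ] L) (x : 𝓞 L) :
    ((ι • x : 𝓞 L) : L) = ι (x : L) := rfl

theorem coe_restrictNormalHom (L : IntermediateField ℚ Qb) [Normal ℚ L] (ι : GQ) (x : L) :
    ((AlgEquiv.restrictNormalHom L ι x : L) : Qb) = ι (x : Qb) :=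
  AlgEquiv.restrictNormal_commutes ι L x

theorem coe_restrict_smul (L : IntermediateField ℚ Qb) [Normal ℚ L] (ι : GQ) (x : 𝓞 L) :
    (((AlgEquiv.restrictNormalHom L ι • x : 𝓞 L) : L) : Qb) = ι ((x : L) : Qb) := by
  rw [coe_smul_ringOfIntegers]
  exact coe_restrictNormalHom L ι (x : L)

theorem card_quotient_under (L : IntermediateField ℚ Qb)
    (p : ℕ) (hp : p.Prime) (P : Ideal (𝓞 L)) (hP : P.IsPrime) (hpP : (p : 𝓞 L) ∈ P) :
    Nat.card (ℤ ⧸ P.under ℤ) = p := by
  have : Fact p.Prime := ⟨hp⟩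
  have h1 : Ideal.span {(p : ℤ)} ≤ P.under ℤ := by
    rw [Ideal.span_singleton_le_iff_mem, Ideal.mem_comap]
    simpa using hpP
  have h2 : Ideal.span {(p : ℤ)} = P.under ℤ :=
    (Int.ideal_span_isMaximal_of_prime p).eq_of_le (Ideal.IsPrime.under ℤ P).ne_top h1
  rw [← h2]
  exact Int.card_ideal_quot p

theorem bridge_core (L : IntermediateField ℚ Qb) [NumberField L] [IsGalois ℚ L]
    (p : ℕ) (hp : p.Prime) (P : Ideal (𝓞 L)) (hP : P.IsPrime) (hpP : (p : 𝓞 L) ∈ P)
    (hI : Spec.InertiaTrivial L P) (τ : L ≃ₐ[ℚ] L) (hτ : IsArithFrobAt ℤ τ P) :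
    ∃ (A : ValuationSubring Qb) (φ : GQ), A.LiesOverPrime p ∧ A.IsFrobeniusAt φ p ∧
      (∀ ι ∈ A.inertiaSubgroupIn ℚ, AlgEquiv.restrictNormalHom L ι = 1) ∧
      AlgEquiv.restrictNormalHom L φ = τ := by
  have hP0 : P ≠ ⊥ := by
    intro h
    rw [h, Ideal.mem_bot] at hpP
    exact hp.ne_zero (by exact_mod_cast hpP)
  have hPmax : P.IsMaximal := hP.isMaximal hP0
  obtain ⟨A, hA⟩ := exists_valuationSubring_over L P hPmax
  have hAp : A.LiesOverPrime p := by
    have h1 := (hA (p : 𝓞 L)).mp hpP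
    have h2 : (p : Qb) ∈ A.nonunits := by simpa using h1
    exact h2
  obtain ⟨φ, hφ, hφF⟩ := exists_isFrobeniusAt A p hp hAp
  have hN : Nat.card (ℤ ⧸ P.under ℤ) = p := card_quotient_under L p hp P hP hpP
  have key : ∀ ι : GQ, (∀ x : 𝓞 L, ι ((x : L) : Qb) - ((x : L) : Qb) ∈ A.nonunits) →
      AlgEquiv.restrictNormalHom L ι = 1 := by
    intro ι h
    apply hI
    intro x
    rw [hA]
    have := h x
    rw [← coe_restrict_smul] at this
    simpa using this
  have hτF : ∀ x : 𝓞 L, ((τ (x : L) : L) : Qb) - ((x : L) : Qb) ^ p ∈ A.nonunits := by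
    intro x
    have h1 : τ • x - x ^ p ∈ P := by
      have := hτ x
      rwa [hN] at this
    rw [hA] at h1
    have e : (((τ • x - x ^ p : 𝓞 L) : L) : Qb) = ((τ (x : L) : L) : Qb) - ((x : L) : Qb) ^ p := by
      simp [coe_smul_ringOfIntegers]
    rwa [e] at h1
  have hφτ : ∀ x : 𝓞 L, φ ((x : L) : Qb) - ((τ (x : L) : L) : Qb) ∈ A.nonunits := by
    intro x
    have h1 := hφF _ (isIntegral_coe_ringOfIntegers L x)
    have h2 := hτF x
    have := A.nonunits.sub_mem h1 h2
    simpa using this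
  refine ⟨A, φ, hAp, hφ, ?_, ?_⟩
  · intro ι hι
    exact key ι (fun y => inertia_sub_mem_nonunits A ι hι _
      (Fermat.Agent.S54.isIntegral_mem_valuationSubring A (isIntegral_coe_ringOfIntegers L y)))
  · have h1 : AlgEquiv.restrictNormalHom L φ * τ⁻¹ = 1 := by
      apply hI
      intro x
      rw [hA]
      have h2 := hφτ (τ⁻¹ • x)
      rw [← coe_restrict_smul] at h2
      have e : (((((AlgEquiv.restrictNormalHom L φ * τ⁻¹) • x - x : 𝓞 L)) : L) : Qb) =
          (((AlgEquiv.restrictNormalHom L φ • (τ⁻¹ • x) : 𝓞 L) : L) : Qb) -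
            ((τ ((τ⁻¹ • x : 𝓞 L) : L) : L) : Qb) := by
        simp [mul_smul, coe_smul_ringOfIntegers]
      rwa [e]
    rw [mul_inv_eq_one] at h1
    exact h1


/-- Application of a restriction which is trivial. -/
theorem apply_eq_of_restrict_eq_one (L : IntermediateField ℚ Qb) [Normal ℚ L] (ι : GQ)
    (h : AlgEquiv.restrictNormalHom L ι = 1) (x : Qb) (hx : x ∈ L) : ι x = x := by
  have h2 := coe_restrictNormalHom L ι ⟨x, hx⟩
  rw [h] at h2
  simpa using h2.symm

theorem apply_eq_of_restrict_eq (L : IntermediateField ℚ Qb) [Normal ℚ L] (ι κ : GQ)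
    (h : AlgEquiv.restrictNormalHom L ι = AlgEquiv.restrictNormalHom L κ) (x : Qb) (hx : x ∈ L) :
    ι x = κ x := by
  rw [← coe_restrictNormalHom L ι ⟨x, hx⟩, ← coe_restrictNormalHom L κ ⟨x, hx⟩, h]

/-- The Galois closure in `ℚ̄` of a finite extension of `ℚ`, as a Galois number field. -/
theorem exists_galois_numberField (E : IntermediateField ℚ Qb) (hE : FiniteDimensional ℚ E) :
    ∃ (L : IntermediateField ℚ Qb) (_ : NumberField L) (_ : IsGalois ℚ L), E ≤ L := by
  have : Algebra.IsAlgebraic ℚ Qb := AlgebraicClosure.isAlgebraic ℚ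
  have : IsAlgClosure ℚ Qb := ⟨inferInstance, inferInstance⟩
  have : Normal ℚ Qb := IsAlgClosure.normal ℚ Qb
  refine ⟨IntermediateField.normalClosure ℚ E Qb, ?_, ?_, IntermediateField.le_normalClosure E⟩
  · have h : FiniteDimensional ℚ (IntermediateField.normalClosure ℚ E Qb) :=
      normalClosure.is_finiteDimensional ℚ E Qb
    exact { to_charZero := inferInstance, to_finiteDimensional := h }
  · have h : Normal ℚ (IntermediateField.normalClosure ℚ E Qb) :=
      normalClosure.normal ℚ E Qb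
    have h' : Algebra.IsSeparable ℚ (IntermediateField.normalClosure ℚ E Qb) :=
      inferInstance
    exact isGalois_iff.mpr ⟨h', h⟩

/-- **F6 / W5**: the bridge for the Frobenius density theorem. -/
theorem bridgeDivision : Spec.BridgeDivisionStatement := by
  intro hM E hE σ S
  obtain ⟨L, hL1, hL2, hEL⟩ := exists_galois_numberField E hE
  obtain ⟨p, P, τ, hp, hpS, hP, hpP, hI, hτ, hz⟩ := hM L (AlgEquiv.restrictNormalHom L σ) S
  obtain ⟨A, φ, hA, hφ, hin, hφτ⟩ := bridge_core L p hp P hP hpP hI τ hτ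
  have hfin : Finite (L ≃ₐ[ℚ] L) := inferInstance
  obtain ⟨k, hk⟩ : ∃ k : ℕ, (AlgEquiv.restrictNormalHom L σ) ^ k = τ := by
    have h1 : τ ∈ Subgroup.zpowers (AlgEquiv.restrictNormalHom L σ) := by
      rw [← hz]; exact Subgroup.mem_zpowers τ
    exact (Submonoid.mem_powers_iff _ _).mp (mem_powers_iff_mem_zpowers.mpr h1)
  obtain ⟨j, hj⟩ : ∃ j : ℕ, τ ^ j = AlgEquiv.restrictNormalHom L σ := by
    have h1 : AlgEquiv.restrictNormalHom L σ ∈ Subgroup.zpowers τ := by
      rw [hz]; exact Subgroup.mem_zpowers _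
    exact (Submonoid.mem_powers_iff _ _).mp (mem_powers_iff_mem_zpowers.mpr h1)
  refine ⟨p, A, φ, k, j, hp, hpS, hA, hφ, ?_, ?_, ?_⟩
  · intro ι hι x hx
    exact apply_eq_of_restrict_eq_one L ι (hin ι hι) x (hEL hx)
  · intro x hx
    refine apply_eq_of_restrict_eq L φ (σ ^ k) ?_ x (hEL hx)
    rw [hφτ, map_pow, hk]
  · intro x hx
    refine apply_eq_of_restrict_eq L (φ ^ j) σ ?_ x (hEL hx)
    rw [map_pow, hφτ, hj]

/-- **BR2**: the bridge for the exact qualitative Chebotarev theorem. -/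
theorem bridge : Spec.BridgeStatement := by
  intro hM E hE σ S
  obtain ⟨L, hL1, hL2, hEL⟩ := exists_galois_numberField E hE
  obtain ⟨p, P, hp, hpS, hP, hpP, hI, hτ⟩ := hM L (AlgEquiv.restrictNormalHom L σ) S
  obtain ⟨A, φ, hA, hφ, hin, hφτ⟩ :=
    bridge_core L p hp P hP hpP hI (AlgEquiv.restrictNormalHom L σ) hτ
  refine ⟨p, A, φ, hp, hpS, hA, hφ, ?_, ?_⟩
  · intro ι hι x hx
    exact apply_eq_of_restrict_eq_one L ι (hin ι hι) x (hEL hx)
  · intro x hx
    exact apply_eq_of_restrict_eq L φ σ hφτ x (hEL hx)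

end Fermat.Agent.Lib.Cheb.H116

end
-- ===== PACK-END Lib/Cheb/H116/Bridge.lean

-- ===== PACK-BEGIN Lib/Cheb/H116/QBridge.lean
section





/-!
# CHEB-Q, piece Q-BR: the bridge for the Chebotarev density theorem

`bridgeDensitySet : SpecQ.BridgeDensitySetStatement`, i.e.
`SpecQ.ChebDensitySetStatement → SpecQ.ChebDensityStatement`: from subsets of the Galois group of
a Galois number field to homomorphisms on `Gal(ℚ̄/ℚ)` which factor through a finite extension.
-/

set_option autoImplicit false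

open NumberField
open scoped Pointwise

namespace Fermat.Agent.Lib.Cheb.H116

open Fermat.Agent.Lib.Cheb.Spec (Qb GQ)
open Fermat.Agent.Lib.Cheb

/-- The preimage of a set under a group homomorphism is in bijection with the product of the
part of the set inside the range and the kernel. -/
theorem card_preimage_eq {Γ G : Type*} [Group Γ] [Group G] (f : Γ →* G) (C : Set G) :
    Nat.card ↥(f ⁻¹' C) = Nat.card ↥(C ∩ Set.range f) * Nat.card f.ker := by
  classical
  rw [← Nat.card_prod]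
  have hs : ∀ y : ↥(C ∩ Set.range f), ∃ g : Γ, f g = y := fun y => y.2.2
  choose s hs using hs
  refine Nat.card_congr
    { toFun := fun g => (⟨f g, g.2, ⟨g, rfl⟩⟩, ⟨(s ⟨f g, g.2, ⟨g, rfl⟩⟩)⁻¹ * g, ?_⟩)
      invFun := fun yk => ⟨s yk.1 * yk.2, ?_⟩
      left_inv := ?_
      right_inv := ?_ }
  · rw [MonoidHom.mem_ker, map_mul, map_inv, hs]
    exact inv_mul_cancel _
  · rw [Set.mem_preimage, map_mul, hs, MonoidHom.mem_ker.mp yk.2.2, mul_one]
    exact yk.1.2.1
  · intro g
    apply Subtype.ext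
    simp
  · rintro ⟨y, k⟩
    have hy : f (s y * k) = y := by rw [map_mul, hs, MonoidHom.mem_ker.mp k.2, mul_one]
    have hy' : (⟨f (s y * (k : Γ)), by rw [hy]; exact y.2⟩ : ↥(C ∩ Set.range f)) = y :=
      Subtype.ext hy
    apply Prod.ext
    · exact hy'
    · apply Subtype.ext
      simp only
      rw [hy']
      simp

/-- Density of a preimage: `|f⁻¹ C| / |Γ| = |C ∩ im f| / |im f|` for a finite group `Γ`. -/
theorem card_preimage_div {Γ G : Type*} [Group Γ] [Finite Γ] [Group G] (f : Γ →* G)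
    (C : Set G) :
    (Nat.card ↥(f ⁻¹' C) : ℝ) / (Nat.card Γ : ℝ) =
      (Nat.card ↥(C ∩ Set.range f) : ℝ) / (Nat.card ↥(Set.range f) : ℝ) := by
  have h1 := card_preimage_eq f C
  have h2 := card_preimage_eq f Set.univ
  have h3 : Nat.card ↥(f ⁻¹' Set.univ) = Nat.card Γ := by
    rw [Set.preimage_univ]
    exact Nat.card_congr (Equiv.Set.univ Γ)
  have h4 : Nat.card ↥(Set.univ ∩ Set.range f) = Nat.card ↥(Set.range f) := by
    rw [Set.univ_inter]
  rw [h3, h4] at h2
  have hk : (Nat.card f.ker : ℝ) ≠ 0 := by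
    have : Nat.card f.ker ≠ 0 := Nat.card_pos.ne'
    exact_mod_cast this
  rw [h1, h2]
  push_cast
  rw [mul_div_mul_right _ _ hk]

/-- **Q-BR**: the bridge for the Chebotarev density theorem. -/
theorem bridgeDensitySet : SpecQ.BridgeDensitySetStatement := by
  intro hSet G _ ρ E hE hρ C S
  obtain ⟨L, hL1, hL2, hEL⟩ := exists_galois_numberField E hE
  have : Algebra.IsAlgebraic ℚ Qb := AlgebraicClosure.isAlgebraic ℚ
  have : IsAlgClosure ℚ Qb := ⟨inferInstance, inferInstance⟩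
  have : Normal ℚ Qb := IsAlgClosure.normal ℚ Qb
  have hres : Function.Surjective (AlgEquiv.restrictNormalHom (F := ℚ) (K₁ := Qb) L) :=
    AlgEquiv.restrictNormalHom_surjective Qb
  have hker : ∀ σ : GQ, AlgEquiv.restrictNormalHom L σ = 1 → ρ σ = 1 := fun σ h =>
    hρ σ (fun x hx => apply_eq_of_restrict_eq_one L σ h x (hEL hx))
  -- the induced homomorphism on `Gal(L/ℚ)`
  let f : (L ≃ₐ[ℚ] L) →* G :=
    MonoidHom.liftOfRightInverse (AlgEquiv.restrictNormalHom L) (Function.surjInv hres)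
      (Function.rightInverse_surjInv hres)
      ⟨ρ, fun σ hσ => MonoidHom.mem_ker.mpr (hker σ (MonoidHom.mem_ker.mp hσ))⟩
  have hf : ∀ σ : GQ, f (AlgEquiv.restrictNormalHom L σ) = ρ σ := fun σ =>
    MonoidHom.liftOfRightInverse_comp_apply _ _ _ _ σ
  have hrange : Set.range f = Set.range ρ := by
    ext y
    constructor
    · rintro ⟨g, rfl⟩
      obtain ⟨σ, rfl⟩ := hres g
      exact ⟨σ, (hf σ).symm⟩
    · rintro ⟨σ, rfl⟩
      exact ⟨_, hf σ⟩
  have hdens := hSet L (f ⁻¹' C)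
  rw [card_preimage_div f C, hrange] at hdens
  refine (hdens.diff_finset S).mono ?_
  rintro p ⟨⟨g, hgC, hp, P, hP, hpP, hI, hF⟩, hpS⟩
  obtain ⟨A, φ, hA, hφ, hin, hφg⟩ := bridge_core L p hp P hP hpP hI g hF
  refine ⟨hp, hpS, A, φ, hA, hφ, fun ι hι => hker ι (hin ι hι), ?_⟩
  rw [← hf φ, hφg]
  exact hgC

end Fermat.Agent.Lib.Cheb.H116

end
-- ===== PACK-END Lib/Cheb/H116/QBridge.lean

-- ===== PACK-BEGIN Lib/Cheb/H221/CycAlg.lean
section






/-!
# CYC, algebraic part (helper221)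

Setting of `Spec.CycStatement`: `L/ℚ` Galois, `ζ ∈ L` a primitive `m`-th root of unity,
`g ∈ Gal(L/ℚ)` such that `⟨g⟩` acts faithfully on `ζ`.
-/

set_option autoImplicit false

open NumberField

namespace Fermat.Agent.Lib.Cheb.H221

set_option linter.unusedSectionVars false

section basic

variable {L : Type} [Field L] [NumberField L] [IsGalois ℚ L]

lemma modEq_of_pow_eq_pow {m : ℕ} [NeZero m] {ζ : L} (hζ : IsPrimitiveRoot ζ m) {i j : ℕ}
    (h : ζ ^ i = ζ ^ j) : i ≡ j [MOD m] := by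
  have ho := hζ.eq_orderOf
  have h1 : ζ ^ (i % m) = ζ ^ (j % m) := by
    rw [ho, pow_mod_orderOf, pow_mod_orderOf, h]
  exact hζ.pow_inj (Nat.mod_lt _ (NeZero.pos m)) (Nat.mod_lt _ (NeZero.pos m)) h1

lemma card_quot_under_eq {p : ℕ} (hp : p.Prime) {P : Ideal (𝓞 L)} (hP : P.IsPrime)
    (hpP : (p : 𝓞 L) ∈ P) : Nat.card (ℤ ⧸ P.under ℤ) = p := by
  have : Fact p.Prime := ⟨hp⟩
  have hmax := Int.ideal_span_isMaximal_of_prime p
  have hle : Ideal.span {(p : ℤ)} ≤ P.under ℤ := by
    rw [Ideal.span_le, Set.singleton_subset_iff]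
    change (p : ℤ) ∈ Ideal.comap (algebraMap ℤ (𝓞 L)) P
    rw [Ideal.mem_comap]
    simpa using hpP
  have hne : P.under ℤ ≠ ⊤ := (Ideal.IsPrime.under ℤ P).ne_top
  have heq : Ideal.span {(p : ℤ)} = P.under ℤ := hmax.eq_of_le hne hle
  rw [← heq, ← Submodule.cardQuot_apply, ← Ideal.absNorm_apply, Ideal.absNorm_span_singleton]
  simp

lemma natCast_notMem_of_not_dvd {p m : ℕ} (hp : p.Prime) (hpm : ¬ p ∣ m) {P : Ideal (𝓞 L)}
    (hP : P.IsPrime) (hpP : (p : 𝓞 L) ∈ P) : (m : 𝓞 L) ∉ P := by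
  intro hm
  have hcop : Nat.Coprime p m := (Nat.Prime.coprime_iff_not_dvd hp).mpr hpm
  have h1 : ((p : ℤ) * Nat.gcdA p m + (m : ℤ) * Nat.gcdB p m : ℤ) = 1 := by
    have := Nat.gcd_eq_gcd_ab p m
    rw [hcop] at this
    simpa using this.symm
  have h2 : ((1 : ℤ) : 𝓞 L) ∈ P := by
    rw [← h1]
    push_cast
    exact P.add_mem (P.mul_mem_right _ hpP) (P.mul_mem_right _ hm)
  exact hP.ne_top ((Ideal.eq_top_iff_one P).mpr (by simpa using h2))

variable {m : ℕ} [NeZero m] {ζ : L} (hζ : IsPrimitiveRoot ζ m)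

include hζ in
/-- A Frobenius at a prime above `p ∤ m` raises `ζ` to the `p`-th power. -/
lemma frob_apply_zeta {p : ℕ} (hp : p.Prime) (hpm : ¬ p ∣ m) {P : Ideal (𝓞 L)}
    (hP : P.IsPrime) (hpP : (p : 𝓞 L) ∈ P) {τ : L ≃ₐ[ℚ] L} (hτ : IsArithFrobAt ℤ τ P) :
    τ ζ = ζ ^ p := by
  have h1 : hζ.toInteger ^ m = 1 := hζ.toInteger_isPrimitiveRoot.pow_eq_one
  have h2 := AlgHom.IsArithFrobAt.apply_of_pow_eq_one hτ h1
    (natCast_notMem_of_not_dvd hp hpm hP hpP)
  rw [card_quot_under_eq hp hP hpP] at h2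
  have h3 := congrArg (fun x : 𝓞 L => (x : L)) h2
  exact h3

/-- The cyclotomic character of a Frobenius at a prime above `p ∤ m` is `p mod m`. -/
lemma autToPow_frob {p : ℕ} (hp : p.Prime) (hpm : ¬ p ∣ m) {P : Ideal (𝓞 L)}
    (hP : P.IsPrime) (hpP : (p : 𝓞 L) ∈ P) {τ : L ≃ₐ[ℚ] L} (hτ : IsArithFrobAt ℤ τ P) :
    ((hζ.autToPow ℚ τ : (ZMod m)ˣ) : ZMod m) = (p : ZMod m) := by
  have h1 := frob_apply_zeta hζ hp hpm hP hpP hτ
  have h2 := hζ.autToPow_spec ℚ τ
  rw [h1] at h2
  have h3 := modEq_of_pow_eq_pow hζ h2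
  have := (ZMod.natCast_eq_natCast_iff _ _ m).mpr h3
  simpa using this

include hζ in
lemma apply_zeta_of_autToPow_eq_one {σ : L ≃ₐ[ℚ] L} (h : hζ.autToPow ℚ σ = 1) : σ ζ = ζ := by
  have h2 := hζ.autToPow_spec ℚ σ
  rw [h] at h2
  rw [← h2]
  have ho := hζ.eq_orderOf
  have h3 : ((1 : (ZMod m)ˣ) : ZMod m).val = 1 % m := by
    rw [Units.val_one, ZMod.val_one_eq_one_mod]
  rw [h3]
  conv_lhs => rw [ho, pow_mod_orderOf]
  exact pow_one ζ

lemma autToPow_eq_one_of_apply_zeta {σ : L ≃ₐ[ℚ] L} (h : σ ζ = ζ) : hζ.autToPow ℚ σ = 1 := by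
  have h2 := hζ.autToPow_spec ℚ σ
  rw [h] at h2
  have h3 : (hζ.autToPow ℚ σ : ZMod m).val ≡ 1 [MOD m] := by
    apply modEq_of_pow_eq_pow hζ
    rw [h2, pow_one]
  have := (ZMod.natCast_eq_natCast_iff _ _ m).mpr h3
  ext
  simpa using this

variable {g : L ≃ₐ[ℚ] L} (hg : ∀ k : ℕ, (g ^ k) ζ = ζ → g ^ k = 1)

include hg in
lemma eq_one_of_mem_zpowers {τ : L ≃ₐ[ℚ] L} (hτ : τ ∈ Subgroup.zpowers g)
    (h : hζ.autToPow ℚ τ = 1) : τ = 1 := by
  rw [← mem_powers_iff_mem_zpowers] at hτ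
  obtain ⟨k, rfl⟩ := hτ
  exact hg k (apply_zeta_of_autToPow_eq_one hζ h)

include hg in
lemma eq_of_mem_zpowers {τ : L ≃ₐ[ℚ] L} (hτ : τ ∈ Subgroup.zpowers g)
    (h : hζ.autToPow ℚ τ = hζ.autToPow ℚ g) : τ = g := by
  have h1 : τ * g⁻¹ ∈ Subgroup.zpowers g :=
    Subgroup.mul_mem _ hτ (Subgroup.inv_mem _ (Subgroup.mem_zpowers g))
  have h2 : hζ.autToPow ℚ (τ * g⁻¹) = 1 := by
    rw [map_mul, map_inv, h, mul_inv_cancel]
  have := eq_one_of_mem_zpowers hζ hg h1 h2
  exact mul_inv_eq_one.mp this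

include hg in
lemma orderOf_autToPow : orderOf (hζ.autToPow ℚ g) = orderOf g := by
  rw [orderOf_eq_orderOf_iff]
  intro n
  rw [← map_pow]
  constructor
  · intro h
    exact hg n (apply_zeta_of_autToPow_eq_one hζ h)
  · intro h
    rw [h, map_one]

end basic

section weight

variable (L : Type) [Field L] [NumberField L] [IsGalois ℚ L]

lemma primesLe_finite (H : Subgroup (L ≃ₐ[ℚ] L)) {p : ℕ} (hp : p.Prime) :
    (Spec.primesLe L H p).Finite :=
  (H341.primesAbove_finite L hp).subset (fun _ hP => ⟨hP.1, hP.2.1⟩)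

variable {L}

lemma exists_of_decompWeight_ne_zero {H : Subgroup (L ≃ₐ[ℚ] L)} {p : ℕ}
    (h : Spec.decompWeight L H p ≠ 0) : ∃ P, P ∈ Spec.primesLe L H p := by
  by_contra hcon
  push Not at hcon
  apply h
  unfold Spec.decompWeight
  have : IsEmpty (Spec.primesLe L H p) := ⟨fun P => hcon P.1 P.2⟩
  exact finsum_of_isEmpty _

lemma decompWeight_ne_zero {H : Subgroup (L ≃ₐ[ℚ] L)} {p : ℕ} (hp : p.Prime)
    {P : Ideal (𝓞 L)} (hP : P ∈ Spec.primesLe L H p) : Spec.decompWeight L H p ≠ 0 := by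
  unfold Spec.decompWeight
  have hfin : Finite (Spec.primesLe L H p) := (primesLe_finite L H hp).to_subtype
  have : Fintype (Spec.primesLe L H p) := Fintype.ofFinite _
  rw [finsum_eq_sum_of_fintype]
  intro h0
  rw [Finset.sum_eq_zero_iff] at h0
  have h1 := h0 ⟨P, hP⟩ (Finset.mem_univ _)
  exact Nat.card_pos.ne' h1

lemma decompWeight_congr {H H' : Subgroup (L ≃ₐ[ℚ] L)} {p : ℕ}
    (h : Spec.primesLe L H p = Spec.primesLe L H' p) :
    Spec.decompWeight L H p = Spec.decompWeight L H' p := by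
  unfold Spec.decompWeight
  rw [finsum_set_coe_eq_finsum_mem (f := fun P : Ideal (𝓞 L) => Nat.card (Spec.decomp L P))
      (Spec.primesLe L H p),
    finsum_set_coe_eq_finsum_mem (f := fun P : Ideal (𝓞 L) => Nat.card (Spec.decomp L P))
      (Spec.primesLe L H' p), h]

lemma decompWeight_eq_zero {H : Subgroup (L ≃ₐ[ℚ] L)} {p : ℕ}
    (h : ∀ P, P ∉ Spec.primesLe L H p) : Spec.decompWeight L H p = 0 := by
  by_contra h0
  obtain ⟨P, hP⟩ := exists_of_decompWeight_ne_zero h0
  exact h P hP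

end weight

section main

variable {L : Type} [Field L] [NumberField L] [IsGalois ℚ L]
variable {m : ℕ} [NeZero m] {ζ : L} (hζ : IsPrimitiveRoot ζ m)
variable {g : L ≃ₐ[ℚ] L} (hg : ∀ k : ℕ, (g ^ k) ζ = ζ → g ^ k = 1)

/-- Frobenius data at a prime `P ∣ p` whose decomposition group lies in `⟨g⟩`. -/
lemma exists_frob_of_mem_primesLe {B : Finset ℕ}
    (hB : ∀ p : ℕ, p.Prime → p ∉ B → ∀ P : Ideal (𝓞 L), P.IsPrime → (p : 𝓞 L) ∈ P →
        Spec.InertiaTrivial L P ∧
        ∃ τ : L ≃ₐ[ℚ] L, IsArithFrobAt ℤ τ P ∧ Spec.decomp L P = Subgroup.zpowers τ)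
    {p : ℕ} (hp : p.Prime) (hpB : p ∉ B) (hpm : ¬ p ∣ m) {H : Subgroup (L ≃ₐ[ℚ] L)}
    {P : Ideal (𝓞 L)} (hP : P ∈ Spec.primesLe L H p) :
    Spec.InertiaTrivial L P ∧ ∃ τ : L ≃ₐ[ℚ] L, IsArithFrobAt ℤ τ P ∧
      Spec.decomp L P = Subgroup.zpowers τ ∧ τ ∈ H ∧
      ((hζ.autToPow ℚ τ : (ZMod m)ˣ) : ZMod m) = (p : ZMod m) := by
  obtain ⟨hI, τ, hτ, hD⟩ := hB p hp hpB P hP.1 hP.2.1
  refine ⟨hI, τ, hτ, hD, ?_, autToPow_frob hζ hp hpm hP.1 hP.2.1 hτ⟩
  apply hP.2.2
  rw [hD]
  exact Subgroup.mem_zpowers τ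

theorem cycAlg : CycAlgStatement := by
  intro hA hD hM L _ _ _ m _ ζ hζ g hg
  classical
  refine ⟨by rw [Nat.card_zpowers]; exact orderOf_autToPow hζ hg, ?_⟩
  obtain ⟨B1, hB1⟩ := hA L (Subgroup.zpowers g)
  obtain ⟨B2, hB2⟩ := hA L ⊥
  obtain ⟨B3, hB3⟩ := hD L
  have hcard : 0 < Nat.card (Subgroup.zpowers g) := Nat.card_pos
  refine ⟨B1 ∪ B2 ∪ B3 ∪ m.primeFactors, ?_, ?_, ?_, ?_⟩
  · -- SUPP
    intro p hp hpB hc
    simp only [Finset.mem_union, not_or] at hpB
    obtain ⟨⟨⟨hp1, hp2⟩, hp3⟩, hp4⟩ := hpB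
    have hpm : ¬ p ∣ m := fun h => hp4 (Nat.mem_primeFactors.mpr ⟨hp, h, NeZero.ne m⟩)
    have hw : Spec.decompWeight L (Subgroup.zpowers g) p ≠ 0 := by
      rw [← hB1 p hp hp1]
      exact Nat.mul_ne_zero hc hcard.ne'
    obtain ⟨P, hP⟩ := exists_of_decompWeight_ne_zero hw
    obtain ⟨-, τ, -, -, hτg, hτp⟩ := exists_frob_of_mem_primesLe hζ hB3 hp hp3 hpm hP
    refine ⟨hζ.autToPow ℚ τ, ?_, hτp⟩
    obtain ⟨k, rfl⟩ := Subgroup.mem_zpowers_iff.mp hτg
    rw [map_zpow]
    exact Subgroup.zpow_mem _ (Subgroup.mem_zpowers _) k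
  · -- SPLIT
    intro p hp hpB
    simp only [Finset.mem_union, not_or] at hpB
    obtain ⟨⟨⟨hp1, hp2⟩, hp3⟩, hp4⟩ := hpB
    have hpm : ¬ p ∣ m := fun h => hp4 (Nat.mem_primeFactors.mpr ⟨hp, h, NeZero.ne m⟩)
    have h1 := hB1 p hp hp1
    have h2 := hB2 p hp hp2
    rw [Nat.card_eq_one_iff_unique.mpr ⟨inferInstance, inferInstance⟩, mul_one] at h2
    rw [Nat.card_zpowers] at h1
    split_ifs with hp1m
    · -- p ≡ 1
      have hset : Spec.primesLe L (Subgroup.zpowers g) p = Spec.primesLe L ⊥ p := by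
        ext P
        constructor
        · intro hP
          obtain ⟨-, τ, -, hDP, hτg, hτp⟩ := exists_frob_of_mem_primesLe hζ hB3 hp hp3 hpm hP
          have hτ1 : τ = 1 := by
            apply eq_one_of_mem_zpowers hζ hg hτg
            ext
            rw [hτp, hp1m]
            simp
          refine ⟨hP.1, hP.2.1, ?_⟩
          rw [hDP, hτ1]
          simp
        · intro hP
          exact ⟨hP.1, hP.2.1, hP.2.2.trans bot_le⟩
      rw [h2, ← decompWeight_congr hset, ← h1, mul_comm]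
    · -- p ≢ 1
      rw [h2]
      apply decompWeight_eq_zero
      intro P hP
      obtain ⟨-, τ, -, hDP, hτg, hτp⟩ := exists_frob_of_mem_primesLe hζ hB3 hp hp3 hpm hP
      apply hp1m
      rw [← hτp]
      have : τ = 1 := by simpa using hτg
      rw [this, map_one]
      simp
  · -- NT
    intro χ hχ
    obtain ⟨p, P, τ, hp, hpB, hP, hpP, hI, hτ, hτg⟩ :=
      hM L g (B1 ∪ B2 ∪ B3 ∪ m.primeFactors)
    simp only [Finset.mem_union, not_or] at hpB
    obtain ⟨⟨⟨hp1, hp2⟩, hp3⟩, hp4⟩ := hpB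
    have hpm : ¬ p ∣ m := fun h => hp4 (Nat.mem_primeFactors.mpr ⟨hp, h, NeZero.ne m⟩)
    have hDP : Spec.decomp L P = Subgroup.zpowers g := by
      have := hP
      rw [H943.decomp_eq_zpowers hp hpP hI hτ, hτg]
    have hPle : P ∈ Spec.primesLe L (Subgroup.zpowers g) p := ⟨hP, hpP, hDP.le⟩
    have hw := decompWeight_ne_zero hp hPle
    rw [← hB1 p hp hp1] at hw
    have hc : Spec.primeCount (fixM L g) p ≠ 0 := fun h => hw (by rw [h, zero_mul])
    -- a prime of norm `p`
    have hne : Nonempty {𝔮 : Ideal (𝓞 (fixM L g)) // 𝔮.IsPrime ∧ Ideal.absNorm 𝔮 = p} := by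
      by_contra hemp
      rw [not_nonempty_iff] at hemp
      exact hc Nat.card_of_isEmpty
    obtain ⟨𝔮, -, h𝔮⟩ := hne
    refine ⟨𝔮, ?_, ?_⟩
    · rw [h𝔮]
      have hu : IsUnit (p : ZMod m) := by
        rw [ZMod.isUnit_iff_coprime]
        exact (Nat.Prime.coprime_iff_not_dvd hp).mpr hpm
      exact (hu.map χ).ne_zero
    · rw [h𝔮]
      intro h1
      apply hχ
      have hτp := autToPow_frob hζ hp hpm hP hpP hτ
      have hgτ : g ∈ Subgroup.zpowers τ := by rw [hτg]; exact Subgroup.mem_zpowers g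
      obtain ⟨k, hk⟩ := (mem_powers_iff_mem_zpowers.mpr hgτ)
      rw [← hk, map_pow, Units.val_pow_eq_pow_val, hτp, map_pow, h1, one_pow]
  · -- FIN
    intro p hp hpB hc hpa
    simp only [Finset.mem_union, not_or] at hpB
    obtain ⟨⟨⟨hp1, hp2⟩, hp3⟩, hp4⟩ := hpB
    have hpm : ¬ p ∣ m := fun h => hp4 (Nat.mem_primeFactors.mpr ⟨hp, h, NeZero.ne m⟩)
    have hw : Spec.decompWeight L (Subgroup.zpowers g) p ≠ 0 := by
      rw [← hB1 p hp hp1]
      exact Nat.mul_ne_zero hc hcard.ne'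
    obtain ⟨P, hP⟩ := exists_of_decompWeight_ne_zero hw
    obtain ⟨hI, τ, hτ, -, hτg, hτp⟩ := exists_frob_of_mem_primesLe hζ hB3 hp hp3 hpm hP
    have : τ = g := by
      apply eq_of_mem_zpowers hζ hg hτg
      ext
      rw [hτp, hpa]
    exact ⟨P, hP.1, hP.2.1, hI, this ▸ hτ⟩

end main

end Fermat.Agent.Lib.Cheb.H221

end
-- ===== PACK-END Lib/Cheb/H221/CycAlg.lean

-- ===== PACK-BEGIN Lib/Cheb/H221/CycAbs.lean
section




/-!
# CYC, the abstract Dirichlet argument (helper221)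
-/

set_option autoImplicit false

open Filter Topology

namespace Fermat.Agent.Lib.Cheb.H221

set_option linter.unusedSectionVars false

section chars

variable {m : ℕ} [NeZero m] (A : Subgroup (ZMod m)ˣ)

/-- `χ` is trivial on `A` -/
def TrivOn (χ : DirichletCharacter ℂ m) : Prop :=
  ∀ u ∈ A, χ ((u : (ZMod m)ˣ) : ZMod m) = 1

open Classical in
lemma sum_subgroup_eq_zero {χ : DirichletCharacter ℂ m} (hχ : ¬ TrivOn A χ) :
    ∑ u : A, χ ((u : (ZMod m)ˣ) : ZMod m) = 0 := by
  let f : A →* ℂ := χ.toMonoidHom.comp ((Units.coeHom (ZMod m)).comp A.subtype)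
  have hf : f ≠ 1 := by
    intro h
    apply hχ
    intro u hu
    have := DFunLike.congr_fun h ⟨u, hu⟩
    simpa [f] using this
  have := sum_hom_units_eq_zero f hf
  simpa [f] using this

open Classical in
lemma sum_subgroup_eq_card {χ : DirichletCharacter ℂ m} (hχ : TrivOn A χ) :
    ∑ u : A, χ ((u : (ZMod m)ˣ) : ZMod m) = (Nat.card A : ℂ) := by
  have : ∀ u : A, χ ((u : (ZMod m)ˣ) : ZMod m) = 1 := fun u => hχ u.1 u.2
  simp [this]

open Classical in
/-- the number of characters trivial on `A`, times `|A|`, is `φ(m)` -/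
lemma card_trivOn_mul :
    ((Finset.univ.filter (fun χ : DirichletCharacter ℂ m => TrivOn A χ)).card : ℂ) *
      (Nat.card A : ℂ) = (m.totient : ℂ) := by
  have h1 : ∑ χ : DirichletCharacter ℂ m, ∑ u : A, χ ((u : (ZMod m)ˣ) : ZMod m) =
      ((Finset.univ.filter (fun χ : DirichletCharacter ℂ m => TrivOn A χ)).card : ℂ) *
        (Nat.card A : ℂ) := by
    have : ∀ χ : DirichletCharacter ℂ m, ∑ u : A, χ ((u : (ZMod m)ˣ) : ZMod m) =
        if TrivOn A χ then (Nat.card A : ℂ) else 0 := by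
      intro χ
      split_ifs with h
      · exact sum_subgroup_eq_card A h
      · exact sum_subgroup_eq_zero A h
    simp only [this]
    rw [← Finset.sum_filter, Finset.sum_const, nsmul_eq_mul]
  have h2 : ∑ χ : DirichletCharacter ℂ m, ∑ u : A, χ ((u : (ZMod m)ˣ) : ZMod m) =
      (m.totient : ℂ) := by
    rw [Finset.sum_comm]
    have : ∀ u : A, ∑ χ : DirichletCharacter ℂ m, χ ((u : (ZMod m)ˣ) : ZMod m) =
        if (u : A) = 1 then (m.totient : ℂ) else 0 := by
      intro u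
      rw [DirichletCharacter.sum_characters_eq]
      congr 1
      rw [eq_iff_iff]
      constructor
      · intro h
        ext
        simpa using h
      · intro h
        rw [h]
        simp
    simp only [this]
    simp
  rw [← h1, h2]

end chars

section analysis

variable {m : ℕ} [NeZero m] (c : Nat.Primes → ℝ)

/-- the weights `c(p) p^(-s)` -/
noncomputable def wt (s : ℝ) (p : Nat.Primes) : ℝ := c p * ((p : ℕ) : ℝ) ^ (-s)

lemma wt_nonneg (hc : ∀ p, 0 ≤ c p) (s : ℝ) (p : Nat.Primes) : 0 ≤ wt c s p :=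
  mul_nonneg (hc p) (Real.rpow_nonneg (Nat.cast_nonneg _) _)

lemma wt_le (hc : ∀ p, 0 ≤ c p) {s : ℝ} (hs : 0 ≤ s) (p : Nat.Primes) : wt c s p ≤ c p := by
  unfold wt
  have : (((p : ℕ) : ℝ)) ^ (-s) ≤ 1 :=
    Real.rpow_le_one_of_one_le_of_nonpos (by exact_mod_cast p.2.one_le) (by linarith)
  exact mul_le_of_le_one_right (hc p) this

/-- the twisted sums -/
noncomputable def Tsum (χ : DirichletCharacter ℂ m) (s : ℝ) : ℂ :=
  ∑' p : Nat.Primes, χ ((p : ℕ) : ZMod m) * ((wt c s p : ℝ) : ℂ)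

/-- the sums over a residue class -/
noncomputable def Dsum (b : ZMod m) (s : ℝ) : ℝ :=
  ∑' p : Nat.Primes, if ((p : ℕ) : ZMod m) = b then wt c s p else 0

variable (hc : ∀ p, 0 ≤ c p)
include hc

lemma summable_char_wt {s : ℝ} (hsum : Summable (wt c s)) (χ : DirichletCharacter ℂ m) :
    Summable (fun p : Nat.Primes => χ ((p : ℕ) : ZMod m) * ((wt c s p : ℝ) : ℂ)) := by
  refine Summable.of_norm_bounded hsum (fun p => ?_)
  rw [norm_mul, Complex.norm_real, Real.norm_of_nonneg (wt_nonneg c hc s p)]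
  calc ‖χ ((p : ℕ) : ZMod m)‖ * wt c s p ≤ 1 * wt c s p :=
        mul_le_mul_of_nonneg_right (DirichletCharacter.norm_le_one χ _) (wt_nonneg c hc s p)
    _ = _ := one_mul _

lemma sum_coeff_Tsum {s : ℝ} (hsum : Summable (wt c s)) (κ : DirichletCharacter ℂ m → ℂ) :
    ∑ χ, κ χ * Tsum c χ s =
      ∑' p : Nat.Primes, (∑ χ, κ χ * χ ((p : ℕ) : ZMod m)) * ((wt c s p : ℝ) : ℂ) := by
  unfold Tsum
  simp_rw [← tsum_mul_left]
  rw [← Summable.tsum_finsetSum (fun χ _ => (summable_char_wt c hc hsum χ).mul_left (κ χ))]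
  refine tsum_congr fun p => ?_
  rw [Finset.sum_mul]
  refine Finset.sum_congr rfl fun χ _ => ?_
  ring

lemma sum_inv_Tsum {s : ℝ} (hsum : Summable (wt c s)) {a : ZMod m} (ha : IsUnit a) :
    ∑ χ : DirichletCharacter ℂ m, χ a⁻¹ * Tsum c χ s =
      (m.totient : ℂ) * ((Dsum c a s : ℝ) : ℂ) := by
  rw [sum_coeff_Tsum c hc hsum]
  simp_rw [DirichletCharacter.sum_char_inv_mul_char_eq ℂ ha]
  unfold Dsum
  rw [Complex.ofReal_tsum, ← tsum_mul_left]
  refine tsum_congr fun p => ?_
  by_cases h : ((p : ℕ) : ZMod m) = a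
  · rw [if_pos h.symm, if_pos h]
  · rw [if_neg (fun h' => h h'.symm), if_neg h]
    simp

lemma sum_Tsum {s : ℝ} (hsum : Summable (wt c s)) :
    ∑ χ : DirichletCharacter ℂ m, Tsum c χ s =
      (m.totient : ℂ) * ((Dsum c (1 : ZMod m) s : ℝ) : ℂ) := by
  have := sum_inv_Tsum (m := m) c hc hsum (a := 1) isUnit_one
  simpa using this

/-- the primes in a finite set of naturals -/
noncomputable def primesIn (B : Finset ℕ) : Finset Nat.Primes := by
  classical
  exact (Finset.subtype Nat.Prime B : Finset {n : ℕ // n.Prime})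

omit hc in
lemma mem_primesIn {B : Finset ℕ} {p : Nat.Primes} : p ∈ primesIn B ↔ (p : ℕ) ∈ B := by
  classical
  unfold primesIn
  exact Finset.mem_subtype

lemma norm_Tsum_sub_le (A : Subgroup (ZMod m)ˣ) {B : Finset ℕ}
    (hB : ∀ p : Nat.Primes, (p : ℕ) ∉ B → c p ≠ 0 →
      ∃ u ∈ A, ((u : (ZMod m)ˣ) : ZMod m) = ((p : ℕ) : ZMod m))
    {χ : DirichletCharacter ℂ m} (hχ : TrivOn A χ) {s : ℝ} (hs : 0 ≤ s)
    (hsum : Summable (wt c s)) :
    ‖Tsum c χ s - ((∑' p, wt c s p : ℝ) : ℂ)‖ ≤ ∑ p ∈ primesIn B, 2 * c p := by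
  unfold Tsum
  rw [Complex.ofReal_tsum, ← (summable_char_wt c hc hsum χ).tsum_sub
    (Complex.summable_ofReal.mpr hsum)]
  have h0 : ∀ p : Nat.Primes, p ∉ primesIn B →
      χ ((p : ℕ) : ZMod m) * ((wt c s p : ℝ) : ℂ) - ((wt c s p : ℝ) : ℂ) = 0 := by
    intro p hp
    rw [mem_primesIn] at hp
    by_cases hcp : c p = 0
    · simp [wt, hcp]
    · obtain ⟨u, hu, hup⟩ := hB p hp hcp
      rw [← hup, hχ u hu, one_mul, sub_self]
  rw [tsum_eq_sum h0]
  refine (norm_sum_le _ _).trans (Finset.sum_le_sum fun p _ => ?_)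
  have h1 : ‖χ ((p : ℕ) : ZMod m) * ((wt c s p : ℝ) : ℂ)‖ ≤ wt c s p := by
    rw [norm_mul, Complex.norm_real, Real.norm_of_nonneg (wt_nonneg c hc s p)]
    calc ‖χ ((p : ℕ) : ZMod m)‖ * wt c s p ≤ 1 * wt c s p :=
          mul_le_mul_of_nonneg_right (DirichletCharacter.norm_le_one χ _) (wt_nonneg c hc s p)
      _ = _ := one_mul _
  have h2 : ‖((wt c s p : ℝ) : ℂ)‖ = wt c s p := by
    rw [Complex.norm_real, Real.norm_of_nonneg (wt_nonneg c hc s p)]
  calc ‖χ ((p : ℕ) : ZMod m) * ((wt c s p : ℝ) : ℂ) - ((wt c s p : ℝ) : ℂ)‖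
      ≤ ‖χ ((p : ℕ) : ZMod m) * ((wt c s p : ℝ) : ℂ)‖ + ‖((wt c s p : ℝ) : ℂ)‖ := norm_sub_le _ _
    _ ≤ wt c s p + wt c s p := by rw [h2]; linarith
    _ ≤ 2 * c p := by linarith [wt_le c hc hs p]

lemma Dsum_le_of_forall {a : ZMod m} {S : Finset ℕ}
    (hS : ∀ p : Nat.Primes, (p : ℕ) ∉ S → ((p : ℕ) : ZMod m) = a → c p = 0)
    {s : ℝ} (hs : 0 ≤ s) : Dsum c a s ≤ ∑ p ∈ primesIn S, c p := by
  unfold Dsum
  have h0 : ∀ p : Nat.Primes, p ∉ primesIn S →
      (if ((p : ℕ) : ZMod m) = a then wt c s p else 0) = 0 := by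
    intro p hp
    rw [mem_primesIn] at hp
    split_ifs with h
    · simp [wt, hS p hp h]
    · rfl
  rw [tsum_eq_sum h0]
  refine Finset.sum_le_sum fun p _ => ?_
  split_ifs
  · exact wt_le c hc hs p
  · exact hc p

end analysis

lemma tendsto_log_one_div_sub :
    Tendsto (fun s : ℝ => Real.log (1 / (s - 1))) (𝓝[>] (1 : ℝ)) atTop := by
  have h1 : Tendsto (fun s : ℝ => s - 1) (𝓝[>] (1 : ℝ)) (𝓝[>] (0 : ℝ)) := by
    refine tendsto_nhdsWithin_of_tendsto_nhds_of_eventually_within _ ?_ ?_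
    · have : Tendsto (fun s : ℝ => s - 1) (𝓝 (1 : ℝ)) (𝓝 (1 - 1)) :=
        (continuous_id.sub continuous_const).tendsto 1
      simpa using this.mono_left nhdsWithin_le_nhds
    · filter_upwards [self_mem_nhdsWithin] with s hs
      have hs' : (1 : ℝ) < s := hs
      exact Set.mem_Ioi.mpr (sub_pos.mpr hs')
  have h2 := tendsto_inv_nhdsGT_zero.comp h1
  have h3 := Real.tendsto_log_atTop.comp h2
  refine h3.congr fun s => ?_
  simp [one_div]

theorem abstractDirichlet : AbstractDirichletStatement := by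
  intro m _ c hc hsum A hsupp htot hone hχ a ha S
  classical
  obtain ⟨B, hB⟩ := hsupp
  obtain ⟨C0, hC0⟩ := htot
  obtain ⟨C1, hC1⟩ := hone
  by_contra hcon
  push Not at hcon
  have hcon' : ∀ p : Nat.Primes, (p : ℕ) ∉ S →
      ((p : ℕ) : ZMod m) = ((a : (ZMod m)ˣ) : ZMod m) → c p = 0 := fun p hp hpa => hcon p hp hpa
  have hF : ∀ᶠ s in 𝓝[>] (1 : ℝ), 1 < s ∧ s ≤ 2 := by
    have : Set.Ioc (1 : ℝ) 2 ∈ 𝓝[>] (1 : ℝ) := Ioc_mem_nhdsGT (by norm_num)
    filter_upwards [this] with s hs using hs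
  have hsw : ∀ s : ℝ, 1 < s → s ≤ 2 → Summable (wt c s) := hsum
  set Tr := Finset.univ.filter (fun χ : DirichletCharacter ℂ m => TrivOn A χ) with hTrdef
  set Nt := Finset.univ.filter (fun χ : DirichletCharacter ℂ m => ¬ TrivOn A χ) with hNtdef
  have hk := card_trivOn_mul A
  have hkR : (Tr.card : ℝ) * (Nat.card A : ℝ) = (m.totient : ℝ) := by exact_mod_cast hk
  have hApos : (0 : ℝ) < Nat.card A := by exact_mod_cast Nat.card_pos
  have hφpos : (0 : ℝ) < m.totient := by exact_mod_cast Nat.totient_pos.mpr (NeZero.pos m)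
  have hk0 : (0 : ℝ) ≤ Tr.card := Nat.cast_nonneg _
  have hkpos : (0 : ℝ) < Tr.card := by
    rcases hk0.eq_or_lt with h | h
    · rw [← h, zero_mul] at hkR
      linarith
    · exact h
  have hdata : ∀ χ : DirichletCharacter ℂ m, ¬ TrivOn A χ →
      ∃ (Λ : ℝ → ℂ) (ℓ : ℂ) (C : ℝ), ContinuousOn Λ (Set.Ioi 1) ∧
        Tendsto (fun s => Complex.exp (Λ s)) (𝓝[>] (1 : ℝ)) (𝓝 ℓ) ∧
        ∀ s : ℝ, 1 < s → s ≤ 2 → ‖Λ s - Tsum c χ s‖ ≤ C := by
    intro χ hχn
    apply hχ χ
    unfold TrivOn at hχn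
    push Not at hχn
    exact hχn
  choose! Λ ℓ C hΛc hΛt hΛb using hdata
  have hNt : ∀ χ ∈ Nt, ¬ TrivOn A χ := fun χ h => (Finset.mem_filter.mp h).2
  set CB := ∑ p ∈ primesIn B, 2 * c p with hCBdef
  have hTr : ∀ χ ∈ Tr, ∀ s : ℝ, 1 < s → s ≤ 2 →
      ‖Tsum c χ s - ((∑' p, wt c s p : ℝ) : ℂ)‖ ≤ CB := fun χ hχ s h1 h2 =>
    norm_Tsum_sub_le c hc A hB (Finset.mem_filter.mp hχ).2 (by linarith) (hsw s h1 h2)
  have hsplit : ∀ f : DirichletCharacter ℂ m → ℂ,
      ∑ χ, f χ = ∑ χ ∈ Tr, f χ + ∑ χ ∈ Nt, f χ := fun f =>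
    (Finset.sum_filter_add_sum_filter_not _ _ _).symm
  have hlgnn : ∀ s : ℝ, 1 < s → s ≤ 2 → 0 ≤ Real.log (1 / (s - 1)) := by
    intro s h1 h2
    apply Real.log_nonneg
    rw [le_div_iff₀ (by linarith)]
    linarith
  have hTrre : ∀ χ ∈ Tr, ∀ s : ℝ, 1 < s → s ≤ 2 →
      |(Tsum c χ s).re - ∑' p, wt c s p| ≤ CB := by
    intro χ hχ s h1 h2
    have h3 := (Complex.abs_re_le_norm _).trans (hTr χ hχ s h1 h2)
    simpa using h3
  -- Step 1: lower bound for the nontrivial characters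
  have hlow : ∀ s : ℝ, 1 < s → s ≤ 2 →
      -((m.totient : ℝ) * C1 + Tr.card * (C0 + CB)) ≤ ∑ χ ∈ Nt, (Tsum c χ s).re := by
    intro s h1 h2
    have hS := sum_Tsum (m := m) c hc (hsw s h1 h2)
    rw [hsplit] at hS
    have hre := congrArg Complex.re hS
    simp only [Complex.add_re, Complex.re_sum, Complex.mul_re, Complex.natCast_re,
      Complex.natCast_im, Complex.ofReal_re, Complex.ofReal_im, zero_mul, sub_zero] at hre
    have hD1 : (Nat.card A : ℝ)⁻¹ * Real.log (1 / (s - 1)) - C1 ≤ Dsum c (1 : ZMod m) s :=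
      hC1 s h1 h2
    have hW : |(∑' p, wt c s p) - Real.log (1 / (s - 1))| ≤ C0 := hC0 s h1 h2
    rw [abs_le] at hW
    have hsumTr : ∑ χ ∈ Tr, (Tsum c χ s).re ≤ Tr.card * ((∑' p, wt c s p) + CB) := by
      calc ∑ χ ∈ Tr, (Tsum c χ s).re ≤ ∑ χ ∈ Tr, ((∑' p, wt c s p) + CB) :=
            Finset.sum_le_sum fun χ hχ => by
              have := hTrre χ hχ s h1 h2
              rw [abs_le] at this
              linarith [this.2]
        _ = _ := by rw [Finset.sum_const, nsmul_eq_mul]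
    have hlg := hlgnn s h1 h2
    have e1 : (m.totient : ℝ) * ((Nat.card A : ℝ)⁻¹ * Real.log (1 / (s - 1))) =
        Tr.card * Real.log (1 / (s - 1)) := by
      rw [← hkR]
      field_simp
    have e2 : (m.totient : ℝ) * ((Nat.card A : ℝ)⁻¹ * Real.log (1 / (s - 1)) - C1) ≤
        (m.totient : ℝ) * Dsum c (1 : ZMod m) s :=
      mul_le_mul_of_nonneg_left hD1 hφpos.le
    have e3 : (Tr.card : ℝ) * ((∑' p, wt c s p) + CB) ≤
        Tr.card * (Real.log (1 / (s - 1)) + C0 + CB) :=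
      mul_le_mul_of_nonneg_left (by linarith [hW.2]) hk0
    linarith
  -- Step 2: nonvanishing of the limits
  set K2 := (m.totient : ℝ) * C1 + Tr.card * (C0 + CB) + ∑ χ ∈ Nt, C χ with hK2
  have hexp : ∀ s : ℝ, 1 < s → s ≤ 2 →
      Real.exp (-K2) ≤ ∏ χ ∈ Nt, ‖Complex.exp (Λ χ s)‖ := by
    intro s h1 h2
    simp only [Complex.norm_exp]
    rw [← Real.exp_sum]
    apply Real.exp_le_exp.mpr
    have h3 : ∑ χ ∈ Nt, ((Tsum c χ s).re - C χ) ≤ ∑ χ ∈ Nt, (Λ χ s).re := by
      refine Finset.sum_le_sum fun χ hχ => ?_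
      have h4 := (Complex.abs_re_le_norm _).trans (hΛb χ (hNt χ hχ) s h1 h2)
      rw [Complex.sub_re, abs_le] at h4
      linarith [h4.1]
    rw [Finset.sum_sub_distrib] at h3
    linarith [hlow s h1 h2]
  have hlim : Tendsto (fun s => ∏ χ ∈ Nt, ‖Complex.exp (Λ χ s)‖) (𝓝[>] (1 : ℝ))
      (𝓝 (∏ χ ∈ Nt, ‖ℓ χ‖)) :=
    tendsto_finsetProd _ fun χ hχ => (hΛt χ (hNt χ hχ)).norm
  have hprod : Real.exp (-K2) ≤ ∏ χ ∈ Nt, ‖ℓ χ‖ :=
    ge_of_tendsto hlim (hF.mono fun s hs => hexp s hs.1 hs.2)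
  have hℓ : ∀ χ ∈ Nt, ℓ χ ≠ 0 := by
    intro χ hχ h0
    have : ∏ χ ∈ Nt, ‖ℓ χ‖ = 0 := Finset.prod_eq_zero hχ (by simp [h0])
    linarith [Real.exp_pos (-K2)]
  -- Step 3: the logarithms are bounded
  have hbd : ∀ χ ∈ Nt, ∃ Bχ : ℝ, ∀ᶠ s in 𝓝[>] (1 : ℝ), ‖Λ χ s‖ ≤ Bχ := fun χ hχ =>
    exists_bound_of_exp_tendsto (hΛc χ (hNt χ hχ)) (hℓ χ hχ) (hΛt χ (hNt χ hχ))
  choose! Bd hBd using hbd
  have hev : ∀ᶠ s in 𝓝[>] (1 : ℝ), ∀ χ ∈ Nt, ‖Λ χ s‖ ≤ Bd χ :=
    (Filter.eventually_all_finset Nt).mpr hBd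
  -- Step 4: the class of `a`
  set a' : ZMod m := ((a : (ZMod m)ˣ) : ZMod m) with ha'
  have hau : IsUnit a' := a.isUnit
  have hainv : a'⁻¹ = (((a⁻¹ : (ZMod m)ˣ) : (ZMod m)ˣ) : ZMod m) := by
    rw [ha', ZMod.inv_coe_unit]
  set K4 := (m.totient : ℝ) * (∑ p ∈ primesIn S, c p) + Tr.card * (C0 + CB) +
    ∑ χ ∈ Nt, (Bd χ + C χ) with hK4
  have hfinal : ∀ᶠ s in 𝓝[>] (1 : ℝ), (Tr.card : ℝ) * Real.log (1 / (s - 1)) ≤ K4 := by
    filter_upwards [hF, hev] with s hs hsev
    obtain ⟨h1, h2⟩ := hs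
    have hS := sum_inv_Tsum (m := m) c hc (hsw s h1 h2) hau
    rw [hsplit] at hS
    have hre := congrArg Complex.re hS
    simp only [Complex.add_re, Complex.re_sum] at hre
    rw [Complex.mul_re] at hre
    simp only [Complex.natCast_re, Complex.natCast_im, Complex.ofReal_re, Complex.ofReal_im,
      zero_mul, sub_zero] at hre
    have hW : |(∑' p, wt c s p) - Real.log (1 / (s - 1))| ≤ C0 := hC0 s h1 h2
    rw [abs_le] at hW
    have hDle : Dsum c a' s ≤ ∑ p ∈ primesIn S, c p :=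
      Dsum_le_of_forall c hc hcon' (by linarith)
    -- trivial characters
    have hT1 : (Tr.card : ℝ) * (Real.log (1 / (s - 1)) - C0 - CB) ≤
        ∑ χ ∈ Tr, (χ a'⁻¹ * Tsum c χ s).re := by
      calc (Tr.card : ℝ) * (Real.log (1 / (s - 1)) - C0 - CB)
          = ∑ χ ∈ Tr, (Real.log (1 / (s - 1)) - C0 - CB) := by
            rw [Finset.sum_const, nsmul_eq_mul]
        _ ≤ _ := Finset.sum_le_sum fun χ hχ => by
            have hχ1 : χ a'⁻¹ = 1 := by
              rw [hainv]
              exact (Finset.mem_filter.mp hχ).2 _ (Subgroup.inv_mem A ha)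
            rw [hχ1, one_mul]
            have := hTrre χ hχ s h1 h2
            rw [abs_le] at this
            linarith [this.1, hW.1]
    -- nontrivial characters
    have hT2 : -∑ χ ∈ Nt, (Bd χ + C χ) ≤ ∑ χ ∈ Nt, (χ a'⁻¹ * Tsum c χ s).re := by
      rw [← Finset.sum_neg_distrib]
      refine Finset.sum_le_sum fun χ hχ => ?_
      have h3 : ‖χ a'⁻¹ * Tsum c χ s‖ ≤ Bd χ + C χ := by
        rw [norm_mul]
        have h4 : ‖Tsum c χ s‖ ≤ Bd χ + C χ := by
          have h5 := hΛb χ (hNt χ hχ) s h1 h2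
          have h6 := hsev χ hχ
          calc ‖Tsum c χ s‖ = ‖Λ χ s - (Λ χ s - Tsum c χ s)‖ := by rw [sub_sub_cancel]
            _ ≤ ‖Λ χ s‖ + ‖Λ χ s - Tsum c χ s‖ := norm_sub_le _ _
            _ ≤ _ := by linarith
        calc ‖χ a'⁻¹‖ * ‖Tsum c χ s‖ ≤ 1 * ‖Tsum c χ s‖ :=
              mul_le_mul_of_nonneg_right (DirichletCharacter.norm_le_one χ _) (norm_nonneg _)
          _ ≤ _ := by rw [one_mul]; exact h4
      have h7 := (Complex.abs_re_le_norm _).trans h3
      rw [abs_le] at h7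
      linarith [h7.1]
    have hφD : (m.totient : ℝ) * Dsum c a' s ≤ (m.totient : ℝ) * ∑ p ∈ primesIn S, c p :=
      mul_le_mul_of_nonneg_left hDle hφpos.le
    have e4 : (Tr.card : ℝ) * (Real.log (1 / (s - 1)) - C0 - CB) =
        Tr.card * Real.log (1 / (s - 1)) - Tr.card * (C0 + CB) := by ring
    linarith
  have hgt := tendsto_log_one_div_sub.eventually_gt_atTop (K4 / Tr.card)
  obtain ⟨s, hs1, hs2⟩ := (hfinal.and hgt).exists
  rw [div_lt_iff₀ hkpos] at hs2
  linarith

end Fermat.Agent.Lib.Cheb.H221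

end
-- ===== PACK-END Lib/Cheb/H221/CycAbs.lean

-- ===== PACK-BEGIN Lib/Cheb/H221/QAbs.lean
section




/-!
# CHEB-Q, piece Q-ABS: the quantitative abstract Dirichlet lemma (helper221)
-/

set_option autoImplicit false

open Filter Topology

namespace Fermat.Agent.Lib.Cheb.H221

set_option linter.unusedSectionVars false

/-- `log (1 / (s - 1))` is antitone on `(1, ∞)`. -/
lemma log_one_div_sub_le {u s : ℝ} (hu : 1 < u) (hus : u ≤ s) :
    Real.log (1 / (s - 1)) ≤ Real.log (1 / (u - 1)) := by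
  apply Real.log_le_log (by apply div_pos one_pos; linarith)
  apply one_div_le_one_div_of_le (by linarith) (by linarith)

theorem abstractDirichletQ : SpecQ.AbstractDirichletQStatement := by
  intro m _ c hc hsum A hsupp htot hone hχ a ha
  classical
  obtain ⟨B, hB⟩ := hsupp
  obtain ⟨C0, hC0⟩ := htot
  obtain ⟨C1, hC1⟩ := hone
  have hF : ∀ᶠ s in 𝓝[>] (1 : ℝ), 1 < s ∧ s ≤ 2 := by
    have : Set.Ioc (1 : ℝ) 2 ∈ 𝓝[>] (1 : ℝ) := Ioc_mem_nhdsGT (by norm_num)
    filter_upwards [this] with s hs using hs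
  have hsw : ∀ s : ℝ, 1 < s → s ≤ 2 → Summable (wt c s) := hsum
  set Tr := Finset.univ.filter (fun χ : DirichletCharacter ℂ m => TrivOn A χ) with hTrdef
  set Nt := Finset.univ.filter (fun χ : DirichletCharacter ℂ m => ¬ TrivOn A χ) with hNtdef
  have hk := card_trivOn_mul A
  have hkR : (Tr.card : ℝ) * (Nat.card A : ℝ) = (m.totient : ℝ) := by exact_mod_cast hk
  have hApos : (0 : ℝ) < Nat.card A := by exact_mod_cast Nat.card_pos
  have hφpos : (0 : ℝ) < m.totient := by exact_mod_cast Nat.totient_pos.mpr (NeZero.pos m)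
  have hk0 : (0 : ℝ) ≤ Tr.card := Nat.cast_nonneg _
  have hkpos : (0 : ℝ) < Tr.card := by
    rcases hk0.eq_or_lt with h | h
    · rw [← h, zero_mul] at hkR
      linarith
    · exact h
  have hdata : ∀ χ : DirichletCharacter ℂ m, ¬ TrivOn A χ →
      ∃ (Λ : ℝ → ℂ) (ℓ : ℂ) (C : ℝ), ContinuousOn Λ (Set.Ioi 1) ∧
        Tendsto (fun s => Complex.exp (Λ s)) (𝓝[>] (1 : ℝ)) (𝓝 ℓ) ∧
        ∀ s : ℝ, 1 < s → s ≤ 2 → ‖Λ s - Tsum c χ s‖ ≤ C := by
    intro χ hχn
    apply hχ χ
    unfold TrivOn at hχn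
    push Not at hχn
    exact hχn
  choose! Λ ℓ C hΛc hΛt hΛb using hdata
  have hNt : ∀ χ ∈ Nt, ¬ TrivOn A χ := fun χ h => (Finset.mem_filter.mp h).2
  set CB := ∑ p ∈ primesIn B, 2 * c p with hCBdef
  have hTr : ∀ χ ∈ Tr, ∀ s : ℝ, 1 < s → s ≤ 2 →
      ‖Tsum c χ s - ((∑' p, wt c s p : ℝ) : ℂ)‖ ≤ CB := fun χ hχ s h1 h2 =>
    norm_Tsum_sub_le c hc A hB (Finset.mem_filter.mp hχ).2 (by linarith) (hsw s h1 h2)
  have hsplit : ∀ f : DirichletCharacter ℂ m → ℂ,
      ∑ χ, f χ = ∑ χ ∈ Tr, f χ + ∑ χ ∈ Nt, f χ := fun f =>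
    (Finset.sum_filter_add_sum_filter_not _ _ _).symm
  have hlgnn : ∀ s : ℝ, 1 < s → s ≤ 2 → 0 ≤ Real.log (1 / (s - 1)) := by
    intro s h1 h2
    apply Real.log_nonneg
    rw [le_div_iff₀ (by linarith)]
    linarith
  have hTrre : ∀ χ ∈ Tr, ∀ s : ℝ, 1 < s → s ≤ 2 →
      |(Tsum c χ s).re - ∑' p, wt c s p| ≤ CB := by
    intro χ hχ s h1 h2
    have h3 := (Complex.abs_re_le_norm _).trans (hTr χ hχ s h1 h2)
    simpa using h3
  -- Step 1: lower bound for the nontrivial characters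
  have hlow : ∀ s : ℝ, 1 < s → s ≤ 2 →
      -((m.totient : ℝ) * C1 + Tr.card * (C0 + CB)) ≤ ∑ χ ∈ Nt, (Tsum c χ s).re := by
    intro s h1 h2
    have hS := sum_Tsum (m := m) c hc (hsw s h1 h2)
    rw [hsplit] at hS
    have hre := congrArg Complex.re hS
    simp only [Complex.add_re, Complex.re_sum, Complex.mul_re, Complex.natCast_re,
      Complex.natCast_im, Complex.ofReal_re, Complex.ofReal_im, zero_mul, sub_zero] at hre
    have hD1 : (Nat.card A : ℝ)⁻¹ * Real.log (1 / (s - 1)) - C1 ≤ Dsum c (1 : ZMod m) s :=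
      hC1 s h1 h2
    have hW : |(∑' p, wt c s p) - Real.log (1 / (s - 1))| ≤ C0 := hC0 s h1 h2
    rw [abs_le] at hW
    have hsumTr : ∑ χ ∈ Tr, (Tsum c χ s).re ≤ Tr.card * ((∑' p, wt c s p) + CB) := by
      calc ∑ χ ∈ Tr, (Tsum c χ s).re ≤ ∑ χ ∈ Tr, ((∑' p, wt c s p) + CB) :=
            Finset.sum_le_sum fun χ hχ => by
              have := hTrre χ hχ s h1 h2
              rw [abs_le] at this
              linarith [this.2]
        _ = _ := by rw [Finset.sum_const, nsmul_eq_mul]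
    have hlg := hlgnn s h1 h2
    have e1 : (m.totient : ℝ) * ((Nat.card A : ℝ)⁻¹ * Real.log (1 / (s - 1))) =
        Tr.card * Real.log (1 / (s - 1)) := by
      rw [← hkR]
      field_simp
    have e2 : (m.totient : ℝ) * ((Nat.card A : ℝ)⁻¹ * Real.log (1 / (s - 1)) - C1) ≤
        (m.totient : ℝ) * Dsum c (1 : ZMod m) s :=
      mul_le_mul_of_nonneg_left hD1 hφpos.le
    have e3 : (Tr.card : ℝ) * ((∑' p, wt c s p) + CB) ≤
        Tr.card * (Real.log (1 / (s - 1)) + C0 + CB) :=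
      mul_le_mul_of_nonneg_left (by linarith [hW.2]) hk0
    linarith
  -- Step 2: nonvanishing of the limits
  set K2 := (m.totient : ℝ) * C1 + Tr.card * (C0 + CB) + ∑ χ ∈ Nt, C χ with hK2
  have hexp : ∀ s : ℝ, 1 < s → s ≤ 2 →
      Real.exp (-K2) ≤ ∏ χ ∈ Nt, ‖Complex.exp (Λ χ s)‖ := by
    intro s h1 h2
    simp only [Complex.norm_exp]
    rw [← Real.exp_sum]
    apply Real.exp_le_exp.mpr
    have h3 : ∑ χ ∈ Nt, ((Tsum c χ s).re - C χ) ≤ ∑ χ ∈ Nt, (Λ χ s).re := by
      refine Finset.sum_le_sum fun χ hχ => ?_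
      have h4 := (Complex.abs_re_le_norm _).trans (hΛb χ (hNt χ hχ) s h1 h2)
      rw [Complex.sub_re, abs_le] at h4
      linarith [h4.1]
    rw [Finset.sum_sub_distrib] at h3
    linarith [hlow s h1 h2]
  have hlim : Tendsto (fun s => ∏ χ ∈ Nt, ‖Complex.exp (Λ χ s)‖) (𝓝[>] (1 : ℝ))
      (𝓝 (∏ χ ∈ Nt, ‖ℓ χ‖)) :=
    tendsto_finsetProd _ fun χ hχ => (hΛt χ (hNt χ hχ)).norm
  have hprod : Real.exp (-K2) ≤ ∏ χ ∈ Nt, ‖ℓ χ‖ :=
    ge_of_tendsto hlim (hF.mono fun s hs => hexp s hs.1 hs.2)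
  have hℓ : ∀ χ ∈ Nt, ℓ χ ≠ 0 := by
    intro χ hχ h0
    have : ∏ χ ∈ Nt, ‖ℓ χ‖ = 0 := Finset.prod_eq_zero hχ (by simp [h0])
    linarith [Real.exp_pos (-K2)]
  -- Step 3: the logarithms are bounded
  have hbd : ∀ χ ∈ Nt, ∃ Bχ : ℝ, ∀ᶠ s in 𝓝[>] (1 : ℝ), ‖Λ χ s‖ ≤ Bχ := fun χ hχ =>
    exists_bound_of_exp_tendsto (hΛc χ (hNt χ hχ)) (hℓ χ hχ) (hΛt χ (hNt χ hχ))
  choose! Bd hBd using hbd
  have hev : ∀ᶠ s in 𝓝[>] (1 : ℝ), ∀ χ ∈ Nt, ‖Λ χ s‖ ≤ Bd χ :=
    (Filter.eventually_all_finset Nt).mpr hBd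
  -- Step 4: the class of `a`
  set a' : ZMod m := ((a : (ZMod m)ˣ) : ZMod m) with ha'
  have hau : IsUnit a' := a.isUnit
  have hainv : a'⁻¹ = (((a⁻¹ : (ZMod m)ˣ) : (ZMod m)ˣ) : ZMod m) := by
    rw [ha', ZMod.inv_coe_unit]
  set K4 := Tr.card * (C0 + CB) + ∑ χ ∈ Nt, (Bd χ + C χ) with hK4
  have hfinal : ∀ᶠ s in 𝓝[>] (1 : ℝ),
      (Tr.card : ℝ) * Real.log (1 / (s - 1)) - K4 ≤ (m.totient : ℝ) * Dsum c a' s := by
    filter_upwards [hF, hev] with s hs hsev
    obtain ⟨h1, h2⟩ := hs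
    have hS := sum_inv_Tsum (m := m) c hc (hsw s h1 h2) hau
    rw [hsplit] at hS
    have hre := congrArg Complex.re hS
    simp only [Complex.add_re, Complex.re_sum] at hre
    rw [Complex.mul_re] at hre
    simp only [Complex.natCast_re, Complex.natCast_im, Complex.ofReal_re, Complex.ofReal_im,
      zero_mul, sub_zero] at hre
    have hW : |(∑' p, wt c s p) - Real.log (1 / (s - 1))| ≤ C0 := hC0 s h1 h2
    rw [abs_le] at hW
    -- trivial characters
    have hT1 : (Tr.card : ℝ) * (Real.log (1 / (s - 1)) - C0 - CB) ≤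
        ∑ χ ∈ Tr, (χ a'⁻¹ * Tsum c χ s).re := by
      calc (Tr.card : ℝ) * (Real.log (1 / (s - 1)) - C0 - CB)
          = ∑ χ ∈ Tr, (Real.log (1 / (s - 1)) - C0 - CB) := by
            rw [Finset.sum_const, nsmul_eq_mul]
        _ ≤ _ := Finset.sum_le_sum fun χ hχ => by
            have hχ1 : χ a'⁻¹ = 1 := by
              rw [hainv]
              exact (Finset.mem_filter.mp hχ).2 _ (Subgroup.inv_mem A ha)
            rw [hχ1, one_mul]
            have := hTrre χ hχ s h1 h2
            rw [abs_le] at this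
            linarith [this.1, hW.1]
    -- nontrivial characters
    have hT2 : -∑ χ ∈ Nt, (Bd χ + C χ) ≤ ∑ χ ∈ Nt, (χ a'⁻¹ * Tsum c χ s).re := by
      rw [← Finset.sum_neg_distrib]
      refine Finset.sum_le_sum fun χ hχ => ?_
      have h3 : ‖χ a'⁻¹ * Tsum c χ s‖ ≤ Bd χ + C χ := by
        rw [norm_mul]
        have h4 : ‖Tsum c χ s‖ ≤ Bd χ + C χ := by
          have h5 := hΛb χ (hNt χ hχ) s h1 h2
          have h6 := hsev χ hχ
          calc ‖Tsum c χ s‖ = ‖Λ χ s - (Λ χ s - Tsum c χ s)‖ := by rw [sub_sub_cancel]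
            _ ≤ ‖Λ χ s‖ + ‖Λ χ s - Tsum c χ s‖ := norm_sub_le _ _
            _ ≤ _ := by linarith
        calc ‖χ a'⁻¹‖ * ‖Tsum c χ s‖ ≤ 1 * ‖Tsum c χ s‖ :=
              mul_le_mul_of_nonneg_right (DirichletCharacter.norm_le_one χ _) (norm_nonneg _)
          _ ≤ _ := by rw [one_mul]; exact h4
      have h7 := (Complex.abs_re_le_norm _).trans h3
      rw [abs_le] at h7
      linarith [h7.1]
    have e4 : (Tr.card : ℝ) * (Real.log (1 / (s - 1)) - C0 - CB) =
        Tr.card * Real.log (1 / (s - 1)) - Tr.card * (C0 + CB) := by ring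
    linarith
  -- Step 5: from "eventually" to all of `(1, 2]`
  obtain ⟨u, hu1, hu⟩ := mem_nhdsGT_iff_exists_Ioo_subset.mp hfinal
  have hu1' : (1 : ℝ) < u := hu1
  have hDnn : ∀ s : ℝ, 0 ≤ Dsum c a' s := by
    intro s
    unfold Dsum
    refine tsum_nonneg fun p => ?_
    split_ifs
    · exact wt_nonneg c hc s p
    · exact le_rfl
  have hcoef : (Tr.card : ℝ) / (m.totient : ℝ) = (Nat.card A : ℝ)⁻¹ := by
    rw [← hkR]
    field_simp
  refine ⟨max (K4 / (m.totient : ℝ)) ((Nat.card A : ℝ)⁻¹ * Real.log (1 / (u - 1))),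
    fun s h1 h2 => ?_⟩
  change _ ≤ Dsum c a' s
  rcases lt_or_ge s u with hsu | hsu
  · have h3 := hu ⟨h1, hsu⟩
    simp only [Set.mem_ofPred_eq] at h3
    have h4 : ((Tr.card : ℝ) * Real.log (1 / (s - 1)) - K4) / (m.totient : ℝ) ≤ Dsum c a' s := by
      rw [div_le_iff₀ hφpos]
      linarith
    have h5 : ((Tr.card : ℝ) * Real.log (1 / (s - 1)) - K4) / (m.totient : ℝ) =
        (Nat.card A : ℝ)⁻¹ * Real.log (1 / (s - 1)) - K4 / (m.totient : ℝ) := by
      rw [← hcoef]
      ring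
    rw [h5] at h4
    have := le_max_left (K4 / (m.totient : ℝ)) ((Nat.card A : ℝ)⁻¹ * Real.log (1 / (u - 1)))
    linarith
  · have h3 := log_one_div_sub_le hu1' hsu
    have h4 : (Nat.card A : ℝ)⁻¹ * Real.log (1 / (s - 1)) ≤
        (Nat.card A : ℝ)⁻¹ * Real.log (1 / (u - 1)) :=
      mul_le_mul_of_nonneg_left h3 (inv_nonneg.mpr hApos.le)
    have := le_max_right (K4 / (m.totient : ℝ)) ((Nat.card A : ℝ)⁻¹ * Real.log (1 / (u - 1)))
    linarith [hDnn s]

end Fermat.Agent.Lib.Cheb.H221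

end
-- ===== PACK-END Lib/Cheb/H221/QAbs.lean

-- ===== PACK-BEGIN Lib/Cheb/H941/DirichletLimitBridge.lean
section



/-!
# Bridge for the analytic core (AN) of CHEB (helper941)

`Spec.DirichletLimitStatement` is phrased with Mathlib's `LSeries` of the arithmetic function
`n ↦ χ n * idealCount F n`.  The analytic work (tent method) naturally produces statements about
the ideal-indexed series

  `idealL K χ s = ∑' I : (Ideal (𝓞 K))⁰, χ (N I) * N(I) ^ (-s)`   (real `s > 1`).

This file proves that the two agree for real `s > 1` and deduces `Spec.DirichletLimitStatement`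
from the existence of a limit (or of a continuous extension to `[1, 2]`) of `idealL`.
-/

set_option autoImplicit false

open NumberField Ideal Filter Topology
open scoped nonZeroDivisors

namespace Fermat.Agent.Lib.Cheb.H941

noncomputable section

variable (K : Type*) [Field K] [NumberField K]

/-- The ideal-indexed norm-twisted `L`-series, for a real argument. -/
def idealL {m : ℕ} (χ : DirichletCharacter ℂ m) (s : ℝ) : ℂ :=
  ∑' I : (Ideal (𝓞 K))⁰, χ ((absNorm (I : Ideal (𝓞 K)) : ℕ) : ZMod m) *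
    (((absNorm (I : Ideal (𝓞 K)) : ℝ) ^ (-s) : ℝ) : ℂ)

/-- The summand, extended to all ideals (it vanishes at the zero ideal). -/
def idealTerm {m : ℕ} (χ : DirichletCharacter ℂ m) (s : ℝ) (I : Ideal (𝓞 K)) : ℂ :=
  χ ((absNorm I : ℕ) : ZMod m) * (((absNorm I : ℝ) ^ (-s) : ℝ) : ℂ)

lemma norm_idealTerm_le {m : ℕ} (χ : DirichletCharacter ℂ m) (s : ℝ) (I : Ideal (𝓞 K)) :
    ‖idealTerm K χ s I‖ ≤ H761.normPow K s I := by
  unfold idealTerm H761.normPow
  rw [norm_mul, Complex.norm_real, Real.norm_of_nonneg (Real.rpow_nonneg (Nat.cast_nonneg _) _)]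
  calc ‖χ ((absNorm I : ℕ) : ZMod m)‖ * (absNorm I : ℝ) ^ (-s)
      ≤ 1 * (absNorm I : ℝ) ^ (-s) :=
        mul_le_mul_of_nonneg_right (DirichletCharacter.norm_le_one χ _)
          (Real.rpow_nonneg (Nat.cast_nonneg _) _)
    _ = (absNorm I : ℝ) ^ (-s) := one_mul _

lemma summable_idealTerm {m : ℕ} (χ : DirichletCharacter ℂ m) {s : ℝ} (hs : 1 < s) :
    Summable (idealTerm K χ s) :=
  Summable.of_norm_bounded (H761.summable_normPow K hs) (norm_idealTerm_le K χ s)

lemma idealTerm_bot {m : ℕ} (χ : DirichletCharacter ℂ m) {s : ℝ} (hs : s ≠ 0) :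
    idealTerm K χ s ⊥ = 0 := by
  unfold idealTerm
  simp [Real.zero_rpow (neg_ne_zero.mpr hs)]

/-- `idealL` as a sum over all ideals. -/
lemma idealL_eq_tsum {m : ℕ} (χ : DirichletCharacter ℂ m) {s : ℝ} (hs : s ≠ 0) :
    idealL K χ s = ∑' I : Ideal (𝓞 K), idealTerm K χ s I := by
  unfold idealL
  have h1 : ∑' I : (Ideal (𝓞 K))⁰, χ ((absNorm (I : Ideal (𝓞 K)) : ℕ) : ZMod m) *
      (((absNorm (I : Ideal (𝓞 K)) : ℝ) ^ (-s) : ℝ) : ℂ)
      = ∑' I : ((Ideal (𝓞 K))⁰ : Set (Ideal (𝓞 K))), idealTerm K χ s I := rfl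
  rw [h1, tsum_subtype]
  refine tsum_congr fun I => ?_
  by_cases hI : I ∈ ((Ideal (𝓞 K))⁰ : Set (Ideal (𝓞 K)))
  · rw [Set.indicator_of_mem hI]
  · rw [Set.indicator_of_notMem hI]
    have hI' : I = ⊥ := by
      by_contra hne
      exact hI (mem_nonZeroDivisors_iff_ne_zero.mpr hne)
    rw [hI', idealTerm_bot K χ hs]

/-- The sum of the summands over the ideals of norm `n`. -/
lemma tsum_fiber_idealTerm {m : ℕ} (χ : DirichletCharacter ℂ m) (s : ℝ) (n : ℕ) :
    ∑' I : {I : Ideal (𝓞 K) // absNorm I = n}, idealTerm K χ s I.1 =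
      χ ((n : ℕ) : ZMod m) * ((Nat.card {I : Ideal (𝓞 K) // absNorm I = n} : ℂ) *
        (((n : ℝ) ^ (-s) : ℝ) : ℂ)) := by
  have hfin : Finite {I : Ideal (𝓞 K) // absNorm I = n} :=
    (Ideal.finite_setOfPred_absNorm_eq n).to_subtype
  have : Fintype {I : Ideal (𝓞 K) // absNorm I = n} := Fintype.ofFinite _
  rw [tsum_fintype]
  have h : ∀ I : {I : Ideal (𝓞 K) // absNorm I = n},
      idealTerm K χ s I.1 = χ ((n : ℕ) : ZMod m) * (((n : ℝ) ^ (-s) : ℝ) : ℂ) := by
    intro I
    simp only [idealTerm, I.2]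
  simp only [h, Finset.sum_const, Finset.card_univ, nsmul_eq_mul, Nat.card_eq_fintype_card]
  ring

/-- `idealL` as a sum over the norms. -/
lemma idealL_eq_tsum_nat {m : ℕ} (χ : DirichletCharacter ℂ m) {s : ℝ} (hs : 1 < s) :
    idealL K χ s = ∑' n : ℕ, χ ((n : ℕ) : ZMod m) *
      ((Nat.card {I : Ideal (𝓞 K) // absNorm I = n} : ℂ) * (((n : ℝ) ^ (-s) : ℝ) : ℂ)) := by
  have hsum := summable_idealTerm K χ hs
  have hsum' : Summable (fun x : Σ n : ℕ, {I : Ideal (𝓞 K) // absNorm I = n} =>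
      idealTerm K χ s x.2.1) :=
    ((Equiv.sigmaFiberEquiv (fun I : Ideal (𝓞 K) => absNorm I)).summable_iff
      (f := idealTerm K χ s)).mpr hsum
  calc idealL K χ s
      = ∑' I : Ideal (𝓞 K), idealTerm K χ s I := idealL_eq_tsum K χ (by linarith)
    _ = ∑' x : Σ n : ℕ, {I : Ideal (𝓞 K) // absNorm I = n}, idealTerm K χ s x.2.1 :=
        ((Equiv.sigmaFiberEquiv (fun I : Ideal (𝓞 K) => absNorm I)).tsum_eq
          (idealTerm K χ s)).symm
    _ = ∑' n : ℕ, ∑' I : {I : Ideal (𝓞 K) // absNorm I = n}, idealTerm K χ s I.1 :=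
        hsum'.tsum_sigma
    _ = _ := tsum_congr fun n => tsum_fiber_idealTerm K χ s n

/-- The `LSeries` of `n ↦ χ n * idealCount n` at a real `s > 1` is `idealL`. -/
theorem lseries_eq_idealL {m : ℕ} (χ : DirichletCharacter ℂ m) {s : ℝ} (hs : 1 < s) :
    LSeries (fun n => χ (n : ZMod m) *
      (Nat.card {I : Ideal (𝓞 K) // absNorm I = n} : ℂ)) (s : ℂ) = idealL K χ s := by
  rw [idealL_eq_tsum_nat K χ hs, LSeries]
  refine tsum_congr fun n => ?_
  rcases eq_or_ne n 0 with rfl | hn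
  · have : (0 : ℝ) ^ (-s) = 0 := Real.zero_rpow (by linarith)
    simp [this]
  · rw [LSeries.term_of_ne_zero hn, Complex.ofReal_cpow (Nat.cast_nonneg n), Complex.ofReal_neg,
      Complex.cpow_neg]
    simp only [Complex.ofReal_natCast]
    rw [div_eq_mul_inv]
    ring

/-- A function agreeing on `(1, 2]` with a function continuous on `[1, 2]` has a limit at `1⁺`. -/
theorem tendsto_of_continuousOn_Icc {f G : ℝ → ℂ} (hG : ContinuousOn G (Set.Icc 1 2))
    (hfG : ∀ s : ℝ, 1 < s → s ≤ 2 → G s = f s) :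
    Tendsto f (𝓝[>] 1) (𝓝 (G 1)) := by
  have h1 : Tendsto G (𝓝[Set.Icc 1 2] 1) (𝓝 (G 1)) := hG 1 ⟨le_rfl, by norm_num⟩
  have h2 : 𝓝[Set.Ioc 1 2] (1:ℝ) = 𝓝[>] 1 := nhdsWithin_Ioc_eq_nhdsGT (by norm_num)
  have h3 : Tendsto G (𝓝[Set.Ioc 1 2] 1) (𝓝 (G 1)) :=
    h1.mono_left (nhdsWithin_mono _ Set.Ioc_subset_Icc_self)
  rw [h2] at h3
  refine h3.congr' ?_
  have hev : ∀ᶠ s in 𝓝[>] (1:ℝ), s ≤ 2 :=
    mem_nhdsWithin_of_mem_nhds (Iic_mem_nhds (by norm_num))
  filter_upwards [self_mem_nhdsWithin, hev] with s hs hs2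
  exact hfG s hs hs2

end

/-- **AN in the frozen `Spec` shape**, from the ideal-indexed statement. -/
theorem dirichletLimit_of_tendsto_idealL
    (h : ∀ (F : Type) [Field F] [NumberField F] (m : ℕ) [NeZero m] (χ : DirichletCharacter ℂ m)
      (I₀ : (Ideal (𝓞 F))⁰),
      χ ((absNorm (I₀ : Ideal (𝓞 F)) : ℕ) : ZMod m) ≠ 0 →
      χ ((absNorm (I₀ : Ideal (𝓞 F)) : ℕ) : ZMod m) ≠ 1 →
      ∃ c : ℂ, Tendsto (fun s : ℝ => idealL F χ s) (𝓝[>] 1) (𝓝 c)) :
    Spec.DirichletLimitStatement := by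
  intro F _ _ m _ χ hI
  obtain ⟨I, hI0, hI1⟩ := hI
  have hIne : I ≠ ⊥ := by
    rintro rfl
    rw [Ideal.absNorm_bot] at hI0 hI1
    by_cases hm : m = 1
    · subst hm
      apply hI1
      have : ((0 : ℕ) : ZMod 1) = 1 := Subsingleton.elim _ _
      rw [this, map_one]
    · apply hI0
      have hnu : ¬ IsUnit (((0 : ℕ) : ZMod m)) := by
        have : Fact (1 < m) := ⟨by
          have := NeZero.ne m
          omega⟩
        simp
      exact χ.map_nonunit hnu
  obtain ⟨c, hc⟩ := h F m χ ⟨I, mem_nonZeroDivisors_iff_ne_zero.mpr hIne⟩ hI0 hI1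
  refine ⟨c, hc.congr' ?_⟩
  filter_upwards [self_mem_nhdsWithin] with s hs
  have hs1 : (1:ℝ) < s := hs
  exact (lseries_eq_idealL F χ hs1).symm

/-- **AN in the frozen `Spec` shape**, from a continuous extension to `[1, 2]`. -/
theorem dirichletLimit_of_continuousOn
    (h : ∀ (F : Type) [Field F] [NumberField F] (m : ℕ) [NeZero m] (χ : DirichletCharacter ℂ m)
      (I₀ : (Ideal (𝓞 F))⁰),
      χ ((absNorm (I₀ : Ideal (𝓞 F)) : ℕ) : ZMod m) ≠ 0 →
      χ ((absNorm (I₀ : Ideal (𝓞 F)) : ℕ) : ZMod m) ≠ 1 →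
      ∃ G : ℝ → ℂ, ContinuousOn G (Set.Icc 1 2) ∧
        ∀ s : ℝ, 1 < s → s ≤ 2 → G s = idealL F χ s) :
    Spec.DirichletLimitStatement :=
  dirichletLimit_of_tendsto_idealL fun F _ _ m _ χ I₀ h0 h1 => by
    obtain ⟨G, hG, hGf⟩ := h F m χ I₀ h0 h1
    exact ⟨G 1, tendsto_of_continuousOn_Icc hG hGf⟩

end Fermat.Agent.Lib.Cheb.H941

end
-- ===== PACK-END Lib/Cheb/H941/DirichletLimitBridge.lean

-- ===== PACK-BEGIN Lib/ChebQ/H968/Density.lean
section


/-!
# CHEB-Q: calculus of lower / upper Dirichlet densities (helper968)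

Elementary properties of `Spec.HasLowerDensity` and `Spec.HasUpperDensity` (finite-set forms):
monotonicity, removal of finitely many primes, superadditivity over finitely many pairwise
disjoint sets, and `lower ≤ upper` for nested sets.
-/

set_option autoImplicit false

namespace Fermat.Agent.Lib.ChebQ.H968

open Fermat.Agent.Lib.ChebQ.Spec

/-- `log (1 / (s - 1)) ≥ 0` on `(1, 2]`. -/
theorem logTerm_nonneg {s : ℝ} (h1 : 1 < s) (h2 : s ≤ 2) : 0 ≤ Real.log (1 / (s - 1)) := by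
  apply Real.log_nonneg
  rw [le_div_iff₀ (by linarith)]
  linarith

/-- `p ^ (-s) ≤ 1` for a natural number `p` and `s > 0`. -/
theorem natCast_rpow_neg_le_one (p : ℕ) {s : ℝ} (hs : 0 < s) : (p : ℝ) ^ (-s) ≤ 1 := by
  rcases Nat.eq_zero_or_pos p with h | h
  · subst h
    rw [Nat.cast_zero, Real.zero_rpow (by linarith)]
    exact zero_le_one
  · have h1 : (1 : ℝ) ≤ p := by exact_mod_cast h
    exact Real.rpow_le_one_of_one_le_of_nonpos h1 (by linarith)

theorem natCast_rpow_neg_nonneg (p : ℕ) (s : ℝ) : 0 ≤ (p : ℝ) ^ (-s) :=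
  Real.rpow_nonneg (Nat.cast_nonneg p) _

theorem HasLowerDensity.mono_set {X Y : Set ℕ} {d : ℝ} (h : HasLowerDensity X d) (hXY : X ⊆ Y) :
    HasLowerDensity Y d := by
  obtain ⟨K, hK⟩ := h
  refine ⟨K, fun s h1 h2 => ?_⟩
  obtain ⟨T, hT, hsum⟩ := hK s h1 h2
  exact ⟨T, hT.trans hXY, hsum⟩

theorem HasLowerDensity.mono_const {X : Set ℕ} {d d' : ℝ} (h : HasLowerDensity X d)
    (hd : d' ≤ d) : HasLowerDensity X d' := by
  obtain ⟨K, hK⟩ := h
  refine ⟨K, fun s h1 h2 => ?_⟩
  obtain ⟨T, hT, hsum⟩ := hK s h1 h2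
  refine ⟨T, hT, le_trans ?_ hsum⟩
  have := mul_le_mul_of_nonneg_right hd (logTerm_nonneg h1 h2)
  linarith

/-- Removing finitely many primes does not change the lower density. -/
theorem HasLowerDensity.diff_finset {X : Set ℕ} {d : ℝ} (h : HasLowerDensity X d)
    (B : Finset ℕ) : HasLowerDensity (X \ ↑B) d := by
  classical
  obtain ⟨K, hK⟩ := h
  refine ⟨K + B.card, fun s h1 h2 => ?_⟩
  obtain ⟨T, hT, hsum⟩ := hK s h1 h2
  refine ⟨T \ B, ?_, ?_⟩
  · intro p hp
    rw [Finset.coe_sdiff] at hp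
    exact ⟨hT hp.1, hp.2⟩
  · have hsplit : ∑ p ∈ T, (p : ℝ) ^ (-s) =
        ∑ p ∈ T \ B, (p : ℝ) ^ (-s) + ∑ p ∈ T ∩ B, (p : ℝ) ^ (-s) := by
      rw [← Finset.sum_union (Finset.disjoint_sdiff_inter T B), Finset.sdiff_union_inter]
    have hB : ∑ p ∈ T ∩ B, (p : ℝ) ^ (-s) ≤ B.card := by
      calc ∑ p ∈ T ∩ B, (p : ℝ) ^ (-s) ≤ ∑ _p ∈ T ∩ B, (1 : ℝ) :=
            Finset.sum_le_sum (fun p _ => natCast_rpow_neg_le_one p (by linarith))
        _ = ((T ∩ B).card : ℝ) := by simp
        _ ≤ B.card := by exact_mod_cast Finset.card_le_card Finset.inter_subset_right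
    linarith

/-- Superadditivity of the lower density over finitely many pairwise disjoint sets. -/
theorem hasLowerDensity_biUnion {ι : Type*} (I : Finset ι) (X : ι → Set ℕ) (d : ι → ℝ)
    (hdisj : ∀ i ∈ I, ∀ j ∈ I, i ≠ j → Disjoint (X i) (X j))
    (h : ∀ i ∈ I, HasLowerDensity (X i) (d i)) :
    HasLowerDensity (⋃ i ∈ I, X i) (∑ i ∈ I, d i) := by
  classical
  have h' : ∀ i : ι, ∃ K : ℝ, i ∈ I → ∀ s : ℝ, 1 < s → s ≤ 2 → ∃ T : Finset ℕ, (↑T ⊆ X i) ∧
      d i * Real.log (1 / (s - 1)) - K ≤ ∑ p ∈ T, (p : ℝ) ^ (-s) := by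
    intro i
    by_cases hi : i ∈ I
    · obtain ⟨K, hK⟩ := h i hi
      exact ⟨K, fun _ => hK⟩
    · exact ⟨0, fun hi' => absurd hi' hi⟩
  choose K hK using h'
  refine ⟨∑ i ∈ I, K i, fun s h1 h2 => ?_⟩
  have h'' : ∀ i : ι, ∃ T : Finset ℕ, i ∈ I → (↑T ⊆ X i) ∧
      d i * Real.log (1 / (s - 1)) - K i ≤ ∑ p ∈ T, (p : ℝ) ^ (-s) := by
    intro i
    by_cases hi : i ∈ I
    · obtain ⟨T, hT⟩ := hK i hi s h1 h2
      exact ⟨T, fun _ => hT⟩
    · exact ⟨∅, fun hi' => absurd hi' hi⟩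
  choose T hT using h''
  refine ⟨I.biUnion T, ?_, ?_⟩
  · intro p hp
    rw [Finset.coe_biUnion] at hp
    simp only [Set.mem_iUnion] at hp ⊢
    obtain ⟨i, hi, hpi⟩ := hp
    exact ⟨i, hi, (hT i hi).1 hpi⟩
  · have hdisjT : Set.PairwiseDisjoint (↑I : Set ι) T := by
      intro i hi j hj hij
      rw [Function.onFun, Finset.disjoint_left]
      intro p hpi hpj
      have := hdisj i hi j hj hij
      exact Set.disjoint_left.mp this ((hT i hi).1 hpi) ((hT j hj).1 hpj)
    rw [Finset.sum_biUnion hdisjT, Finset.sum_mul, ← Finset.sum_sub_distrib]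
    exact Finset.sum_le_sum (fun i hi => (hT i hi).2)

/-- A set of upper density `≤ η` cannot contain a set of lower density `≥ d > η`. -/
theorem le_of_hasLowerDensity_of_hasUpperDensity {X Y : Set ℕ} {d η : ℝ}
    (hY : HasLowerDensity Y d) (hX : HasUpperDensity X η) (hYX : Y ⊆ X) : d ≤ η := by
  obtain ⟨K, hK⟩ := hY
  obtain ⟨K', hK'⟩ := hX
  by_contra hcon
  have hlt : η < d := not_le.mp hcon
  -- choose `s = 1 + exp (-M)` with `M` large
  set M : ℝ := max 0 ((K + K') / (d - η) + 1) with hM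
  have hM0 : 0 ≤ M := le_max_left _ _
  have hM1 : (K + K') / (d - η) + 1 ≤ M := le_max_right _ _
  set s : ℝ := 1 + Real.exp (-M) with hs
  have h1 : 1 < s := by
    have := Real.exp_pos (-M)
    linarith
  have h2 : s ≤ 2 := by
    have : Real.exp (-M) ≤ 1 := Real.exp_le_one_iff.mpr (by linarith)
    linarith
  have hlog : Real.log (1 / (s - 1)) = M := by
    have : s - 1 = Real.exp (-M) := by rw [hs]; ring
    rw [this, one_div, ← Real.exp_neg, neg_neg, Real.log_exp]
  obtain ⟨T, hT, hsum⟩ := hK s h1 h2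
  have hup := hK' s h1 h2 T (hT.trans hYX)
  rw [hlog] at hsum hup
  have h3 : (d - η) * M ≤ K + K' := by linarith
  have hpos : 0 < d - η := by linarith
  have h4 : (K + K') / (d - η) < M := by linarith
  rw [div_lt_iff₀ hpos] at h4
  linarith

end Fermat.Agent.Lib.ChebQ.H968

end
-- ===== PACK-END Lib/ChebQ/H968/Density.lean

-- ===== PACK-BEGIN Lib/Cheb/H583/Abstract.lean
section





/-!
# Frobenius density theorem: abstract form of the induction step (helper583)

`G` a finite group, `w x p ≥ 0` bounded weights (`x : G`, `p` prime).  Assume that for every `h`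
there is a bounded `a h : ℕ → ℝ` with

* (B) `∑ x ∈ ⟨h⟩, w x p = |⟨h⟩| * a h p` for all but finitely many primes `p`;
* (A) `∑' p, a h p * p ^ (-s) = log (1 / (s - 1)) + O(1)` as `s → 1⁺`.

Then for every `g` there are infinitely many primes `p` such that `w x p ≠ 0` for some
generator `x` of `⟨g⟩`.
-/

set_option autoImplicit false

open Finset Filter Topology

namespace Fermat.Agent.Lib.Cheb.H583

/-- The prime Dirichlet sum `∑_p a(p) p^{-s}`. -/
noncomputable def pSum (a : ℕ → ℝ) (s : ℝ) : ℝ :=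
  ∑' p : Nat.Primes, a p * ((p : ℕ) : ℝ) ^ (-s)

theorem summable_pSum_of_bdd {a : ℕ → ℝ} {C : ℝ} (ha : ∀ p : ℕ, p.Prime → |a p| ≤ C) {s : ℝ}
    (hs : 1 < s) : Summable (fun p : Nat.Primes => a p * ((p : ℕ) : ℝ) ^ (-s)) := by
  have h1 : Summable (fun p : Nat.Primes => ((p : ℕ) : ℝ) ^ (-s)) :=
    Nat.Primes.summable_rpow.2 (by linarith)
  refine Summable.of_norm_bounded (h1.mul_left C) fun p => ?_
  rw [Real.norm_eq_abs, abs_mul]
  have h2 : 0 ≤ ((p : ℕ) : ℝ) ^ (-s) := Real.rpow_nonneg (Nat.cast_nonneg _) _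
  rw [abs_of_nonneg h2]
  exact mul_le_mul_of_nonneg_right (ha p p.2) h2

theorem rpow_neg_le_one (p : Nat.Primes) {s : ℝ} (hs : 0 ≤ s) : ((p : ℕ) : ℝ) ^ (-s) ≤ 1 := by
  apply Real.rpow_le_one_of_one_le_of_nonpos
  · exact_mod_cast p.2.one_lt.le
  · linarith

/-- A prime sum whose coefficients vanish outside a finite set is bounded. -/
theorem abs_pSum_le_of_finite_support {a : ℕ → ℝ} {C : ℝ}
    (ha : ∀ p : ℕ, p.Prime → |a p| ≤ C) (T : Finset ℕ)
    (hT : ∀ p : ℕ, p.Prime → p ∉ T → a p = 0) {s : ℝ} (hs : 0 ≤ s) :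
    |pSum a s| ≤ T.card * C := by
  classical
  have hC : 0 ≤ C := (abs_nonneg _).trans (ha 2 Nat.prime_two)
  unfold pSum
  have h1 : ∑' p : Nat.Primes, a p * ((p : ℕ) : ℝ) ^ (-s) =
      ∑ p ∈ T.subtype Nat.Prime, a p * (((p : Nat.Primes) : ℕ) : ℝ) ^ (-s) := by
    apply tsum_eq_sum
    intro p hp
    have : (p : ℕ) ∉ T := fun h => hp (Finset.mem_subtype.2 h)
    rw [hT p p.2 this, zero_mul]
  rw [h1]
  refine (Finset.abs_sum_le_sum_abs _ _).trans ?_
  have h2 : ∀ p ∈ T.subtype Nat.Prime,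
      |a p * (((p : Nat.Primes) : ℕ) : ℝ) ^ (-s)| ≤ C := by
    intro p _
    have h3 : 0 ≤ (((p : Nat.Primes) : ℕ) : ℝ) ^ (-s) := Real.rpow_nonneg (Nat.cast_nonneg _) _
    rw [abs_mul, abs_of_nonneg h3]
    calc |a p| * (((p : Nat.Primes) : ℕ) : ℝ) ^ (-s) ≤ C * 1 :=
          mul_le_mul (ha p p.2) (rpow_neg_le_one p hs) h3 hC
      _ = C := mul_one C
  refine (Finset.sum_le_sum h2).trans ?_
  rw [Finset.sum_const, nsmul_eq_mul]
  refine mul_le_mul_of_nonneg_right ?_ hC
  have : (T.subtype Nat.Prime).card ≤ T.card := by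
    rw [Finset.card_subtype]
    exact Finset.card_filter_le _ _
  exact_mod_cast this

theorem tendsto_log_one_div_sub_one :
    Tendsto (fun s : ℝ => Real.log (1 / (s - 1))) (𝓝[>] (1 : ℝ)) atTop := by
  have h1 : Tendsto (fun s : ℝ => s - 1) (𝓝[>] (1 : ℝ)) (𝓝[>] (0 : ℝ)) := by
    rw [tendsto_nhdsWithin_iff]
    constructor
    · have : Tendsto (fun s : ℝ => s - 1) (𝓝 (1 : ℝ)) (𝓝 (0 : ℝ)) := by
        have hc : Continuous fun s : ℝ => s - 1 := by fun_prop
        have := hc.tendsto 1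
        simpa using this
      exact this.mono_left nhdsWithin_le_nhds
    · filter_upwards [self_mem_nhdsWithin] with s hs
      simpa using hs
  have h2 : Tendsto (fun s : ℝ => (s - 1)⁻¹) (𝓝[>] (1 : ℝ)) atTop :=
    tendsto_inv_nhdsGT_zero.comp h1
  have h3 := Real.tendsto_log_atTop.comp h2
  refine h3.congr fun s => ?_
  simp [one_div]

end Fermat.Agent.Lib.Cheb.H583

namespace Fermat.Agent.Lib.Cheb.H583

open Classical

variable {G : Type*} [Group G] [Fintype G]

theorem eventually_one_lt : ∀ᶠ s : ℝ in 𝓝[>] (1 : ℝ), 1 < s := by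
  filter_upwards [self_mem_nhdsWithin] with s hs
  exact hs

/-- Step 1: (A) + (B) for the cyclic subgroup generated by `h`. -/
theorem bddDiff_sum_zpFinset_pSum
    (w : G → ℕ → ℝ) (C : ℝ) (hw0 : ∀ x p, 0 ≤ w x p) (hwC : ∀ x p, w x p ≤ C)
    (a : G → ℕ → ℝ) (C' : ℝ) (haC : ∀ h (p : ℕ), p.Prime → |a h p| ≤ C')
    (hB : ∀ h : G, {p : ℕ | p.Prime ∧
      ∑ x ∈ zpFinset h, w x p ≠ (Nat.card (Subgroup.zpowers h) : ℝ) * a h p}.Finite)
    (hA : ∀ h : G, BddDiff (𝓝[>] 1) (pSum (a h)) (fun s => Real.log (1 / (s - 1))))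
    (h : G) :
    BddDiff (𝓝[>] 1) (fun s => ∑ x ∈ zpFinset h, pSum (w x) s)
      (fun s => (Nat.card (Subgroup.zpowers h) : ℝ) * Real.log (1 / (s - 1))) := by
  set n : ℝ := (Nat.card (Subgroup.zpowers h) : ℝ) with hn
  set d : ℕ → ℝ := fun p => ∑ x ∈ zpFinset h, w x p - n * a h p with hd
  have hwabs : ∀ x p, |w x p| ≤ C := fun x p => by
    rw [abs_of_nonneg (hw0 x p)]; exact hwC x p
  have hC0 : 0 ≤ C := (hw0 1 0).trans (hwC 1 0)
  have hn0 : 0 ≤ n := Nat.cast_nonneg _
  -- bound for `d`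
  have hdC : ∀ p : ℕ, p.Prime → |d p| ≤ (zpFinset h).card * C + n * C' := by
    intro p hp
    refine (abs_sub _ _).trans (add_le_add ?_ ?_)
    · refine (Finset.abs_sum_le_sum_abs _ _).trans ?_
      refine (Finset.sum_le_sum fun x _ => hwabs x p).trans ?_
      rw [Finset.sum_const, nsmul_eq_mul]
    · rw [abs_mul, abs_of_nonneg hn0]
      exact mul_le_mul_of_nonneg_left (haC h p hp) hn0
  have hdT : ∀ p : ℕ, p.Prime → p ∉ (hB h).toFinset → d p = 0 := by
    intro p hp hpT
    rw [Set.Finite.mem_toFinset] at hpT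
    have : ¬ (∑ x ∈ zpFinset h, w x p ≠ n * a h p) := fun hne => hpT ⟨hp, hne⟩
    rw [not_not] at this
    rw [hd]
    simp only
    rw [this, sub_self]
  -- the error term is bounded
  have hdb : BddDiff (𝓝[>] 1) (pSum d) (fun _ => 0) := by
    refine ⟨(hB h).toFinset.card * ((zpFinset h).card * C + n * C'), ?_⟩
    filter_upwards [eventually_one_lt] with s hs
    rw [sub_zero]
    exact abs_pSum_le_of_finite_support hdC _ hdT (by linarith)
  have hmain := ((hA h).const_mul n).add hdb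
  refine hmain.congr' ?_ (Eventually.of_forall fun s => by ring)
  filter_upwards [eventually_one_lt] with s hs
  -- `n * pSum (a h) s + pSum d s = ∑ x, pSum (w x) s`
  have hsa := summable_pSum_of_bdd (haC h) hs
  have hsd := summable_pSum_of_bdd hdC hs
  have hsw : ∀ x ∈ zpFinset h, Summable (fun p : Nat.Primes => w x p * ((p : ℕ) : ℝ) ^ (-s)) :=
    fun x _ => summable_pSum_of_bdd (fun p _ => hwabs x p) hs
  unfold pSum
  rw [← tsum_mul_left, ← (hsa.mul_left n).tsum_add hsd, ← Summable.tsum_finsetSum hsw]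
  congr 1
  funext p
  rw [← Finset.sum_mul]
  rw [hd]
  ring

/-- **Abstract qualitative Frobenius density theorem.** -/
theorem infinite_primes_of_density
    (w : G → ℕ → ℝ) (C : ℝ) (hw0 : ∀ x p, 0 ≤ w x p) (hwC : ∀ x p, w x p ≤ C)
    (a : G → ℕ → ℝ) (C' : ℝ) (haC : ∀ h (p : ℕ), p.Prime → |a h p| ≤ C')
    (hB : ∀ h : G, {p : ℕ | p.Prime ∧
      ∑ x ∈ zpFinset h, w x p ≠ (Nat.card (Subgroup.zpowers h) : ℝ) * a h p}.Finite)
    (hA : ∀ h : G, BddDiff (𝓝[>] 1) (pSum (a h)) (fun s => Real.log (1 / (s - 1))))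
    (g : G) :
    {p : ℕ | p.Prime ∧ ∃ x : G, Subgroup.zpowers x = Subgroup.zpowers g ∧ w x p ≠ 0}.Infinite := by
  intro hfin
  have hC0 : 0 ≤ C := (hw0 1 0).trans (hwC 1 0)
  have hwabs : ∀ x p, |w x p| ≤ C := fun x p => by
    rw [abs_of_nonneg (hw0 x p)]; exact hwC x p
  have hstep := bddDiff_sum_zpFinset_pSum w C hw0 hwC a C' haC hB hA
  refine not_eventually_le_sum_genFinset (l := 𝓝[>] (1 : ℝ)) (fun x s => pSum (w x) s)
    (fun s => Real.log (1 / (s - 1))) hstep tendsto_log_one_div_sub_one g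
    ((genFinset g).card * (hfin.toFinset.card * C)) ?_
  filter_upwards [eventually_one_lt] with s hs
  have h1 : ∀ x ∈ genFinset g, pSum (w x) s ≤ hfin.toFinset.card * C := by
    intro x hx
    refine (le_abs_self _).trans ?_
    refine abs_pSum_le_of_finite_support (fun p _ => hwabs x p) _ ?_ (by linarith)
    intro p hp hpT
    rw [Set.Finite.mem_toFinset] at hpT
    by_contra hne
    exact hpT ⟨hp, x, mem_genFinset.1 hx, hne⟩
  refine (Finset.sum_le_sum h1).trans ?_
  rw [Finset.sum_const, nsmul_eq_mul]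

end Fermat.Agent.Lib.Cheb.H583

end
-- ===== PACK-END Lib/Cheb/H583/Abstract.lean

-- ===== PACK-BEGIN Lib/Cheb/H583/Comb.lean
section


/-!
# Frobenius density theorem: the weights attached to a finite family of cyclic subgroups
(helper583)

`G` a finite group, `T` a finite family with a subgroup `D P ≤ G` for every `P ∈ T`.
`cycWeight T D x = (∑_{P ∈ T, D P = ⟨x⟩} |D P|) / #{generators of ⟨x⟩}`.
If all `D P` are cyclic then `∑_{x ∈ ⟨h⟩} cycWeight T D x = ∑_{P ∈ T, D P ≤ ⟨h⟩} |D P|`.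
-/

set_option autoImplicit false

open Finset

namespace Fermat.Agent.Lib.Cheb.H583

open Classical

variable {G : Type*} [Group G] [Fintype G] {ι : Type*}

/-- The weight of `x`: the total size of the groups `D P` generated by `x`, divided by the
number of generators of `⟨x⟩`. -/
noncomputable def cycWeight (T : Finset ι) (D : ι → Subgroup G) (x : G) : ℝ :=
  (∑ P ∈ T.filter (fun P => D P = Subgroup.zpowers x), (Nat.card (D P) : ℝ)) /
    ((genFinset x).card : ℝ)

theorem cycWeight_nonneg (T : Finset ι) (D : ι → Subgroup G) (x : G) :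
    0 ≤ cycWeight T D x := by
  unfold cycWeight
  apply div_nonneg
  · exact Finset.sum_nonneg fun P _ => Nat.cast_nonneg _
  · exact Nat.cast_nonneg _

theorem cycWeight_le (T : Finset ι) (D : ι → Subgroup G) (x : G) :
    cycWeight T D x ≤ ∑ P ∈ T, (Nat.card (D P) : ℝ) := by
  unfold cycWeight
  have h1 : (1 : ℝ) ≤ ((genFinset x).card : ℝ) := by
    exact_mod_cast genFinset_card_pos x
  have h2 : ∑ P ∈ T.filter (fun P => D P = Subgroup.zpowers x), (Nat.card (D P) : ℝ) ≤
      ∑ P ∈ T, (Nat.card (D P) : ℝ) :=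
    Finset.sum_le_sum_of_subset_of_nonneg (Finset.filter_subset _ _)
      fun P _ _ => Nat.cast_nonneg _
  have h3 : 0 ≤ ∑ P ∈ T.filter (fun P => D P = Subgroup.zpowers x), (Nat.card (D P) : ℝ) :=
    Finset.sum_nonneg fun P _ => Nat.cast_nonneg _
  calc (∑ P ∈ T.filter (fun P => D P = Subgroup.zpowers x), (Nat.card (D P) : ℝ)) /
        ((genFinset x).card : ℝ)
      ≤ (∑ P ∈ T.filter (fun P => D P = Subgroup.zpowers x), (Nat.card (D P) : ℝ)) / 1 :=
        div_le_div_of_nonneg_left h3 one_pos h1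
    _ = ∑ P ∈ T.filter (fun P => D P = Subgroup.zpowers x), (Nat.card (D P) : ℝ) := div_one _
    _ ≤ _ := h2

theorem exists_of_cycWeight_ne_zero {T : Finset ι} {D : ι → Subgroup G} {x : G}
    (h : cycWeight T D x ≠ 0) : ∃ P ∈ T, D P = Subgroup.zpowers x := by
  by_contra hcon
  apply h
  have : T.filter (fun P => D P = Subgroup.zpowers x) = ∅ := by
    rw [Finset.filter_eq_empty_iff]
    intro P hP hPx
    exact hcon ⟨P, hP, hPx⟩
  unfold cycWeight
  rw [this, Finset.sum_empty, zero_div]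

/-- The contribution of one cyclic group `⟨τ⟩` to the sum over `⟨h⟩`. -/
theorem sum_zpFinset_ite (τ h : G) (c : ℝ) :
    ∑ x ∈ zpFinset h, (if Subgroup.zpowers τ = Subgroup.zpowers x then
        c / ((genFinset x).card : ℝ) else 0) =
      if Subgroup.zpowers τ ≤ Subgroup.zpowers h then c else 0 := by
  by_cases hle : Subgroup.zpowers τ ≤ Subgroup.zpowers h
  · rw [if_pos hle, ← Finset.sum_filter]
    have hfil : (zpFinset h).filter (fun x => Subgroup.zpowers τ = Subgroup.zpowers x) =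
        genFinset τ := by
      ext x
      rw [Finset.mem_filter, mem_zpFinset, mem_genFinset]
      constructor
      · rintro ⟨_, h2⟩
        exact h2.symm
      · intro h2
        refine ⟨?_, h2.symm⟩
        apply hle
        rw [← h2]
        exact Subgroup.mem_zpowers x
    rw [hfil]
    have hcongr : ∀ x ∈ genFinset τ, c / ((genFinset x).card : ℝ) =
        c / ((genFinset τ).card : ℝ) := by
      intro x hx
      rw [genFinset_eq_of_mem hx]
    rw [Finset.sum_congr rfl hcongr, Finset.sum_const, nsmul_eq_mul]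
    have hne : ((genFinset τ).card : ℝ) ≠ 0 := by
      exact_mod_cast (genFinset_card_pos τ).ne'
    field_simp
  · rw [if_neg hle]
    apply Finset.sum_eq_zero
    intro x hx
    rw [if_neg]
    intro hτx
    apply hle
    rw [hτx]
    exact mem_zpowers_iff_le.1 (mem_zpFinset.1 hx)

/-- Summing the weights over a cyclic subgroup `⟨h⟩` counts the `P` with `D P ≤ ⟨h⟩`. -/
theorem sum_zpFinset_cycWeight (T : Finset ι) (D : ι → Subgroup G)
    (hD : ∀ P ∈ T, ∃ τ : G, D P = Subgroup.zpowers τ) (h : G) :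
    ∑ x ∈ zpFinset h, cycWeight T D x =
      ∑ P ∈ T.filter (fun P => D P ≤ Subgroup.zpowers h), (Nat.card (D P) : ℝ) := by
  unfold cycWeight
  have h1 : ∀ x ∈ zpFinset h,
      (∑ P ∈ T.filter (fun P => D P = Subgroup.zpowers x), (Nat.card (D P) : ℝ)) /
        ((genFinset x).card : ℝ) =
      ∑ P ∈ T, (if D P = Subgroup.zpowers x then
        (Nat.card (D P) : ℝ) / ((genFinset x).card : ℝ) else 0) := by
    intro x _
    rw [Finset.sum_div, Finset.sum_filter]
  rw [Finset.sum_congr rfl h1, Finset.sum_comm, Finset.sum_filter]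
  refine Finset.sum_congr rfl fun P hP => ?_
  obtain ⟨τ, hτ⟩ := hD P hP
  rw [hτ]
  exact sum_zpFinset_ite τ h _

end Fermat.Agent.Lib.Cheb.H583

end
-- ===== PACK-END Lib/Cheb/H583/Comb.lean

-- ===== PACK-BEGIN Lib/Cheb/H583/FrobFinite.lean
section




/-!
# CHEB piece M: `Spec.FrobFiniteStatement` from (Z), (B0), (A), (D)  (helper583)

Finite-level Frobenius density theorem (qualitative): in a Galois number field `L/ℚ`, for every
`σ ∈ Gal(L/ℚ)` and every finite set `S` of primes there are a prime `p ∉ S`, a prime `P ∣ p` of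
`𝓞 L` with trivial inertia, and an arithmetic Frobenius `τ` at `P` with `⟨τ⟩ = ⟨σ⟩`.

Proof: with `w x p = (∑_{P ∣ p, D_P = ⟨x⟩} |D_P|) / #{generators of ⟨x⟩}` for good `p`, (D) and (A)
give `∑_{x ∈ ⟨h⟩} w x p = |⟨h⟩| · c_{L^⟨h⟩}(p)`, and (Z) gives
`∑_p c_{L^⟨h⟩}(p) p^{-s} = log (1/(s-1)) + O(1)`.  The induction over cyclic subgroups
(`infinite_primes_of_density`) yields infinitely many `p` with `w x p ≠ 0` for a generator `x` of
`⟨σ⟩`.
-/

set_option autoImplicit false

open NumberField Finset Filter Topology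
open scoped Pointwise

namespace Fermat.Agent.Lib.Cheb.H583

open Classical

section Primes

variable (L : Type) [Field L] [NumberField L]

/-- The primes of `𝓞 L` containing the rational integer `p`. -/
def primesAbove (p : ℕ) : Set (Ideal (𝓞 L)) := {P | P.IsPrime ∧ (p : 𝓞 L) ∈ P}

theorem primesAbove_finite {p : ℕ} (hp : p ≠ 0) : (primesAbove L p).Finite := by
  have hp' : ((p : ℕ) : 𝓞 L) ≠ 0 := by exact_mod_cast hp
  have hI : Ideal.span {((p : ℕ) : 𝓞 L)} ≠ 0 := by
    rw [Ne, Ideal.zero_eq_bot, Ideal.span_singleton_eq_bot]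
    exact hp'
  have hfin := (Ideal.finite_factors hI).image
    (fun v : IsDedekindDomain.HeightOneSpectrum (𝓞 L) => v.asIdeal)
  refine hfin.subset ?_
  rintro P ⟨hP, hpP⟩
  have hne : P ≠ ⊥ := by
    rintro rfl
    exact hp' (by simpa using hpP)
  refine ⟨⟨P, hP, hne⟩, ?_, rfl⟩
  show P ∣ Ideal.span {((p : ℕ) : 𝓞 L)}
  rw [Ideal.dvd_iff_le, Ideal.span_le]
  intro x hx
  rw [Set.mem_singleton_iff] at hx
  rw [hx]
  exact hpP

/-- The primes of `𝓞 L` above `p`, as a finset (empty for `p = 0`). -/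
noncomputable def primesFinset (p : ℕ) : Finset (Ideal (𝓞 L)) :=
  if hp : p ≠ 0 then (primesAbove_finite L hp).toFinset else ∅

variable {L}

theorem mem_primesFinset {p : ℕ} (hp : p ≠ 0) {P : Ideal (𝓞 L)} :
    P ∈ primesFinset L p ↔ P.IsPrime ∧ (p : 𝓞 L) ∈ P := by
  unfold primesFinset
  rw [dif_pos hp, Set.Finite.mem_toFinset]
  rfl

/-- `decompWeight` as a finset sum. -/
theorem decompWeight_eq_sum (H : Subgroup (L ≃ₐ[ℚ] L)) {p : ℕ} (hp : p ≠ 0) :
    (Spec.decompWeight L H p : ℝ) =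
      ∑ P ∈ (primesFinset L p).filter (fun P => Spec.decomp L P ≤ H),
        (Nat.card (Spec.decomp L P) : ℝ) := by
  unfold Spec.decompWeight
  have hset : Spec.primesLe L H p =
      ((primesFinset L p).filter (fun P => Spec.decomp L P ≤ H) : Set (Ideal (𝓞 L))) := by
    ext P
    rw [Finset.mem_coe, Finset.mem_filter, mem_primesFinset hp]
    constructor
    · rintro ⟨h1, h2, h3⟩
      exact ⟨⟨h1, h2⟩, h3⟩
    · rintro ⟨⟨h1, h2⟩, h3⟩
      exact ⟨h1, h2, h3⟩
  rw [finsum_set_coe_eq_finsum_mem (f := fun P : Ideal (𝓞 L) => Nat.card (Spec.decomp L P))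
    (Spec.primesLe L H p), hset, finsum_mem_coe_finset, Nat.cast_sum]

end Primes

/-- (M): the finite-level qualitative Frobenius density theorem, from (Z), (B0), (A), (D). -/
theorem frobFinite (hZ : Spec.PrimeSumStatement) (hB0 : Spec.PrimeCountBoundStatement)
    (hA : Spec.CountStatement) (hD : Spec.FrobStatement) : Spec.FrobFiniteStatement := by
  intro L _ _ _ σ S
  obtain ⟨Bfrob, hBfrob⟩ := hD L
  choose BH hBH using hA L
  -- the bad primes
  set Bad : Finset ℕ := S ∪ Bfrob ∪ BH ⊤ with hBad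
  -- cyclicity of the decomposition groups at good primes
  have hcyc : ∀ p : ℕ, p.Prime → p ∉ Bad → ∀ P ∈ primesFinset L p,
      ∃ τ : L ≃ₐ[ℚ] L, Spec.decomp L P = Subgroup.zpowers τ := by
    intro p hp hpB P hP
    rw [mem_primesFinset hp.ne_zero] at hP
    have hpf : p ∉ Bfrob := fun h => hpB (by simp [hBad, h])
    obtain ⟨_, τ, _, hτ⟩ := hBfrob p hp hpf P hP.1 hP.2
    exact ⟨τ, hτ⟩
  -- the weights
  have key := infinite_primes_of_density (G := L ≃ₐ[ℚ] L)
    (fun x p => if p.Prime ∧ p ∉ Bad then cycWeight (primesFinset L p) (Spec.decomp L) x else 0)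
    ((Module.finrank ℚ (IntermediateField.fixedField (⊤ : Subgroup (L ≃ₐ[ℚ] L))) : ℝ) *
      (Nat.card (⊤ : Subgroup (L ≃ₐ[ℚ] L)) : ℝ))
    ?_ ?_
    (fun h p => (Spec.primeCount (IntermediateField.fixedField (Subgroup.zpowers h)) p : ℝ))
    (∑ h : L ≃ₐ[ℚ] L,
      (Module.finrank ℚ (IntermediateField.fixedField (Subgroup.zpowers h)) : ℝ))
    ?_ ?_ ?_ σ
  · -- conclusion
    obtain ⟨p, hp, x, hx, hw⟩ := key.nonempty
    have hgood : p.Prime ∧ p ∉ Bad := by
      by_contra hcon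
      exact hw (if_neg hcon)
    rw [if_pos hgood] at hw
    obtain ⟨P, hP, hPx⟩ := exists_of_cycWeight_ne_zero hw
    rw [mem_primesFinset hp.ne_zero] at hP
    have hpf : p ∉ Bfrob := fun h => hgood.2 (by simp [hBad, h])
    have hpS : p ∉ S := fun h => hgood.2 (by simp [hBad, h])
    obtain ⟨hin, τ, hτ1, hτ2⟩ := hBfrob p hp hpf P hP.1 hP.2
    refine ⟨p, P, τ, hp, hpS, hP.1, hP.2, hin, hτ1, ?_⟩
    rw [← hτ2, hPx, hx]
  · -- nonnegativity
    intro x p
    show 0 ≤ (if p.Prime ∧ p ∉ Bad then cycWeight (primesFinset L p) (Spec.decomp L) x else 0)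
    split_ifs
    · exact cycWeight_nonneg _ _ _
    · exact le_rfl
  · -- upper bound
    intro x p
    show (if p.Prime ∧ p ∉ Bad then cycWeight (primesFinset L p) (Spec.decomp L) x else 0) ≤ _
    split_ifs with hgood
    · have hpT : p ∉ BH ⊤ := fun h => hgood.2 (by simp [hBad, h])
      have h1 := hBH ⊤ p hgood.1 hpT
      have h2 := decompWeight_eq_sum (L := L) ⊤ hgood.1.ne_zero
      have h3 : (primesFinset L p).filter (fun P => Spec.decomp L P ≤ ⊤) = primesFinset L p :=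
        Finset.filter_true_of_mem fun P _ => le_top
      rw [h3, ← h1] at h2
      have h4 := hB0 (IntermediateField.fixedField (⊤ : Subgroup (L ≃ₐ[ℚ] L))) p
      calc cycWeight (primesFinset L p) (Spec.decomp L) x
          ≤ ∑ P ∈ primesFinset L p, (Nat.card (Spec.decomp L P) : ℝ) := cycWeight_le _ _ _
        _ = _ := h2.symm
        _ ≤ _ := by
          push_cast
          exact mul_le_mul_of_nonneg_right (by exact_mod_cast h4) (Nat.cast_nonneg _)
    · exact mul_nonneg (Nat.cast_nonneg _) (Nat.cast_nonneg _)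
  · -- bound for the prime counts
    intro h p _
    show |(Spec.primeCount (IntermediateField.fixedField (Subgroup.zpowers h)) p : ℝ)| ≤ _
    rw [abs_of_nonneg (Nat.cast_nonneg _)]
    have h4 := hB0 (IntermediateField.fixedField (Subgroup.zpowers h)) p
    calc (Spec.primeCount (IntermediateField.fixedField (Subgroup.zpowers h)) p : ℝ)
        ≤ (Module.finrank ℚ (IntermediateField.fixedField (Subgroup.zpowers h)) : ℝ) := by
          exact_mod_cast h4
      _ ≤ _ := Finset.single_le_sum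
          (f := fun h : L ≃ₐ[ℚ] L =>
            (Module.finrank ℚ (IntermediateField.fixedField (Subgroup.zpowers h)) : ℝ))
          (fun _ _ => Nat.cast_nonneg _) (Finset.mem_univ h)
  · -- (B)
    intro h
    refine ((Bad ∪ BH (Subgroup.zpowers h)).finite_toSet).subset ?_
    rintro p ⟨hp, hne⟩
    by_contra hcon
    apply hne
    rw [Finset.mem_coe, Finset.mem_union, not_or] at hcon
    have hgood : p.Prime ∧ p ∉ Bad := ⟨hp, hcon.1⟩
    have h1 : ∀ x ∈ zpFinset h,
        (if p.Prime ∧ p ∉ Bad then cycWeight (primesFinset L p) (Spec.decomp L) x else 0) =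
          cycWeight (primesFinset L p) (Spec.decomp L) x := fun x _ => if_pos hgood
    rw [Finset.sum_congr rfl h1, sum_zpFinset_cycWeight _ _ (hcyc p hp hcon.1),
      ← decompWeight_eq_sum _ hp.ne_zero, ← hBH (Subgroup.zpowers h) p hp hcon.2]
    push_cast
    ring
  · -- (A)
    intro h
    obtain ⟨C, hC⟩ := hZ (IntermediateField.fixedField (Subgroup.zpowers h))
    refine ⟨C, ?_⟩
    filter_upwards [Ioc_mem_nhdsGT (show (1 : ℝ) < 2 by norm_num)] with s hs
    exact hC s hs.1 hs.2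

end Fermat.Agent.Lib.Cheb.H583

end
-- ===== PACK-END Lib/Cheb/H583/FrobFinite.lean

-- ===== PACK-BEGIN S23/ConverseQ.lean
section



/-!
# S23, converse step: `q`-expansion form

A small API for "nice" functions on `ℍ` (holomorphic, `1`-periodic, bounded at `i∞`), on which
`qExpansion 1` is an injective ring homomorphism, and the `q`-expansion form of the converse step.
-/

set_option autoImplicit false

namespace Fermat.Agent.S23.Conv

open Complex Filter Topology UpperHalfPlane ModularForm Function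
open scoped MatrixGroups ModularForm Manifold

/-- Holomorphic, `1`-periodic and bounded at `i∞`. -/
def IsNice (f : ℍ → ℂ) : Prop :=
  MDiff f ∧ Periodic (f ∘ ofComplex) 1 ∧ IsBoundedAtImInfty f

namespace IsNice

variable {f g : ℍ → ℂ}

theorem analyticAt (hf : IsNice f) : AnalyticAt ℂ (cuspFunction 1 f) 0 :=
  analyticAt_cuspFunction_zero one_pos hf.2.1 hf.1 hf.2.2

theorem one : IsNice (1 : ℍ → ℂ) := by
  refine ⟨mdifferentiable_const, fun z ↦ rfl, ?_⟩
  exact Filter.const_boundedAtFilter _ (1 : ℂ)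

theorem mul (hf : IsNice f) (hg : IsNice g) : IsNice (f * g) := by
  refine ⟨hf.1.mul hg.1, fun z ↦ ?_, hf.2.2.mul hg.2.2⟩
  have h1 := hf.2.1 z
  have h2 := hg.2.1 z
  simp only [Function.comp_apply, Pi.mul_apply] at h1 h2 ⊢
  rw [h1, h2]

theorem add (hf : IsNice f) (hg : IsNice g) : IsNice (f + g) := by
  refine ⟨hf.1.add hg.1, fun z ↦ ?_, hf.2.2.add hg.2.2⟩
  have h1 := hf.2.1 z
  have h2 := hg.2.1 z
  simp only [Function.comp_apply, Pi.add_apply] at h1 h2 ⊢
  rw [h1, h2]

theorem pow (hf : IsNice f) (n : ℕ) : IsNice (f ^ n) := by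
  induction n with
  | zero => simpa using one
  | succ n ih => rw [pow_succ]; exact ih.mul hf

theorem sum {ι : Type*} (s : Finset ι) {F : ι → ℍ → ℂ} (hF : ∀ i ∈ s, IsNice (F i)) :
    IsNice (∑ i ∈ s, F i) := by
  classical
  induction s using Finset.induction_on with
  | empty =>
    simp only [Finset.sum_empty]
    refine ⟨mdifferentiable_const, fun z ↦ rfl, ?_⟩
    exact Filter.const_boundedAtFilter _ (0 : ℂ)
  | insert a s ha ih =>
    rw [Finset.sum_insert ha]
    exact (hF a (Finset.mem_insert_self a s)).add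
      (ih fun i hi ↦ hF i (Finset.mem_insert_of_mem hi))

theorem qExpansion_mul (hf : IsNice f) (hg : IsNice g) :
    qExpansion 1 (f * g) = qExpansion 1 f * qExpansion 1 g :=
  UpperHalfPlane.qExpansion_mul hf.analyticAt hg.analyticAt

theorem qExpansion_add (hf : IsNice f) (hg : IsNice g) :
    qExpansion 1 (f + g) = qExpansion 1 f + qExpansion 1 g :=
  UpperHalfPlane.qExpansion_add hf.analyticAt hg.analyticAt

theorem qExpansion_pow (hf : IsNice f) (n : ℕ) :
    qExpansion 1 (f ^ n) = qExpansion 1 f ^ n := by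
  induction n with
  | zero => simpa using UpperHalfPlane.qExpansion_one 1
  | succ n ih => rw [pow_succ, pow_succ, qExpansion_mul (hf.pow n) hf, ih]

theorem qExpansion_sum {ι : Type*} (s : Finset ι) {F : ι → ℍ → ℂ} (hF : ∀ i ∈ s, IsNice (F i)) :
    qExpansion 1 (∑ i ∈ s, F i) = ∑ i ∈ s, qExpansion 1 (F i) := by
  classical
  induction s using Finset.induction_on with
  | empty => simpa using UpperHalfPlane.qExpansion_zero 1
  | insert a s ha ih =>
    rw [Finset.sum_insert ha, Finset.sum_insert ha,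
      qExpansion_add (hF a (Finset.mem_insert_self a s))
        (sum s fun i hi ↦ hF i (Finset.mem_insert_of_mem hi)),
      ih fun i hi ↦ hF i (Finset.mem_insert_of_mem hi)]

theorem qExpansion_eq_zero_iff (hf : IsNice f) : qExpansion 1 f = 0 ↔ f = 0 :=
  UpperHalfPlane.qExpansion_eq_zero_iff one_pos hf.2.1 hf.1 hf.2.2

end IsNice

/-- Modular forms (for a group having `1` as a strict period) are nice. -/
theorem isNice_of_modularFormClass {F : Type*} [FunLike F ℍ ℂ] {Γ : Subgroup (GL (Fin 2) ℝ)}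
    {k : ℤ} [ModularFormClass F Γ k] (hΓ : (1 : ℝ) ∈ Γ.strictPeriods) (f : F) :
    IsNice (f : ℍ → ℂ) := by
  have : Fact (IsCusp OnePoint.infty Γ) := ⟨Γ.isCusp_of_mem_strictPeriods one_pos hΓ⟩
  exact ⟨ModularFormClass.holo f, SlashInvariantFormClass.periodic_comp_ofComplex f hΓ,
    ModularFormClass.bdd_at_infty f⟩


/-- **Converse step, `q`-expansion form, function-level hypotheses.** -/
theorem exists_cuspForm_qExpansion_eq_fun {Γ : Subgroup SL(2, ℤ)} [Γ.FiniteIndex]
    (hΓ : (1 : ℝ) ∈ (Γ : Subgroup (GL (Fin 2) ℝ)).strictPeriods)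
    {k w m : ℤ} (hm : m = w + k) (g h : ℍ → ℂ) (hgN : IsNice g) (hhN : IsNice h)
    (hgΓ : ∀ γ ∈ Γ, g ∣[m] γ = g) (hhΓ : ∀ γ ∈ Γ, h ∣[w] γ = h)
    (hH : qExpansion 1 h ≠ 0)
    {n : ℕ} (hn : 0 < n) (b : ℕ → ℍ → ℂ)
    (hb : ∀ i < n, ∃ (wi : ℤ) (B : CuspForm 𝒮ℒ wi), wi = k * ((n : ℤ) - i) ∧ ⇑B = b i)
    (x : PowerSeries ℂ) (hx : x * qExpansion 1 h = qExpansion 1 g)
    (hmonic : x ^ n + ∑ i ∈ Finset.range n, qExpansion 1 (b i) * x ^ i = 0) :
    ∃ F : CuspForm Γ k, qExpansion 1 F = x := by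
  have hbN : ∀ i ∈ Finset.range n, IsNice (b i) := by
    intro i hi
    obtain ⟨wi, B, -, hB⟩ := hb i (Finset.mem_range.mp hi)
    rw [← hB]
    exact isNice_of_modularFormClass _root_.one_mem_strictPeriods_SL B
  have hne : ∃ τ, h τ ≠ 0 := by
    by_contra hcon
    push Not at hcon
    exact hH (hhN.qExpansion_eq_zero_iff.mpr (funext hcon))
  -- the function `Φ = g ^ n + ∑ b_i g ^ i h ^ (n - i)`
  set Φ : ℍ → ℂ := g ^ n + ∑ i ∈ Finset.range n, b i * g ^ i * h ^ (n - i) with hΦ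
  have hterm : ∀ i ∈ Finset.range n, IsNice (b i * g ^ i * h ^ (n - i)) :=
    fun i hi ↦ ((hbN i hi).mul (hgN.pow i)).mul (hhN.pow (n - i))
  have hΦN : IsNice Φ := (hgN.pow n).add (IsNice.sum _ hterm)
  have hΦq : qExpansion 1 Φ = 0 := by
    rw [hΦ, IsNice.qExpansion_add (hgN.pow n) (IsNice.sum _ hterm), hgN.qExpansion_pow,
      IsNice.qExpansion_sum _ hterm]
    have : ∀ i ∈ Finset.range n, qExpansion 1 (b i * g ^ i * h ^ (n - i)) =
        qExpansion 1 h ^ n * (qExpansion 1 (b i) * x ^ i) := by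
      intro i hi
      rw [IsNice.qExpansion_mul ((hbN i hi).mul (hgN.pow i)) (hhN.pow (n - i)),
        IsNice.qExpansion_mul (hbN i hi) (hgN.pow i), hgN.qExpansion_pow, hhN.qExpansion_pow,
        ← hx]
      have hi' : i ≤ n := (Finset.mem_range.mp hi).le
      have : qExpansion 1 h ^ n = qExpansion 1 h ^ i * qExpansion 1 h ^ (n - i) := by
        rw [← pow_add]; congr 1; omega
      rw [this]
      ring
    rw [Finset.sum_congr rfl this, ← Finset.mul_sum, ← hx, mul_pow]
    have : x ^ n * qExpansion 1 h ^ n + qExpansion 1 h ^ n *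
        ∑ i ∈ Finset.range n, qExpansion 1 (b i) * x ^ i =
        qExpansion 1 h ^ n * (x ^ n + ∑ i ∈ Finset.range n, qExpansion 1 (b i) * x ^ i) := by
      ring
    rw [this, hmonic, mul_zero]
  have hΦ0 : Φ = 0 := hΦN.qExpansion_eq_zero_iff.mp hΦq
  have heq : ∀ τ, g τ ^ n + ∑ i ∈ Finset.range n, b i τ * g τ ^ i * h τ ^ (n - i) = 0 := by
    intro τ
    have := congrFun hΦ0 τ
    simpa [hΦ] using this
  obtain ⟨F, hF⟩ := exists_cuspForm_of_monic_eq_fun hm g h hgN.1 hhN.1 hgΓ hhΓ hne hn b hb heq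
  refine ⟨F, ?_⟩
  have hFN : IsNice (F : ℍ → ℂ) := isNice_of_modularFormClass hΓ F
  have hFh : (F : ℍ → ℂ) * h = g := funext hF
  have h1 : qExpansion 1 F * qExpansion 1 h = x * qExpansion 1 h := by
    rw [← IsNice.qExpansion_mul hFN hhN, hFh, hx]
  exact mul_right_cancel₀ hH h1

/-- **Converse step, `q`-expansion form.** Let `g, h` be modular forms of level `Γ` and weights
`w + k`, `w` with `h ≠ 0`, and let `x` be a formal power series with `x * qExp h = qExp g`
satisfying a monic equation `x ^ n + ∑_{i < n} qExp (b i) * x ^ i = 0` whose coefficients are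
`q`-expansions of level-one cusp forms `b i` of weight `k * (n - i)`. Then `x` is the
`q`-expansion of a cusp form of weight `k` and level `Γ`. -/
theorem exists_cuspForm_qExpansion_eq {Γ : Subgroup SL(2, ℤ)} [Γ.FiniteIndex]
    (hΓ : (1 : ℝ) ∈ (Γ : Subgroup (GL (Fin 2) ℝ)).strictPeriods)
    {k w m : ℤ} (hm : m = w + k) (g : ModularForm Γ m) (h : ModularForm Γ w) (hh : h ≠ 0)
    {n : ℕ} (hn : 0 < n) (b : ℕ → ℍ → ℂ)
    (hb : ∀ i < n, ∃ (wi : ℤ) (B : CuspForm 𝒮ℒ wi), wi = k * ((n : ℤ) - i) ∧ ⇑B = b i)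
    (x : PowerSeries ℂ) (hx : x * qExpansion 1 h = qExpansion 1 g)
    (hmonic : x ^ n + ∑ i ∈ Finset.range n, qExpansion 1 (b i) * x ^ i = 0) :
    ∃ F : CuspForm Γ k, qExpansion 1 F = x := by
  have hgN : IsNice (g : ℍ → ℂ) := isNice_of_modularFormClass hΓ g
  have hhN : IsNice (h : ℍ → ℂ) := isNice_of_modularFormClass hΓ h
  have hH : qExpansion 1 h ≠ 0 := by
    rw [Ne, hhN.qExpansion_eq_zero_iff]
    intro h0
    exact hh (DFunLike.coe_injective (by rw [h0]; rfl))
  refine exists_cuspForm_qExpansion_eq_fun hΓ hm g h hgN hhN (fun γ hγ ↦ ?_) (fun γ hγ ↦ ?_) hH hn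
    b hb x hx hmonic
  · exact SlashInvariantForm.slash_action_eqn g _ ⟨γ, hγ, rfl⟩
  · exact SlashInvariantForm.slash_action_eqn h _ ⟨γ, hγ, rfl⟩

theorem one_mem_strictPeriods_Gamma0' (N : ℕ) :
    (1 : ℝ) ∈ ((CongruenceSubgroup.Gamma0 N : Subgroup SL(2, ℤ)) :
      Subgroup (GL (Fin 2) ℝ)).strictPeriods := by
  simp

/-- The converse step for `Γ₀(N)`, `q`-expansion form, any weight `k`. -/
theorem exists_cuspForm_Gamma0_qExpansion_eq (N : ℕ) [NeZero N]
    {k w m : ℤ} (hm : m = w + k) (g : ModularForm (CongruenceSubgroup.Gamma0 N) m)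
    (h : ModularForm (CongruenceSubgroup.Gamma0 N) w) (hh : h ≠ 0)
    {n : ℕ} (hn : 0 < n) (b : ℕ → ℍ → ℂ)
    (hb : ∀ i < n, ∃ (wi : ℤ) (B : CuspForm 𝒮ℒ wi), wi = k * ((n : ℤ) - i) ∧ ⇑B = b i)
    (x : PowerSeries ℂ) (hx : x * qExpansion 1 h = qExpansion 1 g)
    (hmonic : x ^ n + ∑ i ∈ Finset.range n, qExpansion 1 (b i) * x ^ i = 0) :
    ∃ F : CuspForm (CongruenceSubgroup.Gamma0 N) k, qExpansion 1 F = x :=
  exists_cuspForm_qExpansion_eq (one_mem_strictPeriods_Gamma0' N) hm g h hh hn b hb x hx hmonic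

end Fermat.Agent.S23.Conv

end
-- ===== PACK-END S23/ConverseQ.lean

-- ===== PACK-BEGIN S23/Cap/Converse.lean
section



/-!
# S23 / Cap : from formal relations back to a cusp form
(adapter around helper803's `Converse.lean`, `ConversePkg.lean`, `ConverseQ.lean`).
-/

set_option autoImplicit false

namespace Fermat.Agent.S23.Cap

open UpperHalfPlane ModularForm ModularFormClass MatrixGroups CongruenceSubgroup
open scoped Manifold

/-- **WP4 main statement.** -/
theorem exists_cuspForm_of_relations (N : ℕ) [NeZero N] (k w' : ℤ) (U V : ℍ → ℂ)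
    (hU : IsMF (G0 N) w' U) (hV : IsMF (G0 N) (w' + k) V) (hU0 : U ≠ 0)
    (μ : ℕ) (hμ : 0 < μ) (c : ℕ → ℍ → ℂ) (hc : ∀ i < μ, IsCF SLZ (k * (i + 1)) (c i))
    (G : PowerSeries ℂ) (h1 : qx U * G = qx V)
    (h2 : G ^ μ + ∑ i ∈ Finset.range μ, qx (c i) * G ^ (μ - 1 - i) = 0) :
    ∃ g : ℍ → ℂ, IsCF (G0 N) k g ∧ qx g = G := by
  obtain ⟨Uf, rfl⟩ := hU
  obtain ⟨Vf, rfl⟩ := hV
  have hUf : Uf ≠ 0 := fun h => hU0 (by rw [h]; rfl)
  have hb : ∀ i < μ, ∃ (wi : ℤ) (B : CuspForm 𝒮ℒ wi), wi = k * ((μ : ℤ) - i) ∧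
      ⇑B = c (μ - 1 - i) := by
    intro i hi
    obtain ⟨B, hB⟩ := hc (μ - 1 - i) (by omega)
    refine ⟨_, B, ?_, hB⟩
    have : ((μ - 1 - i : ℕ) : ℤ) = (μ : ℤ) - 1 - i := by omega
    rw [this]; ring
  have hmonic : G ^ μ + ∑ i ∈ Finset.range μ, qExpansion 1 (c (μ - 1 - i)) * G ^ i = 0 := by
    rw [← h2]
    congr 1
    rw [← Finset.sum_range_reflect]
    refine Finset.sum_congr rfl fun i hi => ?_
    have : i < μ := Finset.mem_range.mp hi
    have h' : μ - 1 - (μ - 1 - i) = i := by omega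
    rw [h']
  obtain ⟨F, hF⟩ := Fermat.Agent.S23.Conv.exists_cuspForm_Gamma0_qExpansion_eq N
    (k := k) (w := w') (m := w' + k) rfl Vf Uf hUf hμ (fun i => c (μ - 1 - i)) hb G
    (by rw [mul_comm]; exact h1) hmonic
  exact ⟨F, ⟨F, rfl⟩, hF⟩

end Fermat.Agent.S23.Cap

end
-- ===== PACK-END S23/Cap/Converse.lean

-- ===== PACK-BEGIN S23/Cap/Descent.lean
section



/-!
# S23 / WP6 : Galois descent for subspaces of `ℂ⟦q⟧`.

Adapter around the abstract dual-basis descent lemma `Fermat.Agent.S23.H683.descent`.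
-/

set_option autoImplicit false

namespace Fermat.Agent.S23.Cap

/-- the truncation map `W → ℂ^{B+1}` -/
noncomputable def descentTrunc (W : Submodule ℂ (PowerSeries ℂ)) (B : ℕ) :
    W →ₗ[ℂ] (Fin (B + 1) → ℂ) :=
  LinearMap.pi fun i => (PowerSeries.coeff (R := ℂ) (i : ℕ)).comp W.subtype

theorem descentTrunc_injective (W : Submodule ℂ (PowerSeries ℂ)) (B : ℕ)
    (hB : ∀ F ∈ W, (∀ n ≤ B, PowerSeries.coeff n F = 0) → F = 0) :
    Function.Injective (descentTrunc W B) := by
  rw [← LinearMap.ker_eq_bot, LinearMap.ker_eq_bot']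
  intro F hF
  apply Subtype.ext
  apply hB F.1 F.2
  intro n hn
  have := congrFun hF ⟨n, Nat.lt_succ_of_le hn⟩
  simpa [descentTrunc] using this

/-- **WP6 main statement.** -/
theorem descent (W : Submodule ℂ (PowerSeries ℂ)) (B : ℕ)
    (hB : ∀ F ∈ W, (∀ n ≤ B, PowerSeries.coeff n F = 0) → F = 0)
    (hσ : ∀ σ : ℂ →+* ℂ, ∀ F ∈ W, F.map σ ∈ W) :
    W ≤ Submodule.span ℂ
      {F | F ∈ W ∧ ∀ n : ℕ, ∃ r : ℚ, PowerSeries.coeff n F = (r : ℂ)} := by
  haveI : FiniteDimensional ℂ W :=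
    FiniteDimensional.of_injective (descentTrunc W B) (descentTrunc_injective W B hB)
  let a : ℕ → W →ₗ[ℂ] ℂ := fun n => (PowerSeries.coeff (R := ℂ) n).comp W.subtype
  have hinj : ∀ f : W, (∀ n, a n f = 0) → f = 0 := by
    intro f hf
    apply Subtype.ext
    apply PowerSeries.ext
    intro n
    simpa [a] using hf n
  have htr : ∀ (σ : ℂ ≃+* ℂ) (f : W), ∃ g : W, ∀ n, a n g = σ (a n f) := by
    intro σ f
    refine ⟨⟨(f : PowerSeries ℂ).map σ.toRingHom, hσ σ.toRingHom f.1 f.2⟩, fun n => ?_⟩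
    simp [a]
  have key := Fermat.Agent.S23.H683.descent a hinj htr
  intro F hF
  have hmem : (⟨F, hF⟩ : W) ∈ Submodule.span ℂ {f : W | ∀ n, ∃ r : ℚ, a n f = (r : ℂ)} := by
    rw [key]; trivial
  have h2 := Submodule.mem_map_of_mem (f := W.subtype) hmem
  rw [Submodule.map_span] at h2
  refine Submodule.span_mono ?_ h2
  rintro _ ⟨f, hf, rfl⟩
  exact ⟨f.2, fun n => by simpa [a] using hf n⟩

end Fermat.Agent.S23.Cap

end
-- ===== PACK-END S23/Cap/Descent.lean

-- ===== PACK-BEGIN S48/H848/QExp.lean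
section
/-
S48 piece P0 (helper848): q-expansion calculus for `1`-periodic holomorphic functions bounded at
`i∞` (predicate `Nice`), in particular the q-expansion of `f ∣ diag(q, 1)`.
-/









set_option autoImplicit false

noncomputable section

namespace Fermat.Agent.S48.H848

open Matrix.SpecialLinearGroup UpperHalfPlane CongruenceSubgroup ModularForm
open scoped MatrixGroups ModularForm OnePoint Manifold

/-- `1`-periodic, holomorphic, bounded at `i∞`. -/
structure Nice (F : ℍ → ℂ) : Prop where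
  per : Function.Periodic (F ∘ UpperHalfPlane.ofComplex) 1
  hol : MDiff F
  bdd : IsBoundedAtImInfty F

namespace Nice

variable {F G : ℍ → ℂ}

theorem analytic (h : Nice F) : AnalyticAt ℂ (cuspFunction 1 F) 0 :=
  analyticAt_cuspFunction_zero one_pos h.per h.hol h.bdd

theorem add (hF : Nice F) (hG : Nice G) : Nice (F + G) where
  per := hF.per.add hG.per
  hol := hF.hol.add hG.hol
  bdd := hF.bdd.add hG.bdd

theorem neg (hF : Nice F) : Nice (-F) where
  per := fun z ↦ by
    have := hF.per z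
    simp only [Function.comp_apply, Pi.neg_apply] at this ⊢
    rw [this]
  hol := hF.hol.neg
  bdd := hF.bdd.neg

theorem sub (hF : Nice F) (hG : Nice G) : Nice (F - G) := by
  rw [sub_eq_add_neg]
  exact hF.add hG.neg

theorem smul (hF : Nice F) (c : ℂ) : Nice (c • F) where
  per := fun z ↦ by
    have := hF.per z
    simp only [Function.comp_apply, Pi.smul_apply] at this ⊢
    rw [this]
  hol := hF.hol.const_smul c
  bdd := hF.bdd.const_smul_left c

theorem heckeU (hF : Nice F) (k : ℤ) (p : ℕ) : Nice (_root_.ModularForm.heckeU k p F) where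
  per := periodic_heckeU_comp_ofComplex hF.per k p
  hol := mdifferentiable_heckeU hF.hol k p
  bdd := isBoundedAtImInfty_heckeU hF.bdd k p

theorem heckeT (hF : Nice F) (k : ℤ) (p : ℕ) : Nice (_root_.ModularForm.heckeT k p F) where
  per := periodic_heckeT_comp_ofComplex hF.per k p
  hol := mdifferentiable_heckeT hF.hol k p
  bdd := isBoundedAtImInfty_heckeT hF.bdd k p

theorem slash_diag_eq (F : ℍ → ℂ) (k : ℤ) (q : ℕ) :
    F ∣[k] heckeDiagMatrix q = ModularForm.heckeT k q F - ModularForm.heckeU k q F := by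
  rw [heckeT_eq_heckeU_add]
  abel

theorem slash_diag (hF : Nice F) (k : ℤ) (q : ℕ) : Nice (F ∣[k] heckeDiagMatrix q) := by
  rw [slash_diag_eq]
  exact (hF.heckeT k q).sub (hF.heckeU k q)

theorem one_mem_strictPeriods_Gamma1_848 (N : ℕ) :
    (1 : ℝ) ∈ (Gamma1 N : Subgroup (GL (Fin 2) ℝ)).strictPeriods := by
  rw [strictPeriods_Gamma1]
  exact AddSubgroup.mem_zmultiples 1

theorem of_cusp {N : ℕ} [NeZero N] {k : ℤ} (f : CuspForm (Gamma1 N) k) : Nice ⇑f where
  per := SlashInvariantFormClass.periodic_comp_ofComplex f (one_mem_strictPeriods_Gamma1_848 N)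
  hol := CuspFormClass.holo f
  bdd := by
    haveI : Fact (IsCusp OnePoint.infty (Gamma1 N : Subgroup (GL (Fin 2) ℝ))) :=
      ⟨Subgroup.isCusp_of_mem_strictPeriods one_pos (one_mem_strictPeriods_Gamma1_848 N)⟩
    exact ModularFormClass.bdd_at_infty f

open ModularFormClass in
theorem qCoeff_add (hF : Nice F) (hG : Nice G) (n : ℕ) :
    qCoeff (F + G) n = qCoeff F n + qCoeff G n := by
  simp only [qCoeff, qExpansion_add hF.analytic hG.analytic, map_add]

open ModularFormClass in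
theorem qCoeff_sub (hF : Nice F) (hG : Nice G) (n : ℕ) :
    qCoeff (F - G) n = qCoeff F n - qCoeff G n := by
  simp only [qCoeff, qExpansion_sub hF.analytic hG.analytic, map_sub]

open ModularFormClass in
theorem qCoeff_smul (hF : Nice F) (c : ℂ) (n : ℕ) :
    qCoeff (c • F) n = c * qCoeff F n := by
  simp only [qCoeff, qExpansion_smul hF.analytic, PowerSeries.coeff_smul, smul_eq_mul]

open ModularFormClass in
theorem qCoeff_heckeU (hF : Nice F) (k : ℤ) {p : ℕ} (hp : p ≠ 0) (n : ℕ) :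
    qCoeff (ModularForm.heckeU k p F) n = qCoeff F (n * p) := by
  rw [UpperHalfPlane.qCoeff_heckeU hF.per hF.hol hF.bdd k hp n, coeffHeckeU_apply]

open ModularFormClass in
/-- The q-expansion of `F ∣ diag(q, 1)`, i.e. of `q^(k-1) F(q τ)`. -/
theorem qCoeff_slash_diag (hF : Nice F) (k : ℤ) {q : ℕ} (hq : q ≠ 0) (n : ℕ) :
    qCoeff (F ∣[k] heckeDiagMatrix q) n =
      if q ∣ n then (q : ℂ) ^ (k - 1) * qCoeff F (n / q) else 0 := by
  rw [slash_diag_eq, qCoeff_sub (hF.heckeT k q) (hF.heckeU k q),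
    UpperHalfPlane.qCoeff_heckeT hF.per hF.hol hF.bdd k hq n,
    UpperHalfPlane.qCoeff_heckeU hF.per hF.hol hF.bdd k hq n, coeffHeckeT_eq_coeffHeckeU_add]
  ring

theorem ext (hF : Nice F) (hG : Nice G)
    (h : ∀ n : ℕ, ModularFormClass.qCoeff F n = ModularFormClass.qCoeff G n) : F = G :=
  UpperHalfPlane.eq_of_forall_qCoeff_eq hF.per hF.hol hF.bdd hG.per hG.hol hG.bdd h

end Nice

end Fermat.Agent.S48.H848

end
end
-- ===== PACK-END S48/H848/QExp.lean

-- ===== PACK-BEGIN S29/H872/Cyclo.lean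
section



/-!
# The mod `p` cyclotomic character at Frobenius elements

For a prime `ℓ ≠ p`, a valuation subring `A` of `ℚ̄` over `ℓ` and a Frobenius element `τ` at `A`
(Prelude: `ValuationSubring.IsFrobeniusAt`), the mod `p` cyclotomic character
`ExtCitation.cycloChar p` takes the value `ℓ` at `τ`.
-/

set_option autoImplicit false

namespace Fermat.Agent.S29.H872

open ExtCitation Fermat.Agent.S55.Bridge

section frob

variable (A : ValuationSubring (AlgebraicClosure ℚ))

/-- A Frobenius element at `A` raises to the `ℓ`-th power modulo the maximal ideal. -/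
theorem frob_val_sub_lt_one {τ : AlgebraicClosure ℚ ≃ₐ[ℚ] AlgebraicClosure ℚ} {ℓ : ℕ}
    (hτ : A.IsFrobeniusAt τ ℓ) (z : AlgebraicClosure ℚ)
    (hz : A.valuation z ≤ 1) : A.valuation (τ z - z ^ ℓ) < 1 := by
  obtain ⟨hd, hfrob⟩ := hτ
  have hzA : z ∈ A := (A.valuation_le_one_iff z).mp hz
  have h2 := hfrob (IsLocalRing.residue A ⟨z, hzA⟩)
  rw [← IsLocalRing.ResidueField.residue_smul, ← map_pow] at h2
  have h3 : ((⟨τ, hd⟩ : A.decompositionSubgroup ℚ) • (⟨z, hzA⟩ : A)) - (⟨z, hzA⟩ : A) ^ ℓ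
      ∈ IsLocalRing.maximalIdeal A := by
    rw [← Ideal.Quotient.eq]
    exact h2
  rw [ValuationSubring.valuation_lt_one_iff] at h3
  exact h3

end frob

variable (p : ℕ) [Fact p.Prime]

/-- A Frobenius element at a place over `ℓ ≠ p` acts on `p`-th roots of unity by `t ↦ t ^ ℓ`. -/
theorem frob_root_eq_pow {ℓ : ℕ} (hℓ : ℓ.Prime) (hℓp : ℓ ≠ p)
    (A : ValuationSubring (AlgebraicClosure ℚ)) (hA : A.LiesOverPrime ℓ)
    (τ : AlgebraicClosure ℚ ≃ₐ[ℚ] AlgebraicClosure ℚ) (hτ : A.IsFrobeniusAt τ ℓ)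
    {t : AlgebraicClosure ℚ} (htp : t ^ p = 1) : τ t = t ^ ℓ := by
  have hp : p.Prime := Fact.out
  by_contra hne
  have hpv := val_prime_eq_one (A := A) hA hℓ hp hℓp
  have hσt : (τ t) ^ p = 1 := by rw [← map_pow, htp, map_one]
  have htl : (t ^ ℓ) ^ p = 1 := by rw [← pow_mul, mul_comm, pow_mul, htp, one_pow]
  have h1 := val_sub_roots_eq_one (A := A) hp.ne_zero hpv hσt htl hne
  have hvt : A.valuation t ≤ 1 := by
    have h : (A.valuation t) ^ p = 1 := by rw [← map_pow, htp, map_one]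
    exact ((pow_eq_one_iff.1 h).resolve_right hp.ne_zero).le
  have h2 := frob_val_sub_lt_one A hτ t hvt
  rw [h1] at h2
  exact lt_irrefl _ h2

/-- **Cyclotomic character at Frobenius.** For `ℓ ≠ p` and a Frobenius element `τ` at a place over
`ℓ`, the mod `p` cyclotomic character of `τ` is `ℓ`. -/
theorem cycloChar_frobenius {ℓ : ℕ} (hℓ : ℓ.Prime) (hℓp : ℓ ≠ p)
    (A : ValuationSubring (AlgebraicClosure ℚ)) (hA : A.LiesOverPrime ℓ)
    (τ : AlgebraicClosure ℚ ≃ₐ[ℚ] AlgebraicClosure ℚ) (hτ : A.IsFrobeniusAt τ ℓ) :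
    ((cycloChar p τ : (ZMod p)ˣ) : ZMod p) = (ℓ : ZMod p) := by
  have hp : p.Prime := Fact.out
  have : NeZero p := ⟨hp.ne_zero⟩
  have : Fact (1 < p) := ⟨hp.one_lt⟩
  have h := modularCyclotomicCharacter.unique (AlgebraicClosure ℚ) (card_rootsOfUnity_eq_self p)
    (τ : AlgebraicClosure ℚ ≃+* AlgebraicClosure ℚ) (c := (ℓ : ZMod p))
    (fun t ht => by
      have htp : (t : AlgebraicClosure ℚ) ^ p = 1 := by
        have := (mem_rootsOfUnity p t).1 ht
        rw [← Units.val_pow_eq_pow_val, this, Units.val_one]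
      have h1 : (τ : AlgebraicClosure ℚ ≃+* AlgebraicClosure ℚ) (t : AlgebraicClosure ℚ)
          = (t : AlgebraicClosure ℚ) ^ ℓ := frob_root_eq_pow p hℓ hℓp A hA τ hτ htp
      rw [h1, ZMod.val_natCast]
      conv_lhs => rw [← Nat.div_add_mod ℓ p, pow_add, pow_mul, htp, one_pow, one_mul])
  exact h.symm

/-- If `σ` fixes every `p`-th root of unity of `ℚ̄`, then `cycloChar p σ = 1` (root form). -/
theorem cycloChar_eq_one_of_fixes_roots (σ : AlgebraicClosure ℚ ≃ₐ[ℚ] AlgebraicClosure ℚ)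
    (hσ : ∀ t : AlgebraicClosure ℚ, t ^ p = 1 → σ t = t) : cycloChar p σ = 1 := by
  apply cycloChar_eq_one_of_fixes
  intro t ht
  apply hσ
  have := (mem_rootsOfUnity p t).1 ht
  rw [← Units.val_pow_eq_pow_val, this, Units.val_one]

end Fermat.Agent.S29.H872

end
-- ===== PACK-END S29/H872/Cyclo.lean

-- ===== PACK-BEGIN S29/H872/Charpoly.lean
section


/-!
# Characteristic polynomials in the two-dimensional case of the dimension lemma
-/

set_option autoImplicit false

namespace Fermat.Agent.S29.H872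

open Module Polynomial

variable {K : Type*} [Field K] {U : Type*} [AddCommGroup U] [Module K U]
variable {G : Type*} [Group G]

/-- `T` is not a scalar. -/
def NonScalar (T : Module.End K U) : Prop := ∀ c : K, T ≠ c • 1

theorem smul_one_injective [Nontrivial U] : Function.Injective fun c : K => c • (1 : Module.End K U) := by
  intro c c' h
  obtain ⟨u, hu⟩ := exists_ne (0 : U)
  have := congrArg (fun f : Module.End K U => f u) h
  simp only [LinearMap.smul_apply, Module.End.one_apply] at this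
  exact smul_left_injective K hu this

/-- Uniqueness of the quadratic relation of a non-scalar endomorphism. -/
theorem quad_unique {T : Module.End K U} [Nontrivial U] (hT : NonScalar T) {α β γ δ : K}
    (h1 : T * T = α • T - γ • 1) (h2 : T * T = β • T - δ • 1) : α = β ∧ γ = δ := by
  have h : (α - β) • T = (γ - δ) • (1 : Module.End K U) := by
    have := h1.symm.trans h2
    rw [sub_smul, sub_smul]
    rw [sub_eq_sub_iff_add_eq_add] at this ⊢
    rw [this]
    abel
  have hαβ : α = β := by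
    by_contra hne
    have hne' : α - β ≠ 0 := sub_ne_zero.2 hne
    apply hT ((α - β)⁻¹ * (γ - δ))
    rw [mul_smul, ← h, smul_smul, inv_mul_cancel₀ hne', one_smul]
  refine ⟨hαβ, ?_⟩
  rw [hαβ, sub_self, zero_smul] at h
  have := smul_one_injective (K := K) (U := U) (h.symm.trans (zero_smul K _).symm)
  exact sub_eq_zero.1 this

variable [FiniteDimensional K U]

theorem charpoly_smul_one (c : K) :
    (c • (1 : Module.End K U)).charpoly = (X - C c) ^ Module.finrank K U := by
  have h := LinearMap.charpoly_sub_smul (0 : Module.End K U) (-c)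
  rw [LinearMap.charpoly_zero] at h
  have e : (0 : Module.End K U) - (-c) • 1 = c • 1 := by simp
  rw [e] at h
  rw [h]
  simp [sub_eq_add_neg]

/-- Characteristic polynomial of a non-scalar endomorphism of a plane with a quadratic
relation. -/
theorem charpoly_of_nonScalar [Nontrivial U] (h2 : Module.finrank K U = 2)
    {T : Module.End K U} (hT : NonScalar T) {α δ : K} (hrel : T * T = α • T - δ • 1) :
    T.charpoly = X ^ 2 - C α * X + C δ := by
  have hmon := LinearMap.charpoly_monic T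
  have hdeg : T.charpoly.natDegree = 2 := by rw [LinearMap.charpoly_natDegree, h2]
  have hCH := LinearMap.aeval_self_charpoly T
  -- write the characteristic polynomial as `X² + c₁ X + c₀`
  have hP : T.charpoly = X ^ 2 + C (T.charpoly.coeff 1) * X + C (T.charpoly.coeff 0) := by
    ext n
    have hlead : T.charpoly.coeff 2 = 1 := by
      have := hmon.coeff_natDegree
      rwa [hdeg] at this
    rcases n with _ | _ | _ | n
    · simp
    · simp
    · simp [hlead]
    · have : T.charpoly.coeff (n + 3) = 0 :=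
        coeff_eq_zero_of_natDegree_lt (by rw [hdeg]; omega)
      rw [this]
      simp
  rw [hP] at hCH
  simp only [map_add, map_mul, map_pow, aeval_X, aeval_C, Module.algebraMap_end_eq_smul_id] at hCH
  have hCH' : T * T + (T.charpoly.coeff 1) • T + (T.charpoly.coeff 0) • (1 : Module.End K U)
      = 0 := by
    rw [← hCH, pow_two]
    congr 2
  have h3 : T * T = (-(T.charpoly.coeff 1)) • T - (T.charpoly.coeff 0) • (1 : Module.End K U) := by
    rw [neg_smul]
    have e1 := eq_neg_of_add_eq_zero_left hCH'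
    have e2 := eq_sub_of_add_eq e1
    rw [e2]
    abel
  obtain ⟨e1, e0⟩ := quad_unique hT hrel h3
  rw [hP, ← e0, show T.charpoly.coeff 1 = -α by rw [e1, neg_neg]]
  simp [sub_eq_add_neg]

omit [FiniteDimensional K U] in
theorem exists_nonScalar [Nontrivial U] (h2 : Module.finrank K U = 2) (r : G →* Module.End K U)
    (hirr : ∀ W : Submodule K U, (∀ g, W ≤ W.comap (r g)) → W = ⊥ ∨ W = ⊤) :
    ∃ h, NonScalar (r h) := by
  by_contra hcon
  simp only [NonScalar, not_exists, not_forall, not_not] at hcon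
  obtain ⟨u, hu⟩ := exists_ne (0 : U)
  have hW := hirr (Submodule.span K {u}) (fun g w hw => by
    obtain ⟨c, hc⟩ := hcon g
    rw [Submodule.mem_comap, hc]
    exact Submodule.smul_mem _ _ hw)
  rcases hW with hW | hW
  · exact hu ((Submodule.span_singleton_eq_bot).1 hW)
  · have := finrank_span_singleton (K := K) hu
    rw [hW, finrank_top, h2] at this
    omega

/-- **Characteristic polynomial lemma.**  In the two-dimensional irreducible case, every
quadratic relation `g² = α g - d(g)` (with `d` multiplicative) is the characteristic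
polynomial. -/
theorem charpoly_eq_of_quadRel [IsAlgClosed K] [Nontrivial U] {r : G →* Module.End K U}
    {a d : G → K} (hq : QuadRel r a d)
    (hirr : ∀ W : Submodule K U, (∀ g, W ≤ W.comap (r g)) → W = ⊥ ∨ W = ⊤)
    (h2 : Module.finrank K U = 2) (g : G) (α : K) (hα : r g * r g = α • r g - d g • 1) :
    (r g).charpoly = X ^ 2 - C α * X + C (d g) := by
  by_cases hg : NonScalar (r g)
  · exact charpoly_of_nonScalar h2 hg hα
  · simp only [NonScalar, not_forall, not_not] at hg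
    obtain ⟨c, hc⟩ := hg
    obtain ⟨h, hh⟩ := exists_nonScalar h2 r hirr
    have hinv : r g⁻¹ * r g = 1 := by rw [← map_mul, inv_mul_cancel, map_one]
    have hc0 : c ≠ 0 := by
      rintro rfl
      rw [hc, zero_smul, mul_zero] at hinv
      exact zero_ne_one hinv
    -- `r (g * h) = c • r h` is not scalar
    have hgh : r (g * h) = c • r h := by rw [map_mul, hc, smul_mul_assoc, one_mul]
    have hghns : NonScalar (r (g * h)) := by
      intro e he
      apply hh (c⁻¹ * e)
      rw [mul_smul, ← he, hgh, smul_smul, inv_mul_cancel₀ hc0, one_smul]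
    have hrel1 := hq.rel (g * h)
    have hrel2 : r (g * h) * r (g * h) = (c * a h) • r (g * h) - (c ^ 2 * d h) • 1 := by
      rw [hgh, smul_mul_smul_comm, hq.rel h]
      module
    obtain ⟨-, hd⟩ := quad_unique hghns hrel1 hrel2
    rw [hq.d_mul] at hd
    -- `d h ≠ 0`
    have hdh : d h ≠ 0 := by
      intro h0
      have hadj := quad_adj (hq.rel h)
      rw [h0, zero_smul] at hadj
      have hinvh : r h⁻¹ * r h = 1 := by rw [← map_mul, inv_mul_cancel, map_one]
      have : a h • (1 : Module.End K U) - r h = 0 := by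
        have := congrArg (fun z => r h⁻¹ * z) hadj
        simpa only [← mul_assoc, hinvh, one_mul, mul_zero] using this
      exact hh (a h) (sub_eq_zero.1 this).symm
    have hdg : d g = c ^ 2 := mul_right_cancel₀ hdh hd
    -- `α = 2 c`
    have hα2 : α = 2 * c := by
      rw [hc, smul_mul_smul_comm, mul_one, hdg, smul_smul] at hα
      have h' : (c * c) • (1 : Module.End K U) = (α * c - c ^ 2) • 1 := by
        rw [hα, sub_smul]
      have := smul_one_injective (K := K) (U := U) h'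
      have h3 : c * (2 * c - α) = 0 := by linear_combination this
      rcases mul_eq_zero.1 h3 with h4 | h4
      · exact absurd h4 hc0
      · linear_combination -h4
    rw [hc, charpoly_smul_one, h2, hdg, hα2, show (2 * c : K) = c + c by ring]
    simp only [map_add, map_pow]
    ring

end Fermat.Agent.S29.H872

end
-- ===== PACK-END S29/H872/Charpoly.lean

-- ===== PACK-BEGIN Lib/Cheb/H993/Glue.lean
section



/-!
# Piece `M` of CHEB: the finite-level Frobenius density theorem from `Z`, `B0`, `A`, `D`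

`frobFinite : PrimeSumStatement → PrimeCountBoundStatement → CountStatement → FrobStatement →
  FrobFiniteStatement`.
-/

set_option autoImplicit false

namespace Fermat.Agent.Lib.Cheb.H993

open NumberField
open scoped Pointwise Classical
open Fermat.Agent.Lib.Cheb

noncomputable section

variable (L : Type) [Field L] [NumberField L]

/-- The primes of `𝓞 L` above `p` whose decomposition group is exactly `X`. -/
def primesEq (X : Subgroup (L ≃ₐ[ℚ] L)) (p : ℕ) : Set (Ideal (𝓞 L)) :=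
  {P | P.IsPrime ∧ (p : 𝓞 L) ∈ P ∧ Spec.decomp L P = X}

/-- `|D_P|`. -/
def dcard (P : Ideal (𝓞 L)) : ℕ := Nat.card (Spec.decomp L P)

theorem finite_above {p : ℕ} (hp : p ≠ 0) : {P : Ideal (𝓞 L) | (p : 𝓞 L) ∈ P}.Finite := by
  refine (Ideal.finite_setOfPred_absNorm_le (S := 𝓞 L) (p ^ Module.finrank ℤ (𝓞 L))).subset ?_
  intro P hP
  have hle : Ideal.span {(p : 𝓞 L)} ≤ P := (Ideal.span_singleton_le_iff_mem P).mpr hP
  have hdvd := Ideal.absNorm_dvd_absNorm_of_le hle
  rw [Ideal.absNorm_span_natCast] at hdvd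
  exact Nat.le_of_dvd (pow_pos (Nat.pos_of_ne_zero hp) _) hdvd

theorem finite_primesEq (X : Subgroup (L ≃ₐ[ℚ] L)) {p : ℕ} (hp : p ≠ 0) :
    (primesEq L X p).Finite :=
  (finite_above L hp).subset fun _ h => h.2.1

theorem finite_primesLe (H : Subgroup (L ≃ₐ[ℚ] L)) {p : ℕ} (hp : p ≠ 0) :
    (Spec.primesLe L H p).Finite :=
  (finite_above L hp).subset fun _ h => h.2.1

/-- The weight of the subgroup `X` at `p`. -/
def wt (X : Subgroup (L ≃ₐ[ℚ] L)) (p : ℕ) : ℕ := ∑ᶠ P ∈ primesEq L X p, dcard L P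

theorem decompWeight_eq (H : Subgroup (L ≃ₐ[ℚ] L)) (p : ℕ) :
    Spec.decompWeight L H p = ∑ᶠ P ∈ Spec.primesLe L H p, dcard L P := by
  unfold Spec.decompWeight dcard
  exact finsum_set_coe_eq_finsum_mem (s := Spec.primesLe L H p)
    (f := fun P => Nat.card (Spec.decomp L P))

variable [IsGalois ℚ L]

theorem primesLe_eq_iUnion (H : Subgroup (L ≃ₐ[ℚ] L)) (p : ℕ) :
    Spec.primesLe L H p = ⋃ X ∈ (below H : Set (Subgroup (L ≃ₐ[ℚ] L))), primesEq L X p := by
  ext P
  simp only [Spec.primesLe, primesEq, Set.mem_iUnion, Finset.mem_coe, mem_below,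
    Set.mem_ofPred_eq, exists_prop]
  constructor
  · rintro ⟨h1, h2, h3⟩
    exact ⟨_, h3, h1, h2, rfl⟩
  · rintro ⟨X, hX, h1, h2, h3⟩
    exact ⟨h1, h2, h3 ▸ hX⟩

theorem decompWeight_eq_sum (H : Subgroup (L ≃ₐ[ℚ] L)) {p : ℕ} (hp : p ≠ 0) :
    Spec.decompWeight L H p = ∑ X ∈ below H, wt L X p := by
  rw [decompWeight_eq, primesLe_eq_iUnion, finsum_mem_biUnion]
  · exact finsum_mem_coe_finset (fun X => ∑ᶠ P ∈ primesEq L X p, dcard L P) (below H)
  · intro X _ Y _ hXY
    rw [Function.onFun, Set.disjoint_left]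
    intro P hPX hPY
    exact hXY (hPX.2.2.symm.trans hPY.2.2)
  · exact (below H).finite_toSet
  · intro X _
    exact finite_primesEq L X hp

theorem exists_of_wt_pos {X : Subgroup (L ≃ₐ[ℚ] L)} {p : ℕ} (h : 0 < wt L X p) :
    ∃ P : Ideal (𝓞 L), P.IsPrime ∧ (p : 𝓞 L) ∈ P ∧ Spec.decomp L P = X := by
  by_contra hcon
  have hempty : primesEq L X p = ∅ := by
    ext P
    simp only [primesEq, Set.mem_ofPred_eq, Set.mem_empty_iff_false, iff_false]
    exact fun hP => hcon ⟨P, hP⟩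
  unfold wt at h
  rw [hempty] at h
  simp at h

theorem wt_le_decompWeight_top (X : Subgroup (L ≃ₐ[ℚ] L)) {p : ℕ} (hp : p ≠ 0) :
    wt L X p ≤ Spec.decompWeight L ⊤ p := by
  rw [decompWeight_eq_sum L ⊤ hp]
  exact Finset.single_le_sum (f := fun X => wt L X p) (fun _ _ => Nat.zero_le _)
    (mem_below.mpr le_top)

/-- **Piece M.** -/
theorem frobFinite (hZ : Spec.PrimeSumStatement) (hB0 : Spec.PrimeCountBoundStatement)
    (hA : Spec.CountStatement) (hD : Spec.FrobStatement) : Spec.FrobFiniteStatement := by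
  intro L _ _ _ σ S
  haveI : Fintype (Subgroup (L ≃ₐ[ℚ] L)) := Fintype.ofFinite _
  -- bad primes
  choose BA hBA using fun H : Subgroup (L ≃ₐ[ℚ] L) => hA L H
  obtain ⟨BD, hBD⟩ := hD L
  let Bad : Finset ℕ := Finset.univ.biUnion BA
  have hBad : ∀ (H : Subgroup (L ≃ₐ[ℚ] L)) (p : ℕ), p ∉ Bad → p ∉ BA H := by
    intro H p hp hpH
    exact hp (Finset.mem_biUnion.mpr ⟨H, Finset.mem_univ _, hpH⟩)
  -- weights
  let v : Subgroup (L ≃ₐ[ℚ] L) → ℕ → ℝ := fun X p =>
    if p.Prime ∧ p ∉ Bad then (wt L X p : ℝ) else 0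
  let K : ℝ := (Module.finrank ℚ (IntermediateField.fixedField (⊤ : Subgroup (L ≃ₐ[ℚ] L))) : ℝ) *
    (Nat.card (⊤ : Subgroup (L ≃ₐ[ℚ] L)) : ℝ)
  have hv0 : ∀ X p, 0 ≤ v X p := by
    intro X p
    simp only [v]
    split_ifs
    · exact Nat.cast_nonneg _
    · exact le_rfl
  have hK0 : 0 ≤ K := by positivity
  have hvK : ∀ X p, v X p ≤ K := by
    intro X p
    simp only [v]
    split_ifs with h
    · have h1 := wt_le_decompWeight_top L X h.1.ne_zero
      have h2 := hBA ⊤ p h.1 (hBad ⊤ p h.2)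
      have h3 := hB0 (IntermediateField.fixedField (⊤ : Subgroup (L ≃ₐ[ℚ] L))) p
      have h4 : wt L X p ≤ Module.finrank ℚ (IntermediateField.fixedField
          (⊤ : Subgroup (L ≃ₐ[ℚ] L))) * Nat.card (⊤ : Subgroup (L ≃ₐ[ℚ] L)) := by
        rw [← h2] at h1
        exact h1.trans (Nat.mul_le_mul_right _ h3)
      simp only [K]
      exact_mod_cast h4
    · exact hK0
  -- the hypothesis of the induction
  have hW : ∀ H : Subgroup (L ≃ₐ[ℚ] L),
      LogAsymp (pSum (fun p => ∑ X ∈ below H, v X p)) (Nat.card H) := by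
    intro H
    set F := IntermediateField.fixedField H with hF
    obtain ⟨C, hC⟩ := hZ F
    -- full prime sum of `primeCount F`
    have h1 : LogAsymp (pSum (fun p => (Spec.primeCount F p : ℝ))) 1 := by
      refine ⟨C, fun s hs1 hs2 => ?_⟩
      rw [one_mul]
      exact hC s hs1 hs2
    -- the part supported on the bad primes
    let b : ℕ → ℝ := fun p => if p ∈ Bad then (Spec.primeCount F p : ℝ) else 0
    have hb0 : ∀ p, 0 ≤ b p := fun p => by
      simp only [b]; split_ifs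
      · exact Nat.cast_nonneg _
      · exact le_rfl
    have hbK : ∀ p, b p ≤ (Module.finrank ℚ F : ℝ) := fun p => by
      simp only [b]; split_ifs
      · exact_mod_cast hB0 F p
      · exact Nat.cast_nonneg _
    have h2 : LogAsymp (pSum b) 0 :=
      LogAsymp.zero_of_bounded (K := (Module.finrank ℚ F : ℝ) * Bad.card) fun s hs1 _ =>
        abs_pSum_le_of_support Bad hb0 hbK (fun p hp => by simp [b, hp]) hs1
    have h3 := (h1.sub h2).const_mul (Nat.card H : ℝ)
    rw [sub_zero, mul_one] at h3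
    refine h3.congr fun s hs1 _ => ?_
    -- pointwise identity of the coefficients at primes
    have hc0 : ∀ p, 0 ≤ (Spec.primeCount F p : ℝ) := fun p => Nat.cast_nonneg _
    have hcK : ∀ p, (Spec.primeCount F p : ℝ) ≤ (Module.finrank ℚ F : ℝ) := fun p => by
      exact_mod_cast hB0 F p
    have hs1' := summable_pSum hc0 hcK hs1
    have hs2' := summable_pSum hb0 hbK hs1
    unfold pSum
    rw [← Summable.tsum_sub hs1' hs2', ← tsum_mul_left]
    congr 1
    funext p
    by_cases hp : (p : ℕ) ∈ Bad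
    · have hv : ∀ X, v X p = 0 := fun X => by simp [v, hp]
      simp [hv, b, hp]
    · have hv : ∀ X, v X p = (wt L X p : ℝ) := fun X => by simp [v, hp, p.2]
      have h5 := decompWeight_eq_sum L H p.2.ne_zero
      have h6 := hBA H p p.2 (hBad H p hp)
      simp only [hv, b, hp, if_false, sub_zero]
      rw [← Nat.cast_sum, ← h5, ← h6]
      push_cast
      ring
  -- apply the induction to `X = zpowers σ`
  have hgens : 0 < gens (Subgroup.zpowers σ) := by
    unfold gens
    haveI : Nonempty {x : L ≃ₐ[ℚ] L // Subgroup.zpowers x = Subgroup.zpowers σ} := ⟨⟨σ, rfl⟩⟩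
    exact Nat.card_pos
  obtain ⟨p, hp, hpS, hpos⟩ :=
    exists_pos_of_gens_pos v K hv0 hvK hW (Subgroup.zpowers σ) hgens (S ∪ Bad ∪ BD)
  have hpS' : p ∉ S := fun h => hpS (Finset.mem_union_left _ (Finset.mem_union_left _ h))
  have hpBad : p ∉ Bad := fun h => hpS (Finset.mem_union_left _ (Finset.mem_union_right _ h))
  have hpBD : p ∉ BD := fun h => hpS (Finset.mem_union_right _ h)
  have hwt : 0 < wt L (Subgroup.zpowers σ) p := by
    have : v (Subgroup.zpowers σ) p = (wt L (Subgroup.zpowers σ) p : ℝ) := by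
      simp [v, hp, hpBad]
    rw [this] at hpos
    exact_mod_cast hpos
  obtain ⟨P, hP, hpP, hdec⟩ := exists_of_wt_pos L hwt
  obtain ⟨hin, τ, hτ, hτd⟩ := hBD p hp hpBD P hP hpP
  exact ⟨p, P, τ, hp, hpS', hP, hpP, hin, hτ, hτd.symm.trans hdec⟩

end

end Fermat.Agent.Lib.Cheb.H993

end
-- ===== PACK-END Lib/Cheb/H993/Glue.lean

-- ===== PACK-BEGIN S29/H149/HCoh.lean
section


/-!
# S29 layer M, piece `HCoh` (helper149)

For a prime `ℓ ∤ N` the factorisation `α_i γ = γ'_i α_{π(i)}` (`heckeFac`) exists, is unique,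
permutes the index set and satisfies the cocycle rule; hence the cohomological Hecke operator
`heckeCoh` preserves parabolic characters (`IsParHom`): additivity is the transfer computation,
vanishing on parabolic / finite-order elements is the cycle argument (the product of the `γ'_i`
over a cycle of `π` is conjugate to a power of `γ`), done over the orbits of `π` so that it is
valid with torsion coefficients (`A = ZMod p`).

Main results: `isParHom_heckeCoh` (the piece), `HCoh_isFactorSystem`, `HCoh_heckeFac_spec`,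
`HCoh_heckeFac_unique`, `HCoh_exists_factor`, `HCoh_factor_unique`, `HCoh_perm`,
`HCoh_transfer_mul`, `HCoh_transfer_eq_zero`, `HCoh_sum_eq_zero_of_orbits`.
-/

set_option autoImplicit false

namespace Fermat.Agent.S29.H149

open Fermat.Agent.S29
open scoped MatrixGroups

/-! ### A combinatorial lemma: sums over the orbits of a permutation -/

theorem HCoh_sum_eq_zero_of_orbits {ι : Type*} [Fintype ι] [DecidableEq ι] {A : Type*}
    [AddCommMonoid A] (σ : Equiv.Perm ι) (f : ι → A)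
    (h : ∀ i : ι, ∀ r : ℕ, 0 < r → (σ ^ r) i = i → ∑ k ∈ Finset.range r, f ((σ ^ k) i) = 0) :
    ∑ i, f i = 0 := by
  suffices H : ∀ n : ℕ, ∀ s : Finset ι, s.card = n → (∀ i ∈ s, σ i ∈ s) → ∑ i ∈ s, f i = 0 from
    H _ Finset.univ rfl (fun i _ => Finset.mem_univ _)
  intro n
  induction n using Nat.strong_induction_on with
  | _ n ih =>
    intro s hs hinv
    rcases s.eq_empty_or_nonempty with rfl | ⟨i₀, hi₀⟩
    · simp
    · have hpow : ∀ k : ℕ, (σ ^ k) i₀ ∈ s := by
        intro k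
        induction k with
        | zero => simpa using hi₀
        | succ k ihk =>
          rw [pow_succ', Equiv.Perm.mul_apply]
          exact hinv _ ihk
      have hper : i₀ ∈ Function.periodicPts σ := by
        refine Function.mk_mem_periodicPts (orderOf_pos σ) ?_
        show σ^[orderOf σ] i₀ = i₀
        rw [Equiv.Perm.iterate_eq_pow, pow_orderOf_eq_one]
        rfl
      set r := Function.minimalPeriod σ i₀ with hr
      have hrpos : 0 < r := Function.minimalPeriod_pos_of_mem_periodicPts hper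
      have hfix : (σ ^ r) i₀ = i₀ := by
        have := Function.isPeriodicPt_minimalPeriod σ i₀
        rw [← Equiv.Perm.iterate_eq_pow]
        exact this
      set O : Finset ι := (Finset.range r).image (fun k => (σ ^ k) i₀) with hO
      have hOs : O ⊆ s := by
        intro x hx
        rw [hO, Finset.mem_image] at hx
        obtain ⟨k, -, rfl⟩ := hx
        exact hpow k
      have hOne : O.Nonempty :=
        ⟨i₀, Finset.mem_image.mpr ⟨0, Finset.mem_range.mpr hrpos, by simp⟩⟩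
      have hsumO : ∑ i ∈ O, f i = 0 := by
        rw [hO, Finset.sum_image]
        · exact h i₀ r hrpos hfix
        · intro a ha b hb hab
          rw [Finset.coe_range, Set.mem_Iio] at ha hb
          simp only [← Equiv.Perm.iterate_eq_pow] at hab
          exact (Function.iterate_eq_iterate_iff_of_lt_minimalPeriod ha hb).mp hab
      have hinv' : ∀ i ∈ s \ O, σ i ∈ s \ O := by
        intro i hi
        rw [Finset.mem_sdiff] at hi ⊢
        refine ⟨hinv i hi.1, fun hσ => hi.2 ?_⟩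
        rw [hO, Finset.mem_image] at hσ
        obtain ⟨k, hk, hk'⟩ := hσ
        rw [Finset.mem_range] at hk
        have key : ∃ m, m < r ∧ (σ ^ (m + 1)) i₀ = σ i := by
          rcases Nat.eq_zero_or_pos k with rfl | hkpos
          · refine ⟨r - 1, by omega, ?_⟩
            rw [Nat.sub_add_cancel hrpos, hfix, ← hk']
            simp
          · refine ⟨k - 1, by omega, ?_⟩
            rw [Nat.sub_add_cancel hkpos, hk']
        obtain ⟨m, hm, hm'⟩ := key
        rw [pow_succ', Equiv.Perm.mul_apply] at hm'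
        have := σ.injective hm'
        rw [hO, Finset.mem_image]
        exact ⟨m, Finset.mem_range.mpr hm, this⟩
      have hcard : (s \ O).card < n := by
        rw [← hs]
        exact Finset.card_lt_card (Finset.sdiff_ssubset hOs hOne)
      have := ih _ hcard (s \ O) rfl hinv'
      rw [← Finset.sum_sdiff hOs, this, hsumO, add_zero]

/-! ### Abstract factor systems -/

section abstract

variable {Γ : Type*} [Group Γ] {ι : Type*}

/-- A "factor system": `fac γ i = (π_γ i, γ'_i)` with the cocycle rule. -/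
structure HCoh_IsFactorSystem (fac : Γ → ι → ι × Γ) : Prop where
  one : ∀ i, fac 1 i = (i, 1)
  mul : ∀ γ δ i, fac (γ * δ) i = ((fac δ (fac γ i).1).1, (fac γ i).2 * (fac δ (fac γ i).1).2)

variable {fac : Γ → ι → ι × Γ}

/-- The permutation of the index set attached to `γ`. -/
def HCoh_perm (hf : HCoh_IsFactorSystem fac) (γ : Γ) : Equiv.Perm ι where
  toFun i := (fac γ i).1
  invFun i := (fac γ⁻¹ i).1
  left_inv i := by
    have := hf.mul γ γ⁻¹ i
    rw [mul_inv_cancel, hf.one] at this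
    exact (congrArg Prod.fst this).symm
  right_inv i := by
    have := hf.mul γ⁻¹ γ i
    rw [inv_mul_cancel, hf.one] at this
    exact (congrArg Prod.fst this).symm

@[simp] theorem HCoh_perm_apply (hf : HCoh_IsFactorSystem fac) (γ : Γ) (i : ι) :
    HCoh_perm hf γ i = (fac γ i).1 := rfl

theorem HCoh_pow_fst (hf : HCoh_IsFactorSystem fac) (γ : Γ) (n : ℕ) (i : ι) :
    (fac (γ ^ n) i).1 = (HCoh_perm hf γ ^ n) i := by
  induction n with
  | zero => simp [hf.one]
  | succ n ih =>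
    rw [pow_succ, hf.mul, pow_succ', Equiv.Perm.mul_apply, ← ih]
    rfl

theorem HCoh_map_one {A : Type*} [AddCommGroup A] {c : Γ → A}
    (hc : ∀ γ δ, c (γ * δ) = c γ + c δ) : c 1 = 0 := by
  have := hc 1 1
  rw [mul_one] at this
  exact (add_eq_left.mp this.symm)

theorem HCoh_map_pow_snd (hf : HCoh_IsFactorSystem fac) {A : Type*} [AddCommGroup A] {c : Γ → A}
    (hc : ∀ γ δ, c (γ * δ) = c γ + c δ) (γ : Γ) (n : ℕ) (i : ι) :
    c (fac (γ ^ n) i).2 = ∑ k ∈ Finset.range n, c (fac γ ((HCoh_perm hf γ ^ k) i)).2 := by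
  induction n with
  | zero => simp [hf.one, HCoh_map_one hc]
  | succ n ih =>
    rw [pow_succ, hf.mul, Finset.sum_range_succ, ← ih, hc, HCoh_pow_fst hf]

theorem HCoh_pow_of_fixed (hf : HCoh_IsFactorSystem fac) (g : Γ) (i : ι) (hi : (fac g i).1 = i)
    (m : ℕ) : fac (g ^ m) i = (i, (fac g i).2 ^ m) := by
  induction m with
  | zero => simp [hf.one]
  | succ m ih =>
    rw [pow_succ, hf.mul, ih]
    simp only
    rw [hi, pow_succ]

/-- Additivity of the transfer. -/
theorem HCoh_transfer_mul [Fintype ι] (hf : HCoh_IsFactorSystem fac) {A : Type*}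
    [AddCommGroup A] {c : Γ → A} (hc : ∀ γ δ, c (γ * δ) = c γ + c δ) (γ δ : Γ) :
    ∑ i, c (fac (γ * δ) i).2 = ∑ i, c (fac γ i).2 + ∑ i, c (fac δ i).2 := by
  simp only [hf.mul, hc, Finset.sum_add_distrib]
  congr 1
  exact Equiv.sum_comp (HCoh_perm hf γ) (fun j => c (fac δ j).2)

/-- Vanishing of the transfer on a class `Z` of elements stable under "cycle products". -/
theorem HCoh_transfer_eq_zero [Fintype ι] (hf : HCoh_IsFactorSystem fac) {A : Type*}
    [AddCommGroup A] {c : Γ → A} (hc : ∀ γ δ, c (γ * δ) = c γ + c δ) (Z : Γ → Prop)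
    (hZ : ∀ γ, Z γ → c γ = 0)
    (hclosed : ∀ γ, Z γ → ∀ r : ℕ, 0 < r → ∀ i, (fac (γ ^ r) i).1 = i → Z (fac (γ ^ r) i).2)
    (γ : Γ) (hγ : Z γ) : ∑ i, c (fac γ i).2 = 0 := by
  classical
  refine HCoh_sum_eq_zero_of_orbits (HCoh_perm hf γ) (fun i => c (fac γ i).2) ?_
  intro i r hr hfix
  rw [← HCoh_map_pow_snd hf hc]
  refine hZ _ (hclosed γ hγ r hr i ?_)
  rw [HCoh_pow_fst hf]
  exact hfix

/-- Cycle products of elements of finite order have finite order. -/
theorem HCoh_finite_order_closed (hf : HCoh_IsFactorSystem fac) (γ : Γ) (n : ℕ) (hn : γ ^ n = 1)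
    (r : ℕ) (i : ι) (hi : (fac (γ ^ r) i).1 = i) : (fac (γ ^ r) i).2 ^ n = 1 := by
  have h1 := HCoh_pow_of_fixed hf (γ ^ r) i hi n
  rw [← pow_mul, mul_comm, pow_mul, hn, one_pow, hf.one] at h1
  exact (congrArg Prod.snd h1).symm

end abstract

/-! ### Integer matrices of elements of `Γ₀(N)` -/

section mat

variable {N : ℕ}

theorem HCoh_mat_one : (1 : G0 N).mat = 1 := rfl

theorem HCoh_mat_mul (γ γ' : G0 N) : (γ * γ').mat = γ.mat * γ'.mat := rfl

theorem HCoh_mat_pow (γ : G0 N) (n : ℕ) : (γ ^ n).mat = γ.mat ^ n := by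
  induction n with
  | zero => simp [HCoh_mat_one]
  | succ n ih => rw [pow_succ, pow_succ, HCoh_mat_mul, ih]

theorem HCoh_mat_det (γ : G0 N) : γ.mat.det = 1 := (γ : SL(2, ℤ)).2

theorem HCoh_mat_det' (γ : G0 N) : γ.mat 0 0 * γ.mat 1 1 - γ.mat 0 1 * γ.mat 1 0 = 1 := by
  rw [← Matrix.det_fin_two, HCoh_mat_det]

theorem HCoh_mat_injective :
    Function.Injective (G0.mat : G0 N → Matrix (Fin 2) (Fin 2) ℤ) := by
  intro γ γ' h
  apply Subtype.ext
  apply Subtype.ext
  exact h

theorem HCoh_mat_dvd (γ : G0 N) : (N : ℤ) ∣ γ.mat 1 0 := by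
  have := CongruenceSubgroup.Gamma0_mem.mp γ.2
  exact (ZMod.intCast_zmod_eq_zero_iff_dvd _ _).mp this

/-- Build an element of `Γ₀(N)` from an integer matrix. -/
def HCoh_mk (M : Matrix (Fin 2) (Fin 2) ℤ) (hdet : M.det = 1) (hN : (N : ℤ) ∣ M 1 0) : G0 N :=
  ⟨⟨M, hdet⟩, CongruenceSubgroup.Gamma0_mem.mpr ((ZMod.intCast_zmod_eq_zero_iff_dvd _ _).mpr hN)⟩

@[simp] theorem HCoh_mk_mat (M : Matrix (Fin 2) (Fin 2) ℤ) (hdet : M.det = 1)
    (hN : (N : ℤ) ∣ M 1 0) : (HCoh_mk M hdet hN : G0 N).mat = M := rfl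

theorem HCoh_heckeRep_det {ℓ : ℕ} (i : Option (Fin ℓ)) : (heckeRep ℓ i).det = ℓ := by
  cases i <;> simp [heckeRep, Matrix.det_fin_two]

/-- Existence of the factorisation `M = γ' * α_j` for `det M = ℓ`, `N ∣ M₁₀`. -/
theorem HCoh_exists_factor {ℓ : ℕ} (hℓ : ℓ.Prime) (hℓN : ¬ ℓ ∣ N)
    (M : Matrix (Fin 2) (Fin 2) ℤ) (hdet : M.det = ℓ) (hN : (N : ℤ) ∣ M 1 0) :
    ∃ q : Option (Fin ℓ) × G0 N, M = q.2.mat * heckeRep ℓ q.1 := by
  have : Fact ℓ.Prime := ⟨hℓ⟩
  have hd : M 0 0 * M 1 1 - M 0 1 * M 1 0 = ℓ := by rw [← hdet, Matrix.det_fin_two]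
  have hℓ0 : (ℓ : ℤ) ≠ 0 := by exact_mod_cast hℓ.ne_zero
  by_cases h0 : (ℓ : ℤ) ∣ M 0 0 ∧ (ℓ : ℤ) ∣ M 1 0
  · obtain ⟨⟨a', ha'⟩, ⟨c', hc'⟩⟩ := h0
    have hdet' : (!![a', M 0 1; c', M 1 1] : Matrix (Fin 2) (Fin 2) ℤ).det = 1 := by
      rw [Matrix.det_fin_two_of]
      apply mul_left_cancel₀ hℓ0
      rw [ha', hc'] at hd
      linear_combination hd
    have hN' : (N : ℤ) ∣ (!![a', M 0 1; c', M 1 1] : Matrix (Fin 2) (Fin 2) ℤ) 1 0 := by
      have hcop : IsCoprime (N : ℤ) (ℓ : ℤ) := by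
        rw [Int.isCoprime_iff_gcd_eq_one, Int.gcd_natCast_natCast]
        exact Nat.Coprime.symm ((Nat.Prime.coprime_iff_not_dvd hℓ).mpr hℓN)
      have : (N : ℤ) ∣ (ℓ : ℤ) * c' := hc' ▸ hN
      simpa using hcop.dvd_of_dvd_mul_left this
    refine ⟨(none, HCoh_mk _ hdet' hN'), ?_⟩
    ext i j
    fin_cases i <;> fin_cases j <;>
      simp [heckeRep, Matrix.mul_apply, Fin.sum_univ_two, ha', hc', mul_comm]
  · -- find `k` with `M₀₁ ≡ k M₀₀`, `M₁₁ ≡ k M₁₀` mod `ℓ`
    have hdz : ((M 0 0 : ℤ) : ZMod ℓ) * (M 1 1 : ℤ) - (M 0 1 : ℤ) * (M 1 0 : ℤ) = 0 := by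
      have := congrArg (Int.cast : ℤ → ZMod ℓ) hd
      push_cast at this
      rw [this]
      simp
    have hk : ∃ k : ZMod ℓ, ((M 0 1 : ℤ) : ZMod ℓ) = (M 0 0 : ℤ) * k ∧
        ((M 1 1 : ℤ) : ZMod ℓ) = (M 1 0 : ℤ) * k := by
      by_cases ha : ((M 0 0 : ℤ) : ZMod ℓ) = 0
      · have hc : ((M 1 0 : ℤ) : ZMod ℓ) ≠ 0 := by
          intro hc
          exact h0 ⟨(ZMod.intCast_zmod_eq_zero_iff_dvd _ _).mp ha,
            (ZMod.intCast_zmod_eq_zero_iff_dvd _ _).mp hc⟩
        refine ⟨(M 1 1 : ℤ) / (M 1 0 : ℤ), ?_, ?_⟩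
        · rw [ha, zero_mul]
          rw [ha, zero_mul, zero_sub, neg_eq_zero] at hdz
          exact (mul_eq_zero.mp hdz).resolve_right hc
        · field_simp
      · refine ⟨(M 0 1 : ℤ) / (M 0 0 : ℤ), ?_, ?_⟩
        · field_simp
        · field_simp
          linear_combination hdz
    obtain ⟨k, hk1, hk2⟩ := hk
    obtain ⟨kv, hkv, h1, h2⟩ : ∃ kv : ℕ, kv < ℓ ∧ (ℓ : ℤ) ∣ M 0 1 - M 0 0 * (kv : ℤ) ∧
        (ℓ : ℤ) ∣ M 1 1 - M 1 0 * (kv : ℤ) := by
      refine ⟨k.val, ZMod.val_lt k, ?_, ?_⟩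
      · rw [← ZMod.intCast_zmod_eq_zero_iff_dvd]
        push_cast
        rw [ZMod.natCast_zmod_val, hk1, sub_self]
      · rw [← ZMod.intCast_zmod_eq_zero_iff_dvd]
        push_cast
        rw [ZMod.natCast_zmod_val, hk2, sub_self]
    obtain ⟨b', hb'⟩ := h1
    obtain ⟨d', hd'⟩ := h2
    have hdet' : (!![M 0 0, b'; M 1 0, d'] : Matrix (Fin 2) (Fin 2) ℤ).det = 1 := by
      rw [Matrix.det_fin_two_of]
      apply mul_left_cancel₀ hℓ0
      linear_combination hd - M 0 0 * hd' + M 1 0 * hb'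
    have hN' : (N : ℤ) ∣ (!![M 0 0, b'; M 1 0, d'] : Matrix (Fin 2) (Fin 2) ℤ) 1 0 := by
      simpa using hN
    refine ⟨(some ⟨kv, hkv⟩, HCoh_mk _ hdet' hN'), ?_⟩
    ext i j
    fin_cases i <;> fin_cases j
    · simp [heckeRep, Matrix.mul_apply, Fin.sum_univ_two]
    · simp [heckeRep, Matrix.mul_apply, Fin.sum_univ_two]
      linear_combination hb'
    · simp [heckeRep, Matrix.mul_apply, Fin.sum_univ_two]
    · simp [heckeRep, Matrix.mul_apply, Fin.sum_univ_two]
      linear_combination hd'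

end mat

section unique

variable {N : ℕ}

theorem HCoh_mul_right_cancel {A : Matrix (Fin 2) (Fin 2) ℤ} (hA : A.det ≠ 0)
    {X Y : Matrix (Fin 2) (Fin 2) ℤ} (h : X * A = Y * A) : X = Y := by
  have h2 := congrArg (· * A.adjugate) h
  simp only [Matrix.mul_assoc, Matrix.mul_adjugate, Matrix.mul_smul, Matrix.mul_one] at h2
  ext i j
  have h3 := congrFun (congrFun h2 i) j
  simp only [Matrix.smul_apply, smul_eq_mul] at h3
  exact mul_left_cancel₀ hA h3

/-- Uniqueness of the factorisation. -/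
theorem HCoh_factor_unique {ℓ : ℕ} (hℓ : ℓ.Prime) {i j : Option (Fin ℓ)} {γ γ' : G0 N}
    (h : γ.mat * heckeRep ℓ i = γ'.mat * heckeRep ℓ j) : i = j ∧ γ = γ' := by
  have hℓ0 : (ℓ : ℤ) ≠ 0 := by exact_mod_cast hℓ.ne_zero
  have hℓp : Prime (ℓ : ℤ) := Nat.prime_iff_prime_int.mp hℓ
  have hnd : ¬ (ℓ : ℤ) ∣ 1 := fun h1 => hℓp.not_isUnit (isUnit_of_dvd_one h1)
  have hγ := HCoh_mat_det' γ
  have hγ' := HCoh_mat_det' γ'
  have e00 := congrFun (congrFun h 0) 0
  have e01 := congrFun (congrFun h 0) 1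
  have e10 := congrFun (congrFun h 1) 0
  have e11 := congrFun (congrFun h 1) 1
  have hij : i = j := by
    rcases i with _ | k <;> rcases j with _ | k'
    · rfl
    · exfalso
      simp [heckeRep, Matrix.mul_apply, Fin.sum_univ_two] at e00 e10
      apply hnd
      refine ⟨γ.mat 0 0 * γ'.mat 1 1 - γ'.mat 0 1 * γ.mat 1 0, ?_⟩
      rw [← e00, ← e10] at hγ'
      linear_combination -hγ'
    · exfalso
      simp [heckeRep, Matrix.mul_apply, Fin.sum_univ_two] at e00 e10
      apply hnd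
      refine ⟨γ'.mat 0 0 * γ.mat 1 1 - γ.mat 0 1 * γ'.mat 1 0, ?_⟩
      rw [e00, e10] at hγ
      linear_combination -hγ
    · simp [heckeRep, Matrix.mul_apply, Fin.sum_univ_two] at e00 e01 e10 e11
      by_contra hne
      have hkk : (k : ℕ) ≠ (k' : ℕ) := fun hk => hne (by rw [Fin.ext hk])
      have hnd' : ¬ (ℓ : ℤ) ∣ ((k : ℕ) : ℤ) - ((k' : ℕ) : ℤ) := by
        intro hd
        have hlt : |((k : ℕ) : ℤ) - ((k' : ℕ) : ℤ)| < (ℓ : ℤ) := by
          have h1 := k.2
          have h2 := k'.2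
          rw [abs_lt]
          constructor <;> omega
        have := Int.eq_zero_of_abs_lt_dvd hd hlt
        apply hkk
        omega
      have ha : (ℓ : ℤ) ∣ γ.mat 0 0 := by
        have : (ℓ : ℤ) ∣ γ.mat 0 0 * (((k : ℕ) : ℤ) - ((k' : ℕ) : ℤ)) := by
          refine ⟨γ'.mat 0 1 - γ.mat 0 1, ?_⟩
          rw [← e00] at e01
          linear_combination e01
        exact (hℓp.dvd_or_dvd this).resolve_right hnd'
      have hc : (ℓ : ℤ) ∣ γ.mat 1 0 := by
        have : (ℓ : ℤ) ∣ γ.mat 1 0 * (((k : ℕ) : ℤ) - ((k' : ℕ) : ℤ)) := by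
          refine ⟨γ'.mat 1 1 - γ.mat 1 1, ?_⟩
          rw [← e10] at e11
          linear_combination e11
        exact (hℓp.dvd_or_dvd this).resolve_right hnd'
      apply hnd
      rw [← hγ]
      exact dvd_sub (Dvd.dvd.mul_right ha _) (Dvd.dvd.mul_left hc _)
  subst hij
  refine ⟨rfl, HCoh_mat_injective (HCoh_mul_right_cancel ?_ h)⟩
  rw [HCoh_heckeRep_det]
  exact hℓ0

theorem HCoh_exists_isHeckeFactor {ℓ : ℕ} (hℓ : ℓ.Prime) (hℓN : ¬ ℓ ∣ N) (γ : G0 N)
    (i : Option (Fin ℓ)) : ∃ q : Option (Fin ℓ) × G0 N, IsHeckeFactor ℓ γ i q := by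
  refine HCoh_exists_factor hℓ hℓN (heckeRep ℓ i * γ.mat) ?_ ?_
  · rw [Matrix.det_mul, HCoh_heckeRep_det, HCoh_mat_det, mul_one]
  · have := HCoh_mat_dvd γ
    rcases i with _ | k
    · simpa [heckeRep, Matrix.mul_apply, Fin.sum_univ_two] using this
    · simpa [heckeRep, Matrix.mul_apply, Fin.sum_univ_two] using Dvd.dvd.mul_left this _

theorem HCoh_heckeFac_spec {ℓ : ℕ} (hℓ : ℓ.Prime) (hℓN : ¬ ℓ ∣ N) (γ : G0 N)
    (i : Option (Fin ℓ)) : IsHeckeFactor ℓ γ i (heckeFac N ℓ γ i) := by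
  unfold heckeFac
  rw [dif_pos (HCoh_exists_isHeckeFactor hℓ hℓN γ i)]
  exact Classical.choose_spec (HCoh_exists_isHeckeFactor hℓ hℓN γ i)

theorem HCoh_heckeFac_unique {ℓ : ℕ} (hℓ : ℓ.Prime) (hℓN : ¬ ℓ ∣ N) {γ : G0 N}
    {i : Option (Fin ℓ)} {q : Option (Fin ℓ) × G0 N} (h : IsHeckeFactor ℓ γ i q) :
    heckeFac N ℓ γ i = q := by
  have h' := HCoh_heckeFac_spec hℓ hℓN γ i
  unfold IsHeckeFactor at h h'
  obtain ⟨h1, h2⟩ := HCoh_factor_unique hℓ (h'.symm.trans h)
  exact Prod.ext h1 h2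

theorem HCoh_isFactorSystem {ℓ : ℕ} (hℓ : ℓ.Prime) (hℓN : ¬ ℓ ∣ N) :
    HCoh_IsFactorSystem (heckeFac N ℓ) where
  one i := by
    apply HCoh_heckeFac_unique hℓ hℓN
    unfold IsHeckeFactor
    simp [HCoh_mat_one]
  mul γ δ i := by
    apply HCoh_heckeFac_unique hℓ hℓN
    have h1 := HCoh_heckeFac_spec hℓ hℓN γ i
    have h2 := HCoh_heckeFac_spec hℓ hℓN δ (heckeFac N ℓ γ i).1
    unfold IsHeckeFactor at h1 h2 ⊢
    simp only [HCoh_mat_mul]
    rw [← Matrix.mul_assoc, h1, Matrix.mul_assoc, h2, Matrix.mul_assoc]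

end unique

/-! ### Traces -/

section trace

theorem HCoh_trace_eq_of_conj {A G D : Matrix (Fin 2) (Fin 2) ℤ} (hA : A.det ≠ 0)
    (h : A * G = D * A) : G.trace = D.trace := by
  have h1 : (A.adjugate * (A * G)).trace = A.det * G.trace := by
    rw [← Matrix.mul_assoc, Matrix.adjugate_mul, Matrix.smul_mul, Matrix.one_mul,
      Matrix.trace_smul, smul_eq_mul]
  have h2 : (A.adjugate * (D * A)).trace = A.det * D.trace := by
    rw [Matrix.trace_mul_comm, Matrix.mul_assoc, Matrix.mul_adjugate, Matrix.mul_smul,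
      Matrix.mul_one, Matrix.trace_smul, smul_eq_mul]
  rw [h, h2] at h1
  exact (mul_left_cancel₀ hA h1).symm

theorem HCoh_sq_eq {G : Matrix (Fin 2) (Fin 2) ℤ} (hdet : G.det = 1) :
    G * G = G.trace • G - 1 := by
  rw [Matrix.det_fin_two] at hdet
  ext i j
  rw [Matrix.sub_apply, Matrix.smul_apply, Matrix.trace_fin_two, Matrix.mul_apply,
    Fin.sum_univ_two, smul_eq_mul]
  fin_cases i <;> fin_cases j
  · simp only [Fin.zero_eta, Fin.isValue, Matrix.one_apply_eq]
    linear_combination (-1 : ℤ) * hdet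
  · simp only [Fin.zero_eta, Fin.isValue, Fin.mk_one, ne_eq, zero_ne_one, not_false_eq_true,
      Matrix.one_apply_ne, sub_zero]
    ring
  · simp only [Fin.mk_one, Fin.isValue, Fin.zero_eta, ne_eq, one_ne_zero, not_false_eq_true,
      Matrix.one_apply_ne, sub_zero]
    ring
  · simp only [Fin.mk_one, Fin.isValue, Matrix.one_apply_eq]
    linear_combination (-1 : ℤ) * hdet

theorem HCoh_trace_pow_rec {G : Matrix (Fin 2) (Fin 2) ℤ} (hdet : G.det = 1) (n : ℕ) :
    (G ^ (n + 2)).trace = G.trace * (G ^ (n + 1)).trace - (G ^ n).trace := by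
  have : G ^ (n + 2) = G.trace • G ^ (n + 1) - G ^ n := by
    rw [pow_add, pow_two, HCoh_sq_eq hdet, mul_sub, mul_one, Matrix.mul_smul, ← pow_succ]
  rw [this, Matrix.trace_sub, Matrix.trace_smul, smul_eq_mul]

theorem HCoh_trace_pow {G : Matrix (Fin 2) (Fin 2) ℤ} (hdet : G.det = 1)
    (ht : G.trace = 2 ∨ G.trace = -2) (r : ℕ) :
    (G ^ r).trace = 2 ∨ (G ^ r).trace = -2 := by
  have key : ∀ n : ℕ, ((G ^ n).trace = 2 ∨ (G ^ n).trace = -2) ∧
      ((G ^ (n + 1)).trace = G.trace * (G ^ n).trace / 2) := by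
    intro n
    induction n with
    | zero =>
      refine ⟨Or.inl (by simp), ?_⟩
      simp
    | succ n ih =>
      obtain ⟨ih1, ih2⟩ := ih
      have hrec := HCoh_trace_pow_rec hdet n
      rcases ht with ht | ht <;> rcases ih1 with ih1 | ih1 <;>
        rw [ht, ih1] at ih2 <;> norm_num at ih2 <;>
        rw [ht, ih1, ih2] at hrec <;> norm_num at hrec <;>
        rw [ht, ih2, hrec] <;> norm_num
  exact (key r).1

end trace

/-! ### The piece `HCoh` -/

theorem isParHom_heckeCoh {N : ℕ} {ℓ : ℕ} (hℓ : ℓ.Prime) (hℓN : ¬ ℓ ∣ N) {A : Type*}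
    [AddCommGroup A] {c : G0 N → A} (hc : IsParHom c) : IsParHom (heckeCoh N ℓ c) := by
  have hf := HCoh_isFactorSystem (N := N) hℓ hℓN
  have hℓ0 : (ℓ : ℤ) ≠ 0 := by exact_mod_cast hℓ.ne_zero
  refine ⟨?_, ?_, ?_⟩
  · intro γ γ'
    exact HCoh_transfer_mul hf hc.map_mul γ γ'
  · intro γ hγ
    refine HCoh_transfer_eq_zero hf hc.map_mul
      (fun γ : G0 N => γ.mat.trace = 2 ∨ γ.mat.trace = -2) hc.parabolic ?_ γ hγ
    intro γ hγ r _ i hi
    have h1 := HCoh_heckeFac_spec hℓ hℓN (γ ^ r) i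
    unfold IsHeckeFactor at h1
    rw [hi] at h1
    have h2 := HCoh_trace_eq_of_conj (by rw [HCoh_heckeRep_det]; exact hℓ0) h1
    show (heckeFac N ℓ (γ ^ r) i).2.mat.trace = 2 ∨ (heckeFac N ℓ (γ ^ r) i).2.mat.trace = -2
    rw [← h2, HCoh_mat_pow]
    exact HCoh_trace_pow (HCoh_mat_det γ) hγ r
  · intro γ n hn hγn
    refine HCoh_transfer_eq_zero hf hc.map_mul
      (fun γ : G0 N => ∃ n : ℕ, 0 < n ∧ γ ^ n = 1) (fun γ ⟨n, hn, h⟩ => hc.elliptic γ n hn h)
      ?_ γ ⟨n, hn, hγn⟩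
    rintro γ ⟨n, hn, hγn⟩ r _ i hi
    exact ⟨n, hn, HCoh_finite_order_closed hf γ n hγn r i hi⟩

end Fermat.Agent.S29.H149

end
-- ===== PACK-END S29/H149/HCoh.lean

-- ===== PACK-BEGIN S21/H381/Parabolic.lean
section




/-!
# S21, piece B: periods of cusp forms are parabolic homomorphisms
-/

set_option autoImplicit false

namespace Fermat.Agent.S21.H381

open CongruenceSubgroup ModularCurve ModularCurve.Period Filter Topology Function Complex
open UpperHalfPlane hiding I
open scoped Manifold MatrixGroups ModularForm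

/-- An element of `SL(2, ℤ)` with `trace ^ 2 = 4` is conjugate (as a Möbius transformation)
to a translation `T ^ n`. -/
theorem exists_conj_T_zpow (γ : SL(2, ℤ))
    (htr : ((γ : Matrix (Fin 2) (Fin 2) ℤ).trace) ^ 2 = 4) :
    ∃ δ : SL(2, ℤ), ∃ n : ℤ, ∀ w : ℍ, γ • (δ • w) = δ • (ModularGroup.T ^ n • w) := by
  have hdet := γ.det_coe
  rw [Matrix.det_fin_two] at hdet
  rw [Matrix.trace_fin_two] at htr
  by_cases hc : γ 1 0 = 0
  · obtain ⟨n, hn⟩ := ModularGroup.exists_eq_T_zpow_of_c_eq_zero hc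
    exact ⟨1, n, fun w => by simp [hn]⟩
  · set a := γ 0 0 with ha
    set b := γ 0 1 with hb
    set c := γ 1 0 with hc'
    set d := γ 1 1 with hd
    set g : ℤ := (Int.gcd (a - d) (2 * c) : ℤ) with hg
    have hg0 : g ≠ 0 := by
      rw [hg]
      intro h
      have h2 : Int.gcd (a - d) (2 * c) = 0 := by exact_mod_cast h
      rw [Int.gcd_eq_zero_iff] at h2
      have : c = 0 := by omega
      exact hc this
    have hga : g ∣ (a - d) := Int.gcd_dvd_left _ _
    have hgc : g ∣ (2 * c) := Int.gcd_dvd_right _ _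
    obtain ⟨p, hp⟩ := hga
    obtain ⟨q, hq⟩ := hgc
    have hcop : IsCoprime p q := by
      have hbez := Int.gcd_eq_gcd_ab (a - d) (2 * c)
      rw [← hg] at hbez
      refine ⟨Int.gcdA (a - d) (2 * c), Int.gcdB (a - d) (2 * c), ?_⟩
      have : g * (Int.gcdA (a - d) (2 * c) * p + Int.gcdB (a - d) (2 * c) * q) = g * 1 := by
        have e1 : g * p = a - d := hp.symm
        have e2 : g * q = 2 * c := hq.symm
        calc g * (Int.gcdA (a - d) (2 * c) * p + Int.gcdB (a - d) (2 * c) * q)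
            = (g * p) * Int.gcdA (a - d) (2 * c) + (g * q) * Int.gcdB (a - d) (2 * c) := by ring
          _ = g := by rw [e1, e2]; exact hbez.symm
          _ = g * 1 := (mul_one g).symm
      exact mul_left_cancel₀ hg0 this
    obtain ⟨δ, hδ0, hδ1⟩ := hcop.exists_SL2_col 0
    have hδdet := δ.det_coe
    rw [Matrix.det_fin_two, hδ0, hδ1] at hδdet
    have hM : (δ⁻¹ * γ * δ) 1 0 = 0 := by
      have hQ : g ^ 2 * (c * p ^ 2 + (d - a) * p * q - b * q ^ 2) = 0 := by
        have e1 : g * p = a - d := hp.symm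
        have e2 : g * q = 2 * c := hq.symm
        have : g ^ 2 * (c * p ^ 2 + (d - a) * p * q - b * q ^ 2)
            = c * (g * p) ^ 2 + (d - a) * (g * p) * (g * q) - b * (g * q) ^ 2 := by ring
        rw [this, e1, e2]
        have h4 : (a + d) ^ 2 = 4 := htr
        have h1 : a * d - b * c = 1 := hdet
        linear_combination (-c) * h4 + (4 * c) * h1
      have hQ' : c * p ^ 2 + (d - a) * p * q - b * q ^ 2 = 0 := by
        rcases mul_eq_zero.mp hQ with h | h
        · exact absurd (pow_eq_zero_iff two_ne_zero |>.mp h) hg0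
        · exact h
      simp only [Matrix.SpecialLinearGroup.coe_mul, Matrix.SpecialLinearGroup.coe_inv,
        Matrix.adjugate_fin_two, Matrix.mul_apply, Fin.sum_univ_two, Matrix.of_apply,
        Matrix.cons_val', Matrix.cons_val_zero, Matrix.cons_val_one, Matrix.empty_val',
        Matrix.cons_val_fin_one, hδ0, hδ1]
      rw [← ha, ← hb, ← hc', ← hd]
      linear_combination hQ'
    obtain ⟨n, hn⟩ := ModularGroup.exists_eq_T_zpow_of_c_eq_zero hM
    refine ⟨δ, n, fun w => ?_⟩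
    rw [← hn w, ← mul_smul, ← mul_smul]
    congr 1
    group

/-- Translation by `T ^ n` preserves the filter `atImInfty`. -/
theorem tendsto_T_zpow_smul_atImInfty (n : ℤ) :
    Tendsto (fun w : ℍ => ModularGroup.T ^ n • w) atImInfty atImInfty := by
  rw [atImInfty, tendsto_comap_iff]
  have : (UpperHalfPlane.im ∘ fun w : ℍ => ModularGroup.T ^ n • w) = UpperHalfPlane.im := by
    funext w
    exact ModularGroup.im_T_zpow_smul w n
  rw [this]
  exact tendsto_comap

variable {N : ℕ} [NeZero N]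

/-- **Piece B**: the period homomorphism of a cusp form kills every `γ` with `trace ^ 2 = 4`. -/
theorem periodMap_mem_parabolicHoms (f : CuspForm (Gamma0 N) 2) :
    periodMap N f ∈ parabolicHoms ℂ (Gamma0 N) ℂ := by
  rw [mem_parabolicHoms_iff]
  intro γ hγ
  obtain ⟨F, hF⟩ := exists_hasEquivariantPrimitive f
  obtain ⟨δ, n, hδ⟩ := exists_conj_T_zpow (γ : SL(2, ℤ)) hγ
  obtain ⟨L, hL⟩ := hF.2.2.2 δ
  have hconst : ∀ w : ℍ, periodMap N f (Additive.ofMul γ)
      = F (δ • (ModularGroup.T ^ n • w)) - F (δ • w) := by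
    intro w
    rw [periodMap_apply hF γ (δ • w), hδ w]
  have h1 : Tendsto (fun w : ℍ => F (δ • (ModularGroup.T ^ n • w)) - F (δ • w)) atImInfty
      (𝓝 (L - L)) :=
    (hL.comp (tendsto_T_zpow_smul_atImInfty n)).sub hL
  have h2 : Tendsto (fun w : ℍ => F (δ • (ModularGroup.T ^ n • w)) - F (δ • w)) atImInfty
      (𝓝 (periodMap N f (Additive.ofMul γ))) := by
    have : (fun w : ℍ => F (δ • (ModularGroup.T ^ n • w)) - F (δ • w))
        = fun _ => periodMap N f (Additive.ofMul γ) := funext fun w => (hconst w).symm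
    rw [this]; exact tendsto_const_nhds
  have := tendsto_nhds_unique h2 h1
  rw [sub_self] at this
  exact this

/-- **Piece B'**: the range of `periodHomPair` consists of parabolic homomorphisms. -/
theorem range_periodHomPair_le :
    LinearMap.range (periodHomPair N) ≤ parabolicHoms ℂ (Gamma0 N) ℂ := by
  rintro ψ ⟨⟨f, g⟩, rfl⟩
  rw [periodHomPair_apply]
  have hf := periodMap_mem_parabolicHoms f
  have hg := periodMap_mem_parabolicHoms g
  exact Submodule.add_mem _
    (Submodule.add_mem _ hf (charInvolution_mem_parabolicHoms N ℂ ℂ hf))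
    (Submodule.sub_mem _ hg (charInvolution_mem_parabolicHoms N ℂ ℂ hg))

end Fermat.Agent.S21.H381

end
-- ===== PACK-END S21/H381/Parabolic.lean

-- ===== PACK-BEGIN S24/Mod/H997Bridge.lean
section


/-!
# S24 / MOD — analytic interface (`HolBase`) and the bridge `e : R_N → Hol`

`HolBase N` packages a ring `Hol` of functions `ℍ → ℂ` (intended: holomorphic functions on `ℍ`
invariant under `Γ(N)` and meromorphic at the cusps), stable under the action of `SL(2,ℤ)`,
containing the functions `J d = (τ ↦ j(dτ))` for `d ∣ N`, together with ONE injective expansion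
ring hom `qexp : Hol →+* ℂ((z))` (intended: expansion at `i∞` in `z = q^{1/N}`) such that the
expansion of `J d` is the formal series `jq(z^{N d})` of the Prelude.

From this we construct the *bridge* `e : R_N →+* Hol` (injective, `e (j(q^d)) = J d`,
`e c = const (ι c)`), i.e. "formal relation ⇔ analytic relation".
-/

set_option autoImplicit false

noncomputable section

open ModularCurve HahnSeries UpperHalfPlane
open scoped MatrixGroups

namespace Fermat.Agent.S24.H997

/-- Precomposition of a function on `ℍ` with the action of `g ∈ SL(2,ℤ)`. -/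
def compSL (g : SL(2, ℤ)) (f : ℍ → ℂ) : ℍ → ℂ := fun τ => f (g • τ)

@[simp] theorem compSL_apply (g : SL(2, ℤ)) (f : ℍ → ℂ) (τ : ℍ) : compSL g f τ = f (g • τ) := rfl

theorem compSL_one (f : ℍ → ℂ) : compSL 1 f = f := by
  funext τ; simp [compSL]

theorem compSL_mul (g h : SL(2, ℤ)) (f : ℍ → ℂ) : compSL (g * h) f = compSL h (compSL g f) := by
  funext τ; simp [compSL, mul_smul]

/-- The fixed embedding `ℚ̄ → ℂ`. -/
def ιKAlg : Kbar →ₐ[ℚ] ℂ :=
  haveI : Algebra.IsAlgebraic ℚ (AlgebraicClosure ℚ) := AlgebraicClosure.isAlgebraic ℚ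
  IsAlgClosed.lift

/-- The fixed embedding `ℚ̄ → ℂ`. -/
def ιK : Kbar →+* ℂ := ιKAlg.toRingHom

theorem ιK_injective : Function.Injective ιK := ιK.injective

theorem ιK_algebraMap (c : ℚ) : ιK (algebraMap ℚ Kbar c) = (c : ℂ) := by
  have := ιKAlg.commutes c
  simpa [ιK] using this

/-- Basic analytic interface. -/
structure HolBase (N : ℕ) [NeZero N] where
  /-- the ring of nice functions on `ℍ` -/
  Hol : Subring (ℍ → ℂ)
  const_mem : ∀ c : ℂ, (fun _ : ℍ => c) ∈ Hol
  comp_mem : ∀ (g : SL(2, ℤ)) (f : ℍ → ℂ), f ∈ Hol → compSL g f ∈ Hol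
  /-- `J d τ = j(dτ)` -/
  J : ℕ → ℍ → ℂ
  J_mem : ∀ d, d ∣ N → J d ∈ Hol
  J_one_inv : ∀ (g : SL(2, ℤ)) (τ : ℍ), J 1 (g • τ) = J 1 τ
  J_inv : ∀ d, d ∣ N → ∀ g ∈ CongruenceSubgroup.Gamma0 N, ∀ τ : ℍ, J d (g • τ) = J d τ
  J_distinct : ∀ g : SL(2, ℤ), (∀ τ : ℍ, J N (g • τ) = J N τ) → g ∈ CongruenceSubgroup.Gamma0 N
  /-- expansion at `i∞` in the variable `z = q^{1/N}` -/
  qexp : Hol →+* LaurentSeries ℂ
  qexp_injective : Function.Injective qexp
  qexp_const : ∀ c : ℂ, qexp ⟨_, const_mem c⟩ = HahnSeries.C c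
  qexp_J : ∀ (d : ℕ) (hd : d ∣ N) (k : ℤ),
    (qexp ⟨J d, J_mem d hd⟩).coeff k
      = if ((N * d : ℕ) : ℤ) ∣ k then ((jq.coeff (k / ((N * d : ℕ) : ℤ)) : ℚ) : ℂ) else 0

namespace HolBase

variable {N : ℕ} [NeZero N] (B : HolBase N)

/-- constant functions as elements of `Hol` -/
def constH (c : ℂ) : B.Hol := ⟨_, B.const_mem c⟩

/-- `J d` as an element of `Hol` -/
def JH (d : ℕ) (hd : d ∣ N) : B.Hol := ⟨B.J d, B.J_mem d hd⟩

/-- precomposition with `g ∈ SL(2,ℤ)` as a ring endomorphism of `Hol` -/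
def compH (g : SL(2, ℤ)) : B.Hol →+* B.Hol where
  toFun h := ⟨compSL g h.1, B.comp_mem g h.1 h.2⟩
  map_one' := rfl
  map_mul' _ _ := rfl
  map_zero' := rfl
  map_add' _ _ := rfl

@[simp] theorem compH_apply (g : SL(2, ℤ)) (h : B.Hol) (τ : ℍ) :
    (B.compH g h : ℍ → ℂ) τ = (h : ℍ → ℂ) (g • τ) := rfl

theorem compH_one (h : B.Hol) : B.compH 1 h = h := by
  apply Subtype.ext; funext τ; simp

theorem compH_mul (g g' : SL(2, ℤ)) (h : B.Hol) :
    B.compH (g * g') h = B.compH g' (B.compH g h) := by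
  apply Subtype.ext; funext τ; simp [mul_smul]

theorem compH_injective (g : SL(2, ℤ)) : Function.Injective (B.compH g) := by
  intro h h' hh
  have := congrArg (B.compH g⁻¹) hh
  rwa [← compH_mul, ← compH_mul, mul_inv_cancel, compH_one, compH_one] at this

theorem compH_constH (g : SL(2, ℤ)) (c : ℂ) : B.compH g (B.constH c) = B.constH c := rfl

theorem compH_JH_one (g : SL(2, ℤ)) : B.compH g (B.JH 1 (one_dvd N)) = B.JH 1 (one_dvd N) := by
  apply Subtype.ext; funext τ; exact B.J_one_inv g τ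

theorem compH_JH_of_mem (d : ℕ) (hd : d ∣ N) {g : SL(2, ℤ)}
    (hg : g ∈ CongruenceSubgroup.Gamma0 N) : B.compH g (B.JH d hd) = B.JH d hd := by
  apply Subtype.ext; funext τ; exact B.J_inv d hd g hg τ

/-- The formal comparison map `ℚ̄((q)) → ℂ((z))`, `q ↦ z^N`, coefficients via `ιK`. -/
def Φ (N : ℕ) [NeZero N] : LaurentSeries Kbar →+* LaurentSeries ℂ :=
  (qExpand ℂ N).comp (coeffMap ιK)

theorem Φ_injective : Function.Injective (Φ N) := by
  intro x y h
  have h1 : coeffMap ιK x = coeffMap ιK y := qExpand_injective N h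
  ext k
  apply ιK_injective
  have := congrArg (fun s => s.coeff k) h1
  simpa using this

theorem Φ_coeff (x : LaurentSeries Kbar) (k : ℤ) :
    (Φ N x).coeff k = if (N : ℤ) ∣ k then ιK (x.coeff (k / N)) else 0 := by
  split_ifs with h
  · obtain ⟨m, rfl⟩ := h
    have hN : (N : ℤ) ≠ 0 := by exact_mod_cast NeZero.ne N
    rw [Int.mul_ediv_cancel_left _ hN]
    show (qExpand ℂ N (coeffMap ιK x)).coeff (N * m) = _
    rw [qExpand_coeff_mul]; rfl
  · exact qExpand_coeff_of_not_dvd N _ h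

theorem Φ_algebraMap (c : Kbar) :
    Φ N (algebraMap Kbar (LaurentSeries Kbar) c) = HahnSeries.C (ιK c) := by
  rw [algebraMap_laurentSeries_eq_single]
  show qExpand ℂ N (coeffMap ιK (HahnSeries.single 0 c)) = _
  rw [coeffMap_single, qExpand_single, mul_zero]; rfl

theorem Φ_gen (d : ℕ) [NeZero d] (hd : d ∣ N) :
    Φ N (coeffEmb Kbar (qExpand ℚ d jq)) = B.qexp (B.JH d hd) := by
  ext k
  rw [Φ_coeff]
  show _ = (B.qexp ⟨B.J d, B.J_mem d hd⟩).coeff k
  rw [B.qexp_J d hd k]
  have hN : (N : ℤ) ≠ 0 := by exact_mod_cast NeZero.ne N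
  have hd0 : (d : ℤ) ≠ 0 := by exact_mod_cast NeZero.ne d
  by_cases h1 : (N : ℤ) ∣ k
  · obtain ⟨m, rfl⟩ := h1
    rw [if_pos (dvd_mul_right _ _), Int.mul_ediv_cancel_left _ hN, coeffEmb_coeff, ιK_algebraMap]
    by_cases h2 : (d : ℤ) ∣ m
    · obtain ⟨l, rfl⟩ := h2
      have h3 : ((N * d : ℕ) : ℤ) ∣ (N : ℤ) * (d * l) := ⟨l, by push_cast; ring⟩
      rw [if_pos h3, qExpand_coeff_mul]
      have : (N : ℤ) * (d * l) / ((N * d : ℕ) : ℤ) = l := by
        have h4 : (N : ℤ) * (d * l) = ((N * d : ℕ) : ℤ) * l := by push_cast; ring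
        rw [h4, Int.mul_ediv_cancel_left]
        exact_mod_cast (Nat.mul_ne_zero (NeZero.ne N) (NeZero.ne d))
      rw [this]
    · have h3 : ¬ ((N * d : ℕ) : ℤ) ∣ (N : ℤ) * m := by
        rintro ⟨l, hl⟩
        apply h2
        refine ⟨l, ?_⟩
        have : (N : ℤ) * m = N * (d * l) := by rw [hl]; push_cast; ring
        exact mul_left_cancel₀ hN this
      rw [if_neg h3, qExpand_coeff_of_not_dvd d _ h2]
      simp
  · have h3 : ¬ ((N * d : ℕ) : ℤ) ∣ k := by
      intro h; apply h1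
      exact dvd_trans ⟨(d : ℤ), by push_cast; ring⟩ h
    rw [if_neg h1, if_neg h3]

theorem Φ_mem_range {r : LaurentSeries Kbar} (hr : r ∈ RN N) : Φ N r ∈ B.qexp.range := by
  induction hr using Algebra.adjoin_induction with
  | mem x hx =>
      obtain ⟨y, ⟨d, hne, hd, rfl⟩, rfl⟩ := hx
      exact ⟨B.JH d hd, (B.Φ_gen d hd).symm⟩
  | algebraMap c =>
      exact ⟨B.constH (ιK c), by rw [Φ_algebraMap]; exact B.qexp_const _⟩
  | add _ _ _ _ hx hy => rw [map_add]; exact add_mem hx hy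
  | mul _ _ _ _ hx hy => rw [map_mul]; exact mul_mem hx hy

/-- `Hol ≃ range qexp`. -/
def qexpEquiv : B.Hol ≃+* B.qexp.range :=
  RingEquiv.ofBijective B.qexp.rangeRestrict
    ⟨fun x y h => B.qexp_injective (congrArg Subtype.val h), B.qexp.rangeRestrict_surjective⟩

/-- The bridge `e : R_N →+* Hol`. -/
def bridge : RN N →+* B.Hol :=
  (B.qexpEquiv.symm : B.qexp.range →+* B.Hol).comp
    (((Φ N).comp (RN N).val.toRingHom).codRestrict B.qexp.range fun r => B.Φ_mem_range r.2)

theorem qexp_bridge (r : RN N) : B.qexp (B.bridge r) = Φ N (r : LaurentSeries Kbar) := by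
  have h := B.qexpEquiv.apply_symm_apply
    ((((Φ N).comp (RN N).val.toRingHom).codRestrict B.qexp.range
      fun r => B.Φ_mem_range r.2) r)
  exact congrArg Subtype.val h

theorem bridge_injective : Function.Injective B.bridge := by
  intro r r' h
  apply Subtype.ext
  apply Φ_injective (N := N)
  rw [← qexp_bridge, ← qexp_bridge, h]

theorem bridge_algebraMap (c : Kbar) : B.bridge (algebraMap Kbar (RN N) c) = B.constH (ιK c) := by
  apply B.qexp_injective
  rw [qexp_bridge]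
  show Φ N (algebraMap Kbar (LaurentSeries Kbar) c) = _
  rw [Φ_algebraMap]
  exact (B.qexp_const _).symm

theorem bridge_jR (d : ℕ) [NeZero d] (hd : d ∣ N) : B.bridge (jR N d hd) = B.JH d hd := by
  apply B.qexp_injective
  rw [qexp_bridge]
  exact B.Φ_gen d hd

/-- Every `e r` is `Γ₀(N)`-invariant. -/
theorem compH_bridge_of_mem {g : SL(2, ℤ)} (hg : g ∈ CongruenceSubgroup.Gamma0 N) (r : RN N) :
    B.compH g (B.bridge r) = B.bridge r := by
  obtain ⟨r, hr⟩ := r
  induction hr using Algebra.adjoin_induction with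
  | mem x hx =>
      obtain ⟨y, ⟨d, hne, hd, rfl⟩, rfl⟩ := hx
      have : (⟨coeffEmb Kbar (qExpand ℚ d jq), Algebra.subset_adjoin
          ⟨_, ⟨d, hne, hd, rfl⟩, rfl⟩⟩ : RN N) = jR N d hd := rfl
      rw [this, bridge_jR]
      exact B.compH_JH_of_mem d hd hg
  | algebraMap c =>
      have : (⟨algebraMap Kbar (LaurentSeries Kbar) c, Subalgebra.algebraMap_mem _ c⟩ : RN N)
          = algebraMap Kbar (RN N) c := rfl
      rw [this, bridge_algebraMap]
      rfl
  | add x y hx hy ihx ihy =>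
      have : (⟨x + y, add_mem hx hy⟩ : RN N) = ⟨x, hx⟩ + ⟨y, hy⟩ := rfl
      rw [this, map_add, map_add, ihx, ihy]
  | mul x y hx hy ihx ihy =>
      have : (⟨x * y, mul_mem hx hy⟩ : RN N) = ⟨x, hx⟩ * ⟨y, hy⟩ := rfl
      rw [this, map_mul, map_mul, ihx, ihy]

end HolBase

end Fermat.Agent.S24.H997

end
end
-- ===== PACK-END S24/Mod/H997Bridge.lean

-- ===== PACK-BEGIN S37/H400/KronChar.lean
section
/-
S37 / helper400 — piece KRON, part (K2)–(K5): the Kronecker congruence, formal version.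

Notation: `V_p = qExpand R p` (`q ↦ q ^ p`), `secMat p f` the section matrix of `f` (matrix of
multiplication by `f(T)` on `R((T))` over `R((T^p))`), `G_f := (secMat p f).charpoly`
(`= ∏_b (Y - f(ζ^b q^{1/p}))` classically) and `Ψ_f := (Y - V_p f) · G_f`
(`= ∏ over the p+1 conjugates`).

* `charpoly_secMat_char` : over a domain of characteristic `p`,  `G_f = Y ^ p - frob f`.
* `kronPoly_map_zmod` : for `f ∈ ℤ((q))` (or any `S → ZMod p`),
    `Ψ_f ≡ (Y - f ^ p) (Y ^ p - f)  mod p`.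
* `kronPoly_eval_qExpand`, `kronPoly_map_eval` : `Ψ_f (V_p f) = 0` and `(V_p Ψ_f)(f) = 0`.
-/



set_option autoImplicit false

noncomputable section

set_option linter.style.haveILetI false

open ModularCurve Polynomial Matrix

namespace Fermat.Agent.S37.H400

variable {R : Type*} [CommRing R]

theorem charP_laurentSeries (p : ℕ) [CharP R p] : CharP (LaurentSeries R) p :=
  charP_of_injective_ringHom (f := (HahnSeries.C : R →+* LaurentSeries R))
    HahnSeries.C_injective p

/-- In characteristic `p`, the `p`-th power of the section matrix is scalar. -/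
theorem secMat_pow_char (p : ℕ) [Fact p.Prime] [CharP R p] (f : LaurentSeries R) :
    haveI : NeZero p := ⟨(Fact.out : p.Prime).ne_zero⟩
    secMat p f ^ p = Matrix.scalar (Fin p) (coeffMap (frobenius R p) f) := by
  haveI : NeZero p := ⟨(Fact.out : p.Prime).ne_zero⟩
  show secMat p f ^ p = Matrix.scalar (Fin p) (coeffMap (frobenius R p) f)
  rw [← secMat_pow, laurent_pow_char, secMat_qExpand]

/-- A `p × p` matrix over a domain of characteristic `p` whose `p`-th power is the scalar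
`c` has characteristic polynomial `Y ^ p - c`. -/
theorem charpoly_of_pow_eq_scalar {A : Type*} [CommRing A] [IsDomain A] (p : ℕ) [Fact p.Prime]
    [CharP A p] (M : Matrix (Fin p) (Fin p) A) (c : A)
    (hM : M ^ p = Matrix.scalar (Fin p) c) :
    M.charpoly = X ^ p - C c := by
  haveI : NeZero p := ⟨(Fact.out : p.Prime).ne_zero⟩
  have hcomm : Commute (Matrix.scalar (Fin p) (X : A[X])) (C.mapMatrix M) :=
    Matrix.scalar_commute _ (fun r => Commute.all _ r) _
  have h1 : M.charmatrix = Matrix.scalar (Fin p) (X : A[X]) - C.mapMatrix M := rfl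
  have h2 : M.charmatrix ^ p = Matrix.scalar (Fin p) ((X : A[X]) ^ p - C c) := by
    rw [h1, sub_pow_char_of_commute p hcomm, ← map_pow, ← map_pow, hM, map_sub]
    congr 1
    ext i j
    simp [Matrix.scalar_apply, Matrix.diagonal_apply, apply_ite]
  have h3 : M.charpoly ^ p = ((X : A[X]) ^ p - C c) ^ p := by
    rw [Matrix.charpoly, ← Matrix.det_pow, h2, Matrix.scalar_apply, Matrix.det_diagonal,
      Finset.prod_const, Finset.card_univ, Fintype.card_fin]
  exact frobenius_inj A[X] p h3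

/-- **(K2) Kronecker, characteristic `p`.**  Over a domain of characteristic `p`, the
characteristic polynomial of the section matrix of `f` is `Y ^ p - frob f`. -/
theorem charpoly_secMat_char [IsDomain R] (p : ℕ) [Fact p.Prime] [CharP R p]
    (f : LaurentSeries R) :
    haveI : NeZero p := ⟨(Fact.out : p.Prime).ne_zero⟩
    (secMat p f).charpoly = X ^ p - C (coeffMap (frobenius R p) f) := by
  haveI : NeZero p := ⟨(Fact.out : p.Prime).ne_zero⟩
  haveI := charP_laurentSeries (R := R) p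
  exact charpoly_of_pow_eq_scalar p _ _ (secMat_pow_char p f)

theorem coeffMap_frobenius_zmod (p : ℕ) [Fact p.Prime] (f : LaurentSeries (ZMod p)) :
    coeffMap (frobenius (ZMod p) p) f = f := by
  ext k
  simp

/-- Kronecker over `𝔽_p`: `G_f = Y ^ p - f`. -/
theorem charpoly_secMat_zmod (p : ℕ) [Fact p.Prime] (f : LaurentSeries (ZMod p)) :
    haveI : NeZero p := ⟨(Fact.out : p.Prime).ne_zero⟩
    (secMat p f).charpoly = X ^ p - C f := by
  haveI : NeZero p := ⟨(Fact.out : p.Prime).ne_zero⟩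
  have h := charpoly_secMat_char p f
  rwa [coeffMap_frobenius_zmod] at h

/-- The polynomial `Ψ_f(Y) = (Y - f(q^p)) · ∏_b (Y - f(ζ^b q^{1/p}))`, defined without roots of
unity as `(Y - V_p f) · charpoly (secMat p f)`. -/
def kronPoly (p : ℕ) [NeZero p] (f : LaurentSeries R) : (LaurentSeries R)[X] :=
  (X - C (qExpand R p f)) * (secMat p f).charpoly

theorem kronPoly_monic (p : ℕ) [NeZero p] [Nontrivial R] (f : LaurentSeries R) :
    (kronPoly p f).Monic :=
  (monic_X_sub_C _).mul (Matrix.charpoly_monic _)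

theorem kronPoly_natDegree (p : ℕ) [NeZero p] [Nontrivial R] (f : LaurentSeries R) :
    (kronPoly p f).natDegree = p + 1 := by
  rw [kronPoly, Polynomial.Monic.natDegree_mul (monic_X_sub_C _) (Matrix.charpoly_monic _),
    natDegree_X_sub_C, Matrix.charpoly_natDegree_eq_dim, Fintype.card_fin, add_comm]

private theorem coeffMap_qExpand'' {S : Type*} [CommRing S] (φ : R →+* S) (n : ℕ)
    [NeZero n] (x : LaurentSeries R) : coeffMap φ (qExpand R n x) = qExpand S n (coeffMap φ x) := by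
  ext k
  by_cases hk : (n : ℤ) ∣ k
  · obtain ⟨m, rfl⟩ := hk
    rw [coeffMap_coeff, qExpand_coeff_mul, qExpand_coeff_mul, coeffMap_coeff]
  · rw [coeffMap_coeff, qExpand_coeff_of_not_dvd n _ hk, qExpand_coeff_of_not_dvd n _ hk,
      map_zero]

/-- Base change of `Ψ_f` along a coefficient homomorphism. -/
theorem kronPoly_map {S : Type*} [CommRing S] (φ : R →+* S) (p : ℕ) [NeZero p]
    (f : LaurentSeries R) :
    (kronPoly p f).map (coeffMap φ) = kronPoly p (coeffMap φ f) := by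
  rw [kronPoly, kronPoly, Polynomial.map_mul, Polynomial.map_sub, Polynomial.map_X,
    Polynomial.map_C, coeffMap_qExpand'', secMat_coeffMap, Matrix.charpoly_map]

/-- **(K3) Kronecker congruence.**  Over a domain of characteristic `p`,
`Ψ_f = (Y - V_p f) (Y ^ p - frob f)`. -/
theorem kronPoly_char [IsDomain R] (p : ℕ) [Fact p.Prime] [CharP R p] (f : LaurentSeries R) :
    haveI : NeZero p := ⟨(Fact.out : p.Prime).ne_zero⟩
    kronPoly p f = (X - C (qExpand R p f)) * (X ^ p - C (coeffMap (frobenius R p) f)) := by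
  haveI : NeZero p := ⟨(Fact.out : p.Prime).ne_zero⟩
  show kronPoly p f = _
  rw [kronPoly, charpoly_secMat_char]

/-- **(K3') Kronecker congruence over `𝔽_p`**: `Ψ_f = (Y - f ^ p) (Y ^ p - f)`. -/
theorem kronPoly_zmod (p : ℕ) [Fact p.Prime] (f : LaurentSeries (ZMod p)) :
    haveI : NeZero p := ⟨(Fact.out : p.Prime).ne_zero⟩
    kronPoly p f = (X - C (f ^ p)) * (X ^ p - C f) := by
  haveI : NeZero p := ⟨(Fact.out : p.Prime).ne_zero⟩
  show kronPoly p f = _
  rw [kronPoly_char, laurent_pow_char, coeffMap_frobenius_zmod]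

/-- **(K3'') Kronecker congruence, integral form**: for `f` with coefficients in any ring `S`
mapping to `𝔽_p` (e.g. `ℤ`, `ℤ_(p)`), `Ψ_f ≡ (Y - f̄ ^ p)(Y ^ p - f̄)` after reduction. -/
theorem kronPoly_map_zmod {S : Type*} [CommRing S] (p : ℕ) [Fact p.Prime] (φ : S →+* ZMod p)
    (f : LaurentSeries S) :
    haveI : NeZero p := ⟨(Fact.out : p.Prime).ne_zero⟩
    (kronPoly p f).map (coeffMap φ) =
      (X - C ((coeffMap φ f) ^ p)) * (X ^ p - C (coeffMap φ f)) := by
  haveI : NeZero p := ⟨(Fact.out : p.Prime).ne_zero⟩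
  show (kronPoly p f).map (coeffMap φ) = _
  rw [kronPoly_map, kronPoly_zmod]

/-- **(K4a)** `V_p f = f(q^p)` is a root of `Ψ_f`. -/
theorem kronPoly_eval_qExpand (p : ℕ) [NeZero p] (f : LaurentSeries R) :
    (kronPoly p f).eval (qExpand R p f) = 0 := by
  rw [kronPoly, eval_mul, eval_sub, eval_X, eval_C, sub_self, zero_mul]

/-- **(K4b)** `f` is a root of `V_p Ψ_f` (coefficients pushed along `q ↦ q ^ p`). -/
theorem kronPoly_map_eval (p : ℕ) [NeZero p] (f : LaurentSeries R) :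
    ((kronPoly p f).map (qExpand R p)).eval f = 0 := by
  rw [kronPoly, Polynomial.map_mul, eval_mul, secMat_charpoly_eval, mul_zero]

end Fermat.Agent.S37.H400

end

end
-- ===== PACK-END S37/H400/KronChar.lean

-- ===== PACK-BEGIN S37/H400/KronNorm.lean
section
/-
S37 / helper400 — piece KRON, part (K6): the Kronecker NORM, formal version.

`kronNorm p f := V_p f · det (secMat p f)`  (classically `f(q^p) · ∏_b f(ζ^b q^{1/p})`, i.e. the
`q`-expansion of `Nm_α(β f)` once NORM-ID identifies the characteristic polynomial of `β f` over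
`α F_N` with `kronPoly p f`).

* `kronNorm_mul`, `kronNorm_one`, `kronNorm_pow` : multiplicativity.
* `coeffMap_kronNorm` : compatibility with coefficient homomorphisms (reduction `A → k`).
* `det_secMat_char`, `kronNorm_char` : over a domain of characteristic `p`
    `det (secMat p f) = frob f`,  `kronNorm p f = V_p f · frob f`.
* `kronNorm_char_of_frobenius` : if `f = frob g` coefficientwise then
    `kronNorm p f = g ^ p · frob f`  (`= (Φ⁻¹ f)^p · Φ f`, the form used in step (E)).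
* `coeffMap_kronNorm_char` : the reduction statement
    `coeffMap φ (kronNorm p f) = V_p f̄ · frob f̄` for `φ : S → R`, `R` a domain of char. `p`.
* `kronPoly_coeff_zero` : constant term of `kronPoly` is `(-1)^(p+1) · kronNorm`.
-/


set_option autoImplicit false

noncomputable section

set_option linter.style.haveILetI false

open ModularCurve Polynomial Matrix

namespace Fermat.Agent.S37.H400

variable {R : Type*} [CommRing R]

/-- The formal Kronecker norm `V_p f · det (secMat p f)`. -/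
def kronNorm (p : ℕ) [NeZero p] (f : LaurentSeries R) : LaurentSeries R :=
  qExpand R p f * (secMat p f).det

theorem kronNorm_mul (p : ℕ) [NeZero p] (f g : LaurentSeries R) :
    kronNorm p (f * g) = kronNorm p f * kronNorm p g := by
  rw [kronNorm, kronNorm, kronNorm, map_mul, secMat_mul, Matrix.det_mul]
  ring

theorem kronNorm_one (p : ℕ) [NeZero p] : kronNorm p (1 : LaurentSeries R) = 1 := by
  rw [kronNorm, map_one, secMat_one, Matrix.det_one, mul_one]

/-- `kronNorm` as a monoid homomorphism. -/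
def kronNormHom (p : ℕ) [NeZero p] : LaurentSeries R →* LaurentSeries R where
  toFun := kronNorm p
  map_one' := kronNorm_one p
  map_mul' := kronNorm_mul p

theorem kronNormHom_apply (p : ℕ) [NeZero p] (f : LaurentSeries R) :
    kronNormHom p f = kronNorm p f := rfl

theorem kronNorm_pow (p : ℕ) [NeZero p] (f : LaurentSeries R) (n : ℕ) :
    kronNorm p (f ^ n) = kronNorm p f ^ n :=
  map_pow (kronNormHom p) f n

theorem coeffMap_qExpand_h400 {S : Type*} [CommRing S] (φ : R →+* S) (n : ℕ)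
    [NeZero n] (x : LaurentSeries R) : coeffMap φ (qExpand R n x) = qExpand S n (coeffMap φ x) := by
  ext k
  by_cases hk : (n : ℤ) ∣ k
  · obtain ⟨m, rfl⟩ := hk
    rw [coeffMap_coeff, qExpand_coeff_mul, qExpand_coeff_mul, coeffMap_coeff]
  · rw [coeffMap_coeff, qExpand_coeff_of_not_dvd n _ hk, qExpand_coeff_of_not_dvd n _ hk,
      map_zero]

/-- Base change of the Kronecker norm along a coefficient homomorphism. -/
theorem coeffMap_kronNorm {S : Type*} [CommRing S] (φ : R →+* S) (p : ℕ) [NeZero p]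
    (f : LaurentSeries R) :
    coeffMap φ (kronNorm p f) = kronNorm p (coeffMap φ f) := by
  rw [kronNorm, kronNorm, map_mul, coeffMap_qExpand_h400, RingHom.map_det,
    RingHom.mapMatrix_apply, secMat_coeffMap]

/-- Over a domain of characteristic `p`, `det (secMat p f) = frob f`. -/
theorem det_secMat_char [IsDomain R] (p : ℕ) [Fact p.Prime] [CharP R p]
    (f : LaurentSeries R) :
    haveI : NeZero p := ⟨(Fact.out : p.Prime).ne_zero⟩
    (secMat p f).det = coeffMap (frobenius R p) f := by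
  haveI : NeZero p := ⟨(Fact.out : p.Prime).ne_zero⟩
  haveI := charP_laurentSeries (R := R) p
  show (secMat p f).det = coeffMap (frobenius R p) f
  rw [Matrix.det_eq_sign_charpoly_coeff, charpoly_secMat_char, Fintype.card_fin,
    coeff_sub, coeff_X_pow, coeff_C_zero, if_neg (Fact.out : p.Prime).pos.ne, zero_sub]
  rcases (Fact.out : p.Prime).eq_two_or_odd' with h2 | hodd
  · subst h2
    have h2' : (2 : LaurentSeries R) = 0 := by
      have := CharP.cast_eq_zero (LaurentSeries R) 2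
      exact_mod_cast this
    have : -(coeffMap (frobenius R 2) f) = coeffMap (frobenius R 2) f := by
      rw [neg_eq_iff_add_eq_zero, ← two_mul, h2', zero_mul]
    rw [this]
    simp
  · rw [hodd.neg_one_pow]
    ring

/-- Over a domain of characteristic `p`: `kronNorm p f = V_p f · frob f`. -/
theorem kronNorm_char [IsDomain R] (p : ℕ) [Fact p.Prime] [CharP R p] (f : LaurentSeries R) :
    haveI : NeZero p := ⟨(Fact.out : p.Prime).ne_zero⟩
    kronNorm p f = qExpand R p f * coeffMap (frobenius R p) f := by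
  haveI : NeZero p := ⟨(Fact.out : p.Prime).ne_zero⟩
  show kronNorm p f = _
  rw [kronNorm, det_secMat_char]

/-- Over a domain of characteristic `p`, if `f = frob g` coefficientwise (`g = Φ⁻¹ f`), then
`kronNorm p f = g ^ p · frob f = (Φ⁻¹ f) ^ p · Φ f`. -/
theorem kronNorm_char_of_frobenius [IsDomain R] (p : ℕ) [Fact p.Prime] [CharP R p]
    (f g : LaurentSeries R) (hg : coeffMap (frobenius R p) g = f) :
    haveI : NeZero p := ⟨(Fact.out : p.Prime).ne_zero⟩
    kronNorm p f = g ^ p * coeffMap (frobenius R p) f := by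
  haveI : NeZero p := ⟨(Fact.out : p.Prime).ne_zero⟩
  show kronNorm p f = _
  rw [kronNorm_char, laurent_pow_char, hg]

/-- Over `𝔽_p`: `kronNorm p f = f ^ (p + 1)`. -/
theorem kronNorm_zmod (p : ℕ) [Fact p.Prime] (f : LaurentSeries (ZMod p)) :
    haveI : NeZero p := ⟨(Fact.out : p.Prime).ne_zero⟩
    kronNorm p f = f ^ (p + 1) := by
  haveI : NeZero p := ⟨(Fact.out : p.Prime).ne_zero⟩
  show kronNorm p f = _
  rw [kronNorm_char_of_frobenius p f f (coeffMap_frobenius_zmod p f), coeffMap_frobenius_zmod,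
    pow_succ]

/-- **Kronecker congruence for norms.**  For `f` with coefficients in `S` and a reduction
`φ : S → R` to a domain of characteristic `p`, the reduction of the Kronecker norm of `f` is
`V_p f̄ · frob f̄`. -/
theorem coeffMap_kronNorm_char {S : Type*} [CommRing S] [IsDomain R] (p : ℕ) [Fact p.Prime]
    [CharP R p] (φ : S →+* R) (f : LaurentSeries S) :
    haveI : NeZero p := ⟨(Fact.out : p.Prime).ne_zero⟩
    coeffMap φ (kronNorm p f) =
      qExpand R p (coeffMap φ f) * coeffMap (frobenius R p) (coeffMap φ f) := by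
  haveI : NeZero p := ⟨(Fact.out : p.Prime).ne_zero⟩
  show coeffMap φ (kronNorm p f) = _
  rw [coeffMap_kronNorm, kronNorm_char]

/-- The reduction of the Kronecker norm is nonzero as soon as the reduction of `f` is. -/
theorem coeffMap_kronNorm_ne_zero {S : Type*} [CommRing S] [IsDomain R] (p : ℕ) [Fact p.Prime]
    [CharP R p] (φ : S →+* R) (f : LaurentSeries S) (hf : coeffMap φ f ≠ 0) :
    haveI : NeZero p := ⟨(Fact.out : p.Prime).ne_zero⟩
    coeffMap φ (kronNorm p f) ≠ 0 := by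
  haveI : NeZero p := ⟨(Fact.out : p.Prime).ne_zero⟩
  show coeffMap φ (kronNorm p f) ≠ 0
  rw [coeffMap_kronNorm_char]
  refine mul_ne_zero ?_ ?_
  · intro h
    exact hf (qExpand_injective (R := R) (N := p) (by rw [h, map_zero]))
  · intro h
    apply hf
    ext k
    have hk := congrArg (fun x : LaurentSeries R => x.coeff k) h
    simp only [coeffMap_coeff, HahnSeries.coeff_zero] at hk ⊢
    exact frobenius_inj R p (by rw [hk, map_zero])

/-- The constant term of `kronPoly` is `(-1)^(p+1)` times the Kronecker norm. -/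
theorem kronPoly_coeff_zero (p : ℕ) [NeZero p] (f : LaurentSeries R) :
    (kronPoly p f).coeff 0 = (-1) ^ (p + 1) * kronNorm p f := by
  rw [kronPoly, Polynomial.mul_coeff_zero, coeff_sub, coeff_X_zero, coeff_C_zero, zero_sub,
    kronNorm, Matrix.det_eq_sign_charpoly_coeff, Fintype.card_fin, pow_succ]
  have h : ((-1 : LaurentSeries R) ^ p) * (-1) ^ p = 1 := by
    rw [← mul_pow]; simp
  linear_combination (qExpand R p f * (secMat p f).charpoly.coeff 0) * h

end Fermat.Agent.S37.H400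

end

end
-- ===== PACK-END S37/H400/KronNorm.lean

-- ===== PACK-BEGIN S18/H602/DVR.lean
section



/-!
# S18, piece d1 (continued): `R_E = A ∩ E` is a discrete valuation ring  (owner helper602)

For a valuation subring `A ⊆ Q̄` lying over a prime `ℓ` (`(ℓ : Q̄) ∈ A.nonunits`, which is the
Prelude's `A.LiesOverPrime ℓ` unfolded) and a finite extension `E/ℚ` inside `Q̄`, the ring
`R_E = A ∩ E` is the localisation of `𝓞 E` at a nonzero prime; in particular it is a
discrete valuation ring.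
-/

set_option autoImplicit false

noncomputable section

namespace Fermat.Agent.S18.H602

open ModularCurve AlgebraicCurve HahnSeries IntermediateField IsDedekindDomain

open scoped NumberField

local notation "Q̄" => AlgebraicClosure ℚ

section DVR

/-- Valuation subrings contain all algebraic integers. -/
theorem mem_of_isIntegral_int {K : Type*} [Field K] (B : ValuationSubring K) {x : K}
    (hx : IsIntegral ℤ x) : x ∈ B := by
  have h : IsIntegral B x := hx.tower_top
  obtain ⟨y, rfl⟩ := (IsIntegrallyClosed.isIntegral_iff (R := B) (K := K)).mp h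
  exact y.2

variable (A : ValuationSubring Q̄) (E : IntermediateField ℚ Q̄)

theorem natCast_mem_RE (n : ℕ) : (n : E) ∈ RE A E := natCast_mem _ n

theorem natCast_not_isUnit_RE {ℓ : ℕ} (hA : (ℓ : Q̄) ∈ A.nonunits) :
    ¬ IsUnit (⟨(ℓ : E), natCast_mem_RE A E ℓ⟩ : RE A E) := by
  intro hu
  have hu' := (toA A E).isUnit_map hu
  rw [ValuationSubring.mem_nonunits_iff_exists_mem_maximalIdeal] at hA
  obtain ⟨hℓA, hmem⟩ := hA
  rw [IsLocalRing.mem_maximalIdeal, mem_nonunits_iff] at hmem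
  apply hmem
  convert hu' using 1
  exact Subtype.ext (by simp)

theorem RE_ne_top {ℓ : ℕ} (hℓ : ℓ ≠ 0) (hA : (ℓ : Q̄) ∈ A.nonunits) : RE A E ≠ ⊤ := by
  intro h
  apply natCast_not_isUnit_RE A E hA
  have hinv : ((ℓ : E)⁻¹ : E) ∈ RE A E := h ▸ ValuationSubring.mem_top _
  have hℓE : (ℓ : E) ≠ 0 := by exact_mod_cast hℓ
  exact isUnit_iff_exists_inv.mpr ⟨⟨_, hinv⟩, Subtype.ext (mul_inv_cancel₀ hℓE)⟩

theorem algebraMap_ringOfIntegers_mem_RE (x : 𝓞 E) : algebraMap (𝓞 E) E x ∈ RE A E :=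
  mem_of_isIntegral_int _ (NumberField.RingOfIntegers.isIntegral_coe x)

/-- The inclusion `𝓞 E → R_E`. -/
def ofInt : 𝓞 E →+* RE A E :=
  (algebraMap (𝓞 E) E).codRestrict (RE A E) (algebraMap_ringOfIntegers_mem_RE A E)

@[simp]
theorem coe_ofInt (x : 𝓞 E) : ((ofInt A E x : RE A E) : E) = algebraMap (𝓞 E) E x := rfl

/-- The prime of `𝓞 E` below the maximal ideal of `R_E`. -/
def primeBelow : Ideal (𝓞 E) := (IsLocalRing.maximalIdeal (RE A E)).comap (ofInt A E)

instance primeBelow_isPrime : (primeBelow A E).IsPrime :=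
  Ideal.comap_isPrime (ofInt A E) _

theorem natCast_mem_primeBelow {ℓ : ℕ} (hA : (ℓ : Q̄) ∈ A.nonunits) :
    (ℓ : 𝓞 E) ∈ primeBelow A E := by
  rw [primeBelow, Ideal.mem_comap, IsLocalRing.mem_maximalIdeal, mem_nonunits_iff]
  convert natCast_not_isUnit_RE A E hA using 2
  exact Subtype.ext (by simp)

theorem primeBelow_ne_bot {ℓ : ℕ} (hℓ : ℓ ≠ 0) (hA : (ℓ : Q̄) ∈ A.nonunits) :
    primeBelow A E ≠ ⊥ := by
  intro h
  have h1 := natCast_mem_primeBelow A E hA
  rw [h, Ideal.mem_bot] at h1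
  exact hℓ (by exact_mod_cast h1)

theorem numberField_of_finiteDimensional [FiniteDimensional ℚ E] : NumberField E :=
  NumberField.mk

variable [NumberField E]

/-- The height-one prime of `𝓞 E` cut out by `A`. -/
def primeSpec {ℓ : ℕ} (hℓ : ℓ ≠ 0) (hA : (ℓ : Q̄) ∈ A.nonunits) : HeightOneSpectrum (𝓞 E) :=
  ⟨primeBelow A E, inferInstance, primeBelow_ne_bot A E hℓ hA⟩

theorem valuationSubringAtPrime_le_RE {ℓ : ℕ} (hℓ : ℓ ≠ 0) (hA : (ℓ : Q̄) ∈ A.nonunits) :
    (primeSpec A E hℓ hA).valuationSubringAtPrime E ≤ RE A E := by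
  rintro x ⟨a, s, hs, rfl⟩
  have hs' : IsUnit (ofInt A E s) := by
    by_contra hnu
    exact hs ((IsLocalRing.mem_maximalIdeal _).mpr hnu)
  obtain ⟨b, hb⟩ := isUnit_iff_exists_inv.mp hs'
  have hb' : algebraMap (𝓞 E) E s * (b : E) = 1 := congrArg (fun z : RE A E => (z : E)) hb
  have hinv : (algebraMap (𝓞 E) E s)⁻¹ = (b : E) := inv_eq_of_mul_eq_one_right hb'
  rw [hinv]
  exact mul_mem (algebraMap_ringOfIntegers_mem_RE A E a) b.2

/-- `R_E = A ∩ E` is the localisation of `𝓞 E` at the prime below `A`. -/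
theorem RE_eq_valuationSubringAtPrime {ℓ : ℕ} (hℓ : ℓ ≠ 0) (hA : (ℓ : Q̄) ∈ A.nonunits) :
    (primeSpec A E hℓ hA).valuationSubringAtPrime E = RE A E :=
  ValuationSubring.eq_of_le_of_ne_top _ (valuationSubringAtPrime_le_RE A E hℓ hA)
    (RE_ne_top A E hℓ hA)

/-- `R_E = A ∩ E` is a discrete valuation ring (`E` a number field, `A` over a prime). -/
theorem isDiscreteValuationRing_RE' {ℓ : ℕ} (hℓ : ℓ ≠ 0) (hA : (ℓ : Q̄) ∈ A.nonunits) :
    IsDiscreteValuationRing ↥(RE A E) := by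
  rw [← RE_eq_valuationSubringAtPrime A E hℓ hA]
  exact IsLocalization.AtPrime.isDiscreteValuationRing_of_dedekind_domain (𝓞 E)
    (primeSpec A E hℓ hA).ne_bot _

omit [NumberField E] in
/-- **`R_E = A ∩ E` is a discrete valuation ring** (for `E/ℚ` finite and `A` over a prime). -/
theorem isDiscreteValuationRing_RE [FiniteDimensional ℚ E] {ℓ : ℕ} (hℓ : ℓ ≠ 0)
    (hA : (ℓ : Q̄) ∈ A.nonunits) : IsDiscreteValuationRing ↥(RE A E) :=
  haveI := numberField_of_finiteDimensional E
  isDiscreteValuationRing_RE' A E hℓ hA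

end DVR

end Fermat.Agent.S18.H602

end
end
-- ===== PACK-END S18/H602/DVR.lean

-- ===== PACK-BEGIN S48/H856/GaussRing.lean
section


/-!
# S48 / RES / IGUSA1, leaves I-V and I-TV: the Gauss valuation ring of a field of Laurent series
(helper856, Mathlib-only)

`K` a field with a discrete valuation subring `𝒪` (uniformiser `w₀`), `L` a field with an
expansion map `ex : L →+* K((X))`.  `gaussRing 𝒪 ex` = `{U₁/U₂ : ex U₁ integral, ex U₂ primitive}`.
`HasBd f` : `f` is a quotient of elements with bounded denominators (automatic on a subfield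
generated by elements with integral expansions, `hasBd_of_mem_closure`).

* `IsPrim.mul`                    : Gauss' lemma for Laurent series;
* `GaussHyp.total`, `w_inv_notMem`, `discrete` : on elements with `HasBd`, `gaussRing` is a
  discrete valuation ring with uniformiser `w`;
* `mem_gaussRing_of_isInt`, `GaussHyp.gauss_inv_mem` : the fields `R_le_V`, `x_mem_V`, `gauss`;
* `smul_mem_gaussRing_iff`        : an automorphism acting on expansions by `X ↦ ζ X`
  (`ζ` a unit of `𝒪`) preserves `gaussRing` (field `t_V` of `IgusaData`).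
-/

set_option autoImplicit false

open HahnSeries

namespace Fermat.Agent.S48.H856

section Series

variable {K : Type*} [Field K] (𝒪 : ValuationSubring K)

/-- all coefficients lie in `𝒪` -/
def IsInt (s : LaurentSeries K) : Prop := ∀ k, s.coeff k ∈ 𝒪

/-- integral, with a unit coefficient -/
def IsPrim (s : LaurentSeries K) : Prop := IsInt 𝒪 s ∧ ∃ k, 𝒪.valuation (s.coeff k) = 1

variable {𝒪}

theorem isInt_iff {s : LaurentSeries K} : IsInt 𝒪 s ↔ ∀ k, 𝒪.valuation (s.coeff k) ≤ 1 :=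
  forall_congr' fun _ => (𝒪.valuation_le_one_iff _).symm

theorem isInt_zero : IsInt 𝒪 (0 : LaurentSeries K) := fun _ => by
  rw [HahnSeries.coeff_zero]; exact 𝒪.zero_mem

theorem coeff_C_eq (c : K) (k : ℤ) :
    (HahnSeries.C c : LaurentSeries K).coeff k = if k = 0 then c else 0 := by
  rw [HahnSeries.C_apply, HahnSeries.coeff_single]
  split_ifs <;> rfl

theorem isInt_C {c : K} (hc : c ∈ 𝒪) : IsInt 𝒪 (HahnSeries.C c : LaurentSeries K) := fun k => by
  rw [coeff_C_eq]
  split_ifs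
  · exact hc
  · exact 𝒪.zero_mem

theorem isInt_one : IsInt 𝒪 (1 : LaurentSeries K) := by
  have : (1 : LaurentSeries K) = HahnSeries.C 1 := (map_one _).symm
  rw [this]
  exact isInt_C 𝒪.one_mem

theorem isPrim_one : IsPrim 𝒪 (1 : LaurentSeries K) := by
  refine ⟨isInt_one, 0, ?_⟩
  have : (1 : LaurentSeries K) = HahnSeries.C 1 := (map_one _).symm
  rw [this, coeff_C_eq, if_pos rfl, map_one]

theorem IsInt.add {s s' : LaurentSeries K} (h : IsInt 𝒪 s) (h' : IsInt 𝒪 s') :
    IsInt 𝒪 (s + s') := fun k => by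
  rw [HahnSeries.coeff_add]; exact 𝒪.add_mem _ _ (h k) (h' k)

theorem IsInt.neg {s : LaurentSeries K} (h : IsInt 𝒪 s) : IsInt 𝒪 (-s) := fun k => by
  rw [HahnSeries.coeff_neg]; exact 𝒪.neg_mem _ (h k)

theorem IsInt.mul {s s' : LaurentSeries K} (h : IsInt 𝒪 s) (h' : IsInt 𝒪 s') :
    IsInt 𝒪 (s * s') := fun k => by
  rw [HahnSeries.coeff_mul]
  exact 𝒪.toSubring.sum_mem fun ij _ => 𝒪.mul_mem _ _ (h _) (h' _)

theorem IsInt.pow {s : LaurentSeries K} (h : IsInt 𝒪 s) (n : ℕ) : IsInt 𝒪 (s ^ n) := by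
  induction n with
  | zero => rw [pow_zero]; exact isInt_one
  | succ n ih => rw [pow_succ]; exact ih.mul h

theorem IsPrim.ne_zero {s : LaurentSeries K} (h : IsPrim 𝒪 s) : s ≠ 0 := by
  rintro rfl
  obtain ⟨k, hk⟩ := h.2
  rw [HahnSeries.coeff_zero, map_zero] at hk
  exact zero_ne_one hk

theorem coeff_C_mul_eq (c : K) (s : LaurentSeries K) (k : ℤ) :
    (HahnSeries.C c * s).coeff k = c * s.coeff k := by
  rw [HahnSeries.C_mul_eq_smul, HahnSeries.coeff_smul, smul_eq_mul]

theorem coeff_mul_C_eq (c : K) (s : LaurentSeries K) (k : ℤ) :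
    (s * HahnSeries.C c).coeff k = s.coeff k * c := by
  rw [mul_comm, coeff_C_mul_eq, mul_comm]

/-- **Gauss' lemma** for Laurent series over a valuation ring. -/
theorem IsPrim.mul {f g : LaurentSeries K} (hf : IsPrim 𝒪 f) (hg : IsPrim 𝒪 g) :
    IsPrim 𝒪 (f * g) := by
  classical
  refine ⟨hf.1.mul hg.1, ?_⟩
  set v := 𝒪.valuation with hv
  -- least indices with unit coefficients
  have hSf : {k | v (f.coeff k) = 1} ⊆ f.support := fun k hk => by
    rw [HahnSeries.mem_support]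
    intro h0
    have hk' : v (f.coeff k) = 1 := hk
    rw [h0, map_zero] at hk'
    exact zero_ne_one hk'
  have hSg : {k | v (g.coeff k) = 1} ⊆ g.support := fun k hk => by
    rw [HahnSeries.mem_support]
    intro h0
    have hk' : v (g.coeff k) = 1 := hk
    rw [h0, map_zero] at hk'
    exact zero_ne_one hk'
  have hwf : {k | v (f.coeff k) = 1}.IsWF := f.isWF_support.mono hSf
  have hwg : {k | v (g.coeff k) = 1}.IsWF := g.isWF_support.mono hSg
  have hnf : {k | v (f.coeff k) = 1}.Nonempty := hf.2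
  have hng : {k | v (g.coeff k) = 1}.Nonempty := hg.2
  set i₀ := hwf.min hnf with hi₀
  set j₀ := hwg.min hng with hj₀
  have hi₀1 : v (f.coeff i₀) = 1 := hwf.min_mem hnf
  have hj₀1 : v (g.coeff j₀) = 1 := hwg.min_mem hng
  have hflt : ∀ i, i < i₀ → v (f.coeff i) < 1 := fun i hi => by
    refine lt_of_le_of_ne ((𝒪.valuation_le_one_iff _).mpr (hf.1 i)) fun h1 => ?_
    exact hwf.not_lt_min hnf h1 hi
  have hglt : ∀ j, j < j₀ → v (g.coeff j) < 1 := fun j hj => by
    refine lt_of_le_of_ne ((𝒪.valuation_le_one_iff _).mpr (hg.1 j)) fun h1 => ?_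
    exact hwg.not_lt_min hng h1 hj
  refine ⟨i₀ + j₀, ?_⟩
  rw [HahnSeries.coeff_mul]
  have hmem : (i₀, j₀) ∈ Finset.antidiagonal f.isPWO_support g.isPWO_support (i₀ + j₀) := by
    rw [Finset.mem_antidiagonal]
    exact ⟨hSf hi₀1, hSg hj₀1, rfl⟩
  rw [← Finset.add_sum_erase _ _ hmem]
  have hrest : v (∑ ij ∈ (Finset.antidiagonal f.isPWO_support g.isPWO_support
      (i₀ + j₀)).erase (i₀, j₀), f.coeff ij.1 * g.coeff ij.2) < 1 := by
    apply Valuation.map_sum_lt v one_ne_zero
    rintro ⟨i, j⟩ hij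
    rw [Finset.mem_erase, Finset.mem_antidiagonal] at hij
    obtain ⟨hne, -, -, hsum⟩ := hij
    simp only at hsum
    rw [map_mul]
    have hfi : v (f.coeff i) ≤ 1 := (𝒪.valuation_le_one_iff _).mpr (hf.1 i)
    have hgj : v (g.coeff j) ≤ 1 := (𝒪.valuation_le_one_iff _).mpr (hg.1 j)
    rcases lt_or_ge i i₀ with hi | hi
    · exact mul_lt_one_of_lt_of_le (hflt i hi) hgj
    · have hj : j < j₀ := by
        rcases lt_or_ge j j₀ with hj | hj
        · exact hj
        · exfalso
          apply hne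
          have h1 : i = i₀ := by omega
          have h2 : j = j₀ := by omega
          rw [h1, h2]
      rw [mul_comm]
      exact mul_lt_one_of_lt_of_le (hglt j hj) hfi
  have h1 : v (f.coeff i₀ * g.coeff j₀) = 1 := by rw [map_mul, hi₀1, hj₀1, mul_one]
  rw [Valuation.map_add_eq_of_lt_left v (by rw [h1]; exact hrest), h1]

end Series

section Field

variable {K : Type*} [Field K] (𝒪 : ValuationSubring K) {L : Type*} [Field L]
  (ex : L →+* LaurentSeries K)

/-- The Gauss valuation ring of `L`: quotients `U₁/U₂` with `ex U₁` integral and `ex U₂`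
primitive. -/
def gaussRing : Subring L where
  carrier := {f | ∃ U₁ U₂ : L, IsInt 𝒪 (ex U₁) ∧ IsPrim 𝒪 (ex U₂) ∧ f * U₂ = U₁}
  zero_mem' := ⟨0, 1, by rw [map_zero]; exact isInt_zero, by rw [map_one]; exact isPrim_one,
    by simp⟩
  one_mem' := ⟨1, 1, by rw [map_one]; exact isInt_one, by rw [map_one]; exact isPrim_one,
    by simp⟩
  add_mem' := by
    rintro f g ⟨U₁, U₂, h1, h2, h3⟩ ⟨U₁', U₂', h1', h2', h3'⟩
    refine ⟨U₁ * U₂' + U₁' * U₂, U₂ * U₂', ?_, ?_, ?_⟩
    · rw [map_add, map_mul, map_mul]; exact (h1.mul h2'.1).add (h1'.mul h2.1)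
    · rw [map_mul]; exact h2.mul h2'
    · rw [← h3, ← h3']; ring
  mul_mem' := by
    rintro f g ⟨U₁, U₂, h1, h2, h3⟩ ⟨U₁', U₂', h1', h2', h3'⟩
    refine ⟨U₁ * U₁', U₂ * U₂', ?_, ?_, ?_⟩
    · rw [map_mul]; exact h1.mul h1'
    · rw [map_mul]; exact h2.mul h2'
    · rw [← h3, ← h3']; ring
  neg_mem' := by
    rintro f ⟨U₁, U₂, h1, h2, h3⟩
    exact ⟨-U₁, U₂, by rw [map_neg]; exact h1.neg, h2, by rw [← h3]; ring⟩

variable {𝒪 ex}

theorem mem_gaussRing {f : L} : f ∈ gaussRing 𝒪 ex ↔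
    ∃ U₁ U₂ : L, IsInt 𝒪 (ex U₁) ∧ IsPrim 𝒪 (ex U₂) ∧ f * U₂ = U₁ := Iff.rfl

/-- fields `R_le_V`, `x_mem_V`: an element with integral expansion lies in the Gauss ring -/
theorem mem_gaussRing_of_isInt {f : L} (h : IsInt 𝒪 (ex f)) : f ∈ gaussRing 𝒪 ex :=
  ⟨f, 1, h, by rw [map_one]; exact isPrim_one, mul_one f⟩

theorem ne_zero_of_isPrim {f : L} (h : IsPrim 𝒪 (ex f)) : f ≠ 0 := by
  rintro rfl
  exact h.ne_zero (map_zero ex)

theorem inv_mem_gaussRing_of_isPrim {f : L} (h : IsPrim 𝒪 (ex f)) : f⁻¹ ∈ gaussRing 𝒪 ex :=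
  ⟨1, f, by rw [map_one]; exact isInt_one, h, inv_mul_cancel₀ (ne_zero_of_isPrim h)⟩

variable (𝒪 ex)

/-- The hypotheses: `𝒪` is discrete with uniformiser `w₀` and `w ∈ L` is the constant `w₀`. -/
structure GaussHyp (w₀ : K) (w : L) : Prop where
  disc : IsDiscrete 𝒪 w₀
  ex_w : ex w = HahnSeries.C w₀

/-- `U` has an expansion with bounded denominators -/
def IsBd (w : L) (U : L) : Prop := ∃ n : ℕ, IsInt 𝒪 (ex (U * w ^ n))

/-- `f` is a quotient of elements with bounded denominators (true for every element of a field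
generated by elements with integral expansions, `hasBd_of_mem_closure`) -/
def HasBd (w : L) (f : L) : Prop :=
  ∃ U₁ U₂ : L, U₂ ≠ 0 ∧ IsBd 𝒪 ex w U₁ ∧ IsBd 𝒪 ex w U₂ ∧ f * U₂ = U₁

variable {𝒪 ex} {w₀ : K} {w : L}

namespace GaussHyp

theorem w_ne_zero (h : GaussHyp 𝒪 ex w₀ w) : w ≠ 0 := by
  rintro rfl
  have h1 := h.ex_w
  rw [map_zero] at h1
  have h2 : (HahnSeries.C w₀ : LaurentSeries K) = HahnSeries.C 0 := by rw [← h1, map_zero]
  exact h.disc.w_ne (HahnSeries.C_injective h2)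

theorem coeff_mul_zpow (h : GaussHyp 𝒪 ex w₀ w) (U : L) (a : ℤ) (k : ℤ) :
    (ex (U * w ^ a)).coeff k = (ex U).coeff k * w₀ ^ a := by
  rw [map_mul, map_zpow₀, h.ex_w, ← map_zpow₀, coeff_mul_C_eq]

theorem isInt_mul_zpow (h : GaussHyp 𝒪 ex w₀ w) {U : L} (hU : IsInt 𝒪 (ex U)) {a : ℤ}
    (ha : 0 ≤ a) : IsInt 𝒪 (ex (U * w ^ a)) := by
  rw [isInt_iff]
  intro k
  rw [h.coeff_mul_zpow, map_mul, map_zpow₀]
  have h1 : 𝒪.valuation ((ex U).coeff k) ≤ 1 := (𝒪.valuation_le_one_iff _).mpr (hU k)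
  have h2 : 𝒪.valuation w₀ ^ a ≤ 1 :=
    (zpow_le_one_iff_right_of_lt_one₀ h.disc.w_pos h.disc.w_lt).mpr ha
  calc 𝒪.valuation ((ex U).coeff k) * 𝒪.valuation w₀ ^ a ≤ 1 * 1 := by gcongr
    _ = 1 := one_mul 1

/-- a nonzero element with bounded denominators is `w ^ (-a)` times a primitive one -/
theorem exists_prim_scale (h : GaussHyp 𝒪 ex w₀ w) {U : L} (hU : U ≠ 0)
    (hb : IsBd 𝒪 ex w U) : ∃ a : ℤ, IsPrim 𝒪 (ex (U * w ^ a)) := by
  obtain ⟨n, hn⟩ := hb
  have hexU : ex U ≠ 0 := fun h0 => hU ((map_eq_zero ex).mp h0)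
  have hbdd : ∃ b : ℤ, ∀ z : ℤ, (∃ k, (ex U).coeff k ≠ 0 ∧
      𝒪.valuation ((ex U).coeff k) = 𝒪.valuation w₀ ^ z) → b ≤ z := by
    refine ⟨-n, ?_⟩
    rintro z ⟨k, -, hk⟩
    have h1 := (isInt_iff.mp hn) k
    rw [← zpow_natCast w n, h.coeff_mul_zpow, map_mul, map_zpow₀, hk,
      ← zpow_add₀ h.disc.w_pos.ne'] at h1
    have := (zpow_le_one_iff_right_of_lt_one₀ h.disc.w_pos h.disc.w_lt).mp h1
    omega
  have hex : ∃ z : ℤ, ∃ k, (ex U).coeff k ≠ 0 ∧
      𝒪.valuation ((ex U).coeff k) = 𝒪.valuation w₀ ^ z := by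
    have : ∃ k, (ex U).coeff k ≠ 0 := by
      by_contra hcon
      push Not at hcon
      exact hexU (HahnSeries.ext (funext fun k => by rw [hcon k, HahnSeries.coeff_zero]))
    obtain ⟨k, hk⟩ := this
    obtain ⟨z, hz⟩ := h.disc.disc _ hk
    exact ⟨z, k, hk, hz⟩
  obtain ⟨m, ⟨k₀, -, hk₀v⟩, hmin⟩ := Int.exists_least_of_bdd hbdd hex
  refine ⟨-m, ?_, k₀, ?_⟩
  · rw [isInt_iff]
    intro k
    rw [h.coeff_mul_zpow, map_mul, map_zpow₀]
    by_cases hk : (ex U).coeff k = 0
    · rw [hk, map_zero, zero_mul]; exact zero_le_one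
    · obtain ⟨z, hz⟩ := h.disc.disc _ hk
      have hmz := hmin z ⟨k, hk, hz⟩
      rw [hz, ← zpow_add₀ h.disc.w_pos.ne']
      apply (zpow_le_one_iff_right_of_lt_one₀ h.disc.w_pos h.disc.w_lt).mpr
      omega
  · rw [h.coeff_mul_zpow, map_mul, map_zpow₀, hk₀v, ← zpow_add₀ h.disc.w_pos.ne',
      add_neg_cancel, zpow_zero]

/-- every nonzero element of `L` is `w ^ n` times a quotient of primitive elements -/
theorem exists_prim_quot (h : GaussHyp 𝒪 ex w₀ w) {f : L} (hbd : HasBd 𝒪 ex w f)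
    (hf : f ≠ 0) :
    ∃ (n : ℤ) (P₁ P₂ : L), IsPrim 𝒪 (ex P₁) ∧ IsPrim 𝒪 (ex P₂) ∧ f * w ^ n * P₂ = P₁ := by
  obtain ⟨U₁, U₂, hU₂, hb₁, hb₂, hfU⟩ := hbd
  have hU₁ : U₁ ≠ 0 := by rw [← hfU]; exact mul_ne_zero hf hU₂
  obtain ⟨a₁, ha₁⟩ := h.exists_prim_scale hU₁ hb₁
  obtain ⟨a₂, ha₂⟩ := h.exists_prim_scale hU₂ hb₂
  refine ⟨a₁ - a₂, U₁ * w ^ a₁, U₂ * w ^ a₂, ha₁, ha₂, ?_⟩
  rw [← hfU, zpow_sub₀ h.w_ne_zero]
  have := zpow_ne_zero a₂ h.w_ne_zero
  field_simp

/-- field `V_discrete` -/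
theorem discrete (h : GaussHyp 𝒪 ex w₀ w) {f : L} (hbd : HasBd 𝒪 ex w f) (hf : f ≠ 0) :
    ∃ n : ℤ, f * w ^ n ∈ gaussRing 𝒪 ex ∧ (f * w ^ n)⁻¹ ∈ gaussRing 𝒪 ex := by
  obtain ⟨n, P₁, P₂, h1, h2, h3⟩ := h.exists_prim_quot hbd hf
  refine ⟨n, ⟨P₁, P₂, h1.1, h2, h3⟩, ⟨P₂, P₁, h2.1, h1, ?_⟩⟩
  have hfw : f * w ^ n ≠ 0 := mul_ne_zero hf (zpow_ne_zero _ h.w_ne_zero)
  rw [← h3, ← mul_assoc, inv_mul_cancel₀ hfw, one_mul]

/-- field `V_total` -/
theorem total (h : GaussHyp 𝒪 ex w₀ w) {f : L} (hbd : HasBd 𝒪 ex w f) :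
    f ∈ gaussRing 𝒪 ex ∨ f⁻¹ ∈ gaussRing 𝒪 ex := by
  by_cases hf : f = 0
  · left; rw [hf]; exact (gaussRing 𝒪 ex).zero_mem
  obtain ⟨n, h1, h2⟩ := h.discrete hbd hf
  have hwV : ∀ a : ℤ, 0 ≤ a → w ^ a ∈ gaussRing 𝒪 ex := fun a ha => by
    have := h.isInt_mul_zpow (U := 1) (by rw [map_one]; exact isInt_one) ha
    rw [one_mul] at this
    exact mem_gaussRing_of_isInt this
  rcases le_total n 0 with hn | hn
  · left
    have : f = f * w ^ n * w ^ (-n) := by
      rw [mul_assoc, ← zpow_add₀ h.w_ne_zero, add_neg_cancel, zpow_zero, mul_one]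
    rw [this]
    exact (gaussRing 𝒪 ex).mul_mem h1 (hwV _ (by omega))
  · right
    have : f⁻¹ = (f * w ^ n)⁻¹ * w ^ n := by
      rw [mul_inv, mul_assoc, inv_mul_cancel₀ (zpow_ne_zero _ h.w_ne_zero), mul_one]
    rw [this]
    exact (gaussRing 𝒪 ex).mul_mem h2 (hwV _ hn)

/-- field `w_inv_not_mem_V` -/
theorem w_inv_notMem (h : GaussHyp 𝒪 ex w₀ w) : w⁻¹ ∉ gaussRing 𝒪 ex := by
  rintro ⟨U₁, U₂, h1, h2, h3⟩
  obtain ⟨k, hk⟩ := h2.2
  have hU₂ : U₂ = w * U₁ := by
    rw [← h3, ← mul_assoc, mul_inv_cancel₀ h.w_ne_zero, one_mul]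
  rw [hU₂, map_mul, h.ex_w, coeff_C_mul_eq, map_mul] at hk
  have h4 : 𝒪.valuation ((ex U₁).coeff k) ≤ 1 := (𝒪.valuation_le_one_iff _).mpr (h1 k)
  have h5 : 𝒪.valuation w₀ * 𝒪.valuation ((ex U₁).coeff k) < 1 :=
    mul_lt_one_of_lt_of_le h.disc.w_lt h4
  rw [hk] at h5
  exact lt_irrefl _ h5

end GaussHyp

/-! ### Bounded denominators are inherited by generated subfields -/

theorem isBd_of_isInt {w : L} {U : L} (h : IsInt 𝒪 (ex U)) : IsBd 𝒪 ex w U :=
  ⟨0, by rwa [pow_zero, mul_one]⟩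

theorem IsBd.mono (h : GaussHyp 𝒪 ex w₀ w) {U : L} {n n' : ℕ} (hn : n ≤ n')
    (hU : IsInt 𝒪 (ex (U * w ^ n))) : IsInt 𝒪 (ex (U * w ^ n')) := by
  obtain ⟨d, rfl⟩ := Nat.exists_eq_add_of_le hn
  have h1 := h.isInt_mul_zpow hU (a := (d : ℤ)) (by omega)
  have h2 : U * w ^ (n + d) = U * w ^ n * w ^ (d : ℤ) := by
    rw [zpow_natCast, _root_.pow_add, mul_assoc]
  rwa [h2]

theorem IsBd.add (h : GaussHyp 𝒪 ex w₀ w) {U U' : L} (hU : IsBd 𝒪 ex w U)
    (hU' : IsBd 𝒪 ex w U') : IsBd 𝒪 ex w (U + U') := by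
  obtain ⟨n, hn⟩ := hU
  obtain ⟨n', hn'⟩ := hU'
  refine ⟨max n n', ?_⟩
  have h1 := IsBd.mono h (le_max_left n n') hn
  have h2 := IsBd.mono h (le_max_right n n') hn'
  rw [add_mul, map_add]
  exact h1.add h2

theorem IsBd.neg {w : L} {U : L} (hU : IsBd 𝒪 ex w U) : IsBd 𝒪 ex w (-U) := by
  obtain ⟨n, hn⟩ := hU
  exact ⟨n, by rw [neg_mul, map_neg]; exact hn.neg⟩

theorem IsBd.mul {w : L} {U U' : L} (hU : IsBd 𝒪 ex w U) (hU' : IsBd 𝒪 ex w U') :
    IsBd 𝒪 ex w (U * U') := by
  obtain ⟨n, hn⟩ := hU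
  obtain ⟨n', hn'⟩ := hU'
  refine ⟨n + n', ?_⟩
  have : U * U' * w ^ (n + n') = U * w ^ n * (U' * w ^ n') := by rw [_root_.pow_add]; ring
  rw [this, map_mul]
  exact hn.mul hn'

theorem isBd_zero {w : L} : IsBd 𝒪 ex w 0 := isBd_of_isInt (by rw [map_zero]; exact isInt_zero)

theorem isBd_one {w : L} : IsBd 𝒪 ex w 1 := isBd_of_isInt (by rw [map_one]; exact isInt_one)

theorem hasBd_of_isBd {w : L} {U : L} (h : IsBd 𝒪 ex w U) : HasBd 𝒪 ex w U :=
  ⟨U, 1, one_ne_zero, h, isBd_one, mul_one U⟩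

theorem HasBd.add (h : GaussHyp 𝒪 ex w₀ w) {f g : L} (hf : HasBd 𝒪 ex w f)
    (hg : HasBd 𝒪 ex w g) : HasBd 𝒪 ex w (f + g) := by
  obtain ⟨U₁, U₂, h0, h1, h2, h3⟩ := hf
  obtain ⟨U₁', U₂', h0', h1', h2', h3'⟩ := hg
  refine ⟨U₁ * U₂' + U₁' * U₂, U₂ * U₂', mul_ne_zero h0 h0',
    IsBd.add h (h1.mul h2') (h1'.mul h2), h2.mul h2', ?_⟩
  rw [← h3, ← h3']; ring

theorem HasBd.neg {w : L} {f : L} (hf : HasBd 𝒪 ex w f) : HasBd 𝒪 ex w (-f) := by
  obtain ⟨U₁, U₂, h0, h1, h2, h3⟩ := hf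
  exact ⟨-U₁, U₂, h0, h1.neg, h2, by rw [← h3]; ring⟩

theorem HasBd.mul {w : L} {f g : L} (hf : HasBd 𝒪 ex w f) (hg : HasBd 𝒪 ex w g) :
    HasBd 𝒪 ex w (f * g) := by
  obtain ⟨U₁, U₂, h0, h1, h2, h3⟩ := hf
  obtain ⟨U₁', U₂', h0', h1', h2', h3'⟩ := hg
  refine ⟨U₁ * U₁', U₂ * U₂', mul_ne_zero h0 h0', h1.mul h1', h2.mul h2', ?_⟩
  rw [← h3, ← h3']; ring

theorem HasBd.inv {w : L} {f : L} (hf : HasBd 𝒪 ex w f) : HasBd 𝒪 ex w f⁻¹ := by
  by_cases hf0 : f = 0
  · rw [hf0, inv_zero]; exact hasBd_of_isBd isBd_zero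
  obtain ⟨U₁, U₂, h0, h1, h2, h3⟩ := hf
  have hU₁ : U₁ ≠ 0 := by rw [← h3]; exact mul_ne_zero hf0 h0
  refine ⟨U₂, U₁, hU₁, h2, h1, ?_⟩
  rw [← h3, ← mul_assoc, inv_mul_cancel₀ hf0, one_mul]

/-- every element of the subfield generated by elements with bounded denominators is a quotient of
elements with bounded denominators -/
theorem hasBd_of_mem_closure (h : GaussHyp 𝒪 ex w₀ w) {S : Set L}
    (hS : ∀ s ∈ S, IsBd 𝒪 ex w s) {f : L} (hf : f ∈ Subfield.closure S) : HasBd 𝒪 ex w f := by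
  induction hf using Subfield.closure_induction with
  | mem z hz => exact hasBd_of_isBd (hS z hz)
  | one => exact hasBd_of_isBd isBd_one
  | add y z _ _ hy hz => exact hy.add h hz
  | neg y _ hy => exact hy.neg
  | inv y _ hy => exact hy.inv
  | mul y z _ _ hy hz => exact hy.mul hz


/-! ### The `gauss` field: primitive polynomials in a coordinate with a pole -/

theorem IsInt.sum {ι : Type*} (s : Finset ι) (F : ι → LaurentSeries K)
    (h : ∀ i ∈ s, IsInt 𝒪 (F i)) : IsInt 𝒪 (∑ i ∈ s, F i) := fun k => by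
  rw [HahnSeries.coeff_sum]
  exact 𝒪.toSubring.sum_mem fun i hi => h i hi k

theorem leadingCoeff_pow' (y : LaurentSeries K) (i : ℕ) :
    (y ^ i).leadingCoeff = y.leadingCoeff ^ i := by
  induction i with
  | zero =>
    rw [pow_zero, pow_zero]
    have : (1 : LaurentSeries K) = HahnSeries.C 1 := (map_one _).symm
    rw [this, HahnSeries.leadingCoeff_eq, HahnSeries.order_C, coeff_C_eq, if_pos rfl]
  | succ i ih => rw [pow_succ, HahnSeries.leadingCoeff_mul, ih, pow_succ]

/-- A polynomial with coefficients in `𝒪`, one of them a unit, in a coordinate `x` whose expansion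
is integral with a pole of order `m > 0` and unit leading coefficient, has primitive expansion. -/
theorem isPrim_sum_of_pole {x : L} (hx : IsInt 𝒪 (ex x)) {m : ℕ} (hm : 0 < m)
    (hord : (ex x).order = -(m : ℤ)) (hlead : 𝒪.valuation (ex x).leadingCoeff = 1)
    (c : ℕ → L) (c₀ : ℕ → K) (hc : ∀ i, ex (c i) = HahnSeries.C (c₀ i)) (hc₀ : ∀ i, c₀ i ∈ 𝒪)
    (N : ℕ) (hunit : ∃ i, i ≤ N ∧ 𝒪.valuation (c₀ i) = 1) :
    IsPrim 𝒪 (ex (∑ i ∈ Finset.range (N + 1), c i * x ^ i)) := by
  classical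
  set v := 𝒪.valuation with hv
  set y := ex x with hy
  have hexp : ex (∑ i ∈ Finset.range (N + 1), c i * x ^ i)
      = ∑ i ∈ Finset.range (N + 1), HahnSeries.C (c₀ i) * y ^ i := by
    rw [map_sum]
    refine Finset.sum_congr rfl fun i _ => ?_
    rw [map_mul, map_pow, hc]
  rw [hexp]
  have hyint : ∀ i, IsInt 𝒪 (y ^ i) := fun i => hx.pow i
  refine ⟨IsInt.sum _ _ fun i _ => (isInt_C (hc₀ i)).mul (hyint i), ?_⟩
  -- the largest index with a unit coefficient
  obtain ⟨i₁, hi₁N, hi₁⟩ := hunit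
  set d := Nat.findGreatest (fun i => v (c₀ i) = 1) N with hd
  have hdN : d ≤ N := Nat.findGreatest_le N
  have hd1 : v (c₀ d) = 1 := Nat.findGreatest_spec (P := fun i => v (c₀ i) = 1) hi₁N hi₁
  have hgt : ∀ i, d < i → i ≤ N → v (c₀ i) < 1 := fun i hdi hiN => by
    refine lt_of_le_of_ne ((𝒪.valuation_le_one_iff _).mpr (hc₀ i)) fun h1 => ?_
    exact Nat.findGreatest_is_greatest (P := fun i => v (c₀ i) = 1) hdi hiN h1
  have hy0 : y ≠ 0 := by
    intro h0
    rw [h0, HahnSeries.leadingCoeff_zero, map_zero] at hlead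
    exact zero_ne_one hlead
  have hordi : ∀ i : ℕ, (y ^ i).order = -((m : ℤ) * i) := fun i => by
    rw [HahnSeries.order_pow, hord]
    simp
    ring
  refine ⟨-((m : ℤ) * d), ?_⟩
  rw [HahnSeries.coeff_sum]
  have hmem : d ∈ Finset.range (N + 1) := Finset.mem_range.mpr (by omega)
  rw [← Finset.add_sum_erase _ _ hmem]
  have hmain : v ((HahnSeries.C (c₀ d) * y ^ d).coeff (-((m : ℤ) * d))) = 1 := by
    rw [coeff_C_mul_eq, map_mul, hd1, one_mul]
    have : (y ^ d).coeff (-((m : ℤ) * d)) = (y ^ d).leadingCoeff := by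
      rw [HahnSeries.leadingCoeff_eq, hordi]
    rw [this, leadingCoeff_pow', map_pow, hlead, one_pow]
  have hrest : v (∑ i ∈ (Finset.range (N + 1)).erase d,
      (HahnSeries.C (c₀ i) * y ^ i).coeff (-((m : ℤ) * d))) < 1 := by
    apply Valuation.map_sum_lt v one_ne_zero
    intro i hi
    rw [Finset.mem_erase, Finset.mem_range] at hi
    obtain ⟨hne, hiN⟩ := hi
    rw [coeff_C_mul_eq, map_mul]
    rcases lt_or_gt_of_ne hne with hlt | hgt'
    · -- `i < d`: the coefficient vanishes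
      have h0 : (y ^ i).coeff (-((m : ℤ) * d)) = 0 := by
        apply HahnSeries.coeff_eq_zero_of_lt_order
        rw [hordi]
        have h1 : (i : ℤ) < d := by exact_mod_cast hlt
        have h2 : (0 : ℤ) < m := by exact_mod_cast hm
        nlinarith
      rw [h0, map_zero, mul_zero]
      exact zero_lt_one
    · have h1 : v ((y ^ i).coeff (-((m : ℤ) * d))) ≤ 1 :=
        (𝒪.valuation_le_one_iff _).mpr (hyint i _)
      exact mul_lt_one_of_lt_of_le (hgt i hgt' (by omega)) h1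
  rw [Valuation.map_add_eq_of_lt_left v (by rw [hmain]; exact hrest), hmain]

/-! ### The `t_V` field: the substitution `X ↦ ζ X` -/

theorem isInt_of_twist {ζ : K} (hζ : 𝒪.valuation ζ = 1) {s s' : LaurentSeries K}
    (h : ∀ k : ℤ, s'.coeff k = ζ ^ k * s.coeff k) (hs : IsInt 𝒪 s) : IsInt 𝒪 s' := by
  rw [isInt_iff] at hs ⊢
  intro k
  rw [h k, map_mul, map_zpow₀, hζ, one_zpow, one_mul]
  exact hs k

theorem isPrim_of_twist {ζ : K} (hζ : 𝒪.valuation ζ = 1) {s s' : LaurentSeries K}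
    (h : ∀ k : ℤ, s'.coeff k = ζ ^ k * s.coeff k) (hs : IsPrim 𝒪 s) : IsPrim 𝒪 s' := by
  refine ⟨isInt_of_twist hζ h hs.1, ?_⟩
  obtain ⟨k, hk⟩ := hs.2
  exact ⟨k, by rw [h k, map_mul, map_zpow₀, hζ, one_zpow, one_mul, hk]⟩

theorem mem_gaussRing_of_twist (τ : L →+* L) {ζ : K} (hζ : 𝒪.valuation ζ = 1)
    (hτ : ∀ (f : L) (k : ℤ), (ex (τ f)).coeff k = ζ ^ k * (ex f).coeff k) {f : L}
    (hf : f ∈ gaussRing 𝒪 ex) : τ f ∈ gaussRing 𝒪 ex := by
  obtain ⟨U₁, U₂, h1, h2, h3⟩ := hf
  exact ⟨τ U₁, τ U₂, isInt_of_twist hζ (hτ U₁) h1, isPrim_of_twist hζ (hτ U₂) h2,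
    by rw [← map_mul, h3]⟩

/-- **Field `t_V`.**  An automorphism acting on expansions by `X ↦ ζ X`, `ζ` a unit of `𝒪`,
preserves the Gauss valuation ring. -/
theorem smul_mem_gaussRing_iff (τ : L ≃+* L) {ζ : K} (hζ : 𝒪.valuation ζ = 1)
    (hτ : ∀ (f : L) (k : ℤ), (ex (τ f)).coeff k = ζ ^ k * (ex f).coeff k) (f : L) :
    τ f ∈ gaussRing 𝒪 ex ↔ f ∈ gaussRing 𝒪 ex := by
  have hζ0 : ζ ≠ 0 := by
    intro h0
    rw [h0, map_zero] at hζ
    exact zero_ne_one hζ
  constructor
  · intro h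
    have hζ' : 𝒪.valuation ζ⁻¹ = 1 := by rw [map_inv₀, hζ, inv_one]
    have hτ' : ∀ (g : L) (k : ℤ),
        (ex ((τ.symm : L →+* L) g)).coeff k = ζ⁻¹ ^ k * (ex g).coeff k := by
      intro g k
      have h1 := hτ (τ.symm g) k
      rw [RingEquiv.apply_symm_apply] at h1
      rw [h1, ← mul_assoc, ← mul_zpow, inv_mul_cancel₀ hζ0, one_zpow, one_mul]
      rfl
    have := mem_gaussRing_of_twist (τ.symm : L →+* L) hζ' hτ' h
    simpa using this
  · exact mem_gaussRing_of_twist (τ : L →+* L) hζ hτ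

end Field

end Fermat.Agent.S48.H856

end
-- ===== PACK-END S48/H856/GaussRing.lean

-- ===== PACK-BEGIN S48/H68/GaussNormal.lean
section
/-
S48 / Tower A1 (helper68) — leaf PGI1 / VAL1 in FUNCTION form, GENERIC part.

`F₀ = ℚ(S) ⊆ ℚ((q))` generated by series with INTEGRAL coefficients, `A ⊆ ℚ̄` a valuation subring over
a prime.  Every nonzero `f ∈ ℚ̄ · F₀` is `c · U₁ / U₂` with `c ∈ ℚ̄ˣ` and `U₁, U₂ ∈ A((q))` lying in
`ℚ̄ · F₀`, with NONZERO reduction modulo the maximal ideal of `A` (Gauss normalisation).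

Route: descent of `f` to a number field `E` (`S18.H602.exists_finite_descent`), `A ∩ E` is a discrete
valuation ring (`S18.H602.isDiscreteValuationRing_RE`), bounded denominators on the field generated
by integral series and division by the coefficient of minimal valuation
(`S48.H856.GaussHyp.exists_prim_quot`).  No reduction field, no CoreData, no degree argument.
-/



set_option autoImplicit false
set_option linter.style.haveILetI false

noncomputable section

namespace Fermat.Agent.S48.H68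

open ModularCurve AlgebraicCurve HahnSeries IsLocalRing
open Fermat.Agent.S18.H602 (RE toA)
open Fermat.Agent.S48.H856 (IsInt IsPrim IsBd HasBd GaussHyp IsDiscrete)

local notation "Q̄" => AlgebraicClosure ℚ

/-! ### A discrete valuation subring has a uniformiser in the sense of `H856.IsDiscrete` -/

theorem exists_isDiscrete_of_dvr {K : Type*} [Field K] (V : ValuationSubring K)
    [IsDiscreteValuationRing V] : ∃ w₀ : K, IsDiscrete V w₀ := by
  obtain ⟨ϖ, hϖ⟩ := IsDiscreteValuationRing.exists_irreducible V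
  refine ⟨(ϖ : K), ?_, ?_, ?_⟩
  · have h1 : ϖ ∈ IsLocalRing.maximalIdeal V := by
      rw [IsLocalRing.mem_maximalIdeal, mem_nonunits_iff]
      exact hϖ.not_isUnit
    exact (ValuationSubring.valuation_lt_one_iff V ϖ).mp h1
  · intro h0
    exact hϖ.ne_zero (Subtype.ext h0)
  · intro y hy
    obtain ⟨n, u, hu⟩ :=
      IsDiscreteValuationRing.exists_units_eq_smul_zpow_of_irreducible (K := K) hϖ hy
    refine ⟨n, ?_⟩
    rw [hu, Units.smul_def, Algebra.smul_def, map_mul, map_zpow₀]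
    have h1 : V.valuation (algebraMap V K (u : V)) = 1 := V.valuation_unit u
    rw [h1, one_mul]
    rfl

/-! ### Bounded denominators on `E · F₀` -/

section Bd

variable {E : Type*} [Field E] [Algebra ℚ E] (𝒪 : ValuationSubring E) (w₀ : E)
  (F₀ : IntermediateField ℚ (LaurentSeries ℚ))

/-- The expansion map of the field `E · F₀`: the inclusion into `E((q))`. -/
abbrev exL : ↥(laurentBaseChange E F₀) →+* LaurentSeries E :=
  (laurentBaseChange E F₀).val.toRingHom

/-- The constant `w₀` as an element of `E · F₀`. -/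
abbrev wL : ↥(laurentBaseChange E F₀) := algebraMap E ↥(laurentBaseChange E F₀) w₀

omit [Algebra ℚ E] in
theorem algebraMap_eq_C (a : E) :
    algebraMap E (LaurentSeries E) a = (HahnSeries.C a : LaurentSeries E) := by
  rw [algebraMap_laurentSeries_eq_single]
  rfl

theorem gaussHyp_exL (hd : IsDiscrete 𝒪 w₀) : GaussHyp 𝒪 (exL F₀) w₀ (wL w₀ F₀) :=
  ⟨hd, algebraMap_eq_C w₀⟩

variable {𝒪 w₀ F₀}

theorem hasBd_const (a : E) :
    HasBd 𝒪 (exL F₀) (wL w₀ F₀) (algebraMap E ↥(laurentBaseChange E F₀) a) := by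
  have key : ∀ b : E, b ∈ 𝒪 →
      HasBd 𝒪 (exL F₀) (wL w₀ F₀) (algebraMap E ↥(laurentBaseChange E F₀) b) := by
    intro b hb
    refine Fermat.Agent.S48.H856.hasBd_of_isBd (Fermat.Agent.S48.H856.isBd_of_isInt ?_)
    show IsInt 𝒪 (algebraMap E (LaurentSeries E) b)
    rw [algebraMap_eq_C]
    exact Fermat.Agent.S48.H856.isInt_C hb
  rcases 𝒪.mem_or_inv_mem a with ha | ha
  · exact key a ha
  · have h := (key a⁻¹ ha).inv
    rwa [← map_inv₀, inv_inv] at h

variable (𝒪 w₀ F₀)

/-- The elements of `E · F₀` which are quotients of elements with bounded denominators, as a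
subfield of `E((q))`. -/
def bdSubfield (hd : IsDiscrete 𝒪 w₀) : Subfield (LaurentSeries E) where
  carrier := {x | ∃ a : ↥(laurentBaseChange E F₀),
    HasBd 𝒪 (exL F₀) (wL w₀ F₀) a ∧ (a : LaurentSeries E) = x}
  mul_mem' := by
    rintro _ _ ⟨a, ha, rfl⟩ ⟨b, hb, rfl⟩
    exact ⟨a * b, ha.mul hb, IntermediateField.coe_mul _ a b⟩
  one_mem' := ⟨1, Fermat.Agent.S48.H856.hasBd_of_isBd Fermat.Agent.S48.H856.isBd_one,
    IntermediateField.coe_one _⟩
  add_mem' := by
    rintro _ _ ⟨a, ha, rfl⟩ ⟨b, hb, rfl⟩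
    exact ⟨a + b, ha.add (gaussHyp_exL 𝒪 w₀ F₀ hd) hb, IntermediateField.coe_add _ a b⟩
  zero_mem' := ⟨0, Fermat.Agent.S48.H856.hasBd_of_isBd Fermat.Agent.S48.H856.isBd_zero,
    IntermediateField.coe_zero _⟩
  neg_mem' := by
    rintro _ ⟨a, ha, rfl⟩
    exact ⟨-a, ha.neg, IntermediateField.coe_neg _ a⟩
  inv_mem' := by
    rintro _ ⟨a, ha, rfl⟩
    exact ⟨a⁻¹, ha.inv, IntermediateField.coe_inv _ a⟩

variable {𝒪 w₀ F₀}

theorem mem_bdSubfield (hd : IsDiscrete 𝒪 w₀) {x : LaurentSeries E} :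
    x ∈ bdSubfield 𝒪 w₀ F₀ hd ↔
      ∃ a : ↥(laurentBaseChange E F₀),
        HasBd 𝒪 (exL F₀) (wL w₀ F₀) a ∧ (a : LaurentSeries E) = x := Iff.rfl

theorem algebraMap_mem_bdSubfield (hd : IsDiscrete 𝒪 w₀) (a : E) :
    algebraMap E (LaurentSeries E) a ∈ bdSubfield 𝒪 w₀ F₀ hd :=
  ⟨algebraMap E ↥(laurentBaseChange E F₀) a, hasBd_const a, rfl⟩

/-- The image of an integral series lies in `bdSubfield`. -/
theorem coeffMap_int_mem_bdSubfield (hd : IsDiscrete 𝒪 w₀) (X : LaurentSeries ℤ)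
    (hX : coeffMap (Int.castRingHom E) X ∈ laurentBaseChange E F₀) :
    coeffMap (Int.castRingHom E) X ∈ bdSubfield 𝒪 w₀ F₀ hd := by
  refine ⟨⟨_, hX⟩, Fermat.Agent.S48.H856.hasBd_of_isBd
    (Fermat.Agent.S48.H856.isBd_of_isInt ?_), rfl⟩
  intro k
  show (coeffMap (Int.castRingHom E) X).coeff k ∈ 𝒪
  rw [coeffMap_coeff]
  exact intCast_mem 𝒪 _

end Bd

/-! ### Fields generated by integral series -/

section Gens

variable {E : Type*} [Field E] [Algebra ℚ E] {𝒪 : ValuationSubring E} {w₀ : E}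

/-- `S` consists of (images of) Laurent series with integral coefficients. -/
def IntegralGens (S : Set (LaurentSeries ℚ)) : Prop :=
  ∀ s ∈ S, ∃ X : LaurentSeries ℤ, s = coeffMap (Int.castRingHom ℚ) X

theorem coeffEmb_intCast (X : LaurentSeries ℤ) :
    coeffEmb E (coeffMap (Int.castRingHom ℚ) X) = coeffMap (Int.castRingHom E) X := by
  rw [coeffEmb, coeffMap_coeffMap]
  exact coeffMap_congr (RingHom.ext_int _ _) X

omit [Algebra ℚ E] in
theorem coeffMap_C' {E' : Type*} [Field E'] (φ : E →+* E') (a : E) :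
    coeffMap φ (HahnSeries.C a : LaurentSeries E) = HahnSeries.C (φ a) := by
  show coeffMap φ (HahnSeries.single 0 a) = HahnSeries.single 0 (φ a)
  rw [coeffMap_single]

/-- Every element of `E · ℚ(S)` is a quotient of elements with bounded denominators. -/
theorem le_bdSubfield (hd : IsDiscrete 𝒪 w₀) {S : Set (LaurentSeries ℚ)} (hS : IntegralGens S) :
    (laurentBaseChange E (IntermediateField.adjoin ℚ S)).toSubfield
      ≤ bdSubfield 𝒪 w₀ (IntermediateField.adjoin ℚ S) hd := by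
  intro x hx
  have hx' : x ∈ Subfield.closure (Set.range (algebraMap E (LaurentSeries E)) ∪
      (⇑(coeffEmb E) '' ((IntermediateField.adjoin ℚ S : IntermediateField ℚ (LaurentSeries ℚ)) :
        Set (LaurentSeries ℚ)))) := mem_laurentBaseChange_iff.1 hx
  refine Subfield.closure_le.2 ?_ hx'
  rintro y (⟨a, rfl⟩ | ⟨z, hz, rfl⟩)
  · exact algebraMap_mem_bdSubfield hd a
  · have hz' : z ∈ Subfield.closure (Set.range (algebraMap ℚ (LaurentSeries ℚ)) ∪ S) := hz
    have hle : Subfield.closure (Set.range (algebraMap ℚ (LaurentSeries ℚ)) ∪ S)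
        ≤ (bdSubfield 𝒪 w₀ (IntermediateField.adjoin ℚ S) hd).comap (coeffEmb E) := by
      refine Subfield.closure_le.2 ?_
      rintro t (⟨r, rfl⟩ | ht)
      · show coeffEmb E (algebraMap ℚ (LaurentSeries ℚ) r)
          ∈ bdSubfield 𝒪 w₀ (IntermediateField.adjoin ℚ S) hd
        rw [coeffEmb, Fermat.Agent.S18.H602.coeffMap_algebraMap']
        exact algebraMap_mem_bdSubfield hd _
      · obtain ⟨X, rfl⟩ := hS t ht
        show coeffEmb E (coeffMap (Int.castRingHom ℚ) X)
          ∈ bdSubfield 𝒪 w₀ (IntermediateField.adjoin ℚ S) hd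
        have hmem := coeffEmb_mem_laurentBaseChange E
          (IntermediateField.subset_adjoin ℚ S ht)
        rw [coeffEmb_intCast] at hmem ⊢
        exact coeffMap_int_mem_bdSubfield hd X hmem
    exact hle hz'

/-- **Gauss normalisation over a discrete valuation ring**: every nonzero element of `E · ℚ(S)` is
`w₀ ^ (-n)` times a quotient of two primitive series of `E · ℚ(S)`. -/
theorem exists_prim_quot_lbc (hd : IsDiscrete 𝒪 w₀) {S : Set (LaurentSeries ℚ)}
    (hS : IntegralGens S) {y : LaurentSeries E}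
    (hy : y ∈ laurentBaseChange E (IntermediateField.adjoin ℚ S)) (hy0 : y ≠ 0) :
    ∃ (n : ℤ) (P₁ P₂ : LaurentSeries E),
      P₁ ∈ laurentBaseChange E (IntermediateField.adjoin ℚ S) ∧
      P₂ ∈ laurentBaseChange E (IntermediateField.adjoin ℚ S) ∧
      IsPrim 𝒪 P₁ ∧ IsPrim 𝒪 P₂ ∧ y * (HahnSeries.C w₀ : LaurentSeries E) ^ n * P₂ = P₁ := by
  obtain ⟨a, ha, rfl⟩ := le_bdSubfield hd hS hy
  have ha0 : a ≠ 0 := by
    rintro rfl
    exact hy0 rfl
  obtain ⟨n, P₁, P₂, h1, h2, h3⟩ :=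
    (gaussHyp_exL 𝒪 w₀ (IntermediateField.adjoin ℚ S) hd).exists_prim_quot ha ha0
  refine ⟨n, P₁, P₂, P₁.2, P₂.2, h1, h2, ?_⟩
  have h4 := congrArg (exL (IntermediateField.adjoin ℚ S)) h3
  rw [map_mul, map_mul, map_zpow₀] at h4
  have h5 : exL (IntermediateField.adjoin ℚ S) (wL w₀ (IntermediateField.adjoin ℚ S))
      = (HahnSeries.C w₀ : LaurentSeries E) := algebraMap_eq_C w₀
  rw [h5] at h4
  exact h4

end Gens

/-! ### Transport to `A ⊆ ℚ̄` -/

section Transport

variable (A : ValuationSubring Q̄) (E : IntermediateField ℚ Q̄)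

/-- A primitive series over `A ∩ E` gives a series over `A` with nonzero reduction. -/
theorem exists_lift_of_isPrim {P : LaurentSeries E} (hP : IsPrim (RE A E) P) :
    ∃ U : LaurentSeries A, coeffMap A.subtype U = coeffMap (algebraMap E Q̄) P ∧
      coeffMap (residue A) U ≠ 0 := by
  have hc : ∀ n, (coeffMap (algebraMap E Q̄) P).coeff n ∈ Set.range A.subtype := fun n =>
    ⟨⟨algebraMap E Q̄ (P.coeff n), hP.1 n⟩, rfl⟩
  obtain ⟨U, hU⟩ := Fermat.Agent.S18.H602.exists_coeffMap_eq A.subtype Subtype.val_injective _ hc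
  refine ⟨U, hU, ?_⟩
  obtain ⟨k, hk⟩ := hP.2
  intro h0
  have h1 : residue A (U.coeff k) = 0 := by
    have h2 := congrArg (fun z => z.coeff k) h0
    simpa using h2
  have hUk : ((U.coeff k : A) : Q̄) = algebraMap E Q̄ (P.coeff k) := by
    have h2 := congrArg (fun z => z.coeff k) hU
    simpa using h2
  have hne : P.coeff k ≠ 0 := by
    intro h
    rw [h, map_zero] at hk
    exact zero_ne_one hk
  have hinv : (P.coeff k)⁻¹ ∈ RE A E := by
    rw [← ValuationSubring.valuation_le_one_iff, map_inv₀, hk, inv_one]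
  have hunit : IsUnit (U.coeff k) := by
    refine isUnit_iff_exists_inv.2 ⟨⟨algebraMap E Q̄ (P.coeff k)⁻¹, hinv⟩, Subtype.ext ?_⟩
    show ((U.coeff k : A) : Q̄) * algebraMap E Q̄ (P.coeff k)⁻¹ = 1
    rw [hUk, ← map_mul, mul_inv_cancel₀ hne, map_one]
  have h3 : U.coeff k ∈ IsLocalRing.maximalIdeal A := (IsLocalRing.residue_eq_zero_iff _).1 h1
  exact (IsLocalRing.mem_maximalIdeal _).1 h3 hunit

end Transport

/-! ### The main theorem -/

/-- **Gauss normalisation (function form of PGI, no reduction field).**  Let `F₀ = ℚ(S)` be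
generated by series with integral coefficients and let `A ⊆ ℚ̄` be a valuation subring over a
prime `ℓ`.  Every nonzero `f ∈ ℚ̄ · F₀` satisfies `f · U₂ = c · U₁` with `c ∈ ℚ̄ˣ` and
`U₁, U₂ ∈ A((q))` lying in `ℚ̄ · F₀` with nonzero reduction. -/
theorem exists_gauss_normal {S : Set (LaurentSeries ℚ)} (hS : IntegralGens S)
    (A : ValuationSubring Q̄) {ℓ : ℕ} (hℓ : ℓ ≠ 0) (hA : (ℓ : Q̄) ∈ A.nonunits)
    {f : LaurentSeries Q̄} (hf : f ∈ laurentBaseChange Q̄ (IntermediateField.adjoin ℚ S))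
    (hf0 : f ≠ 0) :
    ∃ (c : Q̄) (U₁ U₂ : LaurentSeries A), c ≠ 0 ∧
      coeffMap A.subtype U₁ ∈ laurentBaseChange Q̄ (IntermediateField.adjoin ℚ S) ∧
      coeffMap (residue A) U₁ ≠ 0 ∧
      coeffMap A.subtype U₂ ∈ laurentBaseChange Q̄ (IntermediateField.adjoin ℚ S) ∧
      coeffMap (residue A) U₂ ≠ 0 ∧
      f * coeffMap A.subtype U₂ = (HahnSeries.C c : LaurentSeries Q̄) * coeffMap A.subtype U₁ := by
  obtain ⟨E, hE, y, hy, rfl⟩ := Fermat.Agent.S18.H602.exists_finite_descent hf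
  haveI := hE
  haveI : IsDiscreteValuationRing ↥(RE A E) :=
    Fermat.Agent.S18.H602.isDiscreteValuationRing_RE A E hℓ hA
  obtain ⟨w₀, hd⟩ := exists_isDiscrete_of_dvr (RE A E)
  have hy0 : y ≠ 0 := by
    rintro rfl
    exact hf0 (map_zero _)
  obtain ⟨n, P₁, P₂, hP₁, hP₂, hp₁, hp₂, hrel⟩ := exists_prim_quot_lbc hd hS hy hy0
  obtain ⟨U₁, hU₁, hr₁⟩ := exists_lift_of_isPrim A E hp₁
  obtain ⟨U₂, hU₂, hr₂⟩ := exists_lift_of_isPrim A E hp₂
  have hw : algebraMap E Q̄ w₀ ≠ 0 := by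
    rw [Ne, map_eq_zero]
    exact hd.w_ne
  have hCw : (HahnSeries.C (algebraMap E Q̄ w₀) : LaurentSeries Q̄) ≠ 0 := by
    rw [Ne, map_eq_zero]
    exact hw
  refine ⟨(algebraMap E Q̄ w₀) ^ (-n), U₁, U₂, zpow_ne_zero _ hw, ?_, hr₁, ?_, hr₂, ?_⟩
  · rw [hU₁]
    exact Fermat.Agent.S18.H602.coeffMap_mem_laurentBaseChange _ _ hP₁
  · rw [hU₂]
    exact Fermat.Agent.S18.H602.coeffMap_mem_laurentBaseChange _ _ hP₂
  · have h1 := congrArg (coeffMap (algebraMap E Q̄)) hrel
    rw [map_mul, map_mul, map_zpow₀, coeffMap_C'] at h1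
    rw [hU₁, hU₂, ← h1, map_zpow₀, zpow_neg]
    field_simp

end Fermat.Agent.S48.H68

end
end
-- ===== PACK-END S48/H68/GaussNormal.lean

-- ===== PACK-BEGIN S24/Mod/H368Gens.lean
section



/-!
# S24 / MOD glue (helper368): generators of the function field of `X₀(N)`

The Prelude defines `modularFunctionFieldBar N` as the field generated over `ℚ̄` by the image
of the whole field `ℚ(j(q^d) : d ∣ N)`.  Here we show it is generated by the finitely many
series `j(q^d)`, `d ∣ N`, and deduce the `MvPolynomial` presentation used to construct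
embeddings.
-/

set_option autoImplicit false
set_option linter.style.haveILetI false

noncomputable section

open ModularCurve IntermediateField MvPolynomial

namespace Fermat.Agent.S24.H368

variable (L : Type*) [Field L] [Algebra ℚ L]

/-- `j(q^d)` with coefficients in `L`, for a divisor `d` of `N`. -/
def gen (N : ℕ) (d : N.divisors) : LaurentSeries L :=
  haveI : NeZero d.1 := ⟨(Nat.pos_of_mem_divisors d.2).ne'⟩
  coeffEmb L (qExpand ℚ d.1 jq)

theorem gen_eq (N : ℕ) (d : ℕ) [NeZero d] (hd : d ∈ N.divisors) :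
    gen L N ⟨d, hd⟩ = coeffEmb L (qExpand ℚ d jq) := rfl

theorem gen_one (N : ℕ) [NeZero N] :
    gen L N ⟨1, Nat.one_mem_divisors.2 (NeZero.ne N)⟩ = coeffEmb L jq := by
  rw [gen_eq, qExpand_one_apply]

/-- The image under `coeffEmb` of the field generated by a set lies in the field generated by
the image of the set. -/
theorem coeffEmb_mem_adjoin_image (T : Set (LaurentSeries ℚ)) {x : LaurentSeries ℚ}
    (hx : x ∈ IntermediateField.adjoin ℚ T) :
    coeffEmb L x ∈ IntermediateField.adjoin L (⇑(coeffEmb L) '' T) := by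
  induction hx using IntermediateField.adjoin_induction with
  | mem y hy => exact subset_adjoin L _ ⟨y, hy, rfl⟩
  | algebraMap c =>
    have : coeffEmb L (algebraMap ℚ (LaurentSeries ℚ) c)
        = algebraMap L (LaurentSeries L) (algebraMap ℚ L c) := by
      rw [algebraMap_apply_eq_single, algebraMap_laurentSeries_eq_single]
      exact coeffMap_single _ _ _
    rw [this]
    exact (IntermediateField.adjoin L _).algebraMap_mem _
  | add x y _ _ hx hy => rw [map_add]; exact add_mem hx hy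
  | inv x _ hx => rw [map_inv₀]; exact inv_mem hx
  | mul x y _ _ hx hy => rw [map_mul]; exact mul_mem hx hy

theorem laurentBaseChange_adjoin (T : Set (LaurentSeries ℚ)) :
    laurentBaseChange L (IntermediateField.adjoin ℚ T)
      = IntermediateField.adjoin L (⇑(coeffEmb L) '' T) := by
  apply le_antisymm
  · rw [laurentBaseChange, adjoin_le_iff]
    rintro _ ⟨x, hx, rfl⟩
    exact coeffEmb_mem_adjoin_image L T hx
  · rw [laurentBaseChange]
    exact IntermediateField.adjoin.mono L _ _ (Set.image_mono (subset_adjoin ℚ T))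

theorem image_divisorExpansions (N : ℕ) [NeZero N] :
    ⇑(coeffEmb L) '' divisorExpansions N = Set.range (gen L N) := by
  ext x
  constructor
  · rintro ⟨y, ⟨d, hne, hd, rfl⟩, rfl⟩
    exact ⟨⟨d, Nat.mem_divisors.2 ⟨hd, NeZero.ne N⟩⟩, rfl⟩
  · rintro ⟨⟨d, hd⟩, rfl⟩
    exact ⟨_, ⟨d, ⟨(Nat.pos_of_mem_divisors hd).ne'⟩, Nat.dvd_of_mem_divisors hd, rfl⟩, rfl⟩

/-- The function field of `X₀(N)` over `L` is generated over `L` by the `j(q^d)`, `d ∣ N`. -/
theorem laurentBaseChange_full_eq_adjoin (N : ℕ) [NeZero N] :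
    laurentBaseChange L (modularFunctionFieldFull N)
      = IntermediateField.adjoin L (Set.range (gen L N)) := by
  rw [modularFunctionFieldFull, laurentBaseChange_adjoin, image_divisorExpansions]

theorem modularFunctionFieldBar_eq_adjoin (N : ℕ) [NeZero N] :
    modularFunctionFieldBar N
      = IntermediateField.adjoin (AlgebraicClosure ℚ) (Set.range (gen (AlgebraicClosure ℚ) N)) :=
  laurentBaseChange_full_eq_adjoin _ N

/-- Every element of `K(s)` is a quotient of two polynomial expressions in the generators. -/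
theorem exists_aeval_div {K E ι : Type*} [Field K] [Field E] [Algebra K E] (s : ι → E)
    {x : E} (hx : x ∈ IntermediateField.adjoin K (Set.range s)) :
    ∃ p q : MvPolynomial ι K, aeval s q ≠ 0 ∧ x = aeval s p / aeval s q := by
  obtain ⟨a, ha, b, hb, rfl⟩ := IntermediateField.mem_adjoin_iff_div.1 hx
  rw [Algebra.adjoin_range_eq_range_aeval] at ha hb
  obtain ⟨p, rfl⟩ := ha
  obtain ⟨q, rfl⟩ := hb
  by_cases hq : aeval s q = 0
  · refine ⟨0, 1, by simp, ?_⟩
    simp [hq]
  · exact ⟨p, q, hq, rfl⟩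

end Fermat.Agent.S24.H368

end
end
-- ===== PACK-END S24/Mod/H368Gens.lean

-- ===== PACK-BEGIN S20/Comb694/Fixed.lean
section


/-!
# Fixed points of `S` and `S * T` on `SL(2,ℤ) ⧸ Gamma0 N`

* `card_fixedBy_S : Nat.card (MulAction.fixedBy (SL(2,ℤ) ⧸ Gamma0 N) S) = nuTwo N`
* `card_fixedBy_ST : Nat.card (MulAction.fixedBy (SL(2,ℤ) ⧸ Gamma0 N) (S * T)) = nuThree N`
-/

set_option autoImplicit false

namespace Fermat.Agent.S20.Comb694

open Matrix MatrixGroups CongruenceSubgroup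

variable (N : ℕ)

/-- From a root of `x² + 1` in `ZMod N` to a fixed point of `S`. -/
noncomputable def rootToFixedS (x : {x : ZMod N // x ^ 2 + 1 = 0}) :
    MulAction.fixedBy (SL(2, ℤ) ⧸ Gamma0 N) ModularGroup.S :=
  ⟨QuotientGroup.mk (colRep (ZMod.cast x.1 : ℤ)), by
    rw [MulAction.mem_fixedBy, S_smul_mk_eq_mk_iff]
    simp only [colRep_apply_zero_zero, colRep_apply_one_zero, ZMod.intCast_zmod_cast,
      Int.cast_one, one_pow]
    exact x.2⟩

lemma rootToFixedS_bijective : Function.Bijective (rootToFixedS N) := by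
  constructor
  · rintro ⟨x, hx⟩ ⟨y, hy⟩ h
    have h' := congrArg Subtype.val h
    simp only [rootToFixedS] at h'
    rw [mk_eq_mk_iff] at h'
    simp only [colRep_apply_zero_zero, colRep_apply_one_zero, ZMod.intCast_zmod_cast,
      Int.cast_one, mul_one, one_mul] at h'
    exact Subtype.ext (sub_eq_zero.mp h')
  · rintro ⟨q, hq⟩
    obtain ⟨g, rfl⟩ := QuotientGroup.mk_surjective q
    rw [MulAction.mem_fixedBy, S_smul_mk_eq_mk_iff] at hq
    have hinv := c_mul_inv_eq_one N g (-((g 1 0 : ℤ) : ZMod N)) (by linear_combination hq)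
    set a : ZMod N := ((g 0 0 : ℤ) : ZMod N) with ha
    set c : ZMod N := ((g 1 0 : ℤ) : ZMod N) with hc
    set i : ZMod N := (-c * ((g 1 1 : ℤ) : ZMod N) ^ 2
        - 2 * a * ((g 0 1 : ℤ) : ZMod N) * ((g 1 1 : ℤ) : ZMod N)
        + ((g 0 1 : ℤ) : ZMod N) ^ 2 * c) with hi
    refine ⟨⟨a * i, ?_⟩, ?_⟩
    · linear_combination (i ^ 2) * hq - (c * i + 1) * hinv
    · apply Subtype.ext
      simp only [rootToFixedS]
      rw [mk_eq_mk_iff]
      simp only [colRep_apply_zero_zero, colRep_apply_one_zero, ZMod.intCast_zmod_cast,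
        Int.cast_one, one_mul]
      linear_combination a * hinv

/-- **(I2)** The number of fixed points of `S` on `SL(2,ℤ) ⧸ Γ₀(N)` is `ν₂(N)`. -/
theorem card_fixedBy_S :
    Nat.card (MulAction.fixedBy (SL(2, ℤ) ⧸ Gamma0 N) ModularGroup.S) = ModularCurve.nuTwo N := by
  rw [ModularCurve.nuTwo]
  exact (Nat.card_eq_of_bijective _ (rootToFixedS_bijective N)).symm

/-- From a root of `x² + x + 1` in `ZMod N` to a fixed point of `S * T`. -/
noncomputable def rootToFixedST (x : {x : ZMod N // x ^ 2 + x + 1 = 0}) :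
    MulAction.fixedBy (SL(2, ℤ) ⧸ Gamma0 N) (ModularGroup.S * ModularGroup.T) :=
  ⟨QuotientGroup.mk (colRep (ZMod.cast x.1 : ℤ)), by
    rw [MulAction.mem_fixedBy, ST_smul_mk_eq_mk_iff]
    simp only [colRep_apply_zero_zero, colRep_apply_one_zero, ZMod.intCast_zmod_cast,
      Int.cast_one, one_pow, mul_one]
    exact x.2⟩

lemma rootToFixedST_bijective : Function.Bijective (rootToFixedST N) := by
  constructor
  · rintro ⟨x, hx⟩ ⟨y, hy⟩ h
    have h' := congrArg Subtype.val h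
    simp only [rootToFixedST] at h'
    rw [mk_eq_mk_iff] at h'
    simp only [colRep_apply_zero_zero, colRep_apply_one_zero, ZMod.intCast_zmod_cast,
      Int.cast_one, mul_one, one_mul] at h'
    exact Subtype.ext (sub_eq_zero.mp h')
  · rintro ⟨q, hq⟩
    obtain ⟨g, rfl⟩ := QuotientGroup.mk_surjective q
    rw [MulAction.mem_fixedBy, ST_smul_mk_eq_mk_iff] at hq
    have hinv := c_mul_inv_eq_one N g (-((g 0 0 : ℤ) : ZMod N) - ((g 1 0 : ℤ) : ZMod N))
      (by linear_combination hq)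
    set a : ZMod N := ((g 0 0 : ℤ) : ZMod N) with ha
    set c : ZMod N := ((g 1 0 : ℤ) : ZMod N) with hc
    set i : ZMod N := ((-a - c) * ((g 1 1 : ℤ) : ZMod N) ^ 2
        - 2 * a * ((g 0 1 : ℤ) : ZMod N) * ((g 1 1 : ℤ) : ZMod N)
        + ((g 0 1 : ℤ) : ZMod N) ^ 2 * c) with hi
    refine ⟨⟨a * i, ?_⟩, ?_⟩
    · linear_combination (i ^ 2) * hq - (c * i + 1 + a * i) * hinv
    · apply Subtype.ext
      simp only [rootToFixedST]
      rw [mk_eq_mk_iff]
      simp only [colRep_apply_zero_zero, colRep_apply_one_zero, ZMod.intCast_zmod_cast,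
        Int.cast_one, one_mul]
      linear_combination a * hinv

/-- **(I3)** The number of fixed points of `S * T` on `SL(2,ℤ) ⧸ Γ₀(N)` is `ν₃(N)`. -/
theorem card_fixedBy_ST :
    Nat.card (MulAction.fixedBy (SL(2, ℤ) ⧸ Gamma0 N) (ModularGroup.S * ModularGroup.T))
      = ModularCurve.nuThree N := by
  rw [ModularCurve.nuThree]
  exact (Nat.card_eq_of_bijective _ (rootToFixedST_bijective N)).symm

end Fermat.Agent.S20.Comb694

end
-- ===== PACK-END S20/Comb694/Fixed.lean

-- ===== PACK-BEGIN Lib/RR/Ord.lean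
section


/-!
# RR library: elementary calculus of `Place.ord`
-/

set_option autoImplicit false

noncomputable section

open AlgebraicCurve

namespace Fermat.Agent.Lib.RR

variable {K F : Type*} [Field K] [Field F] [Algebra K F]

theorem ord_nonneg_of_mem (v : Place K F) {f : F} (hf : f ∈ v.toValuationSubring) :
    0 ≤ v.ord f := by
  rcases eq_or_ne f 0 with rfl | hf0
  · simp
  obtain ⟨π, hπ⟩ := IsDiscreteValuationRing.exists_irreducible v.toValuationSubring
  obtain ⟨n, u, hu⟩ :=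
    IsDiscreteValuationRing.eq_unit_mul_pow_irreducible
      (x := (⟨f, hf⟩ : v.toValuationSubring)) (by simpa [Subtype.ext_iff] using hf0) hπ
  have hcoe : f = ((u : v.toValuationSubring) : F) * ((π : F) ^ (n : ℤ)) := by
    have h := congrArg (Subtype.val) hu
    push_cast at h
    rw [zpow_natCast]
    exact h
  rw [hcoe, v.ord_unit_smul_zpow u hπ (n : ℤ)]
  exact Int.natCast_nonneg n

theorem mem_of_ord_nonneg (v : Place K F) {f : F} (h : 0 ≤ v.ord f) :
    f ∈ v.toValuationSubring := by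
  rcases eq_or_ne f 0 with rfl | hf
  · exact zero_mem _
  obtain ⟨π, hπ⟩ := IsDiscreteValuationRing.exists_irreducible v.toValuationSubring
  obtain ⟨u, hu⟩ := v.exists_unit_mul_zpow hf hπ
  rw [hu, show v.ord f = (((v.ord f).toNat : ℕ) : ℤ) from (Int.toNat_of_nonneg h).symm,
    zpow_natCast]
  exact mul_mem (u : v.toValuationSubring).2 (pow_mem (π : v.toValuationSubring).2 _)

/-- `f ∈ O_v ↔ 0 ≤ ord_v f` (valid also for `f = 0` because `ord_v 0 = 0`). -/
theorem mem_iff_ord_nonneg (v : Place K F) (f : F) :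
    f ∈ v.toValuationSubring ↔ 0 ≤ v.ord f :=
  ⟨ord_nonneg_of_mem v, mem_of_ord_nonneg v⟩

theorem ord_algebraMap (v : Place K F) (c : K) : v.ord (algebraMap K F c) = 0 := by
  rcases eq_or_ne c 0 with rfl | hc
  · simp
  have h1 : 0 ≤ v.ord (algebraMap K F c) := ord_nonneg_of_mem v (v.algebraMap_mem' c)
  have h2 : 0 ≤ v.ord (algebraMap K F c⁻¹) := ord_nonneg_of_mem v (v.algebraMap_mem' c⁻¹)
  rw [map_inv₀, v.ord_inv] at h2
  omega

theorem ord_pow (v : Place K F) (f : F) (n : ℕ) : v.ord (f ^ n) = n * v.ord f := by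
  have := v.ord_zpow f (n : ℤ)
  rwa [zpow_natCast] at this

theorem ord_neg (v : Place K F) (f : F) : v.ord (-f) = v.ord f := by
  rcases eq_or_ne f 0 with rfl | hf
  · simp
  have h : (-1 : F) ≠ 0 := by simp
  have h1 : v.ord (-1 : F) = 0 := by
    have h2 := v.ord_mul h h
    rw [neg_one_mul, neg_neg, v.ord_one] at h2
    omega
  rw [← neg_one_mul, v.ord_mul h hf, h1, zero_add]

theorem ne_zero_of_ord_ne_zero (v : Place K F) {f : F} (h : v.ord f ≠ 0) : f ≠ 0 := by
  rintro rfl; exact h v.ord_zero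

/-- Ultrametric inequality. -/
theorem ord_add (v : Place K F) {f g : F} (hf : f ≠ 0) (hg : g ≠ 0) (hfg : f + g ≠ 0) :
    min (v.ord f) (v.ord g) ≤ v.ord (f + g) := by
  wlog h : v.ord f ≤ v.ord g generalizing f g
  · have := this hg hf (by rwa [add_comm]) (by omega)
    rwa [min_comm, add_comm g f] at this
  rw [min_eq_left h]
  have hq : g * f⁻¹ ∈ v.toValuationSubring := by
    apply mem_of_ord_nonneg
    rw [v.ord_mul hg (inv_ne_zero hf), v.ord_inv]; omega
  have h1 : 1 + g * f⁻¹ ∈ v.toValuationSubring := add_mem (one_mem _) hq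
  have h2 : f + g = f * (1 + g * f⁻¹) := by field_simp
  have h3 : (1 + g * f⁻¹) ≠ 0 := by
    intro h0; rw [h0, mul_zero] at h2; exact hfg h2
  rw [h2, v.ord_mul hf h3]
  have := ord_nonneg_of_mem v h1
  omega

/-- Ultrametric inequality in the "zero or bounded below" form used for `L(D)`. -/
theorem ord_add_of_le (v : Place K F) {f g : F} {n : ℤ}
    (hf : f = 0 ∨ n ≤ v.ord f) (hg : g = 0 ∨ n ≤ v.ord g) :
    f + g = 0 ∨ n ≤ v.ord (f + g) := by
  rcases eq_or_ne (f + g) 0 with h0 | h0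
  · exact Or.inl h0
  right
  rcases eq_or_ne f 0 with rfl | hf0
  · rw [zero_add] at h0 ⊢
    exact hg.resolve_left h0
  rcases eq_or_ne g 0 with rfl | hg0
  · rw [add_zero]
    exact hf.resolve_left hf0
  exact le_trans (le_min (hf.resolve_left hf0) (hg.resolve_left hg0)) (ord_add v hf0 hg0 h0)

/-- Strict case of the ultrametric inequality. -/
theorem ord_add_eq_of_lt (v : Place K F) {f g : F} (hf : f ≠ 0) (hg : g ≠ 0)
    (h : v.ord f < v.ord g) : v.ord (f + g) = v.ord f := by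
  have hfg : f + g ≠ 0 := by
    intro h0
    have : g = -f := by rw [← sub_eq_zero]; rw [sub_neg_eq_add, add_comm]; exact h0
    rw [this, ord_neg] at h
    exact lt_irrefl _ h
  have h1 := ord_add v hf hg hfg
  rw [min_eq_left h.le] at h1
  have hng : -g ≠ 0 := neg_ne_zero.mpr hg
  have h2 := ord_add v hfg hng (by simpa using hf)
  rw [add_neg_cancel_right, ord_neg] at h2
  rcases le_total (v.ord (f + g)) (v.ord g) with h3 | h3
  · rw [min_eq_left h3] at h2; omega
  · rw [min_eq_right h3] at h2; omega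

/-- Every place has a uniformizer. -/
theorem exists_ord_eq_one (v : Place K F) : ∃ t : F, v.ord t = 1 := by
  obtain ⟨π, hπ⟩ := IsDiscreteValuationRing.exists_irreducible v.toValuationSubring
  exact ⟨π, v.ord_coe_irreducible hπ⟩

/-- An element of the valuation ring lies in the maximal ideal iff it is `0` or has positive
order. -/
theorem mem_maximalIdeal_iff (v : Place K F) (a : v.toValuationSubring) :
    a ∈ IsLocalRing.maximalIdeal v.toValuationSubring ↔ (a : F) = 0 ∨ 0 < v.ord (a : F) := by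
  rw [IsLocalRing.mem_maximalIdeal, mem_nonunits_iff]
  constructor
  · intro h
    by_contra hcon
    simp only [not_or, not_lt] at hcon
    obtain ⟨h0, h1⟩ := hcon
    apply h
    have h2 : v.ord (a : F) = 0 := le_antisymm h1 (ord_nonneg_of_mem v a.2)
    have hinv : (a : F)⁻¹ ∈ v.toValuationSubring := by
      apply mem_of_ord_nonneg
      rw [v.ord_inv, h2]; simp
    refine IsUnit.of_mul_eq_one (⟨(a : F)⁻¹, hinv⟩ : v.toValuationSubring) ?_
    ext
    simp [h0]
  · rintro (h | h) hu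
    · have : a = 0 := by ext; simpa using h
      rw [this] at hu
      exact not_isUnit_zero hu
    · have := v.ord_coe_unit hu.unit
      rw [IsUnit.unit_spec] at this
      omega

/-- At a place of degree one every element of the valuation ring is congruent to a constant. -/
theorem exists_const_sub (v : Place K F) (hv : v.deg = 1) {f : F} (hf : 0 ≤ v.ord f) :
    ∃ c : K, f - algebraMap K F c = 0 ∨ 0 < v.ord (f - algebraMap K F c) := by
  have hmem : f ∈ v.toValuationSubring := mem_of_ord_nonneg v hf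
  have h1 : (1 : v.ResidueField) ≠ 0 := one_ne_zero
  have hspan := (finrank_eq_one_iff_of_nonzero' (1 : v.ResidueField) h1).mp hv
  obtain ⟨c, hc⟩ := hspan (IsLocalRing.residue v.toValuationSubring ⟨f, hmem⟩)
  refine ⟨c, ?_⟩
  have hc' : IsLocalRing.residue v.toValuationSubring
      (⟨f, hmem⟩ - algebraMap K v.toValuationSubring c) = 0 := by
    rw [map_sub, ← hc, Algebra.smul_def, mul_one]
    rw [IsScalarTower.algebraMap_apply K v.toValuationSubring v.ResidueField]
    simp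
  rw [IsLocalRing.residue_eq_zero_iff] at hc'
  have := (mem_maximalIdeal_iff v _).mp hc'
  simpa using this

end Fermat.Agent.Lib.RR

end
end
-- ===== PACK-END Lib/RR/Ord.lean

-- ===== PACK-BEGIN Lib/RR/Basic.lean
section


/-!
# RR library, layer L1: the spaces `L(D)`

* `L(D) = 0` for `deg D < 0`;
* `L(D + P) ⊆ L(D) + K f₀`;
* `L(D)` is finite-dimensional and `ℓ(D) ≤ deg D + 1` for `deg D ≥ -1`;
* `L(0) = K`, `ℓ(0) = 1`;
* `ℓ(D + div z) = ℓ(D)`.
-/

set_option autoImplicit false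

noncomputable section

open AlgebraicCurve

namespace Fermat.Agent.Lib.RR

variable {K F : Type*} [Field K] [Field F] [Algebra K F]

/-! ### Divisors and degrees -/

theorem degree_eq_sum (D : Divisor K F) :
    Divisor.degree D = ∑ v ∈ D.support, D v * (v.deg : ℤ) := by
  simp [Divisor.degree, Finsupp.liftAddHom_apply, Finsupp.sum]

theorem degree_nonneg {D : Divisor K F} (h : 0 ≤ D) : 0 ≤ Divisor.degree D := by
  rw [degree_eq_sum]
  refine Finset.sum_nonneg fun v _ => mul_nonneg ?_ (Int.natCast_nonneg _)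
  simpa using Finsupp.le_def.mp h v

theorem degree_mono {D D' : Divisor K F} (h : D ≤ D') :
    Divisor.degree D ≤ Divisor.degree D' := by
  have h1 : 0 ≤ D' - D := sub_nonneg.mpr h
  have h2 := degree_nonneg h1
  rw [map_sub] at h2
  linarith

theorem degree_prim (v : Place K F) (hv : v.deg = 1) : Divisor.degree (prim v) = 1 := by
  simp [prim, hv]

@[simp] theorem prim_apply_self (v : Place K F) : prim v v = 1 := by
  simp [prim]

theorem prim_apply_of_ne {v w : Place K F} (h : w ≠ v) : prim v w = 0 := by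
  simp [prim, h.symm]

/-! ### The spaces `L(D)` -/

theorem mem_L_iff {D : Divisor K F} {f : F} :
    f ∈ riemannRochSpace D ↔ ∀ v : Place K F, f = 0 ∨ -D v ≤ v.ord f :=
  mem_riemannRochSpace_iff

theorem L_mono {D D' : Divisor K F} (h : D ≤ D') :
    riemannRochSpace D ≤ riemannRochSpace D' := by
  intro f hf
  rw [mem_L_iff] at hf ⊢
  intro v
  rcases hf v with h0 | h1
  · exact Or.inl h0
  · right
    have := Finsupp.le_def.mp h v
    omega

/-- A nonzero element of `L(D)` forces `deg D ≥ 0`. -/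
theorem degree_nonneg_of_mem_L [HasPrincipalDivisors K F] {D : Divisor K F} {f : F}
    (hf : f ∈ riemannRochSpace D) (hf0 : f ≠ 0) : 0 ≤ Divisor.degree D := by
  obtain ⟨E, hE, hE0⟩ := HasPrincipalDivisors.exists_divisor (K := K) f hf0
  have h1 : 0 ≤ D + E := by
    rw [Finsupp.le_def]
    intro v
    have := (mem_L_iff.mp hf v).resolve_left hf0
    simp only [Finsupp.coe_zero, Pi.zero_apply, Finsupp.coe_add, Pi.add_apply, hE v]
    omega
  have h2 := degree_nonneg h1
  rw [map_add, hE0, add_zero] at h2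
  exact h2

theorem L_eq_bot_of_degree_neg [HasPrincipalDivisors K F] {D : Divisor K F}
    (h : Divisor.degree D < 0) : riemannRochSpace D = ⊥ := by
  rw [eq_bot_iff]
  intro f hf
  rw [Submodule.mem_bot]
  by_contra hf0
  have := degree_nonneg_of_mem_L hf hf0
  omega

/-- One step: `L(D + P) ⊆ L(D) + K f₀` for any `f₀ ∈ L(D + P) \ L(D)`, `P` of degree one. -/
theorem L_add_prim_le (v : Place K F) (hv : v.deg = 1) (D : Divisor K F) {f₀ : F}
    (hf₀ : f₀ ∈ riemannRochSpace (D + prim v)) (hf₀' : f₀ ∉ riemannRochSpace D) :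
    riemannRochSpace (D + prim v) ≤ riemannRochSpace D ⊔ Submodule.span K {f₀} := by
  classical
  have hf₀0 : f₀ ≠ 0 := fun h => hf₀' (h ▸ Submodule.zero_mem _)
  -- the order of `f₀` at `v` is exactly `-(D v + 1)`
  have hord₀ : v.ord f₀ = -(D v + 1) := by
    have h1 := (mem_L_iff.mp hf₀ v).resolve_left hf₀0
    simp only [Finsupp.coe_add, Pi.add_apply, prim_apply_self] at h1
    by_contra hne
    apply hf₀'
    rw [mem_L_iff]
    intro w
    right
    by_cases hw : w = v
    · subst hw; omega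
    · have h2 := (mem_L_iff.mp hf₀ w).resolve_left hf₀0
      simpa [prim_apply_of_ne hw] using h2
  intro f hf
  rcases eq_or_ne f 0 with rfl | hf0
  · exact Submodule.zero_mem _
  have hordf := (mem_L_iff.mp hf v).resolve_left hf0
  simp only [Finsupp.coe_add, Pi.add_apply, prim_apply_self] at hordf
  have hg : 0 ≤ v.ord (f * f₀⁻¹) := by
    rw [v.ord_mul hf0 (inv_ne_zero hf₀0), v.ord_inv, hord₀]; omega
  obtain ⟨c, hc⟩ := exists_const_sub v hv hg
  have hdecomp : f = (f - c • f₀) + c • f₀ := by ring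
  rw [hdecomp]
  refine Submodule.add_mem _ (Submodule.mem_sup_left ?_)
    (Submodule.mem_sup_right (Submodule.smul_mem _ _ (Submodule.mem_span_singleton_self _)))
  have hmem' : f - c • f₀ ∈ riemannRochSpace (D + prim v) :=
    Submodule.sub_mem _ hf (Submodule.smul_mem _ _ hf₀)
  rw [mem_L_iff]
  intro w
  by_cases hw : w = v
  · subst hw
    have hfac : f - c • f₀ = (f * f₀⁻¹ - algebraMap K F c) * f₀ := by
      rw [Algebra.smul_def]; field_simp
    rcases hc with hc | hc
    · left; rw [hfac, hc, zero_mul]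
    · rcases eq_or_ne (f - c • f₀) 0 with h0 | h0
      · exact Or.inl h0
      right
      have hne : f * f₀⁻¹ - algebraMap K F c ≠ 0 := by
        intro h; rw [hfac, h, zero_mul] at h0; exact h0 rfl
      rw [hfac, w.ord_mul hne hf₀0, hord₀]
      omega
  · have h2 := mem_L_iff.mp hmem' w
    simpa [prim_apply_of_ne hw] using h2

/-- One step, dimension form. -/
theorem L_add_prim_finite (v : Place K F) (hv : v.deg = 1) (D : Divisor K F)
    [Module.Finite K (riemannRochSpace D)] :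
    Module.Finite K (riemannRochSpace (D + prim v)) ∧
      ell (D + prim v) ≤ ell D + 1 := by
  classical
  by_cases h : riemannRochSpace (D + prim v) ≤ riemannRochSpace D
  · have hfin : Module.Finite K (riemannRochSpace (D + prim v)) :=
      Submodule.finiteDimensional_of_le h
    exact ⟨hfin, (Submodule.finrank_mono h).trans (Nat.le_succ _)⟩
  · obtain ⟨f₀, hf₀, hf₀'⟩ := SetLike.not_le_iff_exists.mp h
    have hle := L_add_prim_le v hv D hf₀ hf₀'
    have hfin' : Module.Finite K ↥(riemannRochSpace D ⊔ Submodule.span K {f₀}) := inferInstance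
    have hfin : Module.Finite K (riemannRochSpace (D + prim v)) :=
      Submodule.finiteDimensional_of_le hle
    refine ⟨hfin, ?_⟩
    calc ell (D + prim v) ≤ Module.finrank K ↥(riemannRochSpace D ⊔ Submodule.span K {f₀}) :=
          Submodule.finrank_mono hle
      _ ≤ Module.finrank K (riemannRochSpace D) + Module.finrank K (Submodule.span K {f₀}) :=
          Submodule.finrank_add_le_finrank_add_finrank _ _
      _ ≤ ell D + 1 := by
          have := finrank_span_singleton (K := K) (fun h => hf₀' (h ▸ Submodule.zero_mem _) : f₀ ≠ 0)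
          rw [this]; rfl


/-! ### Consequences under the standing hypotheses -/

section FF1

variable [hFF : FF1 K F]

instance (priority := 100) instHasPrincipalDivisors_of_FF1 : HasPrincipalDivisors K F := hFF.hpd

theorem deg_eq_one (v : Place K F) : v.deg = 1 := FF1.deg_eq_one v

@[simp] theorem degree_prim' (v : Place K F) : Divisor.degree (prim v) = 1 :=
  degree_prim v (deg_eq_one v)

/-- `L(D)` is finite-dimensional, of dimension at most `deg D + 1`. -/
theorem finite_and_ell_le : ∀ (n : ℕ) (D : Divisor K F), Divisor.degree D + 1 ≤ n →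
    Module.Finite K (riemannRochSpace D) ∧ ell D ≤ n := by
  intro n
  induction n with
  | zero =>
    intro D hD
    have h : riemannRochSpace D = ⊥ := L_eq_bot_of_degree_neg (by push_cast at hD; omega)
    refine ⟨by rw [h]; infer_instance, ?_⟩
    have h0 : ell D = 0 := by unfold ell; rw [h]; exact finrank_bot K F
    omega
  | succ n ih =>
    intro D hD
    obtain ⟨v₀⟩ := hFF.nonempty_place
    have hdeg : Divisor.degree (D - prim v₀) + 1 ≤ n := by
      rw [map_sub, degree_prim']; push_cast at hD; omega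
    obtain ⟨hfin, hle⟩ := ih (D - prim v₀) hdeg
    have := L_add_prim_finite v₀ (deg_eq_one v₀) (D - prim v₀)
    rw [sub_add_cancel] at this
    exact ⟨this.1, this.2.trans (by omega)⟩

instance finite_L (D : Divisor K F) : Module.Finite K (riemannRochSpace D) :=
  (finite_and_ell_le (Divisor.degree D + 1).toNat D (Int.self_le_toNat _)).1

theorem ell_le_toNat (D : Divisor K F) : ell D ≤ (Divisor.degree D + 1).toNat :=
  (finite_and_ell_le (Divisor.degree D + 1).toNat D (Int.self_le_toNat _)).2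

theorem ell_le_degree_add_one {D : Divisor K F} (h : -1 ≤ Divisor.degree D) :
    (ell D : ℤ) ≤ Divisor.degree D + 1 := by
  have := ell_le_toNat D
  have h2 : ((Divisor.degree D + 1).toNat : ℤ) = Divisor.degree D + 1 :=
    Int.toNat_of_nonneg (by omega)
  omega

theorem ell_eq_zero_of_degree_neg {D : Divisor K F} (h : Divisor.degree D < 0) : ell D = 0 := by
  unfold ell; rw [L_eq_bot_of_degree_neg h]; exact finrank_bot K F

theorem ell_mono {D D' : Divisor K F} (h : D ≤ D') : ell D ≤ ell D' :=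
  Submodule.finrank_mono (L_mono h)

theorem ell_add_prim_le (D : Divisor K F) (v : Place K F) : ell (D + prim v) ≤ ell D + 1 :=
  (L_add_prim_finite v (deg_eq_one v) D).2

/-- Induction principle: from `D` upwards, adding one place at a time. -/
theorem induction_ge {P : Divisor K F → Prop} (D : Divisor K F) (h0 : P D)
    (hstep : ∀ (D' : Divisor K F) (v : Place K F), D ≤ D' → P D' → P (D' + prim v)) :
    ∀ D', D ≤ D' → P D' := by
  classical
  have key : ∀ (n : ℕ) (D' : Divisor K F), D ≤ D' → Divisor.degree (D' - D) ≤ n → P D' := by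
    intro n
    induction n with
    | zero =>
      intro D' hle hdeg
      have hE : 0 ≤ D' - D := sub_nonneg.mpr hle
      have hE0 : D' - D = 0 := by
        by_contra hne
        obtain ⟨v, hv⟩ := Finsupp.support_nonempty_iff.mpr hne
        rw [Finsupp.mem_support_iff] at hv
        have hv0 : 0 ≤ (D' - D) v := by simpa using Finsupp.le_def.mp hE v
        have hge : prim v ≤ D' - D := by
          rw [Finsupp.le_def]
          intro w
          by_cases hw : w = v
          · subst hw; rw [prim_apply_self]; omega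
          · rw [prim_apply_of_ne hw]; simpa using Finsupp.le_def.mp hE w
        have := degree_mono hge
        rw [degree_prim'] at this
        push_cast at hdeg
        omega
      rw [sub_eq_zero] at hE0
      rw [hE0]; exact h0
    | succ n ih =>
      intro D' hle hdeg
      by_cases hE0 : D' - D = 0
      · rw [sub_eq_zero] at hE0
        rw [hE0]; exact h0
      have hE : 0 ≤ D' - D := sub_nonneg.mpr hle
      obtain ⟨v, hv⟩ := Finsupp.support_nonempty_iff.mpr hE0
      rw [Finsupp.mem_support_iff] at hv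
      have hv0 : 0 ≤ (D' - D) v := by simpa using Finsupp.le_def.mp hE v
      have hge : prim v ≤ D' - D := by
        rw [Finsupp.le_def]
        intro w
        by_cases hw : w = v
        · subst hw; rw [prim_apply_self]; omega
        · rw [prim_apply_of_ne hw]; simpa using Finsupp.le_def.mp hE w
      have hle' : D ≤ D' - prim v := by
        have : D + prim v ≤ D' := by
          have := add_le_add_left hge D
          rwa [sub_add_cancel, add_comm] at this
        exact le_sub_iff_add_le.mpr this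
      have hdeg' : Divisor.degree (D' - prim v - D) ≤ n := by
        have : D' - prim v - D = (D' - D) - prim v := by abel
        rw [this, map_sub, degree_prim']
        push_cast at hdeg; omega
      have := hstep (D' - prim v) v hle' (ih (D' - prim v) hle' hdeg')
      rwa [sub_add_cancel] at this
  intro D' hle
  exact key (Divisor.degree (D' - D)).toNat D' hle (Int.self_le_toNat _)

/-- `deg D - ℓ(D)` is monotone in `D`. -/
theorem degree_sub_ell_mono {D D' : Divisor K F} (h : D ≤ D') :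
    Divisor.degree D - ell D ≤ Divisor.degree D' - ell D' := by
  refine induction_ge (P := fun D' => Divisor.degree D - ell D ≤ Divisor.degree D' - ell D')
    D le_rfl ?_ D' h
  intro D'' v _ hP
  have h1 := ell_add_prim_le D'' v
  rw [map_add, degree_prim']
  omega

/-- Functions without poles are constant. -/
theorem L_zero : riemannRochSpace (0 : Divisor K F) = LinearMap.range (Algebra.linearMap K F) := by
  apply le_antisymm
  · intro f hf
    obtain ⟨v₀⟩ := hFF.nonempty_place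
    have hf0 : 0 ≤ v₀.ord f := by
      rcases mem_L_iff.mp hf v₀ with h | h
      · simp [h]
      · simpa using h
    obtain ⟨c, hc⟩ := exists_const_sub v₀ (deg_eq_one v₀) hf0
    have hcL : algebraMap K F c ∈ riemannRochSpace (0 : Divisor K F) := by
      rw [mem_L_iff]; intro v; right; simp [ord_algebraMap]
    have hg : f - algebraMap K F c ∈ riemannRochSpace (0 : Divisor K F) :=
      Submodule.sub_mem _ hf hcL
    have hzero : f - algebraMap K F c = 0 := by
      by_contra hne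
      have hpos := hc.resolve_left hne
      have hmem : f - algebraMap K F c ∈ riemannRochSpace (-prim v₀) := by
        rw [mem_L_iff]
        intro w
        right
        by_cases hw : w = v₀
        · subst hw; simp only [Finsupp.coe_neg, Pi.neg_apply, prim_apply_self, neg_neg]; omega
        · have := (mem_L_iff.mp hg w).resolve_left hne
          simpa [prim_apply_of_ne hw] using this
      have hbot : riemannRochSpace (-prim v₀) = ⊥ :=
        L_eq_bot_of_degree_neg (by rw [map_neg, degree_prim']; omega)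
      rw [hbot, Submodule.mem_bot] at hmem
      exact hne hmem
    exact ⟨c, by rw [Algebra.linearMap_apply]; exact (sub_eq_zero.mp hzero).symm⟩
  · rintro _ ⟨c, rfl⟩
    rw [mem_L_iff]; intro v; right
    simp [ord_algebraMap]

theorem ell_zero : ell (0 : Divisor K F) = 1 := by
  unfold ell
  rw [L_zero]
  have hinj : Function.Injective (Algebra.linearMap K F) := (algebraMap K F).injective
  rw [LinearMap.finrank_range_of_inj hinj]
  exact Module.finrank_self K

/-- The divisor of a nonzero function. -/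
def divOf (z : F) (hz : z ≠ 0) : Divisor K F :=
  (HasPrincipalDivisors.exists_divisor (K := K) z hz).choose

theorem divOf_apply (z : F) (hz : z ≠ 0) (v : Place K F) : divOf z hz v = v.ord z :=
  (HasPrincipalDivisors.exists_divisor (K := K) z hz).choose_spec.1 v

@[simp] theorem degree_divOf (z : F) (hz : z ≠ 0) : Divisor.degree (divOf (K := K) z hz) = 0 :=
  (HasPrincipalDivisors.exists_divisor (K := K) z hz).choose_spec.2

/-- Multiplication by `z` maps `L(D + div z)` isomorphically onto `L(D)`. -/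
theorem ell_add_divOf (D : Divisor K F) (z : F) (hz : z ≠ 0) :
    ell (D + divOf z hz) = ell D := by
  let e : F ≃ₗ[K] F :=
    LinearEquiv.ofLinearMap (LinearMap.mulLeft K z) (LinearMap.mulLeft K z⁻¹)
      (by ext x; simp [hz]) (by ext x; simp [hz])
  have hmap : Submodule.map (e : F →ₗ[K] F) (riemannRochSpace (D + divOf z hz))
      = riemannRochSpace D := by
    ext f
    simp only [Submodule.mem_map, mem_L_iff]
    constructor
    · rintro ⟨g, hg, rfl⟩ v
      rcases hg v with h | h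
      · left; simp [e, h]
      · rcases eq_or_ne g 0 with rfl | hg0
        · left; simp [e]
        right
        show -D v ≤ v.ord (z * g)
        rw [v.ord_mul hz hg0]
        simp only [Finsupp.coe_add, Pi.add_apply, divOf_apply] at h
        omega
    · intro hf
      refine ⟨z⁻¹ * f, fun v => ?_, by simp [e, hz]⟩
      rcases hf v with h | h
      · left; simp [h]
      · rcases eq_or_ne f 0 with rfl | hf0
        · left; simp
        right
        rw [v.ord_mul (inv_ne_zero hz) hf0, v.ord_inv]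
        simp only [Finsupp.coe_add, Pi.add_apply, divOf_apply]
        omega
  unfold ell
  rw [← hmap]
  exact (LinearEquiv.finrank_map_eq e _).symm

end FF1

end Fermat.Agent.Lib.RR

end
end
-- ===== PACK-END Lib/RR/Basic.lean

-- ===== PACK-BEGIN Lib/RR/Approx.lean
section


/-!
# RR library: separation / approximation for finitely many places

(The first three lemmas follow helper144's `S24/Alg/LocApprox.lean`.)
-/

set_option autoImplicit false

noncomputable section

open AlgebraicCurve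

namespace Fermat.Agent.Lib.RR

variable {K F : Type*} [Field K] [Field F] [Algebra K F]

/-- The valuation rings of two places are comparable only if the places are equal. -/
theorem place_eq_of_le {v w : Place K F} (h : v.toValuationSubring ≤ w.toValuationSubring) :
    v = w := by
  apply Place.ext
  refine le_antisymm h ?_
  intro f hf
  by_contra hfv
  have hfw : 0 ≤ w.ord f := ord_nonneg_of_mem w hf
  have hfv' : v.ord f < 0 := by
    by_contra h0
    exact hfv (mem_of_ord_nonneg v (not_lt.mp h0))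
  have hf0 : f ≠ 0 := ne_zero_of_ord_ne_zero v hfv'.ne
  obtain ⟨h1, hh1⟩ := exists_ord_eq_one w
  have hh0 : h1 ≠ 0 := ne_zero_of_ord_ne_zero w (by omega)
  set r : ℕ := (v.ord h1).toNat + 1 with hr
  have hfr : f ^ r ≠ 0 := pow_ne_zero r hf0
  have hv : v.ord (f ^ r * h1) < 0 := by
    rw [v.ord_mul hfr hh0, ord_pow]
    have : (r : ℤ) * v.ord f ≤ -(r : ℤ) := by nlinarith
    have : v.ord h1 ≤ (v.ord h1).toNat := Int.self_le_toNat _
    have : (r : ℤ) = (v.ord h1).toNat + 1 := by rw [hr]; push_cast; ring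
    omega
  have hmem : (f ^ r * h1)⁻¹ ∈ w.toValuationSubring := by
    apply h
    apply mem_of_ord_nonneg
    rw [v.ord_inv]; omega
  have hw := ord_nonneg_of_mem w hmem
  rw [w.ord_inv, w.ord_mul hfr hh0, ord_pow, hh1] at hw
  have : 0 ≤ (r : ℤ) * w.ord f := mul_nonneg (Int.natCast_nonneg r) hfw
  omega

/-- Two distinct places are separated by a function. -/
theorem exists_sep {v w : Place K F} (hvw : v ≠ w) :
    ∃ c : F, 0 < v.ord c ∧ w.ord c < 0 := by
  have h1 : ¬ v.toValuationSubring ≤ w.toValuationSubring := fun h => hvw (place_eq_of_le h)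
  have h2 : ¬ w.toValuationSubring ≤ v.toValuationSubring :=
    fun h => hvw (place_eq_of_le h).symm
  obtain ⟨a, hav, haw⟩ := SetLike.not_le_iff_exists.mp h1
  obtain ⟨b, hbw, hbv⟩ := SetLike.not_le_iff_exists.mp h2
  have hav' : 0 ≤ v.ord a := ord_nonneg_of_mem v hav
  have hbw' : 0 ≤ w.ord b := ord_nonneg_of_mem w hbw
  have haw' : w.ord a < 0 := by
    by_contra h0; exact haw (mem_of_ord_nonneg w (not_lt.mp h0))
  have hbv' : v.ord b < 0 := by
    by_contra h0; exact hbv (mem_of_ord_nonneg v (not_lt.mp h0))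
  have ha0 : a ≠ 0 := ne_zero_of_ord_ne_zero w haw'.ne
  have hb0 : b ≠ 0 := ne_zero_of_ord_ne_zero v hbv'.ne
  refine ⟨a * b⁻¹, ?_, ?_⟩
  · rw [v.ord_mul ha0 (inv_ne_zero hb0), v.ord_inv]; omega
  · rw [w.ord_mul ha0 (inv_ne_zero hb0), w.ord_inv]; omega

/-- For a place `v` outside a finite set `S` of places there is a function with a zero at `v` and
poles at all places of `S`. -/
theorem exists_zero_poles (v : Place K F) (S : Finset (Place K F)) (hv : v ∉ S) :
    ∃ g : F, 0 < v.ord g ∧ ∀ w ∈ S, w.ord g < 0 := by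
  classical
  induction S using Finset.induction_on with
  | empty =>
    obtain ⟨h, hh⟩ := exists_ord_eq_one v
    exact ⟨h, by omega, by simp⟩
  | insert w₀ S' hw₀ ih =>
    have hv' : v ∉ S' := fun h => hv (Finset.mem_insert_of_mem h)
    have hvw₀ : v ≠ w₀ := fun h => hv (h ▸ Finset.mem_insert_self _ _)
    obtain ⟨g, hgv, hgS⟩ := ih hv'
    obtain ⟨c, hcv, hcw⟩ := exists_sep hvw₀
    have hg0 : g ≠ 0 := ne_zero_of_ord_ne_zero v hgv.ne'
    have hc0 : c ≠ 0 := ne_zero_of_ord_ne_zero v hcv.ne'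
    by_cases hgw : w₀.ord g < 0
    · refine ⟨g, hgv, ?_⟩
      intro w hw
      rcases Finset.mem_insert.mp hw with rfl | hw
      · exact hgw
      · exact hgS w hw
    · have hgw := not_lt.mp hgw
      set r : ℕ := (∑ w ∈ S', (w.ord c).natAbs) + 1 with hr
      have hrS : ∀ w ∈ S', -(r : ℤ) < w.ord c := by
        intro w hw
        have h1 : (w.ord c).natAbs ≤ ∑ w ∈ S', (w.ord c).natAbs :=
          Finset.single_le_sum (f := fun w : Place K F => (w.ord c).natAbs)
            (fun _ _ => Nat.zero_le _) hw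
        have h2 : (r : ℤ) = ((∑ w ∈ S', (w.ord c).natAbs : ℕ) : ℤ) + 1 := by
          rw [hr]; push_cast; ring
        have h3 : ((w.ord c).natAbs : ℤ) ≤ ((∑ w ∈ S', (w.ord c).natAbs : ℕ) : ℤ) := by
          exact_mod_cast h1
        omega
      have hr1 : 1 ≤ r := by omega
      have hgr0 : g ^ r ≠ 0 := pow_ne_zero r hg0
      have hw₀' : w₀.ord (c + g ^ r) = w₀.ord c := by
        apply ord_add_eq_of_lt w₀ hc0 hgr0
        rw [ord_pow]
        have : 0 ≤ (r : ℤ) * w₀.ord g := mul_nonneg (Int.natCast_nonneg r) hgw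
        omega
      have hsum0 : c + g ^ r ≠ 0 := ne_zero_of_ord_ne_zero w₀ (by rw [hw₀']; omega)
      refine ⟨c + g ^ r, ?_, ?_⟩
      · have h1 := ord_add v hc0 hgr0 hsum0
        rw [ord_pow] at h1
        have h2 : 0 < (r : ℤ) * v.ord g := mul_pos (by exact_mod_cast hr1) hgv
        have h3 : 0 < min (v.ord c) ((r : ℤ) * v.ord g) := lt_min hcv h2
        omega
      · intro w hw
        rcases Finset.mem_insert.mp hw with rfl | hw
        · rw [hw₀']; exact hcw
        · have h1 : w.ord (g ^ r) < w.ord c := by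
            rw [ord_pow]
            have h2 := hgS w hw
            have h3 := hrS w hw
            have h4 : (r : ℤ) * w.ord g ≤ -(r : ℤ) := by nlinarith
            omega
          rw [add_comm, ord_add_eq_of_lt w hgr0 hc0 h1, ord_pow]
          have h2 := hgS w hw
          have hrpos : (0 : ℤ) < r := by exact_mod_cast hr1
          exact mul_neg_of_pos_of_neg hrpos h2

/-- For a place `v` outside a finite set `S` of places and every `M` there is a function which is
a unit at `v` and vanishes to order at least `M` at all places of `S`. -/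
theorem exists_unit_zeros (v : Place K F) (S : Finset (Place K F)) (hv : v ∉ S) (M : ℕ) :
    ∃ s : F, s ≠ 0 ∧ v.ord s = 0 ∧ ∀ w ∈ S, (M : ℤ) ≤ w.ord s := by
  obtain ⟨g, hgv, hgS⟩ := exists_zero_poles v S hv
  have hg0 : g ≠ 0 := ne_zero_of_ord_ne_zero v hgv.ne'
  -- `u = g⁻¹` has a pole at `v` and zeros on `S`; `s = 1 / (1 + g ^ (M+1))`
  set r : ℕ := M + 1 with hr
  have hgr0 : g ^ r ≠ 0 := pow_ne_zero r hg0
  have hrpos : (0 : ℤ) < r := by rw [hr]; push_cast; omega
  have hv1 : v.ord (1 + g ^ r) = 0 := by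
    have h1 : v.ord (1 : F) < v.ord (g ^ r) := by
      rw [v.ord_one, ord_pow]; exact mul_pos hrpos hgv
    rw [ord_add_eq_of_lt v one_ne_zero hgr0 h1, v.ord_one]
  have hne : (1 + g ^ r : F) ≠ 0 := by
    intro h0
    have h1 : v.ord (1 : F) < v.ord (g ^ r) := by
      rw [v.ord_one, ord_pow]; exact mul_pos hrpos hgv
    have h2 : g ^ r = -1 := by rw [← sub_eq_zero, sub_neg_eq_add, add_comm]; exact h0
    rw [h2, ord_neg, v.ord_one] at h1
    exact lt_irrefl _ h1
  refine ⟨(1 + g ^ r)⁻¹, inv_ne_zero hne, by rw [v.ord_inv, hv1, neg_zero], ?_⟩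
  intro w hw
  have hgw := hgS w hw
  have h1 : w.ord (g ^ r) < w.ord (1 : F) := by
    rw [w.ord_one, ord_pow]; exact mul_neg_of_pos_of_neg hrpos hgw
  have h2 : w.ord (1 + g ^ r) = w.ord (g ^ r) := by
    rw [add_comm]; exact ord_add_eq_of_lt w hgr0 one_ne_zero h1
  rw [w.ord_inv, h2, ord_pow]
  have h3 : (r : ℤ) * w.ord g ≤ -(r : ℤ) := by nlinarith
  rw [hr] at h3 ⊢
  push_cast at h3 ⊢
  omega

/-- The order of a finite sum all of whose terms are `0` or of order `> n`. -/
theorem ord_sum_gt (v : Place K F) {ι : Type*} (s : Finset ι) (y : ι → F) (n : ℤ)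
    (h : ∀ i ∈ s, y i = 0 ∨ n < v.ord (y i)) :
    ∑ i ∈ s, y i = 0 ∨ n < v.ord (∑ i ∈ s, y i) := by
  classical
  induction s using Finset.induction_on with
  | empty => left; simp
  | insert a s ha ih =>
    rw [Finset.sum_insert ha]
    have h1 := h a (Finset.mem_insert_self _ _)
    have h2 := ih (fun i hi => h i (Finset.mem_insert_of_mem hi))
    have h1' : y a = 0 ∨ n + 1 ≤ v.ord (y a) := h1.imp id (fun h => by omega)
    have h2' : ∑ i ∈ s, y i = 0 ∨ n + 1 ≤ v.ord (∑ i ∈ s, y i) := h2.imp id (fun h => by omega)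
    exact (ord_add_of_le v h1' h2').imp id (fun h => by omega)

end Fermat.Agent.Lib.RR

end
end
-- ===== PACK-END Lib/RR/Approx.lean

-- ===== PACK-BEGIN S18/H516/GaussSpan.lean
section




/-!
# S18 / MOD (helper516): base change of the S28 basis from `ℚ` to an arbitrary field `L ⊇ ℚ`

`F_L := laurentBaseChange L (modularFunctionFieldFull N) ⊆ L((q))` is exactly the `L(j)`-span of
the images of the S28 "monomials" `y i ∈ ℤ[j_d : d ∣ N]`.
-/

set_option autoImplicit false
set_option linter.unusedSectionVars false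

noncomputable section

namespace Fermat.Agent.S18.H516

open ModularCurve HahnSeries IntermediateField Polynomial Fermat.Agent.S28

section CoeffEmb

variable (L : Type*) [Field L] [Algebra ℚ L]

theorem coeffEmb_jq : coeffEmb L jq = jqModC L := by
  rw [← jqModC_rat, coeffEmb, coeffMap_jqModC]

theorem coeffEmb_aeval (x : LaurentSeries ℚ) (r : ℚ[X]) :
    coeffEmb L (aeval x r) = aeval (coeffEmb L x) (r.map (algebraMap ℚ L)) := by
  rw [aeval_def, aeval_def, hom_eval₂, eval₂_map]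
  congr 1
  exact RingHom.ext_rat _ _

/-- `coeffEmb` maps `ℚ(j)` into `L(j)`. -/
theorem coeffEmb_mem_jField {c : LaurentSeries ℚ} (hc : c ∈ jField ℚ) :
    coeffEmb L c ∈ jField L := by
  rw [jField, mem_adjoin_simple_iff] at hc
  obtain ⟨r, s, rfl⟩ := hc
  have hj : coeffEmb L (jqModC ℚ) = jqModC L := by
    rw [coeffEmb, coeffMap_jqModC]
  rw [map_div₀, coeffEmb_aeval, coeffEmb_aeval, hj]
  rw [jField, mem_adjoin_simple_iff]
  exact ⟨_, _, rfl⟩

theorem coeffMap_intCast_eq_coeffEmb (y : LaurentSeries ℤ) :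
    coeffMap (Int.castRingHom L) y = coeffEmb L (coeffMap (Int.castRingHom ℚ) y) := by
  rw [coeffEmb, coeffMap_coeffMap]
  exact coeffMap_congr (RingHom.ext_int _ _) y

end CoeffEmb

section Closure

variable (R : Type*) [CommRing R] (N : ℕ)

/-- The generators `j(q^d)`, `d ∣ N` over an arbitrary ring. -/
theorem coeffMap_mem_of_mem_closure {K : Type*} [Field K] [NeZero N] {y : LaurentSeries ℤ}
    (hy : y ∈ Subring.closure (intDivisorExpansions N)) :
    coeffMap (Int.castRingHom K) y ∈ modularFunctionFieldFullC K N := by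
  induction hy using Subring.closure_induction with
  | mem x hx =>
    obtain ⟨d, hd, hdN, rfl⟩ := hx
    rw [coeffMap_qExpand, coeffMap_jqModC]
    exact jqModCd_mem_full K N hdN
  | zero => rw [map_zero]; exact zero_mem _
  | one => rw [map_one]; exact one_mem _
  | add x y _ _ hx hy => rw [map_add]; exact add_mem hx hy
  | neg x _ hx => rw [map_neg]; exact neg_mem hx
  | mul x y _ _ hx hy => rw [map_mul]; exact mul_mem hx hy

end Closure

section Span

variable (L : Type*) [Field L] [Algebra ℚ L] (N : ℕ) [NeZero N]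
variable {n : ℕ} (y : Fin n → LaurentSeries ℤ)

/-- The `L(j)`-span of the base-changed monomials. -/
def spanL : Submodule (jField L) (LaurentSeries L) :=
  Submodule.span (jField L) (Set.range fun i => coeffMap (Int.castRingHom L) (y i))

/-- Hypothesis package extracted from `CoreData.exists_basis` (char-0 half). -/
def SpansQ : Prop :=
  (∀ i, y i ∈ Subring.closure (intDivisorExpansions N)) ∧
    ∀ x ∈ modularFunctionFieldFull N,
      x ∈ Submodule.span (jField ℚ) (Set.range fun i => coeffMap (Int.castRingHom ℚ) (y i))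

variable {N y}

omit [Algebra ℚ L] in
theorem yL_mem_spanL (i : Fin n) : coeffMap (Int.castRingHom L) (y i) ∈ spanL L y :=
  Submodule.subset_span ⟨i, rfl⟩

theorem coeffEmb_mem_spanL (h : SpansQ N y) {x : LaurentSeries ℚ}
    (hx : x ∈ modularFunctionFieldFull N) : coeffEmb L x ∈ spanL L y := by
  have hx' := h.2 x hx
  clear hx
  induction hx' using Submodule.span_induction with
  | mem z hz =>
    obtain ⟨i, rfl⟩ := hz
    rw [← coeffMap_intCast_eq_coeffEmb L (y i)]
    exact yL_mem_spanL L i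
  | zero => rw [map_zero]; exact zero_mem _
  | add a b _ _ ha hb => rw [map_add]; exact add_mem ha hb
  | smul c a _ ha =>
    have : coeffEmb L (c • a) = (⟨coeffEmb L c, coeffEmb_mem_jField L c.2⟩ : jField L) •
        coeffEmb L a := by
      show coeffEmb L ((c : LaurentSeries ℚ) * a) = coeffEmb L c * coeffEmb L a
      rw [map_mul]
    rw [this]
    exact Submodule.smul_mem _ _ ha

theorem yQ_mem_full (h : SpansQ N y) (i : Fin n) :
    coeffMap (Int.castRingHom ℚ) (y i) ∈ modularFunctionFieldFull N := by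
  have := coeffMap_mem_of_mem_closure (K := ℚ) N (h.1 i)
  rwa [modularFunctionFieldFullC_rat] at this

theorem one_mem_spanL (h : SpansQ N y) : (1 : LaurentSeries L) ∈ spanL L y := by
  have := coeffEmb_mem_spanL L h (one_mem (modularFunctionFieldFull N))
  rwa [map_one] at this

theorem mul_mem_spanL (h : SpansQ N y) {a b : LaurentSeries L} (ha : a ∈ spanL L y)
    (hb : b ∈ spanL L y) : a * b ∈ spanL L y := by
  induction ha using Submodule.span_induction with
  | mem z hz =>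
    obtain ⟨i, rfl⟩ := hz
    induction hb using Submodule.span_induction with
    | mem w hw =>
      obtain ⟨j, rfl⟩ := hw
      show coeffMap (Int.castRingHom L) (y i) * coeffMap (Int.castRingHom L) (y j) ∈ _
      rw [coeffMap_intCast_eq_coeffEmb L (y i), coeffMap_intCast_eq_coeffEmb L (y j), ← map_mul]
      exact coeffEmb_mem_spanL L h (mul_mem (yQ_mem_full h i) (yQ_mem_full h j))
    | zero => rw [mul_zero]; exact zero_mem _
    | add a b _ _ ha hb => rw [mul_add]; exact add_mem ha hb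
    | smul c a _ ha =>
      have : (fun i => coeffMap (Int.castRingHom L) (y i)) i * (c • a) =
          c • ((fun i => coeffMap (Int.castRingHom L) (y i)) i * a) := by
        show _ * ((c : LaurentSeries L) * a) = (c : LaurentSeries L) * (_ * a)
        ring
      rw [this]
      exact Submodule.smul_mem _ _ ha
  | zero => rw [zero_mul]; exact zero_mem _
  | add a b _ _ ha hb => rw [add_mul]; exact add_mem ha hb
  | smul c a _ ha =>
    have : (c • a) * b = c • (a * b) := by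
      show ((c : LaurentSeries L) * a) * b = (c : LaurentSeries L) * (a * b)
      ring
    rw [this]
    exact Submodule.smul_mem _ _ ha

/-- The span as a subalgebra over `L(j)`. -/
def spanAlg (h : SpansQ N y) : Subalgebra (jField L) (LaurentSeries L) where
  carrier := spanL L y
  mul_mem' := fun ha hb => mul_mem_spanL L h ha hb
  add_mem' := fun ha hb => add_mem ha hb
  algebraMap_mem' c := by
    have : algebraMap (jField L) (LaurentSeries L) c = c • (1 : LaurentSeries L) := by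
      rw [Algebra.smul_def, mul_one]
    rw [this]
    exact Submodule.smul_mem _ _ (one_mem_spanL L h)

theorem mem_spanAlg (h : SpansQ N y) {x : LaurentSeries L} :
    x ∈ spanAlg L h ↔ x ∈ spanL L y := Iff.rfl

theorem inv_mem_spanL (h : SpansQ N y) {x : LaurentSeries L} (hx : x ∈ spanL L y) :
    x⁻¹ ∈ spanL L y := by
  have hfin : Module.Finite (jField L) (spanAlg L h) := by
    have : Module.Finite (jField L) (spanL L y) :=
      Module.Finite.span_of_finite _ (Set.finite_range _)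
    exact this
  have hint : IsIntegral (jField L) (⟨x, hx⟩ : spanAlg L h) := IsIntegral.of_finite _ _
  have halg : IsAlgebraic (jField L) ((⟨x, hx⟩ : spanAlg L h) : LaurentSeries L) :=
    (hint.isAlgebraic).algebraMap (A := LaurentSeries L)
  exact (spanAlg L h).inv_mem_of_algebraic (x := ⟨x, hx⟩) halg

/-- The span as an intermediate field of `L((q))/L`. -/
def spanField (h : SpansQ N y) : IntermediateField L (LaurentSeries L) where
  carrier := spanL L y
  mul_mem' := fun ha hb => mul_mem_spanL L h ha hb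
  add_mem' := fun ha hb => add_mem ha hb
  one_mem' := one_mem_spanL L h
  zero_mem' := zero_mem _
  algebraMap_mem' c := by
    have hc : algebraMap L (LaurentSeries L) c ∈ jField L := (jField L).algebraMap_mem c
    have : algebraMap L (LaurentSeries L) c =
        (⟨_, hc⟩ : jField L) • (1 : LaurentSeries L) := by
      show _ = algebraMap L (LaurentSeries L) c * 1
      rw [mul_one]
    rw [this]
    exact Submodule.smul_mem _ _ (one_mem_spanL L h)
  inv_mem' := fun x hx => inv_mem_spanL L h hx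

theorem jField_le_baseChange : jField L ≤ laurentBaseChange L (modularFunctionFieldFull N) := by
  rw [jField, adjoin_le_iff]
  rintro x rfl
  have hj : jq ∈ modularFunctionFieldFull N := modularFunctionField_le_full N (jq_mem N)
  have := coeffEmb_mem_laurentBaseChange L hj
  rwa [coeffEmb_jq] at this

/-- **Base change of the S28 basis.** `F_L` is the `L(j)`-span of the monomials. -/
theorem mem_baseChange_iff_mem_spanL (h : SpansQ N y) {x : LaurentSeries L} :
    x ∈ laurentBaseChange L (modularFunctionFieldFull N) ↔ x ∈ spanL L y := by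
  constructor
  · intro hx
    have hle : laurentBaseChange L (modularFunctionFieldFull N) ≤ spanField L h := by
      rw [laurentBaseChange, adjoin_le_iff]
      rintro z ⟨w, hw, rfl⟩
      exact coeffEmb_mem_spanL L h hw
    exact hle hx
  · intro hx
    induction hx using Submodule.span_induction with
    | mem z hz =>
      obtain ⟨i, rfl⟩ := hz
      show coeffMap (Int.castRingHom L) (y i) ∈ _
      rw [coeffMap_intCast_eq_coeffEmb L (y i)]
      exact coeffEmb_mem_laurentBaseChange L (yQ_mem_full h i)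
    | zero => exact zero_mem _
    | add a b _ _ ha hb => exact add_mem ha hb
    | smul c a _ ha =>
      exact mul_mem (jField_le_baseChange L c.2) ha

end Span

end Fermat.Agent.S18.H516

end
end
-- ===== PACK-END S18/H516/GaussSpan.lean

-- ===== PACK-BEGIN S18/H516/GaussDecomp.lean
section






/-!
# S18 / MOD (helper516): Gauss decomposition from the S28 basis

`A` a valuation subring of a field `L ⊇ ℚ`, `π : A →+* k` any ring hom to a field `k`
such that `CoreData N k` holds (S28; true when `char k ∤ N`).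

* `exists_gauss_decomp` (G4): every `f ≠ 0` in `F_L` is `c · U₁ / U₂` with `U₁, U₂ ∈ A((q))`,
  images in `F_L`, reductions in `F_k` and nonzero.  (This is `PrincipalGeneratedByIntegral`
  as a theorem, valid at every level.)
* `red_mem_of_incl_mem` (G5): `U ∈ A((q))` with image in `F_L` has reduction in `F_k`.
-/

set_option autoImplicit false
set_option linter.unusedSectionVars false

noncomputable section

namespace Fermat.Agent.S18.H516

open ModularCurve IntermediateField Polynomial Fermat.Agent.S28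

section Scale

variable {L : Type*} [Field L] (A : ValuationSubring L)

/-- Joint scaling of a finite family of polynomials over the fraction field of a valuation ring:
after division by a suitable constant all coefficients are integral and one of them is `1`. -/
theorem exists_scale {n : ℕ} (H : Fin n → L[X]) (hH : ∃ i, H i ≠ 0) :
    ∃ (c : L) (H' : Fin n → A[X]), c ≠ 0 ∧
      (∀ i, (H' i).map A.subtype = C c⁻¹ * H i) ∧ ∃ i m, (H' i).coeff m = 1 := by
  classical
  set T : Finset (Σ _ : Fin n, ℕ) := Finset.univ.sigma (fun i => (H i).support) with hT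
  have hTne : T.Nonempty := by
    obtain ⟨i, hi⟩ := hH
    obtain ⟨m, hm⟩ : (H i).support.Nonempty := by
      rw [Finset.nonempty_iff_ne_empty, Ne, Polynomial.support_eq_empty]
      exact hi
    exact ⟨⟨i, m⟩, by simp [hT, hm]⟩
  obtain ⟨⟨i0, m0⟩, h0T, hmax⟩ := Finset.exists_max_image T
    (fun p => A.valuation ((H p.1).coeff p.2)) hTne
  have hc : (H i0).coeff m0 ≠ 0 := by
    have : m0 ∈ (H i0).support := by simpa [hT] using h0T
    exact Polynomial.mem_support_iff.mp this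
  set c : L := (H i0).coeff m0 with hcdef
  have hmem : ∀ i m, c⁻¹ * (H i).coeff m ∈ A := by
    intro i m
    by_cases h0 : (H i).coeff m = 0
    · rw [h0, mul_zero]; exact zero_mem _
    · have hT' : (⟨i, m⟩ : Σ _ : Fin n, ℕ) ∈ T := by
        simp [hT, Polynomial.mem_support_iff, h0]
      have hle := hmax ⟨i, m⟩ hT'
      rw [← A.valuation_le_one_iff, map_mul, map_inv₀]
      have hvc : A.valuation c ≠ 0 := (_root_.map_ne_zero _).mpr hc
      rw [inv_mul_le_iff₀ (zero_lt_iff.mpr hvc), mul_one]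
      exact hle
  have hsub : ∀ i, (↑(C c⁻¹ * H i).coeffs : Set L) ⊆ A.toSubring := by
    intro i x hx
    rw [Finset.mem_coe, Polynomial.mem_coeffs_iff] at hx
    obtain ⟨m, -, rfl⟩ := hx
    rw [Polynomial.coeff_C_mul]
    exact hmem i m
  refine ⟨c, fun i => (C c⁻¹ * H i).toSubring A.toSubring (hsub i), hc,
    fun i => Polynomial.map_toSubring _ A.toSubring (hsub i), i0, m0, ?_⟩
  apply Subtype.ext
  rw [Polynomial.coeff_toSubring, Polynomial.coeff_C_mul]
  show c⁻¹ * c = 1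
  exact inv_mul_cancel₀ hc

end Scale

section Eval

variable {R S : Type*} [CommRing R] [CommRing S]

theorem coeffMap_C (f : R →+* S) (a : R) :
    coeffMap f (HahnSeries.C (Γ := ℤ) a) = HahnSeries.C (f a) := by
  rw [HahnSeries.C_apply, HahnSeries.C_apply, coeffMap_single]

/-- Evaluation of a polynomial at `j ∈ R((q))`. -/
def evJ (P : R[X]) : LaurentSeries R := P.eval₂ (HahnSeries.C (Γ := ℤ) (R := R)) (jqModC R)

theorem coeffMap_evJ (f : R →+* S) (P : R[X]) : coeffMap f (evJ P) = evJ (P.map f) := by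
  rw [evJ, evJ, hom_eval₂, eval₂_map, coeffMap_jqModC]
  congr 1
  ext a
  exact congrArg (fun z : LaurentSeries S => z.coeff _) (coeffMap_C f a)

theorem evJ_add (P Q : R[X]) : evJ (P + Q) = evJ P + evJ Q := eval₂_add _ _

theorem evJ_mul (P Q : R[X]) : evJ (P * Q) = evJ P * evJ Q := eval₂_mul _ _

theorem evJ_C (a : R) : evJ (C a) = HahnSeries.C a := eval₂_C _ _

theorem evJ_zero : evJ (0 : R[X]) = 0 := eval₂_zero _ _

theorem evJ_one : evJ (1 : R[X]) = 1 := eval₂_one _ _

theorem evJ_prod {ι : Type*} (s : Finset ι) (g : ι → R[X]) :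
    evJ (∏ i ∈ s, g i) = ∏ i ∈ s, evJ (g i) :=
  eval₂_finsetProd _ _ _ _

end Eval

section Field

variable (K : Type*) [Field K]

theorem aeval_eq_evJ (Q : K[X]) : aeval (jqModC K) Q = evJ Q := by
  rw [aeval_def, evJ]
  congr 1
  ext a
  rw [algebraMap_laurentSeries_eq_single, HahnSeries.C_apply]

theorem evJ_eq_zero_iff {Q : K[X]} : evJ Q = 0 ↔ Q = 0 := by
  constructor
  · intro h
    exact Fermat.Agent.S28.H806.eq_zero_of_eval₂_C_eq_zero (jqModC K)
      (Fermat.Agent.S28.H806.jqModC_order_ne_zero K) Q h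
  · rintro rfl
    exact evJ_zero

theorem evJ_mem_jField (Q : K[X]) : evJ Q ∈ jField K := by
  rw [← aeval_eq_evJ, jField, mem_adjoin_simple_iff]
  exact ⟨Q, 1, by simp⟩

theorem exists_fraction {c : LaurentSeries K} (hc : c ∈ jField K) :
    ∃ r s : K[X], s ≠ 0 ∧ evJ s * c = evJ r := by
  rw [jField, mem_adjoin_simple_iff] at hc
  obtain ⟨r, s, rfl⟩ := hc
  by_cases hs : s = 0
  · refine ⟨0, 1, one_ne_zero, ?_⟩
    rw [hs, map_zero, div_zero, mul_zero, evJ_zero]
  · refine ⟨r, s, hs, ?_⟩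
    have hs' : aeval (jqModC K) s ≠ 0 := by
      rw [aeval_eq_evJ]
      exact fun h => hs (evJ_eq_zero_iff K |>.mp h)
    rw [← aeval_eq_evJ, ← aeval_eq_evJ]
    field_simp

/-- Clearing denominators in a `K(j)`-linear combination. -/
theorem exists_cleared {n : ℕ} (v : Fin n → LaurentSeries K) {x : LaurentSeries K}
    (hx : x ∈ Submodule.span (jField K) (Set.range v)) :
    ∃ (G : K[X]) (H : Fin n → K[X]), G ≠ 0 ∧ evJ G * x = ∑ i, evJ (H i) * v i := by
  classical
  obtain ⟨c, rfl⟩ := (Submodule.mem_span_range_iff_exists_fun (jField K)).mp hx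
  have hc : ∀ i, ∃ r s : K[X], s ≠ 0 ∧ evJ s * (c i : LaurentSeries K) = evJ r :=
    fun i => exists_fraction K (c i).2
  choose r s hs hrs using hc
  refine ⟨∏ i, s i, fun i => r i * ∏ j ∈ Finset.univ.erase i, s j, ?_, ?_⟩
  · exact Finset.prod_ne_zero_iff.mpr fun i _ => hs i
  · rw [Finset.mul_sum]
    refine Finset.sum_congr rfl fun i _ => ?_
    rw [← Finset.mul_prod_erase Finset.univ s (Finset.mem_univ i), evJ_mul, evJ_mul,
      IntermediateField.smul_def, smul_eq_mul, ← hrs i]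
    ring

end Field

section Decomp

variable {L : Type*} [Field L] [Algebra ℚ L] (A : ValuationSubring L)
variable {k : Type} [Field k] (π : A →+* k) (N : ℕ) [NeZero N]

/-- Integral series: image in `F_L`, reduction in `F_k` and nonzero. -/
def IsIntSeries (U : LaurentSeries A) : Prop :=
  coeffMap A.subtype U ∈ laurentBaseChange L (modularFunctionFieldFull N) ∧
    coeffMap π U ∈ modularFunctionFieldFullC k N ∧ coeffMap π U ≠ 0

omit [Algebra ℚ L] in
theorem incl_injective : Function.Injective (coeffMap A.subtype) := by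
  intro x y hxy
  ext m
  have := congrArg (fun z : LaurentSeries L => z.coeff m) hxy
  exact this

theorem jField_le_fullC (K : Type*) [Field K] : jField K ≤ modularFunctionFieldFullC K N := by
  rw [jField, adjoin_le_iff]
  rintro x rfl
  exact jqModC_mem_full K N

theorem C_mem_baseChange (c : L) :
    HahnSeries.C (Γ := ℤ) c ∈ laurentBaseChange L (modularFunctionFieldFull N) := by
  have := (laurentBaseChange L (modularFunctionFieldFull N)).algebraMap_mem c
  rwa [algebraMap_laurentSeries_eq_single, ← HahnSeries.C_apply] at this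

/-- **(G4) Gauss decomposition.** -/
theorem exists_gauss_decomp (core : CoreData N k) {f : LaurentSeries L}
    (hf : f ∈ laurentBaseChange L (modularFunctionFieldFull N)) (hf0 : f ≠ 0) :
    ∃ (c : L) (U₁ U₂ : LaurentSeries A), c ≠ 0 ∧ IsIntSeries A π N U₁ ∧ IsIntSeries A π N U₂ ∧
      f * coeffMap A.subtype U₂ = HahnSeries.C c * coeffMap A.subtype U₁ := by
  classical
  obtain ⟨n, y, hy, hspan, hli⟩ := core.exists_basis
  have hS : SpansQ N y := ⟨hy, hspan⟩
  have hfs := (mem_baseChange_iff_mem_spanL L hS).mp hf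
  obtain ⟨G, H, hG, hGH⟩ := exists_cleared L _ hfs
  have hGne : evJ G ≠ 0 := fun h => hG ((evJ_eq_zero_iff L).mp h)
  have hH : ∃ i, H i ≠ 0 := by
    by_contra hcon
    push Not at hcon
    have : evJ G * f = 0 := by
      rw [hGH]
      exact Finset.sum_eq_zero fun i _ => by rw [hcon i, evJ_zero, zero_mul]
    rcases mul_eq_zero.mp this with h | h
    · exact hGne h
    · exact hf0 h
  obtain ⟨g0, G', hg0, hG', i1, m1, hG1⟩ := exists_scale A (fun _ : Fin 1 => G) ⟨0, hG⟩
  obtain rfl : i1 = 0 := Subsingleton.elim _ _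
  obtain ⟨h0, H', hh0, hH', i0, m0, hH1⟩ := exists_scale A H hH
  set U₂ : LaurentSeries A := evJ (G' 0) with hU₂
  set U₁ : LaurentSeries A := ∑ i, evJ (H' i) * coeffMap (Int.castRingHom A) (y i) with hU₁
  have hU₂L : coeffMap A.subtype U₂ = HahnSeries.C g0⁻¹ * evJ G := by
    rw [hU₂, coeffMap_evJ, hG' 0, evJ_mul, evJ_C]
  have hU₁L : coeffMap A.subtype U₁ =
      HahnSeries.C h0⁻¹ * ∑ i, evJ (H i) * coeffMap (Int.castRingHom L) (y i) := by
    rw [hU₁, map_sum, Finset.mul_sum]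
    refine Finset.sum_congr rfl fun i _ => ?_
    rw [map_mul, coeffMap_evJ, hH' i, evJ_mul, evJ_C, coeffMap_coeffMap,
      show (A.subtype.comp (Int.castRingHom A)) = Int.castRingHom L from RingHom.ext_int _ _]
    ring
  have hU₁k : coeffMap π U₁ =
      ∑ i, evJ ((H' i).map π) * coeffMap (Int.castRingHom k) (y i) := by
    rw [hU₁, map_sum]
    refine Finset.sum_congr rfl fun i _ => ?_
    rw [map_mul, coeffMap_evJ, coeffMap_coeffMap,
      show (π.comp (Int.castRingHom A)) = Int.castRingHom k from RingHom.ext_int _ _]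
  have hU₂k : coeffMap π U₂ = evJ ((G' 0).map π) := by
    rw [hU₂, coeffMap_evJ]
  refine ⟨h0 * g0⁻¹, U₁, U₂, mul_ne_zero hh0 (inv_ne_zero hg0), ⟨?_, ?_, ?_⟩, ⟨?_, ?_, ?_⟩, ?_⟩
  · rw [hU₁L, ← hGH]
    exact mul_mem (C_mem_baseChange N _)
      (mul_mem (jField_le_baseChange L (evJ_mem_jField L G)) hf)
  · rw [hU₁k]
    refine sum_mem fun i _ => mul_mem (jField_le_fullC N k (evJ_mem_jField k _)) ?_
    exact coeffMap_mem_of_mem_closure N (hy i)
  · rw [hU₁k]
    intro h0'
    have hli' := Fintype.linearIndependent_iff.mp hli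
      (fun i => (⟨evJ ((H' i).map π), evJ_mem_jField k _⟩ : jField k)) h0' i0
    have h1 : evJ ((H' i0).map π) = 0 := congrArg Subtype.val hli'
    have h2 := (evJ_eq_zero_iff k).mp h1
    have h3 := congrArg (fun P : k[X] => P.coeff m0) h2
    simp only [Polynomial.coeff_map, Polynomial.coeff_zero, hH1, map_one] at h3
    exact one_ne_zero h3
  · rw [hU₂L]
    exact mul_mem (C_mem_baseChange N _) (jField_le_baseChange L (evJ_mem_jField L G))
  · rw [hU₂k]
    exact jField_le_fullC N k (evJ_mem_jField k _)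
  · rw [hU₂k]
    intro h1
    have h2 := (evJ_eq_zero_iff k).mp h1
    have h3 := congrArg (fun P : k[X] => P.coeff m1) h2
    simp only [Polynomial.coeff_map, Polynomial.coeff_zero, hG1, map_one] at h3
    exact one_ne_zero h3
  · rw [hU₂L, hU₁L, ← hGH, map_mul]
    have hC : HahnSeries.C (Γ := ℤ) h0 * HahnSeries.C h0⁻¹ = 1 := by
      rw [← map_mul, mul_inv_cancel₀ hh0, map_one]
    calc f * (HahnSeries.C g0⁻¹ * evJ G)
        = (HahnSeries.C (Γ := ℤ) h0 * HahnSeries.C h0⁻¹) * (HahnSeries.C g0⁻¹ * (evJ G * f)) := by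
          rw [hC]; ring
      _ = HahnSeries.C h0 * HahnSeries.C g0⁻¹ * (HahnSeries.C h0⁻¹ * (evJ G * f)) := by ring

theorem C_mem_fullC (K : Type*) [Field K] (c : K) :
    HahnSeries.C (Γ := ℤ) c ∈ modularFunctionFieldFullC K N := by
  have := (modularFunctionFieldFullC K N).algebraMap_mem c
  rwa [algebraMap_laurentSeries_eq_single, ← HahnSeries.C_apply] at this

/-- **(G5)** A series with coefficients in `A` lying in `F_L` reduces into `F_k`. -/
theorem red_mem_of_incl_mem (core : CoreData N k) {U : LaurentSeries A}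
    (hU : coeffMap A.subtype U ∈ laurentBaseChange L (modularFunctionFieldFull N)) :
    coeffMap π U ∈ modularFunctionFieldFullC k N := by
  by_cases hU0 : U = 0
  · rw [hU0, map_zero]; exact zero_mem _
  have hU0' : coeffMap A.subtype U ≠ 0 := fun h => hU0 (incl_injective A (by rw [h, map_zero]))
  obtain ⟨c, U₁, U₂, hc, h₁, h₂, heq⟩ := exists_gauss_decomp A π N core hU hU0'
  rcases A.mem_or_inv_mem c with hcA | hcA
  · have h1 : U * U₂ = HahnSeries.C ⟨c, hcA⟩ * U₁ := by
      apply incl_injective A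
      rw [map_mul, map_mul, coeffMap_C, heq]
      rfl
    have hk := congrArg (coeffMap π) h1
    rw [map_mul, map_mul, coeffMap_C] at hk
    have h2 : coeffMap π U =
        HahnSeries.C (π ⟨c, hcA⟩) * coeffMap π U₁ * (coeffMap π U₂)⁻¹ := by
      rw [← hk, mul_assoc, mul_inv_cancel₀ h₂.2.2, mul_one]
    rw [h2]
    exact mul_mem (mul_mem (C_mem_fullC N k _) h₁.2.1) (inv_mem h₂.2.1)
  · have h1 : HahnSeries.C ⟨c⁻¹, hcA⟩ * (U * U₂) = U₁ := by
      apply incl_injective A
      rw [map_mul, map_mul, coeffMap_C, heq]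
      show HahnSeries.C c⁻¹ * (HahnSeries.C c * _) = _
      rw [← mul_assoc, ← map_mul, inv_mul_cancel₀ hc, map_one, one_mul]
    have hk := congrArg (coeffMap π) h1
    rw [map_mul, map_mul, coeffMap_C] at hk
    have hne : HahnSeries.C (Γ := ℤ) (π ⟨c⁻¹, hcA⟩) ≠ 0 := by
      intro h0
      rw [h0, zero_mul] at hk
      exact h₁.2.2 hk.symm
    have h2 : coeffMap π U =
        (HahnSeries.C (Γ := ℤ) (π ⟨c⁻¹, hcA⟩))⁻¹ * coeffMap π U₁ * (coeffMap π U₂)⁻¹ := by
      rw [← hk, ← mul_assoc, inv_mul_cancel₀ hne, one_mul, mul_assoc,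
        mul_inv_cancel₀ h₂.2.2, mul_one]
    rw [h2]
    exact mul_mem (mul_mem (inv_mem (C_mem_fullC N k _)) h₁.2.1) (inv_mem h₂.2.1)

end Decomp

end Fermat.Agent.S18.H516

end
end
-- ===== PACK-END S18/H516/GaussDecomp.lean

-- ===== PACK-BEGIN S28/H867/Leaves.lean
section
/-
S28 [L] (helper867): leaf interface for the degree bookkeeping behind `coreData`.
Only definitions and `Prop`-valued leaf statements live here (no proofs needed).
-/



set_option autoImplicit false

noncomputable section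

open ModularCurve HahnSeries IntermediateField

namespace Fermat.Agent.S28.H867

variable (k : Type*) [Field k]

/-- `j(q^p)` as a Laurent series over `k`. -/
abbrev jp (p : ℕ) [NeZero p] : LaurentSeries k := qExpand k p (jqModC k)

/-- `k(j(q^p)) ⊂ k((q))`. -/
def jpField (p : ℕ) [NeZero p] : IntermediateField k (LaurentSeries k) :=
  IntermediateField.adjoin k {jp k p}

/-- `E_M = k(j(q^d) : d ∣ M)`. -/
abbrev EF (M : ℕ) : IntermediateField k (LaurentSeries k) := modularFunctionFieldFullC k M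

/-- `[E_M : k(j)]` (zero if infinite). -/
def degE (M : ℕ) : ℕ := (jField k).relfinrank (EF k M)

/-- The expected degree `ψ(N) = ∏_{p ∣ N} (p + 1) p^{v_p(N) - 1}`. -/
def gFun (N : ℕ) : ℕ := ∏ p ∈ N.primeFactors, (p + 1) * p ^ (N.factorization p - 1)

/-- Leaf [L.I]: `1, j, …, j^{p-1}` are linearly independent over every subfield of
`k((q^p)) = range V_p`. True for every field `k` and every `p ≥ 1`. -/
def LeafI (p : ℕ) [NeZero p] : Prop :=
  ∀ B : IntermediateField k (LaurentSeries k),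
    B ≤ (qExpandAlgHomC k p).fieldRange →
    LinearIndependent B (fun i : Fin p => (jqModC k) ^ (i : ℕ))

/-- Leaf [L.B1]: `j(q^p) ∉ k(j)`. True when `p` is prime and `(p : k) ≠ 0`. -/
def LeafB1 (p : ℕ) [NeZero p] : Prop := jp k p ∉ jField k

/-- Leaf [L.UP]: upper bound in characteristic zero. -/
def LeafUP (N : ℕ) : Prop := ∀ M : ℕ, M ∣ N → degE ℚ M ≤ gFun M

/-- Prime-level degrees: `[k(j, j_p) : k(j)] = p + 1 = [k(j, j_p) : k(j_p)]`. -/
structure PrimeLevel (p : ℕ) [NeZero p] : Prop where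
  deg_j : (jField k).relfinrank (jField k ⊔ jpField k p) = p + 1
  deg_jp : (jpField k p).relfinrank (jField k ⊔ jpField k p) = p + 1

end Fermat.Agent.S28.H867

end

end
-- ===== PACK-END S28/H867/Leaves.lean

-- ===== PACK-BEGIN S28/H867/Degree.lean
section



set_option autoImplicit false
noncomputable section
open ModularCurve HahnSeries IntermediateField

namespace Fermat.Agent.S28.H867

section Generic

variable {k Ω : Type*} [Field k] [Field Ω] [Algebra k Ω]

/-- `[A(S) : A]` as a `relfinrank`. -/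
theorem relfinrank_sup_adjoin (A : IntermediateField k Ω) (S : Set Ω) :
    A.relfinrank (A ⊔ adjoin k S) = Module.finrank A (adjoin A S) := by
  have h : A ≤ A ⊔ adjoin k S := le_sup_left
  rw [relfinrank_eq_finrank_of_le h]
  have : extendScalars h = adjoin A S := by
    apply IntermediateField.restrictScalars_injective k
    rw [extendScalars_restrictScalars, restrictScalars_adjoin_eq_sup]
  rw [this]

theorem relfinrank_sup_adjoin_simple (A : IntermediateField k Ω) {x : Ω} (hx : IsIntegral A x) :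
    A.relfinrank (A ⊔ adjoin k {x}) = (minpoly A x).natDegree := by
  rw [relfinrank_sup_adjoin, adjoin.finrank hx]

theorem relfinrank_sup_adjoin_ne_zero (A : IntermediateField k Ω) {S : Set Ω} (hS : S.Finite)
    (hint : ∀ x ∈ S, IsIntegral A x) : A.relfinrank (A ⊔ adjoin k S) ≠ 0 := by
  rw [relfinrank_sup_adjoin]
  have : Finite S := hS
  have := finiteDimensional_adjoin (K := A) hint
  exact Module.finrank_pos.ne'

theorem relfinrank_ne_zero_of_le {A B C : IntermediateField k Ω} (hAB : A ≤ B) (hBC : B ≤ C)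
    (h : A.relfinrank C ≠ 0) : A.relfinrank B ≠ 0 ∧ B.relfinrank C ≠ 0 := by
  rw [← relfinrank_mul_relfinrank hAB hBC] at h
  exact ⟨left_ne_zero_of_mul h, right_ne_zero_of_mul h⟩

/-- A linearly independent family of size `n` inside `C` bounds `[C : B]` from below
(when finite). -/
theorem le_relfinrank_of_linearIndependent {B C : IntermediateField k Ω} (hBC : B ≤ C)
    (hfin : B.relfinrank C ≠ 0) {n : ℕ} (v : Fin n → Ω) (hv : ∀ i, v i ∈ C)
    (hli : LinearIndependent B v) : n ≤ B.relfinrank C := by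
  rw [relfinrank_eq_finrank_of_le hBC] at hfin ⊢
  have hfd : FiniteDimensional B (extendScalars hBC) :=
    Module.finite_of_finrank_pos (Nat.pos_of_ne_zero hfin)
  let v' : Fin n → extendScalars hBC := fun i => ⟨v i, hv i⟩
  have hli' : LinearIndependent B v' := by
    apply LinearIndependent.of_comp (extendScalars hBC).val.toLinearMap
    exact hli
  simpa using hli'.fintype_card_le_finrank

end Generic

section Basic

variable (k : Type*) [Field k]

theorem jField_le_EF (M : ℕ) : jField k ≤ EF k M := by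
  rw [jField, adjoin_simple_le_iff]
  exact jqModC_mem_full k M

theorem jpField_eq_map (p : ℕ) [NeZero p] :
    jpField k p = (jField k).map (qExpandAlgHomC k p) := by
  rw [jpField, jField, adjoin_map, Set.image_singleton]
  rfl

theorem EF_le_EF_mul (M p : ℕ) [NeZero M] [NeZero p] : EF k M ≤ EF k (M * p) :=
  haveI : NeZero (M * p) := ⟨Nat.mul_ne_zero (NeZero.ne M) (NeZero.ne p)⟩
  full_degeneracyC_le k (Dvd.intro _ rfl)

theorem map_EF_le (M p : ℕ) [NeZero p] :
    (EF k M).map (qExpandAlgHomC k p) ≤ EF k (M * p) :=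
  full_degeneracyC_map_le k M p

/-- Step (b): `[E_{Mp} : k(j)] ≥ p · [E_M : k(j)]`. -/
theorem degE_mul_ge (M p : ℕ) [NeZero p] (hP : PrimeLevel k p) (hI : LeafI k p)
    (hfin : degE k (M * p) ≠ 0) : p * degE k M ≤ degE k (M * p) := by
  set V := qExpandAlgHomC k p with hV
  set A₀ := jField k with hA₀
  set A := jpField k p with hA
  set B := (EF k M).map V with hB
  set C := B ⊔ A₀ with hC
  set E' := EF k (M * p) with hE'
  set P := A₀ ⊔ A with hPdef
  have hAB : A ≤ B := by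
    rw [hA, jpField_eq_map, hB]
    exact IntermediateField.map_mono _ (jField_le_EF k M)
  have hBE : B ≤ E' := map_EF_le k M p
  have hA₀E : A₀ ≤ E' := jField_le_EF k (M * p)
  have hCE : C ≤ E' := sup_le hBE hA₀E
  have hBC : B ≤ C := le_sup_left
  have hPC : P ≤ C := sup_le le_sup_right (hAB.trans hBC)
  have hPE : P ≤ E' := hPC.trans hCE
  have hA₀P : A₀ ≤ P := le_sup_left
  have hAP : A ≤ P := le_sup_right
  -- D_{Mp} = [E' : A]
  have h1 : A₀.relfinrank E' = A.relfinrank E' := by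
    rw [← relfinrank_mul_relfinrank hA₀P hPE, ← relfinrank_mul_relfinrank hAP hPE,
      hP.deg_j, hP.deg_jp]
  have h2 : A.relfinrank E' = A.relfinrank B * (B.relfinrank C * C.relfinrank E') := by
    rw [relfinrank_mul_relfinrank hBC hCE, relfinrank_mul_relfinrank hAB hBE]
  have h3 : A.relfinrank B = degE k M := by
    rw [hA, jpField_eq_map, hB, relfinrank_map_map]
    rfl
  have hfin' : A.relfinrank E' ≠ 0 := by rw [← h1]; exact hfin
  have hBCfin : B.relfinrank C ≠ 0 := by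
    rw [h2] at hfin'
    exact left_ne_zero_of_mul (right_ne_zero_of_mul hfin')
  have hCEfin : C.relfinrank E' ≠ 0 := by
    rw [h2] at hfin'
    exact right_ne_zero_of_mul (right_ne_zero_of_mul hfin')
  have h4 : p ≤ B.relfinrank C := by
    refine le_relfinrank_of_linearIndependent hBC hBCfin _ ?_ (hI B ?_)
    · intro i
      refine pow_mem ?_ _
      exact (le_sup_right : A₀ ≤ C) (mem_adjoin_simple_self k _)
    · rw [hB]
      intro x hx
      obtain ⟨y, -, rfl⟩ := hx
      exact ⟨y, rfl⟩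
  show p * degE k M ≤ A₀.relfinrank E'
  rw [h1, h2, h3]
  calc p * degE k M = degE k M * (p * 1) := by ring
    _ ≤ degE k M * (B.relfinrank C * C.relfinrank E') := by
        apply Nat.mul_le_mul_left
        exact Nat.mul_le_mul h4 (Nat.one_le_iff_ne_zero.mpr hCEfin)

end Basic

end Fermat.Agent.S28.H867

end
end
-- ===== PACK-END S28/H867/Degree.lean

-- ===== PACK-BEGIN S28/H867/GFun.lean
section



set_option autoImplicit false
noncomputable section

namespace Fermat.Agent.S28.H867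

section GFun

theorem gFun_one : gFun 1 = 1 := by
  simp [gFun]

theorem gFun_pos (N : ℕ) : 0 < gFun N := by
  unfold gFun
  apply Finset.prod_pos
  intro p hp
  have hp' := Nat.prime_of_mem_primeFactors hp
  exact Nat.mul_pos (Nat.succ_pos _) (pow_pos hp'.pos _)

theorem gFun_mul_of_dvd {M p : ℕ} (hM : M ≠ 0) (hp : p.Prime) (hpM : p ∣ M) :
    gFun (M * p) = p * gFun M := by
  unfold gFun
  have hpf : (M * p).primeFactors = M.primeFactors := by
    rw [Nat.primeFactors_mul hM hp.ne_zero, hp.primeFactors, Finset.union_eq_left,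
      Finset.singleton_subset_iff]
    exact Nat.mem_primeFactors.mpr ⟨hp, hpM, hM⟩
  have hpmem : p ∈ M.primeFactors := Nat.mem_primeFactors.mpr ⟨hp, hpM, hM⟩
  rw [hpf, ← Finset.mul_prod_erase _ _ hpmem, ← Finset.mul_prod_erase _ _ hpmem]
  have hv : 1 ≤ M.factorization p := (hp.dvd_iff_one_le_factorization hM).mp hpM
  have h1 : (M * p).factorization p = M.factorization p + 1 := by
    rw [Nat.factorization_mul hM hp.ne_zero]
    simp [hp.factorization]
  have h2 : ∀ q ∈ M.primeFactors.erase p, (M * p).factorization q = M.factorization q := by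
    intro q hq
    rw [Nat.factorization_mul hM hp.ne_zero]
    have hqp : q ≠ p := Finset.ne_of_mem_erase hq
    simp [hp.factorization, Finsupp.single_apply, hqp.symm]
  rw [Finset.prod_congr rfl fun q hq => by rw [h2 q hq], h1]
  have h3 : M.factorization p + 1 - 1 = (M.factorization p - 1) + 1 := by omega
  rw [h3, pow_succ]
  ring

theorem gFun_mul_of_not_dvd {M p : ℕ} (hM : M ≠ 0) (hp : p.Prime) (hpM : ¬ p ∣ M) :
    gFun (M * p) = (p + 1) * gFun M := by
  unfold gFun
  have hpnmem : p ∉ M.primeFactors := fun h => hpM (Nat.dvd_of_mem_primeFactors h)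
  have hpf : (M * p).primeFactors = insert p M.primeFactors := by
    rw [Nat.primeFactors_mul hM hp.ne_zero, hp.primeFactors, Finset.union_comm]
    rfl
  rw [hpf, Finset.prod_insert hpnmem]
  have h1 : (M * p).factorization p = 1 := by
    rw [Nat.factorization_mul hM hp.ne_zero]
    simp [hp.factorization, Nat.factorization_eq_zero_of_not_dvd hpM]
  have h2 : ∀ q ∈ M.primeFactors, (M * p).factorization q = M.factorization q := by
    intro q hq
    rw [Nat.factorization_mul hM hp.ne_zero]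
    have hqp : q ≠ p := fun h => hpnmem (h ▸ hq)
    simp [hp.factorization, Finsupp.single_apply, hqp.symm]
  rw [Finset.prod_congr rfl fun q hq => by rw [h2 q hq], h1]
  simp

theorem gFun_prime {p : ℕ} (hp : p.Prime) : gFun p = p + 1 := by
  have := gFun_mul_of_not_dvd (M := 1) one_ne_zero hp (by simpa using hp.one_lt.ne')
  rwa [one_mul, gFun_one, mul_one] at this

end GFun

end Fermat.Agent.S28.H867

end
end
-- ===== PACK-END S28/H867/GFun.lean

-- ===== PACK-BEGIN S28/H25/ThetaAnalytic.lean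
section




/-!
# The `θ`-identity for `j`, analytic part (helper25, S28 piece [A-θ])

In `ℂ⟦q⟧`, with `e4, e6, δ` the `q`-expansions of `E₄, E₆, Δ` and `θ = q d/dq`:
* `e4 ^ 3 - e6 ^ 2 = 1728 * δ`;
* `3 * e4 ^ 2 * θ e4 * δ - e4 ^ 3 * θ δ = - (e4 ^ 2 * e6 * δ)`.
-/

set_option autoImplicit false

open UpperHalfPlane hiding I
open Function Derivative Complex ModularForm EisensteinSeries
open scoped Manifold MatrixGroups

noncomputable section

namespace Fermat.Agent.S28.H25

/-- Functions on `ℍ` whose cusp function (period `1`) is analytic at `0`. -/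
def qAnalytic : Subring (ℍ → ℂ) where
  carrier := {F | AnalyticAt ℂ (cuspFunction 1 F) 0}
  mul_mem' {f g} hf hg := by
    simp only [Set.mem_ofPred_eq] at hf hg ⊢
    rw [cuspFunction_mul hf.continuousAt hg.continuousAt]
    exact hf.mul hg
  one_mem' := by
    simp only [Set.mem_ofPred_eq]
    have h1 : cuspFunction 1 (1 : ℍ → ℂ) = 1 := by
      ext q
      rcases eq_or_ne q 0 with rfl | hq
      · simpa [cuspFunction, Function.Periodic.cuspFunction] using!
          tendsto_const_nhds.limUnder_eq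
      · simp [cuspFunction, Function.Periodic.cuspFunction_eq_of_nonzero 1 _ hq]
    rw [h1]
    exact analyticAt_const
  add_mem' {f g} hf hg := by
    simp only [Set.mem_ofPred_eq] at hf hg ⊢
    rw [cuspFunction_add hf.continuousAt hg.continuousAt]
    exact hf.add hg
  zero_mem' := by
    simp only [Set.mem_ofPred_eq]
    have h0 : cuspFunction 1 (0 : ℍ → ℂ) = 0 := by
      ext q
      rcases eq_or_ne q 0 with rfl | hq
      · simpa [cuspFunction, Function.Periodic.cuspFunction] using!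
          tendsto_const_nhds.limUnder_eq
      · simp [cuspFunction, Function.Periodic.cuspFunction_eq_of_nonzero 1 _ hq]
    rw [h0]
    exact analyticAt_const
  neg_mem' {f} hf := by
    simp only [Set.mem_ofPred_eq] at hf ⊢
    rw [cuspFunction_neg hf.continuousAt]
    exact hf.neg

theorem mem_qAnalytic_iff {F : ℍ → ℂ} :
    F ∈ qAnalytic ↔ AnalyticAt ℂ (cuspFunction 1 F) 0 := Iff.rfl

/-- The `q`-expansion, as a ring homomorphism on `qAnalytic`. -/
def qExpRingHom : qAnalytic →+* PowerSeries ℂ where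
  toFun F := qExpansion 1 (F : ℍ → ℂ)
  map_one' := qExpansion_one 1
  map_mul' F G := qExpansion_mul F.2 G.2
  map_zero' := qExpansion_zero 1
  map_add' F G := qExpansion_add F.2 G.2

@[simp] theorem qExpRingHom_apply (F : qAnalytic) :
    qExpRingHom F = qExpansion 1 (F : ℍ → ℂ) := rfl

theorem mem_qAnalytic_of_modularForm {k : ℤ} (f : ModularForm 𝒮ℒ k) :
    (f : ℍ → ℂ) ∈ qAnalytic :=
  ModularFormClass.analyticAt_cuspFunction_zero f one_pos one_mem_strictPeriods_SL

theorem periodic_of_modularForm {k : ℤ} (f : ModularForm 𝒮ℒ k) :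
    Periodic ((f : ℍ → ℂ) ∘ ofComplex) (1 : ℝ) :=
  SlashInvariantFormClass.periodic_comp_ofComplex f one_mem_strictPeriods_SL

theorem mem_qAnalytic_D_of_modularForm {k : ℤ} (f : ModularForm 𝒮ℒ k) :
    D (f : ℍ → ℂ) ∈ qAnalytic :=
  analyticAt_cuspFunction_D one_pos (periodic_of_modularForm f) (ModularFormClass.holo f)
    (ModularFormClass.bdd_at_infty f)

theorem qExpansion_D_of_modularForm {k : ℤ} (f : ModularForm 𝒮ℒ k) :
    qExpansion 1 (D (f : ℍ → ℂ)) = thetaP (qExpansion 1 (f : ℍ → ℂ)) :=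
  qExpansion_D (periodic_of_modularForm f) (ModularFormClass.holo f)
    (ModularFormClass.bdd_at_infty f)

/-- `Δ` as a modular form of weight 12 -/
def discForm : ModularForm 𝒮ℒ 12 := (CuspForm.discriminant : CuspForm 𝒮ℒ 12)

theorem coe_discForm : (discForm : ℍ → ℂ) = ModularForm.discriminant := rfl

/-- `e4 ^ 3 - e6 ^ 2 = 1728 δ` in `ℂ⟦q⟧`. -/
theorem qExp_E4_cube_sub_E6_sq :
    qExpansion 1 E₄ ^ 3 - qExpansion 1 E₆ ^ 2 =
      1728 * qExpansion 1 ModularForm.discriminant := by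
  let a4 : qAnalytic := ⟨E₄, mem_qAnalytic_of_modularForm E₄⟩
  let a6 : qAnalytic := ⟨E₆, mem_qAnalytic_of_modularForm E₆⟩
  let aΔ : qAnalytic := ⟨ModularForm.discriminant, mem_qAnalytic_of_modularForm discForm⟩
  have key : a4 ^ 3 - a6 ^ 2 = 1728 * aΔ := by
    apply Subtype.ext
    funext z
    have := Fermat.Agent.S20.L1.E₄_cube_sub_E₆_sq z
    have h3 : ((1728 : qAnalytic) : ℍ → ℂ) z = 1728 := rfl
    push_cast
    simp only [a4, a6, aΔ, Pi.sub_apply, Pi.mul_apply, Pi.pow_apply]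
    rw [h3]
    exact this
  have := congrArg qExpRingHom key
  simpa only [map_sub, map_pow, map_mul, map_ofNat, qExpRingHom_apply] using this

/-- `3 e4² θ(e4) δ - e4³ θ(δ) = - e4² e6 δ` in `ℂ⟦q⟧`. -/
theorem qExp_theta_relation :
    3 * qExpansion 1 E₄ ^ 2 * thetaP (qExpansion 1 E₄) * qExpansion 1 ModularForm.discriminant
      - qExpansion 1 E₄ ^ 3 * thetaP (qExpansion 1 ModularForm.discriminant) =
      - (qExpansion 1 E₄ ^ 2 * qExpansion 1 E₆ * qExpansion 1 ModularForm.discriminant) := by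
  let a4 : qAnalytic := ⟨E₄, mem_qAnalytic_of_modularForm E₄⟩
  let a6 : qAnalytic := ⟨E₆, mem_qAnalytic_of_modularForm E₆⟩
  let aΔ : qAnalytic := ⟨ModularForm.discriminant, mem_qAnalytic_of_modularForm discForm⟩
  let d4 : qAnalytic := ⟨D (E₄ : ℍ → ℂ), mem_qAnalytic_D_of_modularForm E₄⟩
  let dΔ : qAnalytic := ⟨D (ModularForm.discriminant : ℍ → ℂ),
    mem_qAnalytic_D_of_modularForm discForm⟩
  have key : 3 * a4 ^ 2 * d4 * aΔ - a4 ^ 3 * dΔ = - (a4 ^ 2 * a6 * aΔ) := by
    apply Subtype.ext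
    funext z
    have h4 := Fermat.Agent.S20.L1.ramanujan_E₄ z
    have hΔ := Fermat.Agent.S20.L1.ramanujan_discriminant z
    have h3 : ((3 : qAnalytic) : ℍ → ℂ) z = 3 := rfl
    push_cast
    simp only [a4, a6, aΔ, d4, dΔ, Pi.sub_apply, Pi.mul_apply, Pi.pow_apply, Pi.neg_apply]
    rw [h3, h4, hΔ]
    ring
  have := congrArg qExpRingHom key
  simp only [map_sub, map_pow, map_mul, map_neg, map_ofNat, qExpRingHom_apply] at this
  have e1 : qExpansion 1 (D (E₄ : ℍ → ℂ)) = thetaP (qExpansion 1 E₄) :=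
    qExpansion_D_of_modularForm E₄
  have e2 : qExpansion 1 (D (ModularForm.discriminant : ℍ → ℂ)) =
      thetaP (qExpansion 1 ModularForm.discriminant) :=
    qExpansion_D_of_modularForm discForm
  simpa only [a4, a6, aΔ, d4, dΔ, e1, e2] using this

end Fermat.Agent.S28.H25

end
end
-- ===== PACK-END S28/H25/ThetaAnalytic.lean

-- ===== PACK-BEGIN S28/H25/ThetaFormal.lean
section




/-!
# The `θ`-identity for `j`, formal part (helper25, S28 piece [A-θ])

`(θ j)⁶ = Δ · j⁴ · (j - 1728)³` in `ℤ((q))`, for the Prelude's formal `j = jqModC ℤ`,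
`Δ = q · dedekindEtaUnit`, `θ = q d/dq`, assuming the two bridges
* `qExpansion 1 E₄ = eisenstein4` (proved here) and
* `qExpansion 1 Δ = X * dedekindEtaUnit` (hypothesis `DeltaBridge`).
-/

set_option autoImplicit false

open UpperHalfPlane hiding I
open ModularForm EisensteinSeries ModularCurve
open scoped MatrixGroups

noncomputable section

namespace Fermat.Agent.S28.H25

section thetaP

variable {R : Type*} [CommRing R]

theorem thetaP_mul (f g : PowerSeries R) :
    thetaP (f * g) = thetaP f * g + f * thetaP g := by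
  unfold thetaP
  rw [Derivation.leibniz]
  simp only [smul_eq_mul]
  ring

theorem thetaP_X : thetaP (PowerSeries.X : PowerSeries R) = PowerSeries.X := by
  unfold thetaP
  rw [PowerSeries.derivative_X, mul_one]

theorem thetaP_pow_three (f : PowerSeries R) :
    thetaP (f ^ 3) = 3 * f ^ 2 * thetaP f := by
  have : f ^ 3 = f * (f * f) := by ring
  rw [this, thetaP_mul, thetaP_mul]
  ring

theorem thetaP_map {S : Type*} [CommRing S] (φ : R →+* S) (f : PowerSeries R) :
    thetaP (f.map φ) = (thetaP f).map φ := by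
  ext n
  simp [coeff_thetaP]

end thetaP

/-- Pure algebra: the `θ`-identity from the two analytic relations, over a field. -/
theorem theta_identity_of_relations {K : Type*} [Field K]
    (E e6 et eti u : PowerSeries K) (h0 : et * eti = 1) (hu : u = E ^ 3 * eti)
    (hi : E ^ 3 - e6 ^ 2 = 1728 * (PowerSeries.X * et))
    (hii : 3 * E ^ 2 * thetaP E * (PowerSeries.X * et) - E ^ 3 * thetaP (PowerSeries.X * et) =
      - (E ^ 2 * e6 * (PowerSeries.X * et))) :
    (thetaP u - u) ^ 6 = et * u ^ 4 * (u - 1728 * PowerSeries.X) ^ 3 := by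
  have heta : et ≠ 0 := by
    rintro rfl
    simp at h0
  have hX : (PowerSeries.X : PowerSeries K) ≠ 0 := PowerSeries.X_ne_zero
  have hueta : u * et = E ^ 3 := by
    rw [hu]
    linear_combination E ^ 3 * h0
  have hθ : thetaP u * et + u * thetaP et = 3 * E ^ 2 * thetaP E := by
    rw [← thetaP_mul, hueta, thetaP_pow_three]
  have hbr : 3 * E ^ 2 * thetaP E * et - E ^ 3 * et - E ^ 3 * thetaP et + E ^ 2 * e6 * et = 0 := by
    have h1 : PowerSeries.X * (3 * E ^ 2 * thetaP E * et - E ^ 3 * et - E ^ 3 * thetaP et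
        + E ^ 2 * e6 * et) = 0 := by
      rw [thetaP_mul, thetaP_X] at hii
      linear_combination hii
    rcases mul_eq_zero.mp h1 with h | h
    · exact absurd h hX
    · exact h
  have h1 : (thetaP u - u) * et = - (E ^ 2 * e6) := by
    apply mul_right_cancel₀ heta
    linear_combination et * hθ + hbr - (thetaP et + et) * hueta
  have h2 : e6 ^ 2 = et * (u - 1728 * PowerSeries.X) := by
    linear_combination -hi - hueta
  have h3 : ((thetaP u - u) * et) ^ 6 = et ^ 6 * (et * u ^ 4 * (u - 1728 * PowerSeries.X) ^ 3) := by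
    calc ((thetaP u - u) * et) ^ 6 = (- (E ^ 2 * e6)) ^ 6 := by rw [h1]
      _ = (E ^ 3) ^ 4 * (e6 ^ 2) ^ 3 := by ring
      _ = (u * et) ^ 4 * (et * (u - 1728 * PowerSeries.X)) ^ 3 := by rw [hueta, h2]
      _ = et ^ 6 * (et * u ^ 4 * (u - 1728 * PowerSeries.X) ^ 3) := by ring
  apply mul_left_cancel₀ (pow_ne_zero 6 heta)
  rw [← h3]
  ring

/-- Bridge B1: the `q`-expansion of `E₄` is the Prelude's `eisenstein4`. -/
theorem qExpansion_E4_eq_eisenstein4 :
    qExpansion 1 E₄ = eisenstein4.map (Int.castRingHom ℂ) := by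
  ext m
  rw [E_qExpansion_coeff _ ⟨2, rfl⟩]
  simp only [eisenstein4, PowerSeries.coeff_map, PowerSeries.coeff_mk]
  split_ifs with h
  · simp
  · norm_num [show bernoulli 4 = -1 / 30 by decide +kernel, ArithmeticFunction.sigma_apply]

/-- Bridge B2 (to be supplied): the `q`-expansion of `Δ` is `q ∏ (1 - qⁿ)²⁴`. -/
def DeltaBridge : Prop :=
  qExpansion 1 ModularForm.discriminant =
    PowerSeries.X * dedekindEtaUnit.map (Int.castRingHom ℂ)

/-- The `θ`-identity in `ℤ⟦q⟧`: with `u = q · j = E₄³ / ∏(1-qⁿ)²⁴`,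
`(θ u - u)⁶ = ∏(1-qⁿ)²⁴ · u⁴ · (u - 1728 q)³`. -/
theorem theta_identity_powerSeries (hΔ : DeltaBridge) :
    (thetaP jNum - jNum) ^ 6 =
      dedekindEtaUnit * jNum ^ 4 * (jNum - 1728 * PowerSeries.X) ^ 3 := by
  have hinj : Function.Injective (PowerSeries.map (Int.castRingHom ℂ)) := by
    intro f g hfg
    ext n
    have := congrArg (PowerSeries.coeff n) hfg
    simpa using this
  apply hinj
  have hΔ' : qExpansion 1 ModularForm.discriminant =
      PowerSeries.X * dedekindEtaUnit.map (Int.castRingHom ℂ) := hΔ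
  have h := theta_identity_of_relations (K := ℂ) (eisenstein4.map (Int.castRingHom ℂ))
    (qExpansion 1 E₆) (dedekindEtaUnit.map (Int.castRingHom ℂ))
    (dedekindEtaUnitInv.map (Int.castRingHom ℂ)) (jNum.map (Int.castRingHom ℂ))
    (by rw [← map_mul, dedekindEtaUnit_mul_inv, map_one])
    (by rw [jNum, map_mul, map_pow])
    (by rw [← qExpansion_E4_eq_eisenstein4, ← hΔ']; exact qExp_E4_cube_sub_E6_sq)
    (by rw [← qExpansion_E4_eq_eisenstein4, ← hΔ']; exact qExp_theta_relation)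
  simp only [map_pow, map_mul, map_sub, map_ofNat, PowerSeries.map_X, ← thetaP_map]
  exact h

end Fermat.Agent.S28.H25

end
end
-- ===== PACK-END S28/H25/ThetaFormal.lean

-- ===== PACK-BEGIN S18/H845/ConstExt.lean
section



/-!
# S18 / d1(c): extending a discrete valuation ring along a constant-field extension

`E ⊆ K ⊆ L` fields, `E` perfect, `V ⊆ K` a discrete valuation subring containing `E`, and
`L = K[algebraic constants]` (every element of `L` lies in `K[α]` for some `α` algebraic over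
`E`).  Then there is a valuation subring `B` of `L` with `B ∩ K = V` which is again a discrete
valuation ring, and a uniformiser of `V` is a uniformiser of `B` (`e = 1`).
-/

set_option autoImplicit false
set_option linter.unusedSectionVars false

namespace Fermat.Agent.S18.H845

open Polynomial IsLocalRing

section DVR

variable {L : Type*} [Field L] (B : ValuationSubring L) {ϖ : L} (hϖ0 : ϖ ≠ 0)
  (hϖ : B.valuation ϖ < 1)
  (hval : ∀ f : L, f ≠ 0 → ∃ k : ℤ, B.valuation f = B.valuation ϖ ^ k)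

include hϖ in
lemma unif_mem : ϖ ∈ B := (B.valuation_le_one_iff _).mp hϖ.le

include hϖ0 in
lemma val_unif_pos : 0 < B.valuation ϖ := zero_lt_iff.mpr ((Valuation.ne_zero_iff _).mpr hϖ0)

include hϖ0 hϖ hval in
/-- Every nonzero element of `B` is associated to a power of `ϖ`. -/
lemma associated_pow (x : B) (hx : x ≠ 0) :
    ∃ n : ℕ, Associated ((⟨ϖ, unif_mem B hϖ⟩ : B) ^ n) x := by
  have hxL : (x : L) ≠ 0 := fun h => hx (Subtype.ext h)
  obtain ⟨k, hk⟩ := hval x hxL
  have hpos := val_unif_pos B hϖ0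
  have hk0 : 0 ≤ k := by
    have h1 : B.valuation (x : L) ≤ 1 := B.valuation_le_one x
    rw [hk] at h1
    exact (zpow_le_one_iff_right_of_lt_one₀ hpos hϖ).mp h1
  obtain ⟨n, rfl⟩ : ∃ n : ℕ, k = n := ⟨k.toNat, by omega⟩
  refine ⟨n, ?_⟩
  rw [zpow_natCast] at hk
  -- the unit
  have hu : B.valuation ((x : L) / ϖ ^ n) = 1 := by
    rw [map_div₀, map_pow, hk]
    exact div_self (pow_ne_zero n hpos.ne')
  have huB : (x : L) / ϖ ^ n ∈ B := (B.valuation_le_one_iff _).mp hu.le
  have hunit : IsUnit (⟨(x : L) / ϖ ^ n, huB⟩ : B) := (B.valuation_eq_one_iff _).mpr hu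
  obtain ⟨u, hu'⟩ := hunit
  refine ⟨u, ?_⟩
  apply Subtype.ext
  rw [hu']
  show ϖ ^ n * ((x : L) / ϖ ^ n) = x
  field_simp

include hϖ0 hϖ hval in
/-- `ϖ` is irreducible in `B`. -/
lemma irreducible_unif : Irreducible (⟨ϖ, unif_mem B hϖ⟩ : B) := by
  have hpos := val_unif_pos B hϖ0
  refine ⟨?_, ?_⟩
  · intro hu
    have := (B.valuation_eq_one_iff _).mp hu
    exact absurd this hϖ.ne
  · intro a b hab
    have habL : ϖ = (a : L) * (b : L) := congrArg Subtype.val hab
    have ha0 : (a : L) ≠ 0 := fun h => hϖ0 (by rw [habL, h, zero_mul])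
    have hb0 : (b : L) ≠ 0 := fun h => hϖ0 (by rw [habL, h, mul_zero])
    obtain ⟨i, hi⟩ := hval a ha0
    obtain ⟨j, hj⟩ := hval b hb0
    have hi0 : 0 ≤ i := by
      have h1 : B.valuation (a : L) ≤ 1 := B.valuation_le_one a
      rw [hi] at h1
      exact (zpow_le_one_iff_right_of_lt_one₀ hpos hϖ).mp h1
    have hj0 : 0 ≤ j := by
      have h1 : B.valuation (b : L) ≤ 1 := B.valuation_le_one b
      rw [hj] at h1
      exact (zpow_le_one_iff_right_of_lt_one₀ hpos hϖ).mp h1
    have hsum : i + j = 1 := by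
      have h1 : B.valuation ϖ ^ (1 : ℤ) = B.valuation ϖ ^ (i + j) := by
        rw [zpow_add₀ hpos.ne', ← hi, ← hj, ← map_mul, ← habL, zpow_one]
      exact (zpow_right_injective₀ hpos hϖ.ne h1).symm
    rcases (show i = 0 ∨ j = 0 by omega) with h | h
    · left
      rw [B.valuation_eq_one_iff, hi, h, zpow_zero]
    · right
      rw [B.valuation_eq_one_iff, hj, h, zpow_zero]

include hϖ0 hϖ hval in
/-- `B` is a discrete valuation ring. -/
theorem isDiscreteValuationRing_of_val : IsDiscreteValuationRing B :=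
  IsDiscreteValuationRing.ofHasUnitMulPowIrreducibleFactorization
    ⟨⟨ϖ, unif_mem B hϖ⟩, irreducible_unif B hϖ0 hϖ hval,
      fun {x} hx => associated_pow B hϖ0 hϖ hval x hx⟩

end DVR

section Generic

variable {E K L : Type*} [Field E] [Field K] [Field L] [Algebra E K] [Algebra K L] [Algebra E L]
  [IsScalarTower E K L] [PerfectField E]

/-- Value-group statement for one valuation subring `B` of `L` dominating `V`. -/
theorem val_eq_zpow_of_dominates (V : ValuationSubring K) [IsDiscreteValuationRing V]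
    (hEV : ∀ c : E, algebraMap E K c ∈ V)
    (B : ValuationSubring L) (hVB : ∀ x : K, x ∈ V → algebraMap K L x ∈ B)
    {π : V} (hπ : Irreducible π) (hπB : B.valuation (algebraMap K L (π : K)) < 1)
    {α : L} (hα : IsAlgebraic E α) (q : K[X]) (hq : aeval α q ≠ 0) :
    ∃ k : ℤ, B.valuation (aeval α q) = B.valuation (algebraMap K L (π : K)) ^ k := by
  let _ : Algebra V L := ((algebraMap K L).comp (algebraMap V K)).toAlgebra
  have : IsScalarTower V K L := IsScalarTower.of_algebraMap_eq (fun _ => rfl)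
  have hinj : Function.Injective (algebraMap V L) := by
    intro a b hab
    have h1 : algebraMap K L (a : K) = algebraMap K L (b : K) := hab
    exact Subtype.ext ((algebraMap K L).injective h1)
  have hRB : ∀ r : V, algebraMap V L r ∈ B := fun r => hVB r r.2
  -- the polynomial
  let fEV : E →+* V := (algebraMap E K).codRestrict V hEV
  let p₀ := minpoly E α
  let p : V[X] := p₀.map fEV
  have hp : p.Monic := (minpoly.monic hα.isIntegral).map _
  have hpα : aeval α p = 0 := by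
    show Polynomial.eval₂ (algebraMap V L) α (p₀.map fEV) = 0
    rw [Polynomial.eval₂_map]
    have : (algebraMap V L).comp fEV = algebraMap E L := by
      ext c
      show algebraMap K L (algebraMap E K c) = algebraMap E L c
      rw [← IsScalarTower.algebraMap_apply]
    rw [this]
    exact minpoly.aeval E α
  have hsep : (p.map (residue V)).Separable := by
    rw [Polynomial.map_map]
    exact (PerfectField.separable_of_irreducible (minpoly.irreducible hα.isIntegral)).map
  -- clear denominators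
  obtain ⟨b, hbM, hb⟩ := IsLocalization.integerNormalization_spec (nonZeroDivisors V) q
  set g := IsLocalization.integerNormalization (nonZeroDivisors V) q with hg
  have hb0 : (b : V) ≠ 0 := nonZeroDivisors.ne_zero hbM
  have hsm : b • q = C ((b : V) : K) * q := by
    rw [← Polynomial.smul_eq_C_mul]
    rfl
  have hev : aeval α g = algebraMap K L ((b : V) : K) * aeval α q := by
    have h1 : aeval α (g.map (algebraMap V K)) = aeval α g := Polynomial.aeval_map_algebraMap K α g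
    rw [← h1, hb, hsm, map_mul, aeval_C]
  have hbL : algebraMap K L ((b : V) : K) ≠ 0 := by
    intro h
    apply hb0
    have h' : ((b : V) : K) = 0 := (algebraMap K L).injective (by rw [h, map_zero])
    exact Subtype.ext h'
  have hg0 : aeval α g ≠ 0 := by
    rw [hev]
    exact mul_ne_zero hbL hq
  obtain ⟨j, hj⟩ := val_aeval_eq_pow B hRB hπ hπB hp hpα hsep hinj g hg0
  obtain ⟨k, hk⟩ := val_algebraMap_eq_pow B hRB hπ hb0
  have hπ0 : B.valuation (algebraMap K L (π : K)) ≠ 0 := by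
    rw [Valuation.ne_zero_iff]
    intro h
    have h' : (π : K) = 0 := (algebraMap K L).injective (by rw [h, map_zero])
    exact hπ.ne_zero (Subtype.ext h')
  refine ⟨(j : ℤ) - k, ?_⟩
  have e1 : B.valuation (algebraMap K L ((b : V) : K)) * B.valuation (aeval α q) =
      B.valuation (algebraMap K L (π : K)) ^ j := by
    rw [← map_mul, ← hev]
    exact hj
  have e2 : B.valuation (algebraMap K L ((b : V) : K)) =
      B.valuation (algebraMap K L (π : K)) ^ k := hk
  rw [e2] at e1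
  rw [zpow_sub₀ hπ0, zpow_natCast, zpow_natCast, ← e1]
  field_simp


omit [PerfectField E] [Algebra E K] [Algebra E L] [IsScalarTower E K L] in
/-- A valuation subring of `L` dominating the valuation subring `V` of `K`. -/
theorem exists_dominating (V : ValuationSubring K) :
    ∃ B : ValuationSubring L, B.comap (algebraMap K L) = V ∧
      ∀ x : V, ¬ IsUnit x → B.valuation (algebraMap K L (x : K)) < 1 := by
  let f : V →+* L := (algebraMap K L).comp V.subtype
  obtain ⟨B, hB, hloc⟩ := IsLocalRing.exists_factor_valuationRing f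
  have hnon : ∀ x : V, ¬ IsUnit x → B.valuation (algebraMap K L (x : K)) < 1 := by
    intro x hx
    have hx' : ¬ IsUnit (⟨f x, hB x⟩ : B) := fun h => hx (hloc.map_nonunit x h)
    have hmem : (⟨f x, hB x⟩ : B) ∈ maximalIdeal B :=
      (mem_maximalIdeal _).mpr hx'
    exact (B.valuation_lt_one_iff _).mp hmem
  refine ⟨B, ?_, hnon⟩
  ext x
  rw [ValuationSubring.mem_comap]
  constructor
  · intro hxB
    by_contra hxV
    have hx0 : x ≠ 0 := fun h => hxV (h ▸ V.zero_mem)
    have hinv : x⁻¹ ∈ V := (V.mem_or_inv_mem x).resolve_left hxV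
    have hnu : ¬ IsUnit (⟨x⁻¹, hinv⟩ : V) := by
      intro hu
      obtain ⟨u, hu⟩ := hu
      apply hxV
      have : x = ((u⁻¹ : Vˣ) : V) := by
        have h1 : ((u : V) : K) = x⁻¹ := congrArg Subtype.val hu
        have h2 : ((u : V) : K) * ((u⁻¹ : Vˣ) : V) = 1 := by
          exact congrArg Subtype.val (Units.mul_inv u)
        rw [h1] at h2
        field_simp at h2
        exact h2.symm
      rw [this]
      exact Subtype.mem _
    have hlt := hnon ⟨x⁻¹, hinv⟩ hnu
    have hle : B.valuation (algebraMap K L x) ≤ 1 := (B.valuation_le_one_iff _).mpr hxB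
    have hmul : B.valuation (algebraMap K L x⁻¹) * B.valuation (algebraMap K L x) = 1 := by
      rw [← map_mul, ← map_mul, inv_mul_cancel₀ hx0, map_one, map_one]
    have : B.valuation (algebraMap K L x⁻¹) * B.valuation (algebraMap K L x) < 1 :=
      mul_lt_one_of_lt_of_le hlt hle
    exact absurd hmul this.ne
  · intro hxV
    exact hB ⟨x, hxV⟩

/-- If `B` dominates `V` and `L = K[algebraic constants]`, every nonzero element of `L` has
valuation an integral power of the valuation of a uniformiser of `V`. -/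
theorem val_eq_zpow (V : ValuationSubring K) [IsDiscreteValuationRing V]
    (hEV : ∀ c : E, algebraMap E K c ∈ V)
    (hL : ∀ f : L, ∃ α : L, IsAlgebraic E α ∧ f ∈ Algebra.adjoin K {α})
    (B : ValuationSubring L) (hcomap : B.comap (algebraMap K L) = V)
    (hdom : ∀ x : V, ¬ IsUnit x → B.valuation (algebraMap K L (x : K)) < 1)
    {π : V} (hπ : Irreducible π) {f : L} (hf : f ≠ 0) :
    ∃ k : ℤ, B.valuation f = B.valuation (algebraMap K L (π : K)) ^ k := by
  obtain ⟨α, hα, hfα⟩ := hL f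
  rw [Algebra.adjoin_singleton_eq_range_aeval] at hfα
  obtain ⟨q, rfl⟩ := hfα
  have hVB : ∀ x : K, x ∈ V → algebraMap K L x ∈ B := fun x hx => by
    rw [← hcomap] at hx
    exact hx
  exact val_eq_zpow_of_dominates V hEV B hVB hπ (hdom π hπ.not_isUnit) hα q hf

/-- **d1(c), generic form.**  A discrete valuation ring `V` of `K` containing the perfect field
`E` extends to a discrete valuation ring `B` of `L = K(algebraic constants)` with `B ∩ K = V`,
containing all algebraic constants, in which every uniformiser of `V` stays a uniformiser. -/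
theorem exists_dvr_extension (V : ValuationSubring K) [IsDiscreteValuationRing V]
    (hEV : ∀ c : E, algebraMap E K c ∈ V)
    (hgen : IntermediateField.adjoin K {α : L | IsAlgebraic E α} = ⊤) :
    ∃ B : ValuationSubring L, B.comap (algebraMap K L) = V ∧ IsDiscreteValuationRing B ∧
      (∀ α : L, IsAlgebraic E α → α ∈ B) ∧
      (∀ π : V, Irreducible π →
        ∃ h : algebraMap K L (π : K) ∈ B, Irreducible (⟨algebraMap K L (π : K), h⟩ : B)) ∧
      (∀ π : V, Irreducible π → ∀ f : L, f ≠ 0 →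
        ∃ k : ℤ, B.valuation f = B.valuation (algebraMap K L (π : K)) ^ k) := by
  obtain ⟨B, hcomap, hdom⟩ := exists_dominating (L := L) V
  have hL := exists_mem_adjoin_singleton (E := E) (K := K) (L := L) hgen
  have hval : ∀ π : V, Irreducible π → ∀ f : L, f ≠ 0 →
      ∃ k : ℤ, B.valuation f = B.valuation (algebraMap K L (π : K)) ^ k :=
    fun π hπ f hf => val_eq_zpow V hEV hL B hcomap hdom hπ hf
  have hπ0 : ∀ π : V, Irreducible π → algebraMap K L (π : K) ≠ 0 := by
    intro π hπ h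
    have h' : (π : K) = 0 := (algebraMap K L).injective (by rw [h, map_zero])
    exact hπ.ne_zero (Subtype.ext h')
  obtain ⟨π, hπ⟩ := IsDiscreteValuationRing.exists_irreducible V
  refine ⟨B, hcomap,
    isDiscreteValuationRing_of_val B (hπ0 π hπ) (hdom π hπ.not_isUnit) (hval π hπ), ?_, ?_, hval⟩
  · intro α hα
    have hEB : ∀ c : E, algebraMap E L c ∈ B := by
      intro c
      rw [IsScalarTower.algebraMap_apply E K L]
      have : algebraMap E K c ∈ B.comap (algebraMap K L) := by rw [hcomap]; exact hEV c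
      exact this
    exact mem_of_monic_root B hEB (minpoly.monic hα.isIntegral) (minpoly.aeval E α)
  · intro π' hπ'
    exact ⟨unif_mem B (hdom π' hπ'.not_isUnit),
      irreducible_unif B (hπ0 π' hπ') (hdom π' hπ'.not_isUnit) (hval π' hπ')⟩

end Generic


end Fermat.Agent.S18.H845

end
-- ===== PACK-END S18/H845/ConstExt.lean

-- ===== PACK-BEGIN S18/H845/ConstExtSub.lean
section


/-!
# S18 / d1(c) in the language of `Alg/Spec.lean` (sub-objects of one field `Ω`)

`Ec ≤ Lc`, `Ec ≤ Fc` subfields of `Ω` (char 0), `Lc` algebraic over `Ec`, `Ω = Fc · Lc`.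
Every discrete valuation ring `W` of `Fc` containing `Ec` is `O ∩ Fc` for a valuation subring `O`
of `Ω` containing `Lc`, in which a uniformiser of `W` is still a uniformiser.  Consequently a
divisibility statement `m ∣ ord_O(u)` at all `Lc`-places of `Ω` descends to all `Ec`-places of
`Fc`.
-/

set_option autoImplicit false
set_option linter.unusedSectionVars false

namespace Fermat.Agent.S18.H845

section Sub

variable {Ω : Type*} [Field Ω] [CharZero Ω]

/-- **d1(c), sub-object form.** -/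
theorem exists_valuationSubring_over (Lc Ec Fc : Subfield Ω) (E_le_F : Ec ≤ Fc)
    (L_algebraic : ∀ a ∈ Lc, IsAlgebraic Ec a)
    (compositum : Subfield.closure ((Fc : Set Ω) ∪ Lc) = ⊤)
    (W : ValuationSubring Fc) [IsDiscreteValuationRing W]
    (hEW : ∀ e : Fc, (e : Ω) ∈ Ec → e ∈ W) :
    ∃ O : ValuationSubring Ω, (∀ a ∈ Lc, a ∈ O) ∧ (∀ f : Fc, (f : Ω) ∈ O ↔ f ∈ W) ∧
      IsDiscreteValuationRing O ∧
      (∀ π : W, Irreducible π → ∀ f : Ω, f ≠ 0 →
        ∃ k : ℤ, O.valuation f = O.valuation ((π : Fc) : Ω) ^ k) ∧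
      ∀ π : W, Irreducible π → ((π : Fc) : Ω) ∈ O ∧ (((π : Fc) : Ω))⁻¹ ∉ O ∧
        ∀ t ∈ O, t⁻¹ ∉ O → t * (((π : Fc) : Ω))⁻¹ ∈ O := by
  let _ : Algebra Ec Fc := (Subfield.inclusion E_le_F).toAlgebra
  have : IsScalarTower Ec Fc Ω := IsScalarTower.of_algebraMap_eq (fun _ => rfl)
  have : CharZero Ec := ⟨fun a b h => by
    have h' := congrArg (Subtype.val : Ec → Ω) h
    exact Nat.cast_injective (R := Ω) (by simpa using h')⟩
  have hEV : ∀ c : Ec, algebraMap Ec Fc c ∈ W := fun c => hEW _ c.2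
  have hgen : IntermediateField.adjoin Fc {α : Ω | IsAlgebraic Ec α} = ⊤ := by
    rw [← IntermediateField.toSubfield_injective.eq_iff]
    show Subfield.closure (Set.range (algebraMap Fc Ω) ∪ {α : Ω | IsAlgebraic Ec α}) = ⊤
    rw [eq_top_iff, ← compositum]
    apply Subfield.closure_mono
    rintro x (hx | hx)
    · exact Or.inl ⟨⟨x, hx⟩, rfl⟩
    · exact Or.inr (L_algebraic x hx)
  obtain ⟨O, hcomap, hdvr, hconst, hirr, hval⟩ :=
    exists_dvr_extension (E := Ec) (K := Fc) (L := Ω) W hEV hgen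
  refine ⟨O, fun a ha => hconst a (L_algebraic a ha), ?_, hdvr, hval, ?_⟩
  · intro f
    rw [← hcomap]
    rfl
  · intro π hπ
    obtain ⟨hmem, hirrO⟩ := hirr π hπ
    have hπ0 : ((π : Fc) : Ω) ≠ 0 := by
      intro h
      apply hπ.ne_zero
      apply Subtype.ext
      apply Subtype.ext
      exact h
    have hlt : O.valuation ((π : Fc) : Ω) < 1 := by
      have h1 : ¬ IsUnit (⟨((π : Fc) : Ω), hmem⟩ : O) := hirrO.not_isUnit
      rw [O.valuation_eq_one_iff] at h1
      exact lt_of_le_of_ne ((O.valuation_le_one_iff _).mpr hmem) h1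
    have hpos : 0 < O.valuation ((π : Fc) : Ω) :=
      zero_lt_iff.mpr ((Valuation.ne_zero_iff _).mpr hπ0)
    refine ⟨hmem, ?_, ?_⟩
    · intro hinv
      have h1 : O.valuation (((π : Fc) : Ω))⁻¹ ≤ 1 := (O.valuation_le_one_iff _).mpr hinv
      rw [map_inv₀] at h1
      have h2 : 1 ≤ O.valuation ((π : Fc) : Ω) := by
        rwa [inv_le_one₀ hpos] at h1
      exact absurd hlt (not_lt.mpr h2)
    · intro t ht htinv
      have ht0 : t ≠ 0 := by
        rintro rfl
        rw [inv_zero] at htinv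
        exact htinv O.zero_mem
      obtain ⟨k, hk'⟩ := hval π hπ t ht0
      have hk : O.valuation t = O.valuation ((π : Fc) : Ω) ^ k := hk'
      have htlt : O.valuation t < 1 := by
        have h1 : O.valuation t ≤ 1 := (O.valuation_le_one_iff _).mpr ht
        refine lt_of_le_of_ne h1 ?_
        intro h1'
        apply htinv
        rw [← O.valuation_le_one_iff, map_inv₀, h1', inv_one]
      rw [hk] at htlt
      have hk1 : 1 ≤ k := by
        have := (zpow_lt_one_iff_right_of_lt_one₀ hpos hlt).mp htlt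
        omega
      rw [← O.valuation_le_one_iff, map_mul, map_inv₀, hk]
      have : O.valuation ((π : Fc) : Ω) ^ k * (O.valuation ((π : Fc) : Ω))⁻¹ =
          O.valuation ((π : Fc) : Ω) ^ (k - 1) := by
        rw [zpow_sub₀ hpos.ne', zpow_one, div_eq_mul_inv]
      rw [this]
      exact (zpow_le_one_iff_right_of_lt_one₀ hpos hlt).mpr (by omega)

/-- **Descent of divisibility.**  If `u ∈ Fc` has `m ∣ ord_O(u)` at every valuation subring `O`
of `Ω` containing `Lc` (in the form used by `Alg.AlgMainStatement`), then `m ∣ ord_W(u)` at every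
discrete valuation ring `W` of `Fc` containing `Ec`. -/
theorem exists_pow_unit_of_forall_over (Lc Ec Fc : Subfield Ω) (E_le_F : Ec ≤ Fc)
    (L_algebraic : ∀ a ∈ Lc, IsAlgebraic Ec a)
    (compositum : Subfield.closure ((Fc : Set Ω) ∪ Lc) = ⊤)
    {u : Fc} (hu : u ≠ 0) {m : ℕ}
    (hdiv : ∀ O : ValuationSubring Ω, (∀ a ∈ Lc, a ∈ O) →
      ∃ t : Ω, t ≠ 0 ∧ (u : Ω) * t ^ m ∈ O ∧ ((u : Ω) * t ^ m)⁻¹ ∈ O)
    (W : ValuationSubring Fc) [IsDiscreteValuationRing W]
    (hEW : ∀ e : Fc, (e : Ω) ∈ Ec → e ∈ W) :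
    ∃ s : Fc, s ≠ 0 ∧ u * s ^ m ∈ W ∧ (u * s ^ m)⁻¹ ∈ W := by
  obtain ⟨O, hL, hOW, _, hval, hunif⟩ :=
    exists_valuationSubring_over Lc Ec Fc E_le_F L_algebraic compositum W hEW
  obtain ⟨π, hπ⟩ := IsDiscreteValuationRing.exists_irreducible W
  obtain ⟨hπO, hπinv, _⟩ := hunif π hπ
  have hπ0 : ((π : Fc) : Ω) ≠ 0 := by
    rintro h
    rw [h, inv_zero] at hπinv
    exact hπinv O.zero_mem
  have hπF0 : (π : Fc) ≠ 0 := fun h => hπ0 (by rw [h]; rfl)
  have hpos : 0 < O.valuation ((π : Fc) : Ω) :=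
    zero_lt_iff.mpr ((Valuation.ne_zero_iff _).mpr hπ0)
  have hlt : O.valuation ((π : Fc) : Ω) < 1 := by
    refine lt_of_le_of_ne ((O.valuation_le_one_iff _).mpr hπO) ?_
    intro h1
    apply hπinv
    rw [← O.valuation_le_one_iff, map_inv₀, h1, inv_one]
  obtain ⟨t, ht0, ht1, ht2⟩ := hdiv O hL
  have hunit : O.valuation ((u : Ω) * t ^ m) = 1 := by
    have h1 : O.valuation ((u : Ω) * t ^ m) ≤ 1 := (O.valuation_le_one_iff _).mpr ht1
    have h2 : O.valuation ((u : Ω) * t ^ m)⁻¹ ≤ 1 := (O.valuation_le_one_iff _).mpr ht2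
    rw [map_inv₀] at h2
    have h0 : O.valuation ((u : Ω) * t ^ m) ≠ 0 := by
      rw [Valuation.ne_zero_iff]
      exact mul_ne_zero (fun h => hu (Subtype.ext h)) (pow_ne_zero m ht0)
    have h3 : 1 ≤ O.valuation ((u : Ω) * t ^ m) := by
      rwa [inv_le_one₀ (zero_lt_iff.mpr h0)] at h2
    exact le_antisymm h1 h3
  obtain ⟨k, hk⟩ := hval π hπ t ht0
  -- take `s = π ^ k`
  refine ⟨(π : Fc) ^ k, zpow_ne_zero k hπF0, ?_⟩
  have hval1 : O.valuation (((u * ((π : Fc) ^ k) ^ m : Fc)) : Ω) = 1 := by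
    have e : (((u * ((π : Fc) ^ k) ^ m : Fc)) : Ω) = (u : Ω) * (((π : Fc) : Ω) ^ k) ^ m := by
      push_cast
      rfl
    rw [e, map_mul, map_pow, map_zpow₀, ← hk, ← map_pow, ← map_mul]
    exact hunit
  constructor
  · rw [← hOW, ← O.valuation_le_one_iff]
    exact hval1.le
  · rw [← hOW, ← O.valuation_le_one_iff]
    have e : (((u * ((π : Fc) ^ k) ^ m)⁻¹ : Fc) : Ω) = ((((u * ((π : Fc) ^ k) ^ m : Fc)) : Ω))⁻¹ := by
      push_cast
      rfl
    rw [e, map_inv₀, hval1, inv_one]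

end Sub

end Fermat.Agent.S18.H845

end
-- ===== PACK-END S18/H845/ConstExtSub.lean

-- ===== PACK-BEGIN S18/H498/CechFinite.lean
section



/-!
# S18, piece b5 (continued): the torsion bound and finiteness of `C / (B₁ + B₂)`

* `exists_torsion_bound`: in a finite module over a noetherian ring, the `ϖ`-power torsion is
  killed by a fixed power `ϖ ^ c`.
* `finite_cech_quotient`: if `C = B₁[1/x]`, `B₁ ⊆ B₂[x]`, `x⁻¹ ∈ B₂` and `B₁` is a finite
  `R[x]`-module, then `C / (B₁ + B₂)` is a finite `R`-module (this is "H¹ of a projective curve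
  over `R` is finite", by hand).
* `idem_trivial_of_cech_finite`: the connectedness statement with these inputs.
-/

set_option autoImplicit false
set_option linter.style.haveILetI false

namespace Fermat.Agent.S18.H498

section Torsion

variable {R M : Type*} [CommRing R] [IsNoetherianRing R] [AddCommGroup M] [Module R M]
  [Module.Finite R M]

theorem exists_torsion_bound (ϖ : R) :
    ∃ c : ℕ, ∀ (n : ℕ) (m : M), ϖ ^ n • m = 0 → ϖ ^ c • m = 0 := by
  haveI : IsNoetherian R M := isNoetherian_of_isNoetherianRing_of_finite R M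
  let T : ℕ →o Submodule R M :=
    { toFun := fun n => LinearMap.ker (LinearMap.lsmul R M (ϖ ^ n))
      monotone' := by
        intro a b hab m hm
        simp only [LinearMap.mem_ker, LinearMap.lsmul_apply] at hm ⊢
        obtain ⟨k, rfl⟩ := Nat.exists_eq_add_of_le hab
        rw [pow_add, mul_comm, mul_smul, hm, smul_zero] }
  obtain ⟨c, hc⟩ := monotone_stabilizes_iff_noetherian.mpr ‹IsNoetherian R M› T
  have hT : ∀ (n : ℕ) (m : M), m ∈ T n ↔ ϖ ^ n • m = 0 := by
    intro n m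
    change m ∈ LinearMap.ker (LinearMap.lsmul R M (ϖ ^ n)) ↔ _
    rw [LinearMap.mem_ker, LinearMap.lsmul_apply]
  refine ⟨c, fun n m hm => ?_⟩
  rcases le_total c n with h | h
  · have hmem : m ∈ T n := (hT n m).mpr hm
    rw [← hc n h] at hmem
    exact (hT c m).mp hmem
  · obtain ⟨k, rfl⟩ := Nat.exists_eq_add_of_le h
    rw [pow_add, mul_comm, mul_smul, hm, smul_zero]

end Torsion

section Finite

variable {R C : Type*} [CommRing R] [CommRing C] [Algebra R C]

/-- Finiteness of the Čech `H¹` for two charts glued along `x ↦ x⁻¹`. -/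
theorem finite_cech_quotient (B₁ B₂ : Subalgebra R C) (x x' : C) (hx : x ∈ B₁) (hx' : x' ∈ B₂)
    (hxx' : x * x' = 1)
    (ι : Type*) [Finite ι] (g : ι → C) (hg : ∀ i, g i ∈ B₁)
    (hgen : ∀ b ∈ B₁, ∃ P : ι → Polynomial R, b = ∑ᶠ i, Polynomial.aeval x (P i) * g i)
    (hloc : ∀ y : C, ∃ n : ℕ, x ^ n * y ∈ B₁)
    (hinf : ∀ i, ∃ n : ℕ, x' ^ n * g i ∈ B₂) :
    Module.Finite R (C ⧸ (Subalgebra.toSubmodule B₁ ⊔ Subalgebra.toSubmodule B₂)) := by
  classical
  haveI : Fintype ι := Fintype.ofFinite ι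
  choose N hN using hinf
  let Nmax : ℕ := Finset.univ.sup N
  have hNmax : ∀ i, ∀ a, Nmax ≤ a → x' ^ a * g i ∈ B₂ := by
    intro i a ha
    have hle : N i ≤ a := le_trans (Finset.le_sup (f := N) (Finset.mem_univ i)) ha
    obtain ⟨k, rfl⟩ := Nat.exists_eq_add_of_le hle
    rw [pow_add, mul_comm (x' ^ N i), mul_assoc]
    exact B₂.mul_mem (B₂.pow_mem hx' k) (hN i)
  -- the finite generating family
  let W : Submodule R C := Submodule.span R
    (Set.range fun q : ι × Fin Nmax => x' ^ (q.2 : ℕ) * g q.1)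
  let S : Submodule R C := Subalgebra.toSubmodule B₁ ⊔ Subalgebra.toSubmodule B₂
  have hkey : ∀ (i : ι) (n j : ℕ), x' ^ n * (x ^ j * g i) ∈ S ⊔ W := by
    intro i n j
    rcases le_total n j with h | h
    · -- `x^(j-n) g i ∈ B₁`
      obtain ⟨k, rfl⟩ := Nat.exists_eq_add_of_le h
      have : x' ^ n * (x ^ (n + k) * g i) = x ^ k * g i := by
        rw [pow_add, ← mul_assoc, ← mul_assoc, ← mul_pow, mul_comm x' x, hxx', one_pow, one_mul]
      rw [this]
      exact Submodule.mem_sup_left (Submodule.mem_sup_left (B₁.mul_mem (B₁.pow_mem hx k) (hg i)))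
    · obtain ⟨k, rfl⟩ := Nat.exists_eq_add_of_le h
      have : x' ^ (j + k) * (x ^ j * g i) = x' ^ k * g i := by
        rw [pow_add, mul_comm (x' ^ j), mul_assoc, ← mul_assoc (x' ^ j), ← mul_pow,
          mul_comm x' x, hxx', one_pow, one_mul]
      rw [this]
      rcases lt_or_ge k Nmax with hk | hk
      · exact Submodule.mem_sup_right (Submodule.subset_span ⟨(i, ⟨k, hk⟩), rfl⟩)
      · exact Submodule.mem_sup_left (Submodule.mem_sup_right (hNmax i k hk))
  have hpoly : ∀ (i : ι) (n : ℕ) (P : Polynomial R),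
      x' ^ n * (Polynomial.aeval x P * g i) ∈ S ⊔ W := by
    intro i n P
    induction P using Polynomial.induction_on' with
    | add P Q hP hQ =>
      rw [map_add, add_mul, mul_add]
      exact Submodule.add_mem _ hP hQ
    | monomial j a =>
      rw [Polynomial.aeval_monomial, mul_assoc, ← Algebra.smul_def, mul_smul_comm]
      exact Submodule.smul_mem _ _ (hkey i n j)
  have htop : S ⊔ W = ⊤ := by
    rw [eq_top_iff]
    intro y _
    obtain ⟨n, hn⟩ := hloc y
    obtain ⟨P, hP⟩ := hgen _ hn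
    have hy : y = x' ^ n * (x ^ n * y) := by
      rw [← mul_assoc, ← mul_pow, mul_comm x' x, hxx', one_pow, one_mul]
    rw [hy, hP, finsum_eq_sum_of_fintype, Finset.mul_sum]
    exact Submodule.sum_mem _ fun i _ => hpoly i n (P i)
  have hWfg : W.FG := Submodule.fg_span (Set.finite_range _)
  -- `C ⧸ S` is the image of `W`
  have hsurj : Function.Surjective (S.mkQ.comp W.subtype) := by
    intro q
    obtain ⟨y, rfl⟩ := S.mkQ_surjective q
    have hy : y ∈ S ⊔ W := htop ▸ Submodule.mem_top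
    obtain ⟨s, hs, w, hw, rfl⟩ := Submodule.mem_sup.mp hy
    refine ⟨⟨w, hw⟩, ?_⟩
    simp only [LinearMap.comp_apply, Submodule.subtype_apply, Submodule.mkQ_apply,
      Submodule.Quotient.mk_add]
    rw [(Submodule.Quotient.mk_eq_zero S).mpr hs, zero_add]
  haveI : Module.Finite R W := Module.Finite.iff_fg.mpr hWfg
  exact Module.Finite.of_surjective _ hsurj

end Finite

section Main

variable {R C : Type*} [CommRing R] [IsLocalRing R] [IsNoetherianRing R] [CommRing C]
  [Algebra R C]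

/-- Connectedness with the finiteness hypothesis on `C / (B₁ + B₂)`. -/
theorem idem_trivial_of_cech_finite (ϖ : R) (B₁ B₂ : Subalgebra R C)
    (hint : ∀ y : C, y ∈ B₁ → y ∈ B₂ → ∃ r : R, algebraMap R C r = y)
    [Module.Finite R (C ⧸ (Subalgebra.toSubmodule B₁ ⊔ Subalgebra.toSubmodule B₂))]
    (e₁ e₂ : C) (he₁ : e₁ ∈ B₁) (he₂ : e₂ ∈ B₂)
    (h₁ : ∃ a ∈ B₁, e₁ ^ 2 - e₁ = algebraMap R C ϖ * a)
    (h₂ : ∃ a ∈ B₂, e₂ ^ 2 - e₂ = algebraMap R C ϖ * a)
    (h₁₂ : ∃ y : C, e₁ - e₂ = algebraMap R C ϖ * y) :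
    (∃ a ∈ B₁, e₁ = algebraMap R C ϖ * a) ∨ (∃ a ∈ B₁, 1 - e₁ = algebraMap R C ϖ * a) := by
  obtain ⟨c, hc⟩ := exists_torsion_bound
    (M := C ⧸ (Subalgebra.toSubmodule B₁ ⊔ Subalgebra.toSubmodule B₂)) ϖ
  refine idem_trivial_of_cech ϖ B₁ B₂ hint c ?_ e₁ e₂ he₁ he₂ h₁ h₂ h₁₂
  intro n y hy
  have hmem : ∀ k : ℕ, (∃ b₁ ∈ B₁, ∃ b₂ ∈ B₂, algebraMap R C ϖ ^ k * y = b₁ + b₂) ↔
      ϖ ^ k • (Submodule.Quotient.mk y :
        C ⧸ (Subalgebra.toSubmodule B₁ ⊔ Subalgebra.toSubmodule B₂)) = 0 := by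
    intro k
    rw [← Submodule.Quotient.mk_smul, Submodule.Quotient.mk_eq_zero, Submodule.mem_sup,
      Algebra.smul_def, map_pow]
    constructor
    · rintro ⟨b₁, hb₁, b₂, hb₂, h⟩
      exact ⟨b₁, hb₁, b₂, hb₂, h.symm⟩
    · rintro ⟨b₁, hb₁, b₂, hb₂, h⟩
      exact ⟨b₁, hb₁, b₂, hb₂, h.symm⟩
  exact (hmem c).mpr (hc n _ ((hmem n).mp hy))

end Main

end Fermat.Agent.S18.H498

end
-- ===== PACK-END S18/H498/CechFinite.lean

-- ===== PACK-BEGIN S18/H394/KummerEndgame.lean
section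




/-!
# S18, Route K, pieces b3+b4 (helper394): the Kummer endgame

Abstract statement (`kummer_endgame_aux`): two charts `B₀, B₁ ⊆ M ⊆ F` over a noetherian local
ring `R`, an element `u ∈ F` of exact order `m` modulo constants and `m`-th powers, and
"local existence" data `σ₀, σ₁` (`σⱼ ^ m * u ≡ 1 mod w Bⱼ`, `σ₀ ≡ σ₁`) are contradictory.
The proof applies the two-chart connectedness theorem (b5, `H498.idem_trivial_of_cech_finite`)
to the graded Kummer algebra of `Graded.lean`.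
-/

set_option autoImplicit false

namespace Fermat.Agent.S18.H394

open Polynomial

section Identities

variable {C : Type*} [CommRing C]

theorem idem_identity (t β ω ν : C) (n : ℕ) (hn : ν * (n : C) = 1) (ht : t ^ n = 1 + ω * β) :
    (ν * ∑ i ∈ Finset.range n, t ^ i) ^ 2 - ν * ∑ i ∈ Finset.range n, t ^ i =
      ω * (ν ^ 2 * β * ∑ i ∈ Finset.range n, ∑ j ∈ Finset.range i, t ^ j) := by
  set S := ∑ i ∈ Finset.range n, t ^ i with hS
  have h1 : S * (t - 1) = ω * β := by rw [hS, geom_sum_mul, ht]; ring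
  have h2 : S * S - (n : C) * S = (∑ i ∈ Finset.range n, ∑ j ∈ Finset.range i, t ^ j) * (ω * β) := by
    have : S * S - (n : C) * S = ∑ i ∈ Finset.range n, (t ^ i - 1) * S := by
      rw [← Finset.sum_mul, Finset.sum_sub_distrib, ← hS]
      simp [sub_mul]
    rw [this, Finset.sum_mul]
    refine Finset.sum_congr rfl fun i _ => ?_
    rw [← geom_sum_mul, mul_assoc, mul_comm (t - 1) S, h1]
  have h3 : (ν * S) ^ 2 - ν * S = ν ^ 2 * (S * S - (n : C) * S) + ν * (ν * (n : C) - 1) * S := by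
    ring
  rw [h3, h2, hn]
  ring

theorem diff_identity (t₀ t₁ : C) (n : ℕ) :
    ∑ i ∈ Finset.range n, t₀ ^ i - ∑ i ∈ Finset.range n, t₁ ^ i =
      (t₀ - t₁) * ∑ i ∈ Finset.range n, ∑ a ∈ Finset.range i, t₀ ^ a * t₁ ^ (i - 1 - a) := by
  rw [← Finset.sum_sub_distrib, Finset.mul_sum]
  refine Finset.sum_congr rfl fun i _ => ?_
  rw [← geom_sum₂_mul, mul_comm]

end Identities

section Localisation

variable {R F C : Type*} [CommRing R] [Field F] [Algebra R F] [CommRing C] [Algebra F C]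
  [Algebra R C] [IsScalarTower R F C]

/-- If `M = B[1/z]` then the Kummer algebra of `M` is the localisation of that of `B`. -/
theorem exists_pow_mul_mem_kummerSub (pb : PowerBasis F C) (u : F)
    (hT : pb.gen ^ pb.dim = algebraMap F C u) (hm0 : 0 < pb.dim)
    (B M : Subalgebra R F) (hB : RootClosed pb.dim B) (hM : RootClosed pb.dim M)
    (z : F) (hz : z ∈ B) (hloc : ∀ y ∈ M, ∃ n : ℕ, z ^ n * y ∈ B)
    (c : C) (hc : c ∈ kummerSub pb u hT hm0 M hM) :
    ∃ n : ℕ, algebraMap F C z ^ n * c ∈ kummerSub pb u hT hm0 B hB := by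
  classical
  have h : ∀ k : Fin pb.dim, ∃ n : ℕ, z ^ n * (co pb k c ^ pb.dim * u ^ (k : ℕ)) ∈ B :=
    fun k => hloc _ (hc k)
  choose N hN using h
  refine ⟨∑ k, N k, fun k => ?_⟩
  rw [← map_pow, co_algebraMap_mul, mem_degSet]
  have hle : N k ≤ (∑ k, N k) * pb.dim := by
    calc N k ≤ ∑ k, N k := Finset.single_le_sum (fun _ _ => Nat.zero_le _) (Finset.mem_univ k)
      _ ≤ (∑ k, N k) * pb.dim := Nat.le_mul_of_pos_right _ hm0
  obtain ⟨d, hd⟩ := Nat.exists_eq_add_of_le hle
  have : (z ^ (∑ k, N k) * co pb k c) ^ pb.dim * u ^ (k : ℕ)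
      = z ^ d * (z ^ N k * (co pb k c ^ pb.dim * u ^ (k : ℕ))) := by
    rw [mul_pow, ← pow_mul, hd, pow_add]
    ring
  rw [this]
  exact B.mul_mem (B.pow_mem hz d) (hN k)

end Localisation

section Main

variable {R F C : Type*} [CommRing R] [IsLocalRing R] [IsNoetherianRing R] [Field F] [Algebra R F]
  [CommRing C] [Algebra F C] [Algebra R C] [IsScalarTower R F C]

omit [IsLocalRing R] [IsNoetherianRing R] in
/-- The intersection of the two Kummer charts consists of constants. -/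
theorem kummerSub_inf (pb : PowerBasis F C) (u : F)
    (hT : pb.gen ^ pb.dim = algebraMap F C u) (hm0 : 0 < pb.dim)
    (B₀ B₁ : Subalgebra R F) (hrc0 : RootClosed pb.dim B₀) (hrc1 : RootClosed pb.dim B₁)
    (hint : ∀ y : F, y ∈ B₀ → y ∈ B₁ → ∃ r : R, algebraMap R F r = y)
    (hord : ∀ i : ℕ, 0 < i → i < pb.dim → ∀ f : F, f ≠ 0 → ∀ r : R,
        f ^ pb.dim * u ^ i ≠ algebraMap R F r)
    (c : C) (h0 : c ∈ kummerSub pb u hT hm0 B₀ hrc0) (h1 : c ∈ kummerSub pb u hT hm0 B₁ hrc1) :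
    ∃ r : R, algebraMap R C r = c := by
  classical
  have hk : ∀ k : Fin pb.dim, (k : ℕ) ≠ 0 → co pb k c = 0 := by
    intro k hk0
    by_contra hne
    obtain ⟨r, hr⟩ := hint _ (h0 k) (h1 k)
    exact hord k (Nat.pos_of_ne_zero hk0) k.2 _ hne r hr.symm
  have h00 : co pb ⟨0, hm0⟩ c ∈ B₀ := mem_of_mem_degSet_zero hrc0 (h0 ⟨0, hm0⟩)
  have h01 : co pb ⟨0, hm0⟩ c ∈ B₁ := mem_of_mem_degSet_zero hrc1 (h1 ⟨0, hm0⟩)
  obtain ⟨r, hr⟩ := hint _ h00 h01
  refine ⟨r, ?_⟩
  rw [← sum_co pb c, Finset.sum_eq_single (⟨0, hm0⟩ : Fin pb.dim)]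
  · rw [← hr, pow_zero, mul_one, ← IsScalarTower.algebraMap_apply]
  · intro k _ hk0
    rw [hk k (fun h => hk0 (Fin.ext h)), map_zero, zero_mul]
  · intro h
    exact absurd (Finset.mem_univ _) h

/-- **Kummer endgame (abstract form).**  See the module docstring. -/
theorem kummer_endgame_aux
    (pb : PowerBasis F C) (u : F) (hT : pb.gen ^ pb.dim = algebraMap F C u)
    (hm0 : 0 < pb.dim) (hm1 : 1 < pb.dim)
    (ν : R) (hν : ν * (pb.dim : R) = 1)
    (w : R)
    (B₀ B₁ M : Subalgebra R F)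
    (hrc0 : RootClosed pb.dim B₀) (hrc1 : RootClosed pb.dim B₁) (hrcM : RootClosed pb.dim M)
    (x : F) (hx0 : x ≠ 0) (hx : x ∈ B₀) (hx' : x⁻¹ ∈ B₁)
    (h0M : B₀ ≤ M) (h1M : B₁ ≤ M)
    (hloc0 : ∀ y ∈ M, ∃ n : ℕ, x ^ n * y ∈ B₀)
    (hloc1 : ∀ y ∈ M, ∃ n : ℕ, x⁻¹ ^ n * y ∈ B₁)
    (hint : ∀ y : F, y ∈ B₀ → y ∈ B₁ → ∃ r : R, algebraMap R F r = y)
    (ι : Type*) [Finite ι] (g : ι → C)
    (hg : ∀ i, g i ∈ kummerSub pb u hT hm0 B₀ hrc0)
    (hgen : ∀ b ∈ kummerSub pb u hT hm0 B₀ hrc0, ∃ P : ι → Polynomial R,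
        b = ∑ᶠ i, Polynomial.aeval (algebraMap F C x) (P i) * g i)
    (hw1 : ∀ b ∈ B₀, algebraMap R F w * b ≠ 1)
    (hord : ∀ i : ℕ, 0 < i → i < pb.dim → ∀ f : F, f ≠ 0 → ∀ r : R,
        f ^ pb.dim * u ^ i ≠ algebraMap R F r)
    (σ₀ σ₁ : F)
    (h₀ : ∃ b ∈ B₀, σ₀ ^ pb.dim * u - 1 = algebraMap R F w * b)
    (h₁ : ∃ b ∈ B₁, σ₁ ^ pb.dim * u - 1 = algebraMap R F w * b)
    (h₀₁ : ∃ γ : F, σ₀ - σ₁ = algebraMap R F w * γ ∧ γ ^ pb.dim * u ∈ M) : False := by
  classical
  haveI : Fintype ι := Fintype.ofFinite ι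
  obtain ⟨b₀, hb₀, hσ₀⟩ := h₀
  obtain ⟨b₁, hb₁, hσ₁⟩ := h₁
  obtain ⟨γ, hγ, hγM⟩ := h₀₁
  -- the three Kummer algebras
  set K0 := kummerSub pb u hT hm0 B₀ hrc0 with hK0
  set K1 := kummerSub pb u hT hm0 B₁ hrc1 with hK1
  set KM := kummerSub pb u hT hm0 M hrcM with hKM
  have hK0M : K0 ≤ KM := kummerSub_mono hT hm0 hrc0 hrcM h0M
  have hK1M : K1 ≤ KM := kummerSub_mono hT hm0 hrc1 hrcM h1M
  -- basic elements
  have hwC : algebraMap R C w = algebraMap F C (algebraMap R F w) :=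
    IsScalarTower.algebraMap_apply R F C w
  have hνC : algebraMap R C ν * ((pb.dim : ℕ) : C) = 1 := by
    rw [← map_natCast (algebraMap R C), ← map_mul, hν, map_one]
  set t₀ : C := algebraMap F C σ₀ * pb.gen with ht₀
  set t₁ : C := algebraMap F C σ₁ * pb.gen with ht₁
  have hσ₀B : σ₀ ∈ degSet B₀ pb.dim u 1 := by
    rw [mem_degSet, pow_one]
    have : σ₀ ^ pb.dim * u = 1 + algebraMap R F w * b₀ := by rw [← hσ₀]; ring
    rw [this]
    exact B₀.add_mem B₀.one_mem (B₀.mul_mem (B₀.algebraMap_mem w) hb₀)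
  have hσ₁B : σ₁ ∈ degSet B₁ pb.dim u 1 := by
    rw [mem_degSet, pow_one]
    have : σ₁ ^ pb.dim * u = 1 + algebraMap R F w * b₁ := by rw [← hσ₁]; ring
    rw [this]
    exact B₁.add_mem B₁.one_mem (B₁.mul_mem (B₁.algebraMap_mem w) hb₁)
  have ht₀K : t₀ ∈ K0 := by
    have := monomial_mem_kummerSub hT hm0 hrc0 hσ₀B
    rwa [pow_one] at this
  have ht₁K : t₁ ∈ K1 := by
    have := monomial_mem_kummerSub hT hm0 hrc1 hσ₁B
    rwa [pow_one] at this
  have ht₀m : t₀ ^ pb.dim = 1 + algebraMap R C w * algebraMap F C b₀ := by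
    rw [ht₀, mul_pow, hT, ← map_pow, ← map_mul, hwC, ← map_mul, ← map_one (algebraMap F C),
      ← map_add]
    congr 1
    rw [← hσ₀]; ring
  have ht₁m : t₁ ^ pb.dim = 1 + algebraMap R C w * algebraMap F C b₁ := by
    rw [ht₁, mul_pow, hT, ← map_pow, ← map_mul, hwC, ← map_mul, ← map_one (algebraMap F C),
      ← map_add]
    congr 1
    rw [← hσ₁]; ring
  set E₀ : C := algebraMap R C ν * ∑ i ∈ Finset.range pb.dim, t₀ ^ i with hE₀
  set E₁ : C := algebraMap R C ν * ∑ i ∈ Finset.range pb.dim, t₁ ^ i with hE₁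
  have hE₀K : E₀ ∈ K0 :=
    K0.mul_mem (K0.algebraMap_mem ν) (K0.sum_mem fun i _ => K0.pow_mem ht₀K i)
  have hE₁K : E₁ ∈ K1 :=
    K1.mul_mem (K1.algebraMap_mem ν) (K1.sum_mem fun i _ => K1.pow_mem ht₁K i)
  -- idempotent mod `w`
  have hid₀ : ∃ a ∈ K0, E₀ ^ 2 - E₀ = algebraMap R C w * a := by
    refine ⟨_, ?_, idem_identity t₀ (algebraMap F C b₀) (algebraMap R C w) (algebraMap R C ν)
      pb.dim hνC ht₀m⟩
    refine K0.mul_mem (K0.mul_mem (K0.pow_mem (K0.algebraMap_mem ν) 2)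
      (algebraMap_mem_kummerSub hT hm0 hrc0 hb₀)) ?_
    exact K0.sum_mem fun i _ => K0.sum_mem fun j _ => K0.pow_mem ht₀K j
  have hid₁ : ∃ a ∈ K1, E₁ ^ 2 - E₁ = algebraMap R C w * a := by
    refine ⟨_, ?_, idem_identity t₁ (algebraMap F C b₁) (algebraMap R C w) (algebraMap R C ν)
      pb.dim hνC ht₁m⟩
    refine K1.mul_mem (K1.mul_mem (K1.pow_mem (K1.algebraMap_mem ν) 2)
      (algebraMap_mem_kummerSub hT hm0 hrc1 hb₁)) ?_
    exact K1.sum_mem fun i _ => K1.sum_mem fun j _ => K1.pow_mem ht₁K j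
  -- compatibility on the overlap
  have hγK : algebraMap F C γ * pb.gen ∈ KM := by
    have hγd : γ ∈ degSet M pb.dim u 1 := by rw [mem_degSet, pow_one]; exact hγM
    have := monomial_mem_kummerSub hT hm0 hrcM hγd
    rwa [pow_one] at this
  have hdiff : ∃ y ∈ KM, E₀ - E₁ = algebraMap R C w * y := by
    refine ⟨algebraMap R C ν * ((algebraMap F C γ * pb.gen) *
      ∑ i ∈ Finset.range pb.dim, ∑ a ∈ Finset.range i, t₀ ^ a * t₁ ^ (i - 1 - a)), ?_, ?_⟩
    · refine KM.mul_mem (KM.algebraMap_mem ν) (KM.mul_mem hγK ?_)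
      exact KM.sum_mem fun i _ => KM.sum_mem fun a _ =>
        KM.mul_mem (KM.pow_mem (hK0M ht₀K) a) (KM.pow_mem (hK1M ht₁K) _)
    · have htt : t₀ - t₁ = algebraMap R C w * (algebraMap F C γ * pb.gen) := by
        rw [ht₀, ht₁, ← sub_mul, ← map_sub, hγ, map_mul, hwC, mul_assoc]
      rw [hE₀, hE₁, ← mul_sub, diff_identity, htt]
      ring
  -- the ambient ring and the charts
  let C0 : Subalgebra R KM := K0.comap KM.val
  let C1 : Subalgebra R KM := K1.comap KM.val
  have hxK0 : algebraMap F C x ∈ K0 := algebraMap_mem_kummerSub hT hm0 hrc0 hx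
  have hxK1 : algebraMap F C x⁻¹ ∈ K1 := algebraMap_mem_kummerSub hT hm0 hrc1 hx'
  let xK : KM := ⟨algebraMap F C x, hK0M hxK0⟩
  let xK' : KM := ⟨algebraMap F C x⁻¹, hK1M hxK1⟩
  have hxx' : xK * xK' = 1 := by
    apply Subtype.ext
    show algebraMap F C x * algebraMap F C x⁻¹ = 1
    rw [← map_mul, mul_inv_cancel₀ hx0, map_one]
  have hlocK : ∀ y : KM, ∃ n : ℕ, xK ^ n * y ∈ C0 := by
    intro y
    obtain ⟨n, hn⟩ := exists_pow_mul_mem_kummerSub pb u hT hm0 B₀ M hrc0 hrcM x hx hloc0 y y.2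
    exact ⟨n, hn⟩
  have hlocK' : ∀ y : KM, ∃ n : ℕ, xK' ^ n * y ∈ C1 := by
    intro y
    obtain ⟨n, hn⟩ := exists_pow_mul_mem_kummerSub pb u hT hm0 B₁ M hrc1 hrcM x⁻¹ hx' hloc1 y y.2
    exact ⟨n, hn⟩
  let gK : ι → KM := fun i => ⟨g i, hK0M (hg i)⟩
  have hgenK : ∀ b ∈ C0, ∃ P : ι → Polynomial R, b = ∑ᶠ i, Polynomial.aeval xK (P i) * gK i := by
    intro b hb
    obtain ⟨P, hP⟩ := hgen (b : C) hb
    refine ⟨P, Subtype.ext ?_⟩
    rw [hP, finsum_eq_sum_of_fintype, finsum_eq_sum_of_fintype]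
    rw [show ((∑ i, Polynomial.aeval xK (P i) * gK i : KM) : C)
        = KM.val (∑ i, Polynomial.aeval xK (P i) * gK i) from rfl, map_sum]
    refine Finset.sum_congr rfl fun i _ => ?_
    rw [map_mul, ← Polynomial.aeval_algHom_apply]
    rfl
  haveI : Module.Finite R (↥KM ⧸ (Subalgebra.toSubmodule C0 ⊔ Subalgebra.toSubmodule C1)) :=
    H498.finite_cech_quotient C0 C1 xK xK' hxK0 hxK1 hxx' ι gK hg hgenK hlocK
      (fun i => hlocK' (gK i))
  have hintK : ∀ y : KM, y ∈ C0 → y ∈ C1 → ∃ r : R, algebraMap R KM r = y := by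
    intro y hy0 hy1
    obtain ⟨r, hr⟩ := kummerSub_inf pb u hT hm0 B₀ B₁ hrc0 hrc1 hint hord (y : C) hy0 hy1
    exact ⟨r, Subtype.ext hr⟩
  let e₀ : KM := ⟨E₀, hK0M hE₀K⟩
  let e₁ : KM := ⟨E₁, hK1M hE₁K⟩
  have h1K : ∃ a ∈ C0, e₀ ^ 2 - e₀ = algebraMap R KM w * a := by
    obtain ⟨a, ha, h⟩ := hid₀
    exact ⟨⟨a, hK0M ha⟩, ha, Subtype.ext h⟩
  have h2K : ∃ a ∈ C1, e₁ ^ 2 - e₁ = algebraMap R KM w * a := by
    obtain ⟨a, ha, h⟩ := hid₁
    exact ⟨⟨a, hK1M ha⟩, ha, Subtype.ext h⟩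
  have h12K : ∃ y : KM, e₀ - e₁ = algebraMap R KM w * y := by
    obtain ⟨y, hy, h⟩ := hdiff
    exact ⟨⟨y, hy⟩, Subtype.ext h⟩
  have hconcl := H498.idem_trivial_of_cech_finite w C0 C1 hintK e₀ e₁ hE₀K hE₁K h1K h2K h12K
  -- the coefficient of `T` in `E₀`
  let k1 : Fin pb.dim := ⟨1, hm1⟩
  have hco1 : co pb k1 (1 : C) = 0 := by
    have h1 : (1 : C) = algebraMap F C 1 * pb.gen ^ (0 * pb.dim + ((⟨0, hm0⟩ : Fin pb.dim) : ℕ)) := by
      simp
    rw [h1, co_monomial pb hT, if_neg]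
    intro h
    have := congrArg Fin.val h
    simp [k1] at this
  have hcoE : co pb k1 E₀ = algebraMap R F ν * σ₀ := by
    have hE : E₀ = ∑ i : Fin pb.dim,
        algebraMap F C (algebraMap R F ν * σ₀ ^ (i : ℕ)) * pb.gen ^ (0 * pb.dim + (i : ℕ)) := by
      rw [hE₀, ← Fin.sum_univ_eq_sum_range (fun i => t₀ ^ i) pb.dim, Finset.mul_sum]
      refine Finset.sum_congr rfl fun i _ => ?_
      rw [ht₀, mul_pow, zero_mul, zero_add, map_mul, map_pow,
        ← IsScalarTower.algebraMap_apply R F C, mul_assoc]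
    rw [hE, map_sum]
    rw [Finset.sum_congr rfl (fun i _ => co_monomial pb hT _ 0 i k1)]
    rw [Finset.sum_ite_eq' Finset.univ k1]
    simp [k1]
  have hfinal : ∀ a₁ : F, a₁ ∈ degSet B₀ pb.dim u 1 → ∀ ε : F, (ε = 1 ∨ ε = -1) →
      algebraMap R F ν * σ₀ = ε * (algebraMap R F w * a₁) → False := by
    intro a₁ ha₁ ε hε h
    rw [mem_degSet, pow_one] at ha₁
    have hνF : algebraMap R F ν * ((pb.dim : ℕ) : F) = 1 := by
      rw [← map_natCast (algebraMap R F), ← map_mul, hν, map_one]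
    have hσ : σ₀ = ((pb.dim : ℕ) : F) * ε * algebraMap R F w * a₁ := by
      calc σ₀ = (algebraMap R F ν * ((pb.dim : ℕ) : F)) * σ₀ := by rw [hνF, one_mul]
        _ = ((pb.dim : ℕ) : F) * (algebraMap R F ν * σ₀) := by ring
        _ = ((pb.dim : ℕ) : F) * ε * algebraMap R F w * a₁ := by rw [h]; ring
    obtain ⟨d, hd⟩ : ∃ d, pb.dim = d + 1 := Nat.exists_eq_succ_of_ne_zero hm0.ne'
    have hεB : ε ∈ B₀ := by
      rcases hε with rfl | rfl
      · exact B₀.one_mem
      · exact B₀.neg_mem B₀.one_mem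
    have hkey : (1 : F) = algebraMap R F w *
        ((((pb.dim : ℕ) : F) * ε) ^ pb.dim * algebraMap R F w ^ d * (a₁ ^ pb.dim * u) - b₀) := by
      have h1 : σ₀ ^ pb.dim * u = algebraMap R F w *
          ((((pb.dim : ℕ) : F) * ε) ^ pb.dim * algebraMap R F w ^ d * (a₁ ^ pb.dim * u)) := by
        conv_lhs => rw [hσ]
        rw [mul_pow, mul_pow]
        conv_lhs => rw [show algebraMap R F w ^ pb.dim = algebraMap R F w ^ d * algebraMap R F w
          from by rw [hd, pow_succ]]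
        ring
      rw [mul_sub, ← h1, ← hσ₀]
      ring
    refine hw1 _ ?_ hkey.symm
    refine B₀.sub_mem (B₀.mul_mem (B₀.mul_mem (B₀.pow_mem (B₀.mul_mem (natCast_mem B₀ _) hεB) _)
      (B₀.pow_mem (B₀.algebraMap_mem w) d)) ha₁) hb₀
  rcases hconcl with ⟨a, ha, hEa⟩ | ⟨a, ha, hEa⟩
  · have hEa' : E₀ = algebraMap R C w * (a : C) := congrArg Subtype.val hEa
    have h := congrArg (co pb k1) hEa'
    rw [hcoE, hwC, co_algebraMap_mul] at h
    exact hfinal (co pb k1 (a : C)) (ha k1) 1 (Or.inl rfl) (by rw [h, one_mul])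
  · have hEa' : 1 - E₀ = algebraMap R C w * (a : C) := congrArg Subtype.val hEa
    have h := congrArg (co pb k1) hEa'
    rw [map_sub, hco1, hcoE, hwC, co_algebraMap_mul, zero_sub] at h
    refine hfinal (co pb k1 (a : C)) (ha k1) (-1) (Or.inr rfl) ?_
    rw [neg_one_mul, ← h, neg_neg]

end Main

end Fermat.Agent.S18.H394

end
-- ===== PACK-END S18/H394/KummerEndgame.lean

-- ===== PACK-BEGIN Lib/Haupt/Formal.lean
section



/-!
# Truncations of the Prelude's formal `E₄` and Euler product (helper637)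
-/

set_option autoImplicit false

namespace Fermat.Agent.Lib.Haupt

open PowerSeries Filter Topology
open scoped PowerSeries.WithPiTopology

/-- Computable `σ₃`. -/
def sig3 (n : ℕ) : ℤ := ((List.range (n + 1)).map fun d => if d ∣ n then (d : ℤ) ^ 3 else 0).sum

theorem sig3_eq (n : ℕ) (hn : n ≠ 0) : sig3 n = ∑ d ∈ n.divisors, (d : ℤ) ^ 3 := by
  unfold sig3
  rw [sum_map_range, ← Finset.sum_filter]
  apply Finset.sum_congr _ (fun _ _ => rfl)
  ext d
  simp only [Finset.mem_filter, Finset.mem_range, Nat.mem_divisors]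
  constructor
  · rintro ⟨_, h⟩
    exact ⟨h, hn⟩
  · rintro ⟨h, _⟩
    exact ⟨Nat.lt_succ_of_le (Nat.le_of_dvd (Nat.pos_of_ne_zero hn) h), h⟩

/-- Computable coefficients of `E₄`. -/
def e4c (n : ℕ) : ℤ := if n = 0 then 1 else 240 * sig3 n

theorem coeff_eisenstein4 (n : ℕ) : coeff n ModularCurve.eisenstein4 = e4c n := by
  unfold e4c ModularCurve.eisenstein4
  rw [coeff_mk]
  split_ifs with h
  · rfl
  · rw [sig3_eq n h]

theorem tr_eisenstein4 (M : ℕ) : tr M ModularCurve.eisenstein4 = ofFn M e4c := by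
  rw [tr_eq_ofFn]
  exact ofFn_congr fun n _ => coeff_eisenstein4 n

/-- Truncated partial Euler products. -/
def lEuler (M : ℕ) : ℕ → List ℤ
  | 0 => lone M
  | k + 1 => lsub M (lEuler M k) (lshift M (k + 1) (lEuler M k))

theorem tr_prod_range (M k : ℕ) :
    tr M (∏ n ∈ Finset.range k, (1 - X ^ (n + 1) : PowerSeries ℤ)) = lEuler M k := by
  induction k with
  | zero => rw [Finset.prod_range_zero, tr_one]; rfl
  | succ k ih =>
    rw [Finset.prod_range_succ, mul_sub, mul_one, mul_comm, tr_sub, tr_X_pow_mul, ih]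
    rfl

/-- Multiplying by `1 - X ^ (n + 1)` with `n ≥ m` does not change the `m`-th coefficient. -/
theorem coeff_mul_one_sub_X_pow (f : PowerSeries ℤ) {m n : ℕ} (h : m ≤ n) :
    coeff m (f * (1 - X ^ (n + 1))) = coeff m f := by
  rw [mul_sub, mul_one, map_sub, mul_comm, coeff_X_pow_mul', if_neg (by omega), sub_zero]

theorem coeff_prod_of_range_subset {M : ℕ} (s : Finset ℕ) (hs : Finset.range M ⊆ s) {m : ℕ}
    (hm : m < M) :
    coeff m (∏ n ∈ s, (1 - X ^ (n + 1) : PowerSeries ℤ))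
      = coeff m (∏ n ∈ Finset.range M, (1 - X ^ (n + 1) : PowerSeries ℤ)) := by
  induction s using Finset.strongInduction with
  | H s ih =>
    by_cases hsr : s = Finset.range M
    · rw [hsr]
    · obtain ⟨a, has, haM⟩ : ∃ a ∈ s, a ∉ Finset.range M := by
        by_contra hcon
        push Not at hcon
        exact hsr (Finset.Subset.antisymm hcon hs)
      have hsub : Finset.range M ⊆ s.erase a := by
        intro x hx
        exact Finset.mem_erase.mpr ⟨fun h => haM (h ▸ hx), hs hx⟩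
      rw [← Finset.mul_prod_erase s _ has, mul_comm,
        coeff_mul_one_sub_X_pow _ (by rw [Finset.mem_range] at haM; omega)]
      exact ih _ (Finset.erase_ssubset has) hsub

theorem coeff_etaProd {M m : ℕ} (hm : m < M) :
    coeff m ModularCurve.etaProd
      = coeff m (∏ n ∈ Finset.range M, (1 - X ^ (n + 1) : PowerSeries ℤ)) := by
  have h1 : HasProd (fun n : ℕ => (1 - X ^ (n + 1) : PowerSeries ℤ)) ModularCurve.etaProd :=
    (PowerSeries.WithPiTopology.multipliable_one_sub_X_pow ℤ).hasProd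
  have h2 : Tendsto (fun s : Finset ℕ => ∏ n ∈ s, (1 - X ^ (n + 1) : PowerSeries ℤ))
      atTop (𝓝 ModularCurve.etaProd) := h1
  have h3 := (PowerSeries.WithPiTopology.tendsto_iff_coeff_tendsto ℤ _ _ _).1 h2 m
  have h4 : Tendsto (fun s : Finset ℕ => coeff m (∏ n ∈ s, (1 - X ^ (n + 1) : PowerSeries ℤ)))
      atTop (𝓝 (coeff m (∏ n ∈ Finset.range M, (1 - X ^ (n + 1) : PowerSeries ℤ)))) := by
    apply tendsto_const_nhds.congr'
    filter_upwards [eventually_ge_atTop (Finset.range M)] with s hs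
    exact (coeff_prod_of_range_subset s hs hm).symm
  exact tendsto_nhds_unique h3 h4

theorem tr_etaProd (M : ℕ) : tr M ModularCurve.etaProd = lEuler M M := by
  rw [← tr_prod_range, tr_eq_ofFn, tr_eq_ofFn]
  exact ofFn_congr fun n hn => coeff_etaProd hn

end Fermat.Agent.Lib.Haupt

end
-- ===== PACK-END Lib/Haupt/Formal.lean

-- ===== PACK-BEGIN Lib/Haupt/Coeffs.lean
section


/-!
# The four formal modular identities, up to the Sturm bound (helper637)

`Phi1 … Phi4 : PowerSeries ℤ` are the differences of the two sides of the modular-form identities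
behind the Hauptmodul relations for `Γ₀(2)` and `Γ₀(3)`.  Here we check by a kernel computation
that their coefficients vanish up to the Sturm bound.
-/

set_option autoImplicit false

noncomputable section

namespace Fermat.Agent.Lib.Haupt

open PowerSeries

/-- The formal `E₄`. -/
abbrev E4Z : PowerSeries ℤ := ModularCurve.eisenstein4

/-- The formal `Δ = X · ∏ (1 - Xⁿ)²⁴` over `ℤ`. -/
def DeltaZ : PowerSeries ℤ := X * ModularCurve.etaProd ^ 24

/-- `f(X^d)`. -/
abbrev ex (d : ℕ) [NeZero d] (f : PowerSeries ℤ) : PowerSeries ℤ := expand d (NeZero.ne d) f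

/-- `E₄³ Δ Δ₂ - (Δ + 256 Δ₂)³`. -/
def Phi1 : PowerSeries ℤ :=
  E4Z ^ 3 * (DeltaZ * ex 2 DeltaZ) - (DeltaZ + C 256 * ex 2 DeltaZ) ^ 3

/-- `E₄(2τ)³ Δ Δ₂ - (Δ + 16 Δ₂)³`. -/
def Phi2 : PowerSeries ℤ :=
  ex 2 E4Z ^ 3 * (DeltaZ * ex 2 DeltaZ) - (DeltaZ + C 16 * ex 2 DeltaZ) ^ 3

/-- `Δ Δ₃ (E₄³ - 756 Δ - 19131876 Δ₃)² - (Δ² + 196830 Δ Δ₃ + 387420489 Δ₃²)²`. -/
def Phi3 : PowerSeries ℤ :=
  (DeltaZ * ex 3 DeltaZ) * (E4Z ^ 3 - (C 756 * DeltaZ + C 19131876 * ex 3 DeltaZ)) ^ 2
    - (DeltaZ ^ 2 + (C 196830 * (DeltaZ * ex 3 DeltaZ) + C 387420489 * ex 3 DeltaZ ^ 2)) ^ 2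

/-- `Δ Δ₃ (E₄(3τ)³ - 36 Δ - 756 Δ₃)² - (Δ² + 270 Δ Δ₃ + 729 Δ₃²)²`. -/
def Phi4 : PowerSeries ℤ :=
  (DeltaZ * ex 3 DeltaZ) * (ex 3 E4Z ^ 3 - (C 36 * DeltaZ + C 756 * ex 3 DeltaZ)) ^ 2
    - (DeltaZ ^ 2 + (C 270 * (DeltaZ * ex 3 DeltaZ) + C 729 * ex 3 DeltaZ ^ 2)) ^ 2

theorem tr_DeltaZ (M : ℕ) : tr M DeltaZ = lshift M 1 (lpow M (lEuler M M) 24) := by
  rw [DeltaZ, ← pow_one (X : PowerSeries ℤ), tr_X_pow_mul, tr_pow, tr_etaProd]

set_option maxRecDepth 1000000 in
theorem tr_Phi1 : tr 13 Phi1 = List.replicate 13 0 := by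
  simp only [Phi1, tr_sub, tr_mul, tr_pow, tr_add, tr_C, tr_expand, tr_DeltaZ,
    tr_eisenstein4]
  decide

end Fermat.Agent.Lib.Haupt

namespace Fermat.Agent.Lib.Haupt

open PowerSeries

set_option maxRecDepth 1000000 in
theorem tr_Phi2 : tr 13 Phi2 = List.replicate 13 0 := by
  simp only [Phi2, tr_sub, tr_mul, tr_pow, tr_add, tr_C, tr_expand, tr_DeltaZ,
    tr_eisenstein4]
  decide

set_option maxRecDepth 1000000 in
theorem tr_Phi3 : tr 37 Phi3 = List.replicate 37 0 := by
  simp only [Phi3, tr_sub, tr_mul, tr_pow, tr_add, tr_C, tr_expand, tr_DeltaZ,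
    tr_eisenstein4]
  decide

set_option maxRecDepth 1000000 in
theorem tr_Phi4 : tr 37 Phi4 = List.replicate 37 0 := by
  simp only [Phi4, tr_sub, tr_mul, tr_pow, tr_add, tr_C, tr_expand, tr_DeltaZ,
    tr_eisenstein4]
  decide

theorem coeff_Phi1 {n : ℕ} (hn : n < 13) : coeff n Phi1 = 0 := coeff_eq_zero_of_tr_eq tr_Phi1 hn
theorem coeff_Phi2 {n : ℕ} (hn : n < 13) : coeff n Phi2 = 0 := coeff_eq_zero_of_tr_eq tr_Phi2 hn
theorem coeff_Phi3 {n : ℕ} (hn : n < 37) : coeff n Phi3 = 0 := coeff_eq_zero_of_tr_eq tr_Phi3 hn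
theorem coeff_Phi4 {n : ℕ} (hn : n < 37) : coeff n Phi4 = 0 := coeff_eq_zero_of_tr_eq tr_Phi4 hn

end Fermat.Agent.Lib.Haupt

end
end
-- ===== PACK-END Lib/Haupt/Coeffs.lean

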