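import Fermat.Prelude.Def_FLTPrelim_Modularity
import Mathlib
import Fermat.Prelude.Def_ModularCurve_X0ModL
import Fermat.Prelude.Def_AlgebraicCurve_DivisorClassGroup
import Fermat.Prelude.Def_ModularCurve_X0
import Mathlib.GroupTheory.Index
import Mathlib.SetTheory.Cardinal.NatCard
import Mathlib.SetTheory.Cardinal.Finite
import Mathlib.Data.Nat.Factorization.Induction
import Mathlib.Algebra.Squarefree.Basic
import Mathlib.Data.Nat.Squarefree
import Mathlib.NumberTheory.ModularForms.QExpansion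
import Mathlib.NumberTheory.ModularForms.CongruenceSubgroups
import Mathlib.RingTheory.PowerSeries.Expand
import Fermat.Prelude.Thm_CongruenceSubgroup_one_mem_strictPeriods_Gamma0
import Fermat.Agent.Pack.S48.G0E0L0
import Fermat.Agent.Pack.S48.G0E0L1
import Fermat.Agent.Pack.S48.G0E0L3
import Fermat.Agent.Pack.S48.G0E0L2
import Fermat.Agent.Pack.S48.G7E0L0

-- ===== PACK-BEGIN S48/H308/RankinEuler.lean
section


/-!
# S48 (Deligne–Serre), piece RANKIN, part 3: from a bound on the Dirichlet series to the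
# Rankin bound over primes (Euler product, no analytic continuation)

`rankin_abs`: if `a 1 = 1`, the Hecke relations hold at all primes `p ∤ N` with `‖ε p‖ = 1`, and all
finite partial sums of `∑ ‖a n‖² n^{-s}` are `≤ D`, then for every finite set `P` of primes not
dividing `N`:   `∑_{p ∈ P} ‖a p‖² p^{-s} ≤ log D + 2`.
-/

set_option autoImplicit false

namespace Fermat.Agent.S48.H308

open Finset

section Mult

variable {N : ℕ} {a : ℕ → ℂ} {ε : ℕ → ℂ}

/-- Hecke relation at prime powers. -/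
lemma hecke_rec (hT : ∀ p : ℕ, p.Prime → ¬ p ∣ N → ∀ n : ℕ,
      a (p * n) + ε p * (if p ∣ n then a (n / p) else 0) = a p * a n)
    {p : ℕ} (hp : p.Prime) (hpN : ¬ p ∣ N) (n : ℕ) (e : ℕ) :
    a (p ^ (e + 2) * n) = a p * a (p ^ (e + 1) * n) - ε p * a (p ^ e * n) := by
  have h := hT p hp hpN (p ^ (e + 1) * n)
  have hdvd : p ∣ p ^ (e + 1) * n := Dvd.dvd.mul_right (dvd_pow_self p (by omega)) n
  rw [if_pos hdvd] at h
  have hdiv : p ^ (e + 1) * n / p = p ^ e * n := by
    rw [pow_succ, mul_assoc, mul_comm p n, ← mul_assoc, Nat.mul_div_cancel _ hp.pos]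
  rw [hdiv] at h
  have hmul : p * (p ^ (e + 1) * n) = p ^ (e + 2) * n := by ring
  rw [hmul] at h
  linear_combination h

lemma hecke_prime_pow_mul (h1 : a 1 = 1)
    (hT : ∀ p : ℕ, p.Prime → ¬ p ∣ N → ∀ n : ℕ,
      a (p * n) + ε p * (if p ∣ n then a (n / p) else 0) = a p * a n)
    {p : ℕ} (hp : p.Prime) (hpN : ¬ p ∣ N) {n : ℕ} (hn : ¬ p ∣ n) (e : ℕ) :
    a (p ^ e * n) = a (p ^ e) * a n := by
  have key : ∀ e, a (p ^ e * n) = a (p ^ e) * a n ∧ a (p ^ (e + 1) * n) = a (p ^ (e + 1)) * a n := by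
    intro e
    induction e with
    | zero =>
      refine ⟨by simp [h1], ?_⟩
      have h := hT p hp hpN n
      rw [if_neg hn] at h
      simpa using h
    | succ e ih =>
      refine ⟨ih.2, ?_⟩
      have hr := hecke_rec hT hp hpN n e
      have hr1 := hecke_rec hT hp hpN 1 e
      simp only [mul_one] at hr1
      rw [hr, ih.1, ih.2, hr1]; ring
  exact (key e).1

lemma hecke_mul (h1 : a 1 = 1)
    (hT : ∀ p : ℕ, p.Prime → ¬ p ∣ N → ∀ n : ℕ,
      a (p * n) + ε p * (if p ∣ n then a (n / p) else 0) = a p * a n) :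
    ∀ m : ℕ, Nat.Coprime m N → ∀ n : ℕ, Nat.Coprime m n → a (m * n) = a m * a n := by
  intro m
  induction m using Nat.recOnPosPrimePosCoprime with
  | prime_pow p k hp hk =>
    intro hN n hn
    have hpN : ¬ p ∣ N := by
      intro hd
      have := (Nat.coprime_pow_left_iff hk p N).mp hN
      exact hp.one_lt.ne' (Nat.Coprime.eq_one_of_dvd this hd)
    have hpn : ¬ p ∣ n := by
      intro hd
      have := (Nat.coprime_pow_left_iff hk p n).mp hn
      exact hp.one_lt.ne' (Nat.Coprime.eq_one_of_dvd this hd)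
    exact hecke_prime_pow_mul h1 hT hp hpN hpn k
  | zero =>
    intro _ n hn
    have : n = 1 := by simpa using hn
    subst this
    simp [h1]
  | one =>
    intro _ n _
    simp [h1]
  | coprime x y hx hy hxy ihx ihy =>
    intro hN n hn
    have hxN : Nat.Coprime x N := Nat.Coprime.coprime_mul_right hN
    have hyN : Nat.Coprime y N := Nat.Coprime.coprime_mul_left hN
    have hxn : Nat.Coprime x n := Nat.Coprime.coprime_mul_right hn
    have hyn : Nat.Coprime y n := Nat.Coprime.coprime_mul_left hn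
    rw [mul_assoc, ihx hxN (y * n) (Nat.Coprime.mul_right hxy hxn), ihy hyN n hyn,
      ihx hxN y hxy]
    ring

end Mult

/-- `1 - x ≥ exp (-2x)` on `[0, 1/2]`. -/
lemma exp_neg_two_mul_le {x : ℝ} (h0 : 0 ≤ x) (h1 : x ≤ 1 / 2) :
    Real.exp (-(2 * x)) ≤ 1 - x := by
  have h2 : 1 + 2 * x ≤ Real.exp (2 * x) := by
    have := Real.add_one_le_exp (2 * x); linarith
  have hpos : 0 < 1 + 2 * x := by linarith
  rw [Real.exp_neg]
  calc (Real.exp (2 * x))⁻¹ ≤ (1 + 2 * x)⁻¹ := inv_anti₀ hpos h2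
    _ ≤ 1 - x := by
      rw [inv_le_iff_one_le_mul₀ hpos]
      nlinarith

/-- `∑_{p ∈ P} 1/p² ≤ 1` over any finite set of integers `≥ 2`. -/
lemma sum_inv_sq_le_one (P : Finset ℕ) (hP : ∀ p ∈ P, 2 ≤ p) :
    ∑ p ∈ P, ((p : ℝ) ^ 2)⁻¹ ≤ 1 := by
  -- compare with the telescoping sum over `2 ≤ n ≤ M`
  have htel : ∀ M : ℕ, ∑ n ∈ Finset.Icc 2 M, ((n : ℝ) ^ 2)⁻¹ ≤ 1 - 1 / (max M 1 : ℝ) := by
    intro M
    induction M with
    | zero => simp
    | succ M ih =>
      rcases Nat.lt_or_ge M 1 with hM | hM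
      · have : M = 0 := by omega
        subst this
        simp
      · rw [Finset.sum_Icc_succ_top (by omega : 2 ≤ M + 1)]
        have hM1 : (1 : ℝ) ≤ M := by exact_mod_cast hM
        have e1 : (max (M : ℝ) 1) = M := max_eq_left hM1
        have e2 : (max ((M + 1 : ℕ) : ℝ) 1) = (M : ℝ) + 1 := by
          push_cast; exact max_eq_left (by linarith)
        rw [e1] at ih
        rw [e2]
        have hpos : (0 : ℝ) < M := by linarith
        have hpos1 : (0 : ℝ) < (M : ℝ) + 1 := by linarith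
        have hstep : (((M + 1 : ℕ) : ℝ) ^ 2)⁻¹ ≤ 1 / (M : ℝ) - 1 / ((M : ℝ) + 1) := by
          push_cast
          rw [div_sub_div _ _ hpos.ne' hpos1.ne', inv_eq_one_div,
            div_le_div_iff₀ (by positivity) (by positivity)]
          nlinarith
        linarith
  obtain ⟨M, hM⟩ : ∃ M, ∀ p ∈ P, p ≤ M := ⟨P.sup id, fun p hp => Finset.le_sup (f := id) hp⟩
  calc ∑ p ∈ P, ((p : ℝ) ^ 2)⁻¹ ≤ ∑ n ∈ Finset.Icc 2 M, ((n : ℝ) ^ 2)⁻¹ := by
        apply Finset.sum_le_sum_of_subset_of_nonneg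
        · intro p hp
          rw [Finset.mem_Icc]
          exact ⟨hP p hp, hM p hp⟩
        · intro _ _ _; positivity
    _ ≤ 1 - 1 / (max M 1 : ℝ) := htel M
    _ ≤ 1 := by
        have : (0 : ℝ) ≤ 1 / (max M 1 : ℝ) := by positivity
        linarith

lemma cast_pow_rpow (p e : ℕ) (s : ℝ) :
    ((p ^ e : ℕ) : ℝ) ^ (-s) = ((p : ℝ) ^ (-s)) ^ e := by
  rw [Nat.cast_pow, ← Real.rpow_natCast ((p : ℝ) ^ (-s)) e, ← Real.rpow_mul (Nat.cast_nonneg p),
    mul_comm, Real.rpow_mul (Nat.cast_nonneg p), Real.rpow_natCast]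

/-- **Abstract Rankin bound.** -/
theorem rankin_abs (N : ℕ) (a : ℕ → ℂ) (ε : ℕ → ℂ) (h1 : a 1 = 1)
    (hT : ∀ p : ℕ, p.Prime → ¬ p ∣ N → ∀ n : ℕ,
      a (p * n) + ε p * (if p ∣ n then a (n / p) else 0) = a p * a n)
    (hε : ∀ p : ℕ, p.Prime → ¬ p ∣ N → ‖ε p‖ = 1)
    (s : ℝ) (hs : 1 < s) (D : ℝ)
    (hD : ∀ F : Finset ℕ, ∑ n ∈ F, ‖a n‖ ^ 2 * (n : ℝ) ^ (-s) ≤ D)
    (P : Finset ℕ) (hP : ∀ p ∈ P, p.Prime ∧ ¬ p ∣ N) :
    ∑ p ∈ P, ‖a p‖ ^ 2 * (p : ℝ) ^ (-s) ≤ Real.log D + 2 := by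
  classical
  -- the multiplicative function
  set g : ℕ → ℝ := fun n => if Nat.Coprime n N then ‖a n‖ ^ 2 * (n : ℝ) ^ (-s) else 0 with hg
  have hg_nonneg : ∀ n, 0 ≤ g n := by
    intro n; simp only [hg]; split_ifs
    · positivity
    · exact le_rfl
  have hg_le : ∀ n, g n ≤ ‖a n‖ ^ 2 * (n : ℝ) ^ (-s) := by
    intro n; simp only [hg]; split_ifs
    · exact le_rfl
    · positivity
  have hg1 : g 1 = 1 := by simp [hg, h1]
  have hgmul : ∀ {m n : ℕ}, Nat.Coprime m n → g (m * n) = g m * g n := by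
    intro m n hmn
    simp only [hg]
    by_cases hm : Nat.Coprime m N
    · by_cases hn : Nat.Coprime n N
      · rw [if_pos (Nat.Coprime.mul_left hm hn), if_pos hm, if_pos hn,
          hecke_mul h1 hT m hm n hmn, norm_mul, Nat.cast_mul,
          Real.mul_rpow (Nat.cast_nonneg m) (Nat.cast_nonneg n)]
        ring
      · rw [if_neg hn, mul_zero, if_neg]
        exact fun h => hn (Nat.Coprime.coprime_mul_left h)
    · rw [if_neg hm, zero_mul, if_neg]
      exact fun h => hm (Nat.Coprime.coprime_mul_right h)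
  have hgsum : Summable g := by
    apply summable_of_sum_le hg_nonneg (c := D)
    intro F
    exact (Finset.sum_le_sum fun n _ => hg_le n).trans (hD F)
  have hgnorm : Summable fun n => ‖g n‖ := by
    simpa [Real.norm_of_nonneg (hg_nonneg _)] using hgsum
  have hgtsum : ∑' n, g n ≤ D := by
    apply hgsum.tsum_le_of_sum_le
    intro F
    exact (Finset.sum_le_sum fun n _ => hg_le n).trans (hD F)
  have hD1 : 1 ≤ D := by
    have := hD {1}
    simpa [h1] using this
  -- Euler product over `P`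
  have hPprime : P.filter Nat.Prime = P := by
    apply Finset.filter_true_of_mem
    intro p hp; exact (hP p hp).1
  have heul : ∏ p ∈ P, ∑' e : ℕ, g (p ^ e) ≤ D := by
    have h := EulerProduct.prod_filter_prime_tsum_eq_tsum_factoredNumbers hg1 hgmul hgnorm P
    rw [hPprime] at h
    rw [h]
    refine le_trans ?_ hgtsum
    exact hgsum.tsum_subtype_le _ _ hg_nonneg
  -- local factors
  have hloc : ∀ p ∈ P, Real.exp (‖a p‖ ^ 2 * (p : ℝ) ^ (-s)) * (1 - ((p : ℝ) ^ (-s)) ^ 2)
      ≤ ∑' e : ℕ, g (p ^ e) := by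
    intro p hp
    obtain ⟨hpp, hpN⟩ := hP p hp
    have hp0 : (0 : ℝ) < p := by exact_mod_cast hpp.pos
    have hp1 : (1 : ℝ) < p := by exact_mod_cast hpp.one_lt
    set X : ℝ := (p : ℝ) ^ (-s) with hX
    have hX0 : 0 ≤ X := by positivity
    have hX1 : X < 1 := Real.rpow_lt_one_of_one_lt_of_neg hp1 (by linarith)
    have hcop : ∀ e : ℕ, Nat.Coprime (p ^ e) N := by
      intro e
      apply Nat.Coprime.pow_left
      exact (Nat.Prime.coprime_iff_not_dvd hpp).mpr hpN
    have hge : ∀ e : ℕ, g (p ^ e) = ‖a (p ^ e)‖ ^ 2 * X ^ e := by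
      intro e
      simp only [hg]
      rw [if_pos (hcop e), hX, cast_pow_rpow]
    have hsumloc : Summable fun e : ℕ => ‖a (p ^ e)‖ ^ 2 * X ^ e := by
      have := hgsum.comp_injective (Nat.pow_right_injective hpp.two_le)
      simpa [Function.comp_def, hge] using this
    have hrec : ∀ e, a (p ^ (e + 2)) = a p * a (p ^ (e + 1)) - ε p * a (p ^ e) := by
      intro e
      have := hecke_rec hT hpp hpN 1 e
      simpa using this
    have := local_ineq (hε p hpp hpN) (b := fun e => a (p ^ e)) (by simp [h1]) (by simp)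
      hrec hX0 hX1 hsumloc
    simpa [hge] using this
  -- product of the local inequalities
  have hprod : ∏ p ∈ P, (Real.exp (‖a p‖ ^ 2 * (p : ℝ) ^ (-s)) * (1 - ((p : ℝ) ^ (-s)) ^ 2))
      ≤ D := by
    refine le_trans (Finset.prod_le_prod ?_ hloc) heul
    intro p hp
    obtain ⟨hpp, -⟩ := hP p hp
    have hp1 : (1 : ℝ) < p := by exact_mod_cast hpp.one_lt
    have hX1 : (p : ℝ) ^ (-s) < 1 := Real.rpow_lt_one_of_one_lt_of_neg hp1 (by linarith)
    have hX0 : (0 : ℝ) ≤ (p : ℝ) ^ (-s) := by positivity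
    have : 0 ≤ 1 - ((p : ℝ) ^ (-s)) ^ 2 := by nlinarith
    positivity
  -- lower bound for the factors `1 - X²`
  have hfac : ∀ p ∈ P, Real.exp (-(2 * ((p : ℝ) ^ 2)⁻¹)) ≤ 1 - ((p : ℝ) ^ (-s)) ^ 2 := by
    intro p hp
    obtain ⟨hpp, -⟩ := hP p hp
    have hp2 : (2 : ℝ) ≤ p := by exact_mod_cast hpp.two_le
    have hp0 : (0 : ℝ) < p := by linarith
    have hXle : ((p : ℝ) ^ (-s)) ^ 2 ≤ ((p : ℝ) ^ 2)⁻¹ := by
      rw [← Real.rpow_natCast, ← Real.rpow_mul hp0.le, ← Real.rpow_natCast, ← Real.rpow_neg hp0.le]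
      apply Real.rpow_le_rpow_of_exponent_le (by linarith)
      push_cast
      nlinarith
    have hinv : ((p : ℝ) ^ 2)⁻¹ ≤ 1 / 2 := by
      rw [inv_le_comm₀ (by positivity) (by norm_num)]
      nlinarith
    calc Real.exp (-(2 * ((p : ℝ) ^ 2)⁻¹)) ≤ 1 - ((p : ℝ) ^ 2)⁻¹ :=
          exp_neg_two_mul_le (by positivity) hinv
      _ ≤ 1 - ((p : ℝ) ^ (-s)) ^ 2 := by linarith
  have hexpprod : Real.exp (∑ p ∈ P, ‖a p‖ ^ 2 * (p : ℝ) ^ (-s) - 2)
      ≤ ∏ p ∈ P, (Real.exp (‖a p‖ ^ 2 * (p : ℝ) ^ (-s)) * (1 - ((p : ℝ) ^ (-s)) ^ 2)) := by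
    have h2 : ∑ p ∈ P, (‖a p‖ ^ 2 * (p : ℝ) ^ (-s) - 2 * ((p : ℝ) ^ 2)⁻¹)
        ≥ ∑ p ∈ P, ‖a p‖ ^ 2 * (p : ℝ) ^ (-s) - 2 := by
      rw [Finset.sum_sub_distrib, ← Finset.mul_sum]
      have := sum_inv_sq_le_one P (fun p hp => (hP p hp).1.two_le)
      linarith
    calc Real.exp (∑ p ∈ P, ‖a p‖ ^ 2 * (p : ℝ) ^ (-s) - 2)
        ≤ Real.exp (∑ p ∈ P, (‖a p‖ ^ 2 * (p : ℝ) ^ (-s) - 2 * ((p : ℝ) ^ 2)⁻¹)) :=
          Real.exp_le_exp.mpr h2
      _ = ∏ p ∈ P, Real.exp (‖a p‖ ^ 2 * (p : ℝ) ^ (-s) - 2 * ((p : ℝ) ^ 2)⁻¹) :=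
          Real.exp_sum _ _
      _ ≤ ∏ p ∈ P, (Real.exp (‖a p‖ ^ 2 * (p : ℝ) ^ (-s)) * (1 - ((p : ℝ) ^ (-s)) ^ 2)) := by
          apply Finset.prod_le_prod
          · intro p _; positivity
          · intro p hp
            rw [sub_eq_add_neg, Real.exp_add]
            exact mul_le_mul_of_nonneg_left (hfac p hp) (Real.exp_pos _).le
  have hfin : Real.exp (∑ p ∈ P, ‖a p‖ ^ 2 * (p : ℝ) ^ (-s) - 2) ≤ D := hexpprod.trans hprod
  have hDpos : 0 < D := by linarith
  have := (Real.le_log_iff_exp_le hDpos).mpr hfin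
  linarith

end Fermat.Agent.S48.H308

end
-- ===== PACK-END S48/H308/RankinEuler.lean

-- ===== PACK-BEGIN S48/H308/Rankin.lean
section





/-!
# S48 (Deligne–Serre), piece RANKIN: the final bound for weight one forms on `Γ₁(N)`

For `f : CuspForm (Gamma1 N) 1` with `a₁ = 1` satisfying the Hecke relations `hT` of the frozen
statement S48 (for an arbitrary Dirichlet character `ε`), there is a constant `C` with

  `∑_{p ∈ P} ‖a_p‖² p^{-s} ≤ log (1 / (s - 1)) + C`

for all `1 < s ≤ 2` and all finite sets `P` of primes not dividing `N`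
(`rankin_bound`; constant `1` in front of the logarithm, no boundedness hypothesis on `a_p`).

Ingredients: the mean square bound `∑_{n ≤ x} ‖a_n‖² ≤ C x` and the dyadic bound for the Dirichlet
series (helper648, `H648/MeanSquare.lean`, `H648/DirichletBound.lean`), and the Euler product
argument with the sharp local inequality (`RankinLocal.lean`, `RankinEuler.lean`).
-/

set_option autoImplicit false

namespace Fermat.Agent.S48.H308

open CongruenceSubgroup UpperHalfPlane
open scoped MatrixGroups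

/-- `1` is a strict period of (the image in `GL₂(ℝ)` of) `Γ₁(N)`. -/
lemma one_mem_strictPeriods_Gamma1 (N : ℕ) :
    (1 : ℝ) ∈ (Subgroup.map (Matrix.SpecialLinearGroup.mapGL ℝ) (Gamma1 N)).strictPeriods := by
  have hT : ModularGroup.T ∈ Gamma1 N := by
    rw [Gamma1_mem]
    simp [ModularGroup.T]
  rw [Subgroup.strictPeriods_eq_zmultiples_one_of_T_mem hT]
  exact AddSubgroup.mem_zmultiples (1 : ℝ)

/-- Mean square bound for the `q`-expansion coefficients of a weight one cusp form on `Γ₁(N)`. -/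
theorem rankin_meanSquare (N : ℕ) [NeZero N] (f : CuspForm (Gamma1 N) 1) :
    ∃ C : ℝ, 0 ≤ C ∧ ∀ x : ℕ, 1 ≤ x →
      ∑ n ∈ Finset.range (x + 1), ‖ModularFormClass.qCoeff f n‖ ^ 2 ≤ C * (x : ℝ) := by
  obtain ⟨C, hC, h⟩ := Fermat.Agent.S48.H648.exists_sum_sq_coeff_le
    (Γ := Subgroup.map (Matrix.SpecialLinearGroup.mapGL ℝ) (Gamma1 N)) (k := 1) f
    (h := 1) one_pos (one_mem_strictPeriods_Gamma1 N)
  refine ⟨C, hC, fun x hx => ?_⟩
  have := h x hx
  simpa [ModularFormClass.qCoeff] using this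

/-- Bound for the Dirichlet series `∑ ‖a_n‖² n^{-s}` on `(1, 2]`. -/
theorem rankin_dirichlet (N : ℕ) [NeZero N] (f : CuspForm (Gamma1 N) 1) :
    ∃ C : ℝ, 0 < C ∧ ∀ s : ℝ, 1 < s → s ≤ 2 → ∀ F : Finset ℕ,
      ∑ n ∈ F, ‖ModularFormClass.qCoeff f n‖ ^ 2 * (n : ℝ) ^ (-s) ≤ C / (s - 1) := by
  obtain ⟨C, hC, h⟩ := rankin_meanSquare N f
  refine ⟨4 * C + 1, by positivity, fun s hs hs2 F => ?_⟩
  classical
  have hsplit : ∑ n ∈ F, ‖ModularFormClass.qCoeff f n‖ ^ 2 * (n : ℝ) ^ (-s) =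
      ∑ n ∈ F.filter (fun n => 1 ≤ n), ‖ModularFormClass.qCoeff f n‖ ^ 2 * (n : ℝ) ^ (-s) := by
    rw [Finset.sum_filter]
    refine Finset.sum_congr rfl fun n _ => ?_
    split_ifs with hn
    · rfl
    · have hn0 : n = 0 := by omega
      subst hn0
      rw [Nat.cast_zero, Real.zero_rpow (by linarith), mul_zero]
  rw [hsplit]
  have key := Fermat.Agent.S48.H648.sum_mul_rpow_neg_le
    (b := fun n => ‖ModularFormClass.qCoeff f n‖ ^ 2) (fun n => by positivity) hC
    (κ := 1) zero_le_one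
    (fun x hx => by simpa using h x hx) (σ := s) hs (by linarith)
    (F.filter (fun n => 1 ≤ n)) (fun n hn => (Finset.mem_filter.mp hn).2)
  refine key.trans ?_
  have hs0 : 0 < s - 1 := by linarith
  have e : (2 : ℝ) ^ ((1 : ℝ) + 1) = 4 := by
    rw [Real.rpow_add (by norm_num), Real.rpow_one]; norm_num
  rw [e]
  gcongr
  linarith

/-- **Rankin bound** (Deligne–Serre, §5), elementary form: for a weight one cusp form on `Γ₁(N)`
with `a₁ = 1` satisfying the Hecke relations of S48 at the primes `p ∤ N`,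
`∑_{p ∈ P} ‖a_p‖² p^{-s} ≤ log (1/(s-1)) + C` for `1 < s ≤ 2`, uniformly in the finite set `P` of
primes not dividing `N`. -/
theorem rankin_bound (N : ℕ) [NeZero N] (ε : DirichletCharacter ℂ N) (f : CuspForm (Gamma1 N) 1)
    (hf₁ : ModularFormClass.qCoeff f 1 = 1)
    (hT : ∀ p : ℕ, p.Prime → ¬ p ∣ N → ∀ n : ℕ,
        ModularFormClass.qCoeff f (p * n) +
            ε (p : ZMod N) * (if p ∣ n then ModularFormClass.qCoeff f (n / p) else 0) =
          ModularFormClass.qCoeff f p * ModularFormClass.qCoeff f n) :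
    ∃ C : ℝ, ∀ s : ℝ, 1 < s → s ≤ 2 → ∀ P : Finset ℕ, (∀ p ∈ P, p.Prime ∧ ¬ p ∣ N) →
      ∑ p ∈ P, ‖ModularFormClass.qCoeff f p‖ ^ 2 * (p : ℝ) ^ (-s) ≤
        Real.log (1 / (s - 1)) + C := by
  obtain ⟨C, hC, h⟩ := rankin_dirichlet N f
  refine ⟨Real.log C + 2, fun s hs hs2 P hP => ?_⟩
  have hε : ∀ p : ℕ, p.Prime → ¬ p ∣ N → ‖(fun p : ℕ => ε (p : ZMod N)) p‖ = 1 := by
    intro p hp hpN
    have hu : IsUnit ((p : ℕ) : ZMod N) := by
      rw [ZMod.isUnit_iff_coprime]
      exact (Nat.Prime.coprime_iff_not_dvd hp).mpr hpN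
    obtain ⟨u, hu⟩ := hu
    show ‖ε (p : ZMod N)‖ = 1
    rw [← hu]
    exact DirichletCharacter.unit_norm_eq_one ε u
  have key := rankin_abs N (fun n => ModularFormClass.qCoeff f n) (fun p : ℕ => ε (p : ZMod N))
    hf₁ hT hε s hs (C / (s - 1)) (h s hs hs2) P hP
  have hs0 : 0 < s - 1 := by linarith
  have hlog : Real.log (C / (s - 1)) = Real.log (1 / (s - 1)) + Real.log C := by
    rw [div_eq_mul_one_div, Real.log_mul hC.ne' (one_div_pos.mpr hs0).ne']
    ring
  rw [hlog] at key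
  linarith

/-- Consequence: the primes `p ∤ N` with `‖a_p‖² ≥ c` are "of upper density at most `1/c`":
`c · ∑_{p ∈ P, ‖a_p‖² ≥ c} p^{-s} ≤ log (1/(s-1)) + C`. -/
theorem rankin_density (N : ℕ) [NeZero N] (ε : DirichletCharacter ℂ N) (f : CuspForm (Gamma1 N) 1)
    (hf₁ : ModularFormClass.qCoeff f 1 = 1)
    (hT : ∀ p : ℕ, p.Prime → ¬ p ∣ N → ∀ n : ℕ,
        ModularFormClass.qCoeff f (p * n) +
            ε (p : ZMod N) * (if p ∣ n then ModularFormClass.qCoeff f (n / p) else 0) =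
          ModularFormClass.qCoeff f p * ModularFormClass.qCoeff f n) :
    ∃ C : ℝ, ∀ c : ℝ, ∀ s : ℝ, 1 < s → s ≤ 2 → ∀ P : Finset ℕ,
      (∀ p ∈ P, p.Prime ∧ ¬ p ∣ N ∧ c ≤ ‖ModularFormClass.qCoeff f p‖ ^ 2) →
      c * ∑ p ∈ P, (p : ℝ) ^ (-s) ≤ Real.log (1 / (s - 1)) + C := by
  obtain ⟨C, h⟩ := rankin_bound N ε f hf₁ hT
  refine ⟨C, fun c s hs hs2 P hP => ?_⟩
  refine le_trans ?_ (h s hs hs2 P fun p hp => ⟨(hP p hp).1, (hP p hp).2.1⟩)
  rw [Finset.mul_sum]
  refine Finset.sum_le_sum fun p hp => ?_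
  exact mul_le_mul_of_nonneg_right (hP p hp).2.2 (Real.rpow_nonneg (Nat.cast_nonneg p) _)

end Fermat.Agent.S48.H308

end
-- ===== PACK-END S48/H308/Rankin.lean

-- ===== PACK-BEGIN Lib/Cheb/H221/CycEP.lean
section





/-!
# CYC, Euler product of `L_F(s, χ ∘ N)` (helper221)
-/

set_option autoImplicit false

open NumberField IsDedekindDomain Filter Topology

namespace Fermat.Agent.Lib.Cheb.H221

set_option linter.unusedSectionVars false

section

variable (F : Type) [Field F] [NumberField F] {m : ℕ} [NeZero m] (χ : DirichletCharacter ℂ m)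

/-- `χ(N I) N(I)^(-s)` -/
noncomputable def twTerm (s : ℝ) (I : Ideal (𝓞 F)) : ℂ :=
  χ (Ideal.absNorm I : ZMod m) * (((Ideal.absNorm I : ℝ) ^ (-s) : ℝ) : ℂ)

lemma twTerm_mul (s : ℝ) (I J : Ideal (𝓞 F)) :
    twTerm F χ s (I * J) = twTerm F χ s I * twTerm F χ s J := by
  unfold twTerm
  have h := H761.normPow_mul F s I J
  unfold H761.normPow at h
  rw [h, map_mul, Nat.cast_mul, map_mul]
  push_cast
  ring

lemma twTerm_top (s : ℝ) : twTerm F χ s ⊤ = 1 := by
  simp [twTerm]

lemma twTerm_bot {s : ℝ} (hs : s ≠ 0) : twTerm F χ s ⊥ = 0 := by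
  have h0 : (0 : ℝ) ^ (-s) = 0 := Real.zero_rpow (neg_ne_zero.mpr hs)
  simp [twTerm, h0]

lemma norm_twTerm_le (s : ℝ) (I : Ideal (𝓞 F)) : ‖twTerm F χ s I‖ ≤ H761.normPow F s I := by
  unfold twTerm H761.normPow
  rw [norm_mul, Complex.norm_real, Real.norm_of_nonneg (Real.rpow_nonneg (Nat.cast_nonneg _) _)]
  calc ‖χ (Ideal.absNorm I : ZMod m)‖ * (Ideal.absNorm I : ℝ) ^ (-s)
      ≤ 1 * (Ideal.absNorm I : ℝ) ^ (-s) :=
        mul_le_mul_of_nonneg_right (DirichletCharacter.norm_le_one χ _)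
          (Real.rpow_nonneg (Nat.cast_nonneg _) _)
    _ = _ := one_mul _

lemma summable_twTerm {s : ℝ} (hs : 1 < s) : Summable (twTerm F χ s) :=
  Summable.of_norm_bounded (H761.summable_normPow F hs) (norm_twTerm_le F χ s)

/-- the sum over the ideals of norm `n` -/
lemma tsum_fiber_twTerm (s : ℝ) (n : ℕ) :
    ∑' I : {I : Ideal (𝓞 F) // Ideal.absNorm I = n}, twTerm F χ s I.1 =
      χ (n : ZMod m) * ((Spec.idealCount F n : ℂ) * (((n : ℝ) ^ (-s) : ℝ) : ℂ)) := by
  have hfin : Finite {I : Ideal (𝓞 F) // Ideal.absNorm I = n} :=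
    (Ideal.finite_setOfPred_absNorm_eq n).to_subtype
  have : Fintype {I : Ideal (𝓞 F) // Ideal.absNorm I = n} := Fintype.ofFinite _
  rw [tsum_fintype]
  have h1 : ∀ I : {I : Ideal (𝓞 F) // Ideal.absNorm I = n},
      twTerm F χ s I.1 = χ (n : ZMod m) * (((n : ℝ) ^ (-s) : ℝ) : ℂ) := by
    intro I
    simp only [twTerm, I.2]
  simp only [h1, Finset.sum_const, Finset.card_univ, nsmul_eq_mul, Spec.idealCount,
    Nat.card_eq_fintype_card]
  ring

lemma tsum_twTerm_eq_lseries {s : ℝ} (hs : 1 < s) :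
    ∑' I : Ideal (𝓞 F), twTerm F χ s I =
      LSeries (fun n => χ (n : ZMod m) * (Spec.idealCount F n : ℂ)) (s : ℂ) := by
  have hsum := summable_twTerm F χ hs
  have hsum' : Summable (fun x : Σ n : ℕ, {I : Ideal (𝓞 F) // Ideal.absNorm I = n} =>
      twTerm F χ s x.2.1) :=
    ((Equiv.sigmaFiberEquiv (fun I : Ideal (𝓞 F) => Ideal.absNorm I)).summable_iff
      (f := twTerm F χ s)).mpr hsum
  calc ∑' I : Ideal (𝓞 F), twTerm F χ s I
      = ∑' x : Σ n : ℕ, {I : Ideal (𝓞 F) // Ideal.absNorm I = n}, twTerm F χ s x.2.1 :=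
        ((Equiv.sigmaFiberEquiv (fun I : Ideal (𝓞 F) => Ideal.absNorm I)).tsum_eq
          (twTerm F χ s)).symm
    _ = ∑' n : ℕ, ∑' I : {I : Ideal (𝓞 F) // Ideal.absNorm I = n}, twTerm F χ s I.1 :=
        hsum'.tsum_sigma
    _ = _ := by
        unfold LSeries
        refine tsum_congr fun n => ?_
        rw [tsum_fiber_twTerm]
        rcases eq_or_ne n 0 with rfl | hn
        · have : (0 : ℝ) ^ (-s) = 0 := Real.zero_rpow (by linarith)
          simp [this]
        · rw [LSeries.term_of_ne_zero hn, Complex.ofReal_cpow (Nat.cast_nonneg n),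
            Complex.ofReal_neg, Complex.cpow_neg]
          simp [div_eq_mul_inv, mul_assoc]

lemma tsum_sieveSet_empty_twTerm {s : ℝ} (hs : 1 < s) :
    ∑' I : H761.sieveSet (∅ : Set (HeightOneSpectrum (𝓞 F))), twTerm F χ s I =
      ∑' I : Ideal (𝓞 F), twTerm F χ s I := by
  have hs0 : s ≠ 0 := by linarith
  rw [← tsum_subtype_eq_of_support_subset (f := twTerm F χ s)
    (s := H761.sieveSet (∅ : Set (HeightOneSpectrum (𝓞 F))))]
  intro I hI
  rw [H761.mem_sieveSet_empty]
  rintro rfl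
  exact hI (twTerm_bot F χ hs0)

theorem eulerProduct : EulerProductStatement := by
  intro F _ _ m _ χ s hs
  have hf := summable_twTerm F χ hs
  have h1 := H761.hasProd_one_sub hf (twTerm_mul F χ s) (twTerm_top F χ s)
  have hne := H761.tsum_sieve_empty_ne_zero hf (twTerm_mul F χ s) (twTerm_top F χ s)
  have h2 := h1.inv₀ (inv_ne_zero hne)
  rw [inv_inv, tsum_sieveSet_empty_twTerm F χ hs, tsum_twTerm_eq_lseries F χ hs] at h2
  exact h2

end

end Fermat.Agent.Lib.Cheb.H221

end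
-- ===== PACK-END Lib/Cheb/H221/CycEP.lean

-- ===== PACK-BEGIN S29/M4c.lean
section
/-
S29 row, PIECE `M4c` (helper92): linear algebra of the eigenclass.

* `M4c_tensor_ne_zero`  : `w j` linearly independent over `𝔽_p`, `κ` additive and injective on a
  class `P` of characters, some `c j ≠ 0`  ⟹  `∑ j, w j ⊗ κ (c j) ≠ 0` in `F ⊗[ℤ] V`.
* `M4c_tensor_eigen`    : a pointwise identity `∑ j, w j * c' j γ = t * ∑ j, w j * c j γ` in `F`
  ⟹  `∑ j, w j ⊗ κ (c' j) = t • ∑ j, w j ⊗ κ (c j)`.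
* `M4c_exists_eigenclass_of` : the Skeleton statement `exists_eigenclass`, with the conclusions of
  the pieces `M4a`, `M4b`, `HCoh` as hypotheses.
-/


set_option autoImplicit false

noncomputable section

namespace Fermat.Agent.S29

open ModularCurve AlgebraicCurve
open scoped TensorProduct

section Abstract

variable {p : ℕ} [Fact p.Prime] {F : Type*} [Field F] [Algebra (ZMod p) F]
  {V : Type*} [AddCommGroup V] [Module (ZMod p) V] {Γ : Type*}

/-- `𝔽_p`-scalars move across `⊗[ℤ]`. -/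
theorem M4c_smul_tmul (r : ZMod p) (f : F) (v : V) :
    (r • f) ⊗ₜ[ℤ] v = f ⊗ₜ[ℤ] (r • v) := by
  have h1 : r • f = ((r.val : ℤ)) • f := by
    conv_lhs => rw [← ZMod.natCast_zmod_val r]
    rw [Nat.cast_smul_eq_nsmul, natCast_zsmul]
  have h2 : r • v = ((r.val : ℤ)) • v := by
    conv_lhs => rw [← ZMod.natCast_zmod_val r]
    rw [Nat.cast_smul_eq_nsmul, natCast_zsmul]
  rw [h1, h2, TensorProduct.smul_tmul]

/-- Coordinates: `f ⊗ v = ∑ i ∈ S, b i ⊗ (coord_i f • v)` for `S ⊇ supp f`. -/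
theorem M4c_tmul_eq_sum {ι : Type*} (b : Module.Basis ι (ZMod p) F) (f : F) (v : V)
    (S : Finset ι) (hS : (b.repr f).support ⊆ S) :
    f ⊗ₜ[ℤ] v = ∑ i ∈ S, b i ⊗ₜ[ℤ] ((b.repr f i) • v) := by
  classical
  have hf : f = ∑ i ∈ S, (b.repr f i) • b i := by
    conv_lhs => rw [← b.linearCombination_repr f]
    rw [Finsupp.linearCombination_apply, Finsupp.sum]
    refine Finset.sum_subset hS ?_
    intro i _ hi
    rw [Finsupp.notMem_support_iff.1 hi, zero_smul]
  conv_lhs => rw [hf]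
  rw [TensorProduct.sum_tmul]
  refine Finset.sum_congr rfl fun i _ => ?_
  rw [M4c_smul_tmul]

variable (P : (Γ → ZMod p) → Prop) (κ : (Γ → ZMod p) → V)

/-- `κ` is `𝔽_p`-linear on finite combinations of characters in `P`. -/
theorem M4c_kappa_sum
    (hP0 : P 0) (hPadd : ∀ c c', P c → P c' → P (c + c'))
    (hκadd : ∀ c c', P c → P c' → κ (c + c') = κ c + κ c')
    {n : ℕ} (c : Fin n → Γ → ZMod p) (hc : ∀ j, P (c j)) (r : Fin n → ZMod p) :
    P (∑ j, r j • c j) ∧ κ (∑ j, r j • c j) = ∑ j, r j • κ (c j) := by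
  classical
  have hκ0 : κ 0 = 0 := by
    have := hκadd 0 0 hP0 hP0
    rw [add_zero] at this
    exact left_eq_add.mp this
  -- natural multiples
  have hnat : ∀ (m : ℕ) (d : Γ → ZMod p), P d → P (m • d) ∧ κ (m • d) = m • κ d := by
    intro m d hd
    induction m with
    | zero => simpa using ⟨hP0, hκ0⟩
    | succ m ih =>
      rw [succ_nsmul, succ_nsmul]
      exact ⟨hPadd _ _ ih.1 hd, by rw [hκadd _ _ ih.1 hd, ih.2]⟩
  have hsmul : ∀ (s : ZMod p) (d : Γ → ZMod p), P d → P (s • d) ∧ κ (s • d) = s • κ d := by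
    intro s d hd
    have h1 : s • d = s.val • d := by
      conv_lhs => rw [← ZMod.natCast_zmod_val s]
      rw [Nat.cast_smul_eq_nsmul]
    have h2 : s • κ d = s.val • κ d := by
      conv_lhs => rw [← ZMod.natCast_zmod_val s]
      rw [Nat.cast_smul_eq_nsmul]
    rw [h1, h2]
    exact hnat _ d hd
  -- finite sums
  have hsum : ∀ T : Finset (Fin n),
      P (∑ j ∈ T, r j • c j) ∧ κ (∑ j ∈ T, r j • c j) = ∑ j ∈ T, r j • κ (c j) := by
    intro T
    induction T using Finset.induction_on with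
    | empty => simpa using ⟨hP0, hκ0⟩
    | insert j T hj ih =>
      rw [Finset.sum_insert hj, Finset.sum_insert hj]
      have hj' := hsmul (r j) (c j) (hc j)
      exact ⟨hPadd _ _ hj'.1 ih.1, by rw [hκadd _ _ hj'.1 ih.1, hj'.2, ih.2]⟩
  exact hsum Finset.univ

/-- The eigen-identity passes from values to `F ⊗ V`. -/
theorem M4c_tensor_eigen
    (hP0 : P 0) (hPadd : ∀ c c', P c → P c' → P (c + c'))
    (hκadd : ∀ c c', P c → P c' → κ (c + c') = κ c + κ c')
    {n : ℕ} (w : Fin n → F) (c c' : Fin n → Γ → ZMod p)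
    (hc : ∀ j, P (c j)) (hc' : ∀ j, P (c' j)) (t : F)
    (hid : ∀ γ : Γ, ∑ j, w j * algebraMap (ZMod p) F (c' j γ)
      = t * ∑ j, w j * algebraMap (ZMod p) F (c j γ)) :
    (∑ j, w j ⊗ₜ[ℤ] κ (c' j) : F ⊗[ℤ] V) = t • ∑ j, w j ⊗ₜ[ℤ] κ (c j) := by
  classical
  let b := Module.Free.chooseBasis (ZMod p) F
  let S : Finset (Module.Free.ChooseBasisIndex (ZMod p) F) :=
    (Finset.univ.biUnion fun j => (b.repr (w j)).support) ∪
      (Finset.univ.biUnion fun j => (b.repr (t * w j)).support)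
  have hS1 : ∀ j, (b.repr (w j)).support ⊆ S := fun j =>
    (Finset.subset_biUnion_of_mem (fun j => (b.repr (w j)).support) (Finset.mem_univ j)).trans
      Finset.subset_union_left
  have hS2 : ∀ j, (b.repr (t * w j)).support ⊆ S := fun j =>
    (Finset.subset_biUnion_of_mem (fun j => (b.repr (t * w j)).support)
      (Finset.mem_univ j)).trans Finset.subset_union_right
  -- coordinate identity
  have hcoord : ∀ i, (∑ j, (b.repr (w j) i) • c' j) = ∑ j, (b.repr (t * w j) i) • c j := by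
    intro i
    funext γ
    have h := congrArg (fun f => b.repr f i) (hid γ)
    simp only [Finset.mul_sum] at h
    simp only [map_sum, Finsupp.coe_finset_sum, Finset.sum_apply] at h
    have e1 : ∀ j, b.repr (w j * algebraMap (ZMod p) F (c' j γ)) i
        = b.repr (w j) i * c' j γ := by
      intro j
      rw [mul_comm (w j), ← Algebra.smul_def, map_smul, Finsupp.smul_apply, smul_eq_mul,
        mul_comm]
    have e2 : ∀ j, b.repr (t * (w j * algebraMap (ZMod p) F (c j γ))) i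
        = b.repr (t * w j) i * c j γ := by
      intro j
      rw [← mul_assoc, mul_comm (t * w j), ← Algebra.smul_def, map_smul, Finsupp.smul_apply,
        smul_eq_mul, mul_comm]
    simp only [e1, e2] at h
    simpa [Finset.sum_apply, Pi.smul_apply, smul_eq_mul] using h
  -- expand both sides
  have hL : (∑ j, w j ⊗ₜ[ℤ] κ (c' j) : F ⊗[ℤ] V)
      = ∑ i ∈ S, b i ⊗ₜ[ℤ] κ (∑ j, (b.repr (w j) i) • c' j) := by
    have : ∀ j, w j ⊗ₜ[ℤ] κ (c' j) = ∑ i ∈ S, b i ⊗ₜ[ℤ] ((b.repr (w j) i) • κ (c' j)) :=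
      fun j => M4c_tmul_eq_sum b (w j) (κ (c' j)) S (hS1 j)
    simp only [this]
    rw [Finset.sum_comm]
    refine Finset.sum_congr rfl fun i _ => ?_
    rw [(M4c_kappa_sum P κ hP0 hPadd hκadd c' hc' fun j => b.repr (w j) i).2,
      TensorProduct.tmul_sum]
  have hR : (t • ∑ j, w j ⊗ₜ[ℤ] κ (c j) : F ⊗[ℤ] V)
      = ∑ i ∈ S, b i ⊗ₜ[ℤ] κ (∑ j, (b.repr (t * w j) i) • c j) := by
    rw [Finset.smul_sum]
    have : ∀ j, t • (w j ⊗ₜ[ℤ] κ (c j) : F ⊗[ℤ] V)
        = ∑ i ∈ S, b i ⊗ₜ[ℤ] ((b.repr (t * w j) i) • κ (c j)) := by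
      intro j
      rw [TensorProduct.smul_tmul', smul_eq_mul]
      exact M4c_tmul_eq_sum b (t * w j) (κ (c j)) S (hS2 j)
    simp only [this]
    rw [Finset.sum_comm]
    refine Finset.sum_congr rfl fun i _ => ?_
    rw [(M4c_kappa_sum P κ hP0 hPadd hκadd c hc fun j => b.repr (t * w j) i).2,
      TensorProduct.tmul_sum]
  rw [hL, hR]
  refine Finset.sum_congr rfl fun i _ => ?_
  rw [hcoord i]

/-- Non-vanishing of the eigenclass. -/
theorem M4c_tensor_ne_zero
    (hκinj : ∀ c, P c → κ c = 0 → c = 0)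
    {n : ℕ} (w : Fin n → F) (c : Fin n → Γ → ZMod p)
    (hw : LinearIndependent (ZMod p) w) (hc : ∀ j, P (c j)) (hc0 : ∃ j, c j ≠ 0) :
    (∑ j, w j ⊗ₜ[ℤ] κ (c j) : F ⊗[ℤ] V) ≠ 0 := by
  classical
  intro hx
  obtain ⟨j0, hj0⟩ := hc0
  apply hj0
  apply hκinj _ (hc j0)
  -- a left inverse of `r ↦ ∑ r j • w j`
  let W : (Fin n → ZMod p) →ₗ[ZMod p] F := Fintype.linearCombination (ZMod p) w
  have hWinj : Function.Injective W := by
    rw [injective_iff_map_eq_zero]
    intro r hr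
    have h0 := Fintype.linearIndependent_iff.1 hw r (by
      simpa [W, Fintype.linearCombination_apply] using hr)
    funext i
    exact h0 i
  obtain ⟨L, hL⟩ := W.exists_leftInverse_of_injective (LinearMap.ker_eq_bot.2 hWinj)
  have hLw : ∀ j, L (w j) = Pi.single j 1 := by
    intro j
    have h1 : W (Pi.single j 1) = w j := by
      simp [W, Fintype.linearCombination_apply, Pi.single_apply]
    rw [← h1]
    exact LinearMap.congr_fun hL (Pi.single j 1)
  -- the functional `f ⊗ v ↦ (L f j0) • v`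
  let β : F →+ V →+ V :=
    { toFun := fun f => DistribSMul.toAddMonoidHom V (L f j0)
      map_zero' := by
        ext v
        simp
      map_add' := fun f f' => by
        ext v
        simp [add_smul] }
  have hβ : ∀ (r : ℤ) (f : F) (v : V), β (r • f) v = β f (r • v) := by
    intro r f v
    show L (r • f) j0 • v = L f j0 • (r • v)
    rw [map_zsmul, Pi.smul_apply, smul_assoc, smul_comm]
  let Φ : F ⊗[ℤ] V →+ V := TensorProduct.liftAddHom β hβ
  have hΦt : ∀ (f : F) (v : V), Φ (f ⊗ₜ[ℤ] v) = L f j0 • v := fun f v => rfl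
  have hΦ : Φ (∑ j, w j ⊗ₜ[ℤ] κ (c j)) = κ (c j0) := by
    rw [map_sum]
    simp only [hΦt, hLw]
    rw [Finset.sum_eq_single j0]
    · simp
    · intro j _ hj
      simp [hj.symm]
    · intro h
      exact absurd (Finset.mem_univ j0) h
  rw [hx, map_zero] at hΦ
  exact hΦ.symm

end Abstract

section Final

variable (N : ℕ)

theorem M4c_isParHom_zero {A : Type*} [AddCommGroup A] : IsParHom (0 : G0 N → A) :=
  ⟨fun _ _ => by simp, fun _ _ => rfl, fun _ _ _ _ => rfl⟩

variable {N}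

theorem M4c_isParHom_add {A : Type*} [AddCommGroup A] {c c' : G0 N → A}
    (h : IsParHom c) (h' : IsParHom c') : IsParHom (c + c') :=
  ⟨fun γ γ' => by
      simp only [Pi.add_apply, h.map_mul, h'.map_mul]
      abel,
    fun γ hγ => by simp only [Pi.add_apply, h.parabolic γ hγ, h'.parabolic γ hγ, add_zero],
    fun γ n hn hγ => by
      simp only [Pi.add_apply, h.elliptic γ n hn hγ, h'.elliptic γ n hn hγ, add_zero]⟩

variable (N) [NeZero N]

/-- PIECE `M4c`, with the conclusions of `M4a` (`hA`), `M4b` (`hB`) and `HCoh` (`hH`) as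
hypotheses; `t ℓ` plays the role of `ψ (a ℓ)`.  The Skeleton statement `exists_eigenclass` is
`M4c_exists_eigenclass_of N hp (fun ℓ => ψ (a ℓ)) (fun _ _ => exists_eigen_parHom N hg ψ a ha)
  (fun _ => exists_kummerMap N p) (fun ℓ hℓ hℓN c hc => isParHom_heckeCoh N hℓ hℓN hc)`. -/
theorem M4c_exists_eigenclass_of {p : ℕ} (hp : p.Prime) {F : Type} [Field F] [CharP F p]
    (t : ℕ → F)
    (hA : ∀ (_ : Fact p.Prime) (_ : Algebra (ZMod p) F),
      ∃ (n : ℕ) (w : Fin n → F) (c : Fin n → G0 N → ZMod p),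
        LinearIndependent (ZMod p) w ∧ (∀ j, IsParHom (c j)) ∧ (∃ j, c j ≠ 0) ∧
        ∀ ℓ : ℕ, ℓ.Prime → ¬ ℓ ∣ N * p → ∀ γ : G0 N,
          ∑ j, w j * algebraMap (ZMod p) F (heckeCoh N ℓ (c j) γ)
            = t ℓ * ∑ j, w j * algebraMap (ZMod p) F (c j γ))
    (hB : ∀ (_ : Fact p.Prime),
      ∃ κ : (G0 N → ZMod p) → Jp N p,
        (∀ c c', IsParHom c → IsParHom c' → κ (c + c') = κ c + κ c') ∧
        (∀ c, IsParHom c → κ c = 0 → c = 0) ∧
        (∀ ℓ : Nat.Primes, ¬ (ℓ : ℕ) ∣ N * p → ∀ c, IsParHom c →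
          κ (heckeCoh N ℓ c) = heckeJp N p ℓ (κ c)))
    (hH : ∀ ℓ : ℕ, ℓ.Prime → ¬ ℓ ∣ N → ∀ c : G0 N → ZMod p, IsParHom c →
      IsParHom (heckeCoh N ℓ c)) :
    ∃ x : F ⊗[ℤ] Jp N p, x ≠ 0 ∧ ∀ ℓ : Nat.Primes, ¬ (ℓ : ℕ) ∣ N * p →
      (heckeJp N p ℓ).baseChange F x = t ℓ • x := by
  classical
  haveI hpF : Fact p.Prime := ⟨hp⟩
  letI : Algebra (ZMod p) F := ZMod.algebra F p
  letI : Module (ZMod p) (Jp N p) := AddCommGroup.zmodModule (n := p) (fun x => by
    have hx := x.2
    rw [Submodule.mem_torsionBy_iff] at hx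
    apply Subtype.ext
    have h2 : ((p • x : Jp N p) : JZero N) = (p : ℤ) • (x : JZero N) := by
      rw [natCast_zsmul]
      exact Submodule.coe_smul_of_tower p x
    rw [h2, hx]
    rfl)
  obtain ⟨n, w, c, hw, hc, hc0, hid⟩ := hA hpF inferInstance
  obtain ⟨κ, hκadd, hκinj, hκT⟩ := hB hpF
  refine ⟨∑ j, w j ⊗ₜ[ℤ] κ (c j),
    M4c_tensor_ne_zero (fun c : G0 N → ZMod p => IsParHom c) κ hκinj w c hw hc hc0, ?_⟩
  intro ℓ hℓ
  have hℓN : ¬ (ℓ : ℕ) ∣ N := fun h => hℓ (Dvd.dvd.mul_right h p)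
  have hc' : ∀ j, IsParHom (heckeCoh N ℓ (c j)) := fun j => hH ℓ ℓ.2 hℓN (c j) (hc j)
  rw [map_sum]
  simp only [LinearMap.baseChange_tmul]
  have h1 : ∀ j, heckeJp N p ℓ (κ (c j)) = κ (heckeCoh N ℓ (c j)) := fun j =>
    (hκT ℓ hℓ (c j) (hc j)).symm
  simp only [h1]
  exact M4c_tensor_eigen (fun c : G0 N → ZMod p => IsParHom c) κ (M4c_isParHom_zero N)
    (fun c c' h h' => M4c_isParHom_add h h') hκadd w c (fun j => heckeCoh N ℓ (c j)) hc hc'
    (t ℓ) (hid ℓ ℓ.2 hℓ)

end Final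

end Fermat.Agent.S29

end
end
-- ===== PACK-END S29/M4c.lean

-- ===== PACK-BEGIN S48/H796/PTransform.lean
section



/-!
# S48 / P2-EIS (helper796): transformation laws of `P`

* `Pfun_S` : `P(w/τ, -1/τ) = τ P(w, τ) + 2πi w`
* `Pfun_T` : `P(w, τ+1) = P(w, τ)`
* `Pfun_add_lat` : `P(w + mτ + n, τ) = P(w, τ) - 2πi m`
-/

set_option autoImplicit false

noncomputable section

namespace Fermat.Agent.S48.H796

open UpperHalfPlane hiding I
open Complex Filter Topology EisensteinSeries ModularGroup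
open scoped Real

theorem coe_S_smul (τ : ℍ) : ((S • τ : ℍ) : ℂ) = -1 / (τ : ℂ) := by
  rw [UpperHalfPlane.modular_S_smul]
  simp [neg_div, inv_neg]

theorem coe_T_smul (τ : ℍ) : ((T • τ : ℍ) : ℂ) = (τ : ℂ) + 1 := by
  rw [UpperHalfPlane.modular_T_smul]
  simp [add_comm]

lemma lat_S (τ : ℍ) (p : ℤ × ℤ) : lat (S • τ) p = lat τ (p.2, -p.1) / τ := by
  have hτ : (τ : ℂ) ≠ 0 := ne_zero τ
  simp only [lat, coe_S_smul, Int.cast_neg]
  field_simp
  ring

lemma zt_S (τ : ℍ) (w : ℂ) (p : ℤ × ℤ) :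
    zt (S • τ) (w / τ) p = τ * zt τ w (p.2, -p.1) := by
  have hτ : (τ : ℂ) ≠ 0 := ne_zero τ
  simp only [zt, lat_S]
  generalize lat τ (p.2, -p.1) = L
  rw [← add_div, one_div_div, one_div_div, div_pow, div_div_eq_mul_div, div_mul_eq_mul_div,
    div_div]
  have e : w * (τ : ℂ) ^ 2 / (τ * L ^ 2) = τ * (w / L ^ 2) := by
    rw [pow_two, mul_div_assoc, mul_div_mul_left _ _ hτ]
    ring
  rw [e]
  ring

/-- The rotation `(m, n) ↦ (n, -m)` of `ℤ²`. -/
def rotEquiv : ℤ × ℤ ≃ ℤ × ℤ where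
  toFun p := (p.2, -p.1)
  invFun p := (-p.2, p.1)
  left_inv p := by simp
  right_inv p := by simp

theorem zetaT_S (τ : ℍ) (w : ℂ) : zetaT (S • τ) (w / τ) = τ * zetaT τ w := by
  unfold zetaT
  simp_rw [zt_S]
  rw [tsum_mul_left]
  congr 1
  exact rotEquiv.tsum_eq (zt τ w)

lemma OffLattice.S {τ : ℍ} {w : ℂ} (h : OffLattice τ w) : OffLattice (S • τ) (w / τ) := by
  intro p
  rw [lat_S, ← add_div]
  exact div_ne_zero (h _) (ne_zero τ)

lemma G2_S (τ : ℍ) : G2 (S • τ) = (τ : ℂ) ^ 2 * G2 τ - 2 * π * I * τ := by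
  have h := G2_S_transform τ
  have hτ : (τ : ℂ) ≠ 0 := ne_zero τ
  have : G2 (S • τ) = (τ : ℂ) ^ 2 * (G2 τ + -2 * π * I / τ) := by
    rw [h]
    field_simp
    ring
  rw [this]
  field_simp
  ring

/-- **S-law** of `P`. -/
theorem Pfun_S {τ : ℍ} {w : ℂ} (h : OffLattice τ w) :
    Pfun (S • τ) (w / τ) = τ * Pfun τ w + 2 * π * I * w := by
  have h1 := zetaT_eq h
  have h2 := zetaT_eq h.S
  have h3 := zetaT_S τ w
  have hτ : (τ : ℂ) ≠ 0 := ne_zero τ
  rw [h1, h2, G2_S] at h3
  have e : w / (τ : ℂ) * ((τ : ℂ) ^ 2 * G2 τ - 2 * π * I * τ) = w * τ * G2 τ - 2 * π * I * w := by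
    field_simp
  rw [e] at h3
  linear_combination h3

lemma pairP_T (τ : ℍ) (w : ℂ) (k : ℕ) : pairP (T • τ) w k = pairP τ w k := by
  simp only [pairP, coe_T_smul]
  have e1 : w + ((k : ℂ) + 1) * ((τ : ℂ) + 1) = (w + ((k : ℂ) + 1) * τ) + ((k + 1 : ℕ) : ℤ) := by
    push_cast; ring
  have e2 : w - ((k : ℂ) + 1) * ((τ : ℂ) + 1) = (w - ((k : ℂ) + 1) * τ) - ((k + 1 : ℕ) : ℤ) := by
    push_cast; ring
  rw [e1, e2, cotPi_add_int, cotPi_sub_int]

/-- **T-law** of `P`. -/
theorem Pfun_T (τ : ℍ) (w : ℂ) : Pfun (T • τ) w = Pfun τ w := by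
  simp only [Pfun, pairP_T]

lemma pairP_add_int (τ : ℍ) (w : ℂ) (n : ℤ) (k : ℕ) : pairP τ (w + n) k = pairP τ w k := by
  simp only [pairP]
  have e1 : w + n + ((k : ℂ) + 1) * (τ : ℂ) = (w + ((k : ℂ) + 1) * τ) + n := by ring
  have e2 : w + n - ((k : ℂ) + 1) * (τ : ℂ) = (w - ((k : ℂ) + 1) * τ) + n := by ring
  rw [e1, e2, cotPi_add_int, cotPi_add_int]

theorem Pfun_add_int (τ : ℍ) (w : ℂ) (n : ℤ) : Pfun τ (w + n) = Pfun τ w := by
  simp only [Pfun, pairP_add_int, cotPi_add_int]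

lemma OffLattice.add_lat {τ : ℍ} {w : ℂ} (h : OffLattice τ w) (q : ℤ × ℤ) :
    OffLattice τ (w + lat τ q) := by
  intro p
  have := h (p + q)
  simp only [lat, Prod.fst_add, Prod.snd_add, Int.cast_add] at this ⊢
  intro h0
  apply this
  linear_combination h0

lemma OffLattice.of_add_lat {τ : ℍ} {w : ℂ} (q : ℤ × ℤ) (h : OffLattice τ (w + lat τ q)) :
    OffLattice τ w := by
  have := h.add_lat (-q)
  have e : w + lat τ q + lat τ (-q) = w := by
    simp only [lat, Prod.fst_neg, Prod.snd_neg, Int.cast_neg]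
    ring
  rwa [e] at this

theorem Pfun_add_tau {τ : ℍ} {w : ℂ} (h : OffLattice τ w) :
    Pfun τ (w + τ) = Pfun τ w - 2 * π * I := by
  have hτ : (τ : ℂ) ≠ 0 := ne_zero τ
  have h' : OffLattice τ (w + τ) := by
    have := h.add_lat (1, 0)
    simpa [lat] using this
  have h1 := Pfun_S h
  have h2 := Pfun_S h'
  have e : (w + (τ : ℂ)) / τ = w / τ + ((1 : ℤ) : ℂ) := by
    field_simp
    push_cast
    ring
  rw [e, Pfun_add_int, h1] at h2
  have h3 : (τ : ℂ) * (Pfun τ (w + τ) - (Pfun τ w - 2 * π * I)) = 0 := by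
    linear_combination -h2
  rcases mul_eq_zero.mp h3 with h4 | h4
  · exact absurd h4 hτ
  · exact sub_eq_zero.mp h4

theorem Pfun_add_mul_tau {τ : ℍ} {w : ℂ} (h : OffLattice τ w) (m : ℤ) :
    Pfun τ (w + m * τ) = Pfun τ w - 2 * π * I * m := by
  induction m using Int.induction_on with
  | zero => simp
  | succ i ih =>
    have h' : OffLattice τ (w + (i : ℂ) * τ) := by
      have := h.add_lat ((i : ℤ), 0)
      simpa [lat] using this
    have := Pfun_add_tau h'
    have e : w + ((i : ℤ) + 1 : ℤ) * (τ : ℂ) = w + (i : ℂ) * τ + τ := by push_cast; ring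
    rw [e, this]
    push_cast at ih ⊢
    rw [ih]
    ring
  | pred i ih =>
    have h' : OffLattice τ (w + ((-(i : ℤ) - 1 : ℤ) : ℂ) * τ) := by
      have := h.add_lat ((-(i : ℤ) - 1), 0)
      simpa [lat] using this
    have := Pfun_add_tau h'
    have e : w + ((-(i : ℤ) - 1 : ℤ) : ℂ) * (τ : ℂ) + τ = w + ((-(i : ℤ) : ℤ) : ℂ) * τ := by
      push_cast; ring
    rw [e, ih] at this
    push_cast at this ⊢
    linear_combination -this

theorem Pfun_add_lat {τ : ℍ} {w : ℂ} (h : OffLattice τ w) (m n : ℤ) :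
    Pfun τ (w + lat τ (m, n)) = Pfun τ w - 2 * π * I * m := by
  have e : w + lat τ (m, n) = (w + (m : ℂ) * τ) + n := by
    simp only [lat]; ring
  rw [e, Pfun_add_int, Pfun_add_mul_tau h]

end Fermat.Agent.S48.H796

end
end
-- ===== PACK-END S48/H796/PTransform.lean

-- ===== PACK-BEGIN S24/Deg/H457_Alg.lean
section




/-!
# S24 / DEG-ALG (helper457), part 3: the degree bound from relations over `ℂ`

Interface hypothesis `Hyp L N n` (to be proved analytically for `L = ℂ`, `n = |SL₂(ℤ)/Γ₀(N)|`):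
every element of the `L`-subalgebra of `L((q))` generated by the `j(q^d)`, `d ∣ N`, is a root of a
monic polynomial of degree `n` with coefficients in `L[j]`.

Main result: `finiteDimensional_and_finrank_le`.
-/

set_option autoImplicit false

noncomputable section

open Polynomial ModularCurve IntermediateField

namespace Fermat.Agent.S24.Deg457

section General

variable (K : Type*) [Field K] [Algebra ℚ K]

/-- `j` as a Laurent series over `K` -/
def JK : LaurentSeries K := coeffEmb K jq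

theorem JK_eq : JK K = jqModC K := by
  rw [JK, coeffEmb, ← jqModC_rat, coeffMap_jqModC]

theorem aeval_JK_ne_zero {t : K[X]} (ht : t ≠ 0) : aeval (JK K) t ≠ 0 := by
  intro hp
  rw [JK_eq] at hp
  set n := t.natDegree with hn
  have hcoeff : (aeval (jqModC K) t).coeff (-(n : ℤ)) = t.coeff n := by
    rw [aeval_def, eval₂_eq_sum_range, HahnSeries.coeff_sum, Finset.sum_eq_single n]
    · rw [algebraMap_laurentSeries_eq_single, HahnSeries.coeff_single_zero_mul,
        coeff_jqModC_pow_self, mul_one]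
    · intro i hi hin
      have hilt : i < n := lt_of_le_of_ne (Nat.lt_succ_iff.mp (Finset.mem_range.mp hi)) hin
      rw [algebraMap_laurentSeries_eq_single, HahnSeries.coeff_single_zero_mul,
        coeff_jqModC_pow_of_lt, mul_zero]
      omega
    · intro hn'
      exact absurd (Finset.self_mem_range_succ n) hn'
  rw [hp] at hcoeff
  simp only [HahnSeries.coeff_zero] at hcoeff
  exact ht (leadingCoeff_eq_zero.mp hcoeff.symm)

/-- the generators `j(q^d)`, `d ∣ N`, over `K` -/
def gens (N : ℕ) : Set (LaurentSeries K) := ⇑(coeffEmb K) '' divisorExpansions N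

/-- the `K`-algebra generated by the `j(q^d)` -/
def AK (N : ℕ) : Subalgebra K (LaurentSeries K) := Algebra.adjoin K (gens K N)

theorem JK_mem_gens (N : ℕ) : JK K ∈ gens K N := by
  refine ⟨jq, ?_, rfl⟩
  have := mem_divisorExpansions N (d := 1) (one_dvd N)
  rwa [qExpand_one_apply] at this

theorem JK_mem_AK (N : ℕ) : JK K ∈ AK K N := Algebra.subset_adjoin (JK_mem_gens K N)

theorem aeval_JK_mem_AK (N : ℕ) (t : K[X]) : aeval (JK K) t ∈ AK K N := by
  rw [aeval_def, eval₂_eq_sum_range]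
  refine Subalgebra.sum_mem _ fun i _ => ?_
  exact Subalgebra.mul_mem _ (Subalgebra.algebraMap_mem _ _)
    (Subalgebra.pow_mem _ (JK_mem_AK K N) _)

/-- The interface hypothesis. -/
def Hyp (N n : ℕ) : Prop :=
  ∀ b ∈ AK K N, ∃ P : K[X][X], P.Monic ∧ P.natDegree = n ∧ P.eval₂ (evJ (JK K)) b = 0

/-- `x` is a root of a nonzero polynomial of degree `≤ n` over `K[j]`. -/
def AlgDeg (n : ℕ) (x : LaurentSeries K) : Prop :=
  ∃ Q : K[X][X], Q ≠ 0 ∧ Q.natDegree ≤ n ∧ Q.eval₂ (evJ (JK K)) x = 0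

variable {K}

theorem eval₂_mem_AK {N : ℕ} (Q : K[X][X]) {s : LaurentSeries K} (hs : s ∈ AK K N) :
    Q.eval₂ (evJ (JK K)) s ∈ AK K N := by
  rw [eval₂_eq_sum_range]
  refine Subalgebra.sum_mem _ fun i _ => ?_
  exact Subalgebra.mul_mem _ (aeval_JK_mem_AK K N _) (Subalgebra.pow_mem _ hs _)

theorem AlgDeg.of_mul_eq {n : ℕ} {x a : LaurentSeries K} {t : K[X]} (ht : t ≠ 0)
    (hxa : x * aeval (JK K) t = a) (ha : AlgDeg K n a) : AlgDeg K n x := by
  obtain ⟨Q, hQ0, hQn, hQ⟩ := ha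
  have hlin : (C t * X : K[X][X]) ≠ C ((C t * X : K[X][X]).coeff 0) := by
    intro h
    have h1 := congrArg (fun p : K[X][X] => p.coeff 1) h
    simp only [coeff_C_mul, coeff_X_one, mul_one, coeff_X_zero, mul_zero, map_zero,
      coeff_zero] at h1
    exact ht h1
  refine ⟨Q.comp (C t * X), ?_, ?_, ?_⟩
  · intro h
    rcases (comp_eq_zero_iff.mp h) with h | ⟨_, h⟩
    · exact hQ0 h
    · exact hlin h
  · rw [natDegree_comp]
    have : (C t * X : K[X][X]).natDegree ≤ 1 := by
      refine (natDegree_C_mul_le _ _).trans ?_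
      exact natDegree_X_le
    calc Q.natDegree * (C t * X : K[X][X]).natDegree ≤ Q.natDegree * 1 :=
          Nat.mul_le_mul_left _ this
      _ = Q.natDegree := mul_one _
      _ ≤ n := hQn
  · rw [eval₂_comp, eval₂_mul, eval₂_C, eval₂_X, evJ_apply, mul_comm, hxa]
    exact hQ

/-- a nonzero algebraic element of `A` has an "inverse up to a polynomial in `j`" in `A`. -/
theorem exists_mul_eq_aeval {N n : ℕ} {s : LaurentSeries K} (hs : s ∈ AK K N) (hs0 : s ≠ 0)
    (ha : AlgDeg K n s) : ∃ g ∈ AK K N, ∃ t : K[X], t ≠ 0 ∧ s * g = aeval (JK K) t := by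
  obtain ⟨Q, hQ0, -, hQ⟩ := ha
  -- strong induction on the degree to reach a nonzero constant coefficient
  have key : ∀ m : ℕ, ∀ Q : K[X][X], Q.natDegree ≤ m → Q ≠ 0 → Q.eval₂ (evJ (JK K)) s = 0 →
      ∃ Q₁ : K[X][X], Q₁.coeff 0 ≠ 0 ∧ Q₁.eval₂ (evJ (JK K)) s = 0 := by
    intro m
    induction m with
    | zero =>
      intro Q hdeg hQ0 hQ
      refine ⟨Q, ?_, hQ⟩
      intro h0
      apply hQ0
      rw [eq_C_of_natDegree_le_zero hdeg, h0, map_zero]
    | succ m ih =>
      intro Q hdeg hQ0 hQ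
      by_cases h0 : Q.coeff 0 = 0
      · have hdiv : Q = divX Q * X := by
          conv_lhs => rw [← divX_mul_X_add Q, h0, map_zero, add_zero]
        have hd0 : divX Q ≠ 0 := by
          intro h; apply hQ0; rw [hdiv, h, zero_mul]
        have hev : (divX Q).eval₂ (evJ (JK K)) s = 0 := by
          rw [hdiv, eval₂_mul, eval₂_X] at hQ
          rcases mul_eq_zero.mp hQ with h | h
          · exact h
          · exact absurd h hs0
        refine ih (divX Q) ?_ hd0 hev
        rw [natDegree_divX_eq_natDegree_tsub_one]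
        omega
      · exact ⟨Q, h0, hQ⟩
  obtain ⟨Q₁, h0, hQ₁⟩ := key Q.natDegree Q le_rfl hQ0 hQ
  refine ⟨-(divX Q₁).eval₂ (evJ (JK K)) s, Subalgebra.neg_mem _ (eval₂_mem_AK _ hs),
    Q₁.coeff 0, h0, ?_⟩
  have hsplit : Q₁.eval₂ (evJ (JK K)) s
      = (divX Q₁).eval₂ (evJ (JK K)) s * s + aeval (JK K) (Q₁.coeff 0) := by
    conv_lhs => rw [← divX_mul_X_add Q₁]
    rw [eval₂_add, eval₂_mul, eval₂_X, eval₂_C, evJ_apply]
  rw [hQ₁] at hsplit
  linear_combination hsplit

end General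

section Descent

variable {K L : Type*} [Field K] [Algebra ℚ K] [Field L] [Algebra ℚ L]

theorem coeffMap_coeffEmb' (ι : K →+* L) (y : LaurentSeries ℚ) :
    coeffMap ι (coeffEmb K y) = coeffEmb L y := by
  rw [coeffEmb, coeffMap_coeffMap, coeffEmb]
  exact coeffMap_congr (Subsingleton.elim _ _) y

theorem coeffMap_JK (ι : K →+* L) : coeffMap ι (JK K) = JK L := coeffMap_coeffEmb' ι jq

theorem coeffMap_mem_AK (ι : K →+* L) {N : ℕ} {a : LaurentSeries K} (ha : a ∈ AK K N) :
    coeffMap ι a ∈ AK L N := by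
  unfold AK at ha
  induction ha using Algebra.adjoin_induction with
  | mem x hx =>
    obtain ⟨y, hy, rfl⟩ := hx
    rw [coeffMap_coeffEmb']
    exact Algebra.subset_adjoin ⟨y, hy, rfl⟩
  | algebraMap r =>
    rw [coeffMap_algebraMap']
    exact Subalgebra.algebraMap_mem _ _
  | add x y _ _ hx hy =>
    rw [map_add]; exact Subalgebra.add_mem _ hx hy
  | mul x y _ _ hx hy =>
    rw [map_mul]; exact Subalgebra.mul_mem _ hx hy

/-- Lemma B: elements of `A_K` are algebraic of degree `≤ n` over `K[j]`, given the hypothesis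
over the bigger field `L`. -/
theorem algDeg_of_mem_AK (ι : K →+* L) {N n : ℕ} (hyp : Hyp L N n) {a : LaurentSeries K}
    (ha : a ∈ AK K N) : AlgDeg K n a := by
  obtain ⟨P, hP, hn, h0⟩ := hyp _ (coeffMap_mem_AK ι ha)
  rw [← coeffMap_JK ι] at h0
  exact exists_relation_of_coeffMap_monic ι (JK K) a n P hP hn h0

end Descent

section Field

variable {K L : Type*} [Field K] [Algebra ℚ K] [Field L] [Algebra ℚ L]

theorem coeffEmb_mem_adjoin_gens (N : ℕ) {y : LaurentSeries ℚ}
    (hy : y ∈ IntermediateField.adjoin ℚ (divisorExpansions N)) :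
    coeffEmb K y ∈ IntermediateField.adjoin K (gens K N) := by
  refine IntermediateField.adjoin_induction ℚ
    (p := fun y _ => coeffEmb K y ∈ IntermediateField.adjoin K (gens K N)) ?_ ?_ ?_ ?_ ?_ hy
  · intro x hx
    exact IntermediateField.subset_adjoin K _ ⟨x, hx, rfl⟩
  · intro c
    have : coeffEmb K (algebraMap ℚ (LaurentSeries ℚ) c)
        = algebraMap K (LaurentSeries K) (algebraMap ℚ K c) := by
      rw [coeffEmb, coeffMap_algebraMap']
    rw [this]
    exact IntermediateField.algebraMap_mem _ _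
  · intro x y _ _ hx hy
    rw [map_add]; exact add_mem hx hy
  · intro x _ hx
    rw [map_inv₀]; exact inv_mem hx
  · intro x y _ _ hx hy
    rw [map_mul]; exact mul_mem hx hy

/-- the base-changed function field is generated over `K` by the `j(q^d)`. -/
theorem laurentBaseChange_full_le (N : ℕ) :
    laurentBaseChange K (modularFunctionFieldFull N) ≤ IntermediateField.adjoin K (gens K N) := by
  rw [laurentBaseChange, IntermediateField.adjoin_le_iff]
  rintro _ ⟨y, hy, rfl⟩
  exact coeffEmb_mem_adjoin_gens N hy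

/-- Lemma H: every element of the function field is algebraic of degree `≤ n` over `K[j]`. -/
theorem algDeg_of_mem_field (ι : K →+* L) {N n : ℕ} (hyp : Hyp L N n) {x : LaurentSeries K}
    (hx : x ∈ laurentBaseChange K (modularFunctionFieldFull N)) : AlgDeg K n x := by
  have hx' := laurentBaseChange_full_le (K := K) N hx
  rw [IntermediateField.mem_adjoin_iff_div] at hx'
  obtain ⟨r, hr, s, hs, rfl⟩ := hx'
  have hr' : r ∈ AK K N := hr
  have hs' : s ∈ AK K N := hs
  by_cases hs0 : s = 0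
  · subst hs0
    rw [div_zero]
    exact algDeg_of_mem_AK ι hyp (Subalgebra.zero_mem _)
  · obtain ⟨g, hg, t, ht, hst⟩ := exists_mul_eq_aeval hs' hs0 (algDeg_of_mem_AK ι hyp hs')
    refine AlgDeg.of_mul_eq (a := r * g) ht ?_ (algDeg_of_mem_AK ι hyp (Subalgebra.mul_mem _ hr' hg))
    rw [← hst]
    field_simp

end Field

end Fermat.Agent.S24.Deg457

end
end
-- ===== PACK-END S24/Deg/H457_Alg.lean

-- ===== PACK-BEGIN S24/FFFinite.lean
section




/-!
# S24 / FF layer: change of coordinate, residue degree one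

Embedding-free algebraic core (helper804).
-/

set_option autoImplicit false

namespace Fermat.Agent.S24.FF

open AlgebraicCurve Polynomial IntermediateField

variable {K F : Type*} [Field K] [Field F] [Algebra K F]

/-- Exchange: if `F` is finite over `K(x)` and `y` is transcendental, then `F` is finite over
`K(y)`.  (Intrinsic version of Mathlib's `finiteDimensional_of_adjoin_transcendental`.) -/
theorem finiteDimensional_adjoin_of_transcendental {x y : F} (hx : Transcendental K x)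
    (hy : Transcendental K y) [hfin : FiniteDimensional K⟮x⟯ F] : FiniteDimensional K⟮y⟯ F := by
  have halg : Algebra.IsAlgebraic K⟮x⟯ F := Algebra.IsAlgebraic.of_finite _ _
  have hxy : IsAlgebraic K⟮y⟯ x :=
    isAlgebraic_adjoin_iff.mpr
      (IsAlgebraic.adjoin_singleton hx hy (isAlgebraic_adjoin_iff.mp (halg.isAlgebraic y)))
  let Fyx := restrictScalars K K⟮y⟯⟮x⟯
  let Fxy := restrictScalars K K⟮x⟯⟮y⟯
  let : Algebra K⟮y⟯ Fyx := K⟮y⟯⟮x⟯.algebra
  let : Module K⟮y⟯ Fyx := Algebra.toModule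
  let : SMul K⟮y⟯ Fyx := Algebra.toSMul
  let : Algebra K⟮x⟯ Fxy := K⟮x⟯⟮y⟯.algebra
  let : Module K⟮x⟯ Fxy := Algebra.toModule
  let : SMul K⟮x⟯ Fxy := Algebra.toSMul
  have : FiniteDimensional K⟮y⟯ Fyx :=
    adjoin.finiteDimensional (isAlgebraic_iff_isIntegral.mp hxy)
  have : FiniteDimensional Fyx F := by
    unfold Fyx
    rw [adjoin_simple_comm]
    have : IsScalarTower K⟮x⟯ Fxy F := isScalarTower_mid' K⟮x⟯⟮y⟯
    exact .right K⟮x⟯ Fxy F
  have : IsScalarTower K⟮y⟯ Fyx F := isScalarTower_mid' K⟮y⟯⟮x⟯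
  exact .trans K⟮y⟯ Fyx F

/-- In an algebraically closed field `K ⊆ F`, an element of `F` algebraic over `K` is a
constant. -/
theorem mem_range_of_isAlgebraic [IsAlgClosed K] {f : F} (hf : IsAlgebraic K f) :
    f ∈ (algebraMap K F).range := by
  have hint : IsIntegral K f := hf.isIntegral
  exact minpoly.mem_range_of_degree_eq_one K f
    (IsAlgClosed.degree_eq_one_of_irreducible K (minpoly.irreducible hint))

/-- Non-constants are transcendental (for `K` algebraically closed). -/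
theorem transcendental_of_not_mem_range [IsAlgClosed K] {f : F}
    (hf : f ∉ (algebraMap K F).range) : Transcendental K f :=
  fun h => hf (mem_range_of_isAlgebraic h)

/-- Every element integral at `v` is congruent to a constant modulo the maximal ideal. -/
theorem exists_const_sub_mem_nonunits [IsAlgClosed K] (v : Place K F) {x : F}
    (hx : Transcendental K x) [FiniteDimensional K⟮x⟯ F] {f : F}
    (hf : f ∈ v.toValuationSubring) :
    ∃ a : K, f - algebraMap K F a ∈ v.toValuationSubring.nonunits := by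
  by_cases hfK : f ∈ (algebraMap K F).range
  · obtain ⟨a, rfl⟩ := hfK
    refine ⟨a, ?_⟩
    rw [sub_self]
    exact (ValuationSubring.mem_nonunits_iff _).mpr (by simp)
  · have hft := transcendental_of_not_mem_range hfK
    have : FiniteDimensional K⟮f⟯ F := finiteDimensional_adjoin_of_transcendental hx hft
    have halg : Algebra.IsAlgebraic K⟮f⟯ F := Algebra.IsAlgebraic.of_finite _ _
    obtain ⟨a, ha⟩ := exists_ord_sub_pos v f (ord_nonneg_of_mem v hf)
    refine ⟨a, (ord_pos_iff_mem_nonunits v ?_).mp ha⟩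
    intro h0
    rw [h0, v.ord_zero] at ha
    exact lt_irrefl _ ha

end Fermat.Agent.S24.FF

namespace Fermat.Agent.S24.FF

open AlgebraicCurve Polynomial IntermediateField

variable {K F : Type*} [Field K] [Field F] [Algebra K F]

/-- **FF2.** Over an algebraically closed constant field every place of a function field of
one variable has degree one. -/
theorem deg_eq_one [IsAlgClosed K] (v : Place K F) {x : F}
    (hx : Transcendental K x) [FiniteDimensional K⟮x⟯ F] : v.deg = 1 := by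
  have hsurj : Function.Surjective (algebraMap K v.ResidueField) := by
    intro c
    obtain ⟨f, rfl⟩ := IsLocalRing.residue_surjective c
    obtain ⟨a, ha⟩ := exists_const_sub_mem_nonunits v hx f.2
    refine ⟨a, ?_⟩
    have hmem : f - algebraMap K v.toValuationSubring a ∈
        IsLocalRing.maximalIdeal v.toValuationSubring := by
      rw [← ValuationSubring.coe_mem_nonunits_iff]
      exact ha
    have h0 := (IsLocalRing.residue_eq_zero_iff _).mpr hmem
    rw [map_sub, sub_eq_zero] at h0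
    rw [h0]
    rfl
  have hbij : Function.Bijective (algebraMap K v.ResidueField) :=
    ⟨(algebraMap K v.ResidueField).injective, hsurj⟩
  show Module.finrank K v.ResidueField = 1
  rw [← Module.finrank_self K]
  exact ((AlgEquiv.ofBijective (Algebra.ofId K v.ResidueField) hbij).toLinearEquiv.finrank_eq).symm

end Fermat.Agent.S24.FF

end
-- ===== PACK-END S24/FFFinite.lean

-- ===== PACK-BEGIN S24/H117/PlaceBasic.lean
section


/-!
# S24 / H117 — basic API for `AlgebraicCurve.Place.ord`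

Elementary facts about the order function of a place (membership, ultrametric inequality,
constants), re-proved here because the Prelude versions are private.
-/

set_option autoImplicit false

noncomputable section

open AlgebraicCurve

namespace Fermat.Agent.S24.H117

variable {K F : Type*} [Field K] [Field F] [Algebra K F] (v : Place K F)

theorem ord_nonneg_of_mem {f : F} (hf : f ∈ v.toValuationSubring) : 0 ≤ v.ord f := by
  rcases eq_or_ne f 0 with rfl | hf0
  · simp
  obtain ⟨π, hπ⟩ := IsDiscreteValuationRing.exists_irreducible v.toValuationSubring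
  obtain ⟨n, u, hu⟩ :=
    IsDiscreteValuationRing.eq_unit_mul_pow_irreducible
      (x := (⟨f, hf⟩ : v.toValuationSubring)) (by simpa [Subtype.ext_iff] using hf0) hπ
  have hcoe : f = ((u : v.toValuationSubring) : F) * ((π : F) ^ (n : ℤ)) := by
    have h := congrArg (Subtype.val) hu
    push_cast at h
    rw [zpow_natCast]
    exact h
  rw [hcoe, v.ord_unit_smul_zpow u hπ (n : ℤ)]
  exact Int.natCast_nonneg n

theorem mem_of_ord_nonneg {f : F} (h : 0 ≤ v.ord f) : f ∈ v.toValuationSubring := by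
  rcases eq_or_ne f 0 with rfl | hf
  · exact zero_mem _
  obtain ⟨π, hπ⟩ := IsDiscreteValuationRing.exists_irreducible v.toValuationSubring
  obtain ⟨u, hu⟩ := v.exists_unit_mul_zpow hf hπ
  rw [hu, show v.ord f = (((v.ord f).toNat : ℕ) : ℤ) from (Int.toNat_of_nonneg h).symm,
    zpow_natCast]
  exact mul_mem (u : v.toValuationSubring).2 (pow_mem (π : v.toValuationSubring).2 _)

theorem mem_iff_ord_nonneg {f : F} : f ∈ v.toValuationSubring ↔ 0 ≤ v.ord f :=
  ⟨ord_nonneg_of_mem v, mem_of_ord_nonneg v⟩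

theorem exists_ord_eq_one : ∃ π : F, π ≠ 0 ∧ v.ord π = 1 := by
  obtain ⟨π, hπ⟩ := IsDiscreteValuationRing.exists_irreducible v.toValuationSubring
  refine ⟨(π : F), ?_, v.ord_coe_irreducible hπ⟩
  simpa [ne_eq, ZeroMemClass.coe_eq_zero] using hπ.ne_zero

theorem ord_algebraMap (c : K) : v.ord (algebraMap K F c) = 0 := by
  rcases eq_or_ne c 0 with rfl | hc
  · simp
  have h1 : 0 ≤ v.ord (algebraMap K F c) := ord_nonneg_of_mem v (v.algebraMap_mem' c)
  have h2 : 0 ≤ v.ord (algebraMap K F c⁻¹) := ord_nonneg_of_mem v (v.algebraMap_mem' c⁻¹)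
  rw [map_inv₀, v.ord_inv] at h2
  omega

theorem ord_neg (f : F) : v.ord (-f) = v.ord f := by
  simp [Place.ord, Valuation.map_neg]

theorem ord_add_ge {f g : F} (hfg : f + g ≠ 0) : min (v.ord f) (v.ord g) ≤ v.ord (f + g) := by
  rcases eq_or_ne f 0 with rfl | hf
  · simp
  rcases eq_or_ne g 0 with rfl | hg
  · simp
  -- wlog ord f ≤ ord g
  wlog hle : v.ord f ≤ v.ord g generalizing f g
  · have := this (f := g) (g := f) (by rwa [add_comm]) hg hf (le_of_not_ge hle)
    rwa [min_comm, add_comm]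
  rw [min_eq_left hle]
  have hq : g / f ∈ v.toValuationSubring := by
    apply mem_of_ord_nonneg
    rw [div_eq_mul_inv, v.ord_mul hg (inv_ne_zero hf), v.ord_inv]
    omega
  have h1 : (1 + g / f) ∈ v.toValuationSubring := add_mem (one_mem _) hq
  have h1ne : (1 + g / f) ≠ 0 := by
    intro h0
    apply hfg
    have : f * (1 + g / f) = f + g := by field_simp
    rw [← this, h0, mul_zero]
  have : f + g = f * (1 + g / f) := by field_simp
  rw [this, v.ord_mul hf h1ne]
  have := ord_nonneg_of_mem v h1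
  omega

theorem ord_add_eq_of_lt {f g : F} (h : v.ord f < v.ord g) (hf : f ≠ 0) :
    v.ord (f + g) = v.ord f := by
  rcases eq_or_ne g 0 with rfl | hg
  · simp
  have hfg : f + g ≠ 0 := by
    intro h0
    have : g = -f := eq_neg_of_add_eq_zero_right h0
    rw [this, _root_.Fermat.Agent.S24.H117.ord_neg] at h
    exact lt_irrefl _ h
  apply le_antisymm
  · by_contra hlt
    push Not at hlt
    have h2 : min (v.ord (f + g)) (v.ord (-g)) ≤ v.ord ((f + g) + -g) :=
      ord_add_ge v (by simpa using hf)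
    rw [add_neg_cancel_right, _root_.Fermat.Agent.S24.H117.ord_neg] at h2
    have : v.ord f < min (v.ord (f + g)) (v.ord g) := lt_min hlt h
    omega
  · have := ord_add_ge v hfg
    rwa [min_eq_left h.le] at this

theorem ord_pow (f : F) (n : ℕ) : v.ord (f ^ n) = n * v.ord f := by
  have := v.ord_zpow f (n : ℤ)
  rwa [zpow_natCast] at this

theorem ord_div {f g : F} (hf : f ≠ 0) (hg : g ≠ 0) : v.ord (f / g) = v.ord f - v.ord g := by
  rw [div_eq_mul_inv, v.ord_mul hf (inv_ne_zero hg), v.ord_inv]; ring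

theorem ne_zero_of_ord_ne_zero {f : F} (h : v.ord f ≠ 0) : f ≠ 0 := by
  rintro rfl
  exact h v.ord_zero

/-- Two places with the same non-negative-order elements are equal. -/
theorem place_ext_of_le {v w : Place K F}
    (h : ∀ f : F, 0 ≤ v.ord f → 0 ≤ w.ord f) : v = w := by
  apply Place.ext
  have hle : v.toValuationSubring ≤ w.toValuationSubring := fun f hf =>
    mem_of_ord_nonneg w (h f (ord_nonneg_of_mem v hf))
  refine le_antisymm hle ?_
  intro f hf
  by_contra hfv
  have hf0 : f ≠ 0 := fun h0 => hfv (h0 ▸ zero_mem _)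
  have hvf : v.ord f < 0 := by
    by_contra hge
    exact hfv (mem_of_ord_nonneg v (not_lt.mp hge))
  -- then `f⁻¹` has positive order at `v`, and every element is `u * (f⁻¹)^n`-bounded
  obtain ⟨g, hg0, hg⟩ : ∃ g : F, g ≠ 0 ∧ w.ord g < 0 := by
    by_contra hcon
    push Not at hcon
    apply w.ne_top'
    refine SetLike.ext fun x => ⟨fun _ => ValuationSubring.mem_top x, fun _ => ?_⟩
    rcases eq_or_ne x 0 with rfl | hx
    · exact zero_mem _
    · exact mem_of_ord_nonneg w (hcon x hx)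
  -- choose n with ord_v (g * f⁻¹ ^ n) ≥ 0
  have hfinv : 0 < v.ord f⁻¹ := by rw [v.ord_inv]; omega
  obtain ⟨n, hn⟩ : ∃ n : ℕ, 0 ≤ v.ord (g * f⁻¹ ^ n) := by
    refine ⟨(-v.ord g).toNat, ?_⟩
    rw [v.ord_mul hg0 (pow_ne_zero _ (inv_ne_zero hf0)), ord_pow]
    have : (0:ℤ) ≤ ((-v.ord g).toNat : ℤ) := Int.natCast_nonneg _
    have h2 : -v.ord g ≤ ((-v.ord g).toNat : ℤ) := Int.self_le_toNat _
    nlinarith
  have hw := h _ hn
  rw [w.ord_mul hg0 (pow_ne_zero _ (inv_ne_zero hf0)), ord_pow, w.ord_inv] at hw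
  have hwf : 0 ≤ w.ord f := ord_nonneg_of_mem w hf
  have : (n : ℤ) * -w.ord f ≤ 0 := by
    have : (0:ℤ) ≤ n := Int.natCast_nonneg _
    nlinarith
  omega

end Fermat.Agent.S24.H117

end
end
-- ===== PACK-END S24/H117/PlaceBasic.lean

-- ===== PACK-BEGIN S24/H117/EmbPlace.lean
section


/-!
# S24 / H117 — the place induced by an embedding into Laurent series (LT1)

For a ring homomorphism `σ : F →+* LaurentSeries C` which is "constant on `K`" and nontrivial
(some element has nonzero order), `{f | 0 ≤ (σ f).order}` is a discrete valuation ring of `F`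
containing `K`, i.e. a `Place K F`, and `(σ f).order = k * v.ord f` for a fixed `k > 0`.
-/

set_option autoImplicit false

noncomputable section

open AlgebraicCurve

namespace Fermat.Agent.S24.H117

variable {K F : Type*} [Field K] [Field F] [Algebra K F]
variable {C : Type*} [Field C]

section Laurent

theorem order_inv' (g : LaurentSeries C) : (g⁻¹).order = -g.order := by
  rcases eq_or_ne g 0 with rfl | hg
  · simp
  have h := HahnSeries.order_mul hg (inv_ne_zero hg)
  rw [mul_inv_cancel₀ hg, HahnSeries.order_one] at h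
  omega

theorem order_add_ge' {g h : LaurentSeries C} (hg : 0 ≤ g.order) (hh : 0 ≤ h.order) :
    0 ≤ (g + h).order := by
  rcases eq_or_ne (g + h) 0 with h0 | h0
  · rw [h0, HahnSeries.order_zero]
  · exact le_trans (le_min hg hh) (HahnSeries.min_order_le_order_add h0)

/-- The valuation subring of `C((z))` of series of non-negative order. -/
def OL (C : Type*) [Field C] : ValuationSubring (LaurentSeries C) where
  carrier := {g | 0 ≤ g.order}
  mul_mem' := by
    intro a b ha hb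
    simp only [Set.mem_ofPred_eq] at ha hb ⊢
    rcases eq_or_ne a 0 with rfl | ha0
    · simp
    rcases eq_or_ne b 0 with rfl | hb0
    · simp
    rw [HahnSeries.order_mul ha0 hb0]
    omega
  one_mem' := by simp
  add_mem' := by
    intro a b ha hb
    exact order_add_ge' ha hb
  zero_mem' := by simp
  neg_mem' := by
    intro a ha
    simp only [Set.mem_ofPred_eq] at ha ⊢
    rwa [HahnSeries.order_neg]
  mem_or_inv_mem' := by
    intro a
    simp only [Set.mem_ofPred_eq]
    rw [order_inv']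
    omega

@[simp]
theorem mem_OL {g : LaurentSeries C} : g ∈ OL C ↔ 0 ≤ g.order := Iff.rfl

end Laurent

section Emb

variable (σ : F →+* LaurentSeries C)

/-- The order function of an embedding. -/
def eord (f : F) : ℤ := (σ f).order

@[simp] theorem eord_zero : eord σ 0 = 0 := by simp [eord]

@[simp] theorem eord_one : eord σ 1 = 0 := by simp [eord]

theorem eord_mul {f g : F} (hf : f ≠ 0) (hg : g ≠ 0) :
    eord σ (f * g) = eord σ f + eord σ g := by
  simp only [eord, map_mul]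
  exact HahnSeries.order_mul ((map_ne_zero σ).mpr hf) ((map_ne_zero σ).mpr hg)

theorem eord_inv (f : F) : eord σ f⁻¹ = -eord σ f := by
  simp only [eord, map_inv₀]
  exact order_inv' _

theorem eord_pow (f : F) (n : ℕ) : eord σ (f ^ n) = n * eord σ f := by
  simp only [eord, map_pow, HahnSeries.order_pow, nsmul_eq_mul]

theorem eord_zpow (f : F) (n : ℤ) : eord σ (f ^ n) = n * eord σ f := by
  cases n with
  | ofNat n => simpa using eord_pow σ f n
  | negSucc n =>
    rw [zpow_negSucc, eord_inv, eord_pow]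
    simp only [Int.negSucc_eq]
    push_cast
    ring

theorem eord_neg (f : F) : eord σ (-f) = eord σ f := by
  simp only [eord, map_neg, HahnSeries.order_neg]

theorem eord_add_ge {f g : F} (hfg : f + g ≠ 0) :
    min (eord σ f) (eord σ g) ≤ eord σ (f + g) := by
  simp only [eord, map_add]
  apply HahnSeries.min_order_le_order_add
  rw [← map_add]
  exact (map_ne_zero σ).mpr hfg

/-- The valuation subring of `F` induced by `σ`. -/
def embRing : ValuationSubring F := (OL C).comap σ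

@[simp]
theorem mem_embRing {f : F} : f ∈ embRing σ ↔ 0 ≤ eord σ f := Iff.rfl

theorem coe_ne_zero_embRing {a : embRing σ} (ha : a ≠ 0) : (a : F) ≠ 0 :=
  fun h => ha (Subtype.ext h)

theorem isUnit_embRing_iff {a : embRing σ} (ha : a ≠ 0) : IsUnit a ↔ eord σ (a : F) = 0 := by
  have ha0 : (a : F) ≠ 0 := coe_ne_zero_embRing σ ha
  constructor
  · intro h
    obtain ⟨b, hb⟩ := isUnit_iff_exists_inv.mp h
    have hb' : (a : F) * (b : F) = 1 := congrArg Subtype.val hb
    have hbne : (b : F) ≠ 0 := by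
      intro h0
      rw [h0, mul_zero] at hb'
      exact zero_ne_one hb'
    have hsum := eord_mul σ ha0 hbne
    rw [hb', eord_one] at hsum
    have h1 : 0 ≤ eord σ (a : F) := a.2
    have h2 : 0 ≤ eord σ (b : F) := b.2
    omega
  · intro h0
    have hinv : (a : F)⁻¹ ∈ embRing σ := by
      rw [mem_embRing, eord_inv]; omega
    exact ⟨⟨a, ⟨(a : F)⁻¹, hinv⟩, Subtype.ext (mul_inv_cancel₀ ha0),
      Subtype.ext (inv_mul_cancel₀ ha0)⟩, rfl⟩

/-- If some element has nonzero order, then `embRing σ` is a discrete valuation ring: there is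
an element `π` of minimal positive order `k`, and every order is a multiple of `k`. -/
theorem exists_min_pos (hnt : ∃ t : F, eord σ t ≠ 0) :
    ∃ (k : ℕ) (π : F), 0 < k ∧ π ≠ 0 ∧ eord σ π = k ∧ ∀ f : F, (k : ℤ) ∣ eord σ f := by
  classical
  obtain ⟨t, ht⟩ := hnt
  have hex : ∃ n : ℕ, 0 < n ∧ ∃ f : F, eord σ f = n := by
    rcases lt_or_gt_of_ne ht with h | h
    · refine ⟨(eord σ t⁻¹).toNat, ?_, t⁻¹, ?_⟩
      · rw [eord_inv]; omega
      · rw [eord_inv]; omega
    · exact ⟨(eord σ t).toNat, by omega, t, by omega⟩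
  let k := Nat.find hex
  obtain ⟨hk0, π, hπ⟩ := Nat.find_spec hex
  have hmin : ∀ n : ℕ, 0 < n → (∃ f : F, eord σ f = n) → k ≤ n := fun n hn hf =>
    Nat.find_min' hex ⟨hn, hf⟩
  have hπ0 : π ≠ 0 := by
    rintro rfl
    rw [eord_zero] at hπ
    have : (k : ℤ) = 0 := hπ.symm
    have hk0' : 0 < k := hk0
    omega
  refine ⟨k, π, hk0, hπ0, hπ, fun f => ?_⟩
  rcases eq_or_ne f 0 with rfl | hf
  · simp
  -- division with remainder
  set q := eord σ f / (k : ℤ) with hq
  set r := eord σ f % (k : ℤ) with hr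
  have hk0' : (0 : ℤ) < k := by exact_mod_cast hk0
  have hr0 : 0 ≤ r := Int.emod_nonneg _ hk0'.ne'
  have hrk : r < k := Int.emod_lt_of_pos _ hk0'
  have hdecomp : eord σ f = k * q + r := (Int.mul_ediv_add_emod _ _).symm
  have hg : eord σ (f * π ^ (-q)) = r := by
    rw [eord_mul σ hf (zpow_ne_zero _ hπ0), eord_zpow, hπ, hdecomp]
    ring
  by_cases hr' : r = 0
  · exact Int.dvd_of_emod_eq_zero hr'
  · exfalso
    have := hmin r.toNat (by omega) ⟨_, by rw [hg]; omega⟩
    have hk0'' : 0 < k := hk0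
    omega

theorem isDiscreteValuationRing_embRing (hnt : ∃ t : F, eord σ t ≠ 0) :
    IsDiscreteValuationRing (embRing σ) := by
  obtain ⟨k, π, hk0, hπ0, hπ, hdvd⟩ := exists_min_pos σ hnt
  have hπmem : π ∈ embRing σ := by rw [mem_embRing, hπ]; positivity
  have hk0' : (0 : ℤ) < k := by exact_mod_cast hk0
  apply IsDiscreteValuationRing.ofHasUnitMulPowIrreducibleFactorization
  refine ⟨⟨π, hπmem⟩, ?_, ?_⟩
  · -- irreducible
    have hπne : (⟨π, hπmem⟩ : embRing σ) ≠ 0 := fun h => hπ0 (congrArg Subtype.val h)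
    refine ⟨fun hu => ?_, fun a b hab => ?_⟩
    · have := (isUnit_embRing_iff σ hπne).mp hu
      simp only at this
      omega
    · have hab' : π = (a : F) * (b : F) := congrArg Subtype.val hab
      have ha0 : a ≠ 0 := by
        rintro rfl
        apply hπ0
        simpa using hab'
      have hb0 : b ≠ 0 := by
        rintro rfl
        apply hπ0
        simpa using hab'
      have ha0' : (a : F) ≠ 0 := coe_ne_zero_embRing σ ha0
      have hb0' : (b : F) ≠ 0 := coe_ne_zero_embRing σ hb0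
      have hsum := eord_mul σ ha0' hb0'
      rw [← hab', hπ] at hsum
      obtain ⟨ca, hca⟩ := hdvd (a : F)
      obtain ⟨cb, hcb⟩ := hdvd (b : F)
      have h1 : 0 ≤ eord σ (a : F) := a.2
      have h2 : 0 ≤ eord σ (b : F) := b.2
      rw [isUnit_embRing_iff σ ha0, isUnit_embRing_iff σ hb0]
      have hca0 : 0 ≤ ca := by
        by_contra hneg
        push Not at hneg
        rw [hca] at h1
        nlinarith
      have hcb0 : 0 ≤ cb := by
        by_contra hneg
        push Not at hneg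
        rw [hcb] at h2
        nlinarith
      have hsum' : (k : ℤ) * (ca + cb) = k * 1 := by rw [hca, hcb] at hsum; linarith
      have h3 : ca + cb = 1 := mul_left_cancel₀ hk0'.ne' hsum'
      rcases (show ca = 0 ∨ cb = 0 by omega) with h | h
      · left; rw [hca, h, mul_zero]
      · right; rw [hcb, h, mul_zero]
  · intro x hx
    have hx0 : (x : F) ≠ 0 := coe_ne_zero_embRing σ hx
    obtain ⟨c, hc⟩ := hdvd (x : F)
    have hxnn : 0 ≤ eord σ (x : F) := x.2
    have hc0 : 0 ≤ c := by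
      by_contra hneg
      push Not at hneg
      rw [hc] at hxnn
      nlinarith
    refine ⟨c.toNat, ?_⟩
    have hu : eord σ ((x : F) * (π ^ c.toNat)⁻¹) = 0 := by
      rw [eord_mul σ hx0 (inv_ne_zero (pow_ne_zero _ hπ0)), eord_inv, eord_pow, hπ, hc]
      have : ((c.toNat : ℕ) : ℤ) = c := Int.toNat_of_nonneg hc0
      rw [this]; ring
    have hmem : (x : F) * (π ^ c.toNat)⁻¹ ∈ embRing σ := by
      rw [mem_embRing, hu]
    have hne : (⟨_, hmem⟩ : embRing σ) ≠ 0 := fun h =>
      (mul_ne_zero hx0 (inv_ne_zero (pow_ne_zero _ hπ0))) (congrArg Subtype.val h)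
    have hunit : IsUnit (⟨_, hmem⟩ : embRing σ) := (isUnit_embRing_iff σ hne).mpr hu
    refine ⟨hunit.unit, ?_⟩
    apply Subtype.ext
    have hπpow : π ^ c.toNat ≠ 0 := pow_ne_zero _ hπ0
    show π ^ c.toNat * ((x : F) * (π ^ c.toNat)⁻¹) = (x : F)
    field_simp

/-- The place of `F/K` induced by an embedding `σ : F → C((z))` which has non-negative order on
the constants and is nontrivial. -/
def placeOfEmb (hK : ∀ c : K, 0 ≤ eord σ (algebraMap K F c)) (hnt : ∃ t : F, eord σ t ≠ 0) :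
    Place K F where
  toValuationSubring := embRing σ
  algebraMap_mem' := hK
  ne_top' := by
    obtain ⟨t, ht⟩ := hnt
    intro htop
    have h1 : t ∈ embRing σ := htop ▸ ValuationSubring.mem_top t
    have h2 : t⁻¹ ∈ embRing σ := htop ▸ ValuationSubring.mem_top t⁻¹
    rw [mem_embRing] at h1 h2
    rw [eord_inv] at h2
    omega
  isPrincipalIdealRing' :=
    haveI := isDiscreteValuationRing_embRing σ hnt
    inferInstance

@[simp]
theorem placeOfEmb_toValuationSubring (hK : ∀ c : K, 0 ≤ eord σ (algebraMap K F c))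
    (hnt : ∃ t : F, eord σ t ≠ 0) :
    (placeOfEmb σ hK hnt).toValuationSubring = embRing σ := rfl

/-- If the valuation ring of a place `v` is `{f | 0 ≤ ord (σ f)}`, then `ord ∘ σ = k * v.ord`
for some `k > 0`. -/
theorem exists_mult_of_eq (v : Place K F) (hv : v.toValuationSubring = embRing σ) :
    ∃ k : ℕ, 0 < k ∧ ∀ f : F, eord σ f = k * v.ord f := by
  have hmem : ∀ f : F, f ∈ v.toValuationSubring ↔ 0 ≤ eord σ f := fun f => by
    rw [hv]; rfl
  obtain ⟨π, hπ⟩ := IsDiscreteValuationRing.exists_irreducible v.toValuationSubring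
  have hπ0 : (π : F) ≠ 0 := fun h => hπ.ne_zero (Subtype.ext h)
  have hπnn : 0 ≤ eord σ (π : F) := (hmem _).mp π.2
  have hπpos : 0 < eord σ (π : F) := by
    rcases hπnn.lt_or_eq with h | h
    · exact h
    · exfalso
      have hinv : (π : F)⁻¹ ∈ v.toValuationSubring := by
        rw [hmem, eord_inv]; omega
      apply hπ.not_isUnit
      exact ⟨⟨π, ⟨(π : F)⁻¹, hinv⟩, Subtype.ext (mul_inv_cancel₀ hπ0),
        Subtype.ext (inv_mul_cancel₀ hπ0)⟩, rfl⟩
  refine ⟨(eord σ (π : F)).toNat, by omega, fun f => ?_⟩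
  rcases eq_or_ne f 0 with rfl | hf
  · simp
  obtain ⟨u, hu⟩ := v.exists_unit_mul_zpow hf hπ
  have hu0 : ((u : v.toValuationSubring) : F) ≠ 0 := by
    intro h
    exact u.ne_zero (Subtype.ext h)
  have hu1 : 0 ≤ eord σ ((u : v.toValuationSubring) : F) := (hmem _).mp (u : v.toValuationSubring).2
  have hu2 : 0 ≤ eord σ (((u⁻¹ : v.toValuationSubringˣ) : v.toValuationSubring) : F) :=
    (hmem _).mp ((u⁻¹ : v.toValuationSubringˣ) : v.toValuationSubring).2
  have hmul : ((u : v.toValuationSubring) : F)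
      * (((u⁻¹ : v.toValuationSubringˣ) : v.toValuationSubring) : F) = 1 := by
    exact congrArg Subtype.val (Units.mul_inv u)
  have hu2' : eord σ (((u⁻¹ : v.toValuationSubringˣ) : v.toValuationSubring) : F)
      = - eord σ ((u : v.toValuationSubring) : F) := by
    rw [← eord_inv]
    congr 1
    exact eq_inv_of_mul_eq_one_right hmul
  have hu3 : eord σ ((u : v.toValuationSubring) : F) = 0 := by omega
  conv_lhs => rw [hu]
  rw [eord_mul σ hu0 (zpow_ne_zero _ hπ0), eord_zpow, hu3, zero_add,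
    Int.toNat_of_nonneg hπnn]
  ring

theorem exists_mult (hK : ∀ c : K, 0 ≤ eord σ (algebraMap K F c))
    (hnt : ∃ t : F, eord σ t ≠ 0) :
    ∃ k : ℕ, 0 < k ∧ ∀ f : F, eord σ f = k * (placeOfEmb σ hK hnt).ord f :=
  exists_mult_of_eq σ _ rfl

end Emb

section LocalDataPlaces

variable {X : Type*} {t : F} (L : LocalData K F C X t)

theorem eord_const (x : X) (c : K) : eord (L.σ x) (algebraMap K F c) = 0 := by
  simp only [eord, L.σ_const, HahnSeries.order_C]

theorem eord_t (x : X) : eord (L.σ x) t = L.m := L.σ_t_order x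

theorem nontrivial_σ (x : X) : ∃ s : F, eord (L.σ x) s ≠ 0 :=
  ⟨t, by rw [eord_t]; exact_mod_cast L.m_pos.ne'⟩

/-- **LT1.** The place of `F/K` induced by the embedding `L.σ x`. -/
def placeOf (x : X) : Place K F :=
  placeOfEmb (L.σ x) (fun c => (eord_const L x c).ge) (nontrivial_σ L x)

theorem exists_mult_placeOf (x : X) :
    ∃ k : ℕ, 0 < k ∧ ∀ f : F, ((L.σ x) f).order = k * (placeOf L x).ord f :=
  exists_mult (L.σ x) _ _

/-- The multiplicity `k_x` with `ord_z ∘ σ_x = k_x * ord_{v_x}`. -/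
def mult (x : X) : ℕ := (exists_mult_placeOf L x).choose

theorem mult_pos (x : X) : 0 < mult L x := (exists_mult_placeOf L x).choose_spec.1

theorem order_eq (x : X) (f : F) :
    ((L.σ x) f).order = mult L x * (placeOf L x).ord f :=
  (exists_mult_placeOf L x).choose_spec.2 f

theorem mem_placeOf_iff (x : X) (f : F) :
    f ∈ (placeOf L x).toValuationSubring ↔ 0 ≤ ((L.σ x) f).order := Iff.rfl

theorem ord_placeOf_nonneg_iff (x : X) (f : F) :
    0 ≤ (placeOf L x).ord f ↔ 0 ≤ ((L.σ x) f).order := by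
  rw [← mem_iff_ord_nonneg]; rfl

theorem mult_mul_ord_t (x : X) : (mult L x : ℤ) * (placeOf L x).ord t = L.m := by
  rw [← order_eq, L.σ_t_order]

theorem ord_t_pos (x : X) : 0 < (placeOf L x).ord t := by
  have h := mult_mul_ord_t L x
  have hk : (0 : ℤ) < mult L x := by exact_mod_cast mult_pos L x
  have hm : (0 : ℤ) < L.m := by exact_mod_cast L.m_pos
  by_contra hcon
  push Not at hcon
  nlinarith

theorem placeOf_perm (x : X) : placeOf L (L.perm x) = placeOf L x := by
  apply Place.ext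
  ext f
  show 0 ≤ ((L.σ (L.perm x)) f).order ↔ 0 ≤ ((L.σ x) f).order
  rw [L.σ_perm_order]

theorem mult_perm (x : X) : mult L (L.perm x) = mult L x := by
  obtain ⟨π, hπ0, hπ⟩ := exists_ord_eq_one (placeOf L x)
  have h1 := order_eq L x π
  have h2 := order_eq L (L.perm x) π
  rw [L.σ_perm_order, placeOf_perm, h1, hπ] at h2
  have : (mult L x : ℤ) = mult L (L.perm x) := by linarith
  exact_mod_cast this.symm

end LocalDataPlaces

end Fermat.Agent.S24.H117

end
end
-- ===== PACK-END S24/H117/EmbPlace.lean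

-- ===== PACK-BEGIN S24/H117/RatFun.lean
section


/-!
# S24 / H117 — orders of rational functions of `t` at places over `t = 0`

If `0 < v.ord t` then for every `e ∈ K⟮t⟯` the order `v.ord e` is `n * v.ord t` for an integer
`n` depending only on `e` (the `t`-adic order of `e`).
-/

set_option autoImplicit false

noncomputable section

open AlgebraicCurve Polynomial IntermediateField

namespace Fermat.Agent.S24.H117

variable {K F : Type*} [Field K] [Field F] [Algebra K F]

theorem aeval_mem_place (v : Place K F) {t : F} (hv : 0 ≤ v.ord t) (p : K[X]) :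
    aeval t p ∈ v.toValuationSubring := by
  rw [aeval_eq_sum_range]
  refine Subring.sum_mem v.toValuationSubring.toSubring (fun i _ => ?_)
  rw [Algebra.smul_def]
  exact mul_mem (v.algebraMap_mem' _) (pow_mem (mem_of_ord_nonneg v hv) _)

theorem ord_aeval_of_coeff_zero_ne (v : Place K F) {t : F} (hv : 0 < v.ord t) (q : K[X])
    (hq : q.coeff 0 ≠ 0) : v.ord (aeval t q) = 0 := by
  have hdecomp : aeval t q = algebraMap K F (q.coeff 0) + aeval t q.divX * t := by
    conv_lhs => rw [← divX_mul_X_add q]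
    simp only [map_add, map_mul, aeval_X, aeval_C]
    ring
  have hc : v.ord (algebraMap K F (q.coeff 0)) = 0 := _root_.Fermat.Agent.S24.H117.ord_algebraMap v _
  have hc0 : algebraMap K F (q.coeff 0) ≠ 0 := by simpa using hq
  rw [hdecomp]
  rcases eq_or_ne (aeval t q.divX * t) 0 with h0 | h0
  · rw [h0, add_zero, hc]
  · have ht0 : t ≠ 0 := right_ne_zero_of_mul h0
    have hd0 : aeval t q.divX ≠ 0 := left_ne_zero_of_mul h0
    have h1 : 0 ≤ v.ord (aeval t q.divX) :=
      ord_nonneg_of_mem v (aeval_mem_place v hv.le _)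
    have h2 : 0 < v.ord (aeval t q.divX * t) := by
      rw [v.ord_mul hd0 ht0]; omega
    rw [ord_add_eq_of_lt v (by rw [hc]; exact h2) hc0, hc]

theorem ord_aeval_eq (v : Place K F) {t : F} (hv : 0 < v.ord t) (p : K[X]) (hp : p ≠ 0) :
    aeval t p ≠ 0 ∧ v.ord (aeval t p) = (p.rootMultiplicity 0 : ℤ) * v.ord t := by
  obtain ⟨q, hpq, hq⟩ := exists_eq_pow_rootMultiplicity_mul_and_not_dvd p hp 0
  have hq0 : q.coeff 0 ≠ 0 := by
    intro h
    apply hq
    rw [C_0, sub_zero]
    exact X_dvd_iff.mpr h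
  have ht0 : t ≠ 0 := ne_zero_of_ord_ne_zero v hv.ne'
  have hqu := ord_aeval_of_coeff_zero_ne v hv q hq0
  have hqne : aeval t q ≠ 0 := by
    intro h
    have hdecomp : aeval t q = algebraMap K F (q.coeff 0) + aeval t q.divX * t := by
      conv_lhs => rw [← divX_mul_X_add q]
      simp only [map_add, map_mul, aeval_X, aeval_C]
      ring
    -- if `aeval t q = 0` then the constant term has positive order
    have hc0 : algebraMap K F (q.coeff 0) ≠ 0 := by simpa using hq0
    have hc : v.ord (algebraMap K F (q.coeff 0)) = 0 := _root_.Fermat.Agent.S24.H117.ord_algebraMap v _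
    have heq : algebraMap K F (q.coeff 0) = -(aeval t q.divX * t) := by
      rw [h] at hdecomp
      exact eq_neg_of_add_eq_zero_left hdecomp.symm
    have hne : aeval t q.divX * t ≠ 0 := by
      intro h0
      rw [h0, neg_zero] at heq
      exact hc0 heq
    have hd0 : aeval t q.divX ≠ 0 := left_ne_zero_of_mul hne
    have h1 : 0 ≤ v.ord (aeval t q.divX) :=
      ord_nonneg_of_mem v (aeval_mem_place v hv.le _)
    rw [heq, _root_.Fermat.Agent.S24.H117.ord_neg, v.ord_mul hd0 ht0] at hc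
    omega
  have hval : aeval t p = t ^ p.rootMultiplicity 0 * aeval t q := by
    conv_lhs => rw [hpq]
    simp only [C_0, sub_zero, map_mul, map_pow, aeval_X]
  refine ⟨?_, ?_⟩
  · rw [hval]
    exact mul_ne_zero (pow_ne_zero _ ht0) hqne
  · rw [hval, v.ord_mul (pow_ne_zero _ ht0) hqne, ord_pow, hqu, add_zero]

/-- The order at a place over `t = 0` of an element of `K(t)` is a fixed multiple of `ord t`. -/
theorem exists_ord_eq_mul_of_mem_adjoin {t e : F} (he : e ∈ K⟮t⟯) :
    ∃ n : ℤ, ∀ v : Place K F, 0 < v.ord t → v.ord e = n * v.ord t := by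
  obtain ⟨r, s, rfl⟩ := (mem_adjoin_simple_iff K e).mp he
  by_cases hr : r = 0
  · exact ⟨0, fun v _ => by simp [hr]⟩
  by_cases hs : s = 0
  · exact ⟨0, fun v _ => by simp [hs]⟩
  refine ⟨(r.rootMultiplicity 0 : ℤ) - s.rootMultiplicity 0, fun v hv => ?_⟩
  obtain ⟨hr1, hr2⟩ := ord_aeval_eq v hv r hr
  obtain ⟨hs1, hs2⟩ := ord_aeval_eq v hv s hs
  rw [ord_div v hr1 hs1, hr2, hs2]
  ring

/-- Transfer of integrality on `K(t)` between two places over `t = 0`. -/
theorem ord_nonneg_of_mem_adjoin {t e : F} (he : e ∈ K⟮t⟯) {v w : Place K F}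
    (hv : 0 < v.ord t) (hw : 0 < w.ord t) (h : 0 ≤ w.ord e) : 0 ≤ v.ord e := by
  obtain ⟨n, hn⟩ := exists_ord_eq_mul_of_mem_adjoin (K := K) he
  rw [hn w hw] at h
  rw [hn v hv]
  have hn0 : 0 ≤ n := by
    by_contra hneg
    push Not at hneg
    nlinarith
  positivity

end Fermat.Agent.S24.H117

end
end
-- ===== PACK-END S24/H117/RatFun.lean

-- ===== PACK-BEGIN S24/H117/Approx.lean
section


/-!
# S24 / H117 — a weak approximation lemma for places

For a place `v` and a finite set `s` of places not containing `v`, there is `f : F` with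
`v.ord f < 0` and `0 < w.ord f` for all `w ∈ s`.
-/

set_option autoImplicit false

noncomputable section

open AlgebraicCurve

namespace Fermat.Agent.S24.H117

variable {K F : Type*} [Field K] [Field F] [Algebra K F]

/-- Two distinct places are separated by a function. -/
theorem exists_ord_pos_neg {v w : Place K F} (h : v ≠ w) :
    ∃ y : F, 0 < v.ord y ∧ w.ord y < 0 := by
  have h1 : ∃ a : F, 0 ≤ v.ord a ∧ w.ord a < 0 := by
    by_contra hcon
    push Not at hcon
    exact h (place_ext_of_le hcon)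
  have h2 : ∃ b : F, 0 ≤ w.ord b ∧ v.ord b < 0 := by
    by_contra hcon
    push Not at hcon
    exact h (place_ext_of_le hcon).symm
  obtain ⟨a, ha1, ha2⟩ := h1
  obtain ⟨b, hb1, hb2⟩ := h2
  have ha0 : a ≠ 0 := ne_zero_of_ord_ne_zero w ha2.ne
  have hb0 : b ≠ 0 := ne_zero_of_ord_ne_zero v hb2.ne
  refine ⟨a / b, ?_, ?_⟩
  · rw [ord_div v ha0 hb0]; omega
  · rw [ord_div w ha0 hb0]; omega

/-- There is a function with a zero at `v` and poles at all places of `s`. -/
theorem exists_ord_pos_forall_neg (v : Place K F) (s : Finset (Place K F)) (hv : v ∉ s) :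
    ∃ u : F, 0 < v.ord u ∧ ∀ w ∈ s, w.ord u < 0 := by
  classical
  induction s using Finset.induction_on with
  | empty =>
    obtain ⟨π, -, hπ⟩ := exists_ord_eq_one v
    exact ⟨π, by omega, by simp⟩
  | insert w s hw ih =>
    have hvs : v ∉ s := fun h => hv (Finset.mem_insert_of_mem h)
    have hvw : v ≠ w := fun h => hv (h ▸ Finset.mem_insert_self _ _)
    obtain ⟨u, hu1, hu2⟩ := ih hvs
    by_cases hwu : w.ord u < 0
    · refine ⟨u, hu1, fun w' hw' => ?_⟩
      rcases Finset.mem_insert.mp hw' with rfl | h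
      · exact hwu
      · exact hu2 w' h
    · push Not at hwu
      obtain ⟨y, hy1, hy2⟩ := exists_ord_pos_neg hvw
      have hu0 : u ≠ 0 := ne_zero_of_ord_ne_zero v hu1.ne'
      have hy0 : y ≠ 0 := ne_zero_of_ord_ne_zero v hy1.ne'
      -- choose a large exponent
      obtain ⟨N, hN1, hNbig⟩ : ∃ N : ℕ, 1 ≤ N ∧ ∀ w' ∈ s, (w'.ord u).natAbs < N := by
        refine ⟨1 + ∑ w' ∈ s, (w'.ord u).natAbs, by omega, fun w' hw' => ?_⟩
        have := Finset.single_le_sum (f := fun w' : Place K F => (w'.ord u).natAbs)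
          (fun _ _ => Nat.zero_le _) hw'
        have h2 : (w'.ord u).natAbs ≤ ∑ w' ∈ s, (w'.ord u).natAbs := this
        omega
      have hyN0 : y ^ N ≠ 0 := pow_ne_zero _ hy0
      have hwlt : w.ord (y ^ N) < w.ord u := by
        rw [ord_pow]
        have : (N : ℤ) * w.ord y < 0 := by
          have : (1 : ℤ) ≤ N := by exact_mod_cast hN1
          nlinarith
        omega
      have hsum_w : w.ord (u + y ^ N) = w.ord (y ^ N) := by
        rw [add_comm]
        exact ord_add_eq_of_lt w hwlt hyN0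
      have hne : u + y ^ N ≠ 0 := by
        apply ne_zero_of_ord_ne_zero w
        rw [hsum_w, ord_pow]
        have : (1 : ℤ) ≤ N := by exact_mod_cast hN1
        nlinarith
      refine ⟨u + y ^ N, ?_, fun w' hw' => ?_⟩
      · have := ord_add_ge v hne
        have h2 : 0 < v.ord (y ^ N) := by
          rw [ord_pow]
          have : (1 : ℤ) ≤ N := by exact_mod_cast hN1
          nlinarith
        have : 0 < min (v.ord u) (v.ord (y ^ N)) := lt_min hu1 h2
        omega
      · rcases Finset.mem_insert.mp hw' with rfl | h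
        · rw [hsum_w, ord_pow]
          have : (1 : ℤ) ≤ N := by exact_mod_cast hN1
          nlinarith
        · have hu' := hu2 w' h
          have hbig := hNbig w' h
          have hneq : w'.ord (y ^ N) ≠ w'.ord u := by
            rw [ord_pow]
            intro heq
            rcases eq_or_ne (w'.ord y) 0 with h0 | h0
            · rw [h0, mul_zero] at heq
              omega
            · have h1 : (w'.ord u).natAbs = N * (w'.ord y).natAbs := by
                rw [← heq, Int.natAbs_mul, Int.natAbs_natCast]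
              have h2 : 1 ≤ (w'.ord y).natAbs := Int.natAbs_pos.mpr h0
              have h3 : N ≤ N * (w'.ord y).natAbs := Nat.le_mul_of_pos_right N h2
              omega
          rcases lt_or_gt_of_ne hneq with hlt | hgt
          · rw [add_comm, ord_add_eq_of_lt w' hlt hyN0]
            omega
          · rw [ord_add_eq_of_lt w' hgt hu0]
            exact hu'

/-- **Weak approximation (the form we need).** -/
theorem exists_ord_neg_forall_pos (v : Place K F) (s : Finset (Place K F)) (hv : v ∉ s) :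
    ∃ f : F, v.ord f < 0 ∧ ∀ w ∈ s, 0 < w.ord f := by
  obtain ⟨u, hu1, hu2⟩ := exists_ord_pos_forall_neg v s hv
  refine ⟨u⁻¹, ?_, fun w hw => ?_⟩
  · rw [v.ord_inv]; omega
  · rw [w.ord_inv]
    have := hu2 w hw
    omega

end Fermat.Agent.S24.H117

end
end
-- ===== PACK-END S24/H117/Approx.lean

-- ===== PACK-BEGIN S24/FFOrdLike.lean
section




/-!
# S24 / FF layer: recognising `Place.ord` from any order-like function

If `N : F → ℤ` is additive on nonzero elements and `O_v = {N ≥ 0}` then `N = N(ϖ) · ord_v`.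
(helper804)
-/

set_option autoImplicit false

namespace Fermat.Agent.S24.FF

open AlgebraicCurve

variable {K F : Type*} [Field K] [Field F] [Algebra K F]

section OrdLike

variable (N : F → ℤ) (hmul : ∀ f g : F, f ≠ 0 → g ≠ 0 → N (f * g) = N f + N g)

include hmul

theorem ordLike_one : N 1 = 0 := by
  have := hmul 1 1 one_ne_zero one_ne_zero
  rw [mul_one] at this
  omega

theorem ordLike_inv {f : F} (hf : f ≠ 0) : N f⁻¹ = -N f := by
  have := hmul f f⁻¹ hf (inv_ne_zero hf)
  rw [mul_inv_cancel₀ hf, ordLike_one N hmul] at this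
  omega

theorem ordLike_pow {f : F} (hf : f ≠ 0) (n : ℕ) : N (f ^ n) = n * N f := by
  induction n with
  | zero => simp [ordLike_one N hmul]
  | succ n ih =>
    rw [pow_succ, hmul _ _ (pow_ne_zero n hf) hf, ih]
    push_cast
    ring

theorem ordLike_zpow {f : F} (hf : f ≠ 0) (n : ℤ) : N (f ^ n) = n * N f := by
  obtain ⟨m, rfl | rfl⟩ := n.eq_nat_or_neg
  · rw [zpow_natCast, ordLike_pow N hmul hf]
  · rw [zpow_neg, zpow_natCast, ordLike_inv N hmul (pow_ne_zero m hf), ordLike_pow N hmul hf]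
    ring

/-- An order-like function with valuation ring `O_v` is a multiple of `ord_v`. -/
theorem ordLike_eq_ord_mul (v : Place K F)
    (hmem : ∀ f : F, f ≠ 0 → (f ∈ v.toValuationSubring ↔ 0 ≤ N f))
    {ϖ : v.toValuationSubring} (hϖ : Irreducible ϖ) {f : F} (hf : f ≠ 0) :
    N f = v.ord f * N (ϖ : F) := by
  have hϖF : (ϖ : F) ≠ 0 := by
    simpa [ne_eq, ZeroMemClass.coe_eq_zero] using hϖ.ne_zero
  obtain ⟨u, hu⟩ := v.exists_unit_mul_zpow hf hϖ
  have hu0 : ((u : v.toValuationSubring) : F) ≠ 0 := by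
    simp [ne_eq, ZeroMemClass.coe_eq_zero]
  have hNu : N ((u : v.toValuationSubring) : F) = 0 := by
    have h1 := (hmem _ hu0).mp (u : v.toValuationSubring).2
    have hinv : (((u⁻¹ : v.toValuationSubringˣ) : v.toValuationSubring) : F)
        = (((u : v.toValuationSubring) : F))⁻¹ := by
      apply eq_inv_of_mul_eq_one_left
      have h := congrArg (fun a : v.toValuationSubring => (a : F)) (Units.inv_mul u)
      exact h
    have h2 := (hmem _ (inv_ne_zero hu0)).mp (by
      rw [← hinv]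
      exact ((u⁻¹ : v.toValuationSubringˣ) : v.toValuationSubring).2)
    rw [ordLike_inv N hmul hu0] at h2
    omega
  conv_lhs => rw [hu]
  rw [hmul _ _ hu0 (zpow_ne_zero _ hϖF), hNu, zero_add, ordLike_zpow N hmul hϖF]

/-- Normalised version: if moreover some nonzero element has `N = 1`, then `N = ord_v`. -/
theorem ordLike_eq_ord (v : Place K F)
    (hmem : ∀ f : F, f ≠ 0 → (f ∈ v.toValuationSubring ↔ 0 ≤ N f))
    {π : F} (hπ0 : π ≠ 0) (hπ : N π = 1) {f : F} (hf : f ≠ 0) :
    N f = v.ord f := by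
  obtain ⟨ϖ, hϖ⟩ := IsDiscreteValuationRing.exists_irreducible v.toValuationSubring
  have hϖF : (ϖ : F) ≠ 0 := by
    simpa [ne_eq, ZeroMemClass.coe_eq_zero] using hϖ.ne_zero
  have key := ordLike_eq_ord_mul N hmul v hmem hϖ hπ0
  have hNϖ : 0 ≤ N (ϖ : F) := (hmem _ hϖF).mp ϖ.2
  rw [hπ] at key
  have hone : N (ϖ : F) = 1 := by
    have h1 : v.ord π * N (ϖ : F) = 1 := key.symm
    rcases Int.eq_one_or_neg_one_of_mul_eq_one' h1 with ⟨_, h⟩ | ⟨_, h⟩
    · exact h
    · omega
  rw [ordLike_eq_ord_mul N hmul v hmem hϖ hf, hone, mul_one]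

end OrdLike

end Fermat.Agent.S24.FF

end
-- ===== PACK-END S24/FFOrdLike.lean

-- ===== PACK-BEGIN S28/H685/QLaurent.lean
section



/-!
# S28 helper (helper685): convergent Laurent `q`-series

`HasQLaurent h f φ` : the function `f : ℍ → ℂ` is, at every point `τ`, the sum of the Laurent
series `φ` evaluated at `q = exp (2 π i τ / h)`.
-/

set_option autoImplicit false

namespace Fermat.Agent.S28.H685

open UpperHalfPlane Function Complex Filter HahnSeries
open scoped Topology Manifold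

noncomputable section

local notation "𝕢" => Periodic.qParam

/-- `f` is the sum of the Laurent series `φ` in the parameter `q = exp (2 π i τ / h)`. -/
def HasQLaurent (h : ℝ) (f : ℍ → ℂ) (φ : LaurentSeries ℂ) : Prop :=
  ∀ τ : ℍ, HasSum (fun n : ℤ => φ.coeff n * 𝕢 h τ ^ n) (f τ)

theorem ofPS_coeff_of_neg (A : PowerSeries ℂ) {k : ℤ} (hk : k < 0) :
    (HahnSeries.ofPowerSeries ℤ ℂ A).coeff k = 0 := by
  rw [HahnSeries.ofPowerSeries_apply]
  refine HahnSeries.embDomain_of_notMem_range ?_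
  rintro ⟨m, rfl⟩
  exact absurd hk (not_lt.mpr (Int.natCast_nonneg m))

theorem coeff_single_mul_ofPS (k : ℤ) (A : PowerSeries ℂ) (m : ℕ) :
    (HahnSeries.single k (1 : ℂ) * HahnSeries.ofPowerSeries ℤ ℂ A).coeff (m + k) =
      PowerSeries.coeff m A := by
  rw [HahnSeries.coeff_single_mul, one_mul, add_sub_cancel_right,
    HahnSeries.ofPowerSeries_apply_coeff]

theorem coeff_single_mul_ofPS_of_lt (k : ℤ) (A : PowerSeries ℂ) {n : ℤ} (hn : n < k) :
    (HahnSeries.single k (1 : ℂ) * HahnSeries.ofPowerSeries ℤ ℂ A).coeff n = 0 := by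
  rw [HahnSeries.coeff_single_mul, one_mul]
  exact ofPS_coeff_of_neg A (by omega)

/-- The basic shift lemma relating Laurent expansions and power series expansions. -/
theorem hasQLaurent_single_mul_iff (h : ℝ) (f : ℍ → ℂ) (k : ℤ) (A : PowerSeries ℂ) :
    HasQLaurent h f (HahnSeries.single k (1 : ℂ) * HahnSeries.ofPowerSeries ℤ ℂ A) ↔
      HasQExp h (fun τ => f τ * 𝕢 h τ ^ (-k)) A := by
  have hg : Function.Injective (fun m : ℕ => (m : ℤ) + k) := by
    intro a b hab
    simpa using hab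
  refine forall_congr' fun τ => ?_
  have hq : 𝕢 h τ ≠ 0 := Periodic.qParam_ne_zero _
  set φ := HahnSeries.single k (1 : ℂ) * HahnSeries.ofPowerSeries ℤ ℂ A with hφ
  have h0 : ∀ n ∉ Set.range (fun m : ℕ => (m : ℤ) + k), φ.coeff n * 𝕢 h τ ^ n = 0 := by
    intro n hn
    have hlt : n < k := by
      by_contra hge
      rw [not_lt] at hge
      exact hn ⟨(n - k).toNat, by simp; omega⟩
    rw [hφ, coeff_single_mul_ofPS_of_lt k A hlt, zero_mul]
  rw [← hg.hasSum_iff h0]
  have hfun : ((fun n : ℤ => φ.coeff n * 𝕢 h τ ^ n) ∘ fun m : ℕ => (m : ℤ) + k) =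
      fun m : ℕ => (PowerSeries.coeff m A * 𝕢 h τ ^ m) * 𝕢 h τ ^ k := by
    funext m
    simp only [Function.comp_apply, hφ, coeff_single_mul_ofPS]
    rw [zpow_add₀ hq, zpow_natCast]
    ring
  rw [hfun]
  have hk : 𝕢 h τ ^ k ≠ 0 := zpow_ne_zero _ hq
  have hval : f τ = (f τ * 𝕢 h τ ^ (-k)) * 𝕢 h τ ^ k := by
    rw [mul_assoc, ← zpow_add₀ hq]
    simp
  conv_lhs => rw [hval]
  exact hasSum_mul_right_iff hk

theorem algebraMap_eq_C (c : ℂ) :
    algebraMap ℂ (LaurentSeries ℂ) c = HahnSeries.C c := by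
  have h1 : algebraMap ℂ (PowerSeries ℂ) c = PowerSeries.C c := by
    simp
  rw [HahnSeries.algebraMap_apply', h1, HahnSeries.ofPowerSeries_C]

/-- Every Laurent series is a monomial times a power series. -/
theorem laurent_decomp (φ : LaurentSeries ℂ) :
    φ = HahnSeries.single φ.order (1 : ℂ) * HahnSeries.ofPowerSeries ℤ ℂ φ.powerSeriesPart :=
  (LaurentSeries.single_order_mul_powerSeriesPart φ).symm

namespace HasQLaurent

variable {h : ℝ} {f g : ℍ → ℂ} {φ ψ : LaurentSeries ℂ}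

theorem congr_fun (hf : HasQLaurent h f φ) (hfg : ∀ τ, f τ = g τ) : HasQLaurent h g φ :=
  fun τ => hfg τ ▸ hf τ

theorem congr_series (hf : HasQLaurent h f φ) (hφ : φ = ψ) : HasQLaurent h f ψ := hφ ▸ hf

theorem zero : HasQLaurent h (fun _ => 0) 0 := fun τ => by
  simp [hasSum_zero]

theorem add (hf : HasQLaurent h f φ) (hg : HasQLaurent h g ψ) :
    HasQLaurent h (fun τ => f τ + g τ) (φ + ψ) := fun τ => by
  simpa [add_mul] using (hf τ).add (hg τ)

theorem neg (hf : HasQLaurent h f φ) : HasQLaurent h (fun τ => -f τ) (-φ) := fun τ => by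
  simpa using (hf τ).neg

theorem sub (hf : HasQLaurent h f φ) (hg : HasQLaurent h g ψ) :
    HasQLaurent h (fun τ => f τ - g τ) (φ - ψ) := fun τ => by
  simpa [sub_mul] using (hf τ).sub (hg τ)

theorem const_mul (c : ℂ) (hf : HasQLaurent h f φ) :
    HasQLaurent h (fun τ => c * f τ) (HahnSeries.C c * φ) := fun τ => by
  simpa [mul_assoc] using (hf τ).mul_left c

/-- Power series expansions are Laurent expansions. -/
theorem of_hasQExp {A : PowerSeries ℂ} (hf : HasQExp h f A) :
    HasQLaurent h f (HahnSeries.ofPowerSeries ℤ ℂ A) := by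
  have := (hasQLaurent_single_mul_iff h f 0 A).mpr (by simpa using hf)
  simpa using this

theorem hasQExp_of_ofPowerSeries {A : PowerSeries ℂ}
    (hf : HasQLaurent h f (HahnSeries.ofPowerSeries ℤ ℂ A)) : HasQExp h f A := by
  have h1 : HasQLaurent h f (HahnSeries.single 0 (1 : ℂ) * HahnSeries.ofPowerSeries ℤ ℂ A) := by
    simpa using hf
  simpa using (hasQLaurent_single_mul_iff h f 0 A).mp h1

theorem const (c : ℂ) : HasQLaurent h (fun _ => c) (HahnSeries.C c) := by
  have := of_hasQExp (HasQExp.const (h := h) c)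
  simpa using this

theorem one : HasQLaurent h (fun _ => 1) 1 := by
  have := of_hasQExp (HasQExp.one (h := h))
  simpa using this

/-- The monomial `q ^ k`. -/
theorem single (k : ℤ) : HasQLaurent h (fun τ => 𝕢 h τ ^ k) (HahnSeries.single k (1 : ℂ)) := by
  have h1 : HasQExp h (fun τ => 𝕢 h τ ^ k * 𝕢 h τ ^ (-k)) 1 := by
    refine HasQExp.one.congr_fun fun τ => ?_
    rw [← zpow_add₀ (Periodic.qParam_ne_zero _)]
    simp
  have := (hasQLaurent_single_mul_iff h _ k 1).mpr h1
  simpa using this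

/-- The power series part of a Laurent expansion. -/
theorem hasQExp_powerSeriesPart (hf : HasQLaurent h f φ) :
    HasQExp h (fun τ => f τ * 𝕢 h τ ^ (-φ.order)) φ.powerSeriesPart :=
  (hasQLaurent_single_mul_iff h f φ.order φ.powerSeriesPart).mp
    (hf.congr_series (laurent_decomp φ))

theorem mul (hf : HasQLaurent h f φ) (hg : HasQLaurent h g ψ) :
    HasQLaurent h (fun τ => f τ * g τ) (φ * ψ) := by
  have h1 := hf.hasQExp_powerSeriesPart
  have h2 := hg.hasQExp_powerSeriesPart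
  have h3 := h1.mul h2
  have h4 : HasQExp h (fun τ => (f τ * g τ) * 𝕢 h τ ^ (-(φ.order + ψ.order)))
      (φ.powerSeriesPart * ψ.powerSeriesPart) := by
    refine h3.congr_fun fun τ => ?_
    rw [neg_add, zpow_add₀ (Periodic.qParam_ne_zero _)]
    ring
  have h5 := (hasQLaurent_single_mul_iff h _ (φ.order + ψ.order) _).mpr h4
  refine h5.congr_series ?_
  conv_rhs => rw [laurent_decomp φ, laurent_decomp ψ]
  have hs : HahnSeries.single (φ.order + ψ.order) (1 : ℂ) =
      HahnSeries.single φ.order (1 : ℂ) * HahnSeries.single ψ.order (1 : ℂ) := by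
    rw [HahnSeries.single_mul_single, one_mul]
  rw [map_mul, hs]
  exact mul_mul_mul_comm _ _ _ _

theorem pow (hf : HasQLaurent h f φ) (n : ℕ) : HasQLaurent h (fun τ => f τ ^ n) (φ ^ n) := by
  induction n with
  | zero => simpa using one (h := h)
  | succ n ih => simpa [pow_succ] using ih.mul hf

theorem finset_sum {ι : Type*} (s : Finset ι) (F : ι → ℍ → ℂ) (P : ι → LaurentSeries ℂ)
    (hF : ∀ i ∈ s, HasQLaurent h (F i) (P i)) :
    HasQLaurent h (fun τ => ∑ i ∈ s, F i τ) (∑ i ∈ s, P i) := by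
  classical
  induction s using Finset.induction_on with
  | empty => simpa using zero (h := h)
  | insert a s ha ih =>
    simp only [Finset.sum_insert ha]
    exact (hF a (Finset.mem_insert_self a s)).add
      (ih fun i hi => hF i (Finset.mem_insert_of_mem hi))

theorem finset_prod {ι : Type*} (s : Finset ι) (F : ι → ℍ → ℂ) (P : ι → LaurentSeries ℂ)
    (hF : ∀ i ∈ s, HasQLaurent h (F i) (P i)) :
    HasQLaurent h (fun τ => ∏ i ∈ s, F i τ) (∏ i ∈ s, P i) := by
  classical
  induction s using Finset.induction_on with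
  | empty => simpa using one (h := h)
  | insert a s ha ih =>
    simp only [Finset.prod_insert ha]
    exact (hF a (Finset.mem_insert_self a s)).mul
      (ih fun i hi => hF i (Finset.mem_insert_of_mem hi))

/-- Uniqueness of the Laurent coefficients. -/
theorem eq_zero (hh : 0 < h) (hf : HasQLaurent h (fun _ => 0) φ) : φ = 0 := by
  have h1 := hf.hasQExp_powerSeriesPart
  have h2 : φ.powerSeriesPart = 0 := by
    refine HasQExp.eq_zero hh (h1.congr_fun fun τ => ?_)
    simp
  exact (LaurentSeries.powerSeriesPart_eq_zero φ).mp h2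

theorem unique (hh : 0 < h) (hf : HasQLaurent h f φ) (hg : HasQLaurent h f ψ) : φ = ψ := by
  have h1 : HasQLaurent h (fun _ => 0) (φ - ψ) :=
    (hf.sub hg).congr_fun fun τ => sub_self _
  exact sub_eq_zero.mp (h1.eq_zero hh)

/-- If the function vanishes identically then so does the series; pointwise version. -/
theorem eq_of_forall_eq (hh : 0 < h) (hf : HasQLaurent h f φ) (hg : HasQLaurent h g ψ)
    (hfg : ∀ τ, f τ = g τ) : φ = ψ :=
  (hf.congr_fun hfg).unique hh hg

theorem mdifferentiable (hh : 0 < h) (hf : HasQLaurent h f φ) : MDiff f := by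
  have h1 := (hf.hasQExp_powerSeriesPart).mdifferentiable hh
  have h2 : MDiff (fun τ : ℍ => 𝕢 h τ ^ φ.order) := by
    rw [UpperHalfPlane.mdifferentiable_iff]
    have hd : DifferentiableOn ℂ (fun z : ℂ => 𝕢 h z ^ φ.order) {z | 0 < z.im} := by
      intro z _
      exact ((Periodic.differentiable_qParam (h := h)).differentiableAt.zpow
        (Or.inl (Periodic.qParam_ne_zero _))).differentiableWithinAt
    refine hd.congr fun z hz => ?_
    simp only [Function.comp_apply]
    rw [ofComplex_apply_of_im_pos hz]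
  have h3 : f = fun τ => (f τ * 𝕢 h τ ^ (-φ.order)) * 𝕢 h τ ^ φ.order := by
    funext τ
    rw [mul_assoc, ← zpow_add₀ (Periodic.qParam_ne_zero _)]
    simp
  rw [h3]
  exact h1.mul h2

theorem vadd_period (hh : 0 < h) (hf : HasQLaurent h f φ) (τ : ℍ) (τ' : ℍ)
    (hτ : (τ' : ℂ) = τ + h) : f τ' = f τ := by
  have h1 := (hf.hasQExp_powerSeriesPart).vadd_period hh τ τ' hτ
  have h2 := (HasQExp.X (h := h)).vadd_period hh τ τ' hτ
  beta_reduce at h1 h2
  rw [h2] at h1
  exact mul_right_cancel₀ (zpow_ne_zero _ (Periodic.qParam_ne_zero _)) h1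

/-- Closure under inverses. -/
theorem inv (hh : 0 < h) (hf : HasQLaurent h f φ) (hf0 : ∀ τ, f τ ≠ 0) (hφ : φ ≠ 0) :
    HasQLaurent h (fun τ => (f τ)⁻¹) φ⁻¹ := by
  have h1 := hf.hasQExp_powerSeriesPart
  have hA0 : PowerSeries.coeff 0 φ.powerSeriesPart ≠ 0 := by
    rw [LaurentSeries.powerSeriesPart_coeff]
    simpa using (HahnSeries.coeff_order_eq_zero (x := φ)).not.mpr hφ
  have h2 := h1.inv hh (fun τ => mul_ne_zero (hf0 τ)
    (zpow_ne_zero _ (Periodic.qParam_ne_zero _))) hA0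
  have h3 : HasQExp h (fun τ => (f τ)⁻¹ * 𝕢 h τ ^ (-(-φ.order))) (φ.powerSeriesPart)⁻¹ := by
    refine h2.congr_fun fun τ => ?_
    rw [mul_inv, ← zpow_neg]
  have h4 := (hasQLaurent_single_mul_iff h _ (-φ.order) _).mpr h3
  refine h4.congr_series ?_
  have hA0' : PowerSeries.constantCoeff φ.powerSeriesPart ≠ 0 := by
    rwa [← PowerSeries.coeff_zero_eq_constantCoeff]
  symm
  apply inv_eq_of_mul_eq_one_left
  have hs : HahnSeries.single (-φ.order) (1 : ℂ) * HahnSeries.single φ.order (1 : ℂ) = 1 := by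
    rw [HahnSeries.single_mul_single, one_mul, neg_add_cancel]
    rfl
  calc HahnSeries.single (-φ.order) (1 : ℂ) * HahnSeries.ofPowerSeries ℤ ℂ (φ.powerSeriesPart)⁻¹ * φ
      = HahnSeries.single (-φ.order) (1 : ℂ) * HahnSeries.ofPowerSeries ℤ ℂ (φ.powerSeriesPart)⁻¹ *
        (HahnSeries.single φ.order (1 : ℂ) * HahnSeries.ofPowerSeries ℤ ℂ φ.powerSeriesPart) := by
        rw [← laurent_decomp φ]
    _ = (HahnSeries.single (-φ.order) (1 : ℂ) * HahnSeries.single φ.order (1 : ℂ)) *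
        HahnSeries.ofPowerSeries ℤ ℂ ((φ.powerSeriesPart)⁻¹ * φ.powerSeriesPart) := by
        rw [map_mul]
        exact mul_mul_mul_comm _ _ _ _
    _ = 1 := by
        rw [hs, PowerSeries.inv_mul_cancel _ hA0', map_one, one_mul]

theorem div (hh : 0 < h) (hf : HasQLaurent h f φ) (hg : HasQLaurent h g ψ)
    (hg0 : ∀ τ, g τ ≠ 0) (hψ : ψ ≠ 0) :
    HasQLaurent h (fun τ => f τ / g τ) (φ / ψ) := by
  simpa [div_eq_mul_inv] using hf.mul (hg.inv hh hg0 hψ)

/-- Evaluation of polynomials. -/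
theorem aeval (hf : HasQLaurent h f φ) (P : Polynomial ℂ) :
    HasQLaurent h (fun τ => P.eval (f τ)) (Polynomial.aeval φ P) := by
  induction P using Polynomial.induction_on' with
  | add p q hp hq =>
    simpa using hp.add hq
  | monomial n a =>
    have := (hf.pow n).const_mul a
    refine (this.congr_fun fun τ => ?_).congr_series ?_
    · simp
    · rw [Polynomial.aeval_monomial, algebraMap_eq_C]

/-- Evaluation of multivariate polynomials. -/
theorem mvAeval {σ : Type*} (F : σ → ℍ → ℂ) (Φ : σ → LaurentSeries ℂ)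
    (hF : ∀ i, HasQLaurent h (F i) (Φ i)) (P : MvPolynomial σ ℂ) :
    HasQLaurent h (fun τ => MvPolynomial.eval (fun i => F i τ) P) (MvPolynomial.aeval Φ P) := by
  induction P using MvPolynomial.induction_on with
  | C a =>
    have := (one (h := h)).const_mul a
    refine (this.congr_fun fun τ => ?_).congr_series ?_
    · simp
    · rw [MvPolynomial.aeval_C, algebraMap_eq_C, mul_one]
  | add p q hp hq =>
    simpa using hp.add hq
  | mul_X p i hp =>
    simpa using hp.mul (hF i)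

end HasQLaurent

end

end Fermat.Agent.S28.H685

end
-- ===== PACK-END S28/H685/QLaurent.lean

-- ===== PACK-BEGIN S28/H685/JPrinciple.lean
section



/-!
# S28 helper (helper685): the `j`-polynomial principle (abstract Hauptmodul form)

A function on `ℍ` which is the sum of a convergent Laurent series in `q = exp (2 π i τ)` with
finitely many negative exponents and which is invariant under `τ ↦ -1/τ` is a polynomial in any
"Hauptmodul" `j` (an `S`-invariant function with a convergent expansion `q⁻¹ + O(1)`), and the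
same identity holds for the formal Laurent series.
-/

set_option autoImplicit false

namespace Fermat.Agent.S28.H685

open UpperHalfPlane Function Complex Filter HahnSeries ModularForm SlashInvariantForm
  ModularFormClass
open scoped Topology Manifold MatrixGroups

noncomputable section

local notation "𝕢" => Periodic.qParam

/-- Weight-zero slash invariance is invariance. -/
theorem slash_zero_eq_of_invariant (F : ℍ → ℂ) (γ : SL(2, ℤ))
    (hγ : ∀ τ, F (γ • τ) = F τ) : F ∣[(0 : ℤ)] γ = F := by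
  ext z
  rw [SL_slash_apply]
  simp only [neg_zero, zpow_zero, mul_one]
  exact hγ z

/-- A holomorphic function, bounded at `i∞` and invariant under `S` and `T`, as a modular form
of weight zero and level one. -/
def levelOneOfInvariant (F : ℍ → ℂ) (hol : MDiff F) (bdd : IsBoundedAtImInfty F)
    (hS : ∀ τ, F (ModularGroup.S • τ) = F τ) (hT : ∀ τ, F (ModularGroup.T • τ) = F τ) :
    ModularForm 𝒮ℒ 0 where
  toFun := F
  slash_action_eq' A hA := by
    obtain ⟨A, rfl⟩ := hA
    exact slash_action_generators_SL2Z (slash_zero_eq_of_invariant F _ hS)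
      (slash_zero_eq_of_invariant F _ hT) A
  holo' := hol
  bdd_at_cusps' hc := by
    rw [Subgroup.IsArithmetic.isCusp_iff_isCusp_SL2Z] at hc
    rw [OnePoint.isBoundedAt_iff_forall_SL2Z hc]
    intro γ _
    rw [slash_action_generators_SL2Z (slash_zero_eq_of_invariant F _ hS)
      (slash_zero_eq_of_invariant F _ hT)]
    exact bdd

/-- A holomorphic function on `ℍ`, bounded at `i∞` and invariant under `S` and `T`, is
constant. -/
theorem exists_const_of_invariant (F : ℍ → ℂ) (hol : MDiff F) (bdd : IsBoundedAtImInfty F)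
    (hS : ∀ τ, F (ModularGroup.S • τ) = F τ) (hT : ∀ τ, F (ModularGroup.T • τ) = F τ) :
    ∃ c : ℂ, ∀ τ, F τ = c := by
  obtain ⟨c, hc⟩ := levelOne_weight_zero_const (levelOneOfInvariant F hol bdd hS hT)
  exact ⟨c, fun τ => congrFun hc τ⟩

/-- Invariance under `T` of a function given by a `q`-series of period one. -/
theorem HasQLaurent.T_invariant {F : ℍ → ℂ} {φ : LaurentSeries ℂ} (hF : HasQLaurent 1 F φ)
    (τ : ℍ) : F (ModularGroup.T • τ) = F τ := by
  refine hF.vadd_period one_pos τ _ ?_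
  rw [UpperHalfPlane.modular_T_smul]
  simp [add_comm]

/-- A Laurent series without negative exponents is a power series. -/
theorem exists_ofPowerSeries_eq (φ : LaurentSeries ℂ) (hφ : ∀ n : ℤ, n < 0 → φ.coeff n = 0) :
    ∃ A : PowerSeries ℂ, HahnSeries.ofPowerSeries ℤ ℂ A = φ := by
  refine ⟨PowerSeries.mk fun n => φ.coeff n, ?_⟩
  ext n
  rcases lt_or_ge n 0 with hn | hn
  · rw [ofPS_coeff_of_neg _ hn, hφ n hn]
  · lift n to ℕ using hn
    rw [HahnSeries.ofPowerSeries_apply_coeff, PowerSeries.coeff_mk]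

/-- The constant case of the principle. -/
theorem exists_const_of_S_invariant (F : ℍ → ℂ) (φ : LaurentSeries ℂ)
    (hφ : ∀ n : ℤ, n < 0 → φ.coeff n = 0) (hF : HasQLaurent 1 F φ)
    (hS : ∀ τ, F (ModularGroup.S • τ) = F τ) :
    ∃ c : ℂ, φ = HahnSeries.C c ∧ ∀ τ, F τ = c := by
  obtain ⟨A, rfl⟩ := exists_ofPowerSeries_eq φ hφ
  have hA : HasQExp 1 F A := hF.hasQExp_of_ofPowerSeries
  obtain ⟨c, hc⟩ := exists_const_of_invariant F (hA.mdifferentiable one_pos)
    (hA.isBoundedAtImInfty one_pos) hS hF.T_invariant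
  refine ⟨c, ?_, hc⟩
  have h1 : HasQLaurent 1 (fun _ => c) (HahnSeries.ofPowerSeries ℤ ℂ A) := hF.congr_fun hc
  exact h1.unique one_pos (HasQLaurent.const c)

/-- Structure of the powers of a series `q⁻¹ (1 + O(q))`. -/
theorem hauptmodul_pow (J : PowerSeries ℂ) (n : ℕ) :
    (HahnSeries.single (-1 : ℤ) (1 : ℂ) * HahnSeries.ofPowerSeries ℤ ℂ J) ^ n =
      HahnSeries.single (-(n : ℤ)) (1 : ℂ) * HahnSeries.ofPowerSeries ℤ ℂ (J ^ n) := by
  have h : n • (-1 : ℤ) = -(n : ℤ) := by simp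
  rw [mul_pow, HahnSeries.single_pow, one_pow, h, ← map_pow]

theorem coeff_hauptmodul_pow_self (J : PowerSeries ℂ) (hJ : PowerSeries.constantCoeff J = 1)
    (n : ℕ) :
    ((HahnSeries.single (-1 : ℤ) (1 : ℂ) * HahnSeries.ofPowerSeries ℤ ℂ J) ^ n).coeff
      (-(n : ℤ)) = 1 := by
  rw [hauptmodul_pow]
  have := coeff_single_mul_ofPS (-(n : ℤ)) (J ^ n) 0
  simp only [Nat.cast_zero, zero_add] at this
  rw [this, PowerSeries.coeff_zero_eq_constantCoeff, map_pow, hJ, one_pow]

theorem coeff_hauptmodul_pow_of_lt (J : PowerSeries ℂ) (n : ℕ) {k : ℤ} (hk : k < -(n : ℤ)) :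
    ((HahnSeries.single (-1 : ℤ) (1 : ℂ) * HahnSeries.ofPowerSeries ℤ ℂ J) ^ n).coeff k = 0 := by
  rw [hauptmodul_pow]
  exact coeff_single_mul_ofPS_of_lt _ _ hk

/-- **The `j`-polynomial principle**, abstract form. -/
theorem exists_polynomial_of_S_invariant_aux
    (jF : ℍ → ℂ) (J : PowerSeries ℂ) (hJ0 : PowerSeries.constantCoeff J = 1)
    (hj : HasQLaurent 1 jF (HahnSeries.single (-1 : ℤ) (1 : ℂ) * HahnSeries.ofPowerSeries ℤ ℂ J))
    (hjS : ∀ τ, jF (ModularGroup.S • τ) = jF τ) :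
    ∀ (m : ℕ) (F : ℍ → ℂ) (φ : LaurentSeries ℂ), (∀ n : ℤ, n < -(m : ℤ) → φ.coeff n = 0) →
      HasQLaurent 1 F φ → (∀ τ, F (ModularGroup.S • τ) = F τ) →
      ∃ P : Polynomial ℂ, P.natDegree ≤ m ∧
        φ = Polynomial.aeval
          (HahnSeries.single (-1 : ℤ) (1 : ℂ) * HahnSeries.ofPowerSeries ℤ ℂ J) P ∧
        ∀ τ, F τ = P.eval (jF τ) := by
  intro m
  induction m with
  | zero =>
    intro F φ hφ hF hS
    obtain ⟨c, hc, hFc⟩ := exists_const_of_S_invariant F φ (by simpa using hφ) hF hS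
    refine ⟨Polynomial.C c, by simp, ?_, fun τ => by simpa using hFc τ⟩
    rw [hc, Polynomial.aeval_C, algebraMap_eq_C]
  | succ m ih =>
    intro F φ hφ hF hS
    set jφ := HahnSeries.single (-1 : ℤ) (1 : ℂ) * HahnSeries.ofPowerSeries ℤ ℂ J with hjφ
    set a := φ.coeff (-((m + 1 : ℕ) : ℤ)) with ha
    have hF' : HasQLaurent 1 (fun τ => F τ - a * jF τ ^ (m + 1))
        (φ - HahnSeries.C a * jφ ^ (m + 1)) := hF.sub ((hj.pow (m + 1)).const_mul a)
    have hS' : ∀ τ, (fun τ => F τ - a * jF τ ^ (m + 1)) (ModularGroup.S • τ) =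
        (fun τ => F τ - a * jF τ ^ (m + 1)) τ := by
      intro τ
      simp only [hS τ, hjS τ]
    have hφ' : ∀ n : ℤ, n < -(m : ℤ) → (φ - HahnSeries.C a * jφ ^ (m + 1)).coeff n = 0 := by
      intro n hn
      rw [HahnSeries.coeff_sub, HahnSeries.C_mul_eq_smul, HahnSeries.coeff_smul, smul_eq_mul]
      rcases lt_or_eq_of_le (show n ≤ -((m + 1 : ℕ) : ℤ) by push_cast; omega) with h1 | h1
      · rw [hφ n h1, coeff_hauptmodul_pow_of_lt J (m + 1) h1, mul_zero, sub_zero]
      · rw [h1, coeff_hauptmodul_pow_self J hJ0 (m + 1), mul_one, ← ha, sub_self]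
    obtain ⟨P, hPdeg, hPφ, hPF⟩ := ih _ _ hφ' hF' hS'
    refine ⟨P + Polynomial.C a * Polynomial.X ^ (m + 1), ?_, ?_, ?_⟩
    · refine (Polynomial.natDegree_add_le _ _).trans (max_le (hPdeg.trans (Nat.le_succ m)) ?_)
      exact (Polynomial.natDegree_C_mul_X_pow_le a (m + 1))
    · rw [map_add, ← hPφ, map_mul, map_pow, Polynomial.aeval_X, Polynomial.aeval_C,
        algebraMap_eq_C]
      ring
    · intro τ
      have := hPF τ
      simp only [Polynomial.eval_add, Polynomial.eval_mul, Polynomial.eval_C,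
        Polynomial.eval_pow, Polynomial.eval_X]
      rw [← this]
      ring

end

end Fermat.Agent.S28.H685

end
-- ===== PACK-END S28/H685/JPrinciple.lean

-- ===== PACK-BEGIN S24/H864/FF3b.lean
section




/-!
# S24 / ALG / FF1+FF3 (part b): places of a Dedekind domain with fraction field `F`
-/

set_option autoImplicit false

noncomputable section

open AlgebraicCurve IsDedekindDomain

namespace Fermat.Agent.S24.H864

section Dict

variable {K F : Type*} [Field K] [Field F] [Algebra K F]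
variable {S : Type*} [CommRing S] [IsDedekindDomain S] [Algebra S F] [IsFractionRing S F]
  [Algebra K S] [IsScalarTower K S F]

/-- `ord` of the place attached to a height one prime is `-log` of the adic valuation. -/
theorem ord_ofHeightOneSpectrum (w : HeightOneSpectrum S) (x : F) :
    (Place.ofHeightOneSpectrum (K := K) w).ord x = -(WithZero.log (w.valuation F x)) := by
  rcases eq_or_ne x 0 with rfl | hx
  · simp
  set N : F → ℤ := fun y => -(WithZero.log (w.valuation F y)) with hN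
  have hmul : ∀ f g : F, f ≠ 0 → g ≠ 0 → N (f * g) = N f + N g := by
    intro f g hf hg
    simp only [hN, map_mul]
    rw [WithZero.log_mul ((Valuation.ne_zero_iff _).mpr hf) ((Valuation.ne_zero_iff _).mpr hg)]
    ring
  have hmem : ∀ f : F, f ≠ 0 →
      (f ∈ (Place.ofHeightOneSpectrum (K := K) w).toValuationSubring ↔ 0 ≤ N f) := by
    intro f hf
    rw [Place.ofHeightOneSpectrum_toValuationSubring, Valuation.mem_valuationSubring_iff]
    have h0 : w.valuation F f ≠ 0 := (Valuation.ne_zero_iff _).mpr hf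
    simp only [hN]
    rw [← WithZero.log_le_log h0 one_ne_zero, WithZero.log_one]
    omega
  obtain ⟨π, hπ⟩ := w.valuation_exists_uniformizer F
  have hπ0 : π ≠ 0 := by
    intro h
    rw [h, map_zero] at hπ
    exact WithZero.exp_ne_zero.symm hπ
  have hNπ : N π = 1 := by
    simp only [hN, hπ, WithZero.log_exp]
    norm_num
  exact (FF.ordLike_eq_ord N hmul _ hmem hπ0 hNπ hx).symm

/-- On elements of `S`, `ord` is the multiplicity of the prime in the principal ideal. -/
theorem ord_ofHeightOneSpectrum_algebraMap (w : HeightOneSpectrum S) {s : S} (hs : s ≠ 0) :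
    (Place.ofHeightOneSpectrum (K := K) w).ord (algebraMap S F s)
      = (multiplicity w.asIdeal (Ideal.span {s}) : ℤ) := by
  rw [ord_ofHeightOneSpectrum, HeightOneSpectrum.valuation_of_algebraMap,
    HeightOneSpectrum.intValuation_eq_exp_neg_multiplicity w hs, WithZero.log_exp, neg_neg]

theorem ord_ofHeightOneSpectrum_pos_iff (w : HeightOneSpectrum S) {s : S} (hs : s ≠ 0) :
    0 < (Place.ofHeightOneSpectrum (K := K) w).ord (algebraMap S F s) ↔ s ∈ w.asIdeal := by
  rw [← HeightOneSpectrum.valuation_lt_one_iff_mem (K := F), ord_ofHeightOneSpectrum]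
  have h0 : w.valuation F (algebraMap S F s) ≠ 0 :=
    (Valuation.ne_zero_iff _).mpr ((map_ne_zero_iff _ (IsFractionRing.injective S F)).mpr hs)
  rw [← WithZero.log_lt_log h0 one_ne_zero, WithZero.log_one]
  omega

theorem ofHeightOneSpectrum_injective :
    Function.Injective (fun w : HeightOneSpectrum S => Place.ofHeightOneSpectrum (K := K) (F := F) w) := by
  intro w w' h
  simp only at h
  apply HeightOneSpectrum.ext
  ext s
  rcases eq_or_ne s 0 with rfl | hs
  · simp
  · rw [← ord_ofHeightOneSpectrum_pos_iff (K := K) (F := F) w hs,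
      ← ord_ofHeightOneSpectrum_pos_iff (K := K) (F := F) w' hs, h]

/-- The prime of `S` cut out by a place whose valuation ring contains `S`. -/
def primeOfPlace (v : Place K F) (hS : ∀ s : S, algebraMap S F s ∈ v.toValuationSubring) :
    Ideal S :=
  Ideal.comap ((algebraMap S F).codRestrict v.toValuationSubring.toSubring hS)
    (IsLocalRing.maximalIdeal v.toValuationSubring)

instance primeOfPlace_isPrime (v : Place K F)
    (hS : ∀ s : S, algebraMap S F s ∈ v.toValuationSubring) : (primeOfPlace v hS).IsPrime :=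
  Ideal.comap_isPrime _ _

theorem mem_primeOfPlace (v : Place K F)
    (hS : ∀ s : S, algebraMap S F s ∈ v.toValuationSubring) {s : S} (hs : s ≠ 0) :
    s ∈ primeOfPlace v hS ↔ 0 < v.ord (algebraMap S F s) := by
  have hs' : algebraMap S F s ≠ 0 := (map_ne_zero_iff _ (IsFractionRing.injective S F)).mpr hs
  rw [FF.ord_pos_iff_mem_nonunits v hs']
  rw [primeOfPlace, Ideal.mem_comap, IsLocalRing.mem_maximalIdeal, mem_nonunits_iff,
    ValuationSubring.mem_nonunits_iff_exists_mem_maximalIdeal]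
  constructor
  · intro h
    exact ⟨hS s, by rw [IsLocalRing.mem_maximalIdeal, mem_nonunits_iff]; exact h⟩
  · rintro ⟨_, h⟩
    rw [IsLocalRing.mem_maximalIdeal, mem_nonunits_iff] at h
    exact h

/-- **Dictionary, surjectivity.**  A place whose valuation ring contains `S` and which is
positive on some nonzero element of `S` comes from a height one prime of `S`. -/
theorem exists_heightOneSpectrum_of_place (v : Place K F)
    (hS : ∀ s : S, algebraMap S F s ∈ v.toValuationSubring)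
    {s0 : S} (hs0 : s0 ≠ 0) (hpos : 0 < v.ord (algebraMap S F s0)) :
    ∃ w : HeightOneSpectrum S,
      Place.ofHeightOneSpectrum (K := K) w = v ∧ w.asIdeal = primeOfPlace v hS := by
  have hne : primeOfPlace v hS ≠ ⊥ := by
    intro h
    have : s0 ∈ primeOfPlace v hS := (mem_primeOfPlace v hS hs0).mpr hpos
    rw [h, Ideal.mem_bot] at this
    exact hs0 this
  refine ⟨⟨primeOfPlace v hS, inferInstance, hne⟩, ?_, rfl⟩
  set w : HeightOneSpectrum S := ⟨primeOfPlace v hS, inferInstance, hne⟩ with hw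
  apply Place.ext
  rw [Place.ofHeightOneSpectrum_toValuationSubring,
    ← HeightOneSpectrum.valuationSubringAtPrime_eq_valuationSubring]
  refine ValuationSubring.eq_of_le_of_ne_top _ ?_ v.ne_top'
  rintro x ⟨a, s, hs, rfl⟩
  have hsq : s ∉ primeOfPlace v hS := hs
  have hs0' : s ≠ 0 := by
    rintro rfl
    exact hsq (Ideal.zero_mem _)
  have hsF : algebraMap S F s ≠ 0 := (map_ne_zero_iff _ (IsFractionRing.injective S F)).mpr hs0'
  have h1 : ¬ 0 < v.ord (algebraMap S F s) := fun h => hsq ((mem_primeOfPlace v hS hs0').mpr h)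
  have h2 : 0 ≤ v.ord (algebraMap S F s) := (FF.mem_iff_ord_nonneg v).mp (hS s)
  have h3 : v.ord (algebraMap S F s) = 0 := by omega
  have h4 : (algebraMap S F s)⁻¹ ∈ v.toValuationSubring := by
    rw [FF.mem_iff_ord_nonneg, Place.ord_inv, h3]
    simp
  exact mul_mem (hS a) h4

end Dict

end Fermat.Agent.S24.H864

end
end
-- ===== PACK-END S24/H864/FF3b.lean

-- ===== PACK-BEGIN S48/H588/StepBasic.lean
section



/-!
# Tower A1 (S48 / RES): one step of the tower of good models — basic transport lemmas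

`ι : Ω →+* Ω'` is a field embedding (`Ω = F·Q̄`, `Ω' = F'·Q̄`).  We transport the sub-objects of a
`Fermat.Agent.S18.Alg.GoodModel` in `Ω` to `Ω'`.
-/

set_option autoImplicit false

namespace Fermat.Agent.S48.H588

open Fermat.Agent.S18.Alg Polynomial

variable {Ω Ω' : Type*} [Field Ω] [Field Ω'] (ι : Ω →+* Ω')

theorem polyRing_map (R : Subring Ω) (x : Ω) :
    (polyRing R x).map ι = polyRing (R.map ι) (ι x) := by
  unfold polyRing
  rw [RingHom.map_closure]
  congr 1
  ext z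
  simp only [Set.mem_image, Set.mem_union, SetLike.mem_coe, Set.mem_singleton_iff,
    Subring.mem_map]
  constructor
  · rintro ⟨a, ha | ha, rfl⟩
    · exact Or.inl ⟨a, ha, rfl⟩
    · exact Or.inr (by rw [ha])
  · rintro (⟨a, ha, rfl⟩ | rfl)
    · exact ⟨a, Or.inl ha, rfl⟩
    · exact ⟨x, Or.inr rfl, rfl⟩

theorem ratField_map (Ec : Subfield Ω) (x : Ω) :
    (ratField Ec x).map ι = ratField (Ec.map ι) (ι x) := by
  unfold ratField
  rw [RingHom.map_field_closure]
  congr 1
  ext z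
  simp only [Set.mem_image, Set.mem_union, SetLike.mem_coe, Set.mem_singleton_iff,
    Subfield.mem_map]
  constructor
  · rintro ⟨a, ha | ha, rfl⟩
    · exact Or.inl ⟨a, ha, rfl⟩
    · exact Or.inr (by rw [ha])
  · rintro (⟨a, ha, rfl⟩ | rfl)
    · exact ⟨a, Or.inl ha, rfl⟩
    · exact ⟨x, Or.inr rfl, rfl⟩

/-- Integrality over a subring is preserved by a ring homomorphism. -/
theorem isIntegral_map_of_isIntegral {P : Subring Ω} {b : Ω} (hb : IsIntegral P b) :
    IsIntegral (P.map ι) (ι b) := by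
  obtain ⟨p, hp, hpb⟩ := hb
  let φ : P →+* P.map ι :=
    { toFun := fun a => ⟨ι a, Subring.mem_map.mpr ⟨a, a.2, rfl⟩⟩
      map_one' := by ext; simp
      map_mul' := fun a b => by ext; simp
      map_zero' := by ext; simp
      map_add' := fun a b => by ext; simp }
  refine ⟨p.map φ, hp.map φ, ?_⟩
  have h1 : (algebraMap (P.map ι) Ω').comp φ = ι.comp (algebraMap P Ω) := by
    ext a; rfl
  rw [eval₂_map, h1, ← hom_eval₂, hpb, map_zero]

/-- Integrality over a subring is reflected by an (injective) field homomorphism. -/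
theorem isIntegral_of_isIntegral_map {P : Subring Ω} {b : Ω}
    (hb : IsIntegral (P.map ι) (ι b)) : IsIntegral P b := by
  obtain ⟨p, hp, hpb⟩ := hb
  have hsurj : ∀ c : P.map ι, ∃ a : P, ι a = c := fun c => by
    obtain ⟨a, ha, h⟩ := Subring.mem_map.mp c.2
    exact ⟨⟨a, ha⟩, h⟩
  choose s hs using hsurj
  -- lift the polynomial coefficientwise
  let q : Polynomial P := ∑ i ∈ Finset.range (p.natDegree), monomial i (s (p.coeff i))
    + monomial p.natDegree 1
  have hqdeg : (∑ i ∈ Finset.range (p.natDegree), monomial i (s (p.coeff i))).degree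
      < p.natDegree := by
    refine (degree_sum_le _ _).trans_lt ?_
    rw [Finset.sup_lt_iff (WithBot.bot_lt_coe _)]
    intro i hi
    refine (degree_monomial_le _ _).trans_lt ?_
    exact_mod_cast Finset.mem_range.mp hi
  have hq : q.Monic := by
    have : q = monomial p.natDegree 1 +
        ∑ i ∈ Finset.range (p.natDegree), monomial i (s (p.coeff i)) := add_comm _ _
    rw [this, ← X_pow_eq_monomial]
    exact monic_X_pow_add hqdeg
  refine ⟨q, hq, ?_⟩
  apply ι.injective
  rw [map_zero, hom_eval₂]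
  have key : eval₂ (ι.comp (algebraMap P Ω)) (ι b) q = eval₂ (algebraMap (P.map ι) Ω') (ι b) p := by
    conv_rhs => rw [hp.as_sum]
    simp only [q, eval₂_add, eval₂_finsetSum, eval₂_monomial, eval₂_mul, eval₂_C, eval₂_X_pow,
      map_one, one_mul]
    rw [add_comm]
    congr 1
    refine Finset.sum_congr rfl (fun i _ => ?_)
    congr 1
    exact hs (p.coeff i)
  rw [key, hpb]

theorem chart_map {Fc : Subfield Ω} {R : Subring Ω} {x b : Ω} (hb : b ∈ chart Fc R x) :
    ι b ∈ chart (Fc.map ι) (R.map ι) (ι x) := by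
  refine ⟨Subfield.mem_map.mpr ⟨b, hb.1, rfl⟩, ?_⟩
  rw [← polyRing_map]
  exact isIntegral_map_of_isIntegral ι hb.2

theorem mem_chart_of_map {Fc : Subfield Ω} {R : Subring Ω} {x b : Ω} (hbF : b ∈ Fc)
    (hb : IsIntegral (polyRing (R.map ι) (ι x)) (ι b)) : b ∈ chart Fc R x := by
  refine ⟨hbF, ?_⟩
  rw [← polyRing_map] at hb
  exact isIntegral_of_isIntegral_map ι hb

end Fermat.Agent.S48.H588

end
-- ===== PACK-END S48/H588/StepBasic.lean

-- ===== PACK-BEGIN S48/H588/Step.lean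
section



/-!
# Tower A1 (S48 / RES): ONE STEP of the tower of good models (helper588)

`ι : Ω →+* Ω'`, `Ω = Fc·Lc` carrying a `Fermat.Agent.S18.Alg.GoodModel`, `Ω' = Fc'·ι(Lc)` with
`Fc' ⊇ ι(Fc)` a finite extension admitting a finite group `G` of automorphisms with
`(Fc')^G ⊆ ι(Fc)` (e.g. a Galois step of the tower `F₀(M') ⊂ … ⊂ F_H`).

`StepData` lists what has to be known about the step:

* field theory: `compositum`, `E_closed` (no new constants), `finite`;
* the Gauss valuation ring `V'` of `Fc'`: a valuation ring of `Fc'` containing `ι(V)` with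
  uniformiser `ι w` (i.e. the Gauss valuation of `Fc` is UNRAMIFIED in `Fc'`), stable under `G`
  (automatic when `V'` is the unique extension of `V`, i.e. when `V` is INERT), with residue
  field separable over `κ(x̄)`;
* `unram`: every place of `Ω'` over `Lc` has a uniformiser coming from `Ω`
  (`Ω'/Ω` is unramified at every place).

`goodModel_step`: then the transported tuple is again a `GoodModel`.  In particular the
`q`-expansion principle `qep_fin`, `qep_inf` climbs the step (by Galois descent, no Krull domains).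
So `AlgMainStatement` (the hub of S18) applies to `Fc'`.
-/

set_option autoImplicit false

namespace Fermat.Agent.S48.H588

open Fermat.Agent.S18.Alg Polynomial

variable {Ω Ω' : Type*} [Field Ω] [Field Ω']

/-- The hypotheses on one step `Fc ⊆ Fc'` of the tower (see the module docstring). -/
structure StepData (ι : Ω →+* Ω') (Lc Ec Fc : Subfield Ω) (R V : Subring Ω) (w x : Ω)
    (Fc' : Subfield Ω') (V' : Subring Ω') (G : Subgroup (Ω' ≃+* Ω')) : Prop where
  F_le : Fc.map ι ≤ Fc'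
  compositum : Subfield.closure ((Fc' : Set Ω') ∪ ((Lc.map ι : Subfield Ω') : Set Ω')) = ⊤
  E_closed : ∀ f ∈ Fc', IsAlgebraic (Ec.map ι) f → f ∈ Ec.map ι
  finite : ∃ s : Finset Ω', (s : Set Ω') ⊆ Fc' ∧
    ∀ f ∈ Fc', f ∈ Submodule.span (Fc.map ι) (s : Set Ω')
  V_le : (V' : Set Ω') ⊆ Fc'
  V_total : ∀ f ∈ Fc', f ∈ V' ∨ f⁻¹ ∈ V'
  V_le_V' : V.map ι ≤ V'
  w_inv_not_mem : (ι w)⁻¹ ∉ V'
  V_gen : ∀ f ∈ V', f⁻¹ ∉ V' → f * (ι w)⁻¹ ∈ V'
  separable : ∀ f ∈ V', ∃ P : Polynomial Ω', (∀ i, P.coeff i ∈ polyRing (R.map ι) (ι x)) ∧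
    P.eval f * (ι w)⁻¹ ∈ V' ∧ (Polynomial.derivative P).eval f ≠ 0 ∧
    ((Polynomial.derivative P).eval f)⁻¹ ∈ V'
  G_finite : Finite G
  G_fix : ∀ g ∈ G, ∀ a ∈ Fc.map ι, (g : Ω' ≃+* Ω') a = a
  G_F : ∀ g ∈ G, ∀ f ∈ Fc', (g : Ω' ≃+* Ω') f ∈ Fc'
  G_V : ∀ g ∈ G, ∀ f ∈ V', (g : Ω' ≃+* Ω') f ∈ V'
  G_inv : ∀ f ∈ Fc', (∀ g ∈ G, (g : Ω' ≃+* Ω') f = f) → f ∈ Fc.map ι
  unram : ∀ O : ValuationSubring Ω', (∀ a ∈ Lc.map ι, a ∈ O) → ∀ t ∈ O, t⁻¹ ∉ O →
    ∃ s : Ω, ι s ∈ O ∧ (ι s)⁻¹ ∉ O ∧ t * (ι s)⁻¹ ∈ O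

section Transport

variable (ι : Ω →+* Ω')

theorem mem_subring_map_iff {T : Subring Ω} {a : Ω} : ι a ∈ T.map ι ↔ a ∈ T := by
  constructor
  · rintro ⟨b, hb, h⟩
    rwa [← ι.injective h]
  · intro h
    exact ⟨a, h, rfl⟩

theorem mem_subfield_map_iff {T : Subfield Ω} {a : Ω} : ι a ∈ T.map ι ↔ a ∈ T := by
  constructor
  · rintro ⟨b, hb, h⟩
    rwa [← ι.injective h]
  · intro h
    exact ⟨a, h, rfl⟩

/-- The canonical ring isomorphism `T ≃ ι(T)` for a subfield `T`. -/
noncomputable def subfieldMapEquiv (T : Subfield Ω) : T ≃+* T.map ι :=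
  RingEquiv.ofBijective
    ({ toFun := fun a => ⟨ι a, Subfield.mem_map.mpr ⟨a, a.2, rfl⟩⟩
       map_one' := by ext; simp
       map_mul' := fun a b => by ext; simp
       map_zero' := by ext; simp
       map_add' := fun a b => by ext; simp } : T →+* T.map ι)
    ⟨fun a b hab => Subtype.ext (ι.injective (congrArg Subtype.val hab)),
      fun c => by
        obtain ⟨a, ha, h⟩ := Subfield.mem_map.mp c.2
        exact ⟨⟨a, ha⟩, Subtype.ext h⟩⟩

@[simp] theorem coe_subfieldMapEquiv (T : Subfield Ω) (a : T) :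
    ((subfieldMapEquiv ι T a : T.map ι) : Ω') = ι a := rfl

theorem algebraMap_comp_subfieldMapEquiv (T : Subfield Ω) :
    (algebraMap (T.map ι) Ω').comp (subfieldMapEquiv ι T : T →+* T.map ι)
      = ι.comp (algebraMap T Ω) := by
  ext a; rfl

theorem isAlgebraic_map {T : Subfield Ω} {a : Ω} (ha : IsAlgebraic T a) :
    IsAlgebraic (T.map ι) (ι a) := by
  obtain ⟨p, hp0, hp⟩ := ha
  refine ⟨p.map (subfieldMapEquiv ι T : T →+* T.map ι), ?_, ?_⟩
  · exact (Polynomial.map_ne_zero_iff (subfieldMapEquiv ι T).injective).mpr hp0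
  · rw [aeval_def, eval₂_map, algebraMap_comp_subfieldMapEquiv, ← hom_eval₂]
    rw [aeval_def] at hp
    rw [hp, map_zero]

theorem isAlgebraic_of_map {T : Subfield Ω} {a : Ω} (ha : IsAlgebraic (T.map ι) (ι a)) :
    IsAlgebraic T a := by
  obtain ⟨p, hp0, hp⟩ := ha
  refine ⟨p.map ((subfieldMapEquiv ι T).symm : T.map ι →+* T), ?_, ?_⟩
  · exact (Polynomial.map_ne_zero_iff (subfieldMapEquiv ι T).symm.injective).mpr hp0
  · apply ι.injective
    rw [map_zero, aeval_def, hom_eval₂, eval₂_map]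
    rw [aeval_def] at hp
    have : (ι.comp (algebraMap T Ω)).comp ((subfieldMapEquiv ι T).symm : T.map ι →+* T)
        = algebraMap (T.map ι) Ω' := by
      rw [← algebraMap_comp_subfieldMapEquiv, RingHom.comp_assoc]
      ext c
      simp
    rw [this, hp]

theorem isAlgClosed_map {T : Subfield Ω} (hT : IsAlgClosed T) : IsAlgClosed (T.map ι) := by
  refine IsAlgClosed.of_exists_root _ (fun p hp hirr => ?_)
  set e := subfieldMapEquiv ι T
  set q : T[X] := p.map (e.symm : T.map ι →+* T) with hq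
  have hdeg : q.degree ≠ 0 := by
    rw [hq, degree_map_eq_of_injective e.symm.injective]
    exact degree_ne_of_natDegree_ne hirr.natDegree_pos.ne' 
  obtain ⟨a, ha⟩ := IsAlgClosed.exists_root q hdeg
  refine ⟨e a, ?_⟩
  have hp' : p = q.map (e : T →+* T.map ι) := by
    rw [hq, Polynomial.map_map]
    have : (e : T →+* T.map ι).comp (e.symm : T.map ι →+* T) = RingHom.id _ := by
      ext c; simp
    rw [this, Polynomial.map_id]
  rw [hp', eval_map]
  have h2 := Polynomial.hom_eval₂ q (RingHom.id T) (e : T →+* T.map ι) a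
  rw [RingHom.comp_id] at h2
  rw [eval₂_id, show eval a q = 0 from ha, map_zero] at h2
  exact h2.symm

end Transport

section Step

variable {ι : Ω →+* Ω'} {Lc Ec Fc : Subfield Ω} {R V : Subring Ω} {w x : Ω} {S : Finset Ω}
  {Fc' : Subfield Ω'} {V' : Subring Ω'} {G : Subgroup (Ω' ≃+* Ω')}

theorem goodModel_R_le_F (h : GoodModel Lc Ec Fc R V w x S) : ∀ r ∈ R, r ∈ Fc :=
  fun _ hr => h.E_le_F (h.R_le hr)

theorem goodModel_w_mem_V (h : GoodModel Lc Ec Fc R V w x S) : w ∈ V := h.R_le_V h.w_mem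

/-- `V' ∩ ι(Fc) = ι(V)`. -/
theorem StepData.mem_V_of_map_mem (hs : StepData ι Lc Ec Fc R V w x Fc' V' G)
    (h : GoodModel Lc Ec Fc R V w x S) {a : Ω} (haF : a ∈ Fc) (ha : ι a ∈ V') : a ∈ V := by
  rcases h.V_total a haF with h1 | h1
  · exact h1
  · by_contra hV
    have h2 : (a⁻¹)⁻¹ ∉ V := by rwa [inv_inv]
    have h3 := h.V_gen a⁻¹ h1 h2
    have ha0 : a ≠ 0 := fun h0 => hV (by rw [h0]; exact V.zero_mem)
    have h4 : ι (a⁻¹ * w⁻¹) ∈ V' := hs.V_le_V' ⟨_, h3, rfl⟩
    have h5 : ι a * ι (a⁻¹ * w⁻¹) ∈ V' := V'.mul_mem ha h4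
    have h6 : ι a * ι (a⁻¹ * w⁻¹) = (ι w)⁻¹ := by
      rw [← map_mul, ← mul_assoc, mul_inv_cancel₀ ha0, one_mul, map_inv₀]
    rw [h6] at h5
    exact hs.w_inv_not_mem h5

theorem polyRing_le_of_mem (h : GoodModel Lc Ec Fc R V w x S) {x₀ : Ω} (hx₀ : x₀ ∈ Fc) :
    polyRing R x₀ ≤ Fc.toSubring := by
  unfold polyRing
  rw [Subring.closure_le]
  rintro z (hz | hz)
  · exact (goodModel_R_le_F h) z hz
  · rw [Set.mem_singleton_iff] at hz
    rw [hz]; exact hx₀

/-- Iterating the `q`-expansion principle of the base. -/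
theorem mem_chart_of_mul_pow_mem (h : GoodModel Lc Ec Fc R V w x S) {x₀ : Ω}
    (hqep : ∀ b ∈ chart Fc R x₀, b * w⁻¹ ∈ V → b * w⁻¹ ∈ chart Fc R x₀)
    {a : Ω} (haV : a ∈ V) : ∀ j : ℕ, a * w ^ j ∈ chart Fc R x₀ → a ∈ chart Fc R x₀ := by
  intro j
  induction j with
  | zero => intro hj; simpa using hj
  | succ j ih =>
    intro hj
    apply ih
    have h1 : a * w ^ (j + 1) * w⁻¹ = a * w ^ j := by
      rw [pow_succ, mul_assoc, mul_assoc, mul_inv_cancel₀ h.w_ne_zero, mul_one]
    have h2 : a * w ^ (j + 1) * w⁻¹ ∈ V := by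
      rw [h1]; exact V.mul_mem haV (V.pow_mem (goodModel_w_mem_V h) j)
    have := hqep _ hj h2
    rwa [h1] at this

/-- **The `q`-expansion principle climbs the step** (for any coordinate `x₀ ∈ Fc`). -/
theorem StepData.qep (hs : StepData ι Lc Ec Fc R V w x Fc' V' G)
    (h : GoodModel Lc Ec Fc R V w x S) {x₀ : Ω} (hx₀ : x₀ ∈ Fc)
    (hqep : ∀ b ∈ chart Fc R x₀, b * w⁻¹ ∈ V → b * w⁻¹ ∈ chart Fc R x₀) :
    ∀ b ∈ chart Fc' (R.map ι) (ι x₀), b * (ι w)⁻¹ ∈ V' →
      b * (ι w)⁻¹ ∈ chart Fc' (R.map ι) (ι x₀) := by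
  intro b hb hbV
  have hwF' : ι w ∈ Fc' := hs.F_le ⟨w, (goodModel_R_le_F h) w h.w_mem, rfl⟩
  refine ⟨Fc'.mul_mem hb.1 (Fc'.inv_mem hwF'), ?_⟩
  have _hfin := hs.G_finite
  have hP : polyRing (R.map ι) (ι x₀) ≤ (Fc.map ι).toSubring := by
    rw [← polyRing_map]
    intro z hz
    obtain ⟨a, ha, rfl⟩ := hz
    exact ⟨a, polyRing_le_of_mem h hx₀ ha, rfl⟩
  refine qep_of_galois (polyRing (R.map ι) (ι x₀)) (Fc.map ι) Fc' V' (ι w)
    ((map_ne_zero ι).mpr h.w_ne_zero) hwF' G
    (fun g hg a ha => hs.G_fix g hg a (hP ha))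
    (fun g hg => hs.G_fix g hg _ ⟨w, (goodModel_R_le_F h) w h.w_mem, rfl⟩)
    hs.G_F hs.G_V hs.G_inv ?_ hb.1 hb.2 hbV
  rintro c ⟨a, haF, rfl⟩ hcV ⟨j, hj⟩
  have haV : a ∈ V := hs.mem_V_of_map_mem h haF hcV
  have h1 : a * w ^ j ∈ chart Fc R x₀ := by
    refine mem_chart_of_map ι (Fc.mul_mem haF (Fc.pow_mem ((goodModel_R_le_F h) w h.w_mem) j)) ?_
    rwa [map_mul, map_pow]
  have h2 := mem_chart_of_mul_pow_mem h hqep haV j h1
  rw [← polyRing_map]
  exact isIntegral_map_of_isIntegral ι h2.2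

/-- The Gauss property climbs the step. -/
theorem StepData.gauss (hs : StepData ι Lc Ec Fc R V w x Fc' V' G)
    (h : GoodModel Lc Ec Fc R V w x S) :
    ∀ P : Polynomial Ω', (∀ i, P.coeff i ∈ R.map ι) →
      (∃ i, P.coeff i ≠ 0 ∧ (P.coeff i)⁻¹ ∈ R.map ι) → (P.eval (ι x))⁻¹ ∈ V' := by
  intro P hP ⟨i, hi0, hi⟩
  have hlift : P ∈ Polynomial.lifts ι := by
    rw [Polynomial.lifts_iff_coeff_lifts]
    intro n
    obtain ⟨a, _, ha⟩ := hP n
    exact ⟨a, ha⟩
  obtain ⟨Q, rfl⟩ := (Polynomial.mem_lifts _).mp hlift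
  have hQ : ∀ n, Q.coeff n ∈ R := by
    intro n
    have := hP n
    rw [coeff_map] at this
    exact (mem_subring_map_iff ι).mp this
  have hQi : Q.coeff i ≠ 0 ∧ (Q.coeff i)⁻¹ ∈ R := by
    rw [coeff_map] at hi0 hi
    refine ⟨fun h0 => hi0 (by rw [h0, map_zero]), ?_⟩
    rw [← map_inv₀] at hi
    exact (mem_subring_map_iff ι).mp hi
  have h1 := h.gauss Q hQ ⟨i, hQi⟩
  have h2 : eval₂ ι (ι x) Q = ι (eval x Q) := by
    have := Polynomial.hom_eval₂ Q (RingHom.id Ω) ι x
    rw [RingHom.comp_id, eval₂_id] at this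
    exact this.symm
  rw [eval_map, h2, ← map_inv₀]
  exact hs.V_le_V' ⟨_, h1, rfl⟩

/-- Finiteness climbs the step. -/
theorem StepData.finite' (hs : StepData ι Lc Ec Fc R V w x Fc' V' G)
    (h : GoodModel Lc Ec Fc R V w x S) :
    ∃ s : Finset Ω', (s : Set Ω') ⊆ Fc' ∧
      ∀ f ∈ Fc', f ∈ Submodule.span (ratField (Ec.map ι) (ι x)) (s : Set Ω') := by
  classical
  obtain ⟨s₀, hs₀F, hs₀⟩ := h.finite
  obtain ⟨s₁, hs₁F, hs₁⟩ := hs.finite
  refine ⟨(s₀.image ι ×ˢ s₁).image (fun ab => ab.1 * ab.2), ?_, ?_⟩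
  · intro z hz
    simp only [Finset.coe_image, Set.mem_image, Finset.mem_coe, Finset.mem_product,
      Finset.mem_image, Prod.exists] at hz
    obtain ⟨a, b, ⟨⟨a₀, ha₀, rfl⟩, hb⟩, rfl⟩ := hz
    exact Fc'.mul_mem (hs.F_le ⟨a₀, hs₀F ha₀, rfl⟩) (hs₁F hb)
  · intro f hf
    set K' := ratField (Ec.map ι) (ι x) with hK'
    set T : Submodule K' Ω' :=
      Submodule.span K' (((s₀.image ι ×ˢ s₁).image (fun ab => ab.1 * ab.2) : Finset Ω') : Set Ω')
      with hT
    -- step 1: `ι a * b ∈ T` for `a ∈ Fc`, `b ∈ s₁`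
    have step1 : ∀ a ∈ Fc, ∀ b ∈ s₁, ι a * b ∈ T := by
      intro a ha b hb
      have ha' := hs₀ a ha
      -- induct on the span membership of `a`
      refine Submodule.span_induction (p := fun a _ => ι a * b ∈ T) ?_ ?_ ?_ ?_ ha'
      · intro a₀ ha₀
        refine Submodule.subset_span ?_
        simp only [Finset.coe_image, Set.mem_image, Finset.mem_coe, Finset.mem_product,
          Finset.mem_image, Prod.exists]
        exact ⟨ι a₀, b, ⟨⟨a₀, ha₀, rfl⟩, hb⟩, rfl⟩
      · simp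
      · intro y z _ _ hy hz
        rw [map_add, add_mul]
        exact T.add_mem hy hz
      · intro c y _ hy
        have hc : ι (c : Ω) ∈ K' := by
          rw [hK', ← ratField_map]
          exact ⟨c, c.2, rfl⟩
        have : ι (c • y) * b = (⟨ι (c : Ω), hc⟩ : K') • (ι y * b) := by
          rw [Subfield.smul_def, Subfield.smul_def, smul_eq_mul, smul_eq_mul, map_mul, mul_assoc]
        rw [this]
        exact T.smul_mem _ hy
    -- `T` is stable under multiplication by `ι(Fc)`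
    have stab : ∀ a ∈ Fc, ∀ t ∈ T, ι a * t ∈ T := by
      intro a ha t ht
      refine Submodule.span_induction (p := fun t _ => ι a * t ∈ T) ?_ ?_ ?_ ?_ ht
      · intro z hz
        simp only [Finset.coe_image, Set.mem_image, Finset.mem_coe, Finset.mem_product,
          Finset.mem_image, Prod.exists] at hz
        obtain ⟨_, b, ⟨⟨a₀, ha₀, rfl⟩, hb⟩, rfl⟩ := hz
        have := step1 (a * a₀) (Fc.mul_mem ha (hs₀F ha₀)) b hb
        rwa [map_mul, mul_assoc] at this
      · simp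
      · intro y z _ _ hy hz
        rw [mul_add]
        exact T.add_mem hy hz
      · intro c y _ hy
        have : ι a * c • y = c • (ι a * y) := by
          rw [Subfield.smul_def, Subfield.smul_def, smul_eq_mul, smul_eq_mul]; ring
        rw [this]
        exact T.smul_mem _ hy
    -- step 2: `f ∈ span_{ι Fc} s₁`
    have hf' := hs₁ f hf
    refine Submodule.span_induction (p := fun f _ => f ∈ T) ?_ ?_ ?_ ?_ hf'
    · intro b hb
      have := step1 1 Fc.one_mem b hb
      simpa using this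
    · exact T.zero_mem
    · intro y z _ _ hy hz
      exact T.add_mem hy hz
    · intro c y _ hy
      obtain ⟨a, ha, hac⟩ := Subfield.mem_map.mp c.2
      have : c • y = ι a * y := by
        rw [Subfield.smul_def, smul_eq_mul, hac]
      rw [this]
      exact stab a ha y hy

/-- Unramifiedness outside the branch values climbs the step. -/
theorem StepData.unramified (hs : StepData ι Lc Ec Fc R V w x Fc' V' G)
    (h : GoodModel Lc Ec Fc R V w x S) :
    ∀ O : ValuationSubring Ω', (∀ a ∈ Lc.map ι, a ∈ O) → ∀ c ∈ Lc.map ι,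
      c ∉ S.map ⟨ι, ι.injective⟩ → ι x - c ∈ O → (ι x - c)⁻¹ ∉ O →
      ∀ t ∈ O, t⁻¹ ∉ O → t * (ι x - c)⁻¹ ∈ O := by
  intro O hO c hc hcS hxc hxc' t ht ht'
  obtain ⟨c₀, hc₀, rfl⟩ := hc
  have hc₀S : c₀ ∉ S := fun hmem => hcS (Finset.mem_map.mpr ⟨c₀, hmem, rfl⟩)
  set O₀ : ValuationSubring Ω := O.comap ι with hO₀
  have hmem : ∀ a : Ω, a ∈ O₀ ↔ ι a ∈ O := fun a => Iff.rfl
  have hL : ∀ a ∈ Lc, a ∈ O₀ := fun a ha => (hmem a).mpr (hO _ ⟨a, ha, rfl⟩)
  have h1 : x - c₀ ∈ O₀ := by rw [hmem, map_sub]; exact hxc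
  have h2 : (x - c₀)⁻¹ ∉ O₀ := by rw [hmem, map_inv₀, map_sub]; exact hxc'
  obtain ⟨s, hsO, hsO', hts⟩ := hs.unram O hO t ht ht'
  have h3 : s ∈ O₀ := (hmem s).mpr hsO
  have h4 : s⁻¹ ∉ O₀ := by rw [hmem, map_inv₀]; exact hsO'
  have h5 := h.unramified O₀ hL c₀ hc₀ hc₀S h1 h2 s h3 h4
  rw [hmem, map_mul, map_inv₀, map_sub] at h5
  have hs0 : ι s ≠ 0 := by
    intro h0
    apply hsO'
    rw [h0, inv_zero]
    exact O.zero_mem
  have : t * (ι x - ι c₀)⁻¹ = (t * (ι s)⁻¹) * (ι s * (ι x - ι c₀)⁻¹) := by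
    field_simp
  rw [this]
  exact O.mul_mem _ _ hts h5

theorem StepData.x_transcendental (_hs : StepData ι Lc Ec Fc R V w x Fc' V' G)
    (h : GoodModel Lc Ec Fc R V w x S) : Transcendental (Lc.map ι) (ι x) := by
  intro halg
  exact h.x_transcendental (isAlgebraic_of_map ι halg)

/-- **ONE STEP of the tower of good models.** -/
theorem goodModel_step (h : GoodModel Lc Ec Fc R V w x S)
    (hs : StepData ι Lc Ec Fc R V w x Fc' V' G) :
    GoodModel (Lc.map ι) (Ec.map ι) Fc' (R.map ι) V' (ι w) (ι x) (S.map ⟨ι, ι.injective⟩) where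
  charZero := by
    have _h0 : CharZero Ω := h.charZero
    exact charZero_of_injective_ringHom ι.injective
  R_le := by
    rintro _ ⟨r, hr, rfl⟩
    exact ⟨r, h.R_le hr, rfl⟩
  R_total := by
    rintro _ ⟨e, he, rfl⟩
    rcases h.R_total e he with h1 | h1
    · exact Or.inl ⟨e, h1, rfl⟩
    · exact Or.inr ⟨e⁻¹, h1, map_inv₀ ι e⟩
  w_mem := ⟨w, h.w_mem, rfl⟩
  w_ne_zero := (map_ne_zero ι).mpr h.w_ne_zero
  w_inv_not_mem := by
    rw [← map_inv₀, mem_subring_map_iff]
    exact h.w_inv_not_mem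
  w_gen := by
    rintro _ ⟨r, hr, rfl⟩ hr'
    rw [← map_inv₀, mem_subring_map_iff] at hr'
    rw [← map_inv₀, ← map_mul, mem_subring_map_iff]
    exact h.w_gen r hr hr'
  w_discrete := by
    rintro _ ⟨r, hr, rfl⟩ hr0
    have hr0' : r ≠ 0 := fun h0 => hr0 (by rw [h0, map_zero])
    obtain ⟨n, hn1, hn2⟩ := h.w_discrete r hr hr0'
    refine ⟨n, ?_, ?_⟩
    · rw [← map_inv₀, ← map_pow, ← map_mul, mem_subring_map_iff]
      exact hn1
    · rw [← map_inv₀, ← map_pow, ← map_mul, ← map_inv₀, mem_subring_map_iff]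
      exact hn2
  residue_perfect := by
    obtain ⟨p, hp, hp1, hp2⟩ := h.residue_perfect
    refine ⟨p, hp, ?_, ?_⟩
    · rw [← map_natCast ι p, ← map_inv₀, ← map_mul, mem_subring_map_iff]
      exact hp1
    · rintro _ ⟨r, hr, rfl⟩
      obtain ⟨s, hs1, hs2⟩ := hp2 r hr
      refine ⟨ι s, ⟨s, hs1, rfl⟩, ?_⟩
      rw [← map_pow, ← map_sub, ← map_inv₀, ← map_mul, mem_subring_map_iff]
      exact hs2
  E_le_L := by
    rintro _ ⟨e, he, rfl⟩
    exact ⟨e, h.E_le_L he, rfl⟩
  E_le_F := by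
    rintro _ ⟨e, he, rfl⟩
    exact hs.F_le ⟨e, h.E_le_F he, rfl⟩
  L_algebraic := by
    rintro _ ⟨a, ha, rfl⟩
    exact isAlgebraic_map ι (h.L_algebraic a ha)
  L_algClosed := isAlgClosed_map ι h.L_algClosed
  E_closed_in_F := hs.E_closed
  compositum := hs.compositum
  x_mem := hs.F_le ⟨x, h.x_mem, rfl⟩
  x_transcendental := hs.x_transcendental h
  finite := hs.finite' h
  V_le := hs.V_le
  V_total := hs.V_total
  R_le_V := by
    rintro _ ⟨r, hr, rfl⟩
    exact hs.V_le_V' ⟨r, h.R_le_V hr, rfl⟩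
  w_inv_not_mem_V := hs.w_inv_not_mem
  V_gen := hs.V_gen
  x_mem_V := hs.V_le_V' ⟨x, h.x_mem_V, rfl⟩
  gauss := hs.gauss h
  qep_fin := hs.qep h h.x_mem h.qep_fin
  qep_inf := by
    have := hs.qep h (Fc.inv_mem h.x_mem) h.qep_inf
    rwa [map_inv₀] at this
  separable := hs.separable
  S_mem := by
    intro s hs'
    obtain ⟨s₀, hs₀, rfl⟩ := Finset.mem_map.mp hs'
    exact ⟨s₀, h.S_mem s₀ hs₀, rfl⟩
  S_distinct := by
    intro s hs' t ht' hst
    obtain ⟨s₀, hs₀, rfl⟩ := Finset.mem_map.mp hs'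
    obtain ⟨t₀, ht₀, rfl⟩ := Finset.mem_map.mp ht'
    have hne : s₀ ≠ t₀ := fun he => hst (by rw [he])
    exact ⟨(s₀ - t₀)⁻¹, h.S_distinct s₀ hs₀ t₀ ht₀ hne, by
      simp [map_inv₀, map_sub]⟩
  S_unit := by
    intro s hs' hs0
    obtain ⟨s₀, hs₀, rfl⟩ := Finset.mem_map.mp hs'
    have hne : s₀ ≠ 0 := fun he => hs0 (by simp [he])
    exact ⟨s₀⁻¹, h.S_unit s₀ hs₀ hne, by simp [map_inv₀]⟩
  unramified := hs.unramified h

end Step

end Fermat.Agent.S48.H588

end
-- ===== PACK-END S48/H588/Step.lean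

-- ===== PACK-BEGIN S18/H107/Branch.lean
section



/-!
# helper107 — S18 / M3-T : branch data in valuation-subring form (Mathlib-only)

`Unram107 O z` : `z` generates the maximal ideal of `O` as far as divisibility is concerned
(`∀ s ∈ 𝔪_O, s / z ∈ O`) — the conclusion of `GoodModel.unramified`.
`OrdLe107 O y k` : `ord_O y ≤ k` (`∀ s ∈ 𝔪_O, s ^ k / y ∈ O`).

`unram_of_factor107` : `y = z ^ k * U`, `U` a unit of `O`, `z ∈ 𝔪_O`, `ord_O y ≤ k` ⟹ `ord_O z ≤ 1`.
-/

set_option autoImplicit false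

namespace Fermat.Agent.S18.H107

variable {Ω : Type*} [Field Ω]

/-- `ord_O y ≤ k`, in valuation-subring language. -/
def OrdLe107 (O : ValuationSubring Ω) (y : Ω) (k : ℕ) : Prop :=
  ∀ s ∈ O, s⁻¹ ∉ O → s ^ k * y⁻¹ ∈ O

theorem val_lt_one107 (O : ValuationSubring Ω) {s : Ω} (hs : s ∈ O) (hs' : s⁻¹ ∉ O) :
    O.valuation s < 1 := by
  have h1 : O.valuation s ≤ 1 := (O.valuation_le_one_iff s).2 hs
  refine lt_of_le_of_ne h1 fun h => hs' ?_
  refine (O.valuation_le_one_iff _).1 ?_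
  rw [map_inv₀, h, inv_one]

theorem mem_of_val_lt_one107 (O : ValuationSubring Ω) {s : Ω} (h : O.valuation s < 1) : s ∈ O :=
  (O.valuation_le_one_iff s).1 h.le

theorem inv_not_mem_of_val_lt_one107 (O : ValuationSubring Ω) {s : Ω} (hs0 : s ≠ 0)
    (h : O.valuation s < 1) : s⁻¹ ∉ O := by
  intro hmem
  have h1 : O.valuation s⁻¹ ≤ 1 := (O.valuation_le_one_iff _).2 hmem
  rw [map_inv₀] at h1
  have hpos : 0 < O.valuation s := by
    rw [Valuation.pos_iff]
    exact hs0
  have h2 : (1 : O.ValueGroup) ≤ O.valuation s := by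
    have := (inv_le_one₀ hpos).1 h1
    exact this
  exact absurd h (not_lt.2 h2)

theorem val_eq_one_of_mem107 (O : ValuationSubring Ω) {c : Ω} (hc : c ∈ O) (hc' : c⁻¹ ∈ O)
    (hc0 : c ≠ 0) : O.valuation c = 1 := by
  have h1 : O.valuation c ≤ 1 := (O.valuation_le_one_iff c).2 hc
  have h2 : O.valuation c⁻¹ ≤ 1 := (O.valuation_le_one_iff _).2 hc'
  rw [map_inv₀] at h2
  have hpos : 0 < O.valuation c := by
    rw [Valuation.pos_iff]
    exact hc0
  exact le_antisymm h1 ((inv_le_one₀ hpos).1 h2)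

theorem val_const107 (O : ValuationSubring Ω) (Lc : Subfield Ω) (hL : ∀ a ∈ Lc, a ∈ O) {c : Ω}
    (hc : c ∈ Lc) (hc0 : c ≠ 0) : O.valuation c = 1 :=
  val_eq_one_of_mem107 O (hL c hc) (hL _ (Lc.inv_mem hc)) hc0

theorem val_add_eq_one107 (O : ValuationSubring Ω) {u m : Ω} (hu : O.valuation u = 1)
    (hm : O.valuation m < 1) : O.valuation (u + m) = 1 := by
  rw [← hu]
  exact Valuation.map_add_eq_of_lt_left _ (by rw [hu]; exact hm)

/-- `ord_O y ≤ k` in terms of the valuation. -/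
theorem OrdLe107.val_le {O : ValuationSubring Ω} {y : Ω} {k : ℕ} (h : OrdLe107 O y k)
    (hy : y ≠ 0) {s : Ω} (hs : O.valuation s < 1) : O.valuation s ^ k ≤ O.valuation y := by
  rcases eq_or_ne s 0 with rfl | hs0
  · rcases Nat.eq_zero_or_pos k with rfl | hk
    · -- `k = 0`: need `1 ≤ v y`
      simp only [pow_zero]
      by_contra hlt
      rw [not_le] at hlt
      -- then `y ∈ 𝔪_O`, and `OrdLe` with `s = y` gives `1 * y⁻¹ ∈ O`, contradiction
      have hyO : y ∈ O := mem_of_val_lt_one107 O hlt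
      have hy' : y⁻¹ ∉ O := inv_not_mem_of_val_lt_one107 O hy hlt
      have := h y hyO hy'
      rw [pow_zero, one_mul] at this
      exact hy' this
    · rw [map_zero, zero_pow hk.ne']
      exact zero_le
  · have hsO : s ∈ O := mem_of_val_lt_one107 O hs
    have hs' : s⁻¹ ∉ O := inv_not_mem_of_val_lt_one107 O hs0 hs
    have h1 := (O.valuation_le_one_iff _).2 (h s hsO hs')
    rw [map_mul, map_pow, map_inv₀] at h1
    have hpos : 0 < O.valuation y := by
      rw [Valuation.pos_iff]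
      exact hy
    have := (mul_inv_le_iff₀ hpos).1 h1
    rwa [one_mul] at this

/-- **Key lemma**: `y = z ^ k * U` with `U` a unit at `O`, `z ∈ 𝔪_O`, `ord_O y ≤ k`, `k ≥ 1`
⟹ `z` is a uniformiser of `O`. -/
theorem unram_of_factor107 (O : ValuationSubring Ω) {y z U : Ω} {k : ℕ} (hk : k ≠ 0)
    (hy : y = z ^ k * U) (hU : O.valuation U = 1) (hz0 : z ≠ 0)
    (hord : OrdLe107 O y k) : OrdLe107 O z 1 := by
  intro s hs hs'
  have hsv := val_lt_one107 O hs hs'
  have hU0 : U ≠ 0 := by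
    intro h0
    rw [h0, map_zero] at hU
    exact zero_ne_one hU
  have hy0 : y ≠ 0 := by
    rw [hy]
    exact mul_ne_zero (pow_ne_zero _ hz0) hU0
  have h1 := hord.val_le hy0 hsv
  rw [hy, map_mul, map_pow, hU, mul_one] at h1
  have h2 : O.valuation s ≤ O.valuation z := le_of_pow_le_pow_left₀ hk zero_le h1
  refine (O.valuation_le_one_iff _).1 ?_
  rw [pow_one, map_mul, map_inv₀]
  have hpos : 0 < O.valuation z := by
    rw [Valuation.pos_iff]
    exact hz0
  rw [mul_inv_le_iff₀ hpos, one_mul]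
  exact h2

theorem OrdLe107.one_iff {O : ValuationSubring Ω} {z : Ω} :
    OrdLe107 O z 1 ↔ ∀ s ∈ O, s⁻¹ ∉ O → s * z⁻¹ ∈ O := by
  unfold OrdLe107
  simp only [pow_one]

/-- The branch data of the `j`-line needed for the Hauptmodul transfers: `Ω / Lc(j)` is unramified
outside `0, 1728, ∞`, with ramification index `≤ 3` over `0` and `≤ 2` over `1728`. -/
structure BranchJ107 (Lc : Subfield Ω) (j : Ω) : Prop where
  generic : ∀ O : ValuationSubring Ω, (∀ a ∈ Lc, a ∈ O) → ∀ a ∈ Lc, a ≠ 0 → a ≠ 1728 →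
    j - a ∈ O → (j - a)⁻¹ ∉ O → OrdLe107 O (j - a) 1
  zero : ∀ O : ValuationSubring Ω, (∀ a ∈ Lc, a ∈ O) → j ∈ O → j⁻¹ ∉ O → OrdLe107 O j 3
  c1728 : ∀ O : ValuationSubring Ω, (∀ a ∈ Lc, a ∈ O) → j - 1728 ∈ O → (j - 1728)⁻¹ ∉ O →
    OrdLe107 O (j - 1728) 2

end Fermat.Agent.S18.H107

end
-- ===== PACK-END S18/H107/Branch.lean

-- ===== PACK-BEGIN S48/H248/IVNormal.lean
section


/-!
# S48 / RES (Tower A1) / node IGUSA1, piece I-V (helper248) — part 2: normal form

For a uniformiser `w₀` of the discrete valuation ring `A ∩ E` (`IsUnifG`):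

* `exists_normalise`   : a nonzero integral series is `w₀ ^ k` times an integral series with
                          nonzero reduction;
* `IsRatio`            : `f` is a quotient of two integral series (no condition on reductions);
  `isRatio_of_mem_closure` : every element of a field generated over `E` by quotients of integral
                          series is such a quotient;
* `V_discrete`, `V_total`, `V_gen`, `VRing_inf` (`V_{F'} ∩ F = V_F`).
-/

set_option autoImplicit false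

noncomputable section

namespace Fermat.Agent.S48.H248

open HahnSeries ModularCurve

variable {K : Type*} [Field K] {A : ValuationSubring K} {E : Subfield K}
variable {Ω : Type*} [Field Ω] {ι : Ω →+* LaurentSeries K} {F : Subfield Ω}

/-- `w₀` is a uniformiser of the discrete valuation ring `A ∩ E`. -/
structure IsUnifG (A : ValuationSubring K) (E : Subfield K) (w₀ : K) : Prop where
  mem_A : w₀ ∈ A
  mem_E : w₀ ∈ E
  ne_zero : w₀ ≠ 0
  inv_not_mem : w₀⁻¹ ∉ A
  discrete : ∀ c, c ∈ A → c ∈ E → c ≠ 0 →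
    ∃ n : ℕ, c * (w₀⁻¹) ^ n ∈ A ∧ (c * (w₀⁻¹) ^ n)⁻¹ ∈ A

theorem IsUnifG.gen {w₀ : K} (hw : IsUnifG A E w₀) (c : K) (hcA : c ∈ A) (hcE : c ∈ E)
    (hinv : c⁻¹ ∉ A) : c * w₀⁻¹ ∈ A := by
  by_cases hc0 : c = 0
  · rw [hc0, zero_mul]; exact A.zero_mem
  obtain ⟨n, h1, h2⟩ := hw.discrete c hcA hcE hc0
  cases n with
  | zero =>
    exfalso
    apply hinv
    simpa using h2
  | succ n =>
    have : c * w₀⁻¹ = c * (w₀⁻¹) ^ (n + 1) * w₀ ^ n := by
      rw [pow_succ, inv_pow]
      field_simp [hw.ne_zero]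
    rw [this]
    exact A.mul_mem _ _ h1 (pow_mem hw.mem_A n)

section Constants

variable (cst : K →+* Ω) (hcst : ∀ c : K, ι (cst c) = HahnSeries.C c)
  (hEF : ∀ c ∈ E, cst c ∈ F)

include hcst hEF

/-- Dividing an integral series with zero reduction by the uniformiser. -/
theorem exists_div_unifG {w₀ : K} (hw : IsUnifG A E w₀) {U : LaurentSeries A}
    (hU : IsInt A E ι F U) (hred : ivRed A U = 0) :
    ∃ U' : LaurentSeries A, IsInt A E ι F U' ∧ ivInc A U = HahnSeries.C w₀ * ivInc A U' := by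
  have hcoef : ∀ n, (HahnSeries.C (w₀⁻¹) * ivInc A U).coeff n ∈ A := by
    intro n
    rw [HahnSeries.C_mul_eq_smul, HahnSeries.coeff_smul, ivInc_coeff, smul_eq_mul, mul_comm]
    have hm := (ivRed_eq_zero_iff U).mp hred n
    rcases (iv_mem_maximalIdeal_iff _).mp hm with h0 | hni
    · rw [h0, zero_mul]; exact A.zero_mem
    · exact hw.gen _ (U.coeff n).2 (hU.1 n) hni
  obtain ⟨U', hU'⟩ := exists_ivInc_eq hcoef
  obtain ⟨f, hf, hfU⟩ := hU.2
  refine ⟨U', ⟨fun n => ?_, (cst w₀)⁻¹ * f, ?_, ?_⟩, ?_⟩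
  · rw [← ivInc_coeff, hU', HahnSeries.C_mul_eq_smul, HahnSeries.coeff_smul, smul_eq_mul]
    exact E.mul_mem (E.inv_mem hw.mem_E) (hU.coeff_mem n)
  · exact mul_mem (inv_mem (hEF _ hw.mem_E)) hf
  · rw [map_mul, map_inv₀, hcst, hfU, hU', ← map_inv₀]
  · rw [hU', ← mul_assoc, ← map_mul, mul_inv_cancel₀ hw.ne_zero, map_one, one_mul]

/-- Auxiliary induction for `exists_normalise`. -/
theorem exists_normalise_aux {w₀ : K} (hw : IsUnifG A E w₀) (m : ℕ) :
    ∀ U : LaurentSeries A, IsInt A E ι F U →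
      (∃ n₀ : ℤ, ((U.coeff n₀ : A) : K) * (w₀⁻¹) ^ m ∈ A ∧
        (((U.coeff n₀ : A) : K) * (w₀⁻¹) ^ m)⁻¹ ∈ A ∧ ((U.coeff n₀ : A) : K) ≠ 0) →
      ∃ (k : ℕ) (U' : LaurentSeries A), IsInt A E ι F U' ∧ ivRed A U' ≠ 0 ∧
        ivInc A U = HahnSeries.C w₀ ^ k * ivInc A U' := by
  induction m with
  | zero =>
    rintro U hU ⟨n₀, -, h2, h3⟩
    refine ⟨0, U, hU, ?_, by rw [pow_zero, one_mul]⟩
    intro hred
    have hm := (ivRed_eq_zero_iff U).mp hred n₀
    rcases (iv_mem_maximalIdeal_iff _).mp hm with h0 | hni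
    · exact h3 h0
    · apply hni
      simpa using h2
  | succ m ih =>
    rintro U hU ⟨n₀, h1, h2, h3⟩
    by_cases hred : ivRed A U = 0
    · obtain ⟨U₁, hU₁, hUU₁⟩ := exists_div_unifG cst hcst hEF hw hU hred
      have hc : ((U.coeff n₀ : A) : K) = w₀ * ((U₁.coeff n₀ : A) : K) := by
        have := congrArg (fun z => z.coeff n₀) hUU₁
        simpa only [HahnSeries.C_mul_eq_smul, HahnSeries.coeff_smul, ivInc_coeff, smul_eq_mul]
          using this
      have hc' : ((U₁.coeff n₀ : A) : K) * (w₀⁻¹) ^ m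
          = ((U.coeff n₀ : A) : K) * (w₀⁻¹) ^ (m + 1) := by
        rw [hc, pow_succ]
        field_simp [hw.ne_zero]
      have h3' : ((U₁.coeff n₀ : A) : K) ≠ 0 := by
        intro h0
        apply h3
        rw [hc, h0, mul_zero]
      obtain ⟨k, U', hU', hr', hk⟩ := ih U₁ hU₁ ⟨n₀, by rw [hc']; exact h1,
        by rw [hc']; exact h2, h3'⟩
      refine ⟨k + 1, U', hU', hr', ?_⟩
      rw [hUU₁, hk, pow_succ]
      ring
    · exact ⟨0, U, hU, hred, by rw [pow_zero, one_mul]⟩

/-- **Normal form**: a nonzero integral series is `w₀ ^ k` times an integral series with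
nonzero reduction. -/
theorem exists_normalise {w₀ : K} (hw : IsUnifG A E w₀) {U : LaurentSeries A}
    (hU : IsInt A E ι F U) (hU0 : ivInc A U ≠ 0) :
    ∃ (k : ℕ) (U' : LaurentSeries A), IsInt A E ι F U' ∧ ivRed A U' ≠ 0 ∧
      ivInc A U = HahnSeries.C w₀ ^ k * ivInc A U' := by
  obtain ⟨n₀, hn₀⟩ : ∃ n₀ : ℤ, (ivInc A U).coeff n₀ ≠ 0 := by
    by_contra hcon
    apply hU0
    ext n
    by_contra hn
    exact hcon ⟨n, hn⟩
  rw [ivInc_coeff] at hn₀
  obtain ⟨m, h1, h2⟩ := hw.discrete _ (U.coeff n₀).2 (hU.1 n₀) hn₀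
  exact exists_normalise_aux cst hcst hEF hw m U hU ⟨n₀, h1, h2, hn₀⟩

end Constants

/-! ### Quotients of integral series -/

variable (A E ι F) in
/-- `f` is a quotient of two integral series of `F`. -/
def IsRatio (f : Ω) : Prop :=
  ∃ U₁ U₂ : LaurentSeries A, IsInt A E ι F U₁ ∧ IsInt A E ι F U₂ ∧ ivInc A U₂ ≠ 0 ∧
    ι f * ivInc A U₂ = ivInc A U₁

theorem IsRatio.mono {F' : Subfield Ω} (hF : F ≤ F') {f : Ω} (h : IsRatio A E ι F f) :
    IsRatio A E ι F' f := by
  obtain ⟨U₁, U₂, h₁, h₂, h0, hf⟩ := h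
  exact ⟨U₁, U₂, h₁.mono hF, h₂.mono hF, h0, hf⟩

theorem isRatio_of_mem_VRing {f : Ω} (h : f ∈ VRing A E ι F) : IsRatio A E ι F f := by
  obtain ⟨-, U₁, U₂, h₁, h₂, hr, hf⟩ := h
  exact ⟨U₁, U₂, h₁, h₂, ivRed_ne_zero_imp_ivInc_ne_zero hr, hf⟩

theorem isRatio_of_isInt {f : Ω} {U : LaurentSeries A} (hU : IsInt A E ι F U)
    (hf : ι f = ivInc A U) : IsRatio A E ι F f :=
  ⟨U, 1, hU, isInt_one, by rw [map_one]; exact one_ne_zero, by rw [map_one, mul_one, hf]⟩

theorem isRatio_zero : IsRatio A E ι F 0 := isRatio_of_isInt isInt_zero (by simp)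

theorem isRatio_one : IsRatio A E ι F 1 := isRatio_of_isInt isInt_one (by simp)

theorem IsRatio.add {f g : Ω} (hf : IsRatio A E ι F f) (hg : IsRatio A E ι F g) :
    IsRatio A E ι F (f + g) := by
  obtain ⟨U₁, U₂, h₁, h₂, hr, hfU⟩ := hf
  obtain ⟨W₁, W₂, k₁, k₂, kr, hgW⟩ := hg
  refine ⟨U₁ * W₂ + W₁ * U₂, U₂ * W₂, IsInt.add (IsInt.mul h₁ k₂) (IsInt.mul k₁ h₂),
    IsInt.mul h₂ k₂, ?_, ?_⟩
  · rw [map_mul]; exact mul_ne_zero hr kr
  · rw [map_add, map_mul, map_add, map_mul, map_mul, ← hfU, ← hgW]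
    ring

theorem IsRatio.mul {f g : Ω} (hf : IsRatio A E ι F f) (hg : IsRatio A E ι F g) :
    IsRatio A E ι F (f * g) := by
  obtain ⟨U₁, U₂, h₁, h₂, hr, hfU⟩ := hf
  obtain ⟨W₁, W₂, k₁, k₂, kr, hgW⟩ := hg
  refine ⟨U₁ * W₁, U₂ * W₂, IsInt.mul h₁ k₁, IsInt.mul h₂ k₂, ?_, ?_⟩
  · rw [map_mul]; exact mul_ne_zero hr kr
  · rw [map_mul, map_mul, map_mul, ← hfU, ← hgW]
    ring

theorem IsRatio.neg {f : Ω} (hf : IsRatio A E ι F f) : IsRatio A E ι F (-f) := by
  obtain ⟨U₁, U₂, h₁, h₂, hr, hfU⟩ := hf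
  refine ⟨-U₁, U₂, IsInt.neg h₁, h₂, hr, ?_⟩
  rw [map_neg, map_neg, ← hfU]
  ring

theorem IsRatio.inv {f : Ω} (hf : IsRatio A E ι F f) : IsRatio A E ι F f⁻¹ := by
  by_cases hf0 : f = 0
  · rw [hf0, inv_zero]; exact isRatio_zero
  obtain ⟨U₁, U₂, h₁, h₂, hr, hfU⟩ := hf
  have hιf : ι f ≠ 0 := (map_ne_zero ι).mpr hf0
  refine ⟨U₂, U₁, h₂, h₁, ?_, ?_⟩
  · rw [← hfU]; exact mul_ne_zero hιf hr
  · rw [← hfU, map_inv₀, ← mul_assoc, inv_mul_cancel₀ hιf, one_mul]

section Constants

variable (cst : K →+* Ω) (hcst : ∀ c : K, ι (cst c) = HahnSeries.C c)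
  (hEF : ∀ c ∈ E, cst c ∈ F)

include hcst hEF

theorem isRatio_cst {c : K} (hc : c ∈ E) : IsRatio A E ι F (cst c) := by
  rcases A.mem_or_inv_mem c with hA | hA
  · exact isRatio_of_isInt (U := HahnSeries.C (⟨c, hA⟩ : A)) (isInt_C cst hcst hEF hc)
      (by rw [hcst, ivInc_C])
  · have h := isRatio_of_isInt (f := cst c⁻¹) (U := HahnSeries.C (⟨c⁻¹, hA⟩ : A))
      (isInt_C cst hcst hEF (E.inv_mem hc)) (by rw [hcst, ivInc_C])
    have h' := h.inv
    rwa [← map_inv₀, inv_inv] at h'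

/-- Every element of a field generated over `E` by quotients of integral series is a quotient
of integral series. -/
theorem isRatio_of_mem_closure (S : Set Ω) (hS : ∀ s ∈ S, IsRatio A E ι F s) {f : Ω}
    (hf : f ∈ Subfield.closure ((EcG E cst : Set Ω) ∪ S)) : IsRatio A E ι F f := by
  induction hf using Subfield.closure_induction with
  | mem x hx =>
    rcases hx with hx | hx
    · obtain ⟨c, hc, rfl⟩ := (mem_EcG_iff cst).mp hx
      exact isRatio_cst cst hcst hEF hc
    · exact hS x hx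
  | one => exact isRatio_one
  | add x y _ _ hx hy => exact hx.add hy
  | neg x _ hx => exact hx.neg
  | inv x _ hx => exact hx.inv
  | mul x y _ _ hx hy => exact hx.mul hy

/-- field `V_discrete` of `IgusaData`. -/
theorem V_discrete {w₀ : K} (hw : IsUnifG A E w₀) {f : Ω} (hfF : f ∈ F)
    (hf : IsRatio A E ι F f) (hf0 : f ≠ 0) :
    ∃ n : ℤ, f * cst w₀ ^ n ∈ VRing A E ι F ∧ (f * cst w₀ ^ n)⁻¹ ∈ VRing A E ι F := by
  obtain ⟨U₁, U₂, h₁, h₂, hr, hfU⟩ := hf
  have hιf : ι f ≠ 0 := (map_ne_zero ι).mpr hf0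
  have hU₁0 : ivInc A U₁ ≠ 0 := by rw [← hfU]; exact mul_ne_zero hιf hr
  obtain ⟨k₁, V₁, hV₁, hr₁, hk₁⟩ := exists_normalise cst hcst hEF hw h₁ hU₁0
  obtain ⟨k₂, V₂, hV₂, hr₂, hk₂⟩ := exists_normalise cst hcst hEF hw h₂ hr
  have hw0 : cst w₀ ≠ 0 := (map_ne_zero cst).mpr hw.ne_zero
  have hCw0 : (HahnSeries.C w₀ : LaurentSeries K) ≠ 0 := by
    rw [← hcst]; exact (map_ne_zero ι).mpr hw0
  have hwF : cst w₀ ∈ F := hEF _ hw.mem_E
  have hmem : f * cst w₀ ^ ((k₂ : ℤ) - k₁) ∈ F := mul_mem hfF (zpow_mem hwF _)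
  have hkey : ι (f * cst w₀ ^ ((k₂ : ℤ) - k₁)) * ivInc A V₂ = ivInc A V₁ := by
    rw [map_mul, map_zpow₀, hcst, zpow_sub₀ hCw0, zpow_natCast, zpow_natCast]
    have h := hfU
    rw [hk₁, hk₂] at h
    have hp1 : (HahnSeries.C w₀ : LaurentSeries K) ^ k₁ ≠ 0 := pow_ne_zero _ hCw0
    field_simp
    rw [← h]
    ring
  refine ⟨(k₂ : ℤ) - k₁, ⟨hmem, V₁, V₂, hV₁, hV₂, hr₂, hkey⟩,
    ⟨inv_mem hmem, V₂, V₁, hV₂, hV₁, hr₁, ?_⟩⟩
  have hne : ι (f * cst w₀ ^ ((k₂ : ℤ) - k₁)) ≠ 0 :=
    (map_ne_zero ι).mpr (mul_ne_zero hf0 (zpow_ne_zero _ hw0))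
  rw [← hkey, map_inv₀, ← mul_assoc, inv_mul_cancel₀ hne, one_mul]

/-- `w ∈ V`. -/
theorem cst_unif_mem_VRing {w₀ : K} (hw : IsUnifG A E w₀) : cst w₀ ∈ VRing A E ι F :=
  RcG_le_VRing cst hcst hEF ((mem_RcG_iff cst).mpr ⟨w₀, hw.mem_A, hw.mem_E, rfl⟩)

/-- If `u` is a unit of `V` and `u * w ^ n ∈ V`, then `0 ≤ n`. -/
theorem nonneg_of_unit_mul_zpow_mem {w₀ : K} (hw : IsUnifG A E w₀) {u : Ω} {n : ℤ}
    (hu : u⁻¹ ∈ VRing A E ι F) (hu0 : u ≠ 0) (h : u * cst w₀ ^ n ∈ VRing A E ι F) : 0 ≤ n := by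
  by_contra hn
  rw [not_le] at hn
  have hw0 : cst w₀ ≠ 0 := (map_ne_zero cst).mpr hw.ne_zero
  have h1 : cst w₀ ^ n ∈ VRing A E ι F := by
    have := (VRing A E ι F).mul_mem hu h
    rwa [← mul_assoc, inv_mul_cancel₀ hu0, one_mul] at this
  obtain ⟨m, hm⟩ : ∃ m : ℕ, n = -((m : ℤ) + 1) := ⟨(-n - 1).toNat, by omega⟩
  have h2 : (cst w₀)⁻¹ = cst w₀ ^ n * cst w₀ ^ m := by
    rw [hm, zpow_neg, zpow_add₀ hw0, zpow_natCast, zpow_one]
    field_simp
  apply w_inv_not_mem_VRing (E := E) (ι := ι) (F := F) cst hcst hw.ne_zero hw.inv_not_mem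
  rw [h2]
  exact (VRing A E ι F).mul_mem h1 (pow_mem (cst_unif_mem_VRing cst hcst hEF hw) m)

/-- field `V_total`. -/
theorem V_total {w₀ : K} (hw : IsUnifG A E w₀) {f : Ω} (hfF : f ∈ F)
    (hf : IsRatio A E ι F f) : f ∈ VRing A E ι F ∨ f⁻¹ ∈ VRing A E ι F := by
  by_cases hf0 : f = 0
  · left; rw [hf0]; exact zero_mem _
  obtain ⟨n, h1, h2⟩ := V_discrete cst hcst hEF hw hfF hf hf0
  have hw0 : cst w₀ ≠ 0 := (map_ne_zero cst).mpr hw.ne_zero
  have hwV := cst_unif_mem_VRing (ι := ι) (F := F) cst hcst hEF hw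
  rcases le_or_gt n 0 with hn | hn
  · left
    obtain ⟨m, hm⟩ : ∃ m : ℕ, n = -(m : ℤ) := ⟨(-n).toNat, by omega⟩
    have : f = f * cst w₀ ^ n * cst w₀ ^ m := by
      rw [hm, zpow_neg, zpow_natCast]
      field_simp
    rw [this]
    exact (VRing A E ι F).mul_mem h1 (pow_mem hwV m)
  · right
    obtain ⟨m, hm⟩ : ∃ m : ℕ, n = (m : ℤ) := ⟨n.toNat, by omega⟩
    have : f⁻¹ = (f * cst w₀ ^ n)⁻¹ * cst w₀ ^ m := by
      rw [hm, zpow_natCast]
      field_simp
    rw [this]
    exact (VRing A E ι F).mul_mem h2 (pow_mem hwV m)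

/-- field `V_gen` of `GoodModel`. -/
theorem V_gen {w₀ : K} (hw : IsUnifG A E w₀) {f : Ω} (hf : f ∈ VRing A E ι F)
    (hinv : f⁻¹ ∉ VRing A E ι F) : f * (cst w₀)⁻¹ ∈ VRing A E ι F := by
  have hf0 : f ≠ 0 := by
    rintro rfl
    apply hinv
    rw [inv_zero]; exact zero_mem _
  obtain ⟨n, h1, h2⟩ := V_discrete cst hcst hEF hw hf.1 (isRatio_of_mem_VRing hf) hf0
  have hw0 : cst w₀ ≠ 0 := (map_ne_zero cst).mpr hw.ne_zero
  have hwV := cst_unif_mem_VRing (ι := ι) (F := F) cst hcst hEF hw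
  set u := f * cst w₀ ^ n with hu
  have hu0 : u ≠ 0 := mul_ne_zero hf0 (zpow_ne_zero _ hw0)
  have hfu : f = u * cst w₀ ^ (-n) := by
    rw [hu, zpow_neg]
    field_simp
  have hn : 0 ≤ -n := nonneg_of_unit_mul_zpow_mem cst hcst hEF hw h2 hu0 (hfu ▸ hf)
  have hn' : -n ≠ 0 := by
    intro h0
    apply hinv
    rw [hfu, h0, zpow_zero, mul_one]
    exact h2
  obtain ⟨m, hm⟩ : ∃ m : ℕ, -n = (m : ℤ) + 1 := ⟨(-n - 1).toNat, by omega⟩
  have : f * (cst w₀)⁻¹ = u * cst w₀ ^ m := by
    rw [hfu, hm, zpow_add₀ hw0, zpow_natCast, zpow_one]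
    field_simp
  rw [this]
  exact (VRing A E ι F).mul_mem h1 (pow_mem hwV m)

/-- `V_{F'} ∩ F = V_F` for `F ≤ F'` (on quotients of integral series of `F`). -/
theorem mem_VRing_of_mem_of_le {w₀ : K} (hw : IsUnifG A E w₀) {F' : Subfield Ω} (hF : F ≤ F')
    {f : Ω} (hfF : f ∈ F) (hf : IsRatio A E ι F f) (hfV : f ∈ VRing A E ι F') :
    f ∈ VRing A E ι F := by
  by_cases hf0 : f = 0
  · rw [hf0]; exact zero_mem _
  obtain ⟨n, h1, h2⟩ := V_discrete cst hcst hEF hw hfF hf hf0
  have hw0 : cst w₀ ≠ 0 := (map_ne_zero cst).mpr hw.ne_zero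
  have hwV := cst_unif_mem_VRing (ι := ι) (F := F) cst hcst hEF hw
  set u := f * cst w₀ ^ n with hu
  have hu0 : u ≠ 0 := mul_ne_zero hf0 (zpow_ne_zero _ hw0)
  have hfu : f = u * cst w₀ ^ (-n) := by
    rw [hu, zpow_neg]
    field_simp
  have hEF' : ∀ c ∈ E, cst c ∈ F' := fun c hc => hF (hEF c hc)
  have hn : 0 ≤ -n := nonneg_of_unit_mul_zpow_mem (F := F') cst hcst hEF' hw
    (VRing_mono hF h2) hu0 (hfu ▸ hfV)
  obtain ⟨m, hm⟩ : ∃ m : ℕ, -n = (m : ℤ) := ⟨(-n).toNat, by omega⟩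
  rw [hfu, hm, zpow_natCast]
  exact (VRing A E ι F).mul_mem h1 (pow_mem hwV m)

end Constants

end Fermat.Agent.S48.H248

end
end
-- ===== PACK-END S48/H248/IVNormal.lean

-- ===== PACK-BEGIN S48/H248/IVGauss.lean
section


/-!
# S48 / RES (Tower A1) / node IGUSA1, piece I-V (helper248) — part 3: the Gauss property

Let `x ∈ F` be the expansion of an integral series `X₀` having a coefficient of NEGATIVE index
which is a unit of `A` (`x = j`: `X₀ = X^{-M} + 744 + …`; `x = t₂, t₃`: `X₀ = q⁻¹ + …`).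
Then the reduction of `x` is transcendental over the residue field, hence

* `gauss`   : a polynomial in `x` with coefficients in `R = A ∩ E`, one of them a unit, is a unit
              of `V` (field `gauss` of `S18.Alg.GoodModel` and of `H856.IgusaData`);
* `x_mem_V` : `x ∈ V`.
-/

set_option autoImplicit false

noncomputable section

namespace Fermat.Agent.S48.H248

open HahnSeries ModularCurve

variable {K : Type*} [Field K] {A : ValuationSubring K} {E : Subfield K}
variable {Ω : Type*} [Field Ω] {ι : Ω →+* LaurentSeries K} {F : Subfield Ω}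

theorem IsInt.sum {α : Type*} (s : Finset α) (U : α → LaurentSeries A)
    (h : ∀ i ∈ s, IsInt A E ι F (U i)) : IsInt A E ι F (∑ i ∈ s, U i) := by
  classical
  induction s using Finset.induction_on with
  | empty => rw [Finset.sum_empty]; exact isInt_zero
  | insert a s ha ih =>
    rw [Finset.sum_insert ha]
    exact IsInt.add (h a (Finset.mem_insert_self a s))
      (ih fun i hi => h i (Finset.mem_insert_of_mem hi))

/-- A Laurent series over a field with a nonzero coefficient of negative index is not a root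
of a nonzero "polynomial" `∑ i ≤ n, c i • y ^ i`. -/
theorem sum_smul_pow_ne_zero {κ : Type*} [Field κ] (y : LaurentSeries κ) (hy : y.order < 0)
    (n : ℕ) (c : ℕ → κ) (hc : ∃ i ∈ Finset.range (n + 1), c i ≠ 0) :
    ∑ i ∈ Finset.range (n + 1), HahnSeries.C (c i) * y ^ i ≠ 0 := by
  classical
  have hy0 : y ≠ 0 := by
    rintro rfl
    simp at hy
  set T := (Finset.range (n + 1)).filter fun i => c i ≠ 0 with hT
  have hTne : T.Nonempty := by
    obtain ⟨i, hi, hci⟩ := hc
    exact ⟨i, Finset.mem_filter.mpr ⟨hi, hci⟩⟩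
  set d := T.max' hTne with hd
  have hdT : d ∈ T := Finset.max'_mem T hTne
  have hdr : d ∈ Finset.range (n + 1) := (Finset.mem_filter.mp hdT).1
  have hcd : c d ≠ 0 := (Finset.mem_filter.mp hdT).2
  intro h0
  have hcoef := congrArg (fun z => z.coeff (d • y.order)) h0
  simp only [HahnSeries.coeff_sum, HahnSeries.C_mul_eq_smul, HahnSeries.coeff_smul,
    smul_eq_mul, HahnSeries.coeff_zero] at hcoef
  rw [Finset.sum_eq_single d] at hcoef
  · have h1 : (y ^ d).coeff (d • y.order) ≠ 0 := by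
      rw [← HahnSeries.order_pow, ← HahnSeries.leadingCoeff_eq]
      exact HahnSeries.leadingCoeff_ne_zero.mpr (pow_ne_zero d hy0)
    exact mul_ne_zero hcd h1 hcoef
  · intro i hi hid
    by_cases hci : c i = 0
    · rw [hci, zero_mul]
    · have hiT : i ∈ T := Finset.mem_filter.mpr ⟨hi, hci⟩
      have hle : i ≤ d := Finset.le_max' T i hiT
      have hlt : i < d := lt_of_le_of_ne hle hid
      have : (y ^ i).coeff (d • y.order) = 0 := by
        apply HahnSeries.coeff_eq_zero_of_lt_order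
        rw [HahnSeries.order_pow]
        rw [nsmul_eq_mul, nsmul_eq_mul]
        have h2 : (i : ℤ) < d := by exact_mod_cast hlt
        nlinarith
      rw [this, mul_zero]
  · intro h
    exact absurd hdr h

section Constants

variable (cst : K →+* Ω) (hcst : ∀ c : K, ι (cst c) = HahnSeries.C c)
  (hEF : ∀ c ∈ E, cst c ∈ F)

/-- field `x_mem_V`. -/
theorem x_mem_VRing {x : Ω} {X₀ : LaurentSeries A} (hX₀ : IsInt A E ι F X₀)
    (hx : ι x = ivInc A X₀) : x ∈ VRing A E ι F :=
  mem_VSet_of_isInt hX₀ hx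

include hcst hEF

/-- field `gauss` of `GoodModel` / `IgusaData`. -/
theorem gauss {x : Ω} {X₀ : LaurentSeries A} (hX₀ : IsInt A E ι F X₀)
    (hx : ι x = ivInc A X₀) (n₀ : ℤ) (hn₀ : n₀ < 0) (hne : ((X₀.coeff n₀ : A) : K) ≠ 0)
    (hunit : ((X₀.coeff n₀ : A) : K)⁻¹ ∈ A)
    (P : Polynomial Ω) (hP : ∀ i, P.coeff i ∈ RcG A E cst)
    (hPu : ∃ i, P.coeff i ≠ 0 ∧ (P.coeff i)⁻¹ ∈ RcG A E cst) :
    (P.eval x)⁻¹ ∈ VRing A E ι F := by
  classical
  have hxF : x ∈ F := by
    obtain ⟨g, hg, hgU⟩ := hX₀.2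
    have : x = g := ι.injective (by rw [hx, hgU])
    rw [this]; exact hg
  -- choose the coefficients
  have hch : ∀ i, ∃ c : K, c ∈ A ∧ c ∈ E ∧ cst c = P.coeff i := fun i =>
    (mem_RcG_iff cst).mp (hP i)
  choose c hcA hcE hcP using hch
  set n := P.natDegree with hn
  set U : LaurentSeries A :=
    ∑ i ∈ Finset.range (n + 1), HahnSeries.C (⟨c i, hcA i⟩ : A) * X₀ ^ i with hU
  have hUint : IsInt A E ι F U :=
    IsInt.sum _ _ fun i _ => IsInt.mul (isInt_C cst hcst hEF (hcE i)) (hX₀.pow i)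
  have hUval : ivInc A U = ι (P.eval x) := by
    rw [Polynomial.eval_eq_sum_range, hU, map_sum, map_sum]
    refine Finset.sum_congr rfl fun i _ => ?_
    rw [map_mul, map_mul, map_pow, map_pow, ivInc_C, ← hcP i, hcst, hx]
  -- the reduction
  have hred : ivRed A U ≠ 0 := by
    rw [hU, map_sum]
    have hterm : ∀ i ∈ Finset.range (n + 1),
        ivRed A (HahnSeries.C (⟨c i, hcA i⟩ : A) * X₀ ^ i)
          = HahnSeries.C (IsLocalRing.residue A ⟨c i, hcA i⟩) * (ivRed A X₀) ^ i := by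
      intro i _
      rw [map_mul, map_pow, ivRed_C]
    rw [Finset.sum_congr rfl hterm]
    apply sum_smul_pow_ne_zero
    · -- the reduction of `X₀` has negative order
      have hcoef : (ivRed A X₀).coeff n₀ ≠ 0 := by
        rw [ivRed_coeff, Ne, IsLocalRing.residue_eq_zero_iff, iv_mem_maximalIdeal_iff]
        rintro (h | h)
        · exact hne h
        · exact h hunit
      exact lt_of_le_of_lt (HahnSeries.order_le_of_coeff_ne_zero hcoef) hn₀
    · obtain ⟨i, hi0, hiu⟩ := hPu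
      have hin : i ∈ Finset.range (n + 1) := by
        rw [Finset.mem_range, Nat.lt_succ_iff]
        exact Polynomial.le_natDegree_of_ne_zero hi0
      refine ⟨i, hin, ?_⟩
      rw [Ne, IsLocalRing.residue_eq_zero_iff, iv_mem_maximalIdeal_iff]
      obtain ⟨e, heA, -, hec⟩ := (mem_RcG_iff cst).mp hiu
      have hci0 : c i ≠ 0 := by
        intro h0
        apply hi0
        rw [← hcP i, h0, map_zero]
      have he : e = (c i)⁻¹ := by
        apply cst.injective
        rw [hec, ← hcP i, map_inv₀]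
      rintro (h | h)
      · exact hci0 h
      · apply h
        show (c i)⁻¹ ∈ A
        rw [← he]; exact heA
  have hPF : P.eval x ∈ F := by
    rw [Polynomial.eval_eq_sum_range]
    refine F.sum_mem fun i _ => F.mul_mem ?_ (F.pow_mem hxF i)
    rw [← hcP i]
    exact hEF _ (hcE i)
  have hne0 : ι (P.eval x) ≠ 0 := by
    rw [← hUval]
    exact ivRed_ne_zero_imp_ivInc_ne_zero hred
  refine ⟨inv_mem hPF, 1, U, isInt_one, hUint, hred, ?_⟩
  rw [hUval, map_one, map_inv₀, inv_mul_cancel₀ hne0]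

end Constants

/-! ### Stability of `V` under the twist `X ↦ ζ X` (piece I-TV) -/

section Twist

variable (t : Ω ≃+* Ω) (ζ : K)

/-- field `t_V` of `IgusaData`: an automorphism `t` of `Ω` preserving `F` and acting on
expansions by `X ↦ ζ X` (`ζ` a unit of `A ∩ E`) preserves the Gauss valuation ring. -/
theorem twist_mem_VRing (hζA : ζ ∈ A) (hζE : ζ ∈ E) (hζ0 : ζ ≠ 0) (hζinv : ζ⁻¹ ∈ A)
    (ht : ∀ (f : Ω) (n : ℤ), (ι (t f)).coeff n = ζ ^ n * (ι f).coeff n)
    (htF : ∀ f ∈ F, t f ∈ F) {f : Ω} (hf : f ∈ VRing A E ι F) : t f ∈ VRing A E ι F := by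
  obtain ⟨hfF, U₁, U₂, h₁, h₂, hr, hfU⟩ := hf
  have hζn : ∀ n : ℤ, ζ ^ n ∈ A ∧ ζ ^ n ∈ E := by
    intro n
    constructor
    · cases n with
      | ofNat k => rw [Int.ofNat_eq_natCast, zpow_natCast]; exact pow_mem hζA k
      | negSucc k => rw [zpow_negSucc, ← inv_pow]; exact pow_mem hζinv (k + 1)
    · exact zpow_mem hζE n
  -- twisting an integral series
  have key : ∀ U : LaurentSeries A, IsInt A E ι F U →
      ∃ U' : LaurentSeries A, IsInt A E ι F U' ∧
        (∀ g : Ω, ι g = ivInc A U → ι (t g) = ivInc A U') ∧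
        (ivRed A U ≠ 0 → ivRed A U' ≠ 0) := by
    intro U hU
    obtain ⟨g, hg, hgU⟩ := hU.2
    have hA : ∀ n, (ι (t g)).coeff n ∈ A := fun n => by
      rw [ht, hgU, ivInc_coeff]
      exact A.mul_mem _ _ (hζn n).1 (U.coeff n).2
    have hE : ∀ n, (ι (t g)).coeff n ∈ E := fun n => by
      rw [ht, hgU, ivInc_coeff]
      exact E.mul_mem (hζn n).2 (hU.1 n)
    obtain ⟨U', hU', hval⟩ := exists_isInt_of_coeff_mem (htF g hg) hA hE
    refine ⟨U', hU', fun g' hg' => ?_, fun hred hred' => ?_⟩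
    · have : g' = g := ι.injective (by rw [hg', hgU])
      rw [this, hval]
    · apply hred
      rw [ivRed_eq_zero_iff] at hred' ⊢
      intro n
      have h1 := hred' n
      rw [iv_mem_maximalIdeal_iff] at h1 ⊢
      have hc : ((U'.coeff n : A) : K) = ζ ^ n * ((U.coeff n : A) : K) := by
        rw [← ivInc_coeff, ← hval, ht, hgU, ivInc_coeff]
      rw [hc] at h1
      rcases h1 with h1 | h1
      · left
        rcases mul_eq_zero.mp h1 with h2 | h2
        · exact absurd h2 (zpow_ne_zero n hζ0)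
        · exact h2
      · by_cases hu0 : ((U.coeff n : A) : K) = 0
        · exact Or.inl hu0
        · right
          intro hinv
          apply h1
          rw [mul_inv, ← zpow_neg]
          exact A.mul_mem _ _ (hζn (-n)).1 hinv
  obtain ⟨W₁, hW₁, hv₁, -⟩ := key U₁ h₁
  obtain ⟨W₂, hW₂, hv₂, hr₂⟩ := key U₂ h₂
  obtain ⟨g₁, hg₁, hgU₁⟩ := h₁.2
  obtain ⟨g₂, hg₂, hgU₂⟩ := h₂.2
  refine ⟨htF f hfF, W₁, W₂, hW₁, hW₂, hr₂ hr, ?_⟩
  rw [← hv₁ g₁ hgU₁, ← hv₂ g₂ hgU₂, ← map_mul, ← map_mul]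
  congr 1
  congr 1
  apply ι.injective
  rw [map_mul, hgU₁, hgU₂, hfU]

/-- field `t_V` of `IgusaData`, as an equivalence. -/
theorem twist_mem_VRing_iff (hζA : ζ ∈ A) (hζE : ζ ∈ E) (hζ0 : ζ ≠ 0) (hζinv : ζ⁻¹ ∈ A)
    (ht : ∀ (f : Ω) (n : ℤ), (ι (t f)).coeff n = ζ ^ n * (ι f).coeff n)
    (htF : ∀ f ∈ F, t f ∈ F) (htF' : ∀ f ∈ F, t.symm f ∈ F) (f : Ω) :
    t f ∈ VRing A E ι F ↔ f ∈ VRing A E ι F := by
  constructor
  · intro h
    have ht' : ∀ (g : Ω) (n : ℤ), (ι (t.symm g)).coeff n = ζ⁻¹ ^ n * (ι g).coeff n := by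
      intro g n
      have := ht (t.symm g) n
      rw [RingEquiv.apply_symm_apply] at this
      rw [this, ← mul_assoc, ← mul_zpow, inv_mul_cancel₀ hζ0, one_zpow, one_mul]
    have := twist_mem_VRing (A := A) (E := E) (ι := ι) (F := F) t.symm ζ⁻¹ hζinv
      (E.inv_mem hζE) (inv_ne_zero hζ0) (by rwa [inv_inv]) ht' htF' h
    rwa [RingEquiv.symm_apply_apply] at this
  · exact twist_mem_VRing t ζ hζA hζE hζ0 hζinv ht htF

end Twist

end Fermat.Agent.S48.H248

end
end
-- ===== PACK-END S48/H248/IVGauss.lean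

-- ===== PACK-BEGIN S18/Mod/H216/Parts.lean
section


/-!
# S18 / MOD-ASM (helper216): `Alg.GoodModel` split into six independent PARTS

`Alg.GoodModel Lc Ec Fc R V w x S` (Alg/Spec v4, on main) has 34 fields.  They are grouped here into six `Prop`-structures
with the SAME field names and the SAME field types, so that each group can be proved by a different
owner, in any order:

| part | structure | fields |
|---|---|---|
| G-R   | `PartR Ec R w`        | `R_le R_total w_mem w_ne_zero w_inv_not_mem w_gen w_discrete residue_perfect` |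
| G-FLD | `PartFld Lc Ec Fc x`  | `E_le_L E_le_F L_algebraic L_algClosed E_closed_in_F compositum x_mem x_transcendental finite` |
| G-V   | `PartV Fc R V w x`    | `V_le V_total R_le_V w_inv_not_mem_V V_gen x_mem_V gauss` |
| G-QEP | `PartQep Fc R V w x`  | `qep_fin qep_inf` |
| G-SEP | `PartSep R V w x`     | `separable` |
| G-BR  | `PartBr Lc R x S`     | `S_mem S_distinct S_unit unramified` |

`goodModel_of_parts` assembles them (+ `CharZero Ω`); `GoodModel.partR` … project back.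
Everything here is Mathlib-only (abstract field `Ω`).
-/

set_option autoImplicit false

namespace Fermat.Agent.S18.Mod.H216

open Fermat.Agent.S18.Alg

variable {Ω : Type*} [Field Ω]

/-- **G-R**: `R` is a discrete valuation ring of `Ec`, uniformiser `w`, perfect residue field. -/
structure PartR (Ec : Subfield Ω) (R : Subring Ω) (w : Ω) : Prop where
  R_le : (R : Set Ω) ⊆ Ec
  R_total : ∀ e ∈ Ec, e ∈ R ∨ e⁻¹ ∈ R
  w_mem : w ∈ R
  w_ne_zero : w ≠ 0
  w_inv_not_mem : w⁻¹ ∉ R
  w_gen : ∀ r ∈ R, r⁻¹ ∉ R → r * w⁻¹ ∈ R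
  w_discrete : ∀ r ∈ R, r ≠ 0 → ∃ n : ℕ, r * (w⁻¹) ^ n ∈ R ∧ (r * (w⁻¹) ^ n)⁻¹ ∈ R
  residue_perfect : ∃ p : ℕ, p.Prime ∧ (p : Ω) * w⁻¹ ∈ R ∧
    ∀ r ∈ R, ∃ s ∈ R, (r - s ^ p) * w⁻¹ ∈ R

/-- **G-FLD**: the fields `Ec ≤ Lc`, `Ec ≤ Fc`, and the coordinate `x`. -/
structure PartFld (Lc Ec Fc : Subfield Ω) (x : Ω) : Prop where
  E_le_L : Ec ≤ Lc
  E_le_F : Ec ≤ Fc
  L_algebraic : ∀ a ∈ Lc, IsAlgebraic Ec a
  L_algClosed : IsAlgClosed Lc
  E_closed_in_F : ∀ f ∈ Fc, IsAlgebraic Ec f → f ∈ Ec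
  compositum : Subfield.closure ((Fc : Set Ω) ∪ Lc) = ⊤
  x_mem : x ∈ Fc
  x_transcendental : Transcendental Lc x
  finite : ∃ s : Finset Ω, (s : Set Ω) ⊆ Fc ∧
    ∀ f ∈ Fc, f ∈ Submodule.span (ratField Ec x) (s : Set Ω)

/-- **G-V**: `V` is the Gauss valuation ring of `Fc`. -/
structure PartV (Fc : Subfield Ω) (R V : Subring Ω) (w x : Ω) : Prop where
  V_le : (V : Set Ω) ⊆ Fc
  V_total : ∀ f ∈ Fc, f ∈ V ∨ f⁻¹ ∈ V
  R_le_V : R ≤ V
  w_inv_not_mem_V : w⁻¹ ∉ V
  V_gen : ∀ f ∈ V, f⁻¹ ∉ V → f * w⁻¹ ∈ V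
  x_mem_V : x ∈ V
  gauss : ∀ P : Polynomial Ω, (∀ i, P.coeff i ∈ R) → (∃ i, P.coeff i ≠ 0 ∧ (P.coeff i)⁻¹ ∈ R) →
    (P.eval x)⁻¹ ∈ V

/-- **G-QEP**: the `q`-expansion principle on both charts. -/
structure PartQep (Fc : Subfield Ω) (R V : Subring Ω) (w x : Ω) : Prop where
  qep_fin : ∀ b ∈ chart Fc R x, b * w⁻¹ ∈ V → b * w⁻¹ ∈ chart Fc R x
  qep_inf : ∀ b ∈ chart Fc R x⁻¹, b * w⁻¹ ∈ V → b * w⁻¹ ∈ chart Fc R x⁻¹

/-- **G-SEP**: the residue field of `V` is separable over `κ(x̄)`. -/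
structure PartSep (R V : Subring Ω) (w x : Ω) : Prop where
  separable : ∀ f ∈ V, ∃ P : Polynomial Ω, (∀ i, P.coeff i ∈ polyRing R x) ∧
    P.eval f * w⁻¹ ∈ V ∧ (Polynomial.derivative P).eval f ≠ 0 ∧
    ((Polynomial.derivative P).eval f)⁻¹ ∈ V

/-- **G-BR**: the branch values. -/
structure PartBr (Lc : Subfield Ω) (R : Subring Ω) (x : Ω) (S : Finset Ω) : Prop where
  S_mem : ∀ s ∈ S, s ∈ R
  S_distinct : ∀ s ∈ S, ∀ t ∈ S, s ≠ t → (s - t)⁻¹ ∈ R
  S_unit : ∀ s ∈ S, s ≠ 0 → s⁻¹ ∈ R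
  unramified : ∀ O : ValuationSubring Ω, (∀ a ∈ Lc, a ∈ O) → ∀ c ∈ Lc, c ∉ S →
    x - c ∈ O → (x - c)⁻¹ ∉ O → ∀ t ∈ O, t⁻¹ ∉ O → t * (x - c)⁻¹ ∈ O

/-- **Assembly**: the six parts give a `GoodModel`. -/
theorem goodModel_of_parts {Lc Ec Fc : Subfield Ω} {R V : Subring Ω} {w x : Ω} {S : Finset Ω}
    (h0 : CharZero Ω) (hR : PartR Ec R w) (hF : PartFld Lc Ec Fc x) (hV : PartV Fc R V w x)
    (hQ : PartQep Fc R V w x) (hS : PartSep R V w x) (hB : PartBr Lc R x S) :
    GoodModel Lc Ec Fc R V w x S where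
  charZero := h0
  R_le := hR.R_le
  R_total := hR.R_total
  w_mem := hR.w_mem
  w_ne_zero := hR.w_ne_zero
  w_inv_not_mem := hR.w_inv_not_mem
  w_gen := hR.w_gen
  w_discrete := hR.w_discrete
  residue_perfect := hR.residue_perfect
  E_le_L := hF.E_le_L
  E_le_F := hF.E_le_F
  L_algebraic := hF.L_algebraic
  L_algClosed := hF.L_algClosed
  E_closed_in_F := hF.E_closed_in_F
  compositum := hF.compositum
  x_mem := hF.x_mem
  x_transcendental := hF.x_transcendental
  finite := hF.finite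
  V_le := hV.V_le
  V_total := hV.V_total
  R_le_V := hV.R_le_V
  w_inv_not_mem_V := hV.w_inv_not_mem_V
  V_gen := hV.V_gen
  x_mem_V := hV.x_mem_V
  gauss := hV.gauss
  qep_fin := hQ.qep_fin
  qep_inf := hQ.qep_inf
  separable := hS.separable
  S_mem := hB.S_mem
  S_distinct := hB.S_distinct
  S_unit := hB.S_unit
  unramified := hB.unramified

section Project

variable {Lc Ec Fc : Subfield Ω} {R V : Subring Ω} {w x : Ω} {S : Finset Ω}

theorem partR_of_goodModel (h : GoodModel Lc Ec Fc R V w x S) : PartR Ec R w :=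
  ⟨h.R_le, h.R_total, h.w_mem, h.w_ne_zero, h.w_inv_not_mem, h.w_gen, h.w_discrete,
    h.residue_perfect⟩

theorem partFld_of_goodModel (h : GoodModel Lc Ec Fc R V w x S) : PartFld Lc Ec Fc x :=
  ⟨h.E_le_L, h.E_le_F, h.L_algebraic, h.L_algClosed, h.E_closed_in_F, h.compositum, h.x_mem,
    h.x_transcendental, h.finite⟩

theorem partV_of_goodModel (h : GoodModel Lc Ec Fc R V w x S) : PartV Fc R V w x :=
  ⟨h.V_le, h.V_total, h.R_le_V, h.w_inv_not_mem_V, h.V_gen, h.x_mem_V, h.gauss⟩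

theorem partQep_of_goodModel (h : GoodModel Lc Ec Fc R V w x S) : PartQep Fc R V w x :=
  ⟨h.qep_fin, h.qep_inf⟩

theorem partSep_of_goodModel (h : GoodModel Lc Ec Fc R V w x S) : PartSep R V w x :=
  ⟨h.separable⟩

theorem partBr_of_goodModel (h : GoodModel Lc Ec Fc R V w x S) : PartBr Lc R x S :=
  ⟨h.S_mem, h.S_distinct, h.S_unit, h.unramified⟩

end Project

end Fermat.Agent.S18.Mod.H216

end
-- ===== PACK-END S18/Mod/H216/Parts.lean

-- ===== PACK-BEGIN S18/Mod/H216/QepAbs.lean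
section



/-!
# S18 / MOD (helper216): the q-expansion principle, ABSTRACT form (Mathlib-only + Lemma M)

Setting of `Alg/Spec.lean`: `R ⊆ Ec ⊆ Fc ⊆ Ω`, Gauss valuation ring `V`, uniformiser `w`,
coordinate `x`.  For `t ∈ {x, x⁻¹}` a **denominator statement**

    `Den t` : ∀ f ∈ Fc ∩ V, ∃ s ∈ R[t], s ∉ wV, s·f integral over R[t]

implies the q-expansion principle on the chart `R[t]` (`qep_of_den`; Lemma M of S28/H806).
`den_inv_of_den` transfers `Den x` to `Den x⁻¹`, so that

    `partQep_of_den` : PartR + PartV + x ∈ V + x transcendental over R + Den x  ⟹  PartQep.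
-/

set_option autoImplicit false
set_option linter.unusedSectionVars false
set_option linter.style.haveILetI false

noncomputable section

namespace Fermat.Agent.S18.Mod.H216

open Polynomial Fermat.Agent.S18.Alg

variable {Ω : Type*} [Field Ω]

section PolyRing

variable (R : Subring Ω) (t : Ω)

/-- Evaluation `R[X] → Ω`, `X ↦ t`. -/
def evR : (↥R)[X] →+* Ω := Polynomial.eval₂RingHom R.subtype t

theorem evR_apply (p : (↥R)[X]) : evR R t p = p.eval₂ R.subtype t := rfl

theorem evR_C (r : R) : evR R t (C r) = (r : Ω) := by simp [evR]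

theorem evR_X : evR R t X = t := by simp [evR]

theorem evR_eq_sum (p : (↥R)[X]) :
    evR R t p = ∑ i ∈ Finset.range (p.natDegree + 1), ((p.coeff i : R) : Ω) * t ^ i := by
  rw [evR_apply, Polynomial.eval₂_eq_sum_range]
  rfl

theorem polyRing_eq_range : polyRing R t = (evR R t).range := by
  apply le_antisymm
  · rw [polyRing, Subring.closure_le]
    rintro u (hu | hu)
    · exact ⟨C ⟨u, hu⟩, evR_C R t _⟩
    · rw [Set.mem_singleton_iff] at hu
      rw [hu]
      exact ⟨X, evR_X R t⟩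
  · rintro _ ⟨p, rfl⟩
    rw [evR_eq_sum]
    refine sum_mem fun i _ => mul_mem ?_ (pow_mem ?_ i)
    · exact Subring.subset_closure (Or.inl (p.coeff i).2)
    · exact Subring.subset_closure (Or.inr rfl)

theorem mem_polyRing_iff {u : Ω} : u ∈ polyRing R t ↔ ∃ p : (↥R)[X], evR R t p = u := by
  rw [polyRing_eq_range]
  rfl

theorem le_polyRing : R ≤ polyRing R t := fun _ hr => Subring.subset_closure (Or.inl hr)

theorem self_mem_polyRing : t ∈ polyRing R t := Subring.subset_closure (Or.inr rfl)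

theorem polyRing_le {V : Subring Ω} (hRV : R ≤ V) (ht : t ∈ V) : polyRing R t ≤ V := by
  rw [polyRing, Subring.closure_le]
  rintro u (hu | hu)
  · exact hRV hu
  · rw [Set.mem_singleton_iff] at hu
    rw [hu]
    exact ht

/-- `R[X] ≃ R[t]` when `t` is transcendental over `R`. -/
def polyEquiv (htr : Function.Injective (evR R t)) : (↥R)[X] ≃+* ↥(polyRing R t) :=
  (RingEquiv.ofBijective (evR R t).rangeRestrict
    ⟨fun a b h => htr (congrArg Subtype.val h), (evR R t).rangeRestrict_surjective⟩).trans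
    (RingEquiv.subringCongr (polyRing_eq_range R t).symm)

end PolyRing

section Main

variable {Ec Fc : Subfield Ω} {R V : Subring Ω} {w x : Ω}

theorem dvd_total_of_partR (hR : PartR Ec R w) (a b : ↥R) :
    ∃ c : ↥R, a * c = b ∨ b * c = a := by
  by_cases ha : (a : Ω) = 0
  · refine ⟨0, Or.inr ?_⟩
    apply Subtype.ext
    simp [ha]
  by_cases hb : (b : Ω) = 0
  · refine ⟨0, Or.inl ?_⟩
    apply Subtype.ext
    simp [hb]
  have hmem : (b : Ω) * (a : Ω)⁻¹ ∈ Ec := mul_mem (hR.R_le b.2) (inv_mem (hR.R_le a.2))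
  rcases hR.R_total _ hmem with h | h
  · refine ⟨⟨_, h⟩, Or.inl ?_⟩
    apply Subtype.ext
    show (a : Ω) * ((b : Ω) * (a : Ω)⁻¹) = b
    field_simp
  · refine ⟨⟨_, h⟩, Or.inr ?_⟩
    apply Subtype.ext
    show (b : Ω) * ((b : Ω) * (a : Ω)⁻¹)⁻¹ = a
    field_simp

theorem valuationRing_of_partR (hR : PartR Ec R w) : ValuationRing ↥R :=
  haveI : PreValuationRing ↥R := ⟨dvd_total_of_partR hR⟩
  {}

end Main

section Residue

variable {Fc : Subfield Ω} {R V : Subring Ω} {w x : Ω}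

/-- The ideal `wV` of `V`. -/
def wIdeal (V : Subring Ω) (w : Ω) (hw : w ∈ V) : Ideal ↥V := Ideal.span {(⟨w, hw⟩ : ↥V)}

theorem mem_wIdeal_iff (hw : w ∈ V) (hw0 : w ≠ 0) (u : ↥V) :
    u ∈ wIdeal V w hw ↔ (u : Ω) * w⁻¹ ∈ V := by
  rw [wIdeal, Ideal.mem_span_singleton]
  constructor
  · rintro ⟨c, hc⟩
    have h1 : (u : Ω) = w * c := congrArg Subtype.val hc
    have h2 : (u : Ω) * w⁻¹ = c := by rw [h1]; field_simp
    rw [h2]
    exact c.2
  · intro h
    refine ⟨⟨_, h⟩, Subtype.ext ?_⟩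
    show (u : Ω) = w * ((u : Ω) * w⁻¹)
    field_simp

theorem wIdeal_isPrime (hV : PartV Fc R V w x) (hwV : w ∈ V) (hw0 : w ≠ 0) :
    (wIdeal V w hwV).IsPrime := by
  rw [Ideal.isPrime_iff]
  constructor
  · intro h
    have h1 : (1 : ↥V) ∈ wIdeal V w hwV := by rw [h]; trivial
    rw [mem_wIdeal_iff hwV hw0] at h1
    apply hV.w_inv_not_mem_V
    simpa using h1
  · intro a b hab
    rw [mem_wIdeal_iff hwV hw0] at hab
    rw [mem_wIdeal_iff hwV hw0, mem_wIdeal_iff hwV hw0]
    by_contra hcon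
    push Not at hcon
    have ha : (a : Ω)⁻¹ ∈ V := by
      by_contra h
      exact hcon.1 (hV.V_gen a a.2 h)
    have ha0 : (a : Ω) ≠ 0 := by
      intro h0
      apply hcon.1
      rw [h0, zero_mul]
      exact zero_mem _
    have h3 : (b : Ω) * w⁻¹ = (a : Ω)⁻¹ * (((a * b : ↥V) : Ω) * w⁻¹) := by
      push_cast
      field_simp
    exact hcon.2 (h3 ▸ mul_mem ha hab)

end Residue

section Qep

variable {Ec Fc : Subfield Ω} {R V : Subring Ω} {w x : Ω}

/-- Kernel form of the Gauss property for the chart parameter `t`: a polynomial in `t` over `R`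
lying in `wV` has all its coefficients in `wR`. -/
def KernelAt (R V : Subring Ω) (w t : Ω) : Prop :=
  ∀ p : (↥R)[X], evR R t p * w⁻¹ ∈ V → ∀ i, ((p.coeff i : ↥R) : Ω) * w⁻¹ ∈ R

/-- The denominator statement on the chart `R[t]`. -/
def DenAt (Fc : Subfield Ω) (R V : Subring Ω) (w t : Ω) : Prop :=
  ∀ f ∈ Fc, f ∈ V → ∃ s ∈ polyRing R t, s * w⁻¹ ∉ V ∧ IsIntegral (polyRing R t) (s * f)

/-- **QEP from denominators** (Lemma M). -/
theorem qep_of_den (hR : PartR Ec R w) (hV : PartV Fc R V w x) (hEF : Ec ≤ Fc) {t : Ω}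
    (htV : t ∈ V) (htr : Function.Injective (evR R t)) (hker : KernelAt R V w t)
    (hden : DenAt Fc R V w t) :
    ∀ b ∈ chart Fc R t, b * w⁻¹ ∈ V → b * w⁻¹ ∈ chart Fc R t := by
  intro b hb hbV
  have hwR := hR.w_mem
  have hwV : w ∈ V := hV.R_le_V hwR
  have hw0 := hR.w_ne_zero
  have hwF : w ∈ Fc := hEF (hR.R_le hwR)
  have hyF : b * w⁻¹ ∈ Fc := mul_mem hb.1 (inv_mem hwF)
  refine ⟨hyF, ?_⟩
  obtain ⟨s, hsP, hsV, hsint⟩ := hden _ hyF hbV
  haveI := valuationRing_of_partR hR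
  haveI : IsIntegrallyClosed ↥(polyRing R t) := IsIntegrallyClosed.of_equiv (polyEquiv R t htr)
  haveI := wIdeal_isPrime hV hwV hw0
  have hPV : polyRing R t ≤ V := polyRing_le R t hV.R_le_V htV
  let red : ↥(polyRing R t) →+* (↥V ⧸ wIdeal V w hwV) :=
    (Ideal.Quotient.mk _).comp (Subring.inclusion hPV)
  have hred : ∀ u : ↥(polyRing R t), red u = 0 ↔ (u : Ω) * w⁻¹ ∈ V := by
    intro u
    show Ideal.Quotient.mk _ (Subring.inclusion hPV u) = 0 ↔ _
    rw [Ideal.Quotient.eq_zero_iff_mem, mem_wIdeal_iff hwV hw0]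
    rfl
  let ell : ↥(polyRing R t) := ⟨w, le_polyRing R t hwR⟩
  refine Fermat.Agent.S28.H806.isIntegral_of_isIntegral_smul_of_isIntegral_smul red ell ⟨s, hsP⟩
    ?_ ?_ ?_ ?_ (b * w⁻¹) ?_ ?_
  · intro h
    exact hw0 (congrArg Subtype.val h)
  · rw [hred]
    show w * w⁻¹ ∈ V
    rw [mul_inv_cancel₀ hw0]
    exact one_mem _
  · intro u hu
    rw [hred] at hu
    obtain ⟨p, hp⟩ := (mem_polyRing_iff R t).mp u.2
    have hc := hker p (by rw [hp]; exact hu)
    have hmem : (u : Ω) * w⁻¹ ∈ polyRing R t := by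
      rw [← hp, evR_eq_sum, Finset.sum_mul]
      refine sum_mem fun i _ => ?_
      have h4 : ((p.coeff i : ↥R) : Ω) * t ^ i * w⁻¹ = (((p.coeff i : ↥R) : Ω) * w⁻¹) * t ^ i := by
        ring
      rw [h4]
      exact mul_mem (le_polyRing R t (hc i)) (pow_mem (self_mem_polyRing R t) i)
    refine ⟨⟨_, hmem⟩, Subtype.ext ?_⟩
    show (u : Ω) = w * ((u : Ω) * w⁻¹)
    field_simp
  · rw [Ne, hred]
    exact hsV
  · have h5 : ell • (b * w⁻¹) = b := by
      show w * (b * w⁻¹) = b
      field_simp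
    rw [h5]
    exact hb.2
  · exact hsint

/-- The kernel property for `x` from the `gauss` field. -/
theorem kernelAt_of_gauss (hR : PartR Ec R w) (hV : PartV Fc R V w x)
    (htr : Function.Injective (evR R x)) : KernelAt R V w x := by
  intro p hp i
  by_contra hi
  have hci : ((p.coeff i : ↥R) : Ω) ≠ 0 := by
    intro h0
    apply hi
    rw [h0, zero_mul]
    exact zero_mem _
  have hunit : ((p.coeff i : ↥R) : Ω)⁻¹ ∈ R := by
    by_contra h
    exact hi (hR.w_gen _ (p.coeff i).2 h)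
  have hg := hV.gauss (p.map R.subtype) (fun k => by rw [coeff_map]; exact (p.coeff k).2)
    ⟨i, by rw [coeff_map]; exact hci, by rw [coeff_map]; exact hunit⟩
  have hev : (p.map R.subtype).eval x = evR R x p := by rw [evR_apply, eval_map]
  rw [hev] at hg
  have hne : evR R x p ≠ 0 := by
    intro h0
    have hp0 : p = 0 := htr (by rw [h0, map_zero])
    apply hci
    rw [hp0]
    simp
  apply hV.w_inv_not_mem_V
  have h6 : w⁻¹ = (evR R x p)⁻¹ * (evR R x p * w⁻¹) := by
    field_simp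
  rw [h6]
  exact mul_mem hg hp

theorem inv_mem_V_of_gauss (hV : PartV Fc R V w x) : x⁻¹ ∈ V := by
  have h1 : (1 : Ω) ∈ R := one_mem _
  have hg := hV.gauss (X : Polynomial Ω) (fun k => by
      rw [coeff_X]
      split_ifs
      · exact one_mem _
      · exact zero_mem _)
    ⟨1, by simp, by simp [h1]⟩
  simpa using hg

/-- `p(x⁻¹) = (reflect d p)(x) · x⁻ᵈ` for `d ≥ deg p`. -/
theorem evR_inv_eq (R : Subring Ω) {x : Ω} (hx0 : x ≠ 0) (p : (↥R)[X]) (d : ℕ)
    (hd : p.natDegree ≤ d) :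
    evR R x⁻¹ p = evR R x (p.reflect d) * (x⁻¹) ^ d := by
  letI : Invertible x⁻¹ := invertibleOfNonzero (inv_ne_zero hx0)
  have h := eval₂_reflect_mul_pow R.subtype x⁻¹ d p hd
  rw [invOf_eq_inv, inv_inv] at h
  rw [evR_apply, evR_apply, h]

/-- `p(x) = (reflect d p)(x⁻¹) · xᵈ` for `d ≥ deg p`. -/
theorem evR_eq_inv (R : Subring Ω) {x : Ω} (hx0 : x ≠ 0) (p : (↥R)[X]) (d : ℕ)
    (hd : p.natDegree ≤ d) :
    evR R x p = evR R x⁻¹ (p.reflect d) * x ^ d := by
  letI : Invertible x := invertibleOfNonzero hx0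
  have h := eval₂_reflect_mul_pow R.subtype x d p hd
  rw [invOf_eq_inv] at h
  rw [evR_apply, evR_apply, h]

theorem coeff_eq_coeff_reflect (p : (↥R)[X]) (d i : ℕ) :
    p.coeff i = (p.reflect d).coeff (revAt d i) := by
  rw [coeff_reflect, revAt_invol]

theorem injective_evR_inv (hx0 : x ≠ 0) (htr : Function.Injective (evR R x)) :
    Function.Injective (evR R x⁻¹) := by
  rw [injective_iff_map_eq_zero]
  intro p hp
  rw [evR_inv_eq R hx0 p p.natDegree le_rfl] at hp
  have h1 : evR R x (p.reflect p.natDegree) = 0 := by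
    rcases mul_eq_zero.mp hp with h | h
    · exact h
    · exact absurd h (pow_ne_zero _ (inv_ne_zero hx0))
  have h2 : p.reflect p.natDegree = 0 := htr (by rw [h1, map_zero])
  ext i
  rw [coeff_eq_coeff_reflect p p.natDegree i, h2]
  simp

theorem kernelAt_inv (hx0 : x ≠ 0) (hxV : x ∈ V) (hker : KernelAt R V w x) :
    KernelAt R V w x⁻¹ := by
  intro p hp i
  rw [coeff_eq_coeff_reflect p p.natDegree i]
  apply hker
  have h0 : (x⁻¹) ^ p.natDegree * x ^ p.natDegree = 1 := by
    rw [← mul_pow, inv_mul_cancel₀ hx0, one_pow]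
  have h1 : evR R x (p.reflect p.natDegree) * w⁻¹ = evR R x⁻¹ p * w⁻¹ * x ^ p.natDegree := by
    rw [evR_inv_eq R hx0 p p.natDegree le_rfl]
    calc evR R x (p.reflect p.natDegree) * w⁻¹
        = evR R x (p.reflect p.natDegree) * w⁻¹ * ((x⁻¹) ^ p.natDegree * x ^ p.natDegree) := by
          rw [h0, mul_one]
      _ = _ := by ring
  rw [h1]
  exact mul_mem hp (pow_mem hxV _)

/-- Integral over `R[x]` ⟹ `x⁻ᴰ · z` integral over `R[x⁻¹]` for some `D`. -/
theorem exists_pow_isIntegral_inv (R : Subring Ω) {x : Ω} (hx0 : x ≠ 0) {z : Ω}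
    (hz : IsIntegral (polyRing R x) z) :
    ∃ D : ℕ, IsIntegral (polyRing R x⁻¹) ((x⁻¹) ^ D * z) := by
  classical
  obtain ⟨Q, hmonic, hroot⟩ := hz
  have hcoeff : ∀ i, ∃ p : (↥R)[X], evR R x p = ((Q.coeff i : ↥(polyRing R x)) : Ω) :=
    fun i => (mem_polyRing_iff R x).mp (Q.coeff i).2
  choose p hp using hcoeff
  set D : ℕ := ∑ i ∈ Finset.range (Q.natDegree + 1), (p i).natDegree with hD
  have hpD : ∀ i ≤ Q.natDegree, (p i).natDegree ≤ D := fun i hi =>
    Finset.single_le_sum (f := fun i => (p i).natDegree) (fun _ _ => Nat.zero_le _)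
      (Finset.mem_range.mpr (Nat.lt_succ_of_le hi))
  set q : Polynomial Ω := (Q.map (algebraMap (polyRing R x) Ω)).scaleRoots ((x⁻¹) ^ D) with hq
  have hqmonic : q.Monic := (Polynomial.monic_scaleRoots_iff _).mpr (hmonic.map _)
  have hqroot : q.eval ((x⁻¹) ^ D * z) = 0 := by
    rw [hq, Polynomial.scaleRoots_eval_mul, Polynomial.eval_map, hroot, mul_zero]
  have hxx : ∀ n : ℕ, x ^ n * (x⁻¹) ^ n = 1 := fun n => by
    rw [← mul_pow, mul_inv_cancel₀ hx0, one_pow]
  have hqcoeff : ∀ i, q.coeff i ∈ polyRing R x⁻¹ := by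
    intro i
    rw [hq, Polynomial.coeff_scaleRoots, Polynomial.coeff_map, hmonic.natDegree_map]
    by_cases hi : i < Q.natDegree
    · obtain ⟨k, hk⟩ : ∃ k, Q.natDegree - i = k + 1 := ⟨Q.natDegree - i - 1, by omega⟩
      have h1 : algebraMap (polyRing R x) Ω (Q.coeff i) = evR R x (p i) := (hp i).symm
      have h2 : evR R x (p i) * (x⁻¹) ^ D = evR R x⁻¹ ((p i).reflect D) := by
        rw [evR_eq_inv R hx0 (p i) D (hpD i hi.le), mul_assoc, hxx, mul_one]
      have h3 : algebraMap (polyRing R x) Ω (Q.coeff i) * ((x⁻¹) ^ D) ^ (Q.natDegree - i) =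
          evR R x⁻¹ ((p i).reflect D) * ((x⁻¹) ^ D) ^ k := by
        rw [hk, pow_succ, h1, ← h2]
        ring
      rw [h3]
      exact mul_mem ((mem_polyRing_iff R x⁻¹).mpr ⟨_, rfl⟩)
        (pow_mem (pow_mem (self_mem_polyRing R x⁻¹) D) k)
    · rcases (not_lt.mp hi).lt_or_eq with hlt | heq
      · rw [Polynomial.coeff_eq_zero_of_natDegree_lt hlt, map_zero, zero_mul]
        exact zero_mem _
      · rw [← heq, hmonic.coeff_natDegree, map_one, one_mul, Nat.sub_self, pow_zero]
        exact one_mem _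
  have hlifts : q ∈ Polynomial.lifts (algebraMap (polyRing R x⁻¹) Ω) :=
    (Polynomial.lifts_iff_coeff_lifts q).mpr fun i => ⟨⟨q.coeff i, hqcoeff i⟩, rfl⟩
  obtain ⟨q', hq'q, -, hq'monic⟩ := Polynomial.lifts_and_natDegree_eq_and_monic hlifts hqmonic
  refine ⟨D, q', hq'monic, ?_⟩
  rw [Polynomial.eval₂_eq_eval_map, hq'q, hqroot]

/-- Transfer of the denominator statement from the chart `R[x]` to the chart `R[x⁻¹]`. -/
theorem denAt_inv (hx0 : x ≠ 0) (hxV : x ∈ V) (hden : DenAt Fc R V w x) :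
    DenAt Fc R V w x⁻¹ := by
  intro f hf hfV
  obtain ⟨s, hsP, hsV, hsint⟩ := hden f hf hfV
  obtain ⟨p, hp⟩ := (mem_polyRing_iff R x).mp hsP
  obtain ⟨D, hD⟩ := exists_pow_isIntegral_inv R hx0 hsint
  have hxx : ∀ n : ℕ, x ^ n * (x⁻¹) ^ n = 1 := fun n => by
    rw [← mul_pow, mul_inv_cancel₀ hx0, one_pow]
  have hs1 : (x⁻¹) ^ p.natDegree * s ∈ polyRing R x⁻¹ := by
    have h1 : (x⁻¹) ^ p.natDegree * s = evR R x⁻¹ (p.reflect p.natDegree) := by
      rw [← hp, evR_eq_inv R hx0 p p.natDegree le_rfl, mul_comm, mul_assoc, hxx, mul_one]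
    rw [h1]
    exact (mem_polyRing_iff R x⁻¹).mpr ⟨_, rfl⟩
  refine ⟨(x⁻¹) ^ D * ((x⁻¹) ^ p.natDegree * s),
    mul_mem (pow_mem (self_mem_polyRing R x⁻¹) D) hs1, ?_, ?_⟩
  · intro h
    apply hsV
    have h2 : s * w⁻¹ =
        x ^ D * x ^ p.natDegree * ((x⁻¹) ^ D * ((x⁻¹) ^ p.natDegree * s) * w⁻¹) := by
      calc s * w⁻¹ = (x ^ D * (x⁻¹) ^ D) * (x ^ p.natDegree * (x⁻¹) ^ p.natDegree) * (s * w⁻¹) := by
            rw [hxx, hxx, one_mul, one_mul]
        _ = _ := by ring
    rw [h2]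
    exact mul_mem (mul_mem (pow_mem hxV D) (pow_mem hxV _)) h
  · have h3 : (x⁻¹) ^ D * ((x⁻¹) ^ p.natDegree * s) * f =
        (x⁻¹) ^ p.natDegree * ((x⁻¹) ^ D * (s * f)) := by ring
    rw [h3]
    have h4 : IsIntegral (polyRing R x⁻¹) ((x⁻¹) ^ p.natDegree) :=
      isIntegral_algebraMap (R := polyRing R x⁻¹) (A := Ω)
        (x := ⟨(x⁻¹) ^ p.natDegree, pow_mem (self_mem_polyRing R x⁻¹) _⟩)
    exact h4.mul hD

/-- **G-QEP from denominators on the finite chart.** -/
theorem partQep_of_den (hR : PartR Ec R w) (hV : PartV Fc R V w x) (hEF : Ec ≤ Fc)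
    (hxV : x ∈ V) (htr : Function.Injective (evR R x)) (hden : DenAt Fc R V w x) :
    PartQep Fc R V w x := by
  have hx0 : x ≠ 0 := by
    intro h0
    have h1 : evR R x X = evR R x 0 := by rw [evR_X, map_zero, h0]
    exact X_ne_zero (htr h1)
  have hker := kernelAt_of_gauss hR hV htr
  exact ⟨qep_of_den hR hV hEF hxV htr hker hden,
    qep_of_den hR hV hEF (inv_mem_V_of_gauss hV) (injective_evR_inv hx0 htr)
      (kernelAt_inv hx0 hxV hker) (denAt_inv hx0 hxV hden)⟩

/-- Adapter: `x` transcendental over a subfield `Lc ⊇ R` (as in `GoodModel.x_transcendental`)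
gives injectivity of `R[X] → Ω`. -/
theorem injective_evR_of_transcendental {Lc : Subfield Ω} (hRL : (R : Set Ω) ⊆ Lc)
    (hx : Transcendental Lc x) : Function.Injective (evR R x) := by
  rw [injective_iff_map_eq_zero]
  intro p hp
  let ι : ↥R →+* ↥Lc := Subring.inclusion (S := R) (T := Lc.toSubring) hRL
  have h1 : Polynomial.aeval x (p.map ι) = 0 := by
    rw [Polynomial.aeval_def, Polynomial.eval₂_map]
    exact hp
  have h2 : p.map ι = 0 := by
    by_contra hne
    exact hx ⟨_, hne, h1⟩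
  exact Polynomial.map_injective ι (Subring.inclusion_injective hRL) (by rw [h2, Polynomial.map_zero])

end Qep

end Fermat.Agent.S18.Mod.H216

end
end
-- ===== PACK-END S18/Mod/H216/QepAbs.lean

-- ===== PACK-BEGIN S28/H867/IntZ.lean
section



set_option autoImplicit false
noncomputable section
open ModularCurve HahnSeries Polynomial

namespace Fermat.Agent.S28.H867

section IntZ

variable {A : Type*} [CommRing A]

theorem ringHom_comp_evalAt {B : Type*} [CommRing B] (ψ : LaurentSeries A →+* LaurentSeries B)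
    (y : LaurentSeries A) : ψ.comp (evalAt y) = evalAt (ψ y) := by
  apply Polynomial.ringHom_ext
  · intro a; simp [evalAt]
  · simp [evalAt]

/-- Integrality is transported by ring homomorphisms. -/
theorem isIntegralElem_map {B : Type*} [CommRing B] (ψ : LaurentSeries A →+* LaurentSeries B)
    {y x : LaurentSeries A} (h : (evalAt y).IsIntegralElem x) :
    (evalAt (ψ y)).IsIntegralElem (ψ x) := by
  obtain ⟨P, hP, hPx⟩ := h
  refine ⟨P, hP, ?_⟩
  rw [← ringHom_comp_evalAt, ← Polynomial.hom_eval₂, hPx, map_zero]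

/-- Transitivity: `y` integral over `ℤ[j]` and `x` integral over `ℤ[y]` imply `x` integral
over `ℤ[j]`. -/
theorem isIntegralElem_trans {j y x : LaurentSeries A} (hy : (evalAt j).IsIntegralElem y)
    (hx : (evalAt y).IsIntegralElem x) : (evalAt j).IsIntegralElem x := by
  let _ : Algebra (Polynomial ℤ) (LaurentSeries A) := (evalAt j).toAlgebra
  have hy' : IsIntegral (Polynomial ℤ) y := hy
  set C := integralClosure (Polynomial ℤ) (LaurentSeries A) with hC
  have hyC : y ∈ C := hy'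
  obtain ⟨P, hP, hPx⟩ := hx
  let φ : Polynomial ℤ →+* C := (Polynomial.aeval (R := ℤ) (⟨y, hyC⟩ : C)).toRingHom
  have hφ : (algebraMap C (LaurentSeries A)).comp φ = evalAt y := by
    apply Polynomial.ringHom_ext
    · intro a; simp [φ, evalAt]
    · simp [φ, evalAt]
  have hxC : IsIntegral C x := by
    refine ⟨P.map φ, hP.map _, ?_⟩
    rw [Polynomial.eval₂_map, hφ]
    exact hPx
  exact isIntegral_trans (R := Polynomial ℤ) (A := C) x hxC

end IntZ

section Jd

/-- `j(q^d)` is integral over `ℤ[j]`, given modular polynomials at all primes dividing `d`. -/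
theorem isIntegralElem_jd (d : ℕ) (hd : d ≠ 0)
    (hΦ : ∀ p : ℕ, p.Prime → p ∣ d → ∀ [NeZero p], Nonempty (ModPolyData p)) :
    (evalAt (jqModC ℤ)).IsIntegralElem (@qExpand ℤ _ d ⟨hd⟩ (jqModC ℤ)) := by
  induction d using Nat.recOnMul with
  | zero => exact absurd rfl hd
  | one =>
    rw [qExpand_one_apply]
    refine ⟨Polynomial.X - Polynomial.C Polynomial.X, Polynomial.monic_X_sub_C _, ?_⟩
    simp [evalAt]
  | prime p hp =>
    have : NeZero p := ⟨hp.ne_zero⟩
    obtain ⟨D⟩ := hΦ p hp dvd_rfl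
    exact ⟨D.Φ, D.monic, D.eval_jp⟩
  | mul a b iha ihb =>
    have ha0 : a ≠ 0 := fun h => hd (by rw [h, zero_mul])
    have hb0 : b ≠ 0 := fun h => hd (by rw [h, mul_zero])
    have : NeZero a := ⟨ha0⟩
    have : NeZero b := ⟨hb0⟩
    have h1 := iha ha0 fun p hp hpa => hΦ p hp (hpa.mul_right b)
    have h2 := ihb hb0 fun p hp hpb => hΦ p hp (hpb.mul_left a)
    have h3 := isIntegralElem_map (qExpand ℤ a) h2
    rw [qExpand_qExpand] at h3
    exact isIntegralElem_trans h1 h3

/-- The `integral` field of `CoreData`. -/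
theorem coreData_integral (N : ℕ) [NeZero N]
    (hΦ : ∀ p : ℕ, p.Prime → p ∣ N → ∀ [NeZero p], Nonempty (ModPolyData p)) :
    ∀ (d : ℕ) [NeZero d], d ∣ N →
      ∃ P : Polynomial (Polynomial ℤ), P.Monic ∧
        P.eval₂ (evalAt (jqModC ℤ)) (qExpand ℤ d (jqModC ℤ)) = 0 := by
  intro d hd hdN
  exact isIntegralElem_jd d hd.out fun p hp hpd => hΦ p hp (hpd.trans hdN)

end Jd

end Fermat.Agent.S28.H867

end
end
-- ===== PACK-END S28/H867/IntZ.lean

-- ===== PACK-BEGIN S28/H145/PrimeDegree.lean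
section





/-!
# Leaf [L.B2] of the S28 plan: the prime-level degrees are `p + 1`

From the modular polynomial `Φ_p` (`ModPolyData p`) and `j(q^p) ∉ k(j)` we deduce that
`j(q^p)` has degree exactly `p + 1` over `k(j)` and `j` has degree exactly `p + 1` over
`k(j(q^p))`.
-/

set_option autoImplicit false

noncomputable section

open ModularCurve HahnSeries Polynomial

namespace Fermat.Agent.S28.H145

variable (k : Type*) [Field k]

/-! ### Basic facts on `j` -/

theorem jqModC_ne_zero' : jqModC k ≠ 0 := jqModC_ne_zero_of_nontrivial k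

theorem order_jqModC : (jqModC k).order = -1 := by
  have h1 : (jqModC k).coeff (-1) ≠ 0 := by
    rw [coeff_jqModC_neg_one]; exact one_ne_zero
  refine le_antisymm (HahnSeries.order_le_of_coeff_ne_zero h1) ?_
  by_contra hlt
  rw [not_le] at hlt
  exact (HahnSeries.coeff_order_eq_zero.not.mpr (jqModC_ne_zero' k)) (coeff_jqModC_of_lt k hlt)

theorem isCoprime_order_jqModC (p : ℕ) : IsCoprime (jqModC k).order (p : ℤ) := by
  rw [order_jqModC]
  exact (isCoprime_one_left).neg_left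

/-- `j ∉ range V_p` for `p ≥ 2`. -/
theorem jqModC_notMem_range (p : ℕ) [NeZero p] (hp : 2 ≤ p) :
    jqModC k ∉ (qExpand k p).range := by
  rintro ⟨z, hz⟩
  have h := dvd_order_qExpand (k := k) p z
  rw [hz, order_jqModC] at h
  have h1 : (p : ℤ) ∣ 1 := (dvd_neg.mp h)
  have h2 : (p : ℤ) ≤ 1 := Int.le_of_dvd one_pos h1
  have : (2 : ℤ) ≤ p := by exact_mod_cast hp
  omega

/-! ### Transfer of the modular equation to `k` -/

theorem coeffMap_comp_evalAt {A B : Type*} [CommRing A] [CommRing B] (f : A →+* B)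
    (y : LaurentSeries A) :
    (coeffMap f).comp (evalAt y) = evalAt (coeffMap f y) := by
  refine Polynomial.ringHom_ext' (Subsingleton.elim _ _) ?_
  simp [evalAt]

theorem qExpand_comp_evalAt {A : Type*} [CommRing A] (p : ℕ) [NeZero p] (y : LaurentSeries A) :
    (qExpand A p).comp (evalAt y) = evalAt (qExpand A p y) := by
  refine Polynomial.ringHom_ext' (Subsingleton.elim _ _) ?_
  simp [evalAt]

variable {k} in
theorem modPoly_eval_jp_field {p : ℕ} [NeZero p] (Φ : ModPolyData p) :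
    Φ.Φ.eval₂ (evalAt (jqModC k)) (qExpand k p (jqModC k)) = 0 := by
  have h := congrArg (coeffMap (Int.castRingHom k)) Φ.eval_jp
  rwa [Polynomial.hom_eval₂, coeffMap_comp_evalAt, coeffMap_qExpand, coeffMap_jqModC, map_zero]
    at h

variable {k} in
theorem modPoly_eval_j_field {p : ℕ} [NeZero p] (Φ : ModPolyData p) :
    Φ.Φ.eval₂ (evalAt (qExpand k p (jqModC k))) (jqModC k) = 0 := by
  have h := congrArg (coeffMap (Int.castRingHom k)) Φ.eval_j
  rwa [Polynomial.hom_eval₂, coeffMap_comp_evalAt, coeffMap_qExpand, coeffMap_jqModC, map_zero]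
    at h

variable {k} in
/-- `Φ_p(j(q^{p²}), j(q^p)) = 0`. -/
theorem modPoly_eval_jpp_field {p : ℕ} [NeZero p] (Φ : ModPolyData p) :
    Φ.Φ.eval₂ (evalAt (qExpand k p (jqModC k))) (qExpand k p (qExpand k p (jqModC k))) = 0 := by
  have h := congrArg (qExpand k p) (modPoly_eval_jp_field (k := k) Φ)
  rwa [Polynomial.hom_eval₂, qExpand_comp_evalAt, map_zero] at h

/-! ### Polynomials over intermediate fields -/

section Sub

variable {k}
variable (K : IntermediateField k (LaurentSeries k))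

/-- The ring hom `ℤ[Y] → K`, `Y ↦ y`, for `y ∈ K`. -/
def evalAtSub (y : LaurentSeries k) (hy : y ∈ K) : Polynomial ℤ →+* K :=
  Polynomial.eval₂RingHom (Int.castRingHom K) ⟨y, hy⟩

theorem algebraMap_comp_evalAtSub (y : LaurentSeries k) (hy : y ∈ K) :
    (algebraMap K (LaurentSeries k)).comp (evalAtSub K y hy) = evalAt y := by
  refine Polynomial.ringHom_ext' (Subsingleton.elim _ _) ?_
  simp [evalAtSub, evalAt]

theorem aeval_map_evalAtSub (y : LaurentSeries k) (hy : y ∈ K) (P : Polynomial (Polynomial ℤ))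
    (x : LaurentSeries k) :
    Polynomial.aeval x (P.map (evalAtSub K y hy)) = P.eval₂ (evalAt y) x := by
  rw [Polynomial.aeval_def, Polynomial.eval₂_map, algebraMap_comp_evalAtSub]

end Sub

/-! ### The fields `k(j)` and `k(j(q^p))` -/

section Fields

variable (p : ℕ) [NeZero p]

/-- `k(j(q^p)) = V_p(k(j))`. -/
def jpField : IntermediateField k (LaurentSeries k) :=
  (jField k).map (qExpandAlgHomC k p)

variable {k p}

theorem jqModC_mem_jField : jqModC k ∈ jField k :=
  IntermediateField.mem_adjoin_simple_self k _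

theorem jp_mem_jpField : qExpand k p (jqModC k) ∈ jpField k p :=
  (IntermediateField.mem_map _).mpr ⟨jqModC k, jqModC_mem_jField, rfl⟩

theorem jpField_eq_adjoin :
    jpField k p = IntermediateField.adjoin k {qExpand k p (jqModC k)} := by
  rw [jpField, jField, IntermediateField.adjoin_map]
  simp

theorem mem_range_of_mem_jpField {y : LaurentSeries k} (hy : y ∈ jpField k p) :
    y ∈ (qExpand k p).range := by
  obtain ⟨x, -, rfl⟩ := (IntermediateField.mem_map _).mp hy
  exact ⟨x, rfl⟩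

theorem jp_mem_jField_of_jpp_mem
    (h : qExpand k p (qExpand k p (jqModC k)) ∈ jpField k p) :
    qExpand k p (jqModC k) ∈ jField k := by
  obtain ⟨x, hx, hxe⟩ := (IntermediateField.mem_map _).mp h
  have : x = qExpand k p (jqModC k) := qExpand_injective p hxe
  rwa [← this]

end Fields

/-! ### The degree of `j` over `k(j(q^p))` -/

section Main

variable {k} {p : ℕ} [NeZero p]

/-- A monic polynomial of degree `p` with coefficients in the range of `V_p` cannot kill both
`j` and an element of the range of `V_p`. -/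
theorem false_of_monic_natDegree_eq_of_roots (hp : 2 ≤ p) (f : Polynomial (LaurentSeries k))
    (hf : f.Monic) (hdeg : f.natDegree = p) (hcoef : ∀ n, f.coeff n ∈ (qExpand k p).range)
    (hj : f.eval (jqModC k) = 0) (z : LaurentSeries k) (hz : f.eval (qExpand k p z) = 0) :
    False := by
  have hlift : f ∈ Polynomial.lifts (qExpand k p) :=
    (Polynomial.lifts_iff_coeff_lifts f).mpr fun n => by
      obtain ⟨c, hc⟩ := hcoef n
      exact ⟨c, hc⟩
  obtain ⟨m', hm'map, hm'deg, hm'monic⟩ := Polynomial.lifts_and_natDegree_eq_and_monic hlift hf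
  have hroot : m'.IsRoot z := by
    have h1 : (qExpand k p) (m'.eval z) = 0 := by
      rw [← Polynomial.eval₂_hom, ← Polynomial.eval_map, hm'map]; exact hz
    exact qExpand_injective p (by rw [h1, map_zero])
  have hfac : (X - Polynomial.C z) * (m' /ₘ (X - Polynomial.C z)) = m' := Polynomial.mul_divByMonic_eq_iff_isRoot.mpr hroot
  set m₂ := m' /ₘ (X - Polynomial.C z) with hm₂
  have hm₂deg : m₂.natDegree = p - 1 := by
    rw [hm₂, Polynomial.natDegree_divByMonic _ (Polynomial.monic_X_sub_C z), hm'deg, hdeg,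
      Polynomial.natDegree_X_sub_C]
  have hfmap : f = (X - Polynomial.C (qExpand k p z)) * m₂.map (qExpand k p) := by
    rw [← hm'map, ← hfac, Polynomial.map_mul, Polynomial.map_sub, Polynomial.map_X,
      Polynomial.map_C]
  have hne : jqModC k - qExpand k p z ≠ 0 := by
    intro h
    exact jqModC_notMem_range k p hp ⟨z, (sub_eq_zero.mp h).symm⟩
  have hj2 : (m₂.map (qExpand k p)).eval (jqModC k) = 0 := by
    have := hj
    rw [hfmap, Polynomial.eval_mul, Polynomial.eval_sub, Polynomial.eval_X, Polynomial.eval_C]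
      at this
    exact (mul_eq_zero.mp this).resolve_left hne
  have hzero : m₂.map (qExpand k p) = 0 := by
    refine eq_zero_of_eval_eq_zero_of_natDegree_lt p (jqModC k) (jqModC_ne_zero' k)
      (isCoprime_order_jqModC k p) _ (fun n => ?_) ?_ hj2
    · rw [Polynomial.coeff_map]; exact ⟨_, rfl⟩
    · calc (m₂.map (qExpand k p)).natDegree ≤ m₂.natDegree := Polynomial.natDegree_map_le
        _ = p - 1 := hm₂deg
        _ < p := by omega
  rw [hzero, mul_zero] at hfmap
  exact hf.ne_zero hfmap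

/-- **[L.B2], first half.** The minimal polynomial of `j` over `k(j(q^p))` is `Φ_p(X, j(q^p))`,
of degree `p + 1`. -/
theorem minpoly_j_over_jpField (Φ : ModPolyData p) (hp : 2 ≤ p)
    (hB1 : qExpand k p (jqModC k) ∉ jField k) :
    minpoly (jpField k p) (jqModC k) =
      Φ.Φ.map (evalAtSub (jpField k p) _ jp_mem_jpField) := by
  set K₁ := jpField k p with hK₁
  set P₁ : Polynomial K₁ := Φ.Φ.map (evalAtSub K₁ _ jp_mem_jpField) with hP₁
  have hP₁monic : P₁.Monic := Φ.monic.map _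
  have hP₁deg : P₁.natDegree = p + 1 := by
    rw [hP₁, Φ.monic.natDegree_map, Φ.natDegree_eq]
  have hroot_j : Polynomial.aeval (jqModC k) P₁ = 0 := by
    rw [hP₁, aeval_map_evalAtSub]; exact modPoly_eval_j_field Φ
  have hroot_jpp : Polynomial.aeval (qExpand k p (qExpand k p (jqModC k))) P₁ = 0 := by
    rw [hP₁, aeval_map_evalAtSub]; exact modPoly_eval_jpp_field Φ
  have hint : IsIntegral K₁ (jqModC k) := ⟨P₁, hP₁monic, by rwa [← Polynomial.aeval_def]⟩
  set m := minpoly K₁ (jqModC k) with hm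
  have hm_dvd : m ∣ P₁ := minpoly.dvd K₁ _ hroot_j
  have hm_monic : m.Monic := minpoly.monic hint
  have hm_le : m.natDegree ≤ p + 1 :=
    hP₁deg ▸ Polynomial.natDegree_le_of_dvd hm_dvd hP₁monic.ne_zero
  have hcoef : ∀ n, (m.map (algebraMap K₁ (LaurentSeries k))).coeff n ∈ (qExpand k p).range := by
    intro n
    rw [Polynomial.coeff_map]
    exact mem_range_of_mem_jpField (m.coeff n).2
  have hmj : (m.map (algebraMap K₁ (LaurentSeries k))).eval (jqModC k) = 0 := by
    rw [Polynomial.eval_map, ← Polynomial.aeval_def]; exact minpoly.aeval K₁ _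
  -- Claim A
  have hA : p ≤ m.natDegree := by
    by_contra hlt
    rw [not_le] at hlt
    have := eq_zero_of_eval_eq_zero_of_natDegree_lt p (jqModC k) (jqModC_ne_zero' k)
      (isCoprime_order_jqModC k p) (m.map (algebraMap K₁ (LaurentSeries k))) hcoef
      (by rwa [hm_monic.natDegree_map]) hmj
    exact (hm_monic.map _).ne_zero this
  -- Claim B
  have hB : m.natDegree ≠ p := by
    intro hdeg
    obtain ⟨r, hr⟩ := hm_dvd
    have hr_monic : r.Monic := hm_monic.of_mul_monic_left (hr ▸ hP₁monic)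
    have hr_deg : r.natDegree = 1 := by
      have := congrArg Polynomial.natDegree hr
      rw [hm_monic.natDegree_mul hr_monic, hP₁deg, hdeg] at this
      omega
    have hr_eq : r = X + Polynomial.C (r.coeff 0) := hr_monic.eq_X_add_C hr_deg
    have h0 : Polynomial.aeval (qExpand k p (qExpand k p (jqModC k))) m *
        Polynomial.aeval (qExpand k p (qExpand k p (jqModC k))) r = 0 := by
      rw [← map_mul, ← hr]; exact hroot_jpp
    rcases mul_eq_zero.mp h0 with h1 | h1
    · refine false_of_monic_natDegree_eq_of_roots hp (m.map (algebraMap K₁ (LaurentSeries k)))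
        (hm_monic.map _) (by rw [hm_monic.natDegree_map, hdeg]) hcoef hmj
        (qExpand k p (jqModC k)) ?_
      rw [Polynomial.eval_map, ← Polynomial.aeval_def]; exact h1
    · rw [hr_eq] at h1
      simp only [map_add, Polynomial.aeval_X, Polynomial.aeval_C] at h1
      have hmem : qExpand k p (qExpand k p (jqModC k)) ∈ K₁ := by
        have : qExpand k p (qExpand k p (jqModC k)) =
            -(algebraMap K₁ (LaurentSeries k) (r.coeff 0)) := eq_neg_of_add_eq_zero_left h1
        rw [this]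
        exact neg_mem (r.coeff 0).2
      exact hB1 (jp_mem_jField_of_jpp_mem hmem)
  have hdeg : m.natDegree = p + 1 := by omega
  exact (Polynomial.eq_of_monic_of_dvd_of_natDegree_le hm_monic hP₁monic hm_dvd
    (by rw [hP₁deg, hdeg])).symm

theorem natDegree_minpoly_j_over_jpField (Φ : ModPolyData p) (hp : 2 ≤ p)
    (hB1 : qExpand k p (jqModC k) ∉ jField k) :
    (minpoly (jpField k p) (jqModC k)).natDegree = p + 1 := by
  rw [minpoly_j_over_jpField Φ hp hB1, Φ.monic.natDegree_map, Φ.natDegree_eq]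

/-- The minimal polynomial of `j(q^{p²})` over `k(j(q^p))` is also `Φ_p(X, j(q^p))`. -/
theorem minpoly_jpp_over_jpField (Φ : ModPolyData p) (hp : 2 ≤ p)
    (hB1 : qExpand k p (jqModC k) ∉ jField k) :
    minpoly (jpField k p) (qExpand k p (qExpand k p (jqModC k))) =
      Φ.Φ.map (evalAtSub (jpField k p) _ jp_mem_jpField) := by
  have hP₁monic : (Φ.Φ.map (evalAtSub (jpField k p) _ jp_mem_jpField)).Monic := Φ.monic.map _
  have hroot_j : Polynomial.aeval (jqModC k)
      (Φ.Φ.map (evalAtSub (jpField k p) _ jp_mem_jpField)) = 0 := by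
    rw [aeval_map_evalAtSub]; exact modPoly_eval_j_field Φ
  have hint : IsIntegral (jpField k p) (jqModC k) :=
    ⟨_, hP₁monic, by rwa [← Polynomial.aeval_def]⟩
  have hirr : Irreducible (Φ.Φ.map (evalAtSub (jpField k p) _ jp_mem_jpField)) := by
    rw [← minpoly_j_over_jpField Φ hp hB1]
    exact minpoly.irreducible hint
  refine (minpoly.eq_of_irreducible_of_monic hirr ?_ hP₁monic).symm
  rw [aeval_map_evalAtSub]
  exact modPoly_eval_jpp_field Φ

/-- The ring isomorphism `k(j) ≃ k(j(q^p))` induced by `V_p`. -/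
def jFieldEquiv (k : Type*) [Field k] (p : ℕ) [NeZero p] : jField k ≃ₐ[k] jpField k p :=
  IntermediateField.equivMap (jField k) (qExpandAlgHomC k p)

theorem algebraMap_comp_jFieldEquiv :
    (algebraMap (jpField k p) (LaurentSeries k)).comp (jFieldEquiv k p : jField k →+* jpField k p)
      = (qExpand k p).comp (algebraMap (jField k) (LaurentSeries k)) := by
  ext x
  rfl

/-- **[L.B2], second half.** The minimal polynomial of `j(q^p)` over `k(j)` is `Φ_p(X, j)`. -/
theorem minpoly_jp_over_jField (Φ : ModPolyData p) (hp : 2 ≤ p)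
    (hB1 : qExpand k p (jqModC k) ∉ jField k) :
    minpoly (jField k) (qExpand k p (jqModC k)) =
      Φ.Φ.map (evalAtSub (jField k) _ jqModC_mem_jField) := by
  set K₀ := jField k with hK₀
  set P₀ : Polynomial K₀ := Φ.Φ.map (evalAtSub K₀ _ jqModC_mem_jField) with hP₀
  have hP₀monic : P₀.Monic := Φ.monic.map _
  have hP₀deg : P₀.natDegree = p + 1 := by
    rw [hP₀, Φ.monic.natDegree_map, Φ.natDegree_eq]
  have hroot : Polynomial.aeval (qExpand k p (jqModC k)) P₀ = 0 := by
    rw [hP₀, aeval_map_evalAtSub]; exact modPoly_eval_jp_field Φ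
  have hint : IsIntegral K₀ (qExpand k p (jqModC k)) :=
    ⟨P₀, hP₀monic, by rwa [← Polynomial.aeval_def]⟩
  set m₀ := minpoly K₀ (qExpand k p (jqModC k)) with hm₀
  have hm₀_dvd : m₀ ∣ P₀ := minpoly.dvd K₀ _ hroot
  have hm₀_monic : m₀.Monic := minpoly.monic hint
  -- transport to `k(j(q^p))`
  set g : Polynomial (jpField k p) := m₀.map (jFieldEquiv k p : jField k →+* jpField k p) with hg
  have hg_monic : g.Monic := hm₀_monic.map _
  have hg_deg : g.natDegree = m₀.natDegree := hm₀_monic.natDegree_map _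
  have hg_root : Polynomial.aeval (qExpand k p (qExpand k p (jqModC k))) g = 0 := by
    rw [hg, Polynomial.aeval_def, Polynomial.eval₂_map, algebraMap_comp_jFieldEquiv,
      ← Polynomial.hom_eval₂, ← Polynomial.aeval_def, minpoly.aeval, map_zero]
  have hdvd : minpoly (jpField k p) (qExpand k p (qExpand k p (jqModC k))) ∣ g :=
    minpoly.dvd _ _ hg_root
  rw [minpoly_jpp_over_jpField Φ hp hB1] at hdvd
  have hle : p + 1 ≤ m₀.natDegree := by
    have := Polynomial.natDegree_le_of_dvd hdvd hg_monic.ne_zero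
    rwa [Φ.monic.natDegree_map, Φ.natDegree_eq, hg_deg] at this
  exact (Polynomial.eq_of_monic_of_dvd_of_natDegree_le hm₀_monic hP₀monic hm₀_dvd
    (by rw [hP₀deg]; exact hle)).symm

theorem natDegree_minpoly_jp_over_jField (Φ : ModPolyData p) (hp : 2 ≤ p)
    (hB1 : qExpand k p (jqModC k) ∉ jField k) :
    (minpoly (jField k) (qExpand k p (jqModC k))).natDegree = p + 1 := by
  rw [minpoly_jp_over_jField Φ hp hB1, Φ.monic.natDegree_map, Φ.natDegree_eq]

theorem isIntegral_jp_over_jField (Φ : ModPolyData p) :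
    IsIntegral (jField k) (qExpand k p (jqModC k)) := by
  refine ⟨Φ.Φ.map (evalAtSub (jField k) _ jqModC_mem_jField), Φ.monic.map _, ?_⟩
  rw [← Polynomial.aeval_def, aeval_map_evalAtSub]
  exact modPoly_eval_jp_field Φ

theorem isIntegral_j_over_jpField (Φ : ModPolyData p) :
    IsIntegral (jpField k p) (jqModC k) := by
  refine ⟨Φ.Φ.map (evalAtSub (jpField k p) _ jp_mem_jpField), Φ.monic.map _, ?_⟩
  rw [← Polynomial.aeval_def, aeval_map_evalAtSub]
  exact modPoly_eval_j_field Φ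

/-- `[k(j, j(q^p)) : k(j)] = p + 1`. -/
theorem finrank_adjoin_jp_over_jField (Φ : ModPolyData p) (hp : 2 ≤ p)
    (hB1 : qExpand k p (jqModC k) ∉ jField k) :
    Module.finrank (jField k)
      (IntermediateField.adjoin (jField k) {qExpand k p (jqModC k)}) = p + 1 := by
  have h := IntermediateField.adjoin.finrank (isIntegral_jp_over_jField (k := k) Φ)
  rw [h, natDegree_minpoly_jp_over_jField Φ hp hB1]

/-- `[k(j(q^p), j) : k(j(q^p))] = p + 1`. -/
theorem finrank_adjoin_j_over_jpField (Φ : ModPolyData p) (hp : 2 ≤ p)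
    (hB1 : qExpand k p (jqModC k) ∉ jField k) :
    Module.finrank (jpField k p)
      (IntermediateField.adjoin (jpField k p) {jqModC k}) = p + 1 := by
  have h := IntermediateField.adjoin.finrank (isIntegral_j_over_jpField (k := k) Φ)
  rw [h, natDegree_minpoly_j_over_jpField Φ hp hB1]

end Main

end Fermat.Agent.S28.H145

end

end
-- ===== PACK-END S28/H145/PrimeDegree.lean

-- ===== PACK-BEGIN S28/H88/Theta.lean
section
/-
S28 (Igusa) -- helper88: the derivation `θ = q d/dq` on formal Laurent series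
(toolkit for the prime-level step [L2]: `j(q^p) ∉ k(j)`).
-/


set_option autoImplicit false

noncomputable section

open ModularCurve HahnSeries

namespace Fermat.Agent.S28

section ThetaBasic

variable {R : Type*} [CommRing R]

theorem h88_thetaL_add (f g : LaurentSeries R) :
    thetaL R (f + g) = thetaL R f + thetaL R g := by
  ext n; simp [mul_add]

theorem h88_thetaL_zero : thetaL R (0 : LaurentSeries R) = 0 := by
  ext n; simp

theorem h88_thetaL_neg (f : LaurentSeries R) : thetaL R (-f) = - thetaL R f := by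
  ext n; simp

theorem h88_thetaL_sub (f g : LaurentSeries R) :
    thetaL R (f - g) = thetaL R f - thetaL R g := by
  ext n; simp [mul_sub]

theorem h88_thetaL_support_subset (f : LaurentSeries R) :
    (thetaL R f).support ⊆ f.support := by
  intro n hn
  simp only [HahnSeries.mem_support, thetaL_coeff, ne_eq] at hn ⊢
  intro h; exact hn (by rw [h, mul_zero])

/-- Leibniz rule. -/
theorem h88_thetaL_mul (f g : LaurentSeries R) :
    thetaL R (f * g) = thetaL R f * g + f * thetaL R g := by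
  ext n
  rw [HahnSeries.coeff_add, thetaL_coeff, HahnSeries.coeff_mul,
    HahnSeries.coeff_mul_left' f.isPWO_support (h88_thetaL_support_subset f),
    HahnSeries.coeff_mul_right' g.isPWO_support (h88_thetaL_support_subset g),
    Finset.mul_sum, ← Finset.sum_add_distrib]
  refine Finset.sum_congr rfl fun ij hij => ?_
  rw [Finset.mem_antidiagonal] at hij
  obtain ⟨-, -, h⟩ := hij
  simp only [thetaL_coeff]
  rw [← h]; push_cast; ring

theorem h88_thetaL_single_zero (c : R) : thetaL R (HahnSeries.single (0 : ℤ) c) = 0 := by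
  ext n
  rw [thetaL_coeff, HahnSeries.coeff_zero]
  rcases eq_or_ne n 0 with rfl | hn
  · simp
  · rw [HahnSeries.coeff_single_of_ne hn, mul_zero]

theorem h88_thetaL_C (c : R) : thetaL R (HahnSeries.C c : LaurentSeries R) = 0 :=
  h88_thetaL_single_zero c

theorem h88_thetaL_one : thetaL R (1 : LaurentSeries R) = 0 :=
  h88_thetaL_single_zero 1

theorem h88_thetaL_pow (f : LaurentSeries R) (n : ℕ) :
    thetaL R (f ^ (n + 1)) = ((n + 1 : ℕ) : LaurentSeries R) * f ^ n * thetaL R f := by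
  induction n with
  | zero => simp
  | succ n ih =>
    rw [pow_succ, h88_thetaL_mul, ih]
    push_cast
    ring

/-- `θ` commutes with `q ↦ q^p` up to the factor `p`. -/
theorem h88_thetaL_qExpand (p : ℕ) [NeZero p] (f : LaurentSeries R) :
    thetaL R (qExpand R p f) = (p : LaurentSeries R) * qExpand R p (thetaL R f) := by
  rw [← nsmul_eq_mul]
  ext n
  rw [thetaL_coeff, HahnSeries.coeff_smul]
  by_cases hn : (p : ℤ) ∣ n
  · obtain ⟨m, rfl⟩ := hn
    rw [qExpand_coeff_mul, qExpand_coeff_mul, thetaL_coeff, nsmul_eq_mul]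
    push_cast; ring
  · rw [qExpand_coeff_of_not_dvd p _ hn, qExpand_coeff_of_not_dvd p _ hn, mul_zero, smul_zero]

end ThetaBasic

section CoeffMapCompat

variable {R S : Type*} [CommRing R] [CommRing S]

theorem h88_coeffMap_thetaL (f : R →+* S) (x : LaurentSeries R) :
    coeffMap f (thetaL R x) = thetaL S (coeffMap f x) := by
  ext n
  simp [coeffMap_coeff]

theorem h88_map_map_intCast (f : R →+* S) (P : PowerSeries ℤ) :
    (P.map (Int.castRingHom R)).map f = P.map (Int.castRingHom S) := by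
  rw [← RingHom.comp_apply (PowerSeries.map f) (PowerSeries.map (Int.castRingHom R)),
    ← PowerSeries.map_comp, RingHom.ext_int (f.comp (Int.castRingHom R)) (Int.castRingHom S)]

theorem h88_coeffMap_deltaL (f : R →+* S) : coeffMap f (deltaL R) = deltaL S := by
  rw [deltaL, map_mul, coeffMap_single, map_one, coeffMap_ofPowerSeries, h88_map_map_intCast]
  rfl

theorem h88_coeffMap_deltaInvL (f : R →+* S) : coeffMap f (deltaInvL R) = deltaInvL S := by
  rw [deltaInvL, map_mul, coeffMap_single, map_one, coeffMap_ofPowerSeries, h88_map_map_intCast]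
  rfl

theorem h88_coeffMap_unitL (f : R →+* S) (p : ℕ) [NeZero p] :
    coeffMap f (unitL R p) = unitL S p := by
  rw [unitL, map_mul, coeffMap_qExpand, h88_coeffMap_deltaL, h88_coeffMap_deltaInvL]
  rfl

variable (R) in
theorem h88_deltaL_mul_deltaInvL : deltaL R * deltaInvL R = 1 := by
  rw [deltaL, deltaInvL, mul_mul_mul_comm, HahnSeries.single_mul_single, ← map_mul,
    ← map_mul, dedekindEtaUnit_mul_inv]
  simp

end CoeffMapCompat

end Fermat.Agent.S28

end

end
-- ===== PACK-END S28/H88/Theta.lean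

-- ===== PACK-BEGIN S28/H88/PrimeLevel.lean
section
/-
S28 (Igusa) -- helper88: prime-level step [L2]: `j(q^p) ∉ k(j)` for `(p : k) ≠ 0`.
Inputs (explicit hypotheses): the unit polynomial `UnitPolyData p` and the θ-identity
`(θ j)^6 = Δ j^4 (j - 1728)^3` over `ℤ`.
-/


set_option autoImplicit false

noncomputable section

open ModularCurve HahnSeries

namespace Fermat.Agent.S28

section KeyOrder

variable (k : Type*) [Field k]

/-- The coefficient of `q^{-deg P}` in `P(j)` is the leading coefficient of `P`. -/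
theorem h88_coeff_aeval_jqModC (P : Polynomial k) :
    (Polynomial.aeval (jqModC k) P).coeff (-(P.natDegree : ℤ)) = P.leadingCoeff := by
  rw [Polynomial.aeval_eq_sum_range, HahnSeries.coeff_sum,
    Finset.sum_eq_single_of_mem P.natDegree (Finset.self_mem_range_succ _)]
  · rw [Algebra.smul_def, algebraMap_laurentSeries_eq_single, HahnSeries.coeff_single_zero_mul,
      coeff_jqModC_pow_self, mul_one]; rfl
  · intro i hi hne
    have hlt : i < P.natDegree :=
      lt_of_le_of_ne (Nat.lt_succ_iff.mp (Finset.mem_range.mp hi)) hne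
    rw [Algebra.smul_def, algebraMap_laurentSeries_eq_single, HahnSeries.coeff_single_zero_mul,
      coeff_jqModC_pow_of_lt k (by omega), mul_zero]

theorem h88_aeval_jqModC_injective :
    Function.Injective (Polynomial.aeval (jqModC k) : Polynomial k →ₐ[k] LaurentSeries k) := by
  rw [injective_iff_map_eq_zero]
  intro P hP
  have h := h88_coeff_aeval_jqModC k P
  rw [hP, HahnSeries.coeff_zero] at h
  exact Polynomial.leadingCoeff_eq_zero.mp h.symm

theorem h88_order_aeval_jqModC_le {P : Polynomial k} (hP : P ≠ 0) :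
    (Polynomial.aeval (jqModC k) P).order ≤ 0 := by
  have h : (Polynomial.aeval (jqModC k) P).coeff (-(P.natDegree : ℤ)) ≠ 0 := by
    rw [h88_coeff_aeval_jqModC]
    exact Polynomial.leadingCoeff_ne_zero.mpr hP
  have := HahnSeries.order_le_of_coeff_ne_zero h
  omega

theorem h88_jqModC_mem_jField : jqModC k ∈ jField k :=
  IntermediateField.subset_adjoin k _ (Set.mem_singleton _)

/-- Chain rule: `θ` maps `k(j)` into `k(j) · θ j`. -/
theorem h88_chain_rule {x : LaurentSeries k} (hx : x ∈ jField k) :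
    ∃ c ∈ jField k, thetaL k x = c * thetaL k (jqModC k) := by
  unfold jField at hx
  induction hx using IntermediateField.adjoin_induction with
  | mem x hx =>
    rw [Set.mem_singleton_iff] at hx; subst hx
    exact ⟨1, one_mem _, (one_mul _).symm⟩
  | algebraMap c =>
    refine ⟨0, zero_mem _, ?_⟩
    rw [zero_mul, algebraMap_laurentSeries_eq_single]
    exact h88_thetaL_single_zero c
  | add x y hx hy ihx ihy =>
    obtain ⟨a, ha, hxa⟩ := ihx
    obtain ⟨b, hb, hyb⟩ := ihy
    exact ⟨a + b, add_mem ha hb, by rw [h88_thetaL_add, hxa, hyb, add_mul]⟩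
  | inv x hx ih =>
    obtain ⟨a, ha, hxa⟩ := ih
    refine ⟨-a * x⁻¹ * x⁻¹, mul_mem (mul_mem (neg_mem ha) (inv_mem hx)) (inv_mem hx), ?_⟩
    by_cases hx0 : x = 0
    · subst hx0; simp [h88_thetaL_zero]
    · have h1 : thetaL k (x * x⁻¹) = 0 := by
        rw [mul_inv_cancel₀ hx0]; exact h88_thetaL_one
      rw [h88_thetaL_mul, hxa] at h1
      have h2 : x * thetaL k x⁻¹ = -(a * thetaL k (jqModC k) * x⁻¹) :=
        eq_neg_of_add_eq_zero_right h1
      have h3 : thetaL k x⁻¹ = x⁻¹ * (x * thetaL k x⁻¹) := by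
        rw [← mul_assoc, inv_mul_cancel₀ hx0, one_mul]
      rw [h3, h2]; ring
  | mul x y hx hy ihx ihy =>
    obtain ⟨a, ha, hxa⟩ := ihx
    obtain ⟨b, hb, hyb⟩ := ihy
    exact ⟨a * y + x * b, add_mem (mul_mem ha hy) (mul_mem hx hb), by
      rw [h88_thetaL_mul, hxa, hyb]; ring⟩

end KeyOrder

section DeltaCoeff

variable (R : Type*) [CommRing R]

theorem h88_deltaL_coeff_of_le {m : ℤ} (hm : m ≤ 0) : (deltaL R).coeff m = 0 := by
  rw [deltaL, HahnSeries.coeff_single_mul, ofPowerSeries_coeff_of_neg _ (by omega), mul_zero]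

theorem h88_deltaL_coeff_one : (deltaL R).coeff 1 = 1 := by
  rw [deltaL, HahnSeries.coeff_single_mul, sub_self, one_mul]
  have h := HahnSeries.ofPowerSeries_apply_coeff (Γ := ℤ)
    (dedekindEtaUnit.map (Int.castRingHom R)) 0
  rw [Nat.cast_zero] at h
  rw [h, PowerSeries.coeff_map, PowerSeries.coeff_zero_eq_constantCoeff,
    constantCoeff_dedekindEtaUnit]
  simp

theorem h88_qExpand_deltaL_coeff_of_lt (p : ℕ) [NeZero p] {n : ℤ} (hn : n < p) :
    (qExpand R p (deltaL R)).coeff n = 0 := by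
  by_cases hdvd : (p : ℤ) ∣ n
  · obtain ⟨m, rfl⟩ := hdvd
    rw [qExpand_coeff_mul]
    apply h88_deltaL_coeff_of_le
    by_contra hm
    rw [not_le] at hm
    have hp : (0 : ℤ) < p := by exact_mod_cast Nat.pos_of_ne_zero (NeZero.ne p)
    nlinarith
  · exact qExpand_coeff_of_not_dvd p _ hdvd

end DeltaCoeff

section Transport

variable (k : Type*) [Field k]

theorem h88_coeffMap_comp_evalAt :
    (coeffMap (Int.castRingHom k)).comp (evalAt (jqModC ℤ)) = evalAt (jqModC k) := by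
  apply Polynomial.ringHom_ext
  · intro a
    simp [evalAt]
  · simp [evalAt, coeffMap_jqModC]

/-- The θ-identity over `k`, transported from `ℤ`. -/
theorem h88_theta_identity_field
    (hθ : (thetaL ℤ (jqModC ℤ)) ^ 6 = deltaL ℤ * (jqModC ℤ) ^ 4 * (jqModC ℤ - 1728) ^ 3) :
    (thetaL k (jqModC k)) ^ 6 = deltaL k * (jqModC k) ^ 4 * (jqModC k - 1728) ^ 3 := by
  have h := congrArg (coeffMap (Int.castRingHom k)) hθ
  simpa only [map_pow, map_mul, map_sub, h88_coeffMap_thetaL, coeffMap_jqModC,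
    h88_coeffMap_deltaL, map_ofNat] using h

/-- The unit polynomial relation over `k`, transported from `ℤ`. -/
theorem h88_unitPoly_field (p : ℕ) [NeZero p] (W : UnitPolyData p) :
    W.W.eval₂ (evalAt (jqModC k)) ((p : LaurentSeries k) ^ 12 * unitL k p) = 0 := by
  have h := congrArg (coeffMap (Int.castRingHom k)) W.eval_unit
  rw [Polynomial.hom_eval₂, map_zero, map_mul, map_pow, map_natCast, h88_coeffMap_unitL,
    h88_coeffMap_comp_evalAt] at h
  exact h

end Transport

section RatFuncEmbedding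

variable (k : Type*) [Field k]

/-- The embedding `k(X) → k((q))`, `X ↦ j`. -/
def h88_iota : RatFunc k →ₐ[k] LaurentSeries k :=
  RatFunc.liftAlgHom (Polynomial.aeval (jqModC k))
    (nonZeroDivisors_le_comap_nonZeroDivisors_of_injective _ (h88_aeval_jqModC_injective k))

theorem h88_iota_injective : Function.Injective (h88_iota k) :=
  RatFunc.liftAlgHom_injective _ (h88_aeval_jqModC_injective k)

theorem h88_iota_algebraMap (P : Polynomial k) :
    h88_iota k (algebraMap (Polynomial k) (RatFunc k) P) = Polynomial.aeval (jqModC k) P := by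
  have h := RatFunc.liftAlgHom_apply_div (Polynomial.aeval (jqModC k))
    (nonZeroDivisors_le_comap_nonZeroDivisors_of_injective _ (h88_aeval_jqModC_injective k)) P 1
  simpa [h88_iota] using h

theorem h88_jField_le_range : jField k ≤ (h88_iota k).fieldRange := by
  unfold jField
  rw [IntermediateField.adjoin_le_iff]
  intro x hx
  rw [Set.mem_singleton_iff] at hx
  subst hx
  exact ⟨algebraMap (Polynomial k) (RatFunc k) Polynomial.X,
    (h88_iota_algebraMap k Polynomial.X).trans (Polynomial.aeval_X _)⟩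

/-- An element of `k(j)` which is a root of a monic polynomial with coefficients in the
image of `ℤ[j]` is a polynomial in `j`. -/
theorem h88_exists_poly_of_integral {w : LaurentSeries k} (hw : w ∈ jField k)
    (W : Polynomial (Polynomial ℤ)) (hW : W.Monic)
    (hroot : W.eval₂ (evalAt (jqModC k)) w = 0) :
    ∃ P : Polynomial k, w = Polynomial.aeval (jqModC k) P := by
  obtain ⟨r, hr⟩ := h88_jField_le_range k hw
  let ψ : Polynomial ℤ →+* Polynomial k := Polynomial.mapRingHom (Int.castRingHom k)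
  have hcomp : ((h88_iota k).toRingHom.comp (algebraMap (Polynomial k) (RatFunc k))).comp ψ
      = evalAt (jqModC k) := by
    apply Polynomial.ringHom_ext
    · intro a
      simp [ψ, evalAt]
    · show h88_iota k (algebraMap (Polynomial k) (RatFunc k)
          (Polynomial.map (Int.castRingHom k) Polynomial.X))
        = Polynomial.aeval (jqModC k) Polynomial.X
      rw [Polynomial.map_X, h88_iota_algebraMap, Polynomial.aeval_X]
      exact (Polynomial.aeval_X (R := ℤ) (jqModC k)).symm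
  have hint : IsIntegral (Polynomial k) r := by
    refine ⟨W.map ψ, hW.map ψ, ?_⟩
    apply h88_iota_injective k
    rw [map_zero, Polynomial.eval₂_map]
    have h2 := Polynomial.hom_eval₂ W ((algebraMap (Polynomial k) (RatFunc k)).comp ψ)
      (h88_iota k).toRingHom r
    rw [← RingHom.comp_assoc, hcomp, hr, hroot] at h2
    exact h2
  obtain ⟨P, hP⟩ := IsIntegrallyClosed.isIntegral_iff.mp hint
  refine ⟨P, ?_⟩
  rw [← h88_iota_algebraMap, hP]
  exact hr.symm

end RatFuncEmbedding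

section Main

variable (k : Type*) [Field k]

theorem h88_natCast_mem_jField (n : ℕ) : (n : LaurentSeries k) ∈ jField k :=
  natCast_mem _ n

theorem h88_natCast_ne_zero {p : ℕ} (hpk : (p : k) ≠ 0) : (p : LaurentSeries k) ≠ 0 := by
  have h : (p : LaurentSeries k) = algebraMap k (LaurentSeries k) (p : k) :=
    (map_natCast _ p).symm
  rw [h]
  exact (map_ne_zero (algebraMap k (LaurentSeries k))).mpr hpk

theorem h88_deltaL_ne_zero : deltaL k ≠ 0 := by
  intro h
  have := h88_deltaL_coeff_one k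
  rw [h, HahnSeries.coeff_zero] at this
  exact zero_ne_one this

theorem h88_qExpand_jqModC_coeff (p : ℕ) [NeZero p] :
    (qExpand k p (jqModC k)).coeff (-(p : ℤ)) = 1 := by
  have h := qExpand_coeff_mul (R := k) p (jqModC k) (-1)
  rw [coeff_jqModC_neg_one] at h
  rw [← h]
  congr 1
  ring

/-- **[L2]** For `(p : k) ≠ 0`, `p > 1`: `j(q^p) ∉ k(j)`. -/
theorem h88_jp_not_mem_jField (p : ℕ) [NeZero p] (hpk : (p : k) ≠ 0) (hp1 : 1 < p)
    (W : UnitPolyData p)
    (hθ : (thetaL ℤ (jqModC ℤ)) ^ 6 = deltaL ℤ * (jqModC ℤ) ^ 4 * (jqModC ℤ - 1728) ^ 3) :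
    qExpand k p (jqModC k) ∉ jField k := by
  intro hmem
  have hθk := h88_theta_identity_field k hθ
  have hjmem := h88_jqModC_mem_jField k
  have hp0 : (p : LaurentSeries k) ≠ 0 := h88_natCast_ne_zero k hpk
  have hpmem : (p : LaurentSeries k) ∈ jField k := h88_natCast_mem_jField k p
  have h1728 : (1728 : LaurentSeries k) ∈ jField k := by
    have := h88_natCast_mem_jField k 1728
    rwa [Nat.cast_ofNat] at this
  have hd := h88_deltaL_mul_deltaInvL k
  obtain ⟨c, hc, hcj⟩ := h88_chain_rule k hmem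
  have h1 : thetaL k (qExpand k p (jqModC k))
      = (p : LaurentSeries k) * qExpand k p (thetaL k (jqModC k)) :=
    h88_thetaL_qExpand p (jqModC k)
  have hVθ : (qExpand k p (thetaL k (jqModC k))) ^ 6
      = qExpand k p (deltaL k) * (qExpand k p (jqModC k)) ^ 4
        * (qExpand k p (jqModC k) - 1728) ^ 3 := by
    have h := congrArg (qExpand k p) hθk
    simpa only [map_pow, map_mul, map_sub, map_ofNat] using h
  have h2 : (p : LaurentSeries k) ^ 6 * (qExpand k p (deltaL k) * (qExpand k p (jqModC k)) ^ 4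
        * (qExpand k p (jqModC k) - 1728) ^ 3)
      = c ^ 6 * (deltaL k * (jqModC k) ^ 4 * (jqModC k - 1728) ^ 3) := by
    rw [← hVθ, ← hθk, ← mul_pow, ← mul_pow, ← h1, hcj]
  have h3 : (p : LaurentSeries k) ^ 6 * unitL k p * ((qExpand k p (jqModC k)) ^ 4
        * (qExpand k p (jqModC k) - 1728) ^ 3)
      = c ^ 6 * ((jqModC k) ^ 4 * (jqModC k - 1728) ^ 3) := by
    have h : (p : LaurentSeries k) ^ 6 * (qExpand k p (deltaL k) * (qExpand k p (jqModC k)) ^ 4
              * (qExpand k p (jqModC k) - 1728) ^ 3) * deltaInvL k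
        = c ^ 6 * (deltaL k * (jqModC k) ^ 4 * (jqModC k - 1728) ^ 3) * deltaInvL k := by
      rw [h2]
    unfold unitL
    calc _ = (p : LaurentSeries k) ^ 6 * (qExpand k p (deltaL k) * (qExpand k p (jqModC k)) ^ 4
              * (qExpand k p (jqModC k) - 1728) ^ 3) * deltaInvL k := by ring
      _ = c ^ 6 * (deltaL k * (jqModC k) ^ 4 * (jqModC k - 1728) ^ 3) * deltaInvL k := h
      _ = c ^ 6 * ((jqModC k) ^ 4 * (jqModC k - 1728) ^ 3) * (deltaL k * deltaInvL k) := by ring
      _ = _ := by rw [hd, mul_one]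
  have hp_neg : (-(p : ℤ)) ≠ 0 := by
    have : (0 : ℤ) < p := by exact_mod_cast Nat.pos_of_ne_zero (NeZero.ne p)
    omega
  have hVj : qExpand k p (jqModC k) ≠ 0 := by
    intro h
    have := h88_qExpand_jqModC_coeff k p
    rw [h, HahnSeries.coeff_zero] at this
    exact zero_ne_one this
  have hVj' : qExpand k p (jqModC k) - 1728 ≠ 0 := by
    intro h
    have h4 := h88_qExpand_jqModC_coeff k p
    have h5 : qExpand k p (jqModC k) = ((1728 : ℕ) : LaurentSeries k) := by
      rw [Nat.cast_ofNat]; exact sub_eq_zero.mp h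
    have h6 : ((1728 : ℕ) : LaurentSeries k) = HahnSeries.single 0 ((1728 : ℕ) : k) := by
      rw [← algebraMap_laurentSeries_eq_single, map_natCast]
    rw [h5, h6, HahnSeries.coeff_single_of_ne hp_neg] at h4
    exact zero_ne_one h4
  have hden : (p : LaurentSeries k) ^ 6 * ((qExpand k p (jqModC k)) ^ 4
        * (qExpand k p (jqModC k) - 1728) ^ 3) ≠ 0 :=
    mul_ne_zero (pow_ne_zero _ hp0) (mul_ne_zero (pow_ne_zero _ hVj) (pow_ne_zero _ hVj'))
  have hu : unitL k p ∈ jField k := by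
    have h : unitL k p = c ^ 6 * ((jqModC k) ^ 4 * (jqModC k - 1728) ^ 3)
        * ((p : LaurentSeries k) ^ 6 * ((qExpand k p (jqModC k)) ^ 4
          * (qExpand k p (jqModC k) - 1728) ^ 3))⁻¹ := by
      rw [eq_mul_inv_iff_mul_eq₀ hden, ← h3]; ring
    rw [h]
    exact mul_mem (mul_mem (pow_mem hc 6)
      (mul_mem (pow_mem hjmem 4) (pow_mem (sub_mem hjmem h1728) 3)))
      (inv_mem (mul_mem (pow_mem hpmem 6)
        (mul_mem (pow_mem hmem 4) (pow_mem (sub_mem hmem h1728) 3))))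
  have hw : (p : LaurentSeries k) ^ 12 * unitL k p ∈ jField k :=
    mul_mem (pow_mem hpmem 12) hu
  obtain ⟨P, hP⟩ := h88_exists_poly_of_integral k hw W.W W.monic (h88_unitPoly_field k p W)
  -- order contradiction
  have hwΔ : Polynomial.aeval (jqModC k) P * deltaL k
      = (p : LaurentSeries k) ^ 12 * qExpand k p (deltaL k) := by
    rw [← hP]
    unfold unitL
    calc _ = (p : LaurentSeries k) ^ 12 * qExpand k p (deltaL k) * (deltaL k * deltaInvL k) := by
          ring
      _ = _ := by rw [hd, mul_one]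
  have hVΔ : qExpand k p (deltaL k) ≠ 0 := fun h =>
    h88_deltaL_ne_zero k (qExpand_injective p (by rw [h, map_zero]))
  have hrhs : (p : LaurentSeries k) ^ 12 * qExpand k p (deltaL k) ≠ 0 :=
    mul_ne_zero (pow_ne_zero _ hp0) hVΔ
  have hP0 : P ≠ 0 := by
    intro h
    rw [h, map_zero, zero_mul] at hwΔ
    exact hrhs hwΔ.symm
  have hPj : Polynomial.aeval (jqModC k) P ≠ 0 := fun h =>
    hP0 (h88_aeval_jqModC_injective k (by rw [h, map_zero]))
  have hord : (Polynomial.aeval (jqModC k) P * deltaL k).order ≤ 1 := by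
    rw [HahnSeries.order_mul hPj (h88_deltaL_ne_zero k)]
    have ha := h88_order_aeval_jqModC_le k hP0
    have hb : (deltaL k).order ≤ 1 := HahnSeries.order_le_of_coeff_ne_zero (by
      rw [h88_deltaL_coeff_one]; exact one_ne_zero)
    omega
  have hne : (Polynomial.aeval (jqModC k) P * deltaL k).coeff
      (Polynomial.aeval (jqModC k) P * deltaL k).order ≠ 0 := by
    rw [Ne, HahnSeries.coeff_order_eq_zero]
    exact mul_ne_zero hPj (h88_deltaL_ne_zero k)
  have hlt : (Polynomial.aeval (jqModC k) P * deltaL k).order < (p : ℤ) := by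
    have : (1 : ℤ) < p := by exact_mod_cast hp1
    omega
  have hzero : ∀ n : ℤ, n < p →
      ((p : LaurentSeries k) ^ 12 * qExpand k p (deltaL k)).coeff n = 0 := by
    intro n hn
    rw [← Nat.cast_pow, ← nsmul_eq_mul, HahnSeries.coeff_smul,
      h88_qExpand_deltaL_coeff_of_lt k p hn, smul_zero]
  rw [hwΔ] at hne hlt
  exact hne (hzero _ hlt)

end Main

end Fermat.Agent.S28

end

end
-- ===== PACK-END S28/H88/PrimeLevel.lean

-- ===== PACK-BEGIN S28/H807/Conv.lean
section
/-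
S28 / helper807 — pointwise convergent Laurent series: ring laws, `V_p`, sections.
-/



set_option autoImplicit false
set_option maxHeartbeats 400000

noncomputable section

open ModularCurve HahnSeries

namespace Fermat.Agent.S28.H807

/-- The Laurent series `c` converges at the point `z` with sum `A`. -/
def HasLSum (c : LaurentSeries ℂ) (z A : ℂ) : Prop :=
  HasSum (fun n : ℤ => c.coeff n * z ^ n) A

theorem HasLSum.unique {c : LaurentSeries ℂ} {z A B : ℂ} (h1 : HasLSum c z A)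
    (h2 : HasLSum c z B) : A = B :=
  HasSum.unique h1 h2

theorem hasLSum_zero (z : ℂ) : HasLSum 0 z 0 := by
  unfold HasLSum
  simpa using (hasSum_zero : HasSum (fun _ : ℤ => (0 : ℂ)) 0)

theorem hasLSum_single (z : ℂ) (k : ℤ) (a : ℂ) :
    HasLSum (HahnSeries.single k a) z (a * z ^ k) := by
  unfold HasLSum
  have h := hasSum_sum_of_ne_finset_zero (f := fun n : ℤ => (HahnSeries.single k a).coeff n * z ^ n)
    (s := {k}) (L := SummationFilter.unconditional ℤ) (by
      intro b hb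
      have hb' : b ≠ k := by simpa using hb
      simp [HahnSeries.coeff_single_of_ne hb'])
  simpa using h

theorem hasLSum_one (z : ℂ) : HasLSum 1 z 1 := by
  have h := hasLSum_single z 0 1
  simpa using h

theorem hasLSum_C (z : ℂ) (a : ℂ) : HasLSum (HahnSeries.C a) z a := by
  have h := hasLSum_single z 0 a
  simpa using h

theorem HasLSum.add {c d : LaurentSeries ℂ} {z A B : ℂ} (h1 : HasLSum c z A)
    (h2 : HasLSum d z B) : HasLSum (c + d) z (A + B) := by
  unfold HasLSum at *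
  have := HasSum.add h1 h2
  simpa [add_mul] using this

theorem HasLSum.neg {c : LaurentSeries ℂ} {z A : ℂ} (h1 : HasLSum c z A) :
    HasLSum (-c) z (-A) := by
  unfold HasLSum at *
  have := HasSum.neg h1
  simpa using this

theorem HasLSum.sub {c d : LaurentSeries ℂ} {z A B : ℂ} (h1 : HasLSum c z A)
    (h2 : HasLSum d z B) : HasLSum (c - d) z (A - B) := by
  rw [sub_eq_add_neg, sub_eq_add_neg]
  exact h1.add h2.neg

/-- Cauchy product for pointwise convergent Laurent series. -/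
theorem HasLSum.mul {c d : LaurentSeries ℂ} {z A B : ℂ} (hz : z ≠ 0) (h1 : HasLSum c z A)
    (h2 : HasLSum d z B) : HasLSum (c * d) z (A * B) := by
  unfold HasLSum at *
  -- the double family is summable
  have hn1 : Summable (fun n : ℤ => ‖c.coeff n * z ^ n‖) := h1.summable.norm
  have hn2 : Summable (fun n : ℤ => ‖d.coeff n * z ^ n‖) := h2.summable.norm
  have hs : Summable (fun x : ℤ × ℤ => (c.coeff x.1 * z ^ x.1) * (d.coeff x.2 * z ^ x.2)) :=
    summable_mul_of_summable_norm (f := fun n : ℤ => c.coeff n * z ^ n)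
      (g := fun n : ℤ => d.coeff n * z ^ n) hn1 hn2
  have hprod : HasSum (fun x : ℤ × ℤ => (c.coeff x.1 * z ^ x.1) * (d.coeff x.2 * z ^ x.2))
      (A * B) := HasSum.mul (f := fun n : ℤ => c.coeff n * z ^ n)
      (g := fun n : ℤ => d.coeff n * z ^ n) h1 h2 hs
  -- reindex by (n, i) ↦ (i, n - i)
  let e : ℤ × ℤ ≃ ℤ × ℤ :=
    { toFun := fun x => (x.2, x.1 - x.2)
      invFun := fun x => (x.1 + x.2, x.1)
      left_inv := fun x => by simp
      right_inv := fun x => by simp }
  have hprod' : HasSum (fun x : ℤ × ℤ =>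
      (c.coeff x.2 * z ^ x.2) * (d.coeff (x.1 - x.2) * z ^ (x.1 - x.2))) (A * B) := by
    have := (e.hasSum_iff (f := fun x : ℤ × ℤ =>
      (c.coeff x.1 * z ^ x.1) * (d.coeff x.2 * z ^ x.2)) (a := A * B)).mpr hprod
    exact this
  refine HasSum.prod_fiberwise hprod' ?_
  intro n
  -- the fibre over `n` is a finite sum
  set s : Finset ℤ := (Finset.antidiagonal c.isPWO_support d.isPWO_support n).image Prod.fst
    with hs_def
  have hfib := hasSum_sum_of_ne_finset_zero
    (f := fun i : ℤ => (c.coeff i * z ^ i) * (d.coeff (n - i) * z ^ (n - i)))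
    (s := s) (L := SummationFilter.unconditional ℤ) (by
      intro i hi
      by_cases hci : c.coeff i = 0
      · simp [hci]
      by_cases hdi : d.coeff (n - i) = 0
      · simp [hdi]
      exfalso
      apply hi
      rw [hs_def, Finset.mem_image]
      refine ⟨(i, n - i), ?_, rfl⟩
      rw [Finset.mem_antidiagonal]
      exact ⟨hci, hdi, by ring⟩)
  convert hfib using 1
  rw [HahnSeries.coeff_mul, Finset.sum_mul, hs_def, Finset.sum_image]
  · apply Finset.sum_congr rfl
    intro x hx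
    rw [Finset.mem_antidiagonal] at hx
    obtain ⟨_, _, hx3⟩ := hx
    have hx2 : x.2 = n - x.1 := by linarith
    rw [← hx2]
    have hzn : z ^ n = z ^ x.1 * z ^ x.2 := by rw [← zpow_add₀ hz, hx3]
    rw [hzn]; ring
  · intro x hx y hy hxy
    rw [Finset.mem_coe, Finset.mem_antidiagonal] at hx hy
    apply Prod.ext hxy
    have h3 := hx.2.2
    have h4 := hy.2.2
    rw [hxy] at h3
    linarith

theorem HasLSum.pow {c : LaurentSeries ℂ} {z A : ℂ} (hz : z ≠ 0) (h1 : HasLSum c z A)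
    (k : ℕ) : HasLSum (c ^ k) z (A ^ k) := by
  induction k with
  | zero => simpa using hasLSum_one z
  | succ k ih => rw [pow_succ, pow_succ]; exact ih.mul hz h1

/-- Substitution `q ↦ q^p`. -/
theorem HasLSum.expand {c : LaurentSeries ℂ} {z A : ℂ} (p : ℕ) [NeZero p]
    (h : HasLSum c (z ^ p) A) : HasLSum (ModularCurve.qExpand ℂ p c) z A := by
  unfold HasLSum at *
  have hinj : Function.Injective (fun m : ℤ => (p : ℤ) * m) :=
    mul_right_injective₀ (by exact_mod_cast NeZero.ne p)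
  refine (hinj.hasSum_iff (f := fun n : ℤ => (ModularCurve.qExpand ℂ p c).coeff n * z ^ n) ?_).mp ?_
  · intro n hn
    have : ¬ (p : ℤ) ∣ n := by
      rintro ⟨m, rfl⟩
      exact hn ⟨m, rfl⟩
    simp [qExpand_coeff_of_not_dvd p c this]
  · convert h using 2 with m
    simp only [Function.comp_apply, qExpand_coeff_mul]
    congr 1
    rw [zpow_mul, zpow_natCast]

/-- Sections of a convergent series converge. -/
theorem HasLSum.summable_secL {c : LaurentSeries ℂ} {y A : ℂ} (p : ℕ) [NeZero p] (hy : y ≠ 0)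
    (h : HasLSum c y A) (r : ℤ) :
    Summable (fun m : ℤ => (secL p r c).coeff m * (y ^ p) ^ m) := by
  unfold HasLSum at h
  have hinj : Function.Injective (fun m : ℤ => (p : ℤ) * m + r) := by
    intro a b hab
    have : (p : ℤ) * a = (p : ℤ) * b := by simpa using hab
    exact mul_right_injective₀ (by exact_mod_cast NeZero.ne p) this
  have h1 : Summable ((fun n : ℤ => c.coeff n * y ^ n) ∘ fun m : ℤ => (p : ℤ) * m + r) :=
    h.summable.comp_injective hinj
  have h2 := h1.mul_left (y ^ (-r))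
  refine h2.congr ?_
  intro m
  simp only [Function.comp_apply, secL_coeff]
  have : y ^ ((p : ℤ) * m + r) = (y ^ p) ^ m * y ^ r := by
    rw [zpow_add₀ hy, zpow_mul, zpow_natCast]
  rw [this, zpow_neg]
  field_simp

/-- Value of the `r`-th section at `y^p`. -/
def secVal (p : ℕ) [NeZero p] (c : LaurentSeries ℂ) (y : ℂ) (r : ℤ) : ℂ :=
  ∑' m : ℤ, (secL p r c).coeff m * (y ^ p) ^ m

theorem HasLSum.hasLSum_secL {c : LaurentSeries ℂ} {y A : ℂ} (p : ℕ) [NeZero p] (hy : y ≠ 0)
    (h : HasLSum c y A) (r : ℤ) : HasLSum (secL p r c) (y ^ p) (secVal p c y r) :=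
  (h.summable_secL p hy r).hasSum

/-- The section values only depend on `y^p`. -/
theorem secVal_congr (p : ℕ) [NeZero p] (c : LaurentSeries ℂ) {y y' : ℂ} (h : y ^ p = y' ^ p)
    (r : ℤ) : secVal p c y r = secVal p c y' r := by
  unfold secVal
  rw [h]

/-- Regrouping by residues mod `p`: `A · yⁱ = ∑_{i'} y^{i'} · S_{i'-i}(y^p)`. -/
theorem HasLSum.regroup {c : LaurentSeries ℂ} {y A : ℂ} (p : ℕ) [NeZero p] (hy : y ≠ 0)
    (h : HasLSum c y A) (i : Fin p) :
    ∑ i' : Fin p, y ^ (i' : ℕ) * secVal p c y ((i' : ℤ) - (i : ℤ)) = A * y ^ (i : ℕ) := by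
  have hp0 : (p : ℤ) ≠ 0 := by exact_mod_cast NeZero.ne p
  -- the shifted family
  have h1 : HasSum (fun n : ℤ => c.coeff (n - i) * y ^ n) (A * y ^ (i : ℕ)) := by
    have h0 : HasSum (fun n : ℤ => c.coeff n * y ^ n * y ^ (i : ℕ)) (A * y ^ (i : ℕ)) :=
      HasSum.mul_right _ h
    have := ((Equiv.subRight ((i : ℕ) : ℤ)).hasSum_iff
      (f := fun n : ℤ => c.coeff n * y ^ n * y ^ (i : ℕ)) (a := A * y ^ (i : ℕ))).mpr h0
    refine this.congr_fun ?_
    intro n
    simp only [Function.comp_apply, Equiv.subRight_apply]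
    have : y ^ n = y ^ (n - (i : ℕ)) * y ^ (i : ℕ) := by
      rw [← zpow_natCast y (i : ℕ), ← zpow_add₀ hy]; congr 1; ring
    rw [this]; ring
  -- split `n = m * p + i'`
  have h2 : HasSum (fun x : ℤ × Fin p =>
      c.coeff (x.1 * (p : ℤ) + ((x.2 : ℕ) : ℤ) - (i : ℕ)) * y ^ (x.1 * (p : ℤ) + ((x.2 : ℕ) : ℤ)))
      (A * y ^ (i : ℕ)) := by
    have := ((Int.divModEquiv p).symm.hasSum_iff
      (f := fun n : ℤ => c.coeff (n - i) * y ^ n) (a := A * y ^ (i : ℕ))).mpr h1
    refine this.congr_fun ?_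
    intro x
    simp only [Function.comp_apply, Int.divModEquiv_symm_apply]
  have h3 : HasSum (fun m : ℤ => ∑ i' : Fin p,
      c.coeff (m * (p : ℤ) + ((i' : ℕ) : ℤ) - (i : ℕ)) * y ^ (m * (p : ℤ) + ((i' : ℕ) : ℤ)))
      (A * y ^ (i : ℕ)) := by
    refine HasSum.prod_fiberwise h2 ?_
    intro m
    exact hasSum_fintype _
  have h4 : ∀ i' : Fin p, HasSum (fun m : ℤ =>
      c.coeff (m * (p : ℤ) + ((i' : ℕ) : ℤ) - (i : ℕ)) * y ^ (m * (p : ℤ) + ((i' : ℕ) : ℤ)))
      (y ^ (i' : ℕ) * secVal p c y ((i' : ℤ) - (i : ℤ))) := by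
    intro i'
    have h5 := (h.hasLSum_secL p hy ((i' : ℤ) - (i : ℤ)))
    unfold HasLSum at h5
    have h6 := h5.mul_left (y ^ (i' : ℕ))
    refine h6.congr_fun ?_
    intro m
    simp only [secL_coeff]
    have e1 : m * (p : ℤ) + ((i' : ℕ) : ℤ) - ((i : ℕ) : ℤ)
        = (p : ℤ) * m + (((i' : ℕ) : ℤ) - ((i : ℕ) : ℤ)) := by ring
    have e2 : y ^ (m * (p : ℤ) + ((i' : ℕ) : ℤ)) = y ^ (i' : ℕ) * (y ^ p) ^ m := by
      rw [zpow_add₀ hy, zpow_natCast, mul_comm m, zpow_mul, zpow_natCast, mul_comm]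
    rw [e1, e2]; ring
  have h7 := hasSum_sum (s := Finset.univ) (fun i' _ => h4 i')
  exact (h7.unique h3)

end Fermat.Agent.S28.H807

end

end
-- ===== PACK-END S28/H807/Conv.lean

-- ===== PACK-BEGIN S28/H807/Eigen.lean
section
/-
S28 / helper807 — evaluation of the section-matrix characteristic polynomial:
`charpoly (secMat p g)` evaluated at `q = y^p` is `∏_b (X - G_b)`, where `G_b` is the value of
`g` at the `p` distinct `p`-th roots `y_b` of `q`.
-/



set_option autoImplicit false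
set_option maxHeartbeats 400000

noncomputable section

open ModularCurve Polynomial Matrix

namespace Fermat.Agent.S28.H807

/-- The subring of Laurent series converging at a nonzero point `z`. -/
def convSubring (z : ℂ) (hz : z ≠ 0) : Subring (LaurentSeries ℂ) where
  carrier := {c | Summable (fun n : ℤ => c.coeff n * z ^ n)}
  mul_mem' := fun {a b} ha hb =>
    (HasLSum.mul hz (c := a) (d := b) ha.hasSum hb.hasSum).summable
  one_mem' := (hasLSum_one z).summable
  add_mem' := fun {a b} ha hb => (HasLSum.add (c := a) (d := b) ha.hasSum hb.hasSum).summable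
  zero_mem' := (hasLSum_zero z).summable
  neg_mem' := fun {a} ha => (HasLSum.neg (c := a) ha.hasSum).summable

theorem mem_convSubring {z : ℂ} {hz : z ≠ 0} {c : LaurentSeries ℂ} :
    c ∈ convSubring z hz ↔ Summable (fun n : ℤ => c.coeff n * z ^ n) := Iff.rfl

theorem HasLSum.mem_convSubring {z A : ℂ} (hz : z ≠ 0) {c : LaurentSeries ℂ}
    (h : HasLSum c z A) : c ∈ convSubring z hz := h.summable

/-- Evaluation of a Laurent series at a point (junk value if not convergent). -/
def evalL (z : ℂ) (c : LaurentSeries ℂ) : ℂ := ∑' n : ℤ, c.coeff n * z ^ n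

theorem HasLSum.evalL_eq {z A : ℂ} {c : LaurentSeries ℂ} (h : HasLSum c z A) :
    evalL z c = A := HasSum.tsum_eq h

theorem hasLSum_evalL {z : ℂ} {hz : z ≠ 0} {c : LaurentSeries ℂ} (h : c ∈ convSubring z hz) :
    HasLSum c z (evalL z c) := Summable.hasSum h

/-- Evaluation at `z` as a ring homomorphism on the convergent subring. -/
def evalHom (z : ℂ) (hz : z ≠ 0) : convSubring z hz →+* ℂ where
  toFun c := evalL z c.1
  map_one' := (hasLSum_one z).evalL_eq
  map_zero' := (hasLSum_zero z).evalL_eq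
  map_add' := fun a b => ((hasLSum_evalL a.2).add (hasLSum_evalL b.2)).evalL_eq
  map_mul' := fun a b => ((hasLSum_evalL a.2).mul hz (hasLSum_evalL b.2)).evalL_eq

theorem evalHom_apply (z : ℂ) (hz : z ≠ 0) (c : convSubring z hz) :
    evalHom z hz c = evalL z c.1 := rfl

/-- A matrix with a full system of left eigenvectors `(y_b^i)_i` (Vandermonde) has
characteristic polynomial `∏_b (X - G_b)`. -/
theorem charpoly_eq_prod_of_vandermonde {p : ℕ} (M : Matrix (Fin p) (Fin p) ℂ) (y : Fin p → ℂ)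
    (hy : Function.Injective y) (G : Fin p → ℂ)
    (h : ∀ b i : Fin p, ∑ i' : Fin p, y b ^ (i' : ℕ) * M i' i = G b * y b ^ (i : ℕ)) :
    M.charpoly = ∏ b : Fin p, (X - C (G b)) := by
  set W : Matrix (Fin p) (Fin p) ℂ := Matrix.vandermonde y with hW
  have hWM : W * M = Matrix.diagonal G * W := by
    ext b i
    rw [Matrix.mul_apply, Matrix.diagonal_mul]
    simp only [hW, Matrix.vandermonde_apply]
    exact h b i
  have hdet : IsUnit W.det := by
    rw [isUnit_iff_ne_zero]
    exact Matrix.det_vandermonde_ne_zero_iff.mpr hy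
  have hWu : IsUnit W := (Matrix.isUnit_iff_isUnit_det W).mpr hdet
  obtain ⟨u, hu⟩ := hWu
  have hM : M = u.val⁻¹ * Matrix.diagonal G * u.val := by
    have h1 : u.val⁻¹ * (u.val * M) = M := by
      rw [← Matrix.mul_assoc, Matrix.nonsing_inv_mul _ (by rw [hu]; exact hdet), Matrix.one_mul]
    rw [← h1, hu, hWM, Matrix.mul_assoc]
  rw [hM, Matrix.charpoly_units_conj', Matrix.charpoly_diagonal]

/-- **Evaluation of the section charpoly.** -/
theorem hasLSum_coeff_mul_charpoly {p : ℕ} [NeZero p] (g e : LaurentSeries ℂ) (q : ℂ)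
    (y : Fin p → ℂ) (hy0 : ∀ b, y b ≠ 0) (hyq : ∀ b, y b ^ p = q) (hy : Function.Injective y)
    (Gv : Fin p → ℂ) (hG : ∀ b, HasLSum g (y b) (Gv b)) (Ev : ℂ) (hE : HasLSum e q Ev) (k : ℕ) :
    HasLSum (((X - C e) * (secMat p g).charpoly).coeff k) q
      (((X - C Ev) * ∏ b : Fin p, (X - C (Gv b))).coeff k) := by
  have hp : 0 < p := Nat.pos_of_ne_zero (NeZero.ne p)
  set b0 : Fin p := ⟨0, hp⟩
  have hq : q ≠ 0 := by rw [← hyq b0]; exact pow_ne_zero _ (hy0 b0)
  -- entries of the section matrix converge at `q`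
  have hent : ∀ i' i : Fin p, secMat p g i' i ∈ convSubring q hq := by
    intro i' i
    have := (hG b0).hasLSum_secL p (hy0 b0) ((i' : ℤ) - (i : ℤ))
    rw [hyq b0] at this
    exact this.mem_convSubring hq
  set M' : Matrix (Fin p) (Fin p) (convSubring q hq) := fun i' i => ⟨secMat p g i' i, hent i' i⟩
    with hM'
  set e' : convSubring q hq := ⟨e, hE.mem_convSubring hq⟩ with he'
  set Φ' : Polynomial (convSubring q hq) := (X - C e') * M'.charpoly with hΦ'
  have hsub : Φ'.map (convSubring q hq).subtype = (X - C e) * (secMat p g).charpoly := by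
    rw [hΦ', Polynomial.map_mul, Polynomial.map_sub, Polynomial.map_X, Polynomial.map_C,
      ← Matrix.charpoly_map]
    rfl
  -- evaluated matrix
  set Mτ : Matrix (Fin p) (Fin p) ℂ := M'.map (evalHom q hq) with hMτ
  have hMτ_apply : ∀ i' i : Fin p, Mτ i' i = secVal p g (y b0) ((i' : ℤ) - (i : ℤ)) := by
    intro i' i
    simp only [hMτ, Matrix.map_apply, evalHom_apply, hM']
    have := (hG b0).hasLSum_secL p (hy0 b0) ((i' : ℤ) - (i : ℤ))
    rw [hyq b0] at this
    exact this.evalL_eq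
  have hchar : Mτ.charpoly = ∏ b : Fin p, (X - C (Gv b)) := by
    apply charpoly_eq_prod_of_vandermonde Mτ y hy Gv
    intro b i
    have hreg := (hG b).regroup p (hy0 b) i
    rw [← hreg]
    apply Finset.sum_congr rfl
    intro i' _
    rw [hMτ_apply, secVal_congr p g (y := y b) (y' := y b0) (by rw [hyq, hyq])]
  have hev : Φ'.map (evalHom q hq) = (X - C Ev) * ∏ b : Fin p, (X - C (Gv b)) := by
    rw [hΦ', Polynomial.map_mul, Polynomial.map_sub, Polynomial.map_X, Polynomial.map_C,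
      ← Matrix.charpoly_map, ← hMτ, hchar]
    congr 3
    exact hE.evalL_eq
  have h1 : ((X - C e) * (secMat p g).charpoly).coeff k = ((Φ'.coeff k : convSubring q hq) :
      LaurentSeries ℂ) := by
    rw [← hsub, Polynomial.coeff_map]; rfl
  have h2 : ((X - C Ev) * ∏ b : Fin p, (X - C (Gv b))).coeff k = evalHom q hq (Φ'.coeff k) := by
    rw [← hev, Polynomial.coeff_map]
  rw [h1, h2]
  exact hasLSum_evalL (Φ'.coeff k).2

end Fermat.Agent.S28.H807

end

end
-- ===== PACK-END S28/H807/Eigen.lean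

-- ===== PACK-BEGIN S28/H685/EtaBridge.lean
section




/-!
# S28 helper (helper685): the formal eta product is the Taylor series of the analytic one

The Prelude defines `ModularCurve.etaProd = ∏' n, (1 - X ^ (n + 1))` as a formal product in
`PowerSeries ℤ` (Pi topology).  We show that its coefficients are the Taylor coefficients of the
analytic function `q ↦ ∏' n, (1 - q ^ (n + 1))` on the open unit disc.
-/

set_option autoImplicit false

namespace Fermat.Agent.S28.H685

open UpperHalfPlane Function Complex Filter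
open scoped Topology Manifold PowerSeries.WithPiTopology

noncomputable section

local notation "𝕢" => Periodic.qParam

/-- Iterated derivatives of a locally uniform limit of holomorphic functions. -/
theorem tendstoLocallyUniformlyOn_iteratedDeriv {ι : Type*} {l : Filter ι} {U : Set ℂ}
    (hU : IsOpen U) {F : ι → ℂ → ℂ} {f : ℂ → ℂ} (hF : TendstoLocallyUniformlyOn F f l U)
    (hd : ∀ᶠ i in l, DifferentiableOn ℂ (F i) U) (k : ℕ) :
    TendstoLocallyUniformlyOn (fun i => iteratedDeriv k (F i)) (iteratedDeriv k f) l U ∧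
      ∀ᶠ i in l, DifferentiableOn ℂ (iteratedDeriv k (F i)) U := by
  induction k with
  | zero =>
    simp only [iteratedDeriv_zero]
    exact ⟨hF, hd⟩
  | succ k ih =>
    obtain ⟨h1, h2⟩ := ih
    refine ⟨?_, ?_⟩
    · have := h1.deriv h2 hU
      simpa only [iteratedDeriv_succ, Function.comp_def] using this
    · filter_upwards [h2] with i hi
      simpa only [iteratedDeriv_succ] using hi.deriv hU

theorem iteratedDeriv_polynomial_eval (P : Polynomial ℂ) (k : ℕ) :
    iteratedDeriv k (fun x => P.eval x) = fun x => (Polynomial.derivative^[k] P).eval x := by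
  induction k with
  | zero => simp
  | succ k ih =>
    rw [iteratedDeriv_succ, ih]
    funext x
    rw [Polynomial.deriv, Function.iterate_succ_apply']

theorem iteratedDeriv_polynomial_eval_zero (P : Polynomial ℂ) (k : ℕ) :
    iteratedDeriv k (fun x => P.eval x) 0 = k.factorial * P.coeff k := by
  rw [iteratedDeriv_polynomial_eval]
  beta_reduce
  rw [← Polynomial.coeff_zero_eq_eval_zero,
    Polynomial.coeff_iterate_derivative, zero_add, Nat.descFactorial_self, nsmul_eq_mul]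

/-- The analytic eta product `∏ (1 - q ^ (n + 1))`. -/
def etaC (q : ℂ) : ℂ := ∏' n : ℕ, (1 - q ^ (n + 1))

/-- Partial products of the eta product, as integer polynomials. -/
def etaPartial (s : Finset ℕ) : Polynomial ℤ := ∏ n ∈ s, (1 - Polynomial.X ^ (n + 1))

theorem coe_etaPartial (s : Finset ℕ) :
    ((etaPartial s : Polynomial ℤ) : PowerSeries ℤ) = ∏ n ∈ s, (1 - PowerSeries.X ^ (n + 1)) := by
  have := map_prod (Polynomial.coeToPowerSeries.ringHom (R := ℤ))
    (fun n : ℕ => (1 - Polynomial.X ^ (n + 1) : Polynomial ℤ)) s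
  rw [etaPartial]
  rw [Polynomial.coeToPowerSeries.ringHom_apply] at this
  rw [this]
  refine Finset.prod_congr rfl fun n _ => ?_
  rw [Polynomial.coeToPowerSeries.ringHom_apply]
  simp

theorem eval_etaPartial (s : Finset ℕ) (q : ℂ) :
    ((etaPartial s).map (Int.castRingHom ℂ)).eval q = ∏ n ∈ s, (1 - q ^ (n + 1)) := by
  simp [etaPartial, Polynomial.map_prod, Polynomial.eval_prod]

theorem tendsto_coeff_etaPartial (k : ℕ) :
    Tendsto (fun s : Finset ℕ => (((etaPartial s).coeff k : ℤ) : ℂ)) atTop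
      (𝓝 ((PowerSeries.coeff k ModularCurve.etaProd : ℤ) : ℂ)) := by
  have h1 : HasProd (fun n : ℕ => (1 - PowerSeries.X ^ (n + 1) : PowerSeries ℤ))
      ModularCurve.etaProd :=
    (PowerSeries.WithPiTopology.multipliable_one_sub_X_pow ℤ).hasProd
  have h2 : Tendsto (fun s : Finset ℕ => ∏ n ∈ s, (1 - PowerSeries.X ^ (n + 1) : PowerSeries ℤ))
      atTop (𝓝 ModularCurve.etaProd) := h1
  have h3 := ((PowerSeries.WithPiTopology.continuous_coeff ℤ k).tendsto _).comp h2
  have h4 : Continuous (fun n : ℤ => (n : ℂ)) := continuous_of_discreteTopology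
  have h5 := (h4.tendsto _).comp h3
  refine h5.congr fun s => ?_
  simp only [Function.comp_apply]
  rw [← coe_etaPartial, Polynomial.coeff_coe]

theorem differentiableOn_etaC : DifferentiableOn ℂ etaC (Metric.ball 0 1) :=
  ModularForm.differentiableOn_tprod_one_sub_pow

theorem taylor_etaC (k : ℕ) :
    (k.factorial : ℂ)⁻¹ * iteratedDeriv k etaC 0 =
      ((PowerSeries.coeff k ModularCurve.etaProd : ℤ) : ℂ) := by
  have hloc : TendstoLocallyUniformlyOn
      (fun (s : Finset ℕ) (q : ℂ) => ∏ n ∈ s, (1 - q ^ (n + 1))) etaC atTop (Metric.ball 0 1) :=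
    hasProdLocallyUniformlyOn_iff_tendstoLocallyUniformlyOn.mp
      ModularForm.multipliableLocallyUniformlyOn_one_sub_pow.hasProdLocallyUniformlyOn
  have hd : ∀ᶠ s : Finset ℕ in atTop,
      DifferentiableOn ℂ (fun q : ℂ => ∏ n ∈ s, (1 - q ^ (n + 1))) (Metric.ball 0 1) :=
    .of_forall fun s => by
      have : DifferentiableOn ℂ (∏ n ∈ s, fun q : ℂ => (1 - q ^ (n + 1))) (Metric.ball 0 1) :=
        DifferentiableOn.finsetProd (fun _ _ => by fun_prop)
      simpa [Finset.prod_fn] using this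
  have h1 := (tendstoLocallyUniformlyOn_iteratedDeriv Metric.isOpen_ball hloc hd k).1.tendsto_at
    (Metric.mem_ball_self (one_pos : (0 : ℝ) < 1))
  have h2 : ∀ s : Finset ℕ, iteratedDeriv k (fun q : ℂ => ∏ n ∈ s, (1 - q ^ (n + 1))) 0 =
      k.factorial * (((etaPartial s).coeff k : ℤ) : ℂ) := by
    intro s
    have := iteratedDeriv_polynomial_eval_zero ((etaPartial s).map (Int.castRingHom ℂ)) k
    simp only [eval_etaPartial, Polynomial.coeff_map, eq_intCast] at this
    exact this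
  simp only [h2] at h1
  have h3 := (tendsto_coeff_etaPartial k).const_mul (k.factorial : ℂ)
  have h4 := tendsto_nhds_unique h1 h3
  rw [h4, ← mul_assoc, inv_mul_cancel₀ (by exact_mod_cast k.factorial_ne_zero), one_mul]

/-- The formal eta product with complex coefficients. -/
def etaProdC : PowerSeries ℂ := ModularCurve.etaProd.map (Int.castRingHom ℂ)

theorem hasSum_etaC {q : ℂ} (hq : ‖q‖ < 1) :
    HasSum (fun n : ℕ => PowerSeries.coeff n etaProdC * q ^ n) (etaC q) := by
  have := Complex.hasSum_taylorSeries_on_ball differentiableOn_etaC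
    (z := q) (by simpa using hq)
  simp only [sub_zero, smul_eq_mul] at this
  have hfun : (fun n : ℕ => PowerSeries.coeff n etaProdC * q ^ n) =
      fun n : ℕ => ((n.factorial : ℂ))⁻¹ * (q ^ n * iteratedDeriv n etaC 0) := by
    funext n
    rw [etaProdC, PowerSeries.coeff_map, eq_intCast, ← taylor_etaC]
    ring
  rw [hfun]
  exact this

/-- The function `τ ↦ ∏ (1 - q ^ (n + 1))` has `q`-expansion the formal eta product. -/
theorem hasQExp_etaC : HasQExp 1 (fun τ => etaC (𝕢 1 τ)) etaProdC :=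
  fun τ => hasSum_etaC (Periodic.norm_qParam_lt_one one_pos τ.im_pos)

end

end Fermat.Agent.S28.H685

end
-- ===== PACK-END S28/H685/EtaBridge.lean

-- ===== PACK-BEGIN S18/H264/SepLift.lean
section


/-!
# S18 / G-SEP bridge (helper264): from separability of the residue field to the field
`separable` of `Alg.GoodModel`

Mathlib-only, abstract.  Setting: `Ω` a field, `R ≤ V` subrings, `x ∈ V`, `w ∈ Ω`,
`ρ : R →+* κ` surjective (residue map of `R`), `red : V →+* L` (reduction of `q`-expansions,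
`L = κ((q))`) compatible with `ρ`, with `ker red ⊆ w V` and `V ∖ ker red ⊆ Vˣ`.

* `exists_lift_simple_root` : a polynomial `P̄ ∈ κ[X][Y]` with `P̄(x̄, f̄) = 0`,
  `(∂P̄/∂Y)(x̄, f̄) ≠ 0` lifts to `P ∈ R[x][Y] ⊆ Ω[Y]` with `P(f)/w ∈ V`, `P'(f) ∈ Vˣ`.
* `goodModel_separable_of_red` : the field `separable` of `Alg.GoodModel` (stated with
  `Subring.closure (R ∪ {x})`, which is `Alg.polyRing R x` unfolded), for `L = κ((q))`,
  `κ` perfect of characteristic `p`, `p ∤ ord_q (red x)`, `red f` algebraic over `κ(red x)`.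
-/

set_option autoImplicit false

namespace Fermat.Agent.S18.H264

open Polynomial

section Lift

variable {Ω κ L : Type*} [Field Ω] [Field κ] [Field L] [Algebra κ L]

/-- The value at `x` of a polynomial with coefficients in `R` lies in `R[x]`. -/
theorem eval₂_subtype_mem_closure (R : Subring Ω) (x : Ω) (g : Polynomial R) :
    Polynomial.eval₂ R.subtype x g ∈ Subring.closure ((R : Set Ω) ∪ {x}) := by
  rw [eval₂_eq_sum_range]
  refine sum_mem fun i _ => ?_
  have h1 : ((g.coeff i : R) : Ω) ∈ Subring.closure ((R : Set Ω) ∪ {x}) :=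
    Subring.subset_closure (Set.mem_union_left _ (g.coeff i).2)
  have h2 : x ∈ Subring.closure ((R : Set Ω) ∪ {x}) :=
    Subring.subset_closure (Set.mem_union_right _ (Set.mem_singleton x))
  exact mul_mem h1 (pow_mem h2 _)

/-- Lifting a simple root equation from the residue field. -/
theorem exists_lift_simple_root (R V : Subring Ω) (x w : Ω) (hRV : R ≤ V) (hx : x ∈ V)
    (ρ : R →+* κ) (hρ : Function.Surjective ρ) (red : V →+* L)
    (hcompat : ∀ r : R, red ⟨r, hRV r.2⟩ = algebraMap κ L (ρ r))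
    (hker : ∀ f : V, red f = 0 → (f : Ω) * w⁻¹ ∈ V)
    (hunit : ∀ f : V, red f ≠ 0 → (f : Ω)⁻¹ ∈ V)
    (f : V) (Pbar : Polynomial (Polynomial κ))
    (h0 : Pbar.eval₂ (aeval (red ⟨x, hx⟩) : Polynomial κ →ₐ[κ] L).toRingHom (red f) = 0)
    (h1 : (derivative Pbar).eval₂
      (aeval (red ⟨x, hx⟩) : Polynomial κ →ₐ[κ] L).toRingHom (red f) ≠ 0) :
    ∃ P : Polynomial Ω, (∀ i, P.coeff i ∈ Subring.closure ((R : Set Ω) ∪ {x})) ∧
      P.eval (f : Ω) * w⁻¹ ∈ V ∧ (derivative P).eval (f : Ω) ≠ 0 ∧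
      ((derivative P).eval (f : Ω))⁻¹ ∈ V := by
  obtain ⟨Pt, hPt⟩ := Polynomial.map_surjective (Polynomial.mapRingHom ρ)
    (Polynomial.map_surjective ρ hρ) Pbar
  -- evaluation `R[X] → V`, `X ↦ x`
  set ev : Polynomial R →+* V := Polynomial.eval₂RingHom (Subring.inclusion hRV) ⟨x, hx⟩ with hev
  have hevval : ∀ g : Polynomial R, ((ev g : V) : Ω) = Polynomial.eval₂ R.subtype x g := by
    intro g
    rw [hev, coe_eval₂RingHom]
    have h := Polynomial.hom_eval₂ g (Subring.inclusion hRV) V.subtype ⟨x, hx⟩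
    have hc : V.subtype.comp (Subring.inclusion hRV) = R.subtype := RingHom.ext fun _ => rfl
    rw [hc] at h
    exact h
  have hcomp : red.comp ev =
      ((aeval (red ⟨x, hx⟩) : Polynomial κ →ₐ[κ] L).toRingHom).comp (Polynomial.mapRingHom ρ) := by
    refine Polynomial.ringHom_ext (fun r => ?_) ?_
    · simp only [RingHom.comp_apply, hev, coe_eval₂RingHom, eval₂_C, coe_mapRingHom, map_C,
        AlgHom.toRingHom_eq_coe, RingHom.coe_coe, aeval_C]
      exact hcompat r
    · simp only [RingHom.comp_apply, hev, coe_eval₂RingHom, eval₂_X, coe_mapRingHom, map_X,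
        AlgHom.toRingHom_eq_coe, RingHom.coe_coe, aeval_X]
  set PV : Polynomial V := Pt.map ev with hPV
  have hredP : ∀ Q : Polynomial (Polynomial R),
      red ((Q.map ev).eval f) =
        (Q.map (Polynomial.mapRingHom ρ)).eval₂
          (aeval (red ⟨x, hx⟩) : Polynomial κ →ₐ[κ] L).toRingHom (red f) := by
    intro Q
    rw [← Polynomial.eval₂_hom, Polynomial.eval₂_map, Polynomial.eval₂_map, eval₂_eq_eval_map,
      eval₂_eq_eval_map, ← Polynomial.map_map, ← hcomp, Polynomial.map_map]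
  refine ⟨PV.map V.subtype, ?_, ?_, ?_⟩
  · intro i
    rw [coeff_map, hPV, coeff_map]
    show ((ev (Pt.coeff i) : V) : Ω) ∈ _
    rw [hevval]
    exact eval₂_subtype_mem_closure R x _
  · have hval : (PV.map V.subtype).eval (f : Ω) = ((PV.eval f : V) : Ω) := by
      rw [eval_map]
      exact (Polynomial.hom_eval₂ PV (RingHom.id V) V.subtype f).symm ▸ by
        simp [eval₂_eq_eval_map]
    rw [hval]
    apply hker
    rw [hPV, hredP, hPt]
    exact h0
  · have hval : (derivative (PV.map V.subtype)).eval (f : Ω) =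
        ((((derivative Pt).map ev).eval f : V) : Ω) := by
      rw [derivative_map, eval_map, hPV, ← derivative_map]
      exact (Polynomial.hom_eval₂ _ (RingHom.id V) V.subtype f).symm ▸ by
        simp [eval₂_eq_eval_map]
    have hne : red (((derivative Pt).map ev).eval f) ≠ 0 := by
      rw [hredP, ← derivative_map, hPt]
      exact h1
    rw [hval]
    refine ⟨?_, hunit _ hne⟩
    intro h
    apply hne
    have : ((derivative Pt).map ev).eval f = 0 := Subtype.ext h
    rw [this, map_zero]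

end Lift

section GoodModel

variable {Ω κ : Type*} [Field Ω] [Field κ] [PerfectField κ] (p : ℕ) [hp : Fact p.Prime]
  [CharP κ p]

/-- **The field `separable` of `Alg.GoodModel`** from a reduction map to `κ((q))`.
`R ≤ V` subrings of `Ω`, `ρ : R →+* κ` onto a perfect field of characteristic `p`,
`red : V →+* κ((q))` compatible with `ρ`, `ker red ⊆ w V`, `V ∖ ker red ⊆ Vˣ`,
`p ∤ ord_q (red x)`, every `red f` algebraic over `κ(red x)`.
The conclusion is literally the field `separable` (with `Alg.polyRing R x` unfolded). -/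
theorem goodModel_separable_of_red (R V : Subring Ω) (x w : Ω) (hRV : R ≤ V) (hx : x ∈ V)
    (ρ : R →+* κ) (hρ : Function.Surjective ρ) (red : V →+* LaurentSeries κ)
    (hcompat : ∀ r : R, red ⟨r, hRV r.2⟩ = algebraMap κ (LaurentSeries κ) (ρ r))
    (hker : ∀ f : V, red f = 0 → (f : Ω) * w⁻¹ ∈ V)
    (hunit : ∀ f : V, red f ≠ 0 → (f : Ω)⁻¹ ∈ V)
    (hord : ¬ (p : ℤ) ∣ (red ⟨x, hx⟩).order)
    (halg : ∀ f : V, IsAlgebraic (IntermediateField.adjoin κ {red ⟨x, hx⟩}) (red f)) :
    ∀ f ∈ V, ∃ P : Polynomial Ω, (∀ i, P.coeff i ∈ Subring.closure ((R : Set Ω) ∪ {x})) ∧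
      P.eval f * w⁻¹ ∈ V ∧ (derivative P).eval f ≠ 0 ∧ ((derivative P).eval f)⁻¹ ∈ V := by
  intro f hf
  obtain ⟨Pbar, h0, h1⟩ :=
    exists_bivariate_simple_root_laurent p (red ⟨x, hx⟩) (red ⟨f, hf⟩) hord (halg ⟨f, hf⟩)
  exact exists_lift_simple_root R V x w hRV hx ρ hρ red hcompat hker hunit ⟨f, hf⟩ Pbar h0 h1

end GoodModel

end Fermat.Agent.S18.H264

end
-- ===== PACK-END S18/H264/SepLift.lean

-- ===== PACK-BEGIN S18/H602/BaseChange.lean
section



/-!
# S18, piece d1 (continued): `laurentBaseChange L (modularFunctionFieldFull N)` is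
`modularFunctionFieldFullC L N`  (owner helper602)

For every field `L` of characteristic zero, the base change to `L` of the rational function
field `ℚ(j(q^d) : d ∣ N)` is `L(j(q^d) : d ∣ N)`, inside `L((q))`.
-/

set_option autoImplicit false

noncomputable section

namespace Fermat.Agent.S18.H602

open ModularCurve AlgebraicCurve HahnSeries IntermediateField

section BaseChange

variable (L : Type*) [Field L] [Algebra ℚ L] (N : ℕ)

theorem coeffEmb_qExpand_jq (d : ℕ) [NeZero d] :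
    coeffEmb L (qExpand ℚ d jq) = qExpand L d (jqModC L) := by
  have h := coeffMap_jqNModC (algebraMap ℚ L) d
  exact h

theorem coeffEmb_mem_fullC {x : LaurentSeries ℚ} (hx : x ∈ modularFunctionFieldFull N) :
    coeffEmb L x ∈ modularFunctionFieldFullC L N := by
  unfold modularFunctionFieldFull at hx
  induction hx using IntermediateField.adjoin_induction with
  | mem y hy =>
      obtain ⟨d, hd, hdN, rfl⟩ := hy
      rw [coeffEmb_qExpand_jq]
      exact jqModCd_mem_full L N hdN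
  | algebraMap c =>
      have : coeffEmb L (algebraMap ℚ (LaurentSeries ℚ) c) =
          algebraMap L (LaurentSeries L) (algebraMap ℚ L c) := by
        rw [coeffEmb, algebraMap_laurentSeries_eq_single, algebraMap_laurentSeries_eq_single,
          coeffMap_single]
      rw [this]
      exact (modularFunctionFieldFullC L N).algebraMap_mem _
  | add x y _ _ hx hy => simpa using add_mem hx hy
  | inv x _ hx => simpa using inv_mem hx
  | mul x y _ _ hx hy => simpa using mul_mem hx hy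

/-- The base change of `ℚ(j(q^d) : d ∣ N)` to `L` is `L(j(q^d) : d ∣ N)`. -/
theorem laurentBaseChange_full_eq :
    laurentBaseChange L (modularFunctionFieldFull N) = modularFunctionFieldFullC L N := by
  apply le_antisymm
  · rw [laurentBaseChange, IntermediateField.adjoin_le_iff]
    rintro _ ⟨x, hx, rfl⟩
    exact coeffEmb_mem_fullC L N hx
  · rw [modularFunctionFieldFullC, IntermediateField.adjoin_le_iff]
    rintro _ ⟨d, hd, hdN, rfl⟩
    rw [← coeffEmb_qExpand_jq]
    exact coeffEmb_mem_laurentBaseChange L (jqd_mem_full N hdN)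

theorem modularFunctionFieldBar_eq :
    modularFunctionFieldBar N = modularFunctionFieldFullC (AlgebraicClosure ℚ) N :=
  laurentBaseChange_full_eq _ N

end BaseChange

end Fermat.Agent.S18.H602

end
end
-- ===== PACK-END S18/H602/BaseChange.lean

-- ===== PACK-BEGIN S24/H324/LocalUnique.lean
section



/-!
# S24 / ALG (helper324) — local uniqueness of embeddings

Two embeddings `σ τ : F → C((z))` inducing the same place `v` (with the same multiplicity `g`),
agreeing on the constants and on one element `t` with `v(t) > 0`, and such that the leading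
coefficients of `σ π` and `τ π` agree for one uniformiser `π`, are equal.

No completeness, no Dedekind domains: successive approximation inside `F`.
-/

set_option autoImplicit false

namespace Fermat.Agent.S24.H324

open AlgebraicCurve HahnSeries
open Fermat.Agent.S24.H117

variable {K F : Type*} [Field K] [Field F] [Algebra K F]
variable {C : Type*} [Field C]

section Abstract

variable (v : Place K F) (σ τ : F →+* LaurentSeries C) (g : ℕ)

/-- Hypotheses shared by the lemmas of this section. -/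
structure SamePlace : Prop where
  g_pos : 0 < g
  ordσ : ∀ f : F, (σ f).order = (g : ℤ) * v.ord f
  ordτ : ∀ f : F, (τ f).order = (g : ℤ) * v.ord f
  const : ∀ c : K, σ (algebraMap K F c) = τ (algebraMap K F c)

variable {v σ τ g}

theorem SamePlace.vanishσ (h : SamePlace v σ τ g) {f : F} {n : ℤ} (hf : n ≤ v.ord f) :
    VanishBelow ((g : ℤ) * n) (σ f) := by
  apply vanishBelow_of_le_order
  rw [h.ordσ]
  exact mul_le_mul_of_nonneg_left hf (by positivity)

theorem SamePlace.vanishτ (h : SamePlace v σ τ g) {f : F} {n : ℤ} (hf : n ≤ v.ord f) :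
    VanishBelow ((g : ℤ) * n) (τ f) := by
  apply vanishBelow_of_le_order
  rw [h.ordτ]
  exact mul_le_mul_of_nonneg_left hf (by positivity)

/-- **Local uniqueness.** -/
theorem SamePlace.eq_of_leadingCoeff_eq [CharZero C] (h : SamePlace v σ τ g)
    (π : F) (hπ : v.ord π = 1)
    (hres : ∀ f : F, 0 ≤ v.ord f →
      ∃ (c : K) (f₁ : F), 0 ≤ v.ord f₁ ∧ f = algebraMap K F c + π * f₁)
    (t : F) (ht : 0 < v.ord t) (hst : σ t = τ t)
    (hlc : (σ π).leadingCoeff = (τ π).leadingCoeff) : σ = τ := by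
  have hg : (0 : ℤ) < g := by exact_mod_cast h.g_pos
  have hπ0 : π ≠ 0 := ne_zero_of_ord_ne_zero v (by rw [hπ]; norm_num)
  have ht0 : t ≠ 0 := ne_zero_of_ord_ne_zero v ht.ne'
  set P := σ π with hP
  set Q := τ π with hQ
  have hP0 : P ≠ 0 := (map_ne_zero σ).mpr hπ0
  have hQ0 : Q ≠ 0 := (map_ne_zero τ).mpr hπ0
  have hPord : P.order = g := by rw [hP, h.ordσ, hπ, mul_one]
  have hQord : Q.order = g := by rw [hQ, h.ordτ, hπ, mul_one]
  -- ramification index
  obtain ⟨e, he⟩ : ∃ e : ℕ, (e : ℤ) = v.ord t := ⟨(v.ord t).toNat, Int.toNat_of_nonneg ht.le⟩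
  have he0 : 0 < e := by
    have : (0 : ℤ) < e := by rw [he]; exact ht
    exact_mod_cast this
  -- the unit `u = t / π ^ e`
  set u := t / π ^ e with hu
  have hu0 : u ≠ 0 := div_ne_zero ht0 (pow_ne_zero _ hπ0)
  have hut : t = u * π ^ e := by rw [hu, div_mul_cancel₀ _ (pow_ne_zero _ hπ0)]
  have huord : v.ord u = 0 := by
    rw [hu, ord_div v ht0 (pow_ne_zero _ hπ0), ord_pow, hπ, he]; ring
  have hσu0 : σ u ≠ 0 := (map_ne_zero σ).mpr hu0
  have hσuord : (σ u).order = 0 := by rw [h.ordσ, huord, mul_zero]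
  -- the geometric sum
  obtain ⟨hS0, hSord⟩ := geomSum_ne_zero_and_order hP0 hQ0 hPord hQord hlc e he0
  have hgeom := geom_sum₂_mul P Q e
  -- main induction
  have key : ∀ N : ℕ, ∀ f : F, 0 ≤ v.ord f → VanishBelow (N : ℤ) (σ f - τ f) := by
    intro N
    induction N with
    | zero =>
      intro f hf
      have h1 := h.vanishσ hf
      have h2 := h.vanishτ hf
      rw [mul_zero] at h1 h2
      simpa using h1.sub h2
    | succ N ih =>
      intro f hf
      -- the difference `P - Q`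
      have hPQ : VanishBelow ((N : ℤ) + g) (P - Q) := by
        have hu1 := ih u huord.ge
        have hrel : (P ^ e - Q ^ e) * σ u = -(Q ^ e * (σ u - τ u)) := by
          have h1 : σ t = σ u * P ^ e := by rw [hut, map_mul, map_pow]
          have h2 : τ t = τ u * Q ^ e := by rw [hut, map_mul, map_pow]
          have h3 : σ u * P ^ e = τ u * Q ^ e := by rw [← h1, ← h2, hst]
          linear_combination h3
        have hQe : VanishBelow ((g : ℤ) * e) (Q ^ e) := by
          apply vanishBelow_of_le_order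
          rw [order_pow', hQord]
          exact le_of_eq (mul_comm _ _)
        have h4 : VanishBelow ((g : ℤ) * e + N) ((P ^ e - Q ^ e) * σ u) := by
          rw [hrel]
          exact (hQe.mul hu1).neg
        have h5 := h4.of_mul_right hσu0
        rw [hσuord, sub_zero, ← hgeom] at h5
        have h6 : VanishBelow ((g : ℤ) * e + N)
            ((P - Q) * ∑ l ∈ Finset.range e, P ^ l * Q ^ (e - 1 - l)) := by
          rw [mul_comm (P - Q)]; exact h5
        have h7 := h6.of_mul_right hS0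
        rw [hSord] at h7
        refine h7.mono ?_
        have : (g : ℤ) * e + N - g * ((e : ℤ) - 1) = N + g := by ring
        rw [this]
      obtain ⟨c, f₁, hf₁, rfl⟩ := hres f hf
      have hdecomp : σ (algebraMap K F c + π * f₁) - τ (algebraMap K F c + π * f₁)
          = P * (σ f₁ - τ f₁) + (P - Q) * τ f₁ := by
        rw [map_add, map_add, map_mul, map_mul, h.const c]
        ring
      rw [hdecomp]
      have hA : VanishBelow ((g : ℤ) + N) (P * (σ f₁ - τ f₁)) :=
        (vanishBelow_of_le_order hPord.ge).mul (ih f₁ hf₁)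
      have hB : VanishBelow ((N : ℤ) + g + 0) ((P - Q) * τ f₁) := by
        refine hPQ.mul ?_
        have := h.vanishτ hf₁
        rwa [mul_zero] at this
      have hA' : VanishBelow ((N + 1 : ℕ) : ℤ) (P * (σ f₁ - τ f₁)) :=
        hA.mono (by push_cast; omega)
      have hB' : VanishBelow ((N + 1 : ℕ) : ℤ) ((P - Q) * τ f₁) :=
        hB.mono (by push_cast; omega)
      exact hA'.add hB'
  have hint : ∀ f : F, 0 ≤ v.ord f → σ f = τ f := fun f hf =>
    sub_eq_zero.mp (eq_zero_of_forall_vanishBelow fun N => key N f hf)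
  refine RingHom.ext fun f => ?_
  rcases le_or_gt 0 (v.ord f) with hf | hf
  · exact hint f hf
  · have hinv : σ f⁻¹ = τ f⁻¹ := hint f⁻¹ (by rw [v.ord_inv]; omega)
    rw [map_inv₀, map_inv₀] at hinv
    exact inv_injective hinv

/-- The `e`-th power of the leading coefficient of `σ π` is determined by `σ t`. -/
theorem SamePlace.leadingCoeff_pow_eq (h : SamePlace v σ τ g)
    (π : F) (hπ : v.ord π = 1)
    (hres : ∀ f : F, 0 ≤ v.ord f →
      ∃ (c : K) (f₁ : F), 0 ≤ v.ord f₁ ∧ f = algebraMap K F c + π * f₁)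
    (t : F) (ht : 0 < v.ord t) (hst : σ t = τ t) (e : ℕ) (he : (e : ℤ) = v.ord t) :
    (σ π).leadingCoeff ^ e = (τ π).leadingCoeff ^ e := by
  have hg : (0 : ℤ) < g := by exact_mod_cast h.g_pos
  have hπ0 : π ≠ 0 := ne_zero_of_ord_ne_zero v (by rw [hπ]; norm_num)
  have ht0 : t ≠ 0 := ne_zero_of_ord_ne_zero v ht.ne'
  set u := t / π ^ e with hu
  have hu0 : u ≠ 0 := div_ne_zero ht0 (pow_ne_zero _ hπ0)
  have hut : t = u * π ^ e := by rw [hu, div_mul_cancel₀ _ (pow_ne_zero _ hπ0)]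
  have huord : v.ord u = 0 := by
    rw [hu, ord_div v ht0 (pow_ne_zero _ hπ0), ord_pow, hπ, he]; ring
  obtain ⟨c, u₁, hu₁, hcu⟩ := hres u huord.ge
  -- leading coefficient of the image of a unit `c + π u₁`
  have hlead : ∀ ρ : F →+* LaurentSeries C, (∀ f : F, (ρ f).order = (g : ℤ) * v.ord f) →
      (ρ u).leadingCoeff = (ρ (algebraMap K F c)).coeff 0 := by
    intro ρ hρ
    have hord : (ρ u).order = 0 := by rw [hρ, huord, mul_zero]
    rw [leadingCoeff_eq, hord, hcu, map_add, coeff_add]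
    have : (ρ (π * u₁)).coeff 0 = 0 := by
      rcases eq_or_ne u₁ 0 with rfl | hu₁0
      · simp
      apply coeff_eq_zero_of_lt_order
      rw [hρ, v.ord_mul hπ0 hu₁0, hπ]
      nlinarith
    rw [this, add_zero]
  have h1 : σ t = σ u * (σ π) ^ e := by rw [hut, map_mul, map_pow]
  have h2 : τ t = τ u * (τ π) ^ e := by rw [hut, map_mul, map_pow]
  have h3 := congrArg HahnSeries.leadingCoeff hst
  rw [h1, h2, leadingCoeff_mul, leadingCoeff_mul, leadingCoeff_pow', leadingCoeff_pow',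
    hlead σ h.ordσ, hlead τ h.ordτ, h.const c] at h3
  have hne : (τ (algebraMap K F c)).coeff 0 ≠ 0 := by
    rw [← hlead τ h.ordτ]
    exact leadingCoeff_ne_zero.mpr ((map_ne_zero τ).mpr hu0)
  exact mul_left_cancel₀ hne h3

end Abstract

end Fermat.Agent.S24.H324

end
-- ===== PACK-END S24/H324/LocalUnique.lean

-- ===== PACK-BEGIN S20/Comb/Fixed.lean
section


/-!
# Fixed points of `S` and `S * T` on `SL(2,ℤ) ⧸ Gamma0 N`

* `card_fixedBy_S : Nat.card (MulAction.fixedBy (SL(2,ℤ) ⧸ Gamma0 N) S) = nuTwo N`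
* `card_fixedBy_ST : Nat.card (MulAction.fixedBy (SL(2,ℤ) ⧸ Gamma0 N) (S * T)) = nuThree N`
-/

set_option autoImplicit false

namespace Fermat.Agent.S20.Comb

open Matrix MatrixGroups CongruenceSubgroup

variable (N : ℕ)

/-- From a root of `x² + 1` in `ZMod N` to a fixed point of `S`. -/
noncomputable def rootToFixedS (x : {x : ZMod N // x ^ 2 + 1 = 0}) :
    MulAction.fixedBy (SL(2, ℤ) ⧸ Gamma0 N) ModularGroup.S :=
  ⟨QuotientGroup.mk (colRep (ZMod.cast x.1 : ℤ)), by
    rw [MulAction.mem_fixedBy, S_smul_mk_eq_mk_iff]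
    simp only [colRep_apply_zero_zero, colRep_apply_one_zero, ZMod.intCast_zmod_cast,
      Int.cast_one, one_pow]
    exact x.2⟩

lemma rootToFixedS_bijective : Function.Bijective (rootToFixedS N) := by
  constructor
  · rintro ⟨x, hx⟩ ⟨y, hy⟩ h
    have h' := congrArg Subtype.val h
    simp only [rootToFixedS] at h'
    rw [mk_eq_mk_iff] at h'
    simp only [colRep_apply_zero_zero, colRep_apply_one_zero, ZMod.intCast_zmod_cast,
      Int.cast_one, mul_one, one_mul] at h'
    exact Subtype.ext (sub_eq_zero.mp h')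
  · rintro ⟨q, hq⟩
    obtain ⟨g, rfl⟩ := QuotientGroup.mk_surjective q
    rw [MulAction.mem_fixedBy, S_smul_mk_eq_mk_iff] at hq
    have hinv := c_mul_inv_eq_one N g (-((g 1 0 : ℤ) : ZMod N)) (by linear_combination hq)
    set a : ZMod N := ((g 0 0 : ℤ) : ZMod N) with ha
    set c : ZMod N := ((g 1 0 : ℤ) : ZMod N) with hc
    set i : ZMod N := (-c * ((g 1 1 : ℤ) : ZMod N) ^ 2
        - 2 * a * ((g 0 1 : ℤ) : ZMod N) * ((g 1 1 : ℤ) : ZMod N)
        + ((g 0 1 : ℤ) : ZMod N) ^ 2 * c) with hi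
    refine ⟨⟨a * i, ?_⟩, ?_⟩
    · linear_combination (i ^ 2) * hq - (c * i + 1) * hinv
    · apply Subtype.ext
      simp only [rootToFixedS]
      rw [mk_eq_mk_iff]
      simp only [colRep_apply_zero_zero, colRep_apply_one_zero, ZMod.intCast_zmod_cast,
        Int.cast_one, one_mul]
      linear_combination a * hinv

/-- **(I2)** The number of fixed points of `S` on `SL(2,ℤ) ⧸ Γ₀(N)` is `ν₂(N)`. -/
theorem card_fixedBy_S :
    Nat.card (MulAction.fixedBy (SL(2, ℤ) ⧸ Gamma0 N) ModularGroup.S) = ModularCurve.nuTwo N := by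
  rw [ModularCurve.nuTwo]
  exact (Nat.card_eq_of_bijective _ (rootToFixedS_bijective N)).symm

/-- From a root of `x² + x + 1` in `ZMod N` to a fixed point of `S * T`. -/
noncomputable def rootToFixedST (x : {x : ZMod N // x ^ 2 + x + 1 = 0}) :
    MulAction.fixedBy (SL(2, ℤ) ⧸ Gamma0 N) (ModularGroup.S * ModularGroup.T) :=
  ⟨QuotientGroup.mk (colRep (ZMod.cast x.1 : ℤ)), by
    rw [MulAction.mem_fixedBy, ST_smul_mk_eq_mk_iff]
    simp only [colRep_apply_zero_zero, colRep_apply_one_zero, ZMod.intCast_zmod_cast,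
      Int.cast_one, one_pow, mul_one]
    exact x.2⟩

lemma rootToFixedST_bijective : Function.Bijective (rootToFixedST N) := by
  constructor
  · rintro ⟨x, hx⟩ ⟨y, hy⟩ h
    have h' := congrArg Subtype.val h
    simp only [rootToFixedST] at h'
    rw [mk_eq_mk_iff] at h'
    simp only [colRep_apply_zero_zero, colRep_apply_one_zero, ZMod.intCast_zmod_cast,
      Int.cast_one, mul_one, one_mul] at h'
    exact Subtype.ext (sub_eq_zero.mp h')
  · rintro ⟨q, hq⟩
    obtain ⟨g, rfl⟩ := QuotientGroup.mk_surjective q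
    rw [MulAction.mem_fixedBy, ST_smul_mk_eq_mk_iff] at hq
    have hinv := c_mul_inv_eq_one N g (-((g 0 0 : ℤ) : ZMod N) - ((g 1 0 : ℤ) : ZMod N))
      (by linear_combination hq)
    set a : ZMod N := ((g 0 0 : ℤ) : ZMod N) with ha
    set c : ZMod N := ((g 1 0 : ℤ) : ZMod N) with hc
    set i : ZMod N := ((-a - c) * ((g 1 1 : ℤ) : ZMod N) ^ 2
        - 2 * a * ((g 0 1 : ℤ) : ZMod N) * ((g 1 1 : ℤ) : ZMod N)
        + ((g 0 1 : ℤ) : ZMod N) ^ 2 * c) with hi
    refine ⟨⟨a * i, ?_⟩, ?_⟩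
    · linear_combination (i ^ 2) * hq - (c * i + 1 + a * i) * hinv
    · apply Subtype.ext
      simp only [rootToFixedST]
      rw [mk_eq_mk_iff]
      simp only [colRep_apply_zero_zero, colRep_apply_one_zero, ZMod.intCast_zmod_cast,
        Int.cast_one, one_mul]
      linear_combination a * hinv

/-- **(I3)** The number of fixed points of `S * T` on `SL(2,ℤ) ⧸ Γ₀(N)` is `ν₃(N)`. -/
theorem card_fixedBy_ST :
    Nat.card (MulAction.fixedBy (SL(2, ℤ) ⧸ Gamma0 N) (ModularGroup.S * ModularGroup.T))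
      = ModularCurve.nuThree N := by
  rw [ModularCurve.nuThree]
  exact (Nat.card_eq_of_bijective _ (rootToFixedST_bijective N)).symm

end Fermat.Agent.S20.Comb

end
-- ===== PACK-END S20/Comb/Fixed.lean

-- ===== PACK-BEGIN S20/Comb/RelIndex.lean
section





/-!
# Relative index of `Gamma0 (p * M)` in `Gamma0 M`

`(Gamma0 (p * M)).relIndex (Gamma0 M) = p` if `p ∣ M`, and `p + 1` otherwise (`p` prime, `M ≠ 0`).
-/

set_option autoImplicit false

namespace Fermat.Agent.S20.Comb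

open Matrix MatrixGroups CongruenceSubgroup

lemma mem_Gamma0_iff_dvd (N : ℕ) (g : SL(2, ℤ)) : g ∈ Gamma0 N ↔ (N : ℤ) ∣ g 1 0 := by
  rw [Gamma0_mem]
  exact ZMod.intCast_zmod_eq_zero_iff_dvd _ _

lemma Gamma0_mul_le (p M : ℕ) : Gamma0 (p * M) ≤ Gamma0 M := by
  intro g hg
  rw [mem_Gamma0_iff_dvd] at hg ⊢
  refine dvd_trans ?_ hg
  push_cast
  exact dvd_mul_left _ _

/-- The matrix `[[1, 0], [c, 1]]` in `SL(2,ℤ)`. -/
def lowRep (c : ℤ) : SL(2, ℤ) := ⟨!![1, 0; c, 1], by simp [Matrix.det_fin_two]⟩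

@[simp] lemma lowRep_apply_zero_zero (c : ℤ) : lowRep c 0 0 = 1 := rfl
@[simp] lemma lowRep_apply_one_zero (c : ℤ) : lowRep c 1 0 = c := rfl

lemma lowRep_mem (M : ℕ) (t : ℤ) : lowRep ((M : ℤ) * t) ∈ Gamma0 M := by
  rw [mem_Gamma0_iff_dvd, lowRep_apply_one_zero]
  exact dvd_mul_right _ _

/-- Coset criterion for `Gamma0 M ⧸ (Gamma0 (p * M)).subgroupOf (Gamma0 M)`. -/
lemma subMk_eq_iff (p M : ℕ) (hM : M ≠ 0) (g g' : Gamma0 M) (c₁ c₁' : ℤ)
    (hc : (g : SL(2, ℤ)) 1 0 = M * c₁) (hc' : (g' : SL(2, ℤ)) 1 0 = M * c₁') :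
    (QuotientGroup.mk g : Gamma0 M ⧸ (Gamma0 (p * M)).subgroupOf (Gamma0 M))
        = QuotientGroup.mk g' ↔
      (p : ℤ) ∣ ((g : SL(2, ℤ)) 0 0 * c₁' - c₁ * (g' : SL(2, ℤ)) 0 0) := by
  rw [QuotientGroup.eq, Subgroup.mem_subgroupOf, mem_Gamma0_iff_dvd]
  simp only [Subgroup.coe_mul, Subgroup.coe_inv, inv_mul_apply_one_zero, hc, hc']
  have h : (g : SL(2, ℤ)) 0 0 * ((M : ℤ) * c₁') - (M : ℤ) * c₁ * (g' : SL(2, ℤ)) 0 0
      = (M : ℤ) * ((g : SL(2, ℤ)) 0 0 * c₁' - c₁ * (g' : SL(2, ℤ)) 0 0) := by ring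
  rw [h]
  push_cast
  rw [mul_comm (p : ℤ) (M : ℤ)]
  exact mul_dvd_mul_iff_left (by exact_mod_cast hM)

/-- For `g ∈ Gamma0 M` with `p ∣ M`, the entry `g 0 0` is nonzero mod `p`. -/
lemma a_ne_zero_of_dvd (p M : ℕ) (hp : p.Prime) (h : p ∣ M) (g : Gamma0 M) :
    ¬ (p : ℤ) ∣ (g : SL(2, ℤ)) 0 0 := by
  intro ha
  have hg := (mem_Gamma0_iff_dvd M _).mp g.2
  have hpc : (p : ℤ) ∣ (g : SL(2, ℤ)) 1 0 := dvd_trans (by exact_mod_cast h) hg
  have hdet := (g : SL(2, ℤ)).det_coe
  rw [Matrix.det_fin_two] at hdet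
  have h1 : (p : ℤ) ∣ 1 := by
    rw [← hdet]
    exact dvd_sub (dvd_mul_of_dvd_left ha _) (dvd_mul_of_dvd_right hpc _)
  have := Int.natCast_dvd_natCast.mp (by simpa using h1 : ((p : ℕ) : ℤ) ∣ ((1 : ℕ) : ℤ))
  exact hp.one_lt.ne' (Nat.dvd_one.mp this)

/-- The coset representative attached to `t : ZMod p`. -/
noncomputable def relRep (p M : ℕ) (t : ZMod p) :
    Gamma0 M ⧸ (Gamma0 (p * M)).subgroupOf (Gamma0 M) :=
  QuotientGroup.mk ⟨lowRep ((M : ℤ) * (ZMod.cast t : ℤ)), lowRep_mem M _⟩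

lemma relRep_injective (p M : ℕ) (hM : M ≠ 0) : Function.Injective (relRep p M) := by
  intro t t' h
  simp only [relRep] at h
  rw [subMk_eq_iff p M hM _ _ (ZMod.cast t : ℤ) (ZMod.cast t' : ℤ) rfl rfl] at h
  simp only [lowRep_apply_zero_zero, one_mul, mul_one] at h
  have := (ZMod.intCast_zmod_eq_zero_iff_dvd _ p).mpr h
  push_cast at this
  exact (sub_eq_zero.mp this).symm

/-- Elements with `p ∤ a` are in the range of `relRep`. -/
lemma mem_range_relRep (p M : ℕ) (hM : M ≠ 0) (hp : p.Prime) (g : Gamma0 M)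
    (ha : ¬ (p : ℤ) ∣ (g : SL(2, ℤ)) 0 0) :
    (QuotientGroup.mk g : Gamma0 M ⧸ (Gamma0 (p * M)).subgroupOf (Gamma0 M))
      ∈ Set.range (relRep p M) := by
  haveI : Fact p.Prime := ⟨hp⟩
  obtain ⟨c₁, hc₁⟩ := (mem_Gamma0_iff_dvd M _).mp g.2
  have ha' : (((g : SL(2, ℤ)) 0 0 : ℤ) : ZMod p) ≠ 0 := by
    rwa [Ne, ZMod.intCast_zmod_eq_zero_iff_dvd]
  refine ⟨(c₁ : ZMod p) * (((g : SL(2, ℤ)) 0 0 : ℤ) : ZMod p)⁻¹, ?_⟩
  simp only [relRep]
  rw [subMk_eq_iff p M hM _ _ _ c₁ rfl hc₁]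
  simp only [lowRep_apply_zero_zero, one_mul]
  rw [← ZMod.intCast_zmod_eq_zero_iff_dvd]
  push_cast
  rw [mul_assoc, inv_mul_cancel₀ ha', mul_one, sub_self]

/-- **Relative index, ramified case**: `[Γ₀(M) : Γ₀(pM)] = p` if `p ∣ M`. -/
theorem relIndex_Gamma0_of_dvd (p M : ℕ) (hM : M ≠ 0) (hp : p.Prime) (h : p ∣ M) :
    (Gamma0 (p * M)).relIndex (Gamma0 M) = p := by
  have hbij : Function.Bijective (relRep p M) := by
    refine ⟨relRep_injective p M hM, ?_⟩
    intro q
    obtain ⟨g, rfl⟩ := QuotientGroup.mk_surjective q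
    exact mem_range_relRep p M hM hp g (a_ne_zero_of_dvd p M hp h g)
  rw [Subgroup.relIndex, Subgroup.index, ← Nat.card_eq_of_bijective _ hbij, Nat.card_zmod]

/-- An element of `Gamma0 M` with first column `(p, M)`, for `p ∤ M`. -/
lemma exists_special (p M : ℕ) (hp : p.Prime) (h : ¬ p ∣ M) :
    ∃ g : Gamma0 M, (g : SL(2, ℤ)) 0 0 = p ∧ (g : SL(2, ℤ)) 1 0 = M := by
  have hcop : IsCoprime (p : ℤ) (M : ℤ) := by
    rw [Int.isCoprime_iff_gcd_eq_one, Int.gcd_natCast_natCast]
    exact (Nat.Prime.coprime_iff_not_dvd hp).mpr h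
  obtain ⟨g, hg0, hg1⟩ := IsCoprime.exists_SL2_col hcop 0
  refine ⟨⟨g, ?_⟩, hg0, hg1⟩
  rw [mem_Gamma0_iff_dvd, hg1]

/-- **Relative index, unramified case**: `[Γ₀(M) : Γ₀(pM)] = p + 1` if `p ∤ M`. -/
theorem relIndex_Gamma0_of_not_dvd (p M : ℕ) (hM : M ≠ 0) (hp : p.Prime) (h : ¬ p ∣ M) :
    (Gamma0 (p * M)).relIndex (Gamma0 M) = p + 1 := by
  haveI : Fact p.Prime := ⟨hp⟩
  obtain ⟨g₀, hg₀0, hg₀1⟩ := exists_special p M hp h
  let f : Option (ZMod p) → Gamma0 M ⧸ (Gamma0 (p * M)).subgroupOf (Gamma0 M) :=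
    fun o => o.elim (QuotientGroup.mk g₀) (relRep p M)
  have hne : ∀ t : ZMod p, relRep p M t ≠ QuotientGroup.mk g₀ := by
    intro t ht
    simp only [relRep] at ht
    rw [subMk_eq_iff p M hM _ _ (ZMod.cast t : ℤ) 1 rfl (by rw [hg₀1, mul_one])] at ht
    simp only [lowRep_apply_zero_zero, one_mul, hg₀0] at ht
    have h1 : (p : ℤ) ∣ 1 := by
      have := dvd_add ht (dvd_mul_left (p : ℤ) (ZMod.cast t : ℤ))
      simpa using this
    have := Int.natCast_dvd_natCast.mp (by simpa using h1 : ((p : ℕ) : ℤ) ∣ ((1 : ℕ) : ℤ))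
    exact hp.one_lt.ne' (Nat.dvd_one.mp this)
  have hbij : Function.Bijective f := by
    constructor
    · rintro (_ | t) (_ | t') hh
      · rfl
      · exact absurd hh.symm (hne t')
      · exact absurd hh (hne t)
      · exact congrArg some (relRep_injective p M hM hh)
    · intro q
      obtain ⟨g, rfl⟩ := QuotientGroup.mk_surjective q
      by_cases ha : (p : ℤ) ∣ (g : SL(2, ℤ)) 0 0
      · refine ⟨none, ?_⟩
        obtain ⟨c₁, hc₁⟩ := (mem_Gamma0_iff_dvd M _).mp g.2
        show QuotientGroup.mk g₀ = _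
        rw [subMk_eq_iff p M hM _ _ 1 c₁ (by rw [hg₀1, mul_one]) hc₁, hg₀0]
        exact dvd_sub (dvd_mul_right _ _) (by simpa using ha)
      · obtain ⟨t, ht⟩ := mem_range_relRep p M hM hp g ha
        exact ⟨some t, ht⟩
  rw [Subgroup.relIndex, Subgroup.index, ← Nat.card_eq_of_bijective _ hbij, Finite.card_option,
    Nat.card_zmod]

end Fermat.Agent.S20.Comb

end
-- ===== PACK-END S20/Comb/RelIndex.lean

-- ===== PACK-BEGIN S20/Comb/Index.lean
section





/-!
# The index of `Gamma0 N` in `SL(2,ℤ)` is the Dedekind psi function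

* `index_Gamma0 : (Gamma0 N).index = ModularCurve.dedekindPsi N` (all `N`, including `N = 0`)
* `card_quotient_Gamma0 : Nat.card (SL(2,ℤ) ⧸ Gamma0 N) = ModularCurve.dedekindPsi N`
-/

set_option autoImplicit false

namespace Fermat.Agent.S20.Comb

open Matrix MatrixGroups CongruenceSubgroup

lemma dedekindPsi_prime_mul_of_dvd (p M : ℕ) (hp : p.Prime) (hM : M ≠ 0) (h : p ∣ M) :
    ModularCurve.dedekindPsi (p * M) = p * ModularCurve.dedekindPsi M := by
  unfold ModularCurve.dedekindPsi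
  have hset : (p * M).divisors.filter Squarefree = M.divisors.filter Squarefree := by
    ext d
    simp only [Finset.mem_filter, Nat.mem_divisors]
    constructor
    · rintro ⟨⟨hd, -⟩, hsq⟩
      refine ⟨⟨?_, hM⟩, hsq⟩
      by_cases hpd : p ∣ d
      · obtain ⟨d', rfl⟩ := hpd
        have hd' : d' ∣ M := (Nat.mul_dvd_mul_iff_left hp.pos).mp hd
        have hcop : Nat.Coprime p d' := by
          rw [Nat.Prime.coprime_iff_not_dvd hp]
          intro hpd'
          have h2 : p * p ∣ p * d' := Nat.mul_dvd_mul_left p hpd'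
          have h3 := hsq p h2
          exact hp.one_lt.ne' (Nat.isUnit_iff.mp h3)
        exact Nat.Coprime.mul_dvd_of_dvd_of_dvd hcop h hd'
      · exact Nat.Coprime.dvd_of_dvd_mul_left
          ((Nat.Prime.coprime_iff_not_dvd hp).mpr hpd).symm hd
    · rintro ⟨⟨hd, -⟩, hsq⟩
      exact ⟨⟨dvd_mul_of_dvd_right hd p, mul_ne_zero hp.ne_zero hM⟩, hsq⟩
  rw [hset, Finset.mul_sum]
  refine Finset.sum_congr rfl fun d hd => ?_
  have hd' : d ∣ M := (Nat.mem_divisors.mp (Finset.mem_filter.mp hd).1).1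
  exact Nat.mul_div_assoc p hd'

lemma dedekindPsi_prime_mul_of_not_dvd (p M : ℕ) (hp : p.Prime) (hM : M ≠ 0) (h : ¬ p ∣ M) :
    ModularCurve.dedekindPsi (p * M) = (p + 1) * ModularCurve.dedekindPsi M := by
  unfold ModularCurve.dedekindPsi
  rw [← Finset.sum_filter_add_sum_filter_not ((p * M).divisors.filter Squarefree) (fun d => p ∣ d)]
  have hset1 : ((p * M).divisors.filter Squarefree).filter (fun d => ¬ p ∣ d)
      = M.divisors.filter Squarefree := by
    ext d
    simp only [Finset.mem_filter, Nat.mem_divisors]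
    constructor
    · rintro ⟨⟨⟨hd, -⟩, hsq⟩, hpd⟩
      exact ⟨⟨Nat.Coprime.dvd_of_dvd_mul_left
        ((Nat.Prime.coprime_iff_not_dvd hp).mpr hpd).symm hd, hM⟩, hsq⟩
    · rintro ⟨⟨hd, -⟩, hsq⟩
      exact ⟨⟨⟨dvd_mul_of_dvd_right hd p, mul_ne_zero hp.ne_zero hM⟩, hsq⟩,
        fun hpd => h (dvd_trans hpd hd)⟩
  have hset2 : ((p * M).divisors.filter Squarefree).filter (fun d => p ∣ d)
      = (M.divisors.filter Squarefree).image (fun d => p * d) := by
    ext d
    simp only [Finset.mem_filter, Nat.mem_divisors, Finset.mem_image]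
    constructor
    · rintro ⟨⟨⟨hd, -⟩, hsq⟩, ⟨d', rfl⟩⟩
      exact ⟨d', ⟨⟨(Nat.mul_dvd_mul_iff_left hp.pos).mp hd, hM⟩, hsq.of_mul_right⟩, rfl⟩
    · rintro ⟨d', ⟨⟨hd', -⟩, hsq'⟩, rfl⟩
      have hcop : Nat.Coprime p d' :=
        (Nat.Prime.coprime_iff_not_dvd hp).mpr fun hpd => h (dvd_trans hpd hd')
      exact ⟨⟨⟨Nat.mul_dvd_mul_left p hd', mul_ne_zero hp.ne_zero hM⟩,
        (Nat.squarefree_mul hcop).mpr ⟨hp.prime.squarefree, hsq'⟩⟩, dvd_mul_right _ _⟩
  rw [hset1, hset2, Finset.sum_image (fun x _ y _ hxy => Nat.eq_of_mul_eq_mul_left hp.pos hxy),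
    add_mul, one_mul, Finset.mul_sum, add_comm]
  congr 1
  · refine Finset.sum_congr rfl fun d hd => ?_
    have hd' : d ∣ M := (Nat.mem_divisors.mp (Finset.mem_filter.mp hd).1).1
    exact Nat.mul_div_assoc p hd'
  · refine Finset.sum_congr rfl fun d hd => ?_
    exact Nat.mul_div_mul_left M d hp.pos

lemma Gamma0_one_eq_top : Gamma0 1 = ⊤ := by
  ext g
  simp only [Gamma0_mem, Subgroup.mem_top, iff_true]
  exact Subsingleton.elim _ _

lemma index_Gamma0_zero : (Gamma0 0).index = 0 := by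
  rw [Subgroup.index]
  haveI : Infinite (SL(2, ℤ) ⧸ Gamma0 0) := by
    refine Infinite.of_injective
      (fun t : ℤ => (QuotientGroup.mk (lowRep t) : SL(2, ℤ) ⧸ Gamma0 0)) ?_
    intro t t' h
    simp only at h
    rw [mk_eq_mk_iff] at h
    simp only [lowRep_apply_zero_zero, lowRep_apply_one_zero, Int.cast_one, one_mul,
      mul_one] at h
    have h' : ((t' - t : ℤ) : ZMod 0) = 0 := h
    have h'' := (ZMod.intCast_zmod_eq_zero_iff_dvd (t' - t) 0).mp h'
    simp only [Nat.cast_zero, zero_dvd_iff] at h''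
    exact (sub_eq_zero.mp h'').symm
  exact Nat.card_eq_zero_of_infinite

lemma dedekindPsi_zero : ModularCurve.dedekindPsi 0 = 0 := by
  simp [ModularCurve.dedekindPsi]

/-- **(I1)** The index of `Γ₀(N)` in `SL(2,ℤ)` is `ψ(N)` (for `N ≠ 0`). -/
theorem index_Gamma0_of_ne_zero (N : ℕ) (hN : N ≠ 0) :
    (Gamma0 N).index = ModularCurve.dedekindPsi N := by
  induction N using induction_on_primes with
  | zero => exact absurd rfl hN
  | one => rw [ModularCurve.dedekindPsi_one, Gamma0_one_eq_top, Subgroup.index_top]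
  | prime_mul p M hp ih =>
    have hM : M ≠ 0 := fun h => hN (by rw [h, mul_zero])
    rw [← Subgroup.relIndex_mul_index (Gamma0_mul_le p M), ih hM]
    by_cases h : p ∣ M
    · rw [relIndex_Gamma0_of_dvd p M hM hp h, dedekindPsi_prime_mul_of_dvd p M hp hM h]
    · rw [relIndex_Gamma0_of_not_dvd p M hM hp h, dedekindPsi_prime_mul_of_not_dvd p M hp hM h]

/-- **(I1)** The index of `Γ₀(N)` in `SL(2,ℤ)` is `ψ(N)` (all `N`; both sides are `0` for
`N = 0`). -/
theorem index_Gamma0 (N : ℕ) : (Gamma0 N).index = ModularCurve.dedekindPsi N := by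
  rcases eq_or_ne N 0 with rfl | hN
  · rw [index_Gamma0_zero, dedekindPsi_zero]
  · exact index_Gamma0_of_ne_zero N hN

/-- **(I1)** `#(SL(2,ℤ) ⧸ Γ₀(N)) = ψ(N)`. -/
theorem card_quotient_Gamma0 (N : ℕ) :
    Nat.card (SL(2, ℤ) ⧸ Gamma0 N) = ModularCurve.dedekindPsi N :=
  index_Gamma0 N

end Fermat.Agent.S20.Comb

end
-- ===== PACK-END S20/Comb/Index.lean

-- ===== PACK-BEGIN S18/H107/T2Branch.lean
section




/-!
# helper107 — S18 / M3-T : `unramified` for the Hauptmodul `t₂` (`j t² = (t + 256)³`)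

From the branch data of the `j`-line (`BranchJ107`): for every constant `c ∉ {-64, 0}`, at a place
`O` with `t ≡ c`, `t - c` is a uniformiser.  (`t = -256` lies over `j = 0` with `e(t/j) = 3`,
`t = 512` over `j = 1728` with `e(t/j) = 2`; only `t = -64`, `0`, `∞` can ramify in `Ω / Lc(t)`.)
-/

set_option autoImplicit false

namespace Fermat.Agent.S18.H107

variable {Ω : Type*} [Field Ω] [CharZero Ω]

theorem unramified_t2_107 (Lc : Subfield Ω) (j t : Ω) (hrel : j * t ^ 2 = (t + 256) ^ 3)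
    (hB : BranchJ107 Lc j) (O : ValuationSubring Ω) (hL : ∀ a ∈ Lc, a ∈ O) (c : Ω) (hc : c ∈ Lc)
    (hc64 : c ≠ -64) (hc0 : c ≠ 0) (hz : t - c ∈ O) (hz' : (t - c)⁻¹ ∉ O) :
    ∀ s ∈ O, s⁻¹ ∉ O → s * (t - c)⁻¹ ∈ O := by
  rw [← OrdLe107.one_iff]
  have hzv : O.valuation (t - c) < 1 := val_lt_one107 O hz hz'
  have hz0 : t - c ≠ 0 := by
    intro h0
    rw [h0, inv_zero] at hz'
    exact hz' O.zero_mem
  have hcv : O.valuation c = 1 := val_const107 O Lc hL hc hc0
  have htv : O.valuation t = 1 := by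
    have : t = c + (t - c) := by ring
    rw [this]
    exact val_add_eq_one107 O hcv hzv
  have ht0 : t ≠ 0 := by
    intro h0
    rw [h0, map_zero] at htv
    exact zero_ne_one htv
  have htO : t ∈ O := (O.valuation_le_one_iff _).1 htv.le
  have hcO : c ∈ O := hL c hc
  have ht2v : O.valuation ((t ^ 2)⁻¹) = 1 := by
    rw [map_inv₀, map_pow, htv, one_pow, inv_one]
  by_cases h256 : c = -256
  · -- over `j = 0`
    subst h256
    have hy : j = (t - -256) ^ 3 * (t ^ 2)⁻¹ := by
      field_simp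
      linear_combination hrel
    have hj0 : j ≠ 0 := by
      rw [hy]
      exact mul_ne_zero (pow_ne_zero _ hz0) (inv_ne_zero (pow_ne_zero _ ht0))
    have hjv : O.valuation j < 1 := by
      rw [hy, map_mul, ht2v, mul_one, map_pow]
      exact pow_lt_one₀ zero_le hzv (by norm_num)
    exact unram_of_factor107 O (k := 3) (by norm_num) hy ht2v hz0
      (hB.zero O hL (mem_of_val_lt_one107 O hjv) (inv_not_mem_of_val_lt_one107 O hj0 hjv))
  by_cases h512 : c = 512
  · -- over `j = 1728`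
    subst h512
    have h576 : O.valuation (576 : Ω) = 1 :=
      val_const107 O Lc hL (ofNat_mem Lc 576) (by norm_num)
    have ht64 : O.valuation (t + 64) = 1 := by
      have : t + 64 = 576 + (t - 512) := by ring
      rw [this]
      exact val_add_eq_one107 O h576 hzv
    have hUv : O.valuation ((t + 64) * (t ^ 2)⁻¹) = 1 := by
      rw [map_mul, ht64, ht2v, mul_one]
    have hy : j - 1728 = (t - 512) ^ 2 * ((t + 64) * (t ^ 2)⁻¹) := by
      field_simp
      linear_combination hrel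
    have hU0 : (t + 64) * (t ^ 2)⁻¹ ≠ 0 := by
      intro h0
      rw [h0, map_zero] at hUv
      exact zero_ne_one hUv
    have hy0 : j - 1728 ≠ 0 := by
      rw [hy]
      exact mul_ne_zero (pow_ne_zero _ hz0) hU0
    have hyv : O.valuation (j - 1728) < 1 := by
      rw [hy, map_mul, hUv, mul_one, map_pow]
      exact pow_lt_one₀ zero_le hzv (by norm_num)
    exact unram_of_factor107 O (k := 2) (by norm_num) hy hUv hz0
      (hB.c1728 O hL (mem_of_val_lt_one107 O hyv) (inv_not_mem_of_val_lt_one107 O hy0 hyv))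
  · -- generic point
    have hc256 : c + 256 ≠ 0 := fun h => h256 (by linear_combination h)
    have hc512 : c - 512 ≠ 0 := fun h => h512 (by linear_combination h)
    have hc64' : c + 64 ≠ 0 := fun h => hc64 (by linear_combination h)
    set a : Ω := (c + 256) ^ 3 * (c ^ 2)⁻¹ with ha
    have haL : a ∈ Lc :=
      Lc.mul_mem (Lc.pow_mem (Lc.add_mem hc (ofNat_mem Lc 256)) 3) (Lc.inv_mem (Lc.pow_mem hc 2))
    have ha0 : a ≠ 0 := mul_ne_zero (pow_ne_zero _ hc256) (inv_ne_zero (pow_ne_zero _ hc0))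
    have ha1728 : a ≠ 1728 := by
      intro h
      have h1 : (c - 512) ^ 2 * (c + 64) = 0 := by
        have h2 : (c + 256) ^ 3 = 1728 * c ^ 2 := by
          rw [ha] at h
          field_simp at h
          linear_combination h
        linear_combination h2
      rcases mul_eq_zero.1 h1 with h3 | h3
      · exact hc512 (pow_eq_zero_iff (by norm_num) |>.1 h3)
      · exact hc64' h3
    -- the cofactor
    set W : Ω := c ^ 2 * t ^ 2 - (196608 * c + 16777216) * t - 16777216 * c with hW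
    set W₀ : Ω := c * (c + 256) ^ 2 * (c - 512) with hW₀
    set W₁ : Ω := c ^ 2 * (t + c) - 196608 * c - 16777216 with hW₁
    have hW₀L : W₀ ∈ Lc :=
      Lc.mul_mem (Lc.mul_mem hc (Lc.pow_mem (Lc.add_mem hc (ofNat_mem Lc 256)) 2))
        (Lc.sub_mem hc (ofNat_mem Lc 512))
    have hW₀0 : W₀ ≠ 0 := mul_ne_zero (mul_ne_zero hc0 (pow_ne_zero _ hc256)) hc512
    have hW₁O : W₁ ∈ O :=
      sub_mem (sub_mem (mul_mem (pow_mem hcO 2) (add_mem htO hcO))
        (mul_mem (ofNat_mem O 196608) hcO)) (ofNat_mem O 16777216)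
    have hWv : O.valuation W = 1 := by
      have e : W = W₀ + (t - c) * W₁ := by
        rw [hW, hW₀, hW₁]
        ring
      rw [e]
      refine val_add_eq_one107 O (val_const107 O Lc hL hW₀L hW₀0) ?_
      rw [map_mul]
      calc O.valuation (t - c) * O.valuation W₁ ≤ O.valuation (t - c) * 1 := by
            gcongr
            exact (O.valuation_le_one_iff _).2 hW₁O
        _ = O.valuation (t - c) := mul_one _
        _ < 1 := hzv
    have hUv : O.valuation (W * (t ^ 2 * c ^ 2)⁻¹) = 1 := by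
      rw [map_mul, hWv, one_mul, map_inv₀, map_mul, map_pow, map_pow, htv, hcv, one_pow,
        mul_one, inv_one]
    have hy : j - a = (t - c) ^ 1 * (W * (t ^ 2 * c ^ 2)⁻¹) := by
      rw [ha, hW]
      field_simp
      linear_combination (c ^ 2) * hrel
    have hU0 : W * (t ^ 2 * c ^ 2)⁻¹ ≠ 0 := by
      intro h0
      rw [h0, map_zero] at hUv
      exact zero_ne_one hUv
    have hy0 : j - a ≠ 0 := by
      rw [hy]
      exact mul_ne_zero (pow_ne_zero _ hz0) hU0
    have hyv : O.valuation (j - a) < 1 := by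
      rw [hy, map_mul, hUv, mul_one, pow_one]
      exact hzv
    exact unram_of_factor107 O (k := 1) (by norm_num) hy hUv hz0
      (hB.generic O hL a haL ha0 ha1728 (mem_of_val_lt_one107 O hyv)
        (inv_not_mem_of_val_lt_one107 O hy0 hyv))

end Fermat.Agent.S18.H107

end
-- ===== PACK-END S18/H107/T2Branch.lean

-- ===== PACK-BEGIN S18/H107/T3Branch.lean
section




/-!
# helper107 — S18 / M3-T : `unramified` for the Hauptmodul `t₃` (`j t³ = (t + 27)(t + 243)³`)

From the branch data of the `j`-line (`BranchJ107`): for every constant `c ∉ {-27, 0}`, at a place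
`O` with `t ≡ c`, `t - c` is a uniformiser.  (`t = -243` lies over `j = 0` with `e(t/j) = 3`, the
two roots of `t² - 486 t - 19683` over `j = 1728` with `e(t/j) = 2`; only `t = -27`, `0`, `∞` can
ramify in `Ω / Lc(t)`.)
-/

set_option autoImplicit false

namespace Fermat.Agent.S18.H107

variable {Ω : Type*} [Field Ω] [CharZero Ω]

theorem unramified_t3_107 (Lc : Subfield Ω) (j t : Ω)
    (hrel : j * t ^ 3 = (t + 27) * (t + 243) ^ 3)
    (hB : BranchJ107 Lc j) (O : ValuationSubring Ω) (hL : ∀ a ∈ Lc, a ∈ O) (c : Ω) (hc : c ∈ Lc)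
    (hc27 : c ≠ -27) (hc0 : c ≠ 0) (hz : t - c ∈ O) (hz' : (t - c)⁻¹ ∉ O) :
    ∀ s ∈ O, s⁻¹ ∉ O → s * (t - c)⁻¹ ∈ O := by
  rw [← OrdLe107.one_iff]
  have hzv : O.valuation (t - c) < 1 := val_lt_one107 O hz hz'
  have hz0 : t - c ≠ 0 := by
    intro h0
    rw [h0, inv_zero] at hz'
    exact hz' O.zero_mem
  have hcv : O.valuation c = 1 := val_const107 O Lc hL hc hc0
  have htv : O.valuation t = 1 := by
    have : t = c + (t - c) := by ring
    rw [this]
    exact val_add_eq_one107 O hcv hzv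
  have ht0 : t ≠ 0 := by
    intro h0
    rw [h0, map_zero] at htv
    exact zero_ne_one htv
  have htO : t ∈ O := (O.valuation_le_one_iff _).1 htv.le
  have hcO : c ∈ O := hL c hc
  have ht3v : O.valuation ((t ^ 3)⁻¹) = 1 := by
    rw [map_inv₀, map_pow, htv, one_pow, inv_one]
  by_cases h243 : c = -243
  · -- over `j = 0`
    subst h243
    have h216 : O.valuation (-216 : Ω) = 1 :=
      val_const107 O Lc hL (Lc.neg_mem (ofNat_mem Lc 216)) (by norm_num)
    have ht27 : O.valuation (t + 27) = 1 := by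
      have : t + 27 = -216 + (t - -243) := by ring
      rw [this]
      exact val_add_eq_one107 O h216 hzv
    have hUv : O.valuation ((t + 27) * (t ^ 3)⁻¹) = 1 := by
      rw [map_mul, ht27, ht3v, mul_one]
    have hU0 : (t + 27) * (t ^ 3)⁻¹ ≠ 0 := by
      intro h0
      rw [h0, map_zero] at hUv
      exact zero_ne_one hUv
    have hy : j = (t - -243) ^ 3 * ((t + 27) * (t ^ 3)⁻¹) := by
      field_simp
      linear_combination hrel
    have hj0 : j ≠ 0 := by
      rw [hy]
      exact mul_ne_zero (pow_ne_zero _ hz0) hU0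
    have hjv : O.valuation j < 1 := by
      rw [hy, map_mul, hUv, mul_one, map_pow]
      exact pow_lt_one₀ zero_le hzv (by norm_num)
    exact unram_of_factor107 O (k := 3) (by norm_num) hy hUv hz0
      (hB.zero O hL (mem_of_val_lt_one107 O hjv) (inv_not_mem_of_val_lt_one107 O hj0 hjv))
  by_cases hq : c ^ 2 - 486 * c - 19683 = 0
  · -- over `j = 1728`
    have h2c : 2 * c - 486 ≠ 0 := by
      intro h
      have h1 : (314928 : Ω) = 0 := by
        linear_combination (2 * c - 486) * h - 4 * hq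
      norm_num at h1
    have h2cL : 2 * c - 486 ∈ Lc :=
      Lc.sub_mem (Lc.mul_mem (ofNat_mem Lc 2) hc) (ofNat_mem Lc 486)
    have htc : O.valuation (t + c - 486) = 1 := by
      have : t + c - 486 = (2 * c - 486) + (t - c) := by ring
      rw [this]
      exact val_add_eq_one107 O (val_const107 O Lc hL h2cL h2c) hzv
    have hUv : O.valuation ((t + c - 486) ^ 2 * (t ^ 3)⁻¹) = 1 := by
      rw [map_mul, map_pow, htc, one_pow, ht3v, mul_one]
    have hU0 : (t + c - 486) ^ 2 * (t ^ 3)⁻¹ ≠ 0 := by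
      intro h0
      rw [h0, map_zero] at hUv
      exact zero_ne_one hUv
    have hy : j - 1728 = (t - c) ^ 2 * ((t + c - 486) ^ 2 * (t ^ 3)⁻¹) := by
      field_simp
      linear_combination hrel +
        (2 * (t - c) * (t + c - 486) + (c ^ 2 - 486 * c - 19683)) * hq
    have hy0 : j - 1728 ≠ 0 := by
      rw [hy]
      exact mul_ne_zero (pow_ne_zero _ hz0) hU0
    have hyv : O.valuation (j - 1728) < 1 := by
      rw [hy, map_mul, hUv, mul_one, map_pow]
      exact pow_lt_one₀ zero_le hzv (by norm_num)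
    exact unram_of_factor107 O (k := 2) (by norm_num) hy hUv hz0
      (hB.c1728 O hL (mem_of_val_lt_one107 O hyv) (inv_not_mem_of_val_lt_one107 O hy0 hyv))
  · -- generic point
    have hc27' : c + 27 ≠ 0 := fun h => hc27 (by linear_combination h)
    have hc243 : c + 243 ≠ 0 := fun h => h243 (by linear_combination h)
    set a : Ω := (c + 27) * (c + 243) ^ 3 * (c ^ 3)⁻¹ with ha
    have haL : a ∈ Lc :=
      Lc.mul_mem (Lc.mul_mem (Lc.add_mem hc (ofNat_mem Lc 27))
        (Lc.pow_mem (Lc.add_mem hc (ofNat_mem Lc 243)) 3)) (Lc.inv_mem (Lc.pow_mem hc 3))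
    have ha0 : a ≠ 0 :=
      mul_ne_zero (mul_ne_zero hc27' (pow_ne_zero _ hc243)) (inv_ne_zero (pow_ne_zero _ hc0))
    have ha1728 : a ≠ 1728 := by
      intro h
      have h1 : (c ^ 2 - 486 * c - 19683) ^ 2 = 0 := by
        have h2 : (c + 27) * (c + 243) ^ 3 = 1728 * c ^ 3 := by
          rw [ha] at h
          field_simp at h
          linear_combination h
        linear_combination h2
      exact hq (pow_eq_zero_iff (by norm_num) |>.1 h1)
    -- the cofactor
    set W : Ω := c ^ 3 * t ^ 3 - (196830 * c ^ 2 + 19131876 * c + 387420489) * t ^ 2 -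
      (19131876 * c ^ 2 + 387420489 * c) * t - 387420489 * c ^ 2 with hW
    set W₀ : Ω := c ^ 2 * (c + 243) ^ 2 * (c ^ 2 - 486 * c - 19683) with hW₀
    set W₁ : Ω := c ^ 3 * (t ^ 2 + t * c + c ^ 2) -
      (196830 * c ^ 2 + 19131876 * c + 387420489) * (t + c) -
      (19131876 * c ^ 2 + 387420489 * c) with hW₁
    have hW₀L : W₀ ∈ Lc :=
      Lc.mul_mem (Lc.mul_mem (Lc.pow_mem hc 2) (Lc.pow_mem (Lc.add_mem hc (ofNat_mem Lc 243)) 2))
        (Lc.sub_mem (Lc.sub_mem (Lc.pow_mem hc 2) (Lc.mul_mem (ofNat_mem Lc 486) hc))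
          (ofNat_mem Lc 19683))
    have hW₀0 : W₀ ≠ 0 := mul_ne_zero (mul_ne_zero (pow_ne_zero _ hc0) (pow_ne_zero _ hc243)) hq
    have hW₁O : W₁ ∈ O :=
      sub_mem (sub_mem
        (mul_mem (pow_mem hcO 3) (add_mem (add_mem (pow_mem htO 2) (mul_mem htO hcO))
          (pow_mem hcO 2)))
        (mul_mem (add_mem (add_mem (mul_mem (ofNat_mem O 196830) (pow_mem hcO 2))
          (mul_mem (ofNat_mem O 19131876) hcO)) (ofNat_mem O 387420489)) (add_mem htO hcO)))
        (add_mem (mul_mem (ofNat_mem O 19131876) (pow_mem hcO 2))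
          (mul_mem (ofNat_mem O 387420489) hcO))
    have hWv : O.valuation W = 1 := by
      have e : W = W₀ + (t - c) * W₁ := by
        rw [hW, hW₀, hW₁]
        ring
      rw [e]
      refine val_add_eq_one107 O (val_const107 O Lc hL hW₀L hW₀0) ?_
      rw [map_mul]
      calc O.valuation (t - c) * O.valuation W₁ ≤ O.valuation (t - c) * 1 := by
            gcongr
            exact (O.valuation_le_one_iff _).2 hW₁O
        _ = O.valuation (t - c) := mul_one _
        _ < 1 := hzv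
    have hUv : O.valuation (W * (t ^ 3 * c ^ 3)⁻¹) = 1 := by
      rw [map_mul, hWv, one_mul, map_inv₀, map_mul, map_pow, map_pow, htv, hcv, one_pow,
        mul_one, inv_one]
    have hy : j - a = (t - c) ^ 1 * (W * (t ^ 3 * c ^ 3)⁻¹) := by
      rw [ha, hW]
      field_simp
      linear_combination (c ^ 3) * hrel
    have hU0 : W * (t ^ 3 * c ^ 3)⁻¹ ≠ 0 := by
      intro h0
      rw [h0, map_zero] at hUv
      exact zero_ne_one hUv
    have hy0 : j - a ≠ 0 := by
      rw [hy]
      exact mul_ne_zero (pow_ne_zero _ hz0) hU0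
    have hyv : O.valuation (j - a) < 1 := by
      rw [hy, map_mul, hUv, mul_one, pow_one]
      exact hzv
    exact unram_of_factor107 O (k := 1) (by norm_num) hy hUv hz0
      (hB.generic O hL a haL ha0 ha1728 (mem_of_val_lt_one107 O hyv)
        (inv_not_mem_of_val_lt_one107 O hy0 hyv))

end Fermat.Agent.S18.H107

end
-- ===== PACK-END S18/H107/T3Branch.lean

-- ===== PACK-BEGIN S18/H264/SepGraph.lean
section


/-!
# S18 / G-SEP (helper264): the field `separable` of `Alg.GoodModel` from a reduction *relation*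

Mathlib-only, abstract.  Instead of a reduction homomorphism on the valuation ring `V` we use a
subring `T ≤ Ω × L` ("`(g, ḡ) ∈ T` iff `ḡ` is a reduction of `g`"); no well-definedness is
needed.  `L` is a field of characteristic `ℓ` with a `ℤ`-valued valuation (`L = k((q))`).

* `evalZZ x y` : evaluation `ℤ[X][Y] → B`, `X ↦ x`, `Y ↦ y`;
* `evalZZ_mem_graph` : `(P(x, f), P(x̄, f̄)) ∈ T`;
* `exists_poly_of_graph` : from `P ∈ ℤ[X][Y]` with `P(x̄, f̄) = 0`, `(∂P/∂Y)(x̄, f̄) ≠ 0`
  to the conclusion of the field `separable` (with coefficients even in `ℤ[x]`);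
* `exists_poly_of_graph_sep` : the same from `f̄` algebraic over `𝔽_ℓ(x̄)` and `ℓ ∤ v(x̄)`.
-/

set_option autoImplicit false

namespace Fermat.Agent.S18.H264

open Polynomial

section EvalZZ

/-- Evaluation of an integral bivariate polynomial: `X ↦ x` (inner variable), `Y ↦ y`. -/
noncomputable def evalZZ {B : Type*} [CommRing B] (x y : B) : Polynomial (Polynomial ℤ) →+* B :=
  Polynomial.eval₂RingHom (Polynomial.eval₂RingHom (Int.castRingHom B) x) y

theorem evalZZ_apply {B : Type*} [CommRing B] (x y : B) (P : Polynomial (Polynomial ℤ)) :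
    evalZZ x y P = P.eval₂ (Polynomial.eval₂RingHom (Int.castRingHom B) x) y := rfl

theorem map_evalZZ {B C : Type*} [CommRing B] [CommRing C] (φ : B →+* C) (x y : B)
    (P : Polynomial (Polynomial ℤ)) : φ (evalZZ x y P) = evalZZ (φ x) (φ y) P := by
  have h : φ.comp (Polynomial.eval₂RingHom (Int.castRingHom B) x) =
      Polynomial.eval₂RingHom (Int.castRingHom C) (φ x) := by
    refine Polynomial.ringHom_ext (fun n => ?_) ?_
    · simp
    · simp
  rw [evalZZ_apply, evalZZ_apply, Polynomial.hom_eval₂, h]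

end EvalZZ

section Graph

variable {Ω L : Type*} [Field Ω] [Field L]

/-- Polynomial expressions respect the reduction relation. -/
theorem evalZZ_mem_graph (T : Subring (Ω × L)) {x f : Ω} {xb fb : L} (hx : (x, xb) ∈ T)
    (hf : (f, fb) ∈ T) (P : Polynomial (Polynomial ℤ)) :
    (evalZZ x f P, evalZZ xb fb P) ∈ T := by
  have h1 := map_evalZZ ((RingHom.fst Ω L).comp T.subtype) ⟨(x, xb), hx⟩ ⟨(f, fb), hf⟩ P
  have h2 := map_evalZZ ((RingHom.snd Ω L).comp T.subtype) ⟨(x, xb), hx⟩ ⟨(f, fb), hf⟩ P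
  have h3 : ((evalZZ (⟨(x, xb), hx⟩ : T) ⟨(f, fb), hf⟩ P : T) : Ω × L) =
      (evalZZ x f P, evalZZ xb fb P) := Prod.ext h1 h2
  rw [← h3]
  exact Subtype.property _

/-- The value at `x` of an integral polynomial lies in every subring containing `x`. -/
theorem eval₂_intCast_mem (S : Subring Ω) {x : Ω} (hx : x ∈ S) (g : Polynomial ℤ) :
    Polynomial.eval₂ (Int.castRingHom Ω) x g ∈ S := by
  rw [eval₂_eq_sum_range]
  refine sum_mem fun i _ => ?_
  exact mul_mem (by simp) (pow_mem hx _)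

/-- **The field `separable` from a reduction relation and an integral polynomial.** -/
theorem exists_poly_of_graph (T : Subring (Ω × L)) (V R : Subring Ω) (w x f : Ω) (xb fb : L)
    (hx : (x, xb) ∈ T) (hf : (f, fb) ∈ T)
    (hker : ∀ g : Ω, (g, (0 : L)) ∈ T → g * w⁻¹ ∈ V)
    (hunit : ∀ (g : Ω) (b : L), (g, b) ∈ T → b ≠ 0 → g ≠ 0 ∧ g⁻¹ ∈ V)
    (P : Polynomial (Polynomial ℤ)) (h0 : evalZZ xb fb P = 0)
    (h1 : evalZZ xb fb (derivative P) ≠ 0) :
    ∃ PΩ : Polynomial Ω, (∀ i, PΩ.coeff i ∈ Subring.closure ((R : Set Ω) ∪ {x})) ∧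
      PΩ.eval f * w⁻¹ ∈ V ∧ (derivative PΩ).eval f ≠ 0 ∧ ((derivative PΩ).eval f)⁻¹ ∈ V := by
  refine ⟨P.map (Polynomial.eval₂RingHom (Int.castRingHom Ω) x), ?_, ?_, ?_⟩
  · intro i
    rw [coeff_map, coe_eval₂RingHom]
    exact eval₂_intCast_mem _
      (Subring.subset_closure (Set.mem_union_right _ (Set.mem_singleton x))) _
  · rw [eval_map, ← evalZZ_apply]
    apply hker
    have h := evalZZ_mem_graph T hx hf P
    rwa [h0] at h
  · rw [derivative_map, eval_map, ← evalZZ_apply]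
    exact hunit _ _ (evalZZ_mem_graph T hx hf (derivative P)) h1

end Graph

section Sep

variable {Ω L : Type*} [Field Ω] [Field L] (ℓ : ℕ) [hℓ : Fact ℓ.Prime] [Algebra (ZMod ℓ) L]

/-- Lifting a bivariate polynomial over `𝔽_ℓ` to `ℤ`. -/
theorem exists_int_lift (xb fb : L) (Pbar : Polynomial (Polynomial (ZMod ℓ))) :
    ∃ P : Polynomial (Polynomial ℤ),
      evalZZ xb fb P =
        Pbar.eval₂ (aeval xb : Polynomial (ZMod ℓ) →ₐ[ZMod ℓ] L).toRingHom fb ∧
      evalZZ xb fb (derivative P) =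
        (derivative Pbar).eval₂ (aeval xb : Polynomial (ZMod ℓ) →ₐ[ZMod ℓ] L).toRingHom fb := by
  obtain ⟨P, hP⟩ := Polynomial.map_surjective
    (Polynomial.mapRingHom (Int.castRingHom (ZMod ℓ)))
    (Polynomial.map_surjective _ (ZMod.intCast_surjective)) Pbar
  have hcomp : ((aeval xb : Polynomial (ZMod ℓ) →ₐ[ZMod ℓ] L).toRingHom).comp
      (Polynomial.mapRingHom (Int.castRingHom (ZMod ℓ))) =
      Polynomial.eval₂RingHom (Int.castRingHom L) xb := by
    refine Polynomial.ringHom_ext (fun n => ?_) ?_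
    · simp
    · simp
  refine ⟨P, ?_, ?_⟩
  · rw [← hP, Polynomial.eval₂_map, hcomp, evalZZ_apply]
  · rw [← hP, derivative_map, Polynomial.eval₂_map, hcomp, evalZZ_apply]

/-- **The field `separable` from a reduction relation**, for `L` of characteristic `ℓ` with a
`ℤ`-valued valuation `v`, `ℓ ∤ v x̄`, `f̄` algebraic over `𝔽_ℓ(x̄)`. -/
theorem exists_poly_of_graph_sep (v : AddValuation L (WithTop ℤ))
    (T : Subring (Ω × L)) (V R : Subring Ω) (w x f : Ω) (xb fb : L)
    (hx : (x, xb) ∈ T) (hf : (f, fb) ∈ T)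
    (hker : ∀ g : Ω, (g, (0 : L)) ∈ T → g * w⁻¹ ∈ V)
    (hunit : ∀ (g : Ω) (b : L), (g, b) ∈ T → b ≠ 0 → g ≠ 0 ∧ g⁻¹ ∈ V)
    (n : ℤ) (hv : v xb = (n : WithTop ℤ)) (hn : ¬ (ℓ : ℤ) ∣ n)
    (halg : IsAlgebraic (IntermediateField.adjoin (ZMod ℓ) {xb}) fb) :
    ∃ PΩ : Polynomial Ω, (∀ i, PΩ.coeff i ∈ Subring.closure ((R : Set Ω) ∪ {x})) ∧
      PΩ.eval f * w⁻¹ ∈ V ∧ (derivative PΩ).eval f ≠ 0 ∧ ((derivative PΩ).eval f)⁻¹ ∈ V := by
  have hsep := isSeparable_of_isAlgebraic_of_addVal (κ := ZMod ℓ) ℓ v xb n hv hn fb halg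
  obtain ⟨Pbar, hb0, hb1⟩ := exists_bivariate_simple_root xb fb hsep
  obtain ⟨P, hP0, hP1⟩ := exists_int_lift ℓ xb fb Pbar
  exact exists_poly_of_graph T V R w x f xb fb hx hf hker hunit P (by rw [hP0, hb0])
    (by rw [hP1]; exact hb1)

end Sep

end Fermat.Agent.S18.H264

end
-- ===== PACK-END S18/H264/SepGraph.lean

-- ===== PACK-BEGIN S18/H438/Front/Gauss.lean
section



/-!
# S18 / ALG-FRONT (helper438), part 2: the chart and the Gauss valuation ring

Setting: `F` a field, `R : Subring F`, `z : F`, `B := chartRing R z` (integral closure of `R[z]`),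
`V : ValuationSubring F` ("Gauss valuation ring") and `w ∈ R` with

* `hRV : ∀ r ∈ R, r ∈ V`, `hzV : z ∈ V`,
* `hwV : w⁻¹ ∉ V`, `hVgen : ∀ f ∈ V, f⁻¹ ∉ V → f * w⁻¹ ∈ V`   (`𝔪_V = w V`),
* `qep : ∀ b ∈ B, b * w⁻¹ ∈ V → b * w⁻¹ ∈ B`                  (`q`-expansion principle).

Results:

* `chartRing_le_valuationSubring` : `B ⊆ V`;
* `prime_chartUnif`               : `ϖ := w` is a prime element of `B`;
* `exists_fraction_of_mem_valuationSubring` : `V = B_(ϖ)`: every `v ∈ V` is `b / t`, `t ∉ ϖ B`;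
* `oneModPi_of_sub_one_mem`       : `(u - 1) / w ∈ V` ⟹ `H754.OneModPi ϖ u`.
-/

set_option autoImplicit false
set_option linter.style.haveILetI false
set_option linter.unusedSectionVars false

noncomputable section

namespace Fermat.Agent.S18.H438

open Polynomial

variable {F : Type*} [Field F] (R : Subring F) (z : F) (V : ValuationSubring F)

/-- `R[z] ⊆ V` as soon as `R ⊆ V` and `z ∈ V`. -/
theorem baseRing_le_valuationSubring (hRV : ∀ r ∈ R, r ∈ V) (hzV : z ∈ V) {f : F}
    (hf : f ∈ baseRing R z) : f ∈ V := by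
  obtain ⟨P, rfl⟩ := exists_aeval_eq_of_mem_baseRing R z hf
  rw [Polynomial.aeval_eq_sum_range]
  refine V.toSubring.sum_mem fun i _ => ?_
  rw [Algebra.smul_def]
  exact mul_mem (hRV _ (P.coeff i).2) (pow_mem hzV i)

/-- An element integral over a subring contained in `V` lies in `V`. -/
theorem mem_valuationSubring_of_isIntegral {A : Type*} [CommRing A] [Algebra A F]
    (hA : ∀ a : A, algebraMap A F a ∈ V) {f : F} (hf : IsIntegral A f) : f ∈ V := by
  -- transport integrality to `V`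
  let i : A →+* V := (algebraMap A F).codRestrict V.toSubring hA
  have hi : (algebraMap V F).comp i = algebraMap A F := by
    ext a; rfl
  have hint : IsIntegral V f := by
    obtain ⟨p, hp, hpf⟩ := hf
    refine ⟨p.map i, hp.map i, ?_⟩
    rw [Polynomial.eval₂_map, hi]
    exact hpf
  obtain ⟨y, hy⟩ := (IsIntegrallyClosed.isIntegral_iff (R := V) (K := F)).1 hint
  rw [← hy]
  exact y.2

/-- The chart is contained in the Gauss valuation ring. -/
theorem chartRing_le_valuationSubring (hRV : ∀ r ∈ R, r ∈ V) (hzV : z ∈ V) {f : F}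
    (hf : f ∈ chartRing R z) : f ∈ V :=
  mem_valuationSubring_of_isIntegral V
    (fun a => baseRing_le_valuationSubring R z V hRV hzV a.2) hf

variable {R z V}

/-- the uniformiser as an element of the chart -/
def chartUnif {w : F} (hwR : w ∈ R) : chartRing R z :=
  algebraMap (baseRing R z) (chartRing R z) ⟨w, coe_mem_baseRing R z ⟨w, hwR⟩⟩

@[simp] theorem coe_chartUnif {w : F} (hwR : w ∈ R) :
    ((chartUnif (z := z) hwR : chartRing R z) : F) = w := rfl

theorem algebraMap_chartUnif {w : F} (hwR : w ∈ R) :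
    algebraMap (chartRing R z) F (chartUnif (z := z) hwR) = w := rfl

/-- divisibility by `ϖ` in the chart, elementwise -/
theorem chartUnif_dvd_iff {w : F} (hwR : w ∈ R) (hw0 : w ≠ 0) (b : chartRing R z) :
    chartUnif (z := z) hwR ∣ b ↔ (b : F) * w⁻¹ ∈ chartRing R z := by
  constructor
  · rintro ⟨c, rfl⟩
    have : ((chartUnif (z := z) hwR * c : chartRing R z) : F) * w⁻¹ = (c : F) := by
      rw [MulMemClass.coe_mul, coe_chartUnif]
      field_simp
    rw [this]
    exact c.2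
  · intro h
    refine ⟨⟨(b : F) * w⁻¹, h⟩, Subtype.ext ?_⟩
    rw [MulMemClass.coe_mul, coe_chartUnif]
    field_simp

section Prime

variable {w : F} (hwR : w ∈ R) (hw0 : w ≠ 0) (hRV : ∀ r ∈ R, r ∈ V) (hzV : z ∈ V)
  (hwV : w⁻¹ ∉ V) (hVgen : ∀ f ∈ V, f⁻¹ ∉ V → f * w⁻¹ ∈ V)
  (qep : ∀ b ∈ chartRing R z, b * w⁻¹ ∈ V → b * w⁻¹ ∈ chartRing R z)

include hw0 hRV hzV hwV hVgen qep

/-- In `V`, an element which is not a unit is divisible by `w`; in particular for `a b ∈ V` with
`a * b ∈ w V` one of them is in `w V`. -/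
theorem mem_smul_of_mul_mem {a b : F} (ha : a ∈ V) (hb : b ∈ V) (hab : a * b * w⁻¹ ∈ V) :
    a * w⁻¹ ∈ V ∨ b * w⁻¹ ∈ V := by
  by_cases ha0 : a = 0
  · left; rw [ha0, zero_mul]; exact V.zero_mem
  by_cases hb0 : b = 0
  · right; rw [hb0, zero_mul]; exact V.zero_mem
  by_cases hau : a⁻¹ ∈ V
  · -- `a` is a unit of `V`
    right
    have : b * w⁻¹ = a⁻¹ * (a * b * w⁻¹) := by field_simp
    rw [this]
    exact mul_mem hau hab
  · left
    exact hVgen a ha hau

/-- **`ϖ` is a prime element of the chart.** -/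
theorem prime_chartUnif : Prime (chartUnif (z := z) hwR) := by
  refine ⟨?_, ?_, ?_⟩
  · intro h
    exact hw0 (congrArg Subtype.val h)
  · rintro ⟨⟨u, v, huv, hvu⟩, hu⟩
    have hv : (v : F) = w⁻¹ := by
      have h1 : (u : F) * (v : F) = 1 := congrArg Subtype.val huv
      have h2 : (u : F) = w := by
        have h3 : u = chartUnif (z := z) hwR := hu
        rw [h3]; rfl
      rw [h2] at h1
      exact eq_inv_of_mul_eq_one_right h1
    exact hwV (hv ▸ chartRing_le_valuationSubring R z V hRV hzV v.2)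
  · intro a b hab
    rw [chartUnif_dvd_iff hwR hw0] at hab
    have haV := chartRing_le_valuationSubring R z V hRV hzV a.2
    have hbV := chartRing_le_valuationSubring R z V hRV hzV b.2
    have habV : (a : F) * (b : F) * w⁻¹ ∈ V := by
      have := chartRing_le_valuationSubring R z V hRV hzV hab
      simpa using this
    rcases mem_smul_of_mul_mem hw0 hRV hzV hwV hVgen qep haV hbV habV with h | h
    · left
      rw [chartUnif_dvd_iff hwR hw0]
      exact qep _ a.2 h
    · right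
      rw [chartUnif_dvd_iff hwR hw0]
      exact qep _ b.2 h

end Prime

section Fraction

variable {w : F} (hwR : w ∈ R) (hw0 : w ≠ 0) (hRV : ∀ r ∈ R, r ∈ V) (hzV : z ∈ V)
  (hwV : w⁻¹ ∉ V) (hVgen : ∀ f ∈ V, f⁻¹ ∉ V → f * w⁻¹ ∈ V)
  (qep : ∀ b ∈ chartRing R z, b * w⁻¹ ∈ V → b * w⁻¹ ∈ chartRing R z)
  [IsFractionRing (chartRing R z) F] [IsNoetherianRing (chartRing R z)]

include hw0 hRV hzV hwV hVgen qep

/-- **`V = B_(ϖ)`.**  Every element of the Gauss valuation ring is a fraction `b / t` of elements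
of the chart with `ϖ ∤ t`. -/
theorem exists_fraction_of_mem_valuationSubring {v : F} (hv : v ∈ V) :
    ∃ b t : chartRing R z, ¬ chartUnif (z := z) hwR ∣ t ∧ v * (t : F) = (b : F) := by
  have hprime := prime_chartUnif hwR hw0 hRV hzV hwV hVgen qep
  obtain ⟨b₀, t₀, ht₀, hbt⟩ := IsFractionRing.div_surjective (A := chartRing R z) v
  have ht₀0 : t₀ ≠ 0 := nonZeroDivisors.ne_zero ht₀
  obtain ⟨n, t, hnt, rfl⟩ := WfDvdMonoid.max_power_factor ht₀0 hprime.irreducible
  -- `v * (ϖ ^ n * t) = b₀`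
  have hv0 : v * ((chartUnif (z := z) hwR ^ n * t : chartRing R z) : F) = (b₀ : F) := by
    have hne : algebraMap (chartRing R z) F (chartUnif (z := z) hwR ^ n * t) ≠ 0 := by
      intro h
      exact ht₀0 ((FaithfulSMul.algebraMap_injective (chartRing R z) F) (by rw [h, map_zero]))
    rw [← hbt]
    exact div_mul_cancel₀ _ hne
  -- strip the powers of `ϖ`
  have key : ∀ (n : ℕ) (b : chartRing R z),
      v * ((chartUnif (z := z) hwR ^ n * t : chartRing R z) : F) = (b : F) →
      ∃ b' : chartRing R z, v * (t : F) = (b' : F) := by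
    intro n
    induction n with
    | zero => intro b hb; exact ⟨b, by simpa using hb⟩
    | succ n ih =>
      intro b hb
      -- `b / w = v * ϖ ^ n * t ∈ V`
      have hbw : (b : F) * w⁻¹ = v * ((chartUnif (z := z) hwR ^ n * t : chartRing R z) : F) := by
        rw [← hb]
        simp only [MulMemClass.coe_mul, SubmonoidClass.coe_pow, coe_chartUnif, pow_succ]
        field_simp
      have hmemV : (b : F) * w⁻¹ ∈ V := by
        rw [hbw]
        exact mul_mem hv (chartRing_le_valuationSubring R z V hRV hzV (Subtype.mem _))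
      have hmemB := qep _ b.2 hmemV
      exact ih ⟨(b : F) * w⁻¹, hmemB⟩ hbw.symm
  obtain ⟨b', hb'⟩ := key n b₀ hv0
  exact ⟨b', t, hnt, hb'⟩

/-- **`OneModPi`**: if `(u - 1) / w ∈ V` then `u = a / s` with `a ≡ s mod ϖ`, `ϖ ∤ s`
(the hypothesis shape of the Kummer pieces `H754`). -/
theorem oneModPi_of_sub_one_mem {u : F} (hu : (u - 1) * w⁻¹ ∈ V) :
    H754.OneModPi (chartUnif (z := z) hwR) u := by
  obtain ⟨b, t, ht, hbt⟩ :=
    exists_fraction_of_mem_valuationSubring hwR hw0 hRV hzV hwV hVgen qep hu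
  refine ⟨t + chartUnif (z := z) hwR * b, t, ?_, ?_, ?_⟩
  · rw [Ideal.mem_span_singleton]; exact ht
  · rw [Ideal.mem_span_singleton]
    exact ⟨b, by ring⟩
  · show u * (t : F) = ((t + chartUnif (z := z) hwR * b : chartRing R z) : F)
    simp only [AddMemClass.coe_add, MulMemClass.coe_mul, coe_chartUnif, ← hbt]
    field_simp
    ring

end Fraction

end Fermat.Agent.S18.H438

end
end
-- ===== PACK-END S18/H438/Front/Gauss.lean

-- ===== PACK-BEGIN S18/H438/Front/Transport.lean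
section




/-!
# S18 / ALG-FRONT (helper438), part 4: from `Alg.GoodModel` (sub-objects of `Ω`) to the field `Fc`

For `G : Alg.GoodModel Lc Ec Fc R V w x S` we define, inside the field `↥Fc`:

* `Rf Fc R : Subring Fc`             (the DVR `R`),
* `Vf G : ValuationSubring Fc`       (the Gauss valuation ring),
* `xf G, wf G : Fc`                  (coordinate, uniformiser),

and prove the hypotheses of `Front/Chart.lean` and `Front/Gauss.lean` for both charts
(`z = xf G` and `z = (xf G)⁻¹`).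
-/

set_option autoImplicit false
set_option linter.style.haveILetI false
set_option linter.unusedSectionVars false

noncomputable section

namespace Fermat.Agent.S18.H438

open Alg Polynomial

variable {Ω : Type*} [Field Ω] {Lc Ec Fc : Subfield Ω} {R V : Subring Ω} {w x : Ω}
  {S : Finset Ω}

/-- `R` as a subring of the field `Fc`. -/
def Rf (Fc : Subfield Ω) (R : Subring Ω) : Subring Fc := R.comap Fc.subtype

theorem mem_Rf {f : Fc} : f ∈ Rf Fc R ↔ (f : Ω) ∈ R := Iff.rfl

namespace GoodModelFront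

variable (G : GoodModel Lc Ec Fc R V w x S)

include G in
theorem R_le_Fc {r : Ω} (hr : r ∈ R) : r ∈ Fc := G.E_le_F (G.R_le hr)

include G in
theorem w_mem_Fc : w ∈ Fc := R_le_Fc G G.w_mem

/-- the coordinate as an element of `Fc` -/
def xf : Fc := ⟨x, G.x_mem⟩

/-- the uniformiser as an element of `Fc` -/
def wf : Fc := ⟨w, w_mem_Fc G⟩

@[simp] theorem coe_xf : ((xf G : Fc) : Ω) = x := rfl
@[simp] theorem coe_wf : ((wf G : Fc) : Ω) = w := rfl

/-- the Gauss valuation ring as a valuation subring of `Fc` -/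
def Vf : ValuationSubring Fc :=
  { V.comap Fc.subtype with
    mem_or_inv_mem' := fun f => by
      rcases G.V_total f f.2 with h | h
      · exact Or.inl h
      · exact Or.inr h }

theorem mem_Vf {f : Fc} : f ∈ Vf G ↔ (f : Ω) ∈ V := Iff.rfl

include G

theorem wf_mem_Rf : wf G ∈ Rf Fc R := G.w_mem

theorem wf_ne_zero : wf G ≠ 0 := fun h => G.w_ne_zero (congrArg Subtype.val h)

theorem wf_inv_not_mem_Rf : (wf G)⁻¹ ∉ Rf Fc R := fun h => G.w_inv_not_mem h

theorem wf_inv_not_mem_Vf : (wf G)⁻¹ ∉ Vf G := fun h => G.w_inv_not_mem_V h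

theorem Rf_le_Vf : ∀ r ∈ Rf Fc R, r ∈ Vf G := fun _ hr => G.R_le_V hr

theorem Vf_gen : ∀ f ∈ Vf G, f⁻¹ ∉ Vf G → f * (wf G)⁻¹ ∈ Vf G :=
  fun f hf hinv => G.V_gen f hf hinv

theorem Rf_disc : ∀ r ∈ Rf Fc R, r ≠ 0 →
    ∃ n : ℕ, r * ((wf G)⁻¹) ^ n ∈ Rf Fc R ∧ (r * ((wf G)⁻¹) ^ n)⁻¹ ∈ Rf Fc R := by
  intro r hr hr0
  have hr0' : (r : Ω) ≠ 0 := fun h => hr0 (Subtype.ext h)
  obtain ⟨n, h1, h2⟩ := G.w_discrete r hr hr0'
  exact ⟨n, h1, h2⟩

/-- **`R` is a discrete valuation ring.** -/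
theorem isDiscreteValuationRing_Rf : IsDiscreteValuationRing (Rf Fc R) :=
  isDiscreteValuationRing_of_disc (Rf Fc R) (wf_mem_Rf G) (wf_ne_zero G)
    (wf_inv_not_mem_Rf G) (Rf_disc G)

theorem irreducible_wf : Irreducible (⟨wf G, wf_mem_Rf G⟩ : Rf Fc R) :=
  irreducible_unif_of_disc (Rf Fc R) (wf_mem_Rf G) (wf_ne_zero G)
    (wf_inv_not_mem_Rf G) (Rf_disc G)

theorem charZero_Fc : CharZero Fc :=
  haveI := G.charZero
  RingHom.charZero Fc.subtype

/-- `x ∈ V` (field `x_mem_V` of the v4 interface). -/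
theorem xf_mem_Vf : xf G ∈ Vf G := G.x_mem_V

/-- `x⁻¹ ∈ V` (Gauss). -/
theorem xf_inv_mem_Vf : (xf G)⁻¹ ∈ Vf G := by
  have h := G.gauss (Polynomial.X : Polynomial Ω)
    (fun i => by
      rw [Polynomial.coeff_X]
      split_ifs
      · exact R.one_mem
      · exact R.zero_mem)
    ⟨1, by simp, by simp [R.one_mem]⟩
  rw [Polynomial.eval_X] at h
  exact h

end GoodModelFront

end Fermat.Agent.S18.H438

end
end
-- ===== PACK-END S18/H438/Front/Transport.lean

-- ===== PACK-BEGIN S18/H425/Hsep.lean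
section




/-!
# S18 / b2.5 HSEP (helper425): the hypothesis `hsep` of `B2RegularStatement` / `B2Statement`
from elementwise separability of the special fibre

EXACT STATEMENTS (Mathlib-only):

* `hsep_gen` : `Λ` noetherian integrally closed domain, `w ∈ Λ` prime, `B` integrally closed
  domain, finite and torsion-free over `Λ`, `w` prime in `B`, and
  `∀ b : B, ∃ P : Λ[X], w ∣ P(b) ∧ ¬ w ∣ P'(b)`.  Then
  `∃ x : Fin (finrank Λ B) → B, ¬ w ∣ det (intTrace Λ B (x i * x j))`.
* `hsep_poly` : the case `Λ = R[X]`, `w = C w₀`, `R` a DVR — the hypothesis `hsep` of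
  `Fermat.Agent.S18.B12.B2RegularStatement` (origin/helper33 Spec3.lean), verbatim.
-/

set_option autoImplicit false

noncomputable section

namespace Fermat.Agent.S18.H425

open Polynomial IsLocalRing

universe u v

/-- Compatibility of `aeval` with a commutative square of ring homomorphisms. -/
theorem aeval_map_of_comp_eq {Λ B K F : Type*} [CommRing Λ] [CommRing B] [Algebra Λ B]
    [CommRing K] [CommRing F] [Algebra K F] (g : Λ →+* K) (φ : B →+* F)
    (h : (algebraMap K F).comp g = φ.comp (algebraMap Λ B)) (Q : Λ[X]) (c : B) :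
    aeval (φ c) (Q.map g) = φ (aeval c Q) := by
  rw [aeval_def, eval₂_map, h, aeval_def, hom_eval₂]

theorem hsep_gen (Λ : Type u) [CommRing Λ] [IsDomain Λ] [IsIntegrallyClosed Λ]
    [IsNoetherianRing Λ] (w : Λ) (hw : Prime w)
    (B : Type v) [CommRing B] [IsDomain B] [IsIntegrallyClosed B] [Algebra Λ B]
    [Module.Finite Λ B] [Module.IsTorsionFree Λ B]
    (hwB : Prime (algebraMap Λ B w))
    (hel : ∀ b : B, ∃ P : Λ[X], algebraMap Λ B w ∣ aeval b P ∧
          ¬ algebraMap Λ B w ∣ aeval b (derivative P)) :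
    ∃ x : Fin (Module.finrank Λ B) → B,
        ¬ w ∣ (Matrix.of fun i j => Algebra.intTrace Λ B (x i * x j)).det := by
  classical
  -- the prime `𝔭 = (w)` of `Λ` and the prime `P = (w)` of `B`
  let 𝔭 : Ideal Λ := Ideal.span {w}
  have h𝔭 : 𝔭.IsPrime := (Ideal.span_singleton_prime hw.ne_zero).mpr hw
  let P : Ideal B := Ideal.span {algebraMap Λ B w}
  have hP : P.IsPrime := (Ideal.span_singleton_prime hwB.ne_zero).mpr hwB
  have hPover : P.LiesOver 𝔭 := by
    constructor
    ext s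
    rw [Ideal.under_def, Ideal.mem_comap, Ideal.mem_span_singleton, Ideal.mem_span_singleton]
    exact ⟨fun h => map_dvd (algebraMap Λ B) h, fun h => dvd_of_algebraMap_dvd hw.ne_zero h⟩
  have hP𝔭 : 𝔭.map (algebraMap Λ B) = P := by
    rw [Ideal.map_span, Set.image_singleton]
  -- localisations
  let Λₚ := Localization.AtPrime 𝔭
  let Bₚ := Localization (Algebra.algebraMapSubmonoid B 𝔭.primeCompl)
  let _ : Algebra Λₚ Bₚ := localizationAlgebra 𝔭.primeCompl B
  have : IsScalarTower Λ Λₚ Bₚ := IsScalarTower.of_algebraMap_eq'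
    (by rw [RingHom.algebraMap_toAlgebra, IsLocalization.map_comp, ← IsScalarTower.algebraMap_eq])
  have : IsLocalization (Submonoid.map (algebraMap Λ B) (Ideal.primeCompl 𝔭)) Bₚ :=
    inferInstanceAs (IsLocalization (Algebra.algebraMapSubmonoid B 𝔭.primeCompl) Bₚ)
  have e : Algebra.algebraMapSubmonoid B 𝔭.primeCompl ≤ nonZeroDivisors B :=
    Submonoid.map_le_of_le_comap _ <| 𝔭.primeCompl_le_nonZeroDivisors.trans
      (nonZeroDivisors_le_comap_nonZeroDivisors_of_injective _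
        (FaithfulSMul.algebraMap_injective _ _))
  have : IsDomain Bₚ := IsLocalization.isDomain_of_le_nonZeroDivisors _ e
  have hinjB : Function.Injective (algebraMap Λ B) := FaithfulSMul.algebraMap_injective Λ B
  have hinjp : Function.Injective (algebraMap Λₚ Bₚ) :=
    localizationAlgebra_injective (Rₘ := Λₚ) (Sₘ := Bₚ) hinjB
  have : Module.IsTorsionFree Λₚ Bₚ := Module.isTorsionFree_iff_algebraMap_injective.mpr hinjp
  have : Module.Finite Λₚ Bₚ := .of_isLocalization Λ B 𝔭.primeCompl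
  have : IsIntegrallyClosed Bₚ := isIntegrallyClosed_of_isLocalization _ _ e
  have : IsNoetherianRing Λₚ := IsLocalization.isNoetherianRing 𝔭.primeCompl Λₚ inferInstance
  have hmaxeq : maximalIdeal Λₚ = Ideal.span {algebraMap Λ Λₚ w} := by
    rw [← IsLocalization.AtPrime.map_eq_maximalIdeal 𝔭 Λₚ, Ideal.map_span, Set.image_singleton]
  have : IsPrincipalIdealRing Λₚ := by
    refine ((tfae_of_isNoetherianRing_of_isLocalRing_of_isDomain Λₚ).out 4 0).mp ?_
    rw [hmaxeq]
    exact ⟨⟨_, rfl⟩⟩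
  have : Module.Free Λₚ Bₚ := Module.free_of_finite_type_torsion_free'
  -- the ideal `𝔪 Bₚ`
  have hmapeq : Ideal.map (algebraMap Λₚ Bₚ) (maximalIdeal Λₚ) = P.map (algebraMap B Bₚ) := by
    rw [← IsLocalization.AtPrime.map_eq_maximalIdeal 𝔭 Λₚ, Ideal.map_map,
      ← IsScalarTower.algebraMap_eq, IsScalarTower.algebraMap_eq Λ B Bₚ, ← Ideal.map_map, hP𝔭]
  have hprime : (Ideal.map (algebraMap Λₚ Bₚ) (maximalIdeal Λₚ)).IsPrime := by
    rw [hmapeq]
    exact IsLocalization.AtPrime.isPrime_map_of_liesOver B 𝔭 Bₚ P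
  -- the residue field `K̄ = Λₚ/𝔪` and the residue algebra `F̄ = Bₚ/𝔪Bₚ`
  let _ : Field (Λₚ ⧸ maximalIdeal Λₚ) := Ideal.Quotient.field _
  have hmax : (Ideal.map (algebraMap Λₚ Bₚ) (maximalIdeal Λₚ)).IsMaximal := by
    have hdom : IsDomain (Bₚ ⧸ Ideal.map (algebraMap Λₚ Bₚ) (maximalIdeal Λₚ)) :=
      Ideal.Quotient.isDomain _
    have hfin : Module.Finite (Λₚ ⧸ maximalIdeal Λₚ)
        (Bₚ ⧸ Ideal.map (algebraMap Λₚ Bₚ) (maximalIdeal Λₚ)) :=
      Module.Finite.of_restrictScalars_finite Λₚ _ _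
    have hint : Algebra.IsIntegral (Λₚ ⧸ maximalIdeal Λₚ)
        (Bₚ ⧸ Ideal.map (algebraMap Λₚ Bₚ) (maximalIdeal Λₚ)) := Algebra.IsIntegral.of_finite _ _
    exact Ideal.Quotient.maximal_of_isField _
      (isField_of_isIntegral_of_isField' (Field.toIsField (Λₚ ⧸ maximalIdeal Λₚ)))
  let _ : Field (Bₚ ⧸ Ideal.map (algebraMap Λₚ Bₚ) (maximalIdeal Λₚ)) := Ideal.Quotient.field _
  -- the kernel of `B → F̄`
  have hker : ∀ c : B, Ideal.Quotient.mk (Ideal.map (algebraMap Λₚ Bₚ) (maximalIdeal Λₚ))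
      (algebraMap B Bₚ c) = 0 ↔ algebraMap Λ B w ∣ c := by
    intro c
    rw [Ideal.Quotient.eq_zero_iff_mem, hmapeq, ← Ideal.mem_comap, ← Ideal.under_def,
      IsLocalization.under_map_of_isPrime_disjoint (Algebra.algebraMapSubmonoid B 𝔭.primeCompl)
        Bₚ hP (Ideal.disjoint_primeCompl_of_liesOver P 𝔭), Ideal.mem_span_singleton]
  -- the two maps to the residue objects
  let g : Λ →+* (Λₚ ⧸ maximalIdeal Λₚ) :=
    (Ideal.Quotient.mk (maximalIdeal Λₚ)).comp (algebraMap Λ Λₚ)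
  let φ : B →+* (Bₚ ⧸ Ideal.map (algebraMap Λₚ Bₚ) (maximalIdeal Λₚ)) :=
    (Ideal.Quotient.mk _).comp (algebraMap B Bₚ)
  have hsq : (algebraMap (Λₚ ⧸ maximalIdeal Λₚ)
      (Bₚ ⧸ Ideal.map (algebraMap Λₚ Bₚ) (maximalIdeal Λₚ))).comp g =
      φ.comp (algebraMap Λ B) := by
    ext a
    simp only [g, φ, RingHom.comp_apply]
    rw [Ideal.Quotient.algebraMap_quotient_map_quotient, ← IsScalarTower.algebraMap_apply,
      ← IsScalarTower.algebraMap_apply]
  have hg : ∀ s₀ : Λ, s₀ ∈ 𝔭.primeCompl → g s₀ ≠ 0 := by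
    intro s₀ hs₀ h0
    simp only [g, RingHom.comp_apply] at h0
    rw [Ideal.Quotient.eq_zero_iff_mem, IsLocalRing.mem_maximalIdeal, mem_nonunits_iff] at h0
    exact h0 ((IsLocalization.AtPrime.isUnit_to_map_iff Λₚ 𝔭 s₀).mpr hs₀)
  -- elementwise separability of `F̄ / K̄`
  have hsepel : ∀ y : Bₚ ⧸ Ideal.map (algebraMap Λₚ Bₚ) (maximalIdeal Λₚ),
      IsSeparable (Λₚ ⧸ maximalIdeal Λₚ) y := by
    intro y
    obtain ⟨y, rfl⟩ := Ideal.Quotient.mk_surjective y
    obtain ⟨⟨b, s⟩, hbs⟩ := IsLocalization.surj (Algebra.algebraMapSubmonoid B 𝔭.primeCompl) y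
    obtain ⟨s₀, hs₀, hs₀'⟩ := s.2
    obtain ⟨Q, hQ0, hQ1⟩ := hel b
    have hb : IsSeparable (Λₚ ⧸ maximalIdeal Λₚ) (φ b) := by
      apply isSeparable_of_aeval_derivative_ne_zero _ (Q.map g)
      · rw [aeval_map_of_comp_eq g φ hsq]
        exact (hker _).mpr hQ0
      · rw [derivative_map, aeval_map_of_comp_eq g φ hsq]
        exact fun h => hQ1 ((hker _).mp h)
    have hrel : Ideal.Quotient.mk (Ideal.map (algebraMap Λₚ Bₚ) (maximalIdeal Λₚ)) y *
        algebraMap (Λₚ ⧸ maximalIdeal Λₚ) _ (g s₀) = φ b := by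
      have h1 : algebraMap (Λₚ ⧸ maximalIdeal Λₚ)
          (Bₚ ⧸ Ideal.map (algebraMap Λₚ Bₚ) (maximalIdeal Λₚ)) (g s₀) =
          φ (algebraMap Λ B s₀) := by
        have := congrArg (fun f => f s₀) hsq
        simpa using this
      rw [h1, hs₀']
      simp only [φ, RingHom.comp_apply]
      rw [← map_mul, hbs]
    have hy : Ideal.Quotient.mk (Ideal.map (algebraMap Λₚ Bₚ) (maximalIdeal Λₚ)) y =
        φ b * algebraMap (Λₚ ⧸ maximalIdeal Λₚ) _ (g s₀)⁻¹ := by
      rw [← hrel, mul_assoc, ← map_mul, mul_inv_cancel₀ (hg s₀ hs₀), map_one, mul_one]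
    rw [hy]
    exact Field.isSeparable_mul hb (isSeparable_algebraMap _)
  -- rank
  have hrank : Module.finrank Λₚ Bₚ = Module.finrank Λ B := by
    have h1 : Module.finrank Λₚ Bₚ = Module.finrank Λ Bₚ :=
      IsLocalization.finrank_eq Λₚ 𝔭.primeCompl 𝔭.primeCompl_le_nonZeroDivisors
    have h2 : Module.finrank Λ Bₚ = Module.finrank Λ B :=
      IsLocalizedModule.finrank_eq 𝔭.primeCompl (IsScalarTower.toAlgHom Λ B Bₚ).toLinearMap
        𝔭.primeCompl_le_nonZeroDivisors
    rw [h1, h2]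
  let bas : Module.Basis (Fin (Module.finrank Λ B)) Λₚ Bₚ := Module.finBasisOfFinrankEq Λₚ Bₚ hrank
  -- clear denominators
  have hex : ∀ i, ∃ (x : B) (s₀ : Λ), s₀ ∈ 𝔭.primeCompl ∧
      algebraMap Λ Λₚ s₀ • bas i = algebraMap B Bₚ x := by
    intro i
    obtain ⟨⟨b, s⟩, hbs⟩ :=
      IsLocalization.surj (Algebra.algebraMapSubmonoid B 𝔭.primeCompl) (bas i)
    obtain ⟨s₀, hs₀, hs₀'⟩ := s.2
    refine ⟨b, s₀, hs₀, ?_⟩
    rw [Algebra.smul_def, ← IsScalarTower.algebraMap_apply,
      IsScalarTower.algebraMap_apply Λ B Bₚ, hs₀', mul_comm]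
    exact hbs
  choose x s₀ hs₀ hx using hex
  have hunit : ∀ i, IsUnit (algebraMap Λ Λₚ (s₀ i)) := fun i =>
    (IsLocalization.AtPrime.isUnit_to_map_iff Λₚ 𝔭 (s₀ i)).mpr (hs₀ i)
  let bas' : Module.Basis (Fin (Module.finrank Λ B)) Λₚ Bₚ := bas.isUnitSMul hunit
  have hbas' : ∀ i, bas' i = algebraMap B Bₚ (x i) := fun i => by
    rw [Module.Basis.isUnitSMul_apply, hx]
  have hdiscr : IsUnit (Algebra.discr Λₚ bas') :=
    isUnit_discr_of_isSeparable_quotient bas' hmax hsepel
  refine ⟨x, fun hdvd => ?_⟩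
  have hmap : algebraMap Λ Λₚ (Matrix.of fun i j => Algebra.intTrace Λ B (x i * x j)).det =
      Algebra.discr Λₚ bas' := by
    rw [Algebra.discr_def, RingHom.map_det]
    congr 1
    ext i j
    simp only [RingHom.mapMatrix_apply, Matrix.map_apply, Matrix.of_apply,
      Algebra.traceMatrix_apply, Algebra.traceForm_apply, hbas']
    rw [Algebra.intTrace_eq_of_isLocalization Λ B 𝔭.primeCompl (Aₘ := Λₚ) (Bₘ := Bₚ),
      Algebra.intTrace_eq_trace, map_mul]
  rw [← hmap, IsLocalization.AtPrime.isUnit_to_map_iff Λₚ 𝔭] at hdiscr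
  exact hdiscr (Ideal.mem_span_singleton.mpr hdvd)

/-- **HSEP**, in the exact shape of the hypothesis `hsep` of
`Fermat.Agent.S18.B12.B2RegularStatement` / `B2Statement` (origin/helper33). -/
theorem hsep_poly (R : Type u) [CommRing R] [IsDomain R] [IsDiscreteValuationRing R]
    (w : R) (hw : Irreducible w)
    (B : Type v) [CommRing B] [IsDomain B] [IsIntegrallyClosed B] [Algebra R[X] B]
    [Module.Finite R[X] B] [Module.IsTorsionFree R[X] B]
    (hwB : Prime (algebraMap R[X] B (C w)))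
    (hel : ∀ b : B, ∃ P : R[X][X], algebraMap R[X] B (C w) ∣ aeval b P ∧
          ¬ algebraMap R[X] B (C w) ∣ aeval b (derivative P)) :
    ∃ x : Fin (Module.finrank R[X] B) → B,
        ¬ C w ∣ (Matrix.of fun i j => Algebra.intTrace R[X] B (x i * x j)).det := by
  have hwp : Prime (C w : R[X]) :=
    (Polynomial.prime_C_iff).mpr hw.prime
  exact hsep_gen R[X] (C w) hwp B hwB hel

end Fermat.Agent.S18.H425

end
end
-- ===== PACK-END S18/H425/Hsep.lean

-- ===== PACK-BEGIN S18/H754/HncUnram.lean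
section


/-!
# S18 / ALG-FRONT / hNC adapter: `(π)` is radical in the chart `B` when the generic fibre is
unramified over the zeros of `π`

* `isDiscreteValuationRing_atPrime_of_height_one`, `exists_dvd_or_dvd_of_height_one` (N3):
  `B_𝔓` is a valuation ring for a height-one prime `𝔓` of a Noetherian normal domain.
* `exists_valuationSubring_dominating` (N4): a valuation subring of `Ω ⊇ B` dominating `B_𝔓`.
* `isRadical_span_of_unramified` (N5, main): see the statement.
-/

set_option autoImplicit false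

noncomputable section

namespace Fermat.Agent.S18.H754

open IsLocalRing

section HeightOne

variable {B : Type*} [CommRing B] [IsDomain B] [IsNoetherianRing B] [IsIntegrallyClosed B]

/-- Localisation at a height-one prime of a Noetherian normal domain is a DVR. -/
theorem isDiscreteValuationRing_atPrime_of_height_one (𝔭 : Ideal B) [h𝔭 : 𝔭.IsPrime]
    (h : 𝔭.height = 1) : IsDiscreteValuationRing (Localization.AtPrime 𝔭) := by
  set A := Localization.AtPrime 𝔭 with hA
  haveI : IsNoetherianRing A := IsLocalization.isNoetherianRing 𝔭.primeCompl A inferInstance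
  haveI : IsIntegrallyClosed A :=
    isIntegrallyClosed_of_isLocalization A 𝔭.primeCompl 𝔭.primeCompl_le_nonZeroDivisors
  have h𝔭bot : 𝔭 ≠ ⊥ := Ideal.ne_bot_of_height_eq_one h
  have hmax : maximalIdeal A = 𝔭.map (algebraMap B A) :=
    (IsLocalization.AtPrime.map_eq_maximalIdeal 𝔭 A).symm
  have hinj : Function.Injective (algebraMap B A) :=
    IsLocalization.injective A 𝔭.primeCompl_le_nonZeroDivisors
  have hnf : ¬ IsField A := by
    rw [isField_iff_maximalIdeal_eq]
    intro hbot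
    obtain ⟨x, hx, hx0⟩ := Submodule.exists_mem_ne_zero_of_ne_bot h𝔭bot
    have hxmem : algebraMap B A x ∈ maximalIdeal A := by
      rw [hmax]; exact Ideal.mem_map_of_mem _ hx
    rw [hbot, Ideal.mem_bot] at hxmem
    exact hx0 (hinj (by rw [hxmem, map_zero]))
  have huniq : ∀ P : Ideal A, P ≠ ⊥ → P.IsPrime → P = maximalIdeal A := by
    intro P hP hPprime
    have hP' : (P.comap (algebraMap B A)).IsPrime := Ideal.comap_isPrime _ _
    have hmapcomap : (P.comap (algebraMap B A)).map (algebraMap B A) = P :=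
      IsLocalization.map_comap 𝔭.primeCompl A P
    have hle : P.comap (algebraMap B A) ≤ 𝔭 := by
      have hdisj : Disjoint (𝔭.primeCompl : Set B) (P.comap (algebraMap B A) : Set B) :=
        ((IsLocalization.isPrime_iff_isPrime_disjoint 𝔭.primeCompl A P).1 hPprime).2
      intro x hx
      by_contra hx𝔭
      exact Set.disjoint_left.1 hdisj hx𝔭 hx
    have hne : P.comap (algebraMap B A) ≠ ⊥ := by
      intro h0
      apply hP
      rw [← hmapcomap, h0, Ideal.map_bot]
    have h1 : 𝔭.height ≤ (P.comap (algebraMap B A)).height := by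
      rw [h]
      rw [Order.one_le_iff_pos, pos_iff_ne_zero]
      intro h0
      rw [Ideal.height_eq_zero_iff, IsDomain.minimalPrimes_eq_singleton_bot,
        Set.mem_singleton_iff] at h0
      exact hne h0
    have hfin : (P.comap (algebraMap B A)).FiniteHeight := by
      refine ⟨Or.inr ?_⟩
      intro htop
      have h2 := Ideal.height_mono hle
      rw [htop, h, top_le_iff] at h2
      exact ENat.one_ne_top h2
    have heq : P.comap (algebraMap B A) = 𝔭 := by
      by_contra hne'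
      have hlt : P.comap (algebraMap B A) < 𝔭 := lt_of_le_of_ne hle hne'
      have h3 := Ideal.height_strict_mono_of_isPrime hlt
      exact absurd (lt_of_lt_of_le h3 h1) (lt_irrefl _)
    calc P = (P.comap (algebraMap B A)).map (algebraMap B A) := hmapcomap.symm
      _ = 𝔭.map (algebraMap B A) := by rw [heq]
      _ = maximalIdeal A := hmax.symm
  have htfae := (IsDiscreteValuationRing.TFAE A hnf).out 0 3
  rw [htfae]
  refine ⟨inferInstance, maximalIdeal A, ⟨?_, inferInstance⟩, ?_⟩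
  · exact isField_iff_maximalIdeal_eq.not.1 hnf
  · rintro P ⟨hP, hPprime⟩
    exact huniq P hP hPprime

/-- `B_𝔓` is a valuation ring (elementwise). -/
theorem exists_dvd_or_dvd_of_height_one (𝔭 : Ideal B) [h𝔭 : 𝔭.IsPrime] (h : 𝔭.height = 1)
    (a c : B) : ∃ s : B, s ∉ 𝔭 ∧ (c ∣ s * a ∨ a ∣ s * c) := by
  haveI := isDiscreteValuationRing_atPrime_of_height_one 𝔭 h
  haveI : ValuationRing (Localization.AtPrime 𝔭) :=
    ValuationRing.iff_local_bezout_domain.mpr ⟨inferInstance, inferInstance⟩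
  have hinj : Function.Injective (algebraMap B (Localization.AtPrime 𝔭)) :=
    IsLocalization.injective _ 𝔭.primeCompl_le_nonZeroDivisors
  have key : ∀ a c : B, algebraMap B (Localization.AtPrime 𝔭) a ∣
      algebraMap B (Localization.AtPrime 𝔭) c → ∃ s : B, s ∉ 𝔭 ∧ a ∣ s * c := by
    intro a c ⟨r, hr⟩
    obtain ⟨r₁, ⟨s₁, hs₁⟩, rfl⟩ := IsLocalization.exists_mk'_eq 𝔭.primeCompl r
    refine ⟨s₁, hs₁, r₁, ?_⟩
    apply hinj
    have h1 : IsLocalization.mk' (Localization.AtPrime 𝔭) r₁ ⟨s₁, hs₁⟩ *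
        algebraMap B (Localization.AtPrime 𝔭) s₁ = algebraMap B (Localization.AtPrime 𝔭) r₁ :=
      IsLocalization.mk'_spec _ r₁ ⟨s₁, hs₁⟩
    rw [map_mul, map_mul, hr, ← h1]
    ring
  rcases ValuationRing.dvd_total (algebraMap B (Localization.AtPrime 𝔭) a)
      (algebraMap B (Localization.AtPrime 𝔭) c) with h1 | h1
  · obtain ⟨s, hs, hd⟩ := key a c h1
    exact ⟨s, hs, Or.inr hd⟩
  · obtain ⟨s, hs, hd⟩ := key c a h1
    exact ⟨s, hs, Or.inl hd⟩

end HeightOne

section Dominate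

variable {B : Type*} [CommRing B] [IsDomain B]
  {Ω : Type*} [Field Ω] [Algebra B Ω] [FaithfulSMul B Ω]

/-- A valuation subring of `Ω ⊇ B` dominating `B_𝔓`. -/
theorem exists_valuationSubring_dominating (𝔭 : Ideal B) [h𝔭 : 𝔭.IsPrime] :
    ∃ O : ValuationSubring Ω, (∀ b : B, algebraMap B Ω b ∈ O) ∧
      (∀ b : B, b ∉ 𝔭 → (algebraMap B Ω b)⁻¹ ∈ O) ∧
      (∀ b : B, b ∈ 𝔭 → b ≠ 0 → (algebraMap B Ω b)⁻¹ ∉ O) := by
  classical
  have hinj : Function.Injective (algebraMap B Ω) := FaithfulSMul.algebraMap_injective B Ω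
  have hunit : ∀ y : 𝔭.primeCompl, IsUnit (algebraMap B Ω y) := by
    intro y
    rw [isUnit_iff_ne_zero]
    intro h0
    have : (y : B) = 0 := hinj (by rw [h0, map_zero])
    exact y.2 (this ▸ 𝔭.zero_mem)
  let f : Localization.AtPrime 𝔭 →+* Ω := IsLocalization.lift hunit
  have hf : ∀ b : B, f (algebraMap B (Localization.AtPrime 𝔭) b) = algebraMap B Ω b :=
    fun b => IsLocalization.lift_eq hunit b
  have hfinj : Function.Injective f := by
    rw [IsLocalization.lift_injective_iff]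
    intro a b
    rw [(IsLocalization.injective (Localization.AtPrime 𝔭)
      𝔭.primeCompl_le_nonZeroDivisors).eq_iff, hinj.eq_iff]
  let A : LocalSubring Ω := LocalSubring.range f
  obtain ⟨O, hO⟩ := A.exists_le_valuationSubring
  obtain ⟨hle, hloc⟩ := hO
  have hAmem : ∀ r : Localization.AtPrime 𝔭, f r ∈ A.toSubring := fun r => ⟨r, rfl⟩
  have hOmem : ∀ r : Localization.AtPrime 𝔭, f r ∈ O := fun r => hle (hAmem r)
  refine ⟨O, fun b => ?_, fun b hb => ?_, fun b hb hb0 hinv => ?_⟩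
  · rw [← hf b]
    exact hOmem _
  · have h1 : f (IsLocalization.mk' (Localization.AtPrime 𝔭) 1 (⟨b, hb⟩ : 𝔭.primeCompl)) =
        (algebraMap B Ω b)⁻¹ := by
      have hb0 : algebraMap B Ω b ≠ 0 := (hunit ⟨b, hb⟩).ne_zero
      rw [IsLocalization.lift_mk'_spec, map_one]
      exact (mul_inv_cancel₀ hb0).symm
    rw [← h1]
    exact hOmem _
  · -- `algebraMap b` would be a unit of `O`, hence of `A`, hence of `B_𝔓`
    have hb' : algebraMap B Ω b ≠ 0 := fun h0 => hb0 (hinj (by rw [h0, map_zero]))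
    let xA : A.toSubring := ⟨algebraMap B Ω b, by rw [← hf b]; exact hAmem _⟩
    have hu : IsUnit (Subring.inclusion hle xA) := by
      rw [isUnit_iff_exists_inv]
      refine ⟨⟨(algebraMap B Ω b)⁻¹, hinv⟩, ?_⟩
      apply Subtype.ext
      change algebraMap B Ω b * (algebraMap B Ω b)⁻¹ = 1
      exact mul_inv_cancel₀ hb'
    have hu' : IsUnit xA := hloc.map_nonunit xA hu
    obtain ⟨⟨y, r, hr⟩, hy⟩ := isUnit_iff_exists_inv.1 hu'
    have h2 : algebraMap B Ω b * f r = 1 := by
      have := congrArg Subtype.val hy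
      simpa [xA, ← hr] using this
    have h3 : f (algebraMap B (Localization.AtPrime 𝔭) b * r) = f 1 := by
      rw [map_mul, hf, h2, map_one]
    have h4 : algebraMap B (Localization.AtPrime 𝔭) b * r = 1 := hfinj h3
    have h5 : IsUnit (algebraMap B (Localization.AtPrime 𝔭) b) :=
      IsUnit.of_mul_eq_one _ h4
    have h6 := (IsLocalization.AtPrime.isUnit_to_map_iff (Localization.AtPrime 𝔭) 𝔭 b).1 h5
    exact h6 hb

end Dominate

end Fermat.Agent.S18.H754

end

end
-- ===== PACK-END S18/H754/HncUnram.lean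

-- ===== PACK-BEGIN S18/H754/HncMain.lean
section


/-!
# S18 / ALG-FRONT / hNC adapter, main theorem

`B` Noetherian normal domain inside a field `Ω`, `Lc ≤ Ω` a subfield of constants,
`π = lc * ∏_{c ∈ roots} (x - c)` in `Ω` with pairwise distinct `c ∈ Lc ∖ S`, `lc ∈ Lc ∖ {0}`.
Hypotheses:
* `hw`/`hLc`  : some `w ∈ B` lies in no height-one prime containing `π`, and every constant
  becomes integral over `B` after multiplication by a power of `w` (so `Lc ⊆ O` for every
  valuation ring `O` of `Ω` dominating `B_𝔓`);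
* `hunr`     : the `unramified` field of `Alg.GoodModel`, verbatim.
Conclusion: `(π)` is a radical ideal of `B`  (= hypothesis `hNC` of `B12.B2RegularStatement`).
-/

set_option autoImplicit false

noncomputable section

namespace Fermat.Agent.S18.H754

section Main

variable {B : Type*} [CommRing B] [IsDomain B] [IsNoetherianRing B] [IsIntegrallyClosed B]
  {Ω : Type*} [Field Ω] [Algebra B Ω] [FaithfulSMul B Ω]

omit [IsDomain B] [IsNoetherianRing B] [IsIntegrallyClosed B] [FaithfulSMul B Ω] in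
/-- elements integral over `B` lie in every valuation subring containing `B`. -/
theorem mem_valuationSubring_of_isIntegral (O : ValuationSubring Ω)
    (hB : ∀ b : B, algebraMap B Ω b ∈ O) {a : Ω} (ha : IsIntegral B a) : a ∈ O := by
  obtain ⟨P, hP, hPa⟩ := ha
  let g : B →+* O := (algebraMap B Ω).codRestrict O.toSubring hB
  have hint : IsIntegral O a := by
    refine ⟨P.map g, hP.map g, ?_⟩
    rw [Polynomial.eval₂_map]
    exact hPa
  obtain ⟨y, hy⟩ := IsIntegrallyClosed.isIntegral_iff.1 hint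
  rw [← hy]
  exact y.2

/-- **hNC adapter** (abstract form). -/
theorem isRadical_span_of_unramified (Lc : Subfield Ω) (π : B) (hπ : π ≠ 0)
    (w : B) (hw : ∀ 𝔓 : Ideal B, 𝔓.IsPrime → 𝔓.height = 1 → π ∈ 𝔓 → w ∉ 𝔓)
    (hLc : ∀ a ∈ Lc, ∃ n : ℕ, IsIntegral B (algebraMap B Ω w ^ n * a))
    (x : Ω) (S : Finset Ω) (roots : Finset Ω) (hroots : ∀ c ∈ roots, c ∈ Lc ∧ c ∉ S)
    (lc : Ω) (hlc : lc ∈ Lc) (hlc0 : lc ≠ 0)
    (hfac : algebraMap B Ω π = lc * ∏ c ∈ roots, (x - c))
    (hunr : ∀ O : ValuationSubring Ω, (∀ a ∈ Lc, a ∈ O) → ∀ c ∈ Lc, c ∉ S →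
        x - c ∈ O → (x - c)⁻¹ ∉ O → ∀ t ∈ O, t⁻¹ ∉ O → t * (x - c)⁻¹ ∈ O) :
    (Ideal.span {π}).IsRadical := by
  classical
  have hinj : Function.Injective (algebraMap B Ω) := FaithfulSMul.algebraMap_injective B Ω
  refine isRadical_span_singleton_of_local_gen π hπ ?_
  intro 𝔓 h𝔓 hht hπ𝔓 b hb𝔓
  haveI := h𝔓
  by_cases hb0 : b = 0
  · refine ⟨1, ?_, ?_⟩
    · exact fun h1 => h𝔓.ne_top ((Ideal.eq_top_iff_one _).2 h1)
    · rw [hb0, mul_zero]; exact dvd_zero _
  obtain ⟨O, hBO, hunitO, hnonunitO⟩ := exists_valuationSubring_dominating (Ω := Ω) 𝔓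
  set v := O.valuation with hv
  have hvle : ∀ y : Ω, v y ≤ 1 ↔ y ∈ O := fun y => O.valuation_le_one_iff y
  -- valuations of elements of `B`
  have hvB : ∀ b : B, v (algebraMap B Ω b) ≤ 1 := fun b => (hvle _).2 (hBO b)
  have hvunit : ∀ b : B, b ∉ 𝔓 → v (algebraMap B Ω b) = 1 := by
    intro b hb
    have hb0 : algebraMap B Ω b ≠ 0 := by
      intro h0
      have : b = 0 := hinj (by rw [h0, map_zero])
      exact hb (this ▸ 𝔓.zero_mem)
    have h1 := (hvle _).2 (hunitO b hb)
    rw [map_inv₀] at h1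
    have h2 := hvB b
    have hne : v (algebraMap B Ω b) ≠ 0 := (Valuation.ne_zero_iff v).2 hb0
    have h3 : 1 ≤ v (algebraMap B Ω b) := by
      rwa [inv_le_one₀ (zero_lt_iff.2 hne)] at h1
    exact le_antisymm h2 h3
  have hvlt : ∀ b : B, b ∈ 𝔓 → v (algebraMap B Ω b) < 1 := by
    intro b hb
    by_cases hb0 : b = 0
    · rw [hb0, map_zero, map_zero]; exact zero_lt_one
    have hb0' : algebraMap B Ω b ≠ 0 := fun h0 => hb0 (hinj (by rw [h0, map_zero]))
    have h1 := hnonunitO b hb hb0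
    rw [← hvle, map_inv₀, not_le] at h1
    have hne : v (algebraMap B Ω b) ≠ 0 := (Valuation.ne_zero_iff v).2 hb0'
    exact (one_lt_inv₀ (zero_lt_iff.2 hne)).1 h1
  -- constants lie in `O`
  have hLcO : ∀ a ∈ Lc, a ∈ O := by
    intro a ha
    obtain ⟨n, hn⟩ := hLc a ha
    have h1 : algebraMap B Ω w ^ n * a ∈ O := mem_valuationSubring_of_isIntegral O hBO hn
    have hw𝔓 := hw 𝔓 h𝔓 hht hπ𝔓
    have h2 : v (algebraMap B Ω w ^ n * a) ≤ 1 := (hvle _).2 h1
    rw [map_mul, map_pow, hvunit w hw𝔓, one_pow, one_mul] at h2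
    exact (hvle _).1 h2
  have hvLc : ∀ a ∈ Lc, a ≠ 0 → v a = 1 := by
    intro a ha ha0
    have h1 : v a ≤ 1 := (hvle _).2 (hLcO a ha)
    have h2 : v a⁻¹ ≤ 1 := (hvle _).2 (hLcO _ (Lc.inv_mem ha))
    rw [map_inv₀] at h2
    have hne : v a ≠ 0 := (Valuation.ne_zero_iff v).2 ha0
    have h3 : 1 ≤ v a := by rwa [inv_le_one₀ (zero_lt_iff.2 hne)] at h2
    exact le_antisymm h1 h3
  -- the valuation of `π`
  have hπ0 : algebraMap B Ω π ≠ 0 := fun h0 => hπ (hinj (by rw [h0, map_zero]))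
  have hvπ : v (algebraMap B Ω π) < 1 := hvlt π hπ𝔓
  have hprod : v (algebraMap B Ω π) = ∏ c ∈ roots, v (x - c) := by
    rw [hfac, map_mul, hvLc lc hlc hlc0, one_mul, map_prod]
  have hfactor0 : ∀ c ∈ roots, x - c ≠ 0 := by
    intro c hc h0
    apply hπ0
    rw [hfac, Finset.prod_eq_zero hc h0, mul_zero]
  -- `x ∈ O`
  have hxO : v x ≤ 1 := by
    by_contra hx
    rw [not_le] at hx
    have h1 : ∀ c ∈ roots, 1 ≤ v (x - c) := by
      intro c hc
      have hcv : v c ≤ 1 := (hvle _).2 (hLcO c (hroots c hc).1)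
      have : v (x - c) = v x := Valuation.map_sub_eq_of_lt_left v (lt_of_le_of_lt hcv hx)
      rw [this]
      exact hx.le
    have h2 : 1 ≤ ∏ c ∈ roots, v (x - c) := Finset.one_le_prod' h1
    rw [← hprod] at h2
    exact absurd hvπ (not_lt.2 h2)
  have hfle : ∀ c ∈ roots, v (x - c) ≤ 1 := by
    intro c hc
    have hcv : v c ≤ 1 := (hvle _).2 (hLcO c (hroots c hc).1)
    exact (Valuation.map_sub v x c).trans (max_le hxO hcv)
  -- some factor is a non-unit
  have hex : ∃ c₀ ∈ roots, v (x - c₀) < 1 := by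
    by_contra hcon
    have h1 : ∀ c ∈ roots, v (x - c) = 1 := by
      intro c hc
      by_contra hne
      exact hcon ⟨c, hc, lt_of_le_of_ne (hfle c hc) hne⟩
    rw [hprod, Finset.prod_eq_one h1] at hvπ
    exact lt_irrefl _ hvπ
  obtain ⟨c₀, hc₀, hvc₀⟩ := hex
  have hother : ∀ c ∈ roots.erase c₀, v (x - c) = 1 := by
    intro c hc
    rw [Finset.mem_erase] at hc
    have h1 : x - c = (x - c₀) + (c₀ - c) := by ring
    have h2 : v (c₀ - c) = 1 :=
      hvLc _ (Lc.sub_mem (hroots c₀ hc₀).1 (hroots c hc.2).1) (sub_ne_zero.2 (Ne.symm hc.1))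
    rw [h1, Valuation.map_add_eq_of_lt_right v (by rw [h2]; exact hvc₀), h2]
  have hvπ' : v (algebraMap B Ω π) = v (x - c₀) := by
    rw [hprod, ← Finset.mul_prod_erase roots _ hc₀, Finset.prod_eq_one hother, mul_one]
  -- apply `unramified`
  have hkey : ∀ t : Ω, t ≠ 0 → v t < 1 → v t ≤ v (algebraMap B Ω π) := by
    intro t ht0 hvt
    have hc₀0 := hfactor0 c₀ hc₀
    have hne : v (x - c₀) ≠ 0 := (Valuation.ne_zero_iff v).2 hc₀0
    have hnet : v t ≠ 0 := (Valuation.ne_zero_iff v).2 ht0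
    have h1 : (x - c₀)⁻¹ ∉ O := by
      rw [← hvle, map_inv₀, not_le]
      exact (one_lt_inv₀ (zero_lt_iff.2 hne)).2 hvc₀
    have h2 : t⁻¹ ∉ O := by
      rw [← hvle, map_inv₀, not_le]
      exact (one_lt_inv₀ (zero_lt_iff.2 hnet)).2 hvt
    have h3 := hunr O hLcO c₀ (hroots c₀ hc₀).1 (hroots c₀ hc₀).2
      ((hvle _).1 hvc₀.le) h1 t ((hvle _).1 hvt.le) h2
    rw [← hvle, map_mul, map_inv₀] at h3
    rw [hvπ']
    rwa [← div_eq_mul_inv, div_le_one₀ (zero_lt_iff.2 hne)] at h3
  -- `B_𝔓` is a valuation ring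
  have hb0' : algebraMap B Ω b ≠ 0 := fun h0 => hb0 (hinj (by rw [h0, map_zero]))
  obtain ⟨s, hs, hd | hd⟩ := exists_dvd_or_dvd_of_height_one 𝔓 hht b π
  · exact ⟨s, hs, hd⟩
  · obtain ⟨d, hd⟩ := hd
    -- `s π = b d`, so `v d = v π / v b ≥ 1`, so `d ∉ 𝔓`
    have h1 : v (algebraMap B Ω π) = v (algebraMap B Ω b) * v (algebraMap B Ω d) := by
      have := congrArg (fun y => v (algebraMap B Ω y)) hd
      simp only [map_mul] at this
      rwa [hvunit s hs, one_mul] at this
    have h2 := hkey _ hb0' (hvlt b hb𝔓)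
    have hd𝔓 : d ∉ 𝔓 := by
      intro hd𝔓
      have h3 := hvlt d hd𝔓
      have hnb : v (algebraMap B Ω b) ≠ 0 := (Valuation.ne_zero_iff v).2 hb0'
      have h4 : v (algebraMap B Ω b) * v (algebraMap B Ω d) < v (algebraMap B Ω b) * 1 :=
        mul_lt_mul_of_pos_left h3 (zero_lt_iff.2 hnb)
      rw [mul_one, ← h1] at h4
      exact absurd h2 (not_le.2 h4)
    refine ⟨d, hd𝔓, s, ?_⟩
    rw [mul_comm d b, ← hd, mul_comm]

end Main

end Fermat.Agent.S18.H754

end

end
-- ===== PACK-END S18/H754/HncMain.lean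

-- ===== PACK-BEGIN Lib/Haupt/Level.lean
section






/-!
# Level raising `f(τ) ↦ f(dτ)` for level-one modular forms (helper637)

* `res d f` : a level-one form viewed on `Γ₀(d)`;
* `lev d f` : `τ ↦ f (d τ)` as a modular form on `Γ₀(d)`;
* `qExpansion_lev` : its `q`-expansion is `PowerSeries.expand d` of the `q`-expansion of `f`.
-/

set_option autoImplicit false

open UpperHalfPlane ModularForm CongruenceSubgroup MatrixGroups
open Matrix.SpecialLinearGroup Filter Topology
open scoped Manifold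

noncomputable section

namespace Fermat.Agent.Lib.Haupt

open Fermat.Agent.S20.F658

local notation "𝕢" => Function.Periodic.qParam

/-- `Γ₀(d)` as a subgroup of `GL(2, ℝ)`. -/
abbrev G0 (d : ℕ) : Subgroup (GL (Fin 2) ℝ) := (Gamma0 d : Subgroup (GL (Fin 2) ℝ))

theorem G0_le_SL (d : ℕ) : G0 d ≤ 𝒮ℒ := by
  rintro _ ⟨A, -, rfl⟩
  exact ⟨A, rfl⟩

theorem one_mem_strictPeriods_G0 (d : ℕ) : (1 : ℝ) ∈ (G0 d).strictPeriods :=
  CongruenceSubgroup.one_mem_strictPeriods_Gamma0 d

/-- A level-one modular form, viewed as a modular form on `Γ₀(d)`. -/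
def res (d : ℕ) {k : ℤ} (f : ModularForm 𝒮ℒ k) : ModularForm (G0 d) k where
  toFun := f
  slash_action_eq' γ hγ := f.slash_action_eq' γ (G0_le_SL d hγ)
  holo' := f.holo'
  bdd_at_cusps' hc := f.bdd_at_cusps' (hc.mono (G0_le_SL d))

@[simp] theorem coe_res (d : ℕ) {k : ℤ} (f : ModularForm 𝒮ℒ k) : (res d f : ℍ → ℂ) = f := rfl

open ConjAct Pointwise in
/-- `f ∣[k] diag(d, 1)` as a modular form on `Γ₀(d)`. -/
def levRaw (d : ℕ) [NeZero d] {k : ℤ} (f : ModularForm 𝒮ℒ k) : ModularForm (G0 d) k where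
  toFun := (f : ℍ → ℂ) ∣[k] gN d
  slash_action_eq' γ hγ :=
    (ModularForm.translate f (gN d)).slash_action_eq' γ (Gamma0_le_conj d hγ)
  holo' := (ModularForm.translate f (gN d)).holo'
  bdd_at_cusps' hc :=
    (ModularForm.translate f (gN d)).bdd_at_cusps' (hc.mono (Gamma0_le_conj d))

theorem coe_levRaw (d : ℕ) [NeZero d] {k : ℤ} (f : ModularForm 𝒮ℒ k) :
    (levRaw d f : ℍ → ℂ) = (f : ℍ → ℂ) ∣[k] gN d := rfl

theorem gN_det_pos (d : ℕ) [NeZero d] : 0 < (gN d).det.val := by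
  rw [gN_det]
  exact_mod_cast Nat.pos_of_ne_zero (NeZero.ne d)

theorem denom_gN (d : ℕ) [NeZero d] (τ : ℍ) : denom (gN d) τ = 1 := by
  simp [denom, gN_val]

theorem coe_gN_smul (d : ℕ) [NeZero d] (τ : ℍ) : ((gN d • τ : ℍ) : ℂ) = d * (τ : ℂ) := by
  rw [UpperHalfPlane.coe_smul_of_det_pos (gN_det_pos d)]
  simp [num, denom, gN_val]

theorem levRaw_apply (d : ℕ) [NeZero d] {k : ℤ} (f : ModularForm 𝒮ℒ k) (τ : ℍ) :
    levRaw d f τ = f (gN d • τ) * (d : ℂ) ^ (k - 1) := by
  show ((f : ℍ → ℂ) ∣[k] gN d) τ = _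
  rw [ModularForm.slash_apply, denom_gN, one_zpow, mul_one, gN_det]
  have hσ : σ (gN d) = ContinuousAlgEquiv.refl ℝ ℂ := by
    unfold σ
    rw [if_pos (gN_det_pos d)]
  rw [hσ]
  simp

end Fermat.Agent.Lib.Haupt

namespace Fermat.Agent.Lib.Haupt

open Fermat.Agent.S20.F658

local notation "𝕢" => Function.Periodic.qParam

/-- `τ ↦ f (d τ)` as a modular form on `Γ₀(d)`. -/
def lev (d : ℕ) [NeZero d] {k : ℤ} (f : ModularForm 𝒮ℒ k) : ModularForm (G0 d) k :=
  (((d : ℂ) ^ (k - 1))⁻¹ : ℂ) • levRaw d f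

theorem lev_apply (d : ℕ) [NeZero d] {k : ℤ} (f : ModularForm 𝒮ℒ k) (τ : ℍ) :
    lev d f τ = f (gN d • τ) := by
  have hd : ((d : ℂ) ^ (k - 1)) ≠ 0 := zpow_ne_zero _ (by exact_mod_cast NeZero.ne d)
  show (((d : ℂ) ^ (k - 1))⁻¹ • levRaw d f) τ = _
  rw [smul_apply, levRaw_apply, smul_eq_mul]
  field_simp

theorem qParam_gN_smul (d : ℕ) [NeZero d] (τ : ℍ) :
    𝕢 1 ((gN d • τ : ℍ) : ℂ) = 𝕢 1 (τ : ℂ) ^ d := by
  rw [coe_gN_smul]
  unfold Function.Periodic.qParam
  rw [← Complex.exp_nat_mul]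
  congr 1
  ring

theorem hasSum_lev (d : ℕ) [NeZero d] {k : ℤ} (f : ModularForm 𝒮ℒ k) (τ : ℍ) :
    HasSum (fun m : ℕ => (if d ∣ m then (qExpansion 1 f).coeff (m / d) else 0) •
      𝕢 1 (τ : ℂ) ^ m) (lev d f τ) := by
  have hd : 0 < d := Nat.pos_of_ne_zero (NeZero.ne d)
  have h := ModularForm.hasSum_qExpansion (f := f) one_pos one_mem_strictPeriods_SL (gN d • τ)
  rw [qParam_gN_smul, ← lev_apply] at h
  have hinj : Function.Injective (fun n : ℕ => d * n) := fun a b hab =>
    Nat.eq_of_mul_eq_mul_left hd hab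
  rw [← hinj.hasSum_iff]
  · have hfun : ((fun m : ℕ => (if d ∣ m then (qExpansion 1 f).coeff (m / d) else 0) •
        𝕢 1 (τ : ℂ) ^ m) ∘ fun n : ℕ => d * n)
        = fun m : ℕ => (qExpansion 1 f).coeff m * (𝕢 1 (τ : ℂ) ^ d) ^ m := by
      funext n
      simp only [Function.comp_apply, dvd_mul_right, if_true, Nat.mul_div_cancel_left n hd,
        smul_eq_mul, pow_mul]
    rw [hfun]
    exact h
  · intro m hm
    have : ¬ d ∣ m := fun ⟨c, hc⟩ => hm ⟨c, hc.symm⟩
    simp [this]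

end Fermat.Agent.Lib.Haupt

namespace Fermat.Agent.Lib.Haupt

/-- The `q`-expansion of `τ ↦ f (d τ)` is `expand d` of the `q`-expansion of `f`. -/
theorem qExpansion_lev (d : ℕ) [NeZero d] {k : ℤ} (f : ModularForm 𝒮ℒ k) :
    qExpansion 1 (lev d f) = PowerSeries.expand d (NeZero.ne d) (qExpansion 1 f) := by
  ext m
  rw [PowerSeries.coeff_expand]
  exact (ModularFormClass.qExpansion_coeff_unique one_pos (one_mem_strictPeriods_G0 d)
    (f := lev d f) (hasSum_lev d f) m).symm

theorem qExpansion_res (d : ℕ) {k : ℤ} (f : ModularForm 𝒮ℒ k) :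
    qExpansion 1 (res d f) = qExpansion 1 f := rfl

end Fermat.Agent.Lib.Haupt

end
end
-- ===== PACK-END Lib/Haupt/Level.lean

-- ===== PACK-BEGIN S48/H128/SepGen.lean
section




/-!
# S48 / RES (Tower A1) / A1-RED, leaf SEP1 (helper128): the field `separable`, GENERIC

Setting of `S48/H248/IVBasic.lean` (helper248): `K` a field (`Q̄`), `A` a valuation subring of
`K`, `E` a subfield of `K`, `Ω` a field with a ring hom `ι : Ω →+* K((X))`, `F` a subfield of
`Ω`, `cst : K →+* Ω` the constants, `V = H248.VRing A E ι F` the Gauss valuation ring of `F`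
(same shape as `S18.Mod.VcSet`).

Main results (namespace `Fermat.Agent.S48.H128`):

* `sepRel A E ι F`               : the reduction relation (`(g, ḡ)`, `g = U₁/U₂`, `ḡ = Ū₁/Ū₂`);
* `exists_reduced_relation`      : **Gauss normalisation**: a nontrivial `K`-linear relation between
                                   elements having reductions yields a nontrivial `κ`-linear relation
                                   between the reductions;
* `isAlgebraic_red_of_biRel`     : `f` algebraic over `K(x)` ⟹ `f̄` algebraic over `𝔽_ℓ(x̄)`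
                                   (NO `CoreData`, no degree count);
* `separable_VRing`              : the field `separable` of `S18.Alg.GoodModel` /
                                   `S48.H588.StepCore` for `V = VRing A E ι F`, any coordinate `x`
                                   which is an integral series with `ℓ ∤ ord (x̄)`;
* `partSep_VRing`, `partSep_VRing_of_finite` : the same as `S18.Mod.H216.PartSep`.
-/

set_option autoImplicit false

noncomputable section

namespace Fermat.Agent.S48.H128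

open HahnSeries ModularCurve Polynomial
open Fermat.Agent.S48.H248

section Rel

variable {K : Type*} [Field K] (A : ValuationSubring K) (E : Subfield K)
variable {Ω : Type*} [Field Ω] (ι : Ω →+* LaurentSeries K) (F : Subfield Ω)

/-- The reduction relation on the Gauss valuation ring `H248.VRing A E ι F`:
`(g, ḡ) ∈ sepRel` iff `g = U₁/U₂` and `ḡ = Ū₁/Ū₂` for integral series `U₁, U₂` (in the sense of
`H248.IsInt`) with `Ū₂ ≠ 0`. -/
def sepRel : Subring (Ω × LaurentSeries (IsLocalRing.ResidueField A)) where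
  carrier := {z | z.1 ∈ F ∧ ∃ U₁ U₂ : LaurentSeries A, IsInt A E ι F U₁ ∧ IsInt A E ι F U₂ ∧
    ivRed A U₂ ≠ 0 ∧ ι z.1 * ivInc A U₂ = ivInc A U₁ ∧ z.2 * ivRed A U₂ = ivRed A U₁}
  zero_mem' := by
    refine ⟨zero_mem _, 0, 1, isInt_zero, isInt_one, ?_, ?_, ?_⟩
    · rw [map_one]; exact one_ne_zero
    · simp
    · simp
  one_mem' := by
    refine ⟨one_mem _, 1, 1, isInt_one, isInt_one, ?_, ?_, ?_⟩
    · rw [map_one]; exact one_ne_zero
    · simp
    · simp
  add_mem' := by
    rintro ⟨f, a⟩ ⟨g, b⟩ ⟨hf, U₁, U₂, h₁, h₂, hne, heq, hred⟩ ⟨hg, W₁, W₂, k₁, k₂, kne, keq, kred⟩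
    refine ⟨add_mem hf hg, U₁ * W₂ + W₁ * U₂, U₂ * W₂, IsInt.add (IsInt.mul h₁ k₂) (IsInt.mul k₁ h₂),
      IsInt.mul h₂ k₂, ?_, ?_, ?_⟩
    · rw [map_mul]; exact mul_ne_zero hne kne
    · simp only [Prod.fst_add] at heq keq ⊢
      rw [map_add, map_add, map_mul, map_mul, map_mul, ← heq, ← keq]
      ring
    · simp only [Prod.snd_add] at hred kred ⊢
      rw [map_add, map_mul, map_mul, map_mul, ← hred, ← kred]
      ring
  neg_mem' := by
    rintro ⟨f, a⟩ ⟨hf, U₁, U₂, h₁, h₂, hne, heq, hred⟩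
    refine ⟨neg_mem hf, -U₁, U₂, IsInt.neg h₁, h₂, hne, ?_, ?_⟩
    · simp only [Prod.fst_neg] at heq ⊢
      rw [map_neg, map_neg, ← heq]
      ring
    · simp only [Prod.snd_neg] at hred ⊢
      rw [map_neg, ← hred]
      ring
  mul_mem' := by
    rintro ⟨f, a⟩ ⟨g, b⟩ ⟨hf, U₁, U₂, h₁, h₂, hne, heq, hred⟩ ⟨hg, W₁, W₂, k₁, k₂, kne, keq, kred⟩
    refine ⟨mul_mem hf hg, U₁ * W₁, U₂ * W₂, IsInt.mul h₁ k₁, IsInt.mul h₂ k₂, ?_, ?_, ?_⟩
    · rw [map_mul]; exact mul_ne_zero hne kne
    · simp only [Prod.fst_mul] at heq keq ⊢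
      rw [map_mul, map_mul, map_mul, ← heq, ← keq]
      ring
    · simp only [Prod.snd_mul] at hred kred ⊢
      rw [map_mul, map_mul, ← hred, ← kred]
      ring

variable {A E ι F}

theorem mem_sepRel {g : Ω} {a : LaurentSeries (IsLocalRing.ResidueField A)} :
    (g, a) ∈ sepRel A E ι F ↔ g ∈ F ∧ ∃ U₁ U₂ : LaurentSeries A, IsInt A E ι F U₁ ∧
      IsInt A E ι F U₂ ∧ ivRed A U₂ ≠ 0 ∧ ι g * ivInc A U₂ = ivInc A U₁ ∧
      a * ivRed A U₂ = ivRed A U₁ := Iff.rfl

/-- every element of the Gauss valuation ring has a reduction. -/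
theorem exists_sepRel_of_mem_VRing {f : Ω} (hf : f ∈ VRing A E ι F) :
    ∃ a, (f, a) ∈ sepRel A E ι F := by
  obtain ⟨hfF, U₁, U₂, h₁, h₂, hne, heq⟩ := hf
  refine ⟨ivRed A U₁ * (ivRed A U₂)⁻¹, hfF, U₁, U₂, h₁, h₂, hne, heq, ?_⟩
  rw [mul_assoc, inv_mul_cancel₀ hne, mul_one]

theorem mem_VRing_of_sepRel {g : Ω} {a : LaurentSeries (IsLocalRing.ResidueField A)}
    (h : (g, a) ∈ sepRel A E ι F) : g ∈ VRing A E ι F := by
  obtain ⟨hgF, U₁, U₂, h₁, h₂, hne, heq, -⟩ := h
  exact ⟨hgF, U₁, U₂, h₁, h₂, hne, heq⟩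

/-- the reduction of `0` is `0`. -/
theorem sepRel_zero_left {b : LaurentSeries (IsLocalRing.ResidueField A)}
    (h : ((0 : Ω), b) ∈ sepRel A E ι F) : b = 0 := by
  obtain ⟨-, U₁, U₂, -, -, hne, heq, hred⟩ := h
  have h0 : ivInc A U₁ = 0 := by
    rw [← heq]
    simp
  have hU : U₁ = 0 := ivInc_injective (by rw [h0, map_zero])
  rw [hU, map_zero] at hred
  rcases mul_eq_zero.mp hred with h | h
  · exact h
  · exact absurd h hne

/-- an element with nonzero reduction is a unit of the Gauss valuation ring. -/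
theorem sepRel_unit {g : Ω} {a : LaurentSeries (IsLocalRing.ResidueField A)}
    (h : (g, a) ∈ sepRel A E ι F) (ha : a ≠ 0) : g ≠ 0 ∧ g⁻¹ ∈ VRing A E ι F := by
  obtain ⟨hgF, U₁, U₂, h₁, h₂, hne, heq, hred⟩ := h
  have hne₁ : ivRed A U₁ ≠ 0 := by
    rw [← hred]
    exact mul_ne_zero ha hne
  have hg0 : g ≠ 0 := by
    rintro rfl
    apply hne₁
    have h0 : ivInc A U₁ = 0 := by
      rw [← heq]
      simp
    have hU : U₁ = 0 := ivInc_injective (by rw [h0, map_zero])
    rw [hU, map_zero]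
  refine ⟨hg0, inv_mem hgF, U₂, U₁, h₂, h₁, hne₁, ?_⟩
  have hg0' : ι g ≠ 0 := fun h => hg0 (ι.injective (by rw [h, map_zero]))
  rw [map_inv₀, ← heq, ← mul_assoc, inv_mul_cancel₀ hg0', one_mul]

/-- the relation is monotone in `E` and `F`. -/
theorem sepRel_mono {E' : Subfield K} {F' : Subfield Ω} (hE : E ≤ E') (hF : F ≤ F') :
    sepRel A E ι F ≤ sepRel A E' ι F' := by
  rintro ⟨g, a⟩ ⟨hgF, U₁, U₂, h₁, h₂, hne, heq, hred⟩
  have key : ∀ U : LaurentSeries A, IsInt A E ι F U → IsInt A E' ι F' U := by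
    rintro U ⟨h1, f, hf, hfU⟩
    exact ⟨fun n => hE (h1 n), f, hF hf, hfU⟩
  exact ⟨hF hgF, U₁, U₂, key _ h₁, key _ h₂, hne, heq, hred⟩

/-- an integral series is related to its reduction. -/
theorem sepRel_of_isInt {x : Ω} {X₀ : LaurentSeries A} (hX₀ : IsInt A E ι F X₀)
    (hx : ι x = ivInc A X₀) : (x, ivRed A X₀) ∈ sepRel A E ι F := by
  obtain ⟨f, hf, hfU⟩ := hX₀.2
  have hxf : x = f := ι.injective (by rw [hx, hfU])
  refine ⟨hxf ▸ hf, X₀, 1, hX₀, isInt_one, ?_, ?_, ?_⟩
  · rw [map_one]; exact one_ne_zero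
  · rw [map_one, mul_one, hx]
  · rw [map_one, mul_one]

section Constants

variable (cst : K →+* Ω) (hcst : ∀ c : K, ι (cst c) = HahnSeries.C c)

include hcst

/-- constants of `A ∩ E` are related to their residue classes. -/
theorem sepRel_cst (hEF : ∀ c ∈ E, cst c ∈ F) (c : A) (hc : (c : K) ∈ E) :
    (cst (c : K), HahnSeries.C (IsLocalRing.residue A c)) ∈ sepRel A E ι F := by
  have h := sepRel_of_isInt (x := cst (c : K)) (isInt_C cst hcst hEF hc)
    (by rw [hcst, ivInc_C])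
  rwa [ivRed_C] at h

/-- an element with zero reduction is divisible by the uniformiser (hypothesis in the weak
form `gen`, implied by `H248.IsUnifG.gen`). -/
theorem sepRel_ker (hEF : ∀ c ∈ E, cst c ∈ F) {w₀ : K} (hwE : w₀ ∈ E)
    (hw0 : w₀ ≠ 0) (hgen : ∀ c : K, c ∈ A → c ∈ E → c⁻¹ ∉ A → c * w₀⁻¹ ∈ A) {g : Ω}
    (h : (g, (0 : LaurentSeries (IsLocalRing.ResidueField A))) ∈ sepRel A E ι F) :
    g * (cst w₀)⁻¹ ∈ VRing A E ι F := by
  obtain ⟨hgF, U₁, U₂, h₁, h₂, hne, heq, hred⟩ := h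
  rw [zero_mul] at hred
  have hcoef : ∀ n, (HahnSeries.C (w₀⁻¹) * ivInc A U₁).coeff n ∈ A := by
    intro n
    rw [HahnSeries.C_mul_eq_smul, HahnSeries.coeff_smul, ivInc_coeff, smul_eq_mul, mul_comm]
    have hm := (ivRed_eq_zero_iff U₁).mp hred.symm n
    rcases (iv_mem_maximalIdeal_iff _).mp hm with h0 | hni
    · rw [h0, zero_mul]; exact A.zero_mem
    · exact hgen _ (U₁.coeff n).2 (h₁.1 n) hni
  obtain ⟨U', hU'⟩ := exists_ivInc_eq hcoef
  obtain ⟨f, hf, hfU⟩ := h₁.2
  have hCw : (HahnSeries.C w₀ : LaurentSeries K) ≠ 0 := by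
    rw [← hcst]
    exact fun h => hw0 (cst.injective (ι.injective (by rw [h, map_zero, map_zero])))
  have hU'int : IsInt A E ι F U' := by
    refine ⟨fun n => ?_, (cst w₀)⁻¹ * f, mul_mem (inv_mem (hEF _ hwE)) hf, ?_⟩
    · rw [← ivInc_coeff, hU', HahnSeries.C_mul_eq_smul, HahnSeries.coeff_smul, smul_eq_mul]
      exact E.mul_mem (E.inv_mem hwE) (h₁.coeff_mem n)
    · rw [map_mul, map_inv₀, hcst, hfU, hU', ← map_inv₀]
  refine ⟨mul_mem hgF (inv_mem (hEF _ hwE)), U', U₂, hU'int, h₂, hne, ?_⟩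
  rw [map_mul, map_inv₀, hcst, hU', ← heq, map_inv₀]
  ring

end Constants

end Rel

/-! ### Gauss normalisation -/

section Normalise

variable {K : Type*} [Field K] {A : ValuationSubring K}
variable {Ω : Type*} [Field Ω] {ι : Ω →+* LaurentSeries K}
variable (cst : K →+* Ω) (hcst : ∀ c : K, ι (cst c) = HahnSeries.C c)

include hcst

/-- **Gauss normalisation.**  A nontrivial `K`-linear relation between elements `g m` having
reductions `gb m` gives a nontrivial `κ`-linear relation between the reductions (divide by the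
coefficient of largest absolute value; all quotients lie in the valuation ring `A`). -/
theorem exists_reduced_relation {σ : Type*} (s : Finset σ) (c : σ → K) (g : σ → Ω)
    (gb : σ → LaurentSeries (IsLocalRing.ResidueField A))
    (hg : ∀ m ∈ s, (g m, gb m) ∈ sepRel A ⊤ ι ⊤)
    (hc : ∃ m ∈ s, c m ≠ 0) (hsum : ∑ m ∈ s, cst (c m) * g m = 0) :
    ∃ d : σ → IsLocalRing.ResidueField A, (∃ m ∈ s, d m = 1) ∧
      ∑ m ∈ s, HahnSeries.C (d m) * gb m = 0 := by
  classical
  obtain ⟨m₀, hm₀s, hm₀⟩ := hc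
  have hne : (s.filter (fun m => c m ≠ 0)).Nonempty :=
    ⟨m₀, Finset.mem_filter.mpr ⟨hm₀s, hm₀⟩⟩
  obtain ⟨m₁, hm₁, hmax⟩ := Finset.exists_max_image _ (fun m => A.valuation (c m)) hne
  obtain ⟨hm₁s, hc₁⟩ := Finset.mem_filter.mp hm₁
  have hv₁ : A.valuation (c m₁) ≠ 0 := (Valuation.ne_zero_iff _).mpr hc₁
  have hle : ∀ m ∈ s, c m / c m₁ ∈ A := by
    intro m hm
    rw [← A.valuation_le_one_iff, map_div₀]
    by_cases h0 : c m = 0
    · rw [h0, map_zero, zero_div]
      exact zero_le_one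
    · exact (div_le_one₀ (zero_lt_iff.mpr hv₁)).mpr (hmax m (Finset.mem_filter.mpr ⟨hm, h0⟩))
  let e : σ → A := fun m => if h : c m / c m₁ ∈ A then ⟨c m / c m₁, h⟩ else 0
  have he : ∀ m ∈ s, ((e m : A) : K) = c m / c m₁ := by
    intro m hm
    simp only [e, dif_pos (hle m hm)]
  refine ⟨fun m => IsLocalRing.residue A (e m), ⟨m₁, hm₁s, ?_⟩, ?_⟩
  · have h1 : e m₁ = 1 := Subtype.ext (by rw [he m₁ hm₁s, div_self hc₁]; rfl)
    show IsLocalRing.residue A (e m₁) = 1
    rw [h1, map_one]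
  · have hmem : ∑ m ∈ s, ((cst ((e m : A) : K), HahnSeries.C (IsLocalRing.residue A (e m))) :
        Ω × LaurentSeries (IsLocalRing.ResidueField A)) * (g m, gb m) ∈ sepRel A ⊤ ι ⊤ :=
      sum_mem fun m hm => mul_mem
        (sepRel_cst cst hcst (fun _ _ => Subfield.mem_top _) (e m) (Subfield.mem_top _)) (hg m hm)
    have h1 : (∑ m ∈ s, ((cst ((e m : A) : K), HahnSeries.C (IsLocalRing.residue A (e m))) :
        Ω × LaurentSeries (IsLocalRing.ResidueField A)) * (g m, gb m)) =
        (0, ∑ m ∈ s, HahnSeries.C (IsLocalRing.residue A (e m)) * gb m) := by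
      apply Prod.ext
      · rw [Prod.fst_sum]
        simp only [Prod.mk_mul_mk]
        have h2 : ∀ m ∈ s, cst ((e m : A) : K) * g m = (cst (c m₁))⁻¹ * (cst (c m) * g m) := by
          intro m hm
          rw [he m hm, map_div₀]
          ring
        rw [Finset.sum_congr rfl h2, ← Finset.mul_sum, hsum, mul_zero]
      · rw [Prod.snd_sum]
        simp only [Prod.mk_mul_mk]
    rw [h1] at hmem
    exact sepRel_zero_left hmem

/-- The bivariate form: a nonzero `P ∈ K[X][Y]` with `P(x, f) = 0` gives a nontrivial relation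
`∑ d(i,k) x̄^k f̄^i = 0` over the residue field. -/
theorem exists_reduced_biRel {x f : Ω} {xb a : LaurentSeries (IsLocalRing.ResidueField A)}
    (hx : (x, xb) ∈ sepRel A ⊤ ι ⊤) (hf : (f, a) ∈ sepRel A ⊤ ι ⊤)
    (P : Polynomial (Polynomial K)) (hP : P ≠ 0)
    (hPf : P.eval₂ (Polynomial.eval₂RingHom cst x) f = 0) :
    ∃ (N₁ N₂ : ℕ) (d : ℕ × ℕ → IsLocalRing.ResidueField A),
      (∃ m ∈ Finset.range N₁ ×ˢ Finset.range N₂, d m = 1) ∧
      ∑ m ∈ Finset.range N₁ ×ˢ Finset.range N₂, HahnSeries.C (d m) * (xb ^ m.2 * a ^ m.1) = 0 := by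
  classical
  set N₁ := P.natDegree + 1 with hN₁
  set N₂ := (Finset.range N₁).sup (fun i => (P.coeff i).natDegree) + 1 with hN₂
  have hdeg : ∀ i ∈ Finset.range N₁, (P.coeff i).natDegree < N₂ := by
    intro i hi
    rw [hN₂, Nat.lt_succ_iff]
    exact Finset.le_sup (f := fun i => (P.coeff i).natDegree) hi
  have hg : ∀ m ∈ Finset.range N₁ ×ˢ Finset.range N₂,
      (x ^ m.2 * f ^ m.1, xb ^ m.2 * a ^ m.1) ∈ sepRel A ⊤ ι ⊤ := by
    intro m _
    have h1 : ((x, xb) : Ω × LaurentSeries (IsLocalRing.ResidueField A)) ^ m.2 * (f, a) ^ m.1 ∈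
        sepRel A ⊤ ι ⊤ := mul_mem (pow_mem hx _) (pow_mem hf _)
    have h2 : ((x, xb) : Ω × LaurentSeries (IsLocalRing.ResidueField A)) ^ m.2 * (f, a) ^ m.1 =
        (x ^ m.2 * f ^ m.1, xb ^ m.2 * a ^ m.1) := by
      rw [Prod.pow_mk, Prod.pow_mk, Prod.mk_mul_mk]
    rwa [h2] at h1
  have hc : ∃ m ∈ Finset.range N₁ ×ˢ Finset.range N₂, (P.coeff m.1).coeff m.2 ≠ 0 := by
    have hlc : P.coeff P.natDegree ≠ 0 := by
      rw [Polynomial.coeff_natDegree]
      exact Polynomial.leadingCoeff_ne_zero.mpr hP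
    have hlc' : (P.coeff P.natDegree).coeff (P.coeff P.natDegree).natDegree ≠ 0 := by
      rw [Polynomial.coeff_natDegree]
      exact Polynomial.leadingCoeff_ne_zero.mpr hlc
    have hi : P.natDegree ∈ Finset.range N₁ := Finset.mem_range.mpr (Nat.lt_succ_self _)
    exact ⟨(P.natDegree, (P.coeff P.natDegree).natDegree),
      Finset.mem_product.mpr ⟨hi, Finset.mem_range.mpr (hdeg _ hi)⟩, hlc'⟩
  have hsum : ∑ m ∈ Finset.range N₁ ×ˢ Finset.range N₂,
      cst ((P.coeff m.1).coeff m.2) * (x ^ m.2 * f ^ m.1) = 0 := by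
    rw [Finset.sum_product]
    rw [Polynomial.eval₂_eq_sum_range] at hPf
    rw [← hPf]
    refine Finset.sum_congr rfl fun i hi => ?_
    rw [Polynomial.coe_eval₂RingHom, Polynomial.eval₂_eq_sum_range' cst (hdeg i hi),
      Finset.sum_mul]
    refine Finset.sum_congr rfl fun k _ => ?_
    ring
  obtain ⟨d, hd1, hd2⟩ := exists_reduced_relation (A := A) (ι := ι) cst hcst
    (Finset.range N₁ ×ˢ Finset.range N₂) (fun m : ℕ × ℕ => (P.coeff m.1).coeff m.2)
    (fun m : ℕ × ℕ => x ^ m.2 * f ^ m.1) (fun m : ℕ × ℕ => xb ^ m.2 * a ^ m.1) hg hc hsum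
  exact ⟨N₁, N₂, d, hd1, hd2⟩

end Normalise

/-! ### Algebraicity of the reduction -/

section Alg

variable {κ : Type*} [Field κ]

/-- A Laurent series of nonzero order is transcendental over the coefficient field
(polynomial form). -/
theorem sum_C_mul_pow_ne_zero (xb : LaurentSeries κ) (hord : xb.order ≠ 0) (N : ℕ) (d : ℕ → κ)
    (hd : ∃ k < N, d k ≠ 0) : ∑ k ∈ Finset.range N, HahnSeries.C (d k) * xb ^ k ≠ 0 := by
  classical
  have hxb : xb ≠ 0 := by
    rintro rfl
    exact hord HahnSeries.order_zero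
  set v := HahnSeries.addVal ℤ κ with hv
  have hvx : v xb = ((xb.order : ℤ) : WithTop ℤ) := HahnSeries.addVal_apply_of_ne hxb
  have hvC : ∀ c : κ, c ≠ 0 → v (HahnSeries.C c) = ((0 : ℤ) : WithTop ℤ) := by
    intro c hc
    have h1 : (HahnSeries.C c : LaurentSeries κ) ≠ 0 := by
      rw [HahnSeries.C_apply]
      exact HahnSeries.single_ne_zero hc
    rw [hv, HahnSeries.addVal_apply_of_ne h1, HahnSeries.C_apply, HahnSeries.order_single hc]
  have hvt : ∀ k, d k ≠ 0 → v (HahnSeries.C (d k) * xb ^ k) = (((k : ℤ) * xb.order : ℤ) : WithTop ℤ) := by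
    intro k hk
    rw [AddValuation.map_mul, AddValuation.map_pow, hvC _ hk, hvx, ← WithTop.coe_nsmul,
      ← WithTop.coe_add, zero_add, nsmul_eq_mul]
  have hsplit : ∑ k ∈ Finset.range N, HahnSeries.C (d k) * xb ^ k =
      ∑ k ∈ (Finset.range N).filter (fun k => d k ≠ 0), HahnSeries.C (d k) * xb ^ k := by
    rw [Finset.sum_filter]
    refine Finset.sum_congr rfl fun k _ => ?_
    by_cases hk : d k = 0
    · simp [hk]
    · simp [hk]
  rw [hsplit]
  obtain ⟨k₀, hk₀N, hk₀⟩ := hd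
  refine Fermat.Agent.S18.H264.sum_ne_zero_of_val_injOn v _ _
    ⟨k₀, Finset.mem_filter.mpr ⟨Finset.mem_range.mpr hk₀N, hk₀⟩⟩ ?_ ?_
  · intro k hk
    have hk' := (Finset.mem_filter.mp hk).2
    refine mul_ne_zero ?_ (pow_ne_zero _ hxb)
    rw [HahnSeries.C_apply]
    exact HahnSeries.single_ne_zero hk'
  · intro i hi j hj hij
    rw [hvt i (Finset.mem_filter.mp hi).2, hvt j (Finset.mem_filter.mp hj).2] at hij
    have h1 : (i : ℤ) * xb.order = (j : ℤ) * xb.order := WithTop.coe_injective hij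
    exact Nat.cast_injective (mul_right_cancel₀ hord h1)

variable (ℓ : ℕ) [hℓ : Fact ℓ.Prime] [Algebra (ZMod ℓ) κ] [Algebra.IsAlgebraic (ZMod ℓ) κ]

/-- A nontrivial relation `∑ d(i,k) x̄^k ā^i = 0` with coefficients in `κ` (algebraic over
`𝔽_ℓ`) and `ord x̄ ≠ 0` makes `ā` algebraic over `𝔽_ℓ(x̄)`. -/
theorem isAlgebraic_of_biRel (xb a : LaurentSeries κ) (hord : xb.order ≠ 0) (N₁ N₂ : ℕ)
    (d : ℕ × ℕ → κ) (hd : ∃ m ∈ Finset.range N₁ ×ˢ Finset.range N₂, d m = 1)
    (hsum : ∑ m ∈ Finset.range N₁ ×ˢ Finset.range N₂,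
      HahnSeries.C (d m) * (xb ^ m.2 * a ^ m.1) = 0) :
    IsAlgebraic (IntermediateField.adjoin (ZMod ℓ) {xb}) a := by
  classical
  set J := IntermediateField.adjoin (ZMod ℓ) {xb} with hJ
  set Ja := algebraicClosure J (LaurentSeries κ) with hJa
  -- constants and `x̄` lie in `Ja`
  have hC : ∀ c : κ, (HahnSeries.C c : LaurentSeries κ) ∈ Ja := by
    intro c
    rw [hJa, mem_algebraicClosure_iff]
    obtain ⟨p, hp0, hpc⟩ := (Algebra.IsAlgebraic.isAlgebraic c : IsAlgebraic (ZMod ℓ) c)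
    refine ⟨p.map (algebraMap (ZMod ℓ) J),
      (Polynomial.map_ne_zero_iff (algebraMap (ZMod ℓ) J).injective).mpr hp0, ?_⟩
    rw [aeval_def, Polynomial.eval₂_map]
    have hc : (algebraMap J (LaurentSeries κ)).comp (algebraMap (ZMod ℓ) J) =
        (HahnSeries.C : κ →+* LaurentSeries κ).comp (algebraMap (ZMod ℓ) κ) :=
      RingHom.ext_zmod _ _
    rw [hc, ← Polynomial.hom_eval₂, ← aeval_def, hpc, map_zero]
  have hxJa : xb ∈ Ja := by
    rw [hJa, mem_algebraicClosure_iff]
    exact isAlgebraic_algebraMap (⟨xb, IntermediateField.mem_adjoin_simple_self _ _⟩ : J)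
  -- the coefficients `q i = ∑_k d(i,k) x̄^k`
  set q : ℕ → LaurentSeries κ := fun i => ∑ k ∈ Finset.range N₂, HahnSeries.C (d (i, k)) * xb ^ k
    with hq
  have hqJa : ∀ i, q i ∈ Ja := fun i =>
    sum_mem fun k _ => mul_mem (hC _) (pow_mem hxJa k)
  have hrel : ∑ i ∈ Finset.range N₁, q i * a ^ i = 0 := by
    rw [← hsum, Finset.sum_product]
    refine Finset.sum_congr rfl fun i _ => ?_
    rw [hq, Finset.sum_mul]
    refine Finset.sum_congr rfl fun k _ => ?_
    ring
  obtain ⟨m₁, hm₁, hdm₁⟩ := hd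
  obtain ⟨hi₁, hk₁⟩ := Finset.mem_product.mp hm₁
  have hq₁ : q m₁.1 ≠ 0 := by
    apply sum_C_mul_pow_ne_zero xb hord N₂ (fun k => d (m₁.1, k))
    exact ⟨m₁.2, Finset.mem_range.mp hk₁, by rw [Prod.mk.eta, hdm₁]; exact one_ne_zero⟩
  -- the polynomial over `Ja`
  set Q : Polynomial Ja := ∑ i ∈ Finset.range N₁, Polynomial.C (⟨q i, hqJa i⟩ : Ja) * Polynomial.X ^ i
    with hQ
  have hQcoeff : Q.coeff m₁.1 = ⟨q m₁.1, hqJa m₁.1⟩ := by
    rw [hQ, Polynomial.finsetSum_coeff]
    simp only [Polynomial.coeff_C_mul, Polynomial.coeff_X_pow]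
    rw [Finset.sum_eq_single m₁.1]
    · simp
    · intro i _ hi
      rw [if_neg (fun h => hi h.symm), mul_zero]
    · intro h
      exact absurd hi₁ h
  have hQ0 : Q ≠ 0 := by
    intro h
    apply hq₁
    have := hQcoeff
    rw [h, Polynomial.coeff_zero] at this
    exact (congrArg Subtype.val this).symm
  have hQa : Polynomial.aeval a Q = 0 := by
    rw [hQ, map_sum, ← hrel]
    refine Finset.sum_congr rfl fun i _ => ?_
    rw [map_mul, Polynomial.aeval_C, map_pow, Polynomial.aeval_X]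
    rfl
  have h1 : IsAlgebraic Ja a := ⟨Q, hQ0, hQa⟩
  exact IsAlgebraic.restrictScalars J h1

end Alg

/-! ### Clearing denominators -/

section Clear

variable {K : Type*} [Field K] {Ω : Type*} [Field Ω]

/-- An element algebraic over the subfield generated by constants and `x` satisfies a nontrivial
bivariate polynomial relation `P(x, f) = 0`, `P ∈ K[X][Y]`. -/
theorem exists_biPoly_of_isAlgebraic (cst : K →+* Ω) (Ec : Subfield Ω)
    (hEc : ∀ e ∈ Ec, ∃ c : K, cst c = e) (x f : Ω)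
    (hf : IsAlgebraic (Subfield.closure ((Ec : Set Ω) ∪ {x})) f) :
    ∃ P : Polynomial (Polynomial K), P ≠ 0 ∧
      P.eval₂ (Polynomial.eval₂RingHom cst x) f = 0 := by
  classical
  set φ : Polynomial K →+* Ω := Polynomial.eval₂RingHom cst x with hφ
  have hB : ∀ y : Ω, ∃ u v : Polynomial K, y ∈ Subfield.closure ((Ec : Set Ω) ∪ {x}) →
      φ v ≠ 0 ∧ y * φ v = φ u := by
    intro y
    by_cases hy : y ∈ Subfield.closure ((Ec : Set Ω) ∪ {x})
    · have hsub : Subring.closure ((Ec : Set Ω) ∪ {x}) ≤ φ.range := by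
        rw [Subring.closure_le]
        rintro z (hz | hz)
        · obtain ⟨c, rfl⟩ := hEc z hz
          exact ⟨Polynomial.C c, by rw [hφ, Polynomial.coe_eval₂RingHom, Polynomial.eval₂_C]⟩
        · rw [Set.mem_singleton_iff] at hz
          subst hz
          exact ⟨Polynomial.X, by rw [hφ, Polynomial.coe_eval₂RingHom, Polynomial.eval₂_X]⟩
      obtain ⟨u', hu', v', hv', rfl⟩ := Subfield.mem_closure_iff.mp hy
      obtain ⟨u, rfl⟩ := hsub hu'
      obtain ⟨v, rfl⟩ := hsub hv'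
      by_cases hv0 : φ v = 0
      · refine ⟨0, 1, fun _ => ⟨?_, ?_⟩⟩
        · rw [map_one]; exact one_ne_zero
        · rw [hv0, div_zero, zero_mul, map_zero]
      · exact ⟨u, v, fun _ => ⟨hv0, div_mul_cancel₀ _ hv0⟩⟩
    · exact ⟨0, 1, fun h => absurd h hy⟩
  choose u v huv using hB
  obtain ⟨p, hp0, hpf⟩ := hf
  set n := p.natDegree + 1 with hn
  have hmem : ∀ i, ((p.coeff i : Subfield.closure ((Ec : Set Ω) ∪ {x})) : Ω) ∈
      Subfield.closure ((Ec : Set Ω) ∪ {x}) := fun i => (p.coeff i).2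
  set D : Polynomial K := ∏ j ∈ Finset.range n, v (p.coeff j : Ω) with hD
  have hD0 : φ D ≠ 0 := by
    rw [hD, map_prod]
    exact Finset.prod_ne_zero_iff.mpr fun j _ => (huv _ (hmem j)).1
  set Q : ℕ → Polynomial K := fun i =>
    u (p.coeff i : Ω) * ∏ j ∈ (Finset.range n).erase i, v (p.coeff j : Ω) with hQ
  have hQφ : ∀ i ∈ Finset.range n, φ (Q i) = (p.coeff i : Ω) * φ D := by
    intro i hi
    rw [hQ, hD, map_mul, ← (huv _ (hmem i)).2, mul_assoc, ← map_mul,
      Finset.mul_prod_erase (Finset.range n) (fun j => v (p.coeff j : Ω)) hi]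
  set P : Polynomial (Polynomial K) :=
    ∑ i ∈ Finset.range n, Polynomial.C (Q i) * Polynomial.X ^ i with hP
  have hPcoeff : P.coeff p.natDegree = Q p.natDegree := by
    rw [hP, Polynomial.finsetSum_coeff]
    simp only [Polynomial.coeff_C_mul, Polynomial.coeff_X_pow]
    rw [Finset.sum_eq_single p.natDegree]
    · simp
    · intro i _ hi
      rw [if_neg (fun h => hi h.symm), mul_zero]
    · intro h
      exact absurd (Finset.mem_range.mpr (Nat.lt_succ_self _)) h
  refine ⟨P, ?_, ?_⟩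
  · intro h
    have h1 : Q p.natDegree = 0 := by rw [← hPcoeff, h, Polynomial.coeff_zero]
    have h2 := hQφ p.natDegree (Finset.mem_range.mpr (Nat.lt_succ_self _))
    rw [h1, map_zero] at h2
    rcases mul_eq_zero.mp h2.symm with h3 | h3
    · apply hp0
      rw [← Polynomial.leadingCoeff_eq_zero, Polynomial.leadingCoeff]
      exact Subtype.ext h3
    · exact hD0 h3
  · rw [hP, Polynomial.eval₂_finsetSum]
    have h1 : ∀ i ∈ Finset.range n,
        (Polynomial.C (Q i) * Polynomial.X ^ i).eval₂ φ f = φ D * ((p.coeff i : Ω) * f ^ i) := by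
      intro i hi
      rw [Polynomial.eval₂_mul, Polynomial.eval₂_C, Polynomial.eval₂_pow, Polynomial.eval₂_X,
        hQφ i hi]
      ring
    rw [Finset.sum_congr rfl h1, ← Finset.mul_sum]
    have h2 : ∑ i ∈ Finset.range n, (p.coeff i : Ω) * f ^ i = Polynomial.aeval f p := by
      rw [Polynomial.aeval_def, Polynomial.eval₂_eq_sum_range]
      rfl
    rw [h2, hpf, mul_zero]

/-- A subfield `F` which is a finitely generated module over a subfield `k₀ ≤ F` is algebraic
over `k₀`. -/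
theorem isAlgebraic_of_span_finite (k₀ F : Subfield Ω) (hk : k₀ ≤ F)
    (hfin : ∃ s : Finset Ω, (s : Set Ω) ⊆ F ∧ ∀ f ∈ F, f ∈ Submodule.span k₀ (s : Set Ω))
    {f : Ω} (hf : f ∈ F) : IsAlgebraic k₀ f := by
  obtain ⟨s, hsF, hspan⟩ := hfin
  let S : Subalgebra k₀ Ω :=
    { F.toSubring.toSubsemiring with
      algebraMap_mem' := fun r => hk r.2 }
  have hS : ∀ y, y ∈ S ↔ y ∈ F := fun y => Iff.rfl
  have hFG : S.toSubmodule.FG := by
    refine ⟨s, le_antisymm ?_ ?_⟩
    · rw [Submodule.span_le]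
      intro y hy
      exact (hS y).mpr (hsF hy)
    · intro y hy
      exact hspan y ((hS y).mp hy)
  exact (IsIntegral.of_mem_of_fg S hFG f ((hS f).mpr hf)).isAlgebraic

end Clear

/-! ### The residue field of a valuation ring of an algebraic extension of `ℚ` -/

section ResAlg

variable {K : Type*} [Field K] [Algebra ℚ K] [Algebra.IsAlgebraic ℚ K] (A : ValuationSubring K)
  (ℓ : ℕ) [hℓ : Fact ℓ.Prime] [Algebra (ZMod ℓ) (IsLocalRing.ResidueField A)]

/-- The residue field of a valuation ring of an algebraic extension of `ℚ`, of residue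
characteristic `ℓ`, is algebraic over `𝔽_ℓ` (generic form of `S18.H264.isAlgebraic_residue_zmod`). -/
theorem residue_isAlgebraic_zmod : Algebra.IsAlgebraic (ZMod ℓ) (IsLocalRing.ResidueField A) := by
  refine ⟨fun c => ?_⟩
  obtain ⟨a, rfl⟩ := IsLocalRing.residue_surjective c
  have halgQ : IsAlgebraic ℚ (a : K) := Algebra.IsAlgebraic.isAlgebraic _
  have hchar0 : CharZero K := algebraRat.charZero K
  have halgZ : IsAlgebraic ℤ (a : K) := (IsFractionRing.isAlgebraic_iff ℤ ℚ K).mpr halgQ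
  obtain ⟨p, hp0, hpa⟩ := halgZ
  have hq0 : p.primPart ≠ 0 := primPart_ne_zero p
  have hqa : aeval (a : K) p.primPart = 0 := aeval_primPart_eq_zero hp0 hpa
  have hqA : Polynomial.eval₂ (Int.castRingHom A) a p.primPart = 0 := by
    apply Subtype.ext
    have h := Polynomial.hom_eval₂ p.primPart (Int.castRingHom A) A.subtype a
    rw [ZeroMemClass.coe_zero, ← hqa, aeval_def]
    have hc : (A.subtype).comp (Int.castRingHom A) = algebraMap ℤ K := RingHom.ext_int _ _
    rw [← hc]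
    exact h
  refine ⟨p.primPart.map (Int.castRingHom (ZMod ℓ)), ?_, ?_⟩
  · intro h0
    have hdvd : Polynomial.C (ℓ : ℤ) ∣ p.primPart := by
      rw [C_dvd_iff_dvd_coeff]
      intro i
      have := congrArg (fun r => r.coeff i) h0
      simp only [Polynomial.coeff_map, Polynomial.coeff_zero, eq_intCast] at this
      exact (ZMod.intCast_zmod_eq_zero_iff_dvd _ _).mp this
    have hu := (isPrimitive_iff_isUnit_of_C_dvd.mp (isPrimitive_primPart p)) _ hdvd
    have := Int.isUnit_iff.mp hu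
    have h2 := hℓ.out.two_le
    omega
  · rw [aeval_def, Polynomial.eval₂_map]
    have hc : (algebraMap (ZMod ℓ) (IsLocalRing.ResidueField A)).comp
        (Int.castRingHom (ZMod ℓ)) = (IsLocalRing.residue A).comp (Int.castRingHom A) :=
      RingHom.ext_int _ _
    rw [hc, ← Polynomial.hom_eval₂, hqA, map_zero]

end ResAlg

/-! ### The field `separable` -/

section Main

open Fermat.Agent.S18.Alg Fermat.Agent.S18.Mod.H216

variable {K : Type*} [Field K] {A : ValuationSubring K} {E : Subfield K}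
variable {Ω : Type*} [Field Ω] {ι : Ω →+* LaurentSeries K} {F : Subfield Ω}
variable (cst : K →+* Ω) (hcst : ∀ c : K, ι (cst c) = HahnSeries.C c)
  (hEF : ∀ c ∈ E, cst c ∈ F)

section WithAlg

variable (ℓ : ℕ) [hℓ : Fact ℓ.Prime] [Algebra (ZMod ℓ) (IsLocalRing.ResidueField A)]
  [Algebra.IsAlgebraic (ZMod ℓ) (IsLocalRing.ResidueField A)]

include hcst in
/-- **Algebraicity of reductions.**  If `f` satisfies a nontrivial relation `P(x, f) = 0`,
`P ∈ K[X][Y]`, then every reduction `f̄` of `f` is algebraic over `𝔽_ℓ(x̄)`, as soon as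
`ord x̄ ≠ 0`.  (Gauss normalisation; no `CoreData`, no degree count.) -/
theorem isAlgebraic_red_of_biRel {x f : Ω} {xb a : LaurentSeries (IsLocalRing.ResidueField A)}
    (hx : (x, xb) ∈ sepRel A E ι F) (hf : (f, a) ∈ sepRel A E ι F) (hord : xb.order ≠ 0)
    (P : Polynomial (Polynomial K)) (hP : P ≠ 0)
    (hPf : P.eval₂ (Polynomial.eval₂RingHom cst x) f = 0) :
    IsAlgebraic (IntermediateField.adjoin (ZMod ℓ) {xb}) a := by
  obtain ⟨N₁, N₂, d, hd, hsum⟩ := exists_reduced_biRel cst hcst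
    (sepRel_mono le_top le_top hx) (sepRel_mono le_top le_top hf) P hP hPf
  exact isAlgebraic_of_biRel ℓ xb a hord N₁ N₂ d hd hsum

include hcst hEF in
/-- **The field `separable` of `Alg.GoodModel` for the Gauss valuation ring `VRing A E ι F`.**
`w₀ ∈ E` generates the maximal ideal of `A ∩ E` (`hgen`, e.g. `H248.IsUnifG.gen`), the coordinate
`x` is an integral series `X₀` with `ℓ ∤ ord (X̄₀)`, and every element of `F` satisfies a
nontrivial bivariate relation over `K(x)`.  The polynomial has coefficients in `ℤ[x]`, so `R` is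
an arbitrary subring. -/
theorem separable_VRing {w₀ : K} (hwE : w₀ ∈ E) (hw0 : w₀ ≠ 0)
    (hgen : ∀ c : K, c ∈ A → c ∈ E → c⁻¹ ∉ A → c * w₀⁻¹ ∈ A)
    {x : Ω} {X₀ : LaurentSeries A} (hX₀ : IsInt A E ι F X₀) (hx : ι x = ivInc A X₀)
    (hn : ¬ (ℓ : ℤ) ∣ (ivRed A X₀).order)
    (halg : ∀ f ∈ F, ∃ P : Polynomial (Polynomial K), P ≠ 0 ∧
      P.eval₂ (Polynomial.eval₂RingHom cst x) f = 0)
    (R : Subring Ω) :
    ∀ f ∈ VRing A E ι F, ∃ P : Polynomial Ω,
      (∀ i, P.coeff i ∈ Subring.closure ((R : Set Ω) ∪ {x})) ∧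
      P.eval f * (cst w₀)⁻¹ ∈ VRing A E ι F ∧ (derivative P).eval f ≠ 0 ∧
      ((derivative P).eval f)⁻¹ ∈ VRing A E ι F := by
  intro f hf
  obtain ⟨a, ha⟩ := exists_sepRel_of_mem_VRing hf
  obtain ⟨P, hP, hPf⟩ := halg f (VRing_le A E ι F hf)
  have hord : (ivRed A X₀).order ≠ 0 := fun h => hn (by rw [h]; exact dvd_zero _)
  have hxb0 : ivRed A X₀ ≠ 0 := by
    intro h
    exact hord (by rw [h]; exact HahnSeries.order_zero)
  have hxrel := sepRel_of_isInt hX₀ hx
  have halg' := isAlgebraic_red_of_biRel cst hcst ℓ hxrel ha hord P hP hPf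
  have hv : HahnSeries.addVal ℤ (IsLocalRing.ResidueField A) (ivRed A X₀) =
      (((ivRed A X₀).order : ℤ) : WithTop ℤ) := HahnSeries.addVal_apply_of_ne hxb0
  exact Fermat.Agent.S18.H264.exists_poly_of_graph_sep ℓ (HahnSeries.addVal ℤ _)
    (sepRel A E ι F) (VRing A E ι F) R (cst w₀) x f (ivRed A X₀) a hxrel ha
    (fun g hg => sepRel_ker cst hcst hEF hwE hw0 hgen hg)
    (fun g b hg hb => sepRel_unit hg hb) _ hv hn halg'

include hcst hEF in
/-- The same with the uniformiser given as an element `w` of `RcG A E cst` satisfying the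
fields `w_ne_zero`, `w_gen` of `S18.Mod.H216.PartR`. -/
theorem separable_VRing_of_mem_RcG {w : Ω} (hw : w ∈ RcG A E cst) (hw0 : w ≠ 0)
    (hgen : ∀ r ∈ RcG A E cst, r⁻¹ ∉ RcG A E cst → r * w⁻¹ ∈ RcG A E cst)
    {x : Ω} {X₀ : LaurentSeries A} (hX₀ : IsInt A E ι F X₀) (hx : ι x = ivInc A X₀)
    (hn : ¬ (ℓ : ℤ) ∣ (ivRed A X₀).order)
    (halg : ∀ f ∈ F, ∃ P : Polynomial (Polynomial K), P ≠ 0 ∧
      P.eval₂ (Polynomial.eval₂RingHom cst x) f = 0)
    (R : Subring Ω) :
    ∀ f ∈ VRing A E ι F, ∃ P : Polynomial Ω,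
      (∀ i, P.coeff i ∈ Subring.closure ((R : Set Ω) ∪ {x})) ∧
      P.eval f * w⁻¹ ∈ VRing A E ι F ∧ (derivative P).eval f ≠ 0 ∧
      ((derivative P).eval f)⁻¹ ∈ VRing A E ι F := by
  obtain ⟨w₀, hw₀A, hw₀E, rfl⟩ := (mem_RcG_iff cst).mp hw
  have hw₀0 : w₀ ≠ 0 := by
    rintro rfl
    exact hw0 (map_zero _)
  have hgen' : ∀ c : K, c ∈ A → c ∈ E → c⁻¹ ∉ A → c * w₀⁻¹ ∈ A := by
    intro c hcA hcE hinv
    have h1 : cst c ∈ RcG A E cst := (mem_RcG_iff cst).mpr ⟨c, hcA, hcE, rfl⟩
    have h2 : (cst c)⁻¹ ∉ RcG A E cst := by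
      intro h
      obtain ⟨b, hbA, -, hb⟩ := (mem_RcG_iff cst).mp h
      apply hinv
      have : b = c⁻¹ := cst.injective (by rw [hb, map_inv₀])
      rw [← this]
      exact hbA
    obtain ⟨b, hbA, -, hb⟩ := (mem_RcG_iff cst).mp (hgen _ h1 h2)
    have : b = c * w₀⁻¹ := cst.injective (by rw [hb, map_mul, map_inv₀])
    rw [← this]
    exact hbA
  exact separable_VRing cst hcst hEF ℓ hw₀E hw₀0 hgen' hX₀ hx hn halg R

end WithAlg

include hcst hEF in
/-- **G-SEP for the Gauss valuation ring `VRing A E ι F`, in the shape of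
`S18.Mod.H216.PartSep`**, from the fields `w_mem w_ne_zero w_gen` of `PartR` and the field
`finite` of `PartFld`.  `K` is algebraic over `ℚ` (`K = Q̄`), the residue field of `A` has
characteristic `ℓ`, the coordinate `x` is an integral series with `ℓ ∤ ord (x̄)`
(`x = j`: order `-1` in `q`, order `-M` in `X = q^{1/M}`, `ℓ ∤ M`). -/
theorem partSep_VRing_of_finite [Algebra ℚ K] [Algebra.IsAlgebraic ℚ K] (ℓ : ℕ)
    [hℓ : Fact ℓ.Prime] [CharP (IsLocalRing.ResidueField A) ℓ]
    {w : Ω} (hw : w ∈ RcG A E cst) (hw0 : w ≠ 0)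
    (hgen : ∀ r ∈ RcG A E cst, r⁻¹ ∉ RcG A E cst → r * w⁻¹ ∈ RcG A E cst)
    {x : Ω} {X₀ : LaurentSeries A} (hX₀ : IsInt A E ι F X₀) (hx : ι x = ivInc A X₀)
    (hn : ¬ (ℓ : ℤ) ∣ (ivRed A X₀).order)
    (hfin : ∃ s : Finset Ω, (s : Set Ω) ⊆ F ∧
      ∀ f ∈ F, f ∈ Submodule.span (ratField (EcG E cst) x) (s : Set Ω)) :
    PartSep (RcG A E cst) (VRing A E ι F) w x := by
  let _ : Algebra (ZMod ℓ) (IsLocalRing.ResidueField A) := ZMod.algebra _ ℓ
  have := residue_isAlgebraic_zmod A ℓ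
  have hxF : x ∈ F := by
    obtain ⟨f, hf, hfU⟩ := hX₀.2
    have hxf : x = f := ι.injective (by rw [hx, hfU])
    exact hxf ▸ hf
  have hk : ratField (EcG E cst) x ≤ F := by
    unfold ratField
    rw [Subfield.closure_le]
    rintro z (hz | hz)
    · obtain ⟨c, hc, rfl⟩ := (mem_EcG_iff cst).mp hz
      exact hEF c hc
    · rw [Set.mem_singleton_iff] at hz
      rw [hz]
      exact hxF
  have halg : ∀ f ∈ F, ∃ P : Polynomial (Polynomial K), P ≠ 0 ∧
      P.eval₂ (Polynomial.eval₂RingHom cst x) f = 0 := by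
    intro f hf
    have h1 : IsAlgebraic (ratField (EcG E cst) x) f :=
      isAlgebraic_of_span_finite _ F hk hfin hf
    exact exists_biPoly_of_isAlgebraic cst (EcG E cst)
      (fun e he => by
        obtain ⟨c, -, hc⟩ := (mem_EcG_iff cst).mp he
        exact ⟨c, hc⟩) x f h1
  exact ⟨separable_VRing_of_mem_RcG cst hcst hEF ℓ hw hw0 hgen hX₀ hx hn halg _⟩

end Main

end Fermat.Agent.S48.H128

end
end
-- ===== PACK-END S48/H128/SepGen.lean

-- ===== PACK-BEGIN S48/H828/IActRoof.lean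
section


/-!
# S48 / Tower A1 / IGUSA1 (helper828), part 8a: transport of the `q`-expansion principle
along a roof `Ω₁ --φ--> Ω₂ <--θ-- Ω₃`

Language of `S18/Alg/Spec.lean` (`polyRing`, `chart`); Mathlib + `S18/Alg/Spec` only.
(The one-map lemmas are the same as helper608's `IS28Gen` on his branch; restated here with
fresh names so that this file is self-contained.)

* `iact_isIntegral_subring_iff`, `iact_polyRing_map`, `iact_isIntegral_map_iff`,
  `iact_map_mem_chart_iff` : `chart` commutes with field homomorphisms;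
* `iact_mem_of_roof` : the valuation ring `V₁` of `F₁` is cut out by `V₃` along the roof, as soon
  as `V₁ ⊆ V₃` along the roof and `w₃⁻¹ ∉ V₃`;
* `iact_qep_roof` : the `q`-expansion principle for `(F₁, R₁, V₁, w₁, x₁)` inside `Ω₁` gives the
  one for `(F₃, R₃, V₃, w₃, x₃)` inside `Ω₃`.
-/

set_option autoImplicit false

namespace Fermat.Agent.S48.H828

open Fermat.Agent.S18.Alg Polynomial

variable {Ω₁ Ω₂ Ω₃ : Type*} [Field Ω₁] [Field Ω₂] [Field Ω₃]

/-- Integrality over a subring, in terms of polynomials over the ambient field. -/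
theorem iact_isIntegral_subring_iff {Ω : Type*} [Field Ω] (T : Subring Ω) (b : Ω) :
    IsIntegral T b ↔ ∃ p : Polynomial Ω, p.Monic ∧ (∀ i, p.coeff i ∈ T) ∧ p.eval b = 0 := by
  constructor
  · rintro ⟨q, hq, hqb⟩
    refine ⟨q.map T.subtype, hq.map _, fun i => ?_, ?_⟩
    · rw [coeff_map]; exact (q.coeff i).2
    · rw [eval_map]; exact hqb
  · rintro ⟨p, hp, hc, hpb⟩
    have hsub : (↑p.coeffs : Set Ω) ⊆ T := by
      intro c hc'
      obtain ⟨i, _, rfl⟩ := Polynomial.mem_coeffs_iff.mp (by exact_mod_cast hc')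
      exact hc i
    refine ⟨p.toSubring T hsub, (p.monic_toSubring _ _).mpr hp, ?_⟩
    have : eval₂ (algebraMap T Ω) b (p.toSubring T hsub)
        = ((p.toSubring T hsub).map T.subtype).eval b := by
      rw [eval_map]; rfl
    rw [this, p.map_toSubring T hsub, hpb]

/-- `(R.map φ)[φ x] = (R[x]).map φ`. -/
theorem iact_polyRing_map (φ : Ω₁ →+* Ω₂) (R : Subring Ω₁) (x : Ω₁) :
    polyRing (R.map φ) (φ x) = (polyRing R x).map φ := by
  unfold polyRing
  rw [RingHom.map_closure, Set.image_union, Set.image_singleton]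
  rfl

/-- Integrality is transported by a field homomorphism, in both directions. -/
theorem iact_isIntegral_map_iff (φ : Ω₁ →+* Ω₂) (T : Subring Ω₁) (b : Ω₁) :
    IsIntegral (T.map φ) (φ b) ↔ IsIntegral T b := by
  rw [iact_isIntegral_subring_iff, iact_isIntegral_subring_iff]
  constructor
  · rintro ⟨p, hp, hc, hpb⟩
    have hlift : p ∈ Polynomial.lifts φ := by
      rw [Polynomial.lifts_iff_coeff_lifts]
      intro n
      obtain ⟨a, -, ha⟩ := hc n
      exact ⟨a, ha⟩
    obtain ⟨q, hq, -, hqm⟩ := Polynomial.lifts_and_degree_eq_and_monic hlift hp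
    refine ⟨q, hqm, fun i => ?_, ?_⟩
    · obtain ⟨a, haT, ha⟩ := hc i
      have h1 : φ (q.coeff i) = φ a := by
        rw [ha, ← hq, coeff_map]
      rw [φ.injective h1]
      exact haT
    · apply φ.injective
      rw [map_zero, ← hpb, ← hq, eval_map, eval₂_at_apply]
  · rintro ⟨p, hp, hc, hpb⟩
    refine ⟨p.map φ, hp.map _, fun i => ?_, ?_⟩
    · rw [coeff_map]
      exact ⟨p.coeff i, hc i, rfl⟩
    · rw [eval_map, eval₂_at_apply, hpb, map_zero]

/-- The chart of the image is the image of the chart. -/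
theorem iact_map_mem_chart_iff (φ : Ω₁ →+* Ω₂) (F : Subfield Ω₁) (R : Subring Ω₁) (x b : Ω₁) :
    φ b ∈ chart (F.map φ) (R.map φ) (φ x) ↔ b ∈ chart F R x := by
  constructor
  · rintro ⟨⟨b₁, hb₁, hb⟩, hint⟩
    rw [iact_polyRing_map, iact_isIntegral_map_iff] at hint
    have : b₁ = b := φ.injective hb
    exact ⟨this ▸ hb₁, hint⟩
  · rintro ⟨hb₁, hint⟩
    refine ⟨⟨b, hb₁, rfl⟩, ?_⟩
    rw [iact_polyRing_map, iact_isIntegral_map_iff]
    exact hint

/-- An element of the chart of the image comes from the chart. -/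
theorem iact_exists_of_mem_chart_map (φ : Ω₁ →+* Ω₂) (F : Subfield Ω₁) (R : Subring Ω₁)
    (x : Ω₁) {y : Ω₂} (hy : y ∈ chart (F.map φ) (R.map φ) (φ x)) :
    ∃ b ∈ chart F R x, φ b = y := by
  obtain ⟨b, hb, rfl⟩ := hy.1
  exact ⟨b, (iact_map_mem_chart_iff φ F R x b).mp hy, rfl⟩

section Roof

variable (φ : Ω₁ →+* Ω₂) (θ : Ω₃ →+* Ω₂)
  {F₁ : Subfield Ω₁} {R₁ V₁ : Subring Ω₁} {w₁ x₁ : Ω₁}
  {F₃ : Subfield Ω₃} {R₃ V₃ : Subring Ω₃} {w₃ x₃ : Ω₃}

/-- **The Gauss ring upstairs cuts out the Gauss ring downstairs** (along a roof).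
`V₁` total on `F₁`, `w₁` generates its non-units, `V₁ ⊆ V₃` along the roof, `w₃⁻¹ ∉ V₃`. -/
theorem iact_mem_of_roof (hw : θ w₃ = φ w₁)
    (hVtot : ∀ f ∈ F₁, f ∈ V₁ ∨ f⁻¹ ∈ V₁)
    (hVgen : ∀ f ∈ V₁, f⁻¹ ∉ V₁ → f * w₁⁻¹ ∈ V₁)
    (hmap : ∀ f ∈ V₁, ∀ g : Ω₃, θ g = φ f → g ∈ V₃)
    (hw₃ : w₃⁻¹ ∉ V₃) {f : Ω₁} (hf : f ∈ F₁) {g : Ω₃} (hgf : θ g = φ f) (hg : g ∈ V₃) :
    f ∈ V₁ := by
  by_contra hfV
  have hfinv : f⁻¹ ∈ V₁ := (hVtot f hf).resolve_left hfV
  have hf0 : f ≠ 0 := by
    rintro rfl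
    exact hfV V₁.zero_mem
  have h1 : f⁻¹ * w₁⁻¹ ∈ V₁ := hVgen f⁻¹ hfinv (by rwa [inv_inv])
  have hg0 : g ≠ 0 := by
    rintro rfl
    rw [map_zero] at hgf
    exact hf0 ((map_eq_zero φ).mp hgf.symm)
  have h2 : g⁻¹ * w₃⁻¹ ∈ V₃ := by
    refine hmap _ h1 _ ?_
    rw [map_mul, map_mul, map_inv₀, map_inv₀, map_inv₀, map_inv₀, hgf, hw]
  have h3 : g * (g⁻¹ * w₃⁻¹) ∈ V₃ := V₃.mul_mem hg h2
  rw [← mul_assoc, mul_inv_cancel₀ hg0, one_mul] at h3
  exact hw₃ h3

/-- **Transport of the `q`-expansion principle along a roof.** -/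
theorem iact_qep_roof (hF : F₃.map θ = F₁.map φ) (hR : R₃.map θ = R₁.map φ)
    (hx : θ x₃ = φ x₁) (hw : θ w₃ = φ w₁) (hw₁ : w₁ ∈ F₁)
    (hVtot : ∀ f ∈ F₁, f ∈ V₁ ∨ f⁻¹ ∈ V₁)
    (hVgen : ∀ f ∈ V₁, f⁻¹ ∉ V₁ → f * w₁⁻¹ ∈ V₁)
    (hmap : ∀ f ∈ V₁, ∀ g : Ω₃, θ g = φ f → g ∈ V₃)
    (hw₃ : w₃⁻¹ ∉ V₃)
    (hq : ∀ b ∈ chart F₁ R₁ x₁, b * w₁⁻¹ ∈ V₁ → b * w₁⁻¹ ∈ chart F₁ R₁ x₁) :
    ∀ b ∈ chart F₃ R₃ x₃, b * w₃⁻¹ ∈ V₃ → b * w₃⁻¹ ∈ chart F₃ R₃ x₃ := by
  intro b hb hbV
  have h1 : θ b ∈ chart (F₁.map φ) (R₁.map φ) (φ x₁) := by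
    rw [← hF, ← hR, ← hx]
    exact (iact_map_mem_chart_iff θ F₃ R₃ x₃ b).mpr hb
  obtain ⟨b₁, hb₁, hbb⟩ := iact_exists_of_mem_chart_map φ F₁ R₁ x₁ h1
  have h2 : θ (b * w₃⁻¹) = φ (b₁ * w₁⁻¹) := by
    rw [map_mul, map_mul, map_inv₀, map_inv₀, hw, hbb]
  have h3 : b₁ * w₁⁻¹ ∈ V₁ :=
    iact_mem_of_roof φ θ hw hVtot hVgen hmap hw₃ (F₁.mul_mem hb₁.1 (F₁.inv_mem hw₁)) h2 hbV
  have h4 := hq b₁ hb₁ h3
  have h5 : θ (b * w₃⁻¹) ∈ chart (F₃.map θ) (R₃.map θ) (θ x₃) := by
    rw [h2, hF, hR, hx]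
    exact (iact_map_mem_chart_iff φ F₁ R₁ x₁ _).mpr h4
  exact (iact_map_mem_chart_iff θ F₃ R₃ x₃ _).mp h5

end Roof

end Fermat.Agent.S48.H828

end
-- ===== PACK-END S48/H828/IActRoof.lean

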