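import Fermat.Prelude.Def_ModularCurve_PeriodMap
import Mathlib
import Fermat.Prelude.Def_AlgebraicCurve_DivisorClassGroup
import Fermat.Prelude.Def_AlgebraicCurve_DivisorPushPull
import Fermat.Prelude.Def_ModularCurve_X0ModL
import Fermat.Prelude.Def_FLTPrelim_Ramification
import Fermat.Agent.Pack.S48.G0E0L1
import Fermat.Agent.Pack.S48.G0E1L0
import Fermat.Agent.Pack.S48.G0E0L0
import Fermat.Agent.Pack.S48.G0E1L1
import Fermat.Agent.Pack.S48.G0E1L3
import Fermat.Agent.Pack.S48.G0E1L2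
import Fermat.Agent.Pack.S48.G0E0L2
import Fermat.Agent.Pack.S48.G5E0L0
import Fermat.Agent.Pack.S48.G0E0L3

-- ===== PACK-BEGIN S48/Res/Parts.lean
section



/-!
# S48 / RES (Tower A1) — the REMAINING INPUTS of `Top.ResidualStatement`, as `Prop`s

RES deputy architect helper168 (row-lead decisions D1–D8 in `coord/S48-lead.md`).  The chain

  `Res.residual_of_parts (s : Bool) : RawES1Statement s → Occ1Statement s → Top.ResidualStatement`

is PROVED in `Fermat/Agent/S48/Res/Chain.lean` (sorry-free).  A piece is DONE when it proves one of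
the `Prop`s of this file verbatim, for ONE value of the orientation flag `s` (the same for both
pieces).  Objects: `Fermat/Agent/S48/F1/{Defs,Basic}.lean`.

Orientation (details in `coord/S48-F1.md`).  In the model `F1 M ⊆ ℚ((q))` the reduction of the
correspondence `T_p = α_* β^*` is `V + ⟨p⟩ F` with `⟨p⟩ = diamond1 M p` (`P_a ↦ P_{p a}` on
functions, `[z] ↦ [γ z]`, `γ₁₁ ≡ p`, on points), which gives `⟨p⟩ σ² - T_p σ + p = 0`, i.e. `s = true`.
The flag `s = false` (`⟨p⟩⁻¹` instead of `⟨p⟩`) is offered in case the proof of RawES1 produces the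
other orientation (row-lead decision D4); the chain is insensitive to it.
-/

set_option autoImplicit false

noncomputable section

open CongruenceSubgroup ModularCurve AlgebraicCurve
open scoped TensorProduct

namespace Fermat.Agent.S48.Res

open Fermat.Agent.S48.F1 Fermat.Agent.S48.Top

/-- The diamond operator `⟨p⟩^{±1}` on `J₁(M)` (`s = true`: `⟨p⟩`, `s = false`: `⟨p⟩⁻¹`). -/
def diamondS (s : Bool) (M p : ℕ) : Module.End ℤ (J1 M) :=
  if s then diamond1 M (unitOf M p) else diamond1Inv M (unitOf M p)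

/-- The diamond operator `⟨p⟩^{±1}` on `J₁(M)[m]`. -/
def diamondST (s : Bool) (M m p : ℕ) : Module.End ℤ (J1T M m) :=
  if s then diamondT M m (unitOf M p) else diamondInvT M m (unitOf M p)

/-- **RawES1** (port of rows S18 + S37 to `X₁(M)`): RAW Eichler–Shimura with diamond on the
`ℓ`-torsion of `J₁(M)`.  For every prime `p ∤ M ℓ` and every place `A` of `ℚ̄` above `p`:
inertia acts trivially on `J₁(M)[ℓ]`, and every Frobenius `σ` satisfies
`⟨p⟩^{±1} σ² - T_p σ + p = 0`, `T_p = hecke1 M p = α_* β^*`, `⟨p⟩ = diamond1 M p` (on points: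
`[z] ↦ [γ z]`, `γ ∈ Γ₀(M)` with lower right entry `≡ p`). -/
def RawES1Statement (s : Bool) : Prop :=
  ∀ (M ℓ p : ℕ), M ≠ 0 → ℓ.Prime → p.Prime → ¬ p ∣ M * ℓ →
    ∀ A : ValuationSubring (AlgebraicClosure ℚ), A.LiesOverPrime p →
      (∀ σ ∈ A.inertiaSubgroupIn ℚ, ∀ x : J1 M, (ℓ : ℤ) • x = 0 → σ • x = x) ∧
      (∀ σ : AlgebraicClosure ℚ ≃ₐ[ℚ] AlgebraicClosure ℚ, A.IsFrobeniusAt σ p →
        ∀ x : J1 M, (ℓ : ℤ) • x = 0 →
          diamondS s M p (σ • σ • x) - hecke1 M p (σ • x) + (p : ℤ) • x = 0)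

/-- **OCC1** (PACKET + P2 + CHI0 + M4a1 + M4b1 + HCoh1): for every large `ℓ` the eigen-system of
`(f, ε)` occurs in `F ⊗ J₁(M)[ℓ]` for some level `M` with the same prime divisors as `N ℓ`:
a nonzero `v` with `T_p v = d_p ψ(a_p) v`, `⟨p⟩^{±1} v = d_p v`, where `d_p ψ(ε(p)) = p` in `F`
(`d_p = ψ(η(p))⁻¹`, `η = ε ω⁻¹` the nebentypus of `f · E`). -/
def Occ1Statement (s : Bool) : Prop :=
  ∀ (N : ℕ) [NeZero N] (ε : DirichletCharacter ℂ N) (f : CuspForm (Gamma1 N) 1),
    IsEigen N ε f → ∃ B : ℕ, ∀ ℓ : ℕ, ℓ.Prime → B < ℓ →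
      ∀ (F : Type) [Field F] [IsAlgClosed F] [CharP F ℓ] (ψ : Zbar →+* F),
        ∃ (M : ℕ) (a e : ℕ → Zbar) (d : ℕ → F), M ≠ 0 ∧
          (∀ p : ℕ, p.Prime → p ∣ M → p ∣ N * ℓ) ∧
          (∀ p : ℕ, p.Prime → ¬ p ∣ N * ℓ →
            ((a p : Zbar) : ℂ) = ModularFormClass.qCoeff f p ∧
            ((e p : Zbar) : ℂ) = ε (p : ZMod N) ∧ d p * ψ (e p) = (p : F)) ∧
          ∃ v : F ⊗[ℤ] J1T M ℓ, v ≠ 0 ∧ ∀ p : ℕ, p.Prime → ¬ p ∣ N * ℓ →
            (heckeT M ℓ p).baseChange F v = (d p * ψ (a p)) • v ∧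
            (diamondST s M ℓ p).baseChange F v = d p • v

end Fermat.Agent.S48.Res

end
end
-- ===== PACK-END S48/Res/Parts.lean

-- ===== PACK-BEGIN S48/H548/Chi0Ops.lean
section


/-!
# S48 / RES piece CHI0 (helper548): the Hecke algebra of `S_k(Γ₁(M))`

* `Inv1.heckeT1_slash` : `T_p` commutes with the slash action of `Γ₀(M)` (diamond operators);
* `diaL`, `TpL` : the diamond and Hecke operators as `ℂ`-linear endomorphisms of
  `CuspForm (Gamma1 M) k`;
* `heckeGens M k`, `heckeAlg1 M k` : generators and the `ℤ`-algebra they generate.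
-/

set_option autoImplicit false
set_option linter.unusedSectionVars false
set_option linter.deprecated false

noncomputable section

namespace Fermat.Agent.S48.H548

open Matrix.SpecialLinearGroup UpperHalfPlane ModularForm CongruenceSubgroup ModularFormClass
open scoped MatrixGroups ModularForm OnePoint Manifold

variable {N : ℕ} {k : ℤ}

section Comm

variable {p : ℕ} [Fact p.Prime] {f : ℍ → ℂ}

/-- `T_p` commutes with the action of `Γ₀(N)`. -/
theorem Inv1.heckeT1_slash (hpN : ¬ p ∣ N) (hf : Inv1 N k f) (σ : SL(2, ℤ)) (hσ : σ ∈ Gamma0 N)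
    (hσp : ((σ 1 1 : ℤ) : ZMod N) = (p : ZMod N)) (g : SL(2, ℤ)) (hg : g ∈ Gamma0 N) :
    (heckeU k p f + (f ∣[k] mapGL ℝ σ) ∣[k] heckeDiagMatrix p) ∣[k] mapGL ℝ g =
      heckeU k p (f ∣[k] mapGL ℝ g) +
        ((f ∣[k] mapGL ℝ g) ∣[k] mapGL ℝ σ) ∣[k] heckeDiagMatrix p := by
  have hpu : IsUnit ((p : ℕ) : ZMod N) :=
    (ZMod.isUnit_iff_coprime p N).mpr ((Nat.Prime.coprime_iff_not_dvd Fact.out).mpr hpN)
  have hg10 : ((g 1 0 : ℤ) : ZMod N) = 0 := Gamma0_mem.mp hg
  have hgN : (N : ℤ) ∣ g 1 0 := (ZMod.intCast_zmod_eq_zero_iff_dvd _ _).mp hg10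
  rw [heckeT1_eq_sum, heckeT1_eq_sum, SlashAction.sum_slash]
  calc ∑ x : OnePoint (ZMod p),
        ((x.elim (f ∣[k] mapGL ℝ σ) (fun _ ↦ f)) ∣[k] heckeRep p x) ∣[k] mapGL ℝ g
      = ∑ x : OnePoint (ZMod p),
          ((redMatrix p g • x).elim ((f ∣[k] mapGL ℝ g) ∣[k] mapGL ℝ σ)
            (fun _ ↦ f ∣[k] mapGL ℝ g)) ∣[k] heckeRep p (redMatrix p g • x) := by
        refine Finset.sum_congr rfl fun x _ ↦ ?_
        obtain ⟨g', hg'N, hw, hmul⟩ := heckeRep_mul hpN g hgN x
        have hg'0 : g' ∈ Gamma0 N :=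
          Gamma0_mem.mpr ((ZMod.intCast_zmod_eq_zero_iff_dvd _ _).mpr hg'N)
        rw [← SlashAction.slash_mul, hmul, SlashAction.slash_mul]
        congr 1
        -- `hw : g' 1 1 * w(x') = g 1 1 * w(x)`
        generalize redMatrix p g • x = x' at hw ⊢
        induction x using OnePoint.rec with
        | infty =>
          induction x' using OnePoint.rec with
          | infty =>
            simp only [wt_infty, mul_one] at hw
            simp only [OnePoint.elim_infty]
            rw [← slash_mapGL_mul, ← slash_mapGL_mul]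
            refine hf.slash_eq_of_lower_eq _ _ ((Gamma0 N).mul_mem hσ hg'0)
              ((Gamma0 N).mul_mem hg hσ) ?_
            rw [lower_right_mul σ g' hσ, lower_right_mul g σ hg, hw, mul_comm]
          | coe j' =>
            simp only [wt_infty, wt_coe, mul_one] at hw
            simp only [OnePoint.elim_infty, OnePoint.elim_some]
            rw [← slash_mapGL_mul]
            refine hf.slash_eq_of_lower_eq _ _ ((Gamma0 N).mul_mem hσ hg'0) hg ?_
            rw [lower_right_mul σ g' hσ, hσp, mul_comm, hw]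
        | coe j =>
          induction x' using OnePoint.rec with
          | infty =>
            simp only [wt_infty, wt_coe, mul_one] at hw
            simp only [OnePoint.elim_infty, OnePoint.elim_some]
            rw [← slash_mapGL_mul]
            refine hf.slash_eq_of_lower_eq _ _ hg'0 ((Gamma0 N).mul_mem hg hσ) ?_
            rw [lower_right_mul g σ hg, hσp, hw]
          | coe j' =>
            simp only [wt_coe] at hw
            simp only [OnePoint.elim_some]
            exact hf.slash_eq_of_lower_eq _ _ hg'0 hg (hpu.mul_left_injective hw)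
    _ = ∑ x : OnePoint (ZMod p),
          (x.elim ((f ∣[k] mapGL ℝ g) ∣[k] mapGL ℝ σ) (fun _ ↦ f ∣[k] mapGL ℝ g))
            ∣[k] heckeRep p x :=
        Equiv.sum_comp (MulAction.toPerm (redMatrix p g))
          (fun x ↦ (x.elim ((f ∣[k] mapGL ℝ g) ∣[k] mapGL ℝ σ) (fun _ ↦ f ∣[k] mapGL ℝ g))
            ∣[k] heckeRep p x)

end Comm

/-! ### Linear operators -/

section Lin

variable [NeZero N]

/-- The diamond operator `f ↦ f ∣ a` (`a ∈ Γ₀(N)`) as a linear map. -/
def diaL (a : SL(2, ℤ)) (ha : a ∈ Gamma0 N) :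
    CuspForm (Gamma1 N) k →ₗ[ℂ] CuspForm (Gamma1 N) k where
  toFun := dia a ha
  map_add' f g := by
    apply DFunLike.coe_injective
    rw [CuspForm.coe_add, coe_dia, coe_dia, coe_dia, CuspForm.coe_add, SlashAction.add_slash]
  map_smul' c f := by
    apply DFunLike.coe_injective
    rw [RingHom.id_apply, CuspForm.IsGLPos.coe_smul, coe_dia, coe_dia,
      CuspForm.IsGLPos.coe_smul, smul_slash_mapGL]

@[simp] theorem coe_diaL (a : SL(2, ℤ)) (ha : a ∈ Gamma0 N) (f : CuspForm (Gamma1 N) k) :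
    (⇑(diaL a ha f) : ℍ → ℂ) = ⇑f ∣[k] mapGL ℝ a := rfl

theorem smul_slash_diag' (k : ℤ) (p : ℕ) (c : ℂ) (F : ℍ → ℂ) :
    (c • F) ∣[k] heckeDiagMatrix p = c • (F ∣[k] heckeDiagMatrix p) := by
  rw [ModularForm.smul_slash, σ_heckeDiagMatrix]
  rfl

variable {p : ℕ} [Fact p.Prime]

/-- A chosen element of `Γ₀(N)` with lower right entry `≡ p`. -/
def sigmaP (N p : ℕ) [Fact p.Prime] (hpN : ¬ p ∣ N) : SL(2, ℤ) :=
  (exists_Gamma0_lower N p ((Nat.Prime.coprime_iff_not_dvd Fact.out).mpr hpN)).choose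

theorem sigmaP_mem (hpN : ¬ p ∣ N) : sigmaP N p hpN ∈ Gamma0 N :=
  (exists_Gamma0_lower N p ((Nat.Prime.coprime_iff_not_dvd Fact.out).mpr hpN)).choose_spec.1

theorem sigmaP_lower (hpN : ¬ p ∣ N) : (((sigmaP N p hpN) 1 1 : ℤ) : ZMod N) = (p : ZMod N) := by
  have := (exists_Gamma0_lower N p
    ((Nat.Prime.coprime_iff_not_dvd Fact.out).mpr hpN)).choose_spec.2.2
  unfold sigmaP
  rw [this]
  simp

/-- The Hecke operator `T_p` (`p ∤ N`) as a linear map on `S_k(Γ₁(N))`. -/
def TpL (p : ℕ) [Fact p.Prime] (hpN : ¬ p ∣ N) :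
    CuspForm (Gamma1 N) k →ₗ[ℂ] CuspForm (Gamma1 N) k where
  toFun := Tp hpN (sigmaP N p hpN) (sigmaP_mem hpN) (sigmaP_lower hpN)
  map_add' f g := by
    apply DFunLike.coe_injective
    rw [CuspForm.coe_add, coe_Tp, coe_Tp, coe_Tp, CuspForm.coe_add, heckeU_add,
      SlashAction.add_slash, SlashAction.add_slash]
    abel
  map_smul' c f := by
    apply DFunLike.coe_injective
    rw [RingHom.id_apply, CuspForm.IsGLPos.coe_smul, coe_Tp, coe_Tp,
      CuspForm.IsGLPos.coe_smul, heckeU_smul, smul_slash_mapGL, smul_slash_diag', smul_add]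

/-- `T_p f = U_p f + (f ∣ σ) ∣ diag(p, 1)` for ANY `σ ∈ Γ₀(N)` with lower right entry `≡ p`. -/
theorem coe_TpL (hpN : ¬ p ∣ N) (f : CuspForm (Gamma1 N) k) (σ : SL(2, ℤ)) (hσ : σ ∈ Gamma0 N)
    (hσp : ((σ 1 1 : ℤ) : ZMod N) = (p : ZMod N)) :
    (⇑(TpL p hpN f) : ℍ → ℂ) =
      heckeU k p ⇑f + (⇑f ∣[k] mapGL ℝ σ) ∣[k] heckeDiagMatrix p := by
  show (⇑(Tp hpN (sigmaP N p hpN) (sigmaP_mem hpN) (sigmaP_lower hpN) f) : ℍ → ℂ) = _
  rw [coe_Tp, (coe_inv1 f).slash_eq_of_lower_eq _ σ (sigmaP_mem hpN) hσ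
    ((sigmaP_lower hpN).trans hσp.symm)]

/-- `T_p` commutes with the diamond operators. -/
theorem diaL_TpL (hpN : ¬ p ∣ N) (a : SL(2, ℤ)) (ha : a ∈ Gamma0 N)
    (f : CuspForm (Gamma1 N) k) : diaL a ha (TpL p hpN f) = TpL p hpN (diaL a ha f) := by
  apply DFunLike.coe_injective
  rw [coe_diaL, coe_TpL hpN f _ (sigmaP_mem hpN) (sigmaP_lower hpN),
    coe_TpL hpN _ _ (sigmaP_mem hpN) (sigmaP_lower hpN), coe_diaL]
  exact (coe_inv1 f).heckeT1_slash hpN _ (sigmaP_mem hpN) (sigmaP_lower hpN) a ha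

/-- The generators of the Hecke algebra: `T_p` (`p ∤ N` prime) and the diamond operators. -/
def heckeGens (N : ℕ) [NeZero N] (k : ℤ) : Set (Module.End ℂ (CuspForm (Gamma1 N) k)) :=
  {t | (∃ (p : ℕ) (_ : Fact p.Prime) (hpN : ¬ p ∣ N), t = TpL p hpN) ∨
    ∃ (a : SL(2, ℤ)) (ha : a ∈ Gamma0 N), t = diaL a ha}

/-- The Hecke algebra `ℤ[T_p, ⟨d⟩ : p ∤ N] ⊆ End_ℂ S_k(Γ₁(N))`. -/
def heckeAlg1 (N : ℕ) [NeZero N] (k : ℤ) : Subalgebra ℤ (Module.End ℂ (CuspForm (Gamma1 N) k)) :=
  Algebra.adjoin ℤ (heckeGens N k)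

theorem TpL_mem_heckeGens (hpN : ¬ p ∣ N) : (TpL p hpN : Module.End ℂ _) ∈ heckeGens N k :=
  Or.inl ⟨p, inferInstance, hpN, rfl⟩

theorem diaL_mem_heckeGens (a : SL(2, ℤ)) (ha : a ∈ Gamma0 N) :
    (diaL a ha : Module.End ℂ _) ∈ heckeGens N k :=
  Or.inr ⟨a, ha, rfl⟩

theorem TpL_mem_heckeAlg1 (hpN : ¬ p ∣ N) : (TpL p hpN : Module.End ℂ _) ∈ heckeAlg1 N k :=
  Algebra.subset_adjoin (TpL_mem_heckeGens hpN)

theorem diaL_mem_heckeAlg1 (a : SL(2, ℤ)) (ha : a ∈ Gamma0 N) :
    (diaL a ha : Module.End ℂ _) ∈ heckeAlg1 N k :=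
  Algebra.subset_adjoin (diaL_mem_heckeGens a ha)

end Lin

end Fermat.Agent.S48.H548

end
end
-- ===== PACK-END S48/H548/Chi0Ops.lean

-- ===== PACK-BEGIN S48/H548/Per1Transfer.lean
section


/-!
# S48 / RES, node M4a1 input PER1 (helper548): the Hecke operator `T_p` on `Hom(Γ₁(M), A)`

Coset representatives of `T_p` on `Γ₁(M)`: `heckeRep1 x = σ_x β_x`, with `β_x` the standard
representatives (`(1 j; 0 p)`, `(p 0; 0 1)`), `σ_∞ = σ_p ∈ Γ₀(M)` (lower right entry `≡ p`),
`σ_j = 1`.  For `γ ∈ Γ₁(M)`: `heckeRep1 x * γ = t * heckeRep1 (γ • x)` with a unique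
`t = trf1 γ x ∈ Γ₁(M)`, and `(heckeHom1 p φ) γ = ∑ x, φ (trf1 γ x)`.
(Port of S29/H201/Transfer to `Γ₁(M)`.)
-/

set_option autoImplicit false
set_option linter.unusedSectionVars false

noncomputable section

namespace Fermat.Agent.S48.H548

open CongruenceSubgroup Matrix.SpecialLinearGroup UpperHalfPlane ModularForm
open scoped MatrixGroups OnePoint

variable {M : ℕ} [NeZero M] {p : ℕ} [Fact p.Prime]

/-- The twisting elements `σ_x`. -/
def sigTw (hpM : ¬ p ∣ M) (x : OnePoint (ZMod p)) : SL(2, ℤ) :=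
  x.elim (sigmaP M p hpM) (fun _ ↦ 1)

@[simp] theorem sigTw_infty (hpM : ¬ p ∣ M) : sigTw hpM (∞ : OnePoint (ZMod p)) = sigmaP M p hpM :=
  rfl

@[simp] theorem sigTw_coe (hpM : ¬ p ∣ M) (j : ZMod p) :
    sigTw hpM (j : OnePoint (ZMod p)) = 1 := rfl

theorem sigTw_mem (hpM : ¬ p ∣ M) (x : OnePoint (ZMod p)) : sigTw hpM x ∈ Gamma0 M := by
  induction x using OnePoint.rec with
  | infty => exact sigmaP_mem hpM
  | coe j => exact (Gamma0 M).one_mem

/-- `(σ_x)₁₁ w(x) = p`. -/
theorem sigTw_lower_mul_wt (hpM : ¬ p ∣ M) (x : OnePoint (ZMod p)) :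
    (((sigTw hpM x) 1 1 : ℤ) : ZMod M) * wt M p x = (p : ZMod M) := by
  induction x using OnePoint.rec with
  | infty => rw [sigTw_infty, wt_infty, mul_one, sigmaP_lower]
  | coe j => simp

/-- The coset representatives of `T_p` for `Γ₁(M)`. -/
def heckeRep1 (hpM : ¬ p ∣ M) (x : OnePoint (ZMod p)) : GL (Fin 2) ℝ :=
  mapGL ℝ (sigTw hpM x) * heckeRep p x

theorem wt_isUnit (hpM : ¬ p ∣ M) (x : OnePoint (ZMod p)) : IsUnit (wt M p x) := by
  have hpu : IsUnit ((p : ℕ) : ZMod M) :=
    (ZMod.isUnit_iff_coprime p M).mpr ((Nat.Prime.coprime_iff_not_dvd Fact.out).mpr hpM)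
  induction x using OnePoint.rec with
  | infty => exact isUnit_one
  | coe j => exact hpu

theorem exists_trf1 (hpM : ¬ p ∣ M) (γ : Gamma1 M) (x : OnePoint (ZMod p)) :
    ∃ t : Gamma1 M, heckeRep1 hpM x * mapGL ℝ (γ : SL(2, ℤ))
      = mapGL ℝ (t : SL(2, ℤ)) * heckeRep1 hpM (redMatrix p (γ : SL(2, ℤ)) • x) := by
  have hγ := (Gamma1_mem M (γ : SL(2, ℤ))).mp γ.2
  have hγN : (M : ℤ) ∣ (γ : SL(2, ℤ)) 1 0 := (ZMod.intCast_zmod_eq_zero_iff_dvd _ _).mp hγ.2.2
  obtain ⟨g', hg'N, hw, hmul⟩ := heckeRep_mul hpM (γ : SL(2, ℤ)) hγN x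
  have hg'0 : g' ∈ Gamma0 M := Gamma0_mem.mpr ((ZMod.intCast_zmod_eq_zero_iff_dvd _ _).mpr hg'N)
  rw [hγ.2.1, one_mul] at hw
  set x' := redMatrix p (γ : SL(2, ℤ)) • x with hx'
  have hmem0 : sigTw hpM x * g' * (sigTw hpM x')⁻¹ ∈ Gamma0 M :=
    (Gamma0 M).mul_mem ((Gamma0 M).mul_mem (sigTw_mem hpM x) hg'0)
      ((Gamma0 M).inv_mem (sigTw_mem hpM x'))
  have hmem : sigTw hpM x * g' * (sigTw hpM x')⁻¹ ∈ Gamma1 M := by
    refine mem_Gamma1_of_lower _ (Gamma0_mem.mp hmem0) ?_
    rw [lower_right_mul _ _ ((Gamma0 M).mul_mem (sigTw_mem hpM x) hg'0),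
      lower_right_mul _ _ (sigTw_mem hpM x), lower_right_inv]
    -- `s(x) g' s(x')⁻¹ = 1`
    have h1 := sigTw_lower_mul_wt hpM x
    have h2 := sigTw_lower_mul_wt hpM x'
    have h3 := lower_right_isUnit (sigTw hpM x') (sigTw_mem hpM x')
    have hu := wt_isUnit hpM x
    have hu' := wt_isUnit hpM x'
    -- multiply by the unit `s(x') w(x) w(x')`
    have h4 : (((sigTw hpM x) 1 1 : ℤ) : ZMod M) * ((g' 1 1 : ℤ) : ZMod M) =
        (((sigTw hpM x') 1 1 : ℤ) : ZMod M) := by
      apply (hu.mul hu').mul_left_injective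
      show _ * (wt M p x * wt M p x') = _ * (wt M p x * wt M p x')
      calc (((sigTw hpM x) 1 1 : ℤ) : ZMod M) * ((g' 1 1 : ℤ) : ZMod M) *
            (wt M p x * wt M p x')
          = ((((sigTw hpM x) 1 1 : ℤ) : ZMod M) * wt M p x) *
              (((g' 1 1 : ℤ) : ZMod M) * wt M p x') := by ring
        _ = (p : ZMod M) * wt M p x := by rw [h1, hw]
        _ = ((((sigTw hpM x') 1 1 : ℤ) : ZMod M) * wt M p x') * wt M p x := by rw [h2]
        _ = _ := by ring
    rw [h4, mul_comm]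
    exact h3
  refine ⟨⟨_, hmem⟩, ?_⟩
  show mapGL ℝ (sigTw hpM x) * heckeRep p x * mapGL ℝ (γ : SL(2, ℤ)) =
    mapGL ℝ (sigTw hpM x * g' * (sigTw hpM x')⁻¹) * (mapGL ℝ (sigTw hpM x') * heckeRep p x')
  rw [mul_assoc, hmul, map_mul, map_mul, map_inv]
  group

/-- The transfer element: `heckeRep1 x * γ = trf1 γ x * heckeRep1 (γ • x)`. -/
def trf1 (hpM : ¬ p ∣ M) (γ : Gamma1 M) (x : OnePoint (ZMod p)) : Gamma1 M :=
  (exists_trf1 hpM γ x).choose

theorem trf1_spec (hpM : ¬ p ∣ M) (γ : Gamma1 M) (x : OnePoint (ZMod p)) :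
    heckeRep1 hpM x * mapGL ℝ (γ : SL(2, ℤ))
      = mapGL ℝ ((trf1 hpM γ x : Gamma1 M) : SL(2, ℤ))
        * heckeRep1 hpM (redMatrix p (γ : SL(2, ℤ)) • x) :=
  (exists_trf1 hpM γ x).choose_spec

theorem trf1_unique (hpM : ¬ p ∣ M) (γ t : Gamma1 M) (x : OnePoint (ZMod p))
    (h : heckeRep1 hpM x * mapGL ℝ (γ : SL(2, ℤ))
      = mapGL ℝ (t : SL(2, ℤ)) * heckeRep1 hpM (redMatrix p (γ : SL(2, ℤ)) • x)) :
    t = trf1 hpM γ x := by
  have h2 := trf1_spec hpM γ x
  rw [h] at h2
  have h3 := mul_right_cancel h2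
  exact Subtype.ext (mapGL_injective h3)

theorem redMatrix_mul548 (g g' : SL(2, ℤ)) :
    redMatrix p (g * g') = redMatrix p g' * redMatrix p g := by
  apply Matrix.GeneralLinearGroup.ext
  intro i j
  rw [Matrix.GeneralLinearGroup.coe_mul]
  fin_cases i <;> fin_cases j <;>
    simp [redMatrix, Matrix.mul_apply, Fin.sum_univ_two] <;> ring

theorem redMatrix_one548 : redMatrix p (1 : SL(2, ℤ)) = 1 := by
  apply Matrix.GeneralLinearGroup.ext
  intro i j
  fin_cases i <;> fin_cases j <;> simp [redMatrix]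

theorem trf1_one (hpM : ¬ p ∣ M) (x : OnePoint (ZMod p)) : trf1 hpM (1 : Gamma1 M) x = 1 := by
  symm
  apply trf1_unique
  simp [redMatrix_one548]

theorem trf1_mul (hpM : ¬ p ∣ M) (γ γ' : Gamma1 M) (x : OnePoint (ZMod p)) :
    trf1 hpM (γ * γ') x
      = trf1 hpM γ x * trf1 hpM γ' (redMatrix p (γ : SL(2, ℤ)) • x) := by
  symm
  apply trf1_unique
  have h1 := trf1_spec hpM γ x
  have h2 := trf1_spec hpM γ' (redMatrix p (γ : SL(2, ℤ)) • x)
  calc heckeRep1 hpM x * mapGL ℝ ((γ * γ' : Gamma1 M) : SL(2, ℤ))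
      = (heckeRep1 hpM x * mapGL ℝ (γ : SL(2, ℤ))) * mapGL ℝ (γ' : SL(2, ℤ)) := by
        rw [Subgroup.coe_mul, map_mul, mul_assoc]
    _ = mapGL ℝ ((trf1 hpM γ x : Gamma1 M) : SL(2, ℤ)) *
          (heckeRep1 hpM (redMatrix p (γ : SL(2, ℤ)) • x) * mapGL ℝ (γ' : SL(2, ℤ))) := by
        rw [h1, mul_assoc]
    _ = mapGL ℝ ((trf1 hpM γ x : Gamma1 M) : SL(2, ℤ)) *
          (mapGL ℝ ((trf1 hpM γ' (redMatrix p (γ : SL(2, ℤ)) • x) : Gamma1 M) : SL(2, ℤ)) *
            heckeRep1 hpM (redMatrix p (γ' : SL(2, ℤ)) • redMatrix p (γ : SL(2, ℤ)) • x)) := by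
        rw [h2]
    _ = _ := by
        rw [Subgroup.coe_mul, map_mul, Subgroup.coe_mul, redMatrix_mul548, mul_smul, mul_assoc]

/-- The permutation of `ℙ¹(𝔽_p)` induced by `γ`. -/
def permOf1 (γ : Gamma1 M) : Equiv.Perm (OnePoint (ZMod p)) :=
  MulAction.toPerm (redMatrix p (γ : SL(2, ℤ)))

theorem permOf1_apply (γ : Gamma1 M) (x : OnePoint (ZMod p)) :
    permOf1 γ x = redMatrix p (γ : SL(2, ℤ)) • x := rfl

/-- The Hecke operator `T_p` on `Hom(Γ₁(M), A)` defined by the transfer formula. -/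
def heckeHom1 (p : ℕ) [Fact p.Prime] (hpM : ¬ p ∣ M) (A : Type*) [AddCommGroup A] :
    (Additive (Gamma1 M) →+ A) →+ (Additive (Gamma1 M) →+ A) where
  toFun φ :=
    { toFun := fun γ ↦ ∑ x : OnePoint (ZMod p), φ (Additive.ofMul (trf1 hpM (Additive.toMul γ) x))
      map_zero' := by
        show ∑ x : OnePoint (ZMod p), φ (Additive.ofMul (trf1 hpM (1 : Gamma1 M) x)) = 0
        simp [trf1_one]
      map_add' := fun γ γ' ↦ by
        show ∑ x : OnePoint (ZMod p),
            φ (Additive.ofMul (trf1 hpM (Additive.toMul γ * Additive.toMul γ') x)) = _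
        simp only [trf1_mul, ofMul_mul, map_add, Finset.sum_add_distrib]
        congr 1
        exact Equiv.sum_comp (permOf1 (Additive.toMul γ))
          (fun y ↦ φ (Additive.ofMul (trf1 hpM (Additive.toMul γ') y))) }
  map_zero' := by
    ext γ
    simp
  map_add' φ ψ := by
    ext γ
    simp [Finset.sum_add_distrib]

theorem heckeHom1_apply (hpM : ¬ p ∣ M) {A : Type*} [AddCommGroup A]
    (φ : Additive (Gamma1 M) →+ A) (γ : Gamma1 M) :
    heckeHom1 p hpM A φ (Additive.ofMul γ)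
      = ∑ x : OnePoint (ZMod p), φ (Additive.ofMul (trf1 hpM γ x)) := rfl

/-- Functoriality of `heckeHom1` in the coefficient group. -/
theorem heckeHom1_comp (hpM : ¬ p ∣ M) {A B : Type*} [AddCommGroup A] [AddCommGroup B]
    (u : A →+ B) (φ : Additive (Gamma1 M) →+ A) :
    heckeHom1 p hpM B (u.comp φ) = u.comp (heckeHom1 p hpM A φ) := by
  ext γ
  show ∑ x : OnePoint (ZMod p), u (φ _) = u (∑ x : OnePoint (ZMod p), φ _)
  rw [map_sum]

/-! ### The diamond operators on `Hom(Γ₁(M), A)` -/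

theorem conj_mem_Gamma1 (a : SL(2, ℤ)) (ha : a ∈ Gamma0 M) (γ : Gamma1 M) :
    a * (γ : SL(2, ℤ)) * a⁻¹ ∈ Gamma1 M := by
  have hγ0 : (γ : SL(2, ℤ)) ∈ Gamma0 M := Gamma1_le_Gamma0' M γ.2
  refine mem_Gamma1_of_lower _ (Gamma0_mem.mp ((Gamma0 M).mul_mem ((Gamma0 M).mul_mem ha hγ0)
    ((Gamma0 M).inv_mem ha))) ?_
  rw [lower_right_mul _ _ ((Gamma0 M).mul_mem ha hγ0), lower_right_mul _ _ ha, lower_right_inv,
    ((Gamma1_mem M (γ : SL(2, ℤ))).mp γ.2).2.1, mul_one, mul_comm]
  exact lower_right_isUnit a ha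

/-- Conjugation by `a ∈ Γ₀(M)` on `Γ₁(M)`. -/
def conj1 (a : SL(2, ℤ)) (ha : a ∈ Gamma0 M) : Gamma1 M →* Gamma1 M where
  toFun γ := ⟨a * (γ : SL(2, ℤ)) * a⁻¹, conj_mem_Gamma1 a ha γ⟩
  map_one' := by
    apply Subtype.ext
    simp
  map_mul' γ γ' := by
    apply Subtype.ext
    simp only [Subgroup.coe_mul]
    group

@[simp] theorem coe_conj1 (a : SL(2, ℤ)) (ha : a ∈ Gamma0 M) (γ : Gamma1 M) :
    ((conj1 a ha γ : Gamma1 M) : SL(2, ℤ)) = a * (γ : SL(2, ℤ)) * a⁻¹ := rfl

/-- The diamond operator on `Hom(Γ₁(M), A)`: `(⟨a⟩ φ)(γ) = φ(a γ a⁻¹)`. -/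
def diaHom1 (a : SL(2, ℤ)) (ha : a ∈ Gamma0 M) (A : Type*) [AddCommGroup A] :
    (Additive (Gamma1 M) →+ A) →+ (Additive (Gamma1 M) →+ A) where
  toFun φ := φ.comp (MonoidHom.toAdditive (conj1 a ha))
  map_zero' := rfl
  map_add' _ _ := rfl

theorem diaHom1_apply (a : SL(2, ℤ)) (ha : a ∈ Gamma0 M) {A : Type*} [AddCommGroup A]
    (φ : Additive (Gamma1 M) →+ A) (γ : Gamma1 M) :
    diaHom1 a ha A φ (Additive.ofMul γ) = φ (Additive.ofMul (conj1 a ha γ)) := rfl

end Fermat.Agent.S48.H548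

end
end
-- ===== PACK-END S48/H548/Per1Transfer.lean

-- ===== PACK-BEGIN S48/Res/PartsOcc.lean
section




/-!
# S48 / RES (Tower A1) — the inputs of `Occ1Statement true`, as `Prop`s (helper168)

  `Res.occ1_of_parts : Eigenclass1Statement → M4b1Statement → Occ1Statement true`

is PROVED in `Fermat/Agent/S48/Res/ChainOcc.lean` (sorry-free).

* `Eigenclass1Statement` = node M4a1 applied to `g₀ = h · E` (PACKET + P2-EIS + TEICH + CHI0 +
  `H548.exists_eigenclass_mul`): for every large `ℓ` a nonzero parabolic eigenclass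
  `cl : Γ₁(M) → F` for `T_p` (`H548.heckeHom1`, standard coset representatives) with eigenvalue
  `ψ(a_p)` and with `p · cl(σ γ σ⁻¹) = ψ(ε(p)) cl(γ)` (`σ = H548.sigmaP M p ∈ Γ₀(M)`, lower right
  entry `≡ p`).
* `M4b1Statement` = the Kummer map `κ : Hom_par(Γ₁(M), ℤ/ℓ) → J₁(M)[ℓ]` (port of S29 `M4b`):
  additive, injective, and (orientation: `coord/S48-F1.md` §3(d))
    `T_p (κ (c ∘ conj σ)) = κ (T_p c)`,   `⟨p⟩ (κ (c ∘ conj σ)) = κ c`,
  where `T_p = heckeT M ℓ p = α_* β^*` and `⟨p⟩ = diamondT M ℓ p` on the left hand sides.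
  Proof sketch: `U_c` Kummer function of `c` (`U_c(γ z) = ζ^{c γ} U_c(z)`, `κ c = [div(U_c^ℓ)/ℓ]`);
  `U_c ∘ σ` is a Kummer function of `c ∘ conj σ` and `(f ↦ f ∘ σ) = diamondAut p⁻¹`;
  `Nm_α (β U^ℓ) = ∏ U^ℓ ∘ (diag(p,1) γᵢ)`, and `Γ₁ diag(p,1) Γ₁ = σ⁻¹ · Γ₁ diag(1,p) Γ₁`.
-/

set_option autoImplicit false

noncomputable section

open CongruenceSubgroup ModularCurve AlgebraicCurve ModularCurve.Period
open scoped TensorProduct MatrixGroups

namespace Fermat.Agent.S48.Res

open Fermat.Agent.S48.F1 Fermat.Agent.S48.Top Fermat.Agent.S48.H548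

/-- Parabolic additive characters of `Γ₁(M)` vanishing on the elements of finite order. -/
def IsPar1 {M : ℕ} {A : Type*} [AddCommGroup A] (c : Additive (Gamma1 M) →+ A) : Prop :=
  IsParabolicHom (Gamma1 M) c ∧ ∀ γ : Gamma1 M, IsOfFinOrder γ → c (Additive.ofMul γ) = 0

/-- **EIGENCLASS1** (node M4a1 for `g₀ = h · E`, all inputs plugged in). -/
def Eigenclass1Statement : Prop :=
  ∀ (N : ℕ) [NeZero N] (ε : DirichletCharacter ℂ N) (f : CuspForm (Gamma1 N) 1),
    IsEigen N ε f → ∃ B : ℕ, ∀ ℓ : ℕ, ℓ.Prime → B < ℓ →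
      ∀ (F : Type) [Field F] [IsAlgClosed F] [CharP F ℓ] (ψ : Zbar →+* F),
        ∃ (M : ℕ) (_ : NeZero M) (a e : ℕ → Zbar),
          (∀ p : ℕ, p.Prime → p ∣ M → p ∣ N * ℓ) ∧
          (∀ p : ℕ, p.Prime → ¬ p ∣ N * ℓ →
            ((a p : Zbar) : ℂ) = ModularFormClass.qCoeff f p ∧
            ((e p : Zbar) : ℂ) = ε (p : ZMod N)) ∧
          ∃ cl : Additive (Gamma1 M) →+ F, cl ≠ 0 ∧ IsPar1 cl ∧
            ∀ (p : ℕ) [Fact p.Prime] (hpM : ¬ p ∣ M), ¬ p ∣ N * ℓ →
              ∀ γ : Additive (Gamma1 M),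
                heckeHom1 p hpM F cl γ = ψ (a p) * cl γ ∧
                (p : F) * diaHom1 (sigmaP M p hpM) (sigmaP_mem hpM) F cl γ = ψ (e p) * cl γ

/-- **M4b1** (the Kummer map for `Γ₁(M)`, with its Hecke and diamond equivariance). -/
def M4b1Statement : Prop :=
  ∀ (M ℓ : ℕ) [NeZero M], ℓ.Prime →
    ∃ κ : (Additive (Gamma1 M) →+ ZMod ℓ) → J1T M ℓ,
      (∀ c c', IsPar1 c → IsPar1 c' → κ (c + c') = κ c + κ c') ∧
      (∀ c, IsPar1 c → κ c = 0 → c = 0) ∧
      ∀ (p : ℕ) [Fact p.Prime] (hpM : ¬ p ∣ M), p ≠ ℓ → ∀ c, IsPar1 c →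
        heckeT M ℓ p (κ (diaHom1 (sigmaP M p hpM) (sigmaP_mem hpM) (ZMod ℓ) c))
            = κ (heckeHom1 p hpM (ZMod ℓ) c) ∧
          diamondT M ℓ (unitOf M p)
            (κ (diaHom1 (sigmaP M p hpM) (sigmaP_mem hpM) (ZMod ℓ) c)) = κ c

end Fermat.Agent.S48.Res

end
end
-- ===== PACK-END S48/Res/PartsOcc.lean

-- ===== PACK-BEGIN S48/H188/M4a1.lean
section




/-!
# S48 / Tower A1, node M4a1 (helper188): the parabolic eigenclass on `Γ₁(M)`

`exists_eigenclass` : from the inputs PER1 + COMM (`PeriodInputs M`: an injective, parabolic,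
linear period map on `S₂(Γ₁(M))` with transfer formulas for the generators of helper548's Hecke
algebra `heckeAlg1 M 2`, and commutativity of the generators) and ANY ring homomorphism
`χ : heckeAlg1 M 2 →+* F` (`F` a field of characteristic `ℓ > 0`) we get a nonzero parabolic
homomorphism `c : Γ₁(M) → F`, vanishing on elements of finite order, which is a `χ`-eigenclass:
`∑ᵢ c (wᵢ) = χ t * c γ` for every transfer formula `per (t g) γ = ∑ᵢ per g (wᵢ)`.
-/

set_option autoImplicit false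
set_option linter.style.haveILetI false

open CongruenceSubgroup Matrix.SpecialLinearGroup ModularCurve.Period
open scoped MatrixGroups

namespace Fermat.Agent.S48.H188

noncomputable section

open Fermat.Agent.S48.H548 (heckeGens heckeAlg1)

/-- `SL(2, ℤ)` is finitely generated (by `S` and `T`). -/
theorem fg_SL2Z : Group.FG SL(2, ℤ) := by
  rw [Group.fg_iff]
  exact ⟨{ModularGroup.S, ModularGroup.T}, SpecialLinearGroup.SL2Z_generators, by simp⟩

/-- `Γ₁(M)` is finitely generated. -/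
theorem fg_Gamma1 (M : ℕ) [NeZero M] : AddGroup.FG (Additive (Gamma1 M)) := by
  haveI := fg_SL2Z
  haveI : Group.FG (Gamma1 M) := inferInstance
  exact AddGroup.fg_iff_mul_fg.mpr ‹_›

/-- The inputs PER1 + COMM of node M4a1. -/
structure PeriodInputs (M : ℕ) [NeZero M] : Type where
  /-- the period map -/
  per : CuspForm (Gamma1 M) 2 →ₗ[ℂ] (Additive (Gamma1 M) →+ ℂ)
  inj : Function.Injective per
  par : ∀ g, IsParabolicHom (Gamma1 M) (per g)
  comm : ∀ x ∈ heckeGens M 2, ∀ y ∈ heckeGens M 2, x * y = y * x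
  transfer : ∀ t ∈ heckeGens M 2, ∀ γ : Additive (Gamma1 M),
    ∃ (ι : Type) (s : Finset ι) (w : ι → Additive (Gamma1 M)),
      ∀ g : CuspForm (Gamma1 M) 2, per (t g) γ = ∑ i ∈ s, per g (w i)

/-- An additive map to a `ℂ`-valued... (characteristic zero): periods vanish on elements of
finite order. -/
theorem per_eq_zero_of_isOfFinOrder {G : Type*} [Group G] (φ : Additive G →+ ℂ) (γ : G)
    (hγ : IsOfFinOrder γ) : φ (Additive.ofMul γ) = 0 := by
  obtain ⟨n, hn, hγn⟩ := hγ.exists_pow_eq_one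
  have h2 : φ (Additive.ofMul (γ ^ n)) = n • φ (Additive.ofMul γ) := by
    rw [ofMul_pow, map_nsmul]
  rw [hγn, ofMul_one, map_zero, nsmul_eq_mul] at h2
  rcases mul_eq_zero.mp h2.symm with h | h
  · exact absurd (by exact_mod_cast h) hn.ne'
  · exact h

/-- **Node M4a1**: the parabolic `χ`-eigenclass on `Γ₁(M)` with coefficients in `F`. -/
theorem exists_eigenclass {M : ℕ} [NeZero M] (D : PeriodInputs M)
    {F : Type*} [Field F] (ℓ : ℕ) [Fact ℓ.Prime] [CharP F ℓ] (χ : heckeAlg1 M 2 →+* F) :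
    ∃ c : Additive (Gamma1 M) →+ F, c ≠ 0 ∧ IsParabolicHom (Gamma1 M) c ∧
      (∀ γ : Gamma1 M, IsOfFinOrder γ → c (Additive.ofMul γ) = 0) ∧
      (∀ γ : Additive (Gamma1 M), (∀ g, D.per g γ = 0) → c γ = 0) ∧
      ∀ (t : heckeAlg1 M 2) (γ : Additive (Gamma1 M)) (ι : Type) (s : Finset ι)
        (w : ι → Additive (Gamma1 M)),
        (∀ g, D.per ((t : Module.End ℂ (CuspForm (Gamma1 M) 2)) g) γ = ∑ i ∈ s, D.per g (w i)) →
          ∑ i ∈ s, c (w i) = χ t * c γ := by
  obtain ⟨c, hc0, hker, heig⟩ := exists_eigen_hom_of_per (fg_Gamma1 M) D.per D.inj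
    (heckeGens M 2) D.comm D.transfer ℓ χ
  refine ⟨c, hc0, fun γ hγ => hker _ fun g => D.par g γ hγ,
    fun γ hγ => hker _ fun g => per_eq_zero_of_isOfFinOrder (D.per g) γ hγ, hker, heig⟩

/-! ### Coordinates over the prime field -/

/-- The values of an additive character of a finitely generated group lie in the span of the values
on a generating set. -/
theorem mem_span_of_closure {G : Type*} [Group G] {R V : Type*} [Ring R] [AddCommGroup V]
    [Module R V] (c : Additive G →+ V) (S : Set G) (hS : Subgroup.closure S = ⊤) (γ : G) :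
    c (Additive.ofMul γ) ∈ Submodule.span R ((fun x : G => c (Additive.ofMul x)) '' S) := by
  have hγ : γ ∈ Subgroup.closure S := hS ▸ Subgroup.mem_top γ
  induction hγ using Subgroup.closure_induction with
  | mem x hx => exact Submodule.subset_span ⟨x, hx, rfl⟩
  | one => rw [ofMul_one, map_zero]; exact Submodule.zero_mem _
  | mul x y _ _ hx hy => rw [ofMul_mul, map_add]; exact Submodule.add_mem _ hx hy
  | inv x _ hx => rw [ofMul_inv, map_neg]; exact Submodule.neg_mem _ hx

/-- An `F`-valued additive character of a finitely generated group, in coordinates over a subfield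
`k` (finitely many `k`-valued characters with `k`-linearly independent coefficients). -/
theorem exists_coords {G : Type*} [Group G] [Group.FG G] {k F : Type*} [Field k] [Field F]
    [Algebra k F] (c : Additive G →+ F) :
    ∃ (n : ℕ) (w : Fin n → F) (cc : Fin n → Additive G →+ k),
      LinearIndependent k w ∧ (∀ γ, c γ = ∑ j, w j * algebraMap k F (cc j γ)) ∧
      (∀ γ, c γ = 0 → ∀ j, cc j γ = 0) := by
  obtain ⟨S, hS, hSfin⟩ := Group.fg_iff.mp (inferInstance : Group.FG G)
  set W : Submodule k F :=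
    Submodule.span k ((fun x : G => c (Additive.ofMul x)) '' S) with hW
  have hmem : ∀ γ : Additive G, c γ ∈ W := fun γ => mem_span_of_closure c S hS (Additive.toMul γ)
  haveI : Module.Finite k W := Module.Finite.span_of_finite k (hSfin.image _)
  let b := Module.finBasis k W
  let X : Additive G →+ W :=
    { toFun := fun γ => ⟨c γ, hmem γ⟩
      map_zero' := Subtype.ext (map_zero c)
      map_add' := fun γ γ' => Subtype.ext (map_add c γ γ') }
  refine ⟨Module.finrank k W, fun j => (b j : F),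
    fun j => ((Finsupp.applyAddHom j).comp (b.repr : W →+ (Fin _ →₀ k))).comp X, ?_, ?_, ?_⟩
  · exact b.linearIndependent.map' W.subtype (Submodule.ker_subtype W)
  · intro γ
    have h1 := congrArg (fun x : W => (x : F)) (b.sum_repr (X γ))
    simp only [Submodule.coe_sum, Submodule.coe_smul] at h1
    rw [show c γ = ((X γ : W) : F) from rfl, ← h1]
    refine Finset.sum_congr rfl fun j _ => ?_
    rw [Algebra.smul_def, mul_comm]
    rfl
  · intro γ hγ j
    have h1 : X γ = 0 := Subtype.ext hγ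
    show b.repr (X γ) j = 0
    rw [h1, map_zero, Finsupp.zero_apply]

/-- **Node M4a1, coordinate form** (shape of S29 `M4aStatement`): the `χ`-eigenclass written as
`∑ⱼ wⱼ ⊗ cⱼ` with parabolic `cⱼ : Γ₁(M) → 𝔽_ℓ` and `𝔽_ℓ`-linearly independent `wⱼ ∈ F`. -/
theorem exists_eigenclass_coords {M : ℕ} [NeZero M] (D : PeriodInputs M)
    {F : Type*} [Field F] (ℓ : ℕ) [Fact ℓ.Prime] [CharP F ℓ] [Algebra (ZMod ℓ) F]
    (χ : heckeAlg1 M 2 →+* F) :
    ∃ (n : ℕ) (w : Fin n → F) (c : Fin n → Additive (Gamma1 M) →+ ZMod ℓ),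
      LinearIndependent (ZMod ℓ) w ∧ (∃ j, c j ≠ 0) ∧
      (∀ j, IsParabolicHom (Gamma1 M) (c j)) ∧
      (∀ j (γ : Gamma1 M), IsOfFinOrder γ → c j (Additive.ofMul γ) = 0) ∧
      (∀ j (γ : Additive (Gamma1 M)), (∀ g, D.per g γ = 0) → c j γ = 0) ∧
      ∀ (t : heckeAlg1 M 2) (γ : Additive (Gamma1 M)) (ι : Type) (s : Finset ι)
        (v : ι → Additive (Gamma1 M)),
        (∀ g, D.per ((t : Module.End ℂ (CuspForm (Gamma1 M) 2)) g) γ = ∑ i ∈ s, D.per g (v i)) →
          ∑ j, w j * algebraMap (ZMod ℓ) F (∑ i ∈ s, c j (v i))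
            = χ t * ∑ j, w j * algebraMap (ZMod ℓ) F (c j γ) := by
  obtain ⟨c, hc0, hpar, hfin, hker, heig⟩ := exists_eigenclass D ℓ χ
  haveI : Group.FG (Gamma1 M) := by
    haveI := fg_SL2Z
    infer_instance
  obtain ⟨n, w, cc, hw, hsum, hzero⟩ := exists_coords (k := ZMod ℓ) c
  refine ⟨n, w, cc, hw, ?_, fun j γ hγ => hzero _ (hpar γ hγ) j,
    fun j γ hγ => hzero _ (hfin γ hγ) j, fun j γ hγ => hzero _ (hker γ hγ) j, ?_⟩
  · by_contra hcon
    rw [not_exists] at hcon
    apply hc0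
    refine AddMonoidHom.ext fun γ => ?_
    rw [hsum γ]
    refine Finset.sum_eq_zero fun j _ => ?_
    rw [not_not.mp (hcon j)]
    simp
  · intro t γ ι s v hv
    rw [← hsum γ, ← heig t γ ι s v hv]
    simp only [map_sum, Finset.mul_sum]
    rw [Finset.sum_comm]
    refine Finset.sum_congr rfl fun i _ => ?_
    exact (hsum (v i)).symm

end

end Fermat.Agent.S48.H188

end
-- ===== PACK-END S48/H188/M4a1.lean

-- ===== PACK-BEGIN S48/H548/HCoh1.lean
section




/-!
# S48 / RES, node HCoh1 (helper548): `T_p` and `⟨a⟩` preserve parabolic homs on `Γ₁(M)`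

`heckeHom1 p hpM A` (transfer) and `diaHom1 a ha A` (conjugation) map
`IsParabolicHom (Gamma1 M)` into itself, and preserve vanishing on elements of finite order.
(Port of S29 piece `HCoh` to `Γ₁(M)`; the generic factor-system lemmas are those of
`S29/H149/HCoh.lean`.)
-/

set_option autoImplicit false
set_option linter.unusedSectionVars false

noncomputable section

namespace Fermat.Agent.S48.H548

open CongruenceSubgroup Matrix.SpecialLinearGroup ModularCurve.Period
open scoped MatrixGroups OnePoint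

variable {M : ℕ} [NeZero M] {p : ℕ} [Fact p.Prime]

/-- The factor system of `T_p` on `Γ₁(M)`. -/
def fac1 (hpM : ¬ p ∣ M) (γ : Gamma1 M) (x : OnePoint (ZMod p)) :
    OnePoint (ZMod p) × Gamma1 M :=
  (redMatrix p (γ : SL(2, ℤ)) • x, trf1 hpM γ x)

theorem isFactorSystem_fac1 (hpM : ¬ p ∣ M) :
    Fermat.Agent.S29.H149.HCoh_IsFactorSystem (fac1 (M := M) hpM) where
  one := fun x ↦ by
    simp [fac1, redMatrix_one548, trf1_one]
  mul := fun γ δ x ↦ by
    simp only [fac1, trf1_mul, Subgroup.coe_mul, redMatrix_mul548, mul_smul]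

/-- Conjugate elements of `SL₂(ℤ)` (conjugate inside `GL₂(ℝ)`) have the same trace. -/
theorem trace_eq_of_mapGL_conj (g t : SL(2, ℤ)) (B : GL (Fin 2) ℝ)
    (h : B * mapGL ℝ g = mapGL ℝ t * B) :
    (g : Matrix (Fin 2) (Fin 2) ℤ).trace = (t : Matrix (Fin 2) (Fin 2) ℤ).trace := by
  have h1 : mapGL ℝ t = B * mapGL ℝ g * B⁻¹ := by
    rw [h]; group
  have h2 : ((mapGL ℝ t : GL (Fin 2) ℝ) : Matrix (Fin 2) (Fin 2) ℝ).trace
      = ((mapGL ℝ g : GL (Fin 2) ℝ) : Matrix (Fin 2) (Fin 2) ℝ).trace := by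
    rw [h1, Matrix.GeneralLinearGroup.coe_mul, Matrix.GeneralLinearGroup.coe_mul,
      Matrix.trace_mul_comm, ← Matrix.mul_assoc, ← Matrix.GeneralLinearGroup.coe_mul,
      inv_mul_cancel, Matrix.GeneralLinearGroup.coe_one, Matrix.one_mul]
  have h3 : ∀ s : SL(2, ℤ), ((mapGL ℝ s : GL (Fin 2) ℝ) : Matrix (Fin 2) (Fin 2) ℝ).trace
      = (((s : Matrix (Fin 2) (Fin 2) ℤ).trace : ℤ) : ℝ) := by
    intro s
    simp [Matrix.trace_fin_two]
  rw [h3, h3] at h2
  exact_mod_cast h2.symm

theorem trace_sq_iff548 (t : ℤ) : t ^ 2 = 4 ↔ (t = 2 ∨ t = -2) := by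
  constructor
  · intro h
    have h1 : (t - 2) * (t + 2) = 0 := by ring_nf; linarith
    rcases mul_eq_zero.mp h1 with h2 | h2
    · left; linarith
    · right; linarith
  · rintro (h | h) <;> rw [h] <;> norm_num

theorem coe_pow548 (γ : Gamma1 M) (r : ℕ) :
    (((γ ^ r : Gamma1 M) : SL(2, ℤ)) : Matrix (Fin 2) (Fin 2) ℤ)
      = ((γ : SL(2, ℤ)) : Matrix (Fin 2) (Fin 2) ℤ) ^ r := by
  rw [Subgroup.coe_pow, Matrix.SpecialLinearGroup.coe_pow]

/-- **HCoh1 (Hecke).** `T_p` preserves parabolic homs on `Γ₁(M)`. -/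
theorem isParabolicHom_heckeHom1 (hpM : ¬ p ∣ M) {A : Type*} [AddCommGroup A]
    (c : Additive (Gamma1 M) →+ A) (hc : IsParabolicHom (Gamma1 M) c) :
    IsParabolicHom (Gamma1 M) (heckeHom1 p hpM A c) := by
  intro γ hγ
  rw [heckeHom1_apply]
  have hf := isFactorSystem_fac1 (M := M) hpM
  refine Fermat.Agent.S29.H149.HCoh_transfer_eq_zero hf
    (c := fun γ : Gamma1 M ↦ c (Additive.ofMul γ)) (fun γ δ ↦ by simp)
    (fun γ : Gamma1 M ↦ ((γ : SL(2, ℤ)) : Matrix (Fin 2) (Fin 2) ℤ).trace ^ 2 = 4)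
    (fun γ h ↦ hc γ h) ?_ γ hγ
  intro γ hγ r _ x hx
  have h1 := trf1_spec hpM (γ ^ r) x
  have hx' : redMatrix p ((γ ^ r : Gamma1 M) : SL(2, ℤ)) • x = x := hx
  rw [hx'] at h1
  have h2 := trace_eq_of_mapGL_conj _ _ _ h1
  show (((trf1 hpM (γ ^ r) x : Gamma1 M) : SL(2, ℤ)) : Matrix (Fin 2) (Fin 2) ℤ).trace ^ 2 = 4
  rw [← h2, coe_pow548, trace_sq_iff548]
  exact Fermat.Agent.S29.H149.HCoh_trace_pow (γ : SL(2, ℤ)).2 ((trace_sq_iff548 _).mp hγ) r

/-- **HCoh1 (Hecke, finite order).** `T_p` preserves vanishing on elements of finite order. -/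
theorem heckeHom1_finOrder (hpM : ¬ p ∣ M) {A : Type*} [AddCommGroup A]
    (c : Additive (Gamma1 M) →+ A)
    (hc : ∀ γ : Gamma1 M, IsOfFinOrder γ → c (Additive.ofMul γ) = 0)
    (γ : Gamma1 M) (hγ : IsOfFinOrder γ) :
    heckeHom1 p hpM A c (Additive.ofMul γ) = 0 := by
  rw [heckeHom1_apply]
  have hf := isFactorSystem_fac1 (M := M) hpM
  refine Fermat.Agent.S29.H149.HCoh_transfer_eq_zero hf
    (c := fun γ : Gamma1 M ↦ c (Additive.ofMul γ)) (fun γ δ ↦ by simp)
    (fun γ : Gamma1 M ↦ IsOfFinOrder γ) hc ?_ γ hγ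
  intro γ hγ r _ x hx
  obtain ⟨n, hn, hγn⟩ := isOfFinOrder_iff_pow_eq_one.mp hγ
  exact isOfFinOrder_iff_pow_eq_one.mpr
    ⟨n, hn, Fermat.Agent.S29.H149.HCoh_finite_order_closed hf γ n hγn r x hx⟩

/-- **HCoh1 (diamond).** `⟨a⟩` preserves parabolic homs on `Γ₁(M)`. -/
theorem isParabolicHom_diaHom1 (a : SL(2, ℤ)) (ha : a ∈ Gamma0 M) {A : Type*} [AddCommGroup A]
    (c : Additive (Gamma1 M) →+ A) (hc : IsParabolicHom (Gamma1 M) c) :
    IsParabolicHom (Gamma1 M) (diaHom1 a ha A c) := by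
  intro γ hγ
  rw [diaHom1_apply]
  apply hc
  rw [coe_conj1]
  have h : (a * (γ : SL(2, ℤ)) * a⁻¹ : SL(2, ℤ)).1.trace
      = ((γ : SL(2, ℤ)) : Matrix (Fin 2) (Fin 2) ℤ).trace := by
    have h1 : ((a * (γ : SL(2, ℤ)) * a⁻¹ : SL(2, ℤ)) : Matrix (Fin 2) (Fin 2) ℤ)
        = (a : Matrix (Fin 2) (Fin 2) ℤ) * ((γ : SL(2, ℤ)) : Matrix (Fin 2) (Fin 2) ℤ)
          * ((a⁻¹ : SL(2, ℤ)) : Matrix (Fin 2) (Fin 2) ℤ) := by
      simp only [Matrix.SpecialLinearGroup.coe_mul]
    rw [h1, Matrix.trace_mul_comm, ← Matrix.mul_assoc, ← Matrix.SpecialLinearGroup.coe_mul,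
      inv_mul_cancel, Matrix.SpecialLinearGroup.coe_one, Matrix.one_mul]
  rw [h]
  exact hγ

/-- **HCoh1 (diamond, finite order).** -/
theorem diaHom1_finOrder (a : SL(2, ℤ)) (ha : a ∈ Gamma0 M) {A : Type*} [AddCommGroup A]
    (c : Additive (Gamma1 M) →+ A)
    (hc : ∀ γ : Gamma1 M, IsOfFinOrder γ → c (Additive.ofMul γ) = 0)
    (γ : Gamma1 M) (hγ : IsOfFinOrder γ) :
    diaHom1 a ha A c (Additive.ofMul γ) = 0 := by
  rw [diaHom1_apply]
  exact hc _ ((conj1 a ha).isOfFinOrder hγ)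

end Fermat.Agent.S48.H548

end
end
-- ===== PACK-END S48/H548/HCoh1.lean

-- ===== PACK-BEGIN S48/H548/Per1Basic.lean
section



/-!
# S48 / RES, node M4a1 input PER1 (helper548): periods of weight-2 cusp forms on `Γ₁(M)`

* `IsPrim f F` : `F` is a holomorphic primitive of `f` on `ℍ`;
* `per1 f : Additive (Gamma1 M) →+ ℂ` : the period homomorphism `γ ↦ F(γ z) - F(z)`;
* `per1L` : `per1` as a linear map; `per1_parabolic` : `per1 f` kills parabolic elements;
* `exists_cusp_limit` : a primitive has a limit at every cusp.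

Port of S21/H381 (level `Γ₀(N)`) to `Γ₁(M)`, reusing its generic lemmas.
-/

set_option autoImplicit false
set_option linter.unusedSectionVars false
set_option linter.deprecated false

noncomputable section

namespace Fermat.Agent.S48.H548

open CongruenceSubgroup ModularCurve ModularCurve.Period Filter Topology Function Complex
open UpperHalfPlane hiding I
open Matrix.SpecialLinearGroup
open scoped Manifold MatrixGroups ModularForm

/-- `F` is a primitive of `f` on the upper half plane. -/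
def IsPrim (f F : ℍ → ℂ) : Prop := ∀ τ : ℍ, HasDerivAt (F ∘ ofComplex) (f τ) ↑τ

theorem IsPrim.add {f g F G : ℍ → ℂ} (hF : IsPrim f F) (hG : IsPrim g G) :
    IsPrim (f + g) (F + G) := fun τ ↦ (hF τ).add (hG τ)

theorem IsPrim.smul {f F : ℍ → ℂ} (a : ℂ) (hF : IsPrim f F) : IsPrim (a • f) (a • F) :=
  fun τ ↦ (hF τ).const_smul a

theorem IsPrim.sub_const {f F G : ℍ → ℂ} (hF : IsPrim f F) (hG : IsPrim f G) (z w : ℍ) :
    F z - G z = F w - G w :=
  Fermat.Agent.S21.H381.sub_const_of_hasDerivAt hF hG z w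

theorem IsPrim.comp_smul {f F : ℍ → ℂ} (hF : IsPrim f F) (γ : SL(2, ℤ)) :
    IsPrim (f ∣[(2 : ℤ)] γ) (fun w : ℍ ↦ F (γ • w)) := fun τ ↦
  Fermat.Agent.S21.H381.hasDerivAt_comp_smul hF γ τ

variable {M : ℕ} [NeZero M]

theorem SL_slash_eq (f : ℍ → ℂ) (k : ℤ) (γ : SL(2, ℤ)) : f ∣[k] γ = f ∣[k] mapGL ℝ γ :=
  ModularForm.SL_slash f γ

/-- `f ∣[2] δ` as a cusp form on the conjugate group is holomorphic. -/
theorem mdiff_slash1 (f : CuspForm (Gamma1 M) 2) (δ : SL(2, ℤ)) :
    MDiff ((f : ℍ → ℂ) ∣[(2 : ℤ)] δ) := by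
  rw [SL_slash_eq]
  exact (ModularFormClass.holo f).slash 2 _

theorem isZeroAtImInfty_slash1 (f : CuspForm (Gamma1 M) 2) (δ : SL(2, ℤ)) :
    IsZeroAtImInfty ((f : ℍ → ℂ) ∣[(2 : ℤ)] δ) :=
  CuspFormClass.zero_at_infty_slash f δ

/-- There is a common positive integer period for all `f ∣[2] δ`. -/
theorem exists_period_slash1 (f : CuspForm (Gamma1 M) 2) :
    ∃ h : ℕ, 0 < h ∧
      ∀ δ : SL(2, ℤ), Periodic (((f : ℍ → ℂ) ∣[(2 : ℤ)] δ) ∘ ofComplex) (h : ℝ) := by
  obtain ⟨h, hh, hper⟩ := Subgroup.IsArithmetic.exists_nat_mem_strictPeriods_conj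
    ((Gamma1 M : Subgroup SL(2, ℤ)) : Subgroup (GL (Fin 2) ℝ))
  refine ⟨h, hh, fun δ ↦ ?_⟩
  have h1 := hper δ⁻¹
  rw [map_inv] at h1
  have h2 := SlashInvariantFormClass.periodic_comp_ofComplex
    (CuspForm.translate f (δ : GL (Fin 2) ℝ)) h1
  rw [CuspForm.coe_translate f δ] at h2
  exact_mod_cast h2

/-- Every slash translate of a weight-2 cusp form has a primitive tending to `0` at `i∞`. -/
theorem exists_prim_slash (f : CuspForm (Gamma1 M) 2) (δ : SL(2, ℤ)) :
    ∃ G : ℍ → ℂ, IsPrim ((f : ℍ → ℂ) ∣[(2 : ℤ)] δ) G ∧ Tendsto G atImInfty (𝓝 0) := by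
  obtain ⟨h, hh, hper⟩ := exists_period_slash1 f
  exact Fermat.Agent.S21.H381.exists_primitive_tendsto_zero (Nat.cast_pos.mpr hh) (hper δ)
    (mdiff_slash1 f δ) (isZeroAtImInfty_slash1 f δ)

theorem exists_isPrim (f : CuspForm (Gamma1 M) 2) : ∃ F : ℍ → ℂ, IsPrim (⇑f) F := by
  obtain ⟨G, hG, -⟩ := exists_prim_slash f 1
  rw [SlashAction.slash_one] at hG
  exact ⟨G, hG⟩

/-- A primitive of a cusp form has a limit at every cusp. -/
theorem exists_cusp_limit (f : CuspForm (Gamma1 M) 2) {F : ℍ → ℂ} (hF : IsPrim (⇑f) F)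
    (δ : SL(2, ℤ)) : ∃ L : ℂ, Tendsto (fun w : ℍ ↦ F (δ • w)) atImInfty (𝓝 L) := by
  obtain ⟨G, hGd, hG0⟩ := exists_prim_slash f δ
  have hδ := hF.comp_smul δ
  set c : ℂ := F (δ • UpperHalfPlane.I) - G UpperHalfPlane.I with hc
  refine ⟨c, ?_⟩
  have hEq : (fun w : ℍ ↦ F (δ • w)) = fun w ↦ G w + c := by
    funext w
    have := hδ.sub_const hGd w UpperHalfPlane.I
    rw [hc, ← this]
    ring
  rw [hEq]
  simpa using hG0.add_const c

/-- A primitive of a cusp form on `Γ₁(M)` is equivariant. -/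
theorem IsPrim.isEquivariant (f : CuspForm (Gamma1 M) 2) {F : ℍ → ℂ} (hF : IsPrim (⇑f) F) :
    IsEquivariantPrimitive (Gamma1 M) F := by
  intro γ
  refine ⟨F ((γ : SL(2, ℤ)) • UpperHalfPlane.I) - F UpperHalfPlane.I, fun z ↦ ?_⟩
  have hγ : IsPrim (⇑f) (fun w : ℍ ↦ F ((γ : SL(2, ℤ)) • w)) := by
    have := hF.comp_smul (γ : SL(2, ℤ))
    rwa [SL_slash_eq, coe_inv1 f _ γ.2] at this
  exact hγ.sub_const hF z UpperHalfPlane.I

/-- The period homomorphism of a weight-2 cusp form on `Γ₁(M)`. -/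
def per1 (f : CuspForm (Gamma1 M) 2) : Additive (Gamma1 M) →+ ℂ :=
  ((exists_isPrim f).choose_spec.isEquivariant f).periodHom

theorem per1_apply (f : CuspForm (Gamma1 M) 2) {F : ℍ → ℂ} (hF : IsPrim (⇑f) F)
    (γ : Gamma1 M) (z : ℍ) :
    per1 f (Additive.ofMul γ) = F ((γ : SL(2, ℤ)) • z) - F z := by
  set F₀ := (exists_isPrim f).choose with hF₀def
  have hF₀ : IsPrim (⇑f) F₀ := (exists_isPrim f).choose_spec
  have h1 : per1 f (Additive.ofMul γ) = F₀ ((γ : SL(2, ℤ)) • z) - F₀ z := by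
    show (hF₀.isEquivariant f).periodHom (Additive.ofMul γ) = _
    rw [IsEquivariantPrimitive.periodHom_apply, ← (hF₀.isEquivariant f).sub_eq_period γ z]
  rw [h1]
  have h2 := hF₀.sub_const hF ((γ : SL(2, ℤ)) • z) z
  linear_combination h2

theorem per1_add (f g : CuspForm (Gamma1 M) 2) : per1 (f + g) = per1 f + per1 g := by
  obtain ⟨F, hF⟩ := exists_isPrim f
  obtain ⟨G, hG⟩ := exists_isPrim g
  refine AddMonoidHom.ext fun γ ↦ ?_
  obtain ⟨γ, rfl⟩ : ∃ γ' : Gamma1 M, Additive.ofMul γ' = γ := ⟨Additive.toMul γ, rfl⟩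
  have hFG : IsPrim (⇑(f + g)) (F + G) := by
    rw [CuspForm.coe_add]
    exact hF.add hG
  rw [AddMonoidHom.add_apply, per1_apply (f + g) hFG γ UpperHalfPlane.I,
    per1_apply f hF γ UpperHalfPlane.I, per1_apply g hG γ UpperHalfPlane.I]
  simp only [Pi.add_apply]
  ring

theorem per1_smul (a : ℂ) (f : CuspForm (Gamma1 M) 2) : per1 (a • f) = a • per1 f := by
  obtain ⟨F, hF⟩ := exists_isPrim f
  refine AddMonoidHom.ext fun γ ↦ ?_
  obtain ⟨γ, rfl⟩ : ∃ γ' : Gamma1 M, Additive.ofMul γ' = γ := ⟨Additive.toMul γ, rfl⟩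
  have hFa : IsPrim (⇑(a • f)) (a • F) := by
    rw [CuspForm.IsGLPos.coe_smul]
    exact hF.smul a
  rw [AddMonoidHom.smul_apply, per1_apply (a • f) hFa γ UpperHalfPlane.I,
    per1_apply f hF γ UpperHalfPlane.I]
  simp only [Pi.smul_apply, smul_eq_mul]
  ring

/-- The period map as a linear map. -/
def per1L (M : ℕ) [NeZero M] : CuspForm (Gamma1 M) 2 →ₗ[ℂ] (Additive (Gamma1 M) →+ ℂ) where
  toFun := per1
  map_add' := per1_add
  map_smul' := per1_smul

@[simp] theorem per1L_apply (f : CuspForm (Gamma1 M) 2) : per1L M f = per1 f := rfl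

/-- Periods of cusp forms are parabolic homomorphisms. -/
theorem per1_parabolic (f : CuspForm (Gamma1 M) 2) : IsParabolicHom (Gamma1 M) (per1 f) := by
  intro γ hγ
  obtain ⟨F, hF⟩ := exists_isPrim f
  obtain ⟨δ, n, hδ⟩ := Fermat.Agent.S21.H381.exists_conj_T_zpow (γ : SL(2, ℤ)) hγ
  obtain ⟨L, hL⟩ := exists_cusp_limit f hF δ
  have hconst : ∀ w : ℍ, per1 f (Additive.ofMul γ)
      = F (δ • (ModularGroup.T ^ n • w)) - F (δ • w) := by
    intro w
    rw [per1_apply f hF γ (δ • w), hδ w]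
  have h1 : Tendsto (fun w : ℍ ↦ F (δ • (ModularGroup.T ^ n • w)) - F (δ • w)) atImInfty
      (𝓝 (L - L)) :=
    (hL.comp (Fermat.Agent.S21.H381.tendsto_T_zpow_smul_atImInfty n)).sub hL
  have h2 : Tendsto (fun w : ℍ ↦ F (δ • (ModularGroup.T ^ n • w)) - F (δ • w)) atImInfty
      (𝓝 (per1 f (Additive.ofMul γ))) := by
    have : (fun w : ℍ ↦ F (δ • (ModularGroup.T ^ n • w)) - F (δ • w))
        = fun _ ↦ per1 f (Additive.ofMul γ) := funext fun w ↦ (hconst w).symm
    rw [this]
    exact tendsto_const_nhds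
  have := tendsto_nhds_unique h2 h1
  rw [sub_self] at this
  exact this

end Fermat.Agent.S48.H548

end
end
-- ===== PACK-END S48/H548/Per1Basic.lean

-- ===== PACK-BEGIN S48/H548/Per1Inj.lean
section


/-!
# S48 / RES, node M4a1 input PER1 (helper548): the period map on `S_2(Γ₁(M))` is injective

If all periods of `f` vanish, a primitive `F` of `f` is a modular form of weight `0` on `Γ₁(M)`,
hence constant (Mathlib `ModularForm.eq_const_of_weight_zero`), so `f = F' = 0`.
-/

set_option autoImplicit false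
set_option linter.unusedSectionVars false
set_option linter.deprecated false

noncomputable section

namespace Fermat.Agent.S48.H548

open CongruenceSubgroup ModularCurve ModularCurve.Period Filter Topology Function Complex
open UpperHalfPlane hiding I
open Matrix.SpecialLinearGroup
open scoped Manifold MatrixGroups ModularForm

variable {M : ℕ} [NeZero M]

theorem IsPrim.mdiff {f F : ℍ → ℂ} (hF : IsPrim f F) : MDiff F := fun τ ↦
  UpperHalfPlane.mdifferentiableAt_iff.mpr (hF τ).differentiableAt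

theorem slash_zero_mapGL (F : ℍ → ℂ) (γ : SL(2, ℤ)) :
    F ∣[(0 : ℤ)] mapGL ℝ γ = fun w : ℍ ↦ F (γ • w) := by
  funext w
  have h := ModularForm.SL_slash_apply (k := 0) F γ w
  rw [ModularForm.SL_slash, neg_zero, zpow_zero, mul_one] at h
  exact h

/-- A primitive with vanishing periods, as a modular form of weight `0`. -/
def primForm (f : CuspForm (Gamma1 M) 2) (F : ℍ → ℂ) (hF : IsPrim (⇑f) F)
    (hper : per1 f = 0) : ModularForm (Gamma1 M) 0 where
  toFun := F
  slash_action_eq' := by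
    rintro _ ⟨γ, hγ, rfl⟩
    rw [slash_zero_mapGL]
    funext w
    have h := per1_apply f hF ⟨γ, hγ⟩ w
    rw [hper, AddMonoidHom.zero_apply] at h
    exact (sub_eq_zero.mp h.symm)
  holo' := hF.mdiff
  bdd_at_cusps' := by
    intro c hc
    have hcSL : IsCusp c 𝒮ℒ := by
      rwa [Subgroup.IsArithmetic.isCusp_iff_isCusp_SL2Z] at hc
    obtain ⟨δ, hδ⟩ := isCusp_SL2Z_iff'.mp hcSL
    rw [OnePoint.isBoundedAt_iff hδ.symm, slash_zero_mapGL]
    obtain ⟨L, hL⟩ := exists_cusp_limit f hF δ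
    exact hL.isBigO_one ℝ

/-- The period map is injective. -/
theorem eq_zero_of_per1_eq_zero (f : CuspForm (Gamma1 M) 2) (hper : per1 f = 0) : f = 0 := by
  obtain ⟨F, hF⟩ := exists_isPrim f
  obtain ⟨c, hc⟩ := ModularForm.eq_const_of_weight_zero (primForm f F hF hper)
  have hFc : F = Function.const ℍ c := hc
  apply DFunLike.coe_injective
  funext τ
  have h1 := hF τ
  have h2 : F ∘ ofComplex = fun _ ↦ c := by
    funext z
    rw [Function.comp_apply, hFc]
    rfl
  rw [h2] at h1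
  exact h1.unique (hasDerivAt_const _ _)

theorem per1L_injective : Function.Injective (per1L M) := by
  intro f g h
  have h1 : per1L M (f - g) = 0 := by rw [map_sub, h, sub_self]
  exact sub_eq_zero.mp (eq_zero_of_per1_eq_zero (f - g) h1)

end Fermat.Agent.S48.H548

end
end
-- ===== PACK-END S48/H548/Per1Inj.lean

-- ===== PACK-BEGIN S48/H548/Per1Hecke.lean
section




/-!
# S48 / RES, node M4a1 input PER1 (helper548): Hecke equivariance of the period map on `Γ₁(M)`

* `per1_TpL` : `per1 (T_p f) = heckeHom1 p (per1 f)` for primes `p ∤ M`;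
* `per1_diaL` : `per1 (⟨a⟩ f) = diaHom1 a (per1 f)` for `a ∈ Γ₀(M)`.
-/

set_option autoImplicit false
set_option linter.unusedSectionVars false
set_option linter.deprecated false

noncomputable section

namespace Fermat.Agent.S48.H548

open CongruenceSubgroup ModularCurve ModularCurve.Period Filter Topology Function Complex
open UpperHalfPlane hiding I
open Matrix.SpecialLinearGroup ModularForm
open scoped Manifold MatrixGroups ModularForm OnePoint

variable {M : ℕ} [NeZero M] {p : ℕ} [Fact p.Prime]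

/-- The Hecke transform of a primitive. -/
def heckePrim1 (hpM : ¬ p ∣ M) (F : ℍ → ℂ) : ℍ → ℂ :=
  fun τ ↦ ∑ x : OnePoint (ZMod p), F (heckeRep1 hpM x • τ)

theorem det_heckeRep_pos548 (x : OnePoint (ZMod p)) :
    0 < ((heckeRep p x : GL (Fin 2) ℝ) : Matrix (Fin 2) (Fin 2) ℝ).det := by
  induction x using OnePoint.rec with
  | infty =>
    have := ModularForm.det_heckeDiagMatrix_pos p
    rwa [Matrix.GeneralLinearGroup.val_det_apply] at this
  | coe j =>
    have := ModularForm.det_heckeMatrix_pos p j.val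
    rwa [Matrix.GeneralLinearGroup.val_det_apply] at this

theorem det_heckeRep1_pos (hpM : ¬ p ∣ M) (x : OnePoint (ZMod p)) :
    0 < ((heckeRep1 hpM x : GL (Fin 2) ℝ) : Matrix (Fin 2) (Fin 2) ℝ).det := by
  unfold heckeRep1
  rw [Matrix.GeneralLinearGroup.coe_mul, Matrix.det_mul]
  have h1 : ((mapGL ℝ (sigTw hpM x) : GL (Fin 2) ℝ) : Matrix (Fin 2) (Fin 2) ℝ).det = 1 :=
    Fermat.Agent.S21.H381.det_coe_SL _
  rw [h1, one_mul]
  exact det_heckeRep_pos548 x

/-- `T_p f = ∑ₓ f ∣ heckeRep1 x`. -/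
theorem coe_TpL_eq_sum (hpM : ¬ p ∣ M) (f : CuspForm (Gamma1 M) 2) :
    (⇑(TpL p hpM f) : ℍ → ℂ) =
      ∑ x : OnePoint (ZMod p), (⇑f : ℍ → ℂ) ∣[(2 : ℤ)] heckeRep1 hpM x := by
  rw [coe_TpL hpM f _ (sigmaP_mem hpM) (sigmaP_lower hpM), heckeT1_eq_sum]
  refine Finset.sum_congr rfl fun x _ ↦ ?_
  unfold heckeRep1
  rw [SlashAction.slash_mul]
  congr 1
  induction x using OnePoint.rec with
  | infty => rfl
  | coe j =>
    simp only [OnePoint.elim_some, sigTw_coe, map_one, SlashAction.slash_one]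

theorem isPrim_heckePrim1 (hpM : ¬ p ∣ M) (f : CuspForm (Gamma1 M) 2) {F : ℍ → ℂ}
    (hF : IsPrim (⇑f) F) : IsPrim (⇑(TpL p hpM f)) (heckePrim1 hpM F) := by
  intro τ
  have hsum : (heckePrim1 hpM F ∘ ofComplex)
      = fun z ↦ ∑ x : OnePoint (ZMod p),
          ((fun w : ℍ ↦ F (heckeRep1 hpM x • w)) ∘ ofComplex) z := by
    funext z
    rfl
  rw [hsum, coe_TpL_eq_sum, Finset.sum_apply]
  exact HasDerivAt.fun_sum fun x _ ↦
    Fermat.Agent.S29.H201.hasDerivAt_comp_smul_GL hF (heckeRep1 hpM x) (det_heckeRep1_pos hpM x) τ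

theorem SL_smul_eq_mapGL_smul548 (γ : SL(2, ℤ)) (τ : ℍ) : γ • τ = (mapGL ℝ γ) • τ := rfl

theorem heckePrim1_smul_sub (hpM : ¬ p ∣ M) (f : CuspForm (Gamma1 M) 2) {F : ℍ → ℂ}
    (hF : IsPrim (⇑f) F) (γ : Gamma1 M) (τ : ℍ) :
    heckePrim1 hpM F ((γ : SL(2, ℤ)) • τ) - heckePrim1 hpM F τ
      = ∑ x : OnePoint (ZMod p), per1 f (Additive.ofMul (trf1 hpM γ x)) := by
  have key : ∀ x : OnePoint (ZMod p), F (heckeRep1 hpM x • ((γ : SL(2, ℤ)) • τ))
      = F (heckeRep1 hpM (permOf1 γ x) • τ) + per1 f (Additive.ofMul (trf1 hpM γ x)) := by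
    intro x
    have h1 : heckeRep1 hpM x • ((γ : SL(2, ℤ)) • τ)
        = ((trf1 hpM γ x : Gamma1 M) : SL(2, ℤ)) • (heckeRep1 hpM (permOf1 γ x) • τ) := by
      rw [SL_smul_eq_mapGL_smul548, SL_smul_eq_mapGL_smul548, ← mul_smul, ← mul_smul,
        trf1_spec hpM γ x]
      rfl
    rw [h1, per1_apply f hF (trf1 hpM γ x) (heckeRep1 hpM (permOf1 γ x) • τ)]
    ring
  unfold heckePrim1
  simp only [key, Finset.sum_add_distrib]
  rw [Equiv.sum_comp (permOf1 γ) (fun y ↦ F (heckeRep1 hpM y • τ))]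
  ring

/-- **Hecke equivariance of the period map.** -/
theorem per1_TpL (hpM : ¬ p ∣ M) (f : CuspForm (Gamma1 M) 2) :
    per1 (TpL p hpM f) = heckeHom1 p hpM ℂ (per1 f) := by
  obtain ⟨F, hF⟩ := exists_isPrim f
  refine AddMonoidHom.ext fun γ ↦ ?_
  obtain ⟨γ, rfl⟩ : ∃ γ' : Gamma1 M, Additive.ofMul γ' = γ := ⟨Additive.toMul γ, rfl⟩
  rw [per1_apply (TpL p hpM f) (isPrim_heckePrim1 hpM f hF) γ UpperHalfPlane.I,
    heckePrim1_smul_sub hpM f hF γ UpperHalfPlane.I, heckeHom1_apply]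

/-- **Diamond equivariance of the period map.** -/
theorem per1_diaL (a : SL(2, ℤ)) (ha : a ∈ Gamma0 M) (f : CuspForm (Gamma1 M) 2) :
    per1 (diaL a ha f) = diaHom1 a ha ℂ (per1 f) := by
  obtain ⟨F, hF⟩ := exists_isPrim f
  refine AddMonoidHom.ext fun γ ↦ ?_
  obtain ⟨γ, rfl⟩ : ∃ γ' : Gamma1 M, Additive.ofMul γ' = γ := ⟨Additive.toMul γ, rfl⟩
  have hFa : IsPrim (⇑(diaL a ha f)) (fun w : ℍ ↦ F (a • w)) := by
    rw [coe_diaL, ← SL_slash_eq]
    exact hF.comp_smul a
  rw [per1_apply (diaL a ha f) hFa γ UpperHalfPlane.I, diaHom1_apply,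
    per1_apply f hF (conj1 a ha γ) (a • UpperHalfPlane.I)]
  have h1 : ((conj1 a ha γ : Gamma1 M) : SL(2, ℤ)) • (a • UpperHalfPlane.I) =
      a • ((γ : SL(2, ℤ)) • UpperHalfPlane.I) := by
    rw [coe_conj1, ← mul_smul, ← mul_smul]
    congr 1
    group
  rw [h1]

end Fermat.Agent.S48.H548

end
end
-- ===== PACK-END S48/H548/Per1Hecke.lean

-- ===== PACK-BEGIN S48/H548/Chi0Prod.lean
section


/-!
# S48 / RES piece CHI0 (helper548): nebentypus, products of forms of levels `N` and `L`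

* `HasNeb χ f k` : `f ∣[k] γ = χ(γ₁₁) • f` for `γ ∈ Γ₀(N)`;
* `mulCusp h E : CuspForm (Gamma1 (N * L)) (k₁ + k₂)` for `h : CuspForm (Gamma1 N) k₁`,
  `E : ModularForm (Gamma1 L) k₂`, with its `q`-expansion (Cauchy product) and nebentypus.
-/

set_option autoImplicit false
set_option linter.unusedSectionVars false
set_option linter.deprecated false

noncomputable section

namespace Fermat.Agent.S48.H548

open Matrix.SpecialLinearGroup UpperHalfPlane ModularForm CongruenceSubgroup ModularFormClass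
open scoped MatrixGroups ModularForm OnePoint Manifold

/-! ### Nebentypus -/

/-- `f` has nebentypus `χ` (a function on `ZMod N`) in weight `k`. -/
def HasNeb {N : ℕ} (χ : ZMod N → ℂ) (f : ℍ → ℂ) (k : ℤ) : Prop :=
  ∀ γ ∈ Gamma0 N, f ∣[k] mapGL ℝ γ = χ ((γ 1 1 : ℤ) : ZMod N) • f

section Neb

variable {N : ℕ} {k : ℤ} {χ : ZMod N → ℂ} {f g : ℍ → ℂ}

theorem HasNeb.zero : HasNeb χ (0 : ℍ → ℂ) k := fun γ _ ↦ by
  rw [SlashAction.zero_slash, smul_zero]

theorem HasNeb.add (hf : HasNeb χ f k) (hg : HasNeb χ g k) : HasNeb χ (f + g) k := fun γ hγ ↦ by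
  rw [SlashAction.add_slash, hf γ hγ, hg γ hγ, smul_add]

theorem HasNeb.neg (hf : HasNeb χ f k) : HasNeb χ (-f) k := fun γ hγ ↦ by
  rw [SlashAction.neg_slash, hf γ hγ, smul_neg]

theorem HasNeb.smul (c : ℂ) (hf : HasNeb χ f k) : HasNeb χ (c • f) k := fun γ hγ ↦ by
  rw [smul_slash_mapGL, hf γ hγ, smul_comm]

/-- A function with nebentypus `χ`, `χ 1 = 1`, is `Γ₁(N)`-invariant. -/
theorem HasNeb.inv1 (hχ : χ 1 = 1) (hf : HasNeb χ f k) : Inv1 N k f := fun γ hγ ↦ by
  rw [hf γ (Gamma1_le_Gamma0' N hγ), ((Gamma1_mem N γ).mp hγ).2.1, hχ, one_smul]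

end Neb

/-! ### Change of level -/

section Level

variable (N L : ℕ)

theorem intCast_eq_of_mul_left {a b : ℤ} (h : ((a : ℤ) : ZMod (N * L)) = ((b : ℤ) : ZMod (N * L))) :
    ((a : ℤ) : ZMod N) = ((b : ℤ) : ZMod N) := by
  have := congrArg (ZMod.castHom (dvd_mul_right N L) (ZMod N)) h
  simpa using this

theorem intCast_eq_of_mul_right {a b : ℤ}
    (h : ((a : ℤ) : ZMod (N * L)) = ((b : ℤ) : ZMod (N * L))) :
    ((a : ℤ) : ZMod L) = ((b : ℤ) : ZMod L) := by
  have := congrArg (ZMod.castHom (dvd_mul_left L N) (ZMod L)) h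
  simpa using this

theorem Gamma1_mul_le_left : Gamma1 (N * L) ≤ Gamma1 N := fun g hg ↦ by
  rw [Gamma1_mem] at hg ⊢
  exact ⟨by simpa using intCast_eq_of_mul_left N L (a := g 0 0) (b := 1) (by simpa using hg.1),
    by simpa using intCast_eq_of_mul_left N L (a := g 1 1) (b := 1) (by simpa using hg.2.1),
    by simpa using intCast_eq_of_mul_left N L (a := g 1 0) (b := 0) (by simpa using hg.2.2)⟩

theorem Gamma1_mul_le_right : Gamma1 (N * L) ≤ Gamma1 L := fun g hg ↦ by
  rw [Gamma1_mem] at hg ⊢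
  exact ⟨by simpa using intCast_eq_of_mul_right N L (a := g 0 0) (b := 1) (by simpa using hg.1),
    by simpa using intCast_eq_of_mul_right N L (a := g 1 1) (b := 1) (by simpa using hg.2.1),
    by simpa using intCast_eq_of_mul_right N L (a := g 1 0) (b := 0) (by simpa using hg.2.2)⟩

theorem Gamma0_mul_le_left : Gamma0 (N * L) ≤ Gamma0 N := fun g hg ↦ by
  rw [Gamma0_mem] at hg ⊢
  simpa using intCast_eq_of_mul_left N L (a := g 1 0) (b := 0) (by simpa using hg)

theorem Gamma0_mul_le_right : Gamma0 (N * L) ≤ Gamma0 L := fun g hg ↦ by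
  rw [Gamma0_mem] at hg ⊢
  simpa using intCast_eq_of_mul_right N L (a := g 1 0) (b := 0) (by simpa using hg)

end Level

/-! ### Products -/

section Prod

variable {N L : ℕ} {k₁ k₂ : ℤ}

theorem mul_slash_mapGL (k₁ k₂ : ℤ) (γ : SL(2, ℤ)) (f g : ℍ → ℂ) :
    (f * g) ∣[k₁ + k₂] mapGL ℝ γ = (f ∣[k₁] mapGL ℝ γ) * (g ∣[k₂] mapGL ℝ γ) := by
  have := ModularForm.mul_slash_SL2 k₁ k₂ γ f g
  rwa [ModularForm.SL_slash, ModularForm.SL_slash, ModularForm.SL_slash] at this

/-- The product of nebentypus characters of levels `N` and `L`, as a function on `ZMod (N * L)`. -/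
def mulChar (χ₁ : ZMod N → ℂ) (χ₂ : ZMod L → ℂ) : ZMod (N * L) → ℂ := fun x ↦
  χ₁ (ZMod.castHom (dvd_mul_right N L) (ZMod N) x) *
    χ₂ (ZMod.castHom (dvd_mul_left L N) (ZMod L) x)

theorem mulChar_intCast (χ₁ : ZMod N → ℂ) (χ₂ : ZMod L → ℂ) (a : ℤ) :
    mulChar χ₁ χ₂ (a : ZMod (N * L)) = χ₁ (a : ZMod N) * χ₂ (a : ZMod L) := by
  simp [mulChar]

theorem mulChar_natCast (χ₁ : ZMod N → ℂ) (χ₂ : ZMod L → ℂ) (a : ℕ) :
    mulChar χ₁ χ₂ (a : ZMod (N * L)) = χ₁ (a : ZMod N) * χ₂ (a : ZMod L) := by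
  simp [mulChar]

theorem HasNeb.mul {χ₁ : ZMod N → ℂ} {χ₂ : ZMod L → ℂ} {f g : ℍ → ℂ}
    (hf : HasNeb χ₁ f k₁) (hg : HasNeb χ₂ g k₂) :
    HasNeb (mulChar χ₁ χ₂) (f * g) (k₁ + k₂) := fun γ hγ ↦ by
  rw [mul_slash_mapGL, hf γ (Gamma0_mul_le_left N L hγ), hg γ (Gamma0_mul_le_right N L hγ),
    mulChar_intCast, smul_mul_smul_comm]

theorem Inv1.mul {f g : ℍ → ℂ} (hf : Inv1 N k₁ f) (hg : Inv1 L k₂ g) :
    Inv1 (N * L) (k₁ + k₂) (f * g) := fun γ hγ ↦ by
  rw [mul_slash_mapGL, hf γ (Gamma1_mul_le_left N L hγ), hg γ (Gamma1_mul_le_right N L hγ)]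

variable [NeZero N] [NeZero L]

theorem coe_inv1' (E : ModularForm (Gamma1 L) k₂) : Inv1 L k₂ ⇑E := fun γ hγ ↦
  SlashInvariantFormClass.slash_action_eq E _ (Subgroup.mem_map_of_mem (mapGL ℝ) hγ)

theorem coe_nice' (E : ModularForm (Gamma1 L) k₂) : Nice (⇑E : ℍ → ℂ) where
  per := SlashInvariantFormClass.periodic_comp_ofComplex E (one_mem_strictPeriods_Gamma1 L)
  hol := ModularFormClass.holo E
  bdd := ModularFormClass.bdd_at_infty E

instance neZero_mul548 : NeZero (N * L) := ⟨Nat.mul_ne_zero (NeZero.ne N) (NeZero.ne L)⟩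

theorem isCusp_of_isCusp_mul {c : OnePoint ℝ} (M M' : ℕ) [NeZero M] [NeZero M']
    (hc : IsCusp c ((Gamma1 M).map (mapGL ℝ))) : IsCusp c ((Gamma1 M').map (mapGL ℝ)) := by
  rw [Subgroup.IsArithmetic.isCusp_iff_isCusp_SL2Z] at hc ⊢
  exact hc

/-- The product of a cusp form of level `Γ₁(N)` and a modular form of level `Γ₁(L)`, as a cusp
form of level `Γ₁(N L)`. -/
def mulCusp (h : CuspForm (Gamma1 N) k₁) (E : ModularForm (Gamma1 L) k₂) :
    CuspForm (Gamma1 (N * L)) (k₁ + k₂) :=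
  mkCusp (⇑h * ⇑E) ((coe_inv1 h).mul (coe_inv1' E))
    ((ModularFormClass.holo h).mul (ModularFormClass.holo E))
    (fun {c} hc ↦ by
      have hc1 : IsCusp c ((Gamma1 N).map (mapGL ℝ)) := isCusp_of_isCusp_mul (N * L) N hc
      have hc2 : IsCusp c ((Gamma1 L).map (mapGL ℝ)) := isCusp_of_isCusp_mul (N * L) L hc
      have hz : c.IsZeroAt (⇑h) k₁ := CuspFormClass.zero_at_cusps h hc1
      have hb : c.IsBoundedAt (⇑E) k₂ := ModularFormClass.bdd_at_cusps E hc2
      have hcSL : IsCusp c 𝒮ℒ := by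
        rwa [Subgroup.IsArithmetic.isCusp_iff_isCusp_SL2Z] at hc
      obtain ⟨γ, hγ⟩ := isCusp_SL2Z_iff'.mp hcSL
      rw [OnePoint.isZeroAt_iff hγ.symm, mul_slash_mapGL]
      exact (hz _ hγ.symm).mul_boundedAtFilter (hb _ hγ.symm))

@[simp] theorem coe_mulCusp (h : CuspForm (Gamma1 N) k₁) (E : ModularForm (Gamma1 L) k₂) :
    (⇑(mulCusp h E) : ℍ → ℂ) = ⇑h * ⇑E := rfl

theorem qCoeff_mulCusp (h : CuspForm (Gamma1 N) k₁) (E : ModularForm (Gamma1 L) k₂) (n : ℕ) :
    qCoeff (⇑(mulCusp h E) : ℍ → ℂ) n =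
      ∑ x ∈ Finset.HasAntidiagonal.antidiagonal n,
        qCoeff (⇑h : ℍ → ℂ) x.1 * qCoeff (⇑E : ℍ → ℂ) x.2 := by
  unfold qCoeff
  rw [coe_mulCusp, qExpansion_mul (coe_nice h).analyticAt (coe_nice' E).analyticAt,
    PowerSeries.coeff_mul]

theorem hasNeb_mulCusp {χ₁ : ZMod N → ℂ} {χ₂ : ZMod L → ℂ} (h : CuspForm (Gamma1 N) k₁)
    (E : ModularForm (Gamma1 L) k₂) (hh : HasNeb χ₁ ⇑h k₁) (hE : HasNeb χ₂ ⇑E k₂) :
    HasNeb (mulChar χ₁ χ₂) (⇑(mulCusp h E)) (k₁ + k₂) :=
  hh.mul hE

end Prod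

end Fermat.Agent.S48.H548

end
end
-- ===== PACK-END S48/H548/Chi0Prod.lean

-- ===== PACK-BEGIN S48/H548/Chi0.lean
section



/-!
# S48 / RES piece CHI0 (helper548): the character of the Hecke algebra attached to a
mod-`λ` eigenvector

`exists_chi0` : let `g₀ ∈ S_2(Γ₁(M))` have nebentypus `χ₀` and `R`-integral `q`-expansion `c`
(`ι : R → ℂ` injective, `φ : R → k` a ring homomorphism to a field), with `φ ∘ c ≠ 0` a
simultaneous eigenvector of the formal Hecke operators:
`φ c(np) + φ(χ₀(p)) p [p ∣ n] φ c(n/p) = φ(α_p) φ c(n)` for all primes `p ∤ M`.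
Then there is a ring homomorphism `χ₀ : heckeAlg1 M 2 → k` with `χ₀(T_p) = φ(α_p)` and
`χ₀(⟨a⟩) = φ(χ₀(a₁₁))`.  No characteristic-zero eigenform is needed.
-/

set_option autoImplicit false
set_option linter.unusedSectionVars false
set_option linter.deprecated false

noncomputable section

namespace Fermat.Agent.S48.H548

open Matrix.SpecialLinearGroup UpperHalfPlane ModularForm CongruenceSubgroup ModularFormClass
open scoped MatrixGroups ModularForm OnePoint Manifold

variable {M : ℕ} [NeZero M] {wt : ℤ}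

/-! ### `q`-coefficients of cusp forms -/

theorem qCoeff_add548 (f g : CuspForm (Gamma1 M) wt) (n : ℕ) :
    qCoeff (⇑(f + g) : ℍ → ℂ) n = qCoeff (⇑f : ℍ → ℂ) n + qCoeff (⇑g : ℍ → ℂ) n :=
  (coe_nice (f + g)).qCoeff_eq (c := fun n ↦ qCoeff (⇑f : ℍ → ℂ) n + qCoeff (⇑g : ℍ → ℂ) n)
    (by rw [CuspForm.coe_add]; exact (coe_nice f).hasQ.add (coe_nice g).hasQ) n

theorem qCoeff_smul548 (a : ℂ) (f : CuspForm (Gamma1 M) wt) (n : ℕ) :
    qCoeff (⇑(a • f) : ℍ → ℂ) n = a * qCoeff (⇑f : ℍ → ℂ) n :=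
  (coe_nice (a • f)).qCoeff_eq (c := fun n ↦ a * qCoeff (⇑f : ℍ → ℂ) n)
    (by rw [CuspForm.IsGLPos.coe_smul]; exact (coe_nice f).hasQ.smul a) n

theorem qCoeff_neg548 (f : CuspForm (Gamma1 M) wt) (n : ℕ) :
    qCoeff (⇑(-f) : ℍ → ℂ) n = -qCoeff (⇑f : ℍ → ℂ) n := by
  have h : -f = (-1 : ℂ) • f := (neg_one_smul ℂ f).symm
  rw [h, qCoeff_smul548, neg_mul, one_mul]

theorem qCoeff_zero548 (n : ℕ) : qCoeff (⇑(0 : CuspForm (Gamma1 M) wt) : ℍ → ℂ) n = 0 := by
  have h : (0 : CuspForm (Gamma1 M) wt) = (0 : ℂ) • (0 : CuspForm (Gamma1 M) wt) := by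
    rw [zero_smul]
  rw [h, qCoeff_smul548, zero_mul]

/-! ### The Hecke operators on forms with nebentypus -/

section Hecke

variable {p : ℕ} [Fact p.Prime] {χ₀ : ZMod M → ℂ}

theorem dia_eq_smul_of_hasNeb (g : CuspForm (Gamma1 M) wt) (hch : HasNeb χ₀ ⇑g wt)
    (a : SL(2, ℤ)) (ha : a ∈ Gamma0 M) : diaL a ha g = χ₀ ((a 1 1 : ℤ) : ZMod M) • g := by
  apply DFunLike.coe_injective
  rw [coe_diaL, CuspForm.IsGLPos.coe_smul]
  exact hch a ha

/-- `T_p` preserves the nebentypus. -/
theorem hasNeb_TpL (hpM : ¬ p ∣ M) (g : CuspForm (Gamma1 M) wt) (hch : HasNeb χ₀ ⇑g wt) :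
    HasNeb χ₀ (⇑(TpL p hpM g)) wt := fun a ha ↦ by
  rw [← coe_diaL a ha, diaL_TpL hpM a ha g, dia_eq_smul_of_hasNeb g hch a ha, map_smul,
    CuspForm.IsGLPos.coe_smul]

theorem coe_TpL_of_hasNeb (hpM : ¬ p ∣ M) (g : CuspForm (Gamma1 M) wt) (hch : HasNeb χ₀ ⇑g wt) :
    (⇑(TpL p hpM g) : ℍ → ℂ) =
      heckeU wt p ⇑g + χ₀ (p : ZMod M) • ((⇑g : ℍ → ℂ) ∣[wt] heckeDiagMatrix p) := by
  rw [coe_TpL hpM g _ (sigmaP_mem hpM) (sigmaP_lower hpM), hch _ (sigmaP_mem hpM),
    sigmaP_lower hpM, smul_slash_diag']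

/-- The `q`-expansion of `T_p g`, `g` with nebentypus `χ₀`. -/
theorem qCoeff_TpL (hpM : ¬ p ∣ M) (g : CuspForm (Gamma1 M) wt) (hch : HasNeb χ₀ ⇑g wt) (n : ℕ) :
    qCoeff (⇑(TpL p hpM g) : ℍ → ℂ) n =
      qCoeff (⇑g : ℍ → ℂ) (n * p) + χ₀ (p : ZMod M) *
        (if p ∣ n then (p : ℂ) ^ (wt - 1) * qCoeff (⇑g : ℍ → ℂ) (n / p) else 0) := by
  have hp : p ≠ 0 := (Fact.out : p.Prime).ne_zero
  refine (coe_nice (TpL p hpM g)).qCoeff_eq
    (c := fun n ↦ qCoeff (⇑g : ℍ → ℂ) (n * p) + χ₀ (p : ZMod M) *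
        (if p ∣ n then (p : ℂ) ^ (wt - 1) * qCoeff (⇑g : ℍ → ℂ) (n / p) else 0)) ?_ n
  rw [coe_TpL_of_hasNeb hpM g hch]
  exact ((coe_nice g).hasQ_heckeU hp wt).add (((coe_nice g).hasQ_diag hp wt).smul _)

end Hecke

/-! ### Integral `q`-expansions and their reductions -/

section Red

variable {R : Type*} [CommRing R] {k : Type*} [Field k] (ι : R →+* ℂ) (φ : R →+* k)

/-- The family `W b` : forms with nebentypus `χ₀` and integral `q`-expansion reducing to
`b • c₀`. -/
def famW (χ₀ : ZMod M → ℂ) (c₀ : ℕ → k) (b : k) : Set (CuspForm (Gamma1 M) 2) :=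
  {g | HasNeb χ₀ (⇑g) 2 ∧ ∃ c : ℕ → R, (∀ n, qCoeff (⇑g : ℍ → ℂ) n = ι (c n)) ∧
    ∀ n, φ (c n) = b * c₀ n}

variable {ι φ} {χ₀ : ZMod M → ℂ} {c₀ : ℕ → k}

theorem famW_zero : (0 : CuspForm (Gamma1 M) 2) ∈ famW ι φ χ₀ c₀ 0 :=
  ⟨by rw [CuspForm.coe_zero]; exact HasNeb.zero,
    ⟨fun _ ↦ 0, fun n ↦ by rw [qCoeff_zero548, map_zero], fun n ↦ by rw [map_zero, zero_mul]⟩⟩

theorem famW_add (b b' : k) (g g' : CuspForm (Gamma1 M) 2) (hg : g ∈ famW ι φ χ₀ c₀ b)
    (hg' : g' ∈ famW ι φ χ₀ c₀ b') : g + g' ∈ famW ι φ χ₀ c₀ (b + b') := by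
  obtain ⟨h1, c, hc, hr⟩ := hg
  obtain ⟨h1', c', hc', hr'⟩ := hg'
  refine ⟨by rw [CuspForm.coe_add]; exact h1.add h1', fun n ↦ c n + c' n, fun n ↦ ?_, fun n ↦ ?_⟩
  · rw [qCoeff_add548, hc, hc', map_add]
  · rw [map_add, hr, hr', add_mul]

theorem famW_neg (b : k) (g : CuspForm (Gamma1 M) 2) (hg : g ∈ famW ι φ χ₀ c₀ b) :
    -g ∈ famW ι φ χ₀ c₀ (-b) := by
  obtain ⟨h1, c, hc, hr⟩ := hg
  refine ⟨by rw [CuspForm.coe_neg]; exact h1.neg, fun n ↦ -c n, fun n ↦ ?_, fun n ↦ ?_⟩
  · rw [qCoeff_neg548, hc, map_neg]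
  · rw [map_neg, hr, neg_mul]

theorem famW_sep (hι : Function.Injective ι) (hc₀ : ∃ n, c₀ n ≠ 0) (b b' : k)
    (g : CuspForm (Gamma1 M) 2) (hg : g ∈ famW ι φ χ₀ c₀ b) (hg' : g ∈ famW ι φ χ₀ c₀ b') :
    b = b' := by
  obtain ⟨n, hn⟩ := hc₀
  obtain ⟨-, c, hc, hr⟩ := hg
  obtain ⟨-, c', hc', hr'⟩ := hg'
  have h1 : c n = c' n := hι ((hc n).symm.trans (hc' n))
  have h2 : b * c₀ n = b' * c₀ n := by rw [← hr, ← hr', h1]
  exact mul_right_cancel₀ hn h2

/-- The diamond operators act on `W` through `φ(χ₀(a₁₁))`. -/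
theorem actsBy_diaL (chR : ZMod M → R) (hchR : ∀ x, ι (chR x) = χ₀ x) (a : SL(2, ℤ))
    (ha : a ∈ Gamma0 M) :
    ActsBy (famW ι φ χ₀ c₀) (diaL a ha) (φ (chR ((a 1 1 : ℤ) : ZMod M))) := by
  rintro b g ⟨h1, c, hc, hr⟩
  have hd := dia_eq_smul_of_hasNeb g h1 a ha
  refine ⟨?_, fun n ↦ chR ((a 1 1 : ℤ) : ZMod M) * c n, fun n ↦ ?_, fun n ↦ ?_⟩
  · rw [hd, CuspForm.IsGLPos.coe_smul]
    exact h1.smul _
  · rw [hd, qCoeff_smul548, hc, map_mul, hchR]
  · rw [map_mul, hr, mul_assoc]

/-- `T_p` acts on `W` through `φ(α_p)` if `c₀` is a formal eigenvector. -/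
theorem actsBy_TpL (chR : ZMod M → R) (hchR : ∀ x, ι (chR x) = χ₀ x) {p : ℕ} [Fact p.Prime]
    (hpM : ¬ p ∣ M) (ap : k)
    (hrel : ∀ n, c₀ (n * p) + φ (chR (p : ZMod M)) * (p : k) *
      (if p ∣ n then c₀ (n / p) else 0) = ap * c₀ n) :
    ActsBy (famW ι φ χ₀ c₀) (TpL p hpM) ap := by
  rintro b g ⟨h1, c, hc, hr⟩
  refine ⟨hasNeb_TpL hpM g h1, fun n ↦ c (n * p) + chR (p : ZMod M) *
    (if p ∣ n then (p : R) * c (n / p) else 0), fun n ↦ ?_, fun n ↦ ?_⟩
  · rw [qCoeff_TpL hpM g h1, hc, map_add, map_mul, hchR]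
    congr 2
    split_ifs
    · rw [map_mul, hc, map_natCast]
      norm_num
    · rw [map_zero]
  · have h2 : ap * b * c₀ n = b * (ap * c₀ n) := by ring
    rw [map_add, map_mul, hr, h2, ← hrel n]
    split_ifs
    · rw [map_mul, hr, map_natCast]
      ring
    · rw [map_zero]
      ring

end Red

/-! ### The character -/

section Main

variable {R : Type*} [CommRing R] {k : Type*} [Field k] {ι : R →+* ℂ} {φ : R →+* k}

/-- **CHI0, abstract level `M`.** -/
theorem exists_chi0 (hι : Function.Injective ι) (χ₀ : ZMod M → ℂ) (chR : ZMod M → R)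
    (hchR : ∀ x, ι (chR x) = χ₀ x) (α : ℕ → k) (g₀ : CuspForm (Gamma1 M) 2)
    (hneb : HasNeb χ₀ (⇑g₀) 2) (c : ℕ → R) (hc : ∀ n, qCoeff (⇑g₀ : ℍ → ℂ) n = ι (c n))
    (hne : ∃ n, φ (c n) ≠ 0)
    (hrel : ∀ p : ℕ, p.Prime → ¬ p ∣ M → ∀ n : ℕ,
      φ (c (n * p)) + φ (chR (p : ZMod M)) * (p : k) * (if p ∣ n then φ (c (n / p)) else 0) =
        α p * φ (c n)) :
    ∃ χ : heckeAlg1 M 2 →+* k,
      (∀ (p : ℕ) [Fact p.Prime] (hpM : ¬ p ∣ M), χ ⟨TpL p hpM, TpL_mem_heckeAlg1 hpM⟩ = α p) ∧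
      (∀ (a : SL(2, ℤ)) (ha : a ∈ Gamma0 M),
        χ ⟨diaL a ha, diaL_mem_heckeAlg1 a ha⟩ = φ (chR ((a 1 1 : ℤ) : ZMod M))) ∧
      ∀ t : heckeAlg1 M 2, ActsBy (famW ι φ χ₀ (fun n ↦ φ (c n))) (t : Module.End ℂ _) (χ t) := by
  set c₀ : ℕ → k := fun n ↦ φ (c n) with hc₀
  have hg₀ : g₀ ∈ famW ι φ χ₀ c₀ 1 := ⟨hneb, c, hc, fun n ↦ by rw [one_mul]⟩
  have hsep := famW_sep (M := M) (χ₀ := χ₀) (φ := φ) hι (c₀ := c₀) hne
  have hG : ∀ t ∈ heckeGens M 2, ∃ b : k, ActsBy (famW ι φ χ₀ c₀) t b := by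
    rintro t (⟨p, hp, hpM, rfl⟩ | ⟨a, ha, rfl⟩)
    · exact ⟨α p, actsBy_TpL chR hchR hpM (α p) (hrel p hp.out hpM)⟩
    · exact ⟨_, actsBy_diaL chR hchR a ha⟩
  obtain ⟨χ, hχ⟩ := exists_ringHom_actsBy (W := famW ι φ χ₀ c₀) famW_zero famW_add famW_neg
    hsep hg₀ hG
  refine ⟨χ, fun p _ hpM ↦ ?_, fun a ha ↦ ?_, hχ⟩
  · exact (hχ ⟨TpL p hpM, TpL_mem_heckeAlg1 hpM⟩).unique hsep hg₀
      (actsBy_TpL chR hchR hpM (α p) (hrel p Fact.out hpM))
  · exact (hχ ⟨diaL a ha, diaL_mem_heckeAlg1 a ha⟩).unique hsep hg₀ (actsBy_diaL chR hchR a ha)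

end Main

end Fermat.Agent.S48.H548

end
end
-- ===== PACK-END S48/H548/Chi0.lean

-- ===== PACK-BEGIN S48/H548/Comm.lean
section


/-!
# S48 / RES (helper548): the Hecke algebra `heckeAlg1 M k` is commutative

* `diaU d` : the diamond operator `⟨d⟩`, `d ∈ (ℤ/M)ˣ`; `diaL a = diaU d` if `a₁₁ ≡ d`;
* `neProj χ` : the projector onto the nebentypus-`χ` part; `sum_neProj : ∑ χ, neProj χ g = g`;
* `TpL_comm` : `T_p T_q = T_q T_p` on `S_k(Γ₁(M))` (via `q`-expansions on each `χ`-part);
* `heckeGens_comm`, `heckeAlg1_comm` : commutativity of the generators / of the algebra.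
-/

set_option autoImplicit false
set_option linter.unusedSectionVars false
set_option linter.deprecated false

noncomputable section

namespace Fermat.Agent.S48.H548

open Matrix.SpecialLinearGroup UpperHalfPlane ModularForm CongruenceSubgroup ModularFormClass
open scoped MatrixGroups ModularForm OnePoint Manifold

variable {M : ℕ} [NeZero M] {wt : ℤ}

/-! ### Diamond operators indexed by units -/

theorem exists_diaRep (M : ℕ) [NeZero M] (d : (ZMod M)ˣ) :
    ∃ σ : SL(2, ℤ), σ ∈ Gamma0 M ∧ ((σ 1 1 : ℤ) : ZMod M) = (d : ZMod M) := by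
  obtain ⟨σ, hσ, -, h1⟩ := exists_Gamma0_lower M (d : ZMod M).val (ZMod.val_coe_unit_coprime d)
  refine ⟨σ, hσ, ?_⟩
  rw [h1, Int.cast_natCast, ZMod.natCast_zmod_val]

/-- A representative in `Γ₀(M)` of the unit `d`. -/
def diaRep (M : ℕ) [NeZero M] (d : (ZMod M)ˣ) : SL(2, ℤ) := (exists_diaRep M d).choose

theorem diaRep_mem (d : (ZMod M)ˣ) : diaRep M d ∈ Gamma0 M := (exists_diaRep M d).choose_spec.1

theorem diaRep_lower (d : (ZMod M)ˣ) : (((diaRep M d) 1 1 : ℤ) : ZMod M) = (d : ZMod M) :=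
  (exists_diaRep M d).choose_spec.2

/-- The diamond operator `⟨d⟩`. -/
def diaU (d : (ZMod M)ˣ) : CuspForm (Gamma1 M) wt →ₗ[ℂ] CuspForm (Gamma1 M) wt :=
  diaL (diaRep M d) (diaRep_mem d)

theorem diaL_eq_of_lower_eq (a b : SL(2, ℤ)) (ha : a ∈ Gamma0 M) (hb : b ∈ Gamma0 M)
    (h : ((a 1 1 : ℤ) : ZMod M) = ((b 1 1 : ℤ) : ZMod M)) :
    (diaL a ha : CuspForm (Gamma1 M) wt →ₗ[ℂ] CuspForm (Gamma1 M) wt) = diaL b hb := by
  ext1 g
  apply DFunLike.coe_injective
  rw [coe_diaL, coe_diaL]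
  exact (coe_inv1 g).slash_eq_of_lower_eq a b ha hb h

theorem diaL_eq_diaU (a : SL(2, ℤ)) (ha : a ∈ Gamma0 M) (d : (ZMod M)ˣ)
    (h : ((a 1 1 : ℤ) : ZMod M) = (d : ZMod M)) :
    (diaL a ha : CuspForm (Gamma1 M) wt →ₗ[ℂ] CuspForm (Gamma1 M) wt) = diaU d :=
  diaL_eq_of_lower_eq a _ ha (diaRep_mem d) (h.trans (diaRep_lower d).symm)

theorem diaL_mul (a b : SL(2, ℤ)) (ha : a ∈ Gamma0 M) (hb : b ∈ Gamma0 M)
    (g : CuspForm (Gamma1 M) wt) :
    diaL b hb (diaL a ha g) = diaL (a * b) ((Gamma0 M).mul_mem ha hb) g := by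
  apply DFunLike.coe_injective
  rw [coe_diaL, coe_diaL, coe_diaL, slash_mapGL_mul]

theorem diaL_comm (a b : SL(2, ℤ)) (ha : a ∈ Gamma0 M) (hb : b ∈ Gamma0 M)
    (g : CuspForm (Gamma1 M) wt) :
    diaL b hb (diaL a ha g) = diaL a ha (diaL b hb g) := by
  rw [diaL_mul, diaL_mul]
  refine LinearMap.congr_fun (diaL_eq_of_lower_eq _ _ _ _ ?_) g
  rw [lower_right_mul a b ha, lower_right_mul b a hb, mul_comm]

theorem diaU_one (g : CuspForm (Gamma1 M) wt) : diaU (1 : (ZMod M)ˣ) g = g := by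
  apply DFunLike.coe_injective
  show (⇑(diaL _ _ g) : ℍ → ℂ) = _
  rw [coe_diaL]
  refine coe_inv1 g _ (mem_Gamma1_of_lower _ (Gamma0_mem.mp (diaRep_mem 1)) ?_)
  rw [diaRep_lower]
  rfl

/-- The unit of `ℤ/M` given by the lower right entry of `a ∈ Γ₀(M)`. -/
def lowerUnit (a : SL(2, ℤ)) (ha : a ∈ Gamma0 M) : (ZMod M)ˣ :=
  ⟨((a 1 1 : ℤ) : ZMod M), ((a 0 0 : ℤ) : ZMod M),
    by rw [mul_comm]; exact lower_right_isUnit a ha, lower_right_isUnit a ha⟩

@[simp] theorem coe_lowerUnit (a : SL(2, ℤ)) (ha : a ∈ Gamma0 M) :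
    ((lowerUnit a ha : (ZMod M)ˣ) : ZMod M) = ((a 1 1 : ℤ) : ZMod M) := rfl

theorem diaL_diaU (a : SL(2, ℤ)) (ha : a ∈ Gamma0 M) (d : (ZMod M)ˣ)
    (g : CuspForm (Gamma1 M) wt) : diaL a ha (diaU d g) = diaU (d * lowerUnit a ha) g := by
  show diaL a ha (diaL _ _ g) = _
  rw [diaL_mul]
  refine LinearMap.congr_fun (diaL_eq_diaU _ _ _ ?_) g
  rw [lower_right_mul _ a (diaRep_mem d), diaRep_lower, Units.val_mul, coe_lowerUnit]

/-! ### Decomposition into nebentypus components -/

/-- The projector onto the nebentypus-`χ` component. -/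
def neProj (χ : DirichletCharacter ℂ M) :
    CuspForm (Gamma1 M) wt →ₗ[ℂ] CuspForm (Gamma1 M) wt :=
  ((M.totient : ℂ)⁻¹) • ∑ d : (ZMod M)ˣ, χ ((d⁻¹ : (ZMod M)ˣ) : ZMod M) • diaU d

theorem neProj_apply (χ : DirichletCharacter ℂ M) (g : CuspForm (Gamma1 M) wt) :
    neProj χ g =
      ((M.totient : ℂ)⁻¹) • ∑ d : (ZMod M)ˣ, χ ((d⁻¹ : (ZMod M)ˣ) : ZMod M) • diaU d g := by
  simp [neProj, LinearMap.sum_apply]

theorem diaL_neProj (χ : DirichletCharacter ℂ M) (a : SL(2, ℤ)) (ha : a ∈ Gamma0 M)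
    (g : CuspForm (Gamma1 M) wt) :
    diaL a ha (neProj χ g) = χ ((a 1 1 : ℤ) : ZMod M) • neProj χ g := by
  set u := lowerUnit a ha with hu
  have h1 : diaL a ha (neProj χ g) = ((M.totient : ℂ)⁻¹) •
      ∑ d : (ZMod M)ˣ, χ ((d⁻¹ : (ZMod M)ˣ) : ZMod M) • diaU (d * u) g := by
    rw [neProj_apply, map_smul, map_sum]
    congr 1
    refine Finset.sum_congr rfl fun d _ ↦ ?_
    rw [map_smul, diaL_diaU]
  have h2 : ∑ d : (ZMod M)ˣ, χ ((d⁻¹ : (ZMod M)ˣ) : ZMod M) • diaU (d * u) g =
      ∑ d : (ZMod M)ˣ, χ (((d * u⁻¹)⁻¹ : (ZMod M)ˣ) : ZMod M) • diaU d g := by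
    refine Fintype.sum_equiv (Equiv.mulRight u) _ _ fun d ↦ ?_
    rw [Equiv.coe_mulRight, mul_inv_cancel_right]
  have h3 : ∀ d : (ZMod M)ˣ, χ (((d * u⁻¹)⁻¹ : (ZMod M)ˣ) : ZMod M) =
      χ ((a 1 1 : ℤ) : ZMod M) * χ ((d⁻¹ : (ZMod M)ˣ) : ZMod M) := by
    intro d
    rw [mul_inv_rev, inv_inv, Units.val_mul, map_mul]
    rfl
  rw [h1, h2, neProj_apply, smul_comm (χ ((a 1 1 : ℤ) : ZMod M)) ((M.totient : ℂ)⁻¹)]
  congr 1
  rw [Finset.smul_sum]
  refine Finset.sum_congr rfl fun d _ ↦ ?_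
  rw [h3, mul_smul]

theorem hasNeb_neProj (χ : DirichletCharacter ℂ M) (g : CuspForm (Gamma1 M) wt) :
    HasNeb (⇑χ) (⇑(neProj χ g)) wt := fun a ha ↦ by
  rw [← coe_diaL a ha, diaL_neProj, CuspForm.IsGLPos.coe_smul]

theorem sum_neProj (g : CuspForm (Gamma1 M) wt) :
    ∑ χ : DirichletCharacter ℂ M, neProj χ g = g := by
  simp only [neProj_apply]
  rw [← Finset.smul_sum, Finset.sum_comm]
  simp only [← Finset.sum_smul]
  have h1 : ∀ d : (ZMod M)ˣ,
      (∑ χ : DirichletCharacter ℂ M, χ ((d⁻¹ : (ZMod M)ˣ) : ZMod M)) =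
        if d = 1 then (M.totient : ℂ) else 0 := by
    intro d
    rw [DirichletCharacter.sum_characters_eq]
    congr 1
    rw [eq_iff_iff]
    constructor
    · intro h
      have : (d⁻¹ : (ZMod M)ˣ) = 1 := Units.ext h
      simpa using this
    · rintro rfl
      simp
  simp only [h1]
  rw [Finset.sum_eq_single (1 : (ZMod M)ˣ)]
  · rw [if_pos rfl, smul_smul, diaU_one, inv_mul_cancel₀, one_smul]
    exact_mod_cast (Nat.totient_pos.mpr (NeZero.pos M)).ne'
  · intro d _ hd
    rw [if_neg hd, zero_smul]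
  · intro h
    exact absurd (Finset.mem_univ _) h

/-! ### Commutativity of the `T_p` -/

section TT

variable {p q : ℕ} [Fact p.Prime] [Fact q.Prime]

theorem eq_of_qCoeff_eq (f g : CuspForm (Gamma1 M) wt)
    (h : ∀ n, qCoeff (⇑f : ℍ → ℂ) n = qCoeff (⇑g : ℍ → ℂ) n) : f = g := by
  apply DFunLike.coe_injective
  exact HasQ.unique ((coe_nice f).hasQ.congr h) (coe_nice g).hasQ

/-- The `q`-expansion of `T_p T_q g` (symmetric in `p`, `q`). -/
theorem qCoeff_TpL_TpL (hpq : p ≠ q) (hpM : ¬ p ∣ M) (hqM : ¬ q ∣ M) {χ : ZMod M → ℂ}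
    (g : CuspForm (Gamma1 M) wt) (hχ : HasNeb χ ⇑g wt) (n : ℕ) :
    qCoeff (⇑(TpL p hpM (TpL q hqM g)) : ℍ → ℂ) n =
      qCoeff (⇑g : ℍ → ℂ) (n * p * q) +
      (if q ∣ n then χ q * (q : ℂ) ^ (wt - 1) * qCoeff (⇑g : ℍ → ℂ) (n / q * p) else 0) +
      (if p ∣ n then χ p * (p : ℂ) ^ (wt - 1) * qCoeff (⇑g : ℍ → ℂ) (n / p * q) else 0) +
      (if p ∣ n ∧ q ∣ n then χ p * (p : ℂ) ^ (wt - 1) * (χ q * (q : ℂ) ^ (wt - 1)) *
        qCoeff (⇑g : ℍ → ℂ) (n / (p * q)) else 0) := by
  have hp : p.Prime := Fact.out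
  have hq : q.Prime := Fact.out
  have hcop : Nat.Coprime q p := (Nat.coprime_primes hq hp).mpr (Ne.symm hpq)
  rw [qCoeff_TpL hpM _ (hasNeb_TpL hqM g hχ), qCoeff_TpL hqM g hχ, qCoeff_TpL hqM g hχ]
  have h1 : q ∣ n * p ↔ q ∣ n := hcop.dvd_mul_right
  by_cases hqn : q ∣ n
  · have h2 : n * p / q = n / q * p := (Nat.div_mul_right_comm hqn p).symm
    by_cases hpn : p ∣ n
    · have h3 : q ∣ n / p := by
        obtain ⟨m, rfl⟩ := hpn
        rw [Nat.mul_div_cancel_left m hp.pos]
        exact (hcop.dvd_mul_left).mp hqn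
      have h4 : n / p / q = n / (p * q) := Nat.div_div_eq_div_mul n p q
      rw [if_pos (h1.mpr hqn), if_pos hpn, if_pos h3, if_pos hqn, if_pos hpn,
        if_pos ⟨hpn, hqn⟩, h2, h4]
      ring
    · rw [if_pos (h1.mpr hqn), if_neg hpn, if_pos hqn, if_neg hpn,
        if_neg (fun h ↦ hpn h.1), h2]
      ring
  · by_cases hpn : p ∣ n
    · have h3 : ¬ q ∣ n / p := fun h ↦ hqn (h.trans (Nat.div_dvd_of_dvd hpn))
      rw [if_neg (fun h ↦ hqn (h1.mp h)), if_pos hpn, if_neg h3, if_neg hqn, if_pos hpn,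
        if_neg (fun h ↦ hqn h.2)]
      ring
    · rw [if_neg (fun h ↦ hqn (h1.mp h)), if_neg hpn, if_neg hqn, if_neg hpn,
        if_neg (fun h ↦ hqn h.2)]
      ring

theorem TpL_comm_of_hasNeb (hpM : ¬ p ∣ M) (hqM : ¬ q ∣ M) {χ : ZMod M → ℂ}
    (g : CuspForm (Gamma1 M) wt) (hχ : HasNeb χ ⇑g wt) :
    TpL p hpM (TpL q hqM g) = TpL q hqM (TpL p hpM g) := by
  by_cases hpq : p = q
  · subst hpq
    have : (inferInstance : Fact p.Prime) = ‹Fact p.Prime› := Subsingleton.elim _ _
    congr!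
  · refine eq_of_qCoeff_eq _ _ fun n ↦ ?_
    rw [qCoeff_TpL_TpL hpq hpM hqM g hχ, qCoeff_TpL_TpL (Ne.symm hpq) hqM hpM g hχ]
    have e1 : n * p * q = n * q * p := by ring
    have e2 : n / (p * q) = n / (q * p) := by rw [mul_comm]
    have e3 : (p ∣ n ∧ q ∣ n) ↔ (q ∣ n ∧ p ∣ n) := and_comm
    rw [e1, e2]
    simp only [e3]
    ring_nf

/-- `T_p T_q = T_q T_p`. -/
theorem TpL_comm (hpM : ¬ p ∣ M) (hqM : ¬ q ∣ M) (g : CuspForm (Gamma1 M) wt) :
    TpL p hpM (TpL q hqM g) = TpL q hqM (TpL p hpM g) := by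
  conv_lhs => rw [← sum_neProj g]
  conv_rhs => rw [← sum_neProj g]
  rw [map_sum, map_sum, map_sum, map_sum]
  exact Finset.sum_congr rfl fun χ _ ↦ TpL_comm_of_hasNeb hpM hqM _ (hasNeb_neProj χ g)

end TT

/-! ### Commutativity of the algebra -/

theorem heckeGens_comm (s t : Module.End ℂ (CuspForm (Gamma1 M) wt)) (hs : s ∈ heckeGens M wt)
    (ht : t ∈ heckeGens M wt) : s * t = t * s := by
  ext1 g
  rw [Module.End.mul_apply, Module.End.mul_apply]
  rcases hs with ⟨p, hp, hpM, rfl⟩ | ⟨a, ha, rfl⟩ <;>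
    rcases ht with ⟨q, hq, hqM, rfl⟩ | ⟨b, hb, rfl⟩
  · exact TpL_comm hpM hqM g
  · exact (diaL_TpL hpM b hb g).symm
  · exact diaL_TpL hqM a ha g
  · exact diaL_comm b a hb ha g

/-- The Hecke algebra is commutative. -/
theorem heckeAlg1_comm (s t : heckeAlg1 M wt) : s * t = t * s := by
  exact (Algebra.adjoinCommRingOfComm ℤ (s := heckeGens M wt)
    (fun a ha b hb ↦ heckeGens_comm a b ha hb)).mul_comm s t

/-- The Hecke algebra as a commutative ring. -/
instance heckeAlg1.instCommRing : CommRing (heckeAlg1 M wt) :=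
  { (inferInstance : Ring (heckeAlg1 M wt)) with mul_comm := heckeAlg1_comm }

end Fermat.Agent.S48.H548

end
end
-- ===== PACK-END S48/H548/Comm.lean

-- ===== PACK-BEGIN S48/H548/Chi0Main.lean
section


/-!
# S48 / RES piece CHI0 (helper548): the character `χ₀` from `h · E`

`h ∈ S_1(Γ₁(N))` with nebentypus `ε` and `R`-integral `q`-expansion whose reduction mod `φ` is a
nonzero eigenvector of the formal Hecke operators (eigenvalues `α_p`, character `ε`);
`E ∈ M_1(Γ₁(L))` with nebentypus `ψ`, `R`-integral `q`-expansion, `E ≡ 1 mod φ`, and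
`φ(ψ(p)) p = 1` (`ψ` = inverse Teichmüller character).  Then `g₀ = h E ∈ S_2(Γ₁(N L))` gives a
ring homomorphism `χ₀ : heckeAlg1 (N L) 2 → k` with `χ₀(T_p) = α_p`,
`χ₀(⟨a⟩) = φ(ε(a₁₁)) φ(ψ(a₁₁))`; in particular `χ₀(⟨p⟩) p = φ(ε(p))`.
-/

set_option autoImplicit false
set_option linter.unusedSectionVars false
set_option linter.deprecated false

noncomputable section

namespace Fermat.Agent.S48.H548

open Matrix.SpecialLinearGroup UpperHalfPlane ModularForm CongruenceSubgroup ModularFormClass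
open scoped MatrixGroups ModularForm OnePoint Manifold

variable {N L : ℕ} [NeZero N] [NeZero L]
variable {R : Type*} [CommRing R] {k : Type*} [Field k] {ι : R →+* ℂ} {φ : R →+* k}

/-- The product `h E` in weight `2`. -/
def mulCusp2 (h : CuspForm (Gamma1 N) 1) (E : ModularForm (Gamma1 L) 1) :
    CuspForm (Gamma1 (N * L)) 2 :=
  mulCusp h E

@[simp] theorem coe_mulCusp2 (h : CuspForm (Gamma1 N) 1) (E : ModularForm (Gamma1 L) 1) :
    (⇑(mulCusp2 h E) : ℍ → ℂ) = ⇑h * ⇑E := rfl

/-- Reduction of the Cauchy product with a series `≡ 1`. -/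
theorem map_sum_antidiagonal_eq (c e : ℕ → R) (he0 : φ (e 0) = 1)
    (he1 : ∀ n, 1 ≤ n → φ (e n) = 0) (n : ℕ) :
    φ (∑ x ∈ Finset.HasAntidiagonal.antidiagonal n, c x.1 * e x.2) = φ (c n) := by
  rw [map_sum, Finset.sum_eq_single (n, 0)]
  · rw [map_mul, he0, mul_one]
  · rintro ⟨i, j⟩ hij hne
    rw [Finset.HasAntidiagonal.mem_antidiagonal] at hij
    have hj : 1 ≤ j := by
      rcases Nat.eq_zero_or_pos j with rfl | hj
      · exfalso
        apply hne
        simp only [add_zero] at hij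
        rw [hij]
      · exact hj
    rw [map_mul, he1 j hj, mul_zero]
  · intro h
    exact absurd (Finset.HasAntidiagonal.mem_antidiagonal.mpr (add_zero n)) h

/-- **CHI0** for `g₀ = h E`. -/
theorem exists_chi0_mul (hι : Function.Injective ι)
    (ε : ZMod N → ℂ) (εR : ZMod N → R) (hεR : ∀ x, ι (εR x) = ε x)
    (ψ : ZMod L → ℂ) (ψR : ZMod L → R) (hψR : ∀ x, ι (ψR x) = ψ x)
    (hteich : ∀ p : ℕ, p.Prime → ¬ p ∣ N * L → φ (ψR (p : ZMod L)) * (p : k) = 1)
    (α : ℕ → k)
    (h : CuspForm (Gamma1 N) 1) (hh : HasNeb ε (⇑h) 1)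
    (c : ℕ → R) (hc : ∀ n, qCoeff (⇑h : ℍ → ℂ) n = ι (c n)) (hne : ∃ n, φ (c n) ≠ 0)
    (hrel : ∀ p : ℕ, p.Prime → ¬ p ∣ N * L → ∀ n : ℕ,
      φ (c (p * n)) + φ (εR (p : ZMod N)) * (if p ∣ n then φ (c (n / p)) else 0) =
        α p * φ (c n))
    (E : ModularForm (Gamma1 L) 1) (hE : HasNeb ψ (⇑E) 1)
    (e : ℕ → R) (he : ∀ n, qCoeff (⇑E : ℍ → ℂ) n = ι (e n)) (he0 : φ (e 0) = 1)
    (he1 : ∀ n, 1 ≤ n → φ (e n) = 0) :
    ∃ χ : heckeAlg1 (N * L) 2 →+* k,
      (∀ (p : ℕ) [Fact p.Prime] (hpM : ¬ p ∣ N * L),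
        χ ⟨TpL p hpM, TpL_mem_heckeAlg1 hpM⟩ = α p) ∧
      (∀ (a : SL(2, ℤ)) (ha : a ∈ Gamma0 (N * L)),
        χ ⟨diaL a ha, diaL_mem_heckeAlg1 a ha⟩ =
          φ (εR ((a 1 1 : ℤ) : ZMod N)) * φ (ψR ((a 1 1 : ℤ) : ZMod L))) ∧
      (∀ (p : ℕ) [Fact p.Prime] (hpM : ¬ p ∣ N * L) (a : SL(2, ℤ)) (ha : a ∈ Gamma0 (N * L)),
        ((a 1 1 : ℤ) : ZMod (N * L)) = (p : ZMod (N * L)) →
        χ ⟨diaL a ha, diaL_mem_heckeAlg1 a ha⟩ * (p : k) = φ (εR (p : ZMod N))) := by
  set chR : ZMod (N * L) → R := fun x ↦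
    εR (ZMod.castHom (dvd_mul_right N L) (ZMod N) x) *
      ψR (ZMod.castHom (dvd_mul_left L N) (ZMod L) x) with hchR
  have hchR' : ∀ x, ι (chR x) = mulChar ε ψ x := fun x ↦ by
    rw [hchR, map_mul, hεR, hψR]
    rfl
  have hchR_int : ∀ a : ℤ, chR (a : ZMod (N * L)) = εR (a : ZMod N) * ψR (a : ZMod L) :=
    fun a ↦ by simp [hchR]
  have hchR_nat : ∀ a : ℕ, chR (a : ZMod (N * L)) = εR (a : ZMod N) * ψR (a : ZMod L) :=
    fun a ↦ by simp [hchR]
  set c' : ℕ → R := fun n ↦ ∑ x ∈ Finset.HasAntidiagonal.antidiagonal n, c x.1 * e x.2 with hc'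
  have hφc' : ∀ n, φ (c' n) = φ (c n) := fun n ↦ map_sum_antidiagonal_eq c e he0 he1 n
  obtain ⟨χ, h1, h2, -⟩ := exists_chi0 (M := N * L) (φ := φ) hι (mulChar ε ψ) chR hchR' α
    (mulCusp2 h E) (hasNeb_mulCusp h E hh hE) c'
    (fun n ↦ by
      show qCoeff (⇑(mulCusp h E) : ℍ → ℂ) n = _
      rw [qCoeff_mulCusp, hc', map_sum]
      refine Finset.sum_congr rfl fun x _ ↦ ?_
      rw [map_mul, hc, he])
    (by
      obtain ⟨n, hn⟩ := hne
      exact ⟨n, by rwa [hφc']⟩)
    (fun p hp hpM n ↦ by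
      have h3 : φ (chR (p : ZMod (N * L))) * (p : k) = φ (εR (p : ZMod N)) := by
        rw [hchR_nat, map_mul, mul_assoc, hteich p hp hpM, mul_one]
      rw [hφc', hφc', hφc', h3, mul_comm n p]
      exact hrel p hp hpM n)
  refine ⟨χ, h1, fun a ha ↦ ?_, fun p _ hpM a ha hap ↦ ?_⟩
  · rw [h2 a ha, hchR_int, map_mul]
  · rw [h2 a ha, hap, hchR_nat, map_mul, mul_assoc, hteich p Fact.out hpM, mul_one]

end Fermat.Agent.S48.H548

end
end
-- ===== PACK-END S48/H548/Chi0Main.lean

-- ===== PACK-BEGIN S48/H548/M4a1Inst.lean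
section





/-!
# S48 / RES, node M4a1 CLOSED (helper548 + helper188): the parabolic eigenclass on `Γ₁(M)`

* `periodInputs M : H188.PeriodInputs M` — the inputs PER1 + COMM of helper188's abstract
  Nakayama argument, from `H548/Per1*.lean` and `H548/Comm.lean`;
* `exists_eigenclass1` : for every ring homomorphism `χ : heckeAlg1 M 2 →+* F` (`F` a field of
  characteristic `ℓ > 0`) a nonzero parabolic `c : Γ₁(M) → F` with `T_p c = χ(T_p) c`,
  `⟨a⟩ c = χ(⟨a⟩) c` (`heckeHom1`, `diaHom1` of `H548/Per1Transfer.lean`);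
* `exists_eigenclass_mul` : the same with `χ = χ₀` coming from the mod-`φ` eigenvector `h · E`
  (`exists_chi0_mul`): eigenvalues `α_p`, `φ(ε(a)) φ(ψ(a))`.  NO characteristic-zero lift.
-/

set_option autoImplicit false
set_option linter.unusedSectionVars false
set_option linter.deprecated false

noncomputable section

namespace Fermat.Agent.S48.H548

open CongruenceSubgroup Matrix.SpecialLinearGroup ModularCurve.Period UpperHalfPlane
open ModularFormClass
open scoped MatrixGroups OnePoint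

variable {M : ℕ} [NeZero M]

/-- The inputs PER1 + COMM of node M4a1. -/
def periodInputs (M : ℕ) [NeZero M] : Fermat.Agent.S48.H188.PeriodInputs M where
  per := per1L M
  inj := per1L_injective
  par := per1_parabolic
  comm := fun x hx y hy ↦ heckeGens_comm x y hx hy
  transfer := by
    rintro t (⟨p, hp, hpM, rfl⟩ | ⟨a, ha, rfl⟩) γ
    · refine ⟨OnePoint (ZMod p), Finset.univ,
        fun x ↦ Additive.ofMul (trf1 hpM (Additive.toMul γ) x), fun g ↦ ?_⟩
      rw [per1L_apply, per1_TpL]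
      rfl
    · refine ⟨Unit, Finset.univ, fun _ ↦ Additive.ofMul (conj1 a ha (Additive.toMul γ)),
        fun g ↦ ?_⟩
      rw [per1L_apply, per1_diaL, Finset.sum_const, Finset.card_univ, Fintype.card_unit,
        one_smul]
      rfl

/-- **Node M4a1.** The parabolic `χ`-eigenclass on `Γ₁(M)`. -/
theorem exists_eigenclass1 {F : Type*} [Field F] (ℓ : ℕ) [Fact ℓ.Prime] [CharP F ℓ]
    (χ : heckeAlg1 M 2 →+* F) :
    ∃ c : Additive (Gamma1 M) →+ F, c ≠ 0 ∧ IsParabolicHom (Gamma1 M) c ∧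
      (∀ γ : Gamma1 M, IsOfFinOrder γ → c (Additive.ofMul γ) = 0) ∧
      (∀ (p : ℕ) [Fact p.Prime] (hpM : ¬ p ∣ M) (γ : Additive (Gamma1 M)),
        heckeHom1 p hpM F c γ = χ ⟨TpL p hpM, TpL_mem_heckeAlg1 hpM⟩ * c γ) ∧
      (∀ (a : SL(2, ℤ)) (ha : a ∈ Gamma0 M) (γ : Additive (Gamma1 M)),
        diaHom1 a ha F c γ = χ ⟨diaL a ha, diaL_mem_heckeAlg1 a ha⟩ * c γ) := by
  obtain ⟨c, hc0, hpar, hfin, -, heig⟩ :=
    Fermat.Agent.S48.H188.exists_eigenclass (periodInputs M) ℓ χ
  refine ⟨c, hc0, hpar, hfin, fun p _ hpM γ ↦ ?_, fun a ha γ ↦ ?_⟩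
  · have h := heig ⟨TpL p hpM, TpL_mem_heckeAlg1 hpM⟩ γ (OnePoint (ZMod p)) Finset.univ
      (fun x ↦ Additive.ofMul (trf1 hpM (Additive.toMul γ) x)) (fun g ↦ by
        show per1L M (TpL p hpM g) γ = _
        rw [per1L_apply, per1_TpL]
        rfl)
    rw [← h]
    rfl
  · have h := heig ⟨diaL a ha, diaL_mem_heckeAlg1 a ha⟩ γ Unit Finset.univ
      (fun _ ↦ Additive.ofMul (conj1 a ha (Additive.toMul γ))) (fun g ↦ by
        show per1L M (diaL a ha g) γ = _
        rw [per1L_apply, per1_diaL, Finset.sum_const, Finset.card_univ, Fintype.card_unit,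
          one_smul]
        rfl)
    rw [← h, Finset.sum_const, Finset.card_univ, Fintype.card_unit, one_smul]
    rfl

/-- **Node M4a1 for `g₀ = h E`**: the parabolic eigenclass with eigenvalues `α_p` and nebentypus
`φ(ε ψ)`; hypotheses as in `exists_chi0_mul`. -/
theorem exists_eigenclass_mul {N L : ℕ} [NeZero N] [NeZero L]
    {R : Type*} [CommRing R] {k : Type*} [Field k] (ℓ : ℕ) [Fact ℓ.Prime] [CharP k ℓ]
    {ι : R →+* ℂ} {φ : R →+* k} (hι : Function.Injective ι)
    (ε : ZMod N → ℂ) (εR : ZMod N → R) (hεR : ∀ x, ι (εR x) = ε x)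
    (ψ : ZMod L → ℂ) (ψR : ZMod L → R) (hψR : ∀ x, ι (ψR x) = ψ x)
    (hteich : ∀ p : ℕ, p.Prime → ¬ p ∣ N * L → φ (ψR (p : ZMod L)) * (p : k) = 1)
    (α : ℕ → k)
    (h : CuspForm (Gamma1 N) 1) (hh : HasNeb ε (⇑h) 1)
    (c : ℕ → R) (hc : ∀ n, qCoeff (⇑h : ℍ → ℂ) n = ι (c n)) (hne : ∃ n, φ (c n) ≠ 0)
    (hrel : ∀ p : ℕ, p.Prime → ¬ p ∣ N * L → ∀ n : ℕ,
      φ (c (p * n)) + φ (εR (p : ZMod N)) * (if p ∣ n then φ (c (n / p)) else 0) =
        α p * φ (c n))
    (E : ModularForm (Gamma1 L) 1) (hE : HasNeb ψ (⇑E) 1)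
    (e : ℕ → R) (he : ∀ n, qCoeff (⇑E : ℍ → ℂ) n = ι (e n)) (he0 : φ (e 0) = 1)
    (he1 : ∀ n, 1 ≤ n → φ (e n) = 0) :
    ∃ cl : Additive (Gamma1 (N * L)) →+ k, cl ≠ 0 ∧ IsParabolicHom (Gamma1 (N * L)) cl ∧
      (∀ γ : Gamma1 (N * L), IsOfFinOrder γ → cl (Additive.ofMul γ) = 0) ∧
      (∀ (p : ℕ) [Fact p.Prime] (hpM : ¬ p ∣ N * L) (γ : Additive (Gamma1 (N * L))),
        heckeHom1 p hpM k cl γ = α p * cl γ) ∧
      (∀ (a : SL(2, ℤ)) (ha : a ∈ Gamma0 (N * L)) (γ : Additive (Gamma1 (N * L))),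
        diaHom1 a ha k cl γ =
          φ (εR ((a 1 1 : ℤ) : ZMod N)) * φ (ψR ((a 1 1 : ℤ) : ZMod L)) * cl γ) ∧
      (∀ (p : ℕ) [Fact p.Prime] (_ : ¬ p ∣ N * L) (a : SL(2, ℤ)) (ha : a ∈ Gamma0 (N * L)),
        ((a 1 1 : ℤ) : ZMod (N * L)) = (p : ZMod (N * L)) → ∀ γ : Additive (Gamma1 (N * L)),
        (p : k) * diaHom1 a ha k cl γ = φ (εR (p : ZMod N)) * cl γ) := by
  obtain ⟨χ, h1, h2, h3⟩ := exists_chi0_mul (φ := φ) hι ε εR hεR ψ ψR hψR hteich α h hh c hc hne
    hrel E hE e he he0 he1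
  obtain ⟨cl, hc0, hpar, hfin, hT, hD⟩ := exists_eigenclass1 (M := N * L) ℓ χ
  refine ⟨cl, hc0, hpar, hfin, fun p _ hpM γ ↦ ?_, fun a ha γ ↦ ?_, fun p _ hpM a ha hap γ ↦ ?_⟩
  · rw [hT p hpM γ, h1 p hpM]
  · rw [hD a ha γ, h2 a ha]
  · rw [hD a ha γ, ← mul_assoc, mul_comm (p : k), h3 p hpM a ha hap]

end Fermat.Agent.S48.H548

end
end
-- ===== PACK-END S48/H548/M4a1Inst.lean

-- ===== PACK-BEGIN S24/FFSum.lean
section





/-!
# S24 / FF layer: zeros of a coordinate function, `∑ ord_v(t) = [F : K(t)]`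

Bridge between the Prelude's `Place K F` and the primes of the integral closure of `K[t]`
in `F`, and the fundamental identity.  (helper804)
-/

set_option autoImplicit false

namespace Fermat.Agent.S24.FF

open AlgebraicCurve Polynomial IntermediateField IsDedekindDomain

open scoped IntermediateField.algebraAdjoinAdjoin

variable {K F : Type*} [Field K] [Field F] [Algebra K F]

variable (K) in
/-- `K[t] ⊆ F`. -/
abbrev coordRing (t : F) : Subalgebra K F := Algebra.adjoin K {t}

variable (K) in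
/-- The integral closure of `K[t]` in `F`. -/
abbrev intRing (t : F) : Subalgebra (coordRing K t) F := integralClosure (coordRing K t) F

variable (K) in
/-- `t` is a coordinate function on the curve with function field `F`: transcendental over `K`
with `F` finite over `K(t)`. -/
class IsCoord (t : F) : Prop where
  transcendental : Transcendental K t
  finite : FiniteDimensional K⟮t⟯ F

variable {t : F}

instance instFiniteOfIsCoord [h : IsCoord K t] : FiniteDimensional K⟮t⟯ F := h.finite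

instance instPIDCoordRing [h : IsCoord K t] : IsPrincipalIdealRing (coordRing K t) :=
  IsPrincipalIdealRing.of_surjective
    (algEquivOfTranscendental K t h.transcendental : K[X] →+* coordRing K t)
    (algEquivOfTranscendental K t h.transcendental).surjective

instance instDedekindIntRing [CharZero K] [IsCoord K t] : IsDedekindDomain (intRing K t) :=
  integralClosure.isDedekindDomain (coordRing K t) K⟮t⟯ F

instance instFractionIntRing [IsCoord K t] : IsFractionRing (intRing K t) F :=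
  integralClosure.isFractionRing_of_finite_extension K⟮t⟯ F

instance instFiniteIntRing [CharZero K] [IsCoord K t] :
    Module.Finite (coordRing K t) (intRing K t) :=
  IsIntegralClosure.finite (coordRing K t) K⟮t⟯ F (intRing K t)

/-- Any transcendental element is a coordinate as soon as one coordinate exists. -/
theorem IsCoord.of_transcendental {x : F} [hx : IsCoord K x] {y : F} (hy : Transcendental K y) :
    IsCoord K y :=
  ⟨hy, finiteDimensional_adjoin_of_transcendental hx.transcendental hy⟩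

section placeOfPrime

variable [CharZero K] [IsCoord K t]

variable (K t) in
/-- The place attached to a nonzero prime of the integral closure of `K[t]`. -/
noncomputable def placeOfPrime (q : HeightOneSpectrum (intRing K t)) : Place K F :=
  Place.ofHeightOneSpectrum (K := K) q

theorem placeOfPrime_toValuationSubring (q : HeightOneSpectrum (intRing K t)) :
    (placeOfPrime K t q).toValuationSubring = (q.valuation F).valuationSubring := rfl

theorem ord_placeOfPrime (q : HeightOneSpectrum (intRing K t)) (f : F) :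
    (placeOfPrime K t q).ord f = -WithZero.log (q.valuation F f) := by
  rcases eq_or_ne f 0 with rfl | hf
  · simp
  obtain ⟨π, hπ⟩ := q.valuation_exists_uniformizer F
  have hπ0 : π ≠ 0 := by
    rintro rfl
    rw [map_zero] at hπ
    exact WithZero.exp_ne_zero hπ.symm
  symm
  refine ordLike_eq_ord (fun f => -WithZero.log (q.valuation F f)) ?_ (placeOfPrime K t q) ?_
    hπ0 ?_ hf
  · intro f g hf hg
    simp only [map_mul]
    rw [WithZero.log_mul ((Valuation.ne_zero_iff _).mpr hf) ((Valuation.ne_zero_iff _).mpr hg)]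
    ring
  · intro f hf
    rw [placeOfPrime_toValuationSubring, Valuation.mem_valuationSubring_iff,
      neg_nonneg, WithZero.log_le_iff_le_exp ((Valuation.ne_zero_iff _).mpr hf)]
    simp
  · simp [hπ]

end placeOfPrime

end Fermat.Agent.S24.FF

end
-- ===== PACK-END S24/FFSum.lean

-- ===== PACK-BEGIN S24/FFDict.lean
section




/-!
# S24 / FF layer: dictionary between places and primes of the integral closure of `K[t]`
(helper804)
-/

set_option autoImplicit false
set_option linter.unusedSectionVars false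

namespace Fermat.Agent.S24.FF

open AlgebraicCurve Polynomial IntermediateField IsDedekindDomain

open scoped IntermediateField.algebraAdjoinAdjoin

variable {K F : Type*} [Field K] [Field F] [Algebra K F] {t : F}

/-- `K[t] ⊆ O_v` when `t` is integral at `v`. -/
theorem mem_of_mem_coordRing (v : Place K F) (ht : 0 ≤ v.ord t) {r : F}
    (hr : r ∈ coordRing K t) : r ∈ v.toValuationSubring := by
  induction hr using Algebra.adjoin_induction with
  | mem x hx =>
    rw [Set.mem_singleton_iff] at hx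
    subst hx
    exact mem_of_ord_nonneg v ht
  | algebraMap a => exact v.algebraMap_mem' a
  | add x y _ _ hx hy => exact add_mem hx hy
  | mul x y _ _ hx hy => exact mul_mem hx hy

/-- The integral closure of `K[t]` is contained in `O_v` when `t` is integral at `v`. -/
theorem mem_of_mem_intRing (v : Place K F) (ht : 0 ≤ v.ord t) {s : F}
    (hs : s ∈ intRing K t) : s ∈ v.toValuationSubring := by
  let φ : coordRing K t →+* v.toValuationSubring :=
    { toFun := fun y => ⟨y, mem_of_mem_coordRing v ht y.2⟩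
      map_one' := rfl
      map_mul' := fun _ _ => rfl
      map_zero' := rfl
      map_add' := fun _ _ => rfl }
  obtain ⟨p, hpm, hp⟩ := hs
  have hint' : IsIntegral v.toValuationSubring s := by
    refine ⟨p.map φ, hpm.map φ, ?_⟩
    rw [← hp, Polynomial.eval₂_map]
    rfl
  obtain ⟨y, hy⟩ := IsIntegrallyClosed.isIntegral_iff.mp hint'
  rw [← hy]
  exact y.2

/-- The inclusion of the integral closure of `K[t]` into `O_v`. -/
def toPlaceRing (v : Place K F) (ht : 0 ≤ v.ord t) : intRing K t →+* v.toValuationSubring where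
  toFun s := ⟨s, mem_of_mem_intRing v ht s.2⟩
  map_one' := rfl
  map_mul' _ _ := rfl
  map_zero' := rfl
  map_add' _ _ := rfl

@[simp] theorem coe_toPlaceRing (v : Place K F) (ht : 0 ≤ v.ord t) (s : intRing K t) :
    ((toPlaceRing v ht s : v.toValuationSubring) : F) = (s : F) := rfl

/-- The center of the place `v` on the integral closure of `K[t]`. -/
def center (v : Place K F) (ht : 0 ≤ v.ord t) : Ideal (intRing K t) :=
  Ideal.comap (toPlaceRing v ht) (IsLocalRing.maximalIdeal v.toValuationSubring)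

instance center_isPrime (v : Place K F) (ht : 0 ≤ v.ord t) : (center v ht).IsPrime := by
  unfold center
  infer_instance

theorem mem_center_iff (v : Place K F) (ht : 0 ≤ v.ord t) (s : intRing K t) :
    s ∈ center v ht ↔ (s : F) ∈ v.toValuationSubring.nonunits := by
  rw [center, Ideal.mem_comap]
  exact ValuationSubring.coe_mem_nonunits_iff.symm

theorem mem_nonunits_valuationSubring_iff {Γ₀ : Type*} [LinearOrderedCommGroupWithZero Γ₀]
    (w : Valuation F Γ₀) (x : F) : x ∈ w.valuationSubring.nonunits ↔ w x < 1 := by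
  rw [ValuationSubring.mem_nonunits_iff]
  exact (Valuation.isEquiv_valuation_valuationSubring w).lt_one_iff_lt_one.symm

variable (K t) in
/-- `t` as an element of `K[t]`. -/
def tR : coordRing K t := ⟨t, Algebra.self_mem_adjoin_singleton K t⟩

variable (K t) in
/-- `t` as an element of the integral closure of `K[t]`. -/
def tS : intRing K t := algebraMap (coordRing K t) (intRing K t) (tR K t)

@[simp] theorem coe_tR : ((tR K t : coordRing K t) : F) = t := rfl

@[simp] theorem coe_tS : ((tS K t : intRing K t) : F) = t := rfl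

section withCoord

variable [CharZero K] [IsCoord K t]

theorem center_ne_bot (v : Place K F) (ht : 0 < v.ord t) : center v ht.le ≠ ⊥ := by
  intro h
  have ht0 : t ≠ 0 := by
    rintro rfl
    simp at ht
  have htS : tS K t ∈ center v ht.le :=
    (mem_center_iff v ht.le _).mpr ((ord_pos_iff_mem_nonunits v ht0).mp ht)
  rw [h, Ideal.mem_bot] at htS
  apply ht0
  have := congrArg (fun s : intRing K t => (s : F)) htS
  simpa using this

/-- The center of `v` as a height-one prime. -/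
def centerPrime (v : Place K F) (ht : 0 < v.ord t) : HeightOneSpectrum (intRing K t) :=
  ⟨center v ht.le, inferInstance, center_ne_bot v ht⟩

@[simp] theorem centerPrime_asIdeal (v : Place K F) (ht : 0 < v.ord t) :
    (centerPrime v ht).asIdeal = center v ht.le := rfl

/-- **Dictionary, surjectivity**: a place at which `t` vanishes is the place of its center. -/
theorem placeOfPrime_centerPrime (v : Place K F) (ht : 0 < v.ord t) :
    placeOfPrime K t (centerPrime v ht) = v := by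
  apply Place.ext
  rw [placeOfPrime_toValuationSubring,
    ← HeightOneSpectrum.valuationSubringAtPrime_eq_valuationSubring]
  refine ValuationSubring.eq_of_le_of_ne_top _ ?_ v.ne_top'
  rintro x ⟨a, s, hs, rfl⟩
  have ha : (a : F) ∈ v.toValuationSubring := mem_of_mem_intRing v ht.le a.2
  have hs' : (s : F) ∉ v.toValuationSubring.nonunits := fun h =>
    hs ((mem_center_iff v ht.le s).mpr h)
  have hsinv : (s : F)⁻¹ ∈ v.toValuationSubring := by
    by_contra hcon
    exact hs' ((ValuationSubring.mem_nonunits_iff_or _).mpr (Or.inr hcon))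
  exact mul_mem ha hsinv

theorem ord_t_placeOfPrime_nonneg (q : HeightOneSpectrum (intRing K t)) :
    0 ≤ (placeOfPrime K t q).ord t := by
  apply ord_nonneg_of_mem
  rw [placeOfPrime_toValuationSubring, Valuation.mem_valuationSubring_iff]
  exact q.valuation_le_one (tS K t)

/-- **Dictionary, injectivity**: the center of the place of `q` is `q`. -/
theorem center_placeOfPrime (q : HeightOneSpectrum (intRing K t)) :
    center (placeOfPrime K t q) (ord_t_placeOfPrime_nonneg q) = q.asIdeal := by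
  ext s
  rw [mem_center_iff, placeOfPrime_toValuationSubring, mem_nonunits_valuationSubring_iff]
  exact q.valuation_lt_one_iff_mem s

theorem placeOfPrime_injective :
    Function.Injective (placeOfPrime K t : HeightOneSpectrum (intRing K t) → Place K F) := by
  intro q q' h
  have h1 := center_placeOfPrime q
  have h2 := center_placeOfPrime q'
  apply HeightOneSpectrum.ext
  rw [← h1, ← h2]
  congr 1

/-- `t` vanishes at the place of `q` iff `t ∈ q`. -/
theorem ord_t_placeOfPrime_pos_iff (ht0 : t ≠ 0) (q : HeightOneSpectrum (intRing K t)) :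
    0 < (placeOfPrime K t q).ord t ↔ tS K t ∈ q.asIdeal := by
  rw [ord_pos_iff_mem_nonunits _ ht0, placeOfPrime_toValuationSubring,
    mem_nonunits_valuationSubring_iff]
  exact q.valuation_lt_one_iff_mem (tS K t)

end withCoord

end Fermat.Agent.S24.FF

end
-- ===== PACK-END S24/FFDict.lean

-- ===== PACK-BEGIN S24/FFIdentity.lean
section




/-!
# S24 / FF layer: the fundamental identity `∑_{v(t) > 0} ord_v(t) = [F : K(t)]`
(helper804)
-/

set_option autoImplicit false
set_option linter.unusedSectionVars false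

namespace Fermat.Agent.S24.FF

open AlgebraicCurve Polynomial IntermediateField IsDedekindDomain

open scoped IntermediateField.algebraAdjoinAdjoin

/-- Abstract criterion: if every element of `S` is congruent mod `q` to an element of `R`,
the inertia degree of `q` is one. -/
theorem inertiaDeg_eq_one_of_forall_exists {R S : Type*} [CommRing R] [CommRing S] [Algebra R S]
    (p : Ideal R) (q : Ideal S) [q.LiesOver p] [p.IsMaximal] [q.IsMaximal]
    (h : ∀ s : S, ∃ r : R, s - algebraMap R S r ∈ q) : q.inertiaDeg R = 1 := by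
  rw [Ideal.inertiaDeg_eq_of_isMaximal p q]
  let _ : Field (R ⧸ p) := Ideal.Quotient.field _
  rw [finrank_eq_one_iff_of_nonzero' (1 : S ⧸ q) one_ne_zero]
  intro w
  obtain ⟨s, rfl⟩ := Ideal.Quotient.mk_surjective w
  obtain ⟨r, hr⟩ := h s
  refine ⟨Ideal.Quotient.mk _ r, ?_⟩
  rw [Algebra.smul_def, mul_one, Ideal.Quotient.algebraMap_mk_of_liesOver, eq_comm,
    Ideal.Quotient.eq]
  exact hr

variable {K F : Type*} [Field K] [Field F] [Algebra K F] {t : F}

instance instTowerCoordIntRing : IsScalarTower (coordRing K t) (intRing K t) F :=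
  IsScalarTower.of_algebraMap_eq (fun _ => rfl)

section

variable [CharZero K] [IsCoord K t]

theorem t_ne_zero (ht : Transcendental K t) : t ≠ 0 := by
  rintro rfl
  exact ht isAlgebraic_zero

theorem tS_ne_zero : tS K t ≠ 0 := by
  intro h
  apply t_ne_zero (IsCoord.transcendental (K := K) (t := t))
  have := congrArg (fun s : intRing K t => (s : F)) h
  simpa using this

theorem irreducible_tR : Irreducible (tR K t) := by
  have h := Polynomial.irreducible_X (R := K)
  have e := algEquivOfTranscendental K t (IsCoord.transcendental (K := K) (t := t))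
  rw [tR, ← algEquivOfTranscendental_apply_X K t (IsCoord.transcendental (K := K) (t := t))]
  exact (MulEquiv.irreducible_iff
    (algEquivOfTranscendental K t (IsCoord.transcendental (K := K) (t := t)))).mpr h

variable (K t) in
/-- The maximal ideal `(t)` of `K[t]`. -/
def tIdeal : Ideal (coordRing K t) := Ideal.span {tR K t}

instance tIdeal_isMaximal : (tIdeal K t).IsMaximal :=
  PrincipalIdealRing.isMaximal_of_irreducible irreducible_tR

theorem map_tIdeal :
    (tIdeal K t).map (algebraMap (coordRing K t) (intRing K t)) = Ideal.span {tS K t} := by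
  rw [tIdeal, Ideal.map_span, Set.image_singleton]
  rfl

theorem map_tIdeal_ne_bot :
    (tIdeal K t).map (algebraMap (coordRing K t) (intRing K t)) ≠ ⊥ := by
  rw [map_tIdeal, Ne, Ideal.span_singleton_eq_bot]
  exact tS_ne_zero

theorem liesOver_iff (q : Ideal (intRing K t)) [hq : q.IsPrime] :
    q.LiesOver (tIdeal K t) ↔ tS K t ∈ q := by
  constructor
  · intro h
    have : tR K t ∈ q.under (coordRing K t) := by
      rw [← h.over]
      exact Ideal.subset_span rfl
    exact this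
  · intro h
    refine ⟨?_⟩
    apply (tIdeal_isMaximal (K := K) (t := t)).eq_of_le (Ideal.IsPrime.under _ q).ne_top
    rw [tIdeal, Ideal.span_le, Set.singleton_subset_iff]
    exact h

/-- `ord_v(t)` at the place of a prime `q` over `(t)` is the ramification index of `q`. -/
theorem ord_t_eq_ramificationIdx (q : HeightOneSpectrum (intRing K t))
    [hq : q.asIdeal.LiesOver (tIdeal K t)] :
    (placeOfPrime K t q).ord t = (q.asIdeal.ramificationIdx (coordRing K t) : ℤ) := by
  have := q.isPrime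
  rw [Ideal.IsDedekindDomain.ramificationIdx_eq_multiplicity (tIdeal K t) q.asIdeal
    map_tIdeal_ne_bot, map_tIdeal, ord_placeOfPrime]
  have h1 : q.valuation F t = q.intValuation (tS K t) := q.valuation_of_algebraMap (tS K t)
  rw [h1, q.intValuation_eq_exp_neg_multiplicity tS_ne_zero]
  simp

/-- The residue degree of every prime over `(t)` is one. -/
theorem inertiaDeg_eq_one [IsAlgClosed K] (q : HeightOneSpectrum (intRing K t))
    [hq : q.asIdeal.LiesOver (tIdeal K t)] :
    q.asIdeal.inertiaDeg (coordRing K t) = 1 := by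
  have : q.asIdeal.IsMaximal := q.isPrime.isMaximal q.ne_bot
  refine inertiaDeg_eq_one_of_forall_exists (tIdeal K t) q.asIdeal fun s => ?_
  have hsO : (s : F) ∈ (placeOfPrime K t q).toValuationSubring :=
    mem_of_mem_intRing _ (ord_t_placeOfPrime_nonneg q) s.2
  obtain ⟨a, ha⟩ := exists_const_sub_mem_nonunits (placeOfPrime K t q)
    (IsCoord.transcendental (K := K) (t := t)) hsO
  refine ⟨algebraMap K (coordRing K t) a, ?_⟩
  rw [← center_placeOfPrime q, mem_center_iff]
  exact ha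

/-- The height-one prime attached to a prime over `(t)`. -/
def primeOfOver (q : (tIdeal K t).primesOver (intRing K t)) :
    HeightOneSpectrum (intRing K t) :=
  ⟨q.1, q.2.1, fun h => tS_ne_zero (K := K) (t := t) (by
    have h1 := (liesOver_iff q.1 (hq := q.2.1)).mp q.2.2
    rw [h] at h1
    exact h1)⟩

@[simp] theorem primeOfOver_asIdeal (q : (tIdeal K t).primesOver (intRing K t)) :
    (primeOfOver q).asIdeal = q.1 := rfl

instance primeOfOver_liesOver (q : (tIdeal K t).primesOver (intRing K t)) :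
    (primeOfOver q).asIdeal.LiesOver (tIdeal K t) := q.2.2

/-- The place attached to a prime over `(t)`. -/
noncomputable def placeOfOver (q : (tIdeal K t).primesOver (intRing K t)) : Place K F :=
  placeOfPrime K t (primeOfOver q)

theorem placeOfOver_injective :
    Function.Injective (placeOfOver : (tIdeal K t).primesOver (intRing K t) → Place K F) := by
  intro q q' h
  have := placeOfPrime_injective h
  apply Subtype.ext
  exact congrArg HeightOneSpectrum.asIdeal this

theorem ord_t_placeOfOver_pos (q : (tIdeal K t).primesOver (intRing K t)) :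
    0 < (placeOfOver q).ord t := by
  rw [placeOfOver, ord_t_placeOfPrime_pos_iff (t_ne_zero (IsCoord.transcendental (K := K)))]
  exact (liesOver_iff q.1 (hq := q.2.1)).mp q.2.2

theorem exists_placeOfOver_eq (v : Place K F) (ht : 0 < v.ord t) :
    ∃ q : (tIdeal K t).primesOver (intRing K t), placeOfOver q = v := by
  have ht0 : t ≠ 0 := t_ne_zero (IsCoord.transcendental (K := K))
  have hmem : tS K t ∈ center v ht.le :=
    (mem_center_iff v ht.le _).mpr ((ord_pos_iff_mem_nonunits v ht0).mp ht)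
  refine ⟨⟨center v ht.le, center_isPrime v ht.le, (liesOver_iff _).mpr hmem⟩, ?_⟩
  exact placeOfPrime_centerPrime v ht

theorem range_placeOfOver :
    Set.range (placeOfOver : (tIdeal K t).primesOver (intRing K t) → Place K F) =
      {v : Place K F | 0 < v.ord t} := by
  ext v
  constructor
  · rintro ⟨q, rfl⟩
    exact ord_t_placeOfOver_pos q
  · intro hv
    exact exists_placeOfOver_eq v hv

theorem sum_placeOfOver [IsAlgClosed K] :
    ∑ q : (tIdeal K t).primesOver (intRing K t), (placeOfOver q).ord t =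
      (Module.finrank K⟮t⟯ F : ℤ) := by
  have h := Ideal.sum_ramification_inertia_eq_finrank (tIdeal K t) (intRing K t)
  rw [IsFractionRing.finrank_eq (coordRing K t) K⟮t⟯ (intRing K t) F, ← h]
  push_cast
  refine Finset.sum_congr rfl fun q _ => ?_
  have h1 := inertiaDeg_eq_one (primeOfOver q)
  rw [primeOfOver_asIdeal] at h1
  rw [placeOfOver, ord_t_eq_ramificationIdx (primeOfOver q), h1]
  simp

end

section final

/-- **Fundamental identity, finiteness**: a coordinate function has finitely many zeros. -/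
theorem finite_setOf_ord_pos [CharZero K] (ht : Transcendental K t)
    [FiniteDimensional K⟮t⟯ F] : {v : Place K F | 0 < v.ord t}.Finite := by
  have : IsCoord K t := ⟨ht, inferInstance⟩
  rw [← range_placeOfOver]
  exact Set.finite_range _

/-- **Fundamental identity**: `∑_{v(t) > 0} ord_v(t) = [F : K(t)]`. -/
theorem sum_ord_eq_finrank [IsAlgClosed K] [CharZero K] (ht : Transcendental K t)
    [FiniteDimensional K⟮t⟯ F] (s : Finset (Place K F)) (hs : ∀ v, v ∈ s ↔ 0 < v.ord t) :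
    ∑ v ∈ s, v.ord t = (Module.finrank K⟮t⟯ F : ℤ) := by
  have : IsCoord K t := ⟨ht, inferInstance⟩
  rw [← sum_placeOfOver]
  symm
  refine Finset.sum_bij (fun q _ => placeOfOver q) ?_ ?_ ?_ ?_
  · intro q _
    exact (hs _).mpr (ord_t_placeOfOver_pos q)
  · intro q _ q' _ h
    exact placeOfOver_injective h
  · intro v hv
    obtain ⟨q, hq⟩ := exists_placeOfOver_eq v ((hs v).mp hv)
    exact ⟨q, Finset.mem_univ _, hq⟩
  · intro q _
    rfl

/-- Skeleton form of the fundamental identity (helper864 FF3b). -/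
theorem sum_ord_pos_eq_finrank [IsAlgClosed K] [CharZero K] (ht : Transcendental K t)
    [FiniteDimensional K⟮t⟯ F] :
    ∑ v ∈ (finite_setOf_ord_pos ht).toFinset, v.ord t = (Module.finrank K⟮t⟯ F : ℤ) :=
  sum_ord_eq_finrank ht _ (fun v => by simp)

end final

end Fermat.Agent.S24.FF

end
-- ===== PACK-END S24/FFIdentity.lean

-- ===== PACK-BEGIN S24/Alg/Open.lean
section



/-!
# S24 / ALG — the fundamental equality (FF1)

INTERFACE FILE (statement by helper984).  Proof: helper804's Dedekind dictionary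
(`Fermat.Agent.S24.FF.finite_setOf_ord_pos`, `Fermat.Agent.S24.FF.sum_ord_eq_finrank`).
-/

set_option autoImplicit false

noncomputable section

open AlgebraicCurve

namespace Fermat.Agent.S24

variable {K F : Type*} [Field K] [Field F] [Algebra K F] [IsAlgClosed K] [CharZero K]

/-- FF1 (fundamental equality): the zeros of a transcendental `t` are finite in number and
`∑_{v | t} ord_v t = [F : K(t)]`. -/
theorem open_fundamental_eq (t : F) (ht : Transcendental K t)
    [FiniteDimensional ↥(IntermediateField.adjoin K {t}) F] :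
    ∃ s : Finset (Place K F), (∀ v : Place K F, v ∈ s ↔ 0 < v.ord t) ∧
      ∑ v ∈ s, v.ord t = (Module.finrank ↥(IntermediateField.adjoin K {t}) F : ℤ) :=
  ⟨(FF.finite_setOf_ord_pos ht).toFinset, fun v => by simp,
    FF.sum_ord_eq_finrank ht _ (fun v => by simp)⟩

end Fermat.Agent.S24

end
end
-- ===== PACK-END S24/Alg/Open.lean

-- ===== PACK-BEGIN S24/Alg/Principal.lean
section





/-!
# S24 / ALG — principal divisors have degree zero (FF3), from the fundamental equality (FF1)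

helper984.  `deg div f = ∑_{zeros} ord_v f - ∑_{poles} ord_v f⁻¹ = [F:K(f)] - [F:K(f⁻¹)] = 0`.
-/

set_option autoImplicit false

noncomputable section

open AlgebraicCurve

namespace Fermat.Agent.S24

variable {K F : Type*} [Field K] [Field F] [Algebra K F]

theorem degree_eq_sum_of_deg_one' (hdeg : ∀ v : Place K F, v.deg = 1) (E : Divisor K F)
    (T : Finset (Place K F)) (hT : E.support ⊆ T) :
    Divisor.degree E = ∑ v ∈ T, E v := by
  have h1 : Divisor.degree E = E.sum fun v n => n * (v.deg : ℤ) := by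
    simp [Divisor.degree, Finsupp.liftAddHom_apply]
  rw [h1, Finsupp.sum_of_support_subset E hT _ (fun v _ => by simp)]
  refine Finset.sum_congr rfl fun v _ => ?_
  rw [hdeg v]; simp

variable [IsAlgClosed K] [CharZero K]

/-- FF1 in inequality form, for an arbitrary enumeration `s` of the zeros of `t`. -/
theorem fundamental_le (t : F) (ht : Transcendental K t)
    [FiniteDimensional ↥(IntermediateField.adjoin K {t}) F]
    (s : Finset (Place K F)) (hs : ∀ v : Place K F, v ∈ s ↔ 0 < v.ord t) :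
    (Module.finrank ↥(IntermediateField.adjoin K {t}) F : ℤ) ≤ ∑ v ∈ s, v.ord t := by
  obtain ⟨s', hs', hsum⟩ := open_fundamental_eq t ht
  have : s = s' := by
    ext v
    rw [hs, hs']
  rw [this, hsum]

/-- FF3: a principal divisor has degree zero. -/
theorem degree_principal (j : F) (hj : Transcendental K j)
    [FiniteDimensional ↥(IntermediateField.adjoin K {j}) F] (f : F) (hf : f ≠ 0)
    (D : Divisor K F) (hD : ∀ v : Place K F, D v = v.ord f) : Divisor.degree D = 0 := by
  classical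
  by_cases hfK : f ∈ (algebraMap K F).range
  · -- constants have no zeros or poles
    obtain ⟨c, rfl⟩ := hfK
    have : D = 0 := by
      ext v
      rw [hD, ord_algebraMap]
      rfl
    rw [this, map_zero]
  · have hft : Transcendental K f := FF.transcendental_of_not_mem_range hfK
    have hfit : Transcendental K f⁻¹ := by
      intro h
      exact hft (by simpa using h.inv)
    haveI : FiniteDimensional ↥(IntermediateField.adjoin K {f}) F :=
      FF.finiteDimensional_adjoin_of_transcendental hj hft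
    obtain ⟨hfd, hfr⟩ := finiteDimensional_and_finrank_of_eq (adjoin_inv K f)
    obtain ⟨Z, hZ, hZsum⟩ := open_fundamental_eq f hft
    obtain ⟨P, hP, hPsum⟩ := open_fundamental_eq f⁻¹ hfit
    have hdeg : ∀ v : Place K F, v.deg = 1 := fun v => FF.deg_eq_one v hj
    have hsupp : D.support ⊆ Z ∪ P := by
      intro v hv
      rw [Finsupp.mem_support_iff, hD] at hv
      rw [Finset.mem_union, hZ, hP, v.ord_inv]
      omega
    have hdisj : Disjoint Z P := by
      rw [Finset.disjoint_left]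
      intro v hvZ hvP
      rw [hZ] at hvZ
      rw [hP, v.ord_inv] at hvP
      omega
    rw [degree_eq_sum_of_deg_one' hdeg D _ hsupp, Finset.sum_union hdisj]
    have h1 : ∑ v ∈ Z, D v = ∑ v ∈ Z, v.ord f := Finset.sum_congr rfl fun v _ => hD v
    have h2 : ∑ v ∈ P, D v = -∑ v ∈ P, v.ord f⁻¹ := by
      rw [← Finset.sum_neg_distrib]
      refine Finset.sum_congr rfl fun v _ => ?_
      rw [hD, v.ord_inv, neg_neg]
    rw [h1, h2, hZsum, hPsum, hfr]
    ring

end Fermat.Agent.S24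

end
end
-- ===== PACK-END S24/Alg/Principal.lean

-- ===== PACK-BEGIN S29/H812/OrdSum.lean
section





/-!
# S29 / H812 — order of a finite sum with a unique strictly minimal term, and local
"indicator" functions at the places of a finite set (from weak approximation).
-/

set_option autoImplicit false

noncomputable section

open AlgebraicCurve WithZero

namespace Fermat.Agent.S29.H812

open Fermat.Agent.S24

variable {K F : Type*} [Field K] [Field F] [Algebra K F] (v : Place K F)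

/-- If one term of a finite sum has strictly smaller order than all other nonzero terms, then the
sum is nonzero and has the order of that term. -/
theorem ord_sum_eq_of_lt {ι : Type*} (s : Finset ι) (f : ι → F) (j : ι) (hj : j ∈ s)
    (hfj : f j ≠ 0) (h : ∀ i ∈ s, i ≠ j → f i = 0 ∨ v.ord (f j) < v.ord (f i)) :
    (∑ i ∈ s, f i) ≠ 0 ∧ v.ord (∑ i ∈ s, f i) = v.ord (f j) := by
  classical
  have key : v.adicValuation (∑ i ∈ s, f i) = v.adicValuation (f j) := by
    apply Valuation.map_sum_eq_of_lt _ hj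
    intro i hi
    rw [Finset.mem_sdiff, Finset.mem_singleton] at hi
    by_cases hi0 : f i = 0
    · rw [hi0, map_zero]
      exact zero_lt_iff.mpr (v.adicValuation_ne_zero hfj)
    · rcases h i hi.1 hi.2 with h0 | hlt
      · exact absurd h0 hi0
      · rw [H504.adicValuation_eq_exp_neg_ord v hi0, H504.adicValuation_eq_exp_neg_ord v hfj,
          exp_lt_exp]
        omega
  have hne : (∑ i ∈ s, f i) ≠ 0 := by
    intro h0
    rw [h0, map_zero] at key
    exact v.adicValuation_ne_zero hfj key.symm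
  refine ⟨hne, ?_⟩
  rw [H504.adicValuation_eq_exp_neg_ord v hne, H504.adicValuation_eq_exp_neg_ord v hfj] at key
  have := WithZero.exp_injective key
  omega

/-- `ord` of a finite sum is at least a common lower bound of the orders of the nonzero terms,
provided the sum is nonzero. -/
theorem le_ord_sum {ι : Type*} (s : Finset ι) (f : ι → F) (m : ℤ)
    (h : ∀ i ∈ s, f i = 0 ∨ m ≤ v.ord (f i)) (hne : (∑ i ∈ s, f i) ≠ 0) :
    m ≤ v.ord (∑ i ∈ s, f i) := by
  classical
  have key : v.adicValuation (∑ i ∈ s, f i) ≤ exp (-m) := by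
    apply Valuation.map_sum_le
    intro i hi
    by_cases hi0 : f i = 0
    · rw [hi0, map_zero]; exact zero_le
    · rcases h i hi with h0 | hle
      · exact absurd h0 hi0
      · rw [H504.adicValuation_eq_exp_neg_ord v hi0, exp_le_exp]
        omega
  rw [H504.adicValuation_eq_exp_neg_ord v hne, exp_le_exp] at key
  omega

/-- Membership version: a finite sum of elements of the valuation ring is in the valuation
ring. -/
theorem ord_one_add_of_neg {f : F} (hf : v.ord f < 0) :
    1 + f ≠ 0 ∧ v.ord (1 + f) = v.ord f := by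
  have hf0 : f ≠ 0 := H117.ne_zero_of_ord_ne_zero v hf.ne
  have h := H117.ord_add_eq_of_lt v (f := f) (g := 1) (by rw [v.ord_one]; exact hf) hf0
  rw [add_comm] at h
  refine ⟨?_, h⟩
  intro h0
  rw [h0, v.ord_zero] at h
  omega

theorem ord_one_add_of_pos {f : F} (hf : 0 < v.ord f) :
    1 + f ≠ 0 ∧ v.ord (1 + f) = 0 := by
  have h := H117.ord_add_eq_of_lt v (f := 1) (g := f) (by rw [v.ord_one]; exact hf) one_ne_zero
  rw [v.ord_one] at h
  refine ⟨?_, h⟩
  intro h0
  have hf1 : f = -1 := by linear_combination h0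
  rw [hf1, H117.ord_neg, v.ord_one] at hf
  exact lt_irrefl _ hf

/-- **Indicator functions.**  For a place `w` and a finite set `s` of other places there is
`ε` with `ε ≡ 1` at `w` (i.e. `ord_w (1 - ε) > 0`, `ord_w ε = 0`) and `ord_{w'} ε > 0`,
`ord_{w'} (1 - ε) = 0` for `w' ∈ s`. -/
theorem exists_indicator (w : Place K F) (s : Finset (Place K F)) (hw : w ∉ s) :
    ∃ ε : F, ε ≠ 0 ∧ 1 - ε ≠ 0 ∧ w.ord ε = 0 ∧ 0 < w.ord (1 - ε) ∧
      ∀ w' ∈ s, 0 < w'.ord ε ∧ w'.ord (1 - ε) = 0 := by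
  obtain ⟨f, hf1, hf2⟩ := H117.exists_ord_neg_forall_pos w s hw
  have hf0 : f ≠ 0 := H117.ne_zero_of_ord_ne_zero w hf1.ne
  obtain ⟨h1, h2⟩ := ord_one_add_of_neg w hf1
  have hinv : (1 + f)⁻¹ ≠ 0 := inv_ne_zero h1
  have hε : 1 - f / (1 + f) = (1 + f)⁻¹ := by field_simp; ring
  refine ⟨f / (1 + f), div_ne_zero hf0 h1, by rw [hε]; exact hinv, ?_, ?_, ?_⟩
  · rw [H117.ord_div w hf0 h1, h2]; ring
  · rw [hε, w.ord_inv, h2]; omega
  · intro w' hw'
    obtain ⟨h3, h4⟩ := ord_one_add_of_pos w' (hf2 w' hw')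
    constructor
    · rw [H117.ord_div w' hf0 h3, h4]; have := hf2 w' hw'; omega
    · rw [hε, w'.ord_inv, h4]; rfl

end Fermat.Agent.S29.H812

end
end
-- ===== PACK-END S29/H812/OrdSum.lean

-- ===== PACK-BEGIN S29/H812/Fiber.lean
section


/-!
# S29 / H812 — the fibre of a place in a finite extension of function fields:
adapted families, the coordinate lemma, linear independence and the fundamental inequality.
-/

set_option autoImplicit false

noncomputable section

open AlgebraicCurve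

namespace Fermat.Agent.S29.H812

open Fermat.Agent.S24

section Single

variable {K F : Type*} [Field K] [Field F] [Algebra K F]

/-- An element with prescribed order `i` at `w` and order at least `B` at the places of `s`. -/
theorem exists_ord_eq_and_ge (w : Place K F) (s : Finset (Place K F)) (hw : w ∉ s) (i B : ℕ) :
    ∃ u : F, u ≠ 0 ∧ w.ord u = i ∧ (∀ w' ∈ s, (B : ℤ) ≤ w'.ord u) := by
  obtain ⟨ε, hε0, -, hε1, -, hε2⟩ := exists_indicator w s hw
  obtain ⟨π, hπ0, hπ1⟩ := H117.exists_ord_eq_one w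
  set T : ℕ := ∑ w' ∈ s, (w'.ord π).natAbs with hT
  set M : ℕ := B + i * T with hM
  have hπi : π ^ i ≠ 0 := pow_ne_zero _ hπ0
  have hεM : ε ^ M ≠ 0 := pow_ne_zero _ hε0
  refine ⟨π ^ i * ε ^ M, mul_ne_zero hπi hεM, ?_, ?_⟩
  · rw [w.ord_mul hπi hεM, H117.ord_pow, H117.ord_pow, hπ1, hε1]; ring
  · intro w' hw'
    rw [w'.ord_mul hπi hεM, H117.ord_pow, H117.ord_pow]
    have h1 : (1 : ℤ) ≤ w'.ord ε := (hε2 w' hw').1
    have h2 : ((w'.ord π).natAbs : ℤ) ≤ (T : ℤ) := by
      have : (w'.ord π).natAbs ≤ T := Finset.single_le_sum (f := fun w' : Place K F =>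
        (w'.ord π).natAbs) (fun _ _ => Nat.zero_le _) hw'
      exact_mod_cast this
    have h3 : -((w'.ord π).natAbs : ℤ) ≤ w'.ord π := by
      omega
    have h4 : (M : ℤ) ≤ (M : ℤ) * w'.ord ε := by
      have hM0 : (0 : ℤ) ≤ (M : ℤ) := Int.natCast_nonneg _
      nlinarith
    have h5 : -((i : ℤ) * (T : ℤ)) ≤ (i : ℤ) * w'.ord π := by
      have hi0 : (0 : ℤ) ≤ (i : ℤ) := Int.natCast_nonneg _
      nlinarith
    have h6 : (M : ℤ) = B + i * T := by rw [hM]; push_cast; ring
    linarith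

/-- A uniformiser at `w` which is a unit at all places of `s`. -/
theorem exists_ord_eq_one_and_zero (w : Place K F) (s : Finset (Place K F)) (hw : w ∉ s) :
    ∃ ϖ : F, ϖ ≠ 0 ∧ w.ord ϖ = 1 ∧ (∀ w' ∈ s, w'.ord ϖ = 0) := by
  obtain ⟨ε, hε0, hε0', hε1, hε1', hε2⟩ := exists_indicator w s hw
  obtain ⟨u, hu0, hu1, hu2⟩ := exists_ord_eq_and_ge w s hw 1 1
  have hsq : (1 - ε) ^ 2 ≠ 0 := pow_ne_zero _ hε0'
  have hlt : w.ord u < w.ord ((1 - ε) ^ 2) := by
    rw [H117.ord_pow, hu1]; push_cast; omega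
  have h1 : w.ord (u + (1 - ε) ^ 2) = w.ord u := H117.ord_add_eq_of_lt w hlt hu0
  have hne : u + (1 - ε) ^ 2 ≠ 0 := by
    intro h0
    rw [h0, w.ord_zero, hu1] at h1
    simp at h1
  refine ⟨u + (1 - ε) ^ 2, hne, by rw [h1, hu1]; rfl, ?_⟩
  intro w' hw'
  have hlt' : w'.ord ((1 - ε) ^ 2) < w'.ord u := by
    rw [H117.ord_pow, (hε2 w' hw').2]
    have := hu2 w' hw'
    push_cast at this ⊢
    omega
  rw [add_comm, H117.ord_add_eq_of_lt w' hlt' hsq, H117.ord_pow, (hε2 w' hw').2]
  ring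

end Single

section Relative

variable {K F F' : Type*} [Field K] [Field F] [Field F']
  [Algebra K F] [Algebra K F'] [Algebra F F'] [IsScalarTower K F F']
  [Algebra.IsIntegral F F']

/-- Order of a scalar multiple at a place above `v`. -/
theorem ord_smul_of_restrict {v : Place K F} {w : Place K F'} (hw : w.restrict F = v)
    {c : F} (hc : c ≠ 0) {u : F'} (hu : u ≠ 0) :
    w.ord (c • u) = (w.ramificationIndex F : ℤ) * v.ord c + w.ord u := by
  rw [Algebra.smul_def, w.ord_mul (by simpa using hc) hu, w.ord_restrict, hw]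

/-- **Coordinate lemma.**  Let `u a` (`a : ι`) be a family adapted to the places `wt a` above `v`:
`ord_{wt a} (u a) = idx a < e(wt a)` and `ord_{w'} (u a) ≥ e(w')` at the other places `w' = wt b`.
For a nonzero coefficient vector `c`, the combination `∑ c a • u a` is nonzero and, at a suitable
place `wt a₀`, has order `e · m + idx a₀` where `m = ord_v (c a₀)` is the minimum of the orders of
the nonzero coefficients. -/
theorem coord_lemma (v : Place K F) {ι : Type*} [Fintype ι] (wt : ι → Place K F') (idx : ι → ℕ)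
    (u : ι → F') (hfib : ∀ a, (wt a).restrict F = v)
    (hidx : ∀ a, idx a < (wt a).ramificationIndex F)
    (hu0 : ∀ a, u a ≠ 0) (hu1 : ∀ a, (wt a).ord (u a) = idx a)
    (hu2 : ∀ a b, wt b ≠ wt a → (((wt b).ramificationIndex F : ℕ) : ℤ) ≤ (wt b).ord (u a))
    (hinj : ∀ a b, wt a = wt b → idx a = idx b → a = b)
    (c : ι → F) (hc : ∃ a, c a ≠ 0) :
    ∃ a₀, c a₀ ≠ 0 ∧ (∀ a, c a ≠ 0 → v.ord (c a₀) ≤ v.ord (c a)) ∧
      (∑ a, c a • u a) ≠ 0 ∧
      (wt a₀).ord (∑ a, c a • u a)
        = ((wt a₀).ramificationIndex F : ℤ) * v.ord (c a₀) + idx a₀ := by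
  classical
  -- first minimisation: the order of the coefficient
  set S : Finset ι := Finset.univ.filter fun a => c a ≠ 0 with hS
  have hSne : S.Nonempty := by
    obtain ⟨a, ha⟩ := hc
    exact ⟨a, by simp [hS, ha]⟩
  obtain ⟨a₁, ha₁S, ha₁min⟩ := Finset.exists_min_image S (fun a => v.ord (c a)) hSne
  -- second minimisation: the index, among the minimal coefficients
  set S' : Finset ι := S.filter fun a => v.ord (c a) = v.ord (c a₁) with hS'
  have hS'ne : S'.Nonempty := ⟨a₁, by simp [hS', ha₁S]⟩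
  obtain ⟨a₀, ha₀S', ha₀min⟩ := Finset.exists_min_image S' idx hS'ne
  have ha₀S : a₀ ∈ S := (Finset.mem_filter.mp ha₀S').1
  have hc₀ : c a₀ ≠ 0 := (Finset.mem_filter.mp ha₀S).2
  have hm₀ : v.ord (c a₀) = v.ord (c a₁) := (Finset.mem_filter.mp ha₀S').2
  have hmin : ∀ a, c a ≠ 0 → v.ord (c a₀) ≤ v.ord (c a) := by
    intro a ha
    rw [hm₀]
    exact ha₁min a (by simp [hS, ha])
  have hepos : 0 < (wt a₀).ramificationIndex F := (wt a₀).ramificationIndex_pos (F := F)
  have hterm₀ : c a₀ • u a₀ ≠ 0 := smul_ne_zero hc₀ (hu0 a₀)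
  have hord₀ : (wt a₀).ord (c a₀ • u a₀)
      = ((wt a₀).ramificationIndex F : ℤ) * v.ord (c a₀) + idx a₀ := by
    rw [ord_smul_of_restrict (hfib a₀) hc₀ (hu0 a₀), hu1]
  have key := ord_sum_eq_of_lt (wt a₀) Finset.univ (fun a => c a • u a) a₀ (Finset.mem_univ _)
    hterm₀ (by
      intro a _ hne
      by_cases hca : c a = 0
      · left; simp [hca]
      right
      rw [hord₀, ord_smul_of_restrict (hfib a₀) hca (hu0 a)]
      have hle := hmin a hca
      have hi₀ := hidx a₀
      have he : (0 : ℤ) < ((wt a₀).ramificationIndex F : ℤ) := by exact_mod_cast hepos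
      by_cases hw : wt a = wt a₀
      · -- same place
        have hua : (wt a₀).ord (u a) = idx a := by rw [← hw, hu1]
        rw [hua]
        rcases eq_or_lt_of_le hle with heq | hlt
        · have haS' : a ∈ S' := by
            simp only [hS', hS, Finset.mem_filter, Finset.mem_univ, true_and]
            exact ⟨hca, by rw [← heq, hm₀]⟩
          have h1 := ha₀min a haS'
          have h2 : idx a ≠ idx a₀ := fun h => hne (hinj a a₀ hw h)
          have h3 : idx a₀ < idx a := lt_of_le_of_ne h1 (Ne.symm h2)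
          rw [← heq]
          have : ((idx a₀ : ℕ) : ℤ) < (idx a : ℤ) := by exact_mod_cast h3
          linarith
        · have h1 : ((wt a₀).ramificationIndex F : ℤ) * (v.ord (c a₀) + 1)
              ≤ ((wt a₀).ramificationIndex F : ℤ) * v.ord (c a) :=
            mul_le_mul_of_nonneg_left (by omega) he.le
          have h2 : ((idx a₀ : ℕ) : ℤ) < ((wt a₀).ramificationIndex F : ℤ) := by
            exact_mod_cast hi₀
          have h3 : (0 : ℤ) ≤ (idx a : ℤ) := Int.natCast_nonneg _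
          nlinarith
      · -- different place
        have hua := hu2 a a₀ (fun h => hw h.symm)
        have h1 : ((wt a₀).ramificationIndex F : ℤ) * v.ord (c a₀)
              ≤ ((wt a₀).ramificationIndex F : ℤ) * v.ord (c a) :=
            mul_le_mul_of_nonneg_left hle he.le
        have h2 : ((idx a₀ : ℕ) : ℤ) < ((wt a₀).ramificationIndex F : ℤ) := by
            exact_mod_cast hi₀
        linarith)
  exact ⟨a₀, hc₀, hmin, key.1, by rw [key.2, hord₀]⟩

end Relative

end Fermat.Agent.S29.H812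

end
end
-- ===== PACK-END S29/H812/Fiber.lean

-- ===== PACK-BEGIN S24/FFDegree.lean
section




/-!
# S24 / FF layer: poles of a coordinate function and `deg (div f) = 0`
(helper804)
-/

set_option autoImplicit false
set_option linter.unusedSectionVars false

namespace Fermat.Agent.S24.FF

open AlgebraicCurve Polynomial IntermediateField

variable {K F : Type*} [Field K] [Field F] [Algebra K F]

theorem adjoin_inv_eq (f : F) : K⟮f⁻¹⟯ = K⟮f⟯ := by
  apply le_antisymm
  · rw [adjoin_simple_le_iff]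
    exact inv_mem (mem_adjoin_simple_self K f)
  · rw [adjoin_simple_le_iff]
    have := inv_mem (mem_adjoin_simple_self K f⁻¹)
    rwa [inv_inv] at this

theorem finrank_adjoin_inv (f : F) : Module.finrank K⟮f⁻¹⟯ F = Module.finrank K⟮f⟯ F := by
  rw [adjoin_inv_eq]

theorem transcendental_inv {f : F} (hf : Transcendental K f) : Transcendental K f⁻¹ := by
  intro h
  apply hf
  have := h.inv
  rwa [inv_inv] at this

theorem finiteDimensional_adjoin_inv (f : F) [h : FiniteDimensional K⟮f⟯ F] :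
    FiniteDimensional K⟮f⁻¹⟯ F := by
  rw [adjoin_inv_eq]
  exact h

theorem adjoin_sub_const_eq (f : F) (a : K) : K⟮f - algebraMap K F a⟯ = K⟮f⟯ := by
  apply le_antisymm
  · rw [adjoin_simple_le_iff]
    exact sub_mem (mem_adjoin_simple_self K f) (IntermediateField.algebraMap_mem _ a)
  · rw [adjoin_simple_le_iff]
    have := add_mem (mem_adjoin_simple_self K (f - algebraMap K F a))
      (IntermediateField.algebraMap_mem K⟮f - algebraMap K F a⟯ a)
    rwa [sub_add_cancel] at this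

theorem finrank_adjoin_sub_const (f : F) (a : K) :
    Module.finrank K⟮f - algebraMap K F a⟯ F = Module.finrank K⟮f⟯ F := by
  rw [adjoin_sub_const_eq]

theorem finiteDimensional_adjoin_sub_const (f : F) (a : K) [h : FiniteDimensional K⟮f⟯ F] :
    FiniteDimensional K⟮f - algebraMap K F a⟯ F := by
  rw [adjoin_sub_const_eq]
  exact h

theorem transcendental_sub_const {f : F} (hf : Transcendental K f) (a : K) :
    Transcendental K (f - algebraMap K F a) := by
  intro h
  apply hf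
  have := h.add (isAlgebraic_algebraMap (R := K) (A := F) a)
  rwa [sub_add_cancel] at this

section

variable [CharZero K]

/-- A coordinate function has finitely many poles. -/
theorem finite_setOf_ord_neg {t : F} (ht : Transcendental K t) [FiniteDimensional K⟮t⟯ F] :
    {v : Place K F | v.ord t < 0}.Finite := by
  have := finiteDimensional_adjoin_inv (K := K) t
  have h := finite_setOf_ord_pos (transcendental_inv ht)
  refine h.subset ?_
  intro v hv
  change 0 < v.ord t⁻¹
  have hv' : v.ord t < 0 := hv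
  rw [v.ord_inv]
  omega

/-- A nonconstant function has finitely many zeros and poles. -/
theorem finite_setOf_ord_ne_zero {t : F} (ht : Transcendental K t) [FiniteDimensional K⟮t⟯ F] :
    {v : Place K F | v.ord t ≠ 0}.Finite := by
  refine ((finite_setOf_ord_pos ht).union (finite_setOf_ord_neg ht)).subset ?_
  intro v hv
  have hv' : v.ord t ≠ 0 := hv
  rcases lt_or_gt_of_ne hv' with h | h
  · exact Or.inr h
  · exact Or.inl h

variable [IsAlgClosed K]

/-- **Fundamental identity at the poles**: `∑_{v(t) < 0} ord_v(t) = -[F : K(t)]`. -/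
theorem sum_ord_neg_eq_neg_finrank {t : F} (ht : Transcendental K t) [FiniteDimensional K⟮t⟯ F]
    (s : Finset (Place K F)) (hs : ∀ v, v ∈ s ↔ v.ord t < 0) :
    ∑ v ∈ s, v.ord t = -(Module.finrank K⟮t⟯ F : ℤ) := by
  have := finiteDimensional_adjoin_inv (K := K) t
  have h := sum_ord_eq_finrank (transcendental_inv ht) s (fun v => by
    rw [hs, v.ord_inv]
    omega)
  rw [finrank_adjoin_inv] at h
  rw [← h, ← Finset.sum_neg_distrib]
  refine Finset.sum_congr rfl fun v _ => ?_
  rw [v.ord_inv, neg_neg]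

/-- **Fundamental identity over the point `a`**: `∑_{v(t - a) > 0} ord_v(t - a) = [F : K(t)]`. -/
theorem sum_ord_sub_const_eq_finrank {t : F} (ht : Transcendental K t)
    [FiniteDimensional K⟮t⟯ F] (a : K)
    (s : Finset (Place K F)) (hs : ∀ v, v ∈ s ↔ 0 < v.ord (t - algebraMap K F a)) :
    ∑ v ∈ s, v.ord (t - algebraMap K F a) = (Module.finrank K⟮t⟯ F : ℤ) := by
  have := finiteDimensional_adjoin_sub_const (K := K) t a
  have h := sum_ord_eq_finrank (transcendental_sub_const ht a) s hs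
  rwa [finrank_adjoin_sub_const] at h

theorem degree_eq_sum (D : Divisor K F) :
    Divisor.degree D = ∑ v ∈ D.support, D v * (v.deg : ℤ) := by
  simp [Divisor.degree, Finsupp.sum]

/-- **FF3: a principal divisor has degree zero.** -/
theorem degree_principal (j : F) (hj : Transcendental K j) [FiniteDimensional K⟮j⟯ F]
    (f : F) (D : Divisor K F) (hD : ∀ v : Place K F, D v = v.ord f) :
    Divisor.degree D = 0 := by
  by_cases hfr : f ∈ (algebraMap K F).range
  · obtain ⟨a, rfl⟩ := hfr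
    have : D = 0 := by
      ext v
      rw [hD, _root_.Fermat.Agent.S24.FF.ord_algebraMap]
      rfl
    rw [this, map_zero]
  have hft : Transcendental K f := transcendental_of_not_mem_range hfr
  have hfin : FiniteDimensional K⟮f⟯ F := finiteDimensional_adjoin_of_transcendental hj hft
  classical
  rw [degree_eq_sum]
  have hsupp : ∀ v, v ∈ D.support ↔ v.ord f ≠ 0 := fun v => by
    rw [Finsupp.mem_support_iff, hD]
  have h1 : ∑ v ∈ D.support, D v * (v.deg : ℤ) = ∑ v ∈ D.support, v.ord f := by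
    refine Finset.sum_congr rfl fun v _ => ?_
    rw [hD, deg_eq_one v hj]
    simp
  rw [h1, ← Finset.sum_filter_add_sum_filter_not D.support (fun v => 0 < v.ord f)]
  have hP := sum_ord_eq_finrank hft (D.support.filter fun v => 0 < v.ord f) (fun v => by
    rw [Finset.mem_filter, hsupp]
    constructor
    · exact fun h => h.2
    · exact fun h => ⟨h.ne', h⟩)
  have hN := sum_ord_neg_eq_neg_finrank hft (D.support.filter fun v => ¬ 0 < v.ord f)
    (fun v => by
      rw [Finset.mem_filter, hsupp]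
      constructor
      · rintro ⟨h1, h2⟩
        omega
      · intro h
        exact ⟨h.ne, by omega⟩)
  rw [hP, hN]
  ring

end

end Fermat.Agent.S24.FF

namespace Fermat.Agent.S24.FF

open AlgebraicCurve

variable {K F : Type*} [Field K] [Field F] [Algebra K F] [IsAlgClosed K] [CharZero K]

/-- Exact shape of helper984's `open_fundamental_le` (`Alg/Open.lean`). -/
theorem fundamental_le (t : F) (ht : Transcendental K t)
    [FiniteDimensional ↥(IntermediateField.adjoin K {t}) F]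
    (s : Finset (Place K F)) (hs : ∀ v : Place K F, v ∈ s ↔ 0 < v.ord t) :
    (Module.finrank ↥(IntermediateField.adjoin K {t}) F : ℤ) ≤ ∑ v ∈ s, v.ord t :=
  (sum_ord_eq_finrank ht s hs).ge

/-- Exact shape of helper984's `open_degree_principal` (`Alg/Open.lean`). -/
theorem degree_principal' (j : F) (hj : Transcendental K j)
    [FiniteDimensional ↥(IntermediateField.adjoin K {j}) F] (f : F) (_hf : f ≠ 0)
    (D : Divisor K F) (hD : ∀ v : Place K F, D v = v.ord f) : Divisor.degree D = 0 :=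
  _root_.Fermat.Agent.S24.FF.degree_principal j hj f D hD

end Fermat.Agent.S24.FF

end
-- ===== PACK-END S24/FFDegree.lean

-- ===== PACK-BEGIN S29/H812/FundId.lean
section




/-!
# S29 / H812 — the fundamental identity `∑_{w | v} e(w | v) = [F' : F]` for a finite extension of
function fields of one variable over an algebraically closed field of characteristic zero.
-/

set_option autoImplicit false

noncomputable section

open AlgebraicCurve IntermediateField

namespace Fermat.Agent.S29.H812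

open Fermat.Agent.S24

variable {K F F' : Type*} [Field K] [Field F] [Field F']
  [Algebra K F] [Algebra K F'] [Algebra F F'] [IsScalarTower K F F']
  [Algebra.IsIntegral F F'] [HasPrincipalDivisors K F']

/-- The index set of the adapted family of the fibre over `v`. -/
abbrev FibIdx (F' : Type*) [Field F'] [Algebra K F'] [Algebra F F'] [IsScalarTower K F F']
    [Algebra.IsIntegral F F'] [HasPrincipalDivisors K F'] (v : Place K F) : Type _ :=
  Σ w : {w : Place K F' // w ∈ v.fiber F'}, Fin (w.1.ramificationIndex F)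

theorem card_fibIdx (v : Place K F) :
    Fintype.card (FibIdx F' v) = ∑ w ∈ v.fiber F', w.ramificationIndex F := by
  classical
  rw [Fintype.card_sigma]
  simp only [Fintype.card_fin]
  exact Finset.sum_coe_sort (v.fiber F') (fun w => w.ramificationIndex F)

theorem fibIdx_ext (v : Place K F) (a b : FibIdx F' v) (h1 : a.1.1 = b.1.1)
    (h2 : (a.2 : ℕ) = (b.2 : ℕ)) : a = b := by
  obtain ⟨⟨w, hw⟩, i⟩ := a
  obtain ⟨⟨w', hw'⟩, i'⟩ := b
  simp only at h1
  subst h1
  simp only at h2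
  have : i = i' := Fin.ext h2
  subst this
  rfl

/-- An adapted family for the fibre over `v`. -/
theorem exists_family (v : Place K F) :
    ∃ u : FibIdx F' v → F', (∀ a, u a ≠ 0) ∧ (∀ a : FibIdx F' v, a.1.1.ord (u a) = (a.2 : ℕ)) ∧
      (∀ a b : FibIdx F' v, b.1.1 ≠ a.1.1 →
        ((b.1.1.ramificationIndex F : ℕ) : ℤ) ≤ b.1.1.ord (u a)) := by
  classical
  set B : ℕ := ∑ w ∈ v.fiber F', w.ramificationIndex F with hB
  have h : ∀ a : FibIdx F' v, ∃ u : F', u ≠ 0 ∧ a.1.1.ord u = (a.2 : ℕ) ∧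
      ∀ w' ∈ (v.fiber F').erase a.1.1, (B : ℤ) ≤ w'.ord u := fun a =>
    exists_ord_eq_and_ge a.1.1 ((v.fiber F').erase a.1.1) (Finset.notMem_erase _ _) a.2 B
  choose u hu0 hu1 hu2 using h
  refine ⟨u, hu0, hu1, ?_⟩
  intro a b hne
  have hmem : b.1.1 ∈ (v.fiber F').erase a.1.1 := Finset.mem_erase.mpr ⟨hne, b.1.2⟩
  have h1 := hu2 a b.1.1 hmem
  have h2 : b.1.1.ramificationIndex F ≤ B :=
    Finset.single_le_sum (f := fun w : Place K F' => w.ramificationIndex F)
      (fun _ _ => Nat.zero_le _) b.1.2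
  have h3 : ((b.1.1.ramificationIndex F : ℕ) : ℤ) ≤ (B : ℤ) := by exact_mod_cast h2
  linarith

/-- The coordinate lemma for an adapted family. -/
theorem family_coord (v : Place K F) (u : FibIdx F' v → F') (hu0 : ∀ a, u a ≠ 0)
    (hu1 : ∀ a : FibIdx F' v, a.1.1.ord (u a) = (a.2 : ℕ))
    (hu2 : ∀ a b : FibIdx F' v, b.1.1 ≠ a.1.1 →
        ((b.1.1.ramificationIndex F : ℕ) : ℤ) ≤ b.1.1.ord (u a))
    (c : FibIdx F' v → F) (hc : ∃ a, c a ≠ 0) :
    ∃ a₀, c a₀ ≠ 0 ∧ (∀ a, c a ≠ 0 → v.ord (c a₀) ≤ v.ord (c a)) ∧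
      (∑ a, c a • u a) ≠ 0 ∧
      a₀.1.1.ord (∑ a, c a • u a)
        = (a₀.1.1.ramificationIndex F : ℤ) * v.ord (c a₀) + ((a₀.2 : ℕ) : ℤ) :=
  coord_lemma v (fun a : FibIdx F' v => a.1.1) (fun a => (a.2 : ℕ)) u
    (fun a => Place.mem_fiber.mp a.1.2) (fun a => a.2.2) hu0 hu1 hu2
    (fun a b h1 h2 => fibIdx_ext v a b h1 h2) c hc

theorem family_linearIndependent (v : Place K F) (u : FibIdx F' v → F') (hu0 : ∀ a, u a ≠ 0)
    (hu1 : ∀ a : FibIdx F' v, a.1.1.ord (u a) = (a.2 : ℕ))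
    (hu2 : ∀ a b : FibIdx F' v, b.1.1 ≠ a.1.1 →
        ((b.1.1.ramificationIndex F : ℕ) : ℤ) ≤ b.1.1.ord (u a)) :
    LinearIndependent F u := by
  rw [Fintype.linearIndependent_iff]
  intro c hsum a
  by_contra ha
  obtain ⟨_, _, _, hne, _⟩ := family_coord v u hu0 hu1 hu2 c ⟨a, ha⟩
  exact hne hsum

/-- **Fundamental inequality** `∑_{w | v} e(w | v) ≤ [F' : F]`. -/
theorem sum_ramificationIndex_le_finrank [Module.Finite F F'] (v : Place K F) :
    ∑ w ∈ v.fiber F', w.ramificationIndex F ≤ Module.finrank F F' := by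
  obtain ⟨u, hu0, hu1, hu2⟩ := exists_family (F' := F') v
  rw [← card_fibIdx]
  exact (family_linearIndependent v u hu0 hu1 hu2).fintype_card_le_finrank

section Identity

variable [IsAlgClosed K] [CharZero K] [Module.Finite F F']

omit [Algebra.IsIntegral F F'] [HasPrincipalDivisors K F'] [IsAlgClosed K] [CharZero K]
  [Module.Finite F F'] in
theorem not_mem_range_of_ord_ne_zero (v : Place K F) {f : F} (hf : v.ord f ≠ 0) :
    f ∉ (algebraMap K F).range := by
  rintro ⟨c, rfl⟩
  exact hf (H117.ord_algebraMap v c)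

/-- **Fundamental identity** `∑_{w | v} e(w | v) = [F' : F]`. -/
theorem sum_ramificationIndex_eq_finrank
    (hF : ∃ x : F, Transcendental K x ∧ FiniteDimensional K⟮x⟯ F) (v : Place K F) :
    ∑ w ∈ v.fiber F', w.ramificationIndex F = Module.finrank F F' := by
  classical
  obtain ⟨x, hx, hxfin⟩ := hF
  obtain ⟨π, hπ0, hπ1⟩ := H117.exists_ord_eq_one v
  have hπt : Transcendental K π :=
    FF.transcendental_of_not_mem_range (not_mem_range_of_ord_ne_zero v (by rw [hπ1]; norm_num))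
  haveI hπfin : FiniteDimensional K⟮π⟯ F := FF.finiteDimensional_adjoin_of_transcendental hx hπt
  set π' : F' := algebraMap F F' π with hπ'
  have hπ't : Transcendental K π' := transcendental_algebraMap_of hπt
  haveI hπ'fin : FiniteDimensional K⟮π'⟯ F' := finiteDimensional_adjoin_algebraMap π
  set Z : Finset (Place K F) := (FF.finite_setOf_ord_pos hπt).toFinset with hZ
  set Z' : Finset (Place K F') := (FF.finite_setOf_ord_pos hπ't).toFinset with hZ'
  have hZmem : ∀ v', v' ∈ Z ↔ 0 < v'.ord π := fun v' => by simp [hZ]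
  have hZ'mem : ∀ w, w ∈ Z' ↔ 0 < w.ord π' := fun w => by simp [hZ']
  have h1 := FF.sum_ord_eq_finrank hπt Z hZmem
  have h2 := FF.sum_ord_eq_finrank hπ't Z' hZ'mem
  rw [finrank_adjoin_algebraMap] at h2
  -- positivity transfer
  have hpos : ∀ w : Place K F', 0 < w.ord π' ↔ 0 < (w.restrict F).ord π := by
    intro w
    rw [hπ', w.ord_restrict]
    have he : (0 : ℤ) < (w.ramificationIndex F : ℤ) := by
      exact_mod_cast w.ramificationIndex_pos (F := F)
    constructor
    · intro h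
      by_contra hcon
      push Not at hcon
      nlinarith
    · intro h
      exact mul_pos he h
  have hmaps : ∀ w ∈ Z', w.restrict F ∈ Z := fun w hw =>
    (hZmem _).mpr ((hpos w).mp ((hZ'mem w).mp hw))
  have h3 : ∑ w ∈ Z', w.ord π'
      = ∑ v' ∈ Z, v'.ord π * ((∑ w ∈ v'.fiber F', w.ramificationIndex F : ℕ) : ℤ) := by
    rw [← Finset.sum_fiberwise_of_maps_to hmaps]
    refine Finset.sum_congr rfl fun v' hv' => ?_
    have hfilter : Z'.filter (fun w => w.restrict F = v') = v'.fiber F' := by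
      ext w
      simp only [Finset.mem_filter, Place.mem_fiber]
      constructor
      · exact fun h => h.2
      · intro h
        refine ⟨(hZ'mem w).mpr ((hpos w).mpr ?_), h⟩
        rw [h]
        exact (hZmem v').mp hv'
    rw [hfilter]
    push_cast
    rw [Finset.mul_sum]
    refine Finset.sum_congr rfl fun w hw => ?_
    rw [hπ', w.ord_restrict, Place.mem_fiber.mp hw]
    ring
  -- compare
  have h4 : ∑ v' ∈ Z, v'.ord π * ((∑ w ∈ v'.fiber F', w.ramificationIndex F : ℕ) : ℤ)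
      = ∑ v' ∈ Z, v'.ord π * (Module.finrank F F' : ℤ) := by
    rw [← h3, h2, ← Finset.sum_mul, h1]
    push_cast
    ring
  have hle : ∀ v' ∈ Z, v'.ord π * ((∑ w ∈ v'.fiber F', w.ramificationIndex F : ℕ) : ℤ)
      ≤ v'.ord π * (Module.finrank F F' : ℤ) := by
    intro v' hv'
    have h5 : (0 : ℤ) ≤ v'.ord π := ((hZmem v').mp hv').le
    have h6 : ((∑ w ∈ v'.fiber F', w.ramificationIndex F : ℕ) : ℤ) ≤ (Module.finrank F F' : ℤ) := by
      exact_mod_cast sum_ramificationIndex_le_finrank (F' := F') v'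
    exact mul_le_mul_of_nonneg_left h6 h5
  have h7 := (Finset.sum_eq_sum_iff_of_le hle).mp h4 v ((hZmem v).mpr (by rw [hπ1]; norm_num))
  rw [hπ1, one_mul, one_mul] at h7
  exact_mod_cast h7

end Identity

end Fermat.Agent.S29.H812

end
end
-- ===== PACK-END S29/H812/FundId.lean

-- ===== PACK-BEGIN S28/H565/PolyPrinciple.lean
section






/-!
# S28 analytic bridge, part 4: the polynomial principle (helper565)

A holomorphic function on `ℍ` which is invariant under `SL(2, ℤ)` and has a convergent Laurent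
expansion at `∞` (finitely many negative exponents) is a polynomial in `j`; consequently its
expansion is the same polynomial in the formal series `jqModC ℂ`.
-/

set_option autoImplicit false

noncomputable section

open UpperHalfPlane Complex Function Filter Topology ModularForm
open scoped Real MatrixGroups Manifold

namespace Fermat.Agent.S28.H565

local notation "𝕢" => Periodic.qParam
local notation "Δ" => ModularForm.discriminant

theorem discriminant_slash (γ : SL(2, ℤ)) : (Δ ∣[(12 : ℤ)] γ) = Δ :=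
  SlashInvariantForm.slash_action_generators_SL2Z discriminant_S_invariant
    discriminant_T_invariant γ

theorem discriminant_smul (γ : SL(2, ℤ)) (τ : ℍ) :
    Δ (γ • τ) = ((γ 1 0 : ℂ) * τ + (γ 1 1 : ℂ)) ^ (12 : ℤ) * Δ τ :=
  (slash_action_eq'_iff 12 Δ γ τ).mp (congrFun (discriminant_slash γ) τ)

theorem E₄_smul (γ : SL(2, ℤ)) (τ : ℍ) :
    E₄ (γ • τ) = ((γ 1 0 : ℂ) * τ + (γ 1 1 : ℂ)) ^ (4 : ℤ) * E₄ τ := by
  have h : (⇑E₄ ∣[(4 : ℤ)] γ) = ⇑E₄ :=
    SlashInvariantForm.slash_action_eqn E₄ _ ⟨γ, rfl⟩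
  exact (slash_action_eq'_iff 4 E₄ γ τ).mp (congrFun h τ)

theorem denom_ne_zero' (γ : SL(2, ℤ)) (τ : ℍ) : ((γ 1 0 : ℂ) * τ + (γ 1 1 : ℂ)) ≠ 0 := by
  have := UpperHalfPlane.denom_ne_zero (γ : GL (Fin 2) ℝ) τ
  simpa [UpperHalfPlane.denom] using this

/-- `j` is invariant under `SL(2, ℤ)`. -/
theorem jFun_smul (γ : SL(2, ℤ)) (τ : ℍ) : jFun (γ • τ) = jFun τ := by
  have hd := denom_ne_zero' γ τ
  have hΔ := discriminant_ne_zero τ
  simp only [jFun]
  rw [discriminant_smul, E₄_smul]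
  rw [mul_pow, ← zpow_natCast (((γ 1 0 : ℂ) * τ + (γ 1 1 : ℂ)) ^ (4 : ℤ)) 3, ← zpow_mul]
  norm_num
  field_simp

theorem mdifferentiable_discriminant : MDiff Δ := CuspForm.discriminant.holo'

theorem mdifferentiable_jFun : MDiff jFun := by
  have h1 : MDiff (fun τ => E₄ τ ^ 3) := (ModularFormClass.holo E₄).pow 3
  exact h1.div mdifferentiable_discriminant discriminant_ne_zero

theorem E₄_pow_three (τ : ℍ) : E₄ τ ^ 3 = jFun τ * Δ τ := by
  rw [jFun, div_mul_cancel₀ _ (discriminant_ne_zero τ)]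

theorem hasPExp_modularForm {k : ℤ} (G : ModularForm 𝒮ℒ k) :
    HasPExp 1 G (qExpansion 1 G) :=
  fun τ => ModularForm.hasSum_qExpansion G one_pos one_mem_strictPeriods_SL τ

theorem constantCoeff_e4C : PowerSeries.constantCoeff e4C = 1 := by
  rw [e4C, ← PowerSeries.coeff_zero_eq_constantCoeff, PowerSeries.coeff_map,
    PowerSeries.coeff_zero_eq_constantCoeff, ModularCurve.constantCoeff_eisenstein4]
  simp

/-- Level one modular forms of weight `12 m` are of the form `Q(j) Δ^m` with `deg Q ≤ m`. -/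
theorem exists_polynomial_of_modularForm (m : ℕ) : ∀ (k : ℤ), k = 12 * m →
    ∀ G : ModularForm 𝒮ℒ k,
      ∃ Q : Polynomial ℂ, Q.natDegree ≤ m ∧ ∀ τ, G τ = Q.eval (jFun τ) * Δ τ ^ m := by
  induction m with
  | zero =>
    intro k hk G
    have hk0 : k = 0 := by simpa using hk
    obtain ⟨c, hc⟩ := ModularFormClass.levelOne_weight_zero_const (ModularForm.mcast hk0 G)
    refine ⟨Polynomial.C c, by simp, fun τ => ?_⟩
    have := congrFun hc τ
    simpa using this
  | succ m ih =>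
    intro k hk G
    set c : ℂ := PowerSeries.coeff 0 (qExpansion 1 G) with hc
    have hw : ((3 * (m + 1) : ℕ) : ℤ) * 4 = k := by rw [hk]; push_cast; ring
    set E4pow : ModularForm 𝒮ℒ k := ModularForm.mcast hw (E₄.pow (3 * (m + 1))) with hE4pow
    have hE4pow_apply : ∀ τ, E4pow τ = E₄ τ ^ (3 * (m + 1)) := by
      intro τ
      rw [hE4pow, ModularForm.coe_mcast, ModularForm.coe_pow]
      rfl
    set G₁ : ModularForm 𝒮ℒ k := G - c • E4pow with hG₁
    have hG₁_apply : ∀ τ, G₁ τ = G τ - c * E₄ τ ^ (3 * (m + 1)) := by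
      intro τ
      simp [hG₁, hE4pow_apply]
    have hexp1 : HasPExp 1 G₁ (qExpansion 1 G - c • e4C ^ (3 * (m + 1))) := by
      refine ((hasPExp_modularForm G).sub ((hasPExp_E₄.pow (3 * (m + 1))).smul c)).congr ?_
      intro τ
      simp [hG₁_apply]
    have hq : qExpansion 1 G₁ = qExpansion 1 G - c • e4C ^ (3 * (m + 1)) :=
      (hasPExp_modularForm G₁).unique one_pos hexp1
    have hcusp : PowerSeries.coeff 0 (qExpansion 1 G₁) = 0 := by
      rw [hq, map_sub, PowerSeries.coeff_smul, ← hc]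
      simp [constantCoeff_e4C]
    have hw' : k - 12 = 12 * (m : ℤ) := by rw [hk]; push_cast; ring
    obtain ⟨Q', hQ'deg, hQ'⟩ := ih (k - 12) hw' (CuspForm.discriminantEquiv (G₁.toCuspForm hcusp))
    refine ⟨Polynomial.C c * Polynomial.X ^ (m + 1) + Q', ?_, fun τ => ?_⟩
    · refine (Polynomial.natDegree_add_le _ _).trans (max_le ?_ (hQ'deg.trans (Nat.le_succ m)))
      exact Polynomial.natDegree_C_mul_X_pow_le c (m + 1)
    · have h1 := hQ' τ
      rw [CuspForm.discriminantEquiv_apply, ModularForm.toCuspForm_apply, hG₁_apply] at h1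
      have hΔ := discriminant_ne_zero τ
      have h2 : G τ - c * E₄ τ ^ (3 * (m + 1)) = Q'.eval (jFun τ) * Δ τ ^ m * Δ τ := by
        rw [← h1, div_mul_cancel₀ _ hΔ]
      have h3 : E₄ τ ^ (3 * (m + 1)) = (jFun τ * Δ τ) ^ (m + 1) := by
        rw [pow_mul, E₄_pow_three]
      rw [h3] at h2
      simp only [Polynomial.eval_add, Polynomial.eval_mul, Polynomial.eval_C, Polynomial.eval_pow,
        Polynomial.eval_X]
      linear_combination h2

/-- `q = t^N` for the parameters `q = exp (2πiτ)` and `t = exp (2πiτ/N)`. -/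
theorem qParam_one_eq_pow (N : ℕ) (hN : N ≠ 0) (z : ℂ) : 𝕢 1 z = 𝕢 N z ^ N := by
  have h := qParam_mul_pow 1 N hN z 1
  rw [one_mul, mul_one, zpow_one, zpow_natCast] at h
  exact h.symm

theorem isBoundedAtImInfty_mul_discriminant_pow {N : ℕ} [NeZero N] {f : ℍ → ℂ}
    {φ : LaurentSeries ℂ} (hexp : HasTExp N f φ) (m : ℕ) (hm : 0 ≤ φ.order + N * m) :
    IsBoundedAtImInfty (fun τ => f τ * Δ τ ^ m) := by
  have hN : (0 : ℝ) < N := by exact_mod_cast Nat.pos_of_ne_zero (NeZero.ne N)
  obtain ⟨k, hk⟩ := Int.eq_ofNat_of_zero_le hm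
  have b1 := hexp.hasPExp.isBoundedAtImInfty hN
  have b2 := ((HasPExp.X (h := N)).pow k).isBoundedAtImInfty hN
  have b3 := ((hasPExp_eulerFun one_pos).pow (24 * m)).isBoundedAtImInfty one_pos
  have b := (b1.mul b2).mul b3
  have hfun : (fun τ : ℍ => f τ * Δ τ ^ m) =
      ((fun τ : ℍ => f τ * 𝕢 N τ ^ (-φ.order)) * ((fun τ : ℍ => 𝕢 N τ) ^ k)) *
        ((fun τ : ℍ => eulerFun (𝕢 1 τ)) ^ (24 * m)) := by
    funext τ
    have ht : 𝕢 N (τ : ℂ) ≠ 0 := Periodic.qParam_ne_zero _
    simp only [Pi.mul_apply, Pi.pow_apply]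
    rw [discriminant_eq_eulerFun, qParam_one_eq_pow N (NeZero.ne N)]
    have e1 : 𝕢 N (τ : ℂ) ^ (-φ.order) * 𝕢 N (τ : ℂ) ^ k = 𝕢 N (τ : ℂ) ^ (N * m) := by
      rw [← zpow_natCast (𝕢 N (τ : ℂ)) k, ← zpow_add₀ ht, ← hk, ← zpow_natCast]
      congr 1
      push_cast
      ring
    rw [mul_pow, ← pow_mul]
    linear_combination (-(f τ * eulerFun (𝕢 N (τ : ℂ) ^ N) ^ (24 * m))) * e1
  rw [hfun]
  exact b

/-- **Polynomial principle.** A holomorphic `SL(2, ℤ)`-invariant function on `ℍ` with a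
convergent Laurent expansion `φ` in `t = exp (2πiτ/N)` is a polynomial `Q` in `j`, and
`φ = Q (j(t^N))` as formal Laurent series. -/
theorem exists_polynomial_of_invariant {N : ℕ} [NeZero N] {f : ℍ → ℂ} {φ : LaurentSeries ℂ}
    (hf : MDiff f) (hinv : ∀ (γ : SL(2, ℤ)) (τ : ℍ), f (γ • τ) = f τ)
    (hexp : HasTExp N f φ) :
    ∃ Q : Polynomial ℂ, (∀ τ, f τ = Q.eval (jFun τ)) ∧
      φ = Polynomial.aeval (ModularCurve.qExpand ℂ N (ModularCurve.jqModC ℂ)) Q := by
  have hN : (0 : ℝ) < N := by exact_mod_cast Nat.pos_of_ne_zero (NeZero.ne N)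
  set m : ℕ := (-φ.order).toNat with hm
  have hm0 : 0 ≤ φ.order + N * m := by
    have h1 : -φ.order ≤ (m : ℤ) := Int.self_le_toNat _
    have h2 : (1 : ℤ) ≤ N := by exact_mod_cast Nat.pos_of_ne_zero (NeZero.ne N)
    nlinarith [Int.natCast_nonneg m]
  have hbdd := isBoundedAtImInfty_mul_discriminant_pow hexp m hm0
  have hslash : ∀ γ : SL(2, ℤ),
      ((fun τ => f τ * Δ τ ^ m) ∣[(12 * m : ℤ)] γ) = fun τ => f τ * Δ τ ^ m := by
    intro γ
    funext τ
    rw [slash_action_eq'_iff, hinv, discriminant_smul, mul_pow, ← zpow_natCast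
      (((γ 1 0 : ℂ) * τ + (γ 1 1 : ℂ)) ^ (12 : ℤ)) m, ← zpow_mul]
    ring
  let G : ModularForm 𝒮ℒ (12 * m) :=
    { toFun := fun τ => f τ * Δ τ ^ m
      slash_action_eq' := fun _ ⟨γ, hγ⟩ => hγ ▸ hslash γ
      holo' := hf.mul (mdifferentiable_discriminant.pow m)
      bdd_at_cusps' := fun {c} hc => by
        rw [Subgroup.IsArithmetic.isCusp_iff_isCusp_SL2Z] at hc
        rw [OnePoint.isBoundedAt_iff_forall_SL2Z hc]
        intro γ _
        rw [hslash γ]
        exact hbdd }
  obtain ⟨Q, -, hQ⟩ := exists_polynomial_of_modularForm m _ rfl G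
  have hfQ : ∀ τ, f τ = Q.eval (jFun τ) := by
    intro τ
    have h1 : f τ * Δ τ ^ m = Q.eval (jFun τ) * Δ τ ^ m := hQ τ
    exact mul_right_cancel₀ (pow_ne_zero m (discriminant_ne_zero τ)) h1
  refine ⟨Q, hfQ, ?_⟩
  have h1 : HasTExp N jFun (ModularCurve.qExpand ℂ N (ModularCurve.jqModC ℂ)) :=
    hasTExp_jFun.qExpand_one N
  have h2 := h1.polynomial_aeval Q
  have h3 : HasTExp N f (Polynomial.aeval (ModularCurve.qExpand ℂ N (ModularCurve.jqModC ℂ)) Q) :=
    h2.congr fun τ => (hfQ τ).symm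
  exact hexp.unique hN h3

end Fermat.Agent.S28.H565

end
end
-- ===== PACK-END S28/H565/PolyPrinciple.lean

-- ===== PACK-BEGIN S28/H748/Conj.lean
section





/-!
# S28 / H748 — the conjugates of `j(dτ)` and of `Δ(dτ)/Δ(τ)` under `SL(2,ℤ)`

For `d ∣ N` and `γ ∈ SL(2,ℤ)` the functions `τ ↦ j(d·γτ)` and `τ ↦ Δ(d·γτ)/Δ(γτ)` are
`j((aτ+b)/δ)` and `δ⁻¹² Δ((aτ+b)/δ)/Δ(τ)` for the Hermite data `(a,b,δ)` of `(d,γ)`; all of them
have convergent Laurent expansions in `t = exp(2πiτ/N)` with coefficients in `ℤ[ζ_N, 1/N]`.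
-/

set_option autoImplicit false

noncomputable section

open UpperHalfPlane HahnSeries ModularCurve Fermat.Agent.S24
open scoped Real MatrixGroups Manifold

namespace Fermat.Agent.S28.H748

local notation "Δ" => ModularForm.discriminant

/-! ### Laurent series with coefficients in a subring -/

/-- Laurent series all of whose coefficients lie in the subring `S`. -/
def coeffSub (S : Subring ℂ) : Subring (LaurentSeries ℂ) where
  carrier := {φ | ∀ n, φ.coeff n ∈ S}
  zero_mem' := fun n => by simp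
  one_mem' := fun n => by
    rw [HahnSeries.coeff_one]
    split_ifs
    · exact S.one_mem
    · exact S.zero_mem
  add_mem' := fun hx hy n => by
    rw [HahnSeries.coeff_add]
    exact S.add_mem (hx n) (hy n)
  neg_mem' := fun hx n => by
    rw [HahnSeries.coeff_neg]
    exact S.neg_mem (hx n)
  mul_mem' := fun hx hy n => by
    rw [HahnSeries.coeff_mul]
    exact S.sum_mem fun ij _ => S.mul_mem (hx _) (hy _)

theorem mem_coeffSub {S : Subring ℂ} {φ : LaurentSeries ℂ} :
    φ ∈ coeffSub S ↔ ∀ n, φ.coeff n ∈ S := Iff.rfl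

theorem qExpand_mem_coeffSub {S : Subring ℂ} (e : ℕ) [NeZero e] {φ : LaurentSeries ℂ}
    (h : φ ∈ coeffSub S) : qExpand ℂ e φ ∈ coeffSub S := by
  intro n
  by_cases hn : (e : ℤ) ∣ n
  · obtain ⟨k, rfl⟩ := hn
    rw [qExpand_coeff_mul]
    exact h k
  · rw [qExpand_coeff_of_not_dvd e φ hn]
    exact S.zero_mem

theorem infTwist_mem_coeffSub {S : Subring ℂ} (u : ℂˣ) (hu : ∀ k : ℤ, ((u ^ k : ℂˣ) : ℂ) ∈ S)
    {φ : LaurentSeries ℂ} (h : φ ∈ coeffSub S) : infTwist u φ ∈ coeffSub S := by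
  intro n
  rw [infTwist_coeff]
  exact S.mul_mem (h n) (hu n)

theorem coeffMap_int_mem_coeffSub (S : Subring ℂ) (x : LaurentSeries ℤ) :
    coeffMap (Int.castRingHom ℂ) x ∈ coeffSub S := by
  intro n
  rw [coeffMap_coeff]
  exact intCast_mem S _

theorem C_mem_coeffSub {S : Subring ℂ} {c : ℂ} (hc : c ∈ S) :
    (HahnSeries.C c : LaurentSeries ℂ) ∈ coeffSub S := by
  intro n
  rw [HahnSeries.C_apply, HahnSeries.coeff_single]
  split_ifs
  · exact hc
  · exact S.zero_mem

theorem jqModC_mem_coeffSub (S : Subring ℂ) : jqModC ℂ ∈ coeffSub S := by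
  rw [← coeffMap_jqModC (Int.castRingHom ℂ)]
  exact coeffMap_int_mem_coeffSub S _

theorem single_one_mem_coeffSub (S : Subring ℂ) (k : ℤ) :
    (HahnSeries.single k (1 : ℂ) : LaurentSeries ℂ) ∈ coeffSub S := by
  intro n
  rw [HahnSeries.coeff_single]
  split_ifs
  · exact S.one_mem
  · exact S.zero_mem

theorem ofPowerSeries_map_int_mem_coeffSub (S : Subring ℂ) (p : PowerSeries ℤ) :
    HahnSeries.ofPowerSeries ℤ ℂ (PowerSeries.map (Int.castRingHom ℂ) p) ∈ coeffSub S := by
  rw [← coeffMap_ofPowerSeries]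
  exact coeffMap_int_mem_coeffSub S _

theorem deltaSeriesC_mem_coeffSub (S : Subring ℂ) : H565.deltaSeriesC ∈ coeffSub S := by
  rw [H565.deltaSeriesC, H565.etaProdC, ← map_pow]
  exact (coeffSub S).mul_mem (single_one_mem_coeffSub S 1) (ofPowerSeries_map_int_mem_coeffSub S _)

theorem deltaInvSeriesC_mem_coeffSub (S : Subring ℂ) : H565.deltaInvSeriesC ∈ coeffSub S := by
  rw [H565.deltaInvSeriesC, H565.etaInvC]
  exact (coeffSub S).mul_mem (single_one_mem_coeffSub S (-1))
    (ofPowerSeries_map_int_mem_coeffSub S _)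

/-! ### The coefficient ring `ℤ[ζ_N, 1/N]` -/

/-- `ℤ[ζ_N, 1/N] ⊂ ℂ`. -/
def coeffRing (N : ℕ) : Subring ℂ :=
  Subring.closure ({Complex.exp (2 * Real.pi * Complex.I / N), (N : ℂ)⁻¹} : Set ℂ)

theorem zeta_mem_coeffRing (N : ℕ) : Complex.exp (2 * Real.pi * Complex.I / N) ∈ coeffRing N :=
  Subring.subset_closure (by simp)

theorem inv_mem_coeffRing (N : ℕ) : (N : ℂ)⁻¹ ∈ coeffRing N :=
  Subring.subset_closure (by simp)

theorem zeta_pow_self (N : ℕ) [NeZero N] : Complex.exp (2 * Real.pi * Complex.I / N) ^ N = 1 := by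
  rw [← Complex.exp_nat_mul]
  have hN : (N : ℂ) ≠ 0 := by exact_mod_cast NeZero.ne N
  rw [mul_div_cancel₀ _ hN]
  exact Complex.exp_two_pi_mul_I

theorem zeta_zpow_mem_coeffRing (N : ℕ) [NeZero N] (k : ℤ) :
    Complex.exp (2 * Real.pi * Complex.I / N) ^ k ∈ coeffRing N := by
  have hN : (N : ℤ) ≠ 0 := by exact_mod_cast NeZero.ne N
  have h0 : Complex.exp (2 * Real.pi * Complex.I / N) ≠ 0 := Complex.exp_ne_zero _
  have hk : k = (N : ℤ) * (k / N) + k % N := (Int.mul_ediv_add_emod k N).symm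
  have hnn : 0 ≤ k % (N : ℤ) := Int.emod_nonneg k hN
  obtain ⟨m, hm⟩ := Int.eq_ofNat_of_zero_le hnn
  rw [hk, zpow_add₀ h0, zpow_mul, zpow_natCast, zeta_pow_self, one_zpow, one_mul, hm, zpow_natCast]
  exact (coeffRing N).pow_mem (zeta_mem_coeffRing N) m

theorem infRoot_zpow_mem_coeffRing {N δ : ℕ} [NeZero N] (hδ : 0 < δ) (hδN : δ ∣ N) (b k : ℤ) :
    ((infRoot b δ ^ k : ℂˣ) : ℂ) ∈ coeffRing N := by
  obtain ⟨c, rfl⟩ := hδN
  rw [infRoot_zpow_coe]
  have hδ0 : (δ : ℂ) ≠ 0 := by exact_mod_cast hδ.ne'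
  have hc0 : (c : ℂ) ≠ 0 := by
    intro h
    have : c = 0 := by exact_mod_cast h
    exact NeZero.ne (δ * c) (by rw [this, mul_zero])
  have h1 : Complex.exp (2 * Real.pi * Complex.I * b / δ)
      = Complex.exp (2 * Real.pi * Complex.I / ((δ * c : ℕ) : ℂ)) ^ (b * c) := by
    rw [← Complex.exp_int_mul]
    congr 1
    push_cast
    field_simp
  rw [h1, ← zpow_mul]
  exact zeta_zpow_mem_coeffRing (δ * c) _

theorem natCast_inv_mem_coeffRing {N δ : ℕ} [NeZero N] (hδN : δ ∣ N) :
    ((δ : ℂ))⁻¹ ∈ coeffRing N := by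
  obtain ⟨c, rfl⟩ := hδN
  have hδ0 : (δ : ℂ) ≠ 0 := by
    intro h
    have : δ = 0 := by exact_mod_cast h
    exact NeZero.ne (δ * c) (by rw [this, zero_mul])
  have hc0 : (c : ℂ) ≠ 0 := by
    intro h
    have : c = 0 := by exact_mod_cast h
    exact NeZero.ne (δ * c) (by rw [this, mul_zero])
  have h1 : ((δ : ℂ))⁻¹ = (c : ℂ) * (((δ * c : ℕ) : ℂ))⁻¹ := by
    push_cast
    field_simp
  rw [h1]
  exact (coeffRing (δ * c)).mul_mem (natCast_mem (coeffRing (δ * c)) c) (inv_mem_coeffRing _)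

/-! ### Level-one expansions in the `InfExp` language -/

theorem infExp_iff_hasTExp {N : ℕ} {f : ℍ → ℂ} {φ : LaurentSeries ℂ} :
    InfExp N f φ ↔ H565.HasTExp (N : ℝ) f φ := Iff.rfl

theorem infExp_of_hasTExp_one {f : ℍ → ℂ} {φ : LaurentSeries ℂ} (h : H565.HasTExp 1 f φ) :
    InfExp 1 f φ := by
  rw [infExp_iff_hasTExp, Nat.cast_one]
  exact h

theorem infExp_one_jFun : InfExp 1 H565.jFun (jqModC ℂ) :=
  infExp_of_hasTExp_one H565.hasTExp_jFun

theorem infExp_one_delta : InfExp 1 Δ H565.deltaSeriesC :=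
  infExp_of_hasTExp_one H565.hasTExp_discriminant

theorem infExp_one_deltaInv : InfExp 1 (fun τ => (Δ τ)⁻¹) H565.deltaInvSeriesC :=
  infExp_of_hasTExp_one H565.hasTExp_discriminant_inv

theorem infExp_level {N : ℕ} [NeZero N] {f : ℍ → ℂ} {φ : LaurentSeries ℂ} (h : InfExp 1 f φ) :
    InfExp N f (qExpand ℂ N φ) := by
  rw [infExp_iff_hasTExp] at h ⊢
  rw [Nat.cast_one] at h
  exact h.qExpand_one N

theorem InfExp.mdiff748 {N : ℕ} [NeZero N] {f : ℍ → ℂ} {φ : LaurentSeries ℂ} (h : InfExp N f φ) :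
    MDiff f :=
  H205.ConvTo.mdiff (N := N) (φ := φ) h

/-! ### The conjugate functions -/

/-- `τ ↦ j((aτ+b)/δ)`. -/
def conjJ (a b δ : ℕ) (τ : ℍ) : ℂ := H565.jFun (infAff a b δ τ)

/-- `τ ↦ δ⁻¹² Δ((aτ+b)/δ) / Δ(τ)`. -/
def conjU (a b δ : ℕ) (τ : ℍ) : ℂ := ((δ : ℂ)⁻¹) ^ 12 * Δ (infAff a b δ τ) * (Δ τ)⁻¹

theorem exists_infExp_comp_infAff {N a δ : ℕ} (b : ℤ) [NeZero N] (ha : 0 < a) (hδ : 0 < δ)
    (hδN : δ ∣ N) {f : ℍ → ℂ} {φ : LaurentSeries ℂ} (hf : InfExp 1 f φ)
    (hφ : φ ∈ coeffSub (coeffRing N)) :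
    ∃ ψ, InfExp N (fun τ => f (infAff a b δ τ)) ψ ∧ ψ ∈ coeffSub (coeffRing N) := by
  obtain ⟨c, hc⟩ := hδN
  have hN : 0 < N := Nat.pos_of_ne_zero (NeZero.ne N)
  have hcpos : 0 < c := by
    rcases Nat.eq_zero_or_pos c with h | h
    · subst h
      simp at hc
      omega
    · exact h
  haveI : NeZero (a * c) := ⟨(Nat.mul_pos ha hcpos).ne'⟩
  refine ⟨qExpand ℂ (a * c) (infTwist (infRoot b (δ * 1)) φ),
    InfExp.comp_infAff (M := 1) b ha hδ one_pos hN (by rw [hc]; ring) hf, ?_⟩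
  apply qExpand_mem_coeffSub
  apply infTwist_mem_coeffSub _ _ hφ
  intro k
  rw [mul_one]
  exact infRoot_zpow_mem_coeffRing hδ ⟨c, hc⟩ b k

theorem exists_infExp_conjJ {N a δ : ℕ} (b : ℕ) [NeZero N] (ha : 0 < a) (hδ : 0 < δ)
    (hδN : δ ∣ N) :
    ∃ ψ, InfExp N (conjJ a b δ) ψ ∧ ψ ∈ coeffSub (coeffRing N) :=
  exists_infExp_comp_infAff (b : ℤ) ha hδ hδN infExp_one_jFun (jqModC_mem_coeffSub _)

theorem exists_infExp_conjU {N a δ : ℕ} (b : ℕ) [NeZero N] (ha : 0 < a) (hδ : 0 < δ)
    (hδN : δ ∣ N) :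
    ∃ ψ, InfExp N (conjU a b δ) ψ ∧ ψ ∈ coeffSub (coeffRing N) := by
  obtain ⟨ψ, hψ, hψm⟩ := exists_infExp_comp_infAff (N := N) (b : ℤ) ha hδ hδN infExp_one_delta
    (deltaSeriesC_mem_coeffSub _)
  have h2 : InfExp N (fun τ => (Δ τ)⁻¹) (qExpand ℂ N H565.deltaInvSeriesC) :=
    infExp_level infExp_one_deltaInv
  have h3 := ((InfExp.const (N := N) (((δ : ℂ)⁻¹) ^ 12)).mul hψ).mul h2
  refine ⟨_, h3, ?_⟩
  refine (coeffSub _).mul_mem ((coeffSub _).mul_mem (C_mem_coeffSub ?_) hψm)
    (qExpand_mem_coeffSub N (deltaInvSeriesC_mem_coeffSub _))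
  exact (coeffRing N).pow_mem (natCast_inv_mem_coeffRing hδN) 12

/-! ### Hermite normal form: the conjugates of `j(dτ)` and `Δ(dτ)/Δ(τ)` -/

open H628 in
theorem hermite_data {d : ℕ} (hd : 0 < d) (γ : SL(2, ℤ)) :
    ∃ γ' : SL(2, ℤ), ∀ τ : ℍ,
      infAff d 0 1 (γ • τ) = γ' • infAff (hermA d γ) (hermB d γ) (hermD d γ) τ ∧
      ((γ' 1 0 : ℂ) * (infAff (hermA d γ) (hermB d γ) (hermD d γ) τ : ℂ) + (γ' 1 1 : ℂ)) *
          (hermD d γ : ℂ) = (γ 1 0 : ℂ) * τ + (γ 1 1 : ℂ) := by
  obtain ⟨γ', hmat⟩ := hermite_spec hd γ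
  refine ⟨γ', fun τ => ?_⟩
  have hA := hermA_pos hd γ
  have hD := hermD_pos hd γ
  set σ := infAff (hermA d γ) (hermB d γ) (hermD d γ) τ with hσdef
  have hσ : (σ : ℂ) = ((hermA d γ : ℂ) * τ + (hermB d γ : ℂ)) / (hermD d γ : ℂ) := by
    rw [hσdef, infAff_coe hA hD]
    push_cast
    rfl
  have h00 := congrFun (congrFun hmat 0) 0
  have h01 := congrFun (congrFun hmat 0) 1
  have h10 := congrFun (congrFun hmat 1) 0
  have h11 := congrFun (congrFun hmat 1) 1
  simp only [Matrix.mul_apply, Fin.sum_univ_two, Matrix.of_apply, Matrix.cons_val',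
    Matrix.cons_val_zero, Matrix.cons_val_one, Matrix.empty_val', Matrix.cons_val_fin_one,
    zero_mul, add_zero, one_mul, zero_add, mul_zero] at h00 h01 h10 h11
  have c00 : (d : ℂ) * (γ 0 0 : ℂ) = (γ' 0 0 : ℂ) * (hermA d γ : ℂ) := by exact_mod_cast h00
  have c01 : (d : ℂ) * (γ 0 1 : ℂ) =
      (γ' 0 0 : ℂ) * (hermB d γ : ℂ) + (γ' 0 1 : ℂ) * (hermD d γ : ℂ) := by
    exact_mod_cast h01
  have c10 : (γ 1 0 : ℂ) = (γ' 1 0 : ℂ) * (hermA d γ : ℂ) := by exact_mod_cast h10
  have c11 : (γ 1 1 : ℂ) = (γ' 1 0 : ℂ) * (hermB d γ : ℂ) + (γ' 1 1 : ℂ) * (hermD d γ : ℂ) := by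
    exact_mod_cast h11
  have hD0 : (hermD d γ : ℂ) ≠ 0 := by exact_mod_cast hD.ne'
  have hden1 := int_lin_ne_zero _ _ (SL2_bottom_ne_zero γ) τ
  have hden2 := int_lin_ne_zero _ _ (SL2_bottom_ne_zero γ') σ
  have hnum : (γ' 0 0 : ℂ) * σ + (γ' 0 1 : ℂ)
      = (d : ℂ) * ((γ 0 0 : ℂ) * τ + (γ 0 1 : ℂ)) / (hermD d γ : ℂ) := by
    rw [hσ]; field_simp; linear_combination (-(τ : ℂ)) * c00 - c01
  have hdenom : (γ' 1 0 : ℂ) * σ + (γ' 1 1 : ℂ)
      = ((γ 1 0 : ℂ) * τ + (γ 1 1 : ℂ)) / (hermD d γ : ℂ) := by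
    rw [hσ]; field_simp; linear_combination (-(τ : ℂ)) * c10 - c11
  constructor
  · apply UpperHalfPlane.ext
    rw [infAff_coe hd one_pos, SL2_coe_smul, SL2_coe_smul, hnum, hdenom]
    simp only [Int.cast_zero, add_zero, Nat.cast_one, div_one]
    field_simp
  · rw [hdenom]
    field_simp

open H628 in
theorem conjJ_smul {d : ℕ} (hd : 0 < d) (γ : SL(2, ℤ)) (τ : ℍ) :
    conjJ d 0 1 (γ • τ) = conjJ (hermA d γ) (hermB d γ) (hermD d γ) τ := by
  obtain ⟨γ', h⟩ := hermite_data hd γ
  have h1 := (h τ).1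
  simp only [conjJ, Nat.cast_zero]
  rw [h1, H565.jFun_smul]

open H628 in
theorem conjU_smul {d : ℕ} (hd : 0 < d) (γ : SL(2, ℤ)) (τ : ℍ) :
    conjU d 0 1 (γ • τ) = conjU (hermA d γ) (hermB d γ) (hermD d γ) τ := by
  obtain ⟨γ', h⟩ := hermite_data hd γ
  obtain ⟨h1, h2⟩ := h τ
  have hD0 : (hermD d γ : ℂ) ≠ 0 := by exact_mod_cast (hermD_pos hd γ).ne'
  have hden1 := H565.denom_ne_zero' γ τ
  have hΔ := ModularForm.discriminant_ne_zero τ
  simp only [conjU, Nat.cast_zero, Nat.cast_one, inv_one, one_pow, one_mul]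
  rw [h1, H565.discriminant_smul γ' _, H565.discriminant_smul γ τ, ← h2]
  rw [← h2] at hden1
  have hx : ((γ' 1 0 : ℂ) *
      (infAff (hermA d γ) (hermB d γ) (hermD d γ) τ : ℂ) + (γ' 1 1 : ℂ)) ≠ 0 :=
    left_ne_zero_of_mul hden1
  norm_cast
  field_simp

end Fermat.Agent.S28.H748

end

end
-- ===== PACK-END S28/H748/Conj.lean

-- ===== PACK-BEGIN S28/H748/Family.lean
section



/-!
# S28 / H748 — the finite `SL(2,ℤ)`-stable family of modular functions of level `N`

`famSet N` = all `SL(2,ℤ)`-translates of `j(dτ)` and `Δ(dτ)/Δ(τ)`, `d ∣ N`.  It is finite, stable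
under translation, every member has a convergent expansion in `t = exp(2πiτ/N)` with coefficients
in `ℤ[ζ_N, 1/N]`, and invariant polynomial expressions in its members are polynomials in `j`.
-/

set_option autoImplicit false

noncomputable section

open UpperHalfPlane HahnSeries ModularCurve Fermat.Agent.S24
open scoped Real MatrixGroups Manifold

namespace Fermat.Agent.S28.H748

local notation "Δ" => ModularForm.discriminant

/-- All translates of `j(dτ)` and `Δ(dτ)/Δ(τ)`, `d ∣ N`. -/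
def famSet (N : ℕ) : Set (ℍ → ℂ) :=
  {f | ∃ d : ℕ, 0 < d ∧ d ∣ N ∧ ∃ γ : SL(2, ℤ),
      f = (fun τ => conjJ d 0 1 (γ • τ)) ∨ f = (fun τ => conjU d 0 1 (γ • τ))}

theorem famSet_smul {N : ℕ} {f : ℍ → ℂ} (hf : f ∈ famSet N) (γ : SL(2, ℤ)) :
    (fun τ => f (γ • τ)) ∈ famSet N := by
  obtain ⟨d, hd, hdN, γ₀, h | h⟩ := hf
  · refine ⟨d, hd, hdN, γ₀ * γ, Or.inl ?_⟩
    funext τ
    rw [h, mul_smul]
  · refine ⟨d, hd, hdN, γ₀ * γ, Or.inr ?_⟩
    funext τ
    rw [h, mul_smul]

theorem conjJ_mem_famSet {N d : ℕ} (hd : 0 < d) (hdN : d ∣ N) : conjJ d 0 1 ∈ famSet N :=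
  ⟨d, hd, hdN, 1, Or.inl (by funext τ; rw [one_smul])⟩

theorem conjU_mem_famSet {N d : ℕ} (hd : 0 < d) (hdN : d ∣ N) : conjU d 0 1 ∈ famSet N :=
  ⟨d, hd, hdN, 1, Or.inr (by funext τ; rw [one_smul])⟩

open H628 in
/-- Every member of the family is a `conjJ a b δ` or a `conjU a b δ` with `a δ ∣ N`, `b < δ`. -/
theorem famSet_eq_conj {N : ℕ} {f : ℍ → ℂ} (hf : f ∈ famSet N) :
    ∃ a b δ : ℕ, 0 < a ∧ 0 < δ ∧ b < δ ∧ a * δ ∣ N ∧ (f = conjJ a b δ ∨ f = conjU a b δ) := by
  obtain ⟨d, hd, hdN, γ, h | h⟩ := hf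
  · refine ⟨hermA d γ, hermB d γ, hermD d γ, hermA_pos hd γ, hermD_pos hd γ, hermB_lt hd γ, ?_,
      Or.inl ?_⟩
    · rw [hermA_mul_hermD]
      exact hdN
    · rw [h]
      funext τ
      exact conjJ_smul hd γ τ
  · refine ⟨hermA d γ, hermB d γ, hermD d γ, hermA_pos hd γ, hermD_pos hd γ, hermB_lt hd γ, ?_,
      Or.inr ?_⟩
    · rw [hermA_mul_hermD]
      exact hdN
    · rw [h]
      funext τ
      exact conjU_smul hd γ τ

theorem famSet_finite (N : ℕ) [NeZero N] : (famSet N).Finite := by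
  have hN : 0 < N := Nat.pos_of_ne_zero (NeZero.ne N)
  let F : Fin (N + 1) × Fin (N + 1) × Fin (N + 1) → (ℍ → ℂ) :=
    fun t => conjJ t.1 t.2.1 t.2.2
  let G : Fin (N + 1) × Fin (N + 1) × Fin (N + 1) → (ℍ → ℂ) :=
    fun t => conjU t.1 t.2.1 t.2.2
  refine ((Set.finite_range F).union (Set.finite_range G)).subset ?_
  intro f hf
  obtain ⟨a, b, δ, ha, hδ, hb, hdvd, h⟩ := famSet_eq_conj hf
  have hle : a * δ ≤ N := Nat.le_of_dvd hN hdvd
  have haN : a < N + 1 := by
    have : a ≤ a * δ := Nat.le_mul_of_pos_right a hδ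
    omega
  have hδN : δ < N + 1 := by
    have : δ ≤ a * δ := Nat.le_mul_of_pos_left δ ha
    omega
  have hbN : b < N + 1 := by omega
  rcases h with h | h
  · left
    exact ⟨(⟨a, haN⟩, ⟨b, hbN⟩, ⟨δ, hδN⟩), h.symm⟩
  · right
    exact ⟨(⟨a, haN⟩, ⟨b, hbN⟩, ⟨δ, hδN⟩), h.symm⟩

theorem famSet_infExp {N : ℕ} [NeZero N] {f : ℍ → ℂ} (hf : f ∈ famSet N) :
    ∃ φ, InfExp N f φ ∧ φ ∈ coeffSub (coeffRing N) := by
  obtain ⟨a, b, δ, ha, hδ, -, hdvd, h | h⟩ := famSet_eq_conj hf
  · rw [h]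
    exact exists_infExp_conjJ b ha hδ (Dvd.dvd.trans (Dvd.intro_left a rfl) hdvd)
  · rw [h]
    exact exists_infExp_conjU b ha hδ (Dvd.dvd.trans (Dvd.intro_left a rfl) hdvd)

/-! ### Invariance under `Γ₀` -/

theorem herm_of_mem_Gamma0 {N d : ℕ} (hd : 0 < d) (hdN : d ∣ N) {γ : SL(2, ℤ)}
    (hγ : γ ∈ CongruenceSubgroup.Gamma0 N) :
    H628.hermA d γ = d ∧ H628.hermB d γ = 0 ∧ H628.hermD d γ = 1 := by
  obtain ⟨h1, h2, h3⟩ := H628.herm_Gamma0_mul hd hdN hγ 1
  obtain ⟨k1, k2, k3⟩ := H628.herm_one hd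
  rw [mul_one] at h1 h2 h3
  exact ⟨h1.trans k1, h2.trans k2, h3.trans k3⟩

theorem conjJ_Gamma0 {N d : ℕ} (hd : 0 < d) (hdN : d ∣ N) {γ : SL(2, ℤ)}
    (hγ : γ ∈ CongruenceSubgroup.Gamma0 N) (τ : ℍ) :
    conjJ d 0 1 (γ • τ) = conjJ d 0 1 τ := by
  obtain ⟨h1, h2, h3⟩ := herm_of_mem_Gamma0 hd hdN hγ
  rw [conjJ_smul hd, h1, h2, h3]

theorem conjU_Gamma0 {N d : ℕ} (hd : 0 < d) (hdN : d ∣ N) {γ : SL(2, ℤ)}
    (hγ : γ ∈ CongruenceSubgroup.Gamma0 N) (τ : ℍ) :
    conjU d 0 1 (γ • τ) = conjU d 0 1 τ := by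
  obtain ⟨h1, h2, h3⟩ := herm_of_mem_Gamma0 hd hdN hγ
  rw [conjU_smul hd, h1, h2, h3]

/-! ### The expansions of the base functions -/

theorem infExp_comp_scale {N : ℕ} (d : ℕ) [NeZero N] [NeZero d] {f : ℍ → ℂ}
    {φ : LaurentSeries ℂ} (hf : InfExp 1 f φ) :
    InfExp N (fun τ => f (infAff d 0 1 τ)) (qExpand ℂ N (qExpand ℂ d φ)) := by
  have hN : 0 < N := Nat.pos_of_ne_zero (NeZero.ne N)
  have hd : 0 < d := Nat.pos_of_ne_zero (NeZero.ne d)
  haveI : NeZero (N * d) := ⟨(Nat.mul_pos hN hd).ne'⟩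
  have h := InfExp.comp_infAff (M := 1) (N := N) (a := d) (d := 1) (e := N * d) 0 hd one_pos
    one_pos hN (by ring) hf
  rw [infRoot_zero, infTwist_one] at h
  rw [qExpand_qExpand]
  exact h

theorem infExp_conjJ_base (N d : ℕ) [NeZero N] [NeZero d] :
    InfExp N (conjJ d 0 1) (qExpand ℂ N (qExpand ℂ d (jqModC ℂ))) := by
  have h := infExp_comp_scale (N := N) d infExp_one_jFun
  refine h.congr fun τ => ?_
  simp [conjJ]

theorem infExp_conjU_base (N d : ℕ) [NeZero N] [NeZero d] :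
    InfExp N (conjU d 0 1)
      (qExpand ℂ N (qExpand ℂ d H565.deltaSeriesC) * qExpand ℂ N H565.deltaInvSeriesC) := by
  have h1 := infExp_comp_scale (N := N) d infExp_one_delta
  have h2 : InfExp N (fun τ => (Δ τ)⁻¹) (qExpand ℂ N H565.deltaInvSeriesC) :=
    infExp_level infExp_one_deltaInv
  refine (h1.mul h2).congr fun τ => ?_
  simp [conjU]

/-! ### The index type and the action of `SL(2,ℤ)` -/

/-- The index type: the family itself. -/
def Idx (N : ℕ) : Type := {f : ℍ → ℂ // f ∈ famSet N}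

/-- The family is finite. -/
def idxFintype (N : ℕ) [NeZero N] : Fintype (Idx N) := (famSet_finite N).fintype

/-- `γ` acts on the family by `f ↦ f ∘ γ⁻¹`. -/
def idxSmul {N : ℕ} (γ : SL(2, ℤ)) (i : Idx N) : Idx N :=
  ⟨fun τ => i.1 (γ⁻¹ • τ), famSet_smul i.2 γ⁻¹⟩

theorem idxSmul_val {N : ℕ} (γ : SL(2, ℤ)) (i : Idx N) (τ : ℍ) :
    (idxSmul γ i).1 τ = i.1 (γ⁻¹ • τ) := rfl

/-- The action as a `MulAction`. -/
def idxAction (N : ℕ) : MulAction SL(2, ℤ) (Idx N) where
  smul := idxSmul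
  one_smul i := by
    apply Subtype.ext
    funext τ
    show i.1 ((1 : SL(2, ℤ))⁻¹ • τ) = i.1 τ
    rw [inv_one, one_smul]
  mul_smul γ₁ γ₂ i := by
    apply Subtype.ext
    funext τ
    show i.1 ((γ₁ * γ₂)⁻¹ • τ) = i.1 (γ₂⁻¹ • γ₁⁻¹ • τ)
    rw [mul_inv_rev, mul_smul]

/-- The permutation representation on the index type. -/
def idxPerm (N : ℕ) : SL(2, ℤ) →* Equiv.Perm (Idx N) :=
  @MulAction.toPermHom SL(2, ℤ) (Idx N) _ (idxAction N)

theorem idxPerm_val {N : ℕ} (γ : SL(2, ℤ)) (i : Idx N) (τ : ℍ) :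
    (idxPerm N γ i).1 τ = i.1 (γ⁻¹ • τ) := rfl

/-- The expansion of a member of the family. -/
def genS (N : ℕ) [NeZero N] (i : Idx N) : LaurentSeries ℂ := Classical.choose (famSet_infExp i.2)

theorem genS_spec (N : ℕ) [NeZero N] (i : Idx N) : InfExp N i.1 (genS N i) :=
  (Classical.choose_spec (famSet_infExp i.2)).1

theorem genS_mem (N : ℕ) [NeZero N] (i : Idx N) : genS N i ∈ coeffSub (coeffRing N) :=
  (Classical.choose_spec (famSet_infExp i.2)).2

theorem genS_eq {N : ℕ} [NeZero N] (i : Idx N) {φ : LaurentSeries ℂ} (h : InfExp N i.1 φ) :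
    genS N i = φ :=
  (genS_spec N i).unique h

/-- The function attached to a polynomial in the members of the family. -/
def polyFun {N : ℕ} (p : MvPolynomial (Idx N) ℂ) (τ : ℍ) : ℂ :=
  MvPolynomial.eval (fun i : Idx N => i.1 τ) p

theorem infExp_polyFun {N : ℕ} [NeZero N] (p : MvPolynomial (Idx N) ℂ) :
    InfExp N (polyFun p) (MvPolynomial.aeval (genS N) p) :=
  H685.HasQLaurent.mvAeval (h := (N : ℝ)) (fun i : Idx N => i.1) (genS N)
    (fun i => genS_spec N i) p

theorem infExp_polyFun_perm {N : ℕ} [NeZero N] (γ : SL(2, ℤ)) (p : MvPolynomial (Idx N) ℂ) :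
    InfExp N (fun τ => polyFun p (γ⁻¹ • τ)) (MvPolynomial.aeval (genS N ∘ idxPerm N γ) p) :=
  H685.HasQLaurent.mvAeval (h := (N : ℝ)) (fun (i : Idx N) τ => i.1 (γ⁻¹ • τ))
    (genS N ∘ idxPerm N γ) (fun i => genS_spec N (idxPerm N γ i)) p

theorem family_rel {N : ℕ} [NeZero N] (γ : SL(2, ℤ)) (p : MvPolynomial (Idx N) ℂ)
    (h : MvPolynomial.aeval (genS N) p = 0) :
    MvPolynomial.aeval (genS N ∘ idxPerm N γ) p = 0 := by
  have h1 := infExp_polyFun (N := N) p
  rw [h] at h1
  have h2 : polyFun p = fun _ => 0 := h1.fun_unique InfExp.zero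
  have h3 := infExp_polyFun_perm γ p
  have h4 : (fun τ => polyFun p (γ⁻¹ • τ)) = fun _ => 0 := by
    funext τ
    rw [h2]
  rw [h4] at h3
  exact h3.unique InfExp.zero

theorem family_inv {N : ℕ} [NeZero N] (p : MvPolynomial (Idx N) ℂ)
    (h : ∀ γ : SL(2, ℤ),
      MvPolynomial.aeval (genS N ∘ idxPerm N γ) p = MvPolynomial.aeval (genS N) p) :
    MvPolynomial.aeval (genS N) p ∈
      Algebra.adjoin ℂ ({qExpand ℂ N (jqModC ℂ)} : Set (LaurentSeries ℂ)) := by
  have h1 := infExp_polyFun (N := N) p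
  have hinv : ∀ (γ : SL(2, ℤ)) (τ : ℍ), polyFun p (γ • τ) = polyFun p τ := by
    intro γ τ
    have h3 := infExp_polyFun_perm γ⁻¹ p
    rw [h γ⁻¹, inv_inv] at h3
    exact congrFun (h3.fun_unique h1) τ
  obtain ⟨Q, -, hQ⟩ := H565.exists_polynomial_of_invariant (N := N) (InfExp.mdiff748 h1) hinv h1
  rw [hQ]
  exact Polynomial.aeval_mem_adjoin_singleton _ _

theorem family_perm_T {N : ℕ} [NeZero N] (i : Idx N) :
    genS N (idxPerm N ModularGroup.T i) = infTwist (infRoot (-1) N) (genS N i) := by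
  apply genS_eq
  have h := (genS_spec N i).comp_translate (-1)
  refine h.congr fun τ => ?_
  rw [idxPerm_val]
  refine congrArg i.1 ?_
  apply UpperHalfPlane.ext
  rw [infAff_coe one_pos one_pos, H628.SL2_coe_smul]
  simp [ModularGroup.T]

end Fermat.Agent.S28.H748

end

end
-- ===== PACK-END S28/H748/Family.lean

-- ===== PACK-BEGIN S28/H748/Package.lean
section



/-!
# S28 / H748 — the analytic package `ModFunPackage N` (interface of helper868)

`modFunPackage N : ModFunPackage N`, hence `Nonempty (ModFunPackage N)`, for every `N ≥ 1`.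
-/

set_option autoImplicit false

noncomputable section

open UpperHalfPlane HahnSeries ModularCurve Fermat.Agent.S24
open scoped Real MatrixGroups Manifold

namespace Fermat.Agent.S28.H748

local notation "Δ" => ModularForm.discriminant

theorem iotaN_jq (N : ℕ) [NeZero N] : iotaN N jq = qExpand ℂ N (jqModC ℂ) := by
  rw [iotaN, RingHom.comp_apply, ← jqModC_rat, coeffMap_jqModC]

theorem coeffMap_qExpand_comm {R S : Type*} [CommRing R] [CommRing S] (f : R →+* S) (n : ℕ)
    [NeZero n] (x : LaurentSeries R) :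
    coeffMap f (qExpand R n x) = qExpand S n (coeffMap f x) := by
  ext k
  rw [coeffMap_coeff]
  by_cases hk : (n : ℤ) ∣ k
  · obtain ⟨m, rfl⟩ := hk
    rw [qExpand_coeff_mul, qExpand_coeff_mul, coeffMap_coeff]
  · rw [qExpand_coeff_of_not_dvd n x hk, qExpand_coeff_of_not_dvd n _ hk, map_zero]

theorem coeffMap_deltaq : coeffMap (algebraMap ℚ ℂ) deltaq = H565.deltaSeriesC := by
  rw [deltaq, H565.deltaSeriesC, map_mul, coeffMap_single, map_one, coeffMap_ofPowerSeries,
    H565.etaProdC, ← map_pow, ← dedekindEtaUnit]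
  congr 2

theorem qExpand_deltaInv (N : ℕ) [NeZero N] :
    (qExpand ℂ N H565.deltaSeriesC)⁻¹ = qExpand ℂ N H565.deltaInvSeriesC := by
  apply inv_eq_of_mul_eq_one_right
  rw [← map_mul, H565.deltaSeriesC_mul_inv, map_one]

theorem iotaN_unitq (N p : ℕ) [NeZero N] [NeZero p] :
    iotaN N (unitq p) =
      qExpand ℂ N (qExpand ℂ p H565.deltaSeriesC) * qExpand ℂ N H565.deltaInvSeriesC := by
  rw [iotaN, RingHom.comp_apply, unitq, map_div₀, map_div₀, coeffMap_qExpand_comm,
    coeffMap_deltaq, div_eq_mul_inv, qExpand_deltaInv]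

theorem iotaN_qExpand_jq (N d : ℕ) [NeZero N] [NeZero d] :
    iotaN N (qExpand ℚ d jq) = qExpand ℂ N (qExpand ℂ d (jqModC ℂ)) := by
  rw [iotaN, RingHom.comp_apply, coeffMap_qExpand_comm, ← jqModC_rat, coeffMap_jqModC]

theorem twist_eq_infTwist (u : ℂˣ) (φ : LaurentSeries ℂ) :
    Fermat.Agent.S28.twist u φ = infTwist u φ := by
  ext n
  rw [twist_coeff, infTwist_coeff, mul_comm]

theorem infRoot_neg_one_pow (N : ℕ) [NeZero N] : infRoot (-1) N ^ N = 1 := by
  apply Units.ext
  rw [Units.val_pow_eq_pow_val, infRoot_coe, Units.val_one, ← Complex.exp_nat_mul]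
  have hN : (N : ℂ) ≠ 0 := by exact_mod_cast NeZero.ne N
  have : (N : ℂ) * (2 * Real.pi * Complex.I * ((-1 : ℤ) : ℂ) / N) = -(2 * Real.pi * Complex.I) := by
    push_cast
    field_simp
  rw [this, Complex.exp_neg, Complex.exp_two_pi_mul_I, inv_one]

/-- **The analytic package.** -/
def modFunPackage (N : ℕ) [NeZero N] : ModFunPackage N where
  ι := Idx N
  fin := idxFintype N
  gen := genS N
  perm := idxPerm N
  rel := family_rel
  inv := fun p h => by
    rw [iotaN_jq]
    exact family_inv p h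
  coeff_mem := fun i n => genS_mem N i n
  twistUnit := infRoot (-1) N
  twistUnit_pow := infRoot_neg_one_pow N
  perm_T := fun i => by rw [family_perm_T, twist_eq_infTwist]
  idxJ := fun d _ hd => ⟨conjJ d 0 1, conjJ_mem_famSet (Nat.pos_of_ne_zero (NeZero.ne d)) hd⟩
  gen_idxJ := fun d _ hd => by
    rw [iotaN_qExpand_jq]
    exact genS_eq _ (infExp_conjJ_base N d)
  fixJ := fun d _ hd γ hγ => by
    apply Subtype.ext
    funext τ
    rw [idxPerm_val]
    exact conjJ_Gamma0 (Nat.pos_of_ne_zero (NeZero.ne d)) hd (inv_mem hγ) τ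
  idxU := fun p _ _ hpN => ⟨conjU p 0 1, conjU_mem_famSet (Nat.pos_of_ne_zero (NeZero.ne p)) hpN⟩
  gen_idxU := fun p _ _ hpN => by
    rw [iotaN_unitq]
    exact genS_eq _ (infExp_conjU_base N p)
  fixU := fun p _ _ hpN γ hγ => by
    apply Subtype.ext
    funext τ
    rw [idxPerm_val]
    exact conjU_Gamma0 (Nat.pos_of_ne_zero (NeZero.ne p)) (dvd_refl p) (inv_mem hγ) τ

/-- The deliverable of the analytic side (statement of `H868/AnalyticGoal.lean`). -/
theorem exists_modFunPackage748 (N : ℕ) [NeZero N] : Nonempty (ModFunPackage N) :=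
  ⟨modFunPackage N⟩

end Fermat.Agent.S28.H748

end

end
-- ===== PACK-END S28/H748/Package.lean

-- ===== PACK-BEGIN Lib/RR/Zeros.lean
section



/-!
# RR library, layer L2: the zeros of `x` number at most `[F : K(x)]`  (Stichtenoth 1.3.3)

Proof.  Let `P_1, …, P_r` be distinct zeros of `x`, `e_i = ord_{P_i} x`.  Choose
uniformizers `t_i` at `P_i` and (approximation) `s_i` with `ord_{P_i} s_i = 0` and
`ord_{P_k} s_i ≥ M` for `k ≠ i`, `M` large.  The `∑ e_i` elements `t_i ^ a * s_i`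
(`0 ≤ a < e_i`) are linearly independent over `K(x)`: the order of a nonzero element of `K(x)`
at `P_i` is `n * e_i` with `n` independent of `i`; in a nontrivial relation pick the term with
lexicographically least `(n, a)`; at its place it has strictly smaller order than all others.
-/

set_option autoImplicit false

noncomputable section

open AlgebraicCurve Polynomial

namespace Fermat.Agent.Lib.RR

variable {K F : Type*} [Field K] [Field F] [Algebra K F]

theorem add_ne_zero_of_ord_lt (v : Place K F) {f g : F}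
    (h : v.ord f < v.ord g) : f + g ≠ 0 := by
  intro h0
  have : g = -f := by rw [← sub_eq_zero, sub_neg_eq_add, add_comm]; exact h0
  rw [this, ord_neg] at h
  exact lt_irrefl _ h

theorem aeval_mem (v : Place K F) {x : F} (hx : 0 ≤ v.ord x) (p : K[X]) :
    aeval x p ∈ v.toValuationSubring := by
  induction p using Polynomial.induction_on' with
  | add p q hp hq => rw [map_add]; exact add_mem hp hq
  | monomial n c =>
    rw [aeval_monomial]
    exact mul_mem (v.algebraMap_mem' c) (pow_mem (mem_of_ord_nonneg v hx) n)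

/-- A polynomial in `x` with nonzero constant term is a unit at every zero of `x`. -/
theorem aeval_of_coeff_zero_ne (v : Place K F) {x : F} (hx : 0 < v.ord x) {p : K[X]}
    (hp : p.coeff 0 ≠ 0) : aeval x p ≠ 0 ∧ v.ord (aeval x p) = 0 := by
  have hdecomp : aeval x p = algebraMap K F (p.coeff 0) + aeval x p.divX * x := by
    conv_lhs => rw [← Polynomial.divX_mul_X_add p]
    simp [add_comm]
  have hc0 : algebraMap K F (p.coeff 0) ≠ 0 := by
    simpa using hp
  have hc : v.ord (algebraMap K F (p.coeff 0)) = 0 := ord_algebraMap v _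
  rcases eq_or_ne (aeval x p.divX * x) 0 with h0 | h0
  · rw [hdecomp, h0, add_zero]; exact ⟨hc0, hc⟩
  · have hx0 : x ≠ 0 := right_ne_zero_of_mul h0
    have hr0 : aeval x p.divX ≠ 0 := left_ne_zero_of_mul h0
    have hr : 0 ≤ v.ord (aeval x p.divX) := ord_nonneg_of_mem v (aeval_mem v hx.le _)
    have hlt : v.ord (algebraMap K F (p.coeff 0)) < v.ord (aeval x p.divX * x) := by
      rw [hc, v.ord_mul hr0 hx0]; omega
    rw [hdecomp]
    exact ⟨add_ne_zero_of_ord_lt v hlt, by rw [ord_add_eq_of_lt v hc0 h0 hlt, hc]⟩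

/-- The order of a nonzero polynomial in `x` at a zero of `x`. -/
theorem aeval_ord (v : Place K F) {x : F} (hx : 0 < v.ord x) {p : K[X]} (hp : p ≠ 0) :
    aeval x p ≠ 0 ∧ v.ord (aeval x p) = (p.rootMultiplicity 0 : ℤ) * v.ord x := by
  obtain ⟨q, hq, hq'⟩ := Polynomial.exists_eq_pow_rootMultiplicity_mul_and_not_dvd p hp 0
  have hq0 : q.coeff 0 ≠ 0 := by
    intro h; apply hq'
    rw [C_0, sub_zero]; exact Polynomial.X_dvd_iff.mpr h
  obtain ⟨h1, h2⟩ := aeval_of_coeff_zero_ne v hx hq0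
  have hx0 : x ≠ 0 := ne_zero_of_ord_ne_zero v hx.ne'
  have hval : aeval x p = x ^ (p.rootMultiplicity 0) * aeval x q := by
    conv_lhs => rw [hq]
    simp
  rw [hval]
  refine ⟨mul_ne_zero (pow_ne_zero _ hx0) h1, ?_⟩
  rw [v.ord_mul (pow_ne_zero _ hx0) h1, ord_pow, h2, add_zero]

/-- **Lemma A**: the order of a nonzero element of `K(x)` at a zero `v` of `x` is a multiple
`n * ord_v x`, with `n` independent of `v`. -/
theorem exists_ord_eq_mul {x : F} (c : IntermediateField.adjoin K {x}) (hc : c ≠ 0) :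
    ∃ n : ℤ, ∀ v : Place K F, 0 < v.ord x → v.ord (c : F) = n * v.ord x := by
  obtain ⟨r, s, hrs⟩ := (IntermediateField.mem_adjoin_simple_iff K (c : F)).mp c.2
  have hcF : (c : F) ≠ 0 := by simpa using hc
  have hr : r ≠ 0 := by
    rintro rfl; apply hcF; rw [hrs]; simp
  have hs : s ≠ 0 := by
    rintro rfl; apply hcF; rw [hrs]; simp
  refine ⟨(r.rootMultiplicity 0 : ℤ) - (s.rootMultiplicity 0 : ℤ), fun v hv => ?_⟩
  obtain ⟨hr1, hr2⟩ := aeval_ord v hv hr
  obtain ⟨hs1, hs2⟩ := aeval_ord v hv hs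
  rw [hrs, div_eq_mul_inv, v.ord_mul hr1 (inv_ne_zero hs1), v.ord_inv, hr2, hs2]
  ring


/-- **L2** (zeros): the zeros of `x`, counted with multiplicity, number at most `[F : K(x)]`. -/
theorem sum_ord_le_finrank (hdeg : ∀ v : Place K F, v.deg = 1) (x : F)
    [FiniteDimensional (IntermediateField.adjoin K {x}) F]
    (S : Finset (Place K F)) (hS : ∀ v ∈ S, 0 < v.ord x) :
    ∑ v ∈ S, v.ord x ≤ (Module.finrank (IntermediateField.adjoin K {x}) F : ℤ) := by
  classical
  have _ := hdeg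
  -- multiplicities
  set e : Place K F → ℕ := fun v => (v.ord x).toNat with he
  have he_cast : ∀ v ∈ S, (e v : ℤ) = v.ord x := fun v hv =>
    Int.toNat_of_nonneg (hS v hv).le
  -- uniformizers
  choose t ht using fun v : Place K F => exists_ord_eq_one v
  have ht0 : ∀ v, t v ≠ 0 := fun v => ne_zero_of_ord_ne_zero v (by rw [ht v]; omega)
  -- the bound `M`
  set M : ℕ := ∑ v ∈ S, e v + ∑ v ∈ S, ∑ w ∈ S, e w * (v.ord (t w)).natAbs with hM
  have hMbound : ∀ v ∈ S, ∀ w ∈ S, e v + e w * (v.ord (t w)).natAbs ≤ M := by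
    intro v hv w hw
    have h1 : e v ≤ ∑ v ∈ S, e v := Finset.single_le_sum (fun _ _ => Nat.zero_le _) hv
    have h2 : e w * (v.ord (t w)).natAbs ≤ ∑ w ∈ S, e w * (v.ord (t w)).natAbs :=
      Finset.single_le_sum (f := fun w => e w * (v.ord (t w)).natAbs)
        (fun _ _ => Nat.zero_le _) hw
    have h3 : ∑ w ∈ S, e w * (v.ord (t w)).natAbs
        ≤ ∑ v ∈ S, ∑ w ∈ S, e w * (v.ord (t w)).natAbs :=
      Finset.single_le_sum (f := fun v => ∑ w ∈ S, e w * (v.ord (t w)).natAbs)
        (fun _ _ => Nat.zero_le _) hv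
    omega
  -- approximating units
  choose s hs0 hsv hsw using fun w : Place K F =>
    exists_unit_zeros w (S.erase w) (Finset.notMem_erase w S) M
  -- the family
  let I := Σ v : S, Fin (e v)
  let b : I → F := fun i => t i.1 ^ (i.2 : ℕ) * s i.1
  have hb0 : ∀ i, b i ≠ 0 := fun i => mul_ne_zero (pow_ne_zero _ (ht0 _)) (hs0 _)
  -- orders of the family
  have hb_self : ∀ (i : I) (v : Place K F), v = i.1 → v.ord (b i) = ((i.2 : ℕ) : ℤ) := by
    rintro i v rfl
    show (i.1 : Place K F).ord (t i.1 ^ (i.2 : ℕ) * s i.1) = _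
    rw [Place.ord_mul _ (pow_ne_zero _ (ht0 _)) (hs0 _), ord_pow, ht, hsv]
    simp
  have hb_other : ∀ (i : I) (v : Place K F), v ∈ S → v ≠ i.1 → (e v : ℤ) ≤ v.ord (b i) := by
    intro i v hv hne
    show (e v : ℤ) ≤ v.ord (t i.1 ^ (i.2 : ℕ) * s i.1)
    rw [Place.ord_mul _ (pow_ne_zero _ (ht0 _)) (hs0 _), ord_pow]
    have h1 : (M : ℤ) ≤ v.ord (s i.1) :=
      hsw i.1 v (Finset.mem_erase.mpr ⟨hne, hv⟩)
    have h2 := hMbound v hv i.1 i.1.2
    have h3 : ((i.2 : ℕ) : ℤ) < e i.1 := by exact_mod_cast i.2.2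
    have h4 : -(((v.ord (t i.1)).natAbs : ℕ) : ℤ) ≤ v.ord (t i.1) := by
      rw [Int.natCast_natAbs]; exact neg_abs_le _
    have h5 : -((e i.1 : ℤ) * ((v.ord (t i.1)).natAbs : ℤ)) ≤ ((i.2 : ℕ) : ℤ) * v.ord (t i.1) := by
      have h6 : (0 : ℤ) ≤ ((i.2 : ℕ) : ℤ) := Int.natCast_nonneg _
      have h7 : (0 : ℤ) ≤ ((v.ord (t i.1)).natAbs : ℤ) := Int.natCast_nonneg _
      nlinarith
    have h2' : (e v : ℤ) + (e i.1 : ℤ) * ((v.ord (t i.1)).natAbs : ℤ) ≤ M := by
      exact_mod_cast h2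
    omega
  -- linear independence over `K(x)`
  have hli : LinearIndependent (IntermediateField.adjoin K {x}) b := by
    rw [Fintype.linearIndependent_iff]
    intro g hg
    by_contra hcon
    simp only [not_forall] at hcon
    obtain ⟨j, hj⟩ := hcon
    -- orders of the coefficients
    have hn : ∀ i : I, ∃ n : ℤ, g i ≠ 0 →
        ∀ v : Place K F, 0 < v.ord x → v.ord ((g i : F)) = n * v.ord x := by
      intro i
      by_cases hgi : g i = 0
      · exact ⟨0, fun h => absurd hgi h⟩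
      · obtain ⟨n, hn⟩ := exists_ord_eq_mul (g i) hgi
        exact ⟨n, fun _ => hn⟩
    choose n hn using hn
    set E : ℤ := ∑ v ∈ S, (e v : ℤ) with hE
    have hE_ge : ∀ v ∈ S, (e v : ℤ) ≤ E := fun v hv =>
      Finset.single_le_sum (f := fun v => (e v : ℤ)) (fun _ _ => Int.natCast_nonneg _) hv
    let T : Finset I := Finset.univ.filter fun i => g i ≠ 0
    have hT : T.Nonempty := ⟨j, by simp [T, hj]⟩
    obtain ⟨i₀, hi₀T, hmin⟩ := T.exists_min_image (fun i => n i * E + ((i.2 : ℕ) : ℤ)) hT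
    have hgi₀ : g i₀ ≠ 0 := by simpa [T] using hi₀T
    set v₀ : Place K F := i₀.1.1 with hv₀
    have hv₀S : v₀ ∈ S := i₀.1.2
    have hv₀x : 0 < v₀.ord x := hS v₀ hv₀S
    have ha₀ : ((i₀.2 : ℕ) : ℤ) < e v₀ := by exact_mod_cast i₀.2.2
    have he₀ : (e v₀ : ℤ) = v₀.ord x := he_cast v₀ hv₀S
    let y : I → F := fun i => (g i : F) * b i
    have hy : ∀ i, g i • b i = y i := fun i => by
      show g i • b i = (g i : F) * b i
      rw [Algebra.smul_def]; rfl
    have hgF : ∀ i, g i ≠ 0 → (g i : F) ≠ 0 := fun i h => by simpa using h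
    have hy₀ : y i₀ ≠ 0 := mul_ne_zero (hgF i₀ hgi₀) (hb0 i₀)
    have hord₀ : v₀.ord (y i₀) = n i₀ * v₀.ord x + ((i₀.2 : ℕ) : ℤ) := by
      show v₀.ord ((g i₀ : F) * b i₀) = _
      rw [v₀.ord_mul (hgF i₀ hgi₀) (hb0 i₀), hn i₀ hgi₀ v₀ hv₀x, hb_self i₀ v₀ rfl]
    have hothers : ∀ i ∈ Finset.univ.erase i₀, y i = 0 ∨ v₀.ord (y i₀) < v₀.ord (y i) := by
      intro i hi
      have hne : i ≠ i₀ := Finset.ne_of_mem_erase hi
      by_cases hgi : g i = 0
      · left; show (g i : F) * b i = 0; rw [hgi]; simp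
      right
      have hiT : i ∈ T := by simp [T, hgi]
      have hmin_i := hmin i hiT
      have hai : ((i.2 : ℕ) : ℤ) < e i.1 := by exact_mod_cast i.2.2
      have hai0 : (0 : ℤ) ≤ ((i.2 : ℕ) : ℤ) := Int.natCast_nonneg _
      have ha₀0 : (0 : ℤ) ≤ ((i₀.2 : ℕ) : ℤ) := Int.natCast_nonneg _
      have hEi : (e i.1 : ℤ) ≤ E := hE_ge i.1 i.1.2
      have hE₀ : (e v₀ : ℤ) ≤ E := hE_ge v₀ hv₀S
      -- `n i ≥ n i₀`
      have hnge : n i₀ ≤ n i := by
        by_contra hlt
        have hlt' : n i + 1 ≤ n i₀ := by omega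
        have : (n i + 1) * E ≤ n i₀ * E :=
          mul_le_mul_of_nonneg_right hlt' (by linarith)
        nlinarith
      have hordi : v₀.ord (y i) = n i * v₀.ord x + v₀.ord (b i) := by
        show v₀.ord ((g i : F) * b i) = _
        rw [v₀.ord_mul (hgF i hgi) (hb0 i), hn i hgi v₀ hv₀x]
      rw [hord₀, hordi]
      by_cases hvi : (i.1 : Place K F) = v₀
      · -- same place
        have hbi : v₀.ord (b i) = ((i.2 : ℕ) : ℤ) := hb_self i v₀ hvi.symm
        rw [hbi]
        rcases hnge.lt_or_eq with hlt | heq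
        · have hlt' : n i₀ + 1 ≤ n i := by omega
          have : (n i₀ + 1) * v₀.ord x ≤ n i * v₀.ord x :=
            mul_le_mul_of_nonneg_right hlt' hv₀x.le
          nlinarith
        · have h1 : ((i₀.2 : ℕ) : ℤ) ≤ ((i.2 : ℕ) : ℤ) := by
            rw [heq] at hmin_i; linarith
          have h2 : ((i₀.2 : ℕ) : ℤ) ≠ ((i.2 : ℕ) : ℤ) := by
            intro h
            apply hne
            have h3 : (i.2 : ℕ) = (i₀.2 : ℕ) := by exact_mod_cast h.symm
            have h4 : i.1 = i₀.1 := Subtype.ext hvi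
            obtain ⟨iv, ia⟩ := i
            obtain ⟨jv, ja⟩ := i₀
            simp only at h4 h3
            subst h4
            congr 1
            exact Fin.ext h3
          rw [heq]
          omega
      · -- different place
        have hbi : (e v₀ : ℤ) ≤ v₀.ord (b i) := hb_other i v₀ hv₀S (fun h => hvi h.symm)
        have : n i₀ * v₀.ord x ≤ n i * v₀.ord x :=
          mul_le_mul_of_nonneg_right hnge hv₀x.le
        omega
    have hsum : y i₀ + ∑ i ∈ Finset.univ.erase i₀, y i = 0 := by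
      rw [Finset.add_sum_erase _ _ (Finset.mem_univ i₀)]
      simpa [hy] using hg
    rcases ord_sum_gt v₀ (Finset.univ.erase i₀) y (v₀.ord (y i₀)) hothers with h0 | hgt
    · rw [h0, add_zero] at hsum; exact hy₀ hsum
    · have : ∑ i ∈ Finset.univ.erase i₀, y i = -y i₀ := by
        rw [← sub_eq_zero, sub_neg_eq_add, add_comm]; exact hsum
      rw [this, ord_neg] at hgt
      exact lt_irrefl _ hgt
  have hcard := hli.fintype_card_le_finrank
  have hcardI : Fintype.card I = ∑ v ∈ S, e v := by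
    simp only [I, Fintype.card_sigma, Fintype.card_fin]
    exact Finset.sum_coe_sort S e
  rw [hcardI] at hcard
  have hsum : ∑ v ∈ S, v.ord x = ((∑ v ∈ S, e v : ℕ) : ℤ) := by
    push_cast
    exact Finset.sum_congr rfl fun v hv => (he_cast v hv).symm
  rw [hsum]
  exact_mod_cast hcard


theorem sum_ord_le_finrank_of_eq (hdeg : ∀ v : Place K F, v.deg = 1) (x : F)
    (L : IntermediateField K F) (hL : L = IntermediateField.adjoin K {x})
    [FiniteDimensional L F]
    (S : Finset (Place K F)) (hS : ∀ v ∈ S, 0 < v.ord x) :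
    ∑ v ∈ S, v.ord x ≤ (Module.finrank L F : ℤ) := by
  subst hL
  exact sum_ord_le_finrank hdeg x S hS

theorem adjoin_inv_eq (x : F) :
    IntermediateField.adjoin K {x} = IntermediateField.adjoin K {x⁻¹} := by
  apply le_antisymm
  · rw [IntermediateField.adjoin_simple_le_iff]
    have := inv_mem (IntermediateField.mem_adjoin_simple_self K x⁻¹)
    rwa [inv_inv] at this
  · rw [IntermediateField.adjoin_simple_le_iff]
    exact inv_mem (IntermediateField.mem_adjoin_simple_self K x)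

/-- **L2** (poles): the poles of `x`, counted with multiplicity, number at most `[F : K(x)]`. -/
theorem sum_neg_ord_le_finrank (hdeg : ∀ v : Place K F, v.deg = 1) (x : F)
    [FiniteDimensional (IntermediateField.adjoin K {x}) F]
    (S : Finset (Place K F)) (hS : ∀ v ∈ S, v.ord x < 0) :
    ∑ v ∈ S, -v.ord x ≤ (Module.finrank (IntermediateField.adjoin K {x}) F : ℤ) := by
  have h := sum_ord_le_finrank_of_eq hdeg x⁻¹ (IntermediateField.adjoin K {x})
    (adjoin_inv_eq x) S (fun v hv => by rw [v.ord_inv]; have := hS v hv; omega)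
  simpa [Place.ord_inv] using h

end Fermat.Agent.Lib.RR

end
end
-- ===== PACK-END Lib/RR/Zeros.lean

-- ===== PACK-BEGIN Lib/RR/H443/Discrete.lean
section




/-!
# RR bridge (helper443), part 1: valuation rings of a function field are discrete

Characteristic-free.  Let `F / K` be a field extension such that `F` is finite over `K(x)` for
every transcendental `x`.  Then every valuation subring `O ≠ ⊤` of `F` containing `K` is a
principal ideal ring (Stichtenoth, Thm. 1.1.6), hence defines a `Place K F`.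
-/

set_option autoImplicit false

noncomputable section

open AlgebraicCurve Polynomial IntermediateField

namespace Fermat.Agent.Lib.RR.H443

variable {K F : Type*} [Field K] [Field F] [Algebra K F]

section Valuation

variable {Γ : Type*} [LinearOrderedCommGroupWithZero Γ] (v : Valuation F Γ)

/-- A finite sum whose nonzero terms have pairwise distinct valuations vanishes only if all
terms vanish. -/
theorem eq_zero_of_sum_eq_zero {ι : Type*} (s : Finset ι) (f : ι → F)
    (hinj : ∀ i ∈ s, ∀ j ∈ s, f i ≠ 0 → f j ≠ 0 → v (f i) = v (f j) → i = j)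
    (hsum : ∑ i ∈ s, f i = 0) : ∀ i ∈ s, f i = 0 := by
  classical
  by_contra hcon
  push Not at hcon
  obtain ⟨i₁, hi₁, hfi₁⟩ := hcon
  have hne : (s.filter fun i => f i ≠ 0).Nonempty := ⟨i₁, Finset.mem_filter.mpr ⟨hi₁, hfi₁⟩⟩
  obtain ⟨i₀, hi₀, hmax⟩ := Finset.exists_max_image _ (fun i => v (f i)) hne
  rw [Finset.mem_filter] at hi₀
  have hv0 : v (f i₀) ≠ 0 := (Valuation.ne_zero_iff v).mpr hi₀.2
  have hrest : v (∑ j ∈ s.erase i₀, f j) < v (f i₀) := by
    refine Valuation.map_sum_lt v hv0 fun j hj => ?_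
    rw [Finset.mem_erase] at hj
    by_cases hfj : f j = 0
    · rw [hfj, map_zero]
      exact zero_lt_iff.mpr hv0
    · have hle := hmax j (Finset.mem_filter.mpr ⟨hj.2, hfj⟩)
      refine lt_of_le_of_ne hle fun heq => hj.1 ?_
      exact hinj j hj.2 i₀ hi₀.1 hfj hi₀.2 heq
  have htot : v (∑ j ∈ s, f j) = v (f i₀) := by
    rw [← Finset.add_sum_erase s f hi₀.1]
    exact Valuation.map_add_eq_of_lt_left v hrest
  rw [hsum, map_zero] at htot
  exact hv0 htot.symm

variable (hK : ∀ a : K, a ≠ 0 → v (algebraMap K F a) = 1)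

include hK in
theorem v_algebraMap_le_one (a : K) : v (algebraMap K F a) ≤ 1 := by
  rcases eq_or_ne a 0 with rfl | ha
  · simp
  · exact (hK a ha).le

include hK in
theorem v_aeval_le_one {x : F} (hx : v x ≤ 1) (p : K[X]) : v (aeval x p) ≤ 1 := by
  rw [aeval_eq_sum_range]
  refine Valuation.map_sum_le v fun i _ => ?_
  rw [Algebra.smul_def, map_mul, map_pow]
  exact mul_le_one' (v_algebraMap_le_one v hK _) (pow_le_one' hx i)

include hK in
/-- `v (p(x)) = 1` when `p(0) ≠ 0` and `v x < 1`. -/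
theorem v_aeval_eq_one {x : F} (hx : v x < 1) (p : K[X]) (hp : p.coeff 0 ≠ 0) :
    v (aeval x p) = 1 := by
  have hdecomp : aeval x p = algebraMap K F (p.coeff 0) + x * aeval x p.divX := by
    have := congrArg (aeval x) (Polynomial.divX_mul_X_add p)
    simp only [map_add, map_mul, aeval_X, aeval_C] at this
    rw [← this]
    ring
  rw [hdecomp]
  have h1 : v (x * aeval x p.divX) < v (algebraMap K F (p.coeff 0)) := by
    rw [hK _ hp, map_mul]
    calc v x * v (aeval x p.divX) ≤ v x * 1 :=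
          mul_le_mul' le_rfl (v_aeval_le_one v hK hx.le _)
      _ = v x := mul_one _
      _ < 1 := hx
  rw [Valuation.map_add_eq_of_lt_left v h1, hK _ hp]

include hK in
/-- `v (p(x)) = v(x) ^ ord₀ p` for `p ≠ 0`, when `v x < 1`. -/
theorem v_aeval {x : F} (hx : v x < 1) (p : K[X]) (hp : p ≠ 0) :
    v (aeval x p) = v x ^ p.rootMultiplicity 0 := by
  obtain ⟨q, hq, hndvd⟩ := Polynomial.exists_eq_pow_rootMultiplicity_mul_and_not_dvd p hp 0
  have hq0 : q.coeff 0 ≠ 0 := by
    intro h0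
    apply hndvd
    rw [map_zero, sub_zero]
    exact Polynomial.X_dvd_iff.mpr h0
  conv_lhs => rw [hq]
  rw [map_zero, sub_zero, map_mul, map_pow, aeval_X, map_mul, map_pow,
    v_aeval_eq_one v hK hx q hq0, mul_one]

include hK in
/-- **Chain lemma** (Stichtenoth 1.1.6 (a)). -/
theorem chain_le_finrank {x : F} (hx0 : x ≠ 0) (hx : v x < 1) [FiniteDimensional K⟮x⟯ F]
    {m : ℕ} (y : Fin m → F) (hy1 : ∀ i, v (y i) < 1) (hyx : ∀ i, v x ≤ v (y i))
    (hmono : StrictMono fun i => v (y i)) :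
    m ≤ Module.finrank K⟮x⟯ F := by
  classical
  have hvx0 : v x ≠ 0 := (Valuation.ne_zero_iff v).mpr hx0
  have hy0 : ∀ i, y i ≠ 0 := fun i h => by
    have := hyx i
    rw [h, map_zero] at this
    exact hvx0 (le_antisymm this zero_le)
  open scoped IntermediateField.algebraAdjoinAdjoin in
  have hli : LinearIndependent K⟮x⟯ y := by
    rw [← LinearIndependent.iff_fractionRing (R := Algebra.adjoin K {x}) (K := K⟮x⟯)]
    rw [Fintype.linearIndependent_iff]
    intro c hc i
    -- choose polynomials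
    have hex : ∀ j, ∃ p : K[X], aeval x p = (c j : F) := fun j => by
      have : (c j : F) ∈ (aeval x : K[X] →ₐ[K] F).range := by
        rw [← Algebra.adjoin_singleton_eq_range_aeval]
        exact (c j).2
      exact this
    choose p hp using hex
    have hsum : ∑ j ∈ Finset.univ, aeval x (p j) * y j = 0 := by
      rw [← hc]
      refine Finset.sum_congr rfl fun j _ => ?_
      rw [hp j]
      rfl
    have hval : ∀ j, aeval x (p j) * y j ≠ 0 →
        v (aeval x (p j) * y j) = v x ^ (p j).rootMultiplicity 0 * v (y j) := by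
      intro j hj
      have hpj : p j ≠ 0 := by
        rintro h
        rw [h, map_zero, zero_mul] at hj
        exact hj rfl
      rw [map_mul, v_aeval v hK hx (p j) hpj]
    have key := eq_zero_of_sum_eq_zero v Finset.univ (fun j => aeval x (p j) * y j) (by
      intro i _ j _ hi hj heq
      rw [hval i hi, hval j hj] at heq
      -- wlog on the multiplicities
      have aux : ∀ (a b : ℕ) (i j : Fin m), a ≤ b →
          v x ^ a * v (y i) = v x ^ b * v (y j) → i = j := by
        intro a b i j hab h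
        obtain ⟨d, rfl⟩ := Nat.exists_eq_add_of_le hab
        rw [pow_add, mul_assoc] at h
        have hpa : v x ^ a ≠ 0 := pow_ne_zero _ hvx0
        have h' : v (y i) = v x ^ d * v (y j) := mul_left_cancel₀ hpa h
        rcases Nat.eq_zero_or_pos d with rfl | hd
        · rw [pow_zero, one_mul] at h'
          exact hmono.injective h'
        · exfalso
          have h1 : v x ^ d ≤ v x := by
            calc v x ^ d = v x ^ (d - 1 + 1) := by rw [Nat.sub_add_cancel hd]
              _ = v x ^ (d - 1) * v x := pow_succ _ _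
              _ ≤ 1 * v x := mul_le_mul' (pow_le_one' hx.le _) le_rfl
              _ = v x := one_mul _
          have h2 : v x ^ d * v (y j) < v x := by
            calc v x ^ d * v (y j) ≤ v x * v (y j) := mul_le_mul' h1 le_rfl
              _ < v x * 1 := by
                  exact mul_lt_mul_of_pos_left (hy1 j) (zero_lt_iff.mpr hvx0)
              _ = v x := mul_one _
          have h3 := hyx i
          rw [h'] at h3
          exact absurd h2 (not_lt.mpr h3)
      rcases le_total ((p i).rootMultiplicity 0) ((p j).rootMultiplicity 0) with h | h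
      · exact aux _ _ i j h heq
      · exact (aux _ _ j i h heq.symm).symm) hsum
    have hi := key i (Finset.mem_univ i)
    have : aeval x (p i) = 0 := (mul_eq_zero.mp hi).resolve_right (hy0 i)
    apply Subtype.ext
    rw [← hp i, this]
    rfl
  simpa using hli.fintype_card_le_finrank

end Valuation

section ValuationSubring

variable (O : ValuationSubring F)

/-- The valuation of a valuation subring containing `K` is trivial on `Kˣ`. -/
theorem valuation_algebraMap_eq_one (hK : ∀ a : K, algebraMap K F a ∈ O) (a : K) (ha : a ≠ 0) :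
    O.valuation (algebraMap K F a) = 1 := by
  have h1 : O.valuation (algebraMap K F a) ≤ 1 := (O.valuation_le_one_iff _).mpr (hK a)
  have h2 : O.valuation (algebraMap K F a⁻¹) ≤ 1 := (O.valuation_le_one_iff _).mpr (hK a⁻¹)
  have hne : algebraMap K F a ≠ 0 := (map_ne_zero (algebraMap K F)).mpr ha
  have hv0 : O.valuation (algebraMap K F a) ≠ 0 := (Valuation.ne_zero_iff _).mpr hne
  have hprod : O.valuation (algebraMap K F a) * O.valuation (algebraMap K F a⁻¹) = 1 := by
    rw [← map_mul, ← map_mul, mul_inv_cancel₀ ha, map_one, map_one]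
  have h3 : 1 ≤ O.valuation (algebraMap K F a) := by
    by_contra hlt
    rw [not_le] at hlt
    have h4 : O.valuation (algebraMap K F a) * O.valuation (algebraMap K F a⁻¹) < 1 := by
      calc O.valuation (algebraMap K F a) * O.valuation (algebraMap K F a⁻¹)
          ≤ O.valuation (algebraMap K F a) * 1 := mul_le_mul' le_rfl h2
        _ = O.valuation (algebraMap K F a) := mul_one _
        _ < 1 := hlt
    rw [hprod] at h4
    exact lt_irrefl _ h4
  exact le_antisymm h1 h3

/-- A nonzero nonunit of a valuation subring containing `K` is transcendental over `K`. -/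
theorem transcendental_of_valuation_lt_one (hK : ∀ a : K, algebraMap K F a ∈ O) {x : F}
    (hx : O.valuation x < 1) (hx0 : x ≠ 0) : Transcendental K x := by
  intro halg
  have hint : IsIntegral K x := halg.isIntegral
  have hinv : x⁻¹ ∈ Algebra.adjoin K {x} := by
    have h := IntermediateField.adjoin_simple_toSubalgebra_of_isAlgebraic halg
    have hmem' : x⁻¹ ∈ K⟮x⟯ := inv_mem (mem_adjoin_simple_self K x)
    have hmem : x⁻¹ ∈ (K⟮x⟯).toSubalgebra := hmem'
    rwa [h] at hmem
  have hxO : x ∈ O := (O.valuation_le_one_iff _).mp hx.le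
  let S : Subalgebra K F := { O.toSubring with algebraMap_mem' := hK }
  have hle : Algebra.adjoin K {x} ≤ S :=
    Algebra.adjoin_le (Set.singleton_subset_iff.mpr (show x ∈ S from hxO))
  have hinvO : x⁻¹ ∈ O := hle hinv
  have h1 : O.valuation x⁻¹ ≤ 1 := (O.valuation_le_one_iff _).mpr hinvO
  have hv0 : O.valuation x ≠ 0 := (Valuation.ne_zero_iff _).mpr hx0
  have h2 : O.valuation x * O.valuation x⁻¹ = 1 := by
    rw [← map_mul, mul_inv_cancel₀ hx0, map_one]
  have h3 : O.valuation x * O.valuation x⁻¹ < 1 := by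
    calc O.valuation x * O.valuation x⁻¹ ≤ O.valuation x * 1 := mul_le_mul' le_rfl h1
      _ = O.valuation x := mul_one _
      _ < 1 := hx
  rw [h2] at h3
  exact lt_irrefl _ h3

/-- **Stichtenoth 1.1.6**: divisibility is well-founded in a valuation ring of a function
field. -/
theorem wfDvdMonoid_of_finite (hK : ∀ a : K, algebraMap K F a ∈ O)
    (hfin : ∀ x : F, Transcendental K x → FiniteDimensional K⟮x⟯ F) : WfDvdMonoid O := by
  constructor
  rw [wellFounded_iff_isEmpty_descending_chain]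
  refine ⟨fun ⟨f, hf⟩ => ?_⟩
  set v := O.valuation with hv
  have hne : ∀ n, ((f (n + 1) : O) : F) ≠ 0 := fun n h => by
    have := (hf n).1
    exact this (Subtype.ext h)
  have hle1 : ∀ n, v (f n : F) ≤ 1 := fun n => (O.valuation_le_one_iff _).mpr (f n).2
  have hstep : ∀ n, v (f (n + 1) : F) < v (f (n + 2) : F) := by
    intro n
    obtain ⟨-, c, hc, hfc⟩ := hf (n + 1)
    have hcv : v (c : F) < 1 := by
      have : c ∈ IsLocalRing.maximalIdeal O := by
        rw [IsLocalRing.mem_maximalIdeal, mem_nonunits_iff]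
        exact hc
      exact (O.valuation_lt_one_iff c).mp this
    have h0 : v (f (n + 2) : F) ≠ 0 := (Valuation.ne_zero_iff _).mpr (hne (n + 1))
    have : (f (n + 1) : F) = (f (n + 1 + 1) : F) * (c : F) := by
      rw [hfc]; rfl
    rw [this, map_mul]
    calc v (f (n + 1 + 1) : F) * v (c : F) < v (f (n + 1 + 1) : F) * 1 :=
          mul_lt_mul_of_pos_left hcv (zero_lt_iff.mpr h0)
      _ = v (f (n + 2) : F) := mul_one _
  have hmono : StrictMono fun n : ℕ => v (f (n + 1) : F) := strictMono_nat_of_lt_succ hstep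
  have hlt1 : ∀ n, v (f (n + 1) : F) < 1 := fun n => lt_of_lt_of_le (hstep n) (hle1 _)
  set x : F := (f 1 : F) with hx
  have hx0 : x ≠ 0 := hne 0
  have hxt : Transcendental K x := transcendental_of_valuation_lt_one O hK (hlt1 0) hx0
  have := hfin x hxt
  have key := chain_le_finrank v (valuation_algebraMap_eq_one O hK) hx0 (hlt1 0)
    (m := Module.finrank K⟮x⟯ F + 1) (fun i => (f (i.1 + 1) : F)) (fun i => hlt1 _)
    (fun i => hmono.monotone (Nat.zero_le _)) (fun i j hij => hmono hij)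
  omega

/-- A valuation subring `≠ ⊤` of a function field, containing the constants, is a place. -/
def placeOfValuationSubring (hK : ∀ a : K, algebraMap K F a ∈ O) (hO : O ≠ ⊤)
    (hfin : ∀ x : F, Transcendental K x → FiniteDimensional K⟮x⟯ F) : Place K F where
  toValuationSubring := O
  algebraMap_mem' := hK
  ne_top' := hO
  isPrincipalIdealRing' := by
    have h := wfDvdMonoid_of_finite O hK hfin
    exact ((IsBezout.TFAE (R := O)).out 3 1).mp h

@[simp]
theorem placeOfValuationSubring_toValuationSubring (hK : ∀ a : K, algebraMap K F a ∈ O)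
    (hO : O ≠ ⊤) (hfin : ∀ x : F, Transcendental K x → FiniteDimensional K⟮x⟯ F) :
    (placeOfValuationSubring O hK hO hfin).toValuationSubring = O := rfl

end ValuationSubring

section Existence

variable (hfin : ∀ x : F, Transcendental K x → FiniteDimensional K⟮x⟯ F)

include hfin in
/-- Every transcendental element has a zero. -/
theorem exists_place_ord_pos {t : F} (ht : Transcendental K t) :
    ∃ v : Place K F, 0 < v.ord t := by
  have ht0 : t ≠ 0 := fun h => ht (h ▸ isAlgebraic_zero)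
  let A : Subring F := (Algebra.adjoin K {t}).toSubring
  have htA : t ∈ A := Algebra.self_mem_adjoin_singleton K t
  let I : Ideal A := Ideal.span {⟨t, htA⟩}
  have hI : I ≠ ⊤ := by
    intro h
    rw [Ideal.eq_top_iff_one, Ideal.mem_span_singleton'] at h
    obtain ⟨g, hg⟩ := h
    have hgF : (g : F) * t = 1 := congrArg Subtype.val hg
    have hgmem : (g : F) ∈ (aeval t : K[X] →ₐ[K] F).range := by
      rw [← Algebra.adjoin_singleton_eq_range_aeval]
      exact g.2
    obtain ⟨p, hp⟩ := hgmem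
    have hp' : aeval t p = (g : F) := hp
    apply ht
    refine ⟨p * X - 1, ?_, ?_⟩
    · intro h0
      have := congrArg (fun q => Polynomial.coeff q 0) h0
      simp at this
    · simp [hp', hgF]
  obtain ⟨B, hAB, hIB⟩ := Ideal.image_subset_nonunits_valuationSubring I hI
  have hK : ∀ a : K, algebraMap K F a ∈ B := fun a =>
    hAB ((Algebra.adjoin K {t}).algebraMap_mem a)
  have htB : t ∈ B.nonunits := hIB ⟨⟨t, htA⟩, Ideal.subset_span rfl, rfl⟩
  have htv : B.valuation t < 1 := (B.mem_nonunits_iff).mp htB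
  have hB : B ≠ ⊤ := by
    intro h
    have h1 : t⁻¹ ∈ B := h ▸ ValuationSubring.mem_top _
    have h2 : B.valuation t⁻¹ ≤ 1 := (B.valuation_le_one_iff _).mpr h1
    have h3 : B.valuation t * B.valuation t⁻¹ = 1 := by
      rw [← map_mul, mul_inv_cancel₀ ht0, map_one]
    have h4 : B.valuation t * B.valuation t⁻¹ < 1 := by
      calc B.valuation t * B.valuation t⁻¹ ≤ B.valuation t * 1 := mul_le_mul' le_rfl h2
        _ = B.valuation t := mul_one _
        _ < 1 := htv
    rw [h3] at h4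
    exact lt_irrefl _ h4
  refine ⟨placeOfValuationSubring B hK hB hfin, ?_⟩
  set v := placeOfValuationSubring B hK hB hfin with hv
  have hmem : (⟨t, (B.valuation_le_one_iff _).mp htv.le⟩ : v.toValuationSubring) ∈
      IsLocalRing.maximalIdeal v.toValuationSubring :=
    (B.valuation_lt_one_iff _).mpr htv
  rcases (mem_maximalIdeal_iff v _).mp hmem with h | h
  · exact absurd h ht0
  · exact h

include hfin in
/-- Every transcendental element has a pole. -/
theorem exists_place_ord_neg {t : F} (ht : Transcendental K t) :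
    ∃ v : Place K F, v.ord t < 0 := by
  have ht' : Transcendental K t⁻¹ := fun h => ht (by simpa using h.inv)
  obtain ⟨v, hv⟩ := exists_place_ord_pos hfin ht'
  refine ⟨v, ?_⟩
  rw [v.ord_inv] at hv
  omega

end Existence

end Fermat.Agent.Lib.RR.H443

end
end
-- ===== PACK-END Lib/RR/H443/Discrete.lean

-- ===== PACK-BEGIN Lib/RR/H443/LSpace.lean
section


/-!
# RR bridge (helper443), part 2: the spaces `L(D)` without `HasPrincipalDivisors`

Characteristic-free.  Under the hypotheses `Hyp K F` (all places have degree one, `F` is finite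
over `K(x)` for every transcendental `x`, `K` is algebraically closed in `F`) we prove
`L(0) = K`, finite-dimensionality of `L(D)` and `ℓ(D) ≤ deg D + 1` for `D ≥ 0`, *without*
assuming that principal divisors have degree zero.
-/

set_option autoImplicit false

noncomputable section

open AlgebraicCurve Polynomial IntermediateField
open Fermat.Agent.Lib.RR

namespace Fermat.Agent.Lib.RR.H443

variable {K F : Type*} [Field K] [Field F] [Algebra K F]

variable (K F) in
/-- Hypotheses of the bridge: a function field of one variable with constant field `K`, all of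
whose places have degree one. -/
structure Hyp : Prop where
  deg_eq_one : ∀ v : Place K F, v.deg = 1
  finite : ∀ x : F, Transcendental K x → FiniteDimensional K⟮x⟯ F
  const : ∀ f : F, IsAlgebraic K f → f ∈ (algebraMap K F).range

/-- Functions without poles are constant (no `HasPrincipalDivisors` needed). -/
theorem L_zero_eq (h : Hyp K F) :
    riemannRochSpace (0 : Divisor K F) = LinearMap.range (Algebra.linearMap K F) := by
  apply le_antisymm
  · intro f hf
    by_contra hcon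
    have htr : Transcendental K f := fun halg => hcon (by
      obtain ⟨c, hc⟩ := h.const f halg
      exact ⟨c, hc⟩)
    obtain ⟨v, hv⟩ := exists_place_ord_neg h.finite htr
    rcases mem_L_iff.mp hf v with h0 | h0
    · rw [h0, v.ord_zero] at hv
      exact lt_irrefl _ hv
    · simp only [Finsupp.coe_zero, Pi.zero_apply, neg_zero] at h0
      omega
  · rintro _ ⟨c, rfl⟩
    rw [mem_L_iff]
    intro v
    right
    simp [ord_algebraMap]

theorem finite_L_zero (h : Hyp K F) : Module.Finite K (riemannRochSpace (0 : Divisor K F)) := by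
  rw [L_zero_eq h]
  infer_instance

theorem ell_zero_eq (h : Hyp K F) : ell (0 : Divisor K F) = 1 := by
  unfold ell
  rw [L_zero_eq h]
  have hinj : Function.Injective (Algebra.linearMap K F) := (algebraMap K F).injective
  rw [LinearMap.finrank_range_of_inj hinj]
  exact Module.finrank_self K

theorem prim_le_of_pos {D : Divisor K F} (hD : 0 ≤ D) {v : Place K F} (hv : D v ≠ 0) :
    prim v ≤ D := by
  rw [Finsupp.le_def]
  intro w
  have hw0 : 0 ≤ D w := by simpa using Finsupp.le_def.mp hD w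
  by_cases hw : w = v
  · subst hw
    rw [prim_apply_self]
    omega
  · rw [prim_apply_of_ne hw]
    exact hw0

/-- `L(D)` is finite-dimensional of dimension `≤ deg D + 1` for effective `D`. -/
theorem finite_and_ell_le_of_nonneg (h : Hyp K F) :
    ∀ (n : ℕ) (D : Divisor K F), 0 ≤ D → Divisor.degree D ≤ n →
      Module.Finite K (riemannRochSpace D) ∧ (ell D : ℤ) ≤ Divisor.degree D + 1 := by
  intro n
  induction n with
  | zero =>
    intro D hD hdeg
    have hD0 : D = 0 := by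
      by_contra hne
      obtain ⟨v, hv⟩ := Finsupp.support_nonempty_iff.mpr hne
      rw [Finsupp.mem_support_iff] at hv
      have := degree_mono (prim_le_of_pos hD hv)
      rw [degree_prim v (h.deg_eq_one v)] at this
      push_cast at hdeg
      omega
    subst hD0
    refine ⟨finite_L_zero h, ?_⟩
    rw [ell_zero_eq h, map_zero]
    norm_num
  | succ n ih =>
    intro D hD hdeg
    by_cases hD0 : D = 0
    · subst hD0
      refine ⟨finite_L_zero h, ?_⟩
      rw [ell_zero_eq h, map_zero]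
      norm_num
    obtain ⟨v, hv⟩ := Finsupp.support_nonempty_iff.mpr hD0
    rw [Finsupp.mem_support_iff] at hv
    have hle := prim_le_of_pos hD hv
    have hD' : 0 ≤ D - prim v := sub_nonneg.mpr hle
    have hdeg' : Divisor.degree (D - prim v) ≤ n := by
      rw [map_sub, degree_prim v (h.deg_eq_one v)]
      push_cast at hdeg
      omega
    obtain ⟨hfin, hell⟩ := ih (D - prim v) hD' hdeg'
    have := L_add_prim_finite v (h.deg_eq_one v) (D - prim v)
    rw [sub_add_cancel] at this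
    refine ⟨this.1, ?_⟩
    have h2 := this.2
    rw [map_sub, degree_prim v (h.deg_eq_one v)] at hell
    have h3 : (ell D : ℤ) ≤ (ell (D - prim v) : ℤ) + 1 := by exact_mod_cast h2
    omega

theorem finite_L_of_nonneg (h : Hyp K F) {D : Divisor K F} (hD : 0 ≤ D) :
    Module.Finite K (riemannRochSpace D) :=
  (finite_and_ell_le_of_nonneg h (Divisor.degree D).toNat D hD (Int.self_le_toNat _)).1

theorem ell_le_of_nonneg (h : Hyp K F) {D : Divisor K F} (hD : 0 ≤ D) :
    (ell D : ℤ) ≤ Divisor.degree D + 1 :=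
  (finite_and_ell_le_of_nonneg h (Divisor.degree D).toNat D hD (Int.self_le_toNat _)).2

/-- `L(D)` is finite-dimensional for every divisor `D`. -/
theorem finite_L (h : Hyp K F) (D : Divisor K F) : Module.Finite K (riemannRochSpace D) := by
  have hle : D ≤ D ⊔ 0 := le_sup_left
  have hfin := finite_L_of_nonneg h (D := D ⊔ 0) le_sup_right
  exact Submodule.finiteDimensional_of_le (L_mono hle)

end Fermat.Agent.Lib.RR.H443

end
end
-- ===== PACK-END Lib/RR/H443/LSpace.lean

-- ===== PACK-BEGIN Lib/RR/H443/Degree.lean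
section


/-!
# RR bridge (helper443), part 3: `deg (x)_∞ = [F : K(x)]` and `HasPrincipalDivisors`

Characteristic-free.  From `Hyp K F` and the bound `ZerosBound K F` (layer L2 of the RR library:
zeros of `x` counted with multiplicity are at most `[F : K(x)]`) we deduce

* finiteness of the zeros and poles of every function;
* `[F : K(x)] ≤ deg (x)_∞` (Stichtenoth 1.4.11), hence equality;
* every principal divisor has degree `0`, i.e. `HasPrincipalDivisors K F`, and `FF1 K F`.
-/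

set_option autoImplicit false

noncomputable section

open AlgebraicCurve Polynomial IntermediateField
open Fermat.Agent.Lib.RR

namespace Fermat.Agent.Lib.RR.H443

variable {K F : Type*} [Field K] [Field F] [Algebra K F]

variable (K F) in
/-- The statement of layer L2 of the RR library. -/
def ZerosBound : Prop :=
  ∀ (x : F) [FiniteDimensional K⟮x⟯ F] (S : Finset (Place K F)), (∀ v ∈ S, 0 < v.ord x) →
    ∑ v ∈ S, v.ord x ≤ (Module.finrank K⟮x⟯ F : ℤ)

/-! ### Finiteness of zeros and poles -/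

theorem finite_zeros_of_finite (hZ : ZerosBound K F) (x : F) [FiniteDimensional K⟮x⟯ F] :
    {v : Place K F | 0 < v.ord x}.Finite := by
  by_contra hinf
  have hinf' : {v : Place K F | 0 < v.ord x}.Infinite := hinf
  obtain ⟨S, hS, hcard⟩ := hinf'.exists_subset_card_eq (Module.finrank K⟮x⟯ F + 1)
  have h1 := hZ x S (fun v hv => hS hv)
  have h2 : (S.card : ℤ) ≤ ∑ v ∈ S, v.ord x := by
    have : ∑ _v ∈ S, (1 : ℤ) ≤ ∑ v ∈ S, v.ord x :=
      Finset.sum_le_sum fun v hv => by
        have : 0 < v.ord x := hS hv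
        omega
    simpa using this
  rw [hcard] at h2
  push_cast at h2
  omega

theorem transcendental_inv {f : F} (hf : Transcendental K f) : Transcendental K f⁻¹ :=
  fun h => hf (by simpa using h.inv)

theorem adjoin_inv_eq (f : F) : K⟮f⁻¹⟯ = K⟮f⟯ := by
  apply le_antisymm
  · rw [adjoin_simple_le_iff]
    exact inv_mem (mem_adjoin_simple_self K f)
  · rw [adjoin_simple_le_iff]
    have h2 : (f⁻¹)⁻¹ ∈ K⟮f⁻¹⟯ := inv_mem (mem_adjoin_simple_self K f⁻¹)
    rwa [inv_inv] at h2

theorem finrank_adjoin_inv (f : F) : Module.finrank K⟮f⁻¹⟯ F = Module.finrank K⟮f⟯ F :=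
  congrArg (fun E : IntermediateField K F => Module.finrank E F) (_root_.Fermat.Agent.Lib.RR.H443.adjoin_inv_eq f)

theorem ord_eq_zero_of_isAlgebraic (h : Hyp K F) {f : F} (hf : IsAlgebraic K f)
    (v : Place K F) : v.ord f = 0 := by
  obtain ⟨c, rfl⟩ := h.const f hf
  exact ord_algebraMap v c

theorem finite_zeros (h : Hyp K F) (hZ : ZerosBound K F) (f : F) :
    {v : Place K F | 0 < v.ord f}.Finite := by
  by_cases hf : Transcendental K f
  · have := h.finite f hf
    exact finite_zeros_of_finite hZ f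
  · have hf' : IsAlgebraic K f := by
      by_contra hna
      exact hf hna
    have : {v : Place K F | 0 < v.ord f} = ∅ := by
      ext v
      simp [ord_eq_zero_of_isAlgebraic h hf' v]
    rw [this]
    exact Set.finite_empty

theorem finite_poles (h : Hyp K F) (hZ : ZerosBound K F) (f : F) :
    {v : Place K F | v.ord f < 0}.Finite := by
  refine (finite_zeros h hZ f⁻¹).subset fun v hv => ?_
  have hv' : v.ord f < 0 := hv
  show 0 < v.ord f⁻¹
  rw [v.ord_inv]
  omega

/-! ### The pole divisor -/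

/-- The pole divisor `(f)_∞`. -/
def poleDiv (h : Hyp K F) (hZ : ZerosBound K F) (f : F) : Divisor K F :=
  Finsupp.ofSupportFinite (fun v => max 0 (-v.ord f)) <| by
    refine (finite_poles h hZ f).subset fun v hv => ?_
    have hv' : max 0 (-v.ord f) ≠ 0 := hv
    show v.ord f < 0
    by_contra hcon
    apply hv'
    rw [max_eq_left]
    omega

@[simp]
theorem poleDiv_apply (h : Hyp K F) (hZ : ZerosBound K F) (f : F) (v : Place K F) :
    poleDiv h hZ f v = max 0 (-v.ord f) := rfl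

theorem poleDiv_nonneg (h : Hyp K F) (hZ : ZerosBound K F) (f : F) : 0 ≤ poleDiv h hZ f := by
  rw [Finsupp.le_def]
  intro v
  simp

theorem mem_support_poleDiv (h : Hyp K F) (hZ : ZerosBound K F) (f : F) (v : Place K F) :
    v ∈ (poleDiv h hZ f).support ↔ v.ord f < 0 := by
  rw [Finsupp.mem_support_iff, poleDiv_apply]
  constructor
  · intro hne
    by_contra hcon
    apply hne
    rw [max_eq_left]
    omega
  · intro hlt
    rw [max_eq_right (by omega)]
    omega

theorem degree_poleDiv (h : Hyp K F) (hZ : ZerosBound K F) (f : F) :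
    Divisor.degree (poleDiv h hZ f) = ∑ v ∈ (poleDiv h hZ f).support, v.ord f⁻¹ := by
  rw [degree_eq_sum]
  refine Finset.sum_congr rfl fun v hv => ?_
  rw [mem_support_poleDiv] at hv
  rw [h.deg_eq_one v, poleDiv_apply, v.ord_inv, max_eq_right (by omega)]
  simp

/-- `deg (x)_∞ ≤ [F : K(x)]`, from the zeros bound applied to `x⁻¹`. -/
theorem degree_poleDiv_le (h : Hyp K F) (hZ : ZerosBound K F) {x : F}
    (hx : Transcendental K x) :
    Divisor.degree (poleDiv h hZ x) ≤ (@Module.finrank K⟮x⟯ F _ _ _ : ℤ) := by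
  have := h.finite x⁻¹ (transcendental_inv hx)
  rw [degree_poleDiv, ← finrank_adjoin_inv x]
  refine hZ x⁻¹ _ fun v hv => ?_
  rw [mem_support_poleDiv] at hv
  rw [v.ord_inv]
  omega

/-! ### The lower bound -/

theorem linearIndependent_pow_of_transcendental {A : Type*} [Ring A] [Algebra K A] {a : A}
    (ha : Transcendental K a) (l : ℕ) :
    LinearIndependent K fun i : Fin (l + 1) => a ^ (i : ℕ) := by
  rw [Fintype.linearIndependent_iff]
  intro g hg i
  have hinj := transcendental_iff_injective.mp ha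
  have hp : aeval a (∑ i : Fin (l + 1), Polynomial.monomial (i : ℕ) (g i)) = 0 := by
    rw [map_sum]
    simp_rw [aeval_monomial, ← Algebra.smul_def]
    exact hg
  have hp0 : (∑ i : Fin (l + 1), Polynomial.monomial (i : ℕ) (g i)) = 0 :=
    hinj (by rw [hp, map_zero])
  have := congrArg (fun q : K[X] => q.coeff (i : ℕ)) hp0
  simp only [Polynomial.finsetSum_coeff, Polynomial.coeff_monomial, Polynomial.coeff_zero] at this
  rw [Finset.sum_eq_single i] at this
  · simpa using this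
  · intro j _ hji
    rw [if_neg]
    exact fun h => hji (Fin.ext h)
  · intro hi
    exact absurd (Finset.mem_univ i) hi

set_option maxHeartbeats 800000 in
/-- The products `x ^ i * b j` (`i ≤ l`, `b` a `K(x)`-basis of `F`) are `K`-linearly
independent. -/
theorem linearIndependent_pow_mul_basis {x : F} (hx : Transcendental K x)
    [FiniteDimensional K⟮x⟯ F] (l : ℕ) :
    LinearIndependent K fun p : Fin (l + 1) × Fin (Module.finrank K⟮x⟯ F) =>
      x ^ (p.1 : ℕ) * (Module.finBasis K⟮x⟯ F p.2 : F) := by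
  have hgen : Transcendental K (AdjoinSimple.gen K x) := by
    rw [← transcendental_algebraMap_iff (algebraMap K⟮x⟯ F).injective]
    exact hx
  have h1 := linearIndependent_pow_of_transcendental hgen l
  have h2 := (Module.finBasis K⟮x⟯ F).linearIndependent
  have h3 := linearIndependent_smul h1 h2
  convert h3 using 2 with p
  rw [Algebra.smul_def]
  simp

/-- `[F : K(x)] ≤ deg (x)_∞` (Stichtenoth, Thm. 1.4.11). -/
theorem finrank_le_degree_poleDiv (h : Hyp K F) (hZ : ZerosBound K F) {x : F}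
    (hx : Transcendental K x) :
    (@Module.finrank K⟮x⟯ F _ _ _ : ℤ) ≤ Divisor.degree (poleDiv h hZ x) := by
  classical
  have hfinx := h.finite x hx
  set n := Module.finrank K⟮x⟯ F with hn
  set B := poleDiv h hZ x with hB
  set C : Divisor K F := ∑ j : Fin n, poleDiv h hZ (Module.finBasis K⟮x⟯ F j : F) with hC
  have hB0 : 0 ≤ B := poleDiv_nonneg h hZ x
  have hC0 : 0 ≤ C := Finset.sum_nonneg fun j _ => poleDiv_nonneg h hZ _
  have hx0 : x ≠ 0 := fun h0 => hx (h0 ▸ isAlgebraic_zero)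
  -- the key inequality for every `l`
  have key : ∀ l : ℕ, ((l + 1) * n : ℤ) ≤ l * Divisor.degree B + Divisor.degree C + 1 := by
    intro l
    have hD0 : 0 ≤ l • B + C := add_nonneg (nsmul_nonneg hB0 l) hC0
    have hfin := finite_L_of_nonneg h hD0
    have hell := ell_le_of_nonneg h hD0
    have hli := linearIndependent_pow_mul_basis hx l
    have hmem : ∀ p : Fin (l + 1) × Fin n,
        x ^ (p.1 : ℕ) * (Module.finBasis K⟮x⟯ F p.2 : F) ∈ riemannRochSpace (l • B + C) := by
      rintro ⟨i, j⟩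
      rw [mem_L_iff]
      intro v
      right
      have hbj : (Module.finBasis K⟮x⟯ F j : F) ≠ 0 := (Module.finBasis K⟮x⟯ F).ne_zero j
      rw [v.ord_mul (pow_ne_zero _ hx0) hbj, ord_pow]
      have hBv : B v = max 0 (-v.ord x) := rfl
      have hCv : max 0 (-v.ord (Module.finBasis K⟮x⟯ F j : F)) ≤ C v := by
        rw [hC, Finsupp.finsetSum_apply]
        have : poleDiv h hZ (Module.finBasis K⟮x⟯ F j : F) v ≤
            ∑ j' : Fin n, poleDiv h hZ (Module.finBasis K⟮x⟯ F j' : F) v :=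
          Finset.single_le_sum
            (f := fun j' => poleDiv h hZ (Module.finBasis K⟮x⟯ F j' : F) v)
            (fun j' _ => by simp) (Finset.mem_univ j)
        simpa using this
      have hi : (i : ℕ) ≤ l := Nat.lt_succ_iff.mp i.2
      have hval : (l • B + C) v = (l : ℤ) * B v + C v := by
        rw [Finsupp.add_apply, Finsupp.smul_apply, nsmul_eq_mul]
      rw [hval, hBv]
      have h1 : ((i : ℕ) : ℤ) * max 0 (-v.ord x) ≤ (l : ℤ) * max 0 (-v.ord x) :=
        mul_le_mul_of_nonneg_right (by exact_mod_cast hi) (le_max_left _ _)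
      have h2 : -(((i : ℕ) : ℤ) * max 0 (-v.ord x)) ≤ ((i : ℕ) : ℤ) * v.ord x := by
        have h3 : -v.ord x ≤ max 0 (-v.ord x) := le_max_right _ _
        have h4 : (0 : ℤ) ≤ ((i : ℕ) : ℤ) := Int.natCast_nonneg _
        nlinarith
      have h5 : -v.ord (Module.finBasis K⟮x⟯ F j : F) ≤
          max 0 (-v.ord (Module.finBasis K⟮x⟯ F j : F)) := le_max_right _ _
      push_cast
      linarith
    -- count
    let g : Fin (l + 1) × Fin n → riemannRochSpace (l • B + C) := fun p => ⟨_, hmem p⟩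
    have hli' : LinearIndependent K g := by
      apply LinearIndependent.of_comp (riemannRochSpace (l • B + C)).subtype
      exact hli
    have hcard := hli'.fintype_card_le_finrank
    rw [Fintype.card_prod, Fintype.card_fin, Fintype.card_fin] at hcard
    have hdeg : Divisor.degree (l • B + C) = l * Divisor.degree B + Divisor.degree C := by
      rw [map_add, map_nsmul, nsmul_eq_mul]
    have hcard' : (((l + 1) * n : ℕ) : ℤ) ≤ (ell (l • B + C) : ℤ) := by exact_mod_cast hcard
    rw [hdeg] at hell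
    push_cast at hcard'
    linarith
  -- conclude
  by_contra hcon
  rw [not_le] at hcon
  have hdC : 0 ≤ Divisor.degree C := degree_nonneg hC0
  have hdB : 0 ≤ Divisor.degree B := degree_nonneg hB0
  have hk := key ((Divisor.degree C).toNat + 1)
  have hl : ((Divisor.degree C).toNat : ℤ) = Divisor.degree C := Int.toNat_of_nonneg hdC
  push_cast at hk
  rw [hl] at hk
  have hn1 : 0 ≤ (n : ℤ) - Divisor.degree B - 1 := by omega
  have hC2 : 0 ≤ Divisor.degree C + 2 := by omega
  nlinarith [mul_nonneg hC2 hn1]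

/-- **The degree of the pole divisor** of a transcendental `x` is `[F : K(x)]`. -/
theorem degree_poleDiv_eq (h : Hyp K F) (hZ : ZerosBound K F) {x : F}
    (hx : Transcendental K x) :
    Divisor.degree (poleDiv h hZ x) = (@Module.finrank K⟮x⟯ F _ _ _ : ℤ) :=
  le_antisymm (degree_poleDiv_le h hZ hx) (finrank_le_degree_poleDiv h hZ hx)

/-! ### Principal divisors -/

/-- The divisor of a function. -/
def divFun (h : Hyp K F) (hZ : ZerosBound K F) (f : F) : Divisor K F :=
  poleDiv h hZ f⁻¹ - poleDiv h hZ f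

theorem divFun_apply (h : Hyp K F) (hZ : ZerosBound K F) (f : F) (v : Place K F) :
    divFun h hZ f v = v.ord f := by
  simp only [divFun, Finsupp.coe_sub, Pi.sub_apply, poleDiv_apply, v.ord_inv, neg_neg]
  rcases le_total 0 (v.ord f) with h0 | h0
  · rw [max_eq_right h0, max_eq_left (by omega)]
    ring
  · rw [max_eq_left h0, max_eq_right (by omega)]
    ring

theorem degree_divFun (h : Hyp K F) (hZ : ZerosBound K F) (f : F) :
    Divisor.degree (divFun h hZ f) = 0 := by
  by_cases hf : Transcendental K f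
  · rw [divFun, map_sub, degree_poleDiv_eq h hZ hf,
      degree_poleDiv_eq h hZ (transcendental_inv hf), finrank_adjoin_inv]
    ring
  · have hf' : IsAlgebraic K f := by
      by_contra hna
      exact hf hna
    have : divFun h hZ f = 0 := by
      ext v
      rw [divFun_apply, ord_eq_zero_of_isAlgebraic h hf' v]
      rfl
    rw [this, map_zero]

/-- **Principal divisors have degree zero** — in any characteristic. -/
theorem hasPrincipalDivisors (h : Hyp K F) (hZ : ZerosBound K F) : HasPrincipalDivisors K F :=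
  ⟨fun f _ => ⟨divFun h hZ f, divFun_apply h hZ f, degree_divFun h hZ f⟩⟩

/-- The bridge: the standing hypotheses `FF1` of the RR library. -/
theorem ff1_of_hyp (h : Hyp K F) (hZ : ZerosBound K F) {x : F} (hx : Transcendental K x) :
    FF1 K F where
  hpd := hasPrincipalDivisors h hZ
  deg_eq_one := h.deg_eq_one
  nonempty_place := by
    obtain ⟨v, -⟩ := exists_place_ord_pos h.finite hx
    exact ⟨v⟩
  exists_finite := ⟨x, hx, h.finite x hx⟩

/-- **Fundamental identity at the zeros**: `∑_{v(x) > 0} ord_v x = [F : K(x)]`. -/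
theorem sum_ord_zeros_eq_finrank (h : Hyp K F) (hZ : ZerosBound K F) {x : F}
    (hx : Transcendental K x) (S : Finset (Place K F)) (hS : ∀ v, v ∈ S ↔ 0 < v.ord x) :
    ∑ v ∈ S, v.ord x = (@Module.finrank K⟮x⟯ F _ _ _ : ℤ) := by
  have h1 := degree_poleDiv_eq h hZ (transcendental_inv hx)
  rw [finrank_adjoin_inv, degree_poleDiv, inv_inv] at h1
  rw [← h1]
  refine Finset.sum_congr ?_ fun _ _ => rfl
  ext v
  rw [hS, mem_support_poleDiv, v.ord_inv]
  omega

/-- **Fundamental identity at the poles**: `∑_{v(x) < 0} -ord_v x = [F : K(x)]`. -/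
theorem sum_ord_poles_eq_finrank (h : Hyp K F) (hZ : ZerosBound K F) {x : F}
    (hx : Transcendental K x) (S : Finset (Place K F)) (hS : ∀ v, v ∈ S ↔ v.ord x < 0) :
    ∑ v ∈ S, -v.ord x = (@Module.finrank K⟮x⟯ F _ _ _ : ℤ) := by
  have h1 := degree_poleDiv_eq h hZ hx
  rw [degree_poleDiv] at h1
  rw [← h1]
  refine Finset.sum_congr ?_ fun v _ => ?_
  · ext v
    rw [hS, mem_support_poleDiv]
  · rw [v.ord_inv]

end Fermat.Agent.Lib.RR.H443

end
end
-- ===== PACK-END Lib/RR/H443/Degree.lean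

-- ===== PACK-BEGIN Lib/RR/H443/Bridge.lean
section




/-!
# RR bridge (helper443), part 4: `FF1 K F` in ANY characteristic

For `K` algebraically closed (of any characteristic) and `F` a finite extension of `K(x)`, `x`
transcendental over `K`:

* `hasPrincipalDivisors_of_isAlgClosed` : `HasPrincipalDivisors K F`
  (finitely many zeros and poles, principal divisors have degree `0`);
* `ff1_of_isAlgClosed` : the standing hypotheses `FF1 K F` of the RR library;
* `sum_ord_zeros_eq_finrank'`, `sum_ord_poles_eq_finrank'` : the fundamental identity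
  `∑_{v(x) > 0} ord_v x = [F : K(x)] = ∑_{v(x) < 0} -ord_v x`;
* `exists_place_ord_pos'`, `exists_place_ord_neg'` : existence of zeros and poles.

No separability, no Dedekind domains: only valuation theory (Stichtenoth, Ch. 1).
-/

set_option autoImplicit false

noncomputable section

open AlgebraicCurve Polynomial IntermediateField
open Fermat.Agent.Lib.RR

namespace Fermat.Agent.Lib.RR.H443

variable {K F : Type*} [Field K] [Field F] [Algebra K F]

/-- Layer L2 of the RR library gives the zeros bound. -/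
theorem zerosBound (hdeg : ∀ v : Place K F, v.deg = 1) : ZerosBound K F :=
  fun x _ S hS => sum_ord_le_finrank hdeg x S hS

variable [IsAlgClosed K]

/-- The hypotheses of the bridge hold over an algebraically closed constant field. -/
theorem hyp_of_isAlgClosed {x : F} (hx : Transcendental K x) [FiniteDimensional K⟮x⟯ F] :
    Hyp K F where
  deg_eq_one := fun v => S24.FF.deg_eq_one v hx
  finite := fun _ hy => S24.FF.finiteDimensional_adjoin_of_transcendental hx hy
  const := fun _ hf => S24.FF.mem_range_of_isAlgebraic hf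

/-- **`FF1 K F` in any characteristic.** -/
theorem ff1_of_isAlgClosed {x : F} (hx : Transcendental K x) [FiniteDimensional K⟮x⟯ F] :
    FF1 K F :=
  ff1_of_hyp (hyp_of_isAlgClosed hx) (zerosBound (hyp_of_isAlgClosed hx).deg_eq_one) hx

/-- **`HasPrincipalDivisors K F` in any characteristic.** -/
theorem hasPrincipalDivisors_of_isAlgClosed {x : F} (hx : Transcendental K x)
    [FiniteDimensional K⟮x⟯ F] : HasPrincipalDivisors K F :=
  hasPrincipalDivisors (hyp_of_isAlgClosed hx) (zerosBound (hyp_of_isAlgClosed hx).deg_eq_one)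

/-- Every place has degree one. -/
theorem deg_eq_one_of_isAlgClosed {x : F} (hx : Transcendental K x) [FiniteDimensional K⟮x⟯ F]
    (v : Place K F) : v.deg = 1 :=
  S24.FF.deg_eq_one v hx

/-- Every nonconstant function has a zero. -/
theorem exists_place_ord_pos' {x : F} (hx : Transcendental K x) [FiniteDimensional K⟮x⟯ F]
    {t : F} (ht : Transcendental K t) : ∃ v : Place K F, 0 < v.ord t :=
  exists_place_ord_pos (hyp_of_isAlgClosed hx).finite ht

/-- Every nonconstant function has a pole. -/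
theorem exists_place_ord_neg' {x : F} (hx : Transcendental K x) [FiniteDimensional K⟮x⟯ F]
    {t : F} (ht : Transcendental K t) : ∃ v : Place K F, v.ord t < 0 :=
  exists_place_ord_neg (hyp_of_isAlgClosed hx).finite ht

/-- Finitely many zeros and poles. -/
theorem finite_setOf_ord_ne_zero {x : F} (hx : Transcendental K x) [FiniteDimensional K⟮x⟯ F]
    (f : F) : {v : Place K F | v.ord f ≠ 0}.Finite := by
  have h := hyp_of_isAlgClosed hx
  have hZ := zerosBound h.deg_eq_one
  refine ((finite_zeros h hZ f).union (finite_poles h hZ f)).subset fun v hv => ?_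
  have hv' : v.ord f ≠ 0 := hv
  rcases lt_or_gt_of_ne hv' with h1 | h1
  · exact Or.inr h1
  · exact Or.inl h1

/-- **Fundamental identity at the zeros** (any characteristic). -/
theorem sum_ord_zeros_eq_finrank' {x : F} (hx : Transcendental K x) [FiniteDimensional K⟮x⟯ F]
    (S : Finset (Place K F)) (hS : ∀ v, v ∈ S ↔ 0 < v.ord x) :
    ∑ v ∈ S, v.ord x = (Module.finrank K⟮x⟯ F : ℤ) :=
  sum_ord_zeros_eq_finrank (hyp_of_isAlgClosed hx)
    (zerosBound (hyp_of_isAlgClosed hx).deg_eq_one) hx S hS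

/-- **Fundamental identity at the poles** (any characteristic). -/
theorem sum_ord_poles_eq_finrank' {x : F} (hx : Transcendental K x) [FiniteDimensional K⟮x⟯ F]
    (S : Finset (Place K F)) (hS : ∀ v, v ∈ S ↔ v.ord x < 0) :
    ∑ v ∈ S, -v.ord x = (Module.finrank K⟮x⟯ F : ℤ) :=
  sum_ord_poles_eq_finrank (hyp_of_isAlgClosed hx)
    (zerosBound (hyp_of_isAlgClosed hx).deg_eq_one) hx S hS

/-- Every valuation subring `≠ ⊤` of `F` containing `K` is (the ring of) a place. -/
theorem exists_place_eq (O : ValuationSubring F) (hK : ∀ a : K, algebraMap K F a ∈ O)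
    (hO : O ≠ ⊤) {x : F} (hx : Transcendental K x) [FiniteDimensional K⟮x⟯ F] :
    ∃ v : Place K F, v.toValuationSubring = O :=
  ⟨placeOfValuationSubring O hK hO (hyp_of_isAlgClosed hx).finite, rfl⟩

end Fermat.Agent.Lib.RR.H443

end
end
-- ===== PACK-END Lib/RR/H443/Bridge.lean

-- ===== PACK-BEGIN S48/H248/IV.lean
section


/-!
# S48 / RES (Tower A1) / node IGUSA1, pieces I-V and I-TV (helper248) — SUMMARY

Setting (GENERIC): `K` a field, `A` a valuation subring of `K`, `E` a subfield of `K`, `w₀` a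
uniformiser of `A ∩ E` (`IsUnifG A E w₀`), `Ω` a field with `ι : Ω →+* K((X))` and constants
`cst : K →+* Ω` (`ι (cst c) = C c`), `F` a subfield of `Ω` containing the constants of `E`, such
that every element of `F` is a quotient of two integral series of `F` (`IsRatio`; automatic if
`F` is generated over `E` by such quotients: `isRatio_of_mem_closure`).

With `R := RcG A E cst`, `Ec := EcG E cst`, `V := VRing A E ι F`, `w := cst w₀`:

* `igusa_R_fields`  : the fields `R_le R_total w_mem w_ne_zero w_inv_not_mem w_discrete`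
                      of `H856.IgusaData` (and of `S18.Alg.GoodModel`, plus `w_gen`);
* `igusa_V_fields`  : the fields `R_le_V x_mem_V V_total w_inv_not_mem_V V_discrete gauss`
                      of `H856.IgusaData`;
* `goodModel_V_fields` : the fields `V_le V_total R_le_V w_inv_not_mem_V V_gen x_mem_V gauss`
                      of `S18.Alg.GoodModel`;
* `twist_mem_VRing_iff` (`IVGauss.lean`) : field `t_V` of `H856.IgusaData`;
* `VRing_mono`, `mem_VRing_of_mem_of_le` : `V_F = V_{F'} ∩ F` for `F ≤ F'`.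

WARNING for the owners of the full-level field: "every element of `Ffull` is a quotient of
integral series" (bounded denominators) is NOT automatic for a field of `E`-rational
`X`-expansions: `R((X))` is not integrally closed in `E((X))` (`w * sqrt (1 + X / w ^ 2)` is
integral over `R[X]`, with unbounded denominators).  It holds for `Ffull = E(j, generators)` as
soon as the generators have `X`-expansions in `(1/d) R((X))`.
-/

set_option autoImplicit false

noncomputable section

namespace Fermat.Agent.S48.H248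

open HahnSeries ModularCurve

variable {K : Type*} [Field K] {A : ValuationSubring K} {E : Subfield K}
variable {Ω : Type*} [Field Ω] {ι : Ω →+* LaurentSeries K} {F : Subfield Ω}

section RFields

variable (cst : K →+* Ω)

theorem RcG_total : ∀ e ∈ EcG E cst, e ∈ RcG A E cst ∨ e⁻¹ ∈ RcG A E cst := by
  intro e he
  obtain ⟨c, hc, rfl⟩ := (mem_EcG_iff cst).mp he
  rcases A.mem_or_inv_mem c with h | h
  · exact Or.inl ((mem_RcG_iff cst).mpr ⟨c, h, hc, rfl⟩)
  · exact Or.inr ((mem_RcG_iff cst).mpr ⟨c⁻¹, h, E.inv_mem hc, map_inv₀ cst c⟩)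

theorem cst_mem_RcG_iff {c : K} : cst c ∈ RcG A E cst ↔ c ∈ A ∧ c ∈ E := by
  constructor
  · intro h
    obtain ⟨c', hA, hE, hcc⟩ := (mem_RcG_iff cst).mp h
    have : c' = c := cst.injective hcc
    exact this ▸ ⟨hA, hE⟩
  · rintro ⟨hA, hE⟩
    exact (mem_RcG_iff cst).mpr ⟨c, hA, hE, rfl⟩

/-- The `R`-fields of `H856.IgusaData` (in the order of the structure), plus `w_gen`. -/
theorem igusa_R_fields {w₀ : K} (hw : IsUnifG A E w₀) :
    (∀ r ∈ RcG A E cst, r ∈ EcG E cst) ∧
    (∀ e ∈ EcG E cst, e ∈ RcG A E cst ∨ e⁻¹ ∈ RcG A E cst) ∧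
    cst w₀ ∈ RcG A E cst ∧
    cst w₀ ≠ 0 ∧
    (cst w₀)⁻¹ ∉ RcG A E cst ∧
    (∀ r ∈ RcG A E cst, r ≠ 0 →
      ∃ n : ℕ, r * ((cst w₀)⁻¹) ^ n ∈ RcG A E cst ∧ (r * ((cst w₀)⁻¹) ^ n)⁻¹ ∈ RcG A E cst) ∧
    (∀ r ∈ RcG A E cst, r⁻¹ ∉ RcG A E cst → r * (cst w₀)⁻¹ ∈ RcG A E cst) := by
  refine ⟨RcG_le_EcG cst, RcG_total cst, (cst_mem_RcG_iff cst).mpr ⟨hw.mem_A, hw.mem_E⟩,
    (map_ne_zero cst).mpr hw.ne_zero, ?_, ?_, ?_⟩
  · rw [← map_inv₀, cst_mem_RcG_iff]
    exact fun h => hw.inv_not_mem h.1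
  · intro r hr hr0
    obtain ⟨c, hcA, hcE, rfl⟩ := (mem_RcG_iff cst).mp hr
    have hc0 : c ≠ 0 := fun h => hr0 (by rw [h, map_zero])
    obtain ⟨n, h1, h2⟩ := hw.discrete c hcA hcE hc0
    refine ⟨n, ?_, ?_⟩
    · rw [← map_inv₀, ← map_pow, ← map_mul, cst_mem_RcG_iff]
      exact ⟨h1, E.mul_mem hcE (E.pow_mem (E.inv_mem hw.mem_E) n)⟩
    · rw [← map_inv₀, ← map_pow, ← map_mul, ← map_inv₀, cst_mem_RcG_iff]
      exact ⟨h2, E.inv_mem (E.mul_mem hcE (E.pow_mem (E.inv_mem hw.mem_E) n))⟩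
  · intro r hr hinv
    obtain ⟨c, hcA, hcE, rfl⟩ := (mem_RcG_iff cst).mp hr
    rw [← map_inv₀, ← map_mul, cst_mem_RcG_iff]
    refine ⟨hw.gen c hcA hcE fun h => hinv ?_, E.mul_mem hcE (E.inv_mem hw.mem_E)⟩
    rw [← map_inv₀, cst_mem_RcG_iff]
    exact ⟨h, E.inv_mem hcE⟩

end RFields

section VFields

variable (cst : K →+* Ω) (hcst : ∀ c : K, ι (cst c) = HahnSeries.C c)
  (hEF : ∀ c ∈ E, cst c ∈ F)

include hcst hEF

/-- The `V`-fields of `H856.IgusaData` (in the order of the structure) for the Gauss valuation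
ring `V = VRing A E ι F`. -/
theorem igusa_V_fields {w₀ : K} (hw : IsUnifG A E w₀)
    (hgen : ∀ f ∈ F, IsRatio A E ι F f)
    {x : Ω} {X₀ : LaurentSeries A} (hX₀ : IsInt A E ι F X₀) (hx : ι x = ivInc A X₀)
    (n₀ : ℤ) (hn₀ : n₀ < 0) (hne : ((X₀.coeff n₀ : A) : K) ≠ 0)
    (hunit : ((X₀.coeff n₀ : A) : K)⁻¹ ∈ A) :
    RcG A E cst ≤ VRing A E ι F ∧
    x ∈ VRing A E ι F ∧
    (∀ f ∈ F, f ∈ VRing A E ι F ∨ f⁻¹ ∈ VRing A E ι F) ∧
    (cst w₀)⁻¹ ∉ VRing A E ι F ∧
    (∀ f ∈ F, f ≠ 0 →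
      ∃ n : ℤ, f * cst w₀ ^ n ∈ VRing A E ι F ∧ (f * cst w₀ ^ n)⁻¹ ∈ VRing A E ι F) ∧
    (∀ P : Polynomial Ω, (∀ i, P.coeff i ∈ RcG A E cst) →
      (∃ i, P.coeff i ≠ 0 ∧ (P.coeff i)⁻¹ ∈ RcG A E cst) →
      (P.eval x)⁻¹ ∈ VRing A E ι F) :=
  ⟨RcG_le_VRing cst hcst hEF, x_mem_VRing hX₀ hx,
    fun f hf => V_total cst hcst hEF hw hf (hgen f hf),
    w_inv_not_mem_VRing cst hcst hw.ne_zero hw.inv_not_mem,
    fun f hf hf0 => V_discrete cst hcst hEF hw hf (hgen f hf) hf0,
    fun P hP hPu => gauss cst hcst hEF hX₀ hx n₀ hn₀ hne hunit P hP hPu⟩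

/-- The `V`-fields of `S18.Alg.GoodModel` (in the order of the structure) for the Gauss
valuation ring `V = VRing A E ι F`. -/
theorem goodModel_V_fields {w₀ : K} (hw : IsUnifG A E w₀)
    (hgen : ∀ f ∈ F, IsRatio A E ι F f)
    {x : Ω} {X₀ : LaurentSeries A} (hX₀ : IsInt A E ι F X₀) (hx : ι x = ivInc A X₀)
    (n₀ : ℤ) (hn₀ : n₀ < 0) (hne : ((X₀.coeff n₀ : A) : K) ≠ 0)
    (hunit : ((X₀.coeff n₀ : A) : K)⁻¹ ∈ A) :
    (VRing A E ι F : Set Ω) ⊆ F ∧
    (∀ f ∈ F, f ∈ VRing A E ι F ∨ f⁻¹ ∈ VRing A E ι F) ∧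
    RcG A E cst ≤ VRing A E ι F ∧
    (cst w₀)⁻¹ ∉ VRing A E ι F ∧
    (∀ f ∈ VRing A E ι F, f⁻¹ ∉ VRing A E ι F → f * (cst w₀)⁻¹ ∈ VRing A E ι F) ∧
    x ∈ VRing A E ι F ∧
    (∀ P : Polynomial Ω, (∀ i, P.coeff i ∈ RcG A E cst) →
      (∃ i, P.coeff i ≠ 0 ∧ (P.coeff i)⁻¹ ∈ RcG A E cst) →
      (P.eval x)⁻¹ ∈ VRing A E ι F) :=
  ⟨VRing_le A E ι F, fun f hf => V_total cst hcst hEF hw hf (hgen f hf),
    RcG_le_VRing cst hcst hEF, w_inv_not_mem_VRing cst hcst hw.ne_zero hw.inv_not_mem,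
    fun _ hf hinv => V_gen cst hcst hEF hw hf hinv, x_mem_VRing hX₀ hx,
    fun P hP hPu => gauss cst hcst hEF hX₀ hx n₀ hn₀ hne hunit P hP hPu⟩

/-- `V_F = V_{F'} ∩ F` for `F ≤ F'`. -/
theorem VRing_eq_inf {w₀ : K} (hw : IsUnifG A E w₀) (hgen : ∀ f ∈ F, IsRatio A E ι F f)
    {F' : Subfield Ω} (hF : F ≤ F') (f : Ω) :
    f ∈ VRing A E ι F ↔ f ∈ VRing A E ι F' ∧ f ∈ F :=
  ⟨fun h => ⟨VRing_mono hF h, h.1⟩,
    fun h => mem_VRing_of_mem_of_le cst hcst hEF hw hF h.2 (hgen f h.2) h.1⟩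

end VFields

end Fermat.Agent.S48.H248

end
end
-- ===== PACK-END S48/H248/IV.lean

-- ===== PACK-BEGIN S18/Mod/H216/Asm.lean
section




/-!
# S18 / MOD-ASM (helper216): node_mod from the six PARTS at the concrete objects

Targets for the MOD owners (exact statements; `E` ranges over ALL number fields `E ⊆ Q̄`):

| part | statement to prove | content |
|---|---|---|
| G-R   | `PartRStatement M A`         | `A ∩ E` is a DVR of `E`, finite residue field (needs `A.LiesOverPrime ℓ`) |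
| G-FLD | `PartFldStatement M x`       | constants, `x` transcendental, `[Fc : Ec(x)] < ∞` |
| G-V   | `PartVStatement M A x`       | `Vc M A E` is the Gauss valuation ring (needs S28 `CoreData`, i.e. `ℓ ∤ M`) |
| G-QEP | `PartQepStatement M A x`     | q-expansion principle on the charts `R[x]`, `R[x⁻¹]` |
| G-SEP | `PartSepStatement M A x`     | separability of the residue field of `Vc` over `κ(x̄)` |
| G-BR  | `PartBrStatement M A x S`    | branch values |

`goodAt_of_parts` : the six statements give `GoodAt M A x S`.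
`goodModelStatement_of_parts` : the frozen node `Mod.GoodModelStatement M ℓ A` from the six
statements for `x = j` (`ℓ ≥ 5`) and `GoodAt` for the Hauptmodul coordinates (`ℓ = 2, 3`; M3-T).
-/

set_option autoImplicit false

noncomputable section

namespace Fermat.Agent.S18.Mod.H216

open ModularCurve AlgebraicCurve HahnSeries Fermat.Agent.S18 Fermat.Agent.S18.Mod
open Fermat.Agent.S18.Alg

/-- **G-R** at the concrete objects. -/
def PartRStatement (M : ℕ) (A : ValuationSubring Qb) : Prop :=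
  ∀ E : IntermediateField ℚ Qb, FiniteDimensional ℚ E →
    ∃ w : Om M, PartR (Ec M E) (Rc M A E) w

/-- **G-FLD** at the concrete objects. -/
def PartFldStatement (M : ℕ) (x : Om M) : Prop :=
  ∀ E : IntermediateField ℚ Qb, FiniteDimensional ℚ E →
    PartFld (Lc M) (Ec M E) (Fc M E) x

/-- **G-V** at the concrete objects, for every uniformiser `w`. -/
def PartVStatement (M : ℕ) (A : ValuationSubring Qb) (x : Om M) : Prop :=
  ∀ E : IntermediateField ℚ Qb, FiniteDimensional ℚ E →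
    ∀ w : Om M, PartR (Ec M E) (Rc M A E) w →
      PartV (Fc M E) (Rc M A E) (Vc M A E) w x

/-- **G-QEP** at the concrete objects, for every uniformiser `w`. -/
def PartQepStatement (M : ℕ) (A : ValuationSubring Qb) (x : Om M) : Prop :=
  ∀ E : IntermediateField ℚ Qb, FiniteDimensional ℚ E →
    ∀ w : Om M, PartR (Ec M E) (Rc M A E) w →
      PartQep (Fc M E) (Rc M A E) (Vc M A E) w x

/-- **G-SEP** at the concrete objects, for every uniformiser `w`. -/
def PartSepStatement (M : ℕ) (A : ValuationSubring Qb) (x : Om M) : Prop :=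
  ∀ E : IntermediateField ℚ Qb, FiniteDimensional ℚ E →
    ∀ w : Om M, PartR (Ec M E) (Rc M A E) w →
      PartSep (Rc M A E) (Vc M A E) w x

/-- **G-BR** at the concrete objects. -/
def PartBrStatement (M : ℕ) (A : ValuationSubring Qb) (x : Om M) (S : Finset (Om M)) : Prop :=
  ∀ E : IntermediateField ℚ Qb, FiniteDimensional ℚ E →
    PartBr (Lc M) (Rc M A E) x S

theorem charZero_Om (M : ℕ) : CharZero (Om M) :=
  charZero_of_injective_algebraMap (algebraMap Qb (Om M)).injective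

/-- The six parts give `GoodAt`. -/
theorem goodAt_of_parts {M : ℕ} {A : ValuationSubring Qb} {x : Om M} {S : Finset (Om M)}
    (hR : PartRStatement M A) (hF : PartFldStatement M x) (hV : PartVStatement M A x)
    (hQ : PartQepStatement M A x) (hS : PartSepStatement M A x)
    (hB : PartBrStatement M A x S) : GoodAt M A x S := by
  intro E hE
  obtain ⟨w, hw⟩ := hR E hE
  exact ⟨Vc M A E, w, coe_Vc M A E,
    goodModel_of_parts (charZero_Om M) hw (hF E hE) (hV E hE w hw) (hQ E hE w hw)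
      (hS E hE w hw) (hB E hE)⟩

/-- **MOD assembly**: the frozen node `Mod.GoodModelStatement M ℓ A` from the parts for the
coordinate `j` (used when `ℓ ≥ 5`) and `GoodAt` for the Hauptmodul coordinates (`ℓ = 2, 3`). -/
theorem goodModelStatement_of_parts (M ℓ : ℕ) (A : ValuationSubring Qb)
    (hR : 5 ≤ ℓ → PartRStatement M A)
    (hF : 5 ≤ ℓ → PartFldStatement M (jOm M))
    (hV : 5 ≤ ℓ → PartVStatement M A (jOm M))
    (hQ : 5 ≤ ℓ → PartQepStatement M A (jOm M))
    (hS : 5 ≤ ℓ → PartSepStatement M A (jOm M))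
    (hB : 5 ≤ ℓ → ∀ S : Finset (Om M), (∀ s, s ∈ S ↔ s = 0 ∨ s = 1728) →
      PartBrStatement M A (jOm M) S)
    (ht : ¬ 5 ≤ ℓ → ∀ (x : Om M) (S : Finset (Om M)), IsCoordinate M ℓ x S → GoodAt M A x S) :
    GoodModelStatement M ℓ A := by
  refine goodModelStatement_of_goodAt M ℓ A fun x S hxS => ?_
  by_cases h5 : 5 ≤ ℓ
  · rcases hxS with ⟨-, rfl, hS'⟩ | ⟨h | h, -⟩
    · exact goodAt_of_parts (hR h5) (hF h5) (hV h5) (hQ h5) (hS h5) (hB h5 S hS')
    · omega
    · omega
  · exact ht h5 x S hxS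

end Fermat.Agent.S18.Mod.H216

end
end
-- ===== PACK-END S18/Mod/H216/Asm.lean

-- ===== PACK-BEGIN S18/H576/Objects.lean
section


/-!
# S18 / MOD-ASM (helper576): basic facts about the concrete objects of `Mod/Defs.lean`
-/

set_option autoImplicit false

noncomputable section

namespace Fermat.Agent.S18.H576

open ModularCurve AlgebraicCurve HahnSeries Fermat.Agent.S18 Fermat.Agent.S18.Mod

variable {M : ℕ} {A : ValuationSubring Qb} {E : IntermediateField ℚ Qb}

/-- The inclusion of the constants. -/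
abbrev iota (M : ℕ) : Qb →+* Om M := algebraMap Qb (Om M)

theorem iota_injective (M : ℕ) : Function.Injective (iota M) :=
  (algebraMap Qb (Om M)).injective

theorem coe_iota (a : Qb) :
    ((iota M a : Om M) : LaurentSeries Qb) = algebraMap Qb (LaurentSeries Qb) a := rfl

theorem coe_iota_single (a : Qb) :
    ((iota M a : Om M) : LaurentSeries Qb) = HahnSeries.single 0 a := by
  rw [coe_iota, algebraMap_laurentSeries_eq_single]

theorem mem_Lc_iff {y : Om M} : y ∈ Lc M ↔ ∃ a : Qb, iota M a = y := by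
  unfold Lc
  exact RingHom.mem_fieldRange

theorem mem_Ec_iff {y : Om M} : y ∈ Ec M E ↔ ∃ a : Qb, a ∈ E ∧ iota M a = y := by
  unfold Ec
  rw [Subfield.mem_map]
  constructor
  · rintro ⟨a, ha, rfl⟩
    exact ⟨a, ha, rfl⟩
  · rintro ⟨a, ha, rfl⟩
    exact ⟨a, ha, rfl⟩

theorem mem_Rc_iff {y : Om M} : y ∈ Rc M A E ↔ ∃ a : Qb, a ∈ A ∧ a ∈ E ∧ iota M a = y := by
  unfold Rc
  rw [Subring.mem_map]
  constructor
  · rintro ⟨a, ha, rfl⟩
    rw [Subring.mem_inf] at ha
    exact ⟨a, ha.1, ha.2, rfl⟩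
  · rintro ⟨a, haA, haE, rfl⟩
    exact ⟨a, Subring.mem_inf.mpr ⟨haA, haE⟩, rfl⟩

theorem iota_mem_Lc (a : Qb) : iota M a ∈ Lc M := mem_Lc_iff.mpr ⟨a, rfl⟩

theorem iota_mem_Ec {a : Qb} (ha : a ∈ E) : iota M a ∈ Ec M E := mem_Ec_iff.mpr ⟨a, ha, rfl⟩

theorem iota_mem_Rc {a : Qb} (haA : a ∈ A) (haE : a ∈ E) : iota M a ∈ Rc M A E :=
  mem_Rc_iff.mpr ⟨a, haA, haE, rfl⟩

theorem iota_mem_Ec_iff {a : Qb} : iota M a ∈ Ec M E ↔ a ∈ E := by
  constructor
  · intro h
    obtain ⟨b, hb, hab⟩ := mem_Ec_iff.mp h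
    rwa [← iota_injective M hab]
  · exact iota_mem_Ec

theorem iota_mem_Rc_iff {a : Qb} : iota M a ∈ Rc M A E ↔ a ∈ A ∧ a ∈ E := by
  constructor
  · intro h
    obtain ⟨b, hbA, hbE, hab⟩ := mem_Rc_iff.mp h
    rw [← iota_injective M hab]
    exact ⟨hbA, hbE⟩
  · exact fun h => iota_mem_Rc h.1 h.2

theorem Rc_subset_Ec : (Rc M A E : Set (Om M)) ⊆ Ec M E := by
  intro y hy
  obtain ⟨a, -, haE, rfl⟩ := mem_Rc_iff.mp hy
  exact iota_mem_Ec haE

theorem Ec_le_Lc : Ec M E ≤ Lc M := by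
  intro y hy
  obtain ⟨a, -, rfl⟩ := mem_Ec_iff.mp hy
  exact iota_mem_Lc a

theorem Ec_le_Fc : Ec M E ≤ Fc M E := by
  intro y hy
  exact Subfield.subset_closure (Or.inl hy)

theorem Rc_total : ∀ e ∈ Ec M E, e ∈ Rc M A E ∨ e⁻¹ ∈ Rc M A E := by
  intro e he
  obtain ⟨a, haE, rfl⟩ := mem_Ec_iff.mp he
  rcases A.mem_or_inv_mem a with h | h
  · exact Or.inl (iota_mem_Rc h haE)
  · right
    rw [← map_inv₀]
    exact iota_mem_Rc h (inv_mem haE)

instance charZero_Om (M : ℕ) : CharZero (Om M) :=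
  charZero_of_injective_algebraMap (iota_injective M)

theorem isAlgebraic_Ec_of_mem_Lc : ∀ a ∈ Lc M, IsAlgebraic (Ec M E) a := by
  intro a ha
  obtain ⟨b, rfl⟩ := mem_Lc_iff.mp ha
  have hb : IsAlgebraic ℚ b := (AlgebraicClosure.isAlgebraic ℚ).isAlgebraic b
  have h1 : IsAlgebraic ℚ (iota M b) := hb.algebraMap
  exact h1.tower_top (Ec M E)

theorem isAlgClosed_Lc (M : ℕ) : IsAlgClosed (Lc M) := by
  have e : Qb ≃+* (Lc M) := RingEquiv.ofBijective (iota M).rangeRestrictField
    ⟨fun a b h => iota_injective M (congrArg Subtype.val h),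
      fun ⟨y, hy⟩ => by
        obtain ⟨a, rfl⟩ := mem_Lc_iff.mp hy
        exact ⟨a, rfl⟩⟩
  exact IsAlgClosed.of_ringEquiv Qb (Lc M) e

end Fermat.Agent.S18.H576

end
end
-- ===== PACK-END S18/H576/Objects.lean

-- ===== PACK-BEGIN S18/H576/Coeff.lean
section


/-!
# S18 / MOD-ASM (helper576): coefficients of `Fc`, `E_closed_in_F`, `compositum`
-/

set_option autoImplicit false

noncomputable section

namespace Fermat.Agent.S18.H576

open ModularCurve AlgebraicCurve HahnSeries Fermat.Agent.S18 Fermat.Agent.S18.Mod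

variable {M : ℕ} {A : ValuationSubring Qb} {E : IntermediateField ℚ Qb}

/-- The coercion `Ω → Q̄((q))` as a ring homomorphism. -/
abbrev valOm (M : ℕ) : Om M →+* LaurentSeries Qb := (modularFunctionFieldBar M).val.toRingHom

theorem valOm_apply (y : Om M) : valOm M y = (y : LaurentSeries Qb) := rfl

theorem valOm_injective (M : ℕ) : Function.Injective (valOm M) := Subtype.val_injective

/-- Laurent series over `Q̄` all of whose coefficients lie in `E`. -/
def coeffSub (E : IntermediateField ℚ Qb) : Subfield (LaurentSeries Qb) :=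
  (coeffMap (algebraMap E Qb)).fieldRange

theorem mem_coeffSub_iff {f : LaurentSeries Qb} :
    f ∈ coeffSub E ↔ ∀ n : ℤ, f.coeff n ∈ E := by
  constructor
  · rintro ⟨g, rfl⟩ n
    rw [coeffMap_coeff]
    exact (g.coeff n).2
  · intro h
    refine ⟨⟨fun n => ⟨f.coeff n, h n⟩, ?_⟩, ?_⟩
    · refine f.isPWO_support.mono ?_
      intro n hn
      simp only [Function.mem_support, ne_eq] at hn ⊢
      intro h0
      exact hn (Subtype.ext h0)
    · ext n
      rfl

theorem coe_mem_coeffSub_of_mem_Fc {f : Om M} (hf : f ∈ Fc M E) :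
    (f : LaurentSeries Qb) ∈ coeffSub E := by
  have hle : Fc M E ≤ (coeffSub E).comap (valOm M) := by
    unfold Fc
    rw [Subfield.closure_le]
    rintro y (hy | hy)
    · obtain ⟨a, ha, rfl⟩ := mem_Ec_iff.mp hy
      show (iota M a : LaurentSeries Qb) ∈ coeffSub E
      rw [coe_iota_single, mem_coeffSub_iff]
      intro n
      by_cases hn : n = 0
      · subst hn
        rw [HahnSeries.coeff_single_same]
        exact ha
      · rw [HahnSeries.coeff_single_of_ne hn]
        exact zero_mem E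
    · obtain ⟨d, hd, hdM, rfl⟩ := hy
      show (jd M d hdM : LaurentSeries Qb) ∈ coeffSub E
      rw [mem_coeffSub_iff]
      intro n
      show (coeffEmb Qb (qExpand ℚ d jq)).coeff n ∈ E
      rw [coeffEmb_coeff]
      exact E.algebraMap_mem _
  exact hle hf

theorem coeff_mem_of_mem_Fc {f : Om M} (hf : f ∈ Fc M E) (n : ℤ) :
    (f : LaurentSeries Qb).coeff n ∈ E :=
  mem_coeffSub_iff.mp (coe_mem_coeffSub_of_mem_Fc hf) n

/-- A constant lying in `Fc` lies in `Ec`. -/
theorem mem_E_of_iota_mem_Fc {c : Qb} (h : iota M c ∈ Fc M E) : c ∈ E := by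
  have := coeff_mem_of_mem_Fc h 0
  rwa [coe_iota_single, HahnSeries.coeff_single_same] at this

/-- An element of `Ω` algebraic over `Q̄` is a constant. -/
theorem exists_iota_eq_of_isAlgebraic {f : Om M} (hf : IsAlgebraic Qb f) :
    ∃ c : Qb, iota M c = f := by
  have hint : IsIntegral Qb f := hf.isIntegral
  refine ⟨-(minpoly Qb f).coeff 0, ?_⟩
  have hq : (minpoly Qb f).leadingCoeff = 1 := minpoly.monic hint
  have h : (minpoly Qb f).degree = 1 :=
    IsAlgClosed.degree_eq_one_of_irreducible Qb (minpoly.irreducible hint)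
  have : Polynomial.aeval f (minpoly Qb f) = 0 := minpoly.aeval Qb f
  rw [Polynomial.eq_X_add_C_of_degree_eq_one h, hq, Polynomial.C_1, one_mul,
    Polynomial.aeval_add, Polynomial.aeval_X, Polynomial.aeval_C,
    add_eq_zero_iff_eq_neg] at this
  exact (map_neg (algebraMap Qb (Om M)) ((minpoly Qb f).coeff 0)).symm ▸ this.symm

theorem isAlgebraic_rat_of_mem_Ec {e : Om M} (he : e ∈ Ec M E) : IsAlgebraic ℚ e := by
  obtain ⟨a, -, rfl⟩ := mem_Ec_iff.mp he
  exact ((AlgebraicClosure.isAlgebraic ℚ).isAlgebraic a).algebraMap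

theorem E_closed_in_F : ∀ f ∈ Fc M E, IsAlgebraic (Ec M E) f → f ∈ Ec M E := by
  intro f hf halg
  haveI : Algebra.IsAlgebraic ℚ (Ec M E) := by
    refine ⟨fun e => ?_⟩
    have h := isAlgebraic_rat_of_mem_Ec e.2
    exact (isAlgebraic_algebraMap_iff (A := Om M) (algebraMap (Ec M E) (Om M)).injective).mp h
  have h1 : IsAlgebraic ℚ f := halg.restrictScalars ℚ
  have h2 : IsAlgebraic Qb f := h1.tower_top Qb
  obtain ⟨c, rfl⟩ := exists_iota_eq_of_isAlgebraic h2
  exact iota_mem_Ec (mem_E_of_iota_mem_Fc hf)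

/-- The image of `ℚ(j_d : d ∣ M)` in `Q̄((q))` lies in (the image of) `Fc`. -/
theorem coeffEmb_mem_map_Fc {z : LaurentSeries ℚ} (hz : z ∈ modularFunctionFieldFull M) :
    coeffEmb Qb z ∈ (Fc M E).map (valOm M) := by
  have hle : (modularFunctionFieldFull M).toSubfield ≤
      ((Fc M E).map (valOm M)).comap (coeffEmb Qb) := by
    unfold modularFunctionFieldFull
    rw [IntermediateField.adjoin_toSubfield, Subfield.closure_le]
    rintro y (⟨r, rfl⟩ | ⟨d, hd, hdM, rfl⟩)
    · show coeffEmb Qb (algebraMap ℚ (LaurentSeries ℚ) r) ∈ (Fc M E).map (valOm M)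
      refine ⟨iota M (algebraMap ℚ Qb r), Ec_le_Fc (iota_mem_Ec (E.algebraMap_mem r)), ?_⟩
      rw [valOm_apply, coe_iota_single, algebraMap_laurentSeries_eq_single, coeffEmb, coeffMap_single]
    · exact ⟨jd M d hdM, Subfield.subset_closure (Or.inr ⟨d, hd, hdM, rfl⟩), rfl⟩
  exact hle hz

theorem exists_mem_Fc_of_mem_full {z : LaurentSeries ℚ} (hz : z ∈ modularFunctionFieldFull M) :
    ∃ f ∈ Fc M E, (f : LaurentSeries Qb) = coeffEmb Qb z := by
  obtain ⟨f, hf, hfz⟩ := coeffEmb_mem_map_Fc (E := E) hz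
  exact ⟨f, hf, hfz⟩

theorem compositum_eq_top : Subfield.closure ((Fc M E : Set (Om M)) ∪ Lc M) = ⊤ := by
  rw [eq_top_iff]
  rintro y -
  set T : Subfield (Om M) := Subfield.closure ((Fc M E : Set (Om M)) ∪ Lc M) with hT
  have hle : (modularFunctionFieldBar M).toSubfield ≤ T.map (valOm M) := by
    show (laurentBaseChange Qb (modularFunctionFieldFull M)).toSubfield ≤ _
    unfold laurentBaseChange
    rw [IntermediateField.adjoin_toSubfield, Subfield.closure_le]
    rintro z (⟨a, rfl⟩ | ⟨z0, hz0, rfl⟩)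
    · exact ⟨iota M a, Subfield.subset_closure (Or.inr (iota_mem_Lc a)), rfl⟩
    · obtain ⟨f, hf, hfz⟩ := exists_mem_Fc_of_mem_full (E := E) hz0
      exact ⟨f, Subfield.subset_closure (Or.inl hf), hfz⟩
  obtain ⟨t, ht, hty⟩ := hle y.2
  have : t = y := valOm_injective M hty
  exact this ▸ ht

theorem fieldFacts (M : ℕ) (A : ValuationSubring Qb) (E : IntermediateField ℚ Qb) :
    FieldFacts M A E where
  R_le := Rc_subset_Ec
  R_total := Rc_total
  E_le_L := Ec_le_Lc
  E_le_F := Ec_le_Fc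
  L_algebraic := isAlgebraic_Ec_of_mem_Lc
  L_algClosed := isAlgClosed_Lc M
  E_closed_in_F := E_closed_in_F
  compositum := compositum_eq_top

end Fermat.Agent.S18.H576

end
end
-- ===== PACK-END S18/H576/Coeff.lean

-- ===== PACK-BEGIN S18/H576/Unif.lean
section




/-!
# S18 / MOD-ASM (helper576): the uniformiser facts (`UnifFacts`) from `H602.isDiscreteValuationRing_RE`
-/

set_option autoImplicit false

noncomputable section

namespace Fermat.Agent.S18.H576

open ModularCurve AlgebraicCurve HahnSeries Fermat.Agent.S18 Fermat.Agent.S18.Mod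
open Fermat.Agent.S18.H602 (RE mem_RE toA)

variable {M : ℕ} {A : ValuationSubring Qb} {E : IntermediateField ℚ Qb}

/-- The inclusion `R_E → Ω`. -/
def iotaR (M : ℕ) (A : ValuationSubring Qb) (E : IntermediateField ℚ Qb) : RE A E →+* Om M :=
  (iota M).comp ((algebraMap E Qb).comp (RE A E).subtype)

theorem iotaR_apply (r : RE A E) : iotaR M A E r = iota M ((r : E) : Qb) := rfl

theorem iotaR_injective : Function.Injective (iotaR M A E) := by
  intro r s h
  have h1 : ((r : E) : Qb) = ((s : E) : Qb) := iota_injective M h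
  exact Subtype.ext (Subtype.ext h1)

theorem iotaR_mem_Rc (r : RE A E) : iotaR M A E r ∈ Rc M A E :=
  iota_mem_Rc (mem_RE.mp r.2) (r : E).2

theorem mem_Rc_iff_exists_iotaR {y : Om M} : y ∈ Rc M A E ↔ ∃ r : RE A E, iotaR M A E r = y := by
  constructor
  · intro hy
    obtain ⟨a, haA, haE, rfl⟩ := mem_Rc_iff.mp hy
    exact ⟨⟨⟨a, haE⟩, haA⟩, rfl⟩
  · rintro ⟨r, rfl⟩
    exact iotaR_mem_Rc r

theorem iotaR_inv_mem_Rc_iff (r : RE A E) : (iotaR M A E r)⁻¹ ∈ Rc M A E ↔ r = 0 ∨ IsUnit r := by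
  constructor
  · intro h
    by_cases hr : r = 0
    · exact Or.inl hr
    right
    obtain ⟨s, hs⟩ := mem_Rc_iff_exists_iotaR.mp h
    refine isUnit_iff_exists_inv.mpr ⟨s, ?_⟩
    apply iotaR_injective (M := M)
    rw [map_mul, hs, map_one]
    exact mul_inv_cancel₀ (fun h0 => hr (iotaR_injective (by rw [h0, map_zero])))
  · rintro (rfl | hu)
    · rw [map_zero, inv_zero]
      exact zero_mem _
    · obtain ⟨s, hs⟩ := isUnit_iff_exists_inv.mp hu
      have : (iotaR M A E r)⁻¹ = iotaR M A E s := by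
        have h1 : iotaR M A E r * iotaR M A E s = 1 := by rw [← map_mul, hs, map_one]
        exact inv_eq_of_mul_eq_one_right h1
      rw [this]
      exact iotaR_mem_Rc s

/-- Every element of the residue field of `R_E` is algebraic over `𝔽_ℓ`. -/
theorem exists_polynomial_residue (r : RE A E) {ℓ : ℕ} (hℓ : ℓ.Prime) :
    ∃ P : Polynomial ℤ, P.map (Int.castRingHom (ZMod ℓ)) ≠ 0 ∧
      Polynomial.eval₂ (Int.castRingHom (RE A E)) r P = 0 := by
  haveI : Fact ℓ.Prime := ⟨hℓ⟩
  have halgQ : IsAlgebraic ℚ ((r : E) : Qb) := (AlgebraicClosure.isAlgebraic ℚ).isAlgebraic _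
  have halgZ : IsAlgebraic ℤ ((r : E) : Qb) := (IsFractionRing.isAlgebraic_iff ℤ ℚ Qb).mpr halgQ
  obtain ⟨P, hP0, hP⟩ := halgZ
  have hprim : P.primPart.IsPrimitive := Polynomial.isPrimitive_primPart P
  have hev : Polynomial.aeval ((r : E) : Qb) P.primPart = 0 := by
    have h1 := P.eq_C_content_mul_primPart
    rw [h1, map_mul, Polynomial.aeval_C] at hP
    rcases mul_eq_zero.mp hP with h | h
    · exfalso
      have : (P.content : Qb) = 0 := by simpa using h
      have h2 : P.content = 0 := by exact_mod_cast this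
      exact hP0 (Polynomial.content_eq_zero_iff.mp h2)
    · exact h
  refine ⟨P.primPart, ?_, ?_⟩
  · intro h0
    have hdvd : Polynomial.C (ℓ : ℤ) ∣ P.primPart := by
      rw [Polynomial.C_dvd_iff_dvd_coeff]
      intro i
      have := congrArg (fun Q : Polynomial (ZMod ℓ) => Q.coeff i) h0
      simp only [Polynomial.coeff_map, Polynomial.coeff_zero, eq_intCast] at this
      exact (ZMod.intCast_zmod_eq_zero_iff_dvd _ _).mp this
    have hu := hprim _ hdvd
    have : IsUnit (ℓ : ℤ) := hu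
    rw [Int.isUnit_iff] at this
    have hℓ2 := hℓ.two_le
    omega
  · have hinj : Function.Injective ((algebraMap E Qb).comp (RE A E).subtype) := by
      intro a b h
      exact Subtype.ext (Subtype.ext h)
    apply hinj
    rw [map_zero, Polynomial.hom_eval₂]
    have : (((algebraMap E Qb).comp (RE A E).subtype).comp (Int.castRingHom (RE A E))) =
        algebraMap ℤ Qb := RingHom.ext_int _ _
    rw [this]
    exact hev

end Fermat.Agent.S18.H576

namespace Fermat.Agent.S18.H576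

open ModularCurve AlgebraicCurve HahnSeries Fermat.Agent.S18 Fermat.Agent.S18.Mod
open Fermat.Agent.S18.H602 (RE mem_RE toA)

variable {M : ℕ} {A : ValuationSubring Qb} {E : IntermediateField ℚ Qb}

theorem natCast_mem_maximalIdeal_RE {ℓ : ℕ} (hA : A.LiesOverPrime ℓ) :
    ((ℓ : ℕ) : RE A E) ∈ IsLocalRing.maximalIdeal (RE A E) := by
  rw [IsLocalRing.mem_maximalIdeal, mem_nonunits_iff]
  have h := H602.natCast_not_isUnit_RE A E (ℓ := ℓ) hA
  intro hu
  apply h
  have : (⟨(ℓ : E), H602.natCast_mem_RE A E ℓ⟩ : RE A E) = ((ℓ : ℕ) : RE A E) := by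
    apply Subtype.ext
    simp
  rw [this]
  exact hu

theorem natCast_residue_RE_eq_zero {ℓ : ℕ} (hA : A.LiesOverPrime ℓ) :
    ((ℓ : ℕ) : IsLocalRing.ResidueField (RE A E)) = 0 := by
  have := (IsLocalRing.residue_eq_zero_iff ((ℓ : ℕ) : RE A E)).mpr
    (natCast_mem_maximalIdeal_RE hA)
  simpa using this

/-- The residue field of `R_E` is perfect: Frobenius is surjective modulo the maximal ideal. -/
theorem exists_pow_sub_mem_maximalIdeal {ℓ : ℕ} (hℓ : ℓ.Prime) (hA : A.LiesOverPrime ℓ)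
    (r : RE A E) : ∃ s : RE A E, r - s ^ ℓ ∈ IsLocalRing.maximalIdeal (RE A E) := by
  haveI : Fact ℓ.Prime := ⟨hℓ⟩
  set κ := IsLocalRing.ResidueField (RE A E) with hκ
  haveI : CharP κ ℓ := (CharP.charP_iff_prime_eq_zero hℓ).mpr (natCast_residue_RE_eq_zero hA)
  letI : Algebra (ZMod ℓ) κ := ZMod.algebra κ ℓ
  haveI : Algebra.IsAlgebraic (ZMod ℓ) κ := by
    refine ⟨fun x => ?_⟩
    obtain ⟨r', rfl⟩ := IsLocalRing.residue_surjective x
    obtain ⟨P, hP0, hP⟩ := exists_polynomial_residue r' hℓ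
    refine ⟨P.map (Int.castRingHom (ZMod ℓ)), hP0, ?_⟩
    rw [Polynomial.aeval_def, Polynomial.eval₂_map]
    have h1 : (algebraMap (ZMod ℓ) κ).comp (Int.castRingHom (ZMod ℓ)) =
        (IsLocalRing.residue (RE A E)).comp (Int.castRingHom (RE A E)) := RingHom.ext_int _ _
    rw [h1, ← Polynomial.hom_eval₂, hP, map_zero]
  haveI : PerfectField κ := Algebra.IsAlgebraic.perfectField (ZMod ℓ)
  haveI : ExpChar κ ℓ := ExpChar.prime hℓ
  obtain ⟨y, hy⟩ := surjective_frobenius κ ℓ (IsLocalRing.residue (RE A E) r)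
  obtain ⟨s, rfl⟩ := IsLocalRing.residue_surjective y
  refine ⟨s, ?_⟩
  rw [← IsLocalRing.residue_eq_zero_iff, map_sub, map_pow, sub_eq_zero]
  rw [frobenius_def] at hy
  exact hy.symm

/-- The uniformiser facts for `w = ` image of a uniformiser of `R_E`. -/
theorem exists_unifFacts (M : ℕ) {A : ValuationSubring Qb} (E : IntermediateField ℚ Qb)
    [FiniteDimensional ℚ E] {ℓ : ℕ} (hℓ : ℓ.Prime) (hA : A.LiesOverPrime ℓ) :
    ∃ ϖ : RE A E, Irreducible ϖ ∧ UnifFacts M A E (iotaR M A E ϖ) := by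
  haveI : IsDiscreteValuationRing (RE A E) :=
    H602.isDiscreteValuationRing_RE A E hℓ.ne_zero hA
  obtain ⟨ϖ, hϖ⟩ := IsDiscreteValuationRing.exists_irreducible (RE A E)
  have hϖ0 : ϖ ≠ 0 := hϖ.ne_zero
  have hw0 : iotaR M A E ϖ ≠ 0 := fun h => hϖ0 (iotaR_injective (by rw [h, map_zero]))
  have hmax : ∀ r : RE A E, r ∈ IsLocalRing.maximalIdeal (RE A E) → ∃ b : RE A E, r = b * ϖ := by
    intro r hr
    rw [hϖ.maximalIdeal_eq, Ideal.mem_span_singleton] at hr
    obtain ⟨b, hb⟩ := hr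
    exact ⟨b, by rw [hb, mul_comm]⟩
  have hdiv : ∀ b : RE A E, iotaR M A E (b * ϖ) * (iotaR M A E ϖ)⁻¹ = iotaR M A E b := by
    intro b
    rw [map_mul, mul_assoc, mul_inv_cancel₀ hw0, mul_one]
  refine ⟨ϖ, hϖ, ⟨iotaR_mem_Rc ϖ, hw0, ?_, ?_, ?_, ?_⟩⟩
  · intro h
    rcases (iotaR_inv_mem_Rc_iff ϖ).mp h with h0 | hu
    · exact hϖ0 h0
    · exact hϖ.not_isUnit hu
  · intro y hy hyinv
    obtain ⟨r, rfl⟩ := mem_Rc_iff_exists_iotaR.mp hy
    have hr : r ∈ IsLocalRing.maximalIdeal (RE A E) := by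
      rw [IsLocalRing.mem_maximalIdeal, mem_nonunits_iff]
      intro hu
      exact hyinv ((iotaR_inv_mem_Rc_iff r).mpr (Or.inr hu))
    obtain ⟨b, rfl⟩ := hmax r hr
    rw [hdiv]
    exact iotaR_mem_Rc b
  · intro y hy hy0
    obtain ⟨r, rfl⟩ := mem_Rc_iff_exists_iotaR.mp hy
    have hr0 : r ≠ 0 := fun h => hy0 (by rw [h, map_zero])
    obtain ⟨n, u, hu⟩ := IsDiscreteValuationRing.eq_unit_mul_pow_irreducible hr0 hϖ
    refine ⟨n, ?_⟩
    have h1 : iotaR M A E r * ((iotaR M A E ϖ)⁻¹) ^ n = iotaR M A E (u : RE A E) := by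
      rw [hu, map_mul, map_pow, mul_assoc, ← mul_pow, mul_inv_cancel₀ hw0, one_pow, mul_one]
    rw [h1]
    exact ⟨iotaR_mem_Rc _, (iotaR_inv_mem_Rc_iff _).mpr (Or.inr u.isUnit)⟩
  · refine ⟨ℓ, hℓ, ?_, ?_⟩
    · obtain ⟨b, hb⟩ := hmax _ (natCast_mem_maximalIdeal_RE (E := E) hA)
      have h1 : ((ℓ : ℕ) : Om M) = iotaR M A E (b * ϖ) := by
        rw [← hb, map_natCast]
      rw [h1, hdiv]
      exact iotaR_mem_Rc b
    · intro y hy
      obtain ⟨r, rfl⟩ := mem_Rc_iff_exists_iotaR.mp hy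
      obtain ⟨s, hs⟩ := exists_pow_sub_mem_maximalIdeal hℓ hA r
      obtain ⟨b, hb⟩ := hmax _ hs
      refine ⟨iotaR M A E s, iotaR_mem_Rc s, ?_⟩
      have h1 : iotaR M A E r - iotaR M A E s ^ ℓ = iotaR M A E (b * ϖ) := by
        rw [← hb, map_sub, map_pow]
      rw [h1, hdiv]
      exact iotaR_mem_Rc b

end Fermat.Agent.S18.H576

end
end
-- ===== PACK-END S18/H576/Unif.lean

-- ===== PACK-BEGIN S18/H576/Transport.lean
section



/-!
# S18 / node_mod (helper576): TRANSPORT between the `E`-level and the concrete objects of `Mod/Defs`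

`E ⊆ Q̄` an intermediate field, `R_E = H602.RE A E = A ∩ E`, `κ_E` its residue field,
`F_E = laurentBaseChange E (modularFunctionFieldFull M) ⊆ E((q))`.

* `descendsTo_of_mem_Fc`     : `f ∈ Fc M E` ⟹ `f` comes from `F_E`;
* `exists_mem_Fc_of_mem_FE`  : `g ∈ F_E` ⟹ `g` is (the `q`-expansion of) an element of `Fc M E`;
* `OE M A E : Subring R_E((q))` : the integral series lying in `F_E`;
  `phi : OE →+* Ω` (injective, values in `Fc M E`), `rho : OE →+* κ_E((q))` (reduction);
* `exists_rep_of_mem_VcSet`  : `f ∈ VcSet M A E` ⟹ `f · phi V₂ = phi V₁` with `rho V₂ ≠ 0`;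
* `mem_VcSet_of_rep`         : the converse;
* `exists_div_of_rho_eq_zero`: `rho V = 0` ⟹ `phi V · w⁻¹ = phi V'` (for `w` with `w_gen`).
-/

set_option autoImplicit false

noncomputable section

namespace Fermat.Agent.S18.H576

open ModularCurve AlgebraicCurve HahnSeries Fermat.Agent.S18 Fermat.Agent.S18.Mod
open Fermat.Agent.S18.H602 (RE mem_RE toA)

variable {M : ℕ} {A : ValuationSubring Qb} {E : IntermediateField ℚ Qb}

/-- Elements of `Fc M E` are defined over `E` (inside the base change `F_E`). -/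
theorem descendsTo_of_mem_Fc {f : Om M} (hf : f ∈ Fc M E) :
    H602.DescendsTo (modularFunctionFieldFull M) E (f : LaurentSeries Qb) := by
  unfold Fc at hf
  induction hf using Subfield.closure_induction with
  | mem y hy =>
      rcases hy with hy | ⟨d, hd, hdM, rfl⟩
      · obtain ⟨a, ha, rfl⟩ := mem_Ec_iff.mp hy
        refine ⟨algebraMap E (LaurentSeries E) ⟨a, ha⟩,
          (laurentBaseChange E (modularFunctionFieldFull M)).algebraMap_mem _, ?_⟩
        rw [H602.coeffMap_algebraMap']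
        rfl
      · exact H602.descendsTo_coeffEmb E (jqd_mem_full M hdM)
  | one => exact H602.DescendsTo.one E
  | add x y _ _ hx hy => exact hx.add hy
  | neg x _ hx => exact hx.neg
  | inv x _ hx => exact hx.inv
  | mul x y _ _ hx hy => exact hx.mul hy

/-- Elements of `F_E` give elements of `Fc M E`. -/
theorem exists_mem_Fc_of_mem_FE {g : LaurentSeries E}
    (hg : g ∈ laurentBaseChange E (modularFunctionFieldFull M)) :
    ∃ f ∈ Fc M E, (f : LaurentSeries Qb) = coeffMap (algebraMap E Qb) g := by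
  rw [mem_laurentBaseChange_iff] at hg
  induction hg using Subfield.closure_induction with
  | mem y hy =>
      rcases hy with ⟨a, rfl⟩ | ⟨z, hz, rfl⟩
      · refine ⟨iota M (a : Qb), Ec_le_Fc (iota_mem_Ec a.2), ?_⟩
        rw [H602.coeffMap_algebraMap']
        rfl
      · obtain ⟨f, hf, hfz⟩ := exists_mem_Fc_of_mem_full (M := M) (E := E) hz
        refine ⟨f, hf, ?_⟩
        rw [hfz, H602.coeffMap_coeffEmb']
  | one => exact ⟨1, one_mem _, by rw [map_one]; rfl⟩
  | add x y _ _ hx hy =>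
      obtain ⟨f, hf, hfx⟩ := hx
      obtain ⟨g, hg, hgy⟩ := hy
      exact ⟨f + g, add_mem hf hg, by rw [map_add, ← hfx, ← hgy]; rfl⟩
  | neg x _ hx =>
      obtain ⟨f, hf, hfx⟩ := hx
      exact ⟨-f, neg_mem hf, by rw [map_neg, ← hfx]; rfl⟩
  | inv x _ hx =>
      obtain ⟨f, hf, hfx⟩ := hx
      exact ⟨f⁻¹, inv_mem hf, by rw [map_inv₀, ← hfx]; rfl⟩
  | mul x y _ _ hx hy =>
      obtain ⟨f, hf, hfx⟩ := hx
      obtain ⟨g, hg, hgy⟩ := hy
      exact ⟨f * g, mul_mem hf hg, by rw [map_mul, ← hfx, ← hgy]; rfl⟩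

theorem C_mem_FE (M : ℕ) (c : E) :
    HahnSeries.C (Γ := ℤ) c ∈ laurentBaseChange E (modularFunctionFieldFull M) := by
  have := (laurentBaseChange E (modularFunctionFieldFull M)).algebraMap_mem c
  rwa [algebraMap_laurentSeries_eq_single, ← HahnSeries.C_apply] at this

/-- The ring of integral series over `R_E` lying in `F_E`. -/
def OE (M : ℕ) (A : ValuationSubring Qb) (E : IntermediateField ℚ Qb) :
    Subring (LaurentSeries (RE A E)) :=
  (laurentBaseChange E (modularFunctionFieldFull M)).toSubfield.toSubring.comap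
    (coeffMap (RE A E).subtype)

theorem mem_OE {V : LaurentSeries (RE A E)} :
    V ∈ OE M A E ↔
      coeffMap (RE A E).subtype V ∈ laurentBaseChange E (modularFunctionFieldFull M) :=
  Iff.rfl

/-- `R_E((q)) → Q̄((q))`. -/
def incQ (A : ValuationSubring Qb) (E : IntermediateField ℚ Qb) :
    LaurentSeries (RE A E) →+* LaurentSeries Qb :=
  (coeffMap (algebraMap E Qb)).comp (coeffMap (RE A E).subtype)

theorem incQ_apply (V : LaurentSeries (RE A E)) :
    incQ A E V = coeffMap (algebraMap E Qb) (coeffMap (RE A E).subtype V) := rfl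

theorem incQ_eq (V : LaurentSeries (RE A E)) :
    incQ A E V = coeffMap A.subtype (coeffMap (toA A E) V) := by
  rw [incQ_apply, coeffMap_coeffMap, coeffMap_coeffMap, H602.subtype_comp_toA]

theorem incQ_injective : Function.Injective (incQ A E) := by
  intro x y h
  have h1 := H602.coeffMap_injective (algebraMap E Qb) (algebraMap E Qb).injective h
  exact H602.coeffMap_injective (RE A E).subtype Subtype.val_injective h1

theorem incQ_mem (V : OE M A E) :
    incQ A E (V : LaurentSeries (RE A E)) ∈ modularFunctionFieldBar M :=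
  H602.coeffMap_mem_laurentBaseChange _ _ V.2

/-- The element of `Ω` defined by an integral series. -/
def phi (M : ℕ) (A : ValuationSubring Qb) (E : IntermediateField ℚ Qb) : OE M A E →+* Om M where
  toFun V := ⟨incQ A E (V : LaurentSeries (RE A E)), incQ_mem V⟩
  map_one' := Subtype.ext (by simp)
  map_mul' x y := Subtype.ext (by simp)
  map_zero' := Subtype.ext (by simp)
  map_add' x y := Subtype.ext (by simp)

theorem coe_phi (V : OE M A E) :
    ((phi M A E V : Om M) : LaurentSeries Qb) = incQ A E (V : LaurentSeries (RE A E)) := rfl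

theorem phi_injective : Function.Injective (phi M A E) := by
  intro x y h
  have h1 : incQ A E (x : LaurentSeries (RE A E)) = incQ A E (y : LaurentSeries (RE A E)) :=
    congrArg Subtype.val h
  exact Subtype.ext (incQ_injective h1)

theorem phi_mem_Fc (V : OE M A E) : phi M A E V ∈ Fc M E := by
  obtain ⟨f, hf, hfV⟩ := exists_mem_Fc_of_mem_FE (M := M) V.2
  have : phi M A E V = f := Subtype.ext (by rw [coe_phi, incQ_apply, hfV])
  rw [this]
  exact hf

/-- Reduction of an integral series. -/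
def rho (M : ℕ) (A : ValuationSubring Qb) (E : IntermediateField ℚ Qb) :
    OE M A E →+* LaurentSeries (IsLocalRing.ResidueField (RE A E)) :=
  (coeffMap (IsLocalRing.residue (RE A E))).comp (OE M A E).subtype

theorem rho_apply (V : OE M A E) :
    rho M A E V = coeffMap (IsLocalRing.residue (RE A E)) (V : LaurentSeries (RE A E)) := rfl

/-- The reduction over `A` of the series over `A` attached to `V`. -/
theorem residue_toA_eq (V : LaurentSeries (RE A E)) :
    coeffMap (IsLocalRing.residue A) (coeffMap (toA A E) V) =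
      coeffMap (H602.resMap A E) (coeffMap (IsLocalRing.residue (RE A E)) V) :=
  H602.coeffMap_residue_toA A E V

theorem residue_toA_ne_zero_iff (V : LaurentSeries (RE A E)) :
    coeffMap (IsLocalRing.residue A) (coeffMap (toA A E) V) ≠ 0 ↔
      coeffMap (IsLocalRing.residue (RE A E)) V ≠ 0 := by
  rw [residue_toA_eq]
  constructor
  · intro h h0
    exact h (by rw [h0, map_zero])
  · intro h h0
    apply h
    apply H602.coeffMap_injective (H602.resMap A E) (H602.resMap_injective A E)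
    rw [h0, map_zero]

theorem isIntE_toA (V : OE M A E) :
    IsIntE M A E (coeffMap (toA A E) (V : LaurentSeries (RE A E))) := by
  refine ⟨fun n => ?_, phi M A E V, phi_mem_Fc V, ?_⟩
  · rw [coeffMap_coeff]
    exact ((V : LaurentSeries (RE A E)).coeff n : E).2
  · rw [coe_phi, incQ_eq]

/-- Every element of `VcSet` is a quotient of two integral series over `R_E`, the denominator
with nonzero reduction. -/
theorem exists_rep_of_mem_VcSet {f : Om M} (hf : f ∈ VcSet M A E) :
    ∃ V₁ V₂ : OE M A E, rho M A E V₂ ≠ 0 ∧ f * phi M A E V₂ = phi M A E V₁ := by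
  obtain ⟨-, U₁, U₂, ⟨-, g₁, hg₁, hgU₁⟩, ⟨-, g₂, hg₂, hgU₂⟩, hne, heq⟩ := hf
  have d₁ := descendsTo_of_mem_Fc hg₁
  have d₂ := descendsTo_of_mem_Fc hg₂
  rw [hgU₁] at d₁
  rw [hgU₂] at d₂
  obtain ⟨V₁, hV₁, hVU₁⟩ := H602.exists_series_descent U₁ d₁
  obtain ⟨V₂, hV₂, hVU₂⟩ := H602.exists_series_descent U₂ d₂
  refine ⟨⟨V₁, hV₁⟩, ⟨V₂, hV₂⟩, ?_, ?_⟩
  · rw [rho_apply]
    rw [← hVU₂] at hne
    exact (residue_toA_ne_zero_iff V₂).mp hne
  · apply Subtype.ext
    show (f : LaurentSeries Qb) * incQ A E V₂ = incQ A E V₁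
    rw [incQ_eq, incQ_eq, hVU₁, hVU₂]
    exact heq

/-- Conversely a quotient of two integral series over `R_E`, the denominator with nonzero
reduction, lies in `VcSet`. -/
theorem mem_VcSet_of_rep {g : Om M} (V₁ V₂ : OE M A E) (h2 : rho M A E V₂ ≠ 0)
    (h : g * phi M A E V₂ = phi M A E V₁) : g ∈ VcSet M A E := by
  have hV₂0 : phi M A E V₂ ≠ 0 := by
    intro h0
    apply h2
    have : V₂ = 0 := phi_injective (by rw [h0, map_zero])
    rw [this, map_zero]
  have hg : g = phi M A E V₁ * (phi M A E V₂)⁻¹ := by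
    rw [← h, mul_assoc, mul_inv_cancel₀ hV₂0, mul_one]
  refine ⟨?_, coeffMap (toA A E) (V₁ : LaurentSeries (RE A E)),
    coeffMap (toA A E) (V₂ : LaurentSeries (RE A E)), isIntE_toA V₁, isIntE_toA V₂, ?_, ?_⟩
  · rw [hg]
    exact mul_mem (phi_mem_Fc V₁) (inv_mem (phi_mem_Fc V₂))
  · exact (residue_toA_ne_zero_iff _).mpr h2
  · rw [← incQ_eq, ← incQ_eq, ← coe_phi, ← coe_phi, ← h]
    rfl

theorem coeff_mem_maximalIdeal_of_rho_eq_zero (V : OE M A E) (hV : rho M A E V = 0) (n : ℤ) :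
    (V : LaurentSeries (RE A E)).coeff n ∈ IsLocalRing.maximalIdeal (RE A E) := by
  rw [← IsLocalRing.residue_eq_zero_iff]
  have := congrArg (fun z : LaurentSeries (IsLocalRing.ResidueField (RE A E)) => z.coeff n) hV
  simpa [rho_apply, coeffMap_coeff] using this

/-- A series with zero reduction is divisible by the uniformiser `w`. -/
theorem exists_div_of_rho_eq_zero {w : Om M} (hwm : w ∈ Rc M A E)
    (hwg : ∀ r ∈ Rc M A E, r⁻¹ ∉ Rc M A E → r * w⁻¹ ∈ Rc M A E)
    (V : OE M A E) (hV : rho M A E V = 0) :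
    ∃ V' : OE M A E, phi M A E V' = phi M A E V * w⁻¹ := by
  obtain ⟨ϖ, rfl⟩ := mem_Rc_iff_exists_iotaR.mp hwm
  set c : E := ((ϖ : E))⁻¹ with hc
  set y : LaurentSeries E :=
    HahnSeries.C c * coeffMap (RE A E).subtype (V : LaurentSeries (RE A E)) with hy
  have hcoeff : ∀ n, y.coeff n = c * (((V : LaurentSeries (RE A E)).coeff n : RE A E) : E) := by
    intro n
    rw [hy, HahnSeries.C_mul_eq_smul, HahnSeries.coeff_smul, smul_eq_mul, coeffMap_coeff]
    rfl
  have hrange : ∀ n, y.coeff n ∈ Set.range (RE A E).subtype := by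
    intro n
    set r : RE A E := (V : LaurentSeries (RE A E)).coeff n with hr
    by_cases hr0 : r = 0
    · refine ⟨0, ?_⟩
      rw [hcoeff, ← hr, hr0]
      simp
    have hnu : ¬ IsUnit r := by
      have := coeff_mem_maximalIdeal_of_rho_eq_zero V hV n
      rwa [IsLocalRing.mem_maximalIdeal, mem_nonunits_iff] at this
    have hinv : (iotaR M A E r)⁻¹ ∉ Rc M A E := by
      intro h
      rcases (iotaR_inv_mem_Rc_iff r).mp h with h | h
      · exact hr0 h
      · exact hnu h
    obtain ⟨s, hs⟩ := mem_Rc_iff_exists_iotaR.mp (hwg _ (iotaR_mem_Rc r) hinv)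
    refine ⟨s, ?_⟩
    rw [hcoeff, ← hr]
    have hinj : Function.Injective ((iota M).comp (algebraMap E Qb)) :=
      (iota_injective M).comp (algebraMap E Qb).injective
    apply hinj
    show iotaR M A E s = _
    rw [hs, map_mul, hc, map_inv₀, mul_comm]
    rfl
  obtain ⟨V', hV'⟩ := H602.exists_coeffMap_eq (RE A E).subtype Subtype.val_injective y hrange
  have hV'mem : V' ∈ OE M A E := by
    rw [mem_OE, hV', hy]
    exact mul_mem (C_mem_FE M c) V.2
  refine ⟨⟨V', hV'mem⟩, ?_⟩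
  apply Subtype.ext
  show incQ A E V' = incQ A E (V : LaurentSeries (RE A E)) *
    ((iotaR M A E ϖ : Om M) : LaurentSeries Qb)⁻¹
  rw [incQ_apply, hV', hy, map_mul, H516.coeffMap_C, ← incQ_apply, iotaR_apply, coe_iota_single,
    ← HahnSeries.C_apply, ← map_inv₀, hc, map_inv₀, mul_comm]
  rfl

end Fermat.Agent.S18.H576

end
end
-- ===== PACK-END S18/H576/Transport.lean

-- ===== PACK-BEGIN S18/B12/H33/CoreAux.lean
section



/-!
# S18 b2.5 (helper33): auxiliary lemmas for the assembly of `B2CoreAbsStatement`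
-/

set_option autoImplicit false

noncomputable section

namespace Fermat.Agent.S18.B12.H33

open Polynomial

universe u v

section Quot

variable {P : Type u} [CommRing P] (w : P)

/-- `a ∈ (w, p)` iff `mk p ∣ mk a` in `P/(w)`. -/
theorem mem_span_pair_iff_mk_dvd (p a : P) :
    a ∈ Ideal.span {w, p} ↔
      Ideal.Quotient.mk (Ideal.span {w}) p ∣ Ideal.Quotient.mk (Ideal.span {w}) a := by
  constructor
  · intro h
    rw [Ideal.mem_span_pair] at h
    obtain ⟨c, d, rfl⟩ := h
    refine ⟨Ideal.Quotient.mk _ d, ?_⟩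
    have hw0 : Ideal.Quotient.mk (Ideal.span {w}) w = 0 :=
      Ideal.Quotient.eq_zero_iff_mem.mpr (Ideal.mem_span_singleton_self w)
    simp [map_add, map_mul, hw0, mul_comm]
  · rintro ⟨c, hc⟩
    obtain ⟨d, rfl⟩ := Ideal.Quotient.mk_surjective c
    rw [← map_mul, Ideal.Quotient.eq, Ideal.mem_span_singleton] at hc
    obtain ⟨e, he⟩ := hc
    rw [Ideal.mem_span_pair]
    refine ⟨e, d, ?_⟩
    have : a = w * e + p * d := by linear_combination he
    rw [this]; ring

theorem span_pair_eq_comap (p : P) :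
    Ideal.span {w, p} = Ideal.comap (Ideal.Quotient.mk (Ideal.span {w}))
      (Ideal.span {Ideal.Quotient.mk (Ideal.span {w}) p}) := by
  ext a
  rw [mem_span_pair_iff_mk_dvd, Ideal.mem_comap, Ideal.mem_span_singleton]

end Quot

end Fermat.Agent.S18.B12.H33

end
end
-- ===== PACK-END S18/B12/H33/CoreAux.lean

-- ===== PACK-BEGIN S18/B12/H33/Core.lean
section



/-!
# S18 b2.5 (helper33): `B2CoreAbsStatement` from the assembly pieces A0, A2, A2', A3, A4, A5, A5'
-/

set_option autoImplicit false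

noncomputable section

namespace Fermat.Agent.S18.B12.H33

open Polynomial

universe u v

section Setup

variable {P : Type u} [CommRing P] [IsDomain P] [UniqueFactorizationMonoid P] [IsNoetherianRing P]
  {B : Type v} [CommRing B] [IsDomain B] [IsIntegrallyClosed B] [Algebra P B]
  [Module.Finite P B] [Module.IsTorsionFree P B]

/-- Local bases restrict to smaller ideals. -/
theorem IsLocalBasis.mono {𝔪 𝔫 : Ideal P} (h𝔫 : 𝔫 ≤ 𝔪) {n : ℕ} {x : Fin n → B}
    (hx : IsLocalBasis P B 𝔪 n x) : IsLocalBasis P B 𝔫 n x := by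
  obtain ⟨hli, g, hg, hsp⟩ := hx
  exact ⟨hli, g, fun h => hg (h𝔫 h), hsp⟩

/-- For a local basis at `𝔪 ∋ π` (prime), `π ∣ ∑ aᵢ xᵢ` in `B` forces `π ∣ aᵢ`. -/
theorem IsLocalBasis.dvd_coeff {𝔪 : Ideal P} {n : ℕ} {x : Fin n → B}
    (hx : IsLocalBasis P B 𝔪 n x) {π : P} (hπ : Prime π) (hπ𝔪 : π ∈ 𝔪)
    (a : Fin n → P) (h : (∑ i, a i • x i) ∈ Ideal.span {algebraMap P B π}) (i : Fin n) :
    π ∣ a i := by
  obtain ⟨hli, g, hg, hsp⟩ := hx
  rw [Ideal.mem_span_singleton] at h
  obtain ⟨b, hb⟩ := h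
  have hgb := hsp b
  rw [Submodule.mem_span_range_iff_exists_fun] at hgb
  obtain ⟨c, hc⟩ := hgb
  -- ∑ (g aᵢ - π cᵢ) xᵢ = 0
  have hrel : ∑ j, (g * a j - π * c j) • x j = 0 := by
    have h1 : ∑ j, (g * a j - π * c j) • x j
        = g • (∑ j, a j • x j) - π • (∑ j, c j • x j) := by
      rw [Finset.smul_sum, Finset.smul_sum, ← Finset.sum_sub_distrib]
      refine Finset.sum_congr rfl fun j _ => ?_
      rw [sub_smul, mul_smul, mul_smul]
    rw [h1, hc, hb, Algebra.smul_def, Algebra.smul_def, Algebra.smul_def]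
    ring
  have hz := Fintype.linearIndependent_iff.mp hli _ hrel i
  have hdvd : π ∣ g * a i := ⟨c i, by linear_combination hz⟩
  rcases hπ.dvd_or_dvd hdvd with h | h
  · exact absurd (Ideal.mem_of_dvd 𝔪 h hπ𝔪) hg
  · exact h

end Setup

end Fermat.Agent.S18.B12.H33

namespace Fermat.Agent.S18.B12.H33

open Polynomial

universe u v

set_option linter.unusedSectionVars false
set_option linter.unusedVariables false

section Main

variable {P : Type u} [CommRing P] [IsDomain P] (w : P)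
  {B : Type v} [CommRing B] [Algebra P B]


/-- Reduction of a radical-membership from `B` to `B/wB`. -/
theorem mk_sub_sum_mem_radical {r : ℕ} (y : Fin r → B) (q : P) (t : (P ⧸ Ideal.span {w}))
    (hqt : Associated (Ideal.Quotient.mk (Ideal.span {w}) q) t)
    (c : B) (a : Fin r → P)
    (h : c - ∑ i, a i • y i ∈ (Ideal.span {algebraMap P B w, algebraMap P B q}).radical) :
    (Ideal.Quotient.mk ((Ideal.span {w}).map (algebraMap P B)) c : (B ⧸ (Ideal.span {w}).map (algebraMap P B)))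
      - ∑ i, (Ideal.Quotient.mk (Ideal.span {w}) (a i)) •
          (Ideal.Quotient.mk ((Ideal.span {w}).map (algebraMap P B)) (y i) : (B ⧸ (Ideal.span {w}).map (algebraMap P B))) ∈
      (Ideal.span {algebraMap (P ⧸ Ideal.span {w}) (B ⧸ (Ideal.span {w}).map (algebraMap P B)) t}).radical := by
  obtain ⟨k, hk⟩ := h
  refine ⟨k, ?_⟩
  have e1 : (Ideal.Quotient.mk ((Ideal.span {w}).map (algebraMap P B)) c : (B ⧸ (Ideal.span {w}).map (algebraMap P B)))
      - ∑ i, (Ideal.Quotient.mk (Ideal.span {w}) (a i)) •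
          (Ideal.Quotient.mk ((Ideal.span {w}).map (algebraMap P B)) (y i) : (B ⧸ (Ideal.span {w}).map (algebraMap P B)))
      = Ideal.Quotient.mk ((Ideal.span {w}).map (algebraMap P B)) (c - ∑ i, a i • y i) := by
    rw [map_sub, map_sum]
    congr 1
  rw [e1, ← map_pow]
  rw [Ideal.mem_span_pair] at hk
  obtain ⟨c₁, c₂, hc⟩ := hk
  rw [← hc, map_add, map_mul, map_mul]
  have hw0 : Ideal.Quotient.mk ((Ideal.span {w}).map (algebraMap P B)) (algebraMap P B w) = 0 :=
    Ideal.Quotient.eq_zero_iff_mem.mpr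
      (Ideal.mem_map_of_mem _ (Ideal.mem_span_singleton_self w))
  rw [hw0, mul_zero, zero_add]
  have hq' : Ideal.Quotient.mk ((Ideal.span {w}).map (algebraMap P B)) (algebraMap P B q)
      = algebraMap (P ⧸ Ideal.span {w}) (B ⧸ (Ideal.span {w}).map (algebraMap P B)) (Ideal.Quotient.mk (Ideal.span {w}) q) := rfl
  rw [hq']
  obtain ⟨v, hv⟩ := hqt
  rw [Ideal.mem_span_singleton]
  refine Dvd.dvd.mul_left ?_ _
  rw [← hv, map_mul]
  exact ⟨algebraMap (P ⧸ Ideal.span {w}) (B ⧸ (Ideal.span {w}).map (algebraMap P B)) ((v⁻¹ : (P ⧸ Ideal.span {w})ˣ) : (P ⧸ Ideal.span {w})), by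
    rw [mul_assoc, ← map_mul, Units.mul_inv, map_one, mul_one]⟩

end Main

end Fermat.Agent.S18.B12.H33

end
end
-- ===== PACK-END S18/B12/H33/Core.lean

-- ===== PACK-BEGIN S18/B12/H33/CoreMain.lean
section



/-!
# S18 b2.5 (helper33): `B2CoreAbsStatement` from the assembly pieces A0, A2, A2', A3, A4, A5, A5'
-/

set_option autoImplicit false

noncomputable section

namespace Fermat.Agent.S18.B12.H33

open Polynomial

universe u v

theorem b2CoreAbs_of_pieces
    (hA0 : RegSeqAbsStatement.{u, v}) (hA2 : LocalBasisStatement.{u, v})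
    (hA2' : LocalBasisRankStatement.{u, v}) (hA3 : DiscrRedStatement.{u, v})
    (hA4 : UFDStepStatement.{u}) (hA5 : GenericDiscrStatement.{u, v})
    (hA5' : RedBasisAbsStatement.{u, v}) : B2CoreAbsStatement.{u, v} := by
  intro P _ _ _ _ w hw hΛ hΛ₀ hℚ B _ _ _ _ _ _ hsep S hS1 hS2 hNC t ht n bb
  haveI := hΛ
  haveI hdomΛ : IsDomain (P ⧸ Ideal.span {w}) := by
    rw [Ideal.Quotient.isDomain_iff_prime]
    exact (Ideal.span_singleton_prime hw.ne_zero).mpr hw
  have hmkw : Ideal.Quotient.mk (Ideal.span {w}) w = 0 :=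
    Ideal.Quotient.eq_zero_iff_mem.mpr (Ideal.mem_span_singleton_self w)
  obtain ⟨p, hp⟩ := Ideal.Quotient.mk_surjective t
  -- the closed point
  have htmax : (Ideal.span {t}).IsMaximal :=
    PrincipalIdealRing.isMaximal_of_irreducible ht.irreducible
  have h𝔪p : (Ideal.span {w, p}).IsMaximal := by
    rw [span_pair_eq_comap, hp]
    exact Ideal.comap_isMaximal_of_surjective _ Ideal.Quotient.mk_surjective
  -- choice of the second generator `q`
  obtain ⟨q, hq𝔪, hqcase⟩ : ∃ q, Ideal.span {w, q} = Ideal.span {w, p} ∧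
      (q ∈ S ∨ ∀ s ∈ S, s ∉ Ideal.span {w, p}) := by
    by_cases h : ∃ s ∈ S, s ∈ Ideal.span {w, p}
    · obtain ⟨s, hs, hs𝔪⟩ := h
      refine ⟨s, ?_, Or.inl hs⟩
      have hmax := (hS1 s hs).2.2.1
      refine hmax.eq_of_le h𝔪p.ne_top ?_
      rw [Ideal.span_le]
      intro z hz
      rcases hz with rfl | hz
      · exact Ideal.subset_span (by simp)
      · rw [Set.mem_singleton_iff] at hz; subst hz; exact hs𝔪
    · push_neg at h
      exact ⟨p, rfl, Or.inr h⟩
  have h𝔪max : (Ideal.span {w, q}).IsMaximal := hq𝔪 ▸ h𝔪p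
  haveI h𝔪prime : (Ideal.span {w, q}).IsPrime := h𝔪max.isPrime
  have hw𝔪 : w ∈ Ideal.span {w, q} := Ideal.subset_span (by simp)
  -- `mk q` is associated to `t`
  have hqt : Associated (Ideal.Quotient.mk (Ideal.span {w}) q) t := by
    rw [← Ideal.span_singleton_eq_span_singleton]
    ext b
    obtain ⟨a, rfl⟩ := Ideal.Quotient.mk_surjective b
    rw [Ideal.mem_span_singleton, Ideal.mem_span_singleton, ← mem_span_pair_iff_mk_dvd, hq𝔪,
      mem_span_pair_iff_mk_dvd, hp]
  have hmkq_prime : Prime (Ideal.Quotient.mk (Ideal.span {w}) q) := hqt.symm.prime ht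
  have hwq : ¬ w ∣ q := by
    intro h
    apply hmkq_prime.ne_zero
    exact Ideal.Quotient.eq_zero_iff_mem.mpr (Ideal.mem_span_singleton.mpr h)
  -- local basis
  haveI : Algebra.IsIntegral P B := inferInstance
  have hreg := hA0 P B q w hw hwq
  obtain ⟨n₀, x, hx⟩ := hA2 P B w q h𝔪max hreg
  obtain ⟨hn₀, hgram⟩ := hA2' P B (Ideal.span {w, q}) n₀ x hx
  obtain ⟨hn, u, hu, hD⟩ := hA3 P B w hw (Ideal.span {w, q}) hw𝔪 n₀ x hx n bb
  subst hn
  -- `w ∤ D`
  have hwD : ¬ w ∣ intDiscr P B x := by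
    obtain ⟨x', hx'⟩ := hsep
    subst hn₀
    obtain ⟨g, v, hg, hgv⟩ := hgram x'
    intro hdvd
    have h1 : w ∣ g ^ 2 * intDiscr P B x' := by
      rw [hgv]; exact Dvd.dvd.mul_left hdvd _
    rcases hw.dvd_or_dvd h1 with h2 | h2
    · exact hg (Ideal.mem_of_dvd _ (hw.dvd_of_dvd_pow h2) hw𝔪)
    · exact hx' h2
  have hD0 : intDiscr P B x ≠ 0 := fun h => hwD (h ▸ dvd_zero w)
  have hmkD0 : Ideal.Quotient.mk (Ideal.span {w}) (intDiscr P B x) ≠ 0 := by
    intro h
    exact hwD (Ideal.mem_span_singleton.mp (Ideal.Quotient.eq_zero_iff_mem.mp h))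
  have hdisc0 : Algebra.discr (P ⧸ Ideal.span {w}) bb ≠ 0 := by
    intro h
    rw [h, mul_zero] at hD
    exact hmkD0 hD
  refine ⟨hdisc0, ?_⟩
  have hmku : ¬ t ∣ Ideal.Quotient.mk (Ideal.span {w}) u := by
    intro h
    apply hu
    rw [mem_span_pair_iff_mk_dvd]
    exact hqt.dvd.trans h
  -- unramified primes through the closed point do not divide `D`
  have hunram : ∀ π : P, Prime π → π ∈ Ideal.span {w, q} → ¬ Associated π w →
      (∀ s ∈ S, ¬ Associated π s) → ¬ π ∣ intDiscr P B x := by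
    intro π hπ hπ𝔪 hπw hπS
    have hrad := hNC π hπ hπw hπS
    have hxπ : IsLocalBasis P B (Ideal.span {π}) n x :=
      IsLocalBasis.mono ((Ideal.span_singleton_le_iff_mem _).mpr hπ𝔪) hx
    have := hA5 P w hw hΛ₀ hℚ B π hπ hπw n x hxπ n x
      (fun a ha i => IsLocalBasis.dvd_coeff hx hπ hπ𝔪 a (hrad.radical ▸ ha) i)
    simpa using this
  rcases hqcase with hqS | hnoS
  · -- Case 1: the closed point is a branch point `q ∈ S`
    obtain ⟨hqprime, hqw, -, hqPID⟩ := hS1 q hqS
    obtain ⟨a, D₁, hDeq, hD₁⟩ := hA4 P (Ideal.span {w, q}) q hqprime (intDiscr P B x) hD0 (by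
      intro π hπ hπD hπ𝔪
      by_contra hne
      refine hunram π hπ hπ𝔪 ?_ ?_ hπD
      · intro hπw
        exact hwD (hπw.symm.dvd.trans hπD)
      · intro s hs hπs
        have hs𝔪 : s ∈ Ideal.span {w, q} := Ideal.mem_of_dvd _ hπs.dvd hπ𝔪
        by_cases hsq : q = s
        · subst hsq; exact hne hπs
        · exact hS2 q hqS s hs hsq hs𝔪)
    obtain ⟨r, y, hyi, hys⟩ := hA5' P B q hqprime hqPID
    have hxq : IsLocalBasis P B (Ideal.span {q}) n x :=
      IsLocalBasis.mono ((Ideal.span_singleton_le_iff_mem _).mpr (Ideal.subset_span (by simp))) hx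
    have hnd := hA5 P w hw hΛ₀ hℚ B q hqprime hqw n x hxq r y hyi
    have ha : a < n - r + 1 := by
      by_contra hcon
      push_neg at hcon
      apply hnd
      rw [hDeq]
      exact Dvd.dvd.mul_right (pow_dvd_pow q hcon) _
    refine ⟨r, fun i => Ideal.Quotient.mk _ (y i), ?_, ?_⟩
    · intro c
      obtain ⟨c, rfl⟩ := Ideal.Quotient.mk_surjective c
      obtain ⟨a', ha'⟩ := hys c
      refine ⟨fun i => Ideal.Quotient.mk _ (a' i), ?_⟩
      refine mk_sub_sum_mem_radical w y q t hqt c a' ?_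
      refine Ideal.radical_mono ?_ ha'
      rw [Ideal.span_le]
      intro z hz
      rw [Set.mem_singleton_iff] at hz; subst hz
      exact Ideal.subset_span (by simp)
    · intro hdvd
      have h1 : Ideal.Quotient.mk (Ideal.span {w}) q ^ (n - r + 1) ∣
          Ideal.Quotient.mk (Ideal.span {w}) (intDiscr P B x) := by
        rw [hD]
        exact Dvd.dvd.mul_left ((hqt.pow_pow.dvd).trans hdvd) _
      rw [hDeq, map_mul, map_pow] at h1
      have h2 : Ideal.Quotient.mk (Ideal.span {w}) q ^ (a + 1) ∣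
          Ideal.Quotient.mk (Ideal.span {w}) q ^ a * Ideal.Quotient.mk (Ideal.span {w}) D₁ :=
        (pow_dvd_pow _ (by omega)).trans h1
      rw [pow_succ, mul_dvd_mul_iff_left (pow_ne_zero _ hmkq_prime.ne_zero)] at h2
      exact hD₁ ((mem_span_pair_iff_mk_dvd w q D₁).mpr h2)
  · -- Case 2: no branch point at this closed point
    have hnoS' : ∀ s ∈ S, s ∉ Ideal.span {w, q} := hq𝔪 ▸ hnoS
    obtain ⟨a, D₁, hDeq, hD₁⟩ := hA4 P (Ideal.span {w, q}) w hw (intDiscr P B x) hD0 (by
      intro π hπ hπD hπ𝔪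
      by_contra hne
      refine hunram π hπ hπ𝔪 hne ?_ hπD
      intro s hs hπs
      exact hnoS' s hs (Ideal.mem_of_dvd _ hπs.dvd hπ𝔪))
    have ha0 : a = 0 := by
      by_contra h
      apply hwD
      rw [hDeq]
      exact Dvd.dvd.mul_right (dvd_pow_self w h) _
    subst ha0
    rw [pow_zero, one_mul] at hDeq
    obtain ⟨hli, g, hg, hsp⟩ := hx
    -- inverse of `g` modulo the maximal ideal
    obtain ⟨g', hg'⟩ : ∃ g', g * g' - 1 ∈ Ideal.span {w, q} := by
      have := h𝔪max.exists_inv hg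
      obtain ⟨g', m, hm, hgm⟩ := this
      refine ⟨g', ?_⟩
      have : g * g' - 1 = -m := by linear_combination hgm
      rw [this]; exact neg_mem hm
    refine ⟨n, fun i => Ideal.Quotient.mk _ (x i), ?_, ?_⟩
    · intro c
      obtain ⟨c, rfl⟩ := Ideal.Quotient.mk_surjective c
      have hgc := hsp c
      rw [Submodule.mem_span_range_iff_exists_fun] at hgc
      obtain ⟨cf, hcf⟩ := hgc
      refine ⟨fun i => Ideal.Quotient.mk _ (g' * cf i), ?_⟩
      refine mk_sub_sum_mem_radical w x q t hqt c (fun i => g' * cf i) ?_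
      apply Ideal.le_radical
      have e : c - ∑ i, (g' * cf i) • x i = algebraMap P B (-(g * g' - 1)) * c := by
        have : ∑ i, (g' * cf i) • x i = g' • (g • c) := by
          rw [← hcf, Finset.smul_sum]
          exact Finset.sum_congr rfl fun i _ => by rw [mul_smul]
        rw [this, Algebra.smul_def, Algebra.smul_def, map_neg, map_sub, map_mul, map_one]
        ring
      rw [e]
      refine Ideal.mul_mem_right _ _ ?_
      have hmap : Ideal.map (algebraMap P B) (Ideal.span {w, q})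
          = Ideal.span {algebraMap P B w, algebraMap P B q} := by
        rw [Ideal.map_span]; congr 1; simp [Set.image_pair]
      rw [← hmap]
      exact Ideal.mem_map_of_mem _ (neg_mem hg')
    · intro hdvd
      have hnn : n - n + 1 = 1 := by omega
      rw [hnn, pow_one] at hdvd
      have h1 : t ∣ Ideal.Quotient.mk (Ideal.span {w}) (intDiscr P B x) := by
        rw [hD]; exact Dvd.dvd.mul_left hdvd _
      apply hD₁
      rw [← hDeq, mem_span_pair_iff_mk_dvd]
      exact hqt.dvd.trans h1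

end Fermat.Agent.S18.B12.H33

end
end
-- ===== PACK-END S18/B12/H33/CoreMain.lean

-- ===== PACK-BEGIN S18/B12/H33/Regular.lean
section



/-!
# S18 b2.5 (helper33): OUTPUT O1 — `B2RegularStatement` from the pieces

`B2RegularStatement` (special fibre of the normal model is regular = `H754.RegularAlong (C w)`)
from `B2CoreAbsStatement` (heart), A0 (regular sequence), A8 (normality from discriminant bounds),
A9 (regular along a Dedekind fibre) and A1 (instantiation `P = R[X]`).
-/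

set_option autoImplicit false

noncomputable section

namespace Fermat.Agent.S18.B12.H33

open Polynomial

universe u v

section Abs

variable {P : Type u} [CommRing P] [IsDomain P] [IsIntegrallyClosed P]
  {B : Type v} [CommRing B] [IsDomain B] [IsIntegrallyClosed B] [Algebra P B]
  [Module.Finite P B] [Module.IsTorsionFree P B]

/-- `B/wB` is torsion-free over `P/(w)` (from A0). -/
theorem isTorsionFree_quotient (hA0 : RegSeqAbsStatement.{u, v}) (w : P) (hw : Prime w) :
    Module.IsTorsionFree (P ⧸ Ideal.span {w}) (B ⧸ (Ideal.span {w}).map (algebraMap P B)) := by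
  haveI : IsDomain (P ⧸ Ideal.span {w}) := by
    rw [Ideal.Quotient.isDomain_iff_prime]
    exact (Ideal.span_singleton_prime hw.ne_zero).mpr hw
  haveI : Algebra.IsIntegral P B := inferInstance
  have hJ : (Ideal.span {w}).map (algebraMap P B) = Ideal.span {algebraMap P B w} := by
    rw [Ideal.map_span, Set.image_singleton]
  refine Module.IsTorsionFree.of_smul_eq_zero fun a b hab => ?_
  obtain ⟨a, rfl⟩ := Ideal.Quotient.mk_surjective a
  obtain ⟨b, rfl⟩ := Ideal.Quotient.mk_surjective b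
  by_cases ha : w ∣ a
  · left
    exact Ideal.Quotient.eq_zero_iff_mem.mpr (Ideal.mem_span_singleton.mpr ha)
  · right
    rw [Ideal.Quotient.mk_smul_mk_quotient_map_quotient, Ideal.Quotient.eq_zero_iff_mem, hJ,
      Ideal.mem_span_singleton] at hab
    obtain ⟨c, hc⟩ := hab
    obtain ⟨b'', hb, -⟩ := hA0 P B a w hw ha b c hc
    rw [Ideal.Quotient.eq_zero_iff_mem, hJ, Ideal.mem_span_singleton]
    exact ⟨b'', hb⟩

end Abs

end Fermat.Agent.S18.B12.H33

namespace Fermat.Agent.S18.B12.H33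

open Polynomial

universe u v

/-- In `P/(w)`, the image of `p` is prime if `(w, p)` is maximal and `w ∤ p`. -/
theorem prime_mk_of_isMaximal {P : Type u} [CommRing P] [IsDomain P] (w p : P) (hw : Prime w)
    (hmax : (Ideal.span {w, p}).IsMaximal) (hwp : ¬ w ∣ p) :
    Prime (Ideal.Quotient.mk (Ideal.span {w}) p) := by
  haveI : IsDomain (P ⧸ Ideal.span {w}) := by
    rw [Ideal.Quotient.isDomain_iff_prime]
    exact (Ideal.span_singleton_prime hw.ne_zero).mpr hw
  have hne : Ideal.Quotient.mk (Ideal.span {w}) p ≠ 0 := by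
    intro h
    exact hwp (Ideal.mem_span_singleton.mp (Ideal.Quotient.eq_zero_iff_mem.mp h))
  rw [← Ideal.span_singleton_prime hne]
  have hcomap : Ideal.comap (Ideal.Quotient.mk (Ideal.span {w}))
      (Ideal.span {Ideal.Quotient.mk (Ideal.span {w}) p}) = Ideal.span {w, p} :=
    (span_pair_eq_comap w p).symm
  have hmap : Ideal.span {Ideal.Quotient.mk (Ideal.span {w}) p}
      = Ideal.map (Ideal.Quotient.mk (Ideal.span {w})) (Ideal.span {w, p}) := by
    rw [← hcomap, Ideal.map_comap_of_surjective _ Ideal.Quotient.mk_surjective]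
  rw [hmap]
  rcases Ideal.map_eq_top_or_isMaximal_of_surjective (Ideal.Quotient.mk (Ideal.span {w}))
    Ideal.Quotient.mk_surjective hmax with h | h
  · exfalso
    rw [← hmap] at h
    have : Ideal.span {w, p} = ⊤ := by
      rw [← hcomap, h, Ideal.comap_top]
    exact hmax.ne_top this
  · exact h.isPrime

theorem b2Regular_of_pieces
    (hcore : B2CoreAbsStatement.{u, v}) (hA0 : RegSeqAbsStatement.{u, v})
    (hA8 : IntClosedOfDiscrStatement.{u, v}) (hA9 : RegularAlongOfDedekindStatement.{v})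
    (hA1 : PolyInstStatement.{u}) : B2RegularStatement.{u, v} := by
  intro R _ _ _ _ w hw B _ _ _ _ _ _ hdom hsep S hS hNC 𝔪 h𝔪 hw𝔪
  obtain ⟨hCw, hΛ, hΛ₀, hℚ, hc⟩ := hA1 R w hw
  refine hA9 B (algebraMap R[X] B (C w)) ?_ 𝔪 h𝔪 hw𝔪
  have hJ : (Ideal.span {(C w : R[X])}).map (algebraMap R[X] B)
      = Ideal.span {algebraMap R[X] B (C w)} := by
    rw [Ideal.map_span, Set.image_singleton]
  rw [← hJ]
  -- instances on the special fibre
  haveI hJprime : ((Ideal.span {(C w : R[X])}).map (algebraMap R[X] B)).IsPrime := by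
    rw [hJ]; exact (Ideal.span_singleton_prime hdom.ne_zero).mpr hdom
  haveI := hΛ
  haveI : IsDomain (R[X] ⧸ Ideal.span {(C w : R[X])}) := by
    rw [Ideal.Quotient.isDomain_iff_prime]
    exact (Ideal.span_singleton_prime hCw.ne_zero).mpr hCw
  haveI tf := isTorsionFree_quotient (B := B) hA0 (C w : R[X]) hCw
  haveI : Module.Finite (R[X] ⧸ Ideal.span {(C w : R[X])})
      (B ⧸ (Ideal.span {(C w : R[X])}).map (algebraMap R[X] B)) :=
    Module.Finite.of_restrictScalars_finite R[X] _ _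
  haveI : Module.Free (R[X] ⧸ Ideal.span {(C w : R[X])})
      (B ⧸ (Ideal.span {(C w : R[X])}).map (algebraMap R[X] B)) :=
    Module.free_of_finite_type_torsion_free'
  let bb := Module.finBasis (R[X] ⧸ Ideal.span {(C w : R[X])})
      (B ⧸ (Ideal.span {(C w : R[X])}).map (algebraMap R[X] B))
  -- translate the hypotheses
  classical
  have hS1' : ∀ s ∈ S.image (fun c => (X - C c : R[X])), Prime s ∧ ¬ Associated s (C w) ∧
      (Ideal.span {(C w : R[X]), s}).IsMaximal ∧
      IsPrincipalIdealRing (R[X] ⧸ Ideal.span {s}) := by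
    intro s hs
    obtain ⟨c, -, rfl⟩ := Finset.mem_image.mp hs
    obtain ⟨h1, h2, h3, h4, -⟩ := hc c
    exact ⟨h1, h2, h3, h4⟩
  have hS2' : ∀ s ∈ S.image (fun c => (X - C c : R[X])),
      ∀ s' ∈ S.image (fun c => (X - C c : R[X])), s ≠ s' →
      s' ∉ Ideal.span {(C w : R[X]), s} := by
    intro s hs s' hs' hne hmem
    obtain ⟨c, hcS, rfl⟩ := Finset.mem_image.mp hs
    obtain ⟨c', hcS', rfl⟩ := Finset.mem_image.mp hs'
    have hcc : c ≠ c' := fun h => hne (by rw [h])
    exact (hc c).2.2.2.2 c' hmem (hS c hcS c' hcS' hcc)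
  have hNC' : ∀ π : R[X], Prime π → ¬ Associated π (C w) →
      (∀ s ∈ S.image (fun c => (X - C c : R[X])), ¬ Associated π s) →
      (Ideal.span {algebraMap R[X] B π}).IsRadical := by
    intro π hπ hπw hπS
    exact hNC π hπ hπw (fun c hcS => hπS _ (Finset.mem_image_of_mem _ hcS))
  have hcore' := hcore R[X] (C w) hCw hΛ hΛ₀ hℚ B hsep (S.image (fun c => (X - C c : R[X])))
    hS1' hS2' hNC'
  -- a prime of `Λ`
  obtain ⟨h01, h02, h03, -, -⟩ := hc 0
  have hw0 : ¬ (C w : R[X]) ∣ X - C 0 := by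
    intro hdvd
    obtain ⟨r, hr⟩ := hdvd
    rcases h01.irreducible.isUnit_or_isUnit hr with h | h
    · exact hCw.not_unit h
    · exact h02 ⟨h.unit⁻¹, by rw [hr, mul_assoc, IsUnit.mul_val_inv, mul_one]⟩
  have ht₀ := prime_mk_of_isMaximal (C w : R[X]) (X - C 0) hCw h03 hw0
  have hdisc := (hcore' _ ht₀ _ bb).1
  haveI : IsIntegrallyClosed (B ⧸ (Ideal.span {(C w : R[X])}).map (algebraMap R[X] B)) :=
    hA8 _ _ _ bb hdisc (fun t ht => (hcore' t ht _ bb).2)
  haveI : IsNoetherianRing B :=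
    isNoetherian_of_tower R[X] (isNoetherian_of_isNoetherianRing_of_finite R[X] B)
  haveI : Ring.DimensionLEOne (B ⧸ (Ideal.span {(C w : R[X])}).map (algebraMap R[X] B)) :=
    Ring.DimensionLEOne.of_isIntegral (R[X] ⧸ Ideal.span {(C w : R[X])}) _
  exact { }

end Fermat.Agent.S18.B12.H33

end
end
-- ===== PACK-END S18/B12/H33/Regular.lean

-- ===== PACK-BEGIN S18/H203/LiftBasis.lean
section


/-!
# S18 / b1 (helper203): lifting a basis of the special fibre — local freeness along `w = 0`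

`S` a Noetherian integrally closed domain, `w ∈ S` prime, `S̄ = S ⧸ (w)`, `B` the integral
closure of `S` in a finite extension `F` of `K = Frac S`, finite over `S`, `B̄ = B ⧸ (w) B`.
Let `b : ι → B` be a finite family whose reduction is an `S̄`-basis of `B̄`.  Then

* `exists_smul_mem_span` : there is `r ∈ S`, `r ≡ 1 mod w`, with `r • B ⊆ span_S b`
  (Nakayama), i.e. `b` generates `B` over the localisation `S[1/r]`;
* `linearIndependent_lift` : `b` is linearly independent over `S`;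
* `basisOfLift` : the image of `b` in `F` is a `K`-basis of `F`; in particular
  `card ι = [F : K]` (`card_eq_finrank`).

So `B` is free with basis `b` over the semi-local ring `(1 + w S)⁻¹ S`, in particular over the
local rings of `S` at all primes containing `w`: "B is locally free of rank `[F : K]` along the
special fibre".
-/

set_option autoImplicit false

namespace Fermat.Agent.S18.H203

open Ideal

section

variable {S B : Type*} [CommRing S] [CommRing B] [Algebra S B]

/-- The reduction map `B → B ⧸ (w) B`. -/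
abbrev redB (w : S) : B →+* B ⧸ (Ideal.span {w}).map (algebraMap S B) :=
  Ideal.Quotient.mk _

/-- The reduction map `S → S ⧸ (w)`. -/
abbrev redS (w : S) : S →+* S ⧸ Ideal.span {w} :=
  Ideal.Quotient.mk _

theorem redB_smul (w : S) (s : S) (β : B) :
    redB w (s • β) = redS w s • redB (S := S) w β := by
  rw [Ideal.Quotient.mk_smul_mk_quotient_map_quotient, Algebra.smul_def]

theorem redB_eq_zero_iff (w : S) (β : B) :
    redB (S := S) w β = 0 ↔ algebraMap S B w ∣ β := by
  rw [Ideal.Quotient.eq_zero_iff_mem, mem_map_span_singleton_iff]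

theorem redS_eq_zero_iff (w : S) (s : S) : redS w s = 0 ↔ w ∣ s := by
  rw [Ideal.Quotient.eq_zero_iff_mem, Ideal.mem_span_singleton]

variable {ι : Type*} [Fintype ι]

/-- Every element of `B` is congruent mod `w` to an `S`-combination of the lifts. -/
theorem exists_sum_add_mul (w : S) (b : ι → B)
    (hspan : Submodule.span (S ⧸ Ideal.span {w}) (Set.range fun i => redB (S := S) w (b i)) = ⊤)
    (β : B) : ∃ (c : ι → S) (β' : B), β = ∑ i, c i • b i + algebraMap S B w * β' := by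
  have hβ : redB (S := S) w β ∈
      Submodule.span (S ⧸ Ideal.span {w}) (Set.range fun i => redB (S := S) w (b i)) := by
    rw [hspan]; exact Submodule.mem_top
  obtain ⟨cb, hcb⟩ := (Submodule.mem_span_range_iff_exists_fun _).mp hβ
  choose c hc using fun i => Ideal.Quotient.mk_surjective (cb i)
  have h1 : redB (S := S) w (β - ∑ i, c i • b i) = 0 := by
    rw [map_sub, map_sum, ← hcb, sub_eq_zero]
    refine Finset.sum_congr rfl fun i _ => ?_
    rw [redB_smul, hc i]
  rw [redB_eq_zero_iff] at h1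
  obtain ⟨β', hβ'⟩ := h1
  exact ⟨c, β', by rw [← hβ']; ring⟩

/-- **Nakayama**: a single `r ≡ 1 mod w` with `r • B ⊆ span_S b`. -/
theorem exists_smul_mem_span [Module.Finite S B] (w : S) (b : ι → B)
    (hspan : Submodule.span (S ⧸ Ideal.span {w}) (Set.range fun i => redB (S := S) w (b i)) = ⊤) :
    ∃ r : S, r - 1 ∈ Ideal.span {w} ∧
      ∀ β : B, r • β ∈ Submodule.span S (Set.range b) := by
  set N : Submodule S B := Submodule.span S (Set.range b) with hN
  have hfg : (⊤ : Submodule S (B ⧸ N)).FG := Module.finite_def.mp inferInstance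
  have hle : (⊤ : Submodule S (B ⧸ N)) ≤ Ideal.span {w} • ⊤ := by
    intro x _
    obtain ⟨β, rfl⟩ := N.mkQ_surjective x
    obtain ⟨c, β', hβ⟩ := exists_sum_add_mul w b hspan β
    have h1 : N.mkQ β = w • N.mkQ β' := by
      rw [hβ, map_add, ← map_smul, Algebra.smul_def]
      have h2 : N.mkQ (∑ i, c i • b i) = 0 := by
        rw [Submodule.mkQ_apply, Submodule.Quotient.mk_eq_zero]
        exact Submodule.sum_mem _ fun i _ =>
          Submodule.smul_mem _ _ (Submodule.subset_span ⟨i, rfl⟩)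
      rw [h2, zero_add]
    rw [h1]
    exact Submodule.smul_mem_smul (Ideal.mem_span_singleton_self w) Submodule.mem_top
  obtain ⟨r, hr1, hr⟩ :=
    Submodule.exists_sub_one_mem_and_smul_eq_zero_of_fg_of_le_smul (Ideal.span {w}) ⊤ hfg hle
  refine ⟨r, hr1, fun β => ?_⟩
  have h3 := hr (N.mkQ β) Submodule.mem_top
  rw [← map_smul, Submodule.mkQ_apply, Submodule.Quotient.mk_eq_zero] at h3
  exact h3

end

section Indep

variable {S B : Type*} [CommRing S] [IsDomain S] [IsNoetherianRing S]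
  [CommRing B] [Algebra S B] [Module.IsTorsionFree S B]
  {ι : Type*} [Fintype ι]

/-- In a Noetherian domain, an element divisible by all powers of a prime element is zero. -/
theorem eq_zero_of_forall_pow_dvd {w : S} (hw : Prime w) {a : S} (h : ∀ k : ℕ, w ^ k ∣ a) :
    a = 0 := by
  by_contra ha
  have hfin : FiniteMultiplicity w a := FiniteMultiplicity.of_not_isUnit hw.not_isUnit ha
  obtain ⟨n, hn⟩ := hfin
  exact hn (h (n + 1))

/-- **Linear independence of the lifts.** -/
theorem linearIndependent_lift {w : S} (hw : Prime w) (b : ι → B)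
    (hli : LinearIndependent (S ⧸ Ideal.span {w}) fun i => redB (S := S) w (b i)) :
    LinearIndependent S b := by
  rw [Fintype.linearIndependent_iff]
  intro a ha
  -- all coefficients are divisible by all powers of `w`
  have key : ∀ k : ℕ, ∀ a : ι → S, ∑ i, a i • b i = 0 → ∀ i, w ^ k ∣ a i := by
    intro k
    induction k with
    | zero => intro a _ i; simp
    | succ k ih =>
      intro a ha i
      have h1 := ih a ha
      choose a' ha' using h1
      have h2 : ∑ i, a' i • b i = 0 := by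
        have h3 : w ^ k • ∑ i, a' i • b i = 0 := by
          rw [Finset.smul_sum, ← ha]
          refine Finset.sum_congr rfl fun i _ => ?_
          rw [smul_smul, ← ha' i]
        exact (smul_eq_zero_iff_right (pow_ne_zero k hw.ne_zero)).mp h3
      have h4 : ∑ i, redS w (a' i) • redB (S := S) w (b i) = 0 := by
        have := congrArg (redB (S := S) w) h2
        rw [map_sum, map_zero] at this
        rw [← this]
        refine Finset.sum_congr rfl fun i _ => ?_
        rw [redB_smul]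
      have h5 := Fintype.linearIndependent_iff.mp hli _ h4 i
      rw [redS_eq_zero_iff] at h5
      obtain ⟨c, hc⟩ := h5
      exact ⟨c, by rw [ha' i, hc, pow_succ]; ring⟩
  intro i
  exact eq_zero_of_forall_pow_dvd hw fun k => key k a ha i

end Indep

end Fermat.Agent.S18.H203

end
-- ===== PACK-END S18/H203/LiftBasis.lean

-- ===== PACK-BEGIN S18/B12/H203/RedBasisAbs.lean
section






/-!
# S18 / b2.5, piece A5': reduced basis at a prime `s` with `P/(s)` a PID (`RedBasisAbsStatement`)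

Adapter: `H693.exists_redBasis` applied to `B/sB` over `P/(s)`, which is finite and torsion-free
(`H203.isTorsionFree_quotient`, `H203.finite_quotient`).
-/

set_option autoImplicit false

noncomputable section

namespace Fermat.Agent.S18.B12.H203

open Fermat.Agent.S18.H203

universe u v

/-- Nilpotency in `B/sB` is membership in `rad (sB)`. -/
theorem isNilpotent_redB_iff {P : Type*} {B : Type*} [CommRing P] [CommRing B] [Algebra P B]
    (s : P) (b : B) :
    IsNilpotent (redB (S := P) s b) ↔ b ∈ (Ideal.span {algebraMap P B s}).radical := by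
  rw [← map_span_singleton_eq]
  constructor
  · rintro ⟨k, hk⟩
    rw [← map_pow, Ideal.Quotient.eq_zero_iff_mem] at hk
    exact ⟨k, hk⟩
  · rintro ⟨k, hk⟩
    refine ⟨k, ?_⟩
    rw [← map_pow, Ideal.Quotient.eq_zero_iff_mem]
    exact hk

/-- **A5' (reduced basis at a prime `s` with `P/(s)` a PID).** -/
theorem redBasisAbs.{u₁, v₁} : RedBasisAbsStatement.{u₁, v₁} := by
  intro P _ _ _ B _ _ _ _ _ _ s hs hpid
  let _ : Algebra (FractionRing P) (FractionRing B) := FractionRing.liftAlgebra P _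
  have : IsScalarTower P (FractionRing P) (FractionRing B) :=
    FractionRing.isScalarTower_liftAlgebra P (FractionRing B)
  have : IsIntegralClosure B P (FractionRing B) :=
    IsIntegralClosure.of_isIntegrallyClosed _ _ _
  have hprime : (Ideal.span {s}).IsPrime := (Ideal.span_singleton_prime hs.ne_zero).mpr hs
  have hdom : IsDomain (P ⧸ Ideal.span {s}) := Ideal.Quotient.isDomain _
  have htf : Module.IsTorsionFree (P ⧸ Ideal.span {s})
      (B ⧸ (Ideal.span {s}).map (algebraMap P B)) :=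
    isTorsionFree_quotient (B := B) (FractionRing P) (FractionRing B) hs
  have hfin : Module.Finite (P ⧸ Ideal.span {s})
      (B ⧸ (Ideal.span {s}).map (algebraMap P B)) := finite_quotient (B := B) (Ideal.span {s})
  obtain ⟨r, yb, h1, h2⟩ := Fermat.Agent.S18.B12.H693.exists_redBasis (P ⧸ Ideal.span {s})
    (B ⧸ (Ideal.span {s}).map (algebraMap P B))
  choose y hy using fun i => Ideal.Quotient.mk_surjective (yb i)
  have hsum : ∀ a : Fin r → P,
      redB (S := P) s (∑ i, a i • y i) = ∑ i, redS s (a i) • yb i := by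
    intro a
    rw [map_sum]
    refine Finset.sum_congr rfl fun i _ => ?_
    rw [redB_smul, ← hy i]
  refine ⟨r, y, ?_, ?_⟩
  · intro a ha i
    have h3 : IsNilpotent (∑ i, redS s (a i) • yb i) := by
      rw [← hsum]
      exact (isNilpotent_redB_iff s _).mpr ha
    have h4 := congrFun (h1 _ h3) i
    exact (redS_eq_zero_iff s (a i)).mp h4
  · intro b
    obtain ⟨ab, hab⟩ := h2 (redB (S := P) s b)
    choose a ha using fun i => Ideal.Quotient.mk_surjective (ab i)
    refine ⟨a, ?_⟩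
    rw [← isNilpotent_redB_iff, map_sub, hsum]
    have : (fun i => redS s (a i)) = ab := funext ha
    simp only [this] at *
    have hfun : (∑ i, redS s (a i) • yb i) = ∑ i, ab i • yb i :=
      Finset.sum_congr rfl fun i _ => by rw [← ha i]
    rw [hfun]
    exact hab

end Fermat.Agent.S18.B12.H203

end
end
-- ===== PACK-END S18/B12/H203/RedBasisAbs.lean

-- ===== PACK-BEGIN S18/B12/H444/GenericDiscr.lean
section




/-!
# S18 / b2.5 / A5 (helper444): the generic-fibre discriminant bound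

Frozen statement: `GenericDiscrStatement` of `Fermat/Agent/S18/B12/Spec2.lean` (helper33);
exact-shape theorem `genericDiscr : GenericDiscrStatement` in `GenericDiscrSpec.lean`.

Main theorem here (abstract over the localisations `Λ = P[1/w]`, `C₀ = B[1/w]`):

    theorem genericDiscr_abs  -- P int. closed noetherian domain, B normal finite torsion-free / P,
        (w : P) (hw0 : w ≠ 0) Λ C₀ [IsLocalization (powers w) Λ]
        [IsLocalization (algebraMapSubmonoid B (powers w)) C₀] [IsPrincipalIdealRing Λ] [Algebra ℚ Λ]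
        (π : P) (hπ : Prime π) (hπw : ¬ π ∣ w) (n) (x : Fin n → B) (hli : LinearIndependent P x)
        (g : P) (hgπ : ¬ π ∣ g) (hg : ∀ b, g • b ∈ span P (range x)) (r) (y : Fin r → B)
        (hy : ∀ a, ∑ i, a i • y i ∈ (span {algebraMap P B π}).radical → ∀ i, π ∣ a i) :
        ¬ π ^ (n - r + 1) ∣ (Matrix.of fun i j => Algebra.intTrace P B (x i * x j)).det

Proof: `C₀` is a Dedekind domain, free of rank `n` over the PID `Λ`; the integral trace localises
(`Algebra.intTrace_eq_of_isLocalization`); the base-change matrix `U` from a `Λ`-basis `β` of `C₀`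
to `x` has `t ∤ det U` (`t` = image of `π`), so `t^k ∣ disc(x) = det U² · disc β` forces
`t^k ∣ disc β`, contradicting helper274's tame bound `H274.tameDiscr`.  The independence of `y`
modulo `rad(t C₀)` descends from `B` by clearing denominators and the regular-sequence lemma
`dvd_of_mul_eq_mul` (A0-type, via helper203's `isIntegral_of_isIntegral_mul`).
-/

set_option autoImplicit false

noncomputable section

namespace Fermat.Agent.S18.B12.H444

open Polynomial Module Matrix

universe u v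

section RegSeq

variable {P : Type u} [CommRing P] [IsDomain P] [IsIntegrallyClosed P]
  {B : Type v} [CommRing B] [IsDomain B] [IsIntegrallyClosed B] [Algebra P B]
  [Algebra.IsIntegral P B] [Module.IsTorsionFree P B]

/-- Regular sequence (A0-type): `π` prime in `P`, `π ∤ u`, `u z ∈ π B` implies `z ∈ π B`. -/
theorem dvd_of_mul_eq_mul {π u : P} (hπ : Prime π) (hu : ¬ π ∣ u) {z b : B}
    (h : algebraMap P B u * z = algebraMap P B π * b) :
    ∃ b'' : B, z = algebraMap P B π * b'' := by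
  let K := FractionRing P
  let F := FractionRing B
  letI : Algebra K F := FractionRing.liftAlgebra P F
  haveI : IsScalarTower P K F := FractionRing.isScalarTower_liftAlgebra P F
  have hinjPB : Function.Injective (algebraMap P B) := FaithfulSMul.algebraMap_injective P B
  have hπB : algebraMap P B π ≠ 0 := (map_ne_zero_iff _ hinjPB).mpr hπ.ne_zero
  have hπF : algebraMap P F π ≠ 0 := by
    rw [IsScalarTower.algebraMap_apply P B F]
    exact (map_ne_zero_iff _ (IsFractionRing.injective B F)).mpr hπB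
  set ζ : F := (algebraMap P F π)⁻¹ * algebraMap B F z with hζ
  have h1 : algebraMap P F π * ζ = algebraMap B F z := by
    rw [hζ, mul_inv_cancel_left₀ hπF]
  have h2 : algebraMap P F u * ζ = algebraMap B F b := by
    have h' := congrArg (algebraMap B F) h
    rw [map_mul, map_mul, ← IsScalarTower.algebraMap_apply P B F,
      ← IsScalarTower.algebraMap_apply P B F] at h'
    rw [hζ, mul_left_comm, h', inv_mul_cancel_left₀ hπF]
  have hint : IsIntegral P ζ := by
    refine Fermat.Agent.S18.H203.isIntegral_of_isIntegral_mul K hπ hu ?_ ?_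
    · rw [h1]
      exact (Algebra.IsIntegral.isIntegral (R := P) z).map (IsScalarTower.toAlgHom P B F)
    · rw [h2]
      exact (Algebra.IsIntegral.isIntegral (R := P) b).map (IsScalarTower.toAlgHom P B F)
  have hintB : IsIntegral B ζ := hint.tower_top
  obtain ⟨b'', hb''⟩ := (IsIntegrallyClosed.isIntegral_iff (R := B) (K := F)).mp hintB
  refine ⟨b'', ?_⟩
  apply IsFractionRing.injective B F
  rw [map_mul, hb'', ← h1, IsScalarTower.algebraMap_apply P B F]

end RegSeq

section Loc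

theorem powers_le_nonZeroDivisors' {P : Type u} [CommRing P] [IsDomain P] (w : P) (hw0 : w ≠ 0) :
    Submonoid.powers w ≤ nonZeroDivisors P := by
  rintro a ⟨k, rfl⟩
  exact mem_nonZeroDivisors_of_ne_zero (pow_ne_zero k hw0)

theorem map_powers_le_nonZeroDivisors' {P : Type u} [CommRing P] [IsDomain P]
    (B : Type v) [CommRing B] [IsDomain B] [Algebra P B] [Module.IsTorsionFree P B]
    (w : P) (hw0 : w ≠ 0) :
    Algebra.algebraMapSubmonoid B (Submonoid.powers w) ≤ nonZeroDivisors B := by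
  rintro a ⟨b, ⟨k, rfl⟩, rfl⟩
  refine mem_nonZeroDivisors_of_ne_zero ?_
  exact (map_ne_zero_iff _ (FaithfulSMul.algebraMap_injective P B)).mpr (pow_ne_zero k hw0)

theorem isDomain_loc {P : Type u} [CommRing P] [IsDomain P]
    (B : Type v) [CommRing B] [IsDomain B] [Algebra P B] [Module.IsTorsionFree P B]
    (w : P) (C₀ : Type v) [CommRing C₀] [Algebra B C₀]
    [IsLocalization (Algebra.algebraMapSubmonoid B (Submonoid.powers w)) C₀]
    (hw0 : w ≠ 0) : IsDomain C₀ :=
  IsLocalization.isDomain_of_le_nonZeroDivisors _ (map_powers_le_nonZeroDivisors' B w hw0)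

theorem injective_algebraMap_loc {P : Type u} [CommRing P] [IsDomain P]
    (B : Type v) [CommRing B] [IsDomain B] [Algebra P B] [Module.IsTorsionFree P B]
    (w : P)
    (Λ : Type u) [CommRing Λ] [Algebra P Λ] [IsLocalization (Submonoid.powers w) Λ]
    (C₀ : Type v) [CommRing C₀] [Algebra B C₀] [Algebra Λ C₀] [Algebra P C₀]
    [IsScalarTower P Λ C₀] [IsScalarTower P B C₀]
    [IsLocalization (Algebra.algebraMapSubmonoid B (Submonoid.powers w)) C₀]
    (hw0 : w ≠ 0) : Function.Injective (algebraMap Λ C₀) := by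
  have hBC : Function.Injective (algebraMap B C₀) :=
    IsLocalization.injective C₀ (map_powers_le_nonZeroDivisors' B w hw0)
  have hPB : Function.Injective (algebraMap P B) := FaithfulSMul.algebraMap_injective P B
  rw [injective_iff_map_eq_zero]
  intro a ha
  obtain ⟨⟨p, s⟩, hps⟩ := IsLocalization.surj (Submonoid.powers w) a
  simp only at hps
  have h1 : algebraMap Λ C₀ (algebraMap P Λ p) = 0 := by
    rw [← hps, map_mul, ha, zero_mul]
  rw [← IsScalarTower.algebraMap_apply, IsScalarTower.algebraMap_apply P B C₀] at h1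
  have h2 : p = 0 := by
    have := (map_eq_zero_iff _ hBC).mp h1
    exact (map_eq_zero_iff _ hPB).mp this
  rw [h2, map_zero] at hps
  have hu : IsUnit (algebraMap P Λ s) := IsLocalization.map_units Λ s
  exact (hu.mul_left_eq_zero).mp hps

theorem isDedekindDomain_loc {P : Type u} [CommRing P] [IsDomain P] [IsNoetherianRing P]
    (B : Type v) [CommRing B] [IsDomain B] [IsIntegrallyClosed B] [Algebra P B]
    [Module.Finite P B] [Module.IsTorsionFree P B]
    (w : P)
    (Λ : Type u) [CommRing Λ] [Algebra P Λ] [IsLocalization (Submonoid.powers w) Λ]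
    (C₀ : Type v) [CommRing C₀] [Algebra B C₀] [Algebra Λ C₀] [Algebra P C₀]
    [IsScalarTower P Λ C₀] [IsScalarTower P B C₀]
    [IsLocalization (Algebra.algebraMapSubmonoid B (Submonoid.powers w)) C₀]
    [IsDomain Λ] [IsPrincipalIdealRing Λ] (hw0 : w ≠ 0) :
    IsDedekindDomain C₀ := by
  have : IsDomain C₀ := isDomain_loc B w C₀ hw0
  have : IsNoetherianRing B := IsNoetherianRing.of_finite P B
  have : IsNoetherianRing C₀ :=
    IsLocalization.isNoetherianRing (Algebra.algebraMapSubmonoid B (Submonoid.powers w)) C₀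
      inferInstance
  have : IsIntegrallyClosed C₀ :=
    isIntegrallyClosed_of_isLocalization C₀ _ (map_powers_le_nonZeroDivisors' B w hw0)
  have : Module.Finite Λ C₀ := Module.Finite.of_isLocalization P B (Submonoid.powers w)
  have : Algebra.IsIntegral Λ C₀ := Algebra.IsIntegral.of_finite Λ C₀
  have : Ring.DimensionLEOne C₀ := Ring.DimensionLEOne.of_isIntegral Λ C₀
  exact { }

end Loc

section Abstract

variable {P : Type u} [CommRing P] [IsDomain P]
  (w : P)
  (Λ : Type u) [CommRing Λ] [Algebra P Λ] [IsLocalization (Submonoid.powers w) Λ]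

include w in
omit [IsDomain P] in
theorem not_dvd_pow_of_not_dvd {π : P} (hπ : Prime π) (hπw : ¬ π ∣ w) (k : ℕ) : ¬ π ∣ w ^ k :=
  fun h => hπw (hπ.dvd_of_dvd_pow h)

omit [IsDomain P] in
theorem disjoint_powers {π : P} (hπ : Prime π) (hπw : ¬ π ∣ w) :
    Disjoint (Submonoid.powers w : Set P) (Ideal.span {π} : Ideal P) := by
  rw [Set.disjoint_left]
  rintro a ⟨k, rfl⟩ ha
  exact not_dvd_pow_of_not_dvd w hπ hπw k (Ideal.mem_span_singleton.mp ha)

theorem prime_map {π : P} (hπ : Prime π) (hπw : ¬ π ∣ w) (hw0 : w ≠ 0) :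
    Prime (algebraMap P Λ π) := by
  have hinj : Function.Injective (algebraMap P Λ) :=
    IsLocalization.injective Λ (powers_le_nonZeroDivisors' w hw0)
  have h0 : algebraMap P Λ π ≠ 0 := (map_ne_zero_iff _ hinj).mpr hπ.ne_zero
  rw [← Ideal.span_singleton_prime h0]
  have := IsLocalization.isPrime_of_isPrime_disjoint (Submonoid.powers w) Λ (Ideal.span {π})
    ((Ideal.span_singleton_prime hπ.ne_zero).mpr hπ) (disjoint_powers w hπ hπw)
  rwa [Ideal.map_span, Set.image_singleton] at this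

omit [IsDomain P] in
theorem dvd_of_map_dvd {π : P} (hπ : Prime π) (hπw : ¬ π ∣ w) {a : P}
    (h : algebraMap P Λ π ∣ algebraMap P Λ a) : π ∣ a := by
  have h1 := IsLocalization.under_map_of_isPrime_disjoint (Submonoid.powers w) Λ
    ((Ideal.span_singleton_prime hπ.ne_zero).mpr hπ) (disjoint_powers w hπ hπw)
  have h2 : a ∈ (Ideal.map (algebraMap P Λ) (Ideal.span {π})).under P := by
    rw [Ideal.under_def, Ideal.mem_comap, Ideal.map_span, Set.image_singleton]
    exact Ideal.mem_span_singleton.mpr h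
  rw [h1] at h2
  exact Ideal.mem_span_singleton.mp h2

end Abstract
section Loc2

/-- The trace of `B[1/w]` over `P[1/w]` restricts to the integral trace of `B` over `P`. -/
theorem map_intTrace_eq_trace {P : Type u} [CommRing P] [IsDomain P] [IsIntegrallyClosed P]
    (B : Type v) [CommRing B] [IsDomain B] [IsIntegrallyClosed B] [Algebra P B]
    [Module.Finite P B] [Module.IsTorsionFree P B]
    (w : P)
    (Λ : Type u) [CommRing Λ] [Algebra P Λ] [IsLocalization (Submonoid.powers w) Λ]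
    (C₀ : Type v) [CommRing C₀] [Algebra B C₀] [Algebra Λ C₀] [Algebra P C₀]
    [IsScalarTower P Λ C₀] [IsScalarTower P B C₀]
    [IsLocalization (Algebra.algebraMapSubmonoid B (Submonoid.powers w)) C₀]
    [IsDomain Λ] [IsPrincipalIdealRing Λ] (hw0 : w ≠ 0) (b : B) :
    algebraMap P Λ (Algebra.intTrace P B b) = Algebra.trace Λ C₀ (algebraMap B C₀ b) := by
  have : IsDomain C₀ := isDomain_loc B w C₀ hw0
  have : IsIntegrallyClosed C₀ :=
    isIntegrallyClosed_of_isLocalization C₀ _ (map_powers_le_nonZeroDivisors' B w hw0)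
  have : Module.Finite Λ C₀ := Module.Finite.of_isLocalization P B (Submonoid.powers w)
  have : Module.IsTorsionFree Λ C₀ :=
    isTorsionFree_iff_algebraMap_injective.mpr (injective_algebraMap_loc B w Λ C₀ hw0)
  have : Module.Free Λ C₀ := Module.free_of_finite_type_torsion_free'
  rw [Algebra.intTrace_eq_of_isLocalization P B (Submonoid.powers w) (Aₘ := Λ) (Bₘ := C₀) b,
    Algebra.intTrace_eq_trace]

/-- Radical membership descends from `B[1/w]` to `B` (regular sequence `π, w`). -/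
theorem mem_radical_of_map_mem_radical {P : Type u} [CommRing P] [IsDomain P]
    [IsIntegrallyClosed P]
    (B : Type v) [CommRing B] [IsDomain B] [IsIntegrallyClosed B] [Algebra P B]
    [Module.Finite P B] [Module.IsTorsionFree P B]
    (w : P)
    (Λ : Type u) [CommRing Λ] [Algebra P Λ]
    (C₀ : Type v) [CommRing C₀] [Algebra B C₀] [Algebra Λ C₀] [Algebra P C₀]
    [IsScalarTower P Λ C₀] [IsScalarTower P B C₀]
    [IsLocalization (Algebra.algebraMapSubmonoid B (Submonoid.powers w)) C₀]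
    (hw0 : w ≠ 0) {π : P} (hπ : Prime π) (hπw : ¬ π ∣ w) {z : B}
    (h : algebraMap B C₀ z ∈ (Ideal.span {algebraMap Λ C₀ (algebraMap P Λ π)}).radical) :
    z ∈ (Ideal.span {algebraMap P B π}).radical := by
  have hBC : Function.Injective (algebraMap B C₀) :=
    IsLocalization.injective C₀ (map_powers_le_nonZeroDivisors' B w hw0)
  obtain ⟨N, hN⟩ := h
  obtain ⟨c, hc⟩ := Ideal.mem_span_singleton'.mp hN
  obtain ⟨⟨b, s⟩, hbs⟩ :=
    IsLocalization.surj (Algebra.algebraMapSubmonoid B (Submonoid.powers w)) c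
  simp only at hbs
  obtain ⟨s', ⟨k, rfl⟩, hs'⟩ := s.2
  have hs'' : (s : B) = algebraMap P B (w ^ k) := hs'.symm
  have e1 : algebraMap Λ C₀ (algebraMap P Λ π) = algebraMap B C₀ (algebraMap P B π) := by
    rw [← IsScalarTower.algebraMap_apply, ← IsScalarTower.algebraMap_apply]
  have key : algebraMap P B (w ^ k) * z ^ N = algebraMap P B π * b := by
    apply hBC
    rw [map_mul, map_mul, map_pow (algebraMap B C₀) z N, ← hc, e1, ← hbs, hs'']
    ring
  have hnd : ¬ π ∣ w ^ k := fun h => hπw (hπ.dvd_of_dvd_pow h)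
  obtain ⟨b'', hb''⟩ := dvd_of_mul_eq_mul hπ hnd key
  refine ⟨N, Ideal.mem_span_singleton'.mpr ⟨b'', ?_⟩⟩
  rw [hb'', mul_comm]

/-- A local spanning family stays spanning (up to `g`) after inverting `w`. -/
theorem smul_mem_span_loc {P : Type u} [CommRing P]
    (B : Type v) [CommRing B] [Algebra P B]
    (w : P)
    (Λ : Type u) [CommRing Λ] [Algebra P Λ] [IsLocalization (Submonoid.powers w) Λ]
    (C₀ : Type v) [CommRing C₀] [Algebra B C₀] [Algebra Λ C₀] [Algebra P C₀]
    [IsScalarTower P Λ C₀] [IsScalarTower P B C₀]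
    [IsLocalization (Algebra.algebraMapSubmonoid B (Submonoid.powers w)) C₀]
    {n : ℕ} (x : Fin n → B) (g : P)
    (hg : ∀ b : B, g • b ∈ Submodule.span P (Set.range x)) (c : C₀) :
    algebraMap P Λ g • c ∈ Submodule.span Λ (Set.range (algebraMap B C₀ ∘ x)) := by
  obtain ⟨⟨b, s⟩, hbs⟩ :=
    IsLocalization.surj (Algebra.algebraMapSubmonoid B (Submonoid.powers w)) c
  simp only at hbs
  obtain ⟨s', ⟨k, rfl⟩, hs'⟩ := s.2
  have hs'' : (s : B) = algebraMap P B (w ^ k) := hs'.symm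
  have hu : IsUnit (algebraMap P Λ (w ^ k)) :=
    IsLocalization.map_units Λ (⟨w ^ k, k, rfl⟩ : Submonoid.powers w)
  obtain ⟨v, hv⟩ := hu.exists_left_inv
  -- `c = v • ι b`
  have hc : c = v • algebraMap B C₀ b := by
    rw [← hbs, hs'', ← IsScalarTower.algebraMap_apply P B C₀,
      IsScalarTower.algebraMap_apply P Λ C₀, Algebra.smul_def, ← mul_assoc, mul_comm _ c,
      mul_assoc, ← map_mul, hv, map_one, mul_one]
  -- `ι (g • b)` lies in the span
  have h1 : algebraMap B C₀ (g • b) ∈ Submodule.span Λ (Set.range (algebraMap B C₀ ∘ x)) := by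
    have h2 := hg b
    have h3 : (IsScalarTower.toAlgHom P B C₀).toLinearMap (g • b) ∈
        Submodule.map (IsScalarTower.toAlgHom P B C₀).toLinearMap
          (Submodule.span P (Set.range x)) := Submodule.mem_map_of_mem h2
    rw [Submodule.map_span, ← Set.range_comp] at h3
    have h4 : Submodule.span P (Set.range ((IsScalarTower.toAlgHom P B C₀).toLinearMap ∘ x)) ≤
        (Submodule.span Λ (Set.range (algebraMap B C₀ ∘ x))).restrictScalars P :=
      Submodule.span_le_restrictScalars P Λ _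
    exact h4 h3
  have h5 : algebraMap P Λ g • c = v • algebraMap B C₀ (g • b) := by
    rw [hc, Algebra.smul_def g b, map_mul, ← IsScalarTower.algebraMap_apply P B C₀,
      IsScalarTower.algebraMap_apply P Λ C₀, ← Algebra.smul_def, smul_comm]
  rw [h5]
  exact Submodule.smul_mem _ _ h1

end Loc2

section Main

/-- **A5, abstract form.**  `Λ = P[1/w]` a PID containing `ℚ`, `C₀ = B[1/w]`. -/
theorem genericDiscr_abs {P : Type u} [CommRing P] [IsDomain P] [IsIntegrallyClosed P]
    [IsNoetherianRing P]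
    (B : Type v) [CommRing B] [IsDomain B] [IsIntegrallyClosed B] [Algebra P B]
    [Module.Finite P B] [Module.IsTorsionFree P B]
    (w : P) (hw0 : w ≠ 0)
    (Λ : Type u) [CommRing Λ] [Algebra P Λ] [IsLocalization (Submonoid.powers w) Λ]
    (C₀ : Type v) [CommRing C₀] [Algebra B C₀] [Algebra Λ C₀] [Algebra P C₀]
    [IsScalarTower P Λ C₀] [IsScalarTower P B C₀]
    [IsLocalization (Algebra.algebraMapSubmonoid B (Submonoid.powers w)) C₀]
    [IsDomain Λ] [IsPrincipalIdealRing Λ] [Algebra ℚ Λ]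
    (π : P) (hπ : Prime π) (hπw : ¬ π ∣ w)
    (n : ℕ) (x : Fin n → B) (hli : LinearIndependent P x)
    (g : P) (hgπ : ¬ π ∣ g) (hg : ∀ b : B, g • b ∈ Submodule.span P (Set.range x))
    (r : ℕ) (y : Fin r → B)
    (hy : ∀ a : Fin r → P,
      (∑ i, a i • y i) ∈ (Ideal.span {algebraMap P B π}).radical → ∀ i, π ∣ a i) :
    ¬ π ^ (n - r + 1) ∣ (Matrix.of fun i j => Algebra.intTrace P B (x i * x j)).det := by
  classical
  have hD : IsDedekindDomain C₀ := isDedekindDomain_loc B w Λ C₀ hw0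
  have : Module.Finite Λ C₀ := Module.Finite.of_isLocalization P B (Submonoid.powers w)
  have hinjΛ := injective_algebraMap_loc B w Λ C₀ hw0
  have : Module.IsTorsionFree Λ C₀ := isTorsionFree_iff_algebraMap_injective.mpr hinjΛ
  have : Module.Free Λ C₀ := Module.free_of_finite_type_torsion_free'
  have hinjP : Function.Injective (algebraMap P Λ) :=
    IsLocalization.injective Λ (powers_le_nonZeroDivisors' w hw0)
  set t := algebraMap P Λ π with ht_def
  have ht : Prime t := prime_map w Λ hπ hπw hw0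
  set x' : Fin n → C₀ := algebraMap B C₀ ∘ x with hx'
  have hli' : LinearIndependent Λ x' :=
    hli.localization_localization (Rₛ := Λ) (Submonoid.powers w) C₀
  have hg0 : algebraMap P Λ g ≠ 0 := by
    intro h
    apply hgπ
    have : g = 0 := hinjP (by rw [h, map_zero])
    rw [this]
    exact dvd_zero π
  have hspan : ∀ c : C₀, algebraMap P Λ g • c ∈ Submodule.span Λ (Set.range x') :=
    fun c => smul_mem_span_loc B w Λ C₀ x g hg c
  -- rank
  have hn : Module.finrank Λ C₀ = n := by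
    apply le_antisymm
    · let φ : C₀ →ₗ[Λ] Submodule.span Λ (Set.range x') :=
        LinearMap.codRestrict _ (algebraMap P Λ g • LinearMap.id) hspan
      have hφ : Function.Injective φ := by
        intro c c' hcc
        have h1 : algebraMap P Λ g • c = algebraMap P Λ g • c' := congrArg Subtype.val hcc
        exact smul_right_injective C₀ hg0 h1
      calc Module.finrank Λ C₀
          ≤ Module.finrank Λ (Submodule.span Λ (Set.range x')) :=
            LinearMap.finrank_le_finrank_of_injective hφ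
        _ ≤ Fintype.card (Fin n) := finrank_range_le_card x'
        _ = n := Fintype.card_fin n
    · have := hli'.fintype_card_le_finrank
      simpa using this
  let β : Module.Basis (Fin n) Λ C₀ := Module.finBasisOfFinrankEq Λ C₀ hn
  let U : Matrix (Fin n) (Fin n) Λ := fun i j => β.repr (x' i) j
  have hU : x' = (U.map (algebraMap Λ C₀)) *ᵥ β := by
    ext i
    simp only [Matrix.mulVec, dotProduct]
    calc x' i = ∑ j, β.repr (x' i) j • β j := (β.sum_repr (x' i)).symm
      _ = _ := Finset.sum_congr rfl (fun j _ => by rw [Matrix.map_apply, Algebra.smul_def])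
  have hV : ∀ j, ∃ c : Fin n → Λ, ∑ i, c i • x' i = algebraMap P Λ g • β j := fun j =>
    (Submodule.mem_span_range_iff_exists_fun Λ).mp (hspan (β j))
  choose V hVeq using hV
  have hVU : (Matrix.of V) * U = algebraMap P Λ g • (1 : Matrix (Fin n) (Fin n) Λ) := by
    ext j l
    have h1 := congrArg (fun z => β.repr z l) (hVeq j)
    simp only [map_sum, map_smul, Finsupp.coe_finsetSum, Finsupp.coe_smul, Finset.sum_apply,
      Pi.smul_apply, smul_eq_mul, Module.Basis.repr_self] at h1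
    rw [Matrix.mul_apply, Matrix.smul_apply, Matrix.one_apply, smul_eq_mul]
    simp only [Matrix.of_apply, U]
    rw [h1, Finsupp.single_apply]
  have hdetU : ¬ t ∣ U.det := by
    intro hdvd
    have h1 : (Matrix.of V).det * U.det = (algebraMap P Λ g) ^ n := by
      rw [← Matrix.det_mul, hVU, Matrix.det_smul, Matrix.det_one, mul_one, Fintype.card_fin]
    have h2 : t ∣ algebraMap P Λ g ^ n := h1 ▸ Dvd.dvd.mul_left hdvd _
    have h3 : t ∣ algebraMap P Λ g := ht.dvd_of_dvd_pow h2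
    exact hgπ (dvd_of_map_dvd w Λ hπ hπw h3)
  have hdisc : algebraMap P Λ ((Matrix.of fun i j => Algebra.intTrace P B (x i * x j)).det)
      = U.det ^ 2 * Algebra.discr Λ β := by
    rw [← Algebra.discr_of_matrix_mulVec, ← hU, Algebra.discr_def, RingHom.map_det]
    congr 1
    ext i j
    simp only [RingHom.mapMatrix_apply, Matrix.map_apply, Matrix.of_apply,
      Algebra.traceMatrix_apply, Algebra.traceForm_apply, hx', Function.comp_apply]
    rw [map_intTrace_eq_trace B w Λ C₀ hw0, map_mul]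
  have hy' : ∀ a : Fin r → Λ,
      (∑ i, a i • (algebraMap B C₀ ∘ y) i) ∈ (Ideal.span {algebraMap Λ C₀ t}).radical →
        ∀ i, t ∣ a i := by
    intro a ha i
    obtain ⟨s, hs⟩ := IsLocalization.exist_integer_multiples_of_finite (Submonoid.powers w) a
    choose a' ha' using hs
    have hz : algebraMap B C₀ (∑ i, a' i • y i) =
        algebraMap Λ C₀ (algebraMap P Λ (s : P)) * ∑ i, a i • (algebraMap B C₀ ∘ y) i := by
      rw [map_sum, Finset.mul_sum]
      refine Finset.sum_congr rfl fun i _ => ?_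
      rw [Algebra.smul_def (a' i) (y i), map_mul, ← IsScalarTower.algebraMap_apply P B C₀,
        IsScalarTower.algebraMap_apply P Λ C₀, ha' i, Algebra.smul_def, map_mul,
        Algebra.smul_def, Function.comp_apply]
      ring
    have hmem : algebraMap B C₀ (∑ i, a' i • y i) ∈
        (Ideal.span {algebraMap Λ C₀ (algebraMap P Λ π)}).radical := by
      rw [hz]
      exact Ideal.mul_mem_left _ _ ha
    have h1 : π ∣ a' i :=
      hy a' (mem_radical_of_map_mem_radical B w Λ C₀ hw0 hπ hπw hmem) i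
    have h2 : t ∣ algebraMap P Λ (a' i) := map_dvd (algebraMap P Λ) h1
    rw [ha' i, Algebra.smul_def] at h2
    exact ((IsLocalization.map_units Λ s).dvd_mul_left).mp h2
  have htame := Fermat.Agent.S18.H274.tameDiscr Λ t ht C₀ n β r (algebraMap B C₀ ∘ y) hy'
  intro hdvd
  apply htame
  have h4 : t ^ (n - r + 1) ∣ U.det ^ 2 * Algebra.discr Λ β := by
    rw [← hdisc, ht_def, ← map_pow]
    exact map_dvd (algebraMap P Λ) hdvd
  exact ht.pow_dvd_of_dvd_mul_left _ (fun h => hdetU (ht.dvd_of_dvd_pow h)) h4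

end Main

end Fermat.Agent.S18.B12.H444

end
end
-- ===== PACK-END S18/B12/H444/GenericDiscr.lean

-- ===== PACK-BEGIN S18/B12/H444/GenericDiscrSpec.lean
section




/-!
# S18 / b2.5 / A5 (helper444): `GenericDiscrStatement` in the exact frozen shape

`theorem genericDiscr : GenericDiscrStatement` (frozen in `B12/Spec2.lean`, squad-lead helper33),
from `genericDiscr_abs` (`GenericDiscr.lean`) with `Λ := Localization.Away w`,
`C₀ := Localization (algebraMapSubmonoid B (powers w))` and helper274's tame discriminant bound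
(`H274.tameDiscr`, on main).
-/

set_option autoImplicit false

noncomputable section

namespace Fermat.Agent.S18.B12.H444

open Polynomial Module

universe u v

/-- A commutative ring in which all positive integers are units is a `ℚ`-algebra. -/
def ratAlgebraOfUnits (Λ : Type u) [CommRing Λ] (h : ∀ m : ℕ, m ≠ 0 → IsUnit ((m : ℕ) : Λ)) :
    Algebra ℚ Λ :=
  RingHom.toAlgebra
    (IsLocalization.lift (M := nonZeroDivisors ℤ) (S := ℚ) (g := Int.castRingHom Λ)
      (fun y => by
        have hy : (y : ℤ) ≠ 0 := nonZeroDivisors.coe_ne_zero y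
        have hn : (y : ℤ).natAbs ≠ 0 := Int.natAbs_ne_zero.mpr hy
        have hu := h _ hn
        rcases Int.natAbs_eq (y : ℤ) with h1 | h1
        · have : Int.castRingHom Λ (y : ℤ) = (((y : ℤ).natAbs : ℕ) : Λ) := by
            conv_lhs => rw [h1]
            simp
          rw [this]; exact hu
        · have : Int.castRingHom Λ (y : ℤ) = -(((y : ℤ).natAbs : ℕ) : Λ) := by
            conv_lhs => rw [h1]
            simp
          rw [this]; exact hu.neg))

theorem not_dvd_of_not_associated {P : Type u} [CommRing P] [IsDomain P] {π w : P}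
    (hπ : Prime π) (hw : Prime w) (h : ¬ Associated π w) : ¬ π ∣ w := by
  rintro ⟨c, hc⟩
  rcases hw.irreducible.isUnit_or_isUnit hc with h1 | h1
  · exact hπ.not_isUnit h1
  · exact h ⟨h1.unit, by simp [hc]⟩

/-- **A5** in the exact frozen shape of `B12/Spec2.lean`. -/
theorem genericDiscr : GenericDiscrStatement.{u, v} := by
  intro P _ _ _ _ w hw hPID hunits B _ _ _ _ _ _ π hπ hπw n x hx r y hy
  obtain ⟨hli, g, hgπ, hg⟩ := hx
  have hw0 : w ≠ 0 := hw.ne_zero
  let Λ := Localization.Away w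
  let C₀ := Localization (Algebra.algebraMapSubmonoid B (Submonoid.powers w))
  letI : Algebra Λ C₀ := localizationAlgebra (Submonoid.powers w) B
  haveI : IsScalarTower P Λ C₀ := IsScalarTower.of_algebraMap_eq'
    (by rw [RingHom.algebraMap_toAlgebra, IsLocalization.map_comp, ← IsScalarTower.algebraMap_eq])
  haveI : IsDomain Λ := IsLocalization.isDomain_localization (powers_le_nonZeroDivisors' w hw0)
  haveI : IsPrincipalIdealRing Λ := hPID
  letI : Algebra ℚ Λ := ratAlgebraOfUnits Λ (fun m hm => by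
    have := hunits m hm
    rwa [map_natCast] at this)
  unfold intDiscr
  exact genericDiscr_abs B w hw0 Λ C₀ π hπ (not_dvd_of_not_associated hπ hw hπw) n x hli g
    (fun h => hgπ (Ideal.mem_span_singleton.mpr h)) hg r y hy

end Fermat.Agent.S18.B12.H444

end
end
-- ===== PACK-END S18/B12/H444/GenericDiscrSpec.lean

-- ===== PACK-BEGIN S18/H754/HncTyped.lean
section


/-!
# S18 / ALG-FRONT / hNC adapter, typed form

The hypothesis `hNC` of `B12.B2RegularStatement`, from the `unramified` field of `Alg.GoodModel`: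

    hNC_typed : ∀ π : R[X], Prime π → ¬ Associated π (C w) → (∀ c ∈ S, ¬ Associated π (X - C c)) →
        (Ideal.span {algebraMap R[X] B π}).IsRadical

for `R` a DVR of characteristic `0`, `B` a finite torsion-free integrally closed `R[X]`-algebra,
domain, with `C w` prime in `B`, embedded in a field `Ω` with an algebraically closed subfield of
constants `Lc ⊇ R`, algebraic over `R`.
-/

set_option autoImplicit false

noncomputable section

namespace Fermat.Agent.S18.H754

open Polynomial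

section Dvd

variable {A B : Type*} [CommRing A] [IsDomain A] [IsIntegrallyClosed A]
  [CommRing B] [IsDomain B] [Algebra A B] [Module.IsTorsionFree A B] [Algebra.IsIntegral A B]

/-- Divisibility in an integral torsion-free extension domain of an integrally closed domain
descends. -/
theorem dvd_of_algebraMap_dvd {a q : A} (ha : a ≠ 0)
    (h : algebraMap A B a ∣ algebraMap A B q) : a ∣ q := by
  have hinj : Function.Injective (algebraMap A B) := FaithfulSMul.algebraMap_injective A B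
  obtain ⟨b, hb⟩ := h
  have hbint : IsIntegral A b := Algebra.IsIntegral.isIntegral b
  set p : A[X] := C a * X - C q with hp
  have hpb : aeval b p = 0 := by
    rw [hp, map_sub, map_mul, aeval_C, aeval_C, aeval_X, hb, sub_self]
  have hdvd : minpoly A b ∣ p := minpoly.isIntegrallyClosed_dvd hbint hpb
  have hp1 : p.coeff 1 = a := by
    rw [hp]
    simp
  have hp0 : p ≠ 0 := by
    intro h0
    rw [h0, coeff_zero] at hp1
    exact ha hp1.symm
  have hpdeg : p.natDegree ≤ 1 := by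
    rw [hp]
    refine (natDegree_sub_le _ _).trans (max_le ?_ ?_)
    · exact (natDegree_C_mul_X a ha).le
    · rw [natDegree_C]; exact Nat.zero_le _
  have hmdeg : (minpoly A b).natDegree ≤ 1 := (natDegree_le_of_dvd hdvd hp0).trans hpdeg
  have hmpos : 0 < (minpoly A b).natDegree := minpoly.natDegree_pos hbint
  have hm1 : (minpoly A b).natDegree = 1 := le_antisymm hmdeg hmpos
  have hmonic : (minpoly A b).Monic := minpoly.monic hbint
  have hmeq := eq_X_add_C_of_natDegree_le_one hmdeg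
  have hlead : (minpoly A b).coeff 1 = 1 := by
    have := hmonic.coeff_natDegree
    rwa [hm1] at this
  rw [hlead, C_1, one_mul] at hmeq
  have hmb : aeval b (minpoly A b) = 0 := minpoly.aeval A b
  rw [hmeq, map_add, aeval_X, aeval_C] at hmb
  have hb' : b = algebraMap A B (-(minpoly A b).coeff 0) := by
    rw [map_neg]
    exact eq_neg_of_add_eq_zero_left hmb
  refine ⟨-(minpoly A b).coeff 0, ?_⟩
  apply hinj
  rw [map_mul, ← hb', hb]

end Dvd

section Constants

variable {R : Type*} [CommRing R] [IsDomain R] [IsDiscreteValuationRing R]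
  {Ω : Type*} [Field Ω]

/-- An element algebraic over a DVR `R` becomes integral after multiplication by a power of the
uniformiser. -/
theorem exists_pow_mul_isIntegralElem (ι : R →+* Ω) (w : R) (hw : Irreducible w)
    (a : Ω) (ha : ∃ p : R[X], p ≠ 0 ∧ eval₂ ι a p = 0) :
    ∃ n : ℕ, ι.IsIntegralElem (ι w ^ n * a) := by
  letI : Algebra R Ω := ι.toAlgebra
  have halg : IsAlgebraic R a := by
    obtain ⟨p, hp0, hp⟩ := ha
    exact ⟨p, hp0, by rw [aeval_def]; exact hp⟩
  obtain ⟨y, hy0, hy⟩ := halg.exists_integral_multiple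
  obtain ⟨n, u, rfl⟩ := IsDiscreteValuationRing.eq_unit_mul_pow_irreducible hy0 hw
  refine ⟨n, ?_⟩
  have h1 : IsIntegral R ((((u⁻¹ : Rˣ) : R)) • ((u : R) * w ^ n) • a) :=
    IsIntegral.smul _ hy
  have h2 : (((u⁻¹ : Rˣ) : R)) • ((u : R) * w ^ n) • a = ι w ^ n * a := by
    rw [smul_smul, ← mul_assoc, Units.inv_mul, one_mul, Algebra.smul_def, map_pow]
    rfl
  rw [h2] at h1
  exact h1

variable [CharZero R]

/-- Factorisation over the constants of a nonconstant irreducible polynomial over `R`: pairwise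
distinct roots. -/
theorem exists_factorization_of_irreducible (ι : R →+* Ω) (hι : Function.Injective ι)
    (Lc : Subfield Ω) (hLcl : IsAlgClosed Lc) (hRL : ∀ r, ι r ∈ Lc)
    (π : R[X]) (hπ : Irreducible π) (hdeg : π.natDegree ≠ 0) :
    ∃ (roots : Finset Ω) (lc : Ω), lc ∈ Lc ∧ lc ≠ 0 ∧
      (∀ c ∈ roots, c ∈ Lc ∧ eval₂ ι c π = 0) ∧
      ∀ x : Ω, eval₂ ι x π = lc * ∏ c ∈ roots, (x - c) := by
  classical
  haveI := hLcl
  let K := FractionRing R
  have hprim : π.IsPrimitive := hπ.isPrimitive hdeg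
  have hK : Irreducible (π.map (algebraMap R K)) :=
    (hprim.irreducible_iff_irreducible_map_fraction_map).1 hπ
  haveI : CharZero K := charZero_of_injective_algebraMap (IsFractionRing.injective R K)
  have hsepK : (π.map (algebraMap R K)).Separable := hK.separable
  let ιL : R →+* Lc := ι.codRestrict Lc hRL
  have hιL : Function.Injective ιL := by
    intro a b hab
    apply hι
    exact congrArg Subtype.val hab
  let φ : K →+* Lc := IsFractionRing.lift hιL
  have hφ : φ.comp (algebraMap R K) = ιL := by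
    ext r
    exact congrArg Subtype.val (IsFractionRing.lift_algebraMap hιL r)
  set Q : Lc[X] := π.map ιL with hQ
  have hQ' : Q = (π.map (algebraMap R K)).map φ := by
    rw [Polynomial.map_map, hφ]
  have hsepQ : Q.Separable := by
    rw [hQ']
    exact hsepK.map
  have hsplit : Q.Splits := IsAlgClosed.splits Q
  have hQfac := hsplit.eq_prod_roots
  have hnodup : Q.roots.Nodup := nodup_roots hsepQ
  have hQ0 : Q ≠ 0 := by
    rw [hQ]
    exact (Polynomial.map_ne_zero_iff hιL).2 hπ.ne_zero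
  have hsub : (Lc.subtype).comp ιL = ι := by
    ext r
    rfl
  have heval : ∀ x : Ω, eval₂ ι x π = eval₂ Lc.subtype x Q := by
    intro x
    rw [hQ, eval₂_map, hsub]
  refine ⟨Q.roots.toFinset.map ⟨Subtype.val, Subtype.val_injective⟩, (Q.leadingCoeff : Ω),
    Q.leadingCoeff.2, ?_, ?_, ?_⟩
  · intro h0
    have : Q.leadingCoeff = 0 := Subtype.ext h0
    exact hQ0 (leadingCoeff_eq_zero.1 this)
  · intro c hc
    rw [Finset.mem_map] at hc
    obtain ⟨a, ha, rfl⟩ := hc
    rw [Multiset.mem_toFinset] at ha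
    refine ⟨a.2, ?_⟩
    have hroot : Q.eval a = 0 := (mem_roots hQ0).1 ha
    rw [heval]
    change eval₂ Lc.subtype (Lc.subtype a) Q = 0
    rw [eval₂_at_apply, hroot, map_zero]
  · intro x
    rw [heval]
    conv_lhs => rw [hQfac]
    rw [eval₂_mul, eval₂_C, eval₂_multiset_prod, Multiset.map_map, Finset.prod_map,
      Finset.prod_eq_multiset_prod, Multiset.toFinset_val, Multiset.dedup_eq_self.2 hnodup]
    congr 2
    refine Multiset.map_congr rfl fun a _ => ?_
    simp [eval₂_sub, eval₂_X, eval₂_C]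

end Constants

section Typed

variable (R : Type*) [CommRing R] [IsDomain R] [IsDiscreteValuationRing R] [CharZero R]
  (B : Type*) [CommRing B] [IsDomain B] [IsIntegrallyClosed B] [Algebra R[X] B]
  [Module.Finite R[X] B] [Module.IsTorsionFree R[X] B]
  {Ω : Type*} [Field Ω] [Algebra B Ω] [FaithfulSMul B Ω]

/-- **hNC, typed form** = the hypothesis `hNC` of `B12.B2RegularStatement`, from the `unramified`
field of `Alg.GoodModel` (with `x = algebraMap B Ω (algebraMap R[X] B X)`). -/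
theorem hNC_typed (w : R) (hw : Irreducible w)
    (hwB : Prime (algebraMap R[X] B (C w)))
    (Lc : Subfield Ω) (hLcl : IsAlgClosed Lc)
    (hRL : ∀ r : R, algebraMap B Ω (algebraMap R[X] B (C r)) ∈ Lc)
    (hLalg : ∀ a ∈ Lc, ∃ p : R[X], p ≠ 0 ∧
      eval₂ ((algebraMap B Ω).comp ((algebraMap R[X] B).comp C)) a p = 0)
    (S : Finset R) (SΩ : Finset Ω)
    (hS : ∀ c ∈ SΩ, ∃ s ∈ S, algebraMap B Ω (algebraMap R[X] B (C s)) = c)
    (hunr : ∀ O : ValuationSubring Ω, (∀ a ∈ Lc, a ∈ O) → ∀ c ∈ Lc, c ∉ SΩ →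
        algebraMap B Ω (algebraMap R[X] B X) - c ∈ O →
        (algebraMap B Ω (algebraMap R[X] B X) - c)⁻¹ ∉ O →
        ∀ t ∈ O, t⁻¹ ∉ O → t * (algebraMap B Ω (algebraMap R[X] B X) - c)⁻¹ ∈ O) :
    ∀ π : R[X], Prime π → ¬ Associated π (C w) → (∀ c ∈ S, ¬ Associated π (X - C c)) →
        (Ideal.span {algebraMap R[X] B π}).IsRadical := by
  classical
  intro π hπ hπw hπS
  haveI : IsNoetherianRing B := IsNoetherianRing.of_finite R[X] B
  haveI : Algebra.IsIntegral R[X] B := Algebra.IsIntegral.of_finite R[X] B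
  have hinjRB : Function.Injective (algebraMap R[X] B) :=
    FaithfulSMul.algebraMap_injective R[X] B
  have hinjBΩ : Function.Injective (algebraMap B Ω) := FaithfulSMul.algebraMap_injective B Ω
  set ι : R →+* Ω := (algebraMap B Ω).comp ((algebraMap R[X] B).comp C) with hιdef
  have hι : Function.Injective ι := by
    intro a b hab
    exact C_injective (hinjRB (hinjBΩ hab))
  have hwprime : Prime w := hw.prime
  have hCw : Irreducible (C w : R[X]) := (prime_C_iff.2 hwprime).irreducible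
  -- `π` is not constant
  have hdeg : π.natDegree ≠ 0 := by
    intro h0
    obtain ⟨r, hr⟩ : ∃ r : R, π = C r := ⟨π.coeff 0, eq_C_of_natDegree_eq_zero h0⟩
    have hrp : Prime r := by
      rw [hr] at hπ
      exact prime_C_iff.1 hπ
    have hass : Associated r w :=
      IsDiscreteValuationRing.associated_of_irreducible R hrp.irreducible hw
    apply hπw
    rw [hr]
    obtain ⟨u, hu⟩ := hass
    refine ⟨Units.map (C : R →+* R[X]).toMonoidHom u, ?_⟩
    simp only [Units.coe_map, RingHom.toMonoidHom_eq_coe, MonoidHom.coe_coe]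
    rw [← map_mul, hu]
  have hπ'0 : algebraMap R[X] B π ≠ 0 := by
    intro h0
    exact hπ.ne_zero (hinjRB (by rw [h0, map_zero]))
  -- `w` lies in no height-one prime containing `π`
  have hwP : ∀ 𝔓 : Ideal B, 𝔓.IsPrime → 𝔓.height = 1 → algebraMap R[X] B π ∈ 𝔓 →
      algebraMap R[X] B (C w) ∉ 𝔓 := by
    intro 𝔓 h𝔓 hht hπ𝔓 hw𝔓
    haveI := h𝔓
    haveI hwI : (Ideal.span {algebraMap R[X] B (C w)}).IsPrime :=
      (Ideal.span_singleton_prime hwB.ne_zero).2 hwB
    have hle : Ideal.span {algebraMap R[X] B (C w)} ≤ 𝔓 :=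
      (Ideal.span_singleton_le_iff_mem _).2 hw𝔓
    by_cases heq : Ideal.span {algebraMap R[X] B (C w)} = 𝔓
    · rw [← heq, Ideal.mem_span_singleton] at hπ𝔓
      have hCw0 : (C w : R[X]) ≠ 0 := hCw.ne_zero
      have hdvd : (C w : R[X]) ∣ π := dvd_of_algebraMap_dvd (B := B) hCw0 hπ𝔓
      exact hπw (hCw.associated_of_dvd hπ.irreducible hdvd).symm
    · have hlt : Ideal.span {algebraMap R[X] B (C w)} < 𝔓 := lt_of_le_of_ne hle heq
      have hfin : (Ideal.span {algebraMap R[X] B (C w)}).FiniteHeight := by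
        refine ⟨Or.inr ?_⟩
        intro htop
        have h2 := Ideal.height_mono hle
        rw [htop, hht, top_le_iff] at h2
        exact ENat.one_ne_top h2
      have h3 := Ideal.height_strict_mono_of_isPrime hlt
      rw [hht, ENat.lt_one_iff_eq_zero] at h3
      rw [Ideal.height_eq_zero_iff, IsDomain.minimalPrimes_eq_singleton_bot,
        Set.mem_singleton_iff, Ideal.span_singleton_eq_bot] at h3
      exact hwB.ne_zero h3
  -- constants become integral after multiplication by a power of `w`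
  have hLc' : ∀ a ∈ Lc, ∃ n : ℕ,
      IsIntegral B (algebraMap B Ω (algebraMap R[X] B (C w)) ^ n * a) := by
    intro a ha
    obtain ⟨n, P, hP, hPa⟩ := exists_pow_mul_isIntegralElem ι w hw a (hLalg a ha)
    refine ⟨n, P.map ((algebraMap R[X] B).comp C), hP.map _, ?_⟩
    rw [eval₂_map]
    exact hPa
  -- factorisation of `π` over the constants
  obtain ⟨roots, lc, hlc, hlc0, hroots, hfac⟩ :=
    exists_factorization_of_irreducible ι hι Lc hLcl hRL π hπ.irreducible hdeg
  have hcomp : (algebraMap B Ω).comp (algebraMap R[X] B) =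
      eval₂RingHom ι (algebraMap B Ω (algebraMap R[X] B X)) := by
    apply Polynomial.ringHom_ext
    · intro r
      simp [hιdef]
    · simp
  have hfac' : algebraMap B Ω (algebraMap R[X] B π) =
      lc * ∏ c ∈ roots, (algebraMap B Ω (algebraMap R[X] B X) - c) := by
    rw [← hfac]
    have := congrArg (fun f : R[X] →+* Ω => f π) hcomp
    simpa using this
  have hroots' : ∀ c ∈ roots, c ∈ Lc ∧ c ∉ SΩ := by
    intro c hc
    refine ⟨(hroots c hc).1, fun hcS => ?_⟩
    obtain ⟨s, hs, rfl⟩ := hS c hcS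
    have h1 := (hroots _ hc).2
    change eval₂ ι (ι s) π = 0 at h1
    rw [eval₂_at_apply] at h1
    have h2 : π.eval s = 0 := hι (by rw [h1, map_zero])
    have h3 : (X - C s : R[X]) ∣ π := dvd_iff_isRoot.2 h2
    exact hπS s hs ((prime_X_sub_C s).irreducible.associated_of_dvd hπ.irreducible h3).symm
  exact isRadical_span_of_unramified Lc (algebraMap R[X] B π) hπ'0 (algebraMap R[X] B (C w))
    hwP hLc' (algebraMap B Ω (algebraMap R[X] B X)) SΩ roots hroots' lc hlc hlc0 hfac' hunr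

end Typed

end Fermat.Agent.S18.H754

end

end
-- ===== PACK-END S18/H754/HncTyped.lean

-- ===== PACK-BEGIN S48/H856/IgusaS18.lean
section




/-!
# S48 / RES (Tower A1) / node IGUSA1 — the node theorem in the language of `S18/Alg/Spec`

`IgusaData` lists the CONCRETE obligations of node IGUSA1 (sub-objects of one field `Ω`, exactly
as in `Fermat.Agent.S18.Alg.GoodModel`):

* `Ffull`  the full-level field `E(X(M))` inside `Ω` (`X`-expansions, `X = q^{1/M}`),
* `F0`     the `Γ₀(M)`-field `E(j_d : d ∣ M)`, for which the `q`-expansion principle `qep0` is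
           known (Igusa for `X₀(M)` = landed S28, via S18 `node_mod`),
* `V`      the Gauss valuation ring, `w` the uniformiser of `R = A ∩ E`, `x = j`,
* `G`      a finite group of automorphisms of `Ω` preserving `Ffull` with `Ffull^G ⊆ E(x)`
           (image of `SL₂(ℤ)`), `B ≤ G` (image of `Γ₀(M)`, `Ffull^B ⊆ F0`), `t ∈ B` (image of
           `T`, acting by `X ↦ ζ X`, hence preserving `V`), whose `G`-conjugates generate `G`.

Results: `IgusaData.stable` (`V ∩ Ffull` is `G`-stable: the Gauss valuation extends uniquely) and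
`IgusaData.qep_fin` (the field `qep_fin` of `GoodModel` for EVERY intermediate field `Fc ≤ Ffull`,
e.g. the `Γ₁(M)`-field).  For `qep_inf` apply `H588.qep_of_unique_gauss` with `x⁻¹` and `stable`.
-/

set_option autoImplicit false

namespace Fermat.Agent.S48.H856

open Fermat.Agent.S18.Alg Polynomial

variable {Ω : Type*} [Field Ω]

/-- The concrete obligations of node IGUSA1 (see the module docstring). -/
structure IgusaData (Ec F0 Ffull : Subfield Ω) (R V : Subring Ω) (w x : Ω)
    (G B : Subgroup (Ω ≃+* Ω)) (t : Ω ≃+* Ω) : Prop where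
  -- `R` is a discrete valuation ring of `Ec` with uniformiser `w`
  R_le : ∀ r ∈ R, r ∈ Ec
  R_total : ∀ e ∈ Ec, e ∈ R ∨ e⁻¹ ∈ R
  w_mem : w ∈ R
  w_ne_zero : w ≠ 0
  w_inv_not_mem : w⁻¹ ∉ R
  w_discrete : ∀ r ∈ R, r ≠ 0 → ∃ n : ℕ, r * (w⁻¹) ^ n ∈ R ∧ (r * (w⁻¹) ^ n)⁻¹ ∈ R
  -- the fields
  E_le : Ec ≤ Ffull
  x_mem : x ∈ Ffull
  x_transcendental : Transcendental R x
  -- the Gauss valuation ring
  R_le_V : R ≤ V
  x_mem_V : x ∈ V
  V_total : ∀ f ∈ Ffull, f ∈ V ∨ f⁻¹ ∈ V
  w_inv_not_mem_V : w⁻¹ ∉ V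
  V_discrete : ∀ f ∈ Ffull, f ≠ 0 → ∃ n : ℤ, f * w ^ n ∈ V ∧ (f * w ^ n)⁻¹ ∈ V
  gauss : ∀ P : Polynomial Ω, (∀ i, P.coeff i ∈ R) → (∃ i, P.coeff i ≠ 0 ∧ (P.coeff i)⁻¹ ∈ R) →
    (P.eval x)⁻¹ ∈ V
  -- the group
  G_finite : Finite G
  G_fix_E : ∀ g ∈ G, ∀ a ∈ Ec, g a = a
  G_fix_x : ∀ g ∈ G, g x = x
  G_stable : ∀ g ∈ G, ∀ f ∈ Ffull, g f ∈ Ffull
  G_inv : ∀ f ∈ Ffull, (∀ g ∈ G, g f = f) → f ∈ ratField Ec x
  -- the unipotent element and the Borel subgroup
  B_le : B ≤ G
  t_mem : t ∈ B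
  t_normal : ∀ b ∈ B, b * t * b⁻¹ ∈ Subgroup.zpowers t
  t_gen : G ≤ Subgroup.closure {s | ∃ g ∈ G, s = g * t * g⁻¹}
  t_V : ∀ f ∈ Ffull, t f ∈ V ↔ f ∈ V
  -- level `Γ₀`: Igusa's theorem for `X₀(M)`
  B_inv : ∀ f ∈ Ffull, (∀ b ∈ B, b f = f) → f ∈ F0
  qep0 : ∀ b ∈ chart F0 R x, b * w⁻¹ ∈ V → b * w⁻¹ ∈ chart F0 R x

namespace IgusaData

variable {Ec F0 Ffull : Subfield Ω} {R V : Subring Ω} {w x : Ω}
  {G B : Subgroup (Ω ≃+* Ω)} {t : Ω ≃+* Ω}

theorem fix_polyRing (h : IgusaData Ec F0 Ffull R V w x G B t) :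
    ∀ g ∈ G, ∀ a ∈ polyRing R x, g a = a := by
  intro g hg a ha
  unfold polyRing at ha
  induction ha using Subring.closure_induction with
  | mem z hz =>
    rcases hz with hz | hz
    · exact h.G_fix_E g hg z (h.R_le z hz)
    · rw [Set.mem_singleton_iff] at hz
      rw [hz]; exact h.G_fix_x g hg
  | zero => simp
  | one => simp
  | add y z _ _ hy hz => rw [map_add, hy, hz]
  | neg y _ hy => rw [map_neg, hy]
  | mul y z _ _ hy hz => rw [map_mul, hy, hz]

theorem polyRing_le_full (h : IgusaData Ec F0 Ffull R V w x G B t) :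
    polyRing R x ≤ Ffull.toSubring := by
  unfold polyRing
  rw [Subring.closure_le]
  rintro z (hz | hz)
  · exact h.E_le (h.R_le z hz)
  · rw [Set.mem_singleton_iff] at hz
    rw [hz]; exact h.x_mem

theorem polyRing_le_V (h : IgusaData Ec F0 Ffull R V w x G B t) : polyRing R x ≤ V := by
  unfold polyRing
  rw [Subring.closure_le]
  rintro z (hz | hz)
  · exact h.R_le_V hz
  · rw [Set.mem_singleton_iff] at hz
    rw [hz]; exact h.x_mem_V

/-- integrality over the pulled-back subring of the subfield `Ffull` -/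
theorem isIntegral_comap_iff (Ffull : Subfield Ω) (T : Subring Ω) (hT : T ≤ Ffull.toSubring)
    (y : Ffull) :
    IsIntegral (T.comap Ffull.subtype) y ↔ IsIntegral T (y : Ω) := by
  rw [H588.isIntegral_subring_iff, H588.isIntegral_subring_iff]
  constructor
  · rintro ⟨p, hp, hc, hpy⟩
    refine ⟨p.map Ffull.subtype, hp.map _, fun i => ?_, ?_⟩
    · rw [coeff_map]; exact hc i
    · have := congrArg Ffull.subtype hpy
      rwa [map_zero, ← eval₂_at_apply, ← eval_map] at this
  · rintro ⟨p, hp, hc, hpy⟩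
    have hsub : (↑p.coeffs : Set Ω) ⊆ Ffull.toSubring := by
      intro c hc'
      obtain ⟨i, _, rfl⟩ := Polynomial.mem_coeffs_iff.mp (by exact_mod_cast hc')
      exact hT (hc i)
    refine ⟨p.toSubring Ffull.toSubring hsub, (p.monic_toSubring _ _).mpr hp, fun i => ?_, ?_⟩
    · show ((p.toSubring Ffull.toSubring hsub).coeff i : Ω) ∈ T
      rw [Polynomial.coeff_toSubring]
      exact hc i
    · apply Subtype.ext
      have h1 : ((p.toSubring Ffull.toSubring hsub).map Ffull.toSubring.subtype).eval (y : Ω)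
          = 0 := by
        rw [p.map_toSubring Ffull.toSubring hsub]; exact hpy
      rw [eval_map] at h1
      have h2 := Polynomial.eval₂_at_apply (p := p.toSubring Ffull.toSubring hsub)
        Ffull.subtype y
      exact h2.symm.trans h1


theorem ratField_le_closure (h : IgusaData Ec F0 Ffull R V w x G B t) :
    ratField Ec x ≤ Subfield.closure ((R : Set Ω) ∪ {x}) := by
  unfold ratField
  rw [Subfield.closure_le]
  rintro z (hz | hz)
  · rcases h.R_total z hz with h1 | h1
    · exact Subfield.subset_closure (Or.inl h1)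
    · have : z⁻¹ ∈ Subfield.closure ((R : Set Ω) ∪ {x}) :=
        Subfield.subset_closure (Or.inl h1)
      have h2 := (Subfield.closure ((R : Set Ω) ∪ {x})).inv_mem this
      rwa [inv_inv] at h2
  · exact Subfield.subset_closure (Or.inr hz)

/-- **Unique extension of the Gauss valuation to the full-level field**: `V ∩ Ffull` is stable
under `G`. -/
theorem stable (h : IgusaData Ec F0 Ffull R V w x G B t) :
    ∀ g ∈ G, ∀ f ∈ Ffull, f ∈ V → g f ∈ V := by
  classical
  have := h.G_finite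
  let act : MulSemiringAction G Ffull :=
    { smul := fun g f => ⟨(g : Ω ≃+* Ω) f, h.G_stable g g.2 f f.2⟩
      one_smul := fun f => Subtype.ext rfl
      mul_smul := fun g g' f => Subtype.ext rfl
      smul_zero := fun g => Subtype.ext (map_zero _)
      smul_add := fun g a b => Subtype.ext (map_add _ _ _)
      smul_one := fun g => Subtype.ext (map_one _)
      smul_mul := fun g a b => Subtype.ext (map_mul _ _ _) }
  have hsmul : ∀ (g : G) (f : Ffull), ((g • f : Ffull) : Ω) = (g : Ω ≃+* Ω) f := fun _ _ => rfl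
  let 𝒱 : ValuationSubring Ffull :=
    { V.comap Ffull.subtype with
      mem_or_inv_mem' := fun f => by
        rcases h.V_total f f.2 with h1 | h1
        · exact Or.inl h1
        · exact Or.inr h1 }
  have hmem𝒱 : ∀ f : Ffull, f ∈ 𝒱 ↔ (f : Ω) ∈ V := fun f => Iff.rfl
  let A₀ : Subring Ffull := (polyRing R x).comap Ffull.subtype
  have hmemA : ∀ f : Ffull, f ∈ A₀ ↔ (f : Ω) ∈ polyRing R x := fun f => Iff.rfl
  let w' : Ffull := ⟨w, h.E_le (h.R_le w h.w_mem)⟩
  let t' : G := ⟨t, h.B_le h.t_mem⟩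
  let B' : Subgroup G := B.subgroupOf G
  have hw'0 : w' ≠ 0 := fun h0 => h.w_ne_zero (congrArg Subtype.val h0)
  -- (1) discreteness
  have hV : IsDiscrete 𝒱 w' := by
    refine ⟨(valuation_lt_one_iff_inv_notMem hw'0).mpr ?_, hw'0, ?_⟩
    · intro hmem
      exact h.w_inv_not_mem_V ((hmem𝒱 _).mp hmem)
    · intro y hy
      have hy0 : (y : Ω) ≠ 0 := fun h0 => hy (Subtype.ext h0)
      obtain ⟨n, hn1, hn2⟩ := h.V_discrete y y.2 hy0
      have hcoe : ((y * w' ^ n : Ffull) : Ω) = (y : Ω) * w ^ n := by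
        have : ((w' ^ n : Ffull) : Ω) = w ^ n := map_zpow₀ Ffull.subtype w' n
        rw [Subfield.coe_mul, this]
      have h1 : y * w' ^ n ∈ 𝒱 := by rw [hmem𝒱, hcoe]; exact hn1
      have h2 : (y * w' ^ n)⁻¹ ∈ 𝒱 := by
        rw [hmem𝒱, Subfield.coe_inv, hcoe]; exact hn2
      have h3 : 𝒱.valuation (y * w' ^ n) ≤ 1 := (𝒱.valuation_le_one_iff _).mpr h1
      have h4 : 𝒱.valuation (y * w' ^ n)⁻¹ ≤ 1 := (𝒱.valuation_le_one_iff _).mpr h2
      have hne : y * w' ^ n ≠ 0 := mul_ne_zero hy (zpow_ne_zero _ hw'0)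
      have hpos : 0 < 𝒱.valuation (y * w' ^ n) :=
        zero_lt_iff.mpr ((Valuation.ne_zero_iff _).mpr hne)
      rw [map_inv₀] at h4
      have h5 : 1 ≤ 𝒱.valuation (y * w' ^ n) := (inv_le_one₀ hpos).mp h4
      have h6 : 𝒱.valuation (y * w' ^ n) = 1 := le_antisymm h3 h5
      rw [map_mul, map_zpow₀] at h6
      refine ⟨-n, ?_⟩
      rw [zpow_neg]
      exact eq_inv_of_mul_eq_one_left h6
  -- (2) the base ring
  have hA_fix : ∀ a ∈ A₀, ∀ g : G, g • a = a := fun a ha g =>
    Subtype.ext (h.fix_polyRing g g.2 a ha)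
  have hA_frac : ∀ y : Ffull, (∀ g : G, g • y = y) →
      ∃ a ∈ A₀, ∃ s ∈ A₀, s ≠ 0 ∧ y * s = a := by
    intro y hy
    have hy' : (y : Ω) ∈ ratField Ec x :=
      h.G_inv y y.2 (fun g hg => congrArg Subtype.val (hy ⟨g, hg⟩))
    obtain ⟨a, ha, b, hb, hab⟩ := Subfield.mem_closure_iff.1 (h.ratField_le_closure hy')
    have haF : a ∈ Ffull := h.polyRing_le_full ha
    have hbF : b ∈ Ffull := h.polyRing_le_full hb
    by_cases hb0 : b = 0
    · refine ⟨0, A₀.zero_mem, 1, A₀.one_mem, one_ne_zero, ?_⟩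
      apply Subtype.ext
      rw [hb0, div_zero] at hab
      simp [← hab]
    · refine ⟨⟨a, haF⟩, ha, ⟨b, hbF⟩, hb, fun h0 => hb0 (congrArg Subtype.val h0), ?_⟩
      apply Subtype.ext
      show (y : Ω) * b = a
      rw [← hab, div_mul_cancel₀ _ hb0]
  have hA_le : A₀ ≤ 𝒱.toSubring := fun a ha => h.polyRing_le_V ha
  have hw_mem : w' ∈ A₀ := Subring.subset_closure (Or.inl h.w_mem)
  -- (3) the group
  have htn : ∀ b ∈ B', b * t' * b⁻¹ ∈ Subgroup.zpowers t' := by
    intro b hb
    have hb' : (b : Ω ≃+* Ω) ∈ B := Subgroup.mem_subgroupOf.mp hb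
    obtain ⟨k, hk⟩ := Subgroup.mem_zpowers_iff.mp (h.t_normal b hb')
    refine Subgroup.mem_zpowers_iff.mpr ⟨k, ?_⟩
    apply Subtype.ext
    rw [Subgroup.coe_zpow]
    exact hk
  have hgen : Subgroup.normalClosure ({t'} : Set G) = ⊤ := by
    rw [eq_top_iff]
    intro g _
    have hg := h.t_gen g.2
    have hP : ∀ s (hs : s ∈ Subgroup.closure {s | ∃ g ∈ G, s = g * t * g⁻¹}),
        ∃ hsG : s ∈ G, (⟨s, hsG⟩ : G) ∈ Subgroup.normalClosure ({t'} : Set G) := by
      intro s hs
      induction hs using Subgroup.closure_induction with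
      | mem z hz =>
        obtain ⟨g₁, hg₁, rfl⟩ := hz
        refine ⟨G.mul_mem (G.mul_mem hg₁ (h.B_le h.t_mem)) (G.inv_mem hg₁), ?_⟩
        have hn : (Subgroup.normalClosure ({t'} : Set G)).Normal :=
          Subgroup.normalClosure_normal
        have := hn.conj_mem t' (Subgroup.subset_normalClosure (Set.mem_singleton t'))
          ⟨g₁, hg₁⟩
        exact this
      | one => exact ⟨G.one_mem, Subgroup.one_mem _⟩
      | mul y z _ _ hy hz =>
        obtain ⟨hy1, hy2⟩ := hy
        obtain ⟨hz1, hz2⟩ := hz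
        exact ⟨G.mul_mem hy1 hz1, Subgroup.mul_mem _ hy2 hz2⟩
      | inv y _ hy =>
        obtain ⟨hy1, hy2⟩ := hy
        exact ⟨G.inv_mem hy1, Subgroup.inv_mem _ hy2⟩
    obtain ⟨_, h2⟩ := hP g hg
    exact h2
  have htV : ∀ y : Ffull, t' • y ∈ 𝒱 ↔ y ∈ 𝒱 := fun y => h.t_V y y.2
  -- (4) Igusa for `X₀(M)`
  have hq0 : ∀ b : Ffull, (∀ β ∈ B', β • b = b) → IsIntegral A₀ b → b * w'⁻¹ ∈ 𝒱 →
      IsIntegral A₀ (b * w'⁻¹) := by
    intro b hbB hbint hbV
    have hbF0 : (b : Ω) ∈ F0 := h.B_inv b b.2 (fun β hβ =>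
      congrArg Subtype.val (hbB ⟨β, h.B_le hβ⟩ (Subgroup.mem_subgroupOf.mpr hβ)))
    have hbint' : IsIntegral (polyRing R x) (b : Ω) :=
      (isIntegral_comap_iff Ffull _ h.polyRing_le_full b).mp hbint
    have hbV' : (b : Ω) * w⁻¹ ∈ V := hbV
    have h1 := h.qep0 (b : Ω) ⟨hbF0, hbint'⟩ hbV'
    exact (isIntegral_comap_iff Ffull _ h.polyRing_le_full (b * w'⁻¹)).mpr h1.2
  have key := stable_of_unipotent 𝒱 w' A₀ B' t' hV hA_fix hA_frac hA_le hw_mem htn hgen htV hq0
  intro g hg f hf hfV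
  exact (key ⟨g, hg⟩ ⟨f, hf⟩).mpr hfV

/-- **Node IGUSA1.**  The `q`-expansion principle (`GoodModel.qep_fin`) for every intermediate
field `Fc ≤ Ffull`, in particular for the `Γ₁(M)`-field. -/
theorem qep_fin (h : IgusaData Ec F0 Ffull R V w x G B t) (Fc : Subfield Ω) (hFc : Fc ≤ Ffull)
    (hwFc : w ∈ Fc) :
    ∀ b ∈ chart Fc R x, b * w⁻¹ ∈ V → b * w⁻¹ ∈ chart Fc R x := by
  have := h.G_finite
  intro b hb hbV
  have hbF : b * w⁻¹ ∈ Ffull := Ffull.mul_mem (hFc hb.1) (Ffull.inv_mem (hFc hwFc))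
  have hRF : R ≤ Ffull.toSubring := fun r hr => h.E_le (h.R_le r hr)
  refine H588.qep_of_unique_gauss Ec Fc Ffull R (V ⊓ Ffull.toSubring) h.R_le h.R_total h.w_mem
    h.w_ne_zero h.w_inv_not_mem h.w_discrete h.x_transcendental hFc hwFc
    (le_inf h.R_le_V hRF) (fun hmem => h.w_inv_not_mem_V hmem.1) ?_ G h.G_fix_E h.G_fix_x
    h.G_stable ?_ h.G_inv b hb ⟨hbV, hbF⟩
  · intro P hP hP'
    refine ⟨h.gauss P hP hP', Ffull.inv_mem ?_⟩
    rw [Polynomial.eval_eq_sum_range]
    exact Ffull.sum_mem fun i _ => Ffull.mul_mem (hRF (hP i)) (Ffull.pow_mem h.x_mem i)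
  · intro g hg f hf
    exact ⟨h.stable g hg f hf.2 hf.1, h.G_stable g hg f hf.2⟩

end IgusaData

end Fermat.Agent.S48.H856

end
-- ===== PACK-END S48/H856/IgusaS18.lean

-- ===== PACK-BEGIN S48/H856/IgusaBuild.lean
section



/-!
# S48 / RES / IGUSA1 — constructor of `IgusaData` from an expansion map (helper856)

`L` = a field carrying the action and the expansion (so `Ω = L`), with
* constants `const : K →+* L` (`K = E` a number field, `𝒪 = A ∩ E` discrete with uniformiser `w₀`),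
* an expansion map `ex : L →+* K((X))`, `ex (const c) = C c`, and a subfield `Ffull` of `L` all of
  whose elements are quotients of elements with bounded denominators (`HasBd`),
* a coordinate `x` (`= j`) whose expansion is integral with a pole with unit leading coefficient,
* a finite group `G ≤ Aut L` fixing constants and `x`, with `L^G ⊆ K(x)`; `B ≤ G`; `t ∈ B`
  acting on expansions by `X ↦ ζ X` (`ζ` a unit of `𝒪`), `B` normalising `⟨t⟩`, the
  `G`-conjugates of `t` generating `G`,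
* `F0 ⊇ L^B` satisfying the `q`-expansion principle `qep0` (Igusa for `X₀(M)`, landed S28).

`igusaData_of_expansion` produces the `IgusaData`, hence (`IgusaData.qep_fin`) the `q`-expansion
principle for every subfield of `L`.
-/

set_option autoImplicit false

open HahnSeries Polynomial

namespace Fermat.Agent.S48.H856

open Fermat.Agent.S18.Alg

variable {K : Type*} [Field K] {𝒪 : ValuationSubring K} {L : Type*} [Field L]
  {ex : L →+* LaurentSeries K}

/-- the expansion of a polynomial in `x` over the constants -/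
theorem ex_eval_eq (const : K →+* L) (hconst : ∀ c, ex (const c) = HahnSeries.C c) (x : L)
    (c₀ : ℕ → K) (N : ℕ) :
    ex (∑ i ∈ Finset.range (N + 1), const (c₀ i) * x ^ i)
      = ∑ i ∈ Finset.range (N + 1), HahnSeries.C (c₀ i) * ex x ^ i := by
  rw [map_sum]
  exact Finset.sum_congr rfl fun i _ => by rw [map_mul, map_pow, hconst]

/-- a coordinate with a pole is transcendental over the constants -/
theorem sum_ne_zero_of_pole {x : L} {m : ℕ} (hm : 0 < m) (hord : (ex x).order = -(m : ℤ))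
    (hx0 : ex x ≠ 0) (const : K →+* L) (hconst : ∀ c, ex (const c) = HahnSeries.C c)
    (c₀ : ℕ → K) (N : ℕ) (hN : c₀ N ≠ 0) :
    ∑ i ∈ Finset.range (N + 1), const (c₀ i) * x ^ i ≠ 0 := by
  classical
  intro h0
  have h1 := congrArg ex h0
  rw [ex_eval_eq const hconst, map_zero] at h1
  have h2 := congrArg (fun s => s.coeff (-((m : ℤ) * N))) h1
  simp only [HahnSeries.coeff_sum, HahnSeries.coeff_zero] at h2
  have hordi : ∀ i : ℕ, (ex x ^ i).order = -((m : ℤ) * i) := fun i => by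
    rw [HahnSeries.order_pow, hord]
    simp
    ring
  have hmem : N ∈ Finset.range (N + 1) := Finset.mem_range.mpr (by omega)
  rw [← Finset.add_sum_erase _ _ hmem] at h2
  have hrest : ∑ i ∈ (Finset.range (N + 1)).erase N,
      (HahnSeries.C (c₀ i) * ex x ^ i).coeff (-((m : ℤ) * N)) = 0 := by
    apply Finset.sum_eq_zero
    intro i hi
    rw [Finset.mem_erase, Finset.mem_range] at hi
    rw [coeff_C_mul_eq]
    have : (ex x ^ i).coeff (-((m : ℤ) * N)) = 0 := by
      apply HahnSeries.coeff_eq_zero_of_lt_order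
      rw [hordi]
      have h3 : (i : ℤ) < N := by
        have : i < N := lt_of_le_of_ne (by omega) hi.1
        exact_mod_cast this
      have h4 : (0 : ℤ) < m := by exact_mod_cast hm
      nlinarith
    rw [this, mul_zero]
  rw [hrest, add_zero, coeff_C_mul_eq] at h2
  have h5 : (ex x ^ N).coeff (-((m : ℤ) * N)) = (ex x ^ N).leadingCoeff := by
    rw [HahnSeries.leadingCoeff_eq, hordi]
  rw [h5, leadingCoeff_pow'] at h2
  have h6 : (ex x).leadingCoeff ≠ 0 := HahnSeries.leadingCoeff_ne_zero.mpr hx0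
  exact mul_ne_zero hN (pow_ne_zero _ h6) h2

/-- an element of the image of `𝒪` is `const c` with `c ∈ 𝒪` -/
theorem exists_of_mem_map (const : K →+* L) {r : L} (hr : r ∈ 𝒪.toSubring.map const) :
    ∃ c ∈ 𝒪, const c = r := by
  obtain ⟨c, hc, rfl⟩ := hr
  exact ⟨c, hc, rfl⟩

theorem mem_map_of_mem (const : K →+* L) {c : K} (hc : c ∈ 𝒪) :
    const c ∈ 𝒪.toSubring.map const := ⟨c, hc, rfl⟩

/-- a nonzero element of `𝒪` is a unit times a NATURAL power of the uniformiser -/
theorem exists_nat_pow_of_mem {w₀ : K} (hd : IsDiscrete 𝒪 w₀) {c : K} (hc : c ∈ 𝒪)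
    (hc0 : c ≠ 0) : ∃ n : ℕ, 𝒪.valuation (c * (w₀⁻¹) ^ n) = 1 := by
  obtain ⟨n, hn⟩ := hd.disc c hc0
  have hw0 : 𝒪.valuation w₀ ≠ 0 := (Valuation.ne_zero_iff _).mpr hd.w_ne
  have hn0 : 0 ≤ n := by
    by_contra hneg
    rw [not_le] at hneg
    have h1 : 𝒪.valuation c ≤ 1 := (𝒪.valuation_le_one_iff _).mpr hc
    have h2 : 1 < 𝒪.valuation w₀ ^ n := by
      obtain ⟨k, hk⟩ : ∃ k : ℕ, n = -((k : ℤ) + 1) := ⟨(-n - 1).toNat, by omega⟩
      rw [hk, zpow_neg, ← inv_zpow]
      have h3 : 1 < (𝒪.valuation w₀)⁻¹ := by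
        rw [one_lt_inv₀ (zero_lt_iff.mpr hw0)]
        exact hd.w_lt
      have h4 : ((𝒪.valuation w₀)⁻¹) ^ ((k : ℤ) + 1) = ((𝒪.valuation w₀)⁻¹) ^ (k + 1) := by
        exact_mod_cast zpow_natCast ((𝒪.valuation w₀)⁻¹) (k + 1)
      rw [h4]
      exact one_lt_pow₀ h3 (by omega)
    rw [← hn] at h2
    exact absurd h1 (not_le.mpr h2)
  refine ⟨n.toNat, ?_⟩
  rw [map_mul, map_pow, map_inv₀, hn]
  have h5 : 𝒪.valuation w₀ ^ n = 𝒪.valuation w₀ ^ n.toNat := by
    conv_lhs => rw [← Int.toNat_of_nonneg hn0]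
    exact zpow_natCast _ _
  rw [h5, inv_pow, mul_inv_cancel₀ (pow_ne_zero _ hw0)]

theorem mem_and_inv_mem_of_valuation_eq_one {c : K} (h : 𝒪.valuation c = 1) :
    c ∈ 𝒪 ∧ c⁻¹ ∈ 𝒪 := by
  constructor
  · exact (𝒪.valuation_le_one_iff _).mp h.le
  · apply (𝒪.valuation_le_one_iff _).mp
    rw [map_inv₀, h, inv_one]

/-- **Constructor of `IgusaData` from an expansion map.**  `Ffull` is any subfield of `L` all of
whose elements are quotients of elements with bounded denominators. -/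
theorem igusaData_of_expansion
    (const : K →+* L) (hconst : ∀ c, ex (const c) = HahnSeries.C c)
    {w₀ : K} (hG : GaussHyp 𝒪 ex w₀ (const w₀))
    (Ffull : Subfield L) (hbd : ∀ f ∈ Ffull, HasBd 𝒪 ex (const w₀) f)
    (hconstF : ∀ c, const c ∈ Ffull)
    {x : L} (hxF : x ∈ Ffull) (hx : IsInt 𝒪 (ex x)) {m : ℕ} (hm : 0 < m)
    (hord : (ex x).order = -(m : ℤ)) (hlead : 𝒪.valuation (ex x).leadingCoeff = 1)
    (F0 : Subfield L) (G B : Subgroup (L ≃+* L)) (t : L ≃+* L)
    (hGfin : Finite G)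
    (hGE : ∀ g ∈ G, ∀ c : K, g (const c) = const c)
    (hGx : ∀ g ∈ G, g x = x)
    (hGF : ∀ g ∈ G, ∀ f ∈ Ffull, g f ∈ Ffull)
    (hGinv : ∀ f ∈ Ffull, (∀ g ∈ G, g f = f) → f ∈ ratField const.fieldRange x)
    (hBG : B ≤ G) (htB : t ∈ B)
    (htn : ∀ b ∈ B, b * t * b⁻¹ ∈ Subgroup.zpowers t)
    (htgen : G ≤ Subgroup.closure {s | ∃ g ∈ G, s = g * t * g⁻¹})
    {ζ : K} (hζ : 𝒪.valuation ζ = 1)
    (htw : ∀ (f : L) (k : ℤ), (ex (t f)).coeff k = ζ ^ k * (ex f).coeff k)
    (hBinv : ∀ f ∈ Ffull, (∀ b ∈ B, b f = f) → f ∈ F0)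
    (hqep0 : ∀ b ∈ chart F0 (𝒪.toSubring.map const) x,
      b * (const w₀)⁻¹ ∈ gaussRing 𝒪 ex → b * (const w₀)⁻¹ ∈ chart F0 (𝒪.toSubring.map const) x) :
    IgusaData const.fieldRange F0 Ffull (𝒪.toSubring.map const) (gaussRing 𝒪 ex) (const w₀) x
      G B t := by
  classical
  have hx0 : ex x ≠ 0 := by
    intro h0
    rw [h0, HahnSeries.order_zero] at hord
    have : (0 : ℤ) < m := by exact_mod_cast hm
    omega
  have hw₀mem : w₀ ∈ 𝒪 := (𝒪.valuation_le_one_iff _).mp hG.disc.w_lt.le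
  have hRV : 𝒪.toSubring.map const ≤ gaussRing 𝒪 ex := by
    intro r hr
    obtain ⟨c, hc, rfl⟩ := exists_of_mem_map const hr
    exact mem_gaussRing_of_isInt (by rw [hconst]; exact isInt_C hc)
  refine
    { R_le := ?_, R_total := ?_, w_mem := mem_map_of_mem const hw₀mem,
      w_ne_zero := hG.w_ne_zero, w_inv_not_mem := fun h => hG.w_inv_notMem (hRV h),
      w_discrete := ?_, E_le := ?_, x_mem := hxF,
      x_transcendental := ?_, R_le_V := hRV, x_mem_V := mem_gaussRing_of_isInt hx,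
      V_total := fun f hf => hG.total (hbd f hf), w_inv_not_mem_V := hG.w_inv_notMem,
      V_discrete := fun f hf hf0 => hG.discrete (hbd f hf) hf0, gauss := ?_, G_finite := hGfin,
      G_fix_E := ?_, G_fix_x := hGx, G_stable := hGF,
      G_inv := hGinv, B_le := hBG, t_mem := htB, t_normal := htn,
      t_gen := htgen, t_V := fun f _ => smul_mem_gaussRing_iff t hζ htw f,
      B_inv := hBinv, qep0 := hqep0 }
  · -- R_le
    intro r hr
    obtain ⟨c, _, rfl⟩ := exists_of_mem_map const hr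
    exact ⟨c, rfl⟩
  · -- R_total
    rintro e ⟨c, rfl⟩
    rcases 𝒪.mem_or_inv_mem c with h | h
    · exact Or.inl (mem_map_of_mem const h)
    · right
      rw [← map_inv₀]
      exact mem_map_of_mem const h
  · -- w_discrete
    intro r hr hr0
    obtain ⟨c, hc, rfl⟩ := exists_of_mem_map const hr
    have hc0 : c ≠ 0 := fun h => hr0 (by rw [h, map_zero])
    obtain ⟨n, hn⟩ := exists_nat_pow_of_mem hG.disc hc hc0
    obtain ⟨h1, h2⟩ := mem_and_inv_mem_of_valuation_eq_one hn
    refine ⟨n, ?_, ?_⟩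
    · have : const c * (const w₀)⁻¹ ^ n = const (c * (w₀⁻¹) ^ n) := by
        rw [map_mul, map_pow, map_inv₀]
      rw [this]; exact mem_map_of_mem const h1
    · have : (const c * (const w₀)⁻¹ ^ n)⁻¹ = const ((c * (w₀⁻¹) ^ n)⁻¹) := by
        rw [map_inv₀, map_mul, map_pow, map_inv₀]
      rw [this]; exact mem_map_of_mem const h2
  · -- E_le
    rintro e ⟨c, rfl⟩
    exact hconstF c
  · -- x_transcendental
    rw [transcendental_iff]
    intro P hP
    by_contra hP0
    have hcoeff : ∀ i, ∃ c ∈ 𝒪, const c = (P.coeff i : L) := fun i =>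
      exists_of_mem_map const (P.coeff i).2
    choose c₀ hc₀ hc₀' using hcoeff
    have hsum : Polynomial.aeval x P
        = ∑ i ∈ Finset.range (P.natDegree + 1), const (c₀ i) * x ^ i := by
      rw [Polynomial.aeval_eq_sum_range]
      refine Finset.sum_congr rfl fun i _ => ?_
      rw [hc₀' i, Algebra.smul_def]
      rfl
    have hN : c₀ P.natDegree ≠ 0 := by
      intro h0
      have h1 : (P.coeff P.natDegree : L) = 0 := by rw [← hc₀', h0, map_zero]
      have h2 : P.coeff P.natDegree = 0 := Subtype.ext h1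
      exact hP0 (Polynomial.leadingCoeff_eq_zero.mp h2)
    exact sum_ne_zero_of_pole hm hord hx0 const hconst c₀ P.natDegree hN (hsum ▸ hP)
  · -- gauss
    intro P hPc hPu
    have hcoeff : ∀ i, ∃ c ∈ 𝒪, const c = P.coeff i := fun i =>
      exists_of_mem_map const (hPc i)
    choose c₀ hc₀ hc₀' using hcoeff
    have hsum : P.eval x = ∑ i ∈ Finset.range (P.natDegree + 1), const (c₀ i) * x ^ i := by
      rw [Polynomial.eval_eq_sum_range]
      exact Finset.sum_congr rfl fun i _ => by rw [hc₀' i]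
    rw [hsum]
    apply inv_mem_gaussRing_of_isPrim
    obtain ⟨i₀, hi₀, hi₀'⟩ := hPu
    apply isPrim_sum_of_pole hx hm hord hlead (fun i => const (c₀ i)) c₀ (fun i => hconst _) hc₀
    refine ⟨i₀, Polynomial.le_natDegree_of_ne_zero hi₀, ?_⟩
    obtain ⟨d, hd, hd'⟩ := exists_of_mem_map const hi₀'
    have h1 : d = (c₀ i₀)⁻¹ := by
      apply const.injective
      rw [hd', map_inv₀, hc₀']
    have h2 : 𝒪.valuation (c₀ i₀) ≤ 1 := (𝒪.valuation_le_one_iff _).mpr (hc₀ i₀)
    have h3 : 𝒪.valuation (c₀ i₀)⁻¹ ≤ 1 := (𝒪.valuation_le_one_iff _).mpr (h1 ▸ hd)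
    have hc0 : c₀ i₀ ≠ 0 := fun h => hi₀ (by rw [← hc₀', h, map_zero])
    have hv0 : 𝒪.valuation (c₀ i₀) ≠ 0 := (Valuation.ne_zero_iff _).mpr hc0
    rw [map_inv₀] at h3
    have h4 : 1 ≤ 𝒪.valuation (c₀ i₀) := by
      rwa [inv_le_one₀ (zero_lt_iff.mpr hv0)] at h3
    exact le_antisymm h2 h4
  · -- G_fix_E
    rintro g hg a ⟨c, rfl⟩
    exact hGE g hg c

/-- **IGUSA1, expansion form**: the `q`-expansion principle for every subfield `Fc ≤ Ffull`
containing the uniformiser. -/
theorem qep_fin_of_expansion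
    (const : K →+* L) (hconst : ∀ c, ex (const c) = HahnSeries.C c)
    {w₀ : K} (hG : GaussHyp 𝒪 ex w₀ (const w₀))
    (Ffull : Subfield L) (hbd : ∀ f ∈ Ffull, HasBd 𝒪 ex (const w₀) f)
    (hconstF : ∀ c, const c ∈ Ffull)
    {x : L} (hxF : x ∈ Ffull) (hx : IsInt 𝒪 (ex x)) {m : ℕ} (hm : 0 < m)
    (hord : (ex x).order = -(m : ℤ)) (hlead : 𝒪.valuation (ex x).leadingCoeff = 1)
    (F0 : Subfield L) (G B : Subgroup (L ≃+* L)) (t : L ≃+* L)
    (hGfin : Finite G)
    (hGE : ∀ g ∈ G, ∀ c : K, g (const c) = const c)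
    (hGx : ∀ g ∈ G, g x = x)
    (hGF : ∀ g ∈ G, ∀ f ∈ Ffull, g f ∈ Ffull)
    (hGinv : ∀ f ∈ Ffull, (∀ g ∈ G, g f = f) → f ∈ ratField const.fieldRange x)
    (hBG : B ≤ G) (htB : t ∈ B)
    (htn : ∀ b ∈ B, b * t * b⁻¹ ∈ Subgroup.zpowers t)
    (htgen : G ≤ Subgroup.closure {s | ∃ g ∈ G, s = g * t * g⁻¹})
    {ζ : K} (hζ : 𝒪.valuation ζ = 1)
    (htw : ∀ (f : L) (k : ℤ), (ex (t f)).coeff k = ζ ^ k * (ex f).coeff k)
    (hBinv : ∀ f ∈ Ffull, (∀ b ∈ B, b f = f) → f ∈ F0)
    (hqep0 : ∀ b ∈ chart F0 (𝒪.toSubring.map const) x,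
      b * (const w₀)⁻¹ ∈ gaussRing 𝒪 ex → b * (const w₀)⁻¹ ∈ chart F0 (𝒪.toSubring.map const) x)
    (Fc : Subfield L) (hFc : Fc ≤ Ffull) (hwFc : const w₀ ∈ Fc) :
    ∀ b ∈ chart Fc (𝒪.toSubring.map const) x,
      b * (const w₀)⁻¹ ∈ gaussRing 𝒪 ex → b * (const w₀)⁻¹ ∈ chart Fc (𝒪.toSubring.map const) x :=
  (igusaData_of_expansion const hconst hG Ffull hbd hconstF hxF hx hm hord hlead F0 G B t hGfin
    hGE hGx hGF hGinv hBG htB htn htgen hζ htw hBinv hqep0).qep_fin Fc hFc hwFc

end Fermat.Agent.S48.H856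

end
-- ===== PACK-END S48/H856/IgusaBuild.lean

-- ===== PACK-BEGIN S48/H828/IActInf.lean
section


/-!
# S48 / Tower A1 / IGUSA1 (helper828), part 9a: the `q`-expansion principle at infinity

Generic complement to `H856.IgusaData.qep_fin`: the same statement in the chart `x⁻¹`
(field `qep_inf` of `S18.Alg.GoodModel`), from `IgusaData.stable` and
`H588.qep_of_unique_gauss` applied to `x⁻¹`.

* `iact_eval_inv_eq`   : `P(x⁻¹) = (reflect P)(x) · x^{-deg P}`;
* `iact_gauss_inv`     : the field `gauss` of `IgusaData` at `x⁻¹` from the one at `x`;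
* `iact_igusa_qep_inf` : `qep_inf` for every intermediate field `Fc ≤ Ffull`.
-/

set_option autoImplicit false

namespace Fermat.Agent.S48.H828

open Fermat.Agent.S18.Alg Polynomial Fermat.Agent.S48.H856

variable {Ω : Type*} [Field Ω]

theorem iact_eval_inv_eq (P : Polynomial Ω) {x : Ω} (hx : x ≠ 0) :
    P.eval x⁻¹ = (P.reflect P.natDegree).eval x * (x⁻¹) ^ P.natDegree := by
  let _ : Invertible (x⁻¹) := invertibleOfNonzero (inv_ne_zero hx)
  have h := eval₂_reflect_mul_pow (RingHom.id Ω) (x⁻¹) P.natDegree P le_rfl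
  rw [invOf_eq_inv, inv_inv, eval₂_id, eval₂_id] at h
  exact h.symm

theorem iact_gauss_inv {R V : Subring Ω} {x : Ω} (hx0 : x ≠ 0) (hxV : x ∈ V)
    (hgauss : ∀ P : Polynomial Ω, (∀ i, P.coeff i ∈ R) →
      (∃ i, P.coeff i ≠ 0 ∧ (P.coeff i)⁻¹ ∈ R) → (P.eval x)⁻¹ ∈ V) :
    ∀ P : Polynomial Ω, (∀ i, P.coeff i ∈ R) →
      (∃ i, P.coeff i ≠ 0 ∧ (P.coeff i)⁻¹ ∈ R) → (P.eval x⁻¹)⁻¹ ∈ V := by
  rintro P hP ⟨i, hi0, hiR⟩
  have hiN : i ≤ P.natDegree := le_natDegree_of_ne_zero hi0
  have h1 : ((P.reflect P.natDegree).eval x)⁻¹ ∈ V := by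
    refine hgauss _ (fun k => ?_) ⟨revAt P.natDegree i, ?_, ?_⟩
    · rw [coeff_reflect]; exact hP _
    · rw [coeff_reflect, revAt_invol]; exact hi0
    · rw [coeff_reflect, revAt_invol]; exact hiR
  rw [iact_eval_inv_eq P hx0, mul_inv, inv_pow, inv_inv]
  exact V.mul_mem h1 (V.pow_mem hxV _)

theorem iact_ratField_inv_le (Ec : Subfield Ω) (x : Ω) : ratField Ec x ≤ ratField Ec x⁻¹ := by
  unfold ratField
  rw [Subfield.closure_le]
  rintro z (hz | hz)
  · exact Subfield.subset_closure (Or.inl hz)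
  · rw [Set.mem_singleton_iff] at hz
    have h1 : x⁻¹ ∈ Subfield.closure ((Ec : Set Ω) ∪ {x⁻¹}) :=
      Subfield.subset_closure (Or.inr rfl)
    have h2 := (Subfield.closure ((Ec : Set Ω) ∪ {x⁻¹})).inv_mem h1
    rw [inv_inv] at h2
    rw [hz]; exact h2

variable {Ec F0 Ffull : Subfield Ω} {R V : Subring Ω} {w x : Ω}
  {G B : Subgroup (Ω ≃+* Ω)} {t : Ω ≃+* Ω}

theorem iact_igusa_x_ne_zero (h : IgusaData Ec F0 Ffull R V w x G B t) : x ≠ 0 := by
  rintro rfl
  exact h.x_transcendental isAlgebraic_zero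

/-- **Node IGUSA1 at infinity.**  The `q`-expansion principle in the chart `x⁻¹`
(`GoodModel.qep_inf`) for every intermediate field `Fc ≤ Ffull`. -/
theorem iact_igusa_qep_inf (h : IgusaData Ec F0 Ffull R V w x G B t) (Fc : Subfield Ω)
    (hFc : Fc ≤ Ffull) (hwFc : w ∈ Fc) :
    ∀ b ∈ chart Fc R x⁻¹, b * w⁻¹ ∈ V → b * w⁻¹ ∈ chart Fc R x⁻¹ := by
  have := h.G_finite
  have hx0 : x ≠ 0 := iact_igusa_x_ne_zero h
  intro b hb hbV
  have hbF : b * w⁻¹ ∈ Ffull := Ffull.mul_mem (hFc hb.1) (Ffull.inv_mem (hFc hwFc))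
  have hRF : R ≤ Ffull.toSubring := fun r hr => h.E_le (h.R_le r hr)
  have hxt : Transcendental R x⁻¹ := fun halg => h.x_transcendental (IsAlgebraic.inv_iff.mp halg)
  refine H588.qep_of_unique_gauss Ec Fc Ffull R (V ⊓ Ffull.toSubring) h.R_le h.R_total h.w_mem
    h.w_ne_zero h.w_inv_not_mem h.w_discrete hxt hFc hwFc
    (le_inf h.R_le_V hRF) (fun hmem => h.w_inv_not_mem_V hmem.1) ?_ G h.G_fix_E
    (fun g hg => by rw [map_inv₀, h.G_fix_x g hg])
    h.G_stable ?_ (fun f hf hfix => iact_ratField_inv_le Ec x (h.G_inv f hf hfix)) b hb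
    ⟨hbV, hbF⟩
  · intro P hP hP'
    refine ⟨iact_gauss_inv hx0 h.x_mem_V h.gauss P hP hP', Ffull.inv_mem ?_⟩
    rw [Polynomial.eval_eq_sum_range]
    exact Ffull.sum_mem fun i _ =>
      Ffull.mul_mem (hRF (hP i)) (Ffull.pow_mem (Ffull.inv_mem h.x_mem) i)
  · intro g hg f hf
    exact ⟨h.stable g hg f hf.2 hf.1, h.G_stable g hg f hf.2⟩

end Fermat.Agent.S48.H828

end
-- ===== PACK-END S48/H828/IActInf.lean

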