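import Mathlib
import Fermat.Prelude.Thm_ModularForm_eq_zero_of_lt_order_qExpansion_of_isArithmetic
import Fermat.Prelude.Thm_UpperHalfPlane_qExpansion_coeff_nat_mul
import Mathlib.NumberTheory.LSeries.PrimesInAP
import Fermat.Prelude.Def_ModularForm_HeckeOperatorForms
import Fermat.Prelude.Thm_ModularFormClass_qCoeff_heckeT
import Fermat.Agent.Pack.S48.G0E1L0
import Fermat.Agent.Pack.S48.G0E1L2
import Fermat.Agent.Pack.S48.G0E1L1
import Fermat.Agent.Pack.S48.G0E0L0
import Fermat.Agent.Pack.S48.G0E0L1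
import Fermat.Agent.Pack.S48.G0E0L3
import Fermat.Agent.Pack.S48.G0E1L3
import Fermat.Agent.Pack.S48.G0E0L2
import Fermat.Agent.Pack.S48.G6E0L0

-- ===== PACK-BEGIN S48/H308/RankinTop.lean
section



/-!
# S48 (Deligne–Serre), input P4 RANKIN in the exact shape of the row interface

`rankin : Fermat.Agent.S48.Top.RankinStatement` (sharp constant `1`, no boundedness hypothesis).
-/

set_option autoImplicit false

namespace Fermat.Agent.S48.H308

/-- **P4 (RANKIN)**, exact `Top/Spec.lean` shape. -/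
theorem rankin : Fermat.Agent.S48.Top.RankinStatement :=
  fun N _ ε f h => rankin_bound N ε f h.1 h.2

end Fermat.Agent.S48.H308

end
-- ===== PACK-END S48/H308/RankinTop.lean

-- ===== PACK-BEGIN S48/H948/Two.lean
section



/-!
# S48 glue piece TWO (helper948): `ExactAwayStatement + ChebDensityStatement ⟹ ExactStatement`

Take two primes `ℓ₁ ≠ ℓ₂` and the representations `ρ₁`, `ρ₂` attached away from `Nℓ₁`, `Nℓ₂`.
By Chebotarev every element of the image of `ρ₁ × ρ₂` is the image of a Frobenius element at a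
prime `p ∤ Nℓ₁ℓ₂`, where both traces are `a_p` and both determinants are `ε(p)`.  Hence
`(tr, det) ∘ ρ₁ = (tr, det) ∘ ρ₂`; an element of finite order with trace `2` and determinant `1`
is the identity, so `ker ρ₂ ⊆ ker ρ₁`, and `ρ₁` is unramified at `ℓ₁` with the right Frobenius.
-/

set_option autoImplicit false

open CongruenceSubgroup
open scoped MatrixGroups

namespace Fermat.Agent.S48.H948

open Fermat.Agent.Lib.Cheb.Spec Fermat.Agent.Lib.Cheb.SpecQ Fermat.Agent.S48.Top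

/-- The product of two homomorphisms of finite level has finite level. -/
theorem finiteLevel_prod {M₁ M₂ : Type} [Group M₁] [Group M₂] (ρ₁ : GQ →* M₁) (ρ₂ : GQ →* M₂)
    (h₁ : GaloisFactorsThroughFiniteLevel ρ₁) (h₂ : GaloisFactorsThroughFiniteLevel ρ₂) :
    ∃ E : IntermediateField ℚ Qb, FiniteDimensional ℚ E ∧
      ∀ σ : GQ, (∀ x ∈ E, σ x = x) → (ρ₁.prod ρ₂) σ = 1 := by
  obtain ⟨E₁, hE₁, hρ₁⟩ := h₁
  obtain ⟨E₂, hE₂, hρ₂⟩ := h₂
  have : FiniteDimensional ℚ E₁ := hE₁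
  have : FiniteDimensional ℚ E₂ := hE₂
  refine ⟨E₁ ⊔ E₂, inferInstance, ?_⟩
  intro σ hσ
  have e1 : ρ₁ σ = 1 := hρ₁ σ fun x hx => hσ x ((le_sup_left : E₁ ≤ E₁ ⊔ E₂) hx)
  have e2 : ρ₂ σ = 1 := hρ₂ σ fun x hx => hσ x ((le_sup_right : E₂ ≤ E₁ ⊔ E₂) hx)
  rw [MonoidHom.prod_apply, e1, e2]
  rfl

/-- Chebotarev, qualitative client form extracted from the density statement: every value of a
homomorphism of finite level is the value at a Frobenius element at an unramified prime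
outside `S`. -/
theorem exists_frobenius_of_chebDensity (hCheb : ChebDensityStatement) {G : Type} [Group G]
    (ρ : GQ →* G) (E : IntermediateField ℚ Qb) (hE : FiniteDimensional ℚ E)
    (hρ : ∀ σ : GQ, (∀ x ∈ E, σ x = x) → ρ σ = 1) (S : Finset ℕ) (σ : GQ) :
    ∃ (p : ℕ) (A : ValuationSubring Qb) (τ : GQ), p.Prime ∧ p ∉ S ∧ A.LiesOverPrime p ∧
      A.IsFrobeniusAt τ p ∧ ρ τ = ρ σ := by
  have hfin : Finite ρ.range := finite_range_of_finiteLevel ρ ⟨E, hE, hρ⟩
  have hfin' : Finite ↥(Set.range ρ) := hfin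
  have hdens := hCheb G ρ E hE hρ {ρ σ} S
  have hinter : ({ρ σ} ∩ Set.range ρ : Set G) = {ρ σ} := by
    rw [Set.inter_eq_left, Set.singleton_subset_iff]
    exact Set.mem_range_self σ
  have hpos : (0 : ℝ) <
      (Nat.card ↥({ρ σ} ∩ Set.range ρ : Set G) : ℝ) / (Nat.card ↥(Set.range ρ) : ℝ) := by
    rw [hinter, Nat.card_unique, Nat.cast_one]
    have : Nonempty ↥(Set.range ρ) := ⟨⟨ρ σ, Set.mem_range_self σ⟩⟩
    have h0 : 0 < Nat.card ↥(Set.range ρ) := Nat.card_pos
    positivity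
  obtain ⟨p, hp⟩ := nonempty_of_hasLowerDensity hdens hpos
  obtain ⟨hpp, hpS, A, τ, hA, hτ, -, hτσ⟩ := hp
  exact ⟨p, A, τ, hpp, hpS, hA, hτ, hτσ⟩

/-- (TWO) -/
theorem exactPiece : ExactPiece := by
  intro hEA hCheb N _ ε f hyp
  obtain ⟨B, h⟩ := hEA N ε f hyp
  obtain ⟨ℓ₁, hℓ₁B, hℓ₁⟩ := Nat.exists_infinite_primes (B + 1)
  obtain ⟨ℓ₂, hℓ₂ℓ₁, hℓ₂⟩ := Nat.exists_infinite_primes (ℓ₁ + 1)
  obtain ⟨ρ₁, hFL₁, hatt₁⟩ := h ℓ₁ hℓ₁ (by omega)
  obtain ⟨ρ₂, hFL₂, hatt₂⟩ := h ℓ₂ hℓ₂ (by omega)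
  have hN : N ≠ 0 := NeZero.ne N
  obtain ⟨E, hE, hE12⟩ := finiteLevel_prod ρ₁ ρ₂ hFL₁ hFL₂
  -- traces and determinants agree everywhere
  have hagree : ∀ σ : GQ,
      ((ρ₁ σ : GL (Fin 2) ℂ) : Matrix (Fin 2) (Fin 2) ℂ).trace =
        ((ρ₂ σ : GL (Fin 2) ℂ) : Matrix (Fin 2) (Fin 2) ℂ).trace ∧
      ((ρ₁ σ : GL (Fin 2) ℂ) : Matrix (Fin 2) (Fin 2) ℂ).det =
        ((ρ₂ σ : GL (Fin 2) ℂ) : Matrix (Fin 2) (Fin 2) ℂ).det := by
    intro σ
    obtain ⟨p, A, τ, hp, hpS, hA, hτ, hτσ⟩ :=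
      exists_frobenius_of_chebDensity hCheb (ρ₁.prod ρ₂) E hE hE12
        (N * ℓ₁ * ℓ₂).primeFactors σ
    have hne : N * ℓ₁ * ℓ₂ ≠ 0 :=
      mul_ne_zero (mul_ne_zero hN hℓ₁.ne_zero) hℓ₂.ne_zero
    have hnd : ¬ p ∣ N * ℓ₁ * ℓ₂ := fun hd =>
      hpS (Nat.mem_primeFactors.mpr ⟨hp, hd, hne⟩)
    have hnd₁ : ¬ p ∣ N * ℓ₁ := fun hd => hnd (Dvd.dvd.mul_right hd ℓ₂)
    have hnd₂ : ¬ p ∣ N * ℓ₂ := fun hd => hnd (by
      have : N * ℓ₁ * ℓ₂ = N * ℓ₂ * ℓ₁ := by ring
      rw [this]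
      exact Dvd.dvd.mul_right hd ℓ₁)
    have e1 : ρ₁ τ = ρ₁ σ := congrArg Prod.fst hτσ
    have e2 : ρ₂ τ = ρ₂ σ := congrArg Prod.snd hτσ
    obtain ⟨ht₁, hd₁⟩ := (hatt₁ p hp hnd₁ A hA).2 τ hτ
    obtain ⟨ht₂, hd₂⟩ := (hatt₂ p hp hnd₂ A hA).2 τ hτ
    rw [← e1, ← e2, ht₁, hd₁, ht₂, hd₂]
    exact ⟨rfl, rfl⟩
  -- kernel of `ρ₂` is contained in the kernel of `ρ₁`
  have hfin₁ : Finite ρ₁.range := finite_range_of_finiteLevel ρ₁ hFL₁
  have hker : ∀ σ : GQ, ρ₂ σ = 1 → ρ₁ σ = 1 := by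
    intro σ hσ
    obtain ⟨ht, hd⟩ := hagree σ
    rw [hσ] at ht hd
    have hpow : (ρ₁ σ) ^ (Nat.card ρ₁.range) = 1 := by
      have h3 : (⟨ρ₁ σ, σ, rfl⟩ : ρ₁.range) ^ (Nat.card ρ₁.range) = 1 := pow_card_eq_one'
      have h4 := congrArg (fun x : ρ₁.range => (x : GL (Fin 2) ℂ)) h3
      simpa using h4
    refine eq_one_of_pow_eq_one_of_trace_det (ρ₁ σ) Nat.card_pos hpow ?_ ?_
    · rw [ht]
      simp
    · rw [hd]
      simp
  refine ⟨ρ₁, hFL₁, ?_⟩
  intro p hp hpN A hA
  by_cases hpℓ : p ∣ N * ℓ₁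
  · -- `p = ℓ₁`: use `ρ₂`
    have hpeq : p = ℓ₁ := by
      rcases (Nat.Prime.dvd_mul hp).mp hpℓ with h1 | h1
      · exact absurd h1 hpN
      · exact (Nat.prime_dvd_prime_iff_eq hp hℓ₁).mp h1
    have hnd₂ : ¬ p ∣ N * ℓ₂ := by
      intro hd
      rcases (Nat.Prime.dvd_mul hp).mp hd with h1 | h1
      · exact hpN h1
      · have := (Nat.prime_dvd_prime_iff_eq hp hℓ₂).mp h1
        omega
    obtain ⟨hin, hF⟩ := hatt₂ p hp hnd₂ A hA
    refine ⟨fun σ hσ => hker σ (hin σ hσ), fun σ hσ => ?_⟩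
    obtain ⟨ht, hd⟩ := hF σ hσ
    obtain ⟨ht', hd'⟩ := hagree σ
    exact ⟨ht'.trans ht, hd'.trans hd⟩
  · exact hatt₁ p hp hpℓ A hA

end Fermat.Agent.S48.H948

end
-- ===== PACK-END S48/H948/Two.lean

-- ===== PACK-BEGIN Lib/Cheb/H993/QAdapt.lean
section






/-!
# CHEB-Q: adapters between `Lib/Cheb/SpecQ*.lean` (helper993) and `Lib/ChebQ/Spec.lean` (helper968)

* `cycDensity968_of` : `SpecQ.CycSumStatement → SpecQ.CycCountStatement →
  ChebQ.Spec.CycDensityStatement` (the `O(1)`-form needed by `ChebQ.H968.crossDensity`);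
* `chebDensityFinite_of_968` : `ChebQ.Spec.ChebDensityStatement → SpecQ.ChebDensityFiniteStatement`;
* `client968_of` : `SpecQ.ChebDensityStatement → ChebQ.Spec.ChebDensityClientStatement`.
-/

set_option autoImplicit false

open NumberField

namespace Fermat.Agent.Lib.Cheb.H993

open Fermat.Agent.Lib.Cheb.Spec Fermat.Agent.Lib.Cheb.SpecQ

/-- orbit–stabiliser for conjugation -/
theorem card_conjugatesOf_mul_card_centralizer_h993 {G : Type*} [Group G] [Finite G] (g : G) :
    Nat.card (conjugatesOf g) * Nat.card (Subgroup.centralizer ({g} : Set G)) = Nat.card G := by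
  classical
  cases nonempty_fintype G
  rw [Subgroup.nat_card_centralizer_nat_card_stabilizer]
  have horb : MulAction.orbit (ConjAct G) g = conjugatesOf g := by
    ext h
    rw [ConjAct.mem_orbit_conjAct, isConj_comm]
    rfl
  letI : Fintype (ConjAct G) := Fintype.ofFinite _
  letI : Fintype (MulAction.orbit (ConjAct G) g) := Fintype.ofFinite _
  letI : Fintype (MulAction.stabilizer (ConjAct G) g) := Fintype.ofFinite _
  have h := MulAction.card_orbit_mul_card_stabilizer_eq_card_group (ConjAct G) g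
  rw [← Nat.card_eq_fintype_card, ← Nat.card_eq_fintype_card, ← Nat.card_eq_fintype_card] at h
  rw [← horb]
  exact h

theorem classDensity_eq_inv_h993 (L : Type) [Field L] [NumberField L] (g : L ≃ₐ[ℚ] L) :
    classDensity L g =
      (Nat.card (Subgroup.centralizer ({g} : Set (L ≃ₐ[ℚ] L))) : ℝ)⁻¹ := by
  have h := card_conjugatesOf_mul_card_centralizer_h993 g
  have hZ : (0 : ℝ) < (Nat.card (Subgroup.centralizer ({g} : Set (L ≃ₐ[ℚ] L))) : ℝ) := by
    exact_mod_cast (Nat.card_pos : 0 < Nat.card (Subgroup.centralizer ({g} : Set (L ≃ₐ[ℚ] L))))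
  have hG : (0 : ℝ) < (Nat.card (L ≃ₐ[ℚ] L) : ℝ) := by
    exact_mod_cast (Nat.card_pos : 0 < Nat.card (L ≃ₐ[ℚ] L))
  have h' : (Nat.card (conjugatesOf g) : ℝ) *
      (Nat.card (Subgroup.centralizer ({g} : Set (L ≃ₐ[ℚ] L))) : ℝ) =
      (Nat.card (L ≃ₐ[ℚ] L) : ℝ) := by exact_mod_cast h
  rw [classDensity, div_eq_iff hG.ne', ← h']
  field_simp

/-- `O(1)`-form of `hasLowerDensity_of_tsum`. -/
theorem exists_finset_of_tsum_h993 {X : Set ℕ} {d' w K : ℝ} (hw : 0 < w)
    (f : ℝ → Nat.Primes → ℝ)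
    (hsum : ∀ s : ℝ, 1 < s → s ≤ 2 → Summable (f s))
    (hle : ∀ s : ℝ, 1 < s → s ≤ 2 → ∀ p : Nat.Primes, f s p ≤ w * ((p : ℕ) : ℝ) ^ (-s))
    (hX : ∀ s : ℝ, 1 < s → s ≤ 2 → ∀ p : Nat.Primes, (p : ℕ) ∉ X → f s p ≤ 0)
    (hbound : ∀ s : ℝ, 1 < s → s ≤ 2 → d' * Real.log (1 / (s - 1)) - K ≤ ∑' p, f s p) :
    ∀ s : ℝ, 1 < s → s ≤ 2 → ∃ T : Finset ℕ, (∀ p ∈ T, p ∈ X) ∧
      d' / w * Real.log (1 / (s - 1)) - (K + 1) / w ≤ ∑ p ∈ T, (p : ℝ) ^ (-s) := by
  classical
  intro s h1 h2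
  have hS := (hsum s h1 h2).hasSum
  have hev := hS.eventually (lt_mem_nhds (show ∑' p, f s p - 1 < ∑' p, f s p by linarith))
  obtain ⟨F, hF⟩ := hev.exists
  set F' : Finset Nat.Primes := F.filter (fun p => (p : ℕ) ∈ X) with hF'
  have h3 : ∑ p ∈ F, f s p ≤ ∑ p ∈ F', f s p := by
    rw [hF', Finset.sum_filter]
    apply Finset.sum_le_sum
    intro p _
    split_ifs with hp
    · exact le_rfl
    · exact hX s h1 h2 p hp
  have h4 : ∑ p ∈ F', f s p ≤ w * ∑ p ∈ F', ((p : ℕ) : ℝ) ^ (-s) := by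
    rw [Finset.mul_sum]
    exact Finset.sum_le_sum fun p _ => hle s h1 h2 p
  refine ⟨F'.image (fun p : Nat.Primes => (p : ℕ)), fun p hp => ?_, ?_⟩
  · obtain ⟨q, hq, rfl⟩ := Finset.mem_image.mp hp
    rw [hF', Finset.mem_filter] at hq
    exact hq.2
  · have himg : ∑ p ∈ F'.image (fun p : Nat.Primes => (p : ℕ)), (p : ℝ) ^ (-s) =
        ∑ p ∈ F', ((p : ℕ) : ℝ) ^ (-s) :=
      Finset.sum_image (f := fun n : ℕ => (n : ℝ) ^ (-s)) (g := fun p : Nat.Primes => (p : ℕ))
        (fun a _ b _ hab => Nat.Primes.coe_nat_injective hab)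
    rw [himg]
    have h5 := hbound s h1 h2
    have h6 : d' * Real.log (1 / (s - 1)) - (K + 1) ≤ w * ∑ p ∈ F', ((p : ℕ) : ℝ) ^ (-s) := by
      linarith
    have h7 : d' / w * Real.log (1 / (s - 1)) - (K + 1) / w =
        (d' * Real.log (1 / (s - 1)) - (K + 1)) / w := by ring
    rw [h7, div_le_iff₀ hw]
    linarith

/-- `O(1)`-form of Q-CYC. -/
theorem cycBound_h993 (hSum : CycSumStatement) (hCount : CycCountStatement)
    (L : Type) [Field L] [NumberField L] [IsGalois ℚ L] (m : ℕ) (ζ : L) (hm : 0 < m)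
    (hζ : IsPrimitiveRoot ζ m) (g : L ≃ₐ[ℚ] L) (hfaith : ∀ k : ℕ, (g ^ k) ζ = ζ → g ^ k = 1) :
    ∃ K : ℝ, ∀ s : ℝ, 1 < s → s ≤ 2 → ∃ T : Finset ℕ, (∀ p ∈ T, p ∈ frobPrimes L g) ∧
      classDensity L g * Real.log (1 / (s - 1)) - K ≤ ∑ p ∈ T, (p : ℝ) ^ (-s) := by
  classical
  have : NeZero m := ⟨hm.ne'⟩
  obtain ⟨C, hC⟩ := hSum L m ζ hζ g hfaith
  obtain ⟨B, hB⟩ := hCount L m ζ hζ g hfaith
  set a : ZMod m := ((hζ.autToPow ℚ g : (ZMod m)ˣ) : ZMod m) with ha
  set c : ℕ → ℕ := fun p =>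
    primeCount (IntermediateField.fixedField (Subgroup.zpowers g)) p with hc
  set n : ℕ := orderOf g with hn
  set cg : ℕ := Nat.card (conjugatesOf g) with hcg
  set G : ℕ := Nat.card (L ≃ₐ[ℚ] L) with hG
  have hnpos : 0 < n := orderOf_pos g
  have hcgpos : 0 < cg := by
    have : Nonempty (conjugatesOf g) := ⟨⟨g, mem_conjugatesOf_self⟩⟩
    exact Nat.card_pos
  have hGpos : 0 < G := Nat.card_pos
  have hnR : (0 : ℝ) < n := by exact_mod_cast hnpos
  have hcgR : (0 : ℝ) < cg := by exact_mod_cast hcgpos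
  have hGR : (0 : ℝ) < G := by exact_mod_cast hGpos
  set w : ℝ := (G : ℝ) / ((n : ℝ) * (cg : ℝ)) with hw
  have hwpos : 0 < w := div_pos hGR (mul_pos hnR hcgR)
  set f : ℝ → Nat.Primes → ℝ := fun s p =>
    if ((p : ℕ) : ZMod m) = a ∧ (p : ℕ) ∉ B then (c p : ℝ) * ((p : ℕ) : ℝ) ^ (-s) else 0 with hf
  set g₀ : ℝ → Nat.Primes → ℝ := fun s p =>
    if ((p : ℕ) : ZMod m) = a then (c p : ℝ) * ((p : ℕ) : ℝ) ^ (-s) else 0 with hg₀
  set h₀ : Nat.Primes → ℝ := fun p => if (p : ℕ) ∈ B then (c p : ℝ) else 0 with hh₀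
  have hterm_nonneg : ∀ (s : ℝ) (p : Nat.Primes), 0 ≤ (c p : ℝ) * ((p : ℕ) : ℝ) ^ (-s) :=
    fun s p => mul_nonneg (Nat.cast_nonneg _) (rpow_neg_nonneg _ _)
  have hh₀sum : Summable h₀ := by
    apply summable_of_finset_support_h993 B
    intro p hp
    simp only [hh₀, if_neg hp]
  have hfsum : ∀ s : ℝ, 1 < s → s ≤ 2 → Summable (f s) := by
    intro s h1 h2
    refine Summable.of_nonneg_of_le (fun p => ?_) (fun p => ?_) (hC s h1 h2).1
    · simp only [hf]
      split_ifs
      · exact hterm_nonneg s p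
      · exact le_rfl
    · simp only [hf]
      split_ifs
      · exact le_rfl
      · exact hterm_nonneg s p
  have hg₀sum : ∀ s : ℝ, 1 < s → s ≤ 2 → Summable (g₀ s) := by
    intro s h1 h2
    refine Summable.of_nonneg_of_le (fun p => ?_) (fun p => ?_) (hC s h1 h2).1
    · simp only [hg₀]
      split_ifs
      · exact hterm_nonneg s p
      · exact le_rfl
    · simp only [hg₀]
      split_ifs
      · exact le_rfl
      · exact hterm_nonneg s p
  have hdens : (n : ℝ)⁻¹ / w = classDensity L g := by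
    rw [hw, classDensity, ← hcg, ← hG]
    field_simp
  rw [← hdens]
  refine ⟨(C + ∑' p, h₀ p + 1) / w, ?_⟩
  refine exists_finset_of_tsum_h993 (X := frobPrimes L g) (d' := (n : ℝ)⁻¹) (w := w)
    (K := C + ∑' p, h₀ p) hwpos f hfsum ?_ ?_ ?_
  · intro s h1 h2 p
    simp only [hf]
    split_ifs with hcond
    · by_cases hcp : c p = 0
      · rw [hcp, Nat.cast_zero, zero_mul]
        exact mul_nonneg hwpos.le (rpow_neg_nonneg _ _)
      · have h3 := (hB p p.2 hcond.2 hcond.1 hcp).2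
        have h4 : (c p : ℝ) * (n : ℝ) * (cg : ℝ) ≤ (G : ℝ) := by exact_mod_cast h3
        have h5 : (c p : ℝ) ≤ w := by
          rw [hw, le_div_iff₀ (mul_pos hnR hcgR)]
          linarith
        exact mul_le_mul_of_nonneg_right h5 (rpow_neg_nonneg _ _)
    · exact mul_nonneg hwpos.le (rpow_neg_nonneg _ _)
  · intro s h1 h2 p hp
    simp only [hf]
    split_ifs with hcond
    · by_cases hcp : c p = 0
      · rw [hcp, Nat.cast_zero, zero_mul]
      · exact absurd (hB p p.2 hcond.2 hcond.1 hcp).1 hp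
    · exact le_rfl
  · intro s h1 h2
    have h3 := (hC s h1 h2).2
    have hspos : 0 < s := by linarith
    have h4 : ∀ p : Nat.Primes, g₀ s p ≤ f s p + h₀ p := by
      intro p
      simp only [hg₀, hf, hh₀]
      by_cases hpa : ((p : ℕ) : ZMod m) = a
      · by_cases hpB : (p : ℕ) ∈ B
        · rw [if_pos hpa, if_neg (fun h => h.2 hpB), if_pos hpB, zero_add]
          calc (c p : ℝ) * ((p : ℕ) : ℝ) ^ (-s) ≤ (c p : ℝ) * 1 :=
                mul_le_mul_of_nonneg_left (rpow_neg_le_one _ hspos) (Nat.cast_nonneg _)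
            _ = (c p : ℝ) := mul_one _
        · rw [if_pos hpa, if_pos ⟨hpa, hpB⟩, if_neg hpB, add_zero]
      · rw [if_neg hpa, if_neg (fun h => hpa h.1)]
        split_ifs
        · simp
        · simp
    have h5 : ∑' p, g₀ s p ≤ ∑' p, (f s p + h₀ p) :=
      (hg₀sum s h1 h2).tsum_le_tsum h4 ((hfsum s h1 h2).add hh₀sum)
    rw [(hfsum s h1 h2).tsum_add hh₀sum] at h5
    have h6 : ∑' p, g₀ s p = ∑' p : Nat.Primes,
        if ((p : ℕ) : ZMod m) = ((hζ.autToPow ℚ g : (ZMod m)ˣ) : ZMod m)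
          then (primeCount (IntermediateField.fixedField (Subgroup.zpowers g)) p : ℝ) *
            ((p : ℕ) : ℝ) ^ (-s)
          else 0 := rfl
    rw [h6] at h5
    linarith

/-- Q-CYC in helper968's `O(1)`/centralizer shape. -/
theorem cycDensity968_of (hSum : CycSumStatement) (hCount : CycCountStatement) :
    Fermat.Agent.Lib.ChebQ.Spec.CycDensityStatement := by
  intro L _ _ _ m ζ hm hζ g hfaith
  obtain ⟨K, hK⟩ := cycBound_h993 hSum hCount L m ζ hm hζ g hfaith
  refine ⟨K, fun s h1 h2 => ?_⟩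
  obtain ⟨T, hT, hsum⟩ := hK s h1 h2
  refine ⟨T, fun p hp => hT p hp, ?_⟩
  rw [← classDensity_eq_inv_h993]
  exact hsum

/-- helper968's finite-level statement gives `SpecQ.ChebDensityFiniteStatement`. -/
theorem chebDensityFinite_of_968 (h : Fermat.Agent.Lib.ChebQ.Spec.ChebDensityStatement) :
    ChebDensityFiniteStatement := by
  intro L _ _ _ g
  apply hasLowerDensity_of_forall_lt
  intro d' hd'
  obtain ⟨K, hK⟩ := h L g (classDensity L g - d') (by linarith)
  apply hasLowerDensity_of_bound (K := K)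
  intro s h1 h2
  obtain ⟨T, hT, hsum⟩ := hK s h1 h2
  refine ⟨T, fun p hp => hT (Finset.mem_coe.mpr hp), ?_⟩
  rw [← classDensity_eq_inv_h993] at hsum
  have : classDensity L g - (classDensity L g - d') = d' := by ring
  rw [this] at hsum
  exact hsum

/-- helper968's client statement (Deligne–Serre Lemma 8.4 input) from `SpecQ.ChebDensityStatement`. -/
theorem client968_of (h : ChebDensityStatement) :
    Fermat.Agent.Lib.ChebQ.Spec.ChebDensityClientStatement := by
  intro G _ _ ρ hρ C _ X η hX hmem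
  obtain ⟨E, hE, hker⟩ := hρ
  have h1 := h G ρ E hE hker C ∅
  obtain ⟨K, hK⟩ := hX
  have hsub : frobPrimesHom ρ C ∅ ⊆ X := by
    rintro p ⟨hp, -, A, τ, hA, hτ, -, hC⟩
    exact hmem p A τ hp hA hτ hC
  have h2 := (h1.mono hsub).le_of_bound (u := η) (K := K)
    (fun s hs1 hs2 T hT => hK s hs1 hs2 T (fun p hp => hT p (Finset.mem_coe.mp hp)))
  have hpos : (0 : ℝ) < (Nat.card ↥(Set.range ρ) : ℝ) := by
    have : Nonempty ↥(Set.range ρ) := ⟨⟨1, ⟨1, map_one ρ⟩⟩⟩
    exact_mod_cast (Nat.card_pos : 0 < Nat.card ↥(Set.range ρ))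
  rwa [div_le_iff₀ hpos] at h2

end Fermat.Agent.Lib.Cheb.H993

end
-- ===== PACK-END Lib/Cheb/H993/QAdapt.lean

-- ===== PACK-BEGIN S14/H74/Lattice.lean
section


/-!
# S14/N1 (helper74): lattice sums of `fS` (piece P6)
-/

namespace Fermat.Agent.S14.H74

open NumberField NumberField.mixedEmbedding NumberField.Units
  NumberField.Units.dirichletUnitTheorem NumberField.InfinitePlace Module

open scoped Classical

variable (K : Type*) [Field K] [NumberField K]

/-- The summand on the ring of integers. -/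
noncomputable def FS (s : ℝ) (x : 𝓞 K) : ℝ := fS K s (mixedEmbedding K (x : K))

/-- The norm of the image in the mixed space. -/
noncomputable def mnorm (x : 𝓞 K) : ℝ := ‖mixedEmbedding K (x : K)‖

variable {K}

theorem mnorm_nonneg (x : 𝓞 K) : 0 ≤ mnorm K x := norm_nonneg _

theorem mnorm_eq_zero_iff {x : 𝓞 K} : mnorm K x = 0 ↔ x = 0 := by
  unfold mnorm
  rw [norm_eq_zero, map_eq_zero, RingOfIntegers.coe_eq_zero_iff]

theorem mnorm_add_le (x y : 𝓞 K) : mnorm K (x + y) ≤ mnorm K x + mnorm K y := by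
  unfold mnorm
  have : mixedEmbedding K ((x + y : 𝓞 K) : K) =
      mixedEmbedding K (x : K) + mixedEmbedding K (y : K) := by
    rw [← map_add]
    rfl
  rw [this]
  exact norm_add_le _ _

theorem mixedEmbedding_norm_coe (x : 𝓞 K) :
    mixedEmbedding.norm (mixedEmbedding K (x : K)) = |(Algebra.norm ℤ x : ℝ)| := by
  rw [mixedEmbedding.norm_eq_norm, ← Algebra.coe_norm_int]
  simp

theorem one_le_mixedEmbedding_norm {x : 𝓞 K} (hx : x ≠ 0) :
    1 ≤ mixedEmbedding.norm (mixedEmbedding K (x : K)) := by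
  rw [mixedEmbedding_norm_coe]
  have h : Algebra.norm ℤ x ≠ 0 := by
    rwa [Ne, Algebra.norm_eq_zero_iff]
  have : (1 : ℤ) ≤ |Algebra.norm ℤ x| := Int.one_le_abs h
  exact_mod_cast this

theorem FS_zero (s : ℝ) : FS K s 0 = 0 := by
  simp [FS, fS, rho]

theorem FS_nonneg (s : ℝ) (x : 𝓞 K) : 0 ≤ FS K s x :=
  mul_nonneg (rho_nonneg _) (Real.rpow_nonneg (mixedEmbedding.norm_nonneg _) _)

theorem FS_le_one {s : ℝ} (hs : 0 ≤ s) (x : 𝓞 K) : FS K s x ≤ 1 := by
  by_cases hx : x = 0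
  · rw [hx, FS_zero]
    exact zero_le_one
  · have h1 := one_le_mixedEmbedding_norm hx
    have h2 : (mixedEmbedding.norm (mixedEmbedding K (x : K))) ^ (-s) ≤ 1 :=
      Real.rpow_le_one_of_one_le_of_nonpos h1 (by linarith)
    calc FS K s x = rho K _ * _ := rfl
      _ ≤ 1 * 1 := mul_le_mul (rho_le_one _) h2 (Real.rpow_nonneg (by linarith) _) zero_le_one
      _ = 1 := one_mul 1

theorem abs_FS_le_one {s : ℝ} (hs : 0 ≤ s) (x : 𝓞 K) : |FS K s x| ≤ 1 := by
  rw [abs_of_nonneg (FS_nonneg s x)]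
  exact FS_le_one hs x

variable (K) in
/-- The ring of integers as the integer lattice. -/
noncomputable def toLattice : 𝓞 K ≃ mixedEmbedding.integerLattice K :=
  Equiv.ofBijective (fun x ↦ ⟨mixedEmbedding K (x : K), ⟨x, rfl⟩⟩) (by
    constructor
    · intro x y h
      have h1 : mixedEmbedding K (x : K) = mixedEmbedding K (y : K) := congrArg Subtype.val h
      exact RingOfIntegers.ext ((mixedEmbedding_injective K) h1)
    · rintro ⟨_, ⟨x, rfl⟩⟩
      exact ⟨x, rfl⟩)

theorem summable_mnorm_rpow {r : ℝ} (hr : r < -(finrank ℚ K : ℝ)) :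
    Summable fun x : 𝓞 K ↦ mnorm K x ^ r := by
  have h1 : finrank ℤ (mixedEmbedding.integerLattice K) = finrank ℚ K := by
    rw [ZLattice.rank ℝ, mixedEmbedding.finrank]
  have h2 := ZLattice.summable_norm_rpow (mixedEmbedding.integerLattice K) r (by rwa [h1])
  exact ((toLattice K).summable_iff (f := fun z : mixedEmbedding.integerLattice K ↦ ‖z‖ ^ r)).mpr h2

theorem exists_FS_le_mnorm_rpow : ∃ A : ℝ, 1 ≤ A ∧ ∀ s : ℝ, 0 ≤ s → ∀ x : 𝓞 K,
    FS K s x ≤ A ^ ((finrank ℚ K : ℝ) * s) * mnorm K x ^ (-((finrank ℚ K : ℝ) * s)) := by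
  obtain ⟨A, hA1, hA⟩ := exists_support_bound (K := K)
  have hA0 : 0 < A := by linarith
  refine ⟨A, hA1, fun s hs x ↦ ?_⟩
  by_cases hρ : rho K (mixedEmbedding K (x : K)) = 0
  · have : FS K s x = 0 := fS_eq_zero_of_rho_eq_zero hρ
    rw [this]
    exact mul_nonneg (Real.rpow_nonneg hA0.le _) (Real.rpow_nonneg (mnorm_nonneg x) _)
  · have hN := norm_ne_zero_of_rho_ne_zero hρ
    have hx : x ≠ 0 := by
      rintro rfl
      simp at hN
    have hm : 0 < mnorm K x := lt_of_le_of_ne (mnorm_nonneg x) (Ne.symm (by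
      rwa [Ne, mnorm_eq_zero_iff]))
    have h1 := pow_le_norm_of_support hA1 (hA _ hρ)
    have h2 : 0 < (mnorm K x / A) ^ (finrank ℚ K) := by positivity
    have h3 : (mixedEmbedding.norm (mixedEmbedding K (x : K))) ^ (-s) ≤
        ((mnorm K x / A) ^ (finrank ℚ K)) ^ (-s) :=
      Real.rpow_le_rpow_of_nonpos h2 h1 (by linarith)
    have h4 : ((mnorm K x / A) ^ (finrank ℚ K)) ^ (-s) =
        A ^ ((finrank ℚ K : ℝ) * s) * mnorm K x ^ (-((finrank ℚ K : ℝ) * s)) := by
      rw [← Real.rpow_natCast, ← Real.rpow_mul (by positivity), Real.div_rpow hm.le hA0.le,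
        mul_neg, Real.rpow_neg hA0.le, div_eq_mul_inv, inv_inv, mul_comm]
    calc FS K s x = rho K _ * (mixedEmbedding.norm (mixedEmbedding K (x : K))) ^ (-s) := rfl
      _ ≤ 1 * ((mnorm K x / A) ^ (finrank ℚ K)) ^ (-s) :=
          mul_le_mul (rho_le_one _) h3 (Real.rpow_nonneg (mixedEmbedding.norm_nonneg _) _)
            zero_le_one
      _ = _ := by rw [one_mul, h4]

theorem summable_FS {s : ℝ} (hs : 1 < s) : Summable (FS K s) := by
  obtain ⟨A, -, hA⟩ := exists_FS_le_mnorm_rpow (K := K)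
  have hn : (0 : ℝ) < finrank ℚ K := Nat.cast_pos.mpr finrank_pos
  refine Summable.of_nonneg_of_le (FS_nonneg s) (hA s (by linarith)) ?_
  refine Summable.mul_left _ (summable_mnorm_rpow ?_)
  rw [neg_lt_neg_iff]
  nlinarith

/-- Domination of the differences `FS (y + t) - FS y`, uniformly in `s ∈ [1, 2]`. -/
theorem exists_dominating (t : 𝓞 K) : ∃ g : 𝓞 K → ℝ, Summable g ∧ (∀ y, 0 ≤ g y) ∧
    ∀ s : ℝ, 1 ≤ s → s ≤ 2 → ∀ y : 𝓞 K, |FS K s (y + t) - FS K s y| ≤ g y := by
  obtain ⟨R, C, hR, hC, h⟩ := exists_fS_lipschitz (K := K) (mnorm_nonneg t)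
  set n : ℕ := finrank ℚ K with hn
  have hsum : Summable fun y : 𝓞 K ↦ mnorm K y ^ (-((n : ℝ) + 1)) :=
    summable_mnorm_rpow (by rw [neg_lt_neg_iff]; linarith)
  refine ⟨fun y ↦ (C + R ^ (n + 1)) * mnorm K y ^ (-((n : ℝ) + 1)) + if y = 0 then 1 else 0,
    (hsum.mul_left _).add (hasSum_ite_eq 0 (1 : ℝ)).summable, fun y ↦ ?_,
    fun s hs1 hs2 y ↦ ?_⟩
  · have : 0 ≤ mnorm K y ^ (-((n : ℝ) + 1)) := Real.rpow_nonneg (mnorm_nonneg y) _
    have : (0 : ℝ) ≤ if y = 0 then 1 else 0 := by split_ifs <;> norm_num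
    show 0 ≤ (C + R ^ (n + 1)) * mnorm K y ^ (-((n : ℝ) + 1)) + if y = 0 then 1 else 0
    positivity
  · have hs0 : (0 : ℝ) ≤ s := by linarith
    show |FS K s (y + t) - FS K s y| ≤
      (C + R ^ (n + 1)) * mnorm K y ^ (-((n : ℝ) + 1)) + if y = 0 then 1 else 0
    by_cases hy : y = 0
    · subst hy
      rw [zero_add, FS_zero, sub_zero, if_pos rfl]
      have : 0 ≤ mnorm K (0 : 𝓞 K) ^ (-((n : ℝ) + 1)) := Real.rpow_nonneg (mnorm_nonneg _) _
      have := abs_FS_le_one hs0 t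
      have : 0 ≤ (C + R ^ (n + 1)) * mnorm K (0 : 𝓞 K) ^ (-((n : ℝ) + 1)) := by positivity
      linarith
    · rw [if_neg hy, add_zero]
      have hm : 0 < mnorm K y := lt_of_le_of_ne (mnorm_nonneg y) (Ne.symm (by
        rwa [Ne, mnorm_eq_zero_iff]))
      have e : mnorm K y ^ (-((n : ℝ) + 1)) = 1 / mnorm K y ^ (n + 1) := by
        rw [Real.rpow_neg hm.le, one_div]
        congr 1
        exact_mod_cast Real.rpow_natCast (mnorm K y) (n + 1)
      rw [e, mul_one_div]
      by_cases hyR : R ≤ mnorm K y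
      · have h1 := h s hs1 hs2 (mixedEmbedding K (y : K)) (mixedEmbedding K (t : K)) le_rfl hyR
        have h2 : FS K s (y + t) = fS K s (mixedEmbedding K (y : K) + mixedEmbedding K (t : K)) := by
          unfold FS
          rw [← map_add]
          rfl
        rw [h2]
        refine h1.trans ?_
        apply div_le_div_of_nonneg_right _ (by positivity)
        have : 0 ≤ R ^ (n + 1) := by positivity
        linarith
      · have h1 : |FS K s (y + t) - FS K s y| ≤ 1 := by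
          have a1 := FS_nonneg s (y + t)
          have a2 := FS_le_one hs0 (y + t)
          have a3 := FS_nonneg s y
          have a4 := FS_le_one hs0 y
          exact abs_le.mpr ⟨by linarith, by linarith⟩
        refine h1.trans ?_
        rw [le_div_iff₀ (by positivity), one_mul]
        have h3 : mnorm K y ^ (n + 1) ≤ R ^ (n + 1) :=
          pow_le_pow_left₀ hm.le (not_le.mp hyR).le _
        linarith

/-- Coset decomposition of `𝓞 K` along an ideal. -/
noncomputable def cosetEquiv (J : Ideal (𝓞 K)) : (𝓞 K ⧸ J) × J ≃ 𝓞 K where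
  toFun p := Quotient.out p.1 + (p.2 : 𝓞 K)
  invFun x := (Ideal.Quotient.mk J x, ⟨x - Quotient.out (Ideal.Quotient.mk J x), by
    rw [← Ideal.Quotient.eq, Ideal.Quotient.mk_out]⟩)
  left_inv := by
    rintro ⟨q, y⟩
    have h1 : Ideal.Quotient.mk J (Quotient.out q + (y : 𝓞 K)) = q := by
      rw [map_add, Ideal.Quotient.mk_out, Ideal.Quotient.eq_zero_iff_mem.mpr y.2, add_zero]
    ext
    · exact h1
    · simp only
      rw [h1, add_sub_cancel_left]
  right_inv := by
    intro x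
    simp

theorem cosetEquiv_apply (J : Ideal (𝓞 K)) (q : 𝓞 K ⧸ J) (y : J) :
    cosetEquiv J (q, y) = Quotient.out q + (y : 𝓞 K) := rfl

/-- **P6**: comparison of the smoothed sums over `𝓞 K` and over an ideal `J`. -/
theorem exists_compare_bound (J : Ideal (𝓞 K)) (hJ : J ≠ ⊥) : ∃ B : ℝ, ∀ s : ℝ, 1 < s → s ≤ 2 →
    |∑' x : 𝓞 K, FS K s x - (Ideal.absNorm J : ℝ) * ∑' y : J, FS K s (y : 𝓞 K)| ≤ B := by
  have : Finite (𝓞 K ⧸ J) := Ideal.finiteQuotientOfFreeOfNeBot J hJ
  let _ : Fintype (𝓞 K ⧸ J) := Fintype.ofFinite _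
  have hcard : (Ideal.absNorm J : ℝ) = Fintype.card (𝓞 K ⧸ J) := by
    rw [Ideal.absNorm_apply, Submodule.cardQuot_apply, Nat.card_eq_fintype_card]
  choose g hg hg0 hgb using fun t : 𝓞 K ↦ exists_dominating (K := K) t
  refine ⟨∑ q : 𝓞 K ⧸ J, ∑' y : J, g (Quotient.out q) (y : 𝓞 K), fun s hs1 hs2 ↦ ?_⟩
  have hsumF := summable_FS (K := K) hs1
  have hsumJ : Summable fun y : J ↦ FS K s (y : 𝓞 K) :=
    hsumF.comp_injective Subtype.val_injective
  have hsumq : ∀ q : 𝓞 K ⧸ J, Summable fun y : J ↦ FS K s (Quotient.out q + (y : 𝓞 K)) := by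
    intro q
    refine hsumF.comp_injective (f := FS K s) (i := fun y : J ↦ Quotient.out q + (y : 𝓞 K)) ?_
    intro y y' h
    exact Subtype.ext (add_left_cancel h)
  have h1 : ∑' x : 𝓞 K, FS K s x = ∑ q : 𝓞 K ⧸ J, ∑' y : J,
      FS K s (Quotient.out q + (y : 𝓞 K)) := by
    have hs' : Summable (FS K s ∘ cosetEquiv J) :=
      ((cosetEquiv J).summable_iff (f := FS K s)).mpr hsumF
    have e1 : ∑' x : 𝓞 K, FS K s x = ∑' p : (𝓞 K ⧸ J) × J, (FS K s ∘ cosetEquiv J) p :=
      ((cosetEquiv J).tsum_eq (FS K s)).symm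
    have hsumq' : ∀ q : 𝓞 K ⧸ J, Summable fun y : J ↦ (FS K s ∘ cosetEquiv J) (q, y) := by
      intro q
      simp only [Function.comp_apply, cosetEquiv_apply]
      exact hsumq q
    rw [e1, hs'.tsum_prod' hsumq', tsum_fintype]
    simp only [Function.comp_apply, cosetEquiv_apply]
  have h2 : (Ideal.absNorm J : ℝ) * ∑' y : J, FS K s (y : 𝓞 K) =
      ∑ _q : 𝓞 K ⧸ J, ∑' y : J, FS K s (y : 𝓞 K) := by
    rw [Finset.sum_const, Finset.card_univ, nsmul_eq_mul, hcard]
  rw [h1, h2, ← Finset.sum_sub_distrib]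
  refine (Finset.abs_sum_le_sum_abs _ _).trans (Finset.sum_le_sum fun q _ ↦ ?_)
  rw [← (hsumq q).tsum_sub hsumJ, ← Real.norm_eq_abs]
  have hgJ : Summable fun y : J ↦ g (Quotient.out q) (y : 𝓞 K) :=
    (hg (Quotient.out q)).comp_injective Subtype.val_injective
  refine tsum_of_norm_bounded hgJ.hasSum fun y ↦ ?_
  rw [Real.norm_eq_abs, add_comm (Quotient.out q) (y : 𝓞 K)]
  exact hgb (Quotient.out q) s hs1.le hs2 y

end Fermat.Agent.S14.H74

end
-- ===== PACK-END S14/H74/Lattice.lean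

-- ===== PACK-BEGIN Lib/NormL/Defs.lean
section



/-!
# Shared library `NormL` (analytic core of qualitative Chebotarev), definitions

For a number field `K` and a Dirichlet character `χ` mod `m` we study
`normL K χ s = ∑_I χ(N I) N(I)^(-s)` (sum over nonzero integral ideals) for real `s > 1`.
Main result (file `Main.lean`): if `χ(N I₀) ∉ {0, 1}` for some ideal `I₀`, then `normL K χ`
extends to a continuous function on `[1, 2]`.
-/

namespace Fermat.Agent.Lib.NormL

open NumberField NumberField.mixedEmbedding Fermat.Agent.S14.H74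
open scoped nonZeroDivisors Classical

variable (K : Type*) [Field K] [NumberField K]

/-- The norm-twisted `L`-series `∑_I χ(N I) N(I)^(-s)` over the nonzero ideals of `𝓞 K`,
for a real argument `s`. -/
noncomputable def normL {m : ℕ} (χ : DirichletCharacter ℂ m) (s : ℝ) : ℂ :=
  ∑' I : (Ideal (𝓞 K))⁰, χ ((Ideal.absNorm (I : Ideal (𝓞 K)) : ℕ) : ZMod m) *
    (((Ideal.absNorm (I : Ideal (𝓞 K)) : ℝ) ^ (-s) : ℝ) : ℂ)

/-- The summand `ρ(x) |N(x)|^(-s)` on `𝓞 K`, twisted by the sign of the norm if `ε = true`. -/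
noncomputable def GS (ε : Bool) (s : ℝ) (x : 𝓞 K) : ℝ :=
  FS K s x * (if ε then (((Algebra.norm ℤ x).sign : ℤ) : ℝ) else 1)

/-- The sum over the principal nonzero ideals divisible by `A` of `χ(N I) N(I)^(-s)`. -/
noncomputable def prinL {m : ℕ} (χ : DirichletCharacter ℂ m) (A : Ideal (𝓞 K)) (s : ℝ) : ℂ :=
  ∑' I : {I : (Ideal (𝓞 K))⁰ // (I : Ideal (𝓞 K)).IsPrincipal ∧ A ∣ (I : Ideal (𝓞 K))},
    χ ((Ideal.absNorm (I.1 : Ideal (𝓞 K)) : ℕ) : ZMod m) *
      (((Ideal.absNorm (I.1 : Ideal (𝓞 K)) : ℝ) ^ (-s) : ℝ) : ℂ)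

/-- The partial `L`-series of the ideal class `C`. -/
noncomputable def classL {m : ℕ} (χ : DirichletCharacter ℂ m) (C : ClassGroup (𝓞 K)) (s : ℝ) :
    ℂ :=
  ∑' I : {I : (Ideal (𝓞 K))⁰ // ClassGroup.mk0 I = C},
    χ ((Ideal.absNorm (I.1 : Ideal (𝓞 K)) : ℕ) : ZMod m) *
      (((Ideal.absNorm (I.1 : Ideal (𝓞 K)) : ℝ) ^ (-s) : ℝ) : ℂ)

/-- The sum over the elements `x` of the ideal `A` of `χ(N x) GS(x)`. -/
noncomputable def elemSum {m : ℕ} (χ : DirichletCharacter ℂ m) (ε : Bool) (A : Ideal (𝓞 K))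
    (s : ℝ) : ℂ :=
  ∑' x : A, χ ((Algebra.norm ℤ (x : 𝓞 K) : ℤ) : ZMod m) * ((GS K ε s (x : 𝓞 K) : ℝ) : ℂ)

end Fermat.Agent.Lib.NormL

end
-- ===== PACK-END Lib/NormL/Defs.lean

-- ===== PACK-BEGIN Lib/NormL/Sign.lean
section


/-!
# `NormL`: stability of the sign of the norm under small perturbations
-/

namespace Fermat.Agent.Lib.NormL

open NumberField

variable {K : Type*} [Field K] [NumberField K]

/-- The auxiliary function `λ ↦ ∏_σ (σ x + λ σ t)`. -/
noncomputable def normPath (x t : K) (l : ℝ) : ℂ :=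
  ∏ σ : K →ₐ[ℚ] ℂ, (σ x + (l : ℂ) * σ t)

theorem continuous_normPath (x t : K) : Continuous (normPath x t) := by
  unfold normPath
  exact continuous_finsetProd _ fun σ _ ↦
    continuous_const.add (Complex.continuous_ofReal.mul continuous_const)

theorem normPath_ratCast (x t : K) (q : ℚ) :
    normPath x t (q : ℝ) = ((Algebra.norm ℚ (x + q • t) : ℚ) : ℂ) := by
  have h := Algebra.norm_eq_prod_embeddings ℚ ℂ (x + q • t)
  rw [eq_ratCast] at h
  rw [h]
  unfold normPath
  refine Finset.prod_congr rfl fun σ _ ↦ ?_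
  rw [map_add, Algebra.smul_def, map_mul, AlgHom.commutes, Complex.ofReal_ratCast, eq_ratCast]

theorem normPath_im (x t : K) (l : ℝ) : (normPath x t l).im = 0 := by
  have h1 : Continuous fun l : ℝ ↦ (normPath x t l).im :=
    Complex.continuous_im.comp (continuous_normPath x t)
  have h2 : Continuous fun _ : ℝ ↦ (0 : ℝ) := continuous_const
  have h3 := Continuous.ext_on Rat.denseRange_cast h1 h2 (by
    rintro _ ⟨q, rfl⟩
    show (normPath x t (q : ℝ)).im = 0
    rw [normPath_ratCast]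
    exact Complex.ratCast_im _)
  exact congrFun h3 l

theorem normPath_ne_zero {x t : K} (h : ∀ w : InfinitePlace K, w t < w x) {l : ℝ}
    (hl0 : 0 ≤ l) (hl1 : l ≤ 1) : normPath x t l ≠ 0 := by
  unfold normPath
  rw [Finset.prod_ne_zero_iff]
  intro σ _ h0
  have hw := h (InfinitePlace.mk σ.toRingHom)
  rw [InfinitePlace.apply, InfinitePlace.apply] at hw
  have h1 : σ x = -((l : ℂ) * σ t) := eq_neg_of_add_eq_zero_left h0
  have h2 : ‖σ x‖ = l * ‖σ t‖ := by
    rw [h1, norm_neg, norm_mul, Complex.norm_real, Real.norm_of_nonneg hl0]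
  have h3 : l * ‖σ t‖ ≤ ‖σ t‖ := by
    have := norm_nonneg (σ t)
    nlinarith
  have hw' : ‖σ t‖ < ‖σ x‖ := hw
  linarith

theorem normPath_zero (x t : K) : normPath x t 0 = ((Algebra.norm ℚ x : ℚ) : ℂ) := by
  have := normPath_ratCast x t 0
  simpa using this

theorem normPath_one (x t : K) : normPath x t 1 = ((Algebra.norm ℚ (x + t) : ℚ) : ℂ) := by
  have := normPath_ratCast x t 1
  simpa using this

/-- If `t` is smaller than `x` at every infinite place, then `N(x + t)` and `N(x)` have the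
same sign. -/
theorem norm_pos_iff_of_lt {x t : K} (h : ∀ w : InfinitePlace K, w t < w x) :
    0 < Algebra.norm ℚ (x + t) ↔ 0 < Algebra.norm ℚ x := by
  set g : ℝ → ℝ := fun l ↦ (normPath x t l).re with hg
  have hgc : Continuous g := Complex.continuous_re.comp (continuous_normPath x t)
  have hg0 : g 0 = ((Algebra.norm ℚ x : ℚ) : ℝ) := by
    simp only [hg]
    rw [normPath_zero]
    exact Complex.ratCast_re _
  have hg1 : g 1 = ((Algebra.norm ℚ (x + t) : ℚ) : ℝ) := by
    simp only [hg]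
    rw [normPath_one]
    exact Complex.ratCast_re _
  have hne : ∀ l ∈ Set.Icc (0 : ℝ) 1, g l ≠ 0 := by
    intro l hl h0
    apply normPath_ne_zero h hl.1 hl.2
    apply Complex.ext
    · exact h0
    · exact normPath_im x t l
  have key : 0 < g 1 ↔ 0 < g 0 := by
    constructor
    · intro h1
      by_contra h0
      have h0' : g 0 ≤ 0 := not_lt.mp h0
      obtain ⟨l, hl, hl0⟩ := intermediate_value_Icc zero_le_one hgc.continuousOn
        (show (0 : ℝ) ∈ Set.Icc (g 0) (g 1) from ⟨h0', h1.le⟩)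
      exact hne l hl hl0
    · intro h0
      by_contra h1
      have h1' : g 1 ≤ 0 := not_lt.mp h1
      obtain ⟨l, hl, hl0⟩ := intermediate_value_Icc' zero_le_one hgc.continuousOn
        (show (0 : ℝ) ∈ Set.Icc (g 1) (g 0) from ⟨h1', h0.le⟩)
      exact hne l hl hl0
  rw [hg0, hg1] at key
  exact_mod_cast key

/-- Integral version: the sign of the norm is stable. -/
theorem sign_norm_add_eq {x t : 𝓞 K} (h : ∀ w : InfinitePlace K, w (t : K) < w (x : K)) :
    (Algebra.norm ℤ (x + t)).sign = (Algebra.norm ℤ x).sign := by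
  have h1 := norm_pos_iff_of_lt h
  have e1 : ((Algebra.norm ℤ x : ℤ) : ℚ) = Algebra.norm ℚ (x : K) := Algebra.coe_norm_int x
  have e2 : ((Algebra.norm ℤ (x + t) : ℤ) : ℚ) = Algebra.norm ℚ ((x : K) + (t : K)) := by
    exact Algebra.coe_norm_int (x + t)
  rw [← e1, ← e2] at h1
  have h2 : 0 < Algebra.norm ℤ (x + t) ↔ 0 < Algebra.norm ℤ x := by exact_mod_cast h1
  have hx : x ≠ 0 := by
    rintro rfl
    have := h (Classical.arbitrary _)
    simp only [map_zero] at this
    exact absurd this (not_lt.mpr (apply_nonneg _ _))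
  have hxt : x + t ≠ 0 := by
    intro h0
    have ht : t = -x := eq_neg_of_add_eq_zero_right h0
    have := h (Classical.arbitrary _)
    rw [ht] at this
    have e : (((-x : 𝓞 K) : 𝓞 K) : K) = -(x : K) := rfl
    rw [e, ← InfinitePlace.norm_embedding_eq, ← InfinitePlace.norm_embedding_eq, map_neg,
      norm_neg] at this
    exact lt_irrefl _ this
  have n1 : Algebra.norm ℤ x ≠ 0 := by rwa [Ne, Algebra.norm_eq_zero_iff]
  have n2 : Algebra.norm ℤ (x + t) ≠ 0 := by rwa [Ne, Algebra.norm_eq_zero_iff]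
  rcases lt_or_gt_of_ne n1 with hneg | hpos
  · have : ¬ 0 < Algebra.norm ℤ (x + t) := fun h' ↦ absurd (h2.mp h') (not_lt.mpr hneg.le)
    have hneg' : Algebra.norm ℤ (x + t) < 0 := lt_of_le_of_ne (not_lt.mp this) n2
    rw [Int.sign_eq_neg_one_of_neg hneg, Int.sign_eq_neg_one_of_neg hneg']
  · rw [Int.sign_eq_one_of_pos hpos, Int.sign_eq_one_of_pos (h2.mpr hpos)]

end Fermat.Agent.Lib.NormL

end
-- ===== PACK-END Lib/NormL/Sign.lean

-- ===== PACK-BEGIN Lib/NormL/DS.lean
section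


/-!
# `NormL`, block DS: domination of differences of the signed summand `GS`, coset lemma
-/

namespace Fermat.Agent.Lib.NormL

open NumberField NumberField.mixedEmbedding Fermat.Agent.S14.H74 Module
open scoped Classical

variable (K : Type*) [Field K] [NumberField K]

/-- The sign twist. -/
noncomputable def theta (ε : Bool) (x : 𝓞 K) : ℝ :=
  if ε then (((Algebra.norm ℤ x).sign : ℤ) : ℝ) else 1

variable {K}

theorem GS_eq (ε : Bool) (s : ℝ) (x : 𝓞 K) : GS K ε s x = FS K s x * theta K ε x := rfl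

theorem abs_theta_le_one (ε : Bool) (x : 𝓞 K) : |theta K ε x| ≤ 1 := by
  unfold theta
  split_ifs
  · rcases lt_trichotomy (Algebra.norm ℤ x) 0 with h | h | h
    · rw [Int.sign_eq_neg_one_of_neg h]; simp
    · rw [h]; simp
    · rw [Int.sign_eq_one_of_pos h]; simp
  · simp

theorem abs_GS_le (ε : Bool) (s : ℝ) (x : 𝓞 K) : |GS K ε s x| ≤ FS K s x := by
  rw [GS_eq, abs_mul, abs_of_nonneg (FS_nonneg s x)]
  exact mul_le_of_le_one_right (FS_nonneg s x) (abs_theta_le_one ε x)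

theorem summable_GS (ε : Bool) {s : ℝ} (hs : 1 < s) : Summable (GS K ε s) :=
  Summable.of_norm_bounded (summable_FS (K := K) hs) fun x ↦ by
    rw [Real.norm_eq_abs]
    exact abs_GS_le ε s x

theorem continuous_FS (x : 𝓞 K) : Continuous fun s : ℝ ↦ FS K s x := by
  by_cases hx : x = 0
  · subst hx
    simp only [FS_zero]
    exact continuous_const
  · have h1 := one_le_mixedEmbedding_norm hx
    have h0 : mixedEmbedding.norm (mixedEmbedding K (x : K)) ≠ 0 := by linarith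
    unfold FS fS
    exact continuous_const.mul ((Real.continuous_const_rpow h0).comp continuous_neg)

theorem continuous_GS (ε : Bool) (x : 𝓞 K) : Continuous fun s : ℝ ↦ GS K ε s x := by
  simp only [GS_eq]
  exact (continuous_FS x).mul continuous_const

theorem FS_eq_zero_of_rho_eq_zero {s : ℝ} {x : 𝓞 K}
    (h : rho K (mixedEmbedding K (x : K)) = 0) : FS K s x = 0 :=
  fS_eq_zero_of_rho_eq_zero h

/-- On the support of `rho`, far from the origin, the sign twist is stable. -/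
theorem theta_add_eq {A : ℝ} (hA1 : 1 ≤ A)
    (hA : ∀ x : mixedSpace K, rho K x ≠ 0 → ∀ w, ‖x‖ ≤ A * normAtPlace w x) (ε : Bool)
    {y t : 𝓞 K} (hρ : rho K (mixedEmbedding K (y : K)) ≠ 0) (hy : A * mnorm K t < mnorm K y) :
    theta K ε (y + t) = theta K ε y := by
  unfold theta
  split_ifs
  · congr 1
    apply sign_norm_add_eq
    intro w
    have h1 := hA _ hρ w
    rw [normAtPlace_apply] at h1
    have h2 : w (t : K) ≤ mnorm K t := by
      have := normAtPlace_le_norm w (mixedEmbedding K (t : K))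
      rwa [normAtPlace_apply] at this
    have hA0 : 0 < A := by linarith
    have h3 : A * w (t : K) ≤ A * mnorm K t := mul_le_mul_of_nonneg_left h2 hA0.le
    have h4 : A * w (t : K) < A * w (y : K) := by
      unfold mnorm at hy h3
      linarith
    exact lt_of_mul_lt_mul_left h4 hA0.le
  · rfl

/-- Signed version of helper74's `exists_dominating`. -/
theorem exists_dominating_GS (ε : Bool) (t : 𝓞 K) : ∃ g : 𝓞 K → ℝ, Summable g ∧
    (∀ y, 0 ≤ g y) ∧
    ∀ s : ℝ, 1 ≤ s → s ≤ 2 → ∀ y : 𝓞 K, |GS K ε s (y + t) - GS K ε s y| ≤ g y := by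
  obtain ⟨g, hg, hg0, hgb⟩ := exists_dominating (K := K) t
  obtain ⟨A, hA1, hA⟩ := exists_support_bound (K := K)
  have hA0 : 0 < A := by linarith
  set n : ℕ := finrank ℚ K with hn
  set R : ℝ := A * mnorm K t with hR
  have hR0 : 0 ≤ R := mul_nonneg hA0.le (mnorm_nonneg t)
  have hsum : Summable fun y : 𝓞 K ↦ mnorm K y ^ (-((n : ℝ) + 1)) :=
    summable_mnorm_rpow (by rw [neg_lt_neg_iff]; linarith)
  refine ⟨fun y ↦ g y + 2 * R ^ (n + 1) * mnorm K y ^ (-((n : ℝ) + 1)) +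
      if y = 0 then 2 else 0,
    (hg.add (hsum.mul_left _)).add (hasSum_ite_eq 0 (2 : ℝ)).summable, fun y ↦ ?_,
    fun s hs1 hs2 y ↦ ?_⟩
  · have h1 : 0 ≤ mnorm K y ^ (-((n : ℝ) + 1)) := Real.rpow_nonneg (mnorm_nonneg y) _
    have h2 : (0 : ℝ) ≤ if y = 0 then 2 else 0 := by split_ifs <;> norm_num
    have h3 := hg0 y
    show 0 ≤ g y + 2 * R ^ (n + 1) * mnorm K y ^ (-((n : ℝ) + 1)) + if y = 0 then 2 else 0
    positivity
  · have hs0 : (0 : ℝ) ≤ s := by linarith
    show |GS K ε s (y + t) - GS K ε s y| ≤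
      g y + 2 * R ^ (n + 1) * mnorm K y ^ (-((n : ℝ) + 1)) + if y = 0 then 2 else 0
    have hb := hgb s hs1 hs2 y
    have h1 : 0 ≤ 2 * R ^ (n + 1) * mnorm K y ^ (-((n : ℝ) + 1)) :=
      mul_nonneg (by positivity) (Real.rpow_nonneg (mnorm_nonneg y) _)
    have h2 : (0 : ℝ) ≤ if y = 0 then 2 else 0 := by split_ifs <;> norm_num
    by_cases hρ : rho K (mixedEmbedding K (y : K)) = 0
    · have hF : FS K s y = 0 := FS_eq_zero_of_rho_eq_zero hρ
      have hG : GS K ε s y = 0 := by rw [GS_eq, hF, zero_mul]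
      rw [hG, sub_zero]
      rw [hF, sub_zero, abs_of_nonneg (FS_nonneg s _)] at hb
      have := abs_GS_le ε s (y + t)
      linarith
    · by_cases hy : R < mnorm K y
      · have hθ := theta_add_eq hA1 hA ε hρ hy
        have e : GS K ε s (y + t) - GS K ε s y =
            (FS K s (y + t) - FS K s y) * theta K ε y := by
          rw [GS_eq, GS_eq, hθ]
          ring
        rw [e, abs_mul]
        have := mul_le_of_le_one_right (abs_nonneg (FS K s (y + t) - FS K s y))
          (abs_theta_le_one ε y)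
        linarith
      · have hy' : mnorm K y ≤ R := not_lt.mp hy
        have a1 := abs_GS_le ε s (y + t)
        have a2 := abs_GS_le ε s y
        have a3 := FS_le_one hs0 (y + t)
        have a4 := FS_le_one hs0 y
        have h3 : |GS K ε s (y + t) - GS K ε s y| ≤ 2 := by
          have := abs_sub (GS K ε s (y + t)) (GS K ε s y)
          linarith
        by_cases hy0 : y = 0
        · rw [if_pos hy0]
          have := hg0 y
          linarith
        · rw [if_neg hy0, add_zero]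
          have hm : 0 < mnorm K y := lt_of_le_of_ne (mnorm_nonneg y) (Ne.symm (by
            rwa [Ne, mnorm_eq_zero_iff]))
          have e : mnorm K y ^ (-((n : ℝ) + 1)) = 1 / mnorm K y ^ (n + 1) := by
            rw [Real.rpow_neg hm.le, one_div]
            congr 1
            exact_mod_cast Real.rpow_natCast (mnorm K y) (n + 1)
          have h4 : 2 ≤ 2 * R ^ (n + 1) * mnorm K y ^ (-((n : ℝ) + 1)) := by
            rw [e, mul_one_div, le_div_iff₀ (by positivity)]
            have : mnorm K y ^ (n + 1) ≤ R ^ (n + 1) := pow_le_pow_left₀ hm.le hy' _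
            linarith
          have := hg0 y
          linarith

/-- **Coset lemma**: the difference of the sums of `GS` over two cosets of an ideal `Λ`
extends continuously to `[1, 2]`. -/
theorem exists_continuousOn_coset_sub (ε : Bool) (Λ : Ideal (𝓞 K)) (r r' : 𝓞 K) :
    ∃ D : ℝ → ℝ, ContinuousOn D (Set.Icc 1 2) ∧ ∀ s : ℝ, 1 < s → s ≤ 2 →
      (∑' l : Λ, GS K ε s (r + (l : 𝓞 K))) - (∑' l : Λ, GS K ε s (r' + (l : 𝓞 K))) = D s := by
  obtain ⟨g, hg, hg0, hgb⟩ := exists_dominating_GS (K := K) ε (r - r')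
  have hinj : ∀ a : 𝓞 K, Function.Injective fun l : Λ ↦ a + (l : 𝓞 K) := fun a l l' h ↦
    Subtype.ext (add_left_cancel h)
  have hgΛ : Summable fun l : Λ ↦ g (r' + (l : 𝓞 K)) := hg.comp_injective (hinj r')
  refine ⟨fun s ↦ ∑' l : Λ, (GS K ε s (r + (l : 𝓞 K)) - GS K ε s (r' + (l : 𝓞 K))), ?_,
    fun s hs1 hs2 ↦ ?_⟩
  · refine continuousOn_tsum (fun l ↦ ?_) hgΛ fun l s hs ↦ ?_
    · exact ((continuous_GS ε _).sub (continuous_GS ε _)).continuousOn
    · rw [Real.norm_eq_abs]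
      have := hgb s hs.1 hs.2 (r' + (l : 𝓞 K))
      rwa [show r' + (l : 𝓞 K) + (r - r') = r + (l : 𝓞 K) by ring] at this
  · have h1 : Summable fun l : Λ ↦ GS K ε s (r + (l : 𝓞 K)) :=
      (summable_GS ε hs1).comp_injective (hinj r)
    have h2 : Summable fun l : Λ ↦ GS K ε s (r' + (l : 𝓞 K)) :=
      (summable_GS ε hs1).comp_injective (hinj r')
    exact (h1.tsum_sub h2).symm

end Fermat.Agent.Lib.NormL

end
-- ===== PACK-END Lib/NormL/DS.lean

-- ===== PACK-BEGIN Lib/NormL/Periodic.lean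
section


/-!
# `NormL`, block KEY, part 1: `x ↦ N(x) mod m` is periodic modulo `m 𝓞 K`
-/

namespace Fermat.Agent.Lib.NormL

open NumberField

variable {K : Type*} [Field K] [NumberField K]

theorem intCast_det_zmod {ι : Type*} [Fintype ι] [DecidableEq ι] (m : ℕ) (M : Matrix ι ι ℤ) :
    ((M.det : ℤ) : ZMod m) = ((Int.castRingHom (ZMod m)).mapMatrix M).det := by
  rw [← RingHom.map_det]
  rfl

theorem norm_add_natCast_mul_zmod (m : ℕ) (x y : 𝓞 K) :
    ((Algebra.norm ℤ (x + (m : 𝓞 K) * y) : ℤ) : ZMod m) =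
      ((Algebra.norm ℤ x : ℤ) : ZMod m) := by
  classical
  let b := RingOfIntegers.basis K
  rw [Algebra.norm_eq_matrix_det b, Algebra.norm_eq_matrix_det b, intCast_det_zmod,
    intCast_det_zmod]
  congr 1
  rw [map_add (Algebra.leftMulMatrix b), map_mul (Algebra.leftMulMatrix b), map_add, map_mul,
    map_natCast (Algebra.leftMulMatrix b), map_natCast]
  have h0 : ((m : ℕ) : Matrix (Module.Free.ChooseBasisIndex ℤ (𝓞 K))
      (Module.Free.ChooseBasisIndex ℤ (𝓞 K)) (ZMod m)) = 0 := by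
    ext i j
    rw [Matrix.natCast_apply]
    simp
  rw [h0, zero_mul, add_zero]

/-- Periodicity modulo the ideal generated by `m`. -/
theorem norm_add_zmod_of_mem (m : ℕ) (x : 𝓞 K) {y : 𝓞 K}
    (hy : y ∈ Ideal.span {(m : 𝓞 K)}) :
    ((Algebra.norm ℤ (x + y) : ℤ) : ZMod m) = ((Algebra.norm ℤ x : ℤ) : ZMod m) := by
  obtain ⟨z, rfl⟩ := Ideal.mem_span_singleton'.mp hy
  rw [mul_comm]
  exact norm_add_natCast_mul_zmod m x z

/-- If `x ≡ x'` modulo `m`, the norms agree modulo `m`. -/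
theorem norm_zmod_eq_of_sub_mem (m : ℕ) {x x' : 𝓞 K}
    (h : x - x' ∈ Ideal.span {(m : 𝓞 K)}) :
    ((Algebra.norm ℤ x : ℤ) : ZMod m) = ((Algebra.norm ℤ x' : ℤ) : ZMod m) := by
  have := norm_add_zmod_of_mem m x' h
  rwa [add_sub_cancel] at this

end Fermat.Agent.Lib.NormL

end
-- ===== PACK-END Lib/NormL/Periodic.lean

-- ===== PACK-BEGIN Lib/NormL/Cls_584.lean
section



/-!
# `NormL`, block CLS (helper584): decomposition of `normL` along ideal classes

* `normL_eq_sum_classL` (CLS1): `normL K χ s = ∑ C, classL K χ C s` for `s > 1`;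
* `prinL_eq_mul_classL` (CLS2): if `[J] = C⁻¹` then
  `prinL K χ J s = χ(N J) * N(J)^(-s) * classL K χ C s`.

Statements are those of `Fermat/Agent/Lib/NormL/Interface.lean` (origin/helper44 @c43fef9),
with `classL` from `Defs.lean`.
-/

namespace Fermat.Agent.Lib.NormL

open NumberField NumberField.mixedEmbedding
open scoped nonZeroDivisors Classical

variable (K : Type*) [Field K] [NumberField K]

/-- The general term of `normL`. -/
noncomputable def normLTerm {m : ℕ} (χ : DirichletCharacter ℂ m) (s : ℝ)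
    (I : (Ideal (𝓞 K))⁰) : ℂ :=
  χ ((Ideal.absNorm (I : Ideal (𝓞 K)) : ℕ) : ZMod m) *
    (((Ideal.absNorm (I : Ideal (𝓞 K)) : ℝ) ^ (-s) : ℝ) : ℂ)

lemma normL_eq_tsum_normLTerm {m : ℕ} (χ : DirichletCharacter ℂ m) (s : ℝ) :
    normL K χ s = ∑' I : (Ideal (𝓞 K))⁰, normLTerm K χ s I := rfl

lemma classL_eq_tsum_normLTerm {m : ℕ} (χ : DirichletCharacter ℂ m) (C : ClassGroup (𝓞 K))
    (s : ℝ) :
    classL K χ C s = ∑' I : {I : (Ideal (𝓞 K))⁰ // ClassGroup.mk0 I = C}, normLTerm K χ s I.1 :=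
  rfl

lemma prinL_eq_tsum_normLTerm {m : ℕ} (χ : DirichletCharacter ℂ m) (A : Ideal (𝓞 K)) (s : ℝ) :
    prinL K χ A s =
      ∑' I : {I : (Ideal (𝓞 K))⁰ // (I : Ideal (𝓞 K)).IsPrincipal ∧ A ∣ (I : Ideal (𝓞 K))},
        normLTerm K χ s I.1 := rfl

lemma norm_normLTerm_le {m : ℕ} (χ : DirichletCharacter ℂ m) (s : ℝ) (I : (Ideal (𝓞 K))⁰) :
    ‖normLTerm K χ s I‖ ≤ (Ideal.absNorm (I : Ideal (𝓞 K)) : ℝ) ^ (-s) := by
  unfold normLTerm
  rw [norm_mul, Complex.norm_real, Real.norm_eq_abs,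
    abs_of_nonneg (Real.rpow_nonneg (Nat.cast_nonneg _) _)]
  calc ‖χ ((Ideal.absNorm (I : Ideal (𝓞 K)) : ℕ) : ZMod m)‖ *
        (Ideal.absNorm (I : Ideal (𝓞 K)) : ℝ) ^ (-s)
      ≤ 1 * (Ideal.absNorm (I : Ideal (𝓞 K)) : ℝ) ^ (-s) :=
        mul_le_mul_of_nonneg_right (DirichletCharacter.norm_le_one χ _)
          (Real.rpow_nonneg (Nat.cast_nonneg _) _)
    _ = _ := one_mul _

/-- Summability of the terms of `normL` for `s > 1`. -/
theorem summable_normLTerm {m : ℕ} (χ : DirichletCharacter ℂ m) {s : ℝ} (hs : 1 < s) :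
    Summable (normLTerm K χ s) := by
  have h1 : Summable (fun I : (Ideal (𝓞 K))⁰ ↦ (Ideal.absNorm (I : Ideal (𝓞 K)) : ℝ) ^ (-s)) :=
    (Fermat.Agent.Lib.EulerProd.summable_absNorm_rpow K hs).comp_injective
      Subtype.val_injective
  exact Summable.of_norm_bounded h1 (norm_normLTerm_le K χ s)

/-- CLS1 -/
theorem normL_eq_sum_classL {m : ℕ} (χ : DirichletCharacter ℂ m) {s : ℝ} (hs : 1 < s) :
    normL K χ s = ∑ C : ClassGroup (𝓞 K), classL K χ C s := by
  have hsum := summable_normLTerm K χ hs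
  set e := Equiv.sigmaFiberEquiv (fun I : (Ideal (𝓞 K))⁰ ↦ ClassGroup.mk0 I) with he
  have hsum' : Summable (fun x : (Σ C : ClassGroup (𝓞 K),
      {I : (Ideal (𝓞 K))⁰ // ClassGroup.mk0 I = C}) ↦ normLTerm K χ s (e x)) :=
    e.summable_iff.mpr hsum
  rw [normL_eq_tsum_normLTerm, ← e.tsum_eq (normLTerm K χ s), hsum'.tsum_sigma, tsum_fintype]
  rfl

/-- multiplicativity of the general term -/
lemma normLTerm_mul {m : ℕ} (χ : DirichletCharacter ℂ m) (s : ℝ) (I J : (Ideal (𝓞 K))⁰) :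
    normLTerm K χ s (I * J) = normLTerm K χ s I * normLTerm K χ s J := by
  unfold normLTerm
  have h1 : Ideal.absNorm ((I * J : (Ideal (𝓞 K))⁰) : Ideal (𝓞 K)) =
      Ideal.absNorm (I : Ideal (𝓞 K)) * Ideal.absNorm (J : Ideal (𝓞 K)) := by
    rw [Submonoid.coe_mul, map_mul]
  rw [h1, Nat.cast_mul, map_mul, Nat.cast_mul,
    Real.mul_rpow (Nat.cast_nonneg _) (Nat.cast_nonneg _), Complex.ofReal_mul]
  ring

/-- The bijection between the ideals of the class `C` and the principal ideals divisible by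
`J`, where `[J] = C⁻¹`. -/
noncomputable def classEquivPrin (C : ClassGroup (𝓞 K)) (J : (Ideal (𝓞 K))⁰)
    (hJ : ClassGroup.mk0 J = C⁻¹) :
    {I : (Ideal (𝓞 K))⁰ // ClassGroup.mk0 I = C} ≃
      {I : (Ideal (𝓞 K))⁰ // (I : Ideal (𝓞 K)).IsPrincipal ∧ J.1 ∣ (I : Ideal (𝓞 K))} where
  toFun I := ⟨J * I.1, by
    constructor
    · rw [← ClassGroup.mk0_eq_one_iff (J * I.1).2, map_mul, hJ, I.2, inv_mul_cancel]
    · rw [Submonoid.coe_mul]
      exact Dvd.intro _ rfl⟩
  invFun I := ⟨⟨(I.2.2).choose, by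
      rw [mem_nonZeroDivisors_iff_ne_zero]
      intro h0
      have h := (I.2.2).choose_spec
      rw [h0, mul_zero] at h
      exact nonZeroDivisors.coe_ne_zero I.1 h⟩, by
    have h := (I.2.2).choose_spec
    have hprin : ClassGroup.mk0 I.1 = 1 := (ClassGroup.mk0_eq_one_iff I.1.2).mpr I.2.1
    set I' : (Ideal (𝓞 K))⁰ := ⟨(I.2.2).choose, by
      rw [mem_nonZeroDivisors_iff_ne_zero]
      intro h0
      rw [h0, mul_zero] at h
      exact nonZeroDivisors.coe_ne_zero I.1 h⟩ with hI'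
    have h2 : I.1 = J * I' := Subtype.ext (by rw [Submonoid.coe_mul]; exact h)
    have h3 : ClassGroup.mk0 J * ClassGroup.mk0 I' = 1 := by
      rw [← map_mul, ← h2]; exact hprin
    rw [hJ] at h3
    calc ClassGroup.mk0 I' = C * (C⁻¹ * ClassGroup.mk0 I') := by rw [mul_inv_cancel_left]
      _ = C := by rw [h3, mul_one]⟩
  left_inv I := by
    apply Subtype.ext
    apply Subtype.ext
    have hmem : (J : Ideal (𝓞 K)) ∣ ((J * I.1 : (Ideal (𝓞 K))⁰) : Ideal (𝓞 K)) := by
      rw [Submonoid.coe_mul]; exact Dvd.intro _ rfl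
    have h : ((J * I.1 : (Ideal (𝓞 K))⁰) : Ideal (𝓞 K)) = J * hmem.choose := hmem.choose_spec
    have h' : (J : Ideal (𝓞 K)) * (I.1 : Ideal (𝓞 K)) = J * hmem.choose :=
      (Submonoid.coe_mul _ J I.1).symm.trans h
    have hJ0 : (J : Ideal (𝓞 K)) ≠ 0 := nonZeroDivisors.coe_ne_zero J
    exact (mul_left_cancel₀ hJ0 h').symm
  right_inv I := by
    apply Subtype.ext
    apply Subtype.ext
    rw [Submonoid.coe_mul]
    exact (I.2.2).choose_spec.symm

set_option linter.unusedVariables false in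
/-- CLS2: ideals in the class `C` correspond to principal ideals divisible by `J`, where `J`
is in the class `C⁻¹`. -/
theorem prinL_eq_mul_classL {m : ℕ} (χ : DirichletCharacter ℂ m) (C : ClassGroup (𝓞 K))
    (J : (Ideal (𝓞 K))⁰) (hJ : ClassGroup.mk0 J = C⁻¹) {s : ℝ} (hs : 1 < s) :
    prinL K χ (J : Ideal (𝓞 K)) s =
      χ ((Ideal.absNorm (J : Ideal (𝓞 K)) : ℕ) : ZMod m) *
        (((Ideal.absNorm (J : Ideal (𝓞 K)) : ℝ) ^ (-s) : ℝ) : ℂ) * classL K χ C s := by
  rw [prinL_eq_tsum_normLTerm, classL_eq_tsum_normLTerm,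
    ← (classEquivPrin K C J hJ).tsum_eq, ← tsum_mul_left]
  refine tsum_congr fun I ↦ ?_
  exact normLTerm_mul K χ s J I.1

end Fermat.Agent.Lib.NormL

end
-- ===== PACK-END Lib/NormL/Cls_584.lean

-- ===== PACK-BEGIN S14/H74/Orbit.lean
section



/-!
# S14/N1 (helper74): orbit decomposition of the smoothed sum (piece P3)
-/

namespace Fermat.Agent.S14.H74

open NumberField NumberField.mixedEmbedding NumberField.Units
  NumberField.Units.dirichletUnitTheorem NumberField.InfinitePlace Module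

open scoped Classical

variable {K : Type*} [Field K] [NumberField K]

/-- Nonzero principal ideals contained in `J`. -/
def PJ (J : Ideal (𝓞 K)) : Type _ :=
  {I : Ideal (𝓞 K) // I ≠ ⊥ ∧ I.IsPrincipal ∧ I ≤ J}

/-- A chosen generator. -/
noncomputable def pjGen {J : Ideal (𝓞 K)} (I : PJ J) : 𝓞 K :=
  haveI := I.2.2.1
  Submodule.IsPrincipal.generator I.1

theorem span_pjGen {J : Ideal (𝓞 K)} (I : PJ J) : Ideal.span {pjGen I} = I.1 := by
  have := I.2.2.1
  exact Ideal.span_singleton_generator I.1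

theorem pjGen_ne_zero {J : Ideal (𝓞 K)} (I : PJ J) : pjGen I ≠ 0 := by
  intro h
  have := span_pjGen I
  rw [h, Ideal.span_singleton_eq_bot.mpr rfl] at this
  exact I.2.1 this.symm

theorem pjGen_mem {J : Ideal (𝓞 K)} (I : PJ J) : pjGen I ∈ J := by
  apply I.2.2.2
  rw [← span_pjGen I]
  exact Ideal.mem_span_singleton_self _

theorem span_unit_mul (u : (𝓞 K)ˣ) (g : 𝓞 K) :
    Ideal.span {(u : 𝓞 K) * g} = Ideal.span {g} :=
  Ideal.span_singleton_mul_left_unit u.isUnit g

/-- The orbit decomposition of the nonzero elements of `J`. -/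
noncomputable def orbitEquiv (J : Ideal (𝓞 K)) :
    PJ J × (𝓞 K)ˣ ≃ {y : 𝓞 K // y ∈ J ∧ y ≠ 0} :=
  Equiv.ofBijective (fun p ↦ ⟨(p.2 : 𝓞 K) * pjGen p.1,
    J.mul_mem_left _ (pjGen_mem p.1), mul_ne_zero p.2.ne_zero (pjGen_ne_zero p.1)⟩) (by
    constructor
    · rintro ⟨I, u⟩ ⟨I', u'⟩ h
      have h1 : (u : 𝓞 K) * pjGen I = (u' : 𝓞 K) * pjGen I' := congrArg Subtype.val h
      have e1 : I.1 = Ideal.span {(u : 𝓞 K) * pjGen I} := by rw [span_unit_mul, span_pjGen]
      have e2 : I'.1 = Ideal.span {(u' : 𝓞 K) * pjGen I'} := by rw [span_unit_mul, span_pjGen]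
      have h2 : I = I' := Subtype.ext (by rw [e1, e2, h1])
      subst h2
      have h3 : (u : 𝓞 K) = u' := mul_right_cancel₀ (pjGen_ne_zero I) h1
      rw [Units.ext h3]
    · rintro ⟨y, hyJ, hy0⟩
      let I : PJ J := ⟨Ideal.span {y}, by
        rw [Ne, Ideal.span_singleton_eq_bot]
        exact hy0, ⟨⟨y, rfl⟩⟩, by
        rw [Ideal.span_singleton_le_iff_mem]
        exact hyJ⟩
      have h1 : Ideal.span {pjGen I} = Ideal.span {y} := span_pjGen I
      rw [Ideal.span_singleton_eq_span_singleton] at h1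
      obtain ⟨u, hu⟩ := h1
      refine ⟨(I, u), Subtype.ext ?_⟩
      show (u : 𝓞 K) * pjGen I = y
      rw [mul_comm]
      exact hu)

theorem orbitEquiv_apply (J : Ideal (𝓞 K)) (p : PJ J × (𝓞 K)ˣ) :
    ((orbitEquiv J p : {y : 𝓞 K // y ∈ J ∧ y ≠ 0}) : 𝓞 K) = (p.2 : 𝓞 K) * pjGen p.1 := rfl

theorem mixedEmbedding_unit_mul (u : (𝓞 K)ˣ) (g : 𝓞 K) :
    mixedEmbedding K (((u : 𝓞 K) * g : 𝓞 K) : K) = u • mixedEmbedding K (g : K) := by
  rw [unitSMul_smul, ← map_mul]
  rfl

theorem norm_pjGen {J : Ideal (𝓞 K)} (I : PJ J) :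
    mixedEmbedding.norm (mixedEmbedding K (pjGen I : K)) = (Ideal.absNorm I.1 : ℝ) := by
  rw [mixedEmbedding_norm_coe, ← span_pjGen I, Ideal.absNorm_span_singleton, Nat.cast_natAbs,
    Int.cast_abs]

theorem FS_unit_mul (s : ℝ) (u : (𝓞 K)ˣ) {J : Ideal (𝓞 K)} (I : PJ J) :
    FS K s ((u : 𝓞 K) * pjGen I) =
      rho K (u • mixedEmbedding K (pjGen I : K)) * (Ideal.absNorm I.1 : ℝ) ^ (-s) := by
  unfold FS fS
  rw [mixedEmbedding_unit_mul, norm_unit_smul, norm_pjGen]

theorem tsum_ideal_eq_tsum_ne_zero (J : Ideal (𝓞 K)) (s : ℝ) :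
    ∑' y : J, FS K s (y : 𝓞 K) = ∑' y : {y : 𝓞 K // y ∈ J ∧ y ≠ 0}, FS K s (y : 𝓞 K) := by
  have h1 := tsum_subtype (J : Set (𝓞 K)) (FS K s)
  have h2 := tsum_subtype ({y : 𝓞 K | y ∈ J ∧ y ≠ 0}) (FS K s)
  have h3 : (J : Set (𝓞 K)).indicator (FS K s) =
      ({y : 𝓞 K | y ∈ J ∧ y ≠ 0}).indicator (FS K s) := by
    funext y
    by_cases hy : y = 0
    · subst hy
      simp [Set.indicator, FS_zero]
    · simp [Set.indicator, hy]
  calc ∑' y : J, FS K s (y : 𝓞 K) = ∑' y, (J : Set (𝓞 K)).indicator (FS K s) y := h1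
    _ = ∑' y, ({y : 𝓞 K | y ∈ J ∧ y ≠ 0}).indicator (FS K s) y := by rw [h3]
    _ = _ := h2.symm

/-- **P3**: the smoothed sum over `J` is the sum over the nonzero principal ideals contained
in `J`, counted with multiplicity `torsionOrder K`. -/
theorem tsum_FS_eq (J : Ideal (𝓞 K)) {s : ℝ} (hs : 1 < s) :
    ∑' y : J, FS K s (y : 𝓞 K) =
      (torsionOrder K : ℝ) * ∑' I : PJ J, (Ideal.absNorm I.1 : ℝ) ^ (-s) := by
  rw [tsum_ideal_eq_tsum_ne_zero]
  have hsumF := summable_FS (K := K) hs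
  have hsum0 : Summable fun y : {y : 𝓞 K // y ∈ J ∧ y ≠ 0} ↦ FS K s (y : 𝓞 K) :=
    hsumF.comp_injective Subtype.val_injective
  set G : PJ J × (𝓞 K)ˣ → ℝ := fun p ↦
    rho K (p.2 • mixedEmbedding K (pjGen p.1 : K)) * (Ideal.absNorm p.1.1 : ℝ) ^ (-s) with hG
  have hcomp : (fun y : {y : 𝓞 K // y ∈ J ∧ y ≠ 0} ↦ FS K s (y : 𝓞 K)) ∘ orbitEquiv J = G := by
    funext p
    simp only [Function.comp_apply, orbitEquiv_apply, hG]
    exact FS_unit_mul s p.2 p.1
  have hsumG : Summable G := by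
    rw [← hcomp]
    exact (orbitEquiv J).summable_iff.mpr hsum0
  have hfib : ∀ I : PJ J, HasSum (fun u : (𝓞 K)ˣ ↦ G (I, u))
      ((torsionOrder K : ℝ) * (Ideal.absNorm I.1 : ℝ) ^ (-s)) := by
    intro I
    have hN : mixedEmbedding.norm (mixedEmbedding K (pjGen I : K)) ≠ 0 := by
      rw [norm_pjGen]
      have : Ideal.absNorm I.1 ≠ 0 := by
        rw [Ne, Ideal.absNorm_eq_zero_iff]
        exact I.2.1
      exact_mod_cast this
    exact (hasSum_rho_unit_smul hN).mul_right _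
  calc ∑' y : {y : 𝓞 K // y ∈ J ∧ y ≠ 0}, FS K s (y : 𝓞 K)
      = ∑' p : PJ J × (𝓞 K)ˣ, G p := by
        rw [← hcomp]
        exact ((orbitEquiv J).tsum_eq _).symm
    _ = ∑' I : PJ J, ∑' u : (𝓞 K)ˣ, G (I, u) := hsumG.tsum_prod' fun I ↦ (hfib I).summable
    _ = ∑' I : PJ J, (torsionOrder K : ℝ) * (Ideal.absNorm I.1 : ℝ) ^ (-s) :=
        tsum_congr fun I ↦ (hfib I).tsum_eq
    _ = _ := tsum_mul_left

end Fermat.Agent.S14.H74

end
-- ===== PACK-END S14/H74/Orbit.lean

-- ===== PACK-BEGIN Lib/NormL/Orb.lean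
section



/-!
# `NormL`, piece ORB (helper941): sums over elements vs sums over principal ideals

`elemSum K χ ε A s = torsionOrder K * prinL K χ A s` for `ε = decide (χ (-1) = -1)` and `s > 1`.

The weight `χ(N x) sign(N x)^ε` only depends on `|N x| = N((x))`, hence is constant on the orbits
of the units; the orbit sums of `rho` are `torsionOrder K` (helper74, `hasSum_rho_unit_smul`).
-/

namespace Fermat.Agent.Lib.NormL

open NumberField NumberField.mixedEmbedding NumberField.Units Fermat.Agent.S14.H74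
open scoped nonZeroDivisors Classical

/-- The sign-twisted character value only depends on `|n|`. -/
theorem orb941_char_sign {m : ℕ} (χ : DirichletCharacter ℂ m) {n : ℤ} (hn : n ≠ 0) :
    χ ((n : ℤ) : ZMod m) *
        (((if decide (χ (-1) = -1) = true then ((n.sign : ℤ) : ℝ) else 1 : ℝ)) : ℂ) =
      χ ((n.natAbs : ℕ) : ZMod m) := by
  have hsq : χ (-1) * χ (-1) = 1 := by
    rw [← map_mul]
    simp
  have h11 : χ (-1) = 1 ∨ χ (-1) = -1 := mul_self_eq_one_iff.mp hsq
  rcases lt_or_gt_of_ne hn with h | h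
  · have hs : n.sign = -1 := Int.sign_eq_neg_one_of_neg h
    have hn' : ((n : ℤ) : ZMod m) = -1 * ((n.natAbs : ℕ) : ZMod m) := by
      have h0 : n = -((n.natAbs : ℕ) : ℤ) := by omega
      calc ((n : ℤ) : ZMod m) = ((-((n.natAbs : ℕ) : ℤ) : ℤ) : ZMod m) := by rw [← h0]
        _ = -1 * ((n.natAbs : ℕ) : ZMod m) := by
          rw [Int.cast_neg, Int.cast_natCast, neg_one_mul]
    rw [hn', map_mul, hs]
    by_cases hε : χ (-1) = -1
    · rw [hε]
      simp
    · have h1 : χ (-1) = 1 := h11.resolve_right hε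
      rw [h1]
      have h2 : ¬ ((1 : ℂ) = -1) := by norm_num
      simp [h2]
  · have hs : n.sign = 1 := Int.sign_eq_one_of_pos h
    have hn' : ((n : ℤ) : ZMod m) = ((n.natAbs : ℕ) : ZMod m) := by
      have h0 : n = ((n.natAbs : ℕ) : ℤ) := by omega
      calc ((n : ℤ) : ZMod m) = ((((n.natAbs : ℕ) : ℤ) : ℤ) : ZMod m) := by rw [← h0]
        _ = ((n.natAbs : ℕ) : ZMod m) := Int.cast_natCast _
    rw [hn', hs]
    by_cases hε : χ (-1) = -1 <;> simp [hε]

variable (K : Type*) [Field K] [NumberField K]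

/-- The summand of `elemSum` in terms of the ideal generated by `x`. -/
theorem orb941_term_eq {m : ℕ} (χ : DirichletCharacter ℂ m) (s : ℝ) (x : 𝓞 K) :
    χ ((Algebra.norm ℤ (x : 𝓞 K) : ℤ) : ZMod m) *
        ((GS K (decide (χ (-1) = -1)) s x : ℝ) : ℂ) =
      χ ((Ideal.absNorm (Ideal.span {x}) : ℕ) : ZMod m) * ((FS K s x : ℝ) : ℂ) := by
  by_cases hx : x = 0
  · subst hx
    simp [GS, FS_zero]
  · have hN : Algebra.norm ℤ x ≠ 0 := by
      rwa [Ne, Algebra.norm_eq_zero_iff]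
    rw [Ideal.absNorm_span_singleton, ← orb941_char_sign χ hN]
    unfold GS
    push_cast
    ring

variable {K} in
/-- `PJ A` (helper74) against the index type of `prinL`. -/
noncomputable def orb941_equiv (A : Ideal (𝓞 K)) :
    PJ A ≃ {I : (Ideal (𝓞 K))⁰ // (I : Ideal (𝓞 K)).IsPrincipal ∧ A ∣ (I : Ideal (𝓞 K))} where
  toFun I := ⟨⟨I.1, mem_nonZeroDivisors_iff_ne_zero.mpr I.2.1⟩, I.2.2.1,
    Ideal.dvd_iff_le.mpr I.2.2.2⟩
  invFun I := ⟨I.1.1, nonZeroDivisors.coe_ne_zero I.1, I.2.1, Ideal.dvd_iff_le.mp I.2.2⟩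
  left_inv _ := rfl
  right_inv _ := rfl

/-- **ORB**: the sum over elements is `torsionOrder` times the sum over principal ideals. -/
theorem elemSum_eq_torsionOrder_mul_prinL {m : ℕ} (χ : DirichletCharacter ℂ m)
    (A : (Ideal (𝓞 K))⁰) {s : ℝ} (hs : 1 < s) :
    elemSum K χ (decide (χ (-1) = -1)) (A : Ideal (𝓞 K)) s =
      (Units.torsionOrder K : ℂ) * prinL K χ (A : Ideal (𝓞 K)) s := by
  set J : Ideal (𝓞 K) := (A : Ideal (𝓞 K)) with hJ
  set T : 𝓞 K → ℂ := fun x ↦
    χ ((Ideal.absNorm (Ideal.span {x}) : ℕ) : ZMod m) * ((FS K s x : ℝ) : ℂ) with hT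
  have hT0 : T 0 = 0 := by simp [hT, FS_zero]
  have hTn : ∀ x, ‖T x‖ ≤ FS K s x := by
    intro x
    simp only [hT]
    rw [norm_mul, Complex.norm_real, Real.norm_of_nonneg (FS_nonneg s x)]
    exact mul_le_of_le_one_left (FS_nonneg s x) (DirichletCharacter.norm_le_one χ _)
  have hsumF := summable_FS (K := K) hs
  have hsumT : Summable T := Summable.of_norm_bounded hsumF hTn
  have h1 : elemSum K χ (decide (χ (-1) = -1)) J s = ∑' x : J, T (x : 𝓞 K) := by
    unfold elemSum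
    exact tsum_congr fun x ↦ orb941_term_eq K χ s x
  rw [h1]
  have h2 : ∑' x : J, T (x : 𝓞 K) = ∑' y : {y : 𝓞 K // y ∈ J ∧ y ≠ 0}, T (y : 𝓞 K) := by
    have e1 := tsum_subtype (J : Set (𝓞 K)) T
    have e2 := tsum_subtype ({y : 𝓞 K | y ∈ J ∧ y ≠ 0}) T
    have e3 : (J : Set (𝓞 K)).indicator T = ({y : 𝓞 K | y ∈ J ∧ y ≠ 0}).indicator T := by
      funext y
      by_cases hy : y = 0
      · subst hy
        simp [Set.indicator, hT0]
      · simp [Set.indicator, hy]
    calc ∑' x : J, T (x : 𝓞 K) = ∑' y, (J : Set (𝓞 K)).indicator T y := e1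
      _ = ∑' y, ({y : 𝓞 K | y ∈ J ∧ y ≠ 0}).indicator T y := by rw [e3]
      _ = _ := e2.symm
  rw [h2]
  have hsum0 : Summable fun y : {y : 𝓞 K // y ∈ J ∧ y ≠ 0} ↦ T (y : 𝓞 K) :=
    hsumT.comp_injective Subtype.val_injective
  set c : PJ J → ℂ := fun I ↦
    χ ((Ideal.absNorm I.1 : ℕ) : ZMod m) * (((Ideal.absNorm I.1 : ℝ) ^ (-s) : ℝ) : ℂ) with hc
  set G : PJ J × (𝓞 K)ˣ → ℂ := fun p ↦
    c p.1 * ((rho K (p.2 • mixedEmbedding K (pjGen p.1 : K)) : ℝ) : ℂ) with hG
  have hcomp : (fun y : {y : 𝓞 K // y ∈ J ∧ y ≠ 0} ↦ T (y : 𝓞 K)) ∘ orbitEquiv J = G := by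
    funext p
    simp only [Function.comp_apply, orbitEquiv_apply, hG, hT, hc]
    rw [FS_unit_mul s p.2 p.1, span_unit_mul, span_pjGen]
    push_cast
    ring
  have hsumG : Summable G := by
    rw [← hcomp]
    exact (orbitEquiv J).summable_iff.mpr hsum0
  have hfib : ∀ I : PJ J, HasSum (fun u : (𝓞 K)ˣ ↦ G (I, u))
      (c I * (torsionOrder K : ℂ)) := by
    intro I
    have hN : mixedEmbedding.norm (mixedEmbedding K (pjGen I : K)) ≠ 0 := by
      rw [norm_pjGen]
      have : Ideal.absNorm I.1 ≠ 0 := by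
        rw [Ne, Ideal.absNorm_eq_zero_iff]
        exact I.2.1
      exact_mod_cast this
    have h := hasSum_rho_unit_smul hN
    have h' : HasSum (fun u : (𝓞 K)ˣ ↦
        ((rho K (u • mixedEmbedding K (pjGen I : K)) : ℝ) : ℂ)) (((torsionOrder K : ℝ)) : ℂ) :=
      Complex.hasSum_ofReal.mpr h
    have h'' := h'.mul_left (c I)
    simpa [hG] using h''
  have hre : ∑' I : PJ J, c I = prinL K χ J s := by
    unfold prinL
    exact (orb941_equiv J).tsum_eq (fun I ↦
      χ ((Ideal.absNorm (I.1 : Ideal (𝓞 K)) : ℕ) : ZMod m) *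
        (((Ideal.absNorm (I.1 : Ideal (𝓞 K)) : ℝ) ^ (-s) : ℝ) : ℂ))
  calc ∑' y : {y : 𝓞 K // y ∈ J ∧ y ≠ 0}, T (y : 𝓞 K)
      = ∑' p : PJ J × (𝓞 K)ˣ, G p := by
        rw [← hcomp]
        exact ((orbitEquiv J).tsum_eq _).symm
    _ = ∑' I : PJ J, ∑' u : (𝓞 K)ˣ, G (I, u) := hsumG.tsum_prod' fun I ↦ (hfib I).summable
    _ = ∑' I : PJ J, c I * (torsionOrder K : ℂ) := tsum_congr fun I ↦ (hfib I).tsum_eq
    _ = (∑' I : PJ J, c I) * (torsionOrder K : ℂ) := tsum_mul_right
    _ = _ := by rw [hre, mul_comm]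

end Fermat.Agent.Lib.NormL

end
-- ===== PACK-END Lib/NormL/Orb.lean

-- ===== PACK-BEGIN S23/Cap/Galois.lean
section





/-!
# S23 / WP8 : the q-expansions of `S_k(Γ₀(N))` are stable under ring endomorphisms of `ℂ`.
-/

set_option autoImplicit false

namespace Fermat.Agent.S23.Cap

open UpperHalfPlane ModularForm ModularFormClass MatrixGroups CongruenceSubgroup

/-- `σ`-conjugate of a level one modular form. -/
theorem levelOne_conj (σ : ℂ →+* ℂ) (k : ℤ) (f : ℍ → ℂ) (hf : IsMF SLZ k f) :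
    ∃ f' : ℍ → ℂ, IsMF SLZ k f' ∧ qx f' = (qx f).map σ := by
  obtain ⟨F, rfl⟩ := hf
  obtain ⟨g, hg⟩ := Fermat.Agent.S23.LevelOne.levelOne_transport_ringHom σ k F
  exact ⟨g, ⟨g, rfl⟩, hg⟩

/-- `σ`-conjugate of a level one cusp form. -/
theorem levelOne_conj_cusp (σ : ℂ →+* ℂ) (k : ℤ) (f : ℍ → ℂ) (hf : IsCF SLZ k f) :
    ∃ f' : ℍ → ℂ, IsCF SLZ k f' ∧ qx f' = (qx f).map σ := by
  obtain ⟨F, rfl⟩ := hf
  obtain ⟨g, hg⟩ := Fermat.Agent.S23.LevelOne.levelOne_transport_cusp_ringHom σ k F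
  exact ⟨g, ⟨g, rfl⟩, hg⟩

/-- q-expansion of `Σ_j b_j t^j` for level one `b_j` and a level `Γ₀(N)` form `t`. -/
theorem qx_sum_mul_pow (N : ℕ) [NeZero N] (w : ℤ) (t : ℍ → ℂ) (ht : IsMF (G0 N) w t)
    (ν : ℕ) (b : ℕ → ℍ → ℂ) (wt : ℕ → ℤ) (hb : ∀ j < ν, IsMF SLZ (wt j) (b j)) :
    qx (∑ j ∈ Finset.range ν, b j * t ^ j) = ∑ j ∈ Finset.range ν, qx (b j) * qx t ^ j := by
  rw [qx_sum N (Finset.range ν) (fun j => b j * t ^ j) (fun j => wt j + w * j)
    (fun j hj => ((hb j (Finset.mem_range.mp hj)).of_levelOne N).mul (ht.pow j))]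
  refine Finset.sum_congr rfl fun j hj => ?_
  rw [qx_mul N ((hb j (Finset.mem_range.mp hj)).of_levelOne N) (ht.pow j), qx_pow N ht]

/-- **WP8 main statement.** -/
theorem galois_stable (N : ℕ) [NeZero N] (k : ℤ) (σ : ℂ →+* ℂ) (f : ℍ → ℂ)
    (hf : IsCF (G0 N) k f) :
    ∃ g : ℍ → ℂ, IsCF (G0 N) k g ∧ qx g = (qx f).map σ := by
  obtain ⟨w, t, ht, htint, hdist⟩ := exists_tForm N
  obtain ⟨μ, c, hμ, hc, hrel⟩ := exists_monic_relation N k f hf
  obtain ⟨ν, a, b, hν, ha, hb, hU0, hUV⟩ := exists_lagrange N k w f t hf.isMF ht hdist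
  have hfM : IsMF (G0 N) k f := hf.isMF
  -- the `σ`-conjugates of the level one coefficients
  choose! c' hc' hc'q using fun i (hi : i < μ) => levelOne_conj_cusp σ _ (c i) (hc i hi)
  choose! a' ha' ha'q using fun j (hj : j < ν) => levelOne_conj σ _ (a j) (ha j hj)
  choose! b' hb' hb'q using fun j (hj : j < ν) => levelOne_conj σ _ (b j) (hb j hj)
  have htσ : (qx t).map σ = qx t := htint.isRatSeries.map_eq σ
  -- the conjugate numerator and denominator
  have hU : IsMF (G0 N) (w * ((ν : ℤ) - 1)) (∑ j ∈ Finset.range ν, b' j * t ^ j) :=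
    IsMF.sum _ _ fun j hj =>
      (((hb' j (Finset.mem_range.mp hj)).of_levelOne N).mul (ht.pow j)).congr_weight (by ring)
  have hV : IsMF (G0 N) (w * ((ν : ℤ) - 1) + k) (∑ j ∈ Finset.range ν, a' j * t ^ j) :=
    IsMF.sum _ _ fun j hj =>
      (((ha' j (Finset.mem_range.mp hj)).of_levelOne N).mul (ht.pow j)).congr_weight (by ring)
  have hU₀ : IsMF (G0 N) (w * ((ν : ℤ) - 1)) (∑ j ∈ Finset.range ν, b j * t ^ j) :=
    IsMF.sum _ _ fun j hj =>
      (((hb j (Finset.mem_range.mp hj)).of_levelOne N).mul (ht.pow j)).congr_weight (by ring)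
  have hqU : qx (∑ j ∈ Finset.range ν, b' j * t ^ j)
      = (qx (∑ j ∈ Finset.range ν, b j * t ^ j)).map σ := by
    rw [qx_sum_mul_pow N w t ht ν b' _ hb', qx_sum_mul_pow N w t ht ν b _ hb, map_sum]
    refine Finset.sum_congr rfl fun j hj => ?_
    rw [map_mul, map_pow, htσ, hb'q j (Finset.mem_range.mp hj)]
  have hqV : qx (∑ j ∈ Finset.range ν, a' j * t ^ j)
      = (qx (∑ j ∈ Finset.range ν, a j * t ^ j)).map σ := by
    rw [qx_sum_mul_pow N w t ht ν a' _ ha', qx_sum_mul_pow N w t ht ν a _ ha, map_sum]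
    refine Finset.sum_congr rfl fun j hj => ?_
    rw [map_mul, map_pow, htσ, ha'q j (Finset.mem_range.mp hj)]
  have hσinj : Function.Injective (PowerSeries.map σ) := by
    intro P Q h
    ext n
    have := congrArg (PowerSeries.coeff n) h
    simpa using σ.injective this
  have hU0' : (∑ j ∈ Finset.range ν, b' j * t ^ j) ≠ 0 := by
    intro h
    rw [h, qx_zero] at hqU
    have h0 : qx (∑ j ∈ Finset.range ν, b j * t ^ j) = 0 :=
      hσinj (by rw [← hqU, map_zero])
    exact hU0 (eq_zero_of_qx_eq_zero N hU₀ h0)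
  have h1 : qx (∑ j ∈ Finset.range ν, b' j * t ^ j) * (qx f).map σ
      = qx (∑ j ∈ Finset.range ν, a' j * t ^ j) := by
    rw [hqU, hqV, ← map_mul, ← qx_mul N hU₀ hfM, hUV]
  have h2 : ((qx f).map σ) ^ μ
      + ∑ i ∈ Finset.range μ, qx (c' i) * ((qx f).map σ) ^ (μ - 1 - i) = 0 := by
    have h := congrArg qx hrel
    have hterm : ∀ i ∈ Finset.range μ,
        IsMF (G0 N) (k * (i + 1) + k * ((μ - 1 - i : ℕ) : ℤ)) (c i * f ^ (μ - 1 - i)) :=
      fun i hi => (((hc i (Finset.mem_range.mp hi)).isMF).of_levelOne N).mul (hfM.pow _)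
    rw [qx_zero, qx_add N (hfM.pow μ) (IsMF.sum (k := k * μ) _ _ fun i hi =>
        (hterm i hi).congr_weight (by
          have : i < μ := Finset.mem_range.mp hi
          push_cast [Nat.sub_sub, Nat.cast_sub (show 1 + i ≤ μ by omega)]
          ring)),
      qx_pow N hfM, qx_sum N _ _ _ hterm] at h
    have h' := congrArg (PowerSeries.map σ) h
    rw [map_zero, map_add, map_pow, map_sum] at h'
    rw [← h']
    congr 1
    refine Finset.sum_congr rfl fun i hi => ?_
    rw [qx_mul N (((hc i (Finset.mem_range.mp hi)).isMF).of_levelOne N) (hfM.pow _),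
      qx_pow N hfM, map_mul, map_pow, hc'q i (Finset.mem_range.mp hi)]
  exact exists_cuspForm_of_relations N k _ _ _ hU hV hU0' μ hμ c' hc' _ h1 h2

end Fermat.Agent.S23.Cap

end
-- ===== PACK-END S23/Cap/Galois.lean

-- ===== PACK-BEGIN S23/Cap/Main.lean
section




/-!
# S23 : assembly.
-/

set_option autoImplicit false

namespace Fermat.Agent.S23.Cap

open UpperHalfPlane ModularForm ModularFormClass MatrixGroups CongruenceSubgroup

/-- The q-expansion as a `ℂ`-linear map on cusp forms. -/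
noncomputable def qxLin (N : ℕ) [NeZero N] (k : ℤ) :
    CuspForm (Gamma0 N) k →ₗ[ℂ] PowerSeries ℂ where
  toFun f := qx f
  map_add' f g := by
    have hf : IsMF (G0 N) k f := IsCF.isMF ⟨f, rfl⟩
    have hg : IsMF (G0 N) k g := IsCF.isMF ⟨g, rfl⟩
    simpa using qx_add N hf hg
  map_smul' c f := by
    have hf : IsMF (G0 N) k f := IsCF.isMF ⟨f, rfl⟩
    simpa using qx_smul N c hf

theorem qxLin_injective (N : ℕ) [NeZero N] (k : ℤ) : Function.Injective (qxLin N k) := by
  intro f g h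
  have hf : IsMF (G0 N) k f := IsCF.isMF ⟨f, rfl⟩
  have hg : IsMF (G0 N) k g := IsCF.isMF ⟨g, rfl⟩
  exact DFunLike.coe_injective (eq_of_qx_eq N hf hg h)

theorem hasIntegralStructure (N : ℕ) [NeZero N] (k : ℤ) : CuspForm.HasIntegralStructure N k := by
  unfold CuspForm.HasIntegralStructure
  rw [eq_top_iff]
  set T : Submodule ℂ (CuspForm (Gamma0 N) k) :=
    Submodule.span ℂ ((CuspForm.intLattice N k : Submodule ℤ (CuspForm (Gamma0 N) k)) :
      Set (CuspForm (Gamma0 N) k)) with hT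
  have key : Submodule.map (qxLin N k) ⊤ ≤ Submodule.map (qxLin N k) T := by
    refine (descent (Submodule.map (qxLin N k) ⊤) ((k * (Gamma0 N).index).toNat / 12)
      ?_ ?_).trans ?_
    · rintro F ⟨f, -, rfl⟩ h
      have hf : IsMF (G0 N) k f := IsCF.isMF ⟨f, rfl⟩
      have : (f : ℍ → ℂ) = 0 := sturm N hf h
      have hf0 : f = 0 := DFunLike.coe_injective this
      simp [hf0]
    · rintro σ F ⟨f, -, rfl⟩
      obtain ⟨g, ⟨g', rfl⟩, hg⟩ := galois_stable N k σ f ⟨f, rfl⟩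
      exact ⟨g', trivial, hg⟩
    · rw [Submodule.span_le]
      rintro F ⟨⟨f, -, rfl⟩, hrat⟩
      obtain ⟨D, hD, hint⟩ := bounded_denominators N k f ⟨f, rfl⟩ hrat
      have hD' : (D : ℂ) ≠ 0 := by exact_mod_cast hD
      have hmem : (D : ℂ) • f ∈ T := by
        apply Submodule.subset_span
        apply Submodule.subset_span
        intro n
        obtain ⟨m, hm⟩ := hint n
        exact ⟨m, by simpa [ModularFormClass.qCoeff, qx] using hm⟩
      refine ⟨f, ?_, rfl⟩
      have : f = (D : ℂ)⁻¹ • ((D : ℂ) • f) := by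
        rw [smul_smul, inv_mul_cancel₀ hD', one_smul]
      rw [this]
      exact T.smul_mem _ hmem
  intro f _
  obtain ⟨g, hg, hgf⟩ := key ⟨f, trivial, rfl⟩
  rwa [← qxLin_injective N k hgf]

end Fermat.Agent.S23.Cap

end
-- ===== PACK-END S23/Cap/Main.lean

-- ===== PACK-BEGIN S48/H128/Integrality.lean
section






/-!
# S48 / P1 (helper128): integrality of the Hecke eigenvalues of a weight one eigenform

For `f : CuspForm (Gamma1 N) 1` with the hypotheses `hf₁`, `hT` of the frozen statement S48 and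
with nebentypus `ε` (`hneb`, the output of piece P0):

* `exists_finite_subring` : there is a subring `R ⊆ ℂ`, finitely generated as a `ℤ`-module,
  containing all values of `ε` and all `a_n(f)` with `n` prime to `N` (in particular the `a_p`,
  `p ∤ N`).
* `isIntegral_qCoeff` : the `a_p`, `p ∤ N`, are algebraic integers.

Proof: `h` = weight 3 Eisenstein series with character `ε⁻¹` (integral `q`-expansion `q + …`
over `ℤ[ε]`); `f h ∈ S₄(Γ₀(N))`, which is spanned by forms with integral `q`-expansion (landed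
S23, any weight); hence `f` is a `ℂ`-linear combination of power series with coefficients in
`ℤ[ε]`, and the `ℤ[ε]`-module spanned by the coefficients of `f` is finitely generated; it contains
every monomial in the eigenvalues.
-/

set_option autoImplicit false

open UpperHalfPlane ModularForm CongruenceSubgroup MatrixGroups ModularFormClass Complex
open Fermat.Agent.S20 (MF SF)
open scoped Manifold Real

noncomputable section

namespace Fermat.Agent.S48.H128

/-! ## Power series with coefficients in a subring -/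

section Series

variable (𝒪 : Subring ℂ)

/-- Power series over `ℂ` with coefficients in `𝒪`. -/
def intS : Subring (PowerSeries ℂ) := (PowerSeries.map 𝒪.subtype).range

theorem mem_intS_iff {P : PowerSeries ℂ} : P ∈ intS 𝒪 ↔ ∀ n : ℕ, P.coeff n ∈ 𝒪 := by
  constructor
  · rintro ⟨Q, rfl⟩ n
    rw [PowerSeries.coeff_map]
    exact (Q.coeff n).2
  · intro h
    refine ⟨PowerSeries.mk fun n => ⟨P.coeff n, h n⟩, ?_⟩
    ext n
    simp

/-- Division by a series `d = q + …` in `𝒪⟦q⟧`. -/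
theorem mem_intS_of_mul {g h : PowerSeries ℂ} (d : PowerSeries 𝒪) (hd0 : d.coeff 0 = 0)
    (hd1 : d.coeff 1 = 1) (hg : g ∈ intS 𝒪) (h_eq : g = d.map 𝒪.subtype * h) :
    h ∈ intS 𝒪 := by
  obtain ⟨g₀, rfl⟩ := hg
  obtain ⟨u, hu⟩ : PowerSeries.X ∣ d := by
    rw [PowerSeries.X_dvd_iff, ← PowerSeries.coeff_zero_eq_constantCoeff_apply]
    exact hd0
  have hu1 : PowerSeries.constantCoeff u = 1 := by
    have := congrArg (PowerSeries.coeff 1) hu
    rw [hd1, show (1 : ℕ) = 0 + 1 from rfl, PowerSeries.coeff_succ_X_mul,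
      PowerSeries.coeff_zero_eq_constantCoeff_apply] at this
    exact this.symm
  have huu : IsUnit u := by
    rw [PowerSeries.isUnit_iff_constantCoeff, hu1]
    exact isUnit_one
  obtain ⟨v, hv⟩ := huu.exists_left_inv
  have hg0 : PowerSeries.constantCoeff g₀ = 0 := by
    have := congrArg PowerSeries.constantCoeff h_eq
    rw [map_mul, ← PowerSeries.coeff_zero_eq_constantCoeff_apply,
      ← PowerSeries.coeff_zero_eq_constantCoeff_apply, PowerSeries.coeff_map,
      PowerSeries.coeff_map, hd0, map_zero, zero_mul] at this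
    rw [← PowerSeries.coeff_zero_eq_constantCoeff_apply]
    exact Subtype.ext (by simpa using this)
  obtain ⟨g₁, hg1⟩ := PowerSeries.X_dvd_iff.mpr hg0
  rw [hg1, hu, map_mul, map_mul, PowerSeries.map_X, mul_assoc] at h_eq
  have h2 := PowerSeries.X_mul_cancel h_eq
  refine ⟨v * g₁, ?_⟩
  rw [map_mul, h2, ← mul_assoc, ← map_mul, hv, map_one, one_mul]

/-- Existence and integrality of the quotient `P / d` for `P` without constant term. -/
theorem exists_quotient_mem_intS (d : PowerSeries 𝒪) (hd0 : d.coeff 0 = 0)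
    (hd1 : d.coeff 1 = 1) {P : PowerSeries ℂ} (hP : P ∈ intS 𝒪) (hP0 : P.coeff 0 = 0) :
    ∃ E ∈ intS 𝒪, d.map 𝒪.subtype * E = P := by
  obtain ⟨P₀, rfl⟩ := hP
  obtain ⟨u, hu⟩ : PowerSeries.X ∣ d := by
    rw [PowerSeries.X_dvd_iff, ← PowerSeries.coeff_zero_eq_constantCoeff_apply]
    exact hd0
  have hu1 : PowerSeries.constantCoeff u = 1 := by
    have := congrArg (PowerSeries.coeff 1) hu
    rw [hd1, show (1 : ℕ) = 0 + 1 from rfl, PowerSeries.coeff_succ_X_mul,
      PowerSeries.coeff_zero_eq_constantCoeff_apply] at this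
    exact this.symm
  have huu : IsUnit u := by
    rw [PowerSeries.isUnit_iff_constantCoeff, hu1]
    exact isUnit_one
  obtain ⟨v, hv⟩ := huu.exists_right_inv
  have hP0' : PowerSeries.constantCoeff P₀ = 0 := by
    rw [← PowerSeries.coeff_zero_eq_constantCoeff_apply]
    rw [PowerSeries.coeff_map] at hP0
    exact Subtype.ext (by simpa using hP0)
  obtain ⟨P₁, hP1⟩ := PowerSeries.X_dvd_iff.mpr hP0'
  refine ⟨(v * P₁).map 𝒪.subtype, ⟨_, rfl⟩, ?_⟩
  rw [← map_mul, hu, hP1]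
  congr 1
  rw [mul_assoc, ← mul_assoc u, hv, one_mul]

end Series

/-! ## The nebentypus and the auxiliary Eisenstein series -/

section Main

variable {N : ℕ} [NeZero N] (ε : DirichletCharacter ℂ N) (f : CuspForm (Gamma1 N) 1)

/-- `f` has nebentypus `ε` (output of piece P0). -/
def HasNebentypus : Prop :=
  ∀ γ : SL(2, ℤ), γ ∈ Gamma0 N →
    (⇑f : ℍ → ℂ) ∣[(1 : ℤ)] γ = ε ((γ 1 1 : ℤ) : ZMod N) • (⇑f : ℍ → ℂ)

theorem slash_neg_one_of_odd (F : ℍ → ℂ) : F ∣[(1 : ℤ)] (-1 : SL(2, ℤ)) = -F := by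
  ext z
  rw [SL_slash_apply]
  have hd : denom ((-1 : SL(2, ℤ)) : GL (Fin 2) ℝ) z = -1 := by
    simp [denom]
  have hz : ((-1 : SL(2, ℤ)) • z) = z := by
    apply UpperHalfPlane.ext
    rw [UpperHalfPlane.specialLinearGroup_apply]
    simp
  rw [hd, hz]
  simp

theorem coe_ne_zero_of_qCoeff_one (hf₁ : ModularFormClass.qCoeff f 1 = 1) :
    (⇑f : ℍ → ℂ) ≠ 0 := by
  intro h
  unfold ModularFormClass.qCoeff at hf₁
  rw [h, qExpansion_zero] at hf₁
  simp at hf₁

/-- The nebentypus of a nonzero weight one form is odd. -/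
theorem eps_neg_one (hf₁ : ModularFormClass.qCoeff f 1 = 1) (hneb : HasNebentypus ε f) :
    ε (-1) = -1 := by
  have h := hneb (-1) (by rw [Gamma0_mem]; simp)
  rw [slash_neg_one_of_odd] at h
  have hne := coe_ne_zero_of_qCoeff_one f hf₁
  obtain ⟨z, hz⟩ : ∃ z, (⇑f : ℍ → ℂ) z ≠ 0 := by
    by_contra hcon
    exact hne (funext fun z => by_contra fun hz => hcon ⟨z, hz⟩)
  have h2 := congrFun h z
  simp only [Pi.neg_apply, Pi.smul_apply, smul_eq_mul] at h2
  have h3 : ((-1 : SL(2, ℤ)) 1 1 : ℤ) = -1 := by simp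
  rw [h3] at h2
  have h4 : (ε ((-1 : ℤ) : ZMod N) + 1) * f z = 0 := by rw [add_mul, ← h2]; ring
  rcases mul_eq_zero.mp h4 with h5 | h5
  · have : ε ((-1 : ℤ) : ZMod N) = -1 := by linear_combination h5
    simpa using this
  · exact absurd h5 hz

/-- The normalised weight 3 Eisenstein series with character `χ`, `q`-expansion `q + …`. -/
def eisN (χ : DirichletCharacter ℂ N) : ℍ → ℂ := ((-2 * π * Complex.I) ^ 3)⁻¹ • eisChar χ

theorem two_pi_I_pow_ne_zero : ((-2 * π * Complex.I) ^ 3 : ℂ) ≠ 0 := by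
  apply pow_ne_zero
  simp [Real.pi_ne_zero, Complex.I_ne_zero]

theorem eisN_mem_MF (χ : DirichletCharacter ℂ N) : eisN χ ∈ MF (Gamma1 N) 3 := by
  refine ⟨(eisChar_mdiff χ).const_smul _, fun γ hγ => ?_, fun γ => ?_⟩
  · have hγ0 : γ ∈ Gamma0 N := Gamma1_in_Gamma0 N hγ
    have h11 : ((γ 1 1 : ℤ) : ZMod N) = 1 := ((Gamma1_mem N γ).mp hγ).2.1
    rw [eisN, Fermat.Agent.S20.smul_slash_SL, eisChar_slash χ γ hγ0, h11, map_one, one_smul]
  · rw [eisN, Fermat.Agent.S20.smul_slash_SL]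
    exact (eisChar_slash_isBoundedAtImInfty χ γ).const_smul_left _

theorem eisN_slash (χ : DirichletCharacter ℂ N) (γ : SL(2, ℤ)) (hγ : γ ∈ Gamma0 N) :
    eisN χ ∣[(3 : ℤ)] γ = χ ((γ 1 1 : ℤ) : ZMod N) • eisN χ := by
  rw [eisN, Fermat.Agent.S20.smul_slash_SL, eisChar_slash χ γ hγ, smul_comm]

theorem nice_eisN (χ : DirichletCharacter ℂ N) : Fermat.Agent.S16.H260.Nice (eisN χ) :=
  Fermat.Agent.S16.H260.nice_of_mem_MF (Γ := Gamma1 N)
    (by rw [Gamma1_mem]; simp [ModularGroup.T]) (eisN_mem_MF χ)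

theorem qExpansion_eisN_coeff (χ : DirichletCharacter ℂ N) (hodd : χ (-1) = -1) (n : ℕ) :
    (qExpansion 1 (eisN χ)).coeff n = sigmaChi χ n := by
  rw [eisN, qExpansion_smul (analyticAt_cuspFunction_eisChar χ hodd), map_smul,
    qExpansion_eisChar_coeff χ hodd, smul_eq_mul, ← mul_assoc,
    inv_mul_cancel₀ two_pi_I_pow_ne_zero, one_mul]

theorem coe_mem_SF_Gamma1 : (⇑f : ℍ → ℂ) ∈ SF (Gamma1 N) 1 :=
  Fermat.Agent.S20.C0h516.coe_mem_SF f

theorem nice_coe : Fermat.Agent.S16.H260.Nice (⇑f : ℍ → ℂ) := by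
  have h := coe_mem_SF_Gamma1 f
  exact Fermat.Agent.S16.H260.nice_of_mem_MF (Γ := Gamma1 N) (k := 1)
    (by rw [Gamma1_mem]; simp [ModularGroup.T])
    ⟨h.1, h.2.1, fun γ => (h.2.2 γ).boundedAtFilter⟩

/-- The unit `d` of `γ ∈ Γ₀(N)`. -/
theorem isUnit_d (γ : SL(2, ℤ)) (hγ : γ ∈ Gamma0 N) : IsUnit (((γ 1 1 : ℤ)) : ZMod N) := by
  have h10 : ((γ 1 0 : ℤ) : ZMod N) = 0 := Gamma0_mem.mp hγ
  have hdet : γ 0 0 * γ 1 1 - γ 0 1 * γ 1 0 = 1 := by
    have h := γ.det_coe
    rwa [Matrix.det_fin_two] at h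
  have : ((γ 0 0 : ℤ) : ZMod N) * ((γ 1 1 : ℤ) : ZMod N) = 1 := by
    have h := congrArg (Int.cast : ℤ → ZMod N) hdet
    push_cast at h
    rw [h10, mul_zero, sub_zero] at h
    exact h
  exact IsUnit.of_mul_eq_one _ (by rw [mul_comm]; exact this)

/-- `f · h` is a cusp form of weight 4 on `Γ₀(N)`. -/
theorem mul_eisN_mem_SF (hneb : HasNebentypus ε f) :
    (⇑f : ℍ → ℂ) * eisN ε⁻¹ ∈ SF (Gamma0 N) 4 := by
  have hf := coe_mem_SF_Gamma1 f
  have hh := eisN_mem_MF (N := N) ε⁻¹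
  have h4 : (4 : ℤ) = 1 + 3 := by norm_num
  refine ⟨hf.1.mul hh.1, fun γ hγ => ?_, fun γ => ?_⟩
  · rw [h4, mul_slash_SL2, hneb γ hγ, eisN_slash ε⁻¹ γ hγ]
    ext z
    simp only [Pi.mul_apply, Pi.smul_apply, smul_eq_mul]
    have hu := isUnit_d γ hγ
    have h1 : ε ((γ 1 1 : ℤ) : ZMod N) * ε⁻¹ ((γ 1 1 : ℤ) : ZMod N) = 1 := by
      rw [← MulChar.mul_apply, mul_inv_cancel, MulChar.one_apply hu]
    linear_combination (f z * eisN ε⁻¹ z) * h1
  · rw [h4, mul_slash_SL2]
    exact (hf.2.2 γ).mul_boundedAtFilter (hh.2.2 γ)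

/-! ## The coefficient ring of the character -/

theorem isIntegral_dirichlet (χ : DirichletCharacter ℂ N) (a : ZMod N) : IsIntegral ℤ (χ a) := by
  by_cases ha : IsUnit a
  · obtain ⟨u, rfl⟩ := ha
    have hpow : (χ (u : ZMod N)) ^ (Nat.totient N) = 1 := by
      rw [← map_pow, ← Units.val_pow_eq_pow_val, ZMod.pow_totient]
      simp
    refine IsIntegral.of_pow (Nat.totient_pos.mpr (Nat.pos_of_ne_zero (NeZero.ne N))) ?_
    rw [hpow]
    exact isIntegral_one
  · rw [χ.map_nonunit ha]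
    exact isIntegral_zero

/-- The ring `ℤ[ε, ε⁻¹] ⊆ ℂ` generated by the values of `ε` and `ε⁻¹`. -/
def charAlg : Subalgebra ℤ ℂ :=
  Algebra.adjoin ℤ (Set.range (ε : ZMod N → ℂ) ∪ Set.range ((ε⁻¹ : DirichletCharacter ℂ N) : ZMod N → ℂ))

/-- `charAlg` as a subring. -/
def charRing : Subring ℂ := (charAlg ε).toSubring

theorem eps_mem_charRing (a : ZMod N) : ε a ∈ charRing ε :=
  Algebra.subset_adjoin (Or.inl ⟨a, rfl⟩)

theorem epsInv_mem_charRing (a : ZMod N) : (ε⁻¹ : DirichletCharacter ℂ N) a ∈ charRing ε :=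
  Algebra.subset_adjoin (Or.inr ⟨a, rfl⟩)

theorem fg_charAlg : (Subalgebra.toSubmodule (charAlg ε)).FG := by
  refine fg_adjoin_of_finite ((Set.finite_range _).union (Set.finite_range _)) ?_
  rintro x (⟨a, rfl⟩ | ⟨a, rfl⟩)
  · exact isIntegral_dirichlet ε a
  · exact isIntegral_dirichlet ε⁻¹ a

instance finite_charRing : Module.Finite ℤ (charRing ε) := by
  have h1 : Module.Finite ℤ (charAlg ε) := Module.Finite.of_fg (fg_charAlg ε)
  let e : (charAlg ε) ≃ₗ[ℤ] (charRing ε) :=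
    { toFun := fun x => ⟨x.1, x.2⟩
      invFun := fun x => ⟨x.1, x.2⟩
      map_add' := fun _ _ => rfl
      map_smul' := fun _ _ => by
        apply Subtype.ext
        simp
      left_inv := fun _ => rfl
      right_inv := fun _ => rfl }
  exact Module.Finite.equiv e

theorem sigmaChi_mem (n : ℕ) : sigmaChi (ε⁻¹ : DirichletCharacter ℂ N) n ∈ charRing ε := by
  unfold sigmaChi sigmaW
  refine Subring.sum_mem _ fun x _ => ?_
  refine Subring.mul_mem _ (epsInv_mem_charRing ε _) ?_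
  exact Subring.pow_mem _ (natCast_mem _ _) 2

/-- The integral `q`-expansion of `eisN ε⁻¹`. -/
def eisSeries : PowerSeries (charRing ε) :=
  PowerSeries.mk fun n => ⟨sigmaChi (ε⁻¹ : DirichletCharacter ℂ N) n, sigmaChi_mem ε n⟩

theorem map_eisSeries (hodd : ε (-1) = -1) :
    (eisSeries ε).map (charRing ε).subtype = qExpansion 1 (eisN (ε⁻¹ : DirichletCharacter ℂ N)) := by
  have hodd' : (ε⁻¹ : DirichletCharacter ℂ N) (-1) = -1 := by
    have hu : IsUnit (-1 : ZMod N) := isUnit_one.neg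
    have h1 : ε (-1) * (ε⁻¹ : DirichletCharacter ℂ N) (-1) = 1 := by
      rw [← MulChar.mul_apply, mul_inv_cancel, MulChar.one_apply hu]
    rw [hodd] at h1
    linear_combination -h1
  ext n
  rw [PowerSeries.coeff_map, qExpansion_eisN_coeff _ hodd']
  simp [eisSeries]

/-! ## `f` is a combination of integral series -/

theorem intLattice_coeff (k : ℤ) (W : CuspForm (Gamma0 N) k) (hW : W ∈ CuspForm.intLattice N k)
    (n : ℕ) : ∃ m : ℤ, PowerSeries.coeff n (Fermat.Agent.S23.Cap.qxLin N k W) = (m : ℂ) := by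
  induction hW using Submodule.span_induction with
  | mem W hW => exact hW n
  | zero => exact ⟨0, by simp⟩
  | add W₁ W₂ _ _ h₁ h₂ =>
    obtain ⟨m₁, h₁⟩ := h₁
    obtain ⟨m₂, h₂⟩ := h₂
    exact ⟨m₁ + m₂, by rw [map_add, map_add, h₁, h₂]; push_cast; rfl⟩
  | smul z W _ h =>
    obtain ⟨m, hm⟩ := h
    exact ⟨z * m, by rw [map_zsmul, map_zsmul, hm]; simp⟩

theorem qxLin_coeff_zero (k : ℤ) (W : CuspForm (Gamma0 N) k) :
    PowerSeries.coeff 0 (Fermat.Agent.S23.Cap.qxLin N k W) = 0 :=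
  CuspFormClass.qExpansion_coeff_zero W one_pos (one_mem_strictPeriods_Gamma0 N)

/-- The `q`-expansion of `f` is a `ℂ`-linear combination of power series with coefficients in
`ℤ[ε]`. -/
theorem qExpansion_mem_span (hf₁ : ModularFormClass.qCoeff f 1 = 1) (hneb : HasNebentypus ε f) :
    qExpansion 1 (⇑f : ℍ → ℂ) ∈
      Submodule.span ℂ {G : PowerSeries ℂ | ∀ n, PowerSeries.coeff n G ∈ charRing ε} := by
  have hodd := eps_neg_one ε f hf₁ hneb
  obtain ⟨V, hV⟩ := Fermat.Agent.S20.C0h516.mem_SF_iff_exists.mp (mul_eisN_mem_SF ε f hneb)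
  have hVspan : V ∈ Submodule.span ℂ
      ((CuspForm.intLattice N 4 : Submodule ℤ (CuspForm (Gamma0 N) 4)) :
        Set (CuspForm (Gamma0 N) 4)) := by
    have h := Fermat.Agent.S23.Cap.hasIntegralStructure N 4
    unfold CuspForm.HasIntegralStructure at h
    rw [h]
    trivial
  have hd0 : (eisSeries ε).coeff 0 = 0 := by
    apply Subtype.ext
    simp [eisSeries, sigmaChi_zero]
  have hd1 : (eisSeries ε).coeff 1 = 1 := by
    apply Subtype.ext
    simp [eisSeries, sigmaChi_one]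
  have key : ∀ W ∈ Submodule.span ℂ
      ((CuspForm.intLattice N 4 : Submodule ℤ (CuspForm (Gamma0 N) 4)) :
        Set (CuspForm (Gamma0 N) 4)),
      ∃ G ∈ Submodule.span ℂ {G : PowerSeries ℂ | ∀ n, PowerSeries.coeff n G ∈ charRing ε},
        (eisSeries ε).map (charRing ε).subtype * G = Fermat.Agent.S23.Cap.qxLin N 4 W := by
    intro W hW
    induction hW using Submodule.span_induction with
    | mem W hW =>
      have hP : Fermat.Agent.S23.Cap.qxLin N 4 W ∈ intS (charRing ε) := by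
        rw [mem_intS_iff]
        intro n
        obtain ⟨m, hm⟩ := intLattice_coeff 4 W hW n
        rw [hm]
        exact intCast_mem _ m
      obtain ⟨E, hE, hEq⟩ := exists_quotient_mem_intS (charRing ε) (eisSeries ε) hd0 hd1 hP
        (qxLin_coeff_zero 4 W)
      exact ⟨E, Submodule.subset_span ((mem_intS_iff _).mp hE), hEq⟩
    | zero => exact ⟨0, Submodule.zero_mem _, by simp⟩
    | add W₁ W₂ _ _ h₁ h₂ =>
      obtain ⟨G₁, hG₁, h₁⟩ := h₁
      obtain ⟨G₂, hG₂, h₂⟩ := h₂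
      exact ⟨G₁ + G₂, Submodule.add_mem _ hG₁ hG₂, by rw [mul_add, h₁, h₂, map_add]⟩
    | smul c W _ h =>
      obtain ⟨G, hG, h⟩ := h
      exact ⟨c • G, Submodule.smul_mem _ c hG, by rw [mul_smul_comm, h, map_smul]⟩
  obtain ⟨G, hG, hHG⟩ := key V hVspan
  have hmul : Fermat.Agent.S23.Cap.qxLin N 4 V =
      qExpansion 1 (⇑f : ℍ → ℂ) * (eisSeries ε).map (charRing ε).subtype := by
    show qExpansion 1 (⇑V : ℍ → ℂ) = _
    rw [hV, qExpansion_mul (nice_coe f).analyticAt (nice_eisN _).analyticAt,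
      map_eisSeries ε hodd]
  have hH0 : (eisSeries ε).map (charRing ε).subtype ≠ 0 := by
    intro h0
    have := congrArg (PowerSeries.coeff 1) h0
    rw [PowerSeries.coeff_map, hd1] at this
    simp at this
  have hGf : G = qExpansion 1 (⇑f : ℍ → ℂ) :=
    mul_left_cancel₀ hH0 (by rw [hHG, hmul, mul_comm])
  rw [← hGf]
  exact hG

/-! ## Main theorem -/

/-- **P1.** The ring generated over `ℤ[ε]` by the Hecke eigenvalues `a_p`, `p ∤ N`, of a weight
one eigenform with nebentypus `ε` is a finitely generated `ℤ`-module. -/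
theorem exists_finite_subring
    (hf₁ : ModularFormClass.qCoeff f 1 = 1)
    (hT : ∀ p : ℕ, p.Prime → ¬ p ∣ N → ∀ n : ℕ,
        ModularFormClass.qCoeff f (p * n) +
            ε (p : ZMod N) * (if p ∣ n then ModularFormClass.qCoeff f (n / p) else 0) =
          ModularFormClass.qCoeff f p * ModularFormClass.qCoeff f n)
    (hneb : HasNebentypus ε f) :
    ∃ R : Subring ℂ, Module.Finite ℤ R ∧ (∀ a : ZMod N, ε a ∈ R) ∧
      ∀ p : ℕ, p.Prime → ¬ p ∣ N → ModularFormClass.qCoeff f p ∈ R := by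
  let ι := {p : ℕ // p.Prime ∧ ¬ p ∣ N}
  let a : ι → ℂ := fun i => ModularFormClass.qCoeff f i.1
  have hfin := finite_adjoin_eigenvalues (charRing ε) (qExpansion 1 (⇑f : ℍ → ℂ)) hf₁
    (fun i : ι => i.1) (fun i => ε ((i.1 : ℕ) : ZMod N)) a
    (fun i => eps_mem_charRing ε _)
    (fun i => by
      ext n
      rw [coeff_formalT, map_smul, smul_eq_mul]
      exact hT i.1 i.2.1 i.2.2 n)
    (qExpansion_mem_span ε f hf₁ hneb)
  refine ⟨(Algebra.adjoin (charRing ε) (Set.range a)).toSubring, ?_, fun x => ?_,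
    fun p hp hpN => ?_⟩
  · let e : (Algebra.adjoin (charRing ε) (Set.range a)) ≃ₗ[ℤ]
        ((Algebra.adjoin (charRing ε) (Set.range a)).toSubring) :=
      { toFun := fun x => ⟨x.1, x.2⟩
        invFun := fun x => ⟨x.1, x.2⟩
        map_add' := fun _ _ => rfl
        map_smul' := fun _ _ => by
          apply Subtype.ext
          simp
        left_inv := fun _ => rfl
        right_inv := fun _ => rfl }
    exact Module.Finite.equiv e
  · exact (Algebra.adjoin (charRing ε) (Set.range a)).algebraMap_mem ⟨ε x, eps_mem_charRing ε x⟩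
  · exact Algebra.subset_adjoin ⟨⟨p, hp, hpN⟩, rfl⟩

/-- **P1, corollary.** The Hecke eigenvalues `a_p`, `p ∤ N`, are algebraic integers. -/
theorem isIntegral_qCoeff
    (hf₁ : ModularFormClass.qCoeff f 1 = 1)
    (hT : ∀ p : ℕ, p.Prime → ¬ p ∣ N → ∀ n : ℕ,
        ModularFormClass.qCoeff f (p * n) +
            ε (p : ZMod N) * (if p ∣ n then ModularFormClass.qCoeff f (n / p) else 0) =
          ModularFormClass.qCoeff f p * ModularFormClass.qCoeff f n)
    (hneb : HasNebentypus ε f) (p : ℕ) (hp : p.Prime) (hpN : ¬ p ∣ N) :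
    IsIntegral ℤ (ModularFormClass.qCoeff f p) := by
  obtain ⟨R, hR, -, hmem⟩ := exists_finite_subring ε f hf₁ hT hneb
  have h : IsIntegral ℤ (⟨_, hmem p hp hpN⟩ : R) := IsIntegral.of_finite ℤ _
  exact h.map (R.subtype.toIntAlgHom)

end Main

end Fermat.Agent.S48.H128

end
end
-- ===== PACK-END S48/H128/Integrality.lean

-- ===== PACK-BEGIN S48/H288/GaloisConj.lean
section




/-!
# S48 / P1 (helper288): Galois conjugates of weight one cusp forms with nebentypus

For `g ∈ S_k(Γ₁(N))` with nebentypus `ε` (`g ∣ γ = ε(d) g` on `Γ₀(N)`), `ε(-1) = -1 = (-1)^k`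
and any ring endomorphism `σ` of `ℂ` there is a cusp form `g^σ ∈ S_k(Γ₁(N))` with nebentypus
`σ ∘ ε` whose `q`-expansion is `σ` applied to that of `g`.

Route: `V = g · U` with `U = eisCharNorm ε⁻¹` of weight `3` lies in `S_{k+3}(Γ₀(N))`; the landed
S23 library conjugates `V` (`Cap.galois_stable`); `U^σ = eisCharNorm (σ ∘ ε⁻¹)` explicitly;
`g` is integral over the level one forms (`H503.exists_monic_cusp`), and the converse step
(`Conv.exists_cuspForm_qExpansion_eq`) produces `g^σ = V^σ / U^σ`.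
-/

set_option autoImplicit false

open UpperHalfPlane ModularForm ModularFormClass MatrixGroups CongruenceSubgroup
open scoped Manifold

noncomputable section

namespace Fermat.Agent.S48.H288

open Fermat.Agent.S23 Fermat.Agent.S23.Cap

variable {N : ℕ}

/-- `g` has nebentypus `ε` in weight `k`: `g ∣[k] γ = ε(γ₁₁) g` for `γ ∈ Γ₀(N)`. -/
def HasChar (ε : DirichletCharacter ℂ N) (k : ℤ) (g : ℍ → ℂ) : Prop :=
  ∀ γ : SL(2, ℤ), γ ∈ Gamma0 N → g ∣[k] γ = ε ((γ 1 1 : ℤ) : ZMod N) • g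

theorem SL_smul_slash' (k : ℤ) (γ : SL(2, ℤ)) (c : ℂ) (f : ℍ → ℂ) :
    (c • f) ∣[k] γ = c • (f ∣[k] γ) := by
  ext z
  simp only [SL_slash_apply, Pi.smul_apply, smul_eq_mul]
  ring

theorem isUnit_lowerRight_of_mem_Gamma0 {γ : SL(2, ℤ)} (hγ : γ ∈ Gamma0 N) :
    IsUnit (((γ 1 1 : ℤ)) : ZMod N) := by
  have h : ((γ 1 0 : ℤ) : ZMod N) = 0 := Gamma0_mem.mp hγ
  have hdet : (γ 0 0 * γ 1 1 - γ 0 1 * γ 1 0 : ℤ) = 1 := by
    have := γ.det_coe
    rw [Matrix.det_fin_two] at this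
    exact this
  have h2 : ((γ 0 0 : ℤ) : ZMod N) * ((γ 1 1 : ℤ) : ZMod N) = 1 := by
    have := congrArg (Int.cast : ℤ → ZMod N) hdet
    push_cast at this
    rw [h, mul_zero, sub_zero] at this
    exact this
  exact IsUnit.of_mul_eq_one_right _ h2

variable [NeZero N]

theorem hasChar_eisCharNorm (χ : DirichletCharacter ℂ N) {k : ℕ} (hk : 3 ≤ k) :
    HasChar χ k (eisCharNorm χ hk) := by
  intro γ hγ
  have h1 : ⇑(eisCharNorm χ hk) =
      (2 * ((-2 * Real.pi * Complex.I) ^ k / (Nat.factorial (k - 1) : ℂ)))⁻¹ • eisChar χ k := rfl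
  rw [h1, SL_smul_slash', eisChar_slash χ k γ hγ, smul_comm]


theorem Gamma1_map_le_Gamma0_map (N : ℕ) :
    (Gamma1 N).map (Matrix.SpecialLinearGroup.mapGL ℝ) ≤
      (Gamma0 N).map (Matrix.SpecialLinearGroup.mapGL ℝ) :=
  Subgroup.map_mono (Gamma1_in_Gamma0 N)

/-- Restriction of a cusp form on `Γ₀(N)` to a modular form on `Γ₁(N)`. -/
def restrictGamma1 {k : ℤ} (V : CuspForm ((Gamma0 N).map (Matrix.SpecialLinearGroup.mapGL ℝ)) k) :
    ModularForm ((Gamma1 N).map (Matrix.SpecialLinearGroup.mapGL ℝ)) k where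
  toFun := V
  slash_action_eq' := fun γ hγ ↦ V.slash_action_eq' γ (Gamma1_map_le_Gamma0_map N hγ)
  holo' := V.holo'
  bdd_at_cusps' := fun hc ↦
    ModularFormClass.bdd_at_cusps V (hc.mono (Gamma1_map_le_Gamma0_map N))

omit [NeZero N] in
@[simp] theorem coe_restrictGamma1 {k : ℤ}
    (V : CuspForm ((Gamma0 N).map (Matrix.SpecialLinearGroup.mapGL ℝ)) k) :
    ⇑(restrictGamma1 V) = ⇑V := rfl

/-- The product of a cusp form with nebentypus `ε` and the Eisenstein series with character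
`ε⁻¹` of weight `3`, as a cusp form on `Γ₀(N)`. -/
def mulEis (ε : DirichletCharacter ℂ N) {k : ℤ}
    (g : CuspForm ((Gamma1 N).map (Matrix.SpecialLinearGroup.mapGL ℝ)) k)
    (hg : HasChar ε k g) :
    CuspForm ((Gamma0 N).map (Matrix.SpecialLinearGroup.mapGL ℝ)) (k + 3) where
  toFun := ⇑g * ⇑(eisCharNorm ε⁻¹ (k := 3) le_rfl)
  slash_action_eq' := by
    rintro _ ⟨γ, hγ, rfl⟩
    have h1 := hg γ hγ
    have h2 := hasChar_eisCharNorm ε⁻¹ (k := 3) le_rfl γ hγ
    have h3 : (⇑g * ⇑(eisCharNorm ε⁻¹ (k := 3) le_rfl)) ∣[k + 3] γ =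
        (⇑g ∣[k] γ) * (⇑(eisCharNorm ε⁻¹ (k := 3) le_rfl) ∣[(3 : ℤ)] γ) :=
      mul_slash_SL2 k 3 γ _ _
    have hu := isUnit_lowerRight_of_mem_Gamma0 hγ
    have h4 : ε ((γ 1 1 : ℤ) : ZMod N) * ε⁻¹ ((γ 1 1 : ℤ) : ZMod N) = 1 := by
      rw [← MulChar.mul_apply, mul_inv_cancel, MulChar.one_apply hu]
    change (⇑g * ⇑(eisCharNorm ε⁻¹ (k := 3) le_rfl)) ∣[k + 3] γ = _
    rw [h3, h1]
    have h2' : ⇑(eisCharNorm ε⁻¹ (k := 3) le_rfl) ∣[(3 : ℤ)] γ =
        ε⁻¹ ((γ 1 1 : ℤ) : ZMod N) • ⇑(eisCharNorm ε⁻¹ (k := 3) le_rfl) := h2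
    rw [h2']
    ext z
    simp only [Pi.mul_apply, Pi.smul_apply, smul_eq_mul]
    calc ε ((γ 1 1 : ℤ) : ZMod N) * g z *
          (ε⁻¹ ((γ 1 1 : ℤ) : ZMod N) * (eisCharNorm ε⁻¹ (k := 3) le_rfl) z)
        = (ε ((γ 1 1 : ℤ) : ZMod N) * ε⁻¹ ((γ 1 1 : ℤ) : ZMod N)) *
          (g z * (eisCharNorm ε⁻¹ (k := 3) le_rfl) z) := by ring
      _ = g z * (eisCharNorm ε⁻¹ (k := 3) le_rfl) z := by rw [h4, one_mul]
  holo' := (g.mulModularForm (eisCharNorm ε⁻¹ (k := 3) le_rfl)).holo'
  zero_at_cusps' := fun {c} hc ↦ by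
    have hc' : IsCusp c ((Gamma1 N).map (Matrix.SpecialLinearGroup.mapGL ℝ)) := by
      rw [Subgroup.IsArithmetic.isCusp_iff_isCusp_SL2Z] at hc ⊢
      exact hc
    exact (g.mulModularForm (eisCharNorm ε⁻¹ (k := 3) le_rfl)).zero_at_cusps' hc'

@[simp] theorem coe_mulEis (ε : DirichletCharacter ℂ N) {k : ℤ}
    (g : CuspForm ((Gamma1 N).map (Matrix.SpecialLinearGroup.mapGL ℝ)) k)
    (hg : HasChar ε k g) :
    ⇑(mulEis ε g hg) = ⇑g * ⇑(eisCharNorm ε⁻¹ (k := 3) le_rfl) := rfl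


/-! ### Conjugating the Eisenstein series -/

omit [NeZero N] in
theorem map_sigmaChi (σ : ℂ →+* ℂ) (χ : DirichletCharacter ℂ N) (k n : ℕ) :
    σ (sigmaChi χ k n) = sigmaChi (χ.ringHomComp σ) k n := by
  simp [sigmaChi, map_sum, MulChar.ringHomComp_apply]

omit [NeZero N] in
theorem ringHomComp_neg_one (σ : ℂ →+* ℂ) (χ : DirichletCharacter ℂ N) (hχ : χ (-1) = -1) :
    (χ.ringHomComp σ) (-1) = -1 := by
  rw [MulChar.ringHomComp_apply, hχ, map_neg, map_one]

omit [NeZero N] in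
theorem inv_neg_one (χ : DirichletCharacter ℂ N) (hχ : χ (-1) = -1) : χ⁻¹ (-1) = -1 := by
  have h1 : χ (-1) * χ⁻¹ (-1) = 1 := by
    rw [← MulChar.mul_apply, mul_inv_cancel, MulChar.one_apply isUnit_one.neg]
  rw [hχ] at h1
  linear_combination -h1

omit [NeZero N] in
theorem ringHomComp_inv (σ : ℂ →+* ℂ) (χ : DirichletCharacter ℂ N) :
    (χ⁻¹).ringHomComp σ = (χ.ringHomComp σ)⁻¹ := by
  ext a
  simp [MulChar.ringHomComp_apply, MulChar.inv_apply]

theorem qExpansion_eisCharNorm_map (σ : ℂ →+* ℂ) (χ : DirichletCharacter ℂ N)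
    (hχ : χ (-1) = -1) :
    (qExpansion 1 (eisCharNorm χ (k := 3) le_rfl)).map σ =
      qExpansion 1 (eisCharNorm (χ.ringHomComp σ) (k := 3) le_rfl) := by
  ext n
  rw [PowerSeries.coeff_map, eisCharNorm_qExpansion_coeff χ hχ le_rfl (by decide),
    eisCharNorm_qExpansion_coeff (χ.ringHomComp σ) (ringHomComp_neg_one σ χ hχ) le_rfl (by decide),
    map_sigmaChi]

omit [NeZero N] in
theorem isNice_Gamma1 {F : Type*} [FunLike F ℍ ℂ] {k : ℤ}
    [ModularFormClass F ((Gamma1 N).map (Matrix.SpecialLinearGroup.mapGL ℝ)) k] (f : F) :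
    Conv.IsNice (f : ℍ → ℂ) :=
  Conv.isNice_of_modularFormClass (one_mem_strictPeriods_Gamma1 N) f

theorem isNice_levelOne {k : ℤ} (f : CuspForm 𝒮ℒ k) : Conv.IsNice (f : ℍ → ℂ) :=
  Conv.isNice_of_modularFormClass one_mem_strictPeriods_SL f

theorem eq_of_qExpansion_eq {f g : ℍ → ℂ} (hf : Conv.IsNice f) (hg : Conv.IsNice g)
    (h : qExpansion 1 f = qExpansion 1 g) : f = g := by
  ext z
  rw [← (hasSum_qExpansion one_pos hf.2.1 hf.1 hf.2.2 z).tsum_eq,
    ← (hasSum_qExpansion one_pos hg.2.1 hg.1 hg.2.2 z).tsum_eq, h]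

/-- **Galois conjugation** of a cusp form with odd nebentypus on `Γ₁(N)`, odd weight `1`. -/
theorem exists_conj_of_odd (ε : DirichletCharacter ℂ N) (hodd : ε (-1) = -1) (σ : ℂ →+* ℂ)
    (g : CuspForm ((Gamma1 N).map (Matrix.SpecialLinearGroup.mapGL ℝ)) 1)
    (hg : HasChar ε 1 g) :
    ∃ g' : CuspForm ((Gamma1 N).map (Matrix.SpecialLinearGroup.mapGL ℝ)) 1,
      HasChar (ε.ringHomComp σ) 1 g' ∧ qExpansion 1 g' = (qExpansion 1 g).map σ := by
  -- the Eisenstein series and its conjugate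
  set U := eisCharNorm ε⁻¹ (k := 3) le_rfl with hU
  set U' := eisCharNorm (ε.ringHomComp σ)⁻¹ (k := 3) le_rfl with hU'
  have hUodd : ε⁻¹ (-1) = -1 := inv_neg_one ε hodd
  have hU'odd : (ε.ringHomComp σ)⁻¹ (-1) = -1 :=
    inv_neg_one _ (ringHomComp_neg_one σ ε hodd)
  have hUU' : (qExpansion 1 U).map σ = qExpansion 1 U' := by
    rw [hU, hU', qExpansion_eisCharNorm_map σ ε⁻¹ hUodd, ringHomComp_inv]
  have hU'ne : U' ≠ 0 := eisCharNorm_ne_zero _ hU'odd le_rfl (by decide)
  -- the product and its conjugate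
  obtain ⟨_, ⟨V', rfl⟩, hV'⟩ := galois_stable N (1 + 3) σ (mulEis ε g hg) ⟨mulEis ε g hg, rfl⟩
  have hgN : Conv.IsNice (g : ℍ → ℂ) := isNice_Gamma1 g
  have hUN : Conv.IsNice (U : ℍ → ℂ) := isNice_Gamma1 U
  have hqV : qExpansion 1 (mulEis ε g hg) = qExpansion 1 g * qExpansion 1 U := by
    rw [coe_mulEis, Conv.IsNice.qExpansion_mul hgN hUN]
  set x : PowerSeries ℂ := (qExpansion 1 g).map σ with hx
  have hxU : x * qExpansion 1 U' = qExpansion 1 (restrictGamma1 V') := by
    rw [coe_restrictGamma1]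
    change _ = qx V'
    rw [hV']
    change _ = (qExpansion 1 (mulEis ε g hg)).map σ
    rw [hqV, map_mul, hUU']
  -- the monic relation
  obtain ⟨n, b, hn, hrel⟩ :=
    H503.exists_monic_cusp (𝒢 := (Gamma1 N).map (Matrix.SpecialLinearGroup.mapGL ℝ)) g
  choose b' hb' using fun m : ℕ ↦ LevelOne.levelOne_transport_cusp_ringHom σ (1 * (m : ℤ)) (b m)
  have hrelq : qExpansion 1 g ^ n +
      ∑ m ∈ Finset.Icc 1 n, qExpansion 1 (b m) * qExpansion 1 g ^ (n - m) = 0 := by
    have hfun : (g : ℍ → ℂ) ^ n + ∑ m ∈ Finset.Icc 1 n, (b m : ℍ → ℂ) * (g : ℍ → ℂ) ^ (n - m) = 0 := by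
      funext τ
      simpa using hrel τ
    have hterm : ∀ m ∈ Finset.Icc 1 n, Conv.IsNice ((b m : ℍ → ℂ) * (g : ℍ → ℂ) ^ (n - m)) :=
      fun m _ ↦ (isNice_levelOne (b m)).mul (hgN.pow _)
    have := congrArg (qExpansion 1) hfun
    rw [Conv.IsNice.qExpansion_add (hgN.pow n) (Conv.IsNice.sum _ hterm),
      hgN.qExpansion_pow, Conv.IsNice.qExpansion_sum _ hterm, qExpansion_zero] at this
    rw [← this]
    congr 1
    refine Finset.sum_congr rfl fun m _ ↦ ?_
    rw [Conv.IsNice.qExpansion_mul (isNice_levelOne (b m)) (hgN.pow _), hgN.qExpansion_pow]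
  have hrelσ : x ^ n + ∑ m ∈ Finset.Icc 1 n, qExpansion 1 (b' m) * x ^ (n - m) = 0 := by
    have := congrArg (PowerSeries.map σ) hrelq
    rw [map_add, map_pow, map_sum, map_zero] at this
    rw [← this]
    congr 1
    refine Finset.sum_congr rfl fun m _ ↦ ?_
    rw [map_mul, map_pow, hb' m]
  have hmonic : x ^ n + ∑ i ∈ Finset.range n, qExpansion 1 (⇑(b' (n - i))) * x ^ i = 0 := by
    rw [← hrelσ]
    congr 1
    refine Finset.sum_nbij' (fun i ↦ n - i) (fun m ↦ n - m) ?_ ?_ ?_ ?_ ?_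
    · intro i hi
      have := Finset.mem_range.mp hi
      exact Finset.mem_Icc.mpr ⟨by omega, by omega⟩
    · intro m hm
      have := Finset.mem_Icc.mp hm
      exact Finset.mem_range.mpr (by omega)
    · intro i hi
      have := Finset.mem_range.mp hi
      show n - (n - i) = i
      omega
    · intro m hm
      have := Finset.mem_Icc.mp hm
      show n - (n - m) = m
      omega
    · intro i hi
      have := Finset.mem_range.mp hi
      have h : n - (n - i) = i := by omega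
      rw [h]
  have hB : ∀ i < n, ∃ (wi : ℤ) (B : CuspForm 𝒮ℒ wi), wi = 1 * ((n : ℤ) - i) ∧
      ⇑B = (fun i ↦ (⇑(b' (n - i)) : ℍ → ℂ)) i := by
    intro i hi
    refine ⟨1 * ((n - i : ℕ) : ℤ), b' (n - i), ?_, rfl⟩
    rw [Nat.cast_sub hi.le]
  obtain ⟨F, hF⟩ := Conv.exists_cuspForm_qExpansion_eq (Γ := Gamma1 N)
    (one_mem_strictPeriods_Gamma1 N) (k := 1) (w := ((3 : ℕ) : ℤ)) (m := 1 + 3) (by norm_num)
    (restrictGamma1 V') U' hU'ne hn (fun i ↦ (⇑(b' (n - i)) : ℍ → ℂ)) hB x hxU hmonic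
  refine ⟨F, ?_, hF⟩
  -- the nebentypus of `F`
  have hFN : Conv.IsNice (F : ℍ → ℂ) := isNice_Gamma1 F
  have hU'N : Conv.IsNice (U' : ℍ → ℂ) := isNice_Gamma1 U'
  have hV'N : Conv.IsNice (V' : ℍ → ℂ) := isNice_Gamma1 (restrictGamma1 V')
  have hFU : (F : ℍ → ℂ) * (U' : ℍ → ℂ) = (V' : ℍ → ℂ) := by
    apply eq_of_qExpansion_eq (hFN.mul hU'N) hV'N
    rw [Conv.IsNice.qExpansion_mul hFN hU'N, hF, hxU, coe_restrictGamma1]
  have hU'fun : ∃ τ, (U' : ℍ → ℂ) τ ≠ 0 := by
    by_contra hcon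
    push Not at hcon
    exact hU'ne (DFunLike.coe_injective (funext hcon))
  intro γ hγ
  have hu := isUnit_lowerRight_of_mem_Gamma0 hγ
  set c : ℂ := (ε.ringHomComp σ) ((γ 1 1 : ℤ) : ZMod N) with hc
  set c' : ℂ := (ε.ringHomComp σ)⁻¹ ((γ 1 1 : ℤ) : ZMod N) with hc'
  have hcc' : c * c' = 1 := by
    rw [hc, hc', ← MulChar.mul_apply, mul_inv_cancel, MulChar.one_apply hu]
  have hU'γ : (U' : ℍ → ℂ) ∣[((3 : ℕ) : ℤ)] γ = c' • (U' : ℍ → ℂ) :=
    hasChar_eisCharNorm (ε.ringHomComp σ)⁻¹ (k := 3) le_rfl γ hγ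
  have hV'γ : (V' : ℍ → ℂ) ∣[(1 + 3 : ℤ)] γ = (V' : ℍ → ℂ) :=
    V'.slash_action_eq' _ ⟨γ, hγ, rfl⟩
  have h1 : ((F : ℍ → ℂ) * (U' : ℍ → ℂ)) ∣[(1 + 3 : ℤ)] γ =
      ((F : ℍ → ℂ) ∣[(1 : ℤ)] γ) * ((U' : ℍ → ℂ) ∣[((3 : ℕ) : ℤ)] γ) :=
    mul_slash_SL2 1 3 γ _ _
  rw [hFU, hV'γ, hU'γ] at h1
  have hD : MDiff ((F : ℍ → ℂ) ∣[(1 : ℤ)] γ - c • (F : ℍ → ℂ)) :=
    (hFN.1.slash 1 (γ : GL (Fin 2) ℝ)).sub (hFN.1.const_smul c)
  have hmul : ∀ τ, ((F : ℍ → ℂ) ∣[(1 : ℤ)] γ - c • (F : ℍ → ℂ)) τ * (U' : ℍ → ℂ) τ = 0 := by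
    intro τ
    have h2 := congrFun h1 τ
    have h3 := congrFun hFU τ
    simp only [Pi.mul_apply, Pi.smul_apply, Pi.sub_apply, smul_eq_mul] at h2 h3 ⊢
    have h4 : ((F : ℍ → ℂ) ∣[(1 : ℤ)] γ) τ * U' τ = c * (c' * (((F : ℍ → ℂ) ∣[(1 : ℤ)] γ) τ * U' τ)) := by
      rw [← mul_assoc, hcc', one_mul]
    rw [sub_mul, h4]
    have h5 : c' * (((F : ℍ → ℂ) ∣[(1 : ℤ)] γ) τ * U' τ) = F τ * U' τ := by
      rw [h3, h2]
      ring
    rw [h5]
    ring
  have h0 := Conv.eq_zero_of_mul_eq_zero_of_mdiff hD hU'N.1 hU'fun hmul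
  funext τ
  have := h0 τ
  simp only [Pi.sub_apply] at this
  exact sub_eq_zero.mp this


omit [NeZero N] in
/-- A form with nebentypus `ε` in weight `1` vanishes unless `ε(-1) = -1`. -/
theorem eq_zero_of_hasChar_of_not_odd (ε : DirichletCharacter ℂ N) (hodd : ε (-1) ≠ -1)
    (g : ℍ → ℂ) (hg : HasChar ε 1 g) : g = 0 := by
  have hmem : (-1 : SL(2, ℤ)) ∈ Gamma0 N := by
    rw [Gamma0_mem]
    simp
  have h1 := hg (-1) hmem
  have h2 : g ∣[(1 : ℤ)] (-1 : SL(2, ℤ)) = -g := by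
    ext z
    rw [SL_slash_apply]
    simp [denom]
  rw [h2] at h1
  have h3 : (((-1 : SL(2, ℤ)) 1 1 : ℤ) : ZMod N) = -1 := by simp
  rw [h3] at h1
  funext z
  have h4 := congrFun h1 z
  simp only [Pi.neg_apply, Pi.smul_apply, smul_eq_mul, Pi.zero_apply] at h4 ⊢
  have h5 : (ε (-1) + 1) * g z = 0 := by linear_combination -h4
  rcases mul_eq_zero.mp h5 with h | h
  · exact absurd (by linear_combination h) hodd
  · exact h

/-- **Galois conjugation (P1-A).** For a weight one cusp form `g` on `Γ₁(N)` with nebentypus `ε`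
and any ring endomorphism `σ` of `ℂ`, there is a weight one cusp form on `Γ₁(N)` with
nebentypus `σ ∘ ε` whose `q`-expansion is the `σ`-conjugate of that of `g`. -/
theorem exists_conj (ε : DirichletCharacter ℂ N) (σ : ℂ →+* ℂ)
    (g : CuspForm ((Gamma1 N).map (Matrix.SpecialLinearGroup.mapGL ℝ)) 1)
    (hg : HasChar ε 1 g) :
    ∃ g' : CuspForm ((Gamma1 N).map (Matrix.SpecialLinearGroup.mapGL ℝ)) 1,
      HasChar (ε.ringHomComp σ) 1 g' ∧ qExpansion 1 g' = (qExpansion 1 g).map σ := by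
  by_cases hodd : ε (-1) = -1
  · exact exists_conj_of_odd ε hodd σ g hg
  · have h0 : (g : ℍ → ℂ) = 0 := eq_zero_of_hasChar_of_not_odd ε hodd g hg
    refine ⟨0, ?_, ?_⟩
    · intro γ _
      ext z
      simp [SL_slash_apply]
    · rw [h0]
      simp [qExpansion_zero]

/-- **P1-A in the shape of S48.** -/
theorem exists_conj_qCoeff (ε : DirichletCharacter ℂ N) (f : CuspForm (Gamma1 N) 1)
    (hε : ∀ γ : SL(2, ℤ), γ ∈ Gamma0 N →
      (⇑f) ∣[(1 : ℤ)] γ = ε ((γ 1 1 : ℤ) : ZMod N) • ⇑f)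
    (σ : ℂ →+* ℂ) :
    ∃ g : CuspForm (Gamma1 N) 1,
      (∀ γ : SL(2, ℤ), γ ∈ Gamma0 N →
        (⇑g) ∣[(1 : ℤ)] γ = (ε.ringHomComp σ) ((γ 1 1 : ℤ) : ZMod N) • ⇑g) ∧
      ∀ n : ℕ, ModularFormClass.qCoeff g n = σ (ModularFormClass.qCoeff f n) := by
  obtain ⟨g, hg, hq⟩ := exists_conj ε σ f hε
  refine ⟨g, hg, fun n ↦ ?_⟩
  unfold ModularFormClass.qCoeff
  rw [hq, PowerSeries.coeff_map]

omit [NeZero N] in
/-- The conjugate satisfies the conjugate Hecke relations. -/
theorem hecke_relation_conj (ε : DirichletCharacter ℂ N) (σ : ℂ →+* ℂ) (a a' : ℕ → ℂ)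
    (ha : ∀ n, a' n = σ (a n))
    (hT : ∀ p : ℕ, p.Prime → ¬ p ∣ N → ∀ n : ℕ,
      a (p * n) + ε (p : ZMod N) * (if p ∣ n then a (n / p) else 0) = a p * a n) :
    ∀ p : ℕ, p.Prime → ¬ p ∣ N → ∀ n : ℕ,
      a' (p * n) + (ε.ringHomComp σ) (p : ZMod N) * (if p ∣ n then a' (n / p) else 0) =
        a' p * a' n := by
  intro p hp hpN n
  have := congrArg σ (hT p hp hpN n)
  rw [map_add, map_mul, map_mul] at this
  simp only [ha, MulChar.ringHomComp_apply]
  rw [← this]
  congr 2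
  split_ifs
  · rfl
  · rw [map_zero]

end Fermat.Agent.S48.H288

end
end
-- ===== PACK-END S48/H288/GaloisConj.lean

-- ===== PACK-BEGIN S48/H848/Tower.lean
section
/-
S48 piece P0 (helper848): `V_p`-injectivity on `S_k(Γ₁(N))`, `p ∤ N`:
if `g` and `g ∣ diag(p, 1)` are both cusp forms on `Γ₁(N)` then `g = 0`.
Proof: iterating `T_p` shows that `(⟨p⟩^{m-1} g) ∣ diag(p^m, 1)` is a cusp form on `Γ₁(N)` for
all `m`; its q-expansion has order `≥ p^m`, which contradicts the Sturm-type bound of the Prelude.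
-/




set_option autoImplicit false

noncomputable section

namespace Fermat.Agent.S48.H848

open Matrix.SpecialLinearGroup UpperHalfPlane CongruenceSubgroup ModularForm
open scoped MatrixGroups ModularForm OnePoint Manifold Pointwise

variable {N : ℕ} {k : ℤ}

theorem SI1.add {F G : ℍ → ℂ} (hF : SI1 N k F) (hG : SI1 N k G) : SI1 N k (F + G) := by
  intro g hg
  rw [SlashAction.add_slash, hF g hg, hG g hg]

theorem SI1.neg {F : ℍ → ℂ} (hF : SI1 N k F) : SI1 N k (-F) := by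
  intro g hg
  rw [SlashAction.neg_slash, hF g hg]

theorem SI1.sub {F G : ℍ → ℂ} (hF : SI1 N k F) (hG : SI1 N k G) : SI1 N k (F - G) := by
  rw [sub_eq_add_neg]
  exact hF.add hG.neg

theorem SI1.smul {F : ℍ → ℂ} (hF : SI1 N k F) (c : ℂ) : SI1 N k (c • F) := by
  intro g hg
  have h := ModularForm.SL_smul_slash k g F c
  rw [show (c • F) ∣[k] mapGL ℝ g = c • (F ∣[k] mapGL ℝ g) from h, hF g hg]

/-- Existence of `σ ∈ Γ₀(N)` with lower right entry `≡ p` and lower left entry divisible by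
`p ^ i`. -/
theorem exists_sigma {p : ℕ} (hp : p.Prime) (hpN : ¬ p ∣ N) (i : ℕ) :
    ∃ σ : SL(2, ℤ), σ ∈ Gamma0 N ∧ ((σ 1 1 : ℤ) : ZMod N) = (p : ZMod N) ∧
      σ 1 0 = (p ^ i : ℕ) * (N : ℤ) := by
  have hcop : IsCoprime (p : ℤ) (N : ℤ) :=
    Nat.isCoprime_iff_coprime.mpr ((Nat.Prime.coprime_iff_not_dvd hp).mpr hpN)
  have h1 : IsCoprime ((p : ℤ) + N) (N : ℤ) := by
    simpa using hcop.add_mul_left_left 1
  have h2 : IsCoprime ((p : ℤ) + N) (p : ℤ) := by
    have := hcop.symm.add_mul_left_left 1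
    rwa [mul_one, add_comm] at this
  have h3 : IsCoprime ((p : ℤ) + N) (((p ^ i : ℕ) : ℤ) * (N : ℤ)) := by
    push_cast
    exact (h2.pow_right).mul_right h1
  obtain ⟨a, b, hab⟩ := h3
  obtain ⟨σ, h00, h01, h10, h11⟩ := exists_SL2_848 a (-b) ((p ^ i : ℕ) * (N : ℤ)) ((p : ℤ) + N)
    (by linear_combination hab)
  refine ⟨σ, ?_, ?_, h10⟩
  · rw [Gamma0_mem, h10]
    push_cast
    simp
  · rw [h11]
    push_cast
    simp


/-- Commutation of the diamond operator with `∣ diag(p^i, 1)` on forms `h` such that both `h`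
and `h ∣ diag(p^i, 1)` are `Γ₁(N)`-invariant. -/
theorem slash_diag_comm {p : ℕ} (hp : p.Prime) (hpN : ¬ p ∣ N) (i : ℕ) {h : ℍ → ℂ}
    (hh : SI1 N k h) (hV : SI1 N k (h ∣[k] heckeDiagMatrix (p ^ i))) {σ : SL(2, ℤ)}
    (hσ : σ ∈ Gamma0 N) (hσp : ((σ 1 1 : ℤ) : ZMod N) = (p : ZMod N)) :
    (h ∣[k] mapGL ℝ σ) ∣[k] heckeDiagMatrix (p ^ i) =
      (h ∣[k] heckeDiagMatrix (p ^ i)) ∣[k] mapGL ℝ σ := by
  obtain ⟨τ, hτ, hτp, hτ10⟩ := exists_sigma (N := N) hp hpN i
  have hpi : p ^ i ≠ 0 := pow_ne_zero _ hp.ne_zero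
  obtain ⟨g', hg'10, hg'11, hmul⟩ := heckeDiagMatrix_mul_track' hpi τ (N : ℤ) hτ10
  have hg' : g' ∈ Gamma0 N := by
    rw [Gamma0_mem, hg'10]
    simp
  have e1 : (h ∣[k] heckeDiagMatrix (p ^ i)) ∣[k] mapGL ℝ σ =
      (h ∣[k] heckeDiagMatrix (p ^ i)) ∣[k] mapGL ℝ τ :=
    slash_eq_of_entry_eq hV hσ hτ (hσp.trans hτp.symm)
  have e2 : h ∣[k] mapGL ℝ σ = h ∣[k] mapGL ℝ g' :=
    slash_eq_of_entry_eq hh hσ hg' (by rw [hσp, hg'11, hτp])
  rw [e1, e2, ← SlashAction.slash_mul, ← SlashAction.slash_mul, hmul]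

/-- `U_p ∘ V_{p^{i+1}} = p^{k-1} V_{p^i}` on `1`-periodic functions. -/
theorem heckeU_slash_diag {p : ℕ} (hp : p ≠ 0) (i : ℕ) {h : ℍ → ℂ} (hh : Nice h) :
    heckeU k p (h ∣[k] heckeDiagMatrix (p ^ (i + 1))) =
      ((p : ℂ) ^ (k - 1)) • (h ∣[k] heckeDiagMatrix (p ^ i)) := by
  have hpi : p ^ i ≠ 0 := pow_ne_zero _ hp
  have hpi1 : p ^ (i + 1) ≠ 0 := pow_ne_zero _ hp
  refine Nice.ext ((hh.slash_diag k _).heckeU k p) ((hh.slash_diag k _).smul _) fun n ↦ ?_
  rw [Nice.qCoeff_heckeU (hh.slash_diag k _) k hp, Nice.qCoeff_smul (hh.slash_diag k _),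
    Nice.qCoeff_slash_diag hh k hpi1, Nice.qCoeff_slash_diag hh k hpi]
  have h1 : p ^ (i + 1) ∣ n * p ↔ p ^ i ∣ n := by
    rw [pow_succ]
    exact Nat.mul_dvd_mul_iff_right (Nat.pos_of_ne_zero hp)
  have h2 : n * p / p ^ (i + 1) = n / p ^ i := by
    rw [pow_succ]
    exact Nat.mul_div_mul_right _ _ (Nat.pos_of_ne_zero hp)
  by_cases hd : p ^ i ∣ n
  · rw [if_pos (h1.mpr hd), if_pos hd, h2]
    push_cast
    rw [pow_succ, mul_zpow]
    ring
  · rw [if_neg (fun h ↦ hd (h1.mp h)), if_neg hd, mul_zero]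

theorem heckeDiagMatrix_mul848 (a b : ℕ) (ha : a ≠ 0) (hb : b ≠ 0) :
    heckeDiagMatrix a * heckeDiagMatrix b = heckeDiagMatrix (a * b) := by
  ext i j
  fin_cases i <;> fin_cases j <;>
    simp [val_heckeDiagMatrix ha, val_heckeDiagMatrix hb, val_heckeDiagMatrix (mul_ne_zero ha hb),
      Matrix.mul_apply, Fin.sum_univ_two]

theorem slash_diag_one {h : ℍ → ℂ} (hh : Nice h) : h ∣[k] heckeDiagMatrix 1 = h := by
  refine Nice.ext (hh.slash_diag k _) hh fun n ↦ ?_
  rw [Nice.qCoeff_slash_diag hh k one_ne_zero]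
  simp


/-- The tower condition: `h ∣ diag(p^i, 1)` is `Γ₁(N)`-invariant for all `i ≤ m`. -/
def Tow (N : ℕ) (k : ℤ) (p m : ℕ) (h : ℍ → ℂ) : Prop :=
  ∀ i, i ≤ m → SI1 N k (h ∣[k] heckeDiagMatrix (p ^ i))

section step

variable [NeZero N]

/-- Induction step: from a tower of height `m ≥ 1` for `h` to a tower of height `m + 1` for
`⟨p⟩ h`. -/
theorem tow_step {p : ℕ} [Fact p.Prime] (hpN : ¬ p ∣ N) {σ : SL(2, ℤ)} (hσ : σ ∈ Gamma0 N)
    (hσp : ((σ 1 1 : ℤ) : ZMod N) = (p : ZMod N)) (h : CuspForm (Gamma1 N) k) {m : ℕ}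
    (hm : 1 ≤ m) (hT : Tow N k p m ⇑h) : Tow N k p (m + 1) (⇑h ∣[k] mapGL ℝ σ) := by
  have hp : p.Prime := Fact.out
  intro i hi
  rcases Nat.lt_or_ge i (m + 1) with hlt | hge
  · have him : i ≤ m := Nat.lt_succ_iff.mp hlt
    rw [slash_diag_comm hp hpN i (SI1_coe h) (hT i him) hσ hσp]
    exact SI1_slash (hT i him) hσ
  · have hi' : i = m + 1 := le_antisymm hi hge
    subst hi'
    obtain ⟨m', rfl⟩ : ∃ m', m = m' + 1 := ⟨m - 1, by omega⟩
    -- the bundled form `F = h ∣ diag(p^m, 1)`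
    set F : CuspForm (Gamma1 N) k := diagCF (p ^ (m' + 1)) h (hT (m' + 1) le_rfl) with hF
    have hTF := SI1_coe (heckeT1CF hpN σ hσ hσp F)
    rw [coe_heckeT1CF, heckeT1, hF, coe_diagCF] at hTF
    have e1 : heckeU k p (⇑h ∣[k] heckeDiagMatrix (p ^ (m' + 1))) =
        ((p : ℂ) ^ (k - 1)) • (⇑h ∣[k] heckeDiagMatrix (p ^ m')) :=
      heckeU_slash_diag hp.ne_zero m' (Nice.of_cusp h)
    have e2 : ((⇑h ∣[k] heckeDiagMatrix (p ^ (m' + 1))) ∣[k] mapGL ℝ σ) ∣[k] heckeDiagMatrix p =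
        (⇑h ∣[k] mapGL ℝ σ) ∣[k] heckeDiagMatrix (p ^ (m' + 1 + 1)) := by
      rw [← slash_diag_comm hp hpN (m' + 1) (SI1_coe h) (hT (m' + 1) le_rfl) hσ hσp,
        ← SlashAction.slash_mul, heckeDiagMatrix_mul848 _ _ (pow_ne_zero _ hp.ne_zero) hp.ne_zero,
        ← pow_succ]
    rw [e1, e2] at hTF
    have h3 : SI1 N k (((p : ℂ) ^ (k - 1)) • (⇑h ∣[k] heckeDiagMatrix (p ^ m'))) :=
      (hT m' (by omega)).smul _
    have := hTF.sub h3
    rwa [add_sub_cancel_left] at this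

end step

section sturm

theorem Gamma_le_Gamma1_848 (N : ℕ) : Gamma N ≤ Gamma1 N := by
  intro g hg
  rw [Gamma_mem] at hg
  rw [Gamma1_mem]
  exact ⟨hg.1, hg.2.2.2, hg.2.2.1⟩

theorem map_Gamma_le_conj_Gamma1 (N : ℕ) (γ : SL(2, ℤ)) :
    (Gamma N : Subgroup (GL (Fin 2) ℝ)) ≤
      ConjAct.toConjAct (mapGL ℝ γ) • (Gamma1 N : Subgroup (GL (Fin 2) ℝ)) := by
  rintro x ⟨δ, hδ, rfl⟩
  rw [Subgroup.mem_pointwise_smul_iff_inv_smul_mem, ← ConjAct.toConjAct_inv,
    ConjAct.toConjAct_smul]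
  rw [inv_inv, ← map_inv, ← map_mul, ← map_mul]
  refine Subgroup.mem_map_of_mem _ (Gamma_le_Gamma1_848 N ?_)
  have := (Gamma_normal N).conj_mem δ hδ γ⁻¹
  simpa using this

theorem natCast_mem_strictPeriods_conj (N : ℕ) (γ : SL(2, ℤ)) :
    (N : ℝ) ∈ (ConjAct.toConjAct (mapGL ℝ γ) •
      (Gamma1 N : Subgroup (GL (Fin 2) ℝ))).strictPeriods := by
  have h1 : (N : ℝ) ∈ (Gamma N : Subgroup (GL (Fin 2) ℝ)).strictPeriods := by
    rw [strictPeriods_Gamma]
    exact AddSubgroup.mem_zmultiples _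
  rw [Subgroup.mem_strictPeriods_iff] at h1 ⊢
  exact map_Gamma_le_conj_Gamma1 N γ h1

/-- The Sturm-type bound for `Γ₁(N)` in weight `k`. -/
def sturmB (N : ℕ) (k : ℤ) : ℕ :=
  (k * ((Gamma1 N : Subgroup (GL (Fin 2) ℝ)).relIndex 𝒮ℒ)).toNat / 12

variable [NeZero N]

/-- A cusp form on `Γ₁(N)` whose first `sturmB N k + 1` coefficients vanish is zero. -/
theorem eq_zero_of_qCoeff_eq_zero (F : CuspForm (Gamma1 N) k)
    (h : ∀ n ≤ sturmB N k, ModularFormClass.qCoeff F n = 0) : F = 0 := by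
  have hN : 0 < N := Nat.pos_of_ne_zero (NeZero.ne N)
  have hF := Nice.of_cusp F
  have hG : CuspForm.toModularFormₗ F = 0 := by
    refine ModularForm.eq_zero_of_lt_order_qExpansion_of_isArithmetic
      (CuspForm.toModularFormₗ F) hN (natCast_mem_strictPeriods_conj N) ?_
    have key : ∀ i < N * sturmB N k + 1,
        PowerSeries.coeff i (qExpansion (N : ℝ) ⇑(CuspForm.toModularFormₗ F)) = 0 := by
      intro i hi
      have e := UpperHalfPlane.qExpansion_coeff_nat_mul one_pos hF.per hF.hol hF.bdd hN i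
      rw [mul_one] at e
      rw [show (⇑(CuspForm.toModularFormₗ F) : ℍ → ℂ) = ⇑F from rfl, e]
      split_ifs with hd
      · refine h (i / N) ?_
        rw [Nat.div_le_iff_le_mul_add_pred hN]
        omega
      · rfl
    have := PowerSeries.nat_le_order _ _ key
    refine lt_of_lt_of_le ?_ this
    change ((N * sturmB N k : ℕ) : ℕ∞) < _
    exact_mod_cast Nat.lt_succ_self _
  exact CuspForm.toModularFormₗ_injective (by rw [hG, map_zero])

theorem eq_zero_of_slash_eq_zero {h : ℍ → ℂ} (A : GL (Fin 2) ℝ) (hA : h ∣[k] A = 0) : h = 0 := by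
  have := congrArg (fun F ↦ F ∣[k] A⁻¹) hA
  simpa [← SlashAction.slash_mul] using this

theorem eq_zero_of_slash_diag_pow (h : CuspForm (Gamma1 N) k) {p m : ℕ} (hp : p ≠ 0)
    (hV : SI1 N k (⇑h ∣[k] heckeDiagMatrix (p ^ m))) (hB : sturmB N k < p ^ m) : h = 0 := by
  have hpm : p ^ m ≠ 0 := pow_ne_zero _ hp
  have hF : diagCF (p ^ m) h hV = 0 := by
    refine eq_zero_of_qCoeff_eq_zero _ fun n hn ↦ ?_
    rw [coe_diagCF, Nice.qCoeff_slash_diag (Nice.of_cusp h) k hpm]
    split_ifs with hd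
    · have hn0 : n = 0 := Nat.eq_zero_of_dvd_of_lt hd (lt_of_le_of_lt hn hB)
      subst hn0
      have h0 : ModularFormClass.qCoeff (⇑h) 0 = 0 :=
        CuspFormClass.qExpansion_coeff_zero h one_pos (Nice.one_mem_strictPeriods_Gamma1_848 N)
      rw [Nat.zero_div, h0, mul_zero]
    · rfl
  have h0 : (⇑h ∣[k] heckeDiagMatrix (p ^ m)) = 0 := by
    have := congrArg (fun F : CuspForm (Gamma1 N) k ↦ (⇑F : ℍ → ℂ)) hF
    simpa using this
  exact DFunLike.coe_injective (eq_zero_of_slash_eq_zero _ h0)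

/-- **`V_p`-injectivity**: if `g` and `g ∣ diag(p, 1)` are both cusp forms on `Γ₁(N)`, `p ∤ N`,
then `g = 0`. -/
theorem eq_zero_of_slash_diag_SI1 {p : ℕ} [Fact p.Prime] (hpN : ¬ p ∣ N)
    (g : CuspForm (Gamma1 N) k) (hV : SI1 N k (⇑g ∣[k] heckeDiagMatrix p)) : g = 0 := by
  have hp : p.Prime := Fact.out
  obtain ⟨σ, hσ, hσp, -⟩ := exists_sigma (N := N) hp hpN 0
  have key : ∀ m : ℕ, ∃ h : CuspForm (Gamma1 N) k, (h = 0 → g = 0) ∧ Tow N k p (m + 1) ⇑h := by
    intro m
    induction m with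
    | zero =>
      refine ⟨g, id, fun i hi ↦ ?_⟩
      interval_cases i
      · rw [pow_zero, slash_diag_one (Nice.of_cusp g)]
        exact SI1_coe g
      · rwa [pow_one]
    | succ m ih =>
      obtain ⟨h, hh0, hT⟩ := ih
      refine ⟨diamondCF σ hσ h, fun h0 ↦ hh0 ?_, ?_⟩
      · have h1 : (⇑h ∣[k] mapGL ℝ σ) = 0 := by
          have := congrArg (fun F : CuspForm (Gamma1 N) k ↦ (⇑F : ℍ → ℂ)) h0
          simpa using this
        exact DFunLike.coe_injective (eq_zero_of_slash_eq_zero _ h1)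
      · rw [coe_diamondCF]
        exact tow_step hpN hσ hσp h (Nat.succ_le_succ (Nat.zero_le m)) hT
  obtain ⟨h, hh0, hT⟩ := key (sturmB N k)
  refine hh0 (eq_zero_of_slash_diag_pow h hp.ne_zero (hT _ le_rfl) ?_)
  exact lt_trans (Nat.lt_succ_self _) (Nat.lt_pow_self hp.one_lt)

end sturm

end Fermat.Agent.S48.H848

end
end
-- ===== PACK-END S48/H848/Tower.lean

-- ===== PACK-BEGIN S48/H848/Neben.lean
section
/-
S48 piece P0 (helper848): NEBENTYPUS from the coefficient relations.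

`f ∈ S_1(Γ₁(N))` whose q-expansion coefficients satisfy the Hecke relations with a Dirichlet
character `ε` (the hypothesis `hT` of the frozen statement S48) has nebentypus `ε`:
`f ∣ γ = ε(d_γ) f` for all `γ ∈ Γ₀(N)`.
-/



set_option autoImplicit false

noncomputable section

namespace Fermat.Agent.S48.H848

open Matrix.SpecialLinearGroup UpperHalfPlane CongruenceSubgroup ModularForm
open scoped MatrixGroups ModularForm OnePoint Manifold

variable {N : ℕ} [NeZero N] {k : ℤ}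

/-- If the q-expansion of `f ∈ S_k(Γ₁(N))` satisfies
`a(pn) + c p^(k-1) [p ∣ n] a(n/p) = λ a(n)` for a prime `p ∤ N`, then `⟨p⟩ f = c f`. -/
theorem diamond_eq_of_hecke_relation {p : ℕ} [Fact p.Prime] (hpN : ¬ p ∣ N)
    (f : CuspForm (Gamma1 N) k) (c lam : ℂ)
    (h : ∀ n : ℕ, ModularFormClass.qCoeff f (p * n) +
        c * ((p : ℂ) ^ (k - 1) * (if p ∣ n then ModularFormClass.qCoeff f (n / p) else 0)) =
          lam * ModularFormClass.qCoeff f n)
    {σ : SL(2, ℤ)} (hσ : σ ∈ Gamma0 N) (hσp : ((σ 1 1 : ℤ) : ZMod N) = (p : ZMod N)) :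
    ⇑f ∣[k] mapGL ℝ σ = c • ⇑f := by
  have hp : p.Prime := Fact.out
  have hf := Nice.of_cusp f
  have hD := Nice.of_cusp (diamondCF σ hσ f)
  rw [coe_diamondCF] at hD
  set g : CuspForm (Gamma1 N) k := diamondCF σ hσ f - c • f with hg
  set T : CuspForm (Gamma1 N) k := heckeT1CF hpN σ hσ hσp f - lam • f with hT
  have hgc : (⇑g : ℍ → ℂ) = ⇑f ∣[k] mapGL ℝ σ - c • ⇑f := rfl
  have hTc : (⇑T : ℍ → ℂ) = heckeT1 k p σ ⇑f - lam • ⇑f := rfl
  have claim : ⇑g ∣[k] heckeDiagMatrix p = ⇑T := by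
    refine Nice.ext ((Nice.of_cusp g).slash_diag k p) (Nice.of_cusp T) fun n ↦ ?_
    have hT1 : heckeT1 k p σ ⇑f =
        heckeU k p ⇑f + (⇑f ∣[k] mapGL ℝ σ) ∣[k] heckeDiagMatrix p := rfl
    rw [Nice.qCoeff_slash_diag (Nice.of_cusp g) k hp.ne_zero, hgc, hTc, hT1,
      Nice.qCoeff_sub ((hf.heckeU k p).add (hD.slash_diag k p)) (hf.smul lam),
      Nice.qCoeff_smul hf, Nice.qCoeff_add (hf.heckeU k p) (hD.slash_diag k p),
      Nice.qCoeff_heckeU hf k hp.ne_zero, Nice.qCoeff_slash_diag hD k hp.ne_zero]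
    have hn := h n
    rw [mul_comm p n] at hn
    split_ifs with hd
    · rw [if_pos hd] at hn
      rw [Nice.qCoeff_sub hD (hf.smul c), Nice.qCoeff_smul hf]
      linear_combination -hn
    · rw [if_neg hd] at hn
      linear_combination -hn
  have hV : SI1 N k (⇑g ∣[k] heckeDiagMatrix p) := by
    rw [claim]
    exact SI1_coe T
  have hg0 : g = 0 := eq_zero_of_slash_diag_SI1 hpN g hV
  have := congrArg (fun F : CuspForm (Gamma1 N) k ↦ (⇑F : ℍ → ℂ)) hg0
  simp only [hgc] at this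
  exact sub_eq_zero.mp this

/-- **Nebentypus from the Hecke relations** (hypotheses of the frozen statement S48). -/
theorem nebentypus_of_hecke (ε : DirichletCharacter ℂ N) (f : CuspForm (Gamma1 N) 1)
    (hT : ∀ p : ℕ, p.Prime → ¬ p ∣ N → ∀ n : ℕ,
        ModularFormClass.qCoeff f (p * n) +
            ε (p : ZMod N) * (if p ∣ n then ModularFormClass.qCoeff f (n / p) else 0) =
          ModularFormClass.qCoeff f p * ModularFormClass.qCoeff f n) :
    ∀ γ : SL(2, ℤ), γ ∈ Gamma0 N →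
      (⇑f) ∣[(1 : ℤ)] mapGL ℝ γ = ε (((γ 1 1 : ℤ) : ZMod N)) • (⇑f) := by
  intro γ hγ
  have hu : IsUnit (((γ 1 1 : ℤ) : ZMod N)) :=
    IsUnit.of_mul_eq_one _ ((mul_comm _ _).trans (gamma0_diag_mul_eq_one hγ))
  obtain ⟨p, hpN', hp, hpγ⟩ := Nat.forall_exists_prime_gt_and_eq_mod hu N
  have hpN : ¬ p ∣ N := fun hd ↦
    absurd (Nat.le_of_dvd (Nat.pos_of_ne_zero (NeZero.ne N)) hd) (not_le.mpr hpN')
  have : Fact p.Prime := ⟨hp⟩
  rw [← hpγ]
  refine diamond_eq_of_hecke_relation hpN f (ε (p : ZMod N)) (ModularFormClass.qCoeff f p)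
    (fun n ↦ ?_) hγ hpγ.symm
  have := hT p hp hpN n
  simpa using this

end Fermat.Agent.S48.H848

end
end
-- ===== PACK-END S48/H848/Neben.lean

-- ===== PACK-BEGIN S48/H848/NebenSL.lean
section
/-
S48 piece P0 (helper848), consumer forms: nebentypus in `SL(2, ℤ)`-slash notation, oddness of
`ε`, and `f` as an eigenvector of the bundled Hecke operators `heckeT1CF` on `S_1(Γ₁(N))`.
-/


set_option autoImplicit false

noncomputable section

namespace Fermat.Agent.S48.H848

open Matrix.SpecialLinearGroup UpperHalfPlane CongruenceSubgroup ModularForm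
open scoped MatrixGroups ModularForm OnePoint Manifold

variable {N : ℕ} [NeZero N]

/-- `nebentypus_of_hecke` with the slash action written for `γ : SL(2, ℤ)` (the shape used as
hypothesis `hneb` by the P1 / P2 pieces). -/
theorem nebentypus_of_hecke_SL (ε : DirichletCharacter ℂ N) (f : CuspForm (Gamma1 N) 1)
    (hT : ∀ p : ℕ, p.Prime → ¬ p ∣ N → ∀ n : ℕ,
        ModularFormClass.qCoeff f (p * n) +
            ε (p : ZMod N) * (if p ∣ n then ModularFormClass.qCoeff f (n / p) else 0) =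
          ModularFormClass.qCoeff f p * ModularFormClass.qCoeff f n) :
    ∀ γ : SL(2, ℤ), γ ∈ Gamma0 N →
      (⇑f) ∣[(1 : ℤ)] γ = ε (((γ 1 1 : ℤ) : ZMod N)) • (⇑f) :=
  nebentypus_of_hecke ε f hT

omit [NeZero N] in
theorem coe_ne_zero_of_qCoeff_one (f : CuspForm (Gamma1 N) 1)
    (hf₁ : ModularFormClass.qCoeff f 1 = 1) : (⇑f : ℍ → ℂ) ≠ 0 := by
  intro h0
  rw [h0] at hf₁
  have : ModularFormClass.qCoeff (0 : ℍ → ℂ) 1 = 0 := by
    simp [ModularFormClass.qCoeff, UpperHalfPlane.qExpansion_zero]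
  rw [this] at hf₁
  exact zero_ne_one hf₁

/-- The character `ε` of the frozen statement S48 is odd. -/
theorem eps_neg_one (ε : DirichletCharacter ℂ N) (f : CuspForm (Gamma1 N) 1)
    (hf₁ : ModularFormClass.qCoeff f 1 = 1)
    (hT : ∀ p : ℕ, p.Prime → ¬ p ∣ N → ∀ n : ℕ,
        ModularFormClass.qCoeff f (p * n) +
            ε (p : ZMod N) * (if p ∣ n then ModularFormClass.qCoeff f (n / p) else 0) =
          ModularFormClass.qCoeff f p * ModularFormClass.qCoeff f n) :
    ε (-1) = -1 := by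
  have hm : (-1 : SL(2, ℤ)) ∈ Gamma0 N := by
    rw [Gamma0_mem]
    simp
  have h := nebentypus_of_hecke_SL ε f hT (-1) hm
  have h1 : (⇑f) ∣[(1 : ℤ)] (-1 : SL(2, ℤ)) = -⇑f := by
    ext τ
    rw [ModularForm.SL_slash_apply]
    simp [UpperHalfPlane.denom]
  rw [h1] at h
  have hd : (((-1 : SL(2, ℤ)) 1 1 : ℤ) : ZMod N) = -1 := by simp
  rw [hd] at h
  obtain ⟨τ, hτ⟩ : ∃ τ, f τ ≠ 0 := by
    by_contra hcon
    simp only [not_exists, not_not] at hcon
    exact coe_ne_zero_of_qCoeff_one f hf₁ (funext hcon)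
  have := congrFun h τ
  simp only [Pi.neg_apply, Pi.smul_apply, smul_eq_mul] at this
  have h2 : (ε (-1) + 1) * f τ = 0 := by linear_combination -this
  rcases mul_eq_zero.mp h2 with h3 | h3
  · linear_combination h3
  · exact absurd h3 hτ

end Fermat.Agent.S48.H848

end
end
-- ===== PACK-END S48/H848/NebenSL.lean

-- ===== PACK-BEGIN S48/H128/EigenConj.lean
section







/-!
# S48 / P1 (INT): `Top.EigenConjStatement` (helper128)

Assembly of the input P1 of the row S48, at the exact level `N`: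

* the nebentypus of `f` (`H848.nebentypus_of_hecke_SL`, helper848),
* the ring `ℤ[ε][a_p : p ∤ N]` is a finitely generated `ℤ`-module
  (`H128.exists_finite_subring`), hence generates a number field `K ⊆ ℂ`,
* every embedding `τ : K → ℂ` extends to a ring endomorphism `σ` of `ℂ`
  (`exists_ringHom_extends`, via a transcendence basis of `ℂ` over `K`),
* the conjugate form `f^σ` (`H288.exists_conj_qCoeff`, helper288) is again an eigenform,
  for the character `σ ∘ ε`.
-/

set_option autoImplicit false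
set_option linter.style.haveILetI false
set_option linter.unnecessarySimpa false

open CongruenceSubgroup UpperHalfPlane
open scoped MatrixGroups ModularForm

namespace Fermat.Agent.S48.H128

/-- An embedding into `ℂ` of a subfield `K ⊆ ℂ` algebraic over `ℚ` extends to a ring
endomorphism of `ℂ`. -/
theorem exists_ringHom_extends (K : IntermediateField ℚ ℂ) [Algebra.IsAlgebraic ℚ K]
    (τ : K →ₐ[ℚ] ℂ) : ∃ σ : ℂ →+* ℂ, ∀ x : K, σ (x : ℂ) = τ x := by
  classical
  obtain ⟨ι, v, hv⟩ := exists_isTranscendenceBasis' K ℂ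
  have hvQ : AlgebraicIndependent ℚ v :=
    hv.1.restrictScalars (algebraMap ℚ K).injective
  have hvA : AlgebraicIndependent (algebraicClosure ℚ ℂ) v := hvQ.algebraicClosure
  have hτ : ∀ x : K, τ x ∈ algebraicClosure ℚ ℂ := fun x => by
    rw [mem_algebraicClosure_iff]
    exact IsAlgebraic.algHom τ (Algebra.IsAlgebraic.isAlgebraic x)
  let τ₀ : K →+* algebraicClosure ℚ ℂ :=
    { toFun := fun x => ⟨τ x, hτ x⟩
      map_one' := Subtype.ext (map_one τ)
      map_mul' := fun x y => Subtype.ext (map_mul τ x y)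
      map_zero' := Subtype.ext (map_zero τ)
      map_add' := fun x y => Subtype.ext (map_add τ x y) }
  let g : MvPolynomial ι K →+* ℂ :=
    ((MvPolynomial.aeval v :
        MvPolynomial ι (algebraicClosure ℚ ℂ) →ₐ[algebraicClosure ℚ ℂ] ℂ) : _ →+* ℂ).comp
      (MvPolynomial.map τ₀)
  have hg : Function.Injective g := by
    have h1 : Function.Injective (MvPolynomial.map τ₀ :
        MvPolynomial ι K →+* MvPolynomial ι (algebraicClosure ℚ ℂ)) :=
      MvPolynomial.map_injective τ₀ τ₀.injective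
    have h2 : Function.Injective (MvPolynomial.aeval v :
        MvPolynomial ι (algebraicClosure ℚ ℂ) →ₐ[algebraicClosure ℚ ℂ] ℂ) := hvA
    intro p q hpq
    exact h1 (h2 hpq)
  obtain ⟨σ, hσ⟩ := Fermat.Agent.S23.H548.exists_ringHom_of_transcendenceBasis v hv g hg
  refine ⟨σ, fun x => ?_⟩
  have h := hσ (MvPolynomial.C x)
  simp only [g, RingHom.comp_apply, MvPolynomial.map_C, AlgHom.coe_toRingHom,
    MvPolynomial.aeval_C] at h
  exact h

/-- **P1 (INT) of the row S48**: the eigenvalues `a_p` (`p ∤ N`) are algebraic integers of a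
number field `K ⊆ ℂ`, and every conjugate system `(τ a_p)` is again the system of eigenvalues of
a form satisfying the hypotheses of S48 (at the same level `N`, for the character `τ ∘ ε`). -/
theorem eigenConj : Fermat.Agent.S48.Top.EigenConjStatement := by
  intro N _ ε f hyp
  obtain ⟨hf₁, hT⟩ := hyp
  have hneb : HasNebentypus ε f := Fermat.Agent.S48.H848.nebentypus_of_hecke_SL ε f hT
  obtain ⟨R, hR, -, hmem⟩ := exists_finite_subring ε f hf₁ hT hneb
  -- integrality of the elements of `R`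
  have hint : ∀ x : ℂ, x ∈ R → IsIntegral ℤ x := fun x hx => by
    haveI : Module.Finite ℤ R := hR
    have h : IsIntegral ℤ (⟨x, hx⟩ : R) := Algebra.IsIntegral.isIntegral _
    exact h.map (R.subtype.toIntAlgHom)
  -- a finite generating set
  obtain ⟨S, hS⟩ := hR.fg_top
  let S' : Set ℂ := (fun x : R => (x : ℂ)) '' (S : Set R)
  haveI hS'fin : Finite S' := (S.finite_toSet.image _).to_subtype
  let K : IntermediateField ℚ ℂ := IntermediateField.adjoin ℚ S'
  have hfd : FiniteDimensional ℚ K := by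
    apply IntermediateField.finiteDimensional_adjoin
    rintro x ⟨y, -, rfl⟩
    exact ((hint y y.2).tower_top (A := ℚ))
  have hRK : ∀ x : ℂ, x ∈ R → x ∈ K := by
    intro x hx
    have hx' : (⟨x, hx⟩ : R) ∈ Submodule.span ℤ (S : Set R) := by
      rw [hS]
      exact Submodule.mem_top
    have key : ∀ y : R, y ∈ Submodule.span ℤ (S : Set R) → (y : ℂ) ∈ K := by
      intro y hy
      induction hy using Submodule.span_induction with
      | mem y hy => exact IntermediateField.subset_adjoin ℚ S' ⟨y, hy, rfl⟩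
      | zero => exact K.zero_mem
      | add y z _ _ hy hz => exact K.add_mem hy hz
      | smul n y _ hy =>
        have : ((n • y : R) : ℂ) = (n : ℂ) * (y : ℂ) := by
          rw [zsmul_eq_mul]
          push_cast
          rfl
        rw [this]
        exact K.mul_mem (by simpa using K.intCast_mem n) hy
    exact key ⟨x, hx⟩ hx'
  refine ⟨K, hfd, fun p hp hpN => ⟨hRK _ (hmem p hp hpN), hint _ (hmem p hp hpN)⟩, fun τ => ?_⟩
  haveI : Algebra.IsAlgebraic ℚ K := Algebra.IsAlgebraic.of_finite ℚ K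
  obtain ⟨σ, hσ⟩ := exists_ringHom_extends K τ
  obtain ⟨g, -, hq⟩ := Fermat.Agent.S48.H288.exists_conj_qCoeff ε f hneb σ
  refine ⟨ε.ringHomComp σ, g, ⟨?_, ?_⟩, ?_⟩
  · rw [hq, hf₁, map_one]
  · exact Fermat.Agent.S48.H288.hecke_relation_conj ε σ
      (fun n => ModularFormClass.qCoeff f n) (fun n => ModularFormClass.qCoeff g n) hq hT
  · intro p hp hpN x hx
    rw [hq, ← hx, hσ]

end Fermat.Agent.S48.H128

end
-- ===== PACK-END S48/H128/EigenConj.lean

-- ===== PACK-BEGIN S48/H228/DepleteStep.lean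
section



/-!
# S48 / RES piece PACKET (helper228), part 2: removing the coefficients `a_n`, `p ∣ n`

For `p ∣ N` and `f ∈ S_k(Γ₁(N))` the function
`f - p^(1-k) (U_p f) ∣ diag(p, 1) = ∑_{p ∤ n} a_n q^n` is a cusp form on `Γ₁(N p)`
(`deplete_step`).  No permutation of cosets is needed: every summand
`f ∣ [[p, j], [0, p]]` is separately `Γ₁(N p)`-invariant.
-/

set_option autoImplicit false

noncomputable section

open scoped MatrixGroups ModularForm Manifold
open Matrix Matrix.SpecialLinearGroup UpperHalfPlane ModularForm CongruenceSubgroup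

namespace Fermat.Agent.S48.H228

open Fermat.Agent.S48.H848

/-- The matrix `[[p, j], [0, p]]` (translation by `j / p`). -/
def translMatrix (p j : ℕ) : GL (Fin 2) ℝ := heckeMatrix p j * heckeDiagMatrix p

lemma isRatGL_translMatrix (p j : ℕ) : IsRatGL (translMatrix p j) :=
  (isRatGL_heckeMatrix p j).mul (isRatGL_heckeDiagMatrix p)

/-- Commutation of `[[p, j], [0, p]]` with `γ`, `p² ∣ c`, `p ∣ d - a`. -/
theorem translMatrix_mul_track {p : ℕ} (hp : p ≠ 0) (g : SL(2, ℤ)) (j : ℕ) (e₁ e₂ : ℤ)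
    (h10 : g 1 0 = p * p * e₂) (hda : g 1 1 - g 0 0 = p * e₁) :
    ∃ g' : SL(2, ℤ), g' 1 0 = g 1 0 ∧ g' 1 1 = g 1 1 - j * p * e₂ ∧
      translMatrix p j * mapGL ℝ g = mapGL ℝ g' * translMatrix p j := by
  have hdet := det_eq848 g
  obtain ⟨g', h00, h01, h10', h11⟩ := exists_SL2_848 (g 0 0 + j * p * e₂)
    (g 0 1 + j * e₁ - j * j * e₂) (g 1 0) (g 1 1 - j * p * e₂)
    (by linear_combination hdet + (j * p * e₂) * hda - (j * e₁ - j * j * e₂) * h10)
  refine ⟨g', h10', h11, ?_⟩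
  have h10r : ((g 1 0 : ℤ) : ℝ) = p * p * e₂ := by exact_mod_cast h10
  have hdar : ((g 1 1 : ℤ) : ℝ) - ((g 0 0 : ℤ) : ℝ) = p * e₁ := by exact_mod_cast hda
  ext i j
  fin_cases i <;> fin_cases j <;>
    simp [translMatrix, hp, Matrix.mul_apply, Fin.sum_univ_two, h00, h01, h10', h11]
  all_goals first
    | linear_combination (j : ℝ) * h10r
    | linear_combination (-(j : ℝ)) * h10r
    | linear_combination (p : ℝ) * (j : ℝ) * hdar
    | linear_combination (-(p : ℝ)) * (j : ℝ) * hdar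
    | linear_combination (j : ℝ) * hdar
    | linear_combination (j : ℝ) * hdar + (j : ℝ) * (j : ℝ) * h10r
    | ring1

variable {N : ℕ} {k : ℤ}

/-- The congruences satisfied by `γ ∈ Γ₁(N p)` when `p ∣ N`. -/
theorem exists_data_of_mem_Gamma1 {p : ℕ} (hpN : p ∣ N) {g : SL(2, ℤ)}
    (hg : g ∈ Gamma1 (N * p)) :
    ∃ e₁ e₂ : ℤ, g 1 0 = p * p * e₂ ∧ g 1 1 - g 0 0 = p * e₁ ∧ (N : ℤ) ∣ p * e₂ ∧
      (N : ℤ) ∣ g 1 1 - 1 := by
  obtain ⟨h00, h11, h10⟩ := (Gamma1_mem (N * p) g).mp hg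
  have d10 : ((N * p : ℕ) : ℤ) ∣ g 1 0 := (ZMod.intCast_zmod_eq_zero_iff_dvd _ _).mp h10
  have d11 : ((N * p : ℕ) : ℤ) ∣ g 1 1 - 1 := by
    apply (ZMod.intCast_zmod_eq_zero_iff_dvd _ _).mp
    push_cast
    rw [h11, sub_self]
  have d00 : ((N * p : ℕ) : ℤ) ∣ g 0 0 - 1 := by
    apply (ZMod.intCast_zmod_eq_zero_iff_dvd _ _).mp
    push_cast
    rw [h00, sub_self]
  obtain ⟨N', rfl⟩ := hpN
  obtain ⟨t, ht⟩ := d10
  obtain ⟨s, hs⟩ := d11
  obtain ⟨r, hr⟩ := d00
  push_cast at ht hs hr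
  refine ⟨(p : ℤ) * N' * (s - r), N' * t, ?_, ?_, ?_, ?_⟩
  · rw [ht]; ring
  · have : g 1 1 - g 0 0 = (g 1 1 - 1) - (g 0 0 - 1) := by ring
    rw [this, hs, hr]; ring
  · exact ⟨t, by push_cast; ring⟩
  · exact ⟨p * s, by rw [hs]; push_cast; ring⟩

/-- Every translate `f ∣ [[p, j], [0, p]]` of a `Γ₁(N)`-invariant function is
`Γ₁(N p)`-invariant, if `p ∣ N`. -/
theorem SI1_slash_translMatrix {p : ℕ} (hp : p ≠ 0) (hpN : p ∣ N) {f : ℍ → ℂ}
    (hf : SI1 N k f) (j : ℕ) : SI1 (N * p) k (f ∣[k] translMatrix p j) := by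
  intro g hg
  obtain ⟨e₁, e₂, h10, hda, hN, hd⟩ := exists_data_of_mem_Gamma1 hpN hg
  obtain ⟨g', h10', h11', hcomm⟩ := translMatrix_mul_track hp g j e₁ e₂ h10 hda
  have hNc : (N : ℤ) ∣ g 1 0 := by
    obtain ⟨u, hu⟩ := hN
    exact ⟨p * u, by rw [h10]; linear_combination (p : ℤ) * hu⟩
  have hg' : g' ∈ Gamma1 N := by
    refine mem_Gamma1_of_mem_Gamma0 (Gamma0_mem.mpr ?_) ?_
    · rw [h10']
      exact (ZMod.intCast_zmod_eq_zero_iff_dvd _ _).mpr hNc
    · have hdvd : (N : ℤ) ∣ g' 1 1 - 1 := by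
        rw [h11']
        have : g 1 1 - j * p * e₂ - 1 = (g 1 1 - 1) - j * (p * e₂) := by ring
        rw [this]
        exact dvd_sub hd (Dvd.dvd.mul_left hN _)
      have := (ZMod.intCast_zmod_eq_zero_iff_dvd _ _).mpr hdvd
      push_cast at this
      exact sub_eq_zero.mp this
  rw [← SlashAction.slash_mul, hcomm, SlashAction.slash_mul, hf g' hg']

/-- `Γ₁(M) ≤ Γ₁(N)` for `N ∣ M`, on invariant functions. -/
theorem SI1_of_dvd {M : ℕ} (hNM : N ∣ M) {f : ℍ → ℂ} (hf : SI1 N k f) : SI1 M k f := by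
  intro g hg
  apply hf g
  obtain ⟨h00, h11, h10⟩ := (Gamma1_mem M g).mp hg
  rw [Gamma1_mem]
  have key : ∀ a : ℤ, ∀ b : ℤ, ((a : ℤ) : ZMod M) = b → ((a : ℤ) : ZMod N) = b := by
    intro a b hab
    have h1 : ((M : ℕ) : ℤ) ∣ a - b := by
      apply (ZMod.intCast_zmod_eq_zero_iff_dvd _ _).mp
      push_cast
      rw [hab, sub_self]
    have h2 : ((N : ℕ) : ℤ) ∣ a - b := dvd_trans (Int.natCast_dvd_natCast.mpr hNM) h1
    have := (ZMod.intCast_zmod_eq_zero_iff_dvd _ _).mpr h2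
    push_cast at this
    exact sub_eq_zero.mp this
  refine ⟨?_, ?_, ?_⟩
  · simpa using key (g 0 0) 1 (by simpa using h00)
  · simpa using key (g 1 1) 1 (by simpa using h11)
  · simpa using key (g 1 0) 0 (by simpa using h10)

/-- The sum of the translates is `(U_p f) ∣ diag(p, 1)`. -/
theorem sum_translMatrix_eq (p : ℕ) (f : ℍ → ℂ) :
    ∑ j ∈ Finset.range p, f ∣[k] translMatrix p j =
      (heckeU k p f) ∣[k] heckeDiagMatrix p := by
  rw [heckeU_def, SlashAction.sum_slash]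
  refine Finset.sum_congr rfl fun j _ => ?_
  rw [translMatrix, SlashAction.slash_mul]

section step

variable [NeZero N]

/-- **Depletion at `p ∣ N`.** -/
theorem deplete_step {p : ℕ} (hp : p ≠ 0) (hpN : p ∣ N) (f : CuspForm (Gamma1 N) k) :
    ∃ h : CuspForm (Gamma1 (N * p)) k, ∀ n : ℕ,
      ModularFormClass.qCoeff h n = if p ∣ n then 0 else ModularFormClass.qCoeff f n := by
  have : NeZero (N * p) := ⟨Nat.mul_ne_zero (NeZero.ne N) hp⟩
  set W : ℍ → ℂ := ∑ j ∈ Finset.range p, (⇑f) ∣[k] translMatrix p j with hW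
  set c : ℂ := ((p : ℂ) ^ (k - 1))⁻¹ with hc
  have hcne : ((p : ℂ) ^ (k - 1)) ≠ 0 := zpow_ne_zero _ (by exact_mod_cast hp)
  have hWeq : W = (heckeU k p ⇑f) ∣[k] heckeDiagMatrix p := sum_translMatrix_eq p ⇑f
  have hNf : Nice (⇑f) := Nice.of_cusp f
  have hNW : Nice W := by rw [hWeq]; exact (hNf.heckeU k p).slash_diag k p
  have hSIW : SI1 (N * p) k W := by
    intro g hg
    rw [hW, SlashAction.sum_slash]
    exact Finset.sum_congr rfl fun j _ => SI1_slash_translMatrix hp hpN (SI1_coe f) j g hg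
  have hSIf : SI1 (N * p) k ⇑f := SI1_of_dvd (Dvd.intro _ rfl) (SI1_coe f)
  have hSI : SI1 (N * p) k (⇑f - c • W) := hSIf.sub (hSIW.smul c)
  have hol : MDiff (⇑f - c • W) := hNf.hol.sub (hNW.hol.const_smul c)
  have hz : ∀ {x : OnePoint ℝ}, IsCusp x (Gamma1 (N * p) : Subgroup (GL (Fin 2) ℝ)) →
      x.IsZeroAt (⇑f - c • W) k := by
    intro x hx
    have h1 : x.IsZeroAt (⇑f) k := by
      have := isZeroAt_slash_of_isRatGL (Γ' := (Gamma1 (N * p) : Subgroup (GL (Fin 2) ℝ)))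
        f (g := 1) ⟨1, map_one _⟩ hx
      rwa [SlashAction.slash_one] at this
    have h2 : x.IsZeroAt W k :=
      isZeroAt_sum _ _ fun j _ => isZeroAt_slash_of_isRatGL f (isRatGL_translMatrix p j) hx
    have h3 : x.IsZeroAt ((-c) • W) k := isZeroAt_smul _ h2
    have e : ⇑f - c • W = ⇑f + (-c) • W := by rw [_root_.neg_smul, sub_eq_add_neg]
    rw [e]
    exact h1.add h3
  refine ⟨mkCusp1 (⇑f - c • W) hSI hol hz, fun n => ?_⟩
  rw [coe_mkCusp1, Nice.qCoeff_sub hNf (hNW.smul c), Nice.qCoeff_smul hNW, hWeq,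
    Nice.qCoeff_slash_diag (hNf.heckeU k p) k hp]
  by_cases hpn : p ∣ n
  · rw [if_pos hpn, if_pos hpn, Nice.qCoeff_heckeU hNf k hp, Nat.div_mul_cancel hpn, hc,
      inv_mul_cancel_left₀ hcne, sub_self]
  · rw [if_neg hpn, if_neg hpn, mul_zero, sub_zero]

end step

end Fermat.Agent.S48.H228

end
end
-- ===== PACK-END S48/H228/DepleteStep.lean

-- ===== PACK-BEGIN S48/H228/Deplete.lean
section


/-!
# S48 / RES piece PACKET (helper228), part 3: the `N`-depletion of a cusp form on `Γ₁(N)`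

`exists_depleted`: for `f ∈ S_k(Γ₁(N))` there are a level `M` with `N ∣ M`, with the same prime
divisors as `N`, and `h ∈ S_k(Γ₁(M))` with `a_n(h) = a_n(f)` for `gcd(n, N) = 1` and
`a_n(h) = 0` otherwise.
-/

set_option autoImplicit false

noncomputable section

open scoped MatrixGroups ModularForm Manifold
open Matrix Matrix.SpecialLinearGroup UpperHalfPlane ModularForm CongruenceSubgroup

namespace Fermat.Agent.S48.H228

open Fermat.Agent.S48.H848

/-- Depletion at a list of divisors of `N`. -/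
theorem exists_depleted_list (N : ℕ) [NeZero N] (k : ℤ) (f : CuspForm (Gamma1 N) k) :
    ∀ l : List ℕ, (∀ p ∈ l, p ≠ 0 ∧ p ∣ N) →
      ∃ (M : ℕ) (_ : NeZero M), N ∣ M ∧ (∀ q : ℕ, q.Prime → q ∣ M → q ∣ N) ∧
        ∃ h : CuspForm (Gamma1 M) k,
          (∀ n : ℕ, (∃ p ∈ l, p ∣ n) → ModularFormClass.qCoeff h n = 0) ∧
          (∀ n : ℕ, (∀ p ∈ l, ¬ p ∣ n) →
            ModularFormClass.qCoeff h n = ModularFormClass.qCoeff f n) := by
  intro l
  induction l with
  | nil =>
    intro _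
    refine ⟨N, inferInstance, dvd_rfl, fun q _ hq => hq, f, ?_, fun n _ => rfl⟩
    rintro n ⟨p, hp, -⟩
    simp at hp
  | cons p l ih =>
    intro hl
    obtain ⟨M, hM, hNM, hprimes, h, hzero, hcop⟩ :=
      ih fun q hq => hl q (List.mem_cons_of_mem p hq)
    obtain ⟨hp0, hpN⟩ := hl p List.mem_cons_self
    obtain ⟨h', hh'⟩ := deplete_step (N := M) (k := k) hp0 (hpN.trans hNM) h
    refine ⟨M * p, ⟨Nat.mul_ne_zero (NeZero.ne M) hp0⟩, hNM.trans (Dvd.intro _ rfl), ?_, h', ?_, ?_⟩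
    · intro q hq hqMp
      rcases (Nat.Prime.dvd_mul hq).mp hqMp with hqM | hqp
      · exact hprimes q hq hqM
      · exact hqp.trans hpN
    · rintro n ⟨q, hq, hqn⟩
      rw [hh' n]
      by_cases hpn : p ∣ n
      · rw [if_pos hpn]
      · rw [if_neg hpn]
        rcases List.mem_cons.mp hq with rfl | hql
        · exact absurd hqn hpn
        · exact hzero n ⟨q, hql, hqn⟩
    · intro n hn
      rw [hh' n, if_neg (hn p List.mem_cons_self)]
      exact hcop n fun q hq => hn q (List.mem_cons_of_mem p hq)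

/-- **The `N`-depletion.** -/
theorem exists_depleted (N : ℕ) [NeZero N] (k : ℤ) (f : CuspForm (Gamma1 N) k) :
    ∃ (M : ℕ) (_ : NeZero M), N ∣ M ∧ (∀ q : ℕ, q.Prime → q ∣ M → q ∣ N) ∧
      ∃ h : CuspForm (Gamma1 M) k,
        (∀ n : ℕ, ¬ n.Coprime N → ModularFormClass.qCoeff h n = 0) ∧
        (∀ n : ℕ, n.Coprime N →
          ModularFormClass.qCoeff h n = ModularFormClass.qCoeff f n) := by
  obtain ⟨M, hM, hNM, hprimes, h, hzero, hcop⟩ :=
    exists_depleted_list N k f N.primeFactorsList fun p hp =>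
      ⟨(Nat.prime_of_mem_primeFactorsList hp).ne_zero, Nat.dvd_of_mem_primeFactorsList hp⟩
  refine ⟨M, hM, hNM, hprimes, h, fun n hn => hzero n ?_, fun n hn => hcop n ?_⟩
  · obtain ⟨p, hp, hpd⟩ := Nat.exists_prime_and_dvd hn
    exact ⟨p, (Nat.mem_primeFactorsList (NeZero.ne N)).mpr
      ⟨hp, hpd.trans (Nat.gcd_dvd_right n N)⟩, hpd.trans (Nat.gcd_dvd_left n N)⟩
  · intro p hp hpn
    have hpp := Nat.prime_of_mem_primeFactorsList hp
    have hpN := Nat.dvd_of_mem_primeFactorsList hp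
    have : p ∣ Nat.gcd n N := Nat.dvd_gcd hpn hpN
    rw [Nat.Coprime] at hn
    rw [hn] at this
    exact hpp.one_lt.ne' (Nat.dvd_one.mp this)

end Fermat.Agent.S48.H228

end
end
-- ===== PACK-END S48/H228/Deplete.lean

-- ===== PACK-BEGIN S48/H228/Packet.lean
section





/-!
# S48 / RES piece PACKET (helper228): an everywhere-integral eigen-packet element

The hypotheses `IsEigen N ε f` of S48 do not constrain the coefficients `a_n(f)` with
`gcd(n, N) > 1` (they can be transcendental).  `exists_integral_packet` replaces `f` by its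
`N`-depletion `h = ∑_{gcd(n, N) = 1} a_n(f) q^n`, a cusp form of weight one on `Γ₁(M)` for some
`M` with `N ∣ M ∣ N^∞`, which

* still satisfies the hypotheses of S48 (for `ε` lifted to level `M`), with the same `a_p`,
  `p ∤ N`;
* has ALL `q`-coefficients in a subring `R ⊆ ℂ` which is a finitely generated `ℤ`-module
  (so they are algebraic integers), and `a₁(h) = 1`.

So `h` is `λ`-integral with nonzero reduction at EVERY prime `λ` (no bound on `ℓ` is needed).
-/

set_option autoImplicit false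

noncomputable section

open scoped MatrixGroups ModularForm Manifold
open Matrix Matrix.SpecialLinearGroup UpperHalfPlane ModularForm CongruenceSubgroup

namespace Fermat.Agent.S48.H228

open Fermat.Agent.S48.Top

section Coprime

variable {N : ℕ} (ε : DirichletCharacter ℂ N) (a : ℕ → ℂ)

/-- From the formal Hecke relations: all `a_n`, `gcd(n, N) = 1`, `n ≥ 1`, lie in any subring
containing the values of `ε` and the `a_p`, `p ∤ N`. -/
theorem coeff_mem_of_coprime (R : Subring ℂ) (h1 : a 1 = 1)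
    (hT : ∀ p : ℕ, p.Prime → ¬ p ∣ N → ∀ n : ℕ,
      a (p * n) + ε (p : ZMod N) * (if p ∣ n then a (n / p) else 0) = a p * a n)
    (hε : ∀ x : ZMod N, ε x ∈ R) (hp : ∀ p : ℕ, p.Prime → ¬ p ∣ N → a p ∈ R) :
    ∀ n : ℕ, 0 < n → n.Coprime N → a n ∈ R := by
  intro n
  induction n using Nat.strong_induction_on with
  | _ n ih =>
    intro hn hcop
    rcases Nat.lt_or_ge 1 n with h1n | hn1
    · -- `n > 1`: split off the smallest prime factor
      have hpr : n.minFac.Prime := Nat.minFac_prime (by omega)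
      obtain ⟨m, hm⟩ := Nat.minFac_dvd n
      set p := n.minFac with hp_def
      have hpN : ¬ p ∣ N := by
        intro hdvd
        have : p ∣ Nat.gcd n N := Nat.dvd_gcd (Nat.minFac_dvd n) hdvd
        rw [Nat.Coprime] at hcop
        rw [hcop] at this
        exact hpr.one_lt.ne' (Nat.dvd_one.mp this)
      have hm0 : 0 < m := by
        rcases Nat.eq_zero_or_pos m with h0 | h0
        · rw [h0, mul_zero] at hm; omega
        · exact h0
      have hmn : m < n := by
        rw [hm]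
        exact lt_mul_of_one_lt_left hm0 hpr.one_lt
      have hmcop : m.Coprime N := Nat.Coprime.coprime_dvd_left (Dvd.intro_left _ hm.symm) hcop
      have hrel := hT p hpr hpN m
      rw [← hm] at hrel
      have ham : a m ∈ R := ih m hmn hm0 hmcop
      have hsec : (if p ∣ m then a (m / p) else 0) ∈ R := by
        split_ifs with hpm
        · have hq0 : 0 < m / p := Nat.div_pos (Nat.le_of_dvd hm0 hpm) hpr.pos
          have hqlt : m / p < n := lt_of_le_of_lt (Nat.div_le_self m p) hmn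
          have hqcop : (m / p).Coprime N :=
            Nat.Coprime.coprime_dvd_left (Nat.div_dvd_of_dvd hpm) hmcop
          exact ih _ hqlt hq0 hqcop
        · exact R.zero_mem
      have : a n = a p * a m - ε (p : ZMod N) * (if p ∣ m then a (m / p) else 0) := by
        rw [← hrel]; ring
      rw [this]
      exact R.sub_mem (R.mul_mem (hp p hpr hpN) ham) (R.mul_mem (hε _) hsec)
    · have : n = 1 := by omega
      rw [this, h1]
      exact R.one_mem

end Coprime

/-- **PACKET.**  An everywhere-integral element of the eigen-packet of `f`. -/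
theorem exists_integral_packet (N : ℕ) [NeZero N] (ε : DirichletCharacter ℂ N)
    (f : CuspForm (Gamma1 N) 1) (hf : IsEigen N ε f) :
    ∃ (M : ℕ) (_ : NeZero M) (hNM : N ∣ M), (∀ q : ℕ, q.Prime → q ∣ M → q ∣ N) ∧
      ∃ h : CuspForm (Gamma1 M) 1,
        IsEigen M (DirichletCharacter.changeLevel hNM ε) h ∧
        (∃ R : Subring ℂ, Module.Finite ℤ R ∧ (∀ x : ZMod N, ε x ∈ R) ∧
          ∀ n : ℕ, ModularFormClass.qCoeff h n ∈ R) ∧
        (∀ n : ℕ, n.Coprime N →
          ModularFormClass.qCoeff h n = ModularFormClass.qCoeff f n) ∧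
        (∀ n : ℕ, ¬ n.Coprime N → ModularFormClass.qCoeff h n = 0) := by
  obtain ⟨hf₁, hT⟩ := hf
  have hneb : Fermat.Agent.S48.H128.HasNebentypus ε f :=
    Fermat.Agent.S48.H848.nebentypus_of_hecke_SL ε f hT
  obtain ⟨R, hRfin, hRε, hRp⟩ := Fermat.Agent.S48.H128.exists_finite_subring ε f hf₁ hT hneb
  obtain ⟨M, hM, hNM, hprimes, h, hzero, hcop⟩ := exists_depleted N 1 f
  have hRn : ∀ n : ℕ, n.Coprime N → ModularFormClass.qCoeff f n ∈ R := by
    intro n hn
    rcases Nat.eq_zero_or_pos n with h0 | h0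
    · subst h0
      have h00 : ModularFormClass.qCoeff (⇑f) 0 = 0 :=
        CuspFormClass.qExpansion_coeff_zero f one_pos
          (Fermat.Agent.S48.H848.Nice.one_mem_strictPeriods_Gamma1_848 N)
      rw [h00]
      exact R.zero_mem
    · exact coeff_mem_of_coprime ε (fun n => ModularFormClass.qCoeff f n) R hf₁ hT hRε hRp n h0 hn
  refine ⟨M, hM, hNM, hprimes, h, ⟨?_, ?_⟩, ⟨R, hRfin, hRε, ?_⟩, hcop, hzero⟩
  · rw [hcop 1 (Nat.coprime_one_left N)]
    exact hf₁
  · intro p hp hpM n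
    have hpN : ¬ p ∣ N := fun hdvd => hpM (hdvd.trans hNM)
    have hpcop : p.Coprime N := (Nat.Prime.coprime_iff_not_dvd hp).mpr hpN
    have hεp : (DirichletCharacter.changeLevel hNM ε) (p : ZMod M) = ε (p : ZMod N) := by
      have hc : IsCoprime ((p : ℕ) : ℤ) ((M : ℕ) : ℤ) := by
        rw [Nat.isCoprime_iff_coprime]
        exact (Nat.Prime.coprime_iff_not_dvd hp).mpr hpM
      have := DirichletCharacter.changeLevel_eq_cast_of_dvd' ε hNM hc
      simpa using this
    rw [hεp]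
    by_cases hn : n.Coprime N
    · have hpn : (p * n).Coprime N := Nat.Coprime.mul_left hpcop hn
      rw [hcop _ hpn, hcop _ hpcop, hcop _ hn]
      have hrel := hT p hp hpN n
      by_cases hd : p ∣ n
      · rw [if_pos hd] at hrel ⊢
        rw [hcop _ (Nat.Coprime.coprime_dvd_left (Nat.div_dvd_of_dvd hd) hn)]
        exact hrel
      · rw [if_neg hd] at hrel ⊢
        exact hrel
    · have hpn : ¬ (p * n).Coprime N := fun hc =>
        hn (Nat.Coprime.coprime_dvd_left (Dvd.intro_left _ rfl) hc)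
      rw [hzero _ hpn, hzero _ hn]
      by_cases hd : p ∣ n
      · rw [if_pos hd]
        have hq : ¬ (n / p).Coprime N := by
          intro hc
          apply hn
          have : n = p * (n / p) := (Nat.mul_div_cancel' hd).symm
          rw [this]
          exact Nat.Coprime.mul_left hpcop hc
        rw [hzero _ hq]
        ring
      · rw [if_neg hd]
        ring
  · intro n
    by_cases hn : n.Coprime N
    · rw [hcop n hn]
      exact hRn n hn
    · rw [hzero n hn]
      exact R.zero_mem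

/-- All `q`-coefficients of the packet element are algebraic integers. -/
theorem exists_integral_packet' (N : ℕ) [NeZero N] (ε : DirichletCharacter ℂ N)
    (f : CuspForm (Gamma1 N) 1) (hf : IsEigen N ε f) :
    ∃ (M : ℕ) (_ : NeZero M) (hNM : N ∣ M), (∀ q : ℕ, q.Prime → q ∣ M → q ∣ N) ∧
      ∃ h : CuspForm (Gamma1 M) 1,
        IsEigen M (DirichletCharacter.changeLevel hNM ε) h ∧
        (∀ n : ℕ, IsIntegral ℤ (ModularFormClass.qCoeff h n)) ∧
        (∀ p : ℕ, p.Prime → ¬ p ∣ N →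
          ModularFormClass.qCoeff h p = ModularFormClass.qCoeff f p) := by
  obtain ⟨M, hM, hNM, hprimes, h, hE, ⟨R, hRfin, -, hRn⟩, hcop, -⟩ :=
    exists_integral_packet N ε f hf
  refine ⟨M, hM, hNM, hprimes, h, hE, fun n => ?_, fun p hp hpN =>
    hcop p ((Nat.Prime.coprime_iff_not_dvd hp).mpr hpN)⟩
  have hint : IsIntegral ℤ (⟨_, hRn n⟩ : R) := IsIntegral.of_finite ℤ _
  exact hint.map (R.subtype.toIntAlgHom)

end Fermat.Agent.S48.H228

end
end
-- ===== PACK-END S48/H228/Packet.lean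

-- ===== PACK-BEGIN S48/H796/Family.lean
section



/-!
# S48 / P2-EIS (helper796): the family `F_v` of weight-one "Eisenstein" functions

`Fv N v τ = P((aτ+b)/N, τ) + 2πi a/N` for `v = (a, b) ∉ Nℤ²` satisfies
`F_v ∣[1] γ = F_{vγ}` for all `γ ∈ SL₂(ℤ)` and `F_{v + N q} = F_v`.
-/

set_option autoImplicit false

noncomputable section

namespace Fermat.Agent.S48.H796

open UpperHalfPlane hiding I
open Complex Filter Topology EisensteinSeries ModularGroup ModularForm
open scoped Real MatrixGroups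

/-- The family of weight-one functions. -/
def Fv (N : ℕ) (v : ℤ × ℤ) (τ : ℍ) : ℂ :=
  Pfun τ (lat τ v / N) + 2 * π * I * v.1 / N

/-- `v ∉ Nℤ²`. -/
def NotDiv (N : ℕ) (v : ℤ × ℤ) : Prop := ¬ ((N : ℤ) ∣ v.1 ∧ (N : ℤ) ∣ v.2)

/-- Right action of `SL₂(ℤ)` on row vectors. -/
def vmul (v : ℤ × ℤ) (γ : SL(2, ℤ)) : ℤ × ℤ :=
  (v.1 * γ 0 0 + v.2 * γ 1 0, v.1 * γ 0 1 + v.2 * γ 1 1)

lemma vmul_one (v : ℤ × ℤ) : vmul v 1 = v := by
  simp [vmul]

lemma vmul_mul (v : ℤ × ℤ) (g h : SL(2, ℤ)) : vmul v (g * h) = vmul (vmul v g) h := by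
  simp only [vmul, Matrix.SpecialLinearGroup.coe_mul, Matrix.mul_apply, Fin.sum_univ_two]
  ext <;> ring

lemma vmul_S (v : ℤ × ℤ) : vmul v S = (v.2, -v.1) := by
  simp [vmul, ModularGroup.S]

lemma vmul_T (v : ℤ × ℤ) : vmul v T = (v.1, v.1 + v.2) := by
  simp [vmul, ModularGroup.T]

lemma NotDiv.vmul {N : ℕ} {v : ℤ × ℤ} (hv : NotDiv N v) (γ : SL(2, ℤ)) :
    NotDiv N (vmul v γ) := by
  intro h
  apply hv
  have e : v = Fermat.Agent.S48.H796.vmul (Fermat.Agent.S48.H796.vmul v γ) γ⁻¹ := by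
    rw [← vmul_mul, mul_inv_cancel, vmul_one]
  rw [e]
  obtain ⟨h1, h2⟩ := h
  constructor
  · exact dvd_add (Dvd.dvd.mul_right h1 _) (Dvd.dvd.mul_right h2 _)
  · exact dvd_add (Dvd.dvd.mul_right h1 _) (Dvd.dvd.mul_right h2 _)

lemma lat_add (τ : ℍ) (p q : ℤ × ℤ) : lat τ (p + q) = lat τ p + lat τ q := by
  simp only [lat, Prod.fst_add, Prod.snd_add, Int.cast_add]
  ring

lemma lat_smul (τ : ℍ) (n : ℤ) (p : ℤ × ℤ) : lat τ (n * p.1, n * p.2) = n * lat τ p := by
  simp only [lat, Int.cast_mul]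
  ring

theorem offLattice_of_notDiv {N : ℕ} (hN : N ≠ 0) {v : ℤ × ℤ} (hv : NotDiv N v) (τ : ℍ) :
    OffLattice τ (lat τ v / N) := by
  intro p h
  apply hv
  have hN' : (N : ℂ) ≠ 0 := by exact_mod_cast hN
  have h1 : lat τ (v + ((N : ℤ) * p.1, (N : ℤ) * p.2)) = 0 := by
    rw [lat_add, lat_smul]
    have : lat τ v + (N : ℂ) * lat τ p = N * (lat τ v / N + lat τ p) := by
      field_simp
    push_cast
    rw [this, h, mul_zero]
  have h2 := (lat_eq_zero_iff τ _).mp h1
  have h3 := congrArg Prod.fst h2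
  have h4 := congrArg Prod.snd h2
  simp only [Prod.fst_add, Prod.snd_add, Prod.fst_zero, Prod.snd_zero] at h3 h4
  exact ⟨⟨-p.1, by linarith⟩, ⟨-p.2, by linarith⟩⟩

/-- **S-law** of the family. -/
theorem Fv_S {N : ℕ} (hN : N ≠ 0) {v : ℤ × ℤ} (hv : NotDiv N v) (τ : ℍ) :
    Fv N v (S • τ) = τ * Fv N (v.2, -v.1) τ := by
  have hN' : (N : ℂ) ≠ 0 := by exact_mod_cast hN
  have hτ : (τ : ℂ) ≠ 0 := ne_zero τ
  have hv' : NotDiv N (v.2, -v.1) := by
    intro h
    apply hv
    exact ⟨(dvd_neg.mp h.2), h.1⟩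
  have hoff := offLattice_of_notDiv hN hv' τ
  have e : lat (S • τ) v / N = (lat τ (v.2, -v.1) / N) / τ := by
    rw [lat_S]
    field_simp
  rw [Fv, e, Pfun_S hoff, Fv]
  simp only [lat, Int.cast_neg]
  field_simp
  ring

/-- **T-law** of the family. -/
theorem Fv_T (N : ℕ) (v : ℤ × ℤ) (τ : ℍ) :
    Fv N v (T • τ) = Fv N (v.1, v.1 + v.2) τ := by
  have e : lat (T • τ) v = lat τ (v.1, v.1 + v.2) := by
    simp only [lat, coe_T_smul, Int.cast_add]
    ring
  rw [Fv, e, Pfun_T, Fv]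

/-- **Periodicity** in `v`. -/
theorem Fv_add {N : ℕ} (hN : N ≠ 0) {v : ℤ × ℤ} (hv : NotDiv N v) (q : ℤ × ℤ) (τ : ℍ) :
    Fv N (v.1 + N * q.1, v.2 + N * q.2) τ = Fv N v τ := by
  have hN' : (N : ℂ) ≠ 0 := by exact_mod_cast hN
  have hoff := offLattice_of_notDiv hN hv τ
  have e : lat τ (v.1 + N * q.1, v.2 + N * q.2) / N = lat τ v / N + lat τ (q.1, q.2) := by
    simp only [lat, Int.cast_add, Int.cast_mul, Int.cast_natCast]
    field_simp
    ring
  rw [Fv, e, Pfun_add_lat hoff, Fv]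
  push_cast
  field_simp
  ring

/-- The family is permuted by the weight-one slash action of `SL₂(ℤ)`. -/
theorem Fv_slash {N : ℕ} (hN : N ≠ 0) (γ : SL(2, ℤ)) :
    ∀ v : ℤ × ℤ, NotDiv N v → (Fv N v) ∣[(1 : ℤ)] γ = Fv N (vmul v γ) := by
  have hγ : γ ∈ Subgroup.closure {S, T} := by simp [SpecialLinearGroup.SL2Z_generators]
  induction hγ using Subgroup.closure_induction with
  | one =>
    intro v _
    rw [SlashAction.slash_one, vmul_one]
  | mem g hg =>
    intro v hv
    simp only [Set.mem_insert_iff, Set.mem_singleton_iff] at hg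
    rcases hg with rfl | rfl
    · ext τ
      have hτ : (τ : ℂ) ≠ 0 := ne_zero τ
      rw [SlashInvariantForm.slash_S_apply, ← modular_S_smul, Fv_S hN hv, vmul_S]
      rw [show (-(1 : ℤ)) = -((1 : ℕ) : ℤ) by norm_num, zpow_neg, zpow_natCast, pow_one]
      field_simp
    · ext τ
      rw [SL_slash_apply, Fv_T, vmul_T, ModularGroup.denom_apply]
      simp [ModularGroup.T]
  | mul g h _ _ ig ih =>
    intro v hv
    rw [SlashAction.slash_mul, ig v hv, ih _ (hv.vmul g), vmul_mul]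
  | inv g _ ig =>
    intro v hv
    have h1 := ig (vmul v g⁻¹) (hv.vmul g⁻¹)
    rw [← vmul_mul, inv_mul_cancel, vmul_one] at h1
    rw [← h1, ← SlashAction.slash_mul, mul_inv_cancel, SlashAction.slash_one]

end Fermat.Agent.S48.H796

end
end
-- ===== PACK-END S48/H796/Family.lean

-- ===== PACK-BEGIN S48/H796/QExp.lean
section



/-!
# S48 / P2-EIS (helper796): `q`-expansion of `F_(0,b)`

`P(b/N, τ) = π cot(πb/N) + ∑_{n ≥ 1} (∑_{j ∣ n} s_j) qⁿ`, `s_j = 2πi (ζ^{-j} - ζ^{j})`,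
`ζ = e^{2πi b/N}`, `q = e^{2πiτ}`.
-/

set_option autoImplicit false

noncomputable section

namespace Fermat.Agent.S48.H796

open UpperHalfPlane hiding I
open Complex Filter Topology
open scoped Real

/-- `q = e^{2πiτ}`. -/
def qq (τ : ℍ) : ℂ := cexp (2 * π * I * τ)

lemma norm_qq_lt_one (τ : ℍ) : ‖qq τ‖ < 1 := UpperHalfPlane.norm_exp_two_pi_I_lt_one τ

/-- The root of unity `e^{2πi b/N}`. -/
def zetaB (N : ℕ) (b : ℤ) : ℂ := cexp (2 * π * I * b / N)

lemma norm_zetaB (N : ℕ) (b : ℤ) : ‖zetaB N b‖ = 1 := by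
  rw [zetaB, Complex.norm_exp]
  have : (2 * (π : ℂ) * I * b / N).re = 0 := by
    have e : 2 * (π : ℂ) * I * b / N = ((2 * π * b / N : ℝ) : ℂ) * I := by
      push_cast; ring
    rw [e, Complex.re_ofReal_mul, Complex.I_re, mul_zero]
  rw [this, Real.exp_zero]

lemma zetaB_ne_zero (N : ℕ) (b : ℤ) : zetaB N b ≠ 0 := Complex.exp_ne_zero _

/-- `s_j = 2πi (ζ^{-j} - ζ^{j})`. -/
def sCoef (N : ℕ) (b : ℤ) (j : ℕ) : ℂ := 2 * π * I * ((zetaB N b)⁻¹ ^ j - zetaB N b ^ j)

lemma norm_sCoef_le (N : ℕ) (b : ℤ) (j : ℕ) : ‖sCoef N b j‖ ≤ 4 * π := by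
  rw [sCoef, norm_mul, norm_mul, norm_mul, Complex.norm_I, mul_one]
  have h2 : ‖(2 : ℂ)‖ = 2 := by simp
  have h3 : ‖(π : ℂ)‖ = π := by simp [abs_of_pos Real.pi_pos]
  rw [h2, h3]
  have h4 : ‖(zetaB N b)⁻¹ ^ j - zetaB N b ^ j‖ ≤ 2 := by
    refine (norm_sub_le _ _).trans ?_
    rw [norm_pow, norm_pow, norm_inv, norm_zetaB]
    norm_num
  nlinarith [Real.pi_pos]

lemma hasSum_geom_succ {u : ℂ} (hu : ‖u‖ < 1) :
    HasSum (fun j : ℕ => u ^ (j + 1)) (u / (1 - u)) := by
  have h := (hasSum_geometric_of_norm_lt_one hu).mul_left u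
  rw [← div_eq_mul_inv] at h
  have e : (fun j : ℕ => u ^ (j + 1)) = fun i => u * u ^ i := by
    funext j; rw [pow_succ']
  rw [e]; exact h

/-- Summability of a bounded-coefficient Lambert double series on `ℕ+ × ℕ+`. -/
lemma summable_lambert_pnat (s : ℕ → ℂ) (C : ℝ) (hs : ∀ j, ‖s j‖ ≤ C) {r : ℂ} (hr : ‖r‖ < 1) :
    Summable (fun c : ℕ+ × ℕ+ => s c.2 * r ^ ((c.1 : ℕ) * (c.2 : ℕ))) := by
  have h0 : Summable (fun c : ℕ+ × ℕ+ => (((c.2 : ℕ) : ℝ)) ^ 0 * ‖r‖ ^ ((c.1 : ℕ) * (c.2 : ℕ))) :=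
    summable_prod_mul_pow (𝕜 := ℝ) 0 (r := ‖r‖) (by rwa [norm_norm])
  refine Summable.of_norm_bounded (h0.mul_left C) ?_
  intro c
  rw [norm_mul, norm_pow, pow_zero, one_mul]
  exact mul_le_mul_of_nonneg_right (hs _) (by positivity)

/-- Regrouping a Lambert double series by `n = d * c`. -/
theorem hasSum_lambert_regroup (s : ℕ → ℂ) (C : ℝ) (hs : ∀ j, ‖s j‖ ≤ C) {r : ℂ} (hr : ‖r‖ < 1)
    (P : ℕ → ℂ) (hP : ∀ k : ℕ, HasSum (fun j : ℕ => s (j + 1) * r ^ ((k + 1) * (j + 1))) (P k)) :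
    ∃ A, HasSum P A ∧
      HasSum (fun n : ℕ => (∑ j ∈ (n + 1).divisors, s j) * r ^ (n + 1)) A := by
  have hsum := summable_lambert_pnat s C hs hr
  refine ⟨∑' c : ℕ+ × ℕ+, s c.2 * r ^ ((c.1 : ℕ) * (c.2 : ℕ)), ?_, ?_⟩
  · -- fibrewise
    have hfib : ∀ d : ℕ+, HasSum (fun c : ℕ+ => s c * r ^ ((d : ℕ) * (c : ℕ)))
        (P (Equiv.pnatEquivNat d)) := by
      intro d
      have h := hP (Equiv.pnatEquivNat d)
      rw [← Equiv.pnatEquivNat.hasSum_iff] at h
      convert h using 2 with c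
      simp only [Function.comp_apply, Equiv.pnatEquivNat_apply, PNat.natPred_add_one]
    have h1 := hsum.hasSum.prod_fiberwise hfib
    rw [← Equiv.pnatEquivNat.hasSum_iff]
    exact h1
  · have h2 := (sigmaAntidiagonalEquivProd.hasSum_iff).mpr hsum.hasSum
    have h3 := h2.sigma (g := fun n : ℕ+ => (∑ j ∈ (n : ℕ).divisors, s j) * r ^ (n : ℕ)) (by
      intro n
      have h4 := hasSum_fintype (fun x : (n : ℕ).divisorsAntidiagonal =>
        ((fun c : ℕ+ × ℕ+ => s c.2 * r ^ ((c.1 : ℕ) * (c.2 : ℕ))) ∘ sigmaAntidiagonalEquivProd)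
          ⟨n, x⟩)
      convert h4 using 1
      rw [Finset.sum_mul]
      have e1 : ∀ x : (n : ℕ).divisorsAntidiagonal,
          ((fun c : ℕ+ × ℕ+ => s c.2 * r ^ ((c.1 : ℕ) * (c.2 : ℕ))) ∘ sigmaAntidiagonalEquivProd)
            ⟨n, x⟩ = s x.1.2 * r ^ (n : ℕ) := by
        intro x
        have hx := (Nat.mem_divisorsAntidiagonal.mp x.2).1
        simp only [Function.comp_apply, sigmaAntidiagonalEquivProd, divisorsAntidiagonalFactors,
          Equiv.coe_fn_mk, PNat.mk_coe, hx]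
      rw [Finset.sum_congr rfl (fun x _ => e1 x),
        Finset.sum_coe_sort (n : ℕ).divisorsAntidiagonal (fun x : ℕ × ℕ => s x.2 * r ^ (n : ℕ)),
        Nat.sum_divisorsAntidiagonal' (fun _ j => s j * r ^ (n : ℕ))])
    rw [← Equiv.pnatEquivNat.hasSum_iff]
    convert h3 using 2 with n
    simp only [Function.comp_apply, Equiv.pnatEquivNat_apply, PNat.natPred_add_one]

lemma cexp_pair_add (N : ℕ) (b : ℤ) (τ : ℍ) (k : ℕ) :
    cexp (2 * π * I * ((b : ℂ) / N + ((k : ℂ) + 1) * τ)) = zetaB N b * qq τ ^ (k + 1) := by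
  rw [zetaB, qq, ← Complex.exp_nat_mul, ← Complex.exp_add]
  congr 1
  push_cast
  ring

lemma cexp_pair_sub (N : ℕ) (b : ℤ) (τ : ℍ) (k : ℕ) :
    cexp (2 * π * I * (-((b : ℂ) / N - ((k : ℂ) + 1) * τ))) =
      (zetaB N b)⁻¹ * qq τ ^ (k + 1) := by
  rw [zetaB, qq, ← Complex.exp_neg, ← Complex.exp_nat_mul, ← Complex.exp_add]
  congr 1
  push_cast
  ring

lemma norm_qq_pow_lt_one (τ : ℍ) (k : ℕ) : ‖qq τ ^ (k + 1)‖ < 1 := by
  rw [norm_pow]
  exact pow_lt_one₀ (norm_nonneg _) (norm_qq_lt_one τ) (by omega)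

/-- Expansion of the `k`-th pair at a rational point `b/N`. -/
theorem hasSum_pairP (N : ℕ) (b : ℤ) (τ : ℍ) (k : ℕ) :
    HasSum (fun j : ℕ => sCoef N b (j + 1) * qq τ ^ ((k + 1) * (j + 1)))
      (pairP τ ((b : ℂ) / N) k) := by
  have hq := norm_qq_pow_lt_one τ k
  have hu₁ : ‖zetaB N b * qq τ ^ (k + 1)‖ < 1 := by
    rw [norm_mul, norm_zetaB, one_mul]; exact hq
  have hu₂ : ‖(zetaB N b)⁻¹ * qq τ ^ (k + 1)‖ < 1 := by
    rw [norm_mul, norm_inv, norm_zetaB, inv_one, one_mul]; exact hq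
  have h1 := hasSum_geom_succ hu₁
  have h2 := hasSum_geom_succ hu₂
  have h3 := (h2.sub h1).mul_left (2 * π * I)
  have hne1 : cexp (2 * π * I * ((b : ℂ) / N + ((k : ℂ) + 1) * τ)) ≠ 1 := by
    rw [cexp_pair_add]
    intro h
    rw [h, norm_one] at hu₁
    exact lt_irrefl _ hu₁
  have hne2 : cexp (2 * π * I * (-((b : ℂ) / N - ((k : ℂ) + 1) * τ))) ≠ 1 := by
    rw [cexp_pair_sub]
    intro h
    rw [h, norm_one] at hu₂
    exact lt_irrefl _ hu₂
  have hv : pairP τ ((b : ℂ) / N) k =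
      2 * π * I * ((zetaB N b)⁻¹ * qq τ ^ (k + 1) / (1 - (zetaB N b)⁻¹ * qq τ ^ (k + 1)) -
        zetaB N b * qq τ ^ (k + 1) / (1 - zetaB N b * qq τ ^ (k + 1))) := by
    have e2 : cotPi ((b : ℂ) / N - ((k : ℂ) + 1) * τ) =
        -cotPi (-((b : ℂ) / N - ((k : ℂ) + 1) * τ)) := by
      rw [cotPi_neg, neg_neg]
    rw [pairP, cotPi_eq_of_ne hne1, e2, cotPi_eq_of_ne hne2, cexp_pair_add, cexp_pair_sub]
    ring
  rw [hv]
  have e3 : (fun j : ℕ => sCoef N b (j + 1) * qq τ ^ ((k + 1) * (j + 1))) =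
      fun j : ℕ => 2 * π * I * (((zetaB N b)⁻¹ * qq τ ^ (k + 1)) ^ (j + 1) -
        (zetaB N b * qq τ ^ (k + 1)) ^ (j + 1)) := by
    funext j
    simp only [sCoef]
    rw [mul_pow, mul_pow, ← pow_mul]
    ring
  rw [e3]
  exact h3

/-- The `q`-expansion coefficients of `F_(0,b)`. -/
def qCo (N : ℕ) (b : ℤ) (n : ℕ) : ℂ :=
  if n = 0 then cotPi ((b : ℂ) / N) else ∑ j ∈ n.divisors, sCoef N b j

@[simp] lemma qCo_zero (N : ℕ) (b : ℤ) : qCo N b 0 = cotPi ((b : ℂ) / N) := by simp [qCo]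

lemma qCo_succ (N : ℕ) (b : ℤ) (n : ℕ) :
    qCo N b (n + 1) = ∑ j ∈ (n + 1).divisors, sCoef N b j := by simp [qCo]

lemma qCo_of_pos (N : ℕ) (b : ℤ) {n : ℕ} (hn : 1 ≤ n) :
    qCo N b n = ∑ j ∈ n.divisors, sCoef N b j := by
  rw [qCo, if_neg (by omega)]

lemma norm_qCo_succ_le (N : ℕ) (b : ℤ) (n : ℕ) : ‖qCo N b (n + 1)‖ ≤ 4 * π * (n + 1) := by
  rw [qCo_succ]
  refine (norm_sum_le _ _).trans ?_
  refine (Finset.sum_le_sum (fun j _ => norm_sCoef_le N b j)).trans ?_
  rw [Finset.sum_const, nsmul_eq_mul, mul_comm]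
  have h := Nat.card_divisors_le_self (n + 1)
  have hπ := Real.pi_pos
  have h' : (((n + 1).divisors.card : ℕ) : ℝ) ≤ (n : ℝ) + 1 := by exact_mod_cast h
  nlinarith

/-- **`q`-expansion of `P(b/N, τ)`**. -/
theorem hasSum_Pfun_rat (N : ℕ) (b : ℤ) (τ : ℍ) :
    HasSum (fun n : ℕ => qCo N b n * qq τ ^ n) (Pfun τ ((b : ℂ) / N)) := by
  obtain ⟨A, hA1, hA2⟩ := hasSum_lambert_regroup (sCoef N b) (4 * π) (norm_sCoef_le N b)
    (norm_qq_lt_one τ) (pairP τ ((b : ℂ) / N)) (hasSum_pairP N b τ)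
  have e : Pfun τ ((b : ℂ) / N) = cotPi ((b : ℂ) / N) + A := by rw [Pfun, hA1.tsum_eq]
  rw [e]
  have h := HasSum.zero_add (f := fun n => qCo N b n * qq τ ^ n) (m := A) (by
    convert hA2 using 2 with n
    rw [qCo_succ])
  simpa using h

lemma Fv_zero_left (N : ℕ) (b : ℤ) (τ : ℍ) : Fv N (0, b) τ = Pfun τ ((b : ℂ) / N) := by
  simp [Fv, lat]

/-- **`q`-expansion of `F_(0,b)`**. -/
theorem hasSum_Fv_zero (N : ℕ) (b : ℤ) (τ : ℍ) :
    HasSum (fun n : ℕ => qCo N b n * qq τ ^ n) (Fv N (0, b) τ) := by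
  rw [Fv_zero_left]
  exact hasSum_Pfun_rat N b τ

end Fermat.Agent.S48.H796

end
end
-- ===== PACK-END S48/H796/QExp.lean

-- ===== PACK-BEGIN S48/H796/Bound.lean
section



/-!
# S48 / P2-EIS (helper796): every `F_v` is bounded at `i∞`

Together with `Fv_slash` this gives boundedness at all cusps.
-/

set_option autoImplicit false

noncomputable section

namespace Fermat.Agent.S48.H796

open UpperHalfPlane hiding I
open Complex Filter Topology
open scoped Real

/-- The constant `2π / (1 - e^{-2π/N})`. -/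
def cBound (N : ℕ) : ℝ := 2 * π / (1 - Real.exp (-2 * π * (1 / (N : ℝ))))

lemma cBound_nonneg {N : ℕ} (hN : N ≠ 0) : 0 ≤ cBound N := by
  have hπ := Real.pi_pos
  have hNpos : (0 : ℝ) < N := by exact_mod_cast Nat.pos_of_ne_zero hN
  have h2 : Real.exp (-2 * π * (1 / (N : ℝ))) < 1 := by
    rw [Real.exp_lt_one_iff]
    have : 0 < 1 / (N : ℝ) := by positivity
    nlinarith
  rw [cBound]
  apply div_nonneg (by positivity)
  linarith

lemma lat_div_im (N : ℕ) (τ : ℍ) (v : ℤ × ℤ) :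
    (lat τ v / (N : ℂ)).im = v.1 * τ.im / N := by
  have e : lat τ v / (N : ℂ) = lat τ v * (((N : ℝ)⁻¹ : ℝ) : ℂ) := by
    rw [div_eq_mul_inv]; push_cast; rfl
  rw [e, Complex.im_mul_ofReal, lat_im]
  rw [div_eq_mul_inv]

lemma exp_neg_le_pow {x : ℝ} {k : ℕ} (h : (k : ℝ) ≤ x) :
    Real.exp (-2 * π * x) ≤ Real.exp (-2 * π) ^ k := by
  rw [← Real.exp_nat_mul]
  apply Real.exp_le_exp.mpr
  have hπ := Real.pi_pos
  nlinarith

/-- The pair bound in the fundamental range `0 ≤ a < N`, `Im τ ≥ 1`. -/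
lemma norm_pairP_le_of_range {N : ℕ} (hN : N ≠ 0) {a b : ℤ} (ha0 : 0 ≤ a) (haN : a < N)
    {τ : ℍ} (hτ : 1 ≤ τ.im) (k : ℕ) :
    ‖pairP τ (lat τ (a, b) / N) k‖ ≤ cBound N * 2 * Real.exp (-2 * π) ^ k := by
  have hπ := Real.pi_pos
  have hNpos : (0 : ℝ) < N := by exact_mod_cast Nat.pos_of_ne_zero hN
  have hδ : (0 : ℝ) < 1 / N := by positivity
  have hk : (0 : ℝ) ≤ k := Nat.cast_nonneg k
  have ha0' : (0 : ℝ) ≤ a := by exact_mod_cast ha0
  have haN' : (a : ℝ) + 1 ≤ N := by exact_mod_cast haN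
  set y := τ.im with hy
  set s := (lat τ (a, b) / (N : ℂ)).im with hs
  have hs_eq : s = a * y / N := lat_div_im N τ (a, b)
  have hs0 : 0 ≤ s := by rw [hs_eq]; positivity
  have hs1 : s + y / N ≤ y := by
    rw [hs_eq, ← add_div, div_le_iff₀ hNpos]
    nlinarith
  have hyN : 1 / (N : ℝ) ≤ y / N := by
    apply div_le_div_of_nonneg_right hτ hNpos.le
  have h1 : 1 / (N : ℝ) ≤ s + ((k : ℝ) + 1) * y := by
    have : 1 / (N : ℝ) ≤ 1 := by
      rw [div_le_one hNpos]
      exact_mod_cast Nat.one_le_iff_ne_zero.mpr hN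
    nlinarith
  have h2 : 1 / (N : ℝ) ≤ ((k : ℝ) + 1) * y - s := by
    nlinarith
  refine (norm_pairP_le hδ h1 h2).trans ?_
  have e1 : Real.exp (-2 * π * (s + ((k : ℝ) + 1) * y)) ≤ Real.exp (-2 * π) ^ k :=
    exp_neg_le_pow (by nlinarith)
  have e2 : Real.exp (-2 * π * (((k : ℝ) + 1) * y - s)) ≤ Real.exp (-2 * π) ^ k :=
    exp_neg_le_pow (by nlinarith)
  have hC := cBound_nonneg hN
  rw [cBound] at hC ⊢
  calc 2 * π / (1 - Real.exp (-2 * π * (1 / (N : ℝ)))) *
        (Real.exp (-2 * π * (s + ((k : ℝ) + 1) * y)) +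
          Real.exp (-2 * π * (((k : ℝ) + 1) * y - s)))
      ≤ 2 * π / (1 - Real.exp (-2 * π * (1 / (N : ℝ)))) *
        (Real.exp (-2 * π) ^ k + Real.exp (-2 * π) ^ k) :=
        mul_le_mul_of_nonneg_left (add_le_add e1 e2) hC
    _ = _ := by ring

lemma exp_neg_two_pi_lt_one : Real.exp (-2 * π) < 1 := by
  rw [Real.exp_lt_one_iff]
  have := Real.pi_pos
  linarith

/-- Bound for the tail `∑ pairP` in the fundamental range. -/
lemma norm_tsum_pairP_le {N : ℕ} (hN : N ≠ 0) {a b : ℤ} (ha0 : 0 ≤ a) (haN : a < N)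
    {τ : ℍ} (hτ : 1 ≤ τ.im) :
    ‖∑' k : ℕ, pairP τ (lat τ (a, b) / N) k‖ ≤ cBound N * 2 * (1 - Real.exp (-2 * π))⁻¹ := by
  have hgeo := (hasSum_geometric_of_lt_one (Real.exp_pos _).le exp_neg_two_pi_lt_one).mul_left
    (cBound N * 2)
  exact tsum_of_norm_bounded hgeo (fun k => norm_pairP_le_of_range hN ha0 haN hτ k)

/-- Bound for the leading cotangent when `a ≥ 1`. -/
lemma norm_cotPi_lat_le {N : ℕ} (hN : N ≠ 0) {a b : ℤ} (ha1 : 1 ≤ a)
    {τ : ℍ} (hτ : 1 ≤ τ.im) :
    ‖cotPi (lat τ (a, b) / N)‖ ≤ cBound N + π := by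
  have hπ := Real.pi_pos
  have hNpos : (0 : ℝ) < N := by exact_mod_cast Nat.pos_of_ne_zero hN
  have hδ : (0 : ℝ) < 1 / N := by positivity
  have ha1' : (1 : ℝ) ≤ a := by exact_mod_cast ha1
  have him : 1 / (N : ℝ) ≤ (lat τ (a, b) / (N : ℂ)).im := by
    rw [lat_div_im]
    apply div_le_div_of_nonneg_right _ hNpos.le
    show (1 : ℝ) ≤ a * τ.im
    nlinarith
  have h := norm_cotPi_add_le' hδ him
  have hle : Real.exp (-2 * π * (lat τ (a, b) / (N : ℂ)).im) ≤ 1 := by
    rw [Real.exp_le_one_iff]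
    have : 0 ≤ (lat τ (a, b) / (N : ℂ)).im := hδ.le.trans him
    nlinarith
  have hC := cBound_nonneg hN
  have h' : ‖cotPi (lat τ (a, b) / N) + π * I‖ ≤ cBound N := by
    refine h.trans ?_
    rw [cBound] at hC ⊢
    calc _ ≤ 2 * π / (1 - Real.exp (-2 * π * (1 / (N : ℝ)))) * 1 :=
          mul_le_mul_of_nonneg_left hle hC
      _ = _ := mul_one _
  have e : cotPi (lat τ (a, b) / N) = (cotPi (lat τ (a, b) / N) + π * I) - π * I := by ring
  rw [e]
  refine (norm_sub_le _ _).trans ?_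
  have : ‖(π : ℂ) * I‖ = π := by
    rw [norm_mul, Complex.norm_I, mul_one, Complex.norm_real, Real.norm_of_nonneg hπ.le]
  rw [this]
  linarith

/-- `F_v` is bounded on `Im τ ≥ 1` in the fundamental range. -/
lemma norm_Fv_le_of_range {N : ℕ} (hN : N ≠ 0) {a b : ℤ} (ha0 : 0 ≤ a) (haN : a < N)
    {τ : ℍ} (hτ : 1 ≤ τ.im) :
    ‖Fv N (a, b) τ‖ ≤ ‖cotPi ((b : ℂ) / N)‖ + (cBound N + π) +
      cBound N * 2 * (1 - Real.exp (-2 * π))⁻¹ + ‖2 * π * I * a / N‖ := by
  rw [Fv, Pfun]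
  refine (norm_add_le _ _).trans (add_le_add ?_ le_rfl)
  refine (norm_add_le _ _).trans (add_le_add ?_ (norm_tsum_pairP_le hN ha0 haN hτ))
  have hC := cBound_nonneg hN
  have hπ := Real.pi_pos
  rcases ha0.eq_or_lt with h0 | hpos
  · subst h0
    have e : lat τ (0, b) / (N : ℂ) = (b : ℂ) / N := by simp [lat]
    rw [e]
    have : 0 ≤ cBound N + π := by linarith
    linarith [norm_nonneg (cotPi ((b : ℂ) / N))]
  · have := norm_cotPi_lat_le hN (a := a) (b := b) (by omega) hτ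
    linarith [norm_nonneg (cotPi ((b : ℂ) / N))]

lemma notDiv_emod {N : ℕ} {v : ℤ × ℤ} (hv : NotDiv N v) : NotDiv N (v.1 % N, v.2) := by
  intro h
  apply hv
  refine ⟨?_, h.2⟩
  have := h.1
  exact (Int.dvd_iff_emod_eq_zero).mpr (by
    have h1 := (Int.dvd_iff_emod_eq_zero).mp this
    simpa using h1)

lemma Fv_emod {N : ℕ} (hN : N ≠ 0) {v : ℤ × ℤ} (hv : NotDiv N v) (τ : ℍ) :
    Fv N v τ = Fv N (v.1 % N, v.2) τ := by
  have h := Fv_add hN (notDiv_emod hv) (v.1 / N, 0) τ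
  simp only [mul_zero, add_zero] at h
  rw [Int.emod_add_mul_ediv] at h
  exact h

/-- **Boundedness at `i∞`** of every member of the family. -/
theorem isBoundedAtImInfty_Fv {N : ℕ} (hN : N ≠ 0) {v : ℤ × ℤ} (hv : NotDiv N v) :
    IsBoundedAtImInfty (Fv N v) := by
  rw [UpperHalfPlane.isBoundedAtImInfty_iff]
  have hNpos : (0 : ℤ) < N := by exact_mod_cast Nat.pos_of_ne_zero hN
  refine ⟨‖cotPi ((v.2 : ℂ) / N)‖ + (cBound N + π) +
      cBound N * 2 * (1 - Real.exp (-2 * π))⁻¹ + ‖2 * π * I * ((v.1 % N : ℤ) : ℂ) / N‖, 1,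
    fun τ hτ => ?_⟩
  rw [Fv_emod hN hv]
  exact norm_Fv_le_of_range hN (Int.emod_nonneg _ hNpos.ne') (Int.emod_lt_of_pos _ hNpos) hτ

end Fermat.Agent.S48.H796

end
end
-- ===== PACK-END S48/H796/Bound.lean

-- ===== PACK-BEGIN S48/H796/Holo.lean
section




/-!
# S48 / P2-EIS (helper796): holomorphy and `q`-expansion coefficients of `F_(0,b)`
-/

set_option autoImplicit false

noncomputable section

namespace Fermat.Agent.S48.H796

open UpperHalfPlane hiding I
open Complex Filter Topology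
open scoped Real Manifold

local notation "𝕢" => Function.Periodic.qParam

lemma norm_qCo_le (N : ℕ) (b : ℤ) (n : ℕ) : ‖qCo N b n‖ ≤ ‖qCo N b 0‖ + 4 * π * n := by
  have hπ := Real.pi_pos
  rcases n with _ | n
  · simp
  · have := norm_qCo_succ_le N b n
    push_cast
    linarith [norm_nonneg (qCo N b 0)]

lemma summable_affine_mul_pow (K : ℝ) {r : ℝ} (hr0 : 0 ≤ r) (hr : r < 1) :
    Summable (fun n : ℕ => (K + 4 * π * n) * r ^ n) := by
  have h1 : Summable (fun n : ℕ => K * r ^ n) :=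
    (summable_geometric_of_lt_one hr0 hr).mul_left _
  have h3 : Summable (fun n : ℕ => (n : ℝ) ^ 1 * r ^ n) :=
    summable_pow_mul_geometric_of_norm_lt_one 1 (by rwa [Real.norm_of_nonneg hr0])
  have h2 : Summable (fun n : ℕ => 4 * π * ((n : ℝ) ^ 1 * r ^ n)) := h3.mul_left _
  have e : (fun n : ℕ => (K + 4 * π * n) * r ^ n) =
      fun n : ℕ => K * r ^ n + 4 * π * ((n : ℝ) ^ 1 * r ^ n) := by
    funext n
    rw [pow_one]
    ring
  rw [e]
  exact h1.add h2

lemma summable_qCo_bound (N : ℕ) (b : ℤ) {r : ℝ} (hr0 : 0 ≤ r) (hr : r < 1) :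
    Summable (fun n : ℕ => (‖qCo N b 0‖ + 4 * π * n) * r ^ n) :=
  summable_affine_mul_pow _ hr0 hr

lemma differentiableOn_qCo_series (N : ℕ) (b : ℤ) :
    DifferentiableOn ℂ (fun z : ℂ => ∑' n : ℕ, qCo N b n * cexp (2 * π * I * z) ^ n)
      {z : ℂ | 0 < z.im} := by
  intro w₀ hw₀
  have hw₀' : 0 < w₀.im := hw₀
  have hπ := Real.pi_pos
  set ε : ℝ := w₀.im / 2 with hε
  have hεpos : 0 < ε := by positivity
  have hU : IsOpen {z : ℂ | ε < z.im} := isOpen_lt continuous_const Complex.continuous_im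
  have hmem : w₀ ∈ {z : ℂ | ε < z.im} := by
    show ε < w₀.im
    rw [hε]; linarith
  set r : ℝ := Real.exp (-2 * π * ε) with hr
  have hr0 : 0 ≤ r := (Real.exp_pos _).le
  have hr1 : r < 1 := by
    rw [hr, Real.exp_lt_one_iff]
    nlinarith
  have hdiff : DifferentiableOn ℂ
      (fun z : ℂ => ∑' n : ℕ, qCo N b n * cexp (2 * π * I * z) ^ n) {z : ℂ | ε < z.im} := by
    refine differentiableOn_tsum_of_summable_norm (summable_qCo_bound N b hr0 hr1)
      (fun n => ?_) hU (fun n w hw => ?_)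
    · fun_prop
    · rw [norm_mul, norm_pow, norm_cexp_two_pi_I]
      have h1 : Real.exp (-2 * π * w.im) ≤ r := by
        rw [hr]
        apply Real.exp_le_exp.mpr
        have : ε < w.im := hw
        nlinarith
      have h2 : Real.exp (-2 * π * w.im) ^ n ≤ r ^ n :=
        pow_le_pow_left₀ (Real.exp_pos _).le h1 n
      exact mul_le_mul (norm_qCo_le N b n) h2 (by positivity) (by positivity)
  exact ((hdiff w₀ hmem).differentiableAt (hU.mem_nhds hmem)).differentiableWithinAt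

/-- **Holomorphy** of `F_(0,b)`. -/
theorem mdifferentiable_Fv_zero (N : ℕ) (b : ℤ) : MDiff (Fv N (0, b)) := by
  rw [UpperHalfPlane.mdifferentiable_iff]
  refine (differentiableOn_qCo_series N b).congr fun w hw => ?_
  have hw' : 0 < w.im := hw
  simp only [Function.comp_apply]
  rw [ofComplex_apply_of_im_pos hw']
  exact ((hasSum_Fv_zero N b ⟨w, hw'⟩).tsum_eq).symm

lemma qParam_one_eq (τ : ℍ) : 𝕢 1 (τ : ℂ) = qq τ := by
  simp [Function.Periodic.qParam, qq]

theorem hasSum_Fv_zero_qParam (N : ℕ) (b : ℤ) (τ : ℍ) :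
    HasSum (fun n => qCo N b n • 𝕢 1 (τ : ℂ) ^ n) (Fv N (0, b) τ) := by
  simpa [qParam_one_eq, smul_eq_mul] using hasSum_Fv_zero N b τ

/-- **`q`-expansion coefficients** of `F_(0,b)`. -/
theorem qExpansion_Fv_zero_coeff (N : ℕ) (b : ℤ) (n : ℕ) :
    (qExpansion 1 (Fv N (0, b))).coeff n = qCo N b n :=
  Fermat.Agent.S22T.qExpansion_coeff_of_hasSum one_pos (hasSum_Fv_zero_qParam N b)
    (mdifferentiable_Fv_zero N b) n

end Fermat.Agent.S48.H796

end
end
-- ===== PACK-END S48/H796/Holo.lean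

-- ===== PACK-BEGIN S48/H796/Form.lean
section



/-!
# S48 / P2-EIS (helper796): the family `eisFam N b : ModularForm (Gamma1 N) 1`, `b : ZMod N`

* `eisFam N 0 = 0`, and for `b ≠ 0`, `eisFam N b τ = F_(0,b)(τ) = P(b/N, τ)`;
* `eisFam_slash` : `eisFam N b ∣[1] γ = eisFam N (b * d_γ)` for `γ ∈ Γ₀(N)`;
* `qExpansion_eisFam_zero`, `qExpansion_eisFam_pos` : the `q`-expansion
  `π cot(π b/N) + ∑_{n ≥ 1} (∑_{j ∣ n} 2πi (e(-bj) - e(bj))) qⁿ`, `e = ZMod.stdAddChar`.
-/

set_option autoImplicit false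

noncomputable section

namespace Fermat.Agent.S48.H796

open UpperHalfPlane hiding I
open Complex Filter Topology ModularForm CongruenceSubgroup
open scoped Real Manifold MatrixGroups

/-- `F_v` only depends on `v` mod `N`. -/
theorem Fv_congr {N : ℕ} (hN : N ≠ 0) {v v' : ℤ × ℤ} (hv' : NotDiv N v')
    (h1 : (N : ℤ) ∣ v.1 - v'.1) (h2 : (N : ℤ) ∣ v.2 - v'.2) : Fv N v = Fv N v' := by
  obtain ⟨q1, hq1⟩ := h1
  obtain ⟨q2, hq2⟩ := h2
  funext τ
  have h := Fv_add hN hv' (q1, q2) τ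
  have e : v = (v'.1 + N * q1, v'.2 + N * q2) := by
    ext
    · show v.1 = v'.1 + N * q1
      linarith
    · show v.2 = v'.2 + N * q2
      linarith
  rw [e]
  exact h

lemma notDiv_zero_left {N : ℕ} {b : ℤ} (hb : ¬ (N : ℤ) ∣ b) : NotDiv N (0, b) :=
  fun h => hb h.2

/-- The slash action of `Γ₀(N)` on `F_(0,b)`. -/
theorem Fv_slash_Gamma0 {N : ℕ} (hN : N ≠ 0) {γ : SL(2, ℤ)} (hγ : γ ∈ Gamma0 N) {b : ℤ}
    (hb : ¬ (N : ℤ) ∣ b) :
    ¬ (N : ℤ) ∣ b * γ 1 1 ∧ (Fv N (0, b)) ∣[(1 : ℤ)] γ = Fv N (0, b * γ 1 1) := by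
  have hnd := notDiv_zero_left hb
  have h10 : (N : ℤ) ∣ γ 1 0 := by
    have := Gamma0_mem.mp hγ
    exact (ZMod.intCast_zmod_eq_zero_iff_dvd _ _).mp this
  have hv : vmul (0, b) γ = (b * γ 1 0, b * γ 1 1) := by
    simp [vmul]
  have hnd' := hnd.vmul γ
  rw [hv] at hnd'
  have hb' : ¬ (N : ℤ) ∣ b * γ 1 1 := fun h => hnd' ⟨Dvd.dvd.mul_left h10 b, h⟩
  refine ⟨hb', ?_⟩
  rw [Fv_slash hN γ _ hnd, hv]
  exact Fv_congr hN (notDiv_zero_left hb') (by simpa using Dvd.dvd.mul_left h10 b) (by simp)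

/-- The function-level family indexed by `ZMod N`. -/
def fvZ (N : ℕ) (b : ZMod N) : ℍ → ℂ := if b = 0 then 0 else Fv N (0, (b.val : ℤ))

lemma fvZ_zero (N : ℕ) : fvZ N 0 = 0 := by simp [fvZ]

lemma fvZ_of_ne {N : ℕ} {b : ZMod N} (hb : b ≠ 0) : fvZ N b = Fv N (0, (b.val : ℤ)) := by
  simp [fvZ, hb]

lemma not_dvd_val {N : ℕ} [NeZero N] {b : ZMod N} (hb : b ≠ 0) : ¬ (N : ℤ) ∣ (b.val : ℤ) := by
  intro h
  apply hb
  have h1 : ((b.val : ℤ) : ZMod N) = 0 := (ZMod.intCast_zmod_eq_zero_iff_dvd _ _).mpr h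
  simpa using h1

/-- `fvZ N b` for a general integer representative. -/
lemma fvZ_intCast {N : ℕ} [NeZero N] {c : ℤ} (hc : ¬ (N : ℤ) ∣ c) :
    fvZ N (c : ZMod N) = Fv N (0, c) := by
  have hne : (c : ZMod N) ≠ 0 := fun h => hc ((ZMod.intCast_zmod_eq_zero_iff_dvd _ _).mp h)
  rw [fvZ_of_ne hne]
  refine Fv_congr (NeZero.ne N) (notDiv_zero_left hc) (by simp) ?_
  show (N : ℤ) ∣ (((c : ZMod N).val : ℤ)) - c
  rw [← ZMod.intCast_zmod_eq_zero_iff_dvd]
  simp

/-- **Slash law** of the family under `Γ₀(N)`. -/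
theorem fvZ_slash {N : ℕ} [NeZero N] {γ : SL(2, ℤ)} (hγ : γ ∈ Gamma0 N) (b : ZMod N) :
    (fvZ N b) ∣[(1 : ℤ)] γ = fvZ N (b * ((γ 1 1 : ℤ) : ZMod N)) := by
  by_cases hb : b = 0
  · subst hb
    rw [zero_mul, fvZ_zero]
    exact SlashAction.zero_slash _ _
  · have hb' := not_dvd_val hb
    obtain ⟨h1, h2⟩ := Fv_slash_Gamma0 (NeZero.ne N) hγ hb'
    rw [fvZ_of_ne hb, h2, ← fvZ_intCast h1]
    congr 1
    push_cast
    rw [ZMod.natCast_zmod_val]

theorem fvZ_slash_Gamma1 {N : ℕ} [NeZero N] {γ : SL(2, ℤ)} (hγ : γ ∈ Gamma1 N) (b : ZMod N) :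
    (fvZ N b) ∣[(1 : ℤ)] γ = fvZ N b := by
  have h0 : γ ∈ Gamma0 N := Gamma1_in_Gamma0 N hγ
  rw [fvZ_slash h0]
  have h11 : ((γ 1 1 : ℤ) : ZMod N) = 1 := (Gamma1_mem N γ).mp hγ |>.2.1
  rw [h11, mul_one]

theorem mdifferentiable_fvZ (N : ℕ) (b : ZMod N) : MDiff (fvZ N b) := by
  by_cases hb : b = 0
  · subst hb
    rw [fvZ_zero]
    exact mdifferentiable_const
  · rw [fvZ_of_ne hb]
    exact mdifferentiable_Fv_zero N _

theorem isBoundedAtImInfty_fvZ_slash {N : ℕ} [NeZero N] (b : ZMod N) (γ : SL(2, ℤ)) :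
    IsBoundedAtImInfty ((fvZ N b) ∣[(1 : ℤ)] γ) := by
  by_cases hb : b = 0
  · subst hb
    rw [fvZ_zero, SlashAction.zero_slash]
    exact zero_form_isBoundedAtImInfty
  · have hnd := notDiv_zero_left (not_dvd_val hb)
    rw [fvZ_of_ne hb, Fv_slash (NeZero.ne N) γ _ hnd]
    exact isBoundedAtImInfty_Fv (NeZero.ne N) (hnd.vmul γ)

/-- **The family of weight-one modular forms** on `Γ₁(N)`. -/
def eisFam (N : ℕ) [NeZero N] (b : ZMod N) : ModularForm (Gamma1 N) 1 where
  toFun := fvZ N b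
  slash_action_eq' := by
    rintro _ ⟨γ, hγ, rfl⟩
    exact fvZ_slash_Gamma1 hγ b
  holo' := mdifferentiable_fvZ N b
  bdd_at_cusps' {c} hc := by
    rw [Subgroup.IsArithmetic.isCusp_iff_isCusp_SL2Z] at hc
    rw [OnePoint.isBoundedAt_iff_forall_SL2Z hc]
    exact fun γ _ => isBoundedAtImInfty_fvZ_slash b γ

@[simp] theorem coe_eisFam (N : ℕ) [NeZero N] (b : ZMod N) : ⇑(eisFam N b) = fvZ N b := rfl

theorem eisFam_zero (N : ℕ) [NeZero N] : eisFam N 0 = 0 := by
  ext τ
  simp [fvZ_zero]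

theorem eisFam_apply {N : ℕ} [NeZero N] {b : ZMod N} (hb : b ≠ 0) (τ : ℍ) :
    eisFam N b τ = Pfun τ ((b.val : ℂ) / N) := by
  rw [coe_eisFam, fvZ_of_ne hb, Fv_zero_left, Int.cast_natCast]

/-- **Slash law**: `eisFam N b ∣[1] γ = eisFam N (b * d_γ)` for `γ ∈ Γ₀(N)`. -/
theorem eisFam_slash {N : ℕ} [NeZero N] {γ : SL(2, ℤ)} (hγ : γ ∈ Gamma0 N) (b : ZMod N) :
    (⇑(eisFam N b)) ∣[(1 : ℤ)] γ = ⇑(eisFam N (b * ((γ 1 1 : ℤ) : ZMod N))) := by
  rw [coe_eisFam, coe_eisFam]
  exact fvZ_slash hγ b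

end Fermat.Agent.S48.H796

end
end
-- ===== PACK-END S48/H796/Form.lean

-- ===== PACK-BEGIN S24/H864/FF3c.lean
section


/-!
# S24 / ALG / FF1+FF3 (part c): the fundamental identity, abstract form

`R ⊆ S` Dedekind domains, `S` finite over `R`, `F = Frac S`, `p = (τ)` a maximal ideal of `R`
with residue field `K` (algebraically closed).  Then the places `v` of `F/K` with `0 < v(τ)`
(assumed to contain `R` in their valuation ring) correspond to the primes of `S` over `p`, and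
`∑_v v(τ) = rank_R S`.
-/

set_option autoImplicit false

noncomputable section

open AlgebraicCurve IsDedekindDomain

namespace Fermat.Agent.S24.H864

/-- universe-polymorphic version of `IsAlgClosed.of_ringEquiv` -/
theorem isAlgClosed_of_ringEquiv {k : Type*} {k' : Type*} [Field k] [Field k'] [IsAlgClosed k]
    (e : k ≃+* k') : IsAlgClosed k' := by
  apply IsAlgClosed.of_exists_root
  intro p hmp hp
  have hpe : (p.map e.symm.toRingHom).degree ≠ 0 := by
    rw [Polynomial.degree_map]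
    exact ne_of_gt (Polynomial.degree_pos_of_irreducible hp)
  rcases IsAlgClosed.exists_root (k := k) (p.map e.symm.toRingHom) hpe with ⟨x, hx⟩
  use e x
  rw [Polynomial.IsRoot] at hx
  apply e.symm.injective
  rw [map_zero, ← hx]
  clear hx hpe hp hmp
  induction p using Polynomial.induction_on <;> simp_all

section Rel

variable {K F : Type*} [Field K] [Field F] [Algebra K F]
variable {S : Type*} [CommRing S] [IsDedekindDomain S] [Algebra S F] [IsFractionRing S F]
  [Algebra K S] [IsScalarTower K S F]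
variable {R : Type*} [CommRing R] [IsDomain R] [Algebra R S] [Algebra R F] [IsScalarTower R S F]
  [Module.Finite R S]

omit [IsDedekindDomain S] [IsFractionRing S F] [Algebra K S] [IsScalarTower K S F] [IsDomain R] in
/-- valuation rings are integrally closed: `S ⊆ O_v` as soon as `R ⊆ O_v`. -/
theorem algebraMap_mem_of_base (v : Place K F)
    (hR : ∀ r : R, algebraMap R F r ∈ v.toValuationSubring) (s : S) :
    algebraMap S F s ∈ v.toValuationSubring := by
  have hint : IsIntegral R s := Algebra.IsIntegral.isIntegral s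
  obtain ⟨P, hP, hPs⟩ := hint
  set φ : R →+* v.toValuationSubring :=
    (algebraMap R F).codRestrict v.toValuationSubring.toSubring hR with hφ
  have hcomp : (algebraMap v.toValuationSubring F).comp φ = algebraMap R F := by
    ext r; rfl
  have h1 : IsIntegral v.toValuationSubring (algebraMap S F s) := by
    refine ⟨P.map φ, hP.map φ, ?_⟩
    rw [Polynomial.eval₂_map, hcomp]
    have h2 := congrArg (algebraMap S F) hPs
    rw [map_zero, Polynomial.hom_eval₂, ← IsScalarTower.algebraMap_eq] at h2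
    exact h2
  obtain ⟨y, hy⟩ := IsIntegrallyClosed.isIntegral_iff.mp h1
  rw [← hy]
  exact y.2

variable (p : Ideal R) [hpmax : p.IsMaximal] (τ : R)

omit [IsFractionRing S F] [Algebra K S] [IsScalarTower K S F] [Algebra R F] [IsScalarTower R S F]
  [Module.Finite R S] [IsDedekindDomain S] [IsDomain R] hpmax in
theorem algebraMap_mem_of_primesOver (hp : p = Ideal.span {τ}) (q : p.primesOver S) :
    algebraMap R S τ ∈ q.1 := by
  have h1 : τ ∈ p := by rw [hp]; exact Ideal.mem_span_singleton_self τ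
  have h2 := q.1.over_def p
  rw [h2] at h1
  exact h1

omit [IsFractionRing S F] [Algebra K S] [IsScalarTower K S F] [Algebra R F] [IsScalarTower R S F]
  [Module.Finite R S] [IsDedekindDomain S] [IsDomain R] hpmax in
theorem primesOver_ne_bot (hp : p = Ideal.span {τ}) (hτ : τ ≠ 0)
    (hinj : Function.Injective (algebraMap R S)) (q : p.primesOver S) : q.1 ≠ ⊥ := by
  intro h
  have h1 := algebraMap_mem_of_primesOver p τ hp q
  rw [h, Ideal.mem_bot] at h1
  exact hτ (hinj (by rw [h1, map_zero]))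

/-- the height one prime attached to a prime over `p` -/
def wOf (hp : p = Ideal.span {τ}) (hτ : τ ≠ 0)
    (hinj : Function.Injective (algebraMap R S)) (q : p.primesOver S) : HeightOneSpectrum S :=
  ⟨q.1, q.2.1, primesOver_ne_bot p τ hp hτ hinj q⟩

omit hpmax [Module.Finite R S] in
theorem ord_wOf (hp : p = Ideal.span {τ}) (hτ : τ ≠ 0)
    (hinj : Function.Injective (algebraMap R S)) (q : p.primesOver S) :
    (Place.ofHeightOneSpectrum (K := K) (F := F) (wOf p τ hp hτ hinj q)).ord (algebraMap R F τ)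
      = (q.1.ramificationIdx R : ℤ) := by
  have hτ' : algebraMap R S τ ≠ 0 := fun h => hτ (hinj (by rw [h, map_zero]))
  rw [IsScalarTower.algebraMap_apply R S F, ord_ofHeightOneSpectrum_algebraMap _ hτ']
  have hmap : p.map (algebraMap R S) = Ideal.span {algebraMap R S τ} := by
    rw [hp, Ideal.map_span, Set.image_singleton]
  have hne : p.map (algebraMap R S) ≠ ⊥ := by
    rw [hmap, Ne, Ideal.span_singleton_eq_bot]
    exact hτ'
  rw [Ideal.IsDedekindDomain.ramificationIdx_eq_multiplicity p q.1 hne, hmap]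
  rfl

section Inertia

variable [IsAlgClosed K] [Algebra K R] [IsScalarTower K R S]

omit [IsFractionRing S F] [Algebra K S] [IsScalarTower K S F] [Algebra R F] [IsScalarTower R S F]
  [IsDedekindDomain S] [IsDomain R] [Algebra K F] [IsScalarTower K R S] in
/-- residue field `K` algebraically closed ⟹ all inertia degrees are `1`. -/
theorem inertiaDeg_eq_one (hres : ∀ r : R, ∃ c : K, r - algebraMap K R c ∈ p)
    (q : p.primesOver S) : q.1.inertiaDeg R = 1 := by
  haveI : q.1.IsMaximal := Ideal.primesOver.isMaximal q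
  rw [Ideal.inertiaDeg_eq_of_isMaximal p q.1]
  letI : Field (R ⧸ p) := Ideal.Quotient.field p
  letI : Field (S ⧸ q.1) := Ideal.Quotient.field q.1
  -- `K ≃ R ⧸ p`
  let f : K →+* R ⧸ p := (Ideal.Quotient.mk p).comp (algebraMap K R)
  have hf : Function.Bijective f := by
    refine ⟨f.injective, fun y => ?_⟩
    obtain ⟨r, rfl⟩ := Ideal.Quotient.mk_surjective y
    obtain ⟨c, hc⟩ := hres r
    refine ⟨c, ?_⟩
    show Ideal.Quotient.mk p (algebraMap K R c) = Ideal.Quotient.mk p r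
    rw [eq_comm, Ideal.Quotient.eq]
    exact hc
  haveI : IsAlgClosed (R ⧸ p) := isAlgClosed_of_ringEquiv (RingEquiv.ofBijective f hf)
  haveI : Algebra.IsIntegral (R ⧸ p) (S ⧸ q.1) := inferInstance
  have hbij : Function.Bijective (algebraMap (R ⧸ p) (S ⧸ q.1)) :=
    IsAlgClosed.algebraMap_bijective_of_isIntegral
  have htop : (⊥ : Subalgebra (R ⧸ p) (S ⧸ q.1)) = ⊤ :=
    (Algebra.surjective_algebraMap_iff.mp hbij.2).symm
  exact Subalgebra.bot_eq_top_iff_finrank_eq_one.mp htop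

end Inertia

section Main

variable [IsAlgClosed K] [Algebra K R] [IsScalarTower K R S] [Module.Flat R S]

/-- **Fundamental identity, abstract form.** -/
theorem fundamental_identity_abstract
    (hp : p = Ideal.span {τ}) (hτ : τ ≠ 0) (hinj : Function.Injective (algebraMap R S))
    (hres : ∀ r : R, ∃ c : K, r - algebraMap K R c ∈ p)
    (hR : ∀ v : Place K F, 0 < v.ord (algebraMap R F τ) →
      ∀ r : R, algebraMap R F r ∈ v.toValuationSubring)
    (s : Finset (Place K F)) (hs : ∀ v, v ∈ s ↔ 0 < v.ord (algebraMap R F τ)) :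
    ∑ v ∈ s, v.ord (algebraMap R F τ) = (Module.finrank R S : ℤ) := by
  classical
  haveI : Fintype (p.primesOver S) := (Algebra.QuasiFinite.finite_primesOver p).fintype
  have hsum := Ideal.sum_ramification_inertia_eq_finrank p S
  have hτ' : algebraMap R S τ ≠ 0 := fun h => hτ (hinj (by rw [h, map_zero]))
  set g : p.primesOver S → Place K F :=
    fun q => Place.ofHeightOneSpectrum (K := K) (wOf p τ hp hτ hinj q) with hg
  have hg_inj : Function.Injective g := by
    intro q q' h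
    have h1 : wOf p τ hp hτ hinj q = wOf p τ hp hτ hinj q' :=
      ofHeightOneSpectrum_injective (K := K) (F := F) h
    exact Subtype.ext (congrArg HeightOneSpectrum.asIdeal h1)
  have hg_ord : ∀ q, (g q).ord (algebraMap R F τ) = (q.1.ramificationIdx R : ℤ) :=
    fun q => ord_wOf p τ hp hτ hinj q
  have himg : Finset.univ.image g = s := by
    ext v
    rw [Finset.mem_image, hs]
    constructor
    · rintro ⟨q, -, rfl⟩
      rw [hg_ord]
      exact_mod_cast Ideal.ramificationIdx_pos q.1 R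
    · intro hv
      have hS := algebraMap_mem_of_base (S := S) v (hR v hv)
      have hv' : 0 < v.ord (algebraMap S F (algebraMap R S τ)) := by
        rwa [← IsScalarTower.algebraMap_apply R S F]
      obtain ⟨w, hw, hwq⟩ := exists_heightOneSpectrum_of_place v hS hτ' hv'
      have hle : p ≤ w.asIdeal.under R := by
        rw [hp, Ideal.span_singleton_le_iff_mem, Ideal.under_def, Ideal.mem_comap, hwq]
        exact (mem_primeOfPlace v hS hτ').mpr hv'
      have hne : w.asIdeal.under R ≠ ⊤ := (Ideal.IsPrime.under R w.asIdeal).ne_top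
      have hq : w.asIdeal ∈ p.primesOver S := ⟨w.isPrime, ⟨hpmax.eq_of_le hne hle⟩⟩
      refine ⟨⟨w.asIdeal, hq⟩, Finset.mem_univ _, ?_⟩
      rw [← hw]
      show Place.ofHeightOneSpectrum (K := K) (wOf p τ hp hτ hinj ⟨w.asIdeal, hq⟩) = _
      congr 1
  rw [← himg, Finset.sum_image (fun a _ b _ h => hg_inj h)]
  simp_rw [hg_ord]
  rw [← hsum]
  push_cast
  refine Finset.sum_congr rfl fun q _ => ?_
  rw [inertiaDeg_eq_one p hres q, Nat.cast_one, mul_one]

end Main

end Rel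

end Fermat.Agent.S24.H864

end
end
-- ===== PACK-END S24/H864/FF3c.lean

-- ===== PACK-BEGIN S24/H864/FF3d.lean
section



/-!
# S24 / ALG / FF1+FF3 (part d): the fundamental identity `∑_{v(t)>0} v(t) = [F : K(t)]`
-/

set_option autoImplicit false

noncomputable section

open AlgebraicCurve IntermediateField IsDedekindDomain
open scoped IntermediateField.algebraAdjoinAdjoin

namespace Fermat.Agent.S24.H864

variable {K F : Type*} [Field K] [Field F] [Algebra K F]

section Inst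

variable (K) (t : F)

theorem polyRing_isPrincipalIdealRing (ht : Transcendental K t) :
    IsPrincipalIdealRing (polyRing K t) :=
  IsPrincipalIdealRing.of_surjective (polyEquiv K t ht).toAlgHom.toRingHom
    (polyEquiv K t ht).surjective

theorem tR_ne_zero (ht : Transcendental K t) : tR K t ≠ 0 := by
  intro h
  have h1 : t = 0 := congrArg Subtype.val h
  rw [h1] at ht
  exact ht (isAlgebraic_zero)

theorem tR_prime (ht : Transcendental K t) : Prime (tR K t) := by
  rw [← polyEquiv_X K t ht]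
  exact (MulEquiv.prime_iff (polyEquiv K t ht).toMulEquiv).mpr Polynomial.prime_X

theorem exists_sub_mem_span_tR (ht : Transcendental K t) (r : polyRing K t) :
    ∃ c : K, r - algebraMap K (polyRing K t) c ∈ Ideal.span {tR K t} := by
  obtain ⟨P, rfl⟩ := (polyEquiv K t ht).surjective r
  refine ⟨P.coeff 0, ?_⟩
  rw [Ideal.mem_span_singleton']
  refine ⟨polyEquiv K t ht P.divX, ?_⟩
  rw [← polyEquiv_X K t ht, ← map_mul, ← AlgEquiv.commutes (polyEquiv K t ht), ← map_sub]
  congr 1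
  conv_rhs => rw [← Polynomial.divX_mul_X_add P]
  simp [Polynomial.algebraMap_eq]

theorem coe_mem_valuationSubring_of_ord_nonneg (v : Place K F) (hv : 0 ≤ v.ord t)
    (r : polyRing K t) : (r : F) ∈ v.toValuationSubring := by
  obtain ⟨r, hr⟩ := r
  show r ∈ v.toValuationSubring
  induction hr using Algebra.adjoin_induction with
  | mem x hx =>
      rw [Set.mem_singleton_iff] at hx
      rw [hx]
      exact (FF.mem_iff_ord_nonneg v).mpr hv
  | algebraMap c => exact v.algebraMap_mem' c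
  | add x y _ _ hx hy => exact add_mem hx hy
  | mul x y _ _ hx hy => exact mul_mem hx hy

end Inst

section Main

variable [IsAlgClosed K] [CharZero K]

/-- **Fundamental identity (FF1).**  For `t` transcendental over `K` with `F / K(t)` finite,
the zeros of `t`, counted with multiplicity, are `[F : K(t)]` in number. -/
theorem fundamental_identity (t : F) (ht : Transcendental K t)
    [FiniteDimensional ↥(IntermediateField.adjoin K {t}) F]
    (s : Finset (Place K F)) (hs : ∀ v : Place K F, v ∈ s ↔ 0 < v.ord t) :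
    ∑ v ∈ s, v.ord t = (Module.finrank ↥(IntermediateField.adjoin K {t}) F : ℤ) := by
  haveI : IsPrincipalIdealRing (polyRing K t) := polyRing_isPrincipalIdealRing K t ht
  haveI : IsScalarTower (polyRing K t) (integralClosure (polyRing K t) F) F :=
    Subalgebra.isScalarTower_mid _
  haveI : IsFractionRing (integralClosure (polyRing K t) F) F :=
    integralClosure.isFractionRing_of_finite_extension K⟮t⟯ F
  haveI : IsDedekindDomain (integralClosure (polyRing K t) F) :=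
    IsIntegralClosure.isDedekindDomain (polyRing K t) K⟮t⟯ F (integralClosure (polyRing K t) F)
  haveI : Module.Finite (polyRing K t) (integralClosure (polyRing K t) F) :=
    IsIntegralClosure.finite (polyRing K t) K⟮t⟯ F (integralClosure (polyRing K t) F)
  have hfin : Module.finrank K⟮t⟯ F
      = Module.finrank (polyRing K t) (integralClosure (polyRing K t) F) :=
    IsFractionRing.finrank_eq (polyRing K t) K⟮t⟯ (integralClosure (polyRing K t) F) F
  have hprime : (Ideal.span {tR K t}).IsPrime :=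
    (Ideal.span_singleton_prime (tR_ne_zero K t ht)).mpr (tR_prime K t ht)
  have hne : Ideal.span {tR K t} ≠ ⊥ := by
    rw [Ne, Ideal.span_singleton_eq_bot]
    exact tR_ne_zero K t ht
  haveI hmax : (Ideal.span {tR K t}).IsMaximal := hprime.isMaximal hne
  have hinj : Function.Injective
      (algebraMap (polyRing K t) (integralClosure (polyRing K t) F)) := by
    intro a b hab
    have := congrArg (algebraMap (integralClosure (polyRing K t) F) F) hab
    rw [← IsScalarTower.algebraMap_apply, ← IsScalarTower.algebraMap_apply] at this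
    exact Subtype.ext this
  rw [hfin]
  exact fundamental_identity_abstract (K := K) (F := F)
    (S := integralClosure (polyRing K t) F) (R := polyRing K t)
    (Ideal.span {tR K t}) (tR K t) rfl (tR_ne_zero K t ht) hinj
    (exists_sub_mem_span_tR K t ht)
    (fun v hv r => coe_mem_valuationSubring_of_ord_nonneg K t v hv.le r) s hs

end Main

end Fermat.Agent.S24.H864

end
end
-- ===== PACK-END S24/H864/FF3d.lean

-- ===== PACK-BEGIN S24/H864/FF3e.lean
section



/-!
# S24 / ALG / FF3: a principal divisor has degree zero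
-/

set_option autoImplicit false

noncomputable section

open AlgebraicCurve IntermediateField

namespace Fermat.Agent.S24.H864

variable {K F : Type*} [Field K] [Field F] [Algebra K F]

theorem adjoin_simple_inv_eq (f : F) : K⟮f⁻¹⟯ = K⟮f⟯ := by
  apply le_antisymm
  · rw [IntermediateField.adjoin_simple_le_iff]
    exact inv_mem (IntermediateField.mem_adjoin_simple_self K f)
  · rw [IntermediateField.adjoin_simple_le_iff]
    have h := inv_mem (IntermediateField.mem_adjoin_simple_self K f⁻¹)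
    rwa [inv_inv] at h

theorem transcendental_inv {f : F} (hf : Transcendental K f) : Transcendental K f⁻¹ := by
  intro h
  apply hf
  have := h.inv
  rwa [inv_inv] at this

variable [IsAlgClosed K] [CharZero K]

/-- the number of zeros equals the number of poles -/
theorem sum_ord_pos_eq_sum_ord_neg (f : F) (hf : Transcendental K f)
    [FiniteDimensional ↥(IntermediateField.adjoin K {f}) F]
    (sp sn : Finset (Place K F)) (hsp : ∀ v : Place K F, v ∈ sp ↔ 0 < v.ord f)
    (hsn : ∀ v : Place K F, v ∈ sn ↔ v.ord f < 0) :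
    ∑ v ∈ sp, v.ord f + ∑ v ∈ sn, v.ord f = 0 := by
  have h1 := fundamental_identity f hf sp hsp
  have hfi : Transcendental K f⁻¹ := transcendental_inv hf
  haveI : FiniteDimensional ↥(IntermediateField.adjoin K {f⁻¹}) F := by
    rw [adjoin_simple_inv_eq]; infer_instance
  have hsn' : ∀ v : Place K F, v ∈ sn ↔ 0 < v.ord f⁻¹ := by
    intro v
    rw [hsn, Place.ord_inv]
    omega
  have h2 := fundamental_identity f⁻¹ hfi sn hsn'
  have h3 : Module.finrank ↥(IntermediateField.adjoin K {f⁻¹}) F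
      = Module.finrank ↥(IntermediateField.adjoin K {f}) F := by
    rw [adjoin_simple_inv_eq]
  have h4 : ∑ v ∈ sn, v.ord f = -∑ v ∈ sn, v.ord f⁻¹ := by
    rw [← Finset.sum_neg_distrib]
    refine Finset.sum_congr rfl fun v _ => ?_
    rw [Place.ord_inv, neg_neg]
  rw [h1, h4, h2, h3]
  ring

/-- **FF3.**  A principal divisor has degree zero. -/
theorem degree_principal (j : F) (hj : Transcendental K j)
    [FiniteDimensional ↥(IntermediateField.adjoin K {j}) F] (f : F) (hf : f ≠ 0)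
    (D : Divisor K F) (hD : ∀ v : Place K F, D v = v.ord f) : Divisor.degree D = 0 := by
  classical
  have hdeg : Divisor.degree D = ∑ v ∈ D.support, v.ord f := by
    show Finsupp.liftAddHom (fun v : Place K F => AddMonoidHom.mulRight (v.deg : ℤ)) D = _
    rw [Finsupp.liftAddHom_apply, Finsupp.sum]
    refine Finset.sum_congr rfl fun v _ => ?_
    rw [AddMonoidHom.coe_mulRight, hD v, FF.deg_eq_one v hj]
    simp
  rw [hdeg]
  by_cases hfK : f ∈ (algebraMap K F).range
  · obtain ⟨c, rfl⟩ := hfK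
    refine Finset.sum_eq_zero fun v _ => FF.ord_algebraMap v c
  · have hft : Transcendental K f := FF.transcendental_of_not_mem_range hfK
    haveI : FiniteDimensional ↥(IntermediateField.adjoin K {f}) F :=
      FF.finiteDimensional_adjoin_of_transcendental hj hft
    have hsupp : ∀ v : Place K F, v ∈ D.support ↔ v.ord f ≠ 0 := by
      intro v
      rw [Finsupp.mem_support_iff, hD v]
    set sp := D.support.filter (fun v => 0 < v.ord f) with hsp
    set sn := D.support.filter (fun v => v.ord f < 0) with hsn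
    have hsp' : ∀ v : Place K F, v ∈ sp ↔ 0 < v.ord f := by
      intro v
      rw [hsp, Finset.mem_filter, hsupp]
      constructor
      · exact fun h => h.2
      · exact fun h => ⟨by omega, h⟩
    have hsn' : ∀ v : Place K F, v ∈ sn ↔ v.ord f < 0 := by
      intro v
      rw [hsn, Finset.mem_filter, hsupp]
      constructor
      · exact fun h => h.2
      · exact fun h => ⟨by omega, h⟩
    have hkey := sum_ord_pos_eq_sum_ord_neg f hft sp sn hsp' hsn'
    have hunion : D.support = sp ∪ sn := by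
      ext v
      rw [Finset.mem_union, hsp', hsn', hsupp]
      omega
    have hdisj : Disjoint sp sn := by
      rw [Finset.disjoint_left]
      intro v h1 h2
      rw [hsp'] at h1
      rw [hsn'] at h2
      omega
    rw [hunion, Finset.sum_union hdisj]
    exact hkey

end Fermat.Agent.S24.H864

end
end
-- ===== PACK-END S24/H864/FF3e.lean

-- ===== PACK-BEGIN S24/H864/FF3f.lean
section


/-!
# S24 / ALG / FF1, existence form: the zeros of a transcendental `t` form a finite set `s` and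
`∑_{v ∈ s} v(t) = [F : K(t)]`  (exact shape of `Alg/Open.lean` `open_fundamental_eq`).
-/

set_option autoImplicit false

noncomputable section

open AlgebraicCurve IntermediateField IsDedekindDomain
open scoped IntermediateField.algebraAdjoinAdjoin

namespace Fermat.Agent.S24.H864

section Rel

variable {K F : Type*} [Field K] [Field F] [Algebra K F]
variable {S : Type*} [CommRing S] [IsDedekindDomain S] [Algebra S F] [IsFractionRing S F]
  [Algebra K S] [IsScalarTower K S F]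
variable {R : Type*} [CommRing R] [IsDomain R] [Algebra R S] [Algebra R F] [IsScalarTower R S F]
  [Module.Finite R S]
variable (p : Ideal R) [hpmax : p.IsMaximal] (τ : R)

/-- the set of zeros of `τ` is finite -/
theorem exists_finset_zeros_abstract
    (hp : p = Ideal.span {τ}) (hτ : τ ≠ 0) (hinj : Function.Injective (algebraMap R S))
    (hR : ∀ v : Place K F, 0 < v.ord (algebraMap R F τ) →
      ∀ r : R, algebraMap R F r ∈ v.toValuationSubring) :
    ∃ s : Finset (Place K F), ∀ v, v ∈ s ↔ 0 < v.ord (algebraMap R F τ) := by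
  classical
  haveI : Fintype (p.primesOver S) := (Algebra.QuasiFinite.finite_primesOver p).fintype
  have hτ' : algebraMap R S τ ≠ 0 := fun h => hτ (hinj (by rw [h, map_zero]))
  set g : p.primesOver S → Place K F :=
    fun q => Place.ofHeightOneSpectrum (K := K) (wOf p τ hp hτ hinj q) with hg
  have hg_ord : ∀ q, (g q).ord (algebraMap R F τ) = (q.1.ramificationIdx R : ℤ) :=
    fun q => ord_wOf p τ hp hτ hinj q
  refine ⟨Finset.univ.image g, fun v => ?_⟩
  rw [Finset.mem_image]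
  constructor
  · rintro ⟨q, -, rfl⟩
    rw [hg_ord]
    exact_mod_cast Ideal.ramificationIdx_pos q.1 R
  · intro hv
    have hS := algebraMap_mem_of_base (S := S) v (hR v hv)
    have hv' : 0 < v.ord (algebraMap S F (algebraMap R S τ)) := by
      rwa [← IsScalarTower.algebraMap_apply R S F]
    obtain ⟨w, hw, hwq⟩ := exists_heightOneSpectrum_of_place v hS hτ' hv'
    have hle : p ≤ w.asIdeal.under R := by
      rw [hp, Ideal.span_singleton_le_iff_mem, Ideal.under_def, Ideal.mem_comap, hwq]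
      exact (mem_primeOfPlace v hS hτ').mpr hv'
    have hne : w.asIdeal.under R ≠ ⊤ := (Ideal.IsPrime.under R w.asIdeal).ne_top
    have hq : w.asIdeal ∈ p.primesOver S := ⟨w.isPrime, ⟨hpmax.eq_of_le hne hle⟩⟩
    refine ⟨⟨w.asIdeal, hq⟩, Finset.mem_univ _, ?_⟩
    rw [← hw]
    show Place.ofHeightOneSpectrum (K := K) (wOf p τ hp hτ hinj ⟨w.asIdeal, hq⟩) = _
    congr 1

end Rel

section Main

variable {K F : Type*} [Field K] [Field F] [Algebra K F] [IsAlgClosed K] [CharZero K]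

/-- the zeros of a transcendental `t` are finite in number -/
theorem exists_finset_zeros (t : F) (ht : Transcendental K t)
    [FiniteDimensional ↥(IntermediateField.adjoin K {t}) F] :
    ∃ s : Finset (Place K F), ∀ v : Place K F, v ∈ s ↔ 0 < v.ord t := by
  haveI : IsPrincipalIdealRing (polyRing K t) := polyRing_isPrincipalIdealRing K t ht
  haveI : IsScalarTower (polyRing K t) (integralClosure (polyRing K t) F) F :=
    Subalgebra.isScalarTower_mid _
  haveI : IsFractionRing (integralClosure (polyRing K t) F) F :=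
    integralClosure.isFractionRing_of_finite_extension K⟮t⟯ F
  haveI : IsDedekindDomain (integralClosure (polyRing K t) F) :=
    IsIntegralClosure.isDedekindDomain (polyRing K t) K⟮t⟯ F (integralClosure (polyRing K t) F)
  haveI : Module.Finite (polyRing K t) (integralClosure (polyRing K t) F) :=
    IsIntegralClosure.finite (polyRing K t) K⟮t⟯ F (integralClosure (polyRing K t) F)
  have hprime : (Ideal.span {tR K t}).IsPrime :=
    (Ideal.span_singleton_prime (tR_ne_zero K t ht)).mpr (tR_prime K t ht)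
  have hne : Ideal.span {tR K t} ≠ ⊥ := by
    rw [Ne, Ideal.span_singleton_eq_bot]
    exact tR_ne_zero K t ht
  haveI hmax : (Ideal.span {tR K t}).IsMaximal := hprime.isMaximal hne
  have hinj : Function.Injective
      (algebraMap (polyRing K t) (integralClosure (polyRing K t) F)) := by
    intro a b hab
    have := congrArg (algebraMap (integralClosure (polyRing K t) F) F) hab
    rw [← IsScalarTower.algebraMap_apply, ← IsScalarTower.algebraMap_apply] at this
    exact Subtype.ext this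
  exact exists_finset_zeros_abstract (K := K) (F := F)
    (S := integralClosure (polyRing K t) F) (R := polyRing K t)
    (Ideal.span {tR K t}) (tR K t) rfl (tR_ne_zero K t ht) hinj
    (fun v hv r => coe_mem_valuationSubring_of_ord_nonneg K t v hv.le r)

/-- **FF1 (fundamental equality)**, exact shape of `Alg/Open.lean` `open_fundamental_eq`. -/
theorem fundamental_eq (t : F) (ht : Transcendental K t)
    [FiniteDimensional ↥(IntermediateField.adjoin K {t}) F] :
    ∃ s : Finset (Place K F), (∀ v : Place K F, v ∈ s ↔ 0 < v.ord t) ∧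
      ∑ v ∈ s, v.ord t = (Module.finrank ↥(IntermediateField.adjoin K {t}) F : ℤ) := by
  obtain ⟨s, hs⟩ := exists_finset_zeros t ht
  exact ⟨s, hs, fundamental_identity t ht s hs⟩

end Main

end Fermat.Agent.S24.H864

end
end
-- ===== PACK-END S24/H864/FF3f.lean

-- ===== PACK-BEGIN Lib/RR/H864/FF1Bridge.lean
section




/-!
# RR library, bridge: `FF1 K F` in characteristic zero

For `K` algebraically closed of characteristic `0` and `F` finite over `K(x)`, `x` transcendental: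
`HasPrincipalDivisors K F` (divisors of functions exist and have degree `0`), every place has
degree one, and there is a place.  Hence `FF1 K F`.
-/

set_option autoImplicit false

noncomputable section

open AlgebraicCurve IntermediateField

namespace Fermat.Agent.Lib.RR.H864

variable {K F : Type*} [Field K] [Field F] [Algebra K F] [IsAlgClosed K] [CharZero K]

/-- divisors of functions exist (finitely many zeros and poles) -/
theorem exists_divisor (x : F) (hx : Transcendental K x)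
    [FiniteDimensional ↥(IntermediateField.adjoin K {x}) F] (f : F) (hf : f ≠ 0) :
    ∃ D : Divisor K F, (∀ v : Place K F, D v = v.ord f) ∧ Divisor.degree D = 0 := by
  classical
  suffices h : ∃ D : Divisor K F, ∀ v : Place K F, D v = v.ord f by
    obtain ⟨D, hD⟩ := h
    exact ⟨D, hD, S24.H864.degree_principal x hx f hf D hD⟩
  by_cases hfK : f ∈ (algebraMap K F).range
  · obtain ⟨c, rfl⟩ := hfK
    exact ⟨0, fun v => by rw [S24.FF.ord_algebraMap v c]; rfl⟩
  · have hft : Transcendental K f := S24.FF.transcendental_of_not_mem_range hfK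
    haveI : FiniteDimensional ↥(IntermediateField.adjoin K {f}) F :=
      S24.FF.finiteDimensional_adjoin_of_transcendental hx hft
    haveI : FiniteDimensional ↥(IntermediateField.adjoin K {f⁻¹}) F := by
      rw [S24.H864.adjoin_simple_inv_eq]; infer_instance
    obtain ⟨sp, hsp⟩ := S24.H864.exists_finset_zeros f hft
    obtain ⟨sn, hsn⟩ := S24.H864.exists_finset_zeros f⁻¹ (S24.H864.transcendental_inv hft)
    refine ⟨Finsupp.onFinset (sp ∪ sn) (fun v => v.ord f) ?_, fun v => rfl⟩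
    intro v hv
    rw [Finset.mem_union, hsp, hsn, Place.ord_inv]
    omega

theorem hasPrincipalDivisors (x : F) (hx : Transcendental K x)
    [FiniteDimensional ↥(IntermediateField.adjoin K {x}) F] : HasPrincipalDivisors K F :=
  ⟨fun f hf => exists_divisor x hx f hf⟩

/-- there is a place (a zero of `x`) -/
theorem nonempty_place (x : F) (hx : Transcendental K x)
    [FiniteDimensional ↥(IntermediateField.adjoin K {x}) F] : Nonempty (Place K F) := by
  obtain ⟨s, _, hsum⟩ := S24.H864.fundamental_eq x hx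
  by_contra hne
  rw [not_nonempty_iff] at hne
  have h0 : ∑ v ∈ s, v.ord x = 0 := Finset.sum_eq_zero fun v _ => (hne.false v).elim
  rw [h0] at hsum
  have hpos : 0 < Module.finrank ↥(IntermediateField.adjoin K {x}) F := Module.finrank_pos
  omega

/-- **Bridge.**  `FF1 K F` for function fields of one variable over an algebraically closed field
of characteristic zero. -/
theorem ff1 (x : F) (hx : Transcendental K x)
    [hfin : FiniteDimensional ↥(IntermediateField.adjoin K {x}) F] : FF1 K F where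
  hpd := hasPrincipalDivisors x hx
  deg_eq_one := fun v => S24.FF.deg_eq_one v hx
  nonempty_place := nonempty_place x hx
  exists_finite := ⟨x, hx, hfin⟩

end Fermat.Agent.Lib.RR.H864

end
end
-- ===== PACK-END Lib/RR/H864/FF1Bridge.lean

-- ===== PACK-BEGIN S48/H76/GenQX2.lean
section


/-!
# S48 / Tower A1, piece GEN-QX, part 2 (helper76): Eisenstein series on `Γ₁(M)` with expansion in `q`

For `g : ZMod M → ℂ` the weight `w(c,d) = [c ≡ 0] g(d)` is `Γ₁(M)`-invariant and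

  `G_g(z) = ∑_{M ∣ c, d} g(d) (c z + d)^{-(k+1)}
          = ∑_d g(d) d^{-(k+1)} + ((-2πi)^{k+1} / (k! M^{k+1})) ∑_{n ≥ 1} (∑_{c m = n} m^k ĝs(m)) qⁿ`,

`q = e^{2πiz}`, `ĝs(m) = ∑_b (g(b) + (-1)^{k+1} g(-b)) ζ^{bm}`.
-/

set_option autoImplicit false

open UpperHalfPlane EisensteinSeries ModularForm Filter Topology Complex CongruenceSubgroup
open scoped Matrix MatrixGroups Manifold Real

noncomputable section

namespace Fermat.Agent.S48.H76

open Fermat.Agent.S29

local notation "𝕢" => Function.Periodic.qParam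

/-- The weight `w(c,d) = [c = 0] g(d)`. -/
def typeII (M : ℕ) (g : ZMod M → ℂ) : ZMod M → ZMod M → ℂ :=
  fun x y => if x = 0 then g y else 0

/-- `γ ∈ Γ₀(M)` acts on the weights of type II through its upper left entry. -/
theorem actW_typeII_Gamma0 (M : ℕ) (g : ZMod M → ℂ) (γ : SL(2, ℤ)) (hγ : γ ∈ Gamma0 M) :
    actW M γ (typeII M g) = typeII M (fun y => g (y * ((γ 0 0 : ℤ) : ZMod M))) := by
  have hinv : γ⁻¹ ∈ Gamma0 M := (Gamma0 M).inv_mem hγ
  have h10 : (((γ⁻¹ : SL(2, ℤ)) 1 0 : ℤ) : ZMod M) = 0 := Gamma0_mem.mp hinv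
  have h11 : ((γ⁻¹ : SL(2, ℤ)) 1 1 : ℤ) = γ 0 0 := by
    rw [Matrix.SpecialLinearGroup.SL2_inv_expl]
    rfl
  have h00 : ((γ⁻¹ : SL(2, ℤ)) 0 0 : ℤ) = γ 1 1 := by
    rw [Matrix.SpecialLinearGroup.SL2_inv_expl]
    rfl
  have hdet : ((γ 0 0 : ℤ) : ZMod M) * ((γ 1 1 : ℤ) : ZMod M) = 1 := by
    have h := Matrix.SpecialLinearGroup.det_coe γ
    rw [Matrix.det_fin_two] at h
    have h2 : ((γ 1 0 : ℤ) : ZMod M) = 0 := Gamma0_mem.mp hγ
    have h3 := congrArg (fun t : ℤ => (t : ZMod M)) h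
    simp only [Int.cast_sub, Int.cast_mul, Int.cast_one] at h3
    rw [h2, mul_zero, sub_zero] at h3
    exact h3
  funext x y
  simp only [actW, typeII, h10, h11, h00, mul_zero, add_zero]
  by_cases hx : x = 0
  · subst hx
    simp
  · have hx' : x * ((γ 1 1 : ℤ) : ZMod M) ≠ 0 := by
      intro h0
      apply hx
      have := congrArg (fun t => t * ((γ 0 0 : ℤ) : ZMod M)) h0
      simp only [zero_mul] at this
      rw [mul_assoc, mul_comm ((γ 1 1 : ℤ) : ZMod M), hdet, mul_one] at this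
      exact this
    rw [if_neg hx', if_neg hx]

theorem actW_typeII_Gamma1 (M : ℕ) (g : ZMod M → ℂ) (γ : SL(2, ℤ)) (hγ : γ ∈ Gamma1 M) :
    actW M γ (typeII M g) = typeII M g := by
  have h0 : γ ∈ Gamma0 M := by
    rw [Gamma0_mem]
    exact ((Gamma1_mem M γ).mp hγ).2.2
  rw [actW_typeII_Gamma0 M g γ h0]
  have h00 : ((γ 0 0 : ℤ) : ZMod M) = 1 := ((Gamma1_mem M γ).mp hγ).1
  simp only [h00, mul_one]

/-- The Eisenstein series of type II as a modular form on `Γ₁(M)`. -/
def typeIIMF (M : ℕ) [NeZero M] (g : ZMod M → ℂ) {k : ℤ} (hk : 3 ≤ k) :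
    ModularForm ((Gamma1 M : Subgroup SL(2, ℤ)) : Subgroup (GL (Fin 2) ℝ)) k :=
  perMF M (typeII M g) hk (Gamma1 M) (fun γ hγ => actW_typeII_Gamma1 M g γ hγ)

@[simp] theorem typeIIMF_apply (M : ℕ) [NeZero M] (g : ZMod M → ℂ) {k : ℤ} (hk : 3 ≤ k) (z : ℍ) :
    typeIIMF M g hk z = H332.wEis (perWeight M (typeII M g)) k z := rfl

/-- Nebentypus-type transformation under `Γ₀(M)`. -/
theorem typeII_slash_Gamma0 (M : ℕ) (g : ZMod M → ℂ) (k : ℤ) (γ : SL(2, ℤ)) (hγ : γ ∈ Gamma0 M) :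
    H332.wEis (perWeight M (typeII M g)) k ∣[k] γ =
      H332.wEis (perWeight M (typeII M (fun y => g (y * ((γ 0 0 : ℤ) : ZMod M))))) k := by
  rw [perWeight_slash, actW_typeII_Gamma0 M g γ hγ]

/-! ### The coefficients -/

/-- The symmetrisation `b ↦ g(b) + (-1)^{k+1} g(-b)`. -/
def symG (M : ℕ) (g : ZMod M → ℂ) (k : ℕ) (b : ZMod M) : ℂ := g b + (-1) ^ (k + 1) * g (-b)

theorem symW_typeII (M : ℕ) (g : ZMod M → ℂ) (k c : ℕ) :
    symW M (typeII M g) k c = fun b => if (c : ZMod M) = 0 then symG M g k b else 0 := by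
  funext b
  unfold symW typeII symG
  by_cases hc : (c : ZMod M) = 0
  · simp [hc]
  · have hc' : -(c : ZMod M) ≠ 0 := neg_ne_zero.mpr hc
    simp [hc, hc']

theorem hatG_zero (M : ℕ) (m : ℤ) : hatG M (fun _ => (0 : ℂ)) m = 0 := by
  simp [hatG]

theorem hatG_symW_typeII (M : ℕ) (g : ZMod M → ℂ) (k c : ℕ) (m : ℤ) :
    hatG M (symW M (typeII M g) k c) m =
      if (c : ZMod M) = 0 then hatG M (symG M g k) m else 0 := by
  rw [symW_typeII]
  by_cases hc : (c : ZMod M) = 0
  · simp [hc]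
  · simp only [hc, if_false]
    exact hatG_zero M m

/-- The divisor sum `∑_{c m = n} m^k ĝs(m)`. -/
def sigmaII (M : ℕ) (g : ZMod M → ℂ) (k n : ℕ) : ℂ :=
  ∑ x ∈ n.divisorsAntidiagonal, (x.2 : ℂ) ^ k * hatG M (symG M g k) x.2

theorem sigmaII_zero (M : ℕ) (g : ZMod M → ℂ) (k : ℕ) : sigmaII M g k 0 = 0 := by
  simp [sigmaII]

theorem coefA_typeII_of_not_dvd (M : ℕ) (g : ZMod M → ℂ) (k : ℕ) {n : ℕ} (hn : ¬ M ∣ n) :
    coefA M (typeII M g) k n = 0 := by
  unfold coefA sigma2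
  refine Finset.sum_eq_zero fun x hx => ?_
  have hx' := Nat.mem_divisorsAntidiagonal.mp hx
  have hc : ¬ ((x.1 : ℕ) : ZMod M) = 0 := by
    intro h0
    rw [ZMod.natCast_eq_zero_iff] at h0
    exact hn (h0.trans ⟨x.2, hx'.1.symm⟩)
  beta_reduce
  rw [hatG_symW_typeII, if_neg hc, mul_zero]

theorem coefA_typeII_mul (M : ℕ) [NeZero M] (g : ZMod M → ℂ) (k n : ℕ) :
    coefA M (typeII M g) k (M * n) = sigmaII M g k n := by
  have hM : M ≠ 0 := NeZero.ne M
  unfold coefA sigma2 sigmaII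
  by_cases hn : n = 0
  · subst hn
    simp
  symm
  refine Finset.sum_bij_ne_zero (fun x _ _ => (M * x.1, x.2)) ?_ ?_ ?_ ?_
  · intro x hx _
    have hx' := Nat.mem_divisorsAntidiagonal.mp hx
    rw [Nat.mem_divisorsAntidiagonal]
    refine ⟨?_, Nat.mul_ne_zero hM hn⟩
    show M * x.1 * x.2 = M * n
    rw [mul_assoc, hx'.1]
  · intro x hx _ y hy _ hxy
    have h1 : M * x.1 = M * y.1 := (Prod.mk.inj hxy).1
    have h2 : x.2 = y.2 := (Prod.mk.inj hxy).2
    exact Prod.ext (Nat.eq_of_mul_eq_mul_left (Nat.pos_of_ne_zero hM) h1) h2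
  · intro y hy hne
    have hy' := Nat.mem_divisorsAntidiagonal.mp hy
    have hc : ((y.1 : ℕ) : ZMod M) = 0 := by
      by_contra hc
      apply hne
      beta_reduce
      rw [hatG_symW_typeII, if_neg hc, mul_zero]
    rw [ZMod.natCast_eq_zero_iff] at hc
    obtain ⟨c', hc'⟩ := hc
    refine ⟨(c', y.2), ?_, ?_, ?_⟩
    · rw [Nat.mem_divisorsAntidiagonal]
      refine ⟨?_, hn⟩
      have h1 : M * (c' * y.2) = M * n := by
        rw [← mul_assoc, ← hc', hy'.1]
      exact Nat.eq_of_mul_eq_mul_left (Nat.pos_of_ne_zero hM) h1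
    · intro h0
      apply hne
      beta_reduce
      rw [hatG_symW_typeII, if_pos (by rw [ZMod.natCast_eq_zero_iff]; exact ⟨c', hc'⟩)]
      exact h0
    · exact Prod.ext hc'.symm rfl
  · intro x hx _
    have hc : (((M * x.1 : ℕ)) : ZMod M) = 0 := by
      rw [ZMod.natCast_eq_zero_iff]
      exact ⟨x.1, rfl⟩
    show (x.2 : ℂ) ^ k * hatG M (symG M g k) x.2 =
      (x.2 : ℂ) ^ k * hatG M (symW M (typeII M g) k (M * x.1)) x.2
    rw [hatG_symW_typeII, if_pos hc]

/-- The coefficients of the expansion in `q = e^{2πiz}`. -/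
def coefQ (M : ℕ) (g : ZMod M → ℂ) (k n : ℕ) : ℂ :=
  if n = 0 then constTerm M (typeII M g) k else lipConst M k * sigmaII M g k n

theorem coefX_typeII_mul (M : ℕ) [NeZero M] (g : ZMod M → ℂ) (k n : ℕ) :
    coefX M (typeII M g) k (M * n) = coefQ M g k n := by
  unfold coefX coefQ
  by_cases hn : n = 0
  · subst hn
    simp
  · rw [if_neg (Nat.mul_ne_zero (NeZero.ne M) hn), if_neg hn, coefA_typeII_mul]

theorem coefX_typeII_of_not_dvd (M : ℕ) [NeZero M] (g : ZMod M → ℂ) (k : ℕ) {n : ℕ}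
    (hn : ¬ M ∣ n) : coefX M (typeII M g) k n = 0 := by
  unfold coefX
  have h0 : n ≠ 0 := fun h => hn (h ▸ dvd_zero M)
  rw [if_neg h0, coefA_typeII_of_not_dvd M g k hn, mul_zero]

theorem qParam_M_pow (M : ℕ) [NeZero M] (z : ℂ) (n : ℕ) :
    𝕢 (M : ℝ) z ^ (M * n) = 𝕢 1 z ^ n := by
  have hM : (M : ℂ) ≠ 0 := Nat.cast_ne_zero.mpr (NeZero.ne M)
  simp only [Function.Periodic.qParam]
  rw [← Complex.exp_nat_mul, ← Complex.exp_nat_mul]
  congr 1
  push_cast
  field_simp

/-- **Expansion in `q`** of the Eisenstein series of type II on `Γ₁(M)`. -/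
theorem hasSum_typeII (M : ℕ) [NeZero M] {k : ℕ} (hk : 2 ≤ k) (g : ZMod M → ℂ) (z : ℍ) :
    HasSum (fun n : ℕ => coefQ M g k n • 𝕢 1 (z : ℂ) ^ n)
      (H332.wEis (perWeight M (typeII M g)) ((k + 1 : ℕ) : ℤ) z) := by
  have H := hasSum_wEis_periodic M hk (typeII M g) z
  have hinj : Function.Injective (fun n : ℕ => M * n) := fun a b hab =>
    Nat.eq_of_mul_eq_mul_left (Nat.pos_of_ne_zero (NeZero.ne M)) hab
  rw [← hinj.hasSum_iff] at H
  · convert H using 1
    funext n
    simp only [Function.comp_apply]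
    rw [coefX_typeII_mul, qParam_M_pow]
  · intro n hn
    have hnd : ¬ M ∣ n := by
      rintro ⟨m, rfl⟩
      exact hn ⟨m, rfl⟩
    rw [coefX_typeII_of_not_dvd M g k hnd, zero_smul]

/-- **`q`-expansion coefficients** of the Eisenstein series of type II on `Γ₁(M)`. -/
theorem qExpansion_typeII (M : ℕ) [NeZero M] {k : ℕ} (hk : 2 ≤ k) (g : ZMod M → ℂ) (n : ℕ) :
    (qExpansion 1 (H332.wEis (perWeight M (typeII M g)) ((k + 1 : ℕ) : ℤ))).coeff n =
      coefQ M g k n := by
  have hk3 : (3 : ℤ) ≤ ((k + 1 : ℕ) : ℤ) := by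
    push_cast
    omega
  exact Fermat.Agent.S22T.qExpansion_coeff_of_hasSum one_pos (hasSum_typeII M hk g)
    (perWeight_mdiff M (typeII M g) hk3) n

end Fermat.Agent.S48.H76

end
end
-- ===== PACK-END S48/H76/GenQX2.lean

-- ===== PACK-BEGIN S48/H76/GenQX3.lean
section


/-!
# S48 / Tower A1, piece GEN-QX, part 3 (helper76): the generators `e_{K,c}` with rational `q`-expansion

For `c : ℤ` and `K = k + 1 ≥ 3` the modular form on `Γ₁(M)`

  `E_{K,c}(z) = (M · (-2πi)^K / ((K-1)! M^K))⁻¹ ∑_{M ∣ c', d} ζ^{-cd} (c' z + d)^{-K}`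

has the `q`-expansion with RATIONAL coefficients

  `κ_{K,c} + ∑_{n ≥ 1} (∑_{d ∣ n, d ≡ c (M)} d^{K-1} + (-1)^K ∑_{d ∣ n, d ≡ -c (M)} d^{K-1}) qⁿ`.
-/

set_option autoImplicit false

open UpperHalfPlane EisensteinSeries ModularForm Filter Topology Complex CongruenceSubgroup
open scoped Matrix MatrixGroups Manifold Real

noncomputable section

namespace Fermat.Agent.S48.H76

open Fermat.Agent.S29

local notation "𝕢" => Function.Periodic.qParam

/-! ### Roots of unity -/

theorem zetaPow_eq_of_dvd_sub (M : ℕ) [NeZero M] {a b : ℤ} (h : (M : ℤ) ∣ a - b) :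
    zetaPow M a = zetaPow M b := by
  obtain ⟨t, ht⟩ := h
  have : a = b + t * M := by linarith [ht, mul_comm (M : ℤ) t]
  rw [this, zetaPow_add_mul]

theorem zetaPow_nat_mul (M : ℕ) (b : ℕ) (a : ℤ) : zetaPow M ((b : ℤ) * a) = zetaPow M a ^ b := by
  unfold zetaPow
  rw [← Complex.exp_nat_mul]
  congr 1
  push_cast
  ring

theorem zetaPow_eq_one_iff (M : ℕ) [NeZero M] (a : ℤ) : zetaPow M a = 1 ↔ (M : ℤ) ∣ a := by
  have hM : (M : ℂ) ≠ 0 := Nat.cast_ne_zero.mpr (NeZero.ne M)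
  unfold zetaPow
  rw [Complex.exp_eq_one_iff]
  constructor
  · rintro ⟨n, hn⟩
    refine ⟨n, ?_⟩
    have h2 : (2 * (π : ℂ) * Complex.I) ≠ 0 := by
      simp [Real.pi_ne_zero, Complex.I_ne_zero]
    have h3 : (a : ℂ) = (M : ℂ) * n := by
      have h4 : (2 * (π : ℂ) * Complex.I) * (a : ℂ) =
          (2 * (π : ℂ) * Complex.I) * ((M : ℂ) * n) := by
        have h5 := congrArg (fun t : ℂ => t * (M : ℂ)) hn
        simp only [div_mul_cancel₀ _ hM] at h5
        rw [h5]
        ring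
      exact mul_left_cancel₀ h2 h4
    exact_mod_cast h3
  · rintro ⟨n, rfl⟩
    refine ⟨n, ?_⟩
    push_cast
    field_simp

/-- Orthogonality: `∑_{b < M} ζ^{ba} = M [M ∣ a]`. -/
theorem sum_range_zetaPow (M : ℕ) [NeZero M] (a : ℤ) :
    ∑ b ∈ Finset.range M, zetaPow M ((b : ℤ) * a) = if (M : ℤ) ∣ a then (M : ℂ) else 0 := by
  simp_rw [zetaPow_nat_mul]
  by_cases h : (M : ℤ) ∣ a
  · rw [if_pos h, (zetaPow_eq_one_iff M a).mpr h]
    simp
  · rw [if_neg h]
    have h1 : zetaPow M a ≠ 1 := fun h1 => h ((zetaPow_eq_one_iff M a).mp h1)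
    rw [geom_sum_eq h1, ← zetaPow_nat_mul, (zetaPow_eq_one_iff M _).mpr ⟨a, rfl⟩, sub_self,
      zero_div]

/-- The weight `b ↦ ζ^{-cb}`. -/
def gZ (M : ℕ) (c : ℤ) (b : ZMod M) : ℂ := zetaPow M (-c * (b.val : ℤ))

theorem gZ_intCast (M : ℕ) [NeZero M] (c d : ℤ) : gZ M c (d : ZMod M) = zetaPow M (-c * d) := by
  unfold gZ
  apply zetaPow_eq_of_dvd_sub
  have h : (((d : ZMod M).val : ℤ) : ZMod M) = (d : ZMod M) := by
    rw [Int.cast_natCast, ZMod.natCast_val, ZMod.cast_id', id]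
  have h2 := (ZMod.intCast_eq_intCast_iff_dvd_sub _ _ M).mp h
  have : -c * ((d : ZMod M).val : ℤ) - -c * d = c * (d - ((d : ZMod M).val : ℤ)) := by ring
  rw [this]
  exact Dvd.dvd.mul_left h2 c

theorem gZ_natCast (M : ℕ) [NeZero M] (c : ℤ) (b : ℕ) :
    gZ M c (b : ZMod M) = zetaPow M (-c * b) := by
  have := gZ_intCast M c (b : ℤ)
  simpa using this

theorem gZ_neg (M : ℕ) [NeZero M] (c : ℤ) (b : ZMod M) : gZ M c (-b) = gZ M (-c) b := by
  have hb : b = ((b.val : ℤ) : ZMod M) := by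
    rw [Int.cast_natCast, ZMod.natCast_val, ZMod.cast_id', id]
  rw [hb, ← Int.cast_neg, gZ_intCast, gZ_intCast]
  congr 1
  ring

theorem hatG_gZ (M : ℕ) [NeZero M] (c m : ℤ) :
    hatG M (gZ M c) m = if (M : ℤ) ∣ m - c then (M : ℂ) else 0 := by
  unfold hatG
  rw [← sum_range_zetaPow M (m - c)]
  refine Finset.sum_congr rfl fun b _ => ?_
  rw [gZ_natCast, ← zetaPow_add]
  congr 1
  ring

theorem symG_gZ (M : ℕ) [NeZero M] (c : ℤ) (k : ℕ) :
    symG M (gZ M c) k = fun b => gZ M c b + (-1) ^ (k + 1) * gZ M (-c) b := by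
  funext b
  unfold symG
  rw [gZ_neg]

theorem hatG_symG_gZ (M : ℕ) [NeZero M] (c : ℤ) (k : ℕ) (m : ℤ) :
    hatG M (symG M (gZ M c) k) m =
      (M : ℂ) * ((if (M : ℤ) ∣ m - c then 1 else 0) +
        (-1) ^ (k + 1) * (if (M : ℤ) ∣ m + c then 1 else 0)) := by
  rw [symG_gZ, hatG_add_smul, hatG_gZ, hatG_gZ, sub_neg_eq_add]
  split_ifs <;> ring

/-! ### The divisor sums -/

/-- The rational divisor sum
`∑_{d ∣ n, d ≡ c (M)} d^k + (-1)^{k+1} ∑_{d ∣ n, d ≡ -c (M)} d^k`. -/
def divSumQ (M : ℕ) (c : ℤ) (k n : ℕ) : ℚ :=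
  ∑ d ∈ n.divisors, (d : ℚ) ^ k *
    ((if (M : ℤ) ∣ (d : ℤ) - c then 1 else 0) +
      (-1) ^ (k + 1) * (if (M : ℤ) ∣ (d : ℤ) + c then 1 else 0))

theorem sigmaII_gZ (M : ℕ) [NeZero M] (c : ℤ) (k n : ℕ) :
    sigmaII M (gZ M c) k n = (M : ℂ) * ((divSumQ M c k n : ℚ) : ℂ) := by
  unfold sigmaII divSumQ
  rw [Nat.sum_divisorsAntidiagonal' (f := fun _ m : ℕ => (m : ℂ) ^ k *
    hatG M (symG M (gZ M c) k) m)]
  push_cast
  rw [Finset.mul_sum]
  refine Finset.sum_congr rfl fun d _ => ?_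
  rw [hatG_symG_gZ]
  split_ifs <;> push_cast <;> ring

/-! ### The constant term -/

/-- The representative `x_c = ((-c) mod M)/M ∈ [0,1)` of `-c/M`. -/
def xQ (M : ℕ) (c : ℤ) : ℚ := (((-c) % (M : ℤ) : ℤ) : ℚ) / (M : ℚ)

theorem xQ_mem_Icc (M : ℕ) [NeZero M] (c : ℤ) : ((xQ M c : ℚ) : ℝ) ∈ Set.Icc (0 : ℝ) 1 := by
  have hM : (0 : ℤ) < M := by exact_mod_cast Nat.pos_of_ne_zero (NeZero.ne M)
  have h0 : 0 ≤ (-c) % (M : ℤ) := Int.emod_nonneg _ hM.ne'
  have h1 : (-c) % (M : ℤ) < M := Int.emod_lt_of_pos _ hM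
  have hMr : (0 : ℝ) < M := by exact_mod_cast hM
  unfold xQ
  push_cast
  constructor
  · apply div_nonneg _ hMr.le
    exact_mod_cast h0
  · rw [div_le_one hMr]
    exact_mod_cast h1.le

/-- The rational constant term `κ = -(-1)^{k+1} M^k B_{k+1}(x_c)/(k+1)`. -/
def kappaQ (M : ℕ) (c : ℤ) (k : ℕ) : ℚ :=
  -(-1) ^ (k + 1) * (M : ℚ) ^ k * (Polynomial.bernoulli (k + 1)).eval (xQ M c) / (k + 1)

theorem bernoulliFun_ratCast (K : ℕ) (x : ℚ) :
    bernoulliFun K (x : ℝ) = (((Polynomial.bernoulli K).eval x : ℚ) : ℝ) := by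
  unfold bernoulliFun
  rw [Polynomial.eval_map]
  have := Polynomial.eval₂_at_apply (p := Polynomial.bernoulli K) (algebraMap ℚ ℝ) x
  simpa using this

theorem fourier_xQ (M : ℕ) [NeZero M] (c d : ℤ) :
    (fourier d (((xQ M c : ℚ) : ℝ) : UnitAddCircle) : ℂ) = zetaPow M (-c * d) := by
  have hM : (M : ℂ) ≠ 0 := Nat.cast_ne_zero.mpr (NeZero.ne M)
  rw [fourier_coe_apply]
  have h1 : zetaPow M (-c * d) = zetaPow M (d * ((-c) % (M : ℤ))) := by
    apply zetaPow_eq_of_dvd_sub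
    have h2 : (M : ℤ) ∣ -c - (-c) % (M : ℤ) := Int.dvd_self_sub_emod
    have : -c * d - d * ((-c) % (M : ℤ)) = d * (-c - (-c) % (M : ℤ)) := by ring
    rw [this]
    exact Dvd.dvd.mul_left h2 d
  rw [h1]
  unfold zetaPow xQ
  congr 1
  push_cast
  field_simp

theorem constTerm_gZ (M : ℕ) [NeZero M] (c : ℤ) {k : ℕ} (hk : 1 ≤ k) :
    constTerm M (typeII M (gZ M c)) k = lipConst M k * (M : ℂ) * ((kappaQ M c k : ℚ) : ℂ) := by
  have hM : (M : ℂ) ≠ 0 := Nat.cast_ne_zero.mpr (NeZero.ne M)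
  have H := hasSum_one_div_pow_mul_fourier_mul_bernoulliFun (k := k + 1) (by omega)
    (xQ_mem_Icc M c)
  have h1 : constTerm M (typeII M (gZ M c)) k =
      ∑' d : ℤ, 1 / (d : ℂ) ^ (k + 1) * (fourier d (((xQ M c : ℚ) : ℝ) : UnitAddCircle) : ℂ) := by
    unfold constTerm
    refine tsum_congr fun d => ?_
    rw [fourier_xQ]
    simp only [typeII, if_true]
    rw [gZ_intCast, one_div, mul_comm]
  rw [h1, H.tsum_eq, bernoulliFun_ratCast]
  unfold kappaQ lipConst
  have hk1 : ((k : ℂ) + 1) ≠ 0 := by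
    have : ((k + 1 : ℕ) : ℂ) ≠ 0 := Nat.cast_ne_zero.mpr (Nat.succ_ne_zero k)
    simpa using this
  have hfac : ((k.factorial : ℕ) : ℂ) ≠ 0 := Nat.cast_ne_zero.mpr (Nat.factorial_ne_zero k)
  rw [Nat.factorial_succ]
  push_cast
  have hsign : (-2 * (π : ℂ) * Complex.I) ^ (k + 1) =
      (-1) ^ (k + 1) * (2 * π * Complex.I) ^ (k + 1) := by
    rw [← mul_pow]
    ring_nf
  rw [hsign]
  have hsq : ((-1 : ℂ)) ^ (k + 1) * (-1) ^ (k + 1) = 1 := by
    rw [← mul_pow]
    norm_num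
  generalize ((-1 : ℂ)) ^ (k + 1) = s at hsq ⊢
  generalize (2 * (π : ℂ) * Complex.I) ^ (k + 1) = A
  generalize ((Polynomial.eval (xQ M c) (Polynomial.bernoulli (k + 1)) : ℚ) : ℂ) = B
  generalize ((k.factorial : ℕ) : ℂ) = F at hfac ⊢
  have e : s * A / (F * (M : ℂ) ^ (k + 1)) * M * (-s * (M : ℂ) ^ k * B / ((k : ℂ) + 1)) =
      (s * s) * (-A / (((k : ℂ) + 1) * F) * B) := by
    field_simp
    ring
  rw [e, hsq, one_mul]

/-! ### The generators -/

/-- The rational `q`-series `e_{k+1,c} = κ + ∑_{n ≥ 1} (∑_{d ∣ n, d ≡ c} d^k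
+ (-1)^{k+1} ∑_{d ∣ n, d ≡ -c} d^k) qⁿ`. -/
def eisQ (M : ℕ) (c : ℤ) (k : ℕ) : PowerSeries ℚ :=
  PowerSeries.mk fun n => if n = 0 then kappaQ M c k else divSumQ M c k n

/-- The normalising constant `M (-2πi)^{k+1} / (k! M^{k+1})`. -/
def normC (M k : ℕ) : ℂ := lipConst M k * (M : ℂ)

theorem normC_ne_zero (M : ℕ) [NeZero M] (k : ℕ) : normC M k ≠ 0 := by
  have hM : (M : ℂ) ≠ 0 := Nat.cast_ne_zero.mpr (NeZero.ne M)
  have hfac : ((k.factorial : ℕ) : ℂ) ≠ 0 := Nat.cast_ne_zero.mpr (Nat.factorial_ne_zero k)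
  unfold normC lipConst
  refine mul_ne_zero (div_ne_zero (pow_ne_zero _ ?_) (mul_ne_zero hfac (pow_ne_zero _ hM))) hM
  simp [Real.pi_ne_zero, Complex.I_ne_zero]

theorem coefQ_gZ (M : ℕ) [NeZero M] (c : ℤ) {k : ℕ} (hk : 1 ≤ k) (n : ℕ) :
    coefQ M (gZ M c) k n = normC M k * (((eisQ M c k).coeff n : ℚ) : ℂ) := by
  unfold coefQ eisQ normC
  rw [PowerSeries.coeff_mk]
  by_cases hn : n = 0
  · rw [if_pos hn, if_pos hn, constTerm_gZ M c hk]
  · rw [if_neg hn, if_neg hn, sigmaII_gZ]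
    ring

/-- The modular form `E_{k+1,c}` on `Γ₁(M)` (weight `k + 1 ≥ 3`). -/
def eisForm (M : ℕ) [NeZero M] (c : ℤ) {k : ℕ} (hk : 2 ≤ k) :
    ModularForm ((Gamma1 M : Subgroup SL(2, ℤ)) : Subgroup (GL (Fin 2) ℝ)) ((k + 1 : ℕ) : ℤ) :=
  (normC M k)⁻¹ • typeIIMF M (gZ M c) (k := ((k + 1 : ℕ) : ℤ)) (by push_cast; omega)

theorem eisForm_apply (M : ℕ) [NeZero M] (c : ℤ) {k : ℕ} (hk : 2 ≤ k) (z : ℍ) :
    eisForm M c hk z =
      (normC M k)⁻¹ * H332.wEis (perWeight M (typeII M (gZ M c))) ((k + 1 : ℕ) : ℤ) z := rfl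

/-- **The `q`-expansion of the generator `E_{k+1,c}`** (`HasSum` form). -/
theorem hasSum_eisForm (M : ℕ) [NeZero M] (c : ℤ) {k : ℕ} (hk : 2 ≤ k) (z : ℍ) :
    HasSum (fun n : ℕ => (((eisQ M c k).coeff n : ℚ) : ℂ) • 𝕢 1 (z : ℂ) ^ n)
      (eisForm M c hk z) := by
  have H := (hasSum_typeII M hk (gZ M c) z).mul_left (normC M k)⁻¹
  rw [eisForm_apply]
  have hfun : (fun n : ℕ => (((eisQ M c k).coeff n : ℚ) : ℂ) • 𝕢 1 (z : ℂ) ^ n) =
      fun n : ℕ => (normC M k)⁻¹ * (coefQ M (gZ M c) k n • 𝕢 1 (z : ℂ) ^ n) := by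
    funext n
    rw [coefQ_gZ M c (by omega) n, smul_eq_mul, smul_eq_mul, mul_assoc,
      ← mul_assoc (normC M k)⁻¹, inv_mul_cancel₀ (normC_ne_zero M k), one_mul]
  rw [hfun]
  exact H

/-- **The `q`-expansion of the generator `E_{k+1,c}`** has the rational coefficients `eisQ`. -/
theorem qExpansion_eisForm_coeff (M : ℕ) [NeZero M] (c : ℤ) {k : ℕ} (hk : 2 ≤ k) (n : ℕ) :
    (qExpansion 1 (eisForm M c hk)).coeff n = (((eisQ M c k).coeff n : ℚ) : ℂ) :=
  Fermat.Agent.S22T.qExpansion_coeff_of_hasSum one_pos (hasSum_eisForm M c hk)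
    (eisForm M c hk).holo' n

theorem qExpansion_eisForm (M : ℕ) [NeZero M] (c : ℤ) {k : ℕ} (hk : 2 ≤ k) :
    qExpansion 1 (eisForm M c hk) = (eisQ M c k).map (algebraMap ℚ ℂ) := by
  ext n
  rw [qExpansion_eisForm_coeff, PowerSeries.coeff_map]
  rfl

/-- The generator depends only on `c` modulo `M`. -/
theorem gZ_congr (M : ℕ) [NeZero M] {c c' : ℤ} (h : (M : ℤ) ∣ c - c') : gZ M c = gZ M c' := by
  funext b
  unfold gZ
  apply zetaPow_eq_of_dvd_sub
  have : -c * (b.val : ℤ) - -c' * (b.val : ℤ) = -(b.val : ℤ) * (c - c') := by ring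
  rw [this]
  exact Dvd.dvd.mul_left h _

/-- **Diamond action**: for `γ ∈ Γ₀(M)` with upper left entry `a`, `E_{K,c} ∣ γ = E_{K, c a}`. -/
theorem eisForm_slash_Gamma0 (M : ℕ) [NeZero M] (c : ℤ) {k : ℕ} (hk : 2 ≤ k) (γ : SL(2, ℤ))
    (hγ : γ ∈ Gamma0 M) :
    (⇑(eisForm M c hk)) ∣[((k + 1 : ℕ) : ℤ)] γ = ⇑(eisForm M (c * γ 0 0) hk) := by
  have h1 : (⇑(eisForm M c hk) : ℍ → ℂ) =
      (normC M k)⁻¹ • H332.wEis (perWeight M (typeII M (gZ M c))) ((k + 1 : ℕ) : ℤ) := by
    funext z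
    rfl
  have h2 : (⇑(eisForm M (c * γ 0 0) hk) : ℍ → ℂ) =
      (normC M k)⁻¹ • H332.wEis (perWeight M (typeII M (gZ M (c * γ 0 0)))) ((k + 1 : ℕ) : ℤ) := by
    funext z
    rfl
  have hg : (fun y : ZMod M => gZ M c (y * ((γ 0 0 : ℤ) : ZMod M))) = gZ M (c * γ 0 0) := by
    funext y
    have hy : y = ((y.val : ℤ) : ZMod M) := by
      rw [Int.cast_natCast, ZMod.natCast_val, ZMod.cast_id', id]
    have e1 : gZ M c (y * ((γ 0 0 : ℤ) : ZMod M)) =
        gZ M c ((((y.val : ℤ) * (γ 0 0 : ℤ) : ℤ)) : ZMod M) := by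
      rw [Int.cast_mul, ← hy]
    have e2 : gZ M (c * γ 0 0) y = gZ M (c * γ 0 0) ((y.val : ℤ) : ZMod M) := by
      rw [← hy]
    rw [e1, e2, gZ_intCast, gZ_intCast]
    congr 1
    ring
  rw [h1, h2, ModularForm.SL_smul_slash, typeII_slash_Gamma0 M _ _ γ hγ, hg]

end Fermat.Agent.S48.H76

end
end
-- ===== PACK-END S48/H76/GenQX3.lean

-- ===== PACK-BEGIN S28/H568/Series.lean
section



/-!
# S28 / H568 — formal preliminaries on `LaurentSeries ℂ`

* order / leading coefficient of integer powers and finite products;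
* the subring of Laurent series with coefficients in a subring `C ⊆ ℂ`;
* `InfExp` for integer powers and finite products.
-/

set_option autoImplicit false

noncomputable section

open HahnSeries ModularCurve UpperHalfPlane Complex
open scoped Real

namespace Fermat.Agent.S28.H568

open Fermat.Agent.S24

/-! ### order and leading coefficient -/

section Order

variable {K : Type*} [Field K]

theorem order_inv' {x : LaurentSeries K} (hx : x ≠ 0) : (x⁻¹).order = -x.order := by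
  have h := HahnSeries.order_mul hx (inv_ne_zero hx)
  rw [mul_inv_cancel₀ hx, HahnSeries.order_one] at h
  linarith

theorem leadingCoeff_inv' (x : LaurentSeries K) : (x⁻¹).leadingCoeff = x.leadingCoeff⁻¹ := by
  rcases eq_or_ne x 0 with rfl | hx
  · simp
  · have h := HahnSeries.leadingCoeff_mul x x⁻¹
    rw [mul_inv_cancel₀ hx, HahnSeries.leadingCoeff_one] at h
    exact eq_inv_of_mul_eq_one_right h.symm

theorem order_pow' {x : LaurentSeries K} (hx : x ≠ 0) (n : ℕ) :
    (x ^ n).order = n * x.order := by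
  induction n with
  | zero => simp
  | succ n ih =>
    rw [pow_succ, HahnSeries.order_mul (pow_ne_zero n hx) hx, ih]
    push_cast
    ring

theorem leadingCoeff_pow' (x : LaurentSeries K) (n : ℕ) :
    (x ^ n).leadingCoeff = x.leadingCoeff ^ n := by
  induction n with
  | zero => simp
  | succ n ih => rw [pow_succ, HahnSeries.leadingCoeff_mul, ih, pow_succ]

theorem order_zpow' {x : LaurentSeries K} (hx : x ≠ 0) (r : ℤ) :
    (x ^ r).order = r * x.order := by
  obtain ⟨n, rfl | rfl⟩ := r.eq_nat_or_neg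
  · rw [zpow_natCast, order_pow' hx]
  · rw [zpow_neg, zpow_natCast, order_inv' (pow_ne_zero n hx), order_pow' hx]
    ring

theorem leadingCoeff_zpow' (x : LaurentSeries K) (r : ℤ) :
    (x ^ r).leadingCoeff = x.leadingCoeff ^ r := by
  obtain ⟨n, rfl | rfl⟩ := r.eq_nat_or_neg
  · rw [zpow_natCast, zpow_natCast, leadingCoeff_pow']
  · rw [zpow_neg, zpow_natCast, zpow_neg, zpow_natCast, leadingCoeff_inv', leadingCoeff_pow']

theorem order_prod' {ι : Type*} (s : Finset ι) (f : ι → LaurentSeries K)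
    (hf : ∀ i ∈ s, f i ≠ 0) : (∏ i ∈ s, f i).order = ∑ i ∈ s, (f i).order := by
  classical
  induction s using Finset.induction_on with
  | empty => simp
  | insert a s ha ih =>
    rw [Finset.prod_insert ha, Finset.sum_insert ha,
      HahnSeries.order_mul (hf a (Finset.mem_insert_self a s))
        (Finset.prod_ne_zero_iff.mpr fun i hi => hf i (Finset.mem_insert_of_mem hi)),
      ih fun i hi => hf i (Finset.mem_insert_of_mem hi)]

theorem leadingCoeff_prod' {ι : Type*} (s : Finset ι) (f : ι → LaurentSeries K) :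
    (∏ i ∈ s, f i).leadingCoeff = ∏ i ∈ s, (f i).leadingCoeff := by
  classical
  induction s using Finset.induction_on with
  | empty => simp
  | insert a s ha ih =>
    rw [Finset.prod_insert ha, Finset.prod_insert ha, HahnSeries.leadingCoeff_mul, ih]

end Order

/-! ### series with coefficients in a subring -/

section Coeff

variable (C : Subring ℂ)

/-- Laurent series over `ℂ` all of whose coefficients lie in the subring `C`. -/
def coeffSubring : Subring (LaurentSeries ℂ) := (coeffMap C.subtype).range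

variable {C}

theorem mem_coeffSubring_iff {φ : LaurentSeries ℂ} :
    φ ∈ coeffSubring C ↔ ∀ n, φ.coeff n ∈ C := by
  constructor
  · rintro ⟨ψ, rfl⟩ n
    rw [coeffMap_coeff]
    exact (ψ.coeff n).2
  · intro h
    refine ⟨⟨fun n => ⟨φ.coeff n, h n⟩, φ.isPWO_support.mono fun n hn => ?_⟩, ?_⟩
    · simp only [Function.mem_support, ne_eq] at hn
      rw [mem_support]
      intro h0
      exact hn (Subtype.ext h0)
    · ext n
      rw [coeffMap_coeff]
      rfl

theorem C_mem_coeffSubring {c : ℂ} (hc : c ∈ C) : (HahnSeries.C c : LaurentSeries ℂ) ∈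
    coeffSubring C := by
  rw [mem_coeffSubring_iff]
  intro n
  rw [C_apply]
  by_cases hn : n = 0
  · subst hn; simpa using hc
  · rw [coeff_single_of_ne hn]; exact C.zero_mem

theorem qExpand_mem_coeffSubring (e : ℕ) [NeZero e] {φ : LaurentSeries ℂ}
    (hφ : φ ∈ coeffSubring C) : qExpand ℂ e φ ∈ coeffSubring C := by
  rw [mem_coeffSubring_iff] at hφ ⊢
  intro n
  by_cases hn : (e : ℤ) ∣ n
  · obtain ⟨k, rfl⟩ := hn
    rw [qExpand_coeff_mul]
    exact hφ k
  · rw [qExpand_coeff_of_not_dvd e _ hn]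
    exact C.zero_mem

theorem infTwist_mem_coeffSubring (u : ℂˣ) (hu : (u : ℂ) ∈ C) (hu' : ((u⁻¹ : ℂˣ) : ℂ) ∈ C)
    {φ : LaurentSeries ℂ} (hφ : φ ∈ coeffSubring C) : infTwist u φ ∈ coeffSubring C := by
  rw [mem_coeffSubring_iff] at hφ ⊢
  intro n
  rw [infTwist_coeff]
  refine C.mul_mem (hφ n) ?_
  obtain ⟨m, rfl | rfl⟩ := n.eq_nat_or_neg
  · rw [zpow_natCast, Units.val_pow_eq_pow_val]
    exact C.pow_mem hu m
  · rw [zpow_neg, zpow_natCast, ← inv_pow, Units.val_pow_eq_pow_val]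
    exact C.pow_mem hu' m

theorem coeffMap_int_mem_coeffSubring (ψ : LaurentSeries ℤ) :
    coeffMap (Int.castRingHom ℂ) ψ ∈ coeffSubring C := by
  rw [mem_coeffSubring_iff]
  intro n
  rw [coeffMap_coeff]
  exact intCast_mem C _

theorem leadingCoeff_mem_of_mem_coeffSubring {φ : LaurentSeries ℂ} (hφ : φ ∈ coeffSubring C) :
    φ.leadingCoeff ∈ C := by
  rw [leadingCoeff_eq]
  exact mem_coeffSubring_iff.mp hφ _

end Coeff

/-! ### `InfExp` for powers and products -/

section Exp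

variable {N : ℕ}

theorem InfExp.pow' {f : ℍ → ℂ} {φ : LaurentSeries ℂ} (hf : InfExp N f φ) (n : ℕ) :
    InfExp N (fun τ => f τ ^ n) (φ ^ n) := by
  induction n with
  | zero => simpa using (InfExp.one (N := N))
  | succ n ih =>
    have := ih.mul hf
    simpa [pow_succ] using this

theorem InfExp.zpow' {f : ℍ → ℂ} {φ ψ : LaurentSeries ℂ} (hf : InfExp N f φ)
    (hg : InfExp N (fun τ => (f τ)⁻¹) ψ) (hφψ : φ * ψ = 1) (r : ℤ) :
    InfExp N (fun τ => f τ ^ r) (φ ^ r) := by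
  have hψ : ψ = φ⁻¹ := eq_inv_of_mul_eq_one_right hφψ
  obtain ⟨n, rfl | rfl⟩ := r.eq_nat_or_neg
  · simpa using InfExp.pow' hf n
  · have := InfExp.pow' hg n
    rw [hψ] at this
    simpa [zpow_neg, inv_pow] using this

theorem InfExp.prod' {ι : Type*} (s : Finset ι) {f : ι → ℍ → ℂ} {φ : ι → LaurentSeries ℂ}
    (hf : ∀ i ∈ s, InfExp N (f i) (φ i)) :
    InfExp N (fun τ => ∏ i ∈ s, f i τ) (∏ i ∈ s, φ i) := by
  classical
  induction s using Finset.induction_on with
  | empty => simpa using (InfExp.one (N := N))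
  | insert a s ha ih =>
    have h1 := hf a (Finset.mem_insert_self a s)
    have h2 := ih fun i hi => hf i (Finset.mem_insert_of_mem hi)
    have := h1.mul h2
    simpa [Finset.prod_insert ha] using this

end Exp

end Fermat.Agent.S28.H568

end
end
-- ===== PACK-END S28/H568/Series.lean

-- ===== PACK-BEGIN S28/H568/DeltaSeries.lean
section


/-!
# S28 / H568 — the formal discriminant over `ℤ` and `ℂ`, and its expansions along `τ ↦ (aτ+b)/d`
-/

set_option autoImplicit false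

noncomputable section

open HahnSeries ModularCurve UpperHalfPlane Complex Matrix
open scoped Real MatrixGroups

namespace Fermat.Agent.S28.H568

open Fermat.Agent.S24

/-! ### the integral series -/

/-- The formal discriminant `Δ = q ∏ (1 - qⁿ)²⁴` over `ℤ`. -/
def deltaZ : LaurentSeries ℤ :=
  HahnSeries.single (1 : ℤ) (1 : ℤ) * HahnSeries.ofPowerSeries ℤ ℤ dedekindEtaUnit

/-- The formal inverse of `Δ` over `ℤ`. -/
def deltaInvZ : LaurentSeries ℤ :=
  HahnSeries.single (-1 : ℤ) (1 : ℤ) * HahnSeries.ofPowerSeries ℤ ℤ dedekindEtaUnitInv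

theorem deltaZ_mul_deltaInvZ : deltaZ * deltaInvZ = 1 := by
  rw [deltaZ, deltaInvZ]
  have h1 : HahnSeries.single (1 : ℤ) (1 : ℤ) * HahnSeries.single (-1 : ℤ) (1 : ℤ) = 1 := by
    rw [HahnSeries.single_mul_single]
    simp
  have h2 : HahnSeries.ofPowerSeries ℤ ℤ dedekindEtaUnit *
      HahnSeries.ofPowerSeries ℤ ℤ dedekindEtaUnitInv = 1 := by
    rw [← map_mul, dedekindEtaUnit_mul_inv, map_one]
  calc _ = (HahnSeries.single (1 : ℤ) (1 : ℤ) * HahnSeries.single (-1 : ℤ) (1 : ℤ)) *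
      (HahnSeries.ofPowerSeries ℤ ℤ dedekindEtaUnit *
        HahnSeries.ofPowerSeries ℤ ℤ dedekindEtaUnitInv) := by ring
    _ = 1 := by rw [h1, h2, one_mul]

/-- `Δ` as a unit of `ℤ((q))`. -/
def deltaU : (LaurentSeries ℤ)ˣ :=
  ⟨deltaZ, deltaInvZ, deltaZ_mul_deltaInvZ, by rw [mul_comm]; exact deltaZ_mul_deltaInvZ⟩

@[simp] theorem deltaU_val : (deltaU : LaurentSeries ℤ) = deltaZ := rfl

/-- Coefficient extension `ℤ((q)) → ℂ((q))`. -/
abbrev castC : LaurentSeries ℤ →+* LaurentSeries ℂ := coeffMap (Int.castRingHom ℂ)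

theorem castC_injective : Function.Injective castC :=
  inf_coeffMap_injective (RingHom.injective_int (Int.castRingHom ℂ))

/-- The formal discriminant over `ℂ`. -/
abbrev dS : LaurentSeries ℂ := H565.deltaSeriesC

/-- The formal inverse discriminant over `ℂ`. -/
abbrev dInvS : LaurentSeries ℂ := H565.deltaInvSeriesC

theorem castC_deltaZ : castC deltaZ = dS := by
  rw [deltaZ, map_mul, coeffMap_single, coeffMap_ofPowerSeries, H565.map_dedekindEtaUnit]
  simp [H565.deltaSeriesC]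

theorem castC_deltaInvZ : castC deltaInvZ = dInvS := by
  rw [deltaInvZ, map_mul, coeffMap_single, coeffMap_ofPowerSeries]
  simp [H565.deltaInvSeriesC, H565.etaInvC]

theorem dS_mul_dInvS : dS * dInvS = 1 := H565.deltaSeriesC_mul_inv

theorem dS_ne_zero : dS ≠ 0 := left_ne_zero_of_mul_eq_one dS_mul_dInvS

theorem dInvS_ne_zero : dInvS ≠ 0 := right_ne_zero_of_mul_eq_one dS_mul_dInvS

theorem dInvS_eq_inv : dInvS = dS⁻¹ := eq_inv_of_mul_eq_one_right dS_mul_dInvS

theorem dS_coeff_one : dS.coeff 1 = 1 := by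
  have h := inf_coeff_single_mul_ofPowerSeries (1 : ℤ) (H565.etaProdC ^ 24) 0
  simp only [Nat.cast_zero, zero_add] at h
  rw [show dS = single (1 : ℤ) (1 : ℂ) * ofPowerSeries ℤ ℂ (H565.etaProdC ^ 24) from rfl, h,
    ← H565.map_dedekindEtaUnit, PowerSeries.coeff_map, PowerSeries.coeff_zero_eq_constantCoeff,
    constantCoeff_dedekindEtaUnit]
  simp

theorem dS_coeff_of_lt {m : ℤ} (hm : m < 1) : dS.coeff m = 0 :=
  inf_coeff_single_mul_ofPowerSeries_of_lt (1 : ℤ) (H565.etaProdC ^ 24) hm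

theorem dS_order : dS.order = 1 :=
  inf_order_eq_of_coeff (by rw [dS_coeff_one]; exact one_ne_zero) fun _ hm => dS_coeff_of_lt hm

theorem dS_leadingCoeff : dS.leadingCoeff = 1 := by
  rw [leadingCoeff_eq, dS_order, dS_coeff_one]

theorem dInvS_order : dInvS.order = -1 := by
  rw [dInvS_eq_inv, order_inv' dS_ne_zero, dS_order]

theorem dInvS_leadingCoeff : dInvS.leadingCoeff = 1 := by
  rw [dInvS_eq_inv, leadingCoeff_inv', dS_leadingCoeff, inv_one]

theorem dS_mem_coeffSubring (C : Subring ℂ) : dS ∈ coeffSubring C := by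
  rw [← castC_deltaZ]; exact coeffMap_int_mem_coeffSubring _

theorem dInvS_mem_coeffSubring (C : Subring ℂ) : dInvS ∈ coeffSubring C := by
  rw [← castC_deltaInvZ]; exact coeffMap_int_mem_coeffSubring _

/-! ### analytic expansions -/

local notation "Δ" => ModularForm.discriminant

theorem infExp_of_hasTExp_one {f : ℍ → ℂ} {φ : LaurentSeries ℂ} (h : H565.HasTExp 1 f φ) :
    InfExp 1 f φ := by
  intro τ
  have := h τ
  simpa [infZ] using this

theorem infExp_delta : InfExp 1 Δ dS := infExp_of_hasTExp_one H565.hasTExp_discriminant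

theorem infExp_delta_inv : InfExp 1 (fun τ => (Δ τ)⁻¹) dInvS :=
  infExp_of_hasTExp_one H565.hasTExp_discriminant_inv

/-- Expansion of `Δ((aτ+b)/d)` in `z = exp(2πiτ/N)` when `e·d = a·N`. -/
theorem infExp_delta_aff {N a d e : ℕ} [NeZero e] (b : ℤ)
    (ha : 0 < a) (hd : 0 < d) (hN : 0 < N) (he : e * d = a * N) :
    InfExp N (fun τ => Δ (infAff a b d τ)) (qExpand ℂ e (infTwist (infRoot b d) dS)) := by
  have h := infExp_delta.comp_infAff (e := e) b ha hd one_pos hN (by rw [mul_one]; exact he)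
  rw [mul_one] at h
  exact h

/-- Expansion of `Δ((aτ+b)/d)⁻¹` in `z = exp(2πiτ/N)` when `e·d = a·N`. -/
theorem infExp_delta_inv_aff {N a d e : ℕ} [NeZero e] (b : ℤ)
    (ha : 0 < a) (hd : 0 < d) (hN : 0 < N) (he : e * d = a * N) :
    InfExp N (fun τ => (Δ (infAff a b d τ))⁻¹) (qExpand ℂ e (infTwist (infRoot b d) dInvS)) := by
  have h := infExp_delta_inv.comp_infAff (e := e) b ha hd one_pos hN (by rw [mul_one]; exact he)
  rw [mul_one] at h
  exact h

/-- Expansion of `Δ(τ)` in `z = exp(2πiτ/N)`. -/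
theorem infExp_delta_N {N : ℕ} [NeZero N] : InfExp N Δ (qExpand ℂ N dS) := by
  have hN : 0 < N := Nat.pos_of_ne_zero (NeZero.ne N)
  have h := infExp_delta_aff (N := N) (e := N) 0 one_pos one_pos hN (by ring)
  rw [infRoot_zero, infTwist_one] at h
  exact h.congr fun τ => by rw [infAff_one_zero_one]

/-- Expansion of `Δ(τ)⁻¹` in `z = exp(2πiτ/N)`. -/
theorem infExp_delta_inv_N {N : ℕ} [NeZero N] :
    InfExp N (fun τ => (Δ τ)⁻¹) (qExpand ℂ N dInvS) := by
  have hN : 0 < N := Nat.pos_of_ne_zero (NeZero.ne N)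
  have h := infExp_delta_inv_aff (N := N) (e := N) 0 one_pos one_pos hN (by ring)
  rw [infRoot_zero, infTwist_one] at h
  exact h.congr fun τ => by rw [infAff_one_zero_one]

/-! ### transformation of `Δ` -/

theorem discriminant_smul (γ : SL(2, ℤ)) (τ : ℍ) :
    Δ (γ • τ) = (((γ 1 0 : ℤ) : ℂ) * τ + ((γ 1 1 : ℤ) : ℂ)) ^ 12 * Δ τ := by
  have := SlashInvariantForm.slash_action_eqn' (Γ := 𝒮ℒ) CuspForm.discriminant
    (γ := (Matrix.SpecialLinearGroup.mapGL ℝ γ)) ⟨γ, rfl⟩ τ
  have h2 : (Matrix.SpecialLinearGroup.mapGL ℝ γ) • τ = γ • τ := rfl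
  rw [h2] at this
  simpa using this

end Fermat.Agent.S28.H568

end
end
-- ===== PACK-END S28/H568/DeltaSeries.lean

-- ===== PACK-BEGIN S28/H326/Polys.lean
section
/-
S28 / helper326: from the Hecke input to the polynomials
`W = ∏ (X - w i)` and `Φ = ∏ (X - y i)` with coefficients in `ℤ[j(t^p)]`.
-/




set_option autoImplicit false
set_option linter.unusedSectionVars false

noncomputable section

namespace Fermat.Agent.S28.H326

open ModularCurve HahnSeries

/-! ### Series without negative part -/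

/-- Laurent series over `ℂ` without terms of negative degree. -/
def NonNeg : Subring (LaurentSeries ℂ) where
  carrier := {x | ∀ n : ℤ, n < 0 → x.coeff n = 0}
  mul_mem' {x y} hx hy n hn := by
    rw [HahnSeries.coeff_mul]
    refine Finset.sum_eq_zero fun ij hij => ?_
    rw [Finset.mem_antidiagonal] at hij
    rcases lt_or_ge ij.1 0 with h1 | h1
    · rw [hx _ h1, zero_mul]
    · have h2 : ij.2 < 0 := by
        have := hij.2.2
        omega
      rw [hy _ h2, mul_zero]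
  one_mem' n hn := by
    rw [HahnSeries.coeff_one, if_neg hn.ne]
  add_mem' {x y} hx hy n hn := by
    rw [HahnSeries.coeff_add, hx n hn, hy n hn, add_zero]
  zero_mem' n _ := HahnSeries.coeff_zero
  neg_mem' {x} hx n hn := by
    rw [HahnSeries.coeff_neg, hx n hn, neg_zero]

theorem C_mem_NonNeg (c : ℂ) : HahnSeries.C c ∈ NonNeg := fun n hn => by
  show (HahnSeries.single 0 c).coeff n = 0
  exact HahnSeries.coeff_single_of_ne hn.ne

variable (p : ℕ) [NeZero p]

theorem qExpand_mem_NonNeg {x : LaurentSeries ℂ} (hx : x ∈ NonNeg) :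
    qExpand ℂ p x ∈ NonNeg := fun n hn => by
  by_cases h : (p : ℤ) ∣ n
  · obtain ⟨m, rfl⟩ := h
    rw [qExpand_coeff_mul]
    refine hx m ?_
    have hp : (0 : ℤ) < p := by exact_mod_cast Nat.pos_of_ne_zero (NeZero.ne p)
    by_contra hm
    rw [not_lt] at hm
    have := mul_nonneg hp.le hm
    omega
  · exact qExpand_coeff_of_not_dvd p _ h

theorem ofPS_mem_NonNeg (g : PowerSeries ℂ) : ofPS g ∈ NonNeg := fun _ hn => ofPS_coeff_neg g hn

theorem conj_mem_NonNeg (i : Option (Fin p)) (g : PowerSeries ℂ) : conj p i g ∈ NonNeg := by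
  cases i with
  | none => exact qExpand_mem_NonNeg p (qExpand_mem_NonNeg p (ofPS_mem_NonNeg g))
  | some b => exact ofPS_mem_NonNeg _

theorem cBase_mem_NonNeg (g : PowerSeries ℂ) : cBase p g ∈ NonNeg :=
  qExpand_mem_NonNeg p (ofPS_mem_NonNeg g)

/-- An element of `ℚ[j(t^p)]` without negative part is a constant. -/
theorem exists_const_of_mem_Bsub_of_mem_NonNeg {x : LaurentSeries ℂ} (hB : x ∈ Bsub p)
    (hN : x ∈ NonNeg) : ∃ c : ℚ, x = algebraMap ℚ (LaurentSeries ℂ) c := by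
  obtain ⟨Q, rfl⟩ := hB
  rcases Nat.eq_zero_or_pos Q.natDegree with h0 | hpos
  · refine ⟨Q.coeff 0, ?_⟩
    rw [Polynomial.eq_C_of_natDegree_eq_zero h0]
    simp
  · exfalso
    have h1 := aeval_jP_coeff p Q le_rfl
    have hneg : -((p : ℤ) * (Q.natDegree : ℤ)) < 0 := by
      have hp : (0 : ℤ) < p := by exact_mod_cast Nat.pos_of_ne_zero (NeZero.ne p)
      have hd : (0 : ℤ) < Q.natDegree := by exact_mod_cast hpos
      have := mul_pos hp hd
      omega
    have h2 : (Polynomial.aeval (jP p) Q).coeff (-((p : ℤ) * (Q.natDegree : ℤ))) = 0 :=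
      hN _ hneg
    rw [h1] at h2
    have h3 : Q.coeff Q.natDegree = 0 := by exact_mod_cast h2
    have h4 : Q = 0 := Polynomial.leadingCoeff_eq_zero.mp h3
    rw [h4] at hpos
    simp at hpos

/-! ### The unit part of the `w i` -/

/-- the unit `∏ (1 - qⁿ)²⁴` over `ℂ` -/
def UC : PowerSeries ℂ := toC dedekindEtaUnit
/-- its inverse -/
def UinvC : PowerSeries ℂ := toC dedekindEtaUnitInv

theorem DC_eq : DC = PowerSeries.X * UC := by
  rw [DC, DZ, map_mul, PowerSeries.map_X, UC]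

theorem UC_mul_UinvC : UC * UinvC = 1 := by
  rw [UC, UinvC, ← map_mul, dedekindEtaUnit_mul_inv, map_one]

theorem delInv_eq : delInv p = HahnSeries.single (-(p : ℤ)) 1 * cBase p UinvC := by
  rw [delInv, deltaInvZ, map_mul, map_mul, coeffMap_single, qExpand_single, kap_ofPS, cBase,
    RingHom.comp_apply, UinvC, map_one, mul_neg, mul_one]

/-- exponent of the monomial part of `w i` -/
def wExp : Option (Fin p) → ℤ
  | none => (p : ℤ) * p - p
  | some _ => 1 - p

/-- leading constant of `conj i X` -/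
def wConst : Option (Fin p) → ℂ
  | none => 1
  | some b => zeta p ^ (b : ℕ)

/-- degree of `conj i X` -/
def xExp : Option (Fin p) → ℤ
  | none => (p : ℤ) * p
  | some _ => 1

theorem conj_X (i : Option (Fin p)) :
    conj p i PowerSeries.X = HahnSeries.C (wConst p i) * HahnSeries.single (xExp p i) 1 := by
  cases i with
  | none =>
    simp only [conj, cInf, cBase, RingHom.comp_apply, wConst, xExp, map_one, one_mul]
    rw [HahnSeries.ofPowerSeries_X, qExpand_single, qExpand_single, mul_one]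
  | some b =>
    simp only [conj, cB, RingHom.comp_apply, wConst, xExp]
    rw [PowerSeries.rescale_X, map_mul, HahnSeries.ofPowerSeries_C, HahnSeries.ofPowerSeries_X]

theorem wExp_eq (i : Option (Fin p)) : wExp p i = xExp p i - p := by
  cases i <;> simp [wExp, xExp]

/-- the power series part of `w i` -/
def wUnit (i : Option (Fin p)) : LaurentSeries ℂ :=
  scal p i * HahnSeries.C (wConst p i) * conj p i UC * cBase p UinvC

theorem w_eq (i : Option (Fin p)) : w p i = HahnSeries.single (wExp p i) 1 * wUnit p i := by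
  have h : HahnSeries.single (wExp p i) (1 : ℂ) =
      HahnSeries.single (xExp p i) 1 * HahnSeries.single (-(p : ℤ)) 1 := by
    rw [HahnSeries.single_mul_single, wExp_eq, mul_one, sub_eq_add_neg]
  rw [w, wUnit, DC_eq, map_mul, conj_X, delInv_eq, h]
  ring

theorem scal_mem_NonNeg (i : Option (Fin p)) : scal p i ∈ NonNeg := by
  cases i with
  | none => exact Subring.pow_mem _ (natCast_mem _ p) 12
  | some b => exact Subring.one_mem _

theorem wUnit_mem_NonNeg (i : Option (Fin p)) : wUnit p i ∈ NonNeg :=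
  Subring.mul_mem _ (Subring.mul_mem _ (Subring.mul_mem _ (scal_mem_NonNeg p i)
    (C_mem_NonNeg _)) (conj_mem_NonNeg p i UC)) (cBase_mem_NonNeg p UinvC)

theorem prod_single {ι : Type*} (s : Finset ι) (e : ι → ℤ) :
    ∏ i ∈ s, HahnSeries.single (e i) (1 : ℂ) = HahnSeries.single (∑ i ∈ s, e i) 1 := by
  classical
  induction s using Finset.induction_on with
  | empty => simp
  | insert a s ha ih =>
    rw [Finset.prod_insert ha, Finset.sum_insert ha, ih, HahnSeries.single_mul_single, mul_one]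

theorem sum_wExp : ∑ i, wExp p i = 0 := by
  rw [Fintype.sum_option]
  simp only [wExp, Finset.sum_const, Finset.card_univ, Fintype.card_fin, nsmul_eq_mul]
  ring

theorem prod_w_mem_NonNeg : ∏ i, w p i ∈ NonNeg := by
  simp only [w_eq]
  rw [Finset.prod_mul_distrib, prod_single, sum_wExp]
  have : HahnSeries.single (0 : ℤ) (1 : ℂ) = 1 := rfl
  rw [this, one_mul]
  exact Subring.prod_mem _ fun i _ => wUnit_mem_NonNeg p i

/-! ### Nonvanishing -/

theorem toC_injective : Function.Injective toC := by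
  intro x y h
  ext n
  have := congrArg (fun z => PowerSeries.coeff n z) h
  simpa using this

theorem conj_injective (i : Option (Fin p)) : Function.Injective (conj p i) := by
  cases i with
  | none =>
    exact (qExpand_injective p).comp ((qExpand_injective p).comp
      HahnSeries.ofPowerSeries_injective)
  | some b =>
    exact HahnSeries.ofPowerSeries_injective.comp
      (PowerSeries.rescale_injective (pow_ne_zero _ (zeta_ne_zero p)))

theorem DZ_ne_zero : DZ ≠ 0 := by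
  intro h
  have h1 : DZ.coeff 1 = 1 := by
    rw [DZ, show (1 : ℕ) = 0 + 1 from rfl, PowerSeries.coeff_succ_X_mul,
      PowerSeries.coeff_zero_eq_constantCoeff, constantCoeff_dedekindEtaUnit]
  rw [h] at h1
  simp at h1

theorem DC_ne_zero : DC ≠ 0 := fun h => DZ_ne_zero (toC_injective (by rw [← DC, h, map_zero]))

theorem delInv_ne_zero : delInv p ≠ 0 := fun h => by
  have := del_mul_delInv p
  rw [h, mul_zero] at this
  exact zero_ne_one this

theorem scal_ne_zero (i : Option (Fin p)) : scal p i ≠ 0 := by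
  cases i with
  | none =>
    refine pow_ne_zero _ fun h => ?_
    have h1 := natCast_mul_coeff p 1 0
    rw [mul_one, h, HahnSeries.coeff_zero, HahnSeries.coeff_one, if_pos rfl, mul_one] at h1
    exact NeZero.ne p (by exact_mod_cast h1.symm)
  | some b => exact one_ne_zero

theorem w_ne_zero (i : Option (Fin p)) : w p i ≠ 0 := by
  rw [w]
  refine mul_ne_zero (mul_ne_zero (scal_ne_zero p i) ?_) (delInv_ne_zero p)
  rw [Ne, map_eq_zero_iff _ (conj_injective p i)]
  exact DC_ne_zero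

/-! ### The polynomial `W` -/

/-- `W = ∏ (X - w i)` over `ℂ((t))` -/
def WPoly : Polynomial (LaurentSeries ℂ) := ∏ i, (Polynomial.X - Polynomial.C (w p i))

theorem WPoly_monic : (WPoly p).Monic :=
  Polynomial.monic_prod_of_monic _ _ fun _ _ => Polynomial.monic_X_sub_C _

theorem WPoly_natDegree : (WPoly p).natDegree = p + 1 := by
  rw [WPoly, Polynomial.natDegree_prod_of_monic _ _ fun i _ => Polynomial.monic_X_sub_C _]
  simp

theorem WPoly_coeff_mem (h : HeckeInput p) (n : ℕ) : (WPoly p).coeff n ∈ Bsub p :=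
  prod_X_sub_C_mem_of_psum_mem (Bsub p) (w p) (fun m _ => sum_w_pow_mem p h m) n

theorem WPoly_eval (i : Option (Fin p)) : (WPoly p).eval (w p i) = 0 := by
  rw [WPoly, Polynomial.eval_prod]
  exact Finset.prod_eq_zero (Finset.mem_univ i) (by simp)

theorem WPoly_coeff_zero : (WPoly p).coeff 0 = ∏ i, (-(w p i)) := by
  rw [Polynomial.coeff_zero_eq_eval_zero, WPoly, Polynomial.eval_prod]
  simp

theorem exists_WPoly_coeff_zero (h : HeckeInput p) :
    ∃ c : ℚ, c ≠ 0 ∧ (WPoly p).coeff 0 = algebraMap ℚ (LaurentSeries ℂ) c := by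
  have hN : (WPoly p).coeff 0 ∈ NonNeg := by
    rw [WPoly_coeff_zero]
    have : ∏ i, (-(w p i)) = (∏ _i : Option (Fin p), (-1 : LaurentSeries ℂ)) * ∏ i, w p i := by
      rw [← Finset.prod_mul_distrib]
      refine Finset.prod_congr rfl fun i _ => ?_
      ring
    rw [this]
    exact Subring.mul_mem _ (Subring.prod_mem _ fun _ _ => Subring.neg_mem _ (Subring.one_mem _))
      (prod_w_mem_NonNeg p)
  obtain ⟨c, hc⟩ := exists_const_of_mem_Bsub_of_mem_NonNeg p (WPoly_coeff_mem p h 0) hN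
  refine ⟨c, ?_, hc⟩
  rintro rfl
  rw [map_zero, WPoly_coeff_zero] at hc
  rw [Finset.prod_eq_zero_iff] at hc
  obtain ⟨i, -, hi⟩ := hc
  exact w_ne_zero p i (neg_eq_zero.mp hi)

end Fermat.Agent.S28.H326

end
end
-- ===== PACK-END S28/H326/Polys.lean

-- ===== PACK-BEGIN S28/H326/Conj.lean
section
/-
S28 / helper326: the conjugates `y i` of `j(t^(p²))`; power sums; lifting to `ℤ[Y][X]`.
-/



set_option autoImplicit false
set_option linter.unusedSectionVars false

noncomputable section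

namespace Fermat.Agent.S28.H326

open ModularCurve HahnSeries

variable (p : ℕ) [NeZero p]

/-! ### The conjugates of `j` -/

/-- `j(t^(p²))` and `j(ζ^b t)` -/
def y : Option (Fin p) → LaurentSeries ℂ
  | none => qExpand ℂ p (jP p)
  | some b => HahnSeries.C ((zeta p ^ (b : ℕ))⁻¹) * HahnSeries.single (-1 : ℤ) 1 *
      cB p b (toC jNum)

theorem jC_mul_ofPS_DC : jqModC ℂ * ofPS DC = ofPS EC := by
  have := congrArg kap jq_mul_deltaZ
  rwa [map_mul, coeffMap_jqModC, deltaZ, kap_ofPS, kap_ofPS] at this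

theorem y_mul_conj (i : Option (Fin p)) : y p i * conj p i DC = conj p i EC := by
  cases i with
  | none =>
    simp only [y, conj, cInf, cBase, RingHom.comp_apply, jP]
    rw [← map_mul, ← map_mul, jC_mul_ofPS_DC]
  | some b =>
    simp only [y, conj]
    have hE : EC = toC jNum * UC := by
      rw [EC, UC, ← map_mul, jNum_mul_unit]
    rw [DC_eq, hE, map_mul, map_mul]
    have hX : cB p b PowerSeries.X =
        HahnSeries.C (zeta p ^ (b : ℕ)) * HahnSeries.single (1 : ℤ) 1 := by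
      rw [cB, RingHom.comp_apply, PowerSeries.rescale_X, map_mul, HahnSeries.ofPowerSeries_C,
        HahnSeries.ofPowerSeries_X]
    rw [hX]
    have h1 : HahnSeries.C ((zeta p ^ (b : ℕ))⁻¹) * HahnSeries.C (zeta p ^ (b : ℕ)) =
        (1 : LaurentSeries ℂ) := by
      rw [← map_mul, inv_mul_cancel₀ (pow_ne_zero _ (zeta_ne_zero p)), map_one]
    have h2 : HahnSeries.single (-1 : ℤ) (1 : ℂ) * HahnSeries.single (1 : ℤ) 1 = 1 := by
      rw [HahnSeries.single_mul_single]
      simp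
    calc HahnSeries.C ((zeta p ^ (b : ℕ))⁻¹) * HahnSeries.single (-1 : ℤ) 1 *
          cB p b (toC jNum) * (HahnSeries.C (zeta p ^ (b : ℕ)) * HahnSeries.single (1 : ℤ) 1 *
            cB p b UC)
        = (HahnSeries.C ((zeta p ^ (b : ℕ))⁻¹) * HahnSeries.C (zeta p ^ (b : ℕ))) *
            (HahnSeries.single (-1 : ℤ) (1 : ℂ) * HahnSeries.single (1 : ℤ) 1) *
            (cB p b (toC jNum) * cB p b UC) := by ring
      _ = _ := by rw [h1, h2, one_mul, one_mul]

theorem y_mul_w (i : Option (Fin p)) : y p i * w p i = Y p i := by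
  rw [w, Y, ← y_mul_conj p i]
  ring

/-! ### Power sums of the `y i` -/

/-- polynomials over `ℂ((t))` with coefficients in `ℚ[j(t^p)]` -/
abbrev BPoly : Subsemiring (Polynomial (LaurentSeries ℂ)) :=
  Polynomial.lifts ((Bsub p).val : (Bsub p) →+* LaurentSeries ℂ)

theorem mem_BPoly_iff (F : Polynomial (LaurentSeries ℂ)) :
    F ∈ BPoly p ↔ ∀ n, F.coeff n ∈ Bsub p := by
  rw [Polynomial.lifts_iff_coeff_lifts]
  constructor
  · intro h n
    obtain ⟨x, hx⟩ := h n
    rw [← hx]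
    exact x.2
  · intro h n
    exact ⟨⟨F.coeff n, h n⟩, rfl⟩

theorem sum_Y_pow_mul_eval_mem (h : HeckeInput p) (a : ℕ) {F : Polynomial (LaurentSeries ℂ)}
    (hF : F ∈ BPoly p) : ∑ i, Y p i ^ a * F.eval (w p i) ∈ Bsub p := by
  have h1 : ∀ i, Y p i ^ a * F.eval (w p i) =
      ∑ r ∈ Finset.range (F.natDegree + 1), F.coeff r * (Y p i ^ a * w p i ^ r) := by
    intro i
    rw [Polynomial.eval_eq_sum_range, Finset.mul_sum]
    exact Finset.sum_congr rfl fun r _ => by ring
  simp only [h1]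
  rw [Finset.sum_comm]
  refine Subalgebra.sum_mem _ fun r _ => ?_
  rw [← Finset.mul_sum]
  obtain ⟨P, hP⟩ := sum_Y_pow_mul_w_pow p h a r
  rw [hP]
  exact Subalgebra.mul_mem _ ((mem_BPoly_iff p F).mp hF r) (theta_mem_Bsub p P)

/-- the polynomial `G` with `w i * G(w i) = 1` -/
theorem exists_inv_poly (h : HeckeInput p) :
    ∃ G : Polynomial (LaurentSeries ℂ), G ∈ BPoly p ∧ ∀ i, w p i * G.eval (w p i) = 1 := by
  obtain ⟨c, hc0, hc⟩ := exists_WPoly_coeff_zero p h
  refine ⟨Polynomial.C (algebraMap ℚ (LaurentSeries ℂ) (-c⁻¹)) * (WPoly p).divX, ?_, ?_⟩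
  · rw [mem_BPoly_iff]
    intro n
    rw [Polynomial.coeff_C_mul, Polynomial.coeff_divX]
    exact Subalgebra.mul_mem _ (Subalgebra.algebraMap_mem _ _) (WPoly_coeff_mem p h _)
  · intro i
    have h1 := WPoly_eval p i
    rw [← Polynomial.divX_mul_X_add (WPoly p), Polynomial.eval_add, Polynomial.eval_mul,
      Polynomial.eval_X, Polynomial.eval_C, hc] at h1
    rw [Polynomial.eval_mul, Polynomial.eval_C]
    have h2 : (WPoly p).divX.eval (w p i) * w p i = -algebraMap ℚ (LaurentSeries ℂ) c :=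
      eq_neg_of_add_eq_zero_left h1
    calc w p i * (algebraMap ℚ (LaurentSeries ℂ) (-c⁻¹) * (WPoly p).divX.eval (w p i))
        = algebraMap ℚ (LaurentSeries ℂ) (-c⁻¹) * ((WPoly p).divX.eval (w p i) * w p i) := by ring
      _ = algebraMap ℚ (LaurentSeries ℂ) (-c⁻¹) * (-algebraMap ℚ (LaurentSeries ℂ) c) := by rw [h2]
      _ = algebraMap ℚ (LaurentSeries ℂ) (-c⁻¹ * -c) := by
        rw [map_mul, map_neg (algebraMap ℚ (LaurentSeries ℂ)) c]
      _ = 1 := by
        rw [neg_mul_neg, inv_mul_cancel₀ hc0, map_one]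

theorem sum_y_pow_mem (h : HeckeInput p) (m : ℕ) : ∑ i, y p i ^ m ∈ Bsub p := by
  obtain ⟨G, hG, hGw⟩ := exists_inv_poly p h
  have h1 : ∀ i, y p i ^ m = Y p i ^ m * (G ^ m).eval (w p i) := by
    intro i
    rw [Polynomial.eval_pow, ← mul_pow, ← y_mul_w, mul_assoc, hGw, mul_one]
  simp only [h1]
  exact sum_Y_pow_mul_eval_mem p h m (Subsemiring.pow_mem _ hG m)

/-! ### The polynomial `Φ` -/

/-- `Φ = ∏ (X - y i)` over `ℂ((t))` -/
def PhiPoly : Polynomial (LaurentSeries ℂ) := ∏ i, (Polynomial.X - Polynomial.C (y p i))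

theorem PhiPoly_monic : (PhiPoly p).Monic :=
  Polynomial.monic_prod_of_monic _ _ fun _ _ => Polynomial.monic_X_sub_C _

theorem PhiPoly_natDegree : (PhiPoly p).natDegree = p + 1 := by
  rw [PhiPoly, Polynomial.natDegree_prod_of_monic _ _ fun i _ => Polynomial.monic_X_sub_C _]
  simp

theorem PhiPoly_coeff_mem (h : HeckeInput p) (n : ℕ) : (PhiPoly p).coeff n ∈ Bsub p :=
  prod_X_sub_C_mem_of_psum_mem (Bsub p) (y p) (fun m _ => sum_y_pow_mem p h m) n

theorem PhiPoly_eval (i : Option (Fin p)) : (PhiPoly p).eval (y p i) = 0 := by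
  rw [PhiPoly, Polynomial.eval_prod]
  exact Finset.prod_eq_zero (Finset.mem_univ i) (by simp)

/-! ### Integrality -/

theorem prod_X_sub_C_coeff_mem_subring (S : Subring (LaurentSeries ℂ)) {ι : Type*} [Fintype ι]
    (z : ι → LaurentSeries ℂ) (hz : ∀ i, z i ∈ S) (n : ℕ) :
    (∏ i, (Polynomial.X - Polynomial.C (z i))).coeff n ∈ S := by
  have : (∏ i, (Polynomial.X - Polynomial.C (z i))) =
      (∏ i, (Polynomial.X - Polynomial.C (⟨z i, hz i⟩ : S))).map S.subtype := by
    rw [Polynomial.map_prod]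
    refine Finset.prod_congr rfl fun i _ => ?_
    simp
  rw [this, Polynomial.coeff_map]
  exact Subtype.property _

theorem C_mem_IntCoeff {c : ℂ} (hc : IsIntegral ℤ c) : HahnSeries.C c ∈ IntCoeff := fun n => by
  show IsIntegral ℤ ((HahnSeries.single 0 c).coeff n)
  rcases eq_or_ne n 0 with rfl | hn
  · rw [HahnSeries.coeff_single_same]; exact hc
  · rw [HahnSeries.coeff_single_of_ne hn]; exact isIntegral_zero

theorem single_one_mem_IntCoeff (e : ℤ) : HahnSeries.single e (1 : ℂ) ∈ IntCoeff := fun n => by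
  rcases eq_or_ne n e with rfl | hn
  · rw [HahnSeries.coeff_single_same]; exact isIntegral_one
  · rw [HahnSeries.coeff_single_of_ne hn]; exact isIntegral_zero

theorem conj_mem_IntCoeff (i : Option (Fin p)) (g : PowerSeries ℤ) :
    conj p i (toC g) ∈ IntCoeff := by
  cases i with
  | none =>
    simp only [conj, cInf, cBase, RingHom.comp_apply]
    rw [← kap_ofPS]
    exact qExpand_mem_IntCoeff p (qExpand_mem_IntCoeff p (kap_mem_IntCoeff _))
  | some b => exact cB_mem_IntCoeff p b g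

theorem scal_mem_IntCoeff (i : Option (Fin p)) : scal p i ∈ IntCoeff := by
  cases i with
  | none => exact Subring.pow_mem _ (natCast_mem _ p) 12
  | some b => exact Subring.one_mem _

theorem w_mem_IntCoeff (i : Option (Fin p)) : w p i ∈ IntCoeff :=
  Subring.mul_mem _ (Subring.mul_mem _ (scal_mem_IntCoeff p i) (conj_mem_IntCoeff p i DZ))
    (delInv_mem_IntCoeff p)

theorem zeta_pow_inv_isIntegral (b : ℕ) : IsIntegral ℤ ((zeta p ^ b)⁻¹) := by
  have h0 : zeta p ^ (p - 1) * zeta p = 1 := by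
    rw [← pow_succ, Nat.sub_add_cancel (Nat.pos_of_ne_zero (NeZero.ne p)), zeta_pow_self]
  have h : (zeta p ^ b)⁻¹ = (zeta p ^ (p - 1)) ^ b := by
    rw [← inv_pow]
    congr 1
    exact (eq_inv_of_mul_eq_one_left h0).symm
  rw [h]
  exact ((zeta_isIntegral p).pow _).pow _

theorem y_mem_IntCoeff (i : Option (Fin p)) : y p i ∈ IntCoeff := by
  cases i with
  | none =>
    simp only [y]
    have := jP_pow_mem_IntCoeff p 1
    rw [pow_one] at this
    exact qExpand_mem_IntCoeff p this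
  | some b =>
    simp only [y]
    exact Subring.mul_mem _ (Subring.mul_mem _ (C_mem_IntCoeff (zeta_pow_inv_isIntegral p b))
      (single_one_mem_IntCoeff _)) (cB_mem_IntCoeff p b jNum)

/-! ### Lifting to `ℤ[Y][X]` -/

theorem exists_lift (F : Polynomial (LaurentSeries ℂ)) (hmonic : F.Monic)
    (hB : ∀ n, F.coeff n ∈ Bsub p) (hI : ∀ n, F.coeff n ∈ IntCoeff) :
    ∃ Φ : Polynomial (Polynomial ℤ), Φ.Monic ∧ Φ.natDegree = F.natDegree ∧
      Φ.map (theta p) = F := by
  have hl : F ∈ Polynomial.lifts (theta p) := by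
    rw [Polynomial.lifts_iff_coeff_lifts]
    intro n
    obtain ⟨Q, hQ⟩ := hB n
    have hQ' : Polynomial.aeval (jP p) Q = F.coeff n := hQ
    obtain ⟨Q', hQ''⟩ := exists_int_poly_of_integral p Q (hQ' ▸ hI n)
    exact ⟨Q', by rw [theta_eq_aeval, hQ'', hQ']⟩
  obtain ⟨Φ, h1, h2, h3⟩ := Polynomial.lifts_and_natDegree_eq_and_monic hl hmonic
  exact ⟨Φ, h3, h2, h1⟩

/-- **The unit polynomial over `ℤ[j]`**. -/
theorem exists_W (h : HeckeInput p) :
    ∃ W : Polynomial (Polynomial ℤ), W.Monic ∧ W.natDegree = p + 1 ∧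
      W.map (theta p) = WPoly p := by
  obtain ⟨W, h1, h2, h3⟩ := exists_lift p (WPoly p) (WPoly_monic p) (WPoly_coeff_mem p h)
    (fun n => prod_X_sub_C_coeff_mem_subring IntCoeff _ (w_mem_IntCoeff p) n)
  exact ⟨W, h1, h2.trans (WPoly_natDegree p), h3⟩

/-- **The modular polynomial over `ℤ[j]`**. -/
theorem exists_Phi (h : HeckeInput p) :
    ∃ Φ : Polynomial (Polynomial ℤ), Φ.Monic ∧ Φ.natDegree = p + 1 ∧
      Φ.map (theta p) = PhiPoly p := by
  obtain ⟨Φ, h1, h2, h3⟩ := exists_lift p (PhiPoly p) (PhiPoly_monic p) (PhiPoly_coeff_mem p h)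
    (fun n => prod_X_sub_C_coeff_mem_subring IntCoeff _ (y_mem_IntCoeff p) n)
  exact ⟨Φ, h1, h2.trans (PhiPoly_natDegree p), h3⟩

end Fermat.Agent.S28.H326

end
end
-- ===== PACK-END S28/H326/Conj.lean

-- ===== PACK-BEGIN S28/H326/Hecke.lean
section
/-
S28 / helper326: the analytic input `HeckeInput p` from the Prelude Hecke operator `T_p`
on level-one modular forms and the level-one structure theorem (helper505).
-/






set_option autoImplicit false
set_option linter.unusedSectionVars false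

noncomputable section

namespace Fermat.Agent.S28.H326

open ModularCurve HahnSeries UpperHalfPlane ModularForm MatrixGroups

/-! ### `T_p` on level one forms -/

theorem gamma0_one_coe :
    ((CongruenceSubgroup.Gamma0 1 : Subgroup SL(2, ℤ)) : Subgroup (GL (Fin 2) ℝ)) = 𝒮ℒ := by
  have h : CongruenceSubgroup.Gamma0 1 = ⊤ := by
    ext g
    simp [CongruenceSubgroup.Gamma0_mem, Subsingleton.elim (_ : ZMod 1) 0]
  rw [h, MonoidHom.range_eq_map]

/-- `T_p f` as a level one modular form. -/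
def heckeForm (k : ℤ) {p : ℕ} (hp : p.Prime) (f : ModularForm 𝒮ℒ k) : ModularForm 𝒮ℒ k where
  toFun := ModularForm.heckeT k p ⇑f
  slash_action_eq' := fun γ hγ =>
    ModularForm.heckeT_slash_eq_self_of_mem_Gamma0 (N := 1) k hp
      (by rw [Nat.dvd_one]; exact hp.one_lt.ne')
      (fun γ' hγ' => SlashInvariantFormClass.slash_action_eq f γ' (gamma0_one_coe ▸ hγ'))
      γ (gamma0_one_coe.symm ▸ hγ)
  holo' := ModularForm.mdifferentiable_heckeT (ModularFormClass.holo f) k p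
  bdd_at_cusps' := fun hc => ModularFormClass.isBoundedAt_heckeT f p hc

theorem coe_heckeForm (k : ℤ) {p : ℕ} (hp : p.Prime) (f : ModularForm 𝒮ℒ k) :
    ⇑(heckeForm k hp f) = ModularForm.heckeT k p ⇑f := rfl

theorem qExpansion_heckeForm_coeff (k : ℤ) {p : ℕ} (hp : p.Prime) (f : ModularForm 𝒮ℒ k)
    (n : ℕ) :
    (qExpansion 1 (heckeForm k hp f)).coeff n =
      (qExpansion 1 f).coeff (n * p) +
        if p ∣ n then (p : ℂ) ^ (k - 1) * (qExpansion 1 f).coeff (n / p) else 0 := by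
  have := ModularFormClass.qCoeff_heckeT f one_mem_strictPeriods_SL hp.ne_zero n
  simpa [ModularFormClass.qCoeff, coe_heckeForm, ModularForm.coeffHeckeT] using this

/-! ### The forms `E₄^{3a} Δ^r` -/

/-- `Δ` as a modular form -/
def deltaForm : ModularForm 𝒮ℒ 12 := CuspForm.toModularFormₗ CuspForm.discriminant

theorem qExpansion_deltaForm : qExpansion 1 deltaForm = H505.deltaC :=
  H505.qExpansion_discriminant_eq_deltaC

/-- `E₄^{3a} Δ^r` -/
def monoE4Delta (a r : ℕ) (k : ℤ) (hk : ((3 * a : ℕ) : ℤ) * 4 + ((r : ℕ) : ℤ) * 12 = k) :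
    ModularForm 𝒮ℒ k :=
  ModularForm.mcast hk ((E₄.pow (3 * a)).mul (deltaForm.pow r))

theorem toC_EZ : toC EZ = H505.e4C ^ 3 := by
  rw [EZ, map_pow, H505.e4C]

theorem toC_DZ : toC DZ = H505.deltaC := by
  rw [DZ, map_mul, PowerSeries.map_X, H505.deltaC, dedekindEtaUnit, map_pow]

theorem qExpansion_monoE4Delta (a r : ℕ) (k : ℤ)
    (hk : ((3 * a : ℕ) : ℤ) * 4 + ((r : ℕ) : ℤ) * 12 = k) :
    qExpansion 1 (monoE4Delta a r k hk) = toC (EZ ^ a * DZ ^ r) := by
  rw [monoE4Delta, ModularForm.qExpansion_mcast,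
    ModularForm.qExpansion_mul one_pos one_mem_strictPeriods_SL,
    ModularForm.qExpansion_pow one_pos one_mem_strictPeriods_SL,
    ModularForm.qExpansion_pow one_pos one_mem_strictPeriods_SL,
    H505.qExpansion_E₄_eq_e4C, qExpansion_deltaForm, map_mul, map_pow, map_pow, toC_EZ, toC_DZ,
    ← pow_mul]

/-! ### Integrality by leading terms, over `ℂ` -/

theorem C_mul_coeff (c : ℂ) (x : LaurentSeries ℂ) (n : ℤ) :
    (HahnSeries.C c * x).coeff n = c * x.coeff n := by
  rw [HahnSeries.C_mul_eq_smul, HahnSeries.coeff_smul, smul_eq_mul]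

theorem aeval_jC_coeff (Q : Polynomial ℂ) {n : ℕ} (hn : Q.natDegree ≤ n) :
    (Polynomial.aeval (jqModC ℂ) Q).coeff (-(n : ℤ)) = Q.coeff n := by
  rw [H505.aeval_laurent_eq_eval₂, Polynomial.eval₂_eq_sum_range' _ (Nat.lt_succ_of_le hn),
    HahnSeries.coeff_sum, Finset.sum_range_succ]
  rw [Finset.sum_eq_zero, zero_add, C_mul_coeff, coeff_jqModC_pow_self, mul_one]
  intro i hi
  rw [C_mul_coeff, coeff_jqModC_pow_of_lt ℂ (by have := Finset.mem_range.mp hi; omega),
    mul_zero]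

theorem exists_int_poly_of_kap (Q : Polynomial ℂ) (x : LaurentSeries ℤ)
    (h : Polynomial.aeval (jqModC ℂ) Q = kap x) :
    ∃ Q' : Polynomial ℤ, Polynomial.aeval (jqModC ℤ) Q' = x := by
  suffices H : ∀ d : ℕ, ∀ (Q : Polynomial ℂ) (x : LaurentSeries ℤ), Q.natDegree < d →
      Polynomial.aeval (jqModC ℂ) Q = kap x →
        ∃ Q' : Polynomial ℤ, Polynomial.aeval (jqModC ℤ) Q' = x from
    H (Q.natDegree + 1) Q x (Nat.lt_succ_self _) h
  intro d
  induction d with
  | zero => intro Q x hQ; omega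
  | succ d ih =>
    intro Q x hQ hx
    have hle : Q.natDegree ≤ d := Nat.lt_succ_iff.mp hQ
    have hlead := aeval_jC_coeff Q hle
    rw [hx, coeffMap_coeff] at hlead
    set m : ℤ := x.coeff (-(d : ℤ)) with hm
    set Q1 : Polynomial ℂ := Q - Polynomial.C (Q.coeff d) * Polynomial.X ^ d with hQ1
    have hx1 : Polynomial.aeval (jqModC ℂ) Q1 = kap (x - (m : LaurentSeries ℤ) * jqModC ℤ ^ d) := by
      rw [hQ1, map_sub, map_mul, Polynomial.aeval_C, map_pow, Polynomial.aeval_X, hx, map_sub,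
        map_mul, map_pow, coeffMap_jqModC, ← hlead]
      congr 2
      rw [H505.algebraMap_laurent_eq_C, map_intCast]
      simp
    by_cases h0 : Q1 = 0
    · refine ⟨Polynomial.C m * Polynomial.X ^ d, ?_⟩
      rw [h0, map_zero] at hx1
      have h1 : x - (m : LaurentSeries ℤ) * jqModC ℤ ^ d = 0 :=
        kap_injective (by rw [← hx1, map_zero])
      rw [map_mul, Polynomial.aeval_C, map_pow, Polynomial.aeval_X]
      rw [sub_eq_zero] at h1
      rw [h1]
      simp
    · have hdeg : Q1.natDegree < d := by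
        have h1 : Q1.natDegree ≤ d := by
          refine (Polynomial.natDegree_sub_le _ _).trans (max_le hle ?_)
          exact Polynomial.natDegree_C_mul_X_pow_le _ _
        rcases Nat.lt_or_ge Q1.natDegree d with h2 | h2
        · exact h2
        · have h3 : Q1.natDegree = d := le_antisymm h1 h2
          have h4 : Q1.coeff d = 0 := by simp [hQ1]
          have h5 : Q1.leadingCoeff = 0 := by rw [Polynomial.leadingCoeff, h3, h4]
          exact absurd (Polynomial.leadingCoeff_eq_zero.mp h5) h0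
      obtain ⟨Q', hQ'⟩ := ih Q1 _ hdeg hx1
      refine ⟨Q' + Polynomial.C m * Polynomial.X ^ d, ?_⟩
      rw [map_add, hQ', map_mul, Polynomial.aeval_C, map_pow, Polynomial.aeval_X]
      simp

/-! ### The Hecke input -/

theorem kap_heckeL_eq_gen (p : ℕ) [NeZero p] (hp : p.Prime) (φ : PowerSeries ℤ) (k' : ℕ) (k : ℤ)
    (hk' : k = (k' : ℤ)) (F : ModularForm 𝒮ℒ k) (hF : qExpansion 1 F = toC φ) :
    kap (heckeL p k' φ) =
      (p : LaurentSeries ℂ) * ofPS (qExpansion 1 (heckeForm k hp F)) := by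
  have hp0 : (p : ℂ) ≠ 0 := Nat.cast_ne_zero.mpr hp.ne_zero
  ext n
  rw [heckeL]
  simp only [map_add, map_mul, map_pow, map_natCast, coeffMap_qExpand, kap_ofPS, toC_UpZ]
  rw [HahnSeries.coeff_add, ← Nat.cast_pow, natCast_mul_coeff, natCast_mul_coeff,
    natCast_mul_coeff]
  rcases lt_or_ge n 0 with hn | hn
  · rw [ofPS_coeff_neg _ hn, ofPS_coeff_neg _ hn, mul_zero, add_zero]
    have := cBase_coeff_neg p (toC φ) hn
    rw [cBase, RingHom.comp_apply] at this
    rw [this, mul_zero]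
  · lift n to ℕ using hn
    rw [ofPS_coeff_nat, ofPS_coeff_nat, qExpansion_heckeForm_coeff, hF, coeff_Up]
    by_cases hdvd : p ∣ n
    · obtain ⟨m, rfl⟩ := hdvd
      rw [if_pos (dvd_mul_right p m)]
      have h1 : ((p * m : ℕ) : ℤ) = (p : ℤ) * m := by push_cast; ring
      rw [h1, qExpand_coeff_mul, ofPS_coeff_nat, Nat.mul_div_cancel_left m hp.pos]
      have h2 : (p : ℂ) * (p : ℂ) ^ (k - 1) = ((p ^ k' : ℕ) : ℂ) := by
        rw [hk', ← zpow_one_add₀ hp0]
        push_cast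
        rw [show (1 : ℤ) + ((k' : ℤ) - 1) = (k' : ℤ) by ring, zpow_natCast]
      rw [mul_add, ← mul_assoc, h2]
      ring
    · rw [if_neg hdvd, add_zero]
      have h1 : ¬ (p : ℤ) ∣ (n : ℤ) := by exact_mod_cast hdvd
      rw [qExpand_coeff_of_not_dvd p _ h1, mul_zero, zero_add]

theorem kap_heckeL_eq (p : ℕ) [NeZero p] (hp : p.Prime) (a r : ℕ) (k : ℤ)
    (hk : ((3 * a : ℕ) : ℤ) * 4 + ((r : ℕ) : ℤ) * 12 = k) :
    kap (heckeL p (12 * (a + r)) (EZ ^ a * DZ ^ r)) =
      (p : LaurentSeries ℂ) *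
        ofPS (qExpansion 1 (heckeForm k hp (monoE4Delta a r k hk))) :=
  kap_heckeL_eq_gen p hp _ _ k (by rw [← hk]; push_cast; ring) _ (qExpansion_monoE4Delta a r k hk)

/-- **The Hecke input holds.** -/
theorem heckeInput (p : ℕ) [NeZero p] (hp : p.Prime) : HeckeInput p := by
  intro a r
  have hk : ((3 * a : ℕ) : ℤ) * 4 + ((r : ℕ) : ℤ) * 12 = (12 * ((a + r : ℕ) : ℤ)) := by
    push_cast; ring
  obtain ⟨P, -, -, hP⟩ := H505.levelOne_structure (a + r) _ rfl
    (heckeForm _ hp (monoE4Delta a r _ hk))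
  have h1 := kap_heckeL_eq p hp a r _ hk
  rw [hP] at h1
  have hD : HahnSeries.ofPowerSeries ℤ ℂ H505.deltaC = kap deltaZ := by
    rw [deltaZ, kap_ofPS, toC_DZ]
  have h2 : Polynomial.aeval (jqModC ℂ) (Polynomial.C (p : ℂ) * P) =
      kap (heckeL p (12 * (a + r)) (EZ ^ a * DZ ^ r) * deltaInvZ ^ (a + r)) := by
    have h3 : kap deltaZ * kap deltaInvZ = 1 := by
      rw [← map_mul, deltaZ_mul_deltaInvZ, map_one]
    have h4 : (p : LaurentSeries ℂ) = HahnSeries.C (p : ℂ) := by simp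
    have h5 : kap (heckeL p (12 * (a + r)) (EZ ^ a * DZ ^ r) * deltaInvZ ^ (a + r)) =
        kap (heckeL p (12 * (a + r)) (EZ ^ a * DZ ^ r)) * kap deltaInvZ ^ (a + r) := by
      rw [map_mul, map_pow]
    have h6 : Polynomial.aeval (jqModC ℂ) (Polynomial.C (p : ℂ) * P) =
        HahnSeries.C (p : ℂ) * Polynomial.aeval (jqModC ℂ) P := by
      rw [map_mul, Polynomial.aeval_C, H505.algebraMap_laurent_eq_C]
    rw [h5, h6, h1, hD, h4]
    calc HahnSeries.C (p : ℂ) * Polynomial.aeval (jqModC ℂ) P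
        = HahnSeries.C (p : ℂ) * Polynomial.aeval (jqModC ℂ) P *
            (kap deltaZ * kap deltaInvZ) ^ (a + r) := by rw [h3, one_pow, mul_one]
      _ = _ := by rw [mul_pow]; ring
  obtain ⟨Q', hQ'⟩ := exists_int_poly_of_kap _ _ h2
  refine ⟨Q', ?_⟩
  rw [hQ', mul_assoc, ← mul_pow, mul_comm deltaInvZ, deltaZ_mul_deltaInvZ, one_pow, mul_one]

end Fermat.Agent.S28.H326

end
end
-- ===== PACK-END S28/H326/Hecke.lean

-- ===== PACK-BEGIN S28/H326/Final.lean
section
/-
S28 / helper326: the prime-level analytic stubs of the captain skeleton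
(`ModPolyData p`, `UnitPolyData p` of `Fermat.Agent.S28.Defs`).
-/





set_option autoImplicit false
set_option linter.unusedSectionVars false

noncomputable section

namespace Fermat.Agent.S28.H326

open ModularCurve HahnSeries

variable (p : ℕ) [NeZero p]

/-- the base embedding `ℤ((q)) → ℂ((t))`, `q ↦ t^p` -/
def iotaP : LaurentSeries ℤ →+* LaurentSeries ℂ := (qExpand ℂ p).comp kap

theorem iotaP_injective : Function.Injective (iotaP p) :=
  (qExpand_injective p).comp kap_injective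

theorem theta_eq_comp :
    theta p = (iotaP p).comp (Polynomial.aeval (jqModC ℤ)).toRingHom := rfl

theorem theta_eq_comp' :
    theta p = kap.comp (Polynomial.aeval (qExpand ℤ p (jqModC ℤ))).toRingHom := by
  refine Polynomial.ringHom_ext (fun a => ?_) ?_
  · simp
  · rw [theta_X]
    simp only [RingHom.comp_apply, AlgHom.toRingHom_eq_coe, RingHom.coe_coe, Polynomial.aeval_X]
    rw [coeffMap_qExpand, coeffMap_jqModC, jP]

theorem iotaP_qExpand_jq : iotaP p (qExpand ℤ p (jqModC ℤ)) = y p none := by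
  rw [iotaP, RingHom.comp_apply, coeffMap_qExpand, coeffMap_jqModC]
  rfl

theorem kap_jq : kap (jqModC ℤ) = y p (some ⟨0, Nat.pos_of_ne_zero (NeZero.ne p)⟩) := by
  rw [coeffMap_jqModC]
  simp only [y, pow_zero, inv_one, map_one, one_mul, cB_zero]
  rfl

theorem deltaL_eq : deltaL ℤ = deltaZ := by
  rw [deltaL, deltaZ, DZ, map_mul, HahnSeries.ofPowerSeries_X]
  congr 2

theorem deltaInvL_eq : deltaInvL ℤ = deltaInvZ := by
  rw [deltaInvL, deltaInvZ]
  congr 2

theorem iotaP_unit :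
    iotaP p ((p : LaurentSeries ℤ) ^ 12 * unitL ℤ p) = w p none := by
  rw [unitL, deltaL_eq, deltaInvL_eq, w, scal, conj, cInf, cBase, delInv, iotaP]
  simp only [RingHom.comp_apply, map_mul, map_pow, map_natCast, coeffMap_qExpand]
  rw [deltaZ, kap_ofPS, DC]
  ring

/-- **[A-Φ]** existence of the modular polynomial of prime level `p`. -/
theorem nonempty_modPolyData (hp : p.Prime) : Nonempty (ModPolyData p) := by
  obtain ⟨Φ, hmonic, hdeg, hmap⟩ := exists_Phi p (heckeInput p hp)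
  refine ⟨⟨Φ, hmonic, hdeg, ?_, ?_⟩⟩
  · apply iotaP_injective p
    rw [map_zero, Polynomial.hom_eval₂, ← theta_eq_comp, ← Polynomial.eval_map, hmap,
      iotaP_qExpand_jq]
    exact PhiPoly_eval p none
  · apply kap_injective
    rw [map_zero, Polynomial.hom_eval₂, ← theta_eq_comp', ← Polynomial.eval_map, hmap, kap_jq p]
    exact PhiPoly_eval p _

/-- **[A-W]** `p¹² Δ(q^p)/Δ(q)` is integral over `ℤ[j]`. -/
theorem nonempty_unitPolyData (hp : p.Prime) : Nonempty (UnitPolyData p) := by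
  obtain ⟨W, hmonic, -, hmap⟩ := exists_W p (heckeInput p hp)
  refine ⟨⟨W, hmonic, ?_⟩⟩
  apply iotaP_injective p
  rw [map_zero, Polynomial.hom_eval₂, ← theta_eq_comp, ← Polynomial.eval_map, hmap, iotaP_unit]
  exact WPoly_eval p none

end Fermat.Agent.S28.H326

end
end
-- ===== PACK-END S28/H326/Final.lean

-- ===== PACK-BEGIN S18/H438/Front/Transport2.lean
section


/-!
# S18 / ALG-FRONT (helper438), part 5: transport of charts and of the `q`-expansion principle

* `mem_baseRing_iff`  : `a ∈ R[z] ⊆ Fc`  ↔  `(a : Ω) ∈ Alg.polyRing R z`;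
* `mem_chartRing_iff` : `b ∈ chartRing (Rf Fc R) z`  ↔  `(b : Ω) ∈ Alg.chart Fc R z`;
* `transcendental_xf`, `transcendental_xf_inv`;
* `qep_fin`, `qep_inf` in the form used by `Front/Gauss.lean`.
-/

set_option autoImplicit false
set_option linter.style.haveILetI false
set_option linter.unusedSectionVars false

noncomputable section

namespace Fermat.Agent.S18.H438

open Alg Polynomial

variable {Ω : Type*} [Field Ω] {Lc Ec Fc : Subfield Ω} {R V : Subring Ω} {w x : Ω}
  {S : Finset Ω}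

section Generic

variable (Fc R) (z : Fc)

/-- `R[z] ⊆ Fc` maps into `polyRing R z ⊆ Ω`. -/
theorem coe_mem_polyRing_of_mem_baseRing {a : Fc} (ha : a ∈ baseRing (Rf Fc R) z) :
    (a : Ω) ∈ polyRing R (z : Ω) := by
  unfold baseRing at ha
  induction ha using Algebra.adjoin_induction with
  | mem y hy =>
    rw [Set.mem_singleton_iff] at hy
    subst hy
    exact Subring.subset_closure (Or.inr rfl)
  | algebraMap r => exact Subring.subset_closure (Or.inl r.2)
  | add y y' _ _ hy hy' => exact (polyRing R (z : Ω)).add_mem hy hy'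
  | mul y y' _ _ hy hy' => exact (polyRing R (z : Ω)).mul_mem hy hy'

/-- `polyRing R z ⊆ Ω` comes from `R[z] ⊆ Fc`, provided `R ⊆ Fc`. -/
theorem exists_mem_baseRing_of_mem_polyRing (hR : ∀ r ∈ R, r ∈ Fc) {c : Ω}
    (hc : c ∈ polyRing R (z : Ω)) : ∃ a ∈ baseRing (Rf Fc R) z, (a : Ω) = c := by
  have hle : polyRing R (z : Ω) ≤ (baseRing (Rf Fc R) z).toSubring.map Fc.subtype := by
    unfold polyRing
    rw [Subring.closure_le]
    rintro y (hy | hy)
    · refine ⟨⟨y, hR y hy⟩, ?_, rfl⟩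
      exact (baseRing (Rf Fc R) z).algebraMap_mem (⟨⟨y, hR y hy⟩, hy⟩ : Rf Fc R)
    · rw [Set.mem_singleton_iff] at hy
      subst hy
      exact ⟨z, self_mem_baseRing (Rf Fc R) z, rfl⟩
  obtain ⟨a, ha, rfl⟩ := hle hc
  exact ⟨a, ha, rfl⟩

theorem mem_baseRing_iff (hR : ∀ r ∈ R, r ∈ Fc) {a : Fc} :
    a ∈ baseRing (Rf Fc R) z ↔ (a : Ω) ∈ polyRing R (z : Ω) := by
  refine ⟨coe_mem_polyRing_of_mem_baseRing Fc R z, fun h => ?_⟩
  obtain ⟨a', ha', h'⟩ := exists_mem_baseRing_of_mem_polyRing Fc R z hR h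
  rwa [← Subtype.ext h']

/-- the comparison map `R[z] → polyRing R z` -/
def baseToPoly : baseRing (Rf Fc R) z →+* polyRing R (z : Ω) :=
  (Fc.subtype.comp (baseRing (Rf Fc R) z).toSubring.subtype).codRestrict (polyRing R (z : Ω))
    (fun a => coe_mem_polyRing_of_mem_baseRing Fc R z a.2)

theorem coe_baseToPoly (a : baseRing (Rf Fc R) z) :
    ((baseToPoly Fc R z a : polyRing R (z : Ω)) : Ω) = ((a : Fc) : Ω) := rfl

theorem algebraMap_comp_baseToPoly :
    (algebraMap (polyRing R (z : Ω)) Ω).comp (baseToPoly Fc R z) =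
      Fc.subtype.comp (algebraMap (baseRing (Rf Fc R) z) Fc) := rfl

theorem baseToPoly_surjective (hR : ∀ r ∈ R, r ∈ Fc) :
    Function.Surjective (baseToPoly Fc R z) := by
  rintro ⟨c, hc⟩
  obtain ⟨a, ha, h⟩ := exists_mem_baseRing_of_mem_polyRing Fc R z hR hc
  exact ⟨⟨a, ha⟩, Subtype.ext h⟩

/-- integrality over `R[z]` (inside `Fc`) is integrality over `polyRing R z` (inside `Ω`) -/
theorem isIntegral_baseRing_iff (hR : ∀ r ∈ R, r ∈ Fc) {b : Fc} :
    IsIntegral (baseRing (Rf Fc R) z) b ↔ IsIntegral (polyRing R (z : Ω)) (b : Ω) := by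
  constructor
  · intro h
    exact IsIntegral.map_of_comp_eq (baseToPoly Fc R z) Fc.subtype
      (algebraMap_comp_baseToPoly Fc R z) h
  · rintro ⟨q, hq, hqb⟩
    -- lift the monic polynomial along the surjection
    obtain ⟨p, hpq, hpdeg, hpmonic⟩ :=
      Polynomial.lifts_and_degree_eq_and_monic
        ((Polynomial.mem_lifts q).2 (by
          have hsurj := Polynomial.map_surjective (baseToPoly Fc R z)
            (baseToPoly_surjective Fc R z hR)
          exact hsurj q)) hq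
    refine ⟨p, hpmonic, ?_⟩
    have h1 : Fc.subtype (Polynomial.eval₂ (algebraMap (baseRing (Rf Fc R) z) Fc) b p) = 0 := by
      rw [Polynomial.hom_eval₂, ← algebraMap_comp_baseToPoly, ← Polynomial.eval₂_map, hpq]
      exact hqb
    exact Fc.subtype_injective (by rw [h1, map_zero])

theorem mem_chartRing_iff (hR : ∀ r ∈ R, r ∈ Fc) {b : Fc} :
    b ∈ chartRing (Rf Fc R) z ↔ (b : Ω) ∈ chart Fc R (z : Ω) := by
  show IsIntegral (baseRing (Rf Fc R) z) b ↔ _
  rw [isIntegral_baseRing_iff Fc R z hR]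
  exact ⟨fun h => ⟨b.2, h⟩, fun h => h.2⟩

end Generic

namespace GoodModelFront

variable (G : GoodModel Lc Ec Fc R V w x S)

include G

/-- `x` is transcendental over `R`. -/
theorem transcendental_xf : Transcendental (Rf Fc R) (xf G) := by
  rintro ⟨p, hp0, hp⟩
  let i : Rf Fc R →+* Lc :=
    (Fc.subtype.comp (Rf Fc R).subtype).codRestrict Lc.toSubring
      (fun r => G.E_le_L (G.R_le r.2))
  have hi : Function.Injective i := by
    intro a b hab
    apply Subtype.ext
    apply Subtype.ext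
    exact congrArg (fun t : Lc => (t : Ω)) hab
  have hcomp : (algebraMap Lc Ω).comp i = Fc.subtype.comp (algebraMap (Rf Fc R) Fc) := rfl
  apply G.x_transcendental
  refine ⟨p.map i, (Polynomial.map_ne_zero_iff hi).2 hp0, ?_⟩
  rw [Polynomial.aeval_def, Polynomial.eval₂_map, hcomp]
  have h1 := Polynomial.hom_eval₂ p (algebraMap (Rf Fc R) Fc) Fc.subtype (xf G)
  rw [Polynomial.aeval_def] at hp
  rw [hp, map_zero] at h1
  exact h1.symm

theorem transcendental_xf_inv : Transcendental (Rf Fc R) (xf G)⁻¹ :=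
  fun h => transcendental_xf G (IsAlgebraic.inv_iff.1 h)

/-- `qep` on the finite chart, in `Fc`. -/
theorem qep_fin' : ∀ b ∈ chartRing (Rf Fc R) (xf G), b * (wf G)⁻¹ ∈ Vf G →
    b * (wf G)⁻¹ ∈ chartRing (Rf Fc R) (xf G) := by
  intro b hb hbV
  rw [mem_chartRing_iff Fc R _ (fun r hr => R_le_Fc G hr)] at hb ⊢
  exact G.qep_fin _ hb hbV

/-- `qep` on the chart at infinity, in `Fc`. -/
theorem qep_inf' : ∀ b ∈ chartRing (Rf Fc R) (xf G)⁻¹, b * (wf G)⁻¹ ∈ Vf G →
    b * (wf G)⁻¹ ∈ chartRing (Rf Fc R) (xf G)⁻¹ := by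
  intro b hb hbV
  rw [mem_chartRing_iff Fc R _ (fun r hr => R_le_Fc G hr)] at hb ⊢
  exact G.qep_inf _ hb hbV

end GoodModelFront

end Fermat.Agent.S18.H438

end
end
-- ===== PACK-END S18/H438/Front/Transport2.lean

-- ===== PACK-BEGIN S18/H438/Front/Finite.lean
section



/-!
# S18 / ALG-FRONT (helper438), part 6: finiteness and constants

For `G : Alg.GoodModel Lc Ec Fc R V w x S`, inside the field `Fc`:

* `GoodModelFront.isIntegral_Rf_mem_range` : `R` is integrally closed in `Fc`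
  (hypothesis `hRF` of `H138.connected_special_fibre`);
* `GoodModelFront.finiteDimensional_baseField` : `Fc` is finite over `H138.baseField R x`;
* `GoodModelFront.finiteDimensional_fractionRing` / `_inv` : `Fc` is finite over
  `FractionRing (baseRing R z)` for `z = x`, `z = x⁻¹` (hypothesis of `Front/Chart.lean`).
-/

set_option autoImplicit false
set_option linter.style.haveILetI false
set_option linter.unusedSectionVars false

noncomputable section

namespace Fermat.Agent.S18.H438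

open Alg Polynomial

/-- Finite-dimensionality from a span statement inside an ambient field. -/
theorem finiteDimensional_of_span_subfield {K F Ω : Type*} [Field K] [Field F] [Field Ω]
    [Algebra K F] (ι : F →+* Ω) (E' : Subfield Ω)
    (hE' : ∀ c ∈ E', ∃ k : K, ι (algebraMap K F k) = c)
    (s : Finset Ω) (hs : ∀ a ∈ s, ∃ f : F, ι f = a)
    (hspan : ∀ f : F, ι f ∈ Submodule.span E' (s : Set Ω)) :
    FiniteDimensional K F := by
  classical
  choose! g hg using hs
  refine (Module.finite_def (R := K) (M := F)).2 ⟨s.image g, ?_⟩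
  rw [eq_top_iff]
  rintro f -
  obtain ⟨c, -, hc⟩ := Submodule.mem_span_finset.1 (hspan f)
  have hk : ∀ a : Ω, ∃ k : K, ι (algebraMap K F k) = (c a : Ω) := fun a => hE' _ (c a).2
  choose k hk using hk
  have hf : f = ∑ a ∈ s, k a • g a := by
    apply ι.injective
    rw [← hc, map_sum]
    refine Finset.sum_congr rfl fun a ha => ?_
    have h1 : ι (k a • g a) = (c a : Ω) * a := by
      rw [Algebra.smul_def, map_mul, hk, hg a ha]
    rw [h1]
    rfl
  rw [hf]
  refine Submodule.sum_mem _ fun a ha => Submodule.smul_mem _ _ (Submodule.subset_span ?_)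
  exact Finset.mem_coe.2 (Finset.mem_image_of_mem g ha)

variable {Ω : Type*} [Field Ω] {Lc Ec Fc : Subfield Ω} {R V : Subring Ω} {w x : Ω}
  {S : Finset Ω}

namespace GoodModelFront

variable (G : GoodModel Lc Ec Fc R V w x S)

include G

/-- a subfield of `Ω` containing `R` and `x` contains `Ec(x)` -/
theorem ratField_le_of_mem (T : Subfield Ω) (hR : ∀ r ∈ R, r ∈ T) (hx : x ∈ T) :
    ratField Ec x ≤ T := by
  unfold ratField
  rw [Subfield.closure_le]
  rintro e (he | he)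
  · rcases G.R_total e he with h | h
    · exact hR _ h
    · have := T.inv_mem (hR _ h)
      rwa [inv_inv] at this
  · rw [Set.mem_singleton_iff] at he
    rw [he]
    exact hx

/-- **`Fc` is finite over any field `K → Fc` whose image contains `R` and `x`.** -/
theorem finiteDimensional_of_mem {K : Type*} [Field K] [Algebra K Fc]
    (hR : ∀ r : Rf Fc R, ∃ k : K, algebraMap K Fc k = (r : Fc))
    (hx : ∃ k : K, algebraMap K Fc k = xf G) : FiniteDimensional K Fc := by
  obtain ⟨s, hs, hspan⟩ := G.finite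
  refine finiteDimensional_of_span_subfield Fc.subtype (ratField Ec x) ?_ s
    (fun a ha => ⟨⟨a, hs ha⟩, rfl⟩) (fun f => hspan f f.2)
  have hle : ratField Ec x ≤ ((algebraMap K Fc).fieldRange).map Fc.subtype := by
    refine ratField_le_of_mem G _ (fun r hr => ?_) ?_
    · obtain ⟨k, hk⟩ := hR ⟨⟨r, R_le_Fc G hr⟩, hr⟩
      exact ⟨algebraMap K Fc k, ⟨k, rfl⟩, by rw [hk]; rfl⟩
    · obtain ⟨k, hk⟩ := hx
      exact ⟨algebraMap K Fc k, ⟨k, rfl⟩, by rw [hk]; rfl⟩
  intro c hc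
  obtain ⟨f, ⟨k, rfl⟩, hf⟩ := hle hc
  exact ⟨k, hf⟩

/-- `Fc` is finite over `H138.baseField R x`. -/
theorem finiteDimensional_baseField :
    FiniteDimensional (H138.baseField (Rf Fc R) (xf G)) Fc :=
  finiteDimensional_of_mem G
    (fun r => ⟨⟨(r : Fc), Subfield.subset_closure (Or.inl ⟨r, rfl⟩)⟩, rfl⟩)
    ⟨⟨xf G, Subfield.subset_closure (Or.inr rfl)⟩, rfl⟩

/-- `Fc` is finite over `H138.baseField R x⁻¹`. -/
theorem finiteDimensional_baseField_inv :
    FiniteDimensional (H138.baseField (Rf Fc R) (xf G)⁻¹) Fc := by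
  rw [H138.baseField_inv]
  exact finiteDimensional_baseField G

section Frac

attribute [local instance] FractionRing.liftAlgebra

/-- `Fc` is finite over `Frac (R[x])`. -/
theorem finiteDimensional_fractionRing :
    FiniteDimensional (FractionRing (baseRing (Rf Fc R) (xf G))) Fc :=
  finiteDimensional_of_mem G
    (fun r => ⟨algebraMap (baseRing (Rf Fc R) (xf G)) _
        (algebraMap (Rf Fc R) (baseRing (Rf Fc R) (xf G)) r), by
      rw [← IsScalarTower.algebraMap_apply]; rfl⟩)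
    ⟨algebraMap (baseRing (Rf Fc R) (xf G)) _ ⟨xf G, self_mem_baseRing _ _⟩, by
      rw [← IsScalarTower.algebraMap_apply]; rfl⟩

/-- `Fc` is finite over `Frac (R[x⁻¹])`. -/
theorem finiteDimensional_fractionRing_inv :
    FiniteDimensional (FractionRing (baseRing (Rf Fc R) (xf G)⁻¹)) Fc :=
  finiteDimensional_of_mem G
    (fun r => ⟨algebraMap (baseRing (Rf Fc R) (xf G)⁻¹) _
        (algebraMap (Rf Fc R) (baseRing (Rf Fc R) (xf G)⁻¹) r), by
      rw [← IsScalarTower.algebraMap_apply]; rfl⟩)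
    ⟨(algebraMap (baseRing (Rf Fc R) (xf G)⁻¹) _ ⟨(xf G)⁻¹, self_mem_baseRing _ _⟩)⁻¹, by
      rw [map_inv₀, ← IsScalarTower.algebraMap_apply]
      show ((xf G)⁻¹)⁻¹ = xf G
      rw [inv_inv]⟩

end Frac

/-- the valuation ring `R` of the field `Ec` -/
def Re : ValuationSubring Ec :=
  { R.comap Ec.subtype with
    mem_or_inv_mem' := fun e => by
      rcases G.R_total e e.2 with h | h
      · exact Or.inl h
      · exact Or.inr h }

theorem mem_Re {e : Ec} : e ∈ Re G ↔ (e : Ω) ∈ R := Iff.rfl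

/-- **`R` is integrally closed in `Fc`.** -/
theorem isIntegral_Rf_mem_range (y : Fc) (hy : IsIntegral (Rf Fc R) y) :
    y ∈ Set.range (algebraMap (Rf Fc R) Fc) := by
  obtain ⟨p, hpm, hp⟩ := hy
  -- `y` is algebraic over `Ec`, hence lies in `Ec`
  let φ : Rf Fc R →+* Ec :=
    (Fc.subtype.comp (Rf Fc R).subtype).codRestrict Ec.toSubring (fun r => G.R_le r.2)
  have hcomp : (algebraMap Ec Ω).comp φ = Fc.subtype.comp (algebraMap (Rf Fc R) Fc) := rfl
  have hφ : Function.Injective φ := by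
    intro a b hab
    apply Subtype.ext
    apply Subtype.ext
    exact congrArg (fun t : Ec => (t : Ω)) hab
  have hyΩ : Polynomial.eval₂ ((algebraMap Ec Ω).comp φ) (y : Ω) p = 0 := by
    rw [hcomp]
    have h1 := Polynomial.hom_eval₂ p (algebraMap (Rf Fc R) Fc) Fc.subtype y
    rw [hp, map_zero] at h1
    exact h1.symm
  have halg : IsAlgebraic Ec (y : Ω) := by
    refine ⟨p.map φ, (Polynomial.map_ne_zero_iff hφ).2 hpm.ne_zero, ?_⟩
    rw [Polynomial.aeval_def, Polynomial.eval₂_map]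
    exact hyΩ
  have hyE : (y : Ω) ∈ Ec := G.E_closed_in_F y y.2 halg
  -- integrality over the valuation ring `Re`
  letI : Algebra (Rf Fc R) Ec := φ.toAlgebra
  have hint : IsIntegral (Rf Fc R) (⟨(y : Ω), hyE⟩ : Ec) := by
    refine ⟨p, hpm, ?_⟩
    apply Ec.subtype_injective
    rw [Polynomial.hom_eval₂, map_zero]
    exact hyΩ
  have hmem : (⟨(y : Ω), hyE⟩ : Ec) ∈ Re G :=
    mem_valuationSubring_of_isIntegral (Re G) (fun a => a.2) hint
  exact ⟨⟨y, hmem⟩, rfl⟩

end GoodModelFront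

end Fermat.Agent.S18.H438

end
end
-- ===== PACK-END S18/H438/Front/Finite.lean

-- ===== PACK-BEGIN S18/H438/Front/Divisor.lean
section





/-!
# S18 / ALG-FRONT (helper438), part 8: `H754.DivisibleDivisor` for a chart

* `divisibleDivisor_of_places` (generic, Mathlib + `H754/KummerSpec`): `B` a Noetherian
  integrally closed domain with fraction field `F`, `ϖ ∈ B` prime, `u ≡ 1 mod ϖ`
  (`H754.OneModPi ϖ u`), and at every discrete valuation subring `W ⊇ B[1/ϖ]` of `F` the element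
  `u` is a unit times an `m`-th power.  Then `H754.DivisibleDivisor B m u`.
* `GoodModelFront.exists_pow_unit_of_dvr` : the place hypothesis from the divisor hypothesis of
  `Alg.AlgMainStatement` (over valuation subrings of `Ω` containing `Lc`), via
  `H845.exists_pow_unit_of_forall_over`.
* `GoodModelFront.divisibleDivisor` : `H754.DivisibleDivisor B m u` for ANY realisation `B` of a
  chart of a good model (`B ⊇ R`, `ϖ ↦ w`).
-/

set_option autoImplicit false
set_option linter.style.haveILetI false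
set_option linter.unusedSectionVars false

noncomputable section

namespace Fermat.Agent.S18.H438

/-- **`DivisibleDivisor` from the places over `B[1/ϖ]`.** -/
theorem divisibleDivisor_of_places {B : Type*} [CommRing B] [IsDomain B] [IsNoetherianRing B]
    [IsIntegrallyClosed B] {F : Type*} [Field F] [Algebra B F] [IsFractionRing B F]
    (ϖ : B) (hϖ : Prime ϖ) (u : F) (hu1 : H754.OneModPi ϖ u) (m : ℕ)
    (hplace : ∀ W : ValuationSubring F, IsDiscreteValuationRing W →
      (∀ b : B, algebraMap B F b ∈ W) → (algebraMap B F ϖ)⁻¹ ∈ W →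
      ∃ s : F, s ≠ 0 ∧ u * s ^ m ∈ W ∧ (u * s ^ m)⁻¹ ∈ W) :
    H754.DivisibleDivisor B m u := by
  have hinj : Function.Injective (algebraMap B F) := IsFractionRing.injective B F
  obtain ⟨a₀, s₀, hs₀, has₀, hu₀⟩ := hu1
  have ha₀ : a₀ ∉ Ideal.span {ϖ} := by
    intro ha
    apply hs₀
    have := Ideal.sub_mem _ ha has₀
    simpa using this
  have hu0 : u ≠ 0 := by
    rintro rfl
    rw [zero_mul] at hu₀
    have : a₀ = 0 := hinj (by rw [← hu₀, map_zero])
    exact ha₀ (this ▸ Ideal.zero_mem _)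
  intro 𝔭 h𝔭 hht
  haveI := h𝔭
  by_cases hϖ𝔭 : ϖ ∈ 𝔭
  · -- `𝔭 = (ϖ)`
    have hP : (Ideal.span {ϖ} : Ideal B).IsPrime :=
      (Ideal.span_singleton_prime hϖ.ne_zero).2 hϖ
    have hle : Ideal.span {ϖ} ≤ 𝔭 := (Ideal.span_singleton_le_iff_mem _).2 hϖ𝔭
    have hne : (Ideal.span {ϖ} : Ideal B) ≠ ⊥ := by
      rw [Ne, Ideal.span_singleton_eq_bot]; exact hϖ.ne_zero
    have h1 : 𝔭.height ≤ (Ideal.span {ϖ} : Ideal B).height := by
      rw [hht, Order.one_le_iff_pos, pos_iff_ne_zero, Ne, Ideal.height_eq_zero_iff_eq_bot]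
      exact hne
    have heq : Ideal.span {ϖ} = 𝔭 := Ideal.eq_of_le_of_height_le (h := hle) (h_height := h1)
    refine ⟨1, a₀, s₀, ?_, ?_, ?_⟩
    · rw [← heq]; exact ha₀
    · rw [← heq]; exact hs₀
    · rw [one_pow, mul_one]; exact hu₀
  · -- a horizontal prime: `B_𝔭` is a DVR containing `B[1/ϖ]`
    obtain ⟨W, hW, hmem⟩ := exists_dvr_of_height_one (F := F) 𝔭 hht
    have h1𝔭 : (1 : B) ∉ 𝔭 := fun h => h𝔭.ne_top ((Ideal.eq_top_iff_one _).2 h)
    have hBW : ∀ b : B, algebraMap B F b ∈ W := fun b =>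
      (hmem _).2 ⟨b, 1, h1𝔭, by rw [map_one, mul_one]⟩
    have hϖ0 : algebraMap B F ϖ ≠ 0 := fun h => hϖ.ne_zero (hinj (by rw [h, map_zero]))
    have hϖW : (algebraMap B F ϖ)⁻¹ ∈ W :=
      (hmem _).2 ⟨1, ϖ, hϖ𝔭, by rw [inv_mul_cancel₀ hϖ0, map_one]⟩
    obtain ⟨t, ht0, h1, h2⟩ := hplace W hW hBW hϖW
    obtain ⟨a, s, hs, has⟩ := (hmem _).1 h1
    obtain ⟨a', s', hs', has'⟩ := (hmem _).1 h2
    refine ⟨t, a, s, ?_, hs, has⟩
    intro ha
    have hut : u * t ^ m ≠ 0 := mul_ne_zero hu0 (pow_ne_zero _ ht0)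
    have h3 : algebraMap B F (a * a') = algebraMap B F (s * s') := by
      rw [map_mul, map_mul, ← has, ← has']
      field_simp
    have h4 : a * a' = s * s' := hinj h3
    have h5 : s * s' ∈ 𝔭 := h4 ▸ 𝔭.mul_mem_right _ ha
    rcases h𝔭.mem_or_mem h5 with h | h
    · exact hs h
    · exact hs' h

open Alg

variable {Ω : Type*} [Field Ω] {Lc Ec Fc : Subfield Ω} {R V : Subring Ω} {w x : Ω}
  {S : Finset Ω}

namespace GoodModelFront

variable (G : GoodModel Lc Ec Fc R V w x S)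

include G

/-- A valuation subring of `Fc` containing `R` and `w⁻¹` contains `Ec`. -/
theorem ec_mem_of_inv_mem (W : ValuationSubring Fc) (hRW : ∀ r ∈ Rf Fc R, r ∈ W)
    (hwW : (wf G)⁻¹ ∈ W) : ∀ e : Fc, (e : Ω) ∈ Ec → e ∈ W := by
  intro e he
  rcases G.R_total e he with h1 | h1
  · exact hRW e h1
  · by_cases he0 : e = 0
    · rw [he0]; exact W.zero_mem
    have he0' : (e : Ω) ≠ 0 := fun h => he0 (Subtype.ext h)
    obtain ⟨n, -, hn⟩ := G.w_discrete (e : Ω)⁻¹ h1 (inv_ne_zero he0')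
    have hmem : (e⁻¹ * (wf G)⁻¹ ^ n)⁻¹ ∈ W := hRW _ hn
    have hw0 : wf G ≠ 0 := wf_ne_zero G
    have : e = (e⁻¹ * (wf G)⁻¹ ^ n)⁻¹ * (wf G)⁻¹ ^ n := by
      field_simp
    rw [this]
    exact mul_mem hmem (pow_mem hwW n)

/-- **The place hypothesis** of `divisibleDivisor_of_places` from the divisor hypothesis of
`Alg.AlgMainStatement`. -/
theorem exists_pow_unit_of_dvr {u : Fc} (hu : u ≠ 0) {m : ℕ}
    (hdiv : ∀ O : ValuationSubring Ω, (∀ a ∈ Lc, a ∈ O) →
      ∃ t : Ω, t ≠ 0 ∧ (u : Ω) * t ^ m ∈ O ∧ ((u : Ω) * t ^ m)⁻¹ ∈ O)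
    (W : ValuationSubring Fc) (hW : IsDiscreteValuationRing W)
    (hRW : ∀ r ∈ Rf Fc R, r ∈ W) (hwW : (wf G)⁻¹ ∈ W) :
    ∃ s : Fc, s ≠ 0 ∧ u * s ^ m ∈ W ∧ (u * s ^ m)⁻¹ ∈ W := by
  haveI := G.charZero
  exact H845.exists_pow_unit_of_forall_over Lc Ec Fc G.E_le_F G.L_algebraic G.compositum hu hdiv W
    (ec_mem_of_inv_mem G W hRW hwW)

/-- **`DivisibleDivisor` for any realisation `B` of a chart of a good model.** -/
theorem divisibleDivisor {B : Type*} [CommRing B] [IsDomain B] [IsNoetherianRing B]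
    [IsIntegrallyClosed B] [Algebra B Fc] [IsFractionRing B Fc]
    (hRB : ∀ r ∈ Rf Fc R, ∃ b : B, algebraMap B Fc b = r)
    (ϖ : B) (hϖ : Prime ϖ) (hϖw : algebraMap B Fc ϖ = wf G)
    {u : Fc} (hu1 : H754.OneModPi ϖ u) {m : ℕ}
    (hdiv : ∀ O : ValuationSubring Ω, (∀ a ∈ Lc, a ∈ O) →
      ∃ t : Ω, t ≠ 0 ∧ (u : Ω) * t ^ m ∈ O ∧ ((u : Ω) * t ^ m)⁻¹ ∈ O) :
    H754.DivisibleDivisor B m u := by
  have hinj : Function.Injective (algebraMap B Fc) := IsFractionRing.injective B Fc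
  have hu0 : u ≠ 0 := by
    obtain ⟨a₀, s₀, hs₀, has₀, hu₀⟩ := hu1
    rintro rfl
    rw [zero_mul] at hu₀
    have : a₀ = 0 := hinj (by rw [← hu₀, map_zero])
    apply hs₀
    have := Ideal.sub_mem _ (this ▸ Ideal.zero_mem (Ideal.span {ϖ}) : a₀ ∈ Ideal.span {ϖ}) has₀
    simpa using this
  refine divisibleDivisor_of_places ϖ hϖ u hu1 m fun W hW hBW hϖW => ?_
  refine exists_pow_unit_of_dvr G hu0 hdiv W hW (fun r hr => ?_) (by rwa [hϖw] at hϖW)
  obtain ⟨b, hb⟩ := hRB r hr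
  rw [← hb]
  exact hBW b

end GoodModelFront

end Fermat.Agent.S18.H438

end
end
-- ===== PACK-END S18/H438/Front/Divisor.lean

-- ===== PACK-BEGIN S18/H138/Connected.lean
section



/-!
# S18, Route K, ASM (helper138): the special fibre of the `x`-line model is connected

Setting: `R` a noetherian domain with `R[X]` integrally closed (e.g. a DVR), `w ∈ R` a prime
element, `F` a field of characteristic `0` containing `R`, `x ∈ F` transcendental over `R`,
`F` finite over the subfield `baseField R x` generated by `R` and `x`, and `R` integrally closed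
in `F` (i.e. `Frac R` is algebraically closed in `F` and `R` is normal).

`B_fin = chart R {x}`, `B_inf = chart R {x⁻¹}`, `B_mid = chart R {x, x⁻¹}` are the integral
closures of `R[x]`, `R[x⁻¹]`, `R[x, x⁻¹]` in `F`.

**Theorem** (`connected_special_fibre`).  If `e₁ ∈ B_fin`, `e₂ ∈ B_inf` are idempotent modulo
`w` (in their charts) and `e₁ ≡ e₂ mod w B_mid`, then `(e₁, e₂) ≡ (0, 0)` or `(1, 1)` modulo `w`.

This is the statement "`H⁰(X_k, O) = k`" for the normal model `X = Spec B_fin ∪ Spec B_inf`,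
proved by the two-chart Čech argument of `H558.cech_connected` (`H¹(X, O)` is a finitely
generated `R`-module).
-/

set_option autoImplicit false
set_option linter.style.haveILetI false

namespace Fermat.Agent.S18.H138

open Polynomial

variable {R : Type*} [CommRing R] {F : Type*} [Field F] [Algebra R F]

/-- Elements of the base field integral over an integrally closed subalgebra with that
fraction field lie in the subalgebra. -/
theorem mem_of_isIntegral_of_mem (A : Subalgebra R F) [IsIntegrallyClosed A] (K : Subfield F)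
    (hAK : ∀ a ∈ A, a ∈ K) (hfrac : ∀ z ∈ K, ∃ a ∈ A, ∃ b ∈ A, z = a / b)
    {z : F} (hzK : z ∈ K) (hz : IsIntegral A z) : z ∈ A := by
  have h := minpoly_coeff_mem A K hAK hfrac hz 0
  have h2 : minpoly K z = X - C (⟨z, hzK⟩ : K) :=
    minpoly.eq_X_sub_C_of_algebraMap_inj (⟨z, hzK⟩ : K) (algebraMap K F).injective
  rw [h2] at h
  simp only [coeff_sub, coeff_X_zero, coeff_C_zero, zero_sub] at h
  have : -(-z) ∈ A := A.neg_mem h
  simpa using this

/-- `R / w → B_fin / w` is injective. -/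
theorem dvd_of_algebraMap_eq_mul [IsIntegrallyClosed R[X]]
    (hinjR : Function.Injective (algebraMap R F)) {x : F} (hx : Transcendental R x)
    (w a : R) {t : F} (ht : t ∈ chart R ({x} : Set F))
    (h : algebraMap R F a = algebraMap R F w * t) : w ∣ a := by
  by_cases hw : w = 0
  · subst hw
    rw [map_zero, zero_mul] at h
    have : a = 0 := hinjR (by rw [h, map_zero])
    rw [this]
  have hwF : algebraMap R F w ≠ 0 := fun h0 => hw (hinjR (by rw [h0, map_zero]))
  haveI := isIntegrallyClosed_adjoin_singleton (R := R) hx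
  have htK : t ∈ baseField R x := by
    have : t = algebraMap R F a / algebraMap R F w := by
      rw [h, mul_div_cancel_left₀ _ hwF]
    rw [this]
    exact (baseField R x).div_mem (Subfield.subset_closure (Or.inl ⟨a, rfl⟩))
      (Subfield.subset_closure (Or.inl ⟨w, rfl⟩))
  have htA : t ∈ Algebra.adjoin R ({x} : Set F) :=
    mem_of_isIntegral_of_mem _ (baseField R x) (fun a ha => adjoin_le_baseField x ha)
      (fun z hz => exists_div_of_mem_baseField x hz) htK ht
  obtain ⟨P, rfl⟩ := mem_adjoin_singleton_iff.1 htA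
  have h3 : aeval x (C a - C w * P) = 0 := by
    rw [map_sub, map_mul, aeval_C, aeval_C, h, sub_self]
  have h4 := (transcendental_iff.1 hx) _ h3
  have h5 : C a = C w * P := sub_eq_zero.1 h4
  refine ⟨P.coeff 0, ?_⟩
  have := congrArg (fun p : R[X] => p.coeff 0) h5
  simpa using this

section Finite

variable [IsNoetherianRing R] [IsIntegrallyClosed R[X]] [CharZero F]

/-- `B_fin` is generated as an `R`-module by finitely many families `x ^ j * bs i`. -/
theorem exists_finite_gens {x : F} (hx : Transcendental R x)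
    [FiniteDimensional (baseField R x) F] :
    ∃ (n : ℕ) (bs : Fin n → F), (∀ i, bs i ∈ chart R ({x} : Set F)) ∧
      ∀ b ∈ chart R ({x} : Set F),
        b ∈ Submodule.span R {z : F | ∃ (j : ℕ) (i : Fin n), z = x ^ j * bs i} := by
  classical
  set A : Subalgebra R F := Algebra.adjoin R ({x} : Set F) with hA
  set K : Subfield F := baseField R x with hK
  haveI := isIntegrallyClosed_adjoin_singleton (R := R) hx
  haveI := isNoetherianRing_adjoin_singleton (R := R) hx
  let φ : A →+* K :=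
    { toFun := fun a => ⟨a, adjoin_le_baseField x a.2⟩
      map_one' := rfl
      map_mul' := fun _ _ => rfl
      map_zero' := rfl
      map_add' := fun _ _ => rfl }
  letI : Algebra A K := φ.toAlgebra
  haveI : IsScalarTower A K F := IsScalarTower.of_algebraMap_eq (fun _ => rfl)
  have hinj : Function.Injective (algebraMap A K) := by
    intro a b hab
    have : (a : F) = b := congrArg (fun t : K => (t : F)) hab
    exact Subtype.ext this
  haveI : FaithfulSMul A K := (faithfulSMul_iff_algebraMap_injective A K).2 hinj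
  haveI : IsFractionRing A K := by
    refine IsFractionRing.of_field A K (fun z => ?_)
    obtain ⟨a, ha, b, hb, h⟩ := exists_div_of_mem_baseField (R := R) x z.2
    exact ⟨⟨a, ha⟩, ⟨b, hb⟩, Subtype.ext h⟩
  haveI : CharZero K := (algebraMap K F).charZero
  haveI : Module.Finite A (integralClosure A F) :=
    IsIntegralClosure.finite A K F (integralClosure A F)
  obtain ⟨n, s, hs⟩ := Module.Finite.exists_fin (R := A) (M := integralClosure A F)
  refine ⟨n, fun i => (s i : F), fun i => (s i).2, ?_⟩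
  intro b hb
  set T : Submodule R F :=
    Submodule.span R {z : F | ∃ (j : ℕ) (i : Fin n), z = x ^ j * (s i : F)} with hT
  -- `T` is stable under multiplication by `x`, hence by `A`
  have hxT : ∀ z ∈ T, x * z ∈ T := by
    intro z hz
    induction hz using Submodule.span_induction with
    | mem z hz =>
      obtain ⟨j, i, rfl⟩ := hz
      exact Submodule.subset_span ⟨j + 1, i, by ring⟩
    | zero => simp
    | add y z _ _ hy hz => rw [mul_add]; exact T.add_mem hy hz
    | smul r z _ hz => rw [mul_smul_comm]; exact T.smul_mem r hz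
  have hAT : ∀ a ∈ A, ∀ z ∈ T, a * z ∈ T := by
    intro a ha
    induction ha using Algebra.adjoin_induction with
    | mem y hy =>
      rw [Set.mem_singleton_iff] at hy
      subst hy
      exact hxT
    | algebraMap r =>
      intro z hz
      rw [← Algebra.smul_def]
      exact T.smul_mem r hz
    | add y z _ _ hy hz =>
      intro u hu
      rw [add_mul]
      exact T.add_mem (hy u hu) (hz u hu)
    | mul y z _ _ hy hz =>
      intro u hu
      rw [mul_assoc]
      exact hy _ (hz u hu)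
  have hb' : (⟨b, hb⟩ : integralClosure A F) ∈ Submodule.span A (Set.range s) := by
    rw [hs]; trivial
  have key : ∀ c : integralClosure A F, c ∈ Submodule.span A (Set.range s) → (c : F) ∈ T := by
    intro c hc
    induction hc using Submodule.span_induction with
    | mem c hc =>
      obtain ⟨i, rfl⟩ := hc
      exact Submodule.subset_span ⟨0, i, by simp⟩
    | zero => simp
    | add y z _ _ hy hz => exact T.add_mem hy hz
    | smul a z _ hz => exact hAT a a.2 _ hz
  exact key _ hb'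

/-- **Connectedness of the special fibre of the normal `x`-line model.** -/
theorem connected_special_fibre
    (hinjR : Function.Injective (algebraMap R F))
    (hRF : ∀ y : F, IsIntegral R y → y ∈ Set.range (algebraMap R F))
    {x : F} (hx : Transcendental R x) [FiniteDimensional (baseField R x) F]
    (w : R) (hw : Prime w)
    (e₁ e₂ : F) (he₁ : e₁ ∈ chart R ({x} : Set F)) (he₂ : e₂ ∈ chart R ({x⁻¹} : Set F))
    (hi₁ : ∃ t ∈ chart R ({x} : Set F), e₁ ^ 2 - e₁ = algebraMap R F w * t)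
    (hi₂ : ∃ t ∈ chart R ({x⁻¹} : Set F), e₂ ^ 2 - e₂ = algebraMap R F w * t)
    (h₁₂ : ∃ t ∈ chart R ({x, x⁻¹} : Set F), e₁ - e₂ = algebraMap R F w * t) :
    ((∃ t ∈ chart R ({x} : Set F), e₁ = algebraMap R F w * t) ∧
      (∃ t ∈ chart R ({x⁻¹} : Set F), e₂ = algebraMap R F w * t)) ∨
    ((∃ t ∈ chart R ({x} : Set F), 1 - e₁ = algebraMap R F w * t) ∧
      (∃ t ∈ chart R ({x⁻¹} : Set F), 1 - e₂ = algebraMap R F w * t)) := by
  have hx0 : x ≠ 0 := ne_zero_of_transcendental hx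
  obtain ⟨n, bs, hbs, hgen⟩ := exists_finite_gens (R := R) hx
  exact cech_connected_sub (ι := Fin n) w x x⁻¹ (mul_inv_cancel₀ hx0)
    (chart R {x}) (chart R {x⁻¹}) (chart R {x, x⁻¹})
    (chart_mono (by simp)) (chart_mono (by simp))
    (mem_chart_of_mem rfl) (mem_chart_of_mem rfl) bs hbs hgen
    (fun b hb => exists_pow_mul_mem_chart hx0 hb)
    (fun i => exists_inv_pow_mul_mem_chart hx0 (hbs i))
    (fun b hbf hbi => by
      obtain ⟨a, ha⟩ := hRF b (isIntegral_of_mem_chart_inter hx hbf hbi)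
      exact ⟨a, ha⟩)
    (fun a ⟨t, ht, h⟩ => dvd_of_algebraMap_eq_mul hinjR hx w a ht h)
    (fun a b h => hw.dvd_or_dvd h)
    e₁ e₂ he₁ he₂ hi₁ hi₂ h₁₂

end Finite

end Fermat.Agent.S18.H138

end
-- ===== PACK-END S18/H138/Connected.lean

-- ===== PACK-BEGIN S18/H394/ChartInst.lean
section



/-!
# S18, Route K (helper394): instances for the charts `H138.chart R {x}`

For `R` noetherian with `R[X]` integrally closed, `F` of characteristic `0`, `x ∈ F` transcendental
over `R` and `F` finite over `baseField R x`: the chart `B = chart R {x}` (integral closure of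
`R[x]` in `F`), as a type, is a noetherian integrally closed domain with fraction field `F`.
-/

set_option autoImplicit false
set_option linter.style.haveILetI false

namespace Fermat.Agent.S18.H394

open Polynomial
open Fermat.Agent.S18.H138 (chart baseField)

section ChartInst

variable {R : Type*} [CommRing R] {F : Type*} [Field F] [Algebra R F]
variable [IsNoetherianRing R] [IsIntegrallyClosed R[X]] [CharZero F]

theorem chart_instances {x : F} (hx : Transcendental R x)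
    [FiniteDimensional (baseField R x) F] :
    IsNoetherianRing (chart R ({x} : Set F)) ∧ IsIntegrallyClosed (chart R ({x} : Set F)) ∧
      IsFractionRing (chart R ({x} : Set F)) F := by
  classical
  set A : Subalgebra R F := Algebra.adjoin R ({x} : Set F) with hA
  set K : Subfield F := baseField R x with hK
  haveI := H138.isIntegrallyClosed_adjoin_singleton (R := R) hx
  haveI := H138.isNoetherianRing_adjoin_singleton (R := R) hx
  let φ : A →+* K :=
    { toFun := fun a => ⟨a, H138.adjoin_le_baseField x a.2⟩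
      map_one' := rfl
      map_mul' := fun _ _ => rfl
      map_zero' := rfl
      map_add' := fun _ _ => rfl }
  letI : Algebra A K := φ.toAlgebra
  haveI : IsScalarTower A K F := IsScalarTower.of_algebraMap_eq (fun _ => rfl)
  have hinj : Function.Injective (algebraMap A K) := by
    intro a b hab
    have : (a : F) = b := congrArg (fun t : K => (t : F)) hab
    exact Subtype.ext this
  haveI : FaithfulSMul A K := (faithfulSMul_iff_algebraMap_injective A K).2 hinj
  haveI : IsFractionRing A K := by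
    refine IsFractionRing.of_field A K (fun z => ?_)
    obtain ⟨a, ha, b, hb, h⟩ := H138.exists_div_of_mem_baseField (R := R) x z.2
    exact ⟨⟨a, ha⟩, ⟨b, hb⟩, Subtype.ext h⟩
  haveI : CharZero K := (algebraMap K F).charZero
  have h1 : IsNoetherianRing (integralClosure A F) := integralClosure.isNoetherianRing (K := K) F
  have h2 : IsIntegrallyClosed (integralClosure A F) :=
    integralClosure.isIntegrallyClosedOfFiniteExtension K
  have h3 : IsFractionRing (integralClosure A F) F :=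
    integralClosure.isFractionRing_of_finite_extension K F
  exact ⟨h1, h2, h3⟩

end ChartInst

end Fermat.Agent.S18.H394

end
-- ===== PACK-END S18/H394/ChartInst.lean

-- ===== PACK-BEGIN S18/H438/Front/H138Charts.lean
section




/-!
# S18 / ALG-FRONT (helper438), part 9: the hypotheses of `H394.kummer_charts_of_regular`
on the chart `H138.chart R {x}` of a good model

For `G : Alg.GoodModel Lc Ec Fc R V w x S`, with `R' := Rf Fc R` (a type), `x' := xf G : Fc`,
`w' := wR G : R'` and `B := H138.chart R' {x'}`: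

* `GoodModelFront.prime_chart`            : `Prime (algebraMap R' B w')`;
* `GoodModelFront.oneModPi_chart`         : `(u - 1) / w ∈ V` ⟹ `H754.OneModPi (algebraMap R' B w') u`;
* `GoodModelFront.divisibleDivisor_chart` : `H754.DivisibleDivisor B m u` from the divisor
  hypothesis of `Alg.AlgMainStatement`.

The chart at infinity is obtained by applying these to `H425.goodModel_inv G`.
-/

set_option autoImplicit false
set_option linter.style.haveILetI false
set_option linter.unusedSectionVars false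

noncomputable section

namespace Fermat.Agent.S18.H438

open Alg Polynomial

section Equiv

variable {F : Type*} [Field F] (R : Subring F) (z : F)

/-- The identity `chartRing R z ≃ H138.chart R {z}`. -/
def chartEquiv138 : chartRing R z ≃+* H138.chart R ({z} : Set F) where
  toFun c := ⟨c.1, c.2⟩
  invFun c := ⟨c.1, c.2⟩
  left_inv _ := rfl
  right_inv _ := rfl
  map_mul' _ _ := rfl
  map_add' _ _ := rfl

theorem chartEquiv138_chartUnif {w : F} (hwR : w ∈ R) :
    chartEquiv138 R z (chartUnif (z := z) hwR) =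
      algebraMap R (H138.chart R ({z} : Set F)) ⟨w, hwR⟩ := rfl

theorem prime_chart138 {w : F} (hwR : w ∈ R) (h : Prime (chartUnif (z := z) hwR)) :
    Prime (algebraMap R (H138.chart R ({z} : Set F)) ⟨w, hwR⟩) := by
  rw [← chartEquiv138_chartUnif]
  exact (MulEquiv.prime_iff (chartEquiv138 R z).toMulEquiv).2 h

theorem oneModPi_chart138 {w : F} (hwR : w ∈ R) {u : F}
    (h : H754.OneModPi (chartUnif (z := z) hwR) u) :
    H754.OneModPi (algebraMap R (H138.chart R ({z} : Set F)) ⟨w, hwR⟩) u := by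
  obtain ⟨a, s, hs, has, hu⟩ := h
  refine ⟨chartEquiv138 R z a, chartEquiv138 R z s, ?_, ?_, hu⟩
  · rw [Ideal.mem_span_singleton] at hs ⊢
    rw [← chartEquiv138_chartUnif]
    intro h
    exact hs ((map_dvd_iff (chartEquiv138 R z)).1 h)
  · rw [Ideal.mem_span_singleton] at has ⊢
    rw [← chartEquiv138_chartUnif, ← map_sub]
    exact (map_dvd_iff (chartEquiv138 R z)).2 has

end Equiv

variable {Ω : Type*} [Field Ω] {Lc Ec Fc : Subfield Ω} {R V : Subring Ω} {w x : Ω}
  {S : Finset Ω}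

namespace GoodModelFront

variable (G : GoodModel Lc Ec Fc R V w x S)

/-- the uniformiser as an element of the ring `R` -/
def wR : Rf Fc R := ⟨wf G, wf_mem_Rf G⟩

@[simp] theorem coe_wR : ((wR G : Rf Fc R) : Fc) = wf G := rfl

section

attribute [local instance] FractionRing.liftAlgebra

include G in
/-- instances on `chartRing R x` -/
theorem chartRing_instances :
    IsFractionRing (chartRing (Rf Fc R) (xf G)) Fc ∧
      IsNoetherianRing (chartRing (Rf Fc R) (xf G)) := by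
  haveI := charZero_Fc G
  haveI := isDiscreteValuationRing_Rf G
  haveI := finiteDimensional_fractionRing G
  exact ⟨chartRing_isFractionRing _ _, chartRing_isNoetherianRing _ _ (transcendental_xf G)⟩

end

/-- **`w` is prime in the chart.** -/
theorem prime_chart :
    Prime (algebraMap (Rf Fc R) (H138.chart (Rf Fc R) ({xf G} : Set Fc)) (wR G)) :=
  prime_chart138 (Rf Fc R) (xf G) (wf_mem_Rf G)
    (prime_chartUnif (V := Vf G) (wf_mem_Rf G) (wf_ne_zero G) (Rf_le_Vf G) (xf_mem_Vf G)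
      (wf_inv_not_mem_Vf G) (Vf_gen G) (qep_fin' G))

/-- **`u ≡ 1 mod w` on the chart.** -/
theorem oneModPi_chart {u : Fc} (hu : ((u : Ω) - 1) * w⁻¹ ∈ V) :
    H754.OneModPi (algebraMap (Rf Fc R) (H138.chart (Rf Fc R) ({xf G} : Set Fc)) (wR G)) u := by
  obtain ⟨i1, i2⟩ := chartRing_instances G
  refine oneModPi_chart138 (Rf Fc R) (xf G) (wf_mem_Rf G)
    (oneModPi_of_sub_one_mem (V := Vf G) (wf_mem_Rf G) (wf_ne_zero G) (Rf_le_Vf G) (xf_mem_Vf G)
      (wf_inv_not_mem_Vf G) (Vf_gen G) (qep_fin' G) ?_)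
  exact hu

include G in
/-- instances on `H138.chart R {x}` -/
theorem chart_instances138 :
    IsNoetherianRing (H138.chart (Rf Fc R) ({xf G} : Set Fc)) ∧
      IsIntegrallyClosed (H138.chart (Rf Fc R) ({xf G} : Set Fc)) ∧
      IsFractionRing (H138.chart (Rf Fc R) ({xf G} : Set Fc)) Fc := by
  haveI := charZero_Fc G
  haveI := isDiscreteValuationRing_Rf G
  haveI := finiteDimensional_baseField G
  exact H394.chart_instances (transcendental_xf G)

/-- **`m ∣ div u` on the chart**, from the divisor hypothesis of `Alg.AlgMainStatement`. -/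
theorem divisibleDivisor_chart {u : Fc} (hu : ((u : Ω) - 1) * w⁻¹ ∈ V) {m : ℕ}
    (hdiv : ∀ O : ValuationSubring Ω, (∀ a ∈ Lc, a ∈ O) →
      ∃ t : Ω, t ≠ 0 ∧ (u : Ω) * t ^ m ∈ O ∧ ((u : Ω) * t ^ m)⁻¹ ∈ O) :
    H754.DivisibleDivisor (H138.chart (Rf Fc R) ({xf G} : Set Fc)) m u := by
  obtain ⟨i1, i2, i3⟩ := chart_instances138 G
  exact divisibleDivisor G
    (fun r hr => ⟨algebraMap (Rf Fc R) (H138.chart (Rf Fc R) ({xf G} : Set Fc)) ⟨r, hr⟩, rfl⟩)
    _ (prime_chart G) rfl (oneModPi_chart G hu) hdiv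

end GoodModelFront

end Fermat.Agent.S18.H438

end
end
-- ===== PACK-END S18/H438/Front/H138Charts.lean

-- ===== PACK-BEGIN S18/H394/KummerMain.lean
section




/-!
# S18, Route K, pieces b3+b4 (helper394): the Kummer endgame, user-facing form

`kummer_endgame`: two charts `B₀ ∋ x`, `B₁ ∋ x⁻¹` of a "curve over `R`" inside a field `F`
(`M = B₀[1/x] = B₁[x]`, `B₀ ∩ B₁ = R`, `B₀` finite over `R[x]`, all three `m`-root closed), `m`
invertible in `R`, `m ≥ 2`.  Then there is NO `u ∈ Fˣ` such that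
* `u` has exact order `m` modulo constants and `m`-th powers (`hord`), and
* `u` is "congruent to an `m`-th power modulo `w`" on both charts, compatibly
  (`σ₀ ^ m * u ≡ 1 mod w B₀`, `σ₁ ^ m * u ≡ 1 mod w B₁`, `σ₀ ≡ σ₁ mod w`, in the graded sense),
where `w ∈ R` is not a unit of `B₀`.

No Kummer field, no integral closure, no discriminant: the proof applies the two-chart
connectedness theorem (b5) to the graded algebra `⨁ᵢ {f | f ^ m * u ^ i ∈ B} Tⁱ ⊆ F[T]/(T^m - u)`.
-/

set_option autoImplicit false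

namespace Fermat.Agent.S18.H394

open Polynomial

variable {R F : Type*} [CommRing R] [IsLocalRing R] [IsNoetherianRing R] [Field F] [Algebra R F]

/-- **Kummer endgame** (pieces b3+b4+b5 of Route K in one statement). -/
theorem kummer_endgame
    (m : ℕ) (hm : 2 ≤ m) (ν : R) (hν : ν * (m : R) = 1)
    (w : R) (u : F) (hu : u ≠ 0)
    (B₀ B₁ M : Subalgebra R F)
    (hrc0 : RootClosed m B₀) (hrc1 : RootClosed m B₁) (hrcM : RootClosed m M)
    (x : F) (hx0 : x ≠ 0) (hx : x ∈ B₀) (hx' : x⁻¹ ∈ B₁)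
    (h0M : B₀ ≤ M) (h1M : B₁ ≤ M)
    (hloc0 : ∀ y ∈ M, ∃ n : ℕ, x ^ n * y ∈ B₀)
    (hloc1 : ∀ y ∈ M, ∃ n : ℕ, x⁻¹ ^ n * y ∈ B₁)
    (hint : ∀ y : F, y ∈ B₀ → y ∈ B₁ → ∃ r : R, algebraMap R F r = y)
    (hfin : ∃ s : Finset F, ∀ b ∈ B₀, ∃ P : F → Polynomial R,
      b = ∑ β ∈ s, Polynomial.aeval x (P β) * β)
    (hden : ∃ d ∈ B₀, d ≠ 0 ∧ d * u⁻¹ ∈ B₀)
    (hw1 : ∀ b ∈ B₀, algebraMap R F w * b ≠ 1)
    (hord : ∀ i : ℕ, 0 < i → i < m → ∀ f : F, f ≠ 0 → ∀ r : R,
        f ^ m * u ^ i ≠ algebraMap R F r)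
    (σ₀ σ₁ : F)
    (h₀ : ∃ b ∈ B₀, σ₀ ^ m * u - 1 = algebraMap R F w * b)
    (h₁ : ∃ b ∈ B₁, σ₁ ^ m * u - 1 = algebraMap R F w * b)
    (h₀₁ : ∃ γ : F, σ₀ - σ₁ = algebraMap R F w * γ ∧ γ ^ m * u ∈ M) : False := by
  classical
  have hm0 : m ≠ 0 := by omega
  have hp : (X ^ m - C u : F[X]).Monic := monic_X_pow_sub_C u hm0
  set pb := AdjoinRoot.powerBasis' hp with hpb
  have hdim : pb.dim = m := by
    rw [hpb, AdjoinRoot.powerBasis'_dim]
    exact natDegree_X_pow_sub_C
  have hT : pb.gen ^ pb.dim = algebraMap F (AdjoinRoot (X ^ m - C u : F[X])) u := by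
    rw [hdim, hpb, AdjoinRoot.powerBasis'_gen]
    have := AdjoinRoot.eval₂_root (X ^ m - C u : F[X])
    simp only [eval₂_sub, eval₂_pow, eval₂_X, eval₂_C] at this
    rw [sub_eq_zero] at this
    rw [this]
    rfl
  have hd0 : 0 < pb.dim := by omega
  have hd1 : 1 < pb.dim := by omega
  have hrc0' : RootClosed pb.dim B₀ := by rw [hdim]; exact hrc0
  have hrc1' : RootClosed pb.dim B₁ := by rw [hdim]; exact hrc1
  have hrcM' : RootClosed pb.dim M := by rw [hdim]; exact hrcM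
  obtain ⟨S, hS, hgen⟩ := kummerSub_fg pb u hu hT hd0 B₀ hrc0' x hx hfin hden
  refine kummer_endgame_aux pb u hT hd0 hd1 ν (by rw [hdim]; exact hν) w B₀ B₁ M hrc0' hrc1' hrcM'
    x hx0 hx hx' h0M h1M hloc0 hloc1 hint (↥S) (fun c => (c : AdjoinRoot (X ^ m - C u : F[X])))
    (fun c => hS c c.2) ?_ hw1 (by rw [hdim]; exact hord) σ₀ σ₁ (by rw [hdim]; exact h₀)
    (by rw [hdim]; exact h₁) (by rw [hdim]; exact h₀₁)
  intro b hb
  obtain ⟨P, hP⟩ := hgen b hb
  refine ⟨fun c => P c, ?_⟩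
  rw [finsum_eq_sum_of_fintype, hP]
  exact (Finset.sum_coe_sort S (fun c => Polynomial.aeval (algebraMap F _ x) (P c) * c)).symm

end Fermat.Agent.S18.H394

end
-- ===== PACK-END S18/H394/KummerMain.lean

-- ===== PACK-BEGIN S18/H394/KummerCharts.lean
section






/-!
# S18, Route K (helper394): the Kummer endgame on the charts of the `x`-line model

Typed core of `node_alg`.  Setting (as in `H138/Connected.lean`): `R` a noetherian local domain
with `R[X]` integrally closed (e.g. a DVR), `F` a field of characteristic `0` containing `R`,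
`x ∈ F` transcendental over `R`, `F` finite over `baseField R x`, `R` integrally closed in `F`;
charts `B₀ = chart R {x}`, `B₁ = chart R {x⁻¹}`, `M = chart R {x, x⁻¹}` (integral closures of
`R[x]`, `R[x⁻¹]`, `R[x, x⁻¹]` in `F`), `w ∈ R` a non-unit, `m` invertible in `R`.

* `kummer_charts`: the hypotheses `hrc`, `hloc`, `hint`, `hfin`, `hden`, `hw1` of
  `H394.kummer_endgame` are discharged for the charts; conclusion: `u` does NOT have exact order
  `m` modulo `Frac(R)ˣ (Fˣ)^m`.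
* `kummer_charts_prime`: for `m` prime, `u = r ^ a * y ^ m` with `r ∈ R`, `a ∈ ℤ`, `y ∈ F`.
* `kummer_charts_of_regular`: the same from the chartwise hypotheses
  `Prime w`, `H754.RegularAlong w` (b2), `H754.OneModPi w u`, `H754.DivisibleDivisor B m u`
  (via `H214.local_existence`; the saturation hypothesis `hsat` is proved here).
-/

set_option autoImplicit false
set_option linter.style.haveILetI false

namespace Fermat.Agent.S18.H394

open Polynomial
open Fermat.Agent.S18.H138 (chart baseField)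

section Basic

variable {R : Type*} [CommRing R] {F : Type*} [Field F] [Algebra R F]

theorem rootClosed_chart (S : Set F) {m : ℕ} (hm : 0 < m) : RootClosed m (chart R S) := by
  intro f hf
  rw [H138.mem_chart] at hf ⊢
  exact IsIntegral.of_pow hm hf

theorem chart_inv_pair (x : F) :
    chart R ({x⁻¹, x⁻¹⁻¹} : Set F) = chart R ({x, x⁻¹} : Set F) := by
  rw [inv_inv, Set.pair_comm]

theorem subalgebra_dvd_iff (B : Subalgebra R F) (w : R) (s : B) :
    algebraMap R B w ∣ s ↔ ∃ c ∈ B, (s : F) = algebraMap R F w * c := by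
  constructor
  · rintro ⟨c, hc⟩
    exact ⟨c, c.2, by rw [hc]; rfl⟩
  · rintro ⟨c, hc, h⟩
    exact ⟨⟨c, hc⟩, Subtype.ext h⟩

/-- Elementary unmixedness inside the fraction field. -/
theorem mem_of_mul_mem_of_prime (B : Subalgebra R F) (w : R)
    (hw : Prime (algebraMap R B w)) (s : B) (hs : ¬ algebraMap R B w ∣ s) (g : F)
    (h1 : algebraMap R F w * g ∈ B) (h2 : (s : F) * g ∈ B) : g ∈ B := by
  have hw0 : algebraMap R F w ≠ 0 := by
    intro h
    apply hw.ne_zero
    exact Subtype.ext h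
  have hdvd : algebraMap R B w ∣ s * ⟨_, h1⟩ := by
    refine ⟨⟨_, h2⟩, Subtype.ext ?_⟩
    change (s : F) * (algebraMap R F w * g) = algebraMap R F w * ((s : F) * g)
    ring
  rcases hw.dvd_or_dvd hdvd with h | h
  · exact absurd h hs
  · obtain ⟨c, hc, h3⟩ := (subalgebra_dvd_iff B w _).mp h
    have : g = c := mul_left_cancel₀ hw0 h3
    rw [this]; exact hc

end Basic

section Charts

variable {R : Type*} [CommRing R] {F : Type*} [Field F] [Algebra R F]
variable [IsNoetherianRing R] [IsIntegrallyClosed R[X]] [CharZero F]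

/-- Finite generation of the chart in the form used by `kummer_endgame`. -/
theorem exists_finset_gens {x : F} (hx : Transcendental R x)
    [FiniteDimensional (baseField R x) F] :
    ∃ s : Finset F, ∀ b ∈ chart R ({x} : Set F), ∃ P : F → R[X],
      b = ∑ β ∈ s, aeval x (P β) * β := by
  classical
  obtain ⟨n, bs, -, hgen⟩ := H138.exists_finite_gens (R := R) hx
  refine ⟨Finset.univ.image bs, fun b hb => ?_⟩
  have key : ∀ z ∈ Submodule.span R {z : F | ∃ (j : ℕ) (i : Fin n), z = x ^ j * bs i},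
      ∃ P : F → R[X], z = ∑ β ∈ Finset.univ.image bs, aeval x (P β) * β := by
    intro z hz
    induction hz using Submodule.span_induction with
    | mem z hz =>
      obtain ⟨j, i, rfl⟩ := hz
      refine ⟨fun β => if β = bs i then X ^ j else 0, ?_⟩
      rw [Finset.sum_eq_single (bs i)]
      · simp
      · intro β _ hβ
        simp [hβ]
      · intro h
        exact absurd (Finset.mem_image_of_mem bs (Finset.mem_univ i)) h
    | zero => exact ⟨fun _ => 0, by simp⟩
    | add y z _ _ hy hz =>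
      obtain ⟨P, hP⟩ := hy
      obtain ⟨Q, hQ⟩ := hz
      refine ⟨fun β => P β + Q β, ?_⟩
      rw [hP, hQ, ← Finset.sum_add_distrib]
      refine Finset.sum_congr rfl fun β _ => ?_
      rw [map_add, add_mul]
    | smul r z _ hz =>
      obtain ⟨P, hP⟩ := hz
      refine ⟨fun β => C r * P β, ?_⟩
      rw [hP, Finset.smul_sum]
      refine Finset.sum_congr rfl fun β _ => ?_
      rw [map_mul, aeval_C, Algebra.smul_def, mul_assoc]
  exact key b (hgen b hb)

/-- Every element of `F` has a denominator in the chart. -/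
theorem exists_den {x : F} (hx : Transcendental R x) [FiniteDimensional (baseField R x) F]
    (z : F) : ∃ d ∈ chart R ({x} : Set F), d ≠ 0 ∧ d * z ∈ chart R ({x} : Set F) := by
  obtain ⟨-, -, hfr⟩ := chart_instances (R := R) hx
  obtain ⟨a, b, hb, hab⟩ := IsFractionRing.div_surjective (A := chart R ({x} : Set F)) z
  have hb0 : (b : F) ≠ 0 := by
    intro h
    exact nonZeroDivisors.ne_zero hb (Subtype.ext h)
  refine ⟨b, b.2, hb0, ?_⟩
  have : (b : F) * z = a := by
    rw [← hab]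
    change (b : F) * ((a : F) / (b : F)) = a
    field_simp
  rw [this]
  exact a.2

/-- `C w ∣ Q` if `Q(x) ∈ w B₀`. -/
theorem dvd_coeff_of_aeval_eq_mul {x : F} (hx : Transcendental R x)
    (hinjR : Function.Injective (algebraMap R F)) (w : R) (hw0 : w ≠ 0) (Q : R[X]) {t : F}
    (ht : t ∈ chart R ({x} : Set F)) (h : aeval x Q = algebraMap R F w * t) (n : ℕ) :
    w ∣ Q.coeff n := by
  have hwF : algebraMap R F w ≠ 0 := fun h0 => hw0 (hinjR (by rw [h0, map_zero]))
  haveI := H138.isIntegrallyClosed_adjoin_singleton (R := R) hx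
  have htK : t ∈ baseField R x := by
    have : t = aeval x Q / algebraMap R F w := by
      rw [h, mul_div_cancel_left₀ _ hwF]
    rw [this]
    refine (baseField R x).div_mem (H138.adjoin_le_baseField x ?_)
      (Subfield.subset_closure (Or.inl ⟨w, rfl⟩))
    exact H138.mem_adjoin_singleton_iff.2 ⟨Q, rfl⟩
  have htA : t ∈ Algebra.adjoin R ({x} : Set F) :=
    H138.mem_of_isIntegral_of_mem _ (baseField R x) (fun a ha => H138.adjoin_le_baseField x ha)
      (fun z hz => H138.exists_div_of_mem_baseField x hz) htK ht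
  obtain ⟨P, rfl⟩ := H138.mem_adjoin_singleton_iff.1 htA
  have h3 : aeval x (Q - C w * P) = 0 := by
    rw [map_sub, map_mul, aeval_C, h, sub_self]
  have h4 := (transcendental_iff.1 hx) _ h3
  have h5 : Q = C w * P := sub_eq_zero.1 h4
  refine ⟨P.coeff n, ?_⟩
  rw [h5, coeff_C_mul]

variable [IsLocalRing R]

/-- **The Kummer endgame on the charts.** -/
theorem kummer_charts
    (hinjR : Function.Injective (algebraMap R F))
    (hRF : ∀ y : F, IsIntegral R y → y ∈ Set.range (algebraMap R F))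
    {x : F} (hx : Transcendental R x) [FiniteDimensional (baseField R x) F]
    (w : R) (hw : ¬ IsUnit w)
    (m : ℕ) (hm : 2 ≤ m) (ν : R) (hν : ν * (m : R) = 1)
    (u : F) (hu : u ≠ 0) (σ₀ σ₁ : F)
    (h₀ : ∃ b ∈ chart R ({x} : Set F), σ₀ ^ m * u - 1 = algebraMap R F w * b)
    (h₁ : ∃ b ∈ chart R ({x⁻¹} : Set F), σ₁ ^ m * u - 1 = algebraMap R F w * b)
    (h₀₁ : ∃ γ : F, σ₀ - σ₁ = algebraMap R F w * γ ∧ γ ^ m * u ∈ chart R ({x, x⁻¹} : Set F)) :
    ∃ i : ℕ, 0 < i ∧ i < m ∧ ∃ f : F, f ≠ 0 ∧ ∃ r : R, f ^ m * u ^ i = algebraMap R F r := by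
  by_contra hcon
  push Not at hcon
  have hx0 : x ≠ 0 := H138.ne_zero_of_transcendental hx
  have hm0 : 0 < m := by omega
  refine kummer_endgame m hm ν hν w u hu (chart R ({x} : Set F)) (chart R ({x⁻¹} : Set F))
    (chart R ({x, x⁻¹} : Set F)) (rootClosed_chart _ hm0) (rootClosed_chart _ hm0)
    (rootClosed_chart _ hm0) x hx0 (H138.mem_chart_of_mem rfl) (H138.mem_chart_of_mem rfl)
    (H138.chart_mono (by simp)) (H138.chart_mono (by simp)) ?_ ?_ ?_ (exists_finset_gens hx) ?_ ?_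
    (fun i hi him f hf r => hcon i hi him f hf r) σ₀ σ₁ h₀ h₁ h₀₁
  · intro y hy
    exact H138.exists_pow_mul_mem_chart hx0 hy
  · intro y hy
    refine H138.exists_pow_mul_mem_chart (inv_ne_zero hx0) ?_
    rw [chart_inv_pair]
    exact hy
  · intro y hy0 hy1
    obtain ⟨r, hr⟩ := hRF y (H138.isIntegral_of_mem_chart_inter hx hy0 hy1)
    exact ⟨r, hr⟩
  · obtain ⟨d, hd, hd0, hdu⟩ := exists_den (R := R) hx u⁻¹
    exact ⟨d, hd, hd0, hdu⟩
  · intro b hb h
    apply hw
    have := H138.dvd_of_algebraMap_eq_mul hinjR hx w 1 hb (by rw [map_one, h])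
    exact isUnit_of_dvd_one this

/-- For prime `m`: `u` is a constant times an `m`-th power. -/
theorem kummer_charts_prime
    (hinjR : Function.Injective (algebraMap R F))
    (hRF : ∀ y : F, IsIntegral R y → y ∈ Set.range (algebraMap R F))
    {x : F} (hx : Transcendental R x) [FiniteDimensional (baseField R x) F]
    (w : R) (hw : ¬ IsUnit w)
    (m : ℕ) (hm : m.Prime) (ν : R) (hν : ν * (m : R) = 1)
    (u : F) (hu : u ≠ 0) (σ₀ σ₁ : F)
    (h₀ : ∃ b ∈ chart R ({x} : Set F), σ₀ ^ m * u - 1 = algebraMap R F w * b)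
    (h₁ : ∃ b ∈ chart R ({x⁻¹} : Set F), σ₁ ^ m * u - 1 = algebraMap R F w * b)
    (h₀₁ : ∃ γ : F, σ₀ - σ₁ = algebraMap R F w * γ ∧ γ ^ m * u ∈ chart R ({x, x⁻¹} : Set F)) :
    ∃ (r : R) (a : ℤ) (y : F), r ≠ 0 ∧ u = algebraMap R F r ^ a * y ^ m := by
  obtain ⟨i, hi0, him, f, hf, r, hr⟩ :=
    kummer_charts hinjR hRF hx w hw m hm.two_le ν hν u hu σ₀ σ₁ h₀ h₁ h₀₁
  have hr0 : r ≠ 0 := by
    rintro rfl
    rw [map_zero] at hr
    exact mul_ne_zero (pow_ne_zero m hf) (pow_ne_zero i hu) hr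
  have hrF : algebraMap R F r ≠ 0 := fun h => hr0 (hinjR (by rw [h, map_zero]))
  have hcop : Nat.Coprime i m :=
    ((Nat.Prime.coprime_iff_not_dvd hm).mpr (Nat.not_dvd_of_pos_of_lt hi0 him)).symm
  -- Bezout
  have hbez : (i : ℤ) * Nat.gcdA i m + (m : ℤ) * Nat.gcdB i m = 1 := by
    have := Nat.gcd_eq_gcd_ab i m
    rw [hcop.gcd_eq_one] at this
    exact_mod_cast this.symm
  set a : ℤ := Nat.gcdA i m with ha
  set b : ℤ := Nat.gcdB i m with hb
  refine ⟨r, a, f⁻¹ ^ a * u ^ b, hr0, ?_⟩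
  have e1 : (f ^ m * u ^ i) ^ a = f ^ ((m : ℤ) * a) * u ^ ((i : ℤ) * a) := by
    rw [mul_zpow, ← zpow_natCast f m, ← zpow_natCast u i, ← zpow_mul, ← zpow_mul]
  have e2 : (f⁻¹ ^ a * u ^ b) ^ m = f ^ (-((m : ℤ) * a)) * u ^ ((m : ℤ) * b) := by
    rw [mul_pow, ← zpow_natCast (f⁻¹ ^ a) m, ← zpow_natCast (u ^ b) m, ← zpow_mul, ← zpow_mul,
      inv_zpow', mul_comm a (m : ℤ), mul_comm b (m : ℤ)]
  rw [← hr, e1, e2]
  have e3 : f ^ ((m : ℤ) * a) * u ^ ((i : ℤ) * a) * (f ^ (-((m : ℤ) * a)) * u ^ ((m : ℤ) * b))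
      = (f ^ ((m : ℤ) * a) * f ^ (-((m : ℤ) * a))) * (u ^ ((i : ℤ) * a) * u ^ ((m : ℤ) * b)) := by
    ring
  rw [e3, ← zpow_add₀ hf, ← zpow_add₀ hu, add_neg_cancel, zpow_zero, one_mul, hbez, zpow_one]

end Charts

end Fermat.Agent.S18.H394

end
-- ===== PACK-END S18/H394/KummerCharts.lean

-- ===== PACK-BEGIN S18/H394/KummerRegular.lean
section




/-!
# S18, Route K (helper394): typed core of `node_alg` (prime `m`)

Setting of `H394/KummerCharts.lean` (= `H138/Connected.lean`): `R` noetherian local with `R[X]`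
integrally closed, `F ⊇ R` a field of characteristic `0`, `x` transcendental, `F` finite over
`baseField R x`, `R` integrally closed in `F`; charts `B₀ = chart R {x}`, `B₁ = chart R {x⁻¹}`.

**Theorem `kummer_charts_of_regular`.**  Let `m` be a prime invertible in `R`, `w ∈ R`, `u ∈ Fˣ`.
Assume on each chart `B ∈ {B₀, B₁}`:
* `w` is prime in `B`                      (q-expansion principle),
* `H754.RegularAlong w`                    (b2: the special fibre is regular = `B12.H33.b2Regular`),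
* `H754.OneModPi w u`                      (`u ≡ 1 mod w`),
* `H754.DivisibleDivisor B m u`            (`m ∣ div u`).
Then `u = r ^ a * y ^ m` with `r ∈ R ∖ {0}`, `a ∈ ℤ`, `y ∈ F`.

Proof: `H214.local_existence` (LE) + `H394.kummer_charts_prime` (graded Kummer algebra + b5).
No Kummer extension field, no roots of unity, no enlargement of constants.
-/

set_option autoImplicit false
set_option linter.style.haveILetI false

namespace Fermat.Agent.S18.H394

open Polynomial
open Fermat.Agent.S18.H138 (chart baseField)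

section Regular

variable {R : Type*} [CommRing R] {F : Type*} [Field F] [Algebra R F]
variable [IsNoetherianRing R] [IsIntegrallyClosed R[X]] [CharZero F]

/-- `w ∤ x` in the chart `B₀`. -/
theorem not_dvd_coord (hinjR : Function.Injective (algebraMap R F)) {x : F}
    (hx : Transcendental R x) (w : R) (hw : ¬ IsUnit w) (hw0 : w ≠ 0)
    (X₀ : chart R ({x} : Set F)) (hX₀ : (X₀ : F) = x) :
    ¬ algebraMap R (chart R ({x} : Set F)) w ∣ X₀ := by
  intro h
  obtain ⟨c, hc, h⟩ := (subalgebra_dvd_iff _ w X₀).mp h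
  rw [hX₀] at h
  have := dvd_coeff_of_aeval_eq_mul hx hinjR w hw0 X hc (by rw [aeval_X]; exact h) 1
  rw [coeff_X_one] at this
  exact hw (isUnit_of_dvd_one this)

/-- The saturation property of the overlap `M` (hypothesis `hsat` of `H214.local_existence`). -/
theorem chart_saturated (hinjR : Function.Injective (algebraMap R F)) {x : F}
    (hx : Transcendental R x) (w : R)
    (hw₀ : Prime (algebraMap R (chart R ({x} : Set F)) w))
    (hw₁ : Prime (algebraMap R (chart R ({x⁻¹} : Set F)) w))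
    (f : F) (s₀ : chart R ({x} : Set F)) (hs₀ : ¬ algebraMap R (chart R ({x} : Set F)) w ∣ s₀)
    (s₁ : chart R ({x⁻¹} : Set F)) (hs₁ : ¬ algebraMap R (chart R ({x⁻¹} : Set F)) w ∣ s₁)
    (h1 : (s₀ : F) * (s₁ : F) * f ∈ chart R ({x, x⁻¹} : Set F))
    (h2 : algebraMap R F w * f ∈ chart R ({x, x⁻¹} : Set F)) :
    f ∈ chart R ({x, x⁻¹} : Set F) := by
  have hx0 : x ≠ 0 := H138.ne_zero_of_transcendental hx
  have h0M : (chart R ({x} : Set F)) ≤ (chart R ({x, x⁻¹} : Set F)) := H138.chart_mono (by simp)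
  have h1M : (chart R ({x⁻¹} : Set F)) ≤ (chart R ({x, x⁻¹} : Set F)) := H138.chart_mono (by simp)
  have hxB0 : x ∈ (chart R ({x} : Set F)) := H138.mem_chart_of_mem rfl
  have hxB1 : x⁻¹ ∈ (chart R ({x⁻¹} : Set F)) := H138.mem_chart_of_mem rfl
  have hloc0 : ∀ y ∈ (chart R ({x, x⁻¹} : Set F)), ∃ n : ℕ, x ^ n * y ∈ (chart R ({x} : Set F)) := fun y hy =>
    H138.exists_pow_mul_mem_chart hx0 hy
  have hloc1 : ∀ y ∈ (chart R ({x, x⁻¹} : Set F)), ∃ n : ℕ, x⁻¹ ^ n * y ∈ (chart R ({x⁻¹} : Set F)) := by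
    intro y hy
    refine H138.exists_pow_mul_mem_chart (inv_ne_zero hx0) ?_
    rw [chart_inv_pair]
    exact hy
  have hwnu : ¬ IsUnit w := fun h => hw₀.not_isUnit (h.map _)
  have hw0 : w ≠ 0 := by
    rintro rfl
    exact hw₀.ne_zero (map_zero _)
  have hX₁ : ¬ algebraMap R (chart R ({x⁻¹} : Set F)) w ∣ (⟨x⁻¹, hxB1⟩ : (chart R ({x⁻¹} : Set F))) :=
    not_dvd_coord hinjR (H138.transcendental_inv hx) w hwnu hw0 _ rfl
  -- `t₁ = x ^ j * s₁ ∈ (chart R ({x} : Set F)) ∖ w (chart R ({x} : Set F))`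
  obtain ⟨j, hj⟩ := hloc0 (s₁ : F) (h1M s₁.2)
  have ht₁ : ¬ algebraMap R (chart R ({x} : Set F)) w ∣ (⟨x ^ j * s₁, hj⟩ : (chart R ({x} : Set F))) := by
    intro h
    obtain ⟨c, hc, h⟩ := (subalgebra_dvd_iff _ w _).mp h
    change x ^ j * (s₁ : F) = algebraMap R F w * c at h
    obtain ⟨n, hn⟩ := hloc1 c (h0M hc)
    have hs : (s₁ : F) = x⁻¹ ^ j * (algebraMap R F w * c) := by
      rw [← h, ← mul_assoc, ← mul_pow, inv_mul_cancel₀ hx0, one_pow, one_mul]
    have hdvd : algebraMap R (chart R ({x⁻¹} : Set F)) w ∣ (⟨x⁻¹, hxB1⟩ : (chart R ({x⁻¹} : Set F))) ^ n * s₁ := by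
      rw [subalgebra_dvd_iff]
      refine ⟨x⁻¹ ^ j * (x⁻¹ ^ n * c), (chart R ({x⁻¹} : Set F)).mul_mem ((chart R ({x⁻¹} : Set F)).pow_mem hxB1 _) hn, ?_⟩
      change (x⁻¹) ^ n * (s₁ : F) = algebraMap R F w * (x⁻¹ ^ j * (x⁻¹ ^ n * c))
      rw [hs]
      ring
    rcases hw₁.dvd_or_dvd hdvd with h' | h'
    · exact hX₁ (hw₁.dvd_of_dvd_pow h')
    · exact hs₁ h'
  obtain ⟨N₁, hN₁⟩ := hloc0 _ h2
  obtain ⟨N₂, hN₂⟩ := hloc0 _ h1
  set g : F := x ^ (N₁ + N₂ + j) * f with hg
  have hg1 : algebraMap R F w * g ∈ (chart R ({x} : Set F)) := by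
    have : algebraMap R F w * g = x ^ (N₂ + j) * (x ^ N₁ * (algebraMap R F w * f)) := by
      rw [hg]; ring
    rw [this]
    exact (chart R ({x} : Set F)).mul_mem ((chart R ({x} : Set F)).pow_mem hxB0 _) hN₁
  have hg2 : ((s₀ * ⟨x ^ j * s₁, hj⟩ : (chart R ({x} : Set F))) : F) * g ∈ (chart R ({x} : Set F)) := by
    have : ((s₀ * ⟨x ^ j * s₁, hj⟩ : (chart R ({x} : Set F))) : F) * g
        = x ^ (N₁ + j + j) * (x ^ N₂ * ((s₀ : F) * (s₁ : F) * f)) := by
      change (s₀ : F) * (x ^ j * (s₁ : F)) * g = _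
      rw [hg]; ring
    rw [this]
    exact (chart R ({x} : Set F)).mul_mem ((chart R ({x} : Set F)).pow_mem hxB0 _) hN₂
  have hst : ¬ algebraMap R (chart R ({x} : Set F)) w ∣ s₀ * ⟨x ^ j * s₁, hj⟩ := by
    intro h
    rcases hw₀.dvd_or_dvd h with h' | h'
    · exact hs₀ h'
    · exact ht₁ h'
  have hgB : g ∈ (chart R ({x} : Set F)) := mem_of_mul_mem_of_prime (chart R ({x} : Set F)) w hw₀ _ hst g hg1 hg2
  have : f = x⁻¹ ^ (N₁ + N₂ + j) * g := by
    rw [hg, ← mul_assoc, ← mul_pow, inv_mul_cancel₀ hx0, one_pow, one_mul]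
  rw [this]
  exact (chart R ({x, x⁻¹} : Set F)).mul_mem ((chart R ({x, x⁻¹} : Set F)).pow_mem (h1M hxB1) _) (h0M hgB)

variable [IsLocalRing R]

/-- **Typed core of `node_alg`** (prime `m`). -/
theorem kummer_charts_of_regular
    (hinjR : Function.Injective (algebraMap R F))
    (hRF : ∀ y : F, IsIntegral R y → y ∈ Set.range (algebraMap R F))
    {x : F} (hx : Transcendental R x) [FiniteDimensional (baseField R x) F]
    (w : R) (m : ℕ) (hm : m.Prime) (ν : R) (hν : ν * (m : R) = 1)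
    (u : F) (hu : u ≠ 0)
    (hw₀ : Prime (algebraMap R (chart R ({x} : Set F)) w))
    (hw₁ : Prime (algebraMap R (chart R ({x⁻¹} : Set F)) w))
    (hreg₀ : H754.RegularAlong (algebraMap R (chart R ({x} : Set F)) w))
    (hreg₁ : H754.RegularAlong (algebraMap R (chart R ({x⁻¹} : Set F)) w))
    (hu₀ : H754.OneModPi (algebraMap R (chart R ({x} : Set F)) w) u)
    (hu₁ : H754.OneModPi (algebraMap R (chart R ({x⁻¹} : Set F)) w) u)
    (hdiv₀ : H754.DivisibleDivisor (chart R ({x} : Set F)) m u)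
    (hdiv₁ : H754.DivisibleDivisor (chart R ({x⁻¹} : Set F)) m u) :
    ∃ (r : R) (a : ℤ) (y : F), r ≠ 0 ∧ u = algebraMap R F r ^ a * y ^ m := by
  have hwnu : ¬ IsUnit w := fun h => hw₀.not_isUnit (h.map _)
  haveI : FiniteDimensional (baseField R x⁻¹) F := by
    rw [H138.baseField_inv]; infer_instance
  obtain ⟨i1, i2, i3⟩ := chart_instances (R := R) hx
  obtain ⟨j1, j2, j3⟩ := chart_instances (R := R) (H138.transcendental_inv hx)
  obtain ⟨σ₀, σ₁, h₀, h₁, h₀₁⟩ := H214.local_existence m hm.ne_zero w u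
    (chart R ({x} : Set F)) (chart R ({x⁻¹} : Set F)) (chart R ({x, x⁻¹} : Set F))
    (H138.chart_mono (by simp)) (H138.chart_mono (by simp)) hw₀ hw₁ hreg₀ hreg₁ hu₀ hu₁
    hdiv₀ hdiv₁ (rootClosed_chart _ hm.pos)
    (fun f s₀ hs₀ s₁ hs₁ h1 h2 => chart_saturated hinjR hx w hw₀ hw₁ f s₀ hs₀ s₁ hs₁ h1 h2)
  exact kummer_charts_prime hinjR hRF hx w hwnu m hm ν hν u hu σ₀ σ₁ h₀ h₁ h₀₁

end Regular

end Fermat.Agent.S18.H394

end
-- ===== PACK-END S18/H394/KummerRegular.lean

-- ===== PACK-BEGIN S48/H648/BrAlg.lean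
section



/-!
# S48 / Tower A1 / A1-BR (helper648), part 1: abstract algebra

Setting: a field `L`, constants `φ : E →+* L`, a coordinate `j : L`, a point `c : E`.
A valuation subring `O` of `L` is *centred at `j = c`* (`CentredAt φ j c O`) if it contains the
constants and `j - φ c` is a non-unit of `O`.

* `CentredAt.valuation_eval₂` : for `P ≠ 0`, `v (P(j)) = v (j - c) ^ (rootMultiplicity c P)`.
* `CentredAt.mem_iff` : membership of a rational function `P(j)/Q(j)` in `O` only depends on the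
  root multiplicities of `P`, `Q` at `c`; hence (`CentredAt.mem_iff_mem`) all valuation subrings
  centred at `j = c` have the same trace on `E(j)`.
* `OrdLe y k O` : `ord_O y ≤ k · ord_O t` for every non-unit `t` of `O`, in the division-free form
  `t ^ k * y⁻¹ ∈ O` (`k = 1`: `y` generates the maximal ideal = the conclusion of
  `S18.Alg.GoodModel.unramified`).
* `ordLe_of_conj` : if a finite group `G` acts on `L` with fixed field inside `E(j)`, then `OrdLe`
  for ONE valuation subring centred at `j = c` implies `OrdLe` for ALL of them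
  (they are conjugate: `Lib.ValConj`).
* `ordLe_comap` : descent of `OrdLe` along a field embedding `Ω →+* L` (for subfields such as the
  `Γ₁(M)`-field inside the full-level field).
-/

set_option autoImplicit false

open Polynomial
open scoped Pointwise

namespace Fermat.Agent.S48.H648

variable {L E : Type*} [Field L] [Field E]

/-- `O` contains the constants and `j - φ c` is a non-unit of `O`. -/
structure CentredAt (φ : E →+* L) (j : L) (c : E) (O : ValuationSubring L) : Prop where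
  const_mem : ∀ a : E, φ a ∈ O
  sub_mem : j - φ c ∈ O
  inv_notMem : (j - φ c)⁻¹ ∉ O

/-- `ord_O y ≤ k · ord_O t` for every non-unit `t` of `O`. -/
def OrdLe (y : L) (k : ℕ) (O : ValuationSubring L) : Prop :=
  ∀ t ∈ O, t⁻¹ ∉ O → t ^ k * y⁻¹ ∈ O

namespace CentredAt

variable {φ : E →+* L} {j : L} {c : E} {O : ValuationSubring L}

theorem j_mem (h : CentredAt φ j c O) : j ∈ O := by
  have := add_mem h.sub_mem (h.const_mem c)
  rwa [sub_add_cancel] at this

theorem eval₂_mem (h : CentredAt φ j c O) (P : E[X]) : P.eval₂ φ j ∈ O := by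
  rw [Polynomial.eval₂_eq_sum_range]
  exact sum_mem fun i _ => mul_mem (h.const_mem _) (pow_mem h.j_mem i)

theorem sub_ne_zero (h : CentredAt φ j c O) : j - φ c ≠ 0 := by
  intro h0
  apply h.inv_notMem
  rw [h0, inv_zero]
  exact O.zero_mem

theorem valuation_sub_lt_one (h : CentredAt φ j c O) : O.valuation (j - φ c) < 1 := by
  have h1 : O.valuation (j - φ c) ≤ 1 := (O.valuation_le_one_iff _).2 h.sub_mem
  rcases h1.lt_or_eq with h2 | h2
  · exact h2
  · exfalso
    apply h.inv_notMem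
    rw [← O.valuation_le_one_iff, map_inv₀, h2, inv_one]

theorem valuation_sub_pos (h : CentredAt φ j c O) : 0 < O.valuation (j - φ c) :=
  zero_lt_iff.2 ((Valuation.ne_zero_iff _).2 h.sub_ne_zero)

theorem valuation_const (h : CentredAt φ j c O) {a : E} (ha : a ≠ 0) :
    O.valuation (φ a) = 1 := by
  have h1 : O.valuation (φ a) ≤ 1 := (O.valuation_le_one_iff _).2 (h.const_mem a)
  have h2 : O.valuation (φ a⁻¹) ≤ 1 := (O.valuation_le_one_iff _).2 (h.const_mem a⁻¹)
  rw [map_inv₀, map_inv₀] at h2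
  have h0 : φ a ≠ 0 := (map_ne_zero φ).2 ha
  have hpos : 0 < O.valuation (φ a) := zero_lt_iff.2 ((Valuation.ne_zero_iff _).2 h0)
  exact le_antisymm h1 ((inv_le_one₀ hpos).1 h2)

/-- A polynomial in `j` not vanishing at `c` is a unit of `O`. -/
theorem valuation_eval₂_eq_one (h : CentredAt φ j c O) {P : E[X]} (hP : P.eval c ≠ 0) :
    O.valuation (P.eval₂ φ j) = 1 := by
  obtain ⟨R, hR⟩ := X_sub_C_dvd_sub_C_eval (a := c) (p := P)
  have e : P = C (P.eval c) + (X - C c) * R := by rw [← hR]; ring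
  have e2 : P.eval₂ φ j = φ (P.eval c) + (j - φ c) * R.eval₂ φ j := by
    conv_lhs => rw [e]
    simp [eval₂_add, eval₂_mul, eval₂_sub]
  rw [e2]
  have h1 := h.valuation_const hP
  have h2 : O.valuation ((j - φ c) * R.eval₂ φ j) < 1 := by
    rw [map_mul]
    calc O.valuation (j - φ c) * O.valuation (R.eval₂ φ j)
        ≤ O.valuation (j - φ c) * 1 :=
          mul_le_mul' le_rfl ((O.valuation_le_one_iff _).2 (h.eval₂_mem R))
      _ = O.valuation (j - φ c) := mul_one _
      _ < 1 := h.valuation_sub_lt_one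
  rw [Valuation.map_add_eq_of_lt_left _ (by rw [h1]; exact h2), h1]

/-- `v (P(j)) = v (j - c) ^ (multiplicity of c in P)`. -/
theorem valuation_eval₂ (h : CentredAt φ j c O) {P : E[X]} (hP : P ≠ 0) :
    O.valuation (P.eval₂ φ j) = O.valuation (j - φ c) ^ P.rootMultiplicity c := by
  have e := pow_mul_divByMonic_rootMultiplicity_eq P c
  have hne := eval_divByMonic_pow_rootMultiplicity_ne_zero c hP
  set P₁ := P /ₘ (X - C c) ^ P.rootMultiplicity c with hP₁
  have e2 : P.eval₂ φ j = (j - φ c) ^ P.rootMultiplicity c * P₁.eval₂ φ j := by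
    conv_lhs => rw [← e]
    simp [eval₂_mul, eval₂_pow, eval₂_sub]
  rw [e2, map_mul, map_pow, h.valuation_eval₂_eq_one hne, mul_one]

theorem eval₂_ne_zero (h : CentredAt φ j c O) {P : E[X]} (hP : P ≠ 0) : P.eval₂ φ j ≠ 0 := by
  intro h0
  have := h.valuation_eval₂ hP
  rw [h0, map_zero] at this
  exact (pow_ne_zero _ h.valuation_sub_pos.ne') this.symm

/-- Membership of a rational function of `j` in `O` is decided by root multiplicities at `c`. -/
theorem mem_iff (h : CentredAt φ j c O) {P Q : E[X]} (hQ : Q.eval₂ φ j ≠ 0) :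
    P.eval₂ φ j / Q.eval₂ φ j ∈ O ↔ P = 0 ∨ Q.rootMultiplicity c ≤ P.rootMultiplicity c := by
  have hQ0 : Q ≠ 0 := by
    rintro rfl
    exact hQ (by simp)
  by_cases hP : P = 0
  · subst hP
    simp only [eval₂_zero, zero_div, true_or, iff_true]
    exact O.zero_mem
  simp only [hP, false_or]
  rw [← O.valuation_le_one_iff, map_div₀, h.valuation_eval₂ hP, h.valuation_eval₂ hQ0]
  set g := O.valuation (j - φ c) with hg
  have hg0 : 0 < g := h.valuation_sub_pos
  have hg1 : g < 1 := h.valuation_sub_lt_one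
  have hgQ : 0 < g ^ Q.rootMultiplicity c := pow_pos hg0 _
  rw [div_le_one₀ hgQ]
  constructor
  · intro hle
    by_contra hlt
    have := pow_lt_pow_right_of_lt_one₀ hg0 hg1 (not_le.1 hlt)
    exact absurd hle (not_le.2 this)
  · intro hle
    exact pow_le_pow_of_le_one hg0.le hg1.le hle

/-- Two valuation subrings centred at `j = c` have the same trace on `E(j)`. -/
theorem mem_iff_mem {O' : ValuationSubring L} (h : CentredAt φ j c O) (h' : CentredAt φ j c O')
    {P Q : E[X]} (hQ : Q.eval₂ φ j ≠ 0) :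
    P.eval₂ φ j / Q.eval₂ φ j ∈ O ↔ P.eval₂ φ j / Q.eval₂ φ j ∈ O' := by
  rw [h.mem_iff hQ, h'.mem_iff hQ]

end CentredAt

section Conj

variable {G : Type*} [Group G] [MulSemiringAction G L] [Finite G]

/-- **Transfer by conjugacy.**  If the `G`-fixed elements are rational functions of `j` over `E`,
then all valuation subrings centred at `j = c` are `G`-conjugate; consequently a bound
`ord (j - c) ≤ k · ord t` known for ONE of them holds for ALL of them. -/
theorem ordLe_of_conj (φ : E →+* L) (j : L) (c : E)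
    (hfixφ : ∀ (g : G) (a : E), g • φ a = φ a) (hfixj : ∀ g : G, g • j = j)
    (hfix : ∀ x : L, (∀ g : G, g • x = x) →
      ∃ P Q : E[X], Q.eval₂ φ j ≠ 0 ∧ x = P.eval₂ φ j / Q.eval₂ φ j)
    {O₀ O : ValuationSubring L} (h₀ : CentredAt φ j c O₀) (h : CentredAt φ j c O)
    {k : ℕ} (hk : OrdLe (j - φ c) k O₀) : OrdLe (j - φ c) k O := by
  obtain ⟨g, hg⟩ := Fermat.Agent.Lib.ValConj.exists_smul_eq_of_fixed_mem_iff (G := G) O₀ O
    (fun x hx => by
      obtain ⟨P, Q, hQ, rfl⟩ := hfix x hx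
      exact h₀.mem_iff_mem h hQ)
  have hmem : ∀ x : L, x ∈ O ↔ g⁻¹ • x ∈ O₀ := by
    intro x
    rw [← hg]
    exact ValuationSubring.mem_pointwise_smul_iff_inv_smul_mem
  have hy : g⁻¹ • (j - φ c) = j - φ c := by
    rw [smul_sub, hfixj, hfixφ]
  intro t ht htinv
  rw [hmem, smul_mul', smul_pow', smul_inv'', hy]
  apply hk
  · exact (hmem t).1 ht
  · intro hcon
    apply htinv
    rw [hmem, smul_inv'']
    exact hcon

end Conj

section Descent

variable {Ω : Type*} [Field Ω]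

/-- Every valuation subring of `Ω` is the trace of a valuation subring of an extension `L`. -/
theorem exists_valuationSubring_comap (ψ : Ω →+* L) (O' : ValuationSubring Ω) :
    ∃ O : ValuationSubring L, ∀ x : Ω, ψ x ∈ O ↔ x ∈ O' := by
  obtain ⟨A, hA, hloc⟩ :=
    IsLocalRing.exists_factor_valuationRing (ψ.comp O'.subtype : O' →+* L)
  have hmem : ∀ x : Ω, x ∈ O' → ψ x ∈ A := fun x hx => hA ⟨x, hx⟩
  refine ⟨A, fun x => ⟨fun hx => ?_, hmem x⟩⟩
  by_contra hxO
  have hx0 : x ≠ 0 := fun h0 => hxO (h0 ▸ O'.zero_mem)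
  have hinv : x⁻¹ ∈ O' := (O'.mem_or_inv_mem x).resolve_left hxO
  -- the image of `x⁻¹` is a unit of `A`, so `x⁻¹` is a unit of `O'`
  have hu : IsUnit ((ψ.comp O'.subtype).codRestrict A.toSubring hA ⟨x⁻¹, hinv⟩) := by
    refine ⟨⟨⟨ψ x⁻¹, hmem _ hinv⟩, ⟨ψ x, hx⟩, ?_, ?_⟩, rfl⟩
    · apply Subtype.ext
      show ψ x⁻¹ * ψ x = 1
      rw [← map_mul, inv_mul_cancel₀ hx0, map_one]
    · apply Subtype.ext
      show ψ x * ψ x⁻¹ = 1
      rw [← map_mul, mul_inv_cancel₀ hx0, map_one]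
  have hu' : IsUnit (⟨x⁻¹, hinv⟩ : O') := hloc.map_nonunit _ hu
  obtain ⟨⟨a, b, hab, hba⟩, ha⟩ := hu'
  apply hxO
  have hb : (b : Ω) = x := by
    have h1 : (a : Ω) = x⁻¹ := congrArg Subtype.val ha
    have h2 : (a : Ω) * (b : Ω) = 1 := congrArg Subtype.val hab
    rw [h1] at h2
    field_simp at h2
    exact h2
  rw [← hb]
  exact b.2

/-- **Descent of `OrdLe`** along a field embedding. -/
theorem ordLe_comap (ψ : Ω →+* L) {O' : ValuationSubring Ω} {O : ValuationSubring L}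
    (hO : ∀ x : Ω, ψ x ∈ O ↔ x ∈ O') {y : Ω} {k : ℕ} (hk : OrdLe (ψ y) k O) : OrdLe y k O' := by
  intro t ht htinv
  rw [← hO, map_mul, map_pow, map_inv₀]
  apply hk
  · exact (hO t).2 ht
  · rw [← map_inv₀, hO]
    exact htinv

end Descent

end Fermat.Agent.S48.H648

end
-- ===== PACK-END S48/H648/BrAlg.lean

-- ===== PACK-BEGIN S48/H648/BrCoord.lean
section


/-!
# S48 / Tower A1 / A1-BR (helper648), part 4: the coordinates `t₂`, `t₃`

Abstract (Mathlib-only) transfer of branch data from the coordinate `j` to the Hauptmoduln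
`x = t₂` (`j x² = (x + 256)³`, used for `ℓ = 3`) and `x = t₃` (`j x³ = (x + 27)(x + 243)³`, used
for `ℓ = 2`) of `S18.Mod.IsCoordinate`.

Setting: a field `Ω` of characteristic `0`, a subfield `Lc` of constants, a valuation subring `O`
containing `Lc`, and `j : Ω` not a constant such that
* over every `a ∈ Lc`, `a ≠ 0, 1728`, the element `j - a` generates the maximal ideal
  (`OrdLe (j - a) 1 O`),
* `OrdLe j 3 O` over `0` and `OrdLe (j - 1728) 2 O` over `1728`.

Then `x - c` generates the maximal ideal of `O` whenever it is a non-unit and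
`c ∉ {0, -64}` (`ordLe_t2`), resp. `c ∉ {0, -27}` (`ordLe_t3`): the field `unramified` of
`S18.Alg.GoodModel` for the coordinates `t₂`, `t₃` with `S = {0, -64}`, `{0, -27}`.
-/

set_option autoImplicit false

namespace Fermat.Agent.S48.H648

variable {Ω : Type*} [Field Ω]

section Val

variable {O : ValuationSubring Ω}

theorem valuation_lt_one_of_nonunit {t : Ω} (ht : t ∈ O) (ht' : t⁻¹ ∉ O) :
    O.valuation t < 1 := by
  have h1 : O.valuation t ≤ 1 := (O.valuation_le_one_iff _).2 ht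
  rcases h1.lt_or_eq with h | h
  · exact h
  · exfalso
    apply ht'
    rw [← O.valuation_le_one_iff, map_inv₀, h, inv_one]

theorem nonunit_of_valuation_lt_one {t : Ω} (ht0 : t ≠ 0) (ht : O.valuation t < 1) :
    t ∈ O ∧ t⁻¹ ∉ O := by
  refine ⟨(O.valuation_le_one_iff _).1 ht.le, fun h => ?_⟩
  have h1 : O.valuation t⁻¹ ≤ 1 := (O.valuation_le_one_iff _).2 h
  rw [map_inv₀] at h1
  have hpos : 0 < O.valuation t := zero_lt_iff.2 ((Valuation.ne_zero_iff _).2 ht0)
  exact absurd ((inv_le_one₀ hpos).1 h1) (not_le.2 ht)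

/-- `OrdLe` in terms of the valuation. -/
theorem ordLe_iff {y : Ω} (hy : y ≠ 0) {k : ℕ} (hk : k ≠ 0) :
    OrdLe y k O ↔ ∀ t : Ω, O.valuation t < 1 → O.valuation t ^ k ≤ O.valuation y := by
  have hypos : 0 < O.valuation y := zero_lt_iff.2 ((Valuation.ne_zero_iff _).2 hy)
  constructor
  · intro h t ht
    by_cases ht0 : t = 0
    · rw [ht0, map_zero, zero_pow hk]
      exact zero_le
    obtain ⟨h1, h2⟩ := nonunit_of_valuation_lt_one ht0 ht
    have := (O.valuation_le_one_iff _).2 (h t h1 h2)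
    rw [map_mul, map_pow, map_inv₀] at this
    have h2 := (mul_inv_le_iff₀ hypos).1 this
    rwa [one_mul] at h2
  · intro h t ht ht'
    have := h t (valuation_lt_one_of_nonunit ht ht')
    rw [← O.valuation_le_one_iff, map_mul, map_pow, map_inv₀]
    exact (mul_inv_le_iff₀ hypos).2 (by rwa [one_mul])

theorem valuation_const_eq_one (Lc : Subfield Ω) (hO : ∀ a ∈ Lc, a ∈ O) {a : Ω} (ha : a ∈ Lc)
    (ha0 : a ≠ 0) : O.valuation a = 1 := by
  have h1 : O.valuation a ≤ 1 := (O.valuation_le_one_iff _).2 (hO a ha)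
  have h2 : O.valuation a⁻¹ ≤ 1 := (O.valuation_le_one_iff _).2 (hO _ (Lc.inv_mem ha))
  rw [map_inv₀] at h2
  have hpos : 0 < O.valuation a := zero_lt_iff.2 ((Valuation.ne_zero_iff _).2 ha0)
  exact le_antisymm h1 ((inv_le_one₀ hpos).1 h2)

theorem valuation_add_const_eq_one (Lc : Subfield Ω) (hO : ∀ a ∈ Lc, a ∈ O) {y a : Ω}
    (hy : O.valuation y < 1) (ha : a ∈ Lc) (ha0 : a ≠ 0) : O.valuation (y + a) = 1 := by
  have h1 := valuation_const_eq_one Lc hO ha ha0
  rw [Valuation.map_add_eq_of_lt_right _ (by rw [h1]; exact hy), h1]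

end Val

theorem natCast_mem_subfield (Lc : Subfield Ω) (n : ℕ) : (n : Ω) ∈ Lc := natCast_mem Lc n

variable [CharZero Ω]

/-- **Coordinate `t₂`** (`ℓ = 3`): `j x² = (x + 256)³`, branch values `S = {0, -64}`. -/
theorem ordLe_t2 (Lc : Subfield Ω) (O : ValuationSubring Ω) (hO : ∀ a ∈ Lc, a ∈ O) (j x : Ω)
    (hjx : j * x ^ 2 = (x + 256) ^ 3) (hjc : ∀ a ∈ Lc, j ≠ a)
    (Hgen : ∀ a ∈ Lc, a ≠ 0 → a ≠ 1728 → j - a ∈ O → (j - a)⁻¹ ∉ O → OrdLe (j - a) 1 O)
    (H0 : j ∈ O → j⁻¹ ∉ O → OrdLe j 3 O)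
    (H1728 : j - 1728 ∈ O → (j - 1728)⁻¹ ∉ O → OrdLe (j - 1728) 2 O)
    (c : Ω) (hc : c ∈ Lc) (hc0 : c ≠ 0) (hc64 : c ≠ -64)
    (h1 : x - c ∈ O) (h2 : (x - c)⁻¹ ∉ O) : OrdLe (x - c) 1 O := by
  have hv : O.valuation (x - c) < 1 := valuation_lt_one_of_nonunit h1 h2
  have hxc0 : x - c ≠ 0 := by
    intro h
    apply h2
    rw [h, inv_zero]
    exact O.zero_mem
  have hvc : O.valuation c = 1 := valuation_const_eq_one Lc hO hc hc0
  have hvx : O.valuation x = 1 := by
    have := valuation_add_const_eq_one Lc hO hv hc hc0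
    rwa [sub_add_cancel] at this
  have hx0 : x ≠ 0 := by
    intro h
    rw [h, map_zero] at hvx
    exact zero_ne_one hvx
  rw [ordLe_iff hxc0 one_ne_zero]
  intro t ht
  rw [pow_one]
  -- the value `c' = j(c)`
  set c' : Ω := (c + 256) ^ 3 / c ^ 2 with hc'
  have hc'mem : c' ∈ Lc :=
    Lc.div_mem (Lc.pow_mem (Lc.add_mem hc (by exact_mod_cast natCast_mem_subfield Lc 256)) 3)
      (Lc.pow_mem hc 2)
  have hc'c : c' * c ^ 2 = (c + 256) ^ 3 := by
    rw [hc']
    field_simp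
  set Q : Ω := c ^ 2 * x ^ 2 - 196608 * c * x - 16777216 * (x + c) with hQ
  have hQmem : Q ∈ O := by
    have hxO : x ∈ O := (O.valuation_le_one_iff _).1 hvx.le
    have hcO : c ∈ O := hO c hc
    have hn1 : (196608 : Ω) ∈ O := hO _ (by exact_mod_cast natCast_mem_subfield Lc 196608)
    have hn2 : (16777216 : Ω) ∈ O := hO _ (by exact_mod_cast natCast_mem_subfield Lc 16777216)
    exact sub_mem (sub_mem (mul_mem (pow_mem hcO 2) (pow_mem hxO 2))
      (mul_mem (mul_mem hn1 hcO) hxO)) (mul_mem hn2 (add_mem hxO hcO))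
  have key : (j - c') * (x ^ 2 * c ^ 2) = (x - c) * Q := by
    have e1 : (j - c') * (x ^ 2 * c ^ 2) = (j * x ^ 2) * c ^ 2 - (c' * c ^ 2) * x ^ 2 := by ring
    rw [e1, hjx, hc'c, hQ]
    ring
  have hjc' : j - c' ≠ 0 := sub_ne_zero.2 (hjc c' hc'mem)
  have hvjc : O.valuation (j - c') = O.valuation (x - c) * O.valuation Q := by
    have := congrArg O.valuation key
    rwa [map_mul, map_mul, map_mul, map_pow, map_pow, hvx, hvc, one_pow, mul_one,
      mul_one] at this
  have hvjc_le : O.valuation (j - c') ≤ O.valuation (x - c) := by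
    rw [hvjc]
    exact mul_le_of_le_one_right' ((O.valuation_le_one_iff _).2 hQmem)
  have hvjc_lt : O.valuation (j - c') < 1 := lt_of_le_of_lt hvjc_le hv
  obtain ⟨hj1, hj2⟩ := nonunit_of_valuation_lt_one hjc' hvjc_lt
  by_cases hc'0 : c' = 0
  · -- `c = -256`, over `j = 0`
    have hc256 : c + 256 = 0 := by
      have : (c + 256) ^ 3 = 0 := by rw [← hc'c, hc'0, zero_mul]
      exact pow_eq_zero_iff (by norm_num) |>.1 this
    have hxc : x + 256 = x - c := by
      have : c = -256 := eq_neg_of_add_eq_zero_left hc256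
      rw [this]; ring
    rw [hc'0, sub_zero] at hj1 hj2 hjc'
    have h3 := (ordLe_iff hjc' (by norm_num : (3 : ℕ) ≠ 0)).1 (H0 hj1 hj2) t ht
    have hvj : O.valuation j = O.valuation (x - c) ^ 3 := by
      have := congrArg O.valuation hjx
      rwa [map_mul, map_pow, map_pow, hvx, one_pow, mul_one, hxc] at this
    rw [hvj] at h3
    exact (pow_le_pow_iff_left₀ zero_le zero_le (by norm_num : (3 : ℕ) ≠ 0)).1 h3
  by_cases hc'1 : c' = 1728
  · -- `c = 512`, over `j = 1728`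
    have hfac : (c + 64) * (c - 512) ^ 2 = 0 := by
      have : (c + 256) ^ 3 = 1728 * c ^ 2 := by rw [← hc'c, hc'1]
      linear_combination this
    have hc512 : c = 512 := by
      rcases mul_eq_zero.1 hfac with h | h
      · exact absurd (eq_neg_of_add_eq_zero_left h) hc64
      · exact sub_eq_zero.1 (pow_eq_zero_iff (by norm_num) |>.1 h)
    rw [hc'1] at hj1 hj2 hjc'
    have h3 := (ordLe_iff hjc' (by norm_num : (2 : ℕ) ≠ 0)).1 (H1728 hj1 hj2) t ht
    have hv64 : O.valuation (x + 64) = 1 := by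
      have h576 : (576 : Ω) ∈ Lc := by exact_mod_cast natCast_mem_subfield Lc 576
      have := valuation_add_const_eq_one Lc hO hv h576 (by norm_num)
      have e : x - c + 576 = x + 64 := by rw [hc512]; ring
      rwa [e] at this
    have hvj : O.valuation (j - 1728) = O.valuation (x - c) ^ 2 := by
      have e : (j - 1728) * x ^ 2 = (x + 64) * (x - c) ^ 2 := by
        have : (j - 1728) * x ^ 2 = j * x ^ 2 - 1728 * x ^ 2 := by ring
        rw [this, hjx, hc512]
        ring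
      have := congrArg O.valuation e
      rwa [map_mul, map_mul, map_pow, map_pow, hvx, hv64, one_pow, mul_one, one_mul] at this
    rw [hvj] at h3
    exact (pow_le_pow_iff_left₀ zero_le zero_le (by norm_num : (2 : ℕ) ≠ 0)).1 h3
  · -- generic value
    have h3 := (ordLe_iff hjc' one_ne_zero).1 (Hgen c' hc'mem hc'0 hc'1 hj1 hj2) t ht
    rw [pow_one] at h3
    exact h3.trans hvjc_le

/-- **Coordinate `t₃`** (`ℓ = 2`): `j x³ = (x + 27)(x + 243)³`, branch values `S = {0, -27}`. -/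
theorem ordLe_t3 (Lc : Subfield Ω) (O : ValuationSubring Ω) (hO : ∀ a ∈ Lc, a ∈ O) (j x : Ω)
    (hjx : j * x ^ 3 = (x + 27) * (x + 243) ^ 3) (hjc : ∀ a ∈ Lc, j ≠ a)
    (Hgen : ∀ a ∈ Lc, a ≠ 0 → a ≠ 1728 → j - a ∈ O → (j - a)⁻¹ ∉ O → OrdLe (j - a) 1 O)
    (H0 : j ∈ O → j⁻¹ ∉ O → OrdLe j 3 O)
    (H1728 : j - 1728 ∈ O → (j - 1728)⁻¹ ∉ O → OrdLe (j - 1728) 2 O)
    (c : Ω) (hc : c ∈ Lc) (hc0 : c ≠ 0) (hc27 : c ≠ -27)
    (h1 : x - c ∈ O) (h2 : (x - c)⁻¹ ∉ O) : OrdLe (x - c) 1 O := by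
  have hv : O.valuation (x - c) < 1 := valuation_lt_one_of_nonunit h1 h2
  have hxc0 : x - c ≠ 0 := by
    intro h
    apply h2
    rw [h, inv_zero]
    exact O.zero_mem
  have hvc : O.valuation c = 1 := valuation_const_eq_one Lc hO hc hc0
  have hvx : O.valuation x = 1 := by
    have := valuation_add_const_eq_one Lc hO hv hc hc0
    rwa [sub_add_cancel] at this
  have hx0 : x ≠ 0 := by
    intro h
    rw [h, map_zero] at hvx
    exact zero_ne_one hvx
  rw [ordLe_iff hxc0 one_ne_zero]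
  intro t ht
  rw [pow_one]
  set c' : Ω := (c + 27) * (c + 243) ^ 3 / c ^ 3 with hc'
  have hc'mem : c' ∈ Lc :=
    Lc.div_mem (Lc.mul_mem (Lc.add_mem hc (by exact_mod_cast natCast_mem_subfield Lc 27))
      (Lc.pow_mem (Lc.add_mem hc (by exact_mod_cast natCast_mem_subfield Lc 243)) 3))
      (Lc.pow_mem hc 3)
  have hc'c : c' * c ^ 3 = (c + 27) * (c + 243) ^ 3 := by
    rw [hc']
    field_simp
  set Q : Ω := c ^ 3 * x ^ 3 - 196830 * c ^ 2 * x ^ 2 - 19131876 * c * x * (x + c)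
    - 387420489 * (x ^ 2 + x * c + c ^ 2) with hQ
  have hQmem : Q ∈ O := by
    have hxO : x ∈ O := (O.valuation_le_one_iff _).1 hvx.le
    have hcO : c ∈ O := hO c hc
    have hn1 : (196830 : Ω) ∈ O := hO _ (by exact_mod_cast natCast_mem_subfield Lc 196830)
    have hn2 : (19131876 : Ω) ∈ O := hO _ (by exact_mod_cast natCast_mem_subfield Lc 19131876)
    have hn3 : (387420489 : Ω) ∈ O := hO _ (by exact_mod_cast natCast_mem_subfield Lc 387420489)
    refine sub_mem (sub_mem (sub_mem (mul_mem (pow_mem hcO 3) (pow_mem hxO 3))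
      (mul_mem (mul_mem hn1 (pow_mem hcO 2)) (pow_mem hxO 2)))
      (mul_mem (mul_mem (mul_mem hn2 hcO) hxO) (add_mem hxO hcO)))
      (mul_mem hn3 (add_mem (add_mem (pow_mem hxO 2) (mul_mem hxO hcO))
        (pow_mem hcO 2)))
  have key : (j - c') * (x ^ 3 * c ^ 3) = (x - c) * Q := by
    have e1 : (j - c') * (x ^ 3 * c ^ 3) = (j * x ^ 3) * c ^ 3 - (c' * c ^ 3) * x ^ 3 := by ring
    rw [e1, hjx, hc'c, hQ]
    ring
  have hjc' : j - c' ≠ 0 := sub_ne_zero.2 (hjc c' hc'mem)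
  have hvjc : O.valuation (j - c') = O.valuation (x - c) * O.valuation Q := by
    have := congrArg O.valuation key
    rwa [map_mul, map_mul, map_mul, map_pow, map_pow, hvx, hvc, one_pow, mul_one,
      mul_one] at this
  have hvjc_le : O.valuation (j - c') ≤ O.valuation (x - c) := by
    rw [hvjc]
    exact mul_le_of_le_one_right' ((O.valuation_le_one_iff _).2 hQmem)
  have hvjc_lt : O.valuation (j - c') < 1 := lt_of_le_of_lt hvjc_le hv
  obtain ⟨hj1, hj2⟩ := nonunit_of_valuation_lt_one hjc' hvjc_lt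
  by_cases hc'0 : c' = 0
  · -- `c = -243`, over `j = 0`
    have hc243 : c = -243 := by
      have : (c + 27) * (c + 243) ^ 3 = 0 := by rw [← hc'c, hc'0, zero_mul]
      rcases mul_eq_zero.1 this with h | h
      · exact absurd (eq_neg_of_add_eq_zero_left h) hc27
      · exact eq_neg_of_add_eq_zero_left (pow_eq_zero_iff (by norm_num) |>.1 h)
    have hxc : x + 243 = x - c := by rw [hc243]; ring
    rw [hc'0, sub_zero] at hj1 hj2 hjc'
    have h3 := (ordLe_iff hjc' (by norm_num : (3 : ℕ) ≠ 0)).1 (H0 hj1 hj2) t ht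
    have hv27 : O.valuation (x + 27) = 1 := by
      have h216 : (-216 : Ω) ∈ Lc := Lc.neg_mem (by exact_mod_cast natCast_mem_subfield Lc 216)
      have := valuation_add_const_eq_one Lc hO hv h216 (by norm_num)
      have e : x - c + -216 = x + 27 := by rw [hc243]; ring
      rwa [e] at this
    have hvj : O.valuation j = O.valuation (x - c) ^ 3 := by
      have := congrArg O.valuation hjx
      rwa [map_mul, map_mul, map_pow, map_pow, hvx, hv27, one_pow, mul_one, one_mul, hxc]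
        at this
    rw [hvj] at h3
    exact (pow_le_pow_iff_left₀ zero_le zero_le (by norm_num : (3 : ℕ) ≠ 0)).1 h3
  by_cases hc'1 : c' = 1728
  · -- `c² - 486 c - 19683 = 0`, over `j = 1728`
    have hfac : c ^ 2 - 486 * c - 19683 = 0 := by
      have : (c + 27) * (c + 243) ^ 3 = 1728 * c ^ 3 := by rw [← hc'c, hc'1]
      have h2 : (c ^ 2 - 486 * c - 19683) ^ 2 = 0 := by linear_combination this
      exact pow_eq_zero_iff (by norm_num) |>.1 h2
    rw [hc'1] at hj1 hj2 hjc'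
    have h3 := (ordLe_iff hjc' (by norm_num : (2 : ℕ) ≠ 0)).1 (H1728 hj1 hj2) t ht
    have hconj0 : 2 * c - 486 ≠ 0 := by
      intro h
      have hc243 : c = 243 := by linear_combination h / 2
      rw [hc243] at hfac
      norm_num at hfac
    have hvconj : O.valuation (x + c - 486) = 1 := by
      have hmem : 2 * c - 486 ∈ Lc :=
        Lc.sub_mem (Lc.mul_mem (by exact_mod_cast natCast_mem_subfield Lc 2) hc)
          (by exact_mod_cast natCast_mem_subfield Lc 486)
      have := valuation_add_const_eq_one Lc hO hv hmem hconj0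
      have e : x - c + (2 * c - 486) = x + c - 486 := by ring
      rwa [e] at this
    have hvj : O.valuation (j - 1728) = O.valuation (x - c) ^ 2 := by
      have e : (j - 1728) * x ^ 3 = ((x - c) * (x + c - 486)) ^ 2 := by
        have : (j - 1728) * x ^ 3 = j * x ^ 3 - 1728 * x ^ 3 := by ring
        rw [this, hjx]
        linear_combination ((2 : Ω) * x ^ 2 - 972 * x - c ^ 2 + 486 * c - 19683) * hfac
      have := congrArg O.valuation e
      rwa [map_mul, map_pow, map_pow, map_mul, hvx, hvconj, one_pow, mul_one, mul_one] at this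
    rw [hvj] at h3
    exact (pow_le_pow_iff_left₀ zero_le zero_le (by norm_num : (2 : ℕ) ≠ 0)).1 h3
  · have h3 := (ordLe_iff hjc' one_ne_zero).1 (Hgen c' hc'mem hc'0 hc'1 hj1 hj2) t ht
    rw [pow_one] at h3
    exact h3.trans hvjc_le

end Fermat.Agent.S48.H648

end
-- ===== PACK-END S48/H648/BrCoord.lean

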