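import Mathlib
import Fermat.Prelude.Def_EllipticCurve_FrobeniusTrace
import Fermat.Prelude.Def_ModularCurve_HeckeModule
import Fermat.Prelude.Def_ModularCurve_LaurentCoeff
import Fermat.Prelude.Def_ModularCurve_X0ModL
import Fermat.Prelude.Def_ModularCurve_JqCoeff
import Fermat.Agent.Pack.S48.G0E1L0
import Fermat.Agent.Pack.S48.G0E0L0
import Fermat.Agent.Pack.S48.G0E1L3
import Fermat.Agent.Pack.S48.G0E0L2
import Fermat.Agent.Pack.S48.G0E1L1
import Fermat.Agent.Pack.S48.G0E1L2
import Fermat.Agent.Pack.S48.G0E0L3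
import Fermat.Agent.Pack.S48.G5E0L0
import Fermat.Agent.Pack.S48.G0E0L1

-- ===== PACK-BEGIN S48/H948/Irr2.lean
section



/-!
# S48 glue piece IRR (helper948): `RankinStatement + ChebDensityStatement ⟹ IrreducibleStatement`

If `ρ` (finite image, attached to `(f, ε)`) stabilised a line, then
`∑_{g ∈ Γ} ‖tr g‖² ≥ 2 |Γ|` (`Irr1`).  By Chebotarev the primes `p` with `‖a_p‖² = v` have lower
density at least `#{g : ‖tr g‖² = v} / |Γ|`, so `∑_p ‖a_p‖² p^{-s} ≥ (2 - 1/4) log (1/(s-1))`
along suitable finite sets of primes, contradicting the sharp Rankin bound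
`≤ log (1/(s-1)) + C`.
-/

set_option autoImplicit false

open CongruenceSubgroup
open scoped MatrixGroups

namespace Fermat.Agent.S48.H948

open Fermat.Agent.Lib.Cheb.Spec Fermat.Agent.Lib.Cheb.SpecQ Fermat.Agent.S48.Top Matrix

/-- A common `δ` for finitely many "for all `s` close to `1`" statements. -/
theorem exists_common_delta {ι : Type*} (V : Finset ι) (P : ι → ℝ → Prop)
    (h : ∀ v ∈ V, ∃ δ : ℝ, 0 < δ ∧ ∀ s : ℝ, 1 < s → s < 1 + δ → P v s) :
    ∃ δ : ℝ, 0 < δ ∧ ∀ v ∈ V, ∀ s : ℝ, 1 < s → s < 1 + δ → P v s := by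
  classical
  induction V using Finset.induction_on with
  | empty => exact ⟨1, one_pos, fun v hv => absurd hv (Finset.notMem_empty v)⟩
  | insert a V ha ih =>
    obtain ⟨δ₁, hδ₁, h1⟩ := ih fun v hv => h v (Finset.mem_insert_of_mem hv)
    obtain ⟨δ₂, hδ₂, h2⟩ := h a (Finset.mem_insert_self a V)
    refine ⟨min δ₁ δ₂, lt_min hδ₁ hδ₂, ?_⟩
    intro v hv s hs1 hs2
    rcases Finset.mem_insert.mp hv with rfl | hv'
    · exact h2 s hs1 (lt_of_lt_of_le hs2 (by linarith [min_le_right δ₁ δ₂]))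
    · exact h1 v hv' s hs1 (lt_of_lt_of_le hs2 (by linarith [min_le_left δ₁ δ₂]))

/-- The core of IRR: a representation of finite level attached to `(f, ε)` has no stable line. -/
theorem no_stable_line (hRankin : RankinStatement) (hCheb : ChebDensityStatement)
    (N : ℕ) [NeZero N] (ε : DirichletCharacter ℂ N) (f : CuspForm (Gamma1 N) 1)
    (hyp : IsEigen N ε f) (ρ : GQ →* GL (Fin 2) ℂ) (hFL : GaloisFactorsThroughFiniteLevel ρ)
    (hatt : IsAttachedC ε f N ρ) :
    ¬ ∃ v : Fin 2 → ℂ, v ≠ 0 ∧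
      ∀ σ : GQ, ∃ c : ℂ, ((ρ σ : GL (Fin 2) ℂ) : Matrix (Fin 2) (Fin 2) ℂ) *ᵥ v = c • v := by
  classical
  rintro ⟨v, hv, hline⟩
  have hN : N ≠ 0 := NeZero.ne N
  obtain ⟨E, hE, hρE⟩ := hFL
  have hfin : Finite ρ.range := finite_range_of_finiteLevel ρ ⟨E, hE, hρE⟩
  letI : Fintype ρ.range := Fintype.ofFinite _
  have hstab : ∀ g ∈ ρ.range, ∃ c : ℂ,
      ((g : GL (Fin 2) ℂ) : Matrix (Fin 2) (Fin 2) ℂ) *ᵥ v = c • v := by
    rintro g ⟨σ, rfl⟩
    exact hline σ
  have hsum := two_mul_card_le_sum_normSq_trace ρ.range v hv hstab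
  -- the function `F g = ‖tr g‖²` and its values
  set F : ρ.range → ℝ :=
    fun g => ‖((g : GL (Fin 2) ℂ) : Matrix (Fin 2) (Fin 2) ℂ).trace‖ ^ 2 with hF
  set V : Finset ℝ := Finset.univ.image F with hV
  have hVnonneg : ∀ v ∈ V, 0 ≤ v := by
    intro v hv
    obtain ⟨g, -, rfl⟩ := Finset.mem_image.mp hv
    exact sq_nonneg _
  -- the classes
  set C : ℝ → Set (GL (Fin 2) ℂ) :=
    fun v => {g | ‖((g : GL (Fin 2) ℂ) : Matrix (Fin 2) (Fin 2) ℂ).trace‖ ^ 2 = v} with hC
  set n : ℕ := Fintype.card ρ.range with hn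
  have hnpos : 0 < n := Fintype.card_pos
  have hcardR : Nat.card ↥(Set.range ρ) = n := by
    rw [hn, ← Nat.card_eq_fintype_card]
    exact Nat.card_congr (Equiv.setCongr (MonoidHom.coe_range ρ).symm)
  have hcardC : ∀ v : ℝ, Nat.card ↥(C v ∩ Set.range ρ) =
      (Finset.univ.filter fun g : ρ.range => F g = v).card := by
    intro v
    rw [← Fintype.card_subtype, ← Nat.card_eq_fintype_card]
    refine Nat.card_congr
      { toFun := fun x => ⟨⟨x.1, (MonoidHom.mem_range).mpr x.2.2⟩, x.2.1⟩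
        invFun := fun y => ⟨y.1.1, y.2, (MonoidHom.mem_range).mp y.1.2⟩
        left_inv := fun x => rfl
        right_inv := fun y => rfl }
  -- weights
  set w : ℝ → ℝ := fun v =>
    (Nat.card ↥(C v ∩ Set.range ρ) : ℝ) / (Nat.card ↥(Set.range ρ) : ℝ) with hw
  have hwsum : 2 ≤ ∑ v ∈ V, v * w v := by
    have h1 : ∑ g : ρ.range, F g =
        ∑ v ∈ V, ((Finset.univ.filter fun g : ρ.range => F g = v).card : ℝ) * v := by
      have := Finset.sum_comp (s := (Finset.univ : Finset ρ.range)) (fun x : ℝ => x) F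
      simp only [nsmul_eq_mul] at this
      exact this
    have h2 : ∑ v ∈ V, v * w v = (∑ g : ρ.range, F g) / n := by
      rw [h1, Finset.sum_div]
      refine Finset.sum_congr rfl fun v _ => ?_
      rw [hw]
      simp only
      rw [hcardC v, hcardR]
      ring
    rw [h2, le_div_iff₀ (by exact_mod_cast hnpos)]
    exact hsum
  -- lower densities
  set S : Finset ℕ := N.primeFactors with hS
  have hdens : ∀ v : ℝ, HasLowerDensity (frobPrimesHom ρ (C v) S) (w v) :=
    fun v => hCheb (GL (Fin 2) ℂ) ρ E hE hρE (C v) S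
  have hmemX : ∀ v : ℝ, ∀ p ∈ frobPrimesHom ρ (C v) S,
      p.Prime ∧ ¬ p ∣ N ∧ ‖ModularFormClass.qCoeff f p‖ ^ 2 = v := by
    rintro v p ⟨hp, hpS, A, τ, hA, hτ, -, hτC⟩
    have hpN : ¬ p ∣ N := fun hd => hpS (Nat.mem_primeFactors.mpr ⟨hp, hd, hN⟩)
    refine ⟨hp, hpN, ?_⟩
    rw [← ((hatt p hp hpN A hA).2 τ hτ).1]
    exact hτC
  -- Rankin
  obtain ⟨C₀, hR⟩ := hRankin N ε f hyp
  set M₀ : ℝ := ∑ v ∈ V, v with hM₀
  have hM₀nonneg : 0 ≤ M₀ := Finset.sum_nonneg hVnonneg
  set δ₀ : ℝ := 1 / (4 * (M₀ + 1)) with hδ₀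
  have hδ₀pos : 0 < δ₀ := by rw [hδ₀]; positivity
  have hδ₀M : δ₀ * M₀ ≤ 1 / 4 := by
    rw [hδ₀, div_mul_eq_mul_div, one_mul, div_le_iff₀ (by positivity)]
    linarith
  obtain ⟨δ, hδ, hall⟩ := exists_common_delta V
    (fun v s => ∃ T : Finset ℕ, (∀ p ∈ T, p ∈ frobPrimesHom ρ (C v) S) ∧
      (w v - δ₀) * Real.log (1 / (s - 1)) ≤ ∑ p ∈ T, (p : ℝ) ^ (-s))
    (fun v _ => hdens v δ₀ hδ₀pos)
  -- the choice of `s`
  set t : ℝ := min (min δ 1) (Real.exp (-(2 * |C₀| + 1))) / 2 with ht
  have hmin : 0 < min (min δ 1) (Real.exp (-(2 * |C₀| + 1))) :=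
    lt_min (lt_min hδ one_pos) (Real.exp_pos _)
  have htpos : 0 < t := by rw [ht]; linarith
  have htδ : t < δ := by
    have h1 : min (min δ 1) (Real.exp (-(2 * |C₀| + 1))) ≤ δ :=
      (min_le_left _ _).trans (min_le_left _ _)
    rw [ht]; linarith
  have ht1 : t ≤ 1 := by
    have h1 : min (min δ 1) (Real.exp (-(2 * |C₀| + 1))) ≤ 1 :=
      (min_le_left _ _).trans (min_le_right _ _)
    rw [ht]; linarith
  have htexp : t < Real.exp (-(2 * |C₀| + 1)) := by
    have h1 : min (min δ 1) (Real.exp (-(2 * |C₀| + 1))) ≤ Real.exp (-(2 * |C₀| + 1)) :=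
      min_le_right _ _
    rw [ht]; linarith
  set s : ℝ := 1 + t with hs
  have hs1 : 1 < s := by rw [hs]; linarith
  have hs2 : s ≤ 2 := by rw [hs]; linarith
  have hsδ : s < 1 + δ := by rw [hs]; linarith
  set L : ℝ := Real.log (1 / (s - 1)) with hL
  have hLbig : 2 * |C₀| + 1 < L := by
    have h1 : s - 1 = t := by rw [hs]; ring
    rw [hL, h1, one_div, Real.log_inv, lt_neg]
    have h2 : Real.log t < Real.log (Real.exp (-(2 * |C₀| + 1))) :=
      Real.log_lt_log htpos htexp
    rw [Real.log_exp] at h2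
    exact h2
  have hLpos : 0 < L := by
    have := abs_nonneg C₀
    linarith
  -- the finite sets of primes
  have hex : ∀ v : ℝ, ∃ T : Finset ℕ, v ∈ V → ((∀ p ∈ T, p ∈ frobPrimesHom ρ (C v) S) ∧
      (w v - δ₀) * L ≤ ∑ p ∈ T, (p : ℝ) ^ (-s)) := by
    intro v
    by_cases hv : v ∈ V
    · obtain ⟨T, hT1, hT2⟩ := hall v hv s hs1 hsδ
      exact ⟨T, fun _ => ⟨hT1, hT2⟩⟩
    · exact ⟨∅, fun h => absurd h hv⟩
  choose T hT using hex
  have hdisj : Set.PairwiseDisjoint (V : Set ℝ) T := by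
    intro v hv v' hv' hne
    rw [Function.onFun, Finset.disjoint_left]
    intro p hp hp'
    have h1 := (hmemX v p ((hT v hv).1 p hp)).2.2
    have h2 := (hmemX v' p ((hT v' hv').1 p hp')).2.2
    exact hne (h1.symm.trans h2)
  set TT : Finset ℕ := V.biUnion T with hTT
  have hTTprime : ∀ p ∈ TT, p.Prime ∧ ¬ p ∣ N := by
    intro p hp
    obtain ⟨v, hv, hpv⟩ := Finset.mem_biUnion.mp hp
    have := hmemX v p ((hT v hv).1 p hpv)
    exact ⟨this.1, this.2.1⟩
  have hRk := hR s hs1 hs2 TT hTTprime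
  have hlow : (∑ v ∈ V, v * (w v - δ₀)) * L ≤
      ∑ p ∈ TT, ‖ModularFormClass.qCoeff f p‖ ^ 2 * (p : ℝ) ^ (-s) := by
    rw [hTT, Finset.sum_biUnion hdisj, Finset.sum_mul]
    refine Finset.sum_le_sum fun v hv => ?_
    have h1 : ∑ p ∈ T v, ‖ModularFormClass.qCoeff f p‖ ^ 2 * (p : ℝ) ^ (-s) =
        v * ∑ p ∈ T v, (p : ℝ) ^ (-s) := by
      rw [Finset.mul_sum]
      refine Finset.sum_congr rfl fun p hp => ?_
      rw [(hmemX v p ((hT v hv).1 p hp)).2.2]
    rw [h1, mul_assoc]
    exact mul_le_mul_of_nonneg_left (hT v hv).2 (hVnonneg v hv)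
  have hcoef : 7 / 4 ≤ ∑ v ∈ V, v * (w v - δ₀) := by
    have h1 : ∑ v ∈ V, v * (w v - δ₀) = (∑ v ∈ V, v * w v) - δ₀ * M₀ := by
      rw [hM₀, Finset.mul_sum, ← Finset.sum_sub_distrib]
      refine Finset.sum_congr rfl fun v _ => ?_
      ring
    rw [h1]
    linarith
  have h1 : 7 / 4 * L ≤ L + C₀ :=
    (mul_le_mul_of_nonneg_right hcoef hLpos.le).trans (hlow.trans hRk)
  have h2 : C₀ ≤ |C₀| := le_abs_self C₀
  have h3 := abs_nonneg C₀
  linarith

/-- (IRR) -/
theorem irreduciblePiece : IrreduciblePiece := by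
  intro hRankin hCheb N _ ε f hyp ρ hFL hatt
  exact isIrreducible_of_no_stable_line ρ
    (no_stable_line hRankin hCheb N ε f hyp ρ hFL hatt)

end Fermat.Agent.S48.H948

end
-- ===== PACK-END S48/H948/Irr2.lean

-- ===== PACK-BEGIN Lib/Cheb/H221/Cyc.lean
section











/-!
# CYC (helper221): `PrimeSum + Count + Frob + FrobFinite + DirichletLimit ⇒ CycStatement`
-/

set_option autoImplicit false

open NumberField IsDedekindDomain Filter Topology

namespace Fermat.Agent.Lib.Cheb.H221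

set_option linter.unusedSectionVars false

section logsum

variable {P : Type*} {N : P → ℝ} (hN : ∀ r, 2 ≤ N r)
  (hsum : ∀ s : ℝ, 1 < s → Summable (xs N s)) {c : P → ℂ} (hc : ∀ r, ‖c r‖ ≤ 1)

include hN in
lemma xs_sq_le {s : ℝ} (hs : 1 ≤ s) (r : P) : xs N s r ^ 2 ≤ xs N 2 r := by
  unfold xs
  have hpos : (0 : ℝ) < N r := by linarith [hN r]
  rw [← Real.rpow_natCast, ← Real.rpow_mul hpos.le]
  apply Real.rpow_le_rpow_of_exponent_le (by linarith [hN r])
  push_cast
  linarith

include hN hsum hc in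
lemma norm_logEuler_sub_le {s : ℝ} (hs : 1 < s) :
    ‖logEuler N c s - ∑' r, c r * (xs N s r : ℂ)‖ ≤ ∑' r, xs N 2 r := by
  have h1 : Summable (fun r => c r * (xs N s r : ℂ)) :=
    Summable.of_norm_bounded (hsum s hs) (fun r => norm_z_le hN hc s r)
  unfold logEuler
  rw [← (summable_logFactor hN hsum hc hs).tsum_sub h1]
  refine tsum_of_norm_bounded (hsum 2 (by norm_num)).hasSum (fun r => ?_)
  exact (norm_logFactor_sub_le hN hc hs.le r).trans (xs_sq_le hN hs.le r)

end logsum

section glue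

lemma rpow_neg_le_one (p : Nat.Primes) {s : ℝ} (hs : 0 ≤ s) : (((p : ℕ) : ℝ)) ^ (-s) ≤ 1 :=
  Real.rpow_le_one_of_one_le_of_nonpos (by exact_mod_cast p.2.one_le) (by linarith)

/-- the glue: CYC from its pieces -/
theorem cyc_of_pieces (hEP : EulerProductStatement) (hDEG : TwistedPrimeSumStatement)
    (hABS : AbstractDirichletStatement) (hALG : CycAlgStatement)
    (hZ : Spec.PrimeSumStatement) (hA : Spec.CountStatement) (hD : Spec.FrobStatement)
    (hM : Spec.FrobFiniteStatement) (hAN : Spec.DirichletLimitStatement) :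
    Spec.CycStatement := by
  intro L _ _ _ m ζ hm hζ g hg S
  classical
  have : NeZero m := ⟨hm.ne'⟩
  obtain ⟨hord, B, hSUPP, hSPLIT, hNT, hFIN⟩ := hALG hA hD hM L m ζ hζ g hg
  set a := hζ.autToPow ℚ g with ha
  set c : Nat.Primes → ℝ := fun p => (Spec.primeCount (fixM L g) p : ℝ) with hc
  have hc0 : ∀ p, 0 ≤ c p := fun p => Nat.cast_nonneg _
  have hsumc : ∀ s : ℝ, 1 < s → s ≤ 2 →
      Summable (fun p : Nat.Primes => c p * (p : ℝ) ^ (-s)) :=
    fun s h1 _ => summable_primeCount (fixM L g) h1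
  have hcne : ∀ p : Nat.Primes, c p ≠ 0 → Spec.primeCount (fixM L g) p ≠ 0 := by
    intro p hcp h
    apply hcp
    simp [hc, h]
  have hsupp : ∃ B : Finset ℕ, ∀ p : Nat.Primes, (p : ℕ) ∉ B → c p ≠ 0 →
      ∃ u ∈ Subgroup.zpowers a, ((u : (ZMod m)ˣ) : ZMod m) = ((p : ℕ) : ZMod m) :=
    ⟨B, fun p hpB hcp => hSUPP p p.2 hpB (hcne p hcp)⟩
  have htot : ∃ C : ℝ, ∀ s : ℝ, 1 < s → s ≤ 2 →
      |(∑' p : Nat.Primes, c p * (p : ℝ) ^ (-s)) - Real.log (1 / (s - 1))| ≤ C :=
    hZ (fixM L g)
  have hone : ∃ C : ℝ, ∀ s : ℝ, 1 < s → s ≤ 2 →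
      (Nat.card (Subgroup.zpowers a) : ℝ)⁻¹ * Real.log (1 / (s - 1)) - C ≤
        ∑' p : Nat.Primes, if ((p : ℕ) : ZMod m) = 1 then c p * (p : ℝ) ^ (-s) else 0 := by
    obtain ⟨C', hC'⟩ := hZ (fixBot L)
    set CE : ℝ := ∑ p ∈ primesIn B, (Spec.primeCount (fixBot L) p : ℝ) with hCE
    have hn : (0 : ℝ) < Nat.card (Subgroup.zpowers a) := by exact_mod_cast Nat.card_pos
    refine ⟨(C' + CE) / Nat.card (Subgroup.zpowers a), fun s h1 h2 => ?_⟩
    set u : Nat.Primes → ℝ :=
      fun p => (Spec.primeCount (fixBot L) p : ℝ) * ((p : ℕ) : ℝ) ^ (-s) with hu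
    set v : Nat.Primes → ℝ :=
      fun p => if ((p : ℕ) : ZMod m) = 1 then c p * ((p : ℕ) : ℝ) ^ (-s) else 0 with hv
    have hpw : ∀ p : Nat.Primes, 0 ≤ (((p : ℕ) : ℝ)) ^ (-s) :=
      fun p => Real.rpow_nonneg (Nat.cast_nonneg _) _
    have hv0 : ∀ p, 0 ≤ v p := by
      intro p
      simp only [hv]
      split_ifs
      · exact mul_nonneg (hc0 p) (hpw p)
      · exact le_rfl
    have husum : Summable u := summable_primeCount (fixBot L) h1
    have hvsum : Summable v := by
      refine Summable.of_nonneg_of_le hv0 (fun p => ?_) (hsumc s h1 h2)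
      simp only [hv]
      split_ifs
      · exact le_rfl
      · exact mul_nonneg (hc0 p) (hpw p)
    have hdiff : ∀ p : Nat.Primes, p ∉ primesIn B →
        u p - (Nat.card (Subgroup.zpowers a) : ℝ) * v p = 0 := by
      intro p hp
      rw [mem_primesIn] at hp
      have h3 := hSPLIT p p.2 hp
      simp only [hu, hv, h3, hord, hc]
      split_ifs
      · push_cast
        ring
      · simp
    have h3 : (∑' p, u p) - (Nat.card (Subgroup.zpowers a) : ℝ) * ∑' p, v p =
        ∑ p ∈ primesIn B, (u p - (Nat.card (Subgroup.zpowers a) : ℝ) * v p) := by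
      rw [← tsum_mul_left, ← husum.tsum_sub (hvsum.mul_left _)]
      exact tsum_eq_sum hdiff
    have h4 : ∑ p ∈ primesIn B, (u p - (Nat.card (Subgroup.zpowers a) : ℝ) * v p) ≤ CE := by
      refine Finset.sum_le_sum fun p _ => ?_
      have h5 : u p ≤ (Spec.primeCount (fixBot L) p : ℝ) :=
        mul_le_of_le_one_right (Nat.cast_nonneg _) (rpow_neg_le_one p (by linarith))
      have h6 : 0 ≤ (Nat.card (Subgroup.zpowers a) : ℝ) * v p := mul_nonneg hn.le (hv0 p)
      linarith
    have h5 := hC' s h1 h2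
    rw [abs_le] at h5
    have h6 : Real.log (1 / (s - 1)) - (C' + CE) ≤
        (Nat.card (Subgroup.zpowers a) : ℝ) * ∑' p, v p := by
      have : (∑' p : Nat.Primes, (Spec.primeCount (fixBot L) p : ℝ) * (p : ℝ) ^ (-s)) =
          ∑' p, u p := rfl
      linarith [h5.1]
    have h7 : (Nat.card (Subgroup.zpowers a) : ℝ)⁻¹ * Real.log (1 / (s - 1)) -
        (C' + CE) / Nat.card (Subgroup.zpowers a) =
        (Real.log (1 / (s - 1)) - (C' + CE)) / Nat.card (Subgroup.zpowers a) := by
      field_simp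
    rw [h7, div_le_iff₀ hn, mul_comm]
    exact h6
  have hχ : ∀ χ : DirichletCharacter ℂ m,
      (∃ u ∈ Subgroup.zpowers a, χ ((u : (ZMod m)ˣ) : ZMod m) ≠ 1) →
      ∃ (Λ : ℝ → ℂ) (ℓ : ℂ) (C : ℝ), ContinuousOn Λ (Set.Ioi 1) ∧
        Tendsto (fun s => Complex.exp (Λ s)) (𝓝[>] 1) (𝓝 ℓ) ∧
        ∀ s : ℝ, 1 < s → s ≤ 2 →
          ‖Λ s - ∑' p : Nat.Primes, χ ((p : ℕ) : ZMod m) *
            ((c p * (p : ℝ) ^ (-s) : ℝ) : ℂ)‖ ≤ C := by
    rintro χ ⟨u, hu, hχu⟩
    have hχa : χ ((a : (ZMod m)ˣ) : ZMod m) ≠ 1 := by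
      intro h1
      apply hχu
      obtain ⟨k, rfl⟩ := Subgroup.mem_zpowers_iff.mp hu
      have h2 : χ.toUnitHom a = 1 := by
        ext
        rw [MulChar.coe_toUnitHom]
        simpa using h1
      have h3 : χ.toUnitHom (a ^ k) = 1 := by rw [map_zpow, h2, one_zpow]
      have h4 := congrArg Units.val h3
      rwa [MulChar.coe_toUnitHom] at h4
    obtain ⟨I, hI0, hI1⟩ := hNT χ hχa
    obtain ⟨ℓ, hℓ⟩ := hAN (fixM L g) m χ ⟨I, hI0, hI1⟩
    obtain ⟨CD, hCD⟩ := hDEG hZ (fixM L g) m χ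
    set Nn : HeightOneSpectrum (𝓞 (fixM L g)) → ℝ :=
      fun 𝔭 => (Ideal.absNorm 𝔭.asIdeal : ℝ) with hNn
    set cχ : HeightOneSpectrum (𝓞 (fixM L g)) → ℂ :=
      fun 𝔭 => χ (Ideal.absNorm 𝔭.asIdeal : ZMod m) with hcχdef
    have hN : ∀ 𝔭, 2 ≤ Nn 𝔭 := fun 𝔭 => by
      simp only [hNn]
      exact_mod_cast H761.two_le_absNorm (fixM L g) 𝔭
    have hsumN : ∀ s : ℝ, 1 < s → Summable (xs Nn s) :=
      fun s hs => H761.summable_primeSum (fixM L g) hs
    have hcχ : ∀ 𝔭, ‖cχ 𝔭‖ ≤ 1 := fun 𝔭 => DirichletCharacter.norm_le_one χ _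
    refine ⟨logEuler Nn cχ, ℓ, (∑' r, xs Nn 2 r) + CD,
      continuousOn_logEuler hN hsumN hcχ, ?_, ?_⟩
    · refine hℓ.congr' ?_
      filter_upwards [self_mem_nhdsWithin] with s hs
      exact (exp_logEuler_eq hN hsumN hcχ hs (hEP (fixM L g) m χ s hs)).symm
    · intro s h1 h2
      have e1 := norm_logEuler_sub_le hN hsumN hcχ h1
      have e2 := (hCD s h1 h2).2
      exact (norm_sub_le_norm_sub_add_norm_sub _ _ _).trans (add_le_add e1 e2)
  obtain ⟨p, hpS, hpa, hcp⟩ := hABS m c hc0 hsumc (Subgroup.zpowers a) hsupp htot hone hχ a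
    (Subgroup.mem_zpowers a) (S ∪ B)
  have hpS' : (p : ℕ) ∉ S := fun h => hpS (Finset.mem_union_left _ h)
  have hpB : (p : ℕ) ∉ B := fun h => hpS (Finset.mem_union_right _ h)
  obtain ⟨P, hP, hpP, hI, hF⟩ := hFIN p p.2 hpB (hcne p hcp) hpa
  exact ⟨p, P, p.2, hpS', hP, hpP, hI, hF⟩

/-- **CYC** from the other interface statements. -/
theorem cyc (hZ : Spec.PrimeSumStatement) (hA : Spec.CountStatement) (hD : Spec.FrobStatement)
    (hM : Spec.FrobFiniteStatement) (hAN : Spec.DirichletLimitStatement) :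
    Spec.CycStatement :=
  cyc_of_pieces eulerProduct twistedPrimeSum abstractDirichlet cycAlg hZ hA hD hM hAN

end glue

end Fermat.Agent.Lib.Cheb.H221

end
-- ===== PACK-END Lib/Cheb/H221/Cyc.lean

-- ===== PACK-BEGIN Lib/Cheb/H476/Bridge.lean
section





/-!
# CHEB piece F6 (bridge): `Spec.BridgeDivisionStatement` and `Spec.BridgeStatement`

From the finite-level statements (Galois number fields, primes of rings of integers, Mathlib's
`IsArithFrobAt`) to the Prelude-level statements (valuation subrings of `ℚ̄`, Prelude's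
`IsFrobeniusAt`, `inertiaSubgroupIn`).
-/

set_option autoImplicit false
set_option linter.style.haveILetI false

open NumberField
open scoped Pointwise

namespace Fermat.Agent.Lib.Cheb.H476

open Fermat.Agent.Lib.Cheb.Spec

/-- The normal closure of a finite extension of `ℚ` inside `ℚ̄` is a number field. -/
theorem numberField_normalClosure (E : IntermediateField ℚ Qb) [FiniteDimensional ℚ E] :
    NumberField (IntermediateField.normalClosure ℚ E Qb) :=
  { to_charZero := inferInstance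
    to_finiteDimensional := inferInstance }

/-- The normal closure of a finite extension of `ℚ` inside `ℚ̄` is Galois over `ℚ`. -/
theorem isGalois_normalClosure (E : IntermediateField ℚ Qb) [FiniteDimensional ℚ E] :
    IsGalois ℚ (IntermediateField.normalClosure ℚ E Qb) := by
  haveI : Algebra.IsAlgebraic ℚ Qb := AlgebraicClosure.isAlgebraic ℚ
  haveI : IsAlgClosure ℚ Qb := ⟨inferInstance, inferInstance⟩
  haveI : Normal ℚ Qb := IsAlgClosure.normal ℚ Qb
  have hn : Normal ℚ (IntermediateField.normalClosure ℚ E Qb) := normalClosure.normal ℚ E Qb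
  exact isGalois_iff.mpr ⟨inferInstance, hn⟩

theorem restrictNormal_coe (L : IntermediateField ℚ Qb) [Normal ℚ L] (g : GQ) (x : L) :
    ((AlgEquiv.restrictNormal g L x : L) : Qb) = g (x : Qb) :=
  AlgEquiv.restrictNormal_commutes g L x

theorem restrictNormal_pow (L : IntermediateField ℚ Qb) [Normal ℚ L] (g : GQ) (n : ℕ) :
    AlgEquiv.restrictNormal (g ^ n) L = (AlgEquiv.restrictNormal g L) ^ n :=
  map_pow (AlgEquiv.restrictNormalHom L) g n

/-- **F6 / W5, Tier 1**: the bridge from the finite-level Frobenius density theorem to the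
Prelude-level division statement. -/
theorem bridgeDivision : BridgeDivisionStatement := by
  intro hF E hE σ S
  haveI := hE
  haveI := numberField_normalClosure E
  haveI := isGalois_normalClosure E
  obtain ⟨p, P, τ, hp, hpS, hP, hpP, hI, hτ, hz⟩ :=
    hF (IntermediateField.normalClosure ℚ E Qb)
      (AlgEquiv.restrictNormal σ (IntermediateField.normalClosure ℚ E Qb)) S
  obtain ⟨A, φ, hAp, hφ, hin, hφτ⟩ :=
    exists_frobenius_restrict (IntermediateField.normalClosure ℚ E Qb) p hp P hP hpP hI τ hτ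
  have h1 : τ ∈ Subgroup.zpowers
      (AlgEquiv.restrictNormal σ (IntermediateField.normalClosure ℚ E Qb)) :=
    hz ▸ Subgroup.mem_zpowers τ
  have h2 : AlgEquiv.restrictNormal σ (IntermediateField.normalClosure ℚ E Qb) ∈
      Subgroup.zpowers τ := hz.symm ▸ Subgroup.mem_zpowers _
  obtain ⟨k, hk⟩ := (isOfFinOrder_of_finite
    (AlgEquiv.restrictNormal σ (IntermediateField.normalClosure ℚ E Qb))).mem_powers_iff_mem_zpowers.mpr h1
  obtain ⟨j, hj⟩ := (isOfFinOrder_of_finite τ).mem_powers_iff_mem_zpowers.mpr h2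
  replace hk : AlgEquiv.restrictNormal σ (IntermediateField.normalClosure ℚ E Qb) ^ k = τ := hk
  replace hj : τ ^ j = AlgEquiv.restrictNormal σ (IntermediateField.normalClosure ℚ E Qb) := hj
  have hEL : E ≤ IntermediateField.normalClosure ℚ E Qb := IntermediateField.le_normalClosure E
  refine ⟨p, A, φ, k, j, hp, hpS, hAp, hφ, ?_, ?_, ?_⟩
  · intro ι hι x hx
    exact hin ι hι ⟨x, hEL hx⟩
  · intro x hx
    have h3 := hφτ ⟨x, hEL hx⟩
    rw [← hk, ← restrictNormal_pow, restrictNormal_coe] at h3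
    exact h3
  · intro x hx
    have h4 : AlgEquiv.restrictNormal (φ ^ j) (IntermediateField.normalClosure ℚ E Qb) =
        AlgEquiv.restrictNormal σ (IntermediateField.normalClosure ℚ E Qb) := by
      rw [restrictNormal_pow, ← hj]
      congr 1
      apply AlgEquiv.ext
      intro y
      apply Subtype.ext
      rw [restrictNormal_coe]
      exact hφτ y
    have h5 := restrictNormal_coe (IntermediateField.normalClosure ℚ E Qb) (φ ^ j) ⟨x, hEL hx⟩
    rw [h4, restrictNormal_coe] at h5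
    exact h5.symm

/-- **Bridge, Tier 2**: from finite-level qualitative Chebotarev to the Prelude-level
statement. -/
theorem bridge : BridgeStatement := by
  intro hF E hE σ S
  haveI := hE
  haveI := numberField_normalClosure E
  haveI := isGalois_normalClosure E
  obtain ⟨p, P, hp, hpS, hP, hpP, hI, hτ⟩ :=
    hF (IntermediateField.normalClosure ℚ E Qb)
      (AlgEquiv.restrictNormal σ (IntermediateField.normalClosure ℚ E Qb)) S
  obtain ⟨A, φ, hAp, hφ, hin, hφτ⟩ :=
    exists_frobenius_restrict (IntermediateField.normalClosure ℚ E Qb) p hp P hP hpP hI _ hτ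
  have hEL : E ≤ IntermediateField.normalClosure ℚ E Qb := IntermediateField.le_normalClosure E
  refine ⟨p, A, φ, hp, hpS, hAp, hφ, ?_, ?_⟩
  · intro ι hι x hx
    exact hin ι hι ⟨x, hEL hx⟩
  · intro x hx
    have h3 := hφτ ⟨x, hEL hx⟩
    rw [restrictNormal_coe] at h3
    exact h3

end Fermat.Agent.Lib.Cheb.H476

end
-- ===== PACK-END Lib/Cheb/H476/Bridge.lean

-- ===== PACK-BEGIN Lib/Cheb/H221/Tier2.lean
section









/-!
# Tier 2 of CHEB modulo the analytic core (helper221)

Everything except `Spec.DirichletLimitStatement` (AN) is discharged with the theorems already on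
main: exact qualitative Chebotarev follows from AN alone.
-/

set_option autoImplicit false

namespace Fermat.Agent.Lib.Cheb.H221

open Fermat.Agent.Lib.Cheb

/-- Tier 1, finite level (assembled from landed pieces). -/
theorem frobFinite_main : Spec.FrobFiniteStatement :=
  H341.frobFinite H761.primeSum_statement H761.primeCountBound_statement H764.count
    H943.frobStatement

/-- CYC from AN. -/
theorem cyc_of_dirichletLimit (hAN : Spec.DirichletLimitStatement) : Spec.CycStatement :=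
  cyc H761.primeSum_statement H764.count H943.frobStatement frobFinite_main hAN

/-- Finite-level exact Chebotarev from AN. -/
theorem chebFinite_of_dirichletLimit (hAN : Spec.DirichletLimitStatement) :
    Spec.ChebFiniteStatement :=
  H223.cross H943.frobStatement (cyc_of_dirichletLimit hAN)

/-- Prelude-level exact qualitative Chebotarev from AN. -/
theorem chebotarev_of_dirichletLimit (hAN : Spec.DirichletLimitStatement) :
    Spec.ChebotarevStatement :=
  H476.bridge (chebFinite_of_dirichletLimit hAN)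

end Fermat.Agent.Lib.Cheb.H221

end
-- ===== PACK-END Lib/Cheb/H221/Tier2.lean

-- ===== PACK-BEGIN Lib/Cheb/H583/CycAlgBase.lean
section



/-!
# CHEB Tier 2, piece ALG of CYC: basic lemmas (helper583)

* `frob_apply_root`: an arithmetic Frobenius at `P ∣ p` maps an `m`-th root of unity `ζ` to `ζ ^ p`
  if `p ∤ m`.
* `frob_unique`: if the inertia group at `P` is trivial, two arithmetic Frobenius elements at `P`
  coincide.
* `exists_primesLe_iff`: `decompWeight L H p ≠ 0` iff there is a prime `P ∣ p` with `D_P ≤ H`.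
* `autToPow_eq_natCast_iff`: `autToPow f ≡ k mod m` iff `f ζ = ζ ^ k`.
-/

set_option autoImplicit false
set_option linter.unusedSectionVars false

open NumberField

namespace Fermat.Agent.Lib.Cheb.H583

section General

variable {L : Type} [Field L] [NumberField L]

/-- The residue field of the prime of `ℤ` below a prime `P ∋ p` has `p` elements. -/
theorem card_quot_under_eq {p : ℕ} (hp : p.Prime) {P : Ideal (𝓞 L)} (hP : P.IsPrime)
    (hpP : (p : 𝓞 L) ∈ P) : Nat.card (ℤ ⧸ P.under ℤ) = p := by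
  have hle : Ideal.span {(p : ℤ)} ≤ P.under ℤ := by
    rw [Ideal.span_le, Set.singleton_subset_iff]
    show algebraMap ℤ (𝓞 L) (p : ℤ) ∈ P
    simpa using hpP
  have hne : P.under ℤ ≠ ⊤ := (Ideal.IsPrime.under ℤ P).ne_top
  have : Fact p.Prime := ⟨hp⟩
  have heq : Ideal.span {(p : ℤ)} = P.under ℤ :=
    (Int.ideal_span_isMaximal_of_prime p).eq_of_le hne hle
  rw [← heq, Int.card_ideal_quot]

/-- The defining congruence of an arithmetic Frobenius at `P ∣ p`. -/
theorem frob_smul_sub_pow_mem {p : ℕ} (hp : p.Prime) {P : Ideal (𝓞 L)} (hP : P.IsPrime)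
    (hpP : (p : 𝓞 L) ∈ P) {τ : L ≃ₐ[ℚ] L} (hτ : IsArithFrobAt ℤ τ P) (x : 𝓞 L) :
    τ • x - x ^ p ∈ P := by
  have h := hτ x
  rw [card_quot_under_eq hp hP hpP] at h
  exact h

/-- If `p ∤ m` and `p ∈ P`, then `m ∉ P`. -/
theorem natCast_not_mem_of_not_dvd {p m : ℕ} (hp : p.Prime) (hpm : ¬ p ∣ m) {P : Ideal (𝓞 L)}
    (hP : P.IsPrime) (hpP : (p : 𝓞 L) ∈ P) : (m : 𝓞 L) ∉ P := by
  intro hmP
  have hcop : Nat.Coprime p m := (Nat.Prime.coprime_iff_not_dvd hp).2 hpm
  have h1 : ((Nat.gcd p m : ℤ) : 𝓞 L) ∈ P := by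
    rw [Nat.gcd_eq_gcd_ab]
    push_cast
    exact P.add_mem (P.mul_mem_right _ hpP) (P.mul_mem_right _ hmP)
  rw [hcop] at h1
  simp only [Nat.cast_one, Int.cast_one] at h1
  exact hP.ne_top ((Ideal.eq_top_iff_one P).2 h1)

/-- An arithmetic Frobenius at `P ∣ p` raises the `m`-th roots of unity to the `p`-th power, if
`p ∤ m`. -/
theorem frob_apply_root {p m : ℕ} (hp : p.Prime) (hpm : ¬ p ∣ m) {P : Ideal (𝓞 L)}
    (hP : P.IsPrime) (hpP : (p : 𝓞 L) ∈ P) {τ : L ≃ₐ[ℚ] L} (hτ : IsArithFrobAt ℤ τ P)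
    {ζ : L} (hm : 0 < m) (hζ : ζ ^ m = 1) : τ ζ = ζ ^ p := by
  have hint : IsIntegral ℤ ζ := by
    apply IsIntegral.of_pow hm
    rw [hζ]
    exact isIntegral_one
  set z : 𝓞 L := ⟨ζ, hint⟩ with hz
  have hz1 : z ^ m = 1 := by
    apply RingOfIntegers.ext
    show (z : L) ^ m = 1
    exact hζ
  have hmP : (m : 𝓞 L) ∉ P := natCast_not_mem_of_not_dvd hp hpm hP hpP
  have h := AlgHom.IsArithFrobAt.apply_of_pow_eq_one hτ hz1 hmP
  rw [card_quot_under_eq hp hP hpP] at h
  have h2 := congrArg (fun y : 𝓞 L => (y : L)) h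
  exact h2

/-- With trivial inertia, the arithmetic Frobenius is unique. -/
theorem frob_unique {P : Ideal (𝓞 L)} (hin : Spec.InertiaTrivial L P) {τ τ' : L ≃ₐ[ℚ] L}
    (hτ : IsArithFrobAt ℤ τ P) (hτ' : IsArithFrobAt ℤ τ' P) : τ = τ' := by
  have h : τ * τ'⁻¹ = 1 := by
    apply hin
    intro x
    have h1 := hτ (τ'⁻¹ • x)
    have h2 := hτ' (τ'⁻¹ • x)
    have h3 : (τ * τ'⁻¹) • x - x =
        ((MulSemiringAction.toAlgHom ℤ (𝓞 L) τ) (τ'⁻¹ • x) -
            (τ'⁻¹ • x) ^ Nat.card (ℤ ⧸ P.under ℤ)) -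
          ((MulSemiringAction.toAlgHom ℤ (𝓞 L) τ') (τ'⁻¹ • x) -
            (τ'⁻¹ • x) ^ Nat.card (ℤ ⧸ P.under ℤ)) := by
      simp [mul_smul]
    rw [h3]
    exact P.sub_mem h1 h2
  exact mul_inv_eq_one.1 h

end General

section Weight

variable {L : Type} [Field L] [NumberField L] [IsGalois ℚ L]

open Classical in
/-- `decompWeight L H p ≠ 0` iff some prime above `p` has decomposition group inside `H`. -/
theorem decompWeight_ne_zero_iff (H : Subgroup (L ≃ₐ[ℚ] L)) {p : ℕ} (hp : p ≠ 0) :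
    Spec.decompWeight L H p ≠ 0 ↔
      ∃ P : Ideal (𝓞 L), P.IsPrime ∧ (p : 𝓞 L) ∈ P ∧ Spec.decomp L P ≤ H := by
  have hsum := decompWeight_eq_sum (L := L) H hp
  have hpos : ∀ P : Ideal (𝓞 L), (0 : ℝ) < (Nat.card (Spec.decomp L P) : ℝ) := by
    intro P
    exact_mod_cast Nat.card_pos
  constructor
  · intro hne
    by_contra hcon
    apply hne
    have hempty : (primesFinset L p).filter (fun P => Spec.decomp L P ≤ H) = ∅ := by
      rw [Finset.filter_eq_empty_iff]
      intro P hP hle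
      rw [mem_primesFinset hp] at hP
      exact hcon ⟨P, hP.1, hP.2, hle⟩
    rw [hempty, Finset.sum_empty] at hsum
    exact_mod_cast hsum
  · rintro ⟨P, hP, hpP, hle⟩ h0
    rw [h0, Nat.cast_zero] at hsum
    have hmem : P ∈ (primesFinset L p).filter (fun P => Spec.decomp L P ≤ H) := by
      rw [Finset.mem_filter, mem_primesFinset hp]
      exact ⟨⟨hP, hpP⟩, hle⟩
    have := Finset.sum_pos (fun P _ => hpos P) ⟨P, hmem⟩
    rw [← hsum] at this
    exact lt_irrefl _ this

/-- If two subgroups contain the same decomposition groups of primes above `p`, the weights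
agree. -/
theorem decompWeight_congr (H H' : Subgroup (L ≃ₐ[ℚ] L)) (p : ℕ)
    (h : ∀ P : Ideal (𝓞 L), P.IsPrime → (p : 𝓞 L) ∈ P →
      (Spec.decomp L P ≤ H ↔ Spec.decomp L P ≤ H')) :
    Spec.decompWeight L H p = Spec.decompWeight L H' p := by
  have hset : Spec.primesLe L H p = Spec.primesLe L H' p := by
    ext P
    constructor
    · rintro ⟨h1, h2, h3⟩
      exact ⟨h1, h2, (h P h1 h2).1 h3⟩
    · rintro ⟨h1, h2, h3⟩
      exact ⟨h1, h2, (h P h1 h2).2 h3⟩
  unfold Spec.decompWeight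
  rw [hset]

end Weight

section Root

variable {L : Type} [Field L] [NumberField L] {m : ℕ} [NeZero m] {ζ : L}

/-- `autToPow f ≡ k mod m` iff `f ζ = ζ ^ k`. -/
theorem autToPow_eq_natCast_iff (hζ : IsPrimitiveRoot ζ m) (f : L ≃ₐ[ℚ] L) (k : ℕ) :
    ((hζ.autToPow ℚ f : (ZMod m)ˣ) : ZMod m) = (k : ZMod m) ↔ f ζ = ζ ^ k := by
  have hspec := hζ.autToPow_spec ℚ f
  have hk : ζ ^ k = ζ ^ ((k : ZMod m).val) := by
    rw [ZMod.val_natCast, hζ.eq_orderOf, pow_mod_orderOf]
  constructor
  · intro h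
    rw [← hspec, h, ← hk]
  · intro h
    rw [← hspec, hk] at h
    have := hζ.pow_inj (ZMod.val_lt _) (ZMod.val_lt _) h
    exact ZMod.val_injective m this

/-- `autToPow f = 1` iff `f ζ = ζ`. -/
theorem autToPow_eq_one_iff (hζ : IsPrimitiveRoot ζ m) (f : L ≃ₐ[ℚ] L) :
    hζ.autToPow ℚ f = 1 ↔ f ζ = ζ := by
  have h := autToPow_eq_natCast_iff hζ f 1
  rw [Nat.cast_one, pow_one] at h
  rw [← h]
  constructor
  · intro h1
    rw [h1]
    rfl
  · intro h1
    exact Units.ext h1

end Root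

end Fermat.Agent.Lib.Cheb.H583

end
-- ===== PACK-END Lib/Cheb/H583/CycAlgBase.lean

-- ===== PACK-BEGIN Lib/ChebQ/H968/Cross.lean
section





/-!
# CHEB-Q, piece CROSS-Q: quantitative field crossing (helper968)

`theorem crossDensity : Spec.CrossDensityStatement`, i.e.
`FrobStatement → CycDensityStatement → ChebDensityStatement`.

For `σ ∈ Gal(L/ℚ)` of order `n` and `δ > 0` choose `k ≥ 1` with `n / 2 ^ k ≤ δ` and a prime
`m ≡ 1 mod n ^ k`, `m > |disc L|`; put `M = L(ζ_m)` (`H236.CrossField`).  For every `t ∈ (ℤ/m)ˣ`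
with `n ∣ ord t` the lift `g_t = (σ, t)` of `H236.exists_crossLift` acts faithfully on `ζ`, so the
primes with Frobenius `g_t` have lower density `≥ 1/|C(g_t)| ≥ 1/(|C(σ)| (m-1))`.  These sets of
primes are pairwise disjoint (a prime with Frobenius `g_t` is `≡ t mod m`), restrict to primes with
Frobenius `σ` in `L`, and there are at least `(1 - n/2^k)(m-1)` such `t`.
-/

set_option autoImplicit false
set_option linter.style.haveILetI false
set_option linter.unusedSectionVars false

namespace Fermat.Agent.Lib.ChebQ.H968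

open NumberField
open Fermat.Agent.Lib.Cheb
open Fermat.Agent.Lib.Cheb.H236
open Fermat.Agent.Lib.ChebQ.Spec

section Cross

variable (L : Type) [Field L] [NumberField L] (m : ℕ) [hm : Fact m.Prime]

/-- A prime `p ≠ m` with Frobenius `g` in `L(ζ_m)` is congruent mod `m` to the exponent of `g`
on `ζ`. -/
theorem natCast_eq_of_mem_frobPrimes (t : (ZMod m)ˣ)
    (g : CrossField L m ≃ₐ[ℚ] CrossField L m)
    (hg2 : g (crossZeta L m) = crossZeta L m ^ (t : ZMod m).val) {p : ℕ}
    (hp : p ∈ frobPrimes (CrossField L m) g) (hpm : p ≠ m) :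
    (p : ZMod m) = (t : ZMod m) := by
  obtain ⟨hpp, P', hP', hpP', -, hfrob⟩ := hp
  have hζ := crossZeta_spec L m
  have hndvd : ¬ p ∣ m := fun h => hpm ((Nat.prime_dvd_prime_iff_eq hpp hm.out).mp h)
  have h1 := H583.frob_apply_root hpp hndvd hP' hpP' hfrob hm.out.pos hζ.pow_eq_one
  rw [hg2] at h1
  have h2 : (t : ZMod m).val ≡ p [MOD m] := by
    have hord : orderOf (crossZeta L m) = m := hζ.eq_orderOf.symm
    have e1 := pow_mod_orderOf (crossZeta L m) (t : ZMod m).val
    have e2 := pow_mod_orderOf (crossZeta L m) p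
    rw [hord] at e1 e2
    have e3 : crossZeta L m ^ ((t : ZMod m).val % m) = crossZeta L m ^ (p % m) := by
      rw [e1, e2, h1]
    exact hζ.pow_inj (Nat.mod_lt _ hm.out.pos) (Nat.mod_lt _ hm.out.pos) e3
  have h3 : (((t : ZMod m).val : ℕ) : ZMod m) = (p : ZMod m) :=
    (ZMod.natCast_eq_natCast_iff _ _ _).mpr h2
  rw [← h3, ZMod.natCast_zmod_val]

/-- Restriction of Frobenius primes from the crossing field to `L`. -/
theorem mem_frobPrimes_of_crossField (σ : L ≃ₐ[ℚ] L)
    (g : CrossField L m ≃ₐ[ℚ] CrossField L m)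
    (hg1 : ∀ x : L, g (algebraMap L (CrossField L m) x) = algebraMap L (CrossField L m) (σ x))
    (B : Finset ℕ)
    (hB : ∀ p : ℕ, p.Prime → p ∉ B → ∀ P : Ideal (𝓞 L), P.IsPrime → (p : 𝓞 L) ∈ P →
      Spec.InertiaTrivial L P)
    {p : ℕ} (hp : p ∈ frobPrimes (CrossField L m) g) (hpB : p ∉ B) :
    p ∈ frobPrimes L σ := by
  obtain ⟨hpp, P', hP', hpP', -, hfrob⟩ := hp
  haveI := hP'
  set P : Ideal (𝓞 L) := P'.comap (algebraMap (𝓞 L) (𝓞 (CrossField L m))) with hP
  have hPprime : P.IsPrime := Ideal.comap_isPrime _ _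
  have hpP : (p : 𝓞 L) ∈ P := by
    rw [hP, Ideal.mem_comap, map_natCast]
    exact hpP'
  exact ⟨hpp, P, hPprime, hpP, hB p hpp hpB P hPprime hpP, isArithFrobAt_comap σ g hg1 P' hfrob⟩

variable [IsGalois ℚ L]

/-- an automorphism of `L(ζ_m)` is determined by its restriction to `L` and its value at `ζ`. -/
theorem crossField_algEquiv_ext (h h' : CrossField L m ≃ₐ[ℚ] CrossField L m)
    (hL : ∀ x : L, h (algebraMap L (CrossField L m) x) = h' (algebraMap L (CrossField L m) x))
    (hζ : h (crossZeta L m) = h' (crossZeta L m)) : h = h' := by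
  ext y
  have hy : y ∈ Algebra.adjoin L ({crossZeta L m} : Set (CrossField L m)) := by
    rw [IsCyclotomicExtension.adjoin_primitive_root_eq_top (crossZeta_spec L m)]
    trivial
  induction hy using Algebra.adjoin_induction with
  | mem z hz =>
    rw [Set.mem_singleton_iff] at hz
    subst hz
    exact hζ
  | algebraMap r => exact hL r
  | add _ _ _ _ hx hy => rw [map_add, map_add, hx, hy]
  | mul _ _ _ _ hx hy => rw [map_mul, map_mul, hx, hy]

/-- The centralizer of a crossing lift `g` of `σ` has at most `|C(σ)| (m - 1)` elements. -/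
theorem card_centralizer_crossLift_le (σ : L ≃ₐ[ℚ] L)
    (g : CrossField L m ≃ₐ[ℚ] CrossField L m)
    (hg1 : ∀ x : L, g (algebraMap L (CrossField L m) x) = algebraMap L (CrossField L m) (σ x)) :
    Nat.card (Subgroup.centralizer ({g} : Set (CrossField L m ≃ₐ[ℚ] CrossField L m))) ≤
      Nat.card (Subgroup.centralizer ({σ} : Set (L ≃ₐ[ℚ] L))) * (m - 1) := by
  classical
  haveI : Normal ℚ L := IsGalois.to_normal
  have hζ := crossZeta_spec L m
  let r : (CrossField L m ≃ₐ[ℚ] CrossField L m) →* (L ≃ₐ[ℚ] L) := AlgEquiv.restrictNormalHom L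
  have hr : ∀ (h : CrossField L m ≃ₐ[ℚ] CrossField L m) (x : L),
      algebraMap L (CrossField L m) (r h x) = h (algebraMap L (CrossField L m) x) := fun h x =>
    AlgEquiv.restrictNormal_commutes h L x
  have hrg : r g = σ := by
    ext x
    apply (algebraMap L (CrossField L m)).injective
    rw [hr, hg1]
  have hmem : ∀ h : Subgroup.centralizer ({g} : Set (CrossField L m ≃ₐ[ℚ] CrossField L m)),
      r h.1 ∈ Subgroup.centralizer ({σ} : Set (L ≃ₐ[ℚ] L)) := by
    intro h
    rw [Subgroup.mem_centralizer_iff]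
    intro y hy
    rw [Set.mem_singleton_iff] at hy
    subst hy
    have := (Subgroup.mem_centralizer_iff.mp h.2) g (Set.mem_singleton g)
    rw [← hrg, ← map_mul, ← map_mul, this]
  have hprim : ∀ h : CrossField L m ≃ₐ[ℚ] CrossField L m,
      h (crossZeta L m) ∈ primitiveRoots m (CrossField L m) := by
    intro h
    rw [mem_primitiveRoots hm.out.pos]
    exact hζ.map_of_injective h.injective
  let F : Subgroup.centralizer ({g} : Set (CrossField L m ≃ₐ[ℚ] CrossField L m)) →
      Subgroup.centralizer ({σ} : Set (L ≃ₐ[ℚ] L)) × ↥(primitiveRoots m (CrossField L m)) :=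
    fun h => (⟨r h.1, hmem h⟩, ⟨h.1 (crossZeta L m), hprim h.1⟩)
  have hF : Function.Injective F := by
    intro h h' hh
    have h1 : r h.1 = r h'.1 := congrArg (fun z => (z.1 : L ≃ₐ[ℚ] L)) hh
    have h2 : h.1 (crossZeta L m) = h'.1 (crossZeta L m) :=
      congrArg (fun z => (z.2 : CrossField L m)) hh
    apply Subtype.ext
    apply crossField_algEquiv_ext L m h.1 h'.1 _ h2
    intro x
    rw [← hr, ← hr, h1]
  have hcard := Nat.card_le_card_of_injective F hF
  rw [Nat.card_prod] at hcard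
  have h3 : Nat.card ↥(primitiveRoots m (CrossField L m)) = m - 1 := by
    rw [Nat.card_eq_fintype_card, Fintype.card_coe, hζ.card_primitiveRoots,
      Nat.totient_prime hm.out]
  rwa [h3] at hcard

end Cross

/-- **CROSS-Q**: quantitative field crossing. -/
theorem crossDensity : CrossDensityStatement := by
  intro hD hCyc L _ _ _ σ δ hδ
  classical
  obtain ⟨B, hB⟩ := hD L
  have hB' : ∀ p : ℕ, p.Prime → p ∉ B → ∀ P : Ideal (𝓞 L), P.IsPrime → (p : 𝓞 L) ∈ P →
      Spec.InertiaTrivial L P := fun p hp hpB P hP hpP => (hB p hp hpB P hP hpP).1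
  set n := orderOf σ with hn
  have hn0 : n ≠ 0 := (orderOf_pos σ).ne'
  obtain ⟨k, hk1, hkδ⟩ := exists_pow_two_ge n hδ
  obtain ⟨m, hmp, hmgt, hmod⟩ :=
    Nat.exists_prime_gt_modEq_one (k := n ^ k) (discr L).natAbs (pow_ne_zero k hn0)
  haveI : Fact m.Prime := ⟨hmp⟩
  have hdisc : ¬ (m : ℤ) ∣ discr L := by
    intro hdvd
    have h1 : m ∣ (discr L).natAbs := Int.natCast_dvd.mp hdvd
    have h2 : (discr L).natAbs ≠ 0 := Int.natAbs_ne_zero.mpr (discr_ne_zero L)
    exact absurd (Nat.le_of_dvd (Nat.pos_of_ne_zero h2) h1) (not_le.mpr hmgt)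
  haveI := isGalois_crossField L m
  haveI : IsCyclic (ZMod m)ˣ := ZMod.isCyclic_units_prime hmp
  have hcard : Fintype.card (ZMod m)ˣ = m - 1 := by
    rw [ZMod.card_units_eq_totient, Nat.totient_prime hmp]
  have hdvd : n ^ k ∣ Fintype.card (ZMod m)ˣ := by
    rw [hcard]
    exact (Nat.modEq_iff_dvd' hmp.one_lt.le).mp hmod.symm
  set Good : Finset (ZMod m)ˣ := Finset.univ.filter (fun t : (ZMod m)ˣ => n ∣ orderOf t)
    with hGood
  have hGoodcard := card_filter_dvd_orderOf_ge (U := (ZMod m)ˣ) hk1 hdvd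
  rw [hcard] at hGoodcard
  -- the lifts
  have hlift := fun t : (ZMod m)ˣ => exists_crossLift L m hdisc σ t
  choose g hg1 hg2 using hlift
  set c : ℝ := (Nat.card (Subgroup.centralizer ({σ} : Set (L ≃ₐ[ℚ] L))) : ℝ) with hc
  have hc1 : 1 ≤ c := by
    rw [hc]
    exact_mod_cast Nat.one_le_iff_ne_zero.mpr Nat.card_pos.ne'
  have hm1 : (1 : ℝ) ≤ ((m - 1 : ℕ) : ℝ) := by
    have := hmp.two_le
    exact_mod_cast (by omega : 1 ≤ m - 1)
  set B' : Finset ℕ := insert m B with hB'def
  -- density of each good `t`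
  have ht : ∀ t ∈ Good, HasLowerDensity (frobPrimes (CrossField L m) (g t) \ ↑B')
      ((c * ((m - 1 : ℕ) : ℝ))⁻¹) := by
    intro t htG
    have hfaith := crossLift_faithful L m σ t (Finset.mem_filter.mp htG).2 (g t) (hg1 t) (hg2 t)
    have h1 : HasLowerDensity (frobPrimes (CrossField L m) (g t))
        (Nat.card (Subgroup.centralizer
          ({g t} : Set (CrossField L m ≃ₐ[ℚ] CrossField L m))) : ℝ)⁻¹ :=
      hCyc (CrossField L m) m (crossZeta L m) hmp.pos (crossZeta_spec L m) (g t) hfaith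
    refine HasLowerDensity.mono_const (HasLowerDensity.diff_finset h1 B') ?_
    have hle := card_centralizer_crossLift_le L m σ (g t) (hg1 t)
    have hpos : (0 : ℝ) < (Nat.card (Subgroup.centralizer
        ({g t} : Set (CrossField L m ≃ₐ[ℚ] CrossField L m))) : ℝ) := by
      exact_mod_cast Nat.card_pos
    apply inv_anti₀ hpos
    rw [hc]
    exact_mod_cast hle
  -- disjointness
  have hdisj : ∀ t ∈ Good, ∀ t' ∈ Good, t ≠ t' →
      Disjoint (frobPrimes (CrossField L m) (g t) \ ↑B')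
        (frobPrimes (CrossField L m) (g t') \ ↑B') := by
    intro t _ t' _ htt'
    rw [Set.disjoint_left]
    intro p hp hp'
    have hpm : p ≠ m := by
      intro h
      apply hp.2
      rw [h, hB'def]
      exact Finset.mem_coe.mpr (Finset.mem_insert_self m B)
    have e1 := natCast_eq_of_mem_frobPrimes L m t (g t) (hg2 t) hp.1 hpm
    have e2 := natCast_eq_of_mem_frobPrimes L m t' (g t') (hg2 t') hp'.1 hpm
    exact htt' (Units.ext (e1.symm.trans e2))
  have hunion := hasLowerDensity_biUnion Good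
    (fun t => frobPrimes (CrossField L m) (g t) \ ↑B') (fun _ => (c * ((m - 1 : ℕ) : ℝ))⁻¹)
    hdisj ht
  -- the union restricts into `frobPrimes L σ`
  have hsub : (⋃ t ∈ Good, frobPrimes (CrossField L m) (g t) \ ↑B') ⊆ frobPrimes L σ := by
    intro p hp
    simp only [Set.mem_iUnion] at hp
    obtain ⟨t, -, hpt⟩ := hp
    have hpB : p ∉ B := by
      intro h
      apply hpt.2
      rw [hB'def]
      exact Finset.mem_coe.mpr (Finset.mem_insert_of_mem h)
    exact mem_frobPrimes_of_crossField L m σ (g t) (hg1 t) B hB' hpt.1 hpB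
  show HasLowerDensity (frobPrimes L σ) (c⁻¹ - δ)
  refine HasLowerDensity.mono_const (HasLowerDensity.mono_set hunion hsub) ?_
  -- the constants
  rw [Finset.sum_const, nsmul_eq_mul]
  have hcpos : 0 < c := by linarith
  have hmpos : (0 : ℝ) < ((m - 1 : ℕ) : ℝ) := by linarith
  have h1 : (1 - (n : ℝ) / 2 ^ k) * ((m - 1 : ℕ) : ℝ) * (c * ((m - 1 : ℕ) : ℝ))⁻¹ ≤
      (Good.card : ℝ) * (c * ((m - 1 : ℕ) : ℝ))⁻¹ :=
    mul_le_mul_of_nonneg_right hGoodcard (by positivity)
  have h2 : (1 - (n : ℝ) / 2 ^ k) * ((m - 1 : ℕ) : ℝ) * (c * ((m - 1 : ℕ) : ℝ))⁻¹ =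
      (1 - (n : ℝ) / 2 ^ k) * c⁻¹ := by
    field_simp
  have h3 : c⁻¹ - δ ≤ (1 - (n : ℝ) / 2 ^ k) * c⁻¹ := by
    have hcinv : c⁻¹ ≤ 1 := inv_le_one_of_one_le₀ hc1
    have hcinv0 : 0 ≤ c⁻¹ := by positivity
    have h4 : (n : ℝ) / 2 ^ k * c⁻¹ ≤ δ * 1 :=
      mul_le_mul hkδ hcinv hcinv0 hδ.le
    linarith
  linarith

end Fermat.Agent.Lib.ChebQ.H968

end
-- ===== PACK-END Lib/ChebQ/H968/Cross.lean

-- ===== PACK-BEGIN Lib/Cheb/H56/QAlg.lean
section





/-!
# CHEB Tier 3 (CHEB-Q), piece Q-ALG (row-lead helper56)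

`cycCount : SpecQ.CycCountStatement`: in the situation of `Spec.CycStatement`, for `p ≡ a mod m`
outside a finite set, the degree-one primes of `L^⟨g⟩` above `p` correspond to the primes of `L`
with Frobenius `g`, and their number `c(p)` satisfies `c(p) · ord g · |C_g| ≤ |G|`.
-/

set_option autoImplicit false
set_option linter.unusedSectionVars false
set_option linter.unusedVariables false

open NumberField
open scoped Pointwise

namespace Fermat.Agent.Lib.Cheb.H56

section

variable {L : Type} [Field L] [NumberField L] [IsGalois ℚ L]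

lemma under_eq_span_of_mem {p : ℕ} (hp : p.Prime) {P : Ideal (𝓞 L)} (hP : P.IsPrime)
    (hpP : (p : 𝓞 L) ∈ P) : P.under ℤ = Ideal.span {(p : ℤ)} := by
  have : Fact p.Prime := ⟨hp⟩
  have hmax := Int.ideal_span_isMaximal_of_prime p
  have hle : Ideal.span {(p : ℤ)} ≤ P.under ℤ := by
    rw [Ideal.span_le, Set.singleton_subset_iff]
    show algebraMap ℤ (𝓞 L) (p : ℤ) ∈ P
    simpa using hpP
  have hne : P.under ℤ ≠ ⊤ := (Ideal.IsPrime.under ℤ P).ne_top
  exact (hmax.eq_of_le hne hle).symm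

/-- The orbit count: primes with Frobenius `g` and decomposition group `⟨g⟩`. -/
theorem card_mul_card_mul_card_le (g : L ≃ₐ[ℚ] L) (X : Set (Ideal (𝓞 L))) {p : ℕ} (hp : p.Prime)
    (hX : ∀ P ∈ X, P.IsPrime ∧ (p : 𝓞 L) ∈ P ∧ Spec.InertiaTrivial L P ∧
      IsArithFrobAt ℤ g P ∧ Spec.decomp L P = Subgroup.zpowers g) :
    Nat.card X * Nat.card (Subgroup.zpowers g) * Nat.card (conjugatesOf g) ≤
      Nat.card (L ≃ₐ[ℚ] L) := by
  classical
  by_cases hne : X.Nonempty
  swap
  · have : IsEmpty X := by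
      rw [Set.not_nonempty_iff_eq_empty] at hne
      rw [hne]
      infer_instance
    rw [Nat.card_of_isEmpty, zero_mul, zero_mul]
    exact Nat.zero_le _
  obtain ⟨P₀, hP₀⟩ := hne
  have hex : ∀ P : X, ∃ h : L ≃ₐ[ℚ] L, h • P₀ = P.1 ∧ h * g * h⁻¹ = g := by
    rintro ⟨P, hP⟩
    have := (hX P₀ hP₀).1
    have := (hX P hP).1
    have hunder : P₀.under ℤ = P.under ℤ := by
      rw [under_eq_span_of_mem hp (hX P₀ hP₀).1 (hX P₀ hP₀).2.1,
        under_eq_span_of_mem hp (hX P hP).1 (hX P hP).2.1]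
    obtain ⟨h, hh⟩ := Algebra.IsInvariant.exists_smul_of_under_eq ℤ (𝓞 L) (L ≃ₐ[ℚ] L) P₀ P hunder
    refine ⟨h, hh.symm, ?_⟩
    have h1 := ((hX P₀ hP₀).2.2.2.1).conj h
    rw [← hh] at h1
    exact H583.frob_unique (hX P hP).2.2.1 h1 (hX P hP).2.2.2.1
  choose hP hP1 hP2 using hex
  have hkex : ∀ c : conjugatesOf g, ∃ k : L ≃ₐ[ℚ] L, k * g * k⁻¹ = c.1 :=
    fun c => isConj_iff.mp c.2
  choose k hk using hkex
  have hz : ∀ z : Subgroup.zpowers g, (z : L ≃ₐ[ℚ] L) * g * (z : L ≃ₐ[ℚ] L)⁻¹ = g := by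
    rintro ⟨z, hz⟩
    obtain ⟨n, rfl⟩ := Subgroup.mem_zpowers_iff.mp hz
    show g ^ n * g * (g ^ n)⁻¹ = g
    have hcomm : Commute (g ^ n) g := (Commute.refl g).zpow_left n
    rw [hcomm.eq, mul_assoc, mul_inv_cancel, mul_one]
  have hzP₀ : ∀ z : Subgroup.zpowers g, (z : L ≃ₐ[ℚ] L) • P₀ = P₀ := by
    intro z
    have : (z : L ≃ₐ[ℚ] L) ∈ Spec.decomp L P₀ := by
      rw [(hX P₀ hP₀).2.2.2.2]
      exact z.2
    exact MulAction.mem_stabilizer_iff.mp this
  have hconj : ∀ (P : X) (z : Subgroup.zpowers g) (c : conjugatesOf g),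
      (k c * hP P * (z : L ≃ₐ[ℚ] L)) * g * (k c * hP P * (z : L ≃ₐ[ℚ] L))⁻¹ = c.1 := by
    intro P z c
    calc (k c * hP P * (z : L ≃ₐ[ℚ] L)) * g * (k c * hP P * (z : L ≃ₐ[ℚ] L))⁻¹
        = k c * (hP P * ((z : L ≃ₐ[ℚ] L) * g * (z : L ≃ₐ[ℚ] L)⁻¹) * (hP P)⁻¹) * (k c)⁻¹ := by
          group
      _ = k c * (hP P * g * (hP P)⁻¹) * (k c)⁻¹ := by rw [hz z]
      _ = k c * g * (k c)⁻¹ := by rw [hP2 P]
      _ = c.1 := hk c
  let Ψ : (X × Subgroup.zpowers g) × conjugatesOf g → (L ≃ₐ[ℚ] L) :=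
    fun x => k x.2 * hP x.1.1 * (x.1.2 : L ≃ₐ[ℚ] L)
  have hinj : Function.Injective Ψ := by
    rintro ⟨⟨P, z⟩, c⟩ ⟨⟨P', z'⟩, c'⟩ hΨ
    have hΨ' : k c * hP P * (z : L ≃ₐ[ℚ] L) = k c' * hP P' * (z' : L ≃ₐ[ℚ] L) := hΨ
    have hc : c = c' := Subtype.ext (by rw [← hconj P z c, ← hconj P' z' c', hΨ'])
    subst hc
    have h2 : hP P * (z : L ≃ₐ[ℚ] L) = hP P' * (z' : L ≃ₐ[ℚ] L) := by
      rw [mul_assoc, mul_assoc] at hΨ'
      exact mul_left_cancel hΨ'
    have hPP' : P = P' := by
      apply Subtype.ext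
      have h3 := congrArg (fun x : L ≃ₐ[ℚ] L => x • P₀) h2
      simp only [mul_smul, hzP₀, hP1] at h3
      exact h3
    subst hPP'
    have hzz' : z = z' := Subtype.ext (mul_left_cancel h2)
    rw [hzz']
  have hle := Nat.card_le_card_of_injective Ψ hinj
  rw [Nat.card_prod, Nat.card_prod] at hle
  exact hle

/-- **Q-ALG** from the black boxes (A) and (D). -/
theorem cycCount_of (hA : Spec.CountStatement) (hD : Spec.FrobStatement) :
    SpecQ.CycCountStatement := by
  intro L _ _ _ m _ ζ hζ g hg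
  classical
  obtain ⟨B1, hB1⟩ := hA L (Subgroup.zpowers g)
  obtain ⟨B3, hB3⟩ := hD L
  refine ⟨B1 ∪ B3 ∪ m.primeFactors, fun p hp hpB hpa hc => ?_⟩
  simp only [Finset.mem_union, not_or] at hpB
  obtain ⟨⟨hp1, hp3⟩, hp4⟩ := hpB
  have hpm : ¬ p ∣ m := fun h => hp4 (Nat.mem_primeFactors.mpr ⟨hp, h, NeZero.ne m⟩)
  have key : ∀ P ∈ Spec.primesLe L (Subgroup.zpowers g) p, P.IsPrime ∧ (p : 𝓞 L) ∈ P ∧
      Spec.InertiaTrivial L P ∧ IsArithFrobAt ℤ g P ∧
      Spec.decomp L P = Subgroup.zpowers g := by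
    intro P hP
    obtain ⟨hI, τ, hτ, hDP, hτg, hτp⟩ := H221.exists_frob_of_mem_primesLe hζ hB3 hp hp3 hpm hP
    have hτeq : τ = g := by
      apply H221.eq_of_mem_zpowers hζ hg hτg
      ext
      rw [hτp, hpa]
    rw [hτeq] at hτ hDP
    exact ⟨hP.1, hP.2.1, hI, hτ, hDP⟩
  have hfin : Finite (Spec.primesLe L (Subgroup.zpowers g) p) :=
    (H221.primesLe_finite L _ hp).to_subtype
  have hcount : Spec.primeCount (IntermediateField.fixedField (Subgroup.zpowers g)) p =
      Nat.card (Spec.primesLe L (Subgroup.zpowers g) p) := by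
    have h1 := hB1 p hp hp1
    have h2 : Spec.decompWeight L (Subgroup.zpowers g) p =
        Nat.card (Spec.primesLe L (Subgroup.zpowers g) p) * Nat.card (Subgroup.zpowers g) := by
      unfold Spec.decompWeight
      have : Fintype (Spec.primesLe L (Subgroup.zpowers g) p) := Fintype.ofFinite _
      rw [finsum_eq_sum_of_fintype]
      rw [Finset.sum_congr rfl (fun P _ => by rw [(key P.1 P.2).2.2.2.2])]
      rw [Finset.sum_const, Finset.card_univ, smul_eq_mul, ← Nat.card_eq_fintype_card]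
    rw [h2] at h1
    exact Nat.eq_of_mul_eq_mul_right Nat.card_pos h1
  constructor
  · have hne : Nat.card (Spec.primesLe L (Subgroup.zpowers g) p) ≠ 0 := hcount ▸ hc
    have hnonempty : Nonempty (Spec.primesLe L (Subgroup.zpowers g) p) := by
      by_contra hemp
      rw [not_nonempty_iff] at hemp
      exact hne Nat.card_of_isEmpty
    obtain ⟨P, hP⟩ := hnonempty
    exact ⟨hp, P, (key P hP).1, (key P hP).2.1, (key P hP).2.2.1, (key P hP).2.2.2.1⟩
  · rw [hcount, ← Nat.card_zpowers]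
    exact card_mul_card_mul_card_le g _ hp key

/-- **Q-ALG**, unconditional. -/
theorem cycCount : SpecQ.CycCountStatement :=
  cycCount_of H764.count H943.frobStatement

end

end Fermat.Agent.Lib.Cheb.H56

end
-- ===== PACK-END Lib/Cheb/H56/QAlg.lean

-- ===== PACK-BEGIN S48/H888/CycloN.lean
section


/-!
# S48 / Tower A1, piece LAYER-A' (helper888), part 1: the mod `N` cyclotomic character

`cycloN N : G_ℚ →* (ZMod N)ˣ` for an arbitrary modulus `N ≠ 0`, with

* `cycloN_spec`     : `σ t = t ^ (cycloN N σ).val` for every `t` with `t ^ N = 1`;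
* `cycloN_eq_one_of_fixes` : `σ` fixes the `N`-th roots of unity `⟹ cycloN N σ = 1`;
* `cycloN_eq_one_of_mem_inertia` : trivial on inertia at every place over `p ∤ N`;
* `cycloN_frobenius` : `cycloN N τ = p` for a Frobenius element `τ` at a place over `p ∤ N`.

(The landed `ExtCitation.cycloChar p` / `S55.Bridge` / `S29.H872.Cyclo` treat prime moduli only.)
-/

set_option autoImplicit false

namespace Fermat.Agent.S48.H888

open Fermat.Agent.S55.Bridge Fermat.Agent.S29.H872

/-- The absolute Galois group of `ℚ`. -/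
abbrev GalQ : Type := AlgebraicClosure ℚ ≃ₐ[ℚ] AlgebraicClosure ℚ

section valuation

variable {A : ValuationSubring (AlgebraicClosure ℚ)}

/-- A natural number prime to `p` is a unit at every place over `p`. -/
theorem val_natCast_eq_one_of_coprime {p n : ℕ} (hp : A.LiesOverPrime p)
    (hcop : Nat.Coprime p n) : A.valuation (n : AlgebraicClosure ℚ) = 1 := by
  have hq' : A.valuation (p : AlgebraicClosure ℚ) < 1 := (A.mem_nonunits_iff).mp hp
  have hcop' : IsCoprime (p : ℤ) (n : ℤ) := by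
    rw [Int.isCoprime_iff_gcd_eq_one, Int.gcd_natCast_natCast]
    exact hcop
  obtain ⟨u, w, huw⟩ := hcop'
  have h1 : (u : AlgebraicClosure ℚ) * (p : AlgebraicClosure ℚ)
      + (w : AlgebraicClosure ℚ) * (n : AlgebraicClosure ℚ) = 1 := by
    exact_mod_cast congrArg (Int.cast : ℤ → AlgebraicClosure ℚ) huw
  have hsmall : A.valuation ((u : AlgebraicClosure ℚ) * (p : AlgebraicClosure ℚ)) < 1 := by
    rw [map_mul]
    exact (mul_le_of_le_one_left' (val_intCast_le_one u)).trans_lt hq'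
  have hwn : A.valuation ((w : AlgebraicClosure ℚ) * (n : AlgebraicClosure ℚ)) = 1 := by
    have : (w : AlgebraicClosure ℚ) * (n : AlgebraicClosure ℚ)
        = 1 + -((u : AlgebraicClosure ℚ) * (p : AlgebraicClosure ℚ)) := by linear_combination h1
    rw [this, (A.valuation).map_add_eq_of_lt_left
      (by rw [Valuation.map_neg, map_one]; exact hsmall), map_one]
  rw [map_mul] at hwn
  have hp1 : A.valuation (n : AlgebraicClosure ℚ) ≤ 1 := by
    have := val_intCast_le_one (A := A) (n : ℤ)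
    rwa [Int.cast_natCast] at this
  refine le_antisymm hp1 ?_
  calc (1 : A.ValueGroup)
      = A.valuation (w : AlgebraicClosure ℚ) * A.valuation (n : AlgebraicClosure ℚ) := hwn.symm
    _ ≤ 1 * A.valuation (n : AlgebraicClosure ℚ) := mul_le_mul_left (val_intCast_le_one w) _
    _ = A.valuation (n : AlgebraicClosure ℚ) := one_mul _

theorem val_le_one_of_pow_eq_one {n : ℕ} (hn : n ≠ 0) {t : AlgebraicClosure ℚ}
    (ht : t ^ n = 1) : A.valuation t ≤ 1 := by
  have h : (A.valuation t) ^ n = 1 := by rw [← map_pow, ht, map_one]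
  exact ((pow_eq_one_iff.1 h).resolve_right hn).le

end valuation

section cyclo

variable (N : ℕ) [NeZero N]

theorem card_rootsOfUnity_Qbar :
    Nat.card (rootsOfUnity N (AlgebraicClosure ℚ)) = N :=
  IsAlgClosed.card_rootsOfUnity_eq (AlgebraicClosure ℚ) N

/-- The mod `N` cyclotomic character of `G_ℚ`. -/
noncomputable def cycloN : GalQ →* (ZMod N)ˣ :=
  MonoidHom.mk'
    (fun σ => modularCyclotomicCharacter (AlgebraicClosure ℚ) (card_rootsOfUnity_Qbar N)
      (σ : AlgebraicClosure ℚ ≃+* AlgebraicClosure ℚ))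
    (fun a b => by rw [← map_mul]; congr 1)

/-- Defining property of `cycloN`, unit form. -/
theorem cycloN_spec_unit (σ : GalQ) {t : (AlgebraicClosure ℚ)ˣ}
    (ht : t ∈ rootsOfUnity N (AlgebraicClosure ℚ)) :
    σ (t : AlgebraicClosure ℚ)
      = (t : AlgebraicClosure ℚ) ^ ((cycloN N σ : (ZMod N)ˣ) : ZMod N).val :=
  modularCyclotomicCharacter.spec (AlgebraicClosure ℚ) (card_rootsOfUnity_Qbar N)
    (σ : AlgebraicClosure ℚ ≃+* AlgebraicClosure ℚ) ht

/-- An element with `t ^ N = 1`, as a unit in `rootsOfUnity N`. -/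
theorem exists_unit_of_pow_eq_one {t : AlgebraicClosure ℚ} (ht : t ^ N = 1) :
    ∃ u : (AlgebraicClosure ℚ)ˣ, u ∈ rootsOfUnity N (AlgebraicClosure ℚ) ∧
      (u : AlgebraicClosure ℚ) = t := by
  have ht0 : t ≠ 0 := by
    rintro rfl
    rw [zero_pow (NeZero.ne N)] at ht
    exact zero_ne_one ht
  refine ⟨Units.mk0 t ht0, ?_, rfl⟩
  rw [mem_rootsOfUnity]
  apply Units.ext
  rw [Units.val_pow_eq_pow_val, Units.val_mk0, ht, Units.val_one]

/-- Defining property of `cycloN`. -/
theorem cycloN_spec (σ : GalQ) {t : AlgebraicClosure ℚ} (ht : t ^ N = 1) :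
    σ t = t ^ ((cycloN N σ : (ZMod N)ˣ) : ZMod N).val := by
  obtain ⟨u, hu, rfl⟩ := exists_unit_of_pow_eq_one N ht
  exact cycloN_spec_unit N σ hu

/-- Uniqueness: if `σ t = t ^ m` on all `N`-th roots of unity then `cycloN N σ = m`. -/
theorem cycloN_eq_of_forall_pow (σ : GalQ) (m : ℕ)
    (h : ∀ t : AlgebraicClosure ℚ, t ^ N = 1 → σ t = t ^ m) :
    ((cycloN N σ : (ZMod N)ˣ) : ZMod N) = (m : ZMod N) := by
  have h' := modularCyclotomicCharacter.unique (AlgebraicClosure ℚ) (card_rootsOfUnity_Qbar N)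
    (σ : AlgebraicClosure ℚ ≃+* AlgebraicClosure ℚ) (c := (m : ZMod N))
    (fun t ht => by
      have htN : (t : AlgebraicClosure ℚ) ^ N = 1 := by
        have := (mem_rootsOfUnity N t).1 ht
        rw [← Units.val_pow_eq_pow_val, this, Units.val_one]
      have e : (t : AlgebraicClosure ℚ) ^ (m : ZMod N).val = (t : AlgebraicClosure ℚ) ^ m := by
        rw [ZMod.val_natCast]
        conv_rhs => rw [← Nat.div_add_mod m N]
        rw [pow_add, pow_mul, htN, one_pow, one_mul]
      rw [e]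
      exact h _ htN)
  exact h'.symm

/-- If `σ` fixes all `N`-th roots of unity then `cycloN N σ = 1`. -/
theorem cycloN_eq_one_of_fixes (σ : GalQ)
    (hσ : ∀ t : AlgebraicClosure ℚ, t ^ N = 1 → σ t = t) : cycloN N σ = 1 := by
  apply Units.ext
  rw [cycloN_eq_of_forall_pow N σ 1 (fun t ht => by rw [pow_one]; exact hσ t ht)]
  simp

/-- The mod `N` cyclotomic character is unramified at every prime `p ∤ N`. -/
theorem cycloN_eq_one_of_mem_inertia {p : ℕ} (hp : p.Prime) (hpN : ¬ p ∣ N)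
    (A : ValuationSubring (AlgebraicClosure ℚ)) (hA : A.LiesOverPrime p)
    (σ : GalQ) (hσ : σ ∈ A.inertiaSubgroupIn ℚ) : cycloN N σ = 1 := by
  apply cycloN_eq_one_of_fixes
  intro t htp
  by_contra hne
  have hpv := val_natCast_eq_one_of_coprime (A := A) hA
    ((Nat.Prime.coprime_iff_not_dvd hp).2 hpN)
  have hσt : (σ t) ^ N = 1 := by rw [← map_pow, htp, map_one]
  have h1 := val_sub_roots_eq_one (A := A) (NeZero.ne N) hpv hσt htp hne
  have h2 := inertia_val_sub_lt_one A hσ t (val_le_one_of_pow_eq_one (NeZero.ne N) htp)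
  rw [h1] at h2
  exact lt_irrefl _ h2

/-- A Frobenius element at a place over `p ∤ N` raises `N`-th roots of unity to the `p`-th
power. -/
theorem frob_rootN_eq_pow {p : ℕ} (hp : p.Prime) (hpN : ¬ p ∣ N)
    (A : ValuationSubring (AlgebraicClosure ℚ)) (hA : A.LiesOverPrime p)
    (τ : GalQ) (hτ : A.IsFrobeniusAt τ p) {t : AlgebraicClosure ℚ} (htp : t ^ N = 1) :
    τ t = t ^ p := by
  by_contra hne
  have hpv := val_natCast_eq_one_of_coprime (A := A) hA
    ((Nat.Prime.coprime_iff_not_dvd hp).2 hpN)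
  have hσt : (τ t) ^ N = 1 := by rw [← map_pow, htp, map_one]
  have htl : (t ^ p) ^ N = 1 := by rw [← pow_mul, mul_comm, pow_mul, htp, one_pow]
  have h1 := val_sub_roots_eq_one (A := A) (NeZero.ne N) hpv hσt htl hne
  have h2 := frob_val_sub_lt_one A hτ t (val_le_one_of_pow_eq_one (NeZero.ne N) htp)
  rw [h1] at h2
  exact lt_irrefl _ h2

/-- **Cyclotomic character at Frobenius.**  For `p ∤ N` and a Frobenius element `τ` at a place
over `p`, `cycloN N τ = p`. -/
theorem cycloN_frobenius {p : ℕ} (hp : p.Prime) (hpN : ¬ p ∣ N)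
    (A : ValuationSubring (AlgebraicClosure ℚ)) (hA : A.LiesOverPrime p)
    (τ : GalQ) (hτ : A.IsFrobeniusAt τ p) :
    ((cycloN N τ : (ZMod N)ˣ) : ZMod N) = (p : ZMod N) :=
  cycloN_eq_of_forall_pow N τ p (fun _ ht => frob_rootN_eq_pow N hp hpN A hA τ hτ ht)

end cyclo

end Fermat.Agent.S48.H888

end
-- ===== PACK-END S48/H888/CycloN.lean

-- ===== PACK-BEGIN S48/H888/GalChar.lean
section



/-!
# S48 / Tower A1, piece LAYER-A' (helper888), part 2: the Galois character of a Dirichlet character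

For `ε : DirichletCharacter ℂ N` and a ring homomorphism `φ : ℤ̄ → F` the character
`galChar ε φ : G_ℚ →* F`, `σ ↦ φ (ε (cycloN N σ))`:

* `galChar_eq_one_of_fixes`       : trivial on `Gal(ℚ̄ / ℚ(μ_N))`;
* `galChar_eq_one_of_mem_inertia` : trivial on inertia at every place over `p ∤ N`;
* `galChar_frobenius`             : `galChar ε φ τ = φ e` for a Frobenius `τ` at a place over
  `p ∤ N` and every `e : ℤ̄` with `(e : ℂ) = ε p`.
-/

set_option autoImplicit false

namespace Fermat.Agent.S48.H888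

open Fermat.Agent.S48.Top

variable {N : ℕ} [NeZero N]

/-- The values of a Dirichlet character are algebraic integers. -/
theorem isIntegral_dirichlet (ε : DirichletCharacter ℂ N) (a : ZMod N) : IsIntegral ℤ (ε a) := by
  by_cases ha : IsUnit a
  · obtain ⟨u, rfl⟩ := ha
    have hcard : 0 < Fintype.card (ZMod N)ˣ := Fintype.card_pos
    have h1 : ε (u : ZMod N) ^ Fintype.card (ZMod N)ˣ = 1 := by
      rw [← map_pow, ← Units.val_pow_eq_pow_val, pow_card_eq_one, Units.val_one, map_one]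
    exact IsIntegral.of_pow hcard (by rw [h1]; exact isIntegral_one)
  · rw [MulChar.map_nonunit ε ha]
    exact isIntegral_zero

/-- The value `ε a` as an algebraic integer. -/
noncomputable def dirichletZbar (ε : DirichletCharacter ℂ N) (a : ZMod N) : Zbar :=
  ⟨ε a, isIntegral_dirichlet ε a⟩

@[simp] theorem coe_dirichletZbar (ε : DirichletCharacter ℂ N) (a : ZMod N) :
    ((dirichletZbar ε a : Zbar) : ℂ) = ε a := rfl

theorem dirichletZbar_eq (ε : DirichletCharacter ℂ N) (a : ZMod N) {e : Zbar}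
    (he : (e : ℂ) = ε a) : dirichletZbar ε a = e :=
  Subtype.ext he.symm

variable {F : Type*} [Field F]

/-- `u ↦ φ (ε u)` as a monoid homomorphism on `(ZMod N)ˣ`. -/
noncomputable def dirichletUnitHom (ε : DirichletCharacter ℂ N) (φ : Zbar →+* F) :
    (ZMod N)ˣ →* F where
  toFun u := φ (dirichletZbar ε (u : ZMod N))
  map_one' := by
    have : dirichletZbar ε ((1 : (ZMod N)ˣ) : ZMod N) = 1 :=
      Subtype.ext (by simp)
    rw [this, map_one]
  map_mul' u v := by
    have : dirichletZbar ε ((u * v : (ZMod N)ˣ) : ZMod N)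
        = dirichletZbar ε (u : ZMod N) * dirichletZbar ε (v : ZMod N) :=
      Subtype.ext (by simp)
    rw [this, map_mul]

/-- The Galois character `σ ↦ φ (ε (χ_N σ))` attached to the Dirichlet character `ε`. -/
noncomputable def galChar (ε : DirichletCharacter ℂ N) (φ : Zbar →+* F) : GalQ →* F :=
  (dirichletUnitHom ε φ).comp (cycloN N)

theorem galChar_apply (ε : DirichletCharacter ℂ N) (φ : Zbar →+* F) (σ : GalQ) :
    galChar ε φ σ = φ (dirichletZbar ε ((cycloN N σ : (ZMod N)ˣ) : ZMod N)) := rfl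

/-- `galChar ε φ` is trivial on automorphisms fixing the `N`-th roots of unity. -/
theorem galChar_eq_one_of_fixes (ε : DirichletCharacter ℂ N) (φ : Zbar →+* F) (σ : GalQ)
    (hσ : ∀ t : AlgebraicClosure ℚ, t ^ N = 1 → σ t = t) : galChar ε φ σ = 1 := by
  unfold galChar
  rw [MonoidHom.comp_apply, cycloN_eq_one_of_fixes N σ hσ, map_one]

/-- `galChar ε φ` is unramified at every prime `p ∤ N`. -/
theorem galChar_eq_one_of_mem_inertia (ε : DirichletCharacter ℂ N) (φ : Zbar →+* F)
    {p : ℕ} (hp : p.Prime) (hpN : ¬ p ∣ N)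
    (A : ValuationSubring (AlgebraicClosure ℚ)) (hA : A.LiesOverPrime p)
    (σ : GalQ) (hσ : σ ∈ A.inertiaSubgroupIn ℚ) : galChar ε φ σ = 1 := by
  unfold galChar
  rw [MonoidHom.comp_apply, cycloN_eq_one_of_mem_inertia N hp hpN A hA σ hσ, map_one]

/-- `galChar ε φ (Frob_p) = φ (ε p)` for `p ∤ N`. -/
theorem galChar_frobenius (ε : DirichletCharacter ℂ N) (φ : Zbar →+* F)
    {p : ℕ} (hp : p.Prime) (hpN : ¬ p ∣ N)
    (A : ValuationSubring (AlgebraicClosure ℚ)) (hA : A.LiesOverPrime p)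
    (τ : GalQ) (hτ : A.IsFrobeniusAt τ p) {e : Zbar} (he : (e : ℂ) = ε (p : ZMod N)) :
    galChar ε φ τ = φ e := by
  rw [galChar_apply, cycloN_frobenius N hp hpN A hA τ hτ, dirichletZbar_eq ε _ he]

/-- The finite set of `N`-th roots of unity in `ℚ̄`. -/
noncomputable def rootsFinset (N : ℕ) : Finset (AlgebraicClosure ℚ) :=
  Polynomial.nthRootsFinset N (1 : AlgebraicClosure ℚ)

theorem mem_rootsFinset {t : AlgebraicClosure ℚ} (ht : t ^ N = 1) : t ∈ rootsFinset N :=
  (Polynomial.mem_nthRootsFinset (Nat.pos_of_ne_zero (NeZero.ne N)) 1).2 ht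

/-- Finite-level form: `galChar ε φ σ = 1` as soon as `σ` fixes the finite set `rootsFinset N`. -/
theorem galChar_eq_one_of_fixes_finset (ε : DirichletCharacter ℂ N) (φ : Zbar →+* F) (σ : GalQ)
    (hσ : ∀ t ∈ rootsFinset N, σ t = t) : galChar ε φ σ = 1 :=
  galChar_eq_one_of_fixes ε φ σ (fun t ht => hσ t (mem_rootsFinset ht))

end Fermat.Agent.S48.H888

end
-- ===== PACK-END S48/H888/GalChar.lean

-- ===== PACK-BEGIN S29/H872/Assembly.lean
section



/-!
# Abstract assembly: from a nonzero module with quadratic relations to a two-dimensional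
representation with prescribed characteristic polynomials
-/

set_option autoImplicit false

namespace Fermat.Agent.S29.H872

open Module Polynomial

section diag

variable {F : Type*} [Field F] {G : Type*} [Group G]

/-- The diagonal representation `χ ⊕ θ` on `F × F`. -/
noncomputable def diagRep (χ θ : G →* F) : G →* Module.End F (F × F) where
  toFun g := LinearMap.prodMap (χ g • (1 : Module.End F F)) (θ g • (1 : Module.End F F))
  map_one' := by
    ext <;> simp
  map_mul' g h := by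
    ext <;> simp [mul_comm]

theorem diagRep_apply (χ θ : G →* F) (g : G) :
    diagRep χ θ g = LinearMap.prodMap (χ g • (1 : Module.End F F)) (θ g • (1 : Module.End F F)) :=
  rfl

theorem charpoly_diagRep (χ θ : G →* F) (g : G) :
    (diagRep χ θ g).charpoly = X ^ 2 - C (χ g + θ g) * X + C (χ g * θ g) := by
  rw [diagRep_apply, LinearMap.charpoly_prodMap, charpoly_smul_one, charpoly_smul_one,
    Module.finrank_self, pow_one, pow_one, C_add, C_mul]
  ring

theorem diagRep_eq_one (χ θ : G →* F) {g : G} (h1 : χ g = 1) (h2 : θ g = 1) :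
    diagRep χ θ g = 1 := by
  rw [diagRep_apply, h1, h2]
  ext <;> simp

theorem finrank_prod_self : Module.finrank F (F × F) = 2 := by
  rw [Module.finrank_prod, Module.finrank_self]

end diag

section dim1

variable {F : Type*} [Field F] {U : Type*} [AddCommGroup U] [Module F U]
variable {G : Type*} [Group G]

/-- The character by which `G` acts on a line. -/
noncomputable def lineChar (h1 : Module.finrank F U = 1) (r : G →* Module.End F U) : G →* F where
  toFun g := (LinearEquiv.smul_id_of_finrank_eq_one h1).symm (r g)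
  map_one' := by
    rw [LinearEquiv.symm_apply_eq]
    simp
    rfl
  map_mul' g h := by
    rw [LinearEquiv.symm_apply_eq]
    have e1 := (LinearEquiv.smul_id_of_finrank_eq_one h1).apply_symm_apply (r g)
    have e2 := (LinearEquiv.smul_id_of_finrank_eq_one h1).apply_symm_apply (r h)
    simp only [LinearEquiv.smul_id_of_finrank_eq_one_apply] at e1 e2 ⊢
    rw [map_mul]
    conv_lhs => rw [← e1, ← e2]
    ext x
    simp [mul_smul, smul_comm ((LinearEquiv.smul_id_of_finrank_eq_one h1).symm (r h))]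

theorem lineChar_spec (h1 : Module.finrank F U = 1) (r : G →* Module.End F U) (g : G) :
    r g = lineChar h1 r g • (1 : Module.End F U) := by
  have e1 := (LinearEquiv.smul_id_of_finrank_eq_one h1).apply_symm_apply (r g)
  simp only [LinearEquiv.smul_id_of_finrank_eq_one_apply] at e1
  exact e1.symm

end dim1

section assembly

variable {F M : Type} [Field F] [AddCommGroup M] [Module F M]
variable {G : Type*} [Group G]

/-- The twist `d · χ⁻¹` of the inverse of a character. -/
noncomputable def twistInv (d χ : G →* F) : G →* F :=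
  d * ((invMonoidWithZeroHom (G₀ := F)).toMonoidHom.comp χ)

theorem twistInv_apply (d χ : G →* F) (g : G) : twistInv d χ g = d g * (χ g)⁻¹ := rfl

theorem char_ne_zero (χ : G →* F) (g : G) : χ g ≠ 0 := by
  intro h
  have : χ g * χ g⁻¹ = 1 := by rw [← map_mul, mul_inv_cancel, map_one]
  rw [h, zero_mul] at this
  exact zero_ne_one this

/-- **Abstract assembly.** A nonzero finite dimensional representation over an algebraically
closed field in which every group element satisfies a quadratic relation with multiplicative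
constant term `d` gives rise to a two-dimensional representation `ρ` with
`charpoly (ρ g) = X² - α X + d g` for every `α` such that `g² = α g - d g` holds on `M`;
moreover `ρ g = 1` as soon as `g` acts trivially on `M` and `d g = 1`. -/
theorem exists_two_dim [IsAlgClosed F] [FiniteDimensional F M] [Nontrivial M]
    (r : G →* Module.End F M) (d : G →* F) (a : G → F)
    (hrel : ∀ g, r g * r g = a g • r g - d g • 1) :
    ∃ (V : Type) (_ : AddCommGroup V) (_ : Module F V) (_ : Module.Finite F V)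
      (ρ : G →* Module.End F V),
      Module.finrank F V = 2 ∧ (∀ g, r g = 1 → d g = 1 → ρ g = 1) ∧
      ∀ g α, r g * r g = α • r g - d g • 1 →
        LinearMap.charpoly (ρ g) = X ^ 2 - C α * X + C (d g) := by
  obtain ⟨U, hU0, hUs, hUmin⟩ := exists_minimal_stable r
  have hq : QuadRel r a d := ⟨fun g h => map_mul d g h, hrel⟩
  have hqU := hq.restrict U hUs
  have hirr := restrictRep_irreducible r U hUs hUmin
  have : Nontrivial U := Submodule.nontrivial_iff_ne_bot.mpr hU0
  have hle := finrank_le_two hqU hirr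
  have hpos : 0 < finrank F U := Module.finrank_pos
  rcases (show finrank F U = 1 ∨ finrank F U = 2 by omega) with h1 | h2
  · -- the line case
    have hχ := lineChar_spec h1 (restrictRep r U hUs)
    set χ := lineChar h1 (restrictRep r U hUs) with hχdef
    refine ⟨F × F, inferInstance, inferInstance, inferInstance, diagRep χ (twistInv d χ),
      finrank_prod_self,
      fun g hg hd => ?_, fun g α hα => ?_⟩
    · have e : χ g = 1 := by
        have h := hχ g
        rw [restrictRep_eq_one r U hUs hg] at h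
        have h' : (1 : F) • (1 : Module.End F U) = χ g • 1 := by rw [one_smul]; exact h
        exact (smul_one_injective h').symm
      exact diagRep_eq_one _ _ e (by rw [twistInv_apply, hd, e, inv_one, mul_one])
    · have hne := char_ne_zero χ g
      have hα' := restrictRep_rel r U hUs hα
      rw [hχ g] at hα'
      have e : χ g * χ g = α * χ g - d g := by
        rw [smul_mul_smul_comm, mul_one, smul_smul, ← sub_smul] at hα'
        exact smul_one_injective hα'
      have eθ : χ g + twistInv d χ g = α := by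
        rw [twistInv_apply]
        field_simp
        linear_combination e
      have eθ' : χ g * twistInv d χ g = d g := by
        rw [twistInv_apply]
        field_simp
      rw [charpoly_diagRep, eθ, eθ']
  · -- the plane case
    refine ⟨U, inferInstance, inferInstance, inferInstance, restrictRep r U hUs, h2,
      fun g hg _ => restrictRep_eq_one r U hUs hg, fun g α hα => ?_⟩
    exact charpoly_eq_of_quadRel hqU hirr h2 g α (restrictRep_rel r U hUs hα)

end assembly

end Fermat.Agent.S29.H872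

end
-- ===== PACK-END S29/H872/Assembly.lean

-- ===== PACK-BEGIN S29/H872/Glue.lean
section




/-!
# From a Galois module with Eichler–Shimura relations to a residual Galois representation

Input: an algebraically closed field `F` of characteristic `p`, a nonzero finite dimensional
`F[G_ℚ]`-module `M` of finite level, unramified outside a finite set `S ∋ p`, such that every
Frobenius element at a prime `ℓ ∉ S` satisfies `σ² - c(ℓ) σ + ℓ = 0` on `M`; plus the weak
qualitative Chebotarev property `WeakCheb` (every element of `G_ℚ` agrees, on any finite subset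
of `ℚ̄`, with a power of a Frobenius element at a prime outside any finite set).

Output: a `ResidualGaloisRep F`, unramified outside `S`, with
`charpoly (ρ Frob_ℓ) = X² - c(ℓ) X + ℓ` for all `ℓ ∉ S`.
-/

set_option autoImplicit false

namespace Fermat.Agent.S29.H872

open Polynomial ExtCitation

/-- **Weak qualitative Chebotarev** (hypothesis shape): on every finite subset `s` of `ℚ̄`, every
`σ ∈ G_ℚ` agrees with a power of a Frobenius element at some prime outside `S`. -/
def WeakCheb : Prop :=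
  ∀ (s : Finset (AlgebraicClosure ℚ)) (σ : AlgebraicClosure ℚ ≃ₐ[ℚ] AlgebraicClosure ℚ)
    (S : Finset ℕ),
    ∃ (q : ℕ) (A : ValuationSubring (AlgebraicClosure ℚ))
      (τ : AlgebraicClosure ℚ ≃ₐ[ℚ] AlgebraicClosure ℚ) (j : ℕ),
      q.Prime ∧ q ∉ S ∧ A.LiesOverPrime q ∧ A.IsFrobeniusAt τ q ∧ ∀ x ∈ s, (τ ^ j) x = σ x

/-- Agreement of two automorphisms on a finite dimensional subfield is detected on a finite
set. -/
theorem exists_finset_level (L : IntermediateField ℚ (AlgebraicClosure ℚ))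
    [FiniteDimensional ℚ L] :
    ∃ s : Finset (AlgebraicClosure ℚ),
      ∀ σ τ : AlgebraicClosure ℚ ≃ₐ[ℚ] AlgebraicClosure ℚ,
        (∀ x ∈ s, σ x = τ x) → ∀ x ∈ L, σ x = τ x := by
  classical
  let b := Module.finBasis ℚ L
  refine ⟨Finset.univ.image (fun i => ((b i : L) : AlgebraicClosure ℚ)), fun σ τ h x hx => ?_⟩
  have e : (σ.toAlgHom.comp L.val).toLinearMap = (τ.toAlgHom.comp L.val).toLinearMap := by
    apply b.ext
    intro i
    exact h _ (Finset.mem_image_of_mem _ (Finset.mem_univ i))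
  exact congrArg (fun f : L →ₗ[ℚ] AlgebraicClosure ℚ => f ⟨x, hx⟩) e

section cyclo

variable (p : ℕ) [Fact p.Prime] (F : Type*) [Field F] [CharP F p]

/-- The mod `p` cyclotomic character with values in a field of characteristic `p`. -/
noncomputable def cycloF : (AlgebraicClosure ℚ ≃ₐ[ℚ] AlgebraicClosure ℚ) →* F :=
  ((ZMod.castHom (dvd_refl p) F).toMonoidHom.comp (Units.coeHom (ZMod p))).comp (cycloChar p)

theorem cycloF_apply (σ : AlgebraicClosure ℚ ≃ₐ[ℚ] AlgebraicClosure ℚ) :
    cycloF p F σ = ZMod.castHom (dvd_refl p) F ((cycloChar p σ : (ZMod p)ˣ) : ZMod p) := rfl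

theorem cycloF_eq_one_of_fixes_roots (σ : AlgebraicClosure ℚ ≃ₐ[ℚ] AlgebraicClosure ℚ)
    (hσ : ∀ t : AlgebraicClosure ℚ, t ^ p = 1 → σ t = t) : cycloF p F σ = 1 := by
  rw [cycloF_apply, cycloChar_eq_one_of_fixes_roots p σ hσ, Units.val_one, map_one]

theorem cycloF_eq_one_of_mem_inertia {q : ℕ} (hq : q.Prime) (hqp : q ≠ p)
    (A : ValuationSubring (AlgebraicClosure ℚ)) (hA : A.LiesOverPrime q)
    (σ : AlgebraicClosure ℚ ≃ₐ[ℚ] AlgebraicClosure ℚ) (hσ : σ ∈ A.inertiaSubgroupIn ℚ) :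
    cycloF p F σ = 1 := by
  rw [cycloF_apply, Fermat.Agent.S55.Bridge.cycloChar_eq_one_of_mem_inertia p hq hqp A hA σ hσ,
    Units.val_one, map_one]

theorem cycloF_frobenius {ℓ : ℕ} (hℓ : ℓ.Prime) (hℓp : ℓ ≠ p)
    (A : ValuationSubring (AlgebraicClosure ℚ)) (hA : A.LiesOverPrime ℓ)
    (τ : AlgebraicClosure ℚ ≃ₐ[ℚ] AlgebraicClosure ℚ) (hτ : A.IsFrobeniusAt τ ℓ) :
    cycloF p F τ = (ℓ : F) := by
  rw [cycloF_apply, cycloChar_frobenius p hℓ hℓp A hA τ hτ, map_natCast]

end cyclo

/-- **Glue.** See the module docstring. -/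
theorem exists_residualGaloisRep_of_module (p : ℕ) [Fact p.Prime]
    {F : Type} [Field F] [IsAlgClosed F] [CharP F p]
    {M : Type} [AddCommGroup M] [Module F M] [FiniteDimensional F M] [Nontrivial M]
    (r : (AlgebraicClosure ℚ ≃ₐ[ℚ] AlgebraicClosure ℚ) →* Module.End F M)
    (hfin : GaloisFactorsThroughFiniteLevel r)
    (S : Finset ℕ) (hpS : p ∈ S) (c : ℕ → F)
    (hunr : ∀ ℓ : ℕ, ℓ.Prime → ℓ ∉ S → ∀ A : ValuationSubring (AlgebraicClosure ℚ),
      A.LiesOverPrime ℓ → ∀ σ ∈ A.inertiaSubgroupIn ℚ, r σ = 1)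
    (hES : ∀ ℓ : ℕ, ℓ.Prime → ℓ ∉ S → ∀ A : ValuationSubring (AlgebraicClosure ℚ),
      A.LiesOverPrime ℓ → ∀ σ : AlgebraicClosure ℚ ≃ₐ[ℚ] AlgebraicClosure ℚ,
        A.IsFrobeniusAt σ ℓ → r σ * r σ = c ℓ • r σ - (ℓ : F) • 1)
    (hCheb : WeakCheb) :
    ∃ ρ : ResidualGaloisRep F,
      (∀ ℓ : ℕ, ℓ.Prime → ℓ ∉ S → ρ.IsUnramifiedAt ℓ) ∧
      ∀ ℓ : ℕ, ℓ.Prime → ℓ ∉ S → ∀ A : ValuationSubring (AlgebraicClosure ℚ),
        A.LiesOverPrime ℓ → ∀ σ : AlgebraicClosure ℚ ≃ₐ[ℚ] AlgebraicClosure ℚ,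
          A.IsFrobeniusAt σ ℓ →
            LinearMap.charpoly (ρ.ρ σ) = X ^ 2 - C (c ℓ) * X + C ((ℓ : F)) := by
  classical
  have hp : p.Prime := Fact.out
  obtain ⟨L₀, hL₀fd, hL₀⟩ := hfin
  have := hL₀fd
  obtain ⟨s₀, hs₀⟩ := exists_finset_level L₀
  let s₁ : Finset (AlgebraicClosure ℚ) := Polynomial.nthRootsFinset p (1 : AlgebraicClosure ℚ)
  have hs₁ : ∀ t : AlgebraicClosure ℚ, t ^ p = 1 → t ∈ s₁ := fun t ht =>
    (Polynomial.mem_nthRootsFinset hp.pos 1).2 ht
  -- the quadratic relation for every element of the Galois group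
  have hall : ∀ σ : AlgebraicClosure ℚ ≃ₐ[ℚ] AlgebraicClosure ℚ,
      ∃ a' : F, r σ * r σ = a' • r σ - cycloF p F σ • 1 := by
    intro σ
    obtain ⟨q, A, τ, j, hq, hqS, hA, hτ, hagree⟩ := hCheb (s₀ ∪ s₁) σ S
    have hqp : q ≠ p := fun h => hqS (h ▸ hpS)
    have h0 : ∀ x ∈ L₀, (τ ^ j) x = σ x :=
      hs₀ _ _ (fun x hx => hagree x (Finset.mem_union_left _ hx))
    have hfix : ∀ x : AlgebraicClosure ℚ, (τ ^ j) x = σ x → (σ⁻¹ * τ ^ j) x = x := by
      intro x hx
      rw [AlgEquiv.mul_apply, hx]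
      exact σ.symm_apply_apply x
    have hr : r σ = r τ ^ j := by
      have h1 : r (σ⁻¹ * τ ^ j) = 1 := hL₀ _ (fun x hx => hfix x (h0 x hx))
      have h2 : r σ * r (σ⁻¹ * τ ^ j) = r τ ^ j := by
        rw [← map_mul, mul_inv_cancel_left, map_pow]
      rw [h1, mul_one] at h2
      exact h2
    have hd : cycloF p F σ = cycloF p F τ ^ j := by
      have h1 : cycloF p F (σ⁻¹ * τ ^ j) = 1 :=
        cycloF_eq_one_of_fixes_roots p F _
          (fun t ht => hfix t (hagree t (Finset.mem_union_right _ (hs₁ t ht))))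
      have h2 : cycloF p F σ * cycloF p F (σ⁻¹ * τ ^ j) = cycloF p F τ ^ j := by
        rw [← map_mul, mul_inv_cancel_left, map_pow]
      rw [h1, mul_one] at h2
      exact h2
    have hτrel := hES q hq hqS A hA τ hτ
    have hdτ : cycloF p F τ = (q : F) := cycloF_frobenius p F hq hqp A hA τ hτ
    obtain ⟨a', ha'⟩ := exists_pow_rel hτrel j
    exact ⟨a', by rw [hr, hd, hdτ]; exact ha'⟩
  choose a ha using hall
  obtain ⟨V, iA, iM, iFin, ρ, hfr, htriv, hchar⟩ := exists_two_dim r (cycloF p F) a ha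
  -- the level of `ρ`
  have hint : ∀ x ∈ (s₁ : Set (AlgebraicClosure ℚ)), IsIntegral ℚ x := fun x _ =>
    (AlgebraicClosure.isAlgebraic ℚ).isIntegral.isIntegral x
  have : FiniteDimensional ℚ (IntermediateField.adjoin ℚ (s₁ : Set (AlgebraicClosure ℚ))) :=
    IntermediateField.finiteDimensional_adjoin hint
  have hlevel : GaloisFactorsThroughFiniteLevel ρ := by
    refine ⟨L₀ ⊔ IntermediateField.adjoin ℚ (s₁ : Set (AlgebraicClosure ℚ)), inferInstance,
      fun σ hσ => htriv σ (hL₀ σ fun x hx => hσ x ?_) (cycloF_eq_one_of_fixes_roots p F σ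
        fun t ht => hσ t ?_)⟩
    · exact (le_sup_left : L₀ ≤ _) hx
    · exact (le_sup_right : IntermediateField.adjoin ℚ (s₁ : Set (AlgebraicClosure ℚ)) ≤ _)
        (IntermediateField.subset_adjoin ℚ _ (hs₁ t ht))
  refine ⟨@ResidualGaloisRep.mk F _ V iA iM hfr ρ hlevel, ?_, ?_⟩
  · intro ℓ hℓ hℓS A hA σ hσ
    have hℓp : ℓ ≠ p := fun h => hℓS (h ▸ hpS)
    exact htriv σ (hunr ℓ hℓ hℓS A hA σ hσ) (cycloF_eq_one_of_mem_inertia p F hℓ hℓp A hA σ hσ)
  · intro ℓ hℓ hℓS A hA σ hσ
    have hℓp : ℓ ≠ p := fun h => hℓS (h ▸ hpS)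
    have hdσ : cycloF p F σ = (ℓ : F) := cycloF_frobenius p F hℓ hℓp A hA σ hσ
    have h := hchar σ (c ℓ) (by rw [hdσ]; exact hES ℓ hℓ hℓS A hA σ hσ)
    rw [hdσ] at h
    exact h

end Fermat.Agent.S29.H872

end
-- ===== PACK-END S29/H872/Glue.lean

-- ===== PACK-BEGIN S29/H872/Final.lean
section


/-!
# S29 from the Eichler–Shimura module and weak Chebotarev

`result_of_module`: the frozen conclusion of S29 follows from

* `WeakCheb` (weak qualitative Chebotarev), and
* `ModHyp g p ψ` for algebraically closed fields `F` of characteristic `p` and ring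
  homomorphisms `ψ : ℤ̄ → F`: a nonzero finite dimensional `F[G_ℚ]`-module of finite level,
  unramified outside `N p`, on which every Frobenius element at `ℓ ∤ N p` satisfies
  `σ² - ψ(a_ℓ) σ + ℓ = 0`.
-/

set_option autoImplicit false

namespace Fermat.Agent.S29.H872

open Polynomial

/-- A monic polynomial of positive degree over `ℤ̄` has a root in `ℤ̄`. -/
theorem exists_root_integralClosure (q : (integralClosure ℤ ℂ)[X]) (hq : q.Monic)
    (hdeg : q.natDegree ≠ 0) : ∃ w : integralClosure ℤ ℂ, q.eval w = 0 := by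
  have hmap : (q.map (algebraMap (integralClosure ℤ ℂ) ℂ)).degree ≠ 0 := by
    rw [hq.degree_map, degree_eq_natDegree hq.ne_zero]
    exact_mod_cast hdeg
  obtain ⟨z, hz⟩ := IsAlgClosed.exists_root _ hmap
  have hz' : IsIntegral (integralClosure ℤ ℂ) z := ⟨q, hq, by
    rw [← eval_map]; exact hz⟩
  have hz'' : IsIntegral ℤ z := isIntegral_trans z hz'
  refine ⟨⟨z, hz''⟩, ?_⟩
  apply Subtype.val_injective
  have := eval_map_apply (p := q) (algebraMap (integralClosure ℤ ℂ) ℂ) (⟨z, hz''⟩ : integralClosure ℤ ℂ)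
  rw [IsRoot.def] at hz
  rw [show ((q.eval (⟨z, hz''⟩ : integralClosure ℤ ℂ) : integralClosure ℤ ℂ) : ℂ)
    = algebraMap (integralClosure ℤ ℂ) ℂ (q.eval ⟨z, hz''⟩) from rfl, ← this]
  exact hz

section field

variable {p : ℕ} {k : Type} [Field k] [CharP k p]

/-- The kernel of a ring homomorphism from `ℤ̄` to a field of characteristic `p` is maximal. -/
theorem ker_isMaximal (hp : p.Prime) (φ : integralClosure ℤ ℂ →+* k) :
    (RingHom.ker φ).IsMaximal := by
  have : (RingHom.ker φ).IsPrime := RingHom.ker_isPrime φ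
  apply Ideal.isMaximal_of_isIntegral_of_isMaximal_comap (R := ℤ)
  have hprime : ((RingHom.ker φ).comap (algebraMap ℤ (integralClosure ℤ ℂ))).IsPrime :=
    Ideal.comap_isPrime _ _
  refine hprime.isMaximal ?_
  intro h
  have hmem : (p : ℤ) ∈ (RingHom.ker φ).comap (algebraMap ℤ (integralClosure ℤ ℂ)) := by
    rw [Ideal.mem_comap, RingHom.mem_ker]
    simp
  rw [h, Ideal.mem_bot] at hmem
  exact hp.ne_zero (by exact_mod_cast hmem)

/-- The image of `φ : ℤ̄ → k`, as a subfield of `k`. -/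
def imageField (hp : p.Prime) (φ : integralClosure ℤ ℂ →+* k) : Subfield k :=
  { φ.range with
    inv_mem' := by
      rintro _ ⟨a, rfl⟩
      by_cases h0 : φ a = 0
      · rw [h0, inv_zero]; exact ⟨0, map_zero φ⟩
      · obtain ⟨y, i, hi, hyi⟩ := (ker_isMaximal hp φ).exists_inv (x := a)
          (by rwa [RingHom.mem_ker])
        refine ⟨y, ?_⟩
        have h1 := congrArg φ hyi
        rw [map_add, map_mul, (RingHom.mem_ker).1 hi, add_zero, map_one] at h1
        exact (eq_inv_of_mul_eq_one_left h1) }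

theorem mem_imageField (hp : p.Prime) (φ : integralClosure ℤ ℂ →+* k) (a : integralClosure ℤ ℂ) :
    φ a ∈ imageField hp φ := ⟨a, rfl⟩

/-- `φ` with codomain restricted to its image. -/
def toImageField (hp : p.Prime) (φ : integralClosure ℤ ℂ →+* k) :
    integralClosure ℤ ℂ →+* imageField hp φ :=
  φ.codRestrict (imageField hp φ).toSubring (mem_imageField hp φ)

theorem toImageField_surjective (hp : p.Prime) (φ : integralClosure ℤ ℂ →+* k) :
    Function.Surjective (toImageField hp φ) := by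
  rintro ⟨_, a, rfl⟩
  exact ⟨a, rfl⟩

theorem coe_toImageField (hp : p.Prime) (φ : integralClosure ℤ ℂ →+* k)
    (a : integralClosure ℤ ℂ) : ((toImageField hp φ a : imageField hp φ) : k) = φ a := rfl

/-- The image of `φ` is algebraically closed. -/
theorem isAlgClosed_imageField (hp : p.Prime) (φ : integralClosure ℤ ℂ →+* k) :
    IsAlgClosed (imageField hp φ) := by
  apply IsAlgClosed.of_exists_root
  intro f hf hirr
  obtain ⟨q', hq'⟩ := Polynomial.map_surjective _ (toImageField_surjective hp φ) f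
  obtain ⟨q, hqf, hqdeg, hqmonic⟩ :=
    lifts_and_natDegree_eq_and_monic ((mem_lifts _).2 ⟨q', hq'⟩) hf
  have hdeg : q.natDegree ≠ 0 := by
    rw [hqdeg]
    exact (Irreducible.natDegree_pos hirr).ne'
  obtain ⟨w, hw⟩ := exists_root_integralClosure q hqmonic hdeg
  refine ⟨toImageField hp φ w, ?_⟩
  rw [← hqf, eval_map_apply, hw, map_zero]

end field

/-- **MOD** (hypothesis shape): the Eichler–Shimura module of the eigenform `g` over `F`. -/
def ModHyp {N : ℕ} (g : CuspForm (CongruenceSubgroup.Gamma0 N) 2) (p : ℕ) {F : Type} [Field F]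
    (ψ : integralClosure ℤ ℂ →+* F) : Prop :=
  ∃ (M : Type) (_ : AddCommGroup M) (_ : Module F M) (_ : FiniteDimensional F M)
    (_ : Nontrivial M) (r : (AlgebraicClosure ℚ ≃ₐ[ℚ] AlgebraicClosure ℚ) →* Module.End F M),
    GaloisFactorsThroughFiniteLevel r ∧
    (∀ ℓ : ℕ, ℓ.Prime → ¬ ℓ ∣ N * p → ∀ A : ValuationSubring (AlgebraicClosure ℚ),
      A.LiesOverPrime ℓ → ∀ σ ∈ A.inertiaSubgroupIn ℚ, r σ = 1) ∧
    (∀ ℓ : ℕ, ℓ.Prime → ¬ ℓ ∣ N * p →
      ∃ a : integralClosure ℤ ℂ, (a : ℂ) = ModularFormClass.qCoeff g ℓ ∧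
        ∀ A : ValuationSubring (AlgebraicClosure ℚ), A.LiesOverPrime ℓ →
          ∀ σ : AlgebraicClosure ℚ ≃ₐ[ℚ] AlgebraicClosure ℚ, A.IsFrobeniusAt σ ℓ →
            r σ * r σ = ψ a • r σ - (ℓ : F) • 1)

/-- The trivial two-dimensional residual representation. -/
noncomputable def trivialRep (k : Type) [Field k] : ResidualGaloisRep k where
  V := k × k
  finrank_eq := finrank_prod_self
  ρ := 1
  factorsThroughFiniteLevel := ⟨⊥, inferInstance, fun _ _ => rfl⟩

/-- **S29 from MOD over an algebraically closed field and weak Chebotarev**, general form: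
`F` algebraically closed, `ψ : ℤ̄ → F`, `ι : F → k` with `ι ∘ ψ = φ`. -/
theorem result_of_module_field
    {N : ℕ} {g : CuspForm (CongruenceSubgroup.Gamma0 N) 2}
    {p : ℕ} (hp : p.Prime) {k : Type} [Field k] [CharP k p]
    (φ : integralClosure ℤ ℂ →+* k) (hCheb : WeakCheb)
    {F : Type} [Field F] [IsAlgClosed F] (ψ : integralClosure ℤ ℂ →+* F) (ι : F →+* k)
    (hι : ∀ a, ι (ψ a) = φ a) (hMod : N ≠ 0 → ModHyp g p ψ) :
    ∃ ρ : ResidualGaloisRep k, ρ.IsAttachedTo g φ ∧
      ∀ ℓ : ℕ, ℓ.Prime → ¬ ℓ ∣ N * p → ρ.IsUnramifiedAt ℓ := by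
  classical
  by_cases hN : N = 0
  · subst hN
    refine ⟨trivialRep k, fun ℓ _ hℓN => absurd (dvd_zero ℓ) hℓN, fun ℓ _ hℓ => ?_⟩
    exact absurd (by rw [zero_mul]; exact dvd_zero ℓ) hℓ
  have : Fact p.Prime := ⟨hp⟩
  have : CharP F p := ι.charP ι.injective p
  obtain ⟨M, iA, iM, iFD, iNT, r, hfin, hunr, hES⟩ := hMod hN
  have hNp : N * p ≠ 0 := Nat.mul_ne_zero hN hp.ne_zero
  let S : Finset ℕ := (N * p).primeFactors
  have hS : ∀ ℓ : ℕ, ℓ.Prime → (ℓ ∉ S ↔ ¬ ℓ ∣ N * p) := fun ℓ hℓ => by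
    simp only [S, Nat.mem_primeFactors, not_and, not_not]
    constructor
    · intro h hd
      exact hNp (h hℓ hd)
    · intro h _ hd
      exact absurd hd h
  have hpS : p ∈ S := by
    by_contra h
    exact ((hS p hp).1 h) (dvd_mul_left p N)
  let c : ℕ → F := fun ℓ =>
    if h : ∃ a : integralClosure ℤ ℂ, (a : ℂ) = ModularFormClass.qCoeff g ℓ then ψ h.choose else 0
  have hc : ∀ (ℓ : ℕ) (a : integralClosure ℤ ℂ), (a : ℂ) = ModularFormClass.qCoeff g ℓ →
      c ℓ = ψ a := by
    intro ℓ a ha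
    have h : ∃ a : integralClosure ℤ ℂ, (a : ℂ) = ModularFormClass.qCoeff g ℓ := ⟨a, ha⟩
    simp only [c, dif_pos h]
    congr 1
    exact Subtype.ext (h.choose_spec.trans ha.symm)
  obtain ⟨ρ₀, hρunr, hρchar⟩ := exists_residualGaloisRep_of_module p r hfin S hpS c
    (fun ℓ hℓ hℓS => hunr ℓ hℓ ((hS ℓ hℓ).1 hℓS))
    (fun ℓ hℓ hℓS A hA σ hσ => by
      obtain ⟨a, ha, hrel⟩ := hES ℓ hℓ ((hS ℓ hℓ).1 hℓS)
      rw [hc ℓ a ha]
      exact hrel A hA σ hσ) hCheb
  refine ⟨ρ₀.baseChangeAlong ι, ?_, ?_⟩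
  · intro ℓ hℓ hℓN hℓk A hA σ hσ
    have hℓp : ¬ ℓ ∣ N * p := by
      intro hd
      rcases (Nat.Prime.dvd_mul hℓ).1 hd with h | h
      · exact hℓN h
      · have : ℓ = p := (Nat.prime_dvd_prime_iff_eq hℓ hp).1 h
        subst this
        exact hℓk (CharP.cast_eq_zero k ℓ)
    obtain ⟨a, ha, -⟩ := hES ℓ hℓ hℓp
    refine ⟨a, ha, ?_⟩
    have h := hρchar ℓ hℓ ((hS ℓ hℓ).2 hℓp) A hA σ hσ
    rw [hc ℓ a ha] at h
    let _ : Algebra F k := ι.toAlgebra
    change LinearMap.charpoly ((ρ₀.ρ σ).baseChange k) = _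
    rw [LinearMap.charpoly_baseChange, h]
    simp only [Polynomial.map_add, Polynomial.map_sub, Polynomial.map_mul, Polynomial.map_pow,
      Polynomial.map_X, Polynomial.map_C]
    rw [show (algebraMap F k) (ψ a) = φ a from hι a, map_natCast (algebraMap F k)]
  · intro ℓ hℓ hℓp A hA σ hσ
    have h := hρunr ℓ hℓ ((hS ℓ hℓ).2 hℓp) A hA σ hσ
    let _ : Algebra F k := ι.toAlgebra
    change (ρ₀.ρ σ).baseChange k = 1
    rw [h, LinearMap.baseChange_one]

/-- **S29 from MOD and weak Chebotarev.** -/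
theorem result_of_module
    {N : ℕ} {g : CuspForm (CongruenceSubgroup.Gamma0 N) 2}
    {p : ℕ} (hp : p.Prime) {k : Type} [Field k] [CharP k p]
    (φ : integralClosure ℤ ℂ →+* k) (hCheb : WeakCheb)
    (hMod : N ≠ 0 → ∀ (F : Type) [Field F] [IsAlgClosed F] [CharP F p]
      (ψ : integralClosure ℤ ℂ →+* F), ModHyp g p ψ) :
    ∃ ρ : ResidualGaloisRep k, ρ.IsAttachedTo g φ ∧
      ∀ ℓ : ℕ, ℓ.Prime → ¬ ℓ ∣ N * p → ρ.IsUnramifiedAt ℓ := by
  have := isAlgClosed_imageField hp φ
  exact result_of_module_field hp φ hCheb (toImageField hp φ) (imageField hp φ).subtype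
    (fun a => coe_toImageField hp φ a) (fun hN => hMod hN _ _)

end Fermat.Agent.S29.H872

end
-- ===== PACK-END S29/H872/Final.lean

-- ===== PACK-BEGIN Lib/Cheb/FrobFinite.lean
section





/-!
# CHEB, Tier 1, finite level: the qualitative Frobenius density theorem for Galois number fields

Assembly of the pieces `Z`, `B0` (helper761), `A` (helper764), `D` (helper943), `M` (helper993).
-/

set_option autoImplicit false

namespace Fermat.Agent.Lib.Cheb

/-- **Frobenius density theorem (qualitative), finite level.**  For a Galois number field `L`,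
`σ ∈ Gal(L/ℚ)` and a finite set `S` of primes there are a prime `p ∉ S`, a prime `P` of `𝓞 L`
above `p` with trivial inertia and an arithmetic Frobenius `τ` at `P` with `⟨τ⟩ = ⟨σ⟩`. -/
theorem frobFinite : Spec.FrobFiniteStatement :=
  H993.frobFinite H761.primeSum_statement H761.primeCountBound_statement H764.count
    H943.frobStatement

end Fermat.Agent.Lib.Cheb

end
-- ===== PACK-END Lib/Cheb/FrobFinite.lean

-- ===== PACK-BEGIN Lib/Cheb/FrobeniusDivision.lean
section



/-!
# CHEB, Tier 1 END: the Frobenius division theorem over `ℚ̄`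

`Fermat.Agent.Lib.Cheb.frobeniusDivision : Spec.FrobeniusDivisionStatement`

For every finite extension `E ⊆ ℚ̄` of `ℚ`, every `σ ∈ Gal(ℚ̄/ℚ)` and every finite set `S` of
numbers there are a prime `ℓ ∉ S`, a valuation subring `A` of `ℚ̄` over `ℓ`, a Frobenius `τ` at `A`
(Prelude's `IsFrobeniusAt`) and exponents `k`, `j` such that the inertia group of `A` acts
trivially on `E`, `τ = σ ^ k` on `E` and `τ ^ j = σ` on `E`
(i.e. `τ|_E` and `σ|_E` generate the same cyclic subgroup: "Frobenius density, qualitative").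

Assembled from
* `frobFinite` (finite level, Galois number fields; pieces Z, B0, A, D, M), and
* `H476.bridgeDivision` (bridge F6 from the finite level to valuation subrings of `ℚ̄`).
-/

set_option autoImplicit false

namespace Fermat.Agent.Lib.Cheb

/-- **Frobenius division theorem** (qualitative Frobenius density theorem over `ℚ̄`). -/
theorem frobeniusDivision : Spec.FrobeniusDivisionStatement :=
  H476.bridgeDivision frobFinite

end Fermat.Agent.Lib.Cheb

end
-- ===== PACK-END Lib/Cheb/FrobeniusDivision.lean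

-- ===== PACK-BEGIN S29/H872/Cheb.lean
section



/-!
# `WeakCheb` holds (from the landed Frobenius division theorem), and S29 from MOD alone
-/

set_option autoImplicit false

namespace Fermat.Agent.S29.H872

/-- The weak Chebotarev hypothesis of `Glue.lean` follows from the Frobenius division theorem
`Fermat.Agent.Lib.Cheb.frobeniusDivision`. -/
theorem weakCheb : WeakCheb := by
  intro s σ S
  have hint : ∀ x ∈ (s : Set (AlgebraicClosure ℚ)), IsIntegral ℚ x := fun x _ =>
    (AlgebraicClosure.isAlgebraic ℚ).isIntegral.isIntegral x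
  have hfd : FiniteDimensional ℚ (IntermediateField.adjoin ℚ (s : Set (AlgebraicClosure ℚ))) :=
    IntermediateField.finiteDimensional_adjoin hint
  obtain ⟨ℓ, A, τ, k, j, hℓ, hℓS, hA, hτ, -, -, hj⟩ :=
    Fermat.Agent.Lib.Cheb.frobeniusDivision _ hfd σ S
  exact ⟨ℓ, A, τ, j, hℓ, hℓS, hA, hτ, fun x hx =>
    hj x (IntermediateField.subset_adjoin ℚ _ hx)⟩

/-- **S29 from MOD.** The frozen conclusion of S29 follows from the existence of the
Eichler–Shimura module `ModHyp g p ψ` over algebraically closed fields of characteristic `p`. -/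
theorem result_of_mod
    {N : ℕ} {g : CuspForm (CongruenceSubgroup.Gamma0 N) 2}
    {p : ℕ} (hp : p.Prime) {k : Type} [Field k] [CharP k p]
    (φ : integralClosure ℤ ℂ →+* k)
    (hMod : N ≠ 0 → ∀ (F : Type) [Field F] [IsAlgClosed F] [CharP F p]
      (ψ : integralClosure ℤ ℂ →+* F), ModHyp g p ψ) :
    ∃ ρ : ResidualGaloisRep k, ρ.IsAttachedTo g φ ∧
      ∀ ℓ : ℕ, ℓ.Prime → ¬ ℓ ∣ N * p → ρ.IsUnramifiedAt ℓ :=
  result_of_module hp φ weakCheb hMod

end Fermat.Agent.S29.H872

end
-- ===== PACK-END S29/H872/Cheb.lean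

-- ===== PACK-BEGIN S48/H888/LayerA.lean
section




/-!
# S48 / Tower A1, piece LAYER-A' (helper888), part 3: from a Galois module to `ResidualStatement`

Layer A of row S29 (`S29/H872`, helper872) with the cyclotomic determinant replaced by an
arbitrary determinant character, then specialised to the Galois character of a Dirichlet
character.

* `exists_residualGaloisRep_of_module_det` : abstract glue (determinant `d : G_ℚ →* F`).
* `ModHyp1 ε f ℓ ψ`        : the module hypothesis (finite-dimensional form);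
* `HasFrobModule1 ε f ℓ ψ` : the module hypothesis (smooth form, as produced by a torsion module);
* `residual_of_modHyp`     : one prime `ℓ`, any field `k` of characteristic `ℓ`;
* `residualStatement_of_modHyp`, `residualStatement_of_frobModule` :
  `ModStatement → Top.ResidualStatement`, `FrobModuleStatement → Top.ResidualStatement`.

So Tower A1 only has to produce, for every large `ℓ`, every algebraically closed field `F` of
characteristic `ℓ` and every `ψ : ℤ̄ → F`, a NONZERO smooth `F[G_ℚ]`-module, unramified outside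
`N ℓ`, on which every Frobenius element at `p ∤ N ℓ` satisfies `σ² - ψ(a_p) σ + ψ(ε(p)) = 0`.
-/

set_option autoImplicit false

namespace Fermat.Agent.S48.H888

open Polynomial Fermat.Agent.S48.Top Fermat.Agent.S29.H872

/-- **Glue with an arbitrary determinant character.**  `F` algebraically closed, `M` a nonzero
finite dimensional `F[G_ℚ]`-module of finite level, unramified outside `S`; `d : G_ℚ →* F` a
character of finite level, unramified outside `S`, with `d (Frob_ℓ) = e ℓ`; every Frobenius at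
`ℓ ∉ S` satisfies `σ² - c(ℓ) σ + e(ℓ) = 0` on `M`.  Then there is a `ResidualGaloisRep F`,
unramified outside `S`, with `charpoly (ρ Frob_ℓ) = X² - c(ℓ) X + e(ℓ)`. -/
theorem exists_residualGaloisRep_of_module_det
    {F : Type} [Field F] [IsAlgClosed F]
    {M : Type} [AddCommGroup M] [Module F M] [FiniteDimensional F M] [Nontrivial M]
    (r : GalQ →* Module.End F M) (hfin : GaloisFactorsThroughFiniteLevel r)
    (d : GalQ →* F) (s₁ : Finset (AlgebraicClosure ℚ))
    (hdlevel : ∀ σ : GalQ, (∀ t ∈ s₁, σ t = t) → d σ = 1)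
    (S : Finset ℕ) (c e : ℕ → F)
    (hunr : ∀ ℓ : ℕ, ℓ.Prime → ℓ ∉ S → ∀ A : ValuationSubring (AlgebraicClosure ℚ),
      A.LiesOverPrime ℓ → ∀ σ ∈ A.inertiaSubgroupIn ℚ, r σ = 1)
    (hdunr : ∀ ℓ : ℕ, ℓ.Prime → ℓ ∉ S → ∀ A : ValuationSubring (AlgebraicClosure ℚ),
      A.LiesOverPrime ℓ → ∀ σ ∈ A.inertiaSubgroupIn ℚ, d σ = 1)
    (hdfrob : ∀ ℓ : ℕ, ℓ.Prime → ℓ ∉ S → ∀ A : ValuationSubring (AlgebraicClosure ℚ),
      A.LiesOverPrime ℓ → ∀ σ : GalQ, A.IsFrobeniusAt σ ℓ → d σ = e ℓ)
    (hES : ∀ ℓ : ℕ, ℓ.Prime → ℓ ∉ S → ∀ A : ValuationSubring (AlgebraicClosure ℚ),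
      A.LiesOverPrime ℓ → ∀ σ : GalQ, A.IsFrobeniusAt σ ℓ →
        r σ * r σ = c ℓ • r σ - e ℓ • 1)
    (hCheb : WeakCheb) :
    ∃ ρ : ResidualGaloisRep F,
      (∀ ℓ : ℕ, ℓ.Prime → ℓ ∉ S → ρ.IsUnramifiedAt ℓ) ∧
      ∀ ℓ : ℕ, ℓ.Prime → ℓ ∉ S → ∀ A : ValuationSubring (AlgebraicClosure ℚ),
        A.LiesOverPrime ℓ → ∀ σ : GalQ, A.IsFrobeniusAt σ ℓ →
          LinearMap.charpoly (ρ.ρ σ) = X ^ 2 - C (c ℓ) * X + C (e ℓ) := by
  classical
  obtain ⟨L₀, hL₀fd, hL₀⟩ := hfin
  have := hL₀fd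
  obtain ⟨s₀, hs₀⟩ := exists_finset_level L₀
  -- the quadratic relation for every element of the Galois group
  have hall : ∀ σ : GalQ, ∃ a' : F, r σ * r σ = a' • r σ - d σ • 1 := by
    intro σ
    obtain ⟨q, A, τ, j, hq, hqS, hA, hτ, hagree⟩ := hCheb (s₀ ∪ s₁) σ S
    have h0 : ∀ x ∈ L₀, (τ ^ j) x = σ x :=
      hs₀ _ _ (fun x hx => hagree x (Finset.mem_union_left _ hx))
    have hfix : ∀ x : AlgebraicClosure ℚ, (τ ^ j) x = σ x → (σ⁻¹ * τ ^ j) x = x := by
      intro x hx
      rw [AlgEquiv.mul_apply, hx]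
      exact σ.symm_apply_apply x
    have hr : r σ = r τ ^ j := by
      have h1 : r (σ⁻¹ * τ ^ j) = 1 := hL₀ _ (fun x hx => hfix x (h0 x hx))
      have h2 : r σ * r (σ⁻¹ * τ ^ j) = r τ ^ j := by
        rw [← map_mul, mul_inv_cancel_left, map_pow]
      rw [h1, mul_one] at h2
      exact h2
    have hd : d σ = d τ ^ j := by
      have h1 : d (σ⁻¹ * τ ^ j) = 1 :=
        hdlevel _ (fun t ht => hfix t (hagree t (Finset.mem_union_right _ ht)))
      have h2 : d σ * d (σ⁻¹ * τ ^ j) = d τ ^ j := by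
        rw [← map_mul, mul_inv_cancel_left, map_pow]
      rw [h1, mul_one] at h2
      exact h2
    have hτrel := hES q hq hqS A hA τ hτ
    have hdτ : d τ = e q := hdfrob q hq hqS A hA τ hτ
    obtain ⟨a', ha'⟩ := exists_pow_rel hτrel j
    exact ⟨a', by rw [hr, hd, hdτ]; exact ha'⟩
  choose a ha using hall
  obtain ⟨V, iA, iM, iFin, ρ, hfr, htriv, hchar⟩ := exists_two_dim r d a ha
  -- the level of `ρ`
  have hint : ∀ x ∈ (s₁ : Set (AlgebraicClosure ℚ)), IsIntegral ℚ x := fun x _ =>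
    (AlgebraicClosure.isAlgebraic ℚ).isIntegral.isIntegral x
  have : FiniteDimensional ℚ (IntermediateField.adjoin ℚ (s₁ : Set (AlgebraicClosure ℚ))) :=
    IntermediateField.finiteDimensional_adjoin hint
  have hlevel : GaloisFactorsThroughFiniteLevel ρ := by
    refine ⟨L₀ ⊔ IntermediateField.adjoin ℚ (s₁ : Set (AlgebraicClosure ℚ)), inferInstance,
      fun σ hσ => htriv σ (hL₀ σ fun x hx => hσ x ?_) (hdlevel σ fun t ht => hσ t ?_)⟩
    · exact (le_sup_left : L₀ ≤ _) hx
    · exact (le_sup_right : IntermediateField.adjoin ℚ (s₁ : Set (AlgebraicClosure ℚ)) ≤ _)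
        (IntermediateField.subset_adjoin ℚ _ ht)
  refine ⟨@ResidualGaloisRep.mk F _ V iA iM hfr ρ hlevel, ?_, ?_⟩
  · intro ℓ hℓ hℓS A hA σ hσ
    exact htriv σ (hunr ℓ hℓ hℓS A hA σ hσ) (hdunr ℓ hℓ hℓS A hA σ hσ)
  · intro ℓ hℓ hℓS A hA σ hσ
    have hdσ : d σ = e ℓ := hdfrob ℓ hℓ hℓS A hA σ hσ
    have h := hchar σ (c ℓ) (by rw [hdσ]; exact hES ℓ hℓ hℓS A hA σ hσ)
    rw [hdσ] at h
    exact h

/-! ### The module hypotheses -/

section hyp

variable {N : ℕ} [NeZero N]

/-- **MOD₁, finite-dimensional form.**  A nonzero finite dimensional `F[G_ℚ]`-module of finite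
level, unramified outside `N ℓ`, on which every Frobenius element at `p ∤ N ℓ` satisfies
`σ² - ψ(a_p) σ + ψ(ε(p)) = 0`. -/
def ModHyp1 (ε : DirichletCharacter ℂ N) (f : CuspForm (CongruenceSubgroup.Gamma1 N) 1) (ℓ : ℕ)
    {F : Type} [Field F] (ψ : Zbar →+* F) : Prop :=
  ∃ (M : Type) (_ : AddCommGroup M) (_ : Module F M) (_ : FiniteDimensional F M)
    (_ : Nontrivial M) (r : GalQ →* Module.End F M),
    GaloisFactorsThroughFiniteLevel r ∧
    (∀ p : ℕ, p.Prime → ¬ p ∣ N * ℓ → ∀ A : ValuationSubring (AlgebraicClosure ℚ),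
      A.LiesOverPrime p → ∀ σ ∈ A.inertiaSubgroupIn ℚ, r σ = 1) ∧
    (∀ p : ℕ, p.Prime → ¬ p ∣ N * ℓ →
      ∃ a e : Zbar, (a : ℂ) = ModularFormClass.qCoeff f p ∧ (e : ℂ) = ε (p : ZMod N) ∧
        ∀ A : ValuationSubring (AlgebraicClosure ℚ), A.LiesOverPrime p →
          ∀ σ : GalQ, A.IsFrobeniusAt σ p → r σ * r σ = ψ a • r σ - ψ e • 1)

/-- **MOD₁, smooth form** (the output of a torsion-module layer).  A nonzero smooth
`F[G_ℚ]`-module, unramified outside `N ℓ`, on which every Frobenius element at `p ∤ N ℓ`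
satisfies `σ² x - ψ(a_p) σ x + ψ(ε(p)) x = 0`. -/
def HasFrobModule1 (ε : DirichletCharacter ℂ N) (f : CuspForm (CongruenceSubgroup.Gamma1 N) 1)
    (ℓ : ℕ) {F : Type} [Field F] (ψ : Zbar →+* F) : Prop :=
  ∃ (M : Type) (_ : AddCommGroup M) (_ : Module F M) (ρ : GalQ →* Module.End F M),
    Nontrivial M ∧ Fermat.Agent.S29.IsSmoothRep ρ ∧ Fermat.Agent.S29.IsUnramOutside ρ (N * ℓ) ∧
    (∀ p : ℕ, p.Prime → ¬ p ∣ N * ℓ →
      ∃ a e : Zbar, (a : ℂ) = ModularFormClass.qCoeff f p ∧ (e : ℂ) = ε (p : ZMod N) ∧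
        ∀ A : ValuationSubring (AlgebraicClosure ℚ), A.LiesOverPrime p →
          ∀ σ : GalQ, A.IsFrobeniusAt σ p → ∀ x : M,
            ρ σ (ρ σ x) - ψ a • ρ σ x + ψ e • x = 0)

omit [NeZero N] in
/-- The smooth form implies the finite-dimensional form. -/
theorem modHyp1_of_hasFrobModule1 {ε : DirichletCharacter ℂ N}
    {f : CuspForm (CongruenceSubgroup.Gamma1 N) 1} {ℓ : ℕ} {F : Type} [Field F]
    {ψ : Zbar →+* F} (h : HasFrobModule1 ε f ℓ ψ) : ModHyp1 ε f ℓ ψ := by
  obtain ⟨M, _, _, ρ, hnt, hsm, hur, hfq⟩ := h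
  obtain ⟨W, hW0, hWfin, hWst, L, hL, hLfix⟩ :=
    Fermat.Agent.S29.exists_finite_stable_submodule ρ hsm
  let r : GalQ →* Module.End F W :=
    { toFun := fun σ => (ρ σ).restrict (hWst σ)
      map_one' := by
        ext x
        simp
      map_mul' := fun σ τ => by
        ext x
        simp [LinearMap.restrict_apply] }
  have hr : ∀ (σ : GalQ) (x : W), ((r σ x : W) : M) = ρ σ (x : M) := fun _ _ => rfl
  have : Nontrivial W := (Submodule.nontrivial_iff_ne_bot).mpr hW0
  refine ⟨W, inferInstance, inferInstance, hWfin, inferInstance, r, ⟨L, hL, ?_⟩, ?_, ?_⟩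
  · intro σ hσ
    ext x
    rw [hr, hLfix σ hσ x x.2]
    rfl
  · intro p hp hS A hA σ hσ
    ext x
    rw [hr, hur p hp hS A hA σ hσ]
    rfl
  · intro p hp hS
    obtain ⟨a, e, ha, he, hrel⟩ := hfq p hp hS
    refine ⟨a, e, ha, he, fun A hA σ hσ => ?_⟩
    have h0 := hrel A hA σ hσ
    ext x
    have h1 := h0 (x : M)
    simp only [LinearMap.sub_apply, Module.End.mul_apply, LinearMap.smul_apply,
      Module.End.one_apply, Submodule.coe_sub, Submodule.coe_smul, hr]
    rw [sub_add_eq_add_sub, sub_eq_zero] at h1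
    rw [eq_sub_iff_add_eq, h1]

end hyp

/-! ### From the module to the residual representation -/

section final

variable {N : ℕ} [NeZero N]

/-- **One prime, algebraically closed coefficients, general form.** -/
theorem residual_of_modHyp_field (ε : DirichletCharacter ℂ N)
    (f : CuspForm (CongruenceSubgroup.Gamma1 N) 1) {ℓ : ℕ} (hℓ : ℓ.Prime)
    {k : Type} [Field k] (φ : Zbar →+* k)
    {F : Type} [Field F] [IsAlgClosed F] (ψ : Zbar →+* F) (ι : F →+* k)
    (hι : ∀ a, ι (ψ a) = φ a) (hMod : ModHyp1 ε f ℓ ψ) :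
    ∃ ρ : ResidualGaloisRep k,
      ∀ p : ℕ, p.Prime → ¬ p ∣ N * ℓ → ρ.IsUnramifiedAt p ∧
        ∀ A : ValuationSubring (AlgebraicClosure ℚ), A.LiesOverPrime p →
          ∀ σ : GalQ, A.IsFrobeniusAt σ p →
            ∃ a e : Zbar, (a : ℂ) = ModularFormClass.qCoeff f p ∧
              (e : ℂ) = ε (p : ZMod N) ∧
              LinearMap.charpoly (ρ.ρ σ) =
                Polynomial.X ^ 2 - Polynomial.C (φ a) * Polynomial.X + Polynomial.C (φ e) := by
  classical
  obtain ⟨M, iA, iM, iFD, iNT, r, hfin, hunr, hES⟩ := hMod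
  have hNℓ : N * ℓ ≠ 0 := Nat.mul_ne_zero (NeZero.ne N) hℓ.ne_zero
  let S : Finset ℕ := (N * ℓ).primeFactors
  have hS : ∀ p : ℕ, p.Prime → (p ∉ S ↔ ¬ p ∣ N * ℓ) := fun p hp => by
    simp only [S, Nat.mem_primeFactors, not_and, not_not]
    constructor
    · intro h hd
      exact hNℓ (h hp hd)
    · intro h _ hd
      exact absurd hd h
  have hSN : ∀ p : ℕ, ¬ p ∣ N * ℓ → ¬ p ∣ N := fun p h hd => h (Dvd.dvd.mul_right hd ℓ)
  let c : ℕ → F := fun p =>
    if h : ∃ a : Zbar, (a : ℂ) = ModularFormClass.qCoeff f p then ψ h.choose else 0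
  have hc : ∀ (p : ℕ) (a : Zbar), (a : ℂ) = ModularFormClass.qCoeff f p → c p = ψ a := by
    intro p a ha
    have h : ∃ a : Zbar, (a : ℂ) = ModularFormClass.qCoeff f p := ⟨a, ha⟩
    simp only [c, dif_pos h]
    congr 1
    exact Subtype.ext (h.choose_spec.trans ha.symm)
  let e : ℕ → F := fun p => ψ (dirichletZbar ε (p : ZMod N))
  have he : ∀ (p : ℕ) (b : Zbar), (b : ℂ) = ε (p : ZMod N) → e p = ψ b := by
    intro p b hb
    simp only [e]
    rw [dirichletZbar_eq ε _ hb]
  obtain ⟨ρ₀, hρunr, hρchar⟩ := exists_residualGaloisRep_of_module_det r hfin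
    (galChar ε ψ) (rootsFinset N) (galChar_eq_one_of_fixes_finset ε ψ) S c e
    (fun p hp hpS => hunr p hp ((hS p hp).1 hpS))
    (fun p hp hpS A hA σ hσ =>
      galChar_eq_one_of_mem_inertia ε ψ hp (hSN p ((hS p hp).1 hpS)) A hA σ hσ)
    (fun p hp hpS A hA σ hσ =>
      galChar_frobenius ε ψ hp (hSN p ((hS p hp).1 hpS)) A hA σ hσ rfl)
    (fun p hp hpS A hA σ hσ => by
      obtain ⟨a, b, ha, hb, hrel⟩ := hES p hp ((hS p hp).1 hpS)
      rw [hc p a ha, he p b hb]
      exact hrel A hA σ hσ) weakCheb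
  refine ⟨ρ₀.baseChangeAlong ι, fun p hp hpS => ⟨?_, ?_⟩⟩
  · intro A hA σ hσ
    have h := hρunr p hp ((hS p hp).2 hpS) A hA σ hσ
    let _ : Algebra F k := ι.toAlgebra
    change (ρ₀.ρ σ).baseChange k = 1
    rw [h, LinearMap.baseChange_one]
  · intro A hA σ hσ
    obtain ⟨a, b, ha, hb, -⟩ := hES p hp hpS
    refine ⟨a, b, ha, hb, ?_⟩
    have h := hρchar p hp ((hS p hp).2 hpS) A hA σ hσ
    rw [hc p a ha, he p b hb] at h
    let _ : Algebra F k := ι.toAlgebra
    change LinearMap.charpoly ((ρ₀.ρ σ).baseChange k) = _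
    rw [LinearMap.charpoly_baseChange, h]
    simp only [Polynomial.map_add, Polynomial.map_sub, Polynomial.map_mul, Polynomial.map_pow,
      Polynomial.map_X, Polynomial.map_C]
    rw [show (algebraMap F k) (ψ a) = φ a from hι a, show (algebraMap F k) (ψ b) = φ b from hι b]

/-- **One prime `ℓ`, any field `k` of characteristic `ℓ`.** -/
theorem residual_of_modHyp (ε : DirichletCharacter ℂ N)
    (f : CuspForm (CongruenceSubgroup.Gamma1 N) 1) {ℓ : ℕ} (hℓ : ℓ.Prime)
    {k : Type} [Field k] [CharP k ℓ] (φ : Zbar →+* k)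
    (hMod : ∀ (F : Type) [Field F] [IsAlgClosed F] [CharP F ℓ] (ψ : Zbar →+* F),
      ModHyp1 ε f ℓ ψ) :
    ∃ ρ : ResidualGaloisRep k,
      ∀ p : ℕ, p.Prime → ¬ p ∣ N * ℓ → ρ.IsUnramifiedAt p ∧
        ∀ A : ValuationSubring (AlgebraicClosure ℚ), A.LiesOverPrime p →
          ∀ σ : GalQ, A.IsFrobeniusAt σ p →
            ∃ a e : Zbar, (a : ℂ) = ModularFormClass.qCoeff f p ∧
              (e : ℂ) = ε (p : ZMod N) ∧
              LinearMap.charpoly (ρ.ρ σ) =
                Polynomial.X ^ 2 - Polynomial.C (φ a) * Polynomial.X + Polynomial.C (φ e) := by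
  have := isAlgClosed_imageField hℓ φ
  have hchar : CharP (imageField hℓ φ) ℓ :=
    (imageField hℓ φ).subtype.charP (imageField hℓ φ).subtype.injective ℓ
  exact residual_of_modHyp_field ε f hℓ φ (toImageField hℓ φ) (imageField hℓ φ).subtype
    (fun a => coe_toImageField hℓ φ a) (hMod _ _)

end final

/-! ### The statements consumed / produced by the row -/

/-- **MOD (finite-dimensional form)**: what a Tower-A1 construction has to deliver. -/
def ModStatement : Prop :=
  ∀ (N : ℕ) [NeZero N] (ε : DirichletCharacter ℂ N) (f : CuspForm (CongruenceSubgroup.Gamma1 N) 1),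
    IsEigen N ε f → ∃ B : ℕ, ∀ ℓ : ℕ, ℓ.Prime → B < ℓ →
      ∀ (F : Type) [Field F] [IsAlgClosed F] [CharP F ℓ] (ψ : Zbar →+* F), ModHyp1 ε f ℓ ψ

/-- **MOD (smooth form)**: what a Tower-A1 torsion-module layer has to deliver. -/
def FrobModuleStatement : Prop :=
  ∀ (N : ℕ) [NeZero N] (ε : DirichletCharacter ℂ N) (f : CuspForm (CongruenceSubgroup.Gamma1 N) 1),
    IsEigen N ε f → ∃ B : ℕ, ∀ ℓ : ℕ, ℓ.Prime → B < ℓ →
      ∀ (F : Type) [Field F] [IsAlgClosed F] [CharP F ℓ] (ψ : Zbar →+* F),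
        HasFrobModule1 ε f ℓ ψ

/-- **LAYER A'**: `ModStatement → Top.ResidualStatement`. -/
theorem residualStatement_of_modHyp (h : ModStatement) : ResidualStatement := by
  intro N _ ε f hf
  obtain ⟨B, hB⟩ := h N ε f hf
  refine ⟨B, fun ℓ hℓ hBℓ k _ _ φ => ?_⟩
  exact residual_of_modHyp ε f hℓ φ (fun F _ _ _ ψ => hB ℓ hℓ hBℓ F ψ)

/-- **LAYER A'**: `FrobModuleStatement → Top.ResidualStatement`. -/
theorem residualStatement_of_frobModule (h : FrobModuleStatement) : ResidualStatement :=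
  residualStatement_of_modHyp (fun N _ ε f hf => by
    obtain ⟨B, hB⟩ := h N ε f hf
    exact ⟨B, fun ℓ hℓ hBℓ F _ _ _ ψ => modHyp1_of_hasFrobModule1 (hB ℓ hℓ hBℓ F ψ)⟩)

end Fermat.Agent.S48.H888

end
-- ===== PACK-END S48/H888/LayerA.lean

-- ===== PACK-BEGIN S24/Deg/H457_Main.lean
section


/-!
# S24 / DEG-ALG (helper457), part 4: the degree bound for `FF N / Kbar(jF N)`

`finiteDimensional_and_finrank_le`: from the interface hypothesis `Hyp ℂ N n` (relations over `ℂ`)
we get `FiniteDimensional Kbar⟮jF N⟯ (FF N)` and `finrank ≤ n`.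
-/

set_option autoImplicit false

noncomputable section

open Polynomial ModularCurve IntermediateField

namespace Fermat.Agent.S24.Deg457

/-- Lemma X: a bivariate relation gives integrality + degree bound over an intermediate field. -/
theorem isIntegral_and_natDegree_le_of_relation {K M E : Type*} [Field K] [Field M] [Field E]
    [Algebra K M] [Algebra M E] [Algebra K E] [IsScalarTower K M E] (j : M)
    (hj : ∀ t : K[X], t ≠ 0 → aeval j t ≠ 0) (x : E) (Q : K[X][X]) (hQ0 : Q ≠ 0) (n : ℕ)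
    (hQn : Q.natDegree ≤ n)
    (hQ : Q.eval₂ ((aeval (algebraMap M E j) : K[X] →ₐ[K] E).toRingHom) x = 0) :
    IsIntegral M x ∧ (minpoly M x).natDegree ≤ n := by
  set φ : K[X] →+* M := (aeval j : K[X] →ₐ[K] M).toRingHom with hφ
  have hφinj : Function.Injective φ := by
    rw [injective_iff_map_eq_zero]
    intro t ht
    by_contra h0
    exact hj t h0 ht
  have hp0 : Q.map φ ≠ 0 := by
    rw [Ne, Polynomial.map_eq_zero_iff hφinj]
    exact hQ0
  have hcomp : (algebraMap M E).comp φ = (aeval (algebraMap M E j) : K[X] →ₐ[K] E).toRingHom := by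
    refine Polynomial.ringHom_ext ?_ ?_
    · intro c
      simp [hφ, ← IsScalarTower.algebraMap_apply]
    · simp [hφ]
  have hroot : aeval x (Q.map φ) = 0 := by
    rw [aeval_def, eval₂_map, hcomp]
    exact hQ
  have hint : IsIntegral M x := (IsAlgebraic.isIntegral ⟨Q.map φ, hp0, hroot⟩)
  refine ⟨hint, ?_⟩
  have h1 := minpoly.degree_le_of_ne_zero M x hp0 hroot
  have h2 := natDegree_le_natDegree h1
  exact h2.trans ((natDegree_map_le).trans hQn)

/-- an embedding `ℚ̄ → ℂ` -/
def iotaC : Kbar →+* ℂ := by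
  haveI : Algebra.IsAlgebraic ℚ (AlgebraicClosure ℚ) := AlgebraicClosure.isAlgebraic ℚ
  exact ((IsAlgClosed.lift : AlgebraicClosure ℚ →ₐ[ℚ] ℂ) : AlgebraicClosure ℚ →+* ℂ)

variable (N : ℕ) [NeZero N]

theorem coe_jF : ((jF N : FF N) : LaurentSeries Kbar) = JK Kbar := rfl

/-- **Degree bound** (DEG-ALG): from the analytic interface hypothesis over `ℂ`. -/
theorem finiteDimensional_and_finrank_le (n : ℕ) (hyp : Hyp ℂ N n) :
    FiniteDimensional ↥(IntermediateField.adjoin Kbar {jF N}) (FF N) ∧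
      Module.finrank ↥(IntermediateField.adjoin Kbar {jF N}) (FF N) ≤ n := by
  refine finiteDimensional_and_finrank_le_of_forall_natDegree_minpoly_le n fun x => ?_
  obtain ⟨Q, hQ0, hQn, hQ⟩ := algDeg_of_mem_field iotaC hyp x.2
  have hinc : Function.Injective (algebraMap (FF N) (LaurentSeries Kbar)) :=
    (algebraMap (FF N) (LaurentSeries Kbar)).injective
  refine isIntegral_and_natDegree_le_of_relation (K := Kbar)
    (AdjoinSimple.gen Kbar (jF N)) ?_ x Q hQ0 n hQn ?_
  · intro t ht h0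
    apply aeval_JK_ne_zero Kbar ht
    have h1 := congrArg (algebraMap ↥(IntermediateField.adjoin Kbar {jF N}) (FF N)) h0
    rw [← aeval_algebraMap_apply, map_zero, AdjoinSimple.algebraMap_gen] at h1
    have h2 := congrArg (algebraMap (FF N) (LaurentSeries Kbar)) h1
    rw [← aeval_algebraMap_apply, map_zero] at h2
    exact h2
  · apply hinc
    rw [map_zero, Polynomial.hom_eval₂, AdjoinSimple.algebraMap_gen]
    have hcomp : (algebraMap (FF N) (LaurentSeries Kbar)).comp
        ((aeval (jF N) : Kbar[X] →ₐ[Kbar] FF N).toRingHom) = evJ (JK Kbar) := by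
      refine Polynomial.ringHom_ext ?_ ?_
      · intro c
        simp [evJ, ← IsScalarTower.algebraMap_apply]
      · simp [evJ]
        rfl
    rw [hcomp]
    exact hQ

end Fermat.Agent.S24.Deg457

end
end
-- ===== PACK-END S24/Deg/H457_Main.lean

-- ===== PACK-BEGIN S24/Deg/H457_Bridge.lean
section





/-!
# S24 / DEG (helper457), bridge: the formal interface hypothesis `Hyp ℂ N n` from function level

Inputs: helper648 (conjugate product, `exists_charPoly_eval_eq_zero`), helper708 (`HasQExp`),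
helper264 (`hasSum_jFun`).  Remaining explicit hypotheses: the polynomiality principle `D5` for
`jFun` and the growth bound of `jFun` on the fundamental domain.
-/

set_option autoImplicit false

noncomputable section

open UpperHalfPlane ModularGroup CongruenceSubgroup Polynomial ModularCurve
open scoped MatrixGroups Manifold Modular Real

namespace Fermat.Agent.S24.Deg457

open Fermat.Agent.S24.H648 Fermat.Agent.S24.H708 Fermat.Agent.S24.JFun

/-- `τ ↦ d τ` on the upper half plane -/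
def scaleH (d : ℕ) [NeZero d] (τ : ℍ) : ℍ :=
  UpperHalfPlane.mk ((d : ℂ) * τ) (by
    have hd : (0 : ℝ) < d := by exact_mod_cast Nat.pos_of_ne_zero (NeZero.ne d)
    have : ((d : ℂ) * (τ : ℂ)).im = d * τ.im := by simp
    rw [this]
    exact mul_pos hd τ.im_pos)

theorem coe_scaleH (d : ℕ) [NeZero d] (τ : ℍ) : ((scaleH d τ : ℍ) : ℂ) = (d : ℂ) * τ := rfl

theorem coeff_JK_complex (n : ℤ) : (jqModC ℂ).coeff n = algebraMap ℚ ℂ (jq.coeff n) := by
  rw [← JK_eq, JK, coeffEmb_coeff]

/-- the `q`-expansion of `τ ↦ j(dτ)` is `j(q^d)`. -/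
theorem hasQExp_jFun_scale (d : ℕ) [NeZero d] :
    HasQExp 1 (fun τ => _root_.Fermat.Agent.S24.JFun.jFun (scaleH d τ)) (coeffEmb ℂ (qExpand ℚ d jq)) := by
  have hd : 0 < d := Nat.pos_of_ne_zero (NeZero.ne d)
  refine HasQExp.of_hasSum
    (mdifferentiable_J_scale jFun_mdifferentiable d hd (scaleH d) (coe_scaleH d)) ?_
  intro τ
  have h := hasSum_jFun (scaleH d τ)
  have hinj : Function.Injective (fun n : ℤ => (d : ℤ) * n) := by
    intro a b hab
    have hd' : (d : ℤ) ≠ 0 := by exact_mod_cast hd.ne'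
    exact mul_left_cancel₀ hd' hab
  have hsupp : ∀ m : ℤ, m ∉ Set.range (fun n : ℤ => (d : ℤ) * n) →
      (coeffEmb ℂ (qExpand ℚ d jq)).coeff m * qh 1 τ ^ m = 0 := by
    intro m hm
    have hndvd : ¬ (d : ℤ) ∣ m := by
      rintro ⟨k, rfl⟩
      exact hm ⟨k, rfl⟩
    rw [coeffEmb_coeff, qExpand_coeff_of_not_dvd d jq hndvd, map_zero, zero_mul]
  rw [← hinj.hasSum_iff hsupp]
  have hq : Function.Periodic.qParam 1 ((scaleH d τ : ℍ) : ℂ) = qh 1 τ ^ d := by
    rw [qh_apply, coe_scaleH]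
    simp only [Function.Periodic.qParam, Nat.cast_one, Complex.ofReal_one, div_one]
    rw [← Complex.exp_nat_mul]
    congr 1
    ring
  have hfun : ((fun m : ℤ => (coeffEmb ℂ (qExpand ℚ d jq)).coeff m * qh 1 τ ^ m) ∘
      fun n : ℤ => (d : ℤ) * n)
      = fun n : ℤ => (jqModC ℂ).coeff n *
          Function.Periodic.qParam 1 ((scaleH d τ : ℍ) : ℂ) ^ n := by
    funext n
    simp only [Function.comp_apply]
    rw [coeffEmb_coeff, qExpand_coeff_mul, coeff_JK_complex, hq, ← zpow_natCast, ← zpow_mul]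
  rw [hfun]
  exact h

variable (N : ℕ) [NeZero N]

/-- every element of `A_ℂ` is the `q`-expansion of a good function. -/
theorem exists_goodRing_hasQExp
    (hJfd : ∃ C : ℝ, ∀ τ : ℍ, τ ∈ 𝒟 → ‖_root_.Fermat.Agent.S24.JFun.jFun τ‖ ≤ C * Real.exp (2 * π * τ.im))
    {b : LaurentSeries ℂ} (hb : b ∈ AK ℂ N) :
    ∃ f : ℍ → ℂ, f ∈ goodRing N ∧ HasQExp 1 f b := by
  unfold AK at hb
  induction hb using Algebra.adjoin_induction with
  | mem x hx =>
    obtain ⟨y, ⟨d, hd, hdN, rfl⟩, rfl⟩ := hx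
    haveI := hd
    refine ⟨fun τ => _root_.Fermat.Agent.S24.JFun.jFun (scaleH d τ), ?_, hasQExp_jFun_scale d⟩
    exact J_scale_mem_goodRing N jFun_mdifferentiable _root_.Fermat.Agent.S24.JFun.jFun_smul hJfd d
      (Nat.pos_of_ne_zero (NeZero.ne d)) hdN (scaleH d) (coe_scaleH d)
  | algebraMap c =>
    refine ⟨fun _ => c, (goodRing N).algebraMap_mem c, ?_⟩
    have : algebraMap ℂ (LaurentSeries ℂ) c = HahnSeries.C c := by
      rw [algebraMap_laurentSeries_eq_single]; rfl
    rw [this]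
    exact HasQExp.const 1 c
  | add x y _ _ hx hy =>
    obtain ⟨f, hf, hfx⟩ := hx
    obtain ⟨g, hg, hgy⟩ := hy
    exact ⟨f + g, (goodRing N).add_mem hf hg, hfx.add hgy⟩
  | mul x y _ _ hx hy =>
    obtain ⟨f, hf, hfx⟩ := hx
    obtain ⟨g, hg, hgy⟩ := hy
    exact ⟨f * g, (goodRing N).mul_mem hf hg, hfx.mul hgy⟩

theorem hasQExp_jFun : HasQExp 1 _root_.Fermat.Agent.S24.JFun.jFun (JK ℂ) := by
  have h := hasQExp_jFun_scale 1
  rw [qExpand_one_apply] at h
  have hfun : (fun τ => _root_.Fermat.Agent.S24.JFun.jFun (scaleH 1 τ)) = _root_.Fermat.Agent.S24.JFun.jFun := by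
    funext τ
    congr 1
    apply UpperHalfPlane.ext
    rw [coe_scaleH]
    simp
  rw [hfun] at h
  exact h

/-- transfer of univariate polynomial expressions in `j` -/
theorem hasQExp_aeval (p : ℂ[X]) :
    HasQExp 1 (fun τ => p.eval (_root_.Fermat.Agent.S24.JFun.jFun τ)) (aeval (JK ℂ) p) := by
  induction p using Polynomial.induction_on' with
  | add p q hp hq =>
    have := hp.add hq
    rw [map_add]
    convert this using 1
    funext τ
    simp
  | monomial n c =>
    have h1 := (HasQExp.const 1 c).mul (hasQExp_jFun.pow n)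
    rw [aeval_monomial]
    have : algebraMap ℂ (LaurentSeries ℂ) c = HahnSeries.C c := by
      rw [algebraMap_laurentSeries_eq_single]; rfl
    rw [this]
    convert h1 using 1
    funext τ
    simp

/-- transfer of bivariate polynomial expressions -/
theorem hasQExp_eval₂ (P : ℂ[X][X]) {f : ℍ → ℂ} {b : LaurentSeries ℂ} (hf : HasQExp 1 f b) :
    HasQExp 1 (fun τ => (P.map (Polynomial.evalRingHom (_root_.Fermat.Agent.S24.JFun.jFun τ))).eval (f τ))
      (P.eval₂ (evJ (JK ℂ)) b) := by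
  induction P using Polynomial.induction_on' with
  | add p q hp hq =>
    have := hp.add hq
    rw [eval₂_add]
    convert this using 1
    funext τ
    simp
  | monomial n p =>
    have h1 := (hasQExp_aeval p).mul (hf.pow n)
    rw [eval₂_monomial, evJ_apply]
    convert h1 using 1
    funext τ
    simp

/-- **The interface hypothesis over `ℂ`**, from D5 and the growth bound of `j`. -/
theorem hyp_complex
    (hD5 : ∀ F : ℍ → ℂ, MDifferentiable 𝓘(ℂ) 𝓘(ℂ) F →
      (∀ (γ : SL(2, ℤ)) (τ : ℍ), F (γ • τ) = F τ) → ExpGrowth F →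
      ∃ p : ℂ[X], ∀ τ, F τ = p.eval (_root_.Fermat.Agent.S24.JFun.jFun τ))
    (hJfd : ∃ C : ℝ, ∀ τ : ℍ, τ ∈ 𝒟 → ‖_root_.Fermat.Agent.S24.JFun.jFun τ‖ ≤ C * Real.exp (2 * π * τ.im)) :
    Hyp ℂ N (Nat.card (XX N)) := by
  intro b hb
  obtain ⟨f, hf, hfb⟩ := exists_goodRing_hasQExp N hJfd hb
  haveI : Finite (SL(2, ℤ) ⧸ Gamma0 N) := inferInstanceAs (Finite (XX N))
  letI : Fintype (SL(2, ℤ) ⧸ Gamma0 N) := Fintype.ofFinite _
  obtain ⟨P, hPm, hPn, hP⟩ := exists_charPoly_eval_eq_zero (N := N) _root_.Fermat.Agent.S24.JFun.jFun hD5 hf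
  refine ⟨P, hPm, ?_, ?_⟩
  · rw [hPn, Nat.card_eq_fintype_card]
  · have h1 := hasQExp_eval₂ P hfb
    rw [h1.eq_zero_iff]
    funext τ
    exact hP τ

end Fermat.Agent.S24.Deg457

end
end
-- ===== PACK-END S24/Deg/H457_Bridge.lean

-- ===== PACK-BEGIN S24/Deg/H648D5.lean
section


/-!
# S24 / M6-AN (helper648): the polynomiality principle (D5) in `ExpGrowth` form

A holomorphic `SL₂(ℤ)`-invariant function on `ℍ` of at most exponential growth at `i∞` is a
polynomial in `j = E₄³/Δ`.  (The function-level induction follows helper505's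
`levelOne_structure`, re-proved here from Mathlib only.)
-/

set_option autoImplicit false

noncomputable section

open UpperHalfPlane ModularGroup CongruenceSubgroup ModularForm Filter Asymptotics
  SlashInvariantForm SlashInvariantFormClass ModularFormClass CuspFormClass
open scoped MatrixGroups Manifold Modular Real

namespace Fermat.Agent.S24.H648

/-- `E₄ ^ n` as a modular form of weight `k = 4 n`. -/
def E4pow (n : ℕ) (k : ℤ) (hk : (n : ℤ) * 4 = k) : ModularForm 𝒮ℒ k :=
  ModularForm.mcast hk (E₄.pow n)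

theorem E4pow_apply (n : ℕ) (k : ℤ) (hk : (n : ℤ) * 4 = k) (z : ℍ) :
    E4pow n k hk z = E₄ z ^ n := by
  simp [E4pow]

theorem qExpansion_E4pow_coeff_zero (n : ℕ) (k : ℤ) (hk : (n : ℤ) * 4 = k) :
    (qExpansion 1 (E4pow n k hk)).coeff 0 = 1 := by
  have h4 : (qExpansion 1 E₄).coeff 0 = 1 := EisensteinSeries.E_qExpansion_coeff_zero (by norm_num) (by decide)
  rw [E4pow, ModularForm.qExpansion_mcast,
    ModularForm.qExpansion_pow one_pos one_mem_strictPeriods_SL,
    PowerSeries.coeff_zero_eq_constantCoeff, map_pow, ← PowerSeries.coeff_zero_eq_constantCoeff,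
    h4, one_pow]

/-- Level one structure theorem, function level: a modular form of weight `12 m` is
`Δ^m · P(j)` with `deg P ≤ m`. -/
theorem levelOne_poly (m : ℕ) : ∀ (k : ℤ) (_ : k = 12 * m) (F : ModularForm 𝒮ℒ k),
    ∃ P : Polynomial ℂ, P.natDegree ≤ m ∧
      ∀ z : ℍ, F z = ModularForm.discriminant z ^ m * P.eval (jFun z) := by
  induction m with
  | zero =>
    intro k hk F
    simp only [Nat.cast_zero, mul_zero] at hk
    subst hk
    obtain ⟨c, hc⟩ := levelOne_weight_zero_const F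
    exact ⟨Polynomial.C c, by simp, fun z => by simp [hc]⟩
  | succ m ih =>
    intro k hk F
    set c₀ : ℂ := (qExpansion 1 F).coeff 0 with hc₀
    have hk4 : ((3 * (m + 1) : ℕ) : ℤ) * 4 = k := by rw [hk]; push_cast; ring
    set G : ModularForm 𝒮ℒ k := F - c₀ • E4pow (3 * (m + 1)) k hk4 with hG
    have hGq : qExpansion 1 G
        = qExpansion 1 F - c₀ • qExpansion 1 (E4pow (3 * (m + 1)) k hk4) := by
      have h1 : (G : ℍ → ℂ) = ⇑F - ⇑(c₀ • E4pow (3 * (m + 1)) k hk4) := rfl
      rw [h1, ModularForm.qExpansion_sub one_pos one_mem_strictPeriods_SL]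
      have h2 : (⇑(c₀ • E4pow (3 * (m + 1)) k hk4) : ℍ → ℂ)
          = c₀ • ⇑(E4pow (3 * (m + 1)) k hk4) := rfl
      rw [h2, ModularForm.qExpansion_smul one_pos one_mem_strictPeriods_SL]
    have hG0 : (qExpansion 1 G).coeff 0 = 0 := by
      rw [hGq, map_sub, PowerSeries.coeff_smul, qExpansion_E4pow_coeff_zero]
      simp [hc₀]
    set H : ModularForm 𝒮ℒ (k - 12) := CuspForm.discriminantEquiv (G.toCuspForm hG0) with hH
    obtain ⟨P, hPdeg, hPval⟩ := ih (k - 12) (by rw [hk]; push_cast; ring) H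
    have hGH : ∀ z, G z = ModularForm.discriminant z * H z := fun z => by
      rw [hH, discriminant_mul_discriminantEquiv_apply]; rfl
    have hFG : ∀ z, F z = c₀ * E₄ z ^ (3 * (m + 1)) + G z := fun z => by
      have : G z = F z - c₀ * E4pow (3 * (m + 1)) k hk4 z := rfl
      rw [this, E4pow_apply]; ring
    refine ⟨Polynomial.C c₀ * Polynomial.X ^ (m + 1) + P, ?_, ?_⟩
    · refine (Polynomial.natDegree_add_le _ _).trans (max_le ?_ (hPdeg.trans (Nat.le_succ m)))
      exact Polynomial.natDegree_C_mul_X_pow_le _ _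
    · intro z
      rw [hFG, hGH, hPval, Polynomial.eval_add, Polynomial.eval_mul, Polynomial.eval_C,
        Polynomial.eval_pow, Polynomial.eval_X, jFun_def]
      have hΔ := discriminant_ne_zero z
      have hJ : ModularForm.discriminant z * (E₄ z ^ 3 / ModularForm.discriminant z) = E₄ z ^ 3 :=
        mul_div_cancel₀ _ hΔ
      have : ModularForm.discriminant z ^ (m + 1) *
          (c₀ * (E₄ z ^ 3 / ModularForm.discriminant z) ^ (m + 1) +
            Polynomial.eval (E₄ z ^ 3 / ModularForm.discriminant z) P) =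
          c₀ * (ModularForm.discriminant z * (E₄ z ^ 3 / ModularForm.discriminant z)) ^ (m + 1) +
          ModularForm.discriminant z * (ModularForm.discriminant z ^ m *
            Polynomial.eval (E₄ z ^ 3 / ModularForm.discriminant z) P) := by ring
      rw [this, hJ, pow_mul]


lemma discriminant_smul (γ : SL(2, ℤ)) (τ : ℍ) :
    ModularForm.discriminant (γ • τ) = denom γ τ ^ (12 : ℤ) * ModularForm.discriminant τ := by
  have : SlashInvariantFormClass (CuspForm 𝒮ℒ 12) Γ(1) 12 :=
    Gamma_one_coe_eq_SL ▸ inferInstance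
  exact SlashInvariantForm.slash_action_eqn_SL'' CuspForm.discriminant (mem_Gamma_one γ) τ

lemma discriminant_pow_mul_slash (m : ℕ) (F : ℍ → ℂ)
    (inv : ∀ (γ : SL(2, ℤ)) (τ : ℍ), F (γ • τ) = F τ) (γ : SL(2, ℤ)) :
    (fun z => ModularForm.discriminant z ^ m * F z) ∣[(12 * m : ℤ)] γ
      = fun z => ModularForm.discriminant z ^ m * F z := by
  funext z
  rw [ModularForm.SL_slash_apply]
  rw [inv, discriminant_smul, mul_pow, ← zpow_natCast (denom γ z ^ (12 : ℤ)) m, ← zpow_mul]
  have hd : denom γ z ≠ 0 := denom_ne_zero _ z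
  have : denom γ z ^ ((12 : ℤ) * m) * ModularForm.discriminant z ^ m * F z
      * denom γ z ^ (-(12 * (m : ℤ)))
      = (denom γ z ^ ((12 : ℤ) * m) * denom γ z ^ (-(12 * (m : ℤ))))
        * (ModularForm.discriminant z ^ m * F z) := by ring
  rw [this, ← zpow_add₀ hd]
  simp

/-- `Δ^m · F` as a modular form of weight `12 m`. -/
def mfOfInvariant (m : ℕ) (F : ℍ → ℂ) (hol : MDifferentiable 𝓘(ℂ) 𝓘(ℂ) F)
    (inv : ∀ (γ : SL(2, ℤ)) (τ : ℍ), F (γ • τ) = F τ)
    (bdd : IsBoundedAtImInfty (fun z => ModularForm.discriminant z ^ m * F z)) :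
    ModularForm 𝒮ℒ (12 * m) where
  toFun := fun z => ModularForm.discriminant z ^ m * F z
  slash_action_eq' := fun _ ⟨γ, hγ⟩ => hγ ▸ discriminant_pow_mul_slash m F inv γ
  holo' := by
    have hΔ : MDifferentiable 𝓘(ℂ) 𝓘(ℂ) (ModularForm.discriminant : ℍ → ℂ) :=
      ModularFormClass.holo CuspForm.discriminant
    exact (hΔ.pow m).mul hol
  bdd_at_cusps' {c} hc := by
    rw [Subgroup.IsArithmetic.isCusp_iff_isCusp_SL2Z] at hc
    rw [OnePoint.isBoundedAt_iff_forall_SL2Z hc]
    intro γ _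
    rw [discriminant_pow_mul_slash m F inv γ]
    exact bdd

lemma mfOfInvariant_apply (m : ℕ) (F : ℍ → ℂ) (hol : MDifferentiable 𝓘(ℂ) 𝓘(ℂ) F)
    (inv : ∀ (γ : SL(2, ℤ)) (τ : ℍ), F (γ • τ) = F τ)
    (bdd : IsBoundedAtImInfty (fun z => ModularForm.discriminant z ^ m * F z)) (z : ℍ) :
    mfOfInvariant m F hol inv bdd z = ModularForm.discriminant z ^ m * F z := rfl

/-- Polynomiality principle, `IsBoundedAtImInfty` form. -/
theorem exists_polynomial_of_isBoundedAtImInfty (m : ℕ) (F : ℍ → ℂ)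
    (hol : MDifferentiable 𝓘(ℂ) 𝓘(ℂ) F)
    (inv : ∀ (γ : SL(2, ℤ)) (τ : ℍ), F (γ • τ) = F τ)
    (bdd : IsBoundedAtImInfty (fun z => ModularForm.discriminant z ^ m * F z)) :
    ∃ p : Polynomial ℂ, p.natDegree ≤ m ∧ ∀ τ, F τ = p.eval (jFun τ) := by
  obtain ⟨P, hdeg, hP⟩ := levelOne_poly m (12 * m) rfl (mfOfInvariant m F hol inv bdd)
  refine ⟨P, hdeg, fun τ => ?_⟩
  have h := hP τ
  rw [mfOfInvariant_apply] at h
  exact mul_left_cancel₀ (pow_ne_zero m (discriminant_ne_zero τ)) h

lemma ExpGrowth.isBigO {F : ℍ → ℂ} {C : ℝ} {m : ℕ}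
    (h : ∀ τ : ℍ, 1 ≤ τ.im → ‖F τ‖ ≤ C * Real.exp (2 * π * m * τ.im)) :
    F =O[atImInfty] fun τ : ℍ => Real.exp (2 * π * m * τ.im) := by
  refine IsBigO.of_bound C ?_
  rw [atImInfty, eventually_comap, eventually_atTop]
  refine ⟨1, fun y hy τ hτ => ?_⟩
  rw [Real.norm_of_nonneg (Real.exp_pos _).le]
  exact h τ (hτ ▸ hy)

/-- **Polynomiality principle (D5), `ExpGrowth` form.** -/
theorem exists_polynomial_of_expGrowth (F : ℍ → ℂ)
    (hol : MDifferentiable 𝓘(ℂ) 𝓘(ℂ) F)
    (inv : ∀ (γ : SL(2, ℤ)) (τ : ℍ), F (γ • τ) = F τ) (gr : ExpGrowth F) :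
    ∃ p : Polynomial ℂ, ∀ τ, F τ = p.eval (jFun τ) := by
  obtain ⟨C, m, h⟩ := gr
  have hF := ExpGrowth.isBigO h
  have hΔ : (ModularForm.discriminant : ℍ → ℂ)
      =O[atImInfty] fun τ : ℍ => Real.exp (-2 * π * τ.im / 1) :=
    CuspFormClass.exp_decay_atImInfty CuspForm.discriminant one_pos one_mem_strictPeriods_SL
  have hprod := (hΔ.pow m).mul hF
  have bdd : IsBoundedAtImInfty (fun z => ModularForm.discriminant z ^ m * F z) := by
    refine hprod.congr_right fun τ => ?_
    rw [← Real.exp_nat_mul, ← Real.exp_add]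
    have : (m : ℝ) * (-2 * π * τ.im / 1) + 2 * π * m * τ.im = 0 := by ring
    rw [this, Real.exp_zero]
    rfl
  obtain ⟨p, -, hp⟩ := exists_polynomial_of_isBoundedAtImInfty m F hol inv bdd
  exact ⟨p, hp⟩

section final

variable {N : ℕ} [Fintype (SL(2, ℤ) ⧸ Gamma0 N)]

/-- **M6-AN, unconditional.**  For every good function `f` of level `N` the conjugate product
`∏ₓ (Y - f ∘ gₓ⁻¹)` has coefficients in `ℂ[j]`. -/
theorem exists_charPoly_jFun {f : ℍ → ℂ} (hf : f ∈ goodRing N) :
    ∃ P : Polynomial (Polynomial ℂ), P.Monic ∧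
      P.natDegree = Fintype.card (SL(2, ℤ) ⧸ Gamma0 N) ∧
      ∀ τ : ℍ, P.map (Polynomial.evalRingHom (jFun τ)) = charPolyAt N f τ :=
  exists_charPoly jFun exists_polynomial_of_expGrowth hf

/-- **Function-level `HYP(n)`, unconditional.** -/
theorem exists_charPoly_jFun_eval_eq_zero {f : ℍ → ℂ} (hf : f ∈ goodRing N) :
    ∃ P : Polynomial (Polynomial ℂ), P.Monic ∧
      P.natDegree = Fintype.card (SL(2, ℤ) ⧸ Gamma0 N) ∧
      ∀ τ : ℍ, (P.map (Polynomial.evalRingHom (jFun τ))).eval (f τ) = 0 :=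
  exists_charPoly_eval_eq_zero jFun exists_polynomial_of_expGrowth hf

end final

end Fermat.Agent.S24.H648

end
end
-- ===== PACK-END S24/Deg/H648D5.lean

-- ===== PACK-BEGIN S24/Deg/H457_Degree.lean
section



/-!
# S24 / DEG (helper457): the degree fields of `ModularPackage`, unconditionally

`degree_fields N : FiniteDimensional ℚ̄(j) (FF N) ∧ finrank ℚ̄(j) (FF N) ≤ |SL₂(ℤ)/Γ₀(N)|`.

Chain: helper648 (conjugate product + D5 + growth of `j`, function level)
→ `hyp_complex` (formal relations over `ℂ`, via helper708 `HasQExp` and helper264 `hasSum_jFun`)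
→ `finiteDimensional_and_finrank_le` (descent `ℂ → ℚ̄` + primitive element).
-/

set_option autoImplicit false

noncomputable section

open UpperHalfPlane ModularGroup CongruenceSubgroup Polynomial ModularCurve
open scoped MatrixGroups Manifold Modular Real

namespace Fermat.Agent.S24.Deg457

theorem jFun_eq_H648 : Fermat.Agent.S24.JFun.jFun = Fermat.Agent.S24.H648.jFun := rfl

/-- the interface hypothesis over `ℂ`, unconditionally -/
theorem hyp_complex_card (N : ℕ) [NeZero N] : Hyp ℂ N (Nat.card (XX N)) := by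
  refine hyp_complex N ?_ ?_
  · rw [jFun_eq_H648]
    exact Fermat.Agent.S24.H648.exists_polynomial_of_expGrowth
  · rw [jFun_eq_H648]
    exact Fermat.Agent.S24.H648.jFun_bound_fd

/-- **The degree fields of helper984's `ModularPackage N`** (upper bound half). -/
theorem degree_fields (N : ℕ) [NeZero N] :
    FiniteDimensional ↥(IntermediateField.adjoin Kbar {jF N}) (FF N) ∧
      Module.finrank ↥(IntermediateField.adjoin Kbar {jF N}) (FF N) ≤ Nat.card (XX N) :=
  finiteDimensional_and_finrank_le N _ (hyp_complex_card N)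

end Fermat.Agent.S24.Deg457

end
end
-- ===== PACK-END S24/Deg/H457_Degree.lean

-- ===== PACK-BEGIN S29/H882/GoodQ.lean
section


/-!
# S29 / MERO (helper882), part 1: `q`-expansions of good functions

`goodQ N` is the `ℂ`-subalgebra of `ℂ((q))` of `q`-expansions of the functions in the landed
`S24.H648.goodRing N` (holomorphic, `Γ₀(N)`-invariant, all `SL₂(ℤ)`-translates of at most
exponential growth at `i∞`).  Every element of `goodQ N` is a root of a monic polynomial of degree
`[SL₂(ℤ) : Γ₀(N)]` over `ℂ[j]`.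
-/

set_option autoImplicit false

noncomputable section

open UpperHalfPlane ModularGroup CongruenceSubgroup Polynomial ModularCurve
open scoped MatrixGroups Manifold Modular Real

namespace Fermat.Agent.S29.H882

open Fermat.Agent.S24 Fermat.Agent.S24.H648 Fermat.Agent.S24.H708 Fermat.Agent.S24.Deg457

variable (N : ℕ)

theorem T_mem_Gamma0 : ModularGroup.T ∈ Gamma0 N := by
  rw [Gamma0_mem]
  simp [ModularGroup.T]

variable {N}

/-- A `Γ₀(N)`-invariant function is `1`-periodic. -/
theorem periodic_of_invariant {f : ℍ → ℂ} (hf : ∀ γ ∈ Gamma0 N, ∀ τ : ℍ, f (γ • τ) = f τ) :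
    Function.Periodic (f ∘ ofComplex) (1 : ℝ) := by
  intro w
  by_cases hw : 0 < Complex.im w
  · have hw' : 0 < Complex.im (w + ((1 : ℝ) : ℂ)) := by simpa using hw
    simp only [Function.comp_apply, ofComplex_apply_of_im_pos hw', ofComplex_apply_of_im_pos hw]
    have h := hf _ (T_mem_Gamma0 N) ⟨w, hw⟩
    rw [← h]
    congr 1
    apply UpperHalfPlane.ext
    rw [UpperHalfPlane.modular_T_smul, UpperHalfPlane.coe_vadd]
    simp [add_comm]
  · have hw0 : Complex.im w ≤ 0 := not_lt.mp hw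
    have hw' : Complex.im (w + ((1 : ℝ) : ℂ)) ≤ 0 := by simpa using hw0
    simp only [Function.comp_apply]
    rw [ofComplex_apply_of_im_nonpos hw', ofComplex_apply_of_im_nonpos hw0]

/-- Exponential growth gives a pole of finite order at `i∞`. -/
theorem isBounded_mul_qh_pow_of_expGrowth {f : ℍ → ℂ} (hf : ExpGrowth f) :
    ∃ M : ℕ, IsBoundedAtImInfty (f * qh 1 ^ M) := by
  obtain ⟨C, m, h⟩ := hf
  refine ⟨m, ?_⟩
  rw [UpperHalfPlane.isBoundedAtImInfty_iff]
  refine ⟨C, 1, fun τ hτ => ?_⟩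
  have h1 := h τ hτ
  have hq : ‖qh 1 τ‖ = Real.exp (-2 * π * τ.im) := by
    rw [qh_apply, Function.Periodic.norm_qParam]
    simp
  rw [Pi.mul_apply, Pi.pow_apply, norm_mul, norm_pow, hq, ← Real.exp_nat_mul]
  calc ‖f τ‖ * Real.exp (m * (-2 * π * τ.im))
      ≤ C * Real.exp (2 * π * m * τ.im) * Real.exp (m * (-2 * π * τ.im)) :=
        mul_le_mul_of_nonneg_right h1 (Real.exp_pos _).le
    _ = C := by
        rw [mul_assoc, ← Real.exp_add]
        have : 2 * π * m * τ.im + m * (-2 * π * τ.im) = 0 := by ring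
        rw [this, Real.exp_zero, mul_one]

theorem isMerInf_of_mem_goodRing {f : ℍ → ℂ} (hf : f ∈ goodRing N) : IsMerInf 1 f := by
  obtain ⟨h1, h2, h3⟩ := hf
  refine ⟨h1, ?_, ?_⟩
  · have := periodic_of_invariant h2
    simpa using this
  · have h := h3 1
    simp only [one_smul] at h
    exact isBounded_mul_qh_pow_of_expGrowth h

theorem hasQExp_of_mem_goodRing {f : ℍ → ℂ} (hf : f ∈ goodRing N) :
    HasQExp 1 f (qexpFun 1 f) :=
  HasQExp.of_isMerInf (isMerInf_of_mem_goodRing hf)

variable (N)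

/-- The algebra of `q`-expansions of good functions of level `N`. -/
def goodQ : Subalgebra ℂ (LaurentSeries ℂ) where
  carrier := {b | ∃ f ∈ goodRing N, HasQExp 1 f b}
  mul_mem' := by
    rintro a b ⟨f, hf, hfa⟩ ⟨g, hg, hgb⟩
    exact ⟨f * g, (goodRing N).mul_mem hf hg, hfa.mul hgb⟩
  add_mem' := by
    rintro a b ⟨f, hf, hfa⟩ ⟨g, hg, hgb⟩
    exact ⟨f + g, (goodRing N).add_mem hf hg, hfa.add hgb⟩
  algebraMap_mem' := fun c => by
    refine ⟨fun _ => c, (goodRing N).algebraMap_mem c, ?_⟩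
    have : algebraMap ℂ (LaurentSeries ℂ) c = HahnSeries.C c := by
      rw [algebraMap_laurentSeries_eq_single]; rfl
    rw [this]
    exact HasQExp.const 1 c

variable {N}

theorem mem_goodQ {b : LaurentSeries ℂ} :
    b ∈ goodQ N ↔ ∃ f ∈ goodRing N, HasQExp 1 f b := Iff.rfl

theorem qexpFun_mem_goodQ {f : ℍ → ℂ} (hf : f ∈ goodRing N) : qexpFun 1 f ∈ goodQ N :=
  ⟨f, hf, hasQExp_of_mem_goodRing hf⟩

variable (N) in
theorem AK_le_goodQ [NeZero N] : AK ℂ N ≤ goodQ N := by
  intro b hb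
  have hJ : ∃ C : ℝ, ∀ τ : ℍ, τ ∈ 𝒟 → ‖JFun.jFun τ‖ ≤ C * Real.exp (2 * π * τ.im) := by
    rw [jFun_eq_H648]
    exact Fermat.Agent.S24.H648.jFun_bound_fd
  exact exists_goodRing_hasQExp N hJ hb

variable (N) in
theorem JK_mem_goodQ [NeZero N] : JK ℂ ∈ goodQ N := AK_le_goodQ N (JK_mem_AK ℂ N)

/-- Every `q`-expansion of a good function is a root of a monic polynomial of degree
`[SL₂(ℤ) : Γ₀(N)]` over `ℂ[j]`. -/
theorem exists_monic_of_mem_goodQ [NeZero N] {b : LaurentSeries ℂ} (hb : b ∈ goodQ N) :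
    ∃ P : ℂ[X][X], P.Monic ∧ P.natDegree = Nat.card (XX N) ∧
      P.eval₂ (evJ (JK ℂ)) b = 0 := by
  obtain ⟨f, hf, hfb⟩ := hb
  haveI : Finite (SL(2, ℤ) ⧸ Gamma0 N) := inferInstanceAs (Finite (XX N))
  letI : Fintype (SL(2, ℤ) ⧸ Gamma0 N) := Fintype.ofFinite _
  obtain ⟨P, hPm, hPn, hP⟩ := exists_charPoly_jFun_eval_eq_zero (N := N) hf
  refine ⟨P, hPm, ?_, ?_⟩
  · rw [hPn, Nat.card_eq_fintype_card]
  · have h1 := hasQExp_eval₂ P hfb
    rw [h1.eq_zero_iff]
    funext τ
    exact hP τ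

theorem algDeg_of_mem_goodQ [NeZero N] {b : LaurentSeries ℂ} (hb : b ∈ goodQ N) :
    AlgDeg ℂ (Nat.card (XX N)) b := by
  obtain ⟨P, hPm, hPn, hP⟩ := exists_monic_of_mem_goodQ hb
  exact ⟨P, hPm.ne_zero, hPn.le, hP⟩

end Fermat.Agent.S29.H882

end
end
-- ===== PACK-END S29/H882/GoodQ.lean

-- ===== PACK-BEGIN S29/H882/FieldDeg.lean
section


/-!
# S29 / MERO (helper882), part 2: generic algebra

* `exists_relation_of_coeffMap_ne_zero`: descent of a NONZERO bivariate relation along a coefficient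
  embedding (generalises the monic case of the landed `S24.Deg457`).
* `exists_clear_denominators`: a polynomial over `K(j)` becomes, after multiplication by a nonzero
  element of `K[j]`, the image of a bivariate polynomial.
* `algDeg_of_mem_adjoin`: if every element of a subalgebra `B ∋ j` of `K((q))` is algebraic of
  degree `≤ n` over `K[j]`, so is every element of the field generated by `B`.
-/

set_option autoImplicit false

noncomputable section

open Polynomial ModularCurve IntermediateField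

namespace Fermat.Agent.S29.H882

open Fermat.Agent.S24 Fermat.Agent.S24.Deg457

section Descent

variable {K L : Type*} [Field K] [Field L]

/-- **Descent** of a nonzero relation of degree `≤ n` over `L[ι J]` for `ι a` to a nonzero relation
of degree `≤ n` over `K[J]` for `a`. -/
theorem exists_relation_of_coeffMap_ne_zero (ι : K →+* L) (J a : LaurentSeries K) (n : ℕ)
    (P : L[X][X]) (hP : P ≠ 0) (hn : P.natDegree ≤ n)
    (h0 : P.eval₂ (evJ (coeffMap ι J)) (coeffMap ι a) = 0) :
    ∃ Q : K[X][X], Q ≠ 0 ∧ Q.natDegree ≤ n ∧ Q.eval₂ (evJ J) a = 0 := by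
  classical
  set D : ℕ := P.support.sup fun k => (P.coeff k).natDegree with hD
  have hDle : ∀ k, (P.coeff k).natDegree ≤ D := by
    intro k
    by_cases hk : k ∈ P.support
    · exact Finset.le_sup (f := fun k => (P.coeff k).natDegree) hk
    · rw [notMem_support_iff.mp hk]; simp
  let v : Fin (D + 1) × Fin (n + 1) → LaurentSeries K := fun p => J ^ (p.1 : ℕ) * a ^ (p.2 : ℕ)
  have hnot : ¬ LinearIndependent K v := by
    intro hv
    have hw := linearIndependent_coeffMap ι v hv
    rw [Fintype.linearIndependent_iff] at hw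
    -- a nonzero coefficient of `P`
    have hlc : P.coeff P.natDegree ≠ 0 := by
      rw [coeff_natDegree]; exact leadingCoeff_ne_zero.mpr hP
    have hlc2 : (P.coeff P.natDegree).coeff (P.coeff P.natDegree).natDegree ≠ 0 := by
      rw [coeff_natDegree]; exact leadingCoeff_ne_zero.mpr hlc
    have key := hw (fun p => (P.coeff p.2).coeff p.1) ?_
      (⟨(P.coeff P.natDegree).natDegree, Nat.lt_succ_of_le (hDle _)⟩,
        ⟨P.natDegree, Nat.lt_succ_of_le hn⟩)
    · exact hlc2 key
    · rw [Fintype.sum_prod_type_right]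
      rw [eval₂_eq_sum_range' _ (n := n + 1) (Nat.lt_succ_of_le hn)] at h0
      rw [← h0, Finset.sum_range]
      refine Finset.sum_congr rfl fun k _ => ?_
      rw [evJ_apply, aeval_eq_sum_range' (n := D + 1) (Nat.lt_succ_of_le (hDle _)),
        Finset.sum_range, Finset.sum_mul]
      refine Finset.sum_congr rfl fun i _ => ?_
      simp only [v, map_mul, map_pow]
      rw [hsmul_eq_algebraMap_mul, Algebra.smul_def, mul_assoc]
  rw [Fintype.not_linearIndependent_iff] at hnot
  obtain ⟨g, hg, p, hp⟩ := hnot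
  refine ⟨tablePoly g, ?_, tablePoly_natDegree_le g, ?_⟩
  · intro h
    apply hp
    rw [← tablePoly_coeff_coeff g p.1 p.2, h]
    simp
  · rw [tablePoly_eval₂]
    exact hg

end Descent

section Clear

variable {K M : Type*} [Field K] [Field M] [Algebra K M]

/-- Clearing denominators of a polynomial over `K(j)`. -/
theorem exists_clear_denominators (j : M) (p : Polynomial (IntermediateField.adjoin K {j})) :
    ∃ (t : K[X]) (Q : K[X][X]), aeval (AdjoinSimple.gen K j) t ≠ 0 ∧
      Q.map ((aeval (AdjoinSimple.gen K j) : K[X] →ₐ[K] K⟮j⟯).toRingHom)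
        = C (aeval (AdjoinSimple.gen K j) t) * p := by
  set φ : K[X] →+* K⟮j⟯ := (aeval (AdjoinSimple.gen K j) : K[X] →ₐ[K] K⟮j⟯).toRingHom with hφ
  have hφa : ∀ t : K[X], φ t = aeval (AdjoinSimple.gen K j) t := fun _ => rfl
  induction p using Polynomial.induction_on' with
  | add p q hp hq =>
    obtain ⟨t₁, Q₁, h1, h1'⟩ := hp
    obtain ⟨t₂, Q₂, h2, h2'⟩ := hq
    refine ⟨t₁ * t₂, C t₂ * Q₁ + C t₁ * Q₂, ?_, ?_⟩
    · rw [map_mul]; exact mul_ne_zero h1 h2
    · rw [Polynomial.map_add, Polynomial.map_mul, Polynomial.map_mul, Polynomial.map_C,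
        Polynomial.map_C, h1', h2', hφa, hφa, map_mul, C_mul]
      ring
  | monomial k c =>
    obtain ⟨r, s, hrs⟩ := (IntermediateField.mem_adjoin_simple_iff K (c : M)).mp c.2
    by_cases hs : aeval (AdjoinSimple.gen K j) s = 0
    · -- then `c = 0`
      have hs' : aeval j s = 0 := by
        have := congrArg (algebraMap K⟮j⟯ M) hs
        rwa [← aeval_algebraMap_apply, AdjoinSimple.algebraMap_gen, map_zero] at this
      have hc : c = 0 := by
        apply Subtype.ext
        rw [hrs, hs', div_zero]; rfl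
      refine ⟨1, 0, ?_, ?_⟩
      · rw [map_one]; exact one_ne_zero
      · rw [hc]; simp
    · refine ⟨s, monomial k r, hs, ?_⟩
      rw [Polynomial.map_monomial, C_mul_monomial]
      congr 1
      rw [hφa]
      apply Subtype.ext
      have h1 : ((aeval (AdjoinSimple.gen K j) r : K⟮j⟯) : M) = aeval j r := by
        have := (aeval_algebraMap_apply M (AdjoinSimple.gen K j) r).symm
        rwa [AdjoinSimple.algebraMap_gen] at this
      have h2 : ((aeval (AdjoinSimple.gen K j) s : K⟮j⟯) : M) = aeval j s := by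
        have := (aeval_algebraMap_apply M (AdjoinSimple.gen K j) s).symm
        rwa [AdjoinSimple.algebraMap_gen] at this
      have hs' : aeval j s ≠ 0 := by
        intro h
        apply hs
        apply Subtype.ext
        rw [h2, h]; rfl
      rw [h1]
      show aeval j r = ((aeval (AdjoinSimple.gen K j) s : K⟮j⟯) : M) * (c : M)
      rw [h2, hrs]
      field_simp

end Clear

section Alg

variable {K : Type*} [Field K] [Algebra ℚ K]

theorem aeval_JK_mem (B : Subalgebra K (LaurentSeries K)) (hJ : JK K ∈ B) (t : K[X]) :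
    aeval (JK K) t ∈ B := by
  rw [aeval_def, eval₂_eq_sum_range]
  refine Subalgebra.sum_mem _ fun i _ => ?_
  exact Subalgebra.mul_mem _ (Subalgebra.algebraMap_mem _ _) (Subalgebra.pow_mem _ hJ _)

theorem eval₂_mem_subalgebra (B : Subalgebra K (LaurentSeries K)) (hJ : JK K ∈ B)
    (Q : K[X][X]) {s : LaurentSeries K} (hs : s ∈ B) :
    Q.eval₂ (evJ (JK K)) s ∈ B := by
  rw [eval₂_eq_sum_range]
  refine Subalgebra.sum_mem _ fun i _ => ?_
  exact Subalgebra.mul_mem _ (aeval_JK_mem B hJ _) (Subalgebra.pow_mem _ hs _)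

/-- a nonzero algebraic element of `B` has an "inverse up to a polynomial in `j`" in `B`. -/
theorem exists_mul_eq_aeval_subalgebra (B : Subalgebra K (LaurentSeries K)) (hJ : JK K ∈ B)
    {n : ℕ} {s : LaurentSeries K} (hs : s ∈ B) (hs0 : s ≠ 0)
    (ha : AlgDeg K n s) : ∃ g ∈ B, ∃ t : K[X], t ≠ 0 ∧ s * g = aeval (JK K) t := by
  obtain ⟨Q, hQ0, -, hQ⟩ := ha
  have key : ∀ m : ℕ, ∀ Q : K[X][X], Q.natDegree ≤ m → Q ≠ 0 → Q.eval₂ (evJ (JK K)) s = 0 →
      ∃ Q₁ : K[X][X], Q₁.coeff 0 ≠ 0 ∧ Q₁.eval₂ (evJ (JK K)) s = 0 := by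
    intro m
    induction m with
    | zero =>
      intro Q hdeg hQ0 hQ
      refine ⟨Q, ?_, hQ⟩
      intro h0
      apply hQ0
      rw [eq_C_of_natDegree_le_zero hdeg, h0, map_zero]
    | succ m ih =>
      intro Q hdeg hQ0 hQ
      by_cases h0 : Q.coeff 0 = 0
      · have hdiv : Q = divX Q * X := by
          conv_lhs => rw [← divX_mul_X_add Q, h0, map_zero, add_zero]
        have hd0 : divX Q ≠ 0 := by
          intro h; apply hQ0; rw [hdiv, h, zero_mul]
        have hev : (divX Q).eval₂ (evJ (JK K)) s = 0 := by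
          rw [hdiv, eval₂_mul, eval₂_X] at hQ
          rcases mul_eq_zero.mp hQ with h | h
          · exact h
          · exact absurd h hs0
        refine ih (divX Q) ?_ hd0 hev
        rw [natDegree_divX_eq_natDegree_tsub_one]
        omega
      · exact ⟨Q, h0, hQ⟩
  obtain ⟨Q₁, h0, hQ₁⟩ := key Q.natDegree Q le_rfl hQ0 hQ
  refine ⟨-(divX Q₁).eval₂ (evJ (JK K)) s, Subalgebra.neg_mem _ (eval₂_mem_subalgebra B hJ _ hs),
    Q₁.coeff 0, h0, ?_⟩
  have hsplit : Q₁.eval₂ (evJ (JK K)) s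
      = (divX Q₁).eval₂ (evJ (JK K)) s * s + aeval (JK K) (Q₁.coeff 0) := by
    conv_lhs => rw [← divX_mul_X_add Q₁]
    rw [eval₂_add, eval₂_mul, eval₂_X, eval₂_C, evJ_apply]
  rw [hQ₁] at hsplit
  linear_combination hsplit

/-- If every element of the subalgebra `B ∋ j` is algebraic of degree `≤ n` over `K[j]`, so is
every element of the field generated by `B`. -/
theorem algDeg_of_mem_adjoin (B : Subalgebra K (LaurentSeries K)) (hJ : JK K ∈ B) {n : ℕ}
    (hB : ∀ b ∈ B, AlgDeg K n b) {x : LaurentSeries K}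
    (hx : x ∈ IntermediateField.adjoin K (B : Set (LaurentSeries K))) : AlgDeg K n x := by
  rw [IntermediateField.mem_adjoin_iff_div] at hx
  obtain ⟨r, hr, s, hs, rfl⟩ := hx
  rw [Algebra.adjoin_eq] at hr hs
  by_cases hs0 : s = 0
  · subst hs0
    rw [div_zero]
    exact hB 0 (Subalgebra.zero_mem _)
  · obtain ⟨g, hg, t, ht, hst⟩ := exists_mul_eq_aeval_subalgebra B hJ hs hs0 (hB s hs)
    refine AlgDeg.of_mul_eq (a := r * g) ht ?_ (hB _ (Subalgebra.mul_mem _ hr hg))
    rw [← hst]
    field_simp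

end Alg

end Fermat.Agent.S29.H882

end
end
-- ===== PACK-END S29/H882/FieldDeg.lean

-- ===== PACK-BEGIN S29/H222/ESKSpec.lean
section
/-
S29 / helper222 — piece ESK: the Eichler–Shimura input of layer M ("ES raw": inertia acts trivially
on `J₀(N)(ℚ̄)[m]`, Frobenius satisfies `σ² - T_ℓ σ + ℓ = 0` on `J₀(N)(ℚ̄)[m]`) DIRECTLY from the
S18 hub `CoreStatement N A m`, WITHOUT S37 (no special fibre, no place reduction map, no `J'`, no
commutativity of Hecke operators).

This file: the interface (definitions + the two target statements as `Prop`s).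
-/





set_option autoImplicit false

noncomputable section

namespace Fermat.Agent.S29.H222

open ModularCurve AlgebraicCurve HahnSeries
open Fermat.Agent.S18 (Qb IsInt toF CoreStatement)

/-- The absolute Galois group of `ℚ`. -/
abbrev GQ' : Type := Qb ≃ₐ[ℚ] Qb

/-- The norm along `α : F_N → F_{Nℓ}` (inclusion) of `β y` (`β = q ↦ q^ℓ`): the function whose
divisor is `T_ℓ (div y)` for the Prelude Hecke correspondence. -/
def heckeNorm (N ℓ : ℕ) [NeZero N] [NeZero ℓ] (y : modularFunctionFieldBar N) :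
    modularFunctionFieldBar N :=
  letI := algebraAlong (heckeAlphaBar Qb N ℓ)
  Algebra.norm (modularFunctionFieldBar N) (heckeBetaBar Qb N ℓ y)

/-- **NORM-ID** (piece NKI of the S37 row): the norm along `α` of `β y` has `q`-expansion the
formal Kronecker norm `V_ℓ y · det (secMat ℓ y)` (`Fermat.Agent.S37.H400.kronNorm`, on main). -/
def NormId (N ℓ : ℕ) [NeZero N] [NeZero ℓ] : Prop :=
  ∀ y : modularFunctionFieldBar N,
    ((heckeNorm N ℓ y : modularFunctionFieldBar N) : LaurentSeries Qb)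
      = Fermat.Agent.S37.H400.kronNorm ℓ (y : LaurentSeries Qb)

/-- Target (U): inertia at `A` acts trivially on the `m`-torsion of `J₀(N)(ℚ̄)`. -/
def InertiaTrivialOn (N : ℕ) (A : ValuationSubring Qb) (m : ℕ) : Prop :=
  ∀ τ ∈ A.inertiaSubgroupIn ℚ, ∀ x : JZero N, (m : ℤ) • x = 0 → τ • x = x

/-- Target (F): every Frobenius element at `A` satisfies the Eichler–Shimura relation
`σ² - T_ℓ σ + ℓ = 0` on the `m`-torsion of `J₀(N)(ℚ̄)` (`T_ℓ` = the RAW Prelude operator). -/
def FrobQuadraticOn (N : ℕ) [NeZero N] (ℓ : ℕ) (hℓ : ℓ.Prime) (A : ValuationSubring Qb)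
    (m : ℕ) : Prop :=
  ∀ σ : GQ', A.IsFrobeniusAt σ ℓ → ∀ x : JZero N, (m : ℤ) • x = 0 →
    σ • σ • x - heckeOperatorBar N ⟨ℓ, hℓ⟩ (σ • x) + (ℓ : ℤ) • x = 0

/-- The statement of piece ESK-U. -/
def ESKInertiaStatement : Prop :=
  ∀ (N : ℕ) [NeZero N] (m : ℕ), m ≠ 0 → ∀ A : ValuationSubring Qb,
    CoreStatement N A m → PrincipalGeneratedByIntegral A (IsLocalRing.residue A) N →
      InertiaTrivialOn N A m

/-- The statement of piece ESK-F. -/
def ESKFrobStatement : Prop :=
  ∀ (N : ℕ) [NeZero N] (ℓ : ℕ) (hℓ : ℓ.Prime) (m : ℕ), m ≠ 0 → ∀ A : ValuationSubring Qb,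
    A.LiesOverPrime ℓ →
    CoreStatement N A m → PrincipalGeneratedByIntegral A (IsLocalRing.residue A) N →
    (haveI : NeZero ℓ := ⟨hℓ.ne_zero⟩; HeckeInputsAlong Qb N ℓ) →
    (haveI : NeZero ℓ := ⟨hℓ.ne_zero⟩; NormId N ℓ) →
      FrobQuadraticOn N ℓ hℓ A m

end Fermat.Agent.S29.H222

end
end
-- ===== PACK-END S29/H222/ESKSpec.lean

-- ===== PACK-BEGIN S29/H222/ESKInt.lean
section
/-
S29 / helper222 — piece ESK, part 1: integral series (`S18.IsInt`) and the action of the
decomposition group of `A` on them.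
-/


set_option autoImplicit false
set_option linter.style.haveILetI false

noncomputable section

namespace Fermat.Agent.S29.H222

open ModularCurve AlgebraicCurve HahnSeries IsLocalRing
open Fermat.Agent.S18 (Qb IsInt toF CoreStatement)

variable {A : ValuationSubring Qb} {N : ℕ}

/-! ### Basic algebra of integral series -/

theorem esk_coeffMap_subtype_injective :
    Function.Injective (coeffMap A.subtype : LaurentSeries A → LaurentSeries Qb) := by
  intro x y hxy
  ext k
  have := congrArg (fun z => z.coeff k) hxy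
  simpa using this

theorem isInt_one : IsInt A N (1 : LaurentSeries A) :=
  ⟨by rw [map_one]; exact one_mem _, by rw [map_one]; exact one_mem _,
    by rw [map_one]; exact one_ne_zero⟩

theorem isInt_mul {U V : LaurentSeries A} (hU : IsInt A N U) (hV : IsInt A N V) :
    IsInt A N (U * V) :=
  ⟨by rw [map_mul]; exact mul_mem hU.1 hV.1, by rw [map_mul]; exact mul_mem hU.2.1 hV.2.1,
    by rw [map_mul]; exact mul_ne_zero hU.2.2 hV.2.2⟩

theorem isInt_pow {U : LaurentSeries A} (hU : IsInt A N U) (n : ℕ) : IsInt A N (U ^ n) :=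
  ⟨by rw [map_pow]; exact pow_mem hU.1 n, by rw [map_pow]; exact pow_mem hU.2.1 n,
    by rw [map_pow]; exact pow_ne_zero n hU.2.2⟩

theorem toF_ne_zero {U : LaurentSeries A} (hU : IsInt A N U) : toF hU ≠ 0 := by
  intro h0
  have h1 : coeffMap A.subtype U = 0 := congrArg Subtype.val h0
  have h2 : U = 0 := esk_coeffMap_subtype_injective (by rw [h1, map_zero])
  exact hU.2.2 (by rw [h2, map_zero])

@[simp] theorem coe_toF {U : LaurentSeries A} (hU : IsInt A N U) :
    ((toF hU : modularFunctionFieldBar N) : LaurentSeries Qb) = coeffMap A.subtype U := rfl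

theorem toF_mul {U V : LaurentSeries A} (hU : IsInt A N U) (hV : IsInt A N V) :
    toF (isInt_mul hU hV) = toF hU * toF hV :=
  Subtype.ext (map_mul _ _ _)

theorem toF_pow {U : LaurentSeries A} (hU : IsInt A N U) (n : ℕ) :
    toF (isInt_pow hU n) = toF hU ^ n :=
  Subtype.ext (map_pow _ _ _)

theorem toF_congr {U V : LaurentSeries A} (hU : IsInt A N U) (hV : IsInt A N V) (h : U = V) :
    toF hU = toF hV := by
  subst h; rfl

/-! ### Coefficientwise ring homomorphisms preserve the function field in characteristic `ℓ` -/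

theorem coeffMap_mem_fullC {k : Type*} [Field k] (φ : k →+* k) {x : LaurentSeries k}
    (hx : x ∈ modularFunctionFieldFullC k N) :
    coeffMap φ x ∈ modularFunctionFieldFullC k N := by
  unfold modularFunctionFieldFullC at hx
  induction hx using IntermediateField.adjoin_induction with
  | mem y hy =>
      obtain ⟨d, hne, hd, rfl⟩ := hy
      haveI := hne
      rw [coeffMap_qExpand, coeffMap_jqModC]
      exact jqModCd_mem_full k N hd
  | algebraMap c =>
      rw [coeffMap_algebraMap]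
      exact (modularFunctionFieldFullC k N).algebraMap_mem _
  | add y z _ _ hy hz => rw [map_add]; exact add_mem hy hz
  | inv y _ hy => rw [map_inv₀]; exact inv_mem hy
  | mul y z _ _ hy hz => rw [map_mul]; exact mul_mem hy hz

theorem coeffMap_ne_zero_of_injective {R S : Type*} [CommRing R] [CommRing S] (φ : R →+* S)
    (hφ : Function.Injective φ) {x : LaurentSeries R} (hx : x ≠ 0) : coeffMap φ x ≠ 0 := by
  intro h
  apply hx
  ext n
  have hn := congrArg (fun y : LaurentSeries S => y.coeff n) h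
  simp only [coeffMap_coeff, HahnSeries.coeff_zero] at hn ⊢
  exact hφ (by rw [hn, map_zero])

/-! ### The decomposition group acts on integral series -/

/-- The ring endomorphism of `A` induced by an element of the decomposition group. -/
def decA (g : A.decompositionSubgroup ℚ) : A →+* A :=
  MulSemiringAction.toRingHom (A.decompositionSubgroup ℚ) A g

@[simp] theorem coe_decA (g : A.decompositionSubgroup ℚ) (a : A) :
    ((decA g a : A) : Qb) = (g : Qb ≃ₐ[ℚ] Qb) (a : Qb) := rfl

/-- The ring endomorphism of the residue field induced by an element of the decomposition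
group. -/
def decK (g : A.decompositionSubgroup ℚ) : ResidueField A →+* ResidueField A :=
  MulSemiringAction.toRingHom (A.decompositionSubgroup ℚ) (ResidueField A) g

theorem decK_residue (g : A.decompositionSubgroup ℚ) (a : A) :
    decK g (residue A a) = residue A (decA g a) := rfl

theorem decK_injective (g : A.decompositionSubgroup ℚ) : Function.Injective (decK g) :=
  (decK g).injective

/-- The coefficientwise action of the decomposition group on `A((q))`. -/
def galA (g : A.decompositionSubgroup ℚ) : LaurentSeries A →+* LaurentSeries A :=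
  coeffMap (decA g)

theorem coeffMap_subtype_galA (g : A.decompositionSubgroup ℚ) (U : LaurentSeries A) :
    coeffMap A.subtype (galA g U)
      = coeffMap (((g : Qb ≃ₐ[ℚ] Qb)) : Qb →+* Qb) (coeffMap A.subtype U) := by
  rw [galA, coeffMap_coeffMap, coeffMap_coeffMap]
  exact coeffMap_congr (RingHom.ext fun a => rfl) U

theorem coeffMap_residue_galA (g : A.decompositionSubgroup ℚ) (U : LaurentSeries A) :
    coeffMap (residue A) (galA g U) = coeffMap (decK g) (coeffMap (residue A) U) := by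
  rw [galA, coeffMap_coeffMap, coeffMap_coeffMap]
  exact coeffMap_congr (RingHom.ext fun a => rfl) U

theorem isInt_galA (g : A.decompositionSubgroup ℚ) {U : LaurentSeries A} (hU : IsInt A N U) :
    IsInt A N (galA g U) := by
  refine ⟨?_, ?_, ?_⟩
  · rw [coeffMap_subtype_galA]
    exact coeffMap_mem_laurentBaseChange (g : Qb ≃ₐ[ℚ] Qb) hU.1
  · rw [coeffMap_residue_galA]
    exact coeffMap_mem_fullC _ hU.2.1
  · rw [coeffMap_residue_galA]
    exact coeffMap_ne_zero_of_injective _ (decK_injective g) hU.2.2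

theorem toF_galA (g : A.decompositionSubgroup ℚ) {U : LaurentSeries A} (hU : IsInt A N U) :
    toF (isInt_galA g hU)
      = arithmeticGalois (modularFunctionFieldFull N) (g : Qb ≃ₐ[ℚ] Qb) • toF hU := by
  apply Subtype.ext
  rw [coe_arithmeticGalois_smul]
  exact coeffMap_subtype_galA g U

end Fermat.Agent.S29.H222

end
end
-- ===== PACK-END S29/H222/ESKInt.lean

-- ===== PACK-BEGIN S29/H222/ESKDiv.lean
section
/-
S29 / helper222 — piece ESK, part 2: divisors of functions (`IsDivOf`), their behaviour under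
products, powers and semilinear automorphisms, and the decomposition of a principal divisor as a
difference of divisors of INTEGRAL series (from the Prelude's `PrincipalGeneratedByIntegral`).
-/


set_option autoImplicit false
set_option linter.style.haveILetI false

noncomputable section

namespace Fermat.Agent.S29.H222

open ModularCurve AlgebraicCurve HahnSeries IsLocalRing
open Fermat.Agent.S18 (Qb IsInt toF CoreStatement)

section Generic

variable {K F : Type*} [Field K] [Field F] [Algebra K F]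

/-- `D` is the divisor of the function `f`. -/
def IsDivOf (f : F) (D : Divisor K F) : Prop := ∀ v : Place K F, D v = v.ord f

theorem IsDivOf.mul {f g : F} {D E : Divisor K F} (hf0 : f ≠ 0) (hg0 : g ≠ 0)
    (hf : IsDivOf f D) (hg : IsDivOf g E) : IsDivOf (f * g) (D + E) := fun v => by
  rw [Finsupp.add_apply, hf v, hg v, v.ord_mul hf0 hg0]

theorem esk_ord_pow (v : Place K F) (f : F) (n : ℕ) : v.ord (f ^ n) = n * v.ord f := by
  have := v.ord_zpow f (n : ℤ)
  simpa using this

theorem IsDivOf.pow {f : F} {D : Divisor K F} (hf : IsDivOf f D) (n : ℕ) :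
    IsDivOf (f ^ n) ((n : ℤ) • D) := fun v => by
  rw [Finsupp.smul_apply, hf v, esk_ord_pow, smul_eq_mul]

theorem IsDivOf.smul {f : F} {D : Divisor K F} (g : SemilinearAut K F) (hf : IsDivOf f D) :
    IsDivOf (g • f) (g • D) := fun w => by
  rw [SemilinearAut.divisor_smul_apply, hf (g⁻¹ • w)]
  have h := SemilinearAut.ord_smul g (g⁻¹ • w) f
  rw [smul_inv_smul] at h
  exact h.symm

theorem esk_ord_algebraMap (v : Place K F) {c : K} (hc : c ≠ 0) :
    v.ord (algebraMap K F c) = 0 := by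
  have h1 : algebraMap K F c ∈ v.toValuationSubring := v.algebraMap_mem' c
  have h2 : algebraMap K F c⁻¹ ∈ v.toValuationSubring := v.algebraMap_mem' c⁻¹
  let u : (v.toValuationSubring)ˣ :=
    { val := ⟨algebraMap K F c, h1⟩
      inv := ⟨algebraMap K F c⁻¹, h2⟩
      val_inv := by
        apply Subtype.ext
        show algebraMap K F c * algebraMap K F c⁻¹ = 1
        rw [← map_mul, mul_inv_cancel₀ hc, map_one]
      inv_val := by
        apply Subtype.ext
        show algebraMap K F c⁻¹ * algebraMap K F c = 1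
        rw [← map_mul, inv_mul_cancel₀ hc, map_one] }
  exact v.ord_coe_unit u

/-- **Kummer criterion**: if `V₁ = c · y ^ m · V₂` and `div V₁ - div V₂ = m • E` (`m ≠ 0`), then
`E` is the divisor of `y`; in particular `E` is principal. -/
theorem isDivOf_of_eq_const_mul_pow {m : ℕ} (hm : m ≠ 0) {V₁ V₂ y : F} {c : K} (hc : c ≠ 0)
    (hy : y ≠ 0) (hV₂ : V₂ ≠ 0) (h : V₁ = algebraMap K F c * y ^ m * V₂)
    {E : Divisor K F} (hE : ∀ v : Place K F, (m : ℤ) * E v = v.ord V₁ - v.ord V₂) :
    IsDivOf y E := fun v => by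
  have hc' : algebraMap K F c ≠ 0 := by
    simpa using hc
  have h1 : v.ord V₁ = (m : ℤ) * v.ord y + v.ord V₂ := by
    rw [h, v.ord_mul (mul_ne_zero hc' (pow_ne_zero m hy)) hV₂,
      v.ord_mul hc' (pow_ne_zero m hy), esk_ord_algebraMap v hc, esk_ord_pow, zero_add]
  have h2 : (m : ℤ) * E v = (m : ℤ) * v.ord y := by rw [hE v, h1]; ring
  exact mul_left_cancel₀ (Int.natCast_ne_zero.mpr hm) h2

end Generic

variable {A : ValuationSubring Qb} {N : ℕ}

/-- A principal divisor is the difference of the divisors of two integral series. -/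
theorem exists_isInt_of_principal
    (hpgi : PrincipalGeneratedByIntegral A (residue A) N)
    {D : Divisor Qb (modularFunctionFieldBar N)}
    (hD : D ∈ Divisor.principal (K := Qb) (F := modularFunctionFieldBar N)) :
    ∃ (U₁ U₂ : LaurentSeries A) (h₁ : IsInt A N U₁) (h₂ : IsInt A N U₂)
      (D₁ D₂ : Divisor Qb (modularFunctionFieldBar N)),
      IsDivOf (toF h₁) D₁ ∧ IsDivOf (toF h₂) D₂ ∧ D = D₁ - D₂ := by
  have hD' := hpgi hD
  clear hD
  induction hD' using AddSubgroup.closure_induction with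
  | mem E hE =>
      obtain ⟨y, hy, hyk, hne, hEy⟩ := hE
      refine ⟨y, 1, ⟨hy, hyk, hne⟩, isInt_one, E, 0, fun v => hEy v, fun v => ?_, by simp⟩
      have : toF (isInt_one (A := A) (N := N)) = 1 := Subtype.ext (map_one _)
      rw [this]
      simp
  | zero =>
      refine ⟨1, 1, isInt_one, isInt_one, 0, 0, fun v => ?_, fun v => ?_, by simp⟩ <;>
      · have : toF (isInt_one (A := A) (N := N)) = 1 := Subtype.ext (map_one _)
        rw [this]
        simp
  | add E E' _ _ hE hE' =>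
      obtain ⟨U₁, U₂, h₁, h₂, D₁, D₂, hd₁, hd₂, rfl⟩ := hE
      obtain ⟨U₁', U₂', h₁', h₂', D₁', D₂', hd₁', hd₂', rfl⟩ := hE'
      refine ⟨U₁ * U₁', U₂ * U₂', isInt_mul h₁ h₁', isInt_mul h₂ h₂', D₁ + D₁', D₂ + D₂',
        ?_, ?_, by abel⟩
      · rw [toF_mul h₁ h₁']
        exact hd₁.mul (toF_ne_zero h₁) (toF_ne_zero h₁') hd₁'
      · rw [toF_mul h₂ h₂']
        exact hd₂.mul (toF_ne_zero h₂) (toF_ne_zero h₂') hd₂'
  | neg E _ hE =>
      obtain ⟨U₁, U₂, h₁, h₂, D₁, D₂, hd₁, hd₂, rfl⟩ := hE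
      exact ⟨U₂, U₁, h₂, h₁, D₂, D₁, hd₂, hd₁, by abel⟩

end Fermat.Agent.S29.H222

end
end
-- ===== PACK-END S29/H222/ESKDiv.lean

-- ===== PACK-BEGIN S29/H222/ESKInertia.lean
section
/-
S29 / helper222 — piece ESK-U: inertia at `A` acts trivially on `J₀(N)(ℚ̄)[m]`, from
`S18.CoreStatement N A m` and the Prelude's `PrincipalGeneratedByIntegral`.

Proof: `x = [D]`, `m D = div U₁ - div U₂` (`U₁, U₂` integral).  For `τ` in the inertia group put
`V₁ = τU₁ · U₂`, `V₂ = U₁ · τU₂`; they have the same reduction, and `div V₁ - div V₂ = m (τD - D)`.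
CORE gives `V₁ = c y^m V₂`, hence `τD - D = div y`.
-/


set_option autoImplicit false
set_option linter.style.haveILetI false

noncomputable section

namespace Fermat.Agent.S29.H222

open ModularCurve AlgebraicCurve HahnSeries IsLocalRing
open Fermat.Agent.S18 (Qb IsInt toF CoreStatement)

variable {A : ValuationSubring Qb} {N : ℕ}

/-- `m`-torsion classes: `m • D` is principal. -/
theorem smul_mem_principal_of_torsion {m : ℕ}
    (D : Divisor.degZero (K := Qb) (F := modularFunctionFieldBar N))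
    (hx : (m : ℤ) • (Pic0.mk D : JZero N) = 0) :
    (m : ℤ) • (D : Divisor Qb (modularFunctionFieldBar N))
      ∈ Divisor.principal (K := Qb) (F := modularFunctionFieldBar N) := by
  have hx' : ((m : ℤ) • D : Divisor.degZero (K := Qb) (F := modularFunctionFieldBar N)) ∈
      (Divisor.principal (K := Qb) (F := modularFunctionFieldBar N)).addSubgroupOf
        (Divisor.degZero (K := Qb) (F := modularFunctionFieldBar N)) := by
    have : Pic0.mk ((m : ℤ) • D) = 0 := hx
    exact (QuotientAddGroup.eq_zero_iff _).mp this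
  rw [AddSubgroup.mem_addSubgroupOf] at hx'
  simpa using hx'

/-- Two classes are equal as soon as the difference of the divisors is the divisor of a
function. -/
theorem pic0_mk_eq_of_isDivOf
    (D D' : Divisor.degZero (K := Qb) (F := modularFunctionFieldBar N))
    {y : modularFunctionFieldBar N} (hy : y ≠ 0)
    (h : IsDivOf (K := Qb) y ((D' : Divisor Qb (modularFunctionFieldBar N))
      - (D : Divisor Qb (modularFunctionFieldBar N)))) :
    (Pic0.mk D' : JZero N) = Pic0.mk D := by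
  symm
  refine QuotientAddGroup.eq.mpr ?_
  rw [AddSubgroup.mem_addSubgroupOf]
  refine ⟨y, hy, fun v => ?_⟩
  have := h v
  rw [← this]
  simp [sub_eq_neg_add]

theorem decK_eq_self_of_mem_inertia {g : A.decompositionSubgroup ℚ}
    (hg : g ∈ A.inertiaSubgroup ℚ) (x : ResidueField A) : decK g x = x := by
  have h1 := MonoidHom.mem_ker.mp hg
  exact congrArg (fun e : RingAut (ResidueField A) => e x) h1

theorem coeffMap_decK_of_mem_inertia {g : A.decompositionSubgroup ℚ}
    (hg : g ∈ A.inertiaSubgroup ℚ) (x : LaurentSeries (ResidueField A)) :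
    coeffMap (decK g) x = x := by
  ext n
  rw [coeffMap_coeff, decK_eq_self_of_mem_inertia hg]

/-- **ESK-U.** -/
theorem esk_inertia : ESKInertiaStatement := by
  intro N _ m hm A hcore hpgi τ hτ x hx
  obtain ⟨g, hg, rfl⟩ := hτ
  obtain ⟨D, rfl⟩ := Pic0.mk_surjective x
  obtain ⟨U₁, U₂, h₁, h₂, D₁, D₂, hd₁, hd₂, hDD⟩ :=
    exists_isInt_of_principal hpgi (smul_mem_principal_of_torsion D hx)
  set G := arithmeticGalois (modularFunctionFieldFull N)
    (((A.decompositionSubgroup ℚ).subtype g : Qb ≃ₐ[ℚ] Qb)) with hG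
  have hV₁ : IsInt A N (galA g U₁ * U₂) := isInt_mul (isInt_galA g h₁) h₂
  have hV₂ : IsInt A N (U₁ * galA g U₂) := isInt_mul h₁ (isInt_galA g h₂)
  have hred : coeffMap (residue A) (galA g U₁ * U₂) = coeffMap (residue A) (U₁ * galA g U₂) := by
    rw [map_mul, map_mul, coeffMap_residue_galA, coeffMap_residue_galA,
      coeffMap_decK_of_mem_inertia hg, coeffMap_decK_of_mem_inertia hg]
  have hgd₁ : IsDivOf (toF (isInt_galA g h₁)) (G • D₁) := by
    rw [toF_galA]; exact hd₁.smul G
  have hgd₂ : IsDivOf (toF (isInt_galA g h₂)) (G • D₂) := by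
    rw [toF_galA]; exact hd₂.smul G
  have hdV₁ : IsDivOf (toF hV₁) (G • D₁ + D₂) := by
    rw [toF_mul (isInt_galA g h₁) h₂]
    exact hgd₁.mul (toF_ne_zero _) (toF_ne_zero _) hd₂
  have hdV₂ : IsDivOf (toF hV₂) (D₁ + G • D₂) := by
    rw [toF_mul h₁ (isInt_galA g h₂)]
    exact hd₁.mul (toF_ne_zero _) (toF_ne_zero _) hgd₂
  have hkey : ∀ v : Place Qb (modularFunctionFieldBar N),
      (m : ℤ) * (G • (D : Divisor Qb (modularFunctionFieldBar N)) - D) v
        = v.ord (toF hV₁) - v.ord (toF hV₂) := by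
    intro v
    rw [← hdV₁ v, ← hdV₂ v]
    have e1 : ((m : ℤ) • (D : Divisor Qb (modularFunctionFieldBar N))) v = D₁ v - D₂ v := by
      rw [hDD, Finsupp.sub_apply]
    have e2 : ((m : ℤ) • (D : Divisor Qb (modularFunctionFieldBar N))) (G⁻¹ • v)
        = D₁ (G⁻¹ • v) - D₂ (G⁻¹ • v) := by
      rw [hDD, Finsupp.sub_apply]
    rw [Finsupp.smul_apply, smul_eq_mul] at e1 e2
    simp only [Finsupp.sub_apply, Finsupp.add_apply, SemilinearAut.divisor_smul_apply]
    linear_combination e2 - e1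
  have hord : ∀ v : Place Qb (modularFunctionFieldBar N),
      (m : ℤ) ∣ v.ord (toF hV₁) - v.ord (toF hV₂) := fun v => ⟨_, (hkey v).symm⟩
  obtain ⟨c, y, hc, hy, hcy⟩ := hcore _ _ hV₁ hV₂ hred hord
  have hE := isDivOf_of_eq_const_mul_pow hm hc hy (toF_ne_zero hV₂) hcy hkey
  show (((A.decompositionSubgroup ℚ).subtype g : Qb ≃ₐ[ℚ] Qb)) • (Pic0.mk D : JZero N) = Pic0.mk D
  rw [galois_smul_pic0_def, SemilinearAut.pic0_smul_mk]
  exact pic0_mk_eq_of_isDivOf D _ hy hE

end Fermat.Agent.S29.H222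

end
end
-- ===== PACK-END S29/H222/ESKInertia.lean

-- ===== PACK-BEGIN S29/H222/ESKNorm.lean
section
/-
S29 / helper222 — piece ESK, part 3: the Hecke correspondence on divisors of functions
(`T_ℓ (div y) = div (Nm_α (β y))`, from the Prelude's `HeckeInputsAlong`), and the integral
Kronecker norm `K(U) = kronNorm ℓ (σ U)` with its reduction.
-/


set_option autoImplicit false
set_option linter.style.haveILetI false

noncomputable section

namespace Fermat.Agent.S29.H222

open ModularCurve AlgebraicCurve HahnSeries IsLocalRing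
open Fermat.Agent.S18 (Qb IsInt toF CoreStatement)
open Fermat.Agent.S37.H400 (kronNorm)

variable {A : ValuationSubring Qb} {N : ℕ}

/-! ### Characteristic of the residue field -/

theorem charP_residueField_of_liesOver {ℓ : ℕ} (hℓ : ℓ.Prime) (hA : A.LiesOverPrime ℓ) :
    CharP (ResidueField A) ℓ := by
  rw [CharP.charP_iff_prime_eq_zero hℓ]
  have h1 : ((ℓ : A) : Qb) ∈ A.nonunits := by
    have : ((ℓ : A) : Qb) = (ℓ : Qb) := by simp
    rw [this]; exact hA
  have h2 : (ℓ : A) ∈ maximalIdeal A := ValuationSubring.coe_mem_nonunits_iff.mp h1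
  have h3 : residue A (ℓ : A) = 0 := (residue_eq_zero_iff _).mpr h2
  rw [← h3, map_natCast]

/-! ### The Hecke correspondence on divisors of functions -/

section Hecke

variable [NeZero N] {ℓ : ℕ} [NeZero ℓ]

omit [NeZero N] in
/-- `β^* (div y) = div (β y)`. -/
theorem isDivOf_pullbackAlong_beta
    [HasPrincipalDivisors Qb (laurentBaseChange Qb (modularFunctionFieldFull (N * ℓ)))]
    (hβ : HeckeBetaBarIntegral Qb N ℓ)
    {y : modularFunctionFieldBar N} {E : Divisor Qb (modularFunctionFieldBar N)}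
    (hE : IsDivOf y E) :
    IsDivOf (K := Qb) (heckeBetaBar Qb N ℓ y)
      (Divisor.pullbackAlong (heckeBetaBar Qb N ℓ) hβ E) := by
  intro w
  letI := algebraAlong (heckeBetaBar Qb N ℓ)
  haveI := isScalarTower_along (heckeBetaBar Qb N ℓ)
  haveI := isIntegral_along (heckeBetaBar Qb N ℓ) hβ
  exact Divisor.pullback_apply_eq_ord hE w

/-- `α_* (div z) = div (Nm_α z)`. -/
theorem isDivOf_pushforwardAlong_alpha
    (hα : HeckeAlphaBarIntegral Qb N ℓ) (hfin : FiniteAlong Qb (heckeAlphaBar Qb N ℓ))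
    (hN : NormFormulaAlong Qb (heckeAlphaBar Qb N ℓ) hfin)
    {z : laurentBaseChange Qb (modularFunctionFieldFull (N * ℓ))} (hz : z ≠ 0)
    {E : Divisor Qb (laurentBaseChange Qb (modularFunctionFieldFull (N * ℓ)))}
    (hE : IsDivOf z E) :
    IsDivOf (K := Qb)
      (letI := algebraAlong (heckeAlphaBar Qb N ℓ)
       Algebra.norm (modularFunctionFieldBar N) z)
      (Divisor.pushforwardAlong (heckeAlphaBar Qb N ℓ) hα E) := by
  intro v
  letI := algebraAlong (heckeAlphaBar Qb N ℓ)
  haveI := isScalarTower_along (heckeAlphaBar Qb N ℓ)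
  haveI := isIntegral_along (heckeAlphaBar Qb N ℓ) hα
  haveI : Module.Finite (modularFunctionFieldBar N)
    (laurentBaseChange Qb (modularFunctionFieldFull (N * ℓ))) := hfin
  exact hN z hz E hE v

/-- `T_ℓ (div y) = div (heckeNorm y)` on divisors. -/
theorem isDivOf_heckeDivBar
    [HasPrincipalDivisors Qb (laurentBaseChange Qb (modularFunctionFieldFull (N * ℓ)))]
    (hα : HeckeAlphaBarIntegral Qb N ℓ) (hβ : HeckeBetaBarIntegral Qb N ℓ)
    (hfin : FiniteAlong Qb (heckeAlphaBar Qb N ℓ))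
    (hN : NormFormulaAlong Qb (heckeAlphaBar Qb N ℓ) hfin)
    {y : modularFunctionFieldBar N} (hy : y ≠ 0) {E : Divisor Qb (modularFunctionFieldBar N)}
    (hE : IsDivOf y E) :
    IsDivOf (K := Qb) (heckeNorm N ℓ y) (heckeDivBar hα hβ E) := by
  have hβy : heckeBetaBar Qb N ℓ y ≠ 0 := by
    intro h
    exact hy ((heckeBetaBar Qb N ℓ).toRingHom.injective (by simpa using h))
  exact isDivOf_pushforwardAlong_alpha hα hfin hN hβy (isDivOf_pullbackAlong_beta hβ hE)

end Hecke

end Fermat.Agent.S29.H222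

end
end
-- ===== PACK-END S29/H222/ESKNorm.lean

-- ===== PACK-BEGIN S48/H332/PkgDegAlg.lean
section


/-!
# Tower A1 / A1-FF, piece DEG-GEN (helper332) — the degree bound from relations over `ℂ`, generic

GENERIC port of `S24/Deg/H457_Alg.lean` + `H457_Main.lean`: the generators `j(q^d)`, `d ∣ N`, are
replaced by an arbitrary set `S` of Laurent series containing `j`.

Interface hypothesis `HypG L S n`: every element of the `L`-subalgebra of `L((q))` generated by `S`
is a root of a monic polynomial of degree `n` with coefficients in `L[j]`.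

Main result: `finiteDimensional_and_finrank_le_G`.
-/

set_option autoImplicit false
set_option linter.unusedSectionVars false
set_option linter.unusedVariables false

noncomputable section

open Polynomial ModularCurve IntermediateField

namespace Fermat.Agent.S48.H332

open Fermat.Agent.S24 Fermat.Agent.S24.Deg457

section General

variable (K : Type*) [Field K] [Algebra ℚ K]

/-- The generic interface hypothesis. -/
def HypG (S : Set (LaurentSeries K)) (n : ℕ) : Prop :=
  ∀ b ∈ Algebra.adjoin K S, ∃ P : K[X][X], P.Monic ∧ P.natDegree = n ∧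
    P.eval₂ (evJ (JK K)) b = 0

variable {K}

theorem aeval_JK_mem {A : Subalgebra K (LaurentSeries K)} (hJ : JK K ∈ A) (t : K[X]) :
    aeval (JK K) t ∈ A := by
  rw [aeval_def, eval₂_eq_sum_range]
  refine Subalgebra.sum_mem _ fun i _ => ?_
  exact Subalgebra.mul_mem _ (Subalgebra.algebraMap_mem _ _) (Subalgebra.pow_mem _ hJ _)

theorem eval₂_mem_G {A : Subalgebra K (LaurentSeries K)} (hJ : JK K ∈ A) (Q : K[X][X])
    {s : LaurentSeries K} (hs : s ∈ A) : Q.eval₂ (evJ (JK K)) s ∈ A := by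
  rw [eval₂_eq_sum_range]
  refine Subalgebra.sum_mem _ fun i _ => ?_
  exact Subalgebra.mul_mem _ (aeval_JK_mem hJ _) (Subalgebra.pow_mem _ hs _)

/-- a nonzero algebraic element of `A` has an "inverse up to a polynomial in `j`" in `A`. -/
theorem exists_mul_eq_aeval_G {A : Subalgebra K (LaurentSeries K)} (hJ : JK K ∈ A) {n : ℕ}
    {s : LaurentSeries K} (hs : s ∈ A) (hs0 : s ≠ 0)
    (ha : AlgDeg K n s) : ∃ g ∈ A, ∃ t : K[X], t ≠ 0 ∧ s * g = aeval (JK K) t := by
  obtain ⟨Q, hQ0, -, hQ⟩ := ha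
  have key : ∀ m : ℕ, ∀ Q : K[X][X], Q.natDegree ≤ m → Q ≠ 0 → Q.eval₂ (evJ (JK K)) s = 0 →
      ∃ Q₁ : K[X][X], Q₁.coeff 0 ≠ 0 ∧ Q₁.eval₂ (evJ (JK K)) s = 0 := by
    intro m
    induction m with
    | zero =>
      intro Q hdeg hQ0 hQ
      refine ⟨Q, ?_, hQ⟩
      intro h0
      apply hQ0
      rw [eq_C_of_natDegree_le_zero hdeg, h0, map_zero]
    | succ m ih =>
      intro Q hdeg hQ0 hQ
      by_cases h0 : Q.coeff 0 = 0
      · have hdiv : Q = divX Q * X := by
          conv_lhs => rw [← divX_mul_X_add Q, h0, map_zero, add_zero]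
        have hd0 : divX Q ≠ 0 := by
          intro h; apply hQ0; rw [hdiv, h, zero_mul]
        have hev : (divX Q).eval₂ (evJ (JK K)) s = 0 := by
          rw [hdiv, eval₂_mul, eval₂_X] at hQ
          rcases mul_eq_zero.mp hQ with h | h
          · exact h
          · exact absurd h hs0
        refine ih (divX Q) ?_ hd0 hev
        rw [natDegree_divX_eq_natDegree_tsub_one]
        omega
      · exact ⟨Q, h0, hQ⟩
  obtain ⟨Q₁, h0, hQ₁⟩ := key Q.natDegree Q le_rfl hQ0 hQ
  refine ⟨-(divX Q₁).eval₂ (evJ (JK K)) s, Subalgebra.neg_mem _ (eval₂_mem_G hJ _ hs),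
    Q₁.coeff 0, h0, ?_⟩
  have hsplit : Q₁.eval₂ (evJ (JK K)) s
      = (divX Q₁).eval₂ (evJ (JK K)) s * s + aeval (JK K) (Q₁.coeff 0) := by
    conv_lhs => rw [← divX_mul_X_add Q₁]
    rw [eval₂_add, eval₂_mul, eval₂_X, eval₂_C, evJ_apply]
  rw [hQ₁] at hsplit
  linear_combination hsplit

end General

section Descent

variable {K L : Type*} [Field K] [Algebra ℚ K] [Field L] [Algebra ℚ L]

theorem coeffMap_mem_adjoin (ι : K →+* L) {S : Set (LaurentSeries K)} {a : LaurentSeries K}
    (ha : a ∈ Algebra.adjoin K S) :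
    coeffMap ι a ∈ Algebra.adjoin L (⇑(coeffMap ι) '' S) := by
  induction ha using Algebra.adjoin_induction with
  | mem x hx => exact Algebra.subset_adjoin ⟨x, hx, rfl⟩
  | algebraMap r =>
    rw [coeffMap_algebraMap']
    exact Subalgebra.algebraMap_mem _ _
  | add x y _ _ hx hy =>
    rw [map_add]; exact Subalgebra.add_mem _ hx hy
  | mul x y _ _ hx hy =>
    rw [map_mul]; exact Subalgebra.mul_mem _ hx hy

/-- Lemma B: elements of `K[S]` are algebraic of degree `≤ n` over `K[j]`, given the hypothesis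
over the bigger field `L`. -/
theorem algDeg_of_mem_adjoin (ι : K →+* L) {S : Set (LaurentSeries K)} {n : ℕ}
    (hyp : HypG L (⇑(coeffMap ι) '' S) n) {a : LaurentSeries K}
    (ha : a ∈ Algebra.adjoin K S) : AlgDeg K n a := by
  obtain ⟨P, hP, hn, h0⟩ := hyp _ (coeffMap_mem_adjoin ι ha)
  rw [← coeffMap_JK ι] at h0
  exact exists_relation_of_coeffMap_monic ι (JK K) a n P hP hn h0

/-- Lemma H: every element of the field `K(S)` is algebraic of degree `≤ n` over `K[j]`. -/
theorem algDeg_of_mem_field_G (ι : K →+* L) {S : Set (LaurentSeries K)} (hJ : JK K ∈ S) {n : ℕ}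
    (hyp : HypG L (⇑(coeffMap ι) '' S) n) {x : LaurentSeries K}
    (hx : x ∈ IntermediateField.adjoin K S) : AlgDeg K n x := by
  rw [IntermediateField.mem_adjoin_iff_div] at hx
  obtain ⟨r, hr, s, hs, rfl⟩ := hx
  have hJ' : JK K ∈ Algebra.adjoin K S := Algebra.subset_adjoin hJ
  by_cases hs0 : s = 0
  · subst hs0
    rw [div_zero]
    exact algDeg_of_mem_adjoin ι hyp (Subalgebra.zero_mem _)
  · obtain ⟨g, hg, t, ht, hst⟩ :=
      exists_mul_eq_aeval_G hJ' hs hs0 (algDeg_of_mem_adjoin ι hyp hs)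
    refine AlgDeg.of_mul_eq (a := r * g) ht ?_
      (algDeg_of_mem_adjoin ι hyp (Subalgebra.mul_mem _ hr hg))
    rw [← hst]
    field_simp

end Descent

section Final

variable {K L : Type*} [Field K] [Algebra ℚ K] [CharZero K] [Field L] [Algebra ℚ L]

/-- **Degree bound, generic.**  `F = K(S) ⊆ K((q))`, `j ∈ S`; from the interface hypothesis over
a bigger field `L`: `[F : K(j)] ≤ n`. -/
theorem finiteDimensional_and_finrank_le_G (ι : K →+* L) {S : Set (LaurentSeries K)}
    (hJ : JK K ∈ S) (F : IntermediateField K (LaurentSeries K))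
    (hF : F = IntermediateField.adjoin K S) (jF : F) (hjF : (jF : LaurentSeries K) = JK K)
    (n : ℕ) (hyp : HypG L (⇑(coeffMap ι) '' S) n) :
    FiniteDimensional ↥(IntermediateField.adjoin K {jF}) F ∧
      Module.finrank ↥(IntermediateField.adjoin K {jF}) F ≤ n := by
  refine finiteDimensional_and_finrank_le_of_forall_natDegree_minpoly_le n fun x => ?_
  have hx : (x : LaurentSeries K) ∈ IntermediateField.adjoin K S := by
    rw [← hF]; exact x.2
  obtain ⟨Q, hQ0, hQn, hQ⟩ := algDeg_of_mem_field_G ι hJ hyp hx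
  have hinc : Function.Injective (algebraMap F (LaurentSeries K)) :=
    (algebraMap F (LaurentSeries K)).injective
  refine isIntegral_and_natDegree_le_of_relation (K := K)
    (AdjoinSimple.gen K jF) ?_ x Q hQ0 n hQn ?_
  · intro t ht h0
    apply aeval_JK_ne_zero K ht
    have h1 := congrArg (algebraMap ↥(IntermediateField.adjoin K {jF}) F) h0
    rw [← aeval_algebraMap_apply, map_zero, AdjoinSimple.algebraMap_gen] at h1
    have h2 := congrArg (algebraMap F (LaurentSeries K)) h1
    rw [← aeval_algebraMap_apply, map_zero] at h2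
    rw [← hjF]
    exact h2
  · apply hinc
    rw [map_zero, Polynomial.hom_eval₂, AdjoinSimple.algebraMap_gen]
    have hcomp : (algebraMap F (LaurentSeries K)).comp
        ((aeval jF : K[X] →ₐ[K] F).toRingHom) = evJ (JK K) := by
      refine Polynomial.ringHom_ext ?_ ?_
      · intro c
        simp [evJ, ← IsScalarTower.algebraMap_apply]
      · simp [evJ]
        exact hjF
    rw [hcomp]
    exact hQ

end Final

end Fermat.Agent.S48.H332

end
end
-- ===== PACK-END S48/H332/PkgDegAlg.lean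

-- ===== PACK-BEGIN S29/H882/Inter.lean
section


/-!
# S29 / MERO (helper882), part (C): `F_L ∩ K((q)) = F_K`

For a field embedding `ι : K → L` and `F₀ ≤ ℚ((q))`: a Laurent series `y` over `K` whose base change
`coeffMap ι y` lies in `laurentBaseChange L F₀` already lies in `laurentBaseChange K F₀`.
-/

set_option autoImplicit false

noncomputable section

open Polynomial ModularCurve IntermediateField

namespace Fermat.Agent.S29.H882

open Fermat.Agent.S24 Fermat.Agent.S24.Deg457

section Span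

variable (L : Type*) [Field L] [Algebra ℚ L] (F₀ : IntermediateField ℚ (LaurentSeries ℚ))

/-- `coeffEmb` as a `ℚ`-linear map (for the `ℚ`-structure on `L((q))` induced by `L`). -/
theorem coeffEmb_smul_rat (c : ℚ) (u : LaurentSeries ℚ) :
    coeffEmb L (c • u) = (algebraMap ℚ L c) • coeffEmb L u := by
  ext k
  simp only [coeffEmb_coeff, HahnSeries.coeff_smul, smul_eq_mul, map_mul]

/-- The `L`-span of the image of `F₀`. -/
def spanImage : Submodule L (LaurentSeries L) :=
  Submodule.span L (⇑(coeffEmb L) '' (F₀ : Set (LaurentSeries ℚ)))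

variable {L F₀}

theorem coeffEmb_mem_spanImage {u : LaurentSeries ℚ} (hu : u ∈ F₀) :
    coeffEmb L u ∈ spanImage L F₀ :=
  Submodule.subset_span ⟨u, hu, rfl⟩

theorem spanImage_le : (spanImage L F₀ : Set (LaurentSeries L)) ⊆ laurentBaseChange L F₀ := by
  intro x hx
  refine Submodule.span_induction (p := fun x _ => x ∈ laurentBaseChange L F₀) ?_ ?_ ?_ ?_ hx
  · rintro _ ⟨u, hu, rfl⟩
    exact coeffEmb_mem_laurentBaseChange L hu
  · exact zero_mem _
  · intro a b _ _ ha hb
    exact add_mem ha hb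
  · intro c a _ ha
    rw [hsmul_eq_algebraMap_mul]
    exact mul_mem ((laurentBaseChange L F₀).algebraMap_mem c) ha

theorem mul_mem_spanImage {a b : LaurentSeries L} (ha : a ∈ spanImage L F₀)
    (hb : b ∈ spanImage L F₀) : a * b ∈ spanImage L F₀ := by
  refine Submodule.span_induction (p := fun a _ => a * b ∈ spanImage L F₀) ?_ ?_ ?_ ?_ ha
  · rintro _ ⟨u, hu, rfl⟩
    refine Submodule.span_induction (p := fun b _ => coeffEmb L u * b ∈ spanImage L F₀)
      ?_ ?_ ?_ ?_ hb
    · rintro _ ⟨v, hv, rfl⟩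
      rw [← map_mul]
      exact coeffEmb_mem_spanImage (mul_mem hu hv)
    · rw [mul_zero]; exact zero_mem _
    · intro x y _ _ hx hy
      rw [mul_add]; exact add_mem hx hy
    · intro c x _ hx
      have : coeffEmb L u * c • x = c • (coeffEmb L u * x) := by
        rw [hsmul_eq_algebraMap_mul, hsmul_eq_algebraMap_mul]; ring
      rw [this]; exact Submodule.smul_mem _ c hx
  · rw [zero_mul]; exact zero_mem _
  · intro x y _ _ hx hy
    rw [add_mul]; exact add_mem hx hy
  · intro c x _ hx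
    have : c • x * b = c • (x * b) := by
      rw [hsmul_eq_algebraMap_mul, hsmul_eq_algebraMap_mul]; ring
    rw [this]; exact Submodule.smul_mem _ c hx

theorem one_mem_spanImage : (1 : LaurentSeries L) ∈ spanImage L F₀ := by
  have := coeffEmb_mem_spanImage (L := L) (F₀ := F₀) (one_mem F₀)
  rwa [map_one] at this

theorem algebraMap_mem_spanImage (c : L) :
    algebraMap L (LaurentSeries L) c ∈ spanImage L F₀ := by
  have h : algebraMap L (LaurentSeries L) c = c • (1 : LaurentSeries L) := by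
    rw [hsmul_eq_algebraMap_mul, mul_one]
  rw [h]
  exact Submodule.smul_mem _ c one_mem_spanImage

variable (L F₀) in
/-- The span as a subalgebra. -/
def spanAlg : Subalgebra L (LaurentSeries L) where
  carrier := spanImage L F₀
  mul_mem' := mul_mem_spanImage
  add_mem' := fun ha hb => add_mem ha hb
  algebraMap_mem' := algebraMap_mem_spanImage

/-- Every element of the function field is a quotient of two elements of the span. -/
theorem exists_div_of_mem_laurentBaseChange {x : LaurentSeries L}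
    (hx : x ∈ laurentBaseChange L F₀) :
    ∃ r ∈ spanImage L F₀, ∃ s ∈ spanImage L F₀, x = r / s := by
  rw [laurentBaseChange, IntermediateField.mem_adjoin_iff_div] at hx
  obtain ⟨r, hr, s, hs, rfl⟩ := hx
  have hle : Algebra.adjoin L (⇑(coeffEmb L) '' (F₀ : Set (LaurentSeries ℚ))) ≤ spanAlg L F₀ :=
    Algebra.adjoin_le (fun x hx => Submodule.subset_span hx)
  exact ⟨r, hle hr, s, hle hs, rfl⟩

end Span

section Main

variable {K L : Type*} [Field K] [Algebra ℚ K] [Field L] [Algebra ℚ L]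

/-- A finite `ℚ`-independent family in `F₀` whose image spans two given elements of the span. -/
theorem exists_indep_family (F₀ : IntermediateField ℚ (LaurentSeries ℚ))
    {r s : LaurentSeries L} (hr : r ∈ spanImage L F₀) (hs : s ∈ spanImage L F₀) :
    ∃ (m : ℕ) (e : Fin m → LaurentSeries ℚ), (∀ i, e i ∈ F₀) ∧ LinearIndependent ℚ e ∧
      ∃ a b : Fin m → L, r = ∑ i, a i • coeffEmb L (e i) ∧ s = ∑ i, b i • coeffEmb L (e i) := by
  classical
  -- finite supports
  obtain ⟨lr, hlr, rfl⟩ := (Finsupp.mem_span_image_iff_linearCombination L).mp hr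
  obtain ⟨ls, hls, rfl⟩ := (Finsupp.mem_span_image_iff_linearCombination L).mp hs
  set S : Finset (LaurentSeries ℚ) := lr.support ∪ ls.support with hS
  have hSF : ∀ u ∈ S, u ∈ F₀ := by
    intro u hu
    rcases Finset.mem_union.mp hu with h | h
    · exact hlr h
    · exact hls h
  obtain ⟨B, hBt, hspan, hind⟩ := exists_linearIndependent ℚ (S : Set (LaurentSeries ℚ))
  have hBfin : B.Finite := (Finset.finite_toSet S).subset hBt
  haveI : Fintype B := hBfin.fintype
  -- the image of every element of `S` lies in the `L`-span of the image of `B`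
  let EL : LaurentSeries ℚ →ₗ[ℚ] LaurentSeries L :=
    { toFun := coeffEmb L
      map_add' := map_add _
      map_smul' := fun c u => by
        rw [coeffEmb_smul_rat, RingHom.id_apply, algebraMap_smul] }
  have hmem : ∀ u ∈ S, coeffEmb L u ∈ Submodule.span L (Set.range fun e : B => coeffEmb L (e : _)) := by
    intro u hu
    have h1 : u ∈ Submodule.span ℚ B := by
      rw [hspan]; exact Submodule.subset_span hu
    have h2 := Submodule.apply_mem_span_image_of_mem_span EL h1
    have h3 : Submodule.span ℚ (EL '' B) ≤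
        (Submodule.span L (EL '' B)).restrictScalars ℚ := Submodule.span_le_restrictScalars ℚ L _
    have h4 := h3 h2
    have h5 : (EL '' B) = Set.range fun e : B => coeffEmb L (e : _) := by
      ext x
      constructor
      · rintro ⟨u, hu, rfl⟩; exact ⟨⟨u, hu⟩, rfl⟩
      · rintro ⟨⟨u, hu⟩, rfl⟩; exact ⟨u, hu, rfl⟩
    rw [h5] at h4
    exact h4
  have hlin : ∀ l : LaurentSeries ℚ →₀ L, (l.support ⊆ S) →
      Finsupp.linearCombination L (⇑(coeffEmb L)) l ∈
        Submodule.span L (Set.range fun e : B => coeffEmb L (e : _)) := by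
    intro l hl
    rw [Finsupp.linearCombination_apply, Finsupp.sum]
    refine Submodule.sum_mem _ fun u hu => ?_
    exact Submodule.smul_mem _ _ (hmem u (hl hu))
  have hr' := hlin lr Finset.subset_union_left
  have hs' := hlin ls Finset.subset_union_right
  rw [Submodule.mem_span_range_iff_exists_fun] at hr' hs'
  obtain ⟨a, ha⟩ := hr'
  obtain ⟨b, hb⟩ := hs'
  -- reindex by `Fin m`
  let eq := Fintype.equivFin B
  refine ⟨Fintype.card B, fun i => ((eq.symm i : B) : LaurentSeries ℚ), ?_, ?_,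
    fun i => a (eq.symm i), fun i => b (eq.symm i), ?_, ?_⟩
  · intro i
    exact hSF _ (hBt (eq.symm i).2)
  · exact hind.comp _ eq.symm.injective
  · rw [← ha]
    exact (Equiv.sum_comp eq.symm (fun e : B => a e • coeffEmb L (e : LaurentSeries ℚ))).symm
  · rw [← hb]
    exact (Equiv.sum_comp eq.symm (fun e : B => b e • coeffEmb L (e : LaurentSeries ℚ))).symm

/-- **(C)** `F_L ∩ K((q)) = F_K`. -/
theorem mem_laurentBaseChange_of_coeffMap_mem (ι : K →+* L)
    (F₀ : IntermediateField ℚ (LaurentSeries ℚ)) {y : LaurentSeries K}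
    (hy : coeffMap ι y ∈ laurentBaseChange L F₀) : y ∈ laurentBaseChange K F₀ := by
  classical
  obtain ⟨r, hr, s, hs, hrs⟩ := exists_div_of_mem_laurentBaseChange hy
  by_cases hs0 : s = 0
  · -- then `coeffMap ι y = 0`, so `y = 0`
    rw [hs0, div_zero] at hrs
    have : y = 0 := by
      ext k
      have := congrArg (fun z : LaurentSeries L => z.coeff k) hrs
      simp only [coeffMap_coeff, HahnSeries.coeff_zero] at this
      simpa using this
    rw [this]; exact zero_mem _
  obtain ⟨m, e, heF, hind, a, b, hra, hsb⟩ := exists_indep_family F₀ hr hs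
  have hxs : coeffMap ι y * s = r := by
    rw [hrs]; field_simp
  -- the family over `K`
  let w : Fin m ⊕ Fin m → LaurentSeries K :=
    Sum.elim (fun i => y * coeffEmb K (e i)) (fun i => coeffEmb K (e i))
  have hindK : LinearIndependent K (fun i => coeffEmb K (e i)) := by
    have := linearIndependent_coeffMap (algebraMap ℚ K) e hind
    exact this
  have hnot : ¬ LinearIndependent K w := by
    intro hw
    have hL := linearIndependent_coeffMap ι w hw
    rw [Fintype.linearIndependent_iff] at hL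
    have key := hL (Sum.elim b (fun i => -a i)) ?_
    · apply hs0
      rw [hsb]
      refine Finset.sum_eq_zero fun i _ => ?_
      have := key (Sum.inl i)
      simp only [Sum.elim_inl] at this
      rw [this, zero_smul]
    · rw [Fintype.sum_sum_type]
      simp only [Sum.elim_inl, Sum.elim_inr, w, map_mul, coeffMap_coeffEmb']
      have h1 : ∑ i, b i • (coeffMap ι y * coeffEmb L (e i)) = coeffMap ι y * s := by
        rw [hsb, Finset.mul_sum]
        refine Finset.sum_congr rfl fun i _ => ?_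
        rw [hsmul_eq_algebraMap_mul, hsmul_eq_algebraMap_mul]; ring
      have h2 : ∑ i, (-a i) • coeffEmb L (e i) = -r := by
        rw [hra, ← Finset.sum_neg_distrib]
        refine Finset.sum_congr rfl fun i _ => ?_
        rw [neg_smul]
      rw [h1, h2, hxs, add_neg_cancel]
  rw [Fintype.not_linearIndependent_iff] at hnot
  obtain ⟨g, hg, i₀, hi₀⟩ := hnot
  rw [Fintype.sum_sum_type] at hg
  simp only [Sum.elim_inl, Sum.elim_inr, w] at hg
  set s' : LaurentSeries K := ∑ i, g (Sum.inl i) • coeffEmb K (e i) with hs'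
  set r' : LaurentSeries K := -∑ i, g (Sum.inr i) • coeffEmb K (e i) with hr'
  have hys : y * s' = r' := by
    have h1 : ∑ i, g (Sum.inl i) • (y * coeffEmb K (e i)) = y * s' := by
      rw [hs', Finset.mul_sum]
      refine Finset.sum_congr rfl fun i _ => ?_
      rw [hsmul_eq_algebraMap_mul, hsmul_eq_algebraMap_mul]; ring
    rw [h1] at hg
    rw [hr']
    exact eq_neg_of_add_eq_zero_left hg
  have hs'mem : s' ∈ laurentBaseChange K F₀ := by
    refine sum_mem fun i _ => ?_
    rw [hsmul_eq_algebraMap_mul]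
    exact mul_mem ((laurentBaseChange K F₀).algebraMap_mem _)
      (coeffEmb_mem_laurentBaseChange K (heF i))
  have hr'mem : r' ∈ laurentBaseChange K F₀ := by
    refine neg_mem (sum_mem fun i _ => ?_)
    rw [hsmul_eq_algebraMap_mul]
    exact mul_mem ((laurentBaseChange K F₀).algebraMap_mem _)
      (coeffEmb_mem_laurentBaseChange K (heF i))
  have hs'0 : s' ≠ 0 := by
    intro h0
    rw [Fintype.linearIndependent_iff] at hindK
    have hb0 : ∀ i, g (Sum.inl i) = 0 := hindK _ h0
    have hr0 : r' = 0 := by rw [← hys, h0, mul_zero]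
    have ha0 : ∀ i, g (Sum.inr i) = 0 := hindK _ (neg_eq_zero.mp hr0)
    rcases i₀ with i | i
    · exact hi₀ (hb0 i)
    · exact hi₀ (ha0 i)
  have : y = r' / s' := by
    rw [← hys]; field_simp
  rw [this]
  exact div_mem hr'mem hs'mem

end Main

end Fermat.Agent.S29.H882

end
end
-- ===== PACK-END S29/H882/Inter.lean

-- ===== PACK-BEGIN S48/H848/DiaGen.lean
section




/-!
# S48 / RES (Tower A1) — piece FF-DIA, generic part (helper848)

* `exists_algEquiv_of_rel` : if a permutation `π` of a family of generators `g i` of a field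
  extension `L(g) / L` preserves all polynomial relations (in both directions), there is an
  `L`-automorphism of `L(g)` with `g i ↦ g (π i)`.
* `rel_of_avatars` : the hypothesis from ANALYTIC AVATARS: `g i ∈ L((q))`, functions
  `A i : ℍ → ℂ` with convergent `q`-expansion `ι (g i)` (`ι : L → ℂ`), and a self-map `γ` of `ℍ`
  with `A i ∘ γ = A (π i)`.
* `exists_algEquiv_of_avatars` : the combination.
-/

set_option autoImplicit false

noncomputable section

open ModularCurve HahnSeries UpperHalfPlane Fermat.Agent.S24 IntermediateField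

namespace Fermat.Agent.S48.H848

/-! ### Algebra: automorphisms from permutations of generators -/

section Algebra

variable {L Ω : Type*} [Field L] [Field Ω] [Algebra L Ω] {I : Type*}

/-- The generator `g i` as an element of `L(g)`. -/
def genAdj (g : I → Ω) (i : I) : adjoin L (Set.range g) :=
  ⟨g i, subset_adjoin L _ ⟨i, rfl⟩⟩

@[simp] theorem coe_genAdj (g : I → Ω) (i : I) :
    ((genAdj (L := L) g i : adjoin L (Set.range g)) : Ω) = g i := rfl

/-- Two ring homomorphisms out of `L(g)` into a division ring which agree on `L` and on the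
generators are equal. -/
theorem adjoin_ringHom_ext {S : Set Ω} {R : Type*} [DivisionRing R]
    (f₁ f₂ : adjoin L S →+* R)
    (hL : ∀ a : L, f₁ (algebraMap L _ a) = f₂ (algebraMap L _ a))
    (hS : ∀ (x : Ω) (hx : x ∈ S), f₁ ⟨x, subset_adjoin L S hx⟩ = f₂ ⟨x, subset_adjoin L S hx⟩) :
    f₁ = f₂ := by
  have key : ∀ (y : Ω) (hy : y ∈ adjoin L S), f₁ ⟨y, hy⟩ = f₂ ⟨y, hy⟩ := by
    intro y hy
    induction hy using IntermediateField.adjoin_induction with
    | mem x hx => exact hS x hx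
    | algebraMap a => exact hL a
    | add x y hx hy ihx ihy =>
        have h1 : (⟨x + y, add_mem hx hy⟩ : adjoin L S) = ⟨x, hx⟩ + ⟨y, hy⟩ := rfl
        rw [h1, map_add, map_add, ihx, ihy]
    | inv x hx ihx =>
        have h1 : (⟨x⁻¹, inv_mem hx⟩ : adjoin L S) = (⟨x, hx⟩)⁻¹ := rfl
        rw [h1, map_inv₀, map_inv₀, ihx]
    | mul x y hx hy ihx ihy =>
        have h1 : (⟨x * y, mul_mem hx hy⟩ : adjoin L S) = ⟨x, hx⟩ * ⟨y, hy⟩ := rfl
        rw [h1, map_mul, map_mul, ihx, ihy]
  ext ⟨y, hy⟩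
  exact key y hy

/-- Two `L`-algebra homomorphisms out of `L(g)` which agree on the generators are equal. -/
theorem adjoin_algHom_ext (g : I → Ω) {R : Type*} [DivisionRing R] [Algebra L R]
    (f₁ f₂ : adjoin L (Set.range g) →ₐ[L] R)
    (h : ∀ i, f₁ (genAdj g i) = f₂ (genAdj g i)) : f₁ = f₂ := by
  have h' : (f₁ : adjoin L (Set.range g) →+* R) = (f₂ : adjoin L (Set.range g) →+* R) := by
    refine adjoin_ringHom_ext _ _ (fun a => ?_) ?_
    · show f₁ (algebraMap L _ a) = f₂ (algebraMap L _ a)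
      rw [f₁.commutes, f₂.commutes]
    · rintro x ⟨i, rfl⟩
      exact h i
  exact AlgHom.ext fun x => congrArg (fun f : adjoin L (Set.range g) →+* R => f x) h'

open scoped IntermediateField.algebraAdjoinAdjoin in
/-- One direction: a family `g'` in a field `Ω'` satisfying all the relations of `g`, and no
others, gives an `L`-embedding `L(g) → Ω'` with `g i ↦ g' i`. -/
theorem exists_algHom_of_rel {Ω' : Type*} [Field Ω'] [Algebra L Ω'] (g : I → Ω) (g' : I → Ω')
    (hrel : ∀ P : MvPolynomial I L,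
      MvPolynomial.aeval g P = 0 ↔ MvPolynomial.aeval g' P = 0) :
    ∃ τ : adjoin L (Set.range g) →ₐ[L] Ω', ∀ i, τ (genAdj g i) = g' i := by
  classical
  -- the evaluation maps
  let φ : MvPolynomial I L →ₐ[L] Ω := MvPolynomial.aeval g
  let ψ : MvPolynomial I L →ₐ[L] Ω' := MvPolynomial.aeval g'
  have hA : Algebra.adjoin L (Set.range g) = φ.range :=
    Algebra.adjoin_range_eq_range_aeval L g
  -- the map on the subalgebra
  have hex : ∀ a : Algebra.adjoin L (Set.range g), ∃ P : MvPolynomial I L, φ P = (a : Ω) := by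
    intro a
    have ha : (a : Ω) ∈ φ.range := hA ▸ a.2
    exact ha
  choose rep hrep using hex
  have hwd : ∀ (P Q : MvPolynomial I L), φ P = φ Q → ψ P = ψ Q := by
    intro P Q h
    have h0 : φ (P - Q) = 0 := by rw [map_sub, h, sub_self]
    have h1 : ψ (P - Q) = 0 := (hrel _).mp h0
    rw [map_sub, sub_eq_zero] at h1
    exact h1
  have hinj' : ∀ (P Q : MvPolynomial I L), ψ P = ψ Q → φ P = φ Q := by
    intro P Q h
    have h0 : ψ (P - Q) = 0 := by rw [map_sub, h, sub_self]
    have h1 : φ (P - Q) = 0 := (hrel _).mpr h0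
    rw [map_sub, sub_eq_zero] at h1
    exact h1
  let σ₀ : Algebra.adjoin L (Set.range g) →ₐ[L] Ω' :=
    { toFun := fun a => ψ (rep a)
      map_one' := by
        have : φ (rep 1) = φ 1 := by rw [hrep, map_one]; rfl
        rw [hwd _ _ this, map_one]
      map_mul' := fun a b => by
        have : φ (rep (a * b)) = φ (rep a * rep b) := by
          rw [hrep, map_mul, hrep, hrep]; rfl
        rw [hwd _ _ this, map_mul]
      map_zero' := by
        have : φ (rep 0) = φ 0 := by rw [hrep, map_zero]; rfl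
        rw [hwd _ _ this, map_zero]
      map_add' := fun a b => by
        have : φ (rep (a + b)) = φ (rep a + rep b) := by
          rw [hrep, map_add, hrep, hrep]; rfl
        rw [hwd _ _ this, map_add]
      commutes' := fun c => by
        have : φ (rep (algebraMap L _ c)) = φ (MvPolynomial.C c) := by
          rw [hrep]
          show algebraMap L Ω c = MvPolynomial.aeval g (MvPolynomial.C c)
          rw [MvPolynomial.aeval_C]
        rw [hwd _ _ this]
        show MvPolynomial.aeval g' (MvPolynomial.C c) = _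
        rw [MvPolynomial.aeval_C] }
  have hσ₀ : ∀ P : MvPolynomial I L, ∀ a : Algebra.adjoin L (Set.range g),
      (a : Ω) = φ P → σ₀ a = ψ P := by
    intro P a ha
    exact hwd _ _ ((hrep a).trans ha)
  have hσ₀inj : Function.Injective σ₀ := by
    intro a b hab
    apply Subtype.ext
    rw [← hrep a, ← hrep b]
    exact hinj' _ _ hab
  -- extension to the fraction field
  let τ : adjoin L (Set.range g) →ₐ[L] Ω' :=
    IsFractionRing.liftAlgHom (K := adjoin L (Set.range g)) (g := σ₀) hσ₀inj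
  refine ⟨τ, fun i => ?_⟩
  have h1 : genAdj g i = algebraMap (Algebra.adjoin L (Set.range g)) (adjoin L (Set.range g))
      ⟨g i, Algebra.subset_adjoin ⟨i, rfl⟩⟩ := rfl
  rw [h1]
  show IsFractionRing.liftAlgHom (K := adjoin L (Set.range g)) (g := σ₀) hσ₀inj _ = _
  rw [IsFractionRing.liftAlgHom_apply, IsFractionRing.lift_algebraMap]
  have h2 := hσ₀ (MvPolynomial.X i) ⟨g i, Algebra.subset_adjoin ⟨i, rfl⟩⟩
    (by show g i = MvPolynomial.aeval g (MvPolynomial.X i); rw [MvPolynomial.aeval_X])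
  have h3 : σ₀ ⟨g i, Algebra.subset_adjoin ⟨i, rfl⟩⟩ = g' i := by
    rw [h2]
    exact MvPolynomial.aeval_X g' i
  exact h3

/-- **Automorphisms from permutations of generators.**  If the permutation `π` of the generators
preserves all polynomial relations over `L`, it extends to an `L`-automorphism of `L(g)`. -/
theorem exists_algEquiv_of_rel (g : I → Ω) (π : Equiv.Perm I)
    (hrel : ∀ P : MvPolynomial I L,
      MvPolynomial.aeval g P = 0 ↔ MvPolynomial.aeval (g ∘ π) P = 0) :
    ∃ σ : adjoin L (Set.range g) ≃ₐ[L] adjoin L (Set.range g),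
      ∀ i, σ (genAdj g i) = genAdj g (π i) := by
  -- relations for `π⁻¹`
  have hrel' : ∀ P : MvPolynomial I L,
      MvPolynomial.aeval g P = 0 ↔ MvPolynomial.aeval (g ∘ π.symm) P = 0 := by
    intro P
    have h := hrel (MvPolynomial.rename π.symm P)
    rw [MvPolynomial.aeval_rename, MvPolynomial.aeval_rename] at h
    have h2 : (g ∘ π) ∘ π.symm = g := by
      funext i
      simp
    rw [h2] at h
    exact h.symm
  -- the two families inside `L(g)`
  have hrelK : ∀ (ρ : Equiv.Perm I), (∀ P : MvPolynomial I L,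
      MvPolynomial.aeval g P = 0 ↔ MvPolynomial.aeval (g ∘ ρ) P = 0) →
      ∀ P : MvPolynomial I L, MvPolynomial.aeval g P = 0 ↔
        MvPolynomial.aeval (fun i => genAdj (L := L) g (ρ i)) P = 0 := by
    intro ρ hρ P
    rw [hρ P]
    have h1 : (adjoin L (Set.range g)).val.toRingHom.comp
        (MvPolynomial.aeval (fun i => genAdj (L := L) g (ρ i)) :
          MvPolynomial I L →ₐ[L] adjoin L (Set.range g)).toRingHom
        = (MvPolynomial.aeval (g ∘ ρ) : MvPolynomial I L →ₐ[L] Ω).toRingHom := by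
      apply MvPolynomial.ringHom_ext
      · intro c
        simp
      · intro i
        simp
    have h2 : ((MvPolynomial.aeval (fun i => genAdj (L := L) g (ρ i)) P :
        adjoin L (Set.range g)) : Ω) = MvPolynomial.aeval (g ∘ ρ) P :=
      congrArg (fun f : MvPolynomial I L →+* Ω => f P) h1
    rw [← h2]
    constructor
    · intro h
      exact Subtype.ext h
    · intro h
      rw [h]
      rfl
  obtain ⟨τ, hτ⟩ := exists_algHom_of_rel g (fun i => genAdj (L := L) g (π i)) (hrelK π hrel)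
  obtain ⟨τ', hτ'⟩ := exists_algHom_of_rel g (fun i => genAdj (L := L) g (π.symm i))
    (hrelK π.symm hrel')
  have h1 : τ.comp τ' = AlgHom.id L _ := by
    apply adjoin_algHom_ext g
    intro i
    rw [AlgHom.comp_apply, hτ', hτ]
    simp
  have h2 : τ'.comp τ = AlgHom.id L _ := by
    apply adjoin_algHom_ext g
    intro i
    rw [AlgHom.comp_apply, hτ, hτ']
    simp
  exact ⟨AlgEquiv.ofAlgHom τ τ' h1 h2, hτ⟩

end Algebra

/-! ### Analysis: relations from analytic avatars -/

section Avatars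

variable {L : Type*} [Field L] {I : Type*}

/-- Evaluation of a polynomial over `L` at a family of functions on `ℍ`. -/
def evalFun (ι : L →+* ℂ) (A : I → ℍ → ℂ) : MvPolynomial I L →+* (ℍ → ℂ) :=
  MvPolynomial.eval₂Hom ((algebraMap ℂ (ℍ → ℂ)).comp ι) A

theorem evalFun_C (ι : L →+* ℂ) (A : I → ℍ → ℂ) (c : L) (z : ℍ) :
    evalFun ι A (MvPolynomial.C c) z = ι c := by
  simp [evalFun]

theorem evalFun_X (ι : L →+* ℂ) (A : I → ℍ → ℂ) (i : I) :
    evalFun ι A (MvPolynomial.X i) = A i := by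
  simp [evalFun]

/-- The `q`-expansion of a polynomial in the avatars is the polynomial in the series. -/
theorem infExp_evalFun (ι : L →+* ℂ) (g : I → LaurentSeries L) (A : I → ℍ → ℂ)
    (hA : ∀ i, InfExp 1 (A i) (coeffMap ι (g i))) (P : MvPolynomial I L) :
    InfExp 1 (evalFun ι A P) (coeffMap ι (MvPolynomial.aeval g P)) := by
  induction P using MvPolynomial.induction_on with
  | C c =>
    have h1 : evalFun ι A (MvPolynomial.C c) = fun _ => ι c := by
      funext z
      exact evalFun_C ι A c z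
    have h2 : coeffMap ι (MvPolynomial.aeval g (MvPolynomial.C c)) = HahnSeries.C (ι c) := by
      rw [MvPolynomial.aeval_C, algebraMap_laurentSeries_eq_single, coeffMap_single]
      rfl
    rw [h1, h2]
    exact InfExp.const _
  | add P Q hP hQ =>
    rw [map_add, map_add, map_add]
    exact hP.add hQ
  | mul_X P i hP =>
    rw [map_mul, map_mul, map_mul, evalFun_X, MvPolynomial.aeval_X]
    exact hP.mul (hA i)

theorem evalFun_comp (ι : L →+* ℂ) (A : I → ℍ → ℂ) (π : I → I) (γ : ℍ → ℍ)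
    (hγ : ∀ i z, A i (γ z) = A (π i) z) (P : MvPolynomial I L) (z : ℍ) :
    evalFun ι A P (γ z) = evalFun ι (A ∘ π) P z := by
  induction P using MvPolynomial.induction_on with
  | C c => rw [evalFun_C, evalFun_C]
  | add P Q hP hQ =>
    rw [map_add, map_add, Pi.add_apply, Pi.add_apply, hP, hQ]
  | mul_X P i hP =>
    rw [map_mul, map_mul, Pi.mul_apply, Pi.mul_apply, hP, evalFun_X, evalFun_X, hγ]
    rfl

/-- **Relations from avatars.**  A self-map `γ` of `ℍ` permuting the avatars maps relations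
between the series to relations. -/
theorem rel_of_avatars (ι : L →+* ℂ) (g : I → LaurentSeries L) (A : I → ℍ → ℂ)
    (hA : ∀ i, InfExp 1 (A i) (coeffMap ι (g i))) (π : I → I) (γ : ℍ → ℍ)
    (hγ : ∀ i z, A i (γ z) = A (π i) z) (P : MvPolynomial I L)
    (hP : MvPolynomial.aeval g P = 0) : MvPolynomial.aeval (g ∘ π) P = 0 := by
  have h1 := infExp_evalFun ι g A hA P
  rw [hP, map_zero] at h1
  have h0 : evalFun ι A P = fun _ => 0 := h1.fun_unique InfExp.zero
  have h2 := infExp_evalFun ι (g ∘ π) (A ∘ π) (fun i => hA (π i)) P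
  have h3 : evalFun ι (A ∘ π) P = fun _ => 0 := by
    funext z
    rw [← evalFun_comp ι A π γ hγ P z, h0]
  rw [h3] at h2
  have h4 : coeffMap ι (MvPolynomial.aeval (g ∘ π) P) = 0 := h2.eq_zero
  exact inf_coeffMap_injective ι.injective (h4.trans (map_zero _).symm)

/-- **FF-DIA, generic form.**  Generators `g i ∈ L((q))` with analytic avatars `A i` on `ℍ`, a
permutation `π` of the generators and a bijection `γ` of `ℍ` with `A i ∘ γ = A (π i)`: there is
an `L`-automorphism of `L(g)` with `g i ↦ g (π i)`. -/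
theorem exists_algEquiv_of_avatars (ι : L →+* ℂ) (g : I → LaurentSeries L) (A : I → ℍ → ℂ)
    (hA : ∀ i, InfExp 1 (A i) (coeffMap ι (g i))) (π : Equiv.Perm I) (γ : Equiv.Perm ℍ)
    (hγ : ∀ i z, A i (γ z) = A (π i) z) :
    ∃ σ : adjoin L (Set.range g) ≃ₐ[L] adjoin L (Set.range g),
      ∀ i, σ (genAdj g i) = genAdj g (π i) := by
  refine exists_algEquiv_of_rel g π fun P => ⟨rel_of_avatars ι g A hA π γ hγ P, fun h => ?_⟩
  have hγ' : ∀ i z, (A ∘ π) i (γ.symm z) = (A ∘ π) (π.symm i) z := by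
    intro i z
    simp only [Function.comp_apply, Equiv.apply_symm_apply]
    rw [← hγ i (γ.symm z), Equiv.apply_symm_apply]
  have h1 := rel_of_avatars ι (g ∘ π) (A ∘ π) (fun i => hA (π i)) π.symm γ.symm hγ' P h
  have h2 : (g ∘ π) ∘ π.symm = g := by
    funext i
    simp
  rwa [h2] at h1

end Avatars

end Fermat.Agent.S48.H848

end
end
-- ===== PACK-END S48/H848/DiaGen.lean

-- ===== PACK-BEGIN S48/H882/GoodG.lean
section




/-!
# Tower A1 / A1-KUM (helper882): good functions and their `q`-expansions for ANY subgroup `Γ`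

Generic version (any subgroup `Γ ≤ SL(2,ℤ)`) of the landed `Γ₀(N)` files `S24/Deg/H648Conj`,
`S24/Deg/H648D5` and `S29/H882/GoodQ`:

* `GoodG Γ f` : `f` is holomorphic on `ℍ`, `Γ`-invariant and all `SL(2,ℤ)`-translates have at most
  exponential growth (`= S48.H332.IsGoodFor Γ f`, `= f ∈ S24.H648.goodRing N` for `Γ = Γ₀(N)`);
* `goodRingG Γ`, `goodQG Γ` (the algebra of `q`-expansions at `i∞`);
* `exists_monic_of_mem_goodQG` : for `Γ` of finite index, every element of `goodQG Γ` is a root of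
  a monic polynomial of degree `[SL(2,ℤ) : Γ]` over `ℂ[j]`;
* `algDeg_of_mem_adjoin_goodQG` : hence every element of the FIELD generated by `goodQG Γ` is
  algebraic of degree `≤ [SL(2,ℤ) : Γ]` over `ℂ[j]`.
-/

set_option autoImplicit false

noncomputable section

open UpperHalfPlane ModularGroup CongruenceSubgroup Polynomial ModularCurve
open scoped MatrixGroups Manifold Modular Real

namespace Fermat.Agent.S48.H882

open Fermat.Agent.S24 Fermat.Agent.S24.H648 Fermat.Agent.S24.H708 Fermat.Agent.S24.Deg457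

variable (Γ : Subgroup SL(2, ℤ))

/-- `f` is a good function for `Γ`: holomorphic, `Γ`-invariant, all `SL(2,ℤ)`-translates of at
most exponential growth at `i∞`. -/
def GoodG (f : ℍ → ℂ) : Prop :=
  MDifferentiable 𝓘(ℂ) 𝓘(ℂ) f ∧ (∀ γ ∈ Γ, ∀ τ : ℍ, f (γ • τ) = f τ) ∧
    ∀ g : SL(2, ℤ), ExpGrowth (fun τ => f (g • τ))

theorem goodG_Gamma0_iff {N : ℕ} {f : ℍ → ℂ} : GoodG (Gamma0 N) f ↔ f ∈ goodRing N := Iff.rfl

variable {Γ} in
theorem GoodG.mono {Γ' : Subgroup SL(2, ℤ)} {f : ℍ → ℂ} (h : GoodG Γ' f) (hle : Γ ≤ Γ') :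
    GoodG Γ f :=
  ⟨h.1, fun γ hγ τ => h.2.1 γ (hle hγ) τ, h.2.2⟩

/-- A good function for `SL(2,ℤ) = Γ₀(1)` is good for every `Γ`. -/
theorem goodG_of_mem_goodRing_one {f : ℍ → ℂ} (hf : f ∈ goodRing 1) : GoodG Γ f := by
  refine ⟨hf.1, fun γ _ τ => hf.2.1 γ ?_ τ, hf.2.2⟩
  rw [Gamma0_mem]
  exact Subsingleton.elim _ _

/-- The algebra of good functions for `Γ`. -/
def goodRingG : Subalgebra ℂ (ℍ → ℂ) where
  carrier := {f | GoodG Γ f}
  mul_mem' := by
    rintro f g ⟨h1, h2, h3⟩ ⟨h1', h2', h3'⟩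
    refine ⟨h1.mul h1', fun γ hγ τ => ?_, fun g => ?_⟩
    · show f (γ • τ) * g (γ • τ) = f τ * g τ
      rw [h2 γ hγ τ, h2' γ hγ τ]
    · exact (h3 g).mul (h3' g)
  add_mem' := by
    rintro f g ⟨h1, h2, h3⟩ ⟨h1', h2', h3'⟩
    refine ⟨h1.add h1', fun γ hγ τ => ?_, fun g => ?_⟩
    · show f (γ • τ) + g (γ • τ) = f τ + g τ
      rw [h2 γ hγ τ, h2' γ hγ τ]
    · exact (h3 g).add (h3' g)
  algebraMap_mem' := fun c =>
    ⟨mdifferentiable_const, fun _ _ _ => rfl, fun _ => expGrowth_const c⟩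

variable {Γ}

theorem mem_goodRingG {f : ℍ → ℂ} : f ∈ goodRingG Γ ↔ GoodG Γ f := Iff.rfl

theorem GoodG.mul {f g : ℍ → ℂ} (hf : GoodG Γ f) (hg : GoodG Γ g) : GoodG Γ (f * g) :=
  (goodRingG Γ).mul_mem hf hg

theorem GoodG.add {f g : ℍ → ℂ} (hf : GoodG Γ f) (hg : GoodG Γ g) : GoodG Γ (f + g) :=
  (goodRingG Γ).add_mem hf hg

theorem GoodG.pow {f : ℍ → ℂ} (hf : GoodG Γ f) (n : ℕ) : GoodG Γ (f ^ n) :=
  (goodRingG Γ).pow_mem hf n

theorem GoodG.const (c : ℂ) : GoodG Γ (fun _ => c) :=
  (goodRingG Γ).algebraMap_mem c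

/-! ### Conjugates and the characteristic polynomial -/

variable (Γ) in
/-- The conjugate `f ∘ gₓ⁻¹` of `f` attached to the coset `x = gₓ Γ`. -/
def conjG (f : ℍ → ℂ) (x : SL(2, ℤ) ⧸ Γ) : ℍ → ℂ :=
  fun τ => f ((Quotient.out x)⁻¹ • τ)

theorem conjG_mk {f : ℍ → ℂ} (hf : ∀ γ ∈ Γ, ∀ τ : ℍ, f (γ • τ) = f τ) (g : SL(2, ℤ))
    (τ : ℍ) : conjG Γ f (g : SL(2, ℤ) ⧸ Γ) τ = f (g⁻¹ • τ) := by
  obtain ⟨h, hh⟩ := QuotientGroup.mk_out_eq_mul Γ g
  unfold conjG
  rw [hh, mul_inv_rev, mul_smul]
  exact hf _ (inv_mem h.2) _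

theorem conjG_smul {f : ℍ → ℂ} (hf : ∀ γ ∈ Γ, ∀ τ : ℍ, f (γ • τ) = f τ) (γ : SL(2, ℤ))
    (x : SL(2, ℤ) ⧸ Γ) (τ : ℍ) : conjG Γ f x (γ • τ) = conjG Γ f (γ⁻¹ • x) τ := by
  induction x using QuotientGroup.induction_on with
  | H g =>
    rw [conjG_mk hf, MulAction.Quotient.smul_mk, conjG_mk hf, smul_eq_mul, mul_inv_rev, inv_inv,
      mul_smul]

theorem conjG_one_coset {f : ℍ → ℂ} (hf : ∀ γ ∈ Γ, ∀ τ : ℍ, f (γ • τ) = f τ) (τ : ℍ) :
    conjG Γ f ((1 : SL(2, ℤ)) : SL(2, ℤ) ⧸ Γ) τ = f τ := by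
  rw [conjG_mk hf]; simp

theorem conjG_mem_niceRing {f : ℍ → ℂ} (hf : GoodG Γ f) (x : SL(2, ℤ) ⧸ Γ) :
    conjG Γ f x ∈ niceRing :=
  ⟨mdifferentiable_comp_smul hf.1 _, hf.2.2 _⟩

variable (Γ) in
/-- The "characteristic polynomial" `∏ₓ (Y - f ∘ gₓ⁻¹)` evaluated at `τ`. -/
def charPolyAtG [Fintype (SL(2, ℤ) ⧸ Γ)] (f : ℍ → ℂ) (τ : ℍ) : ℂ[X] :=
  ∏ x : SL(2, ℤ) ⧸ Γ, (X - C (conjG Γ f x τ))

section charPoly

variable [Fintype (SL(2, ℤ) ⧸ Γ)]

theorem charPolyAtG_monic (f : ℍ → ℂ) (τ : ℍ) : (charPolyAtG Γ f τ).Monic :=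
  Polynomial.monic_prod_of_monic _ _ fun _ _ => Polynomial.monic_X_sub_C _

theorem charPolyAtG_natDegree (f : ℍ → ℂ) (τ : ℍ) :
    (charPolyAtG Γ f τ).natDegree = Fintype.card (SL(2, ℤ) ⧸ Γ) := by
  unfold charPolyAtG
  rw [Polynomial.natDegree_prod_of_monic _ _ fun _ _ => Polynomial.monic_X_sub_C _]
  simp

theorem charPolyAtG_smul {f : ℍ → ℂ} (hf : ∀ γ ∈ Γ, ∀ τ : ℍ, f (γ • τ) = f τ)
    (γ : SL(2, ℤ)) (τ : ℍ) : charPolyAtG Γ f (γ • τ) = charPolyAtG Γ f τ := by
  unfold charPolyAtG
  refine Fintype.prod_equiv (MulAction.toPerm γ⁻¹) _ _ fun x => ?_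
  rw [conjG_smul hf]
  rfl

theorem charPolyAtG_eval_self {f : ℍ → ℂ} (hf : ∀ γ ∈ Γ, ∀ τ : ℍ, f (γ • τ) = f τ)
    (τ : ℍ) : (charPolyAtG Γ f τ).eval (f τ) = 0 := by
  unfold charPolyAtG
  rw [Polynomial.eval_prod]
  refine Finset.prod_eq_zero (Finset.mem_univ ((1 : SL(2, ℤ)) : SL(2, ℤ) ⧸ Γ)) ?_
  rw [conjG_one_coset hf]
  simp

theorem coeff_charPolyAtG_mem_niceRing {f : ℍ → ℂ} (hf : GoodG Γ f) (k : ℕ) :
    (fun τ => (charPolyAtG Γ f τ).coeff k) ∈ niceRing :=
  coeff_prod_mem_niceRing (conjG Γ f) (conjG_mem_niceRing hf) Finset.univ k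

/-- The conjugate product `∏ₓ (Y - f ∘ gₓ⁻¹)` of a good function `f` has coefficients in
`ℂ[j]`. -/
theorem exists_charPolyG_jFun {f : ℍ → ℂ} (hf : GoodG Γ f) :
    ∃ P : (ℂ[X])[X], P.Monic ∧ P.natDegree = Fintype.card (SL(2, ℤ) ⧸ Γ) ∧
      ∀ τ : ℍ, P.map (Polynomial.evalRingHom (H648.jFun τ)) = charPolyAtG Γ f τ := by
  classical
  set n := Fintype.card (SL(2, ℤ) ⧸ Γ) with hn
  have key : ∀ k : ℕ, ∃ p : ℂ[X], ∀ τ, (charPolyAtG Γ f τ).coeff k = p.eval (H648.jFun τ) := by
    intro k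
    have h := coeff_charPolyAtG_mem_niceRing hf k
    exact exists_polynomial_of_expGrowth _ h.1
      (fun γ τ => by rw [charPolyAtG_smul hf.2.1]) h.2
  choose p hp using key
  set Q : (ℂ[X])[X] := ∑ i ∈ Finset.range n, C (p i) * X ^ i with hQ
  have hQdeg : Q.degree < n := by
    rw [Polynomial.degree_lt_iff_coeff_zero]
    intro m hm
    rw [hQ, Polynomial.finsetSum_coeff]
    refine Finset.sum_eq_zero fun i hi => ?_
    rw [Polynomial.coeff_C_mul_X_pow, if_neg]
    have := Finset.mem_range.mp hi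
    omega
  refine ⟨X ^ n + Q, Polynomial.monic_X_pow_add hQdeg, ?_, fun τ => ?_⟩
  · rw [Polynomial.natDegree_add_eq_left_of_degree_lt (by rwa [Polynomial.degree_X_pow]),
      Polynomial.natDegree_X_pow]
  · have h1 := (charPolyAtG_monic (Γ := Γ) f τ).as_sum
    rw [charPolyAtG_natDegree] at h1
    rw [h1, Polynomial.map_add, Polynomial.map_pow, Polynomial.map_X, hQ, Polynomial.map_sum]
    congr 1
    refine Finset.sum_congr rfl fun i _ => ?_
    rw [Polynomial.map_mul, Polynomial.map_pow, Polynomial.map_X, Polynomial.map_C,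
      Polynomial.coe_evalRingHom, ← hp i τ]

theorem exists_charPolyG_jFun_eval_eq_zero {f : ℍ → ℂ} (hf : GoodG Γ f) :
    ∃ P : (ℂ[X])[X], P.Monic ∧ P.natDegree = Fintype.card (SL(2, ℤ) ⧸ Γ) ∧
      ∀ τ : ℍ, (P.map (Polynomial.evalRingHom (H648.jFun τ))).eval (f τ) = 0 := by
  obtain ⟨P, h1, h2, h3⟩ := exists_charPolyG_jFun hf
  exact ⟨P, h1, h2, fun τ => by rw [h3, charPolyAtG_eval_self hf.2.1]⟩

end charPoly

/-! ### `q`-expansions at `i∞` (for `T ∈ Γ`) -/

/-- A `Γ`-invariant function is `1`-periodic if `T ∈ Γ`. -/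
theorem periodic_of_invariantG (hT : ModularGroup.T ∈ Γ) {f : ℍ → ℂ}
    (hf : ∀ γ ∈ Γ, ∀ τ : ℍ, f (γ • τ) = f τ) :
    Function.Periodic (f ∘ ofComplex) (1 : ℝ) := by
  intro w
  by_cases hw : 0 < Complex.im w
  · have hw' : 0 < Complex.im (w + ((1 : ℝ) : ℂ)) := by simpa using hw
    simp only [Function.comp_apply, ofComplex_apply_of_im_pos hw', ofComplex_apply_of_im_pos hw]
    have h := hf _ hT ⟨w, hw⟩
    rw [← h]
    congr 1
    apply UpperHalfPlane.ext
    rw [UpperHalfPlane.modular_T_smul, UpperHalfPlane.coe_vadd]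
    simp [add_comm]
  · have hw0 : Complex.im w ≤ 0 := not_lt.mp hw
    have hw' : Complex.im (w + ((1 : ℝ) : ℂ)) ≤ 0 := by simpa using hw0
    simp only [Function.comp_apply]
    rw [ofComplex_apply_of_im_nonpos hw', ofComplex_apply_of_im_nonpos hw0]

theorem isMerInf_of_goodG (hT : ModularGroup.T ∈ Γ) {f : ℍ → ℂ} (hf : GoodG Γ f) :
    IsMerInf 1 f := by
  obtain ⟨h1, h2, h3⟩ := hf
  refine ⟨h1, ?_, ?_⟩
  · have := periodic_of_invariantG hT h2
    simpa using this
  · have h := h3 1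
    simp only [one_smul] at h
    exact Fermat.Agent.S29.H882.isBounded_mul_qh_pow_of_expGrowth h

theorem hasQExp_of_goodG (hT : ModularGroup.T ∈ Γ) {f : ℍ → ℂ} (hf : GoodG Γ f) :
    HasQExp 1 f (qexpFun 1 f) :=
  HasQExp.of_isMerInf (isMerInf_of_goodG hT hf)

variable (Γ) in
/-- The algebra of `q`-expansions of good functions for `Γ`. -/
def goodQG : Subalgebra ℂ (LaurentSeries ℂ) where
  carrier := {b | ∃ f, GoodG Γ f ∧ HasQExp 1 f b}
  mul_mem' := by
    rintro a b ⟨f, hf, hfa⟩ ⟨g, hg, hgb⟩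
    exact ⟨f * g, hf.mul hg, hfa.mul hgb⟩
  add_mem' := by
    rintro a b ⟨f, hf, hfa⟩ ⟨g, hg, hgb⟩
    exact ⟨f + g, hf.add hg, hfa.add hgb⟩
  algebraMap_mem' := fun c => by
    refine ⟨fun _ => c, GoodG.const c, ?_⟩
    have : algebraMap ℂ (LaurentSeries ℂ) c = HahnSeries.C c := by
      rw [algebraMap_laurentSeries_eq_single]; rfl
    rw [this]
    exact HasQExp.const 1 c

theorem mem_goodQG {b : LaurentSeries ℂ} :
    b ∈ goodQG Γ ↔ ∃ f, GoodG Γ f ∧ HasQExp 1 f b := Iff.rfl

theorem qexpFun_mem_goodQG (hT : ModularGroup.T ∈ Γ) {f : ℍ → ℂ} (hf : GoodG Γ f) :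
    qexpFun 1 f ∈ goodQG Γ :=
  ⟨f, hf, hasQExp_of_goodG hT hf⟩

variable (Γ) in
/-- `j` is good for every `Γ`. -/
theorem JK_mem_goodQG : JK ℂ ∈ goodQG Γ := by
  obtain ⟨f, hf, hq⟩ := Fermat.Agent.S29.H882.JK_mem_goodQ 1
  exact ⟨f, goodG_of_mem_goodRing_one Γ hf, hq⟩

/-- Every `q`-expansion of a good function for `Γ` (of finite index) is a root of a monic
polynomial of degree `[SL(2,ℤ) : Γ]` over `ℂ[j]`. -/
theorem exists_monic_of_mem_goodQG [Finite (SL(2, ℤ) ⧸ Γ)] {b : LaurentSeries ℂ}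
    (hb : b ∈ goodQG Γ) :
    ∃ P : ℂ[X][X], P.Monic ∧ P.natDegree = Nat.card (SL(2, ℤ) ⧸ Γ) ∧
      P.eval₂ (evJ (JK ℂ)) b = 0 := by
  obtain ⟨f, hf, hfb⟩ := hb
  let _inst : Fintype (SL(2, ℤ) ⧸ Γ) := Fintype.ofFinite _
  obtain ⟨P, hPm, hPn, hP⟩ := exists_charPolyG_jFun_eval_eq_zero (Γ := Γ) hf
  refine ⟨P, hPm, ?_, ?_⟩
  · rw [hPn, Nat.card_eq_fintype_card]
  · have h1 := hasQExp_eval₂ P hfb
    rw [h1.eq_zero_iff]
    funext τ
    exact hP τ

theorem algDeg_of_mem_goodQG [Finite (SL(2, ℤ) ⧸ Γ)] {b : LaurentSeries ℂ}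
    (hb : b ∈ goodQG Γ) : AlgDeg ℂ (Nat.card (SL(2, ℤ) ⧸ Γ)) b := by
  obtain ⟨P, hPm, hPn, hP⟩ := exists_monic_of_mem_goodQG hb
  exact ⟨P, hPm.ne_zero, hPn.le, hP⟩

/-- Every element of the FIELD generated by the `q`-expansions of good functions is algebraic of
degree `≤ [SL(2,ℤ) : Γ]` over `ℂ[j]`. -/
theorem algDeg_of_mem_adjoin_goodQG [Finite (SL(2, ℤ) ⧸ Γ)] {x : LaurentSeries ℂ}
    (hx : x ∈ IntermediateField.adjoin ℂ (goodQG Γ : Set (LaurentSeries ℂ))) :
    AlgDeg ℂ (Nat.card (SL(2, ℤ) ⧸ Γ)) x :=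
  Fermat.Agent.S29.H882.algDeg_of_mem_adjoin (goodQG Γ) (JK_mem_goodQG Γ)
    (fun _ hb => algDeg_of_mem_goodQG hb) hx

end Fermat.Agent.S48.H882

end
end
-- ===== PACK-END S48/H882/GoodG.lean

-- ===== PACK-BEGIN S18/Mod/H216/IntE.lean
section



/-!
# S18 / MOD (helper216): the ring `intE` of `E`-rational integral series and its two homs

* `toOm : intE M A E →+* Om M`   (injective, image in `Fc M E`),
* `redE : intE M A E →+* κ((q))` (`κ` = residue field of `A`),
* `mem_Vc_iff'` : `f ∈ Vc ↔ ∃ U₁ U₂ : intE, redE U₂ ≠ 0 ∧ f * toOm U₂ = toOm U₁`,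
* constants `cInt`, the coordinate `jInt`, and division of a series by a constant (`divC`).
-/

set_option autoImplicit false
set_option linter.unusedSectionVars false

noncomputable section

namespace Fermat.Agent.S18.Mod.H216

open ModularCurve AlgebraicCurve HahnSeries Fermat.Agent.S18 Fermat.Agent.S18.Mod

variable (M : ℕ) (A : ValuationSubring Qb) (E : IntermediateField ℚ Qb)

/-- `A((q)) → Q̄((q))`. -/
abbrev inclA : LaurentSeries ↥A →+* LaurentSeries Qb := coeffMap A.subtype

/-- `A((q)) → κ((q))`. -/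
abbrev redA : LaurentSeries ↥A →+* LaurentSeries (IsLocalRing.ResidueField ↥A) :=
  coeffMap (IsLocalRing.residue ↥A)

theorem inclA_injective : Function.Injective (inclA A) := H516.incl_injective A

theorem inclA_mem_bar (U : ↥(intE M A E)) :
    inclA A (U : LaurentSeries ↥A) ∈ modularFunctionFieldBar M := by
  obtain ⟨f, -, hfU⟩ := U.2.2
  rw [← hfU]
  exact f.2

/-- The element of `Ω` defined by an integral series. -/
def toOm : ↥(intE M A E) →+* Om M where
  toFun U := ⟨inclA A (U : LaurentSeries ↥A), inclA_mem_bar M A E U⟩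
  map_one' := Subtype.ext (by simp)
  map_mul' U W := Subtype.ext (by simp)
  map_zero' := Subtype.ext (by simp)
  map_add' U W := Subtype.ext (by simp)

@[simp] theorem coe_toOm (U : ↥(intE M A E)) :
    ((toOm M A E U : Om M) : LaurentSeries Qb) = inclA A (U : LaurentSeries ↥A) := rfl

theorem toOm_injective : Function.Injective (toOm M A E) := by
  intro U W h
  apply Subtype.ext
  apply inclA_injective A
  exact congrArg Subtype.val h

theorem toOm_mem_Fc (U : ↥(intE M A E)) : toOm M A E U ∈ Fc M E := by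
  obtain ⟨f, hf, hfU⟩ := U.2.2
  have : toOm M A E U = f := Subtype.ext hfU.symm
  rw [this]
  exact hf

/-- The reduction of an integral series. -/
def redE : ↥(intE M A E) →+* LaurentSeries (IsLocalRing.ResidueField ↥A) :=
  (redA A).comp (intE M A E).subtype

@[simp] theorem redE_apply (U : ↥(intE M A E)) :
    redE M A E U = redA A (U : LaurentSeries ↥A) := rfl

theorem toOm_ne_zero_of_redE {U : ↥(intE M A E)} (h : redE M A E U ≠ 0) :
    toOm M A E U ≠ 0 := by
  intro h0
  apply h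
  have : U = 0 := toOm_injective M A E (by rw [h0, map_zero])
  rw [this, map_zero]

theorem mem_Vc_iff' {f : Om M} :
    f ∈ Vc M A E ↔ ∃ U₁ U₂ : ↥(intE M A E), redE M A E U₂ ≠ 0 ∧
      f * toOm M A E U₂ = toOm M A E U₁ := by
  constructor
  · rintro ⟨-, U₁, U₂, h₁, h₂, hne, heq⟩
    exact ⟨⟨U₁, (mem_intE M A E).mpr h₁⟩, ⟨U₂, (mem_intE M A E).mpr h₂⟩, hne, Subtype.ext heq⟩
  · rintro ⟨U₁, U₂, hne, heq⟩
    have h2 := toOm_ne_zero_of_redE M A E hne
    have hf : f = toOm M A E U₁ * (toOm M A E U₂)⁻¹ := by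
      rw [← heq, mul_assoc, mul_inv_cancel₀ h2, mul_one]
    refine ⟨?_, U₁, U₂, (mem_intE M A E).mp U₁.2, (mem_intE M A E).mp U₂.2, hne, ?_⟩
    · rw [hf]
      exact mul_mem (toOm_mem_Fc M A E U₁) (inv_mem (toOm_mem_Fc M A E U₂))
    · exact congrArg Subtype.val heq

theorem toOm_mem_Vc (U : ↥(intE M A E)) : toOm M A E U ∈ Vc M A E :=
  (mem_Vc_iff' M A E).mpr ⟨U, 1, by rw [map_one]; exact one_ne_zero, by rw [map_one, mul_one]⟩

theorem inv_toOm_mem_Vc {U : ↥(intE M A E)} (h : redE M A E U ≠ 0) :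
    (toOm M A E U)⁻¹ ∈ Vc M A E :=
  (mem_Vc_iff' M A E).mpr ⟨1, U, h, by
    rw [map_one, inv_mul_cancel₀ (toOm_ne_zero_of_redE M A E h)]⟩

/-! ### Constants -/

theorem mem_Ec_iff {r : Om M} : r ∈ Ec M E ↔ ∃ c : Qb, c ∈ E ∧ algebraMap Qb (Om M) c = r := by
  constructor
  · rintro ⟨c, hc, rfl⟩
    exact ⟨c, hc, rfl⟩
  · rintro ⟨c, hc, rfl⟩
    exact ⟨c, hc, rfl⟩

theorem mem_Rc_iff {r : Om M} :
    r ∈ Rc M A E ↔ ∃ c : Qb, c ∈ A ∧ c ∈ E ∧ algebraMap Qb (Om M) c = r := by
  constructor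
  · rintro ⟨c, ⟨hcA, hcE⟩, rfl⟩
    exact ⟨c, hcA, hcE, rfl⟩
  · rintro ⟨c, hcA, hcE, rfl⟩
    exact ⟨c, ⟨hcA, hcE⟩, rfl⟩

theorem coe_algebraMap_Om (c : Qb) :
    ((algebraMap Qb (Om M) c : Om M) : LaurentSeries Qb) = HahnSeries.C c := by
  show algebraMap Qb (LaurentSeries Qb) c = _
  rw [algebraMap_laurentSeries_eq_single, ← HahnSeries.C_apply]

theorem Ec_le_Fc : Ec M E ≤ Fc M E := fun _ h => Subfield.subset_closure (Or.inl h)

theorem Rc_le_Ec : (Rc M A E : Set (Om M)) ⊆ Ec M E := by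
  intro r hr
  obtain ⟨c, -, hcE, rfl⟩ := (mem_Rc_iff M A E).mp hr
  exact (mem_Ec_iff M E).mpr ⟨c, hcE, rfl⟩

theorem C_mem_intE {c : Qb} (hcA : c ∈ A) (hcE : c ∈ E) :
    (HahnSeries.C (⟨c, hcA⟩ : ↥A) : LaurentSeries ↥A) ∈ intE M A E := by
  rw [mem_intE]
  refine ⟨fun n => ?_, algebraMap Qb (Om M) c, Ec_le_Fc M E ((mem_Ec_iff M E).mpr ⟨c, hcE, rfl⟩), ?_⟩
  · rw [HahnSeries.C_apply, HahnSeries.coeff_single]
    split_ifs
    · exact hcE
    · exact zero_mem _
  · rw [coe_algebraMap_Om, H516.coeffMap_C]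
    rfl

/-- The constant series of `c ∈ A ∩ E`. -/
def cInt {c : Qb} (hcA : c ∈ A) (hcE : c ∈ E) : ↥(intE M A E) :=
  ⟨HahnSeries.C (⟨c, hcA⟩ : ↥A), C_mem_intE M A E hcA hcE⟩

theorem toOm_cInt {c : Qb} (hcA : c ∈ A) (hcE : c ∈ E) :
    toOm M A E (cInt M A E hcA hcE) = algebraMap Qb (Om M) c := by
  apply Subtype.ext
  rw [coe_toOm, coe_algebraMap_Om]
  show coeffMap A.subtype (HahnSeries.C (⟨c, hcA⟩ : ↥A)) = _
  rw [H516.coeffMap_C]
  rfl

theorem redE_cInt {c : Qb} (hcA : c ∈ A) (hcE : c ∈ E) :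
    redE M A E (cInt M A E hcA hcE) = HahnSeries.C (IsLocalRing.residue ↥A ⟨c, hcA⟩) := by
  show coeffMap (IsLocalRing.residue ↥A) (HahnSeries.C (⟨c, hcA⟩ : ↥A)) = _
  rw [H516.coeffMap_C]

/-! ### The coordinate `j` -/

theorem coe_jOm : ((jOm M : Om M) : LaurentSeries Qb) = jqModC Qb := by
  show coeffEmb Qb (qExpand ℚ 1 jq) = _
  rw [qExpand_one_apply, H516.coeffEmb_jq]

theorem jOm_mem_Fc : jOm M ∈ Fc M E :=
  Subfield.subset_closure (Or.inr ⟨1, inferInstance, one_dvd M, rfl⟩)

theorem jqModC_mem_intE : (jqModC ↥A : LaurentSeries ↥A) ∈ intE M A E := by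
  rw [mem_intE]
  refine ⟨fun n => ?_, jOm M, jOm_mem_Fc M E, ?_⟩
  · have h : ((jqModC ↥A).coeff n : Qb) = (((jqModC ℤ).coeff n : ℤ) : Qb) := by
      have h1 : jqModC ↥A = coeffMap (Int.castRingHom ↥A) (jqModC ℤ) := (coeffMap_jqModC (Int.castRingHom ↥A)).symm
      rw [h1, coeffMap_coeff]
      simp
    rw [h]
    exact intCast_mem E _
  · rw [coe_jOm, coeffMap_jqModC]

/-- `j` as an integral series. -/
def jInt : ↥(intE M A E) := ⟨jqModC ↥A, jqModC_mem_intE M A E⟩

theorem toOm_jInt : toOm M A E (jInt M A E) = jOm M := by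
  apply Subtype.ext
  rw [coe_toOm, coe_jOm]
  show coeffMap A.subtype (jqModC ↥A) = _
  rw [coeffMap_jqModC]

theorem redE_jInt : redE M A E (jInt M A E) = jqModC (IsLocalRing.ResidueField ↥A) := by
  show coeffMap (IsLocalRing.residue ↥A) (jqModC ↥A) = _
  rw [coeffMap_jqModC]

theorem jOm_mem_Vc : jOm M ∈ Vc M A E := by
  rw [← toOm_jInt M A E]
  exact toOm_mem_Vc M A E _

end Fermat.Agent.S18.Mod.H216

end
end
-- ===== PACK-END S18/Mod/H216/IntE.lean

-- ===== PACK-BEGIN S18/Mod/H216/Eval.lean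
section



/-!
# S18 / MOD (helper216): polynomials in `j` over `A ∩ E` — the evaluation dictionary

`S0 A E = A ∩ E ⊆ Q̄`,  `eRc : S0 ≃+* Rc M A E`,  `resS : S0 →+* κ`,
`Uev : (S0)[X] →+* intE M A E`, `X ↦ j`, with

* `toOm_Uev` : `toOm (Uev p) = evR (Rc M A E) (jOm M) (p.map eRc)`   (value in `Ω`),
* `redE_Uev` : `redE (Uev p) = evJ (p.map resS)`                      (reduction),
* `redE_Uev_ne_zero_iff` : `redE (Uev p) ≠ 0 ↔ p.map resS ≠ 0`.
-/

set_option autoImplicit false
set_option linter.unusedSectionVars false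

noncomputable section

namespace Fermat.Agent.S18.Mod.H216

open ModularCurve AlgebraicCurve HahnSeries Polynomial Fermat.Agent.S18 Fermat.Agent.S18.Mod

variable (M : ℕ) (A : ValuationSubring Qb) (E : IntermediateField ℚ Qb)

/-- `A ∩ E` as a subring of `Q̄`. -/
abbrev S0 : Subring Qb := A.toSubring ⊓ E.toSubfield.toSubring

theorem Rc_eq_map : Rc M A E = (S0 A E).map (algebraMap Qb (Om M)) := rfl

/-- `A ∩ E ≃ Rc`. -/
def eRc : ↥(S0 A E) ≃+* ↥(Rc M A E) :=
  Subring.equivMapOfInjective (S0 A E) (algebraMap Qb (Om M)) (algebraMap Qb (Om M)).injective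

@[simp] theorem coe_eRc (c : ↥(S0 A E)) :
    ((eRc M A E c : ↥(Rc M A E)) : Om M) = algebraMap Qb (Om M) (c : Qb) := rfl

/-- `A ∩ E → A`. -/
def s0ToA : ↥(S0 A E) →+* ↥A := Subring.inclusion (inf_le_left : S0 A E ≤ A.toSubring)

@[simp] theorem coe_s0ToA (c : ↥(S0 A E)) : ((s0ToA A E c : ↥A) : Qb) = (c : Qb) := rfl

/-- The residue map on `A ∩ E`. -/
def resS : ↥(S0 A E) →+* IsLocalRing.ResidueField ↥A :=
  (IsLocalRing.residue ↥A).comp (s0ToA A E)

/-- Constant series. -/
def cS : ↥(S0 A E) →+* ↥(intE M A E) where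
  toFun c := cInt M A E c.2.1 c.2.2
  map_one' := Subtype.ext (by simp [cInt]; rfl)
  map_mul' a b := Subtype.ext (by
    show HahnSeries.C (⟨(a : Qb) * (b : Qb), _⟩ : ↥A) = HahnSeries.C _ * HahnSeries.C _
    rw [← map_mul]
    rfl)
  map_zero' := Subtype.ext (by simp [cInt]; rfl)
  map_add' a b := Subtype.ext (by
    show HahnSeries.C (⟨(a : Qb) + (b : Qb), _⟩ : ↥A) = HahnSeries.C _ + HahnSeries.C _
    rw [← map_add]
    rfl)

theorem toOm_cS (c : ↥(S0 A E)) : toOm M A E (cS M A E c) = algebraMap Qb (Om M) (c : Qb) :=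
  toOm_cInt M A E c.2.1 c.2.2

theorem redE_cS (c : ↥(S0 A E)) : redE M A E (cS M A E c) = HahnSeries.C (resS A E c) :=
  redE_cInt M A E c.2.1 c.2.2

/-- Evaluation at `j` of polynomials over `A ∩ E`, as integral series. -/
def Uev : (↥(S0 A E))[X] →+* ↥(intE M A E) := Polynomial.eval₂RingHom (cS M A E) (jInt M A E)

theorem toOm_Uev (p : (↥(S0 A E))[X]) :
    toOm M A E (Uev M A E p) =
      evR (Rc M A E) (jOm M) (p.map (eRc M A E : ↥(S0 A E) →+* ↥(Rc M A E))) := by
  have h : (toOm M A E).comp (Uev M A E) =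
      (evR (Rc M A E) (jOm M)).comp
        (Polynomial.mapRingHom (eRc M A E : ↥(S0 A E) →+* ↥(Rc M A E))) := by
    apply Polynomial.ringHom_ext
    · intro c
      simp only [RingHom.comp_apply, Uev, Polynomial.coe_eval₂RingHom, Polynomial.eval₂_C,
        Polynomial.coe_mapRingHom, Polynomial.map_C, evR_C]
      rw [toOm_cS]
      rfl
    · simp only [RingHom.comp_apply, Uev, Polynomial.coe_eval₂RingHom, Polynomial.eval₂_X,
        Polynomial.coe_mapRingHom, Polynomial.map_X, evR_X]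
      exact toOm_jInt M A E
  exact RingHom.congr_fun h p

theorem redE_Uev (p : (↥(S0 A E))[X]) :
    redE M A E (Uev M A E p) = H516.evJ (p.map (resS A E)) := by
  have h : (redE M A E).comp (Uev M A E) =
      (Polynomial.eval₂RingHom (HahnSeries.C (Γ := ℤ) (R := IsLocalRing.ResidueField ↥A))
        (jqModC (IsLocalRing.ResidueField ↥A))).comp (Polynomial.mapRingHom (resS A E)) := by
    apply Polynomial.ringHom_ext
    · intro c
      simp only [RingHom.comp_apply, Uev, Polynomial.coe_eval₂RingHom, Polynomial.eval₂_C,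
        Polynomial.coe_mapRingHom, Polynomial.map_C]
      exact redE_cS M A E c
    · simp only [RingHom.comp_apply, Uev, Polynomial.coe_eval₂RingHom, Polynomial.eval₂_X,
        Polynomial.coe_mapRingHom, Polynomial.map_X]
      exact redE_jInt M A E
  exact RingHom.congr_fun h p

theorem redE_Uev_eq_zero_iff (p : (↥(S0 A E))[X]) :
    redE M A E (Uev M A E p) = 0 ↔ p.map (resS A E) = 0 := by
  rw [redE_Uev, H516.evJ_eq_zero_iff]

/-- Every polynomial over `Rc` comes from a polynomial over `A ∩ E`. -/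
theorem evR_eq_toOm_Uev (p : (↥(Rc M A E))[X]) :
    evR (Rc M A E) (jOm M) p =
      toOm M A E (Uev M A E (p.map ((eRc M A E).symm : ↥(Rc M A E) →+* ↥(S0 A E)))) := by
  rw [toOm_Uev, Polynomial.map_map]
  have : ((eRc M A E : ↥(S0 A E) →+* ↥(Rc M A E)).comp
      ((eRc M A E).symm : ↥(Rc M A E) →+* ↥(S0 A E))) = RingHom.id _ := by
    ext c
    simp
  rw [this, Polynomial.map_id]

end Fermat.Agent.S18.Mod.H216

end
end
-- ===== PACK-END S18/Mod/H216/Eval.lean

-- ===== PACK-BEGIN S18/Mod/H216/PartVj.lean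
section


/-!
# S18 / MOD (helper216): G-V for the coordinate `j` — the fields that need no basis

For a uniformiser `w` (`PartR (Ec M E) (Rc M A E) w`):
`R_le_V`, `w_inv_not_mem_V`, `V_gen`, `gauss` for `V = Vc M A E`, `x = jOm M`.
(`V_total` needs the S28 basis: see `Basis.lean`.)
-/

set_option autoImplicit false
set_option linter.unusedSectionVars false

noncomputable section

namespace Fermat.Agent.S18.Mod.H216

open ModularCurve AlgebraicCurve HahnSeries Polynomial Fermat.Agent.S18 Fermat.Agent.S18.Mod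

variable (M : ℕ) (A : ValuationSubring Qb) (E : IntermediateField ℚ Qb)

/-! ### Units and non-units of `A` -/

theorem residue_eq_zero_of_inv_not_mem {c : Qb} (hc : c ∈ A) (hinv : c⁻¹ ∉ A) :
    IsLocalRing.residue ↥A ⟨c, hc⟩ = 0 := by
  rw [IsLocalRing.residue_eq_zero_iff, IsLocalRing.mem_maximalIdeal, mem_nonunits_iff]
  rintro ⟨u, hu⟩
  apply hinv
  have h1 : (⟨c, hc⟩ : ↥A) * ((u⁻¹ : (↥A)ˣ) : ↥A) = 1 := by
    rw [← hu]
    exact u.mul_inv
  have h2 : c * ((((u⁻¹ : (↥A)ˣ) : ↥A) : Qb)) = 1 := congrArg Subtype.val h1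
  have h3 : c⁻¹ = ((((u⁻¹ : (↥A)ˣ) : ↥A) : Qb)) := inv_eq_of_mul_eq_one_right h2
  rw [h3]
  exact SetLike.coe_mem _

theorem residue_ne_zero_of_inv_mem {c : Qb} (hc : c ∈ A) (hc0 : c ≠ 0) (hinv : c⁻¹ ∈ A) :
    IsLocalRing.residue ↥A ⟨c, hc⟩ ≠ 0 := by
  rw [Ne, IsLocalRing.residue_eq_zero_iff, IsLocalRing.mem_maximalIdeal, mem_nonunits_iff, not_not]
  exact IsUnit.of_mul_eq_one (⟨c⁻¹, hinv⟩ : ↥A) (Subtype.ext (mul_inv_cancel₀ hc0))

theorem inv_not_mem_of_residue_eq_zero {c : Qb} (hc : c ∈ A) (hc0 : c ≠ 0)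
    (h : IsLocalRing.residue ↥A ⟨c, hc⟩ = 0) : c⁻¹ ∉ A :=
  fun hinv => residue_ne_zero_of_inv_mem A hc hc0 hinv h

/-! ### Constants -/

theorem algebraMap_mem_Rc_iff {c : Qb} : algebraMap Qb (Om M) c ∈ Rc M A E ↔ c ∈ A ∧ c ∈ E := by
  constructor
  · intro h
    obtain ⟨c', hA, hE, hcc⟩ := (mem_Rc_iff M A E).mp h
    have : c' = c := (algebraMap Qb (Om M)).injective hcc
    exact this ▸ ⟨hA, hE⟩
  · rintro ⟨hA, hE⟩
    exact (mem_Rc_iff M A E).mpr ⟨c, hA, hE, rfl⟩

/-- The uniformiser data extracted from `PartR`. -/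
theorem exists_unif {w : Om M} (hR : PartR (Ec M E) (Rc M A E) w) :
    ∃ c : Qb, c ∈ A ∧ c ∈ E ∧ c ≠ 0 ∧ c⁻¹ ∉ A ∧ algebraMap Qb (Om M) c = w := by
  obtain ⟨c, hA, hE, rfl⟩ := (mem_Rc_iff M A E).mp hR.w_mem
  refine ⟨c, hA, hE, ?_, ?_, rfl⟩
  · intro h0
    apply hR.w_ne_zero
    rw [h0, map_zero]
  · intro hinv
    apply hR.w_inv_not_mem
    rw [← map_inv₀]
    exact (algebraMap_mem_Rc_iff M A E).mpr ⟨hinv, inv_mem hE⟩

theorem R_le_V : Rc M A E ≤ Vc M A E := by
  intro r hr
  obtain ⟨c, hA, hE, rfl⟩ := (mem_Rc_iff M A E).mp hr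
  rw [← toOm_cInt M A E hA hE]
  exact toOm_mem_Vc M A E _

theorem w_inv_not_mem_V {w : Om M} (hR : PartR (Ec M E) (Rc M A E) w) : w⁻¹ ∉ Vc M A E := by
  obtain ⟨c, hA, hE, hc0, hcinv, rfl⟩ := exists_unif M A E hR
  intro h
  obtain ⟨U₁, U₂, hne, heq⟩ := (mem_Vc_iff' M A E).mp h
  have hw0 : algebraMap Qb (Om M) c ≠ 0 := hR.w_ne_zero
  have h1 : toOm M A E U₂ = toOm M A E (cInt M A E hA hE * U₁) := by
    rw [map_mul, toOm_cInt, ← heq, ← mul_assoc, mul_inv_cancel₀ hw0, one_mul]
  have h2 : U₂ = cInt M A E hA hE * U₁ := toOm_injective M A E h1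
  apply hne
  rw [h2, map_mul, redE_cInt, residue_eq_zero_of_inv_not_mem A hA hcinv, map_zero, zero_mul]

/-! ### Division of a series by the uniformiser -/

open Classical in
/-- Coefficientwise division by `c` (junk value `0` when the quotient is not in `A`). -/
def divC (c : Qb) : ZeroHom ↥A ↥A where
  toFun a := if h : (a : Qb) * c⁻¹ ∈ A then ⟨(a : Qb) * c⁻¹, h⟩ else 0
  map_zero' := by
    have h : ((0 : ↥A) : Qb) * c⁻¹ ∈ A := by simp
    rw [dif_pos h]
    apply Subtype.ext
    simp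

open Classical in
theorem divC_apply {c : Qb} {a : ↥A} (h : (a : Qb) * c⁻¹ ∈ A) :
    ((divC A c a : ↥A) : Qb) = (a : Qb) * c⁻¹ := by
  show ((if h : (a : Qb) * c⁻¹ ∈ A then (⟨(a : Qb) * c⁻¹, h⟩ : ↥A) else 0 : ↥A) : Qb) = _
  rw [dif_pos h]

theorem algebraMap_LS_eq_C (c : Qb) :
    algebraMap Qb (LaurentSeries Qb) c = HahnSeries.C c := by
  rw [algebraMap_laurentSeries_eq_single, ← HahnSeries.C_apply]

/-- A series with zero reduction is divisible by the uniformiser inside `intE`. -/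
theorem exists_eq_unif_mul {w : Om M} (hR : PartR (Ec M E) (Rc M A E) w)
    {U : ↥(intE M A E)} (hU : redE M A E U = 0) :
    ∃ U' : ↥(intE M A E), toOm M A E U = w * toOm M A E U' := by
  obtain ⟨c, hA, hE, hc0, hcinv, rfl⟩ := exists_unif M A E hR
  have hUE : ∀ n, (((U : LaurentSeries ↥A).coeff n : ↥A) : Qb) ∈ E :=
    ((mem_intE M A E).mp U.2).1
  have hres : ∀ n, IsLocalRing.residue ↥A ((U : LaurentSeries ↥A).coeff n) = 0 := by
    intro n
    have := congrArg (fun z : LaurentSeries (IsLocalRing.ResidueField ↥A) => z.coeff n) hU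
    simpa using this
  have hdiv : ∀ n, (((U : LaurentSeries ↥A).coeff n : ↥A) : Qb) * c⁻¹ ∈ A := by
    intro n
    set a := (U : LaurentSeries ↥A).coeff n with ha
    by_cases ha0 : (a : Qb) = 0
    · rw [ha0, zero_mul]
      exact zero_mem _
    have hr : algebraMap Qb (Om M) (a : Qb) ∈ Rc M A E :=
      (algebraMap_mem_Rc_iff M A E).mpr ⟨a.2, hUE n⟩
    have hrinv : (algebraMap Qb (Om M) (a : Qb))⁻¹ ∉ Rc M A E := by
      rw [← map_inv₀, algebraMap_mem_Rc_iff]
      rintro ⟨h, -⟩
      exact inv_not_mem_of_residue_eq_zero A a.2 ha0 (hres n) h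
    have := hR.w_gen _ hr hrinv
    rw [← map_inv₀, ← map_mul, algebraMap_mem_Rc_iff] at this
    exact this.1
  set U' : LaurentSeries ↥A := (U : LaurentSeries ↥A).map (divC A c) with hU'
  have hcoeff : ∀ n, ((U'.coeff n : ↥A) : Qb) = (((U : LaurentSeries ↥A).coeff n : ↥A) : Qb) * c⁻¹ :=
    fun n => divC_apply A (hdiv n)
  have hmul : inclA A (U : LaurentSeries ↥A) = HahnSeries.C c * inclA A U' := by
    ext n
    rw [HahnSeries.C_mul_eq_smul, HahnSeries.coeff_smul]
    show (((U : LaurentSeries ↥A).coeff n : ↥A) : Qb) = c • ((U'.coeff n : ↥A) : Qb)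
    rw [hcoeff, smul_eq_mul]
    field_simp
  have hw0 : algebraMap Qb (Om M) c ≠ 0 := hR.w_ne_zero
  have hincl : inclA A U' =
      (((algebraMap Qb (Om M) c)⁻¹ * toOm M A E U : Om M) : LaurentSeries Qb) := by
    have hC0 : (HahnSeries.C c : LaurentSeries Qb) ≠ 0 := by
      rw [← coe_algebraMap_Om M c]
      exact fun h => hw0 (Subtype.ext h)
    push_cast
    rw [algebraMap_LS_eq_C, coe_toOm, hmul, ← mul_assoc, inv_mul_cancel₀ hC0, one_mul]
  have hmem : U' ∈ intE M A E := by
    rw [mem_intE]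
    refine ⟨fun n => ?_, (algebraMap Qb (Om M) c)⁻¹ * toOm M A E U, ?_, hincl.symm⟩
    · rw [hcoeff]
      exact mul_mem (hUE n) (inv_mem hE)
    · exact mul_mem (inv_mem (Ec_le_Fc M E ((mem_Ec_iff M E).mpr ⟨c, hE, rfl⟩)))
        (toOm_mem_Fc M A E U)
  refine ⟨⟨U', hmem⟩, ?_⟩
  apply Subtype.ext
  push_cast
  rw [algebraMap_LS_eq_C, coe_toOm, coe_toOm]
  exact hmul

theorem V_gen {w : Om M} (hR : PartR (Ec M E) (Rc M A E) w) :
    ∀ f ∈ Vc M A E, f⁻¹ ∉ Vc M A E → f * w⁻¹ ∈ Vc M A E := by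
  intro f hf hfinv
  obtain ⟨U₁, U₂, hne, heq⟩ := (mem_Vc_iff' M A E).mp hf
  have hw0 := hR.w_ne_zero
  have h1 : redE M A E U₁ = 0 := by
    by_contra h1
    apply hfinv
    have hU1 := toOm_ne_zero_of_redE M A E h1
    have hf0 : f ≠ 0 := by
      intro h0
      rw [h0, zero_mul] at heq
      exact hU1 heq.symm
    refine (mem_Vc_iff' M A E).mpr ⟨U₂, U₁, h1, ?_⟩
    rw [← heq, ← mul_assoc, inv_mul_cancel₀ hf0, one_mul]
  obtain ⟨U', hU'⟩ := exists_eq_unif_mul M A E hR h1
  refine (mem_Vc_iff' M A E).mpr ⟨U', U₂, hne, ?_⟩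
  rw [mul_right_comm, heq, hU', mul_comm w, mul_assoc, mul_inv_cancel₀ hw0, mul_one]

/-! ### The Gauss property -/

theorem gauss_j (P : Polynomial (Om M)) (hP : ∀ i, P.coeff i ∈ Rc M A E)
    (hu : ∃ i, P.coeff i ≠ 0 ∧ (P.coeff i)⁻¹ ∈ Rc M A E) :
    (P.eval (jOm M))⁻¹ ∈ Vc M A E := by
  have hlifts : P ∈ Polynomial.lifts (Rc M A E).subtype :=
    (Polynomial.lifts_iff_coeff_lifts P).mpr fun i => ⟨⟨P.coeff i, hP i⟩, rfl⟩
  obtain ⟨p, hp⟩ := (Polynomial.mem_lifts P).mp hlifts
  have hev : P.eval (jOm M) = evR (Rc M A E) (jOm M) p := by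
    rw [← hp, evR_apply, Polynomial.eval_map]
  rw [hev, evR_eq_toOm_Uev]
  apply inv_toOm_mem_Vc
  rw [Ne, redE_Uev_eq_zero_iff]
  obtain ⟨i, hi0, hiinv⟩ := hu
  intro h0
  have h1 := congrArg (fun q => q.coeff i) h0
  simp only [Polynomial.coeff_map, Polynomial.coeff_zero] at h1
  set c := (eRc M A E).symm (p.coeff i) with hc
  have hcP : algebraMap Qb (Om M) (c : Qb) = P.coeff i := by
    have h2 : ((eRc M A E c : ↥(Rc M A E)) : Om M) = ((p.coeff i : ↥(Rc M A E)) : Om M) := by
      rw [hc, RingEquiv.apply_symm_apply]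
    rw [coe_eRc] at h2
    rw [h2, ← hp, Polynomial.coeff_map]
    rfl
  have hc0 : (c : Qb) ≠ 0 := by
    intro h
    apply hi0
    rw [← hcP, h, map_zero]
  have hcinv : (c : Qb)⁻¹ ∈ A := by
    rw [← hcP, ← map_inv₀, algebraMap_mem_Rc_iff] at hiinv
    exact hiinv.1
  exact residue_ne_zero_of_inv_mem A c.2.1 hc0 hcinv h1

end Fermat.Agent.S18.Mod.H216

end
end
-- ===== PACK-END S18/Mod/H216/PartVj.lean

-- ===== PACK-BEGIN S18/Mod/H216/Basis.lean
section


/-!
# S18 / MOD (helper216): the S28 basis inside `Fc M E`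

* `exists_Fc_of_full` (T0): `coeffEmb Q̄ z`, `z ∈ F_ℚ`, is the value of an element of `Fc M E`.
* `exists_FE_of_Fc` (T1): every `f ∈ Fc M E` is the coefficientwise image of an element of
  `F_E := laurentBaseChange E (modularFunctionFieldFull M) ⊆ E((q))`.
* `yInt` : the S28 monomials as elements of `intE M A E`.
* `exists_scaled_relation` (B2): `q(j) f = ∑ pᵢ(j) yᵢ` with `q, pᵢ ∈ (A ∩ E)[X]`, jointly primitive.
* `redE_sum_eq_zero` (B3): independence of the reductions over `κ[j̄]`.
-/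

set_option autoImplicit false
set_option linter.unusedSectionVars false

noncomputable section

namespace Fermat.Agent.S18.Mod.H216

open ModularCurve AlgebraicCurve HahnSeries Polynomial Fermat.Agent.S18 Fermat.Agent.S18.Mod
open Fermat.Agent.S28

variable (M : ℕ) (A : ValuationSubring Qb) (E : IntermediateField ℚ Qb)

/-! ### T0, T1 -/

theorem coe_jd (d : ℕ) [NeZero d] (hd : d ∣ M) :
    ((jd M d hd : Om M) : LaurentSeries Qb) = coeffEmb Qb (qExpand ℚ d jq) := rfl

theorem jd_mem_Fc (d : ℕ) [NeZero d] (hd : d ∣ M) : jd M d hd ∈ Fc M E :=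
  Subfield.subset_closure (Or.inr ⟨d, inferInstance, hd, rfl⟩)

theorem coeffEmb_algebraMap (r : ℚ) :
    coeffEmb Qb (algebraMap ℚ (LaurentSeries ℚ) r) = HahnSeries.C (algebraMap ℚ Qb r) := by
  rw [algebraMap_laurentSeries_eq_single, coeffEmb, coeffMap_single, ← HahnSeries.C_apply]

/-- **T0.** -/
theorem exists_Fc_of_full {z : LaurentSeries ℚ} (hz : z ∈ modularFunctionFieldFull M) :
    ∃ f ∈ Fc M E, (f : LaurentSeries Qb) = coeffEmb Qb z := by
  have hle : Subfield.closure (Set.range (algebraMap ℚ (LaurentSeries ℚ)) ∪ divisorExpansions M) ≤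
      Subfield.comap (coeffEmb Qb) ((Fc M E).map (omVal M)) := by
    rw [Subfield.closure_le]
    rintro x (⟨r, rfl⟩ | ⟨d, hd, hdM, rfl⟩)
    · refine ⟨algebraMap Qb (Om M) (algebraMap ℚ Qb r), ?_, ?_⟩
      · exact Ec_le_Fc M E ((mem_Ec_iff M E).mpr ⟨_, E.algebraMap_mem r, rfl⟩)
      · rw [omVal_apply, coe_algebraMap_Om, coeffEmb_algebraMap]
    · haveI := hd
      exact ⟨jd M d hdM, jd_mem_Fc M E d hdM, rfl⟩
  obtain ⟨f, hf, hfz⟩ := hle hz
  exact ⟨f, hf, hfz⟩

/-- `E((q)) → Q̄((q))`. -/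
abbrev iotaE : LaurentSeries ↥E →+* LaurentSeries Qb := coeffMap (algebraMap ↥E Qb)

theorem iotaE_coeffEmb (z : LaurentSeries ℚ) : iotaE E (coeffEmb ↥E z) = coeffEmb Qb z := by
  rw [coeffEmb, coeffEmb, coeffMap_coeffMap]
  exact coeffMap_congr (RingHom.ext_rat _ _) z

theorem iotaE_algebraMap (c : ↥E) :
    iotaE E (algebraMap ↥E (LaurentSeries ↥E) c) = HahnSeries.C (c : Qb) := by
  rw [algebraMap_laurentSeries_eq_single, coeffMap_single, ← HahnSeries.C_apply]
  rfl

/-- **T1.** -/
theorem exists_FE_of_Fc {f : Om M} (hf : f ∈ Fc M E) :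
    ∃ g ∈ laurentBaseChange ↥E (modularFunctionFieldFull M), iotaE E g = (f : LaurentSeries Qb) := by
  have hle : Fc M E ≤ Subfield.comap (omVal M)
      ((laurentBaseChange ↥E (modularFunctionFieldFull M)).toSubfield.map (iotaE E)) := by
    rw [Fc, Subfield.closure_le]
    rintro x (hx | ⟨d, hd, hdM, rfl⟩)
    · obtain ⟨c, hc, rfl⟩ := (mem_Ec_iff M E).mp hx
      refine ⟨algebraMap ↥E (LaurentSeries ↥E) ⟨c, hc⟩, ?_, ?_⟩
      · exact (laurentBaseChange ↥E (modularFunctionFieldFull M)).algebraMap_mem _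
      · rw [omVal_apply, coe_algebraMap_Om]
        exact iotaE_algebraMap E ⟨c, hc⟩
    · haveI := hd
      refine ⟨coeffEmb ↥E (qExpand ℚ d jq), ?_, ?_⟩
      · exact coeffEmb_mem_laurentBaseChange ↥E (jqd_mem_full M hdM)
      · rw [omVal_apply, coe_jd]
        exact iotaE_coeffEmb E _
  obtain ⟨g, hg, hgf⟩ := hle hf
  exact ⟨g, hg, hgf⟩

/-! ### The monomials -/

variable {M} {n : ℕ} {y : Fin n → LaurentSeries ℤ}

theorem coeffMap_intCast_mem_intE [NeZero M] (hS : H516.SpansQ M y) (i : Fin n) :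
    coeffMap (Int.castRingHom ↥A) (y i) ∈ intE M A E := by
  rw [mem_intE]
  obtain ⟨f, hf, hfz⟩ := exists_Fc_of_full M E (H516.yQ_mem_full hS i)
  refine ⟨fun k => ?_, f, hf, ?_⟩
  · rw [coeffMap_coeff]
    simp only [eq_intCast, SubringClass.coe_intCast]
    exact intCast_mem E _
  · rw [hfz, ← H516.coeffMap_intCast_eq_coeffEmb, coeffMap_coeffMap]
    exact coeffMap_congr (RingHom.ext_int _ _) _

/-- The S28 monomials as integral series. -/
def yInt [NeZero M] (hS : H516.SpansQ M y) (i : Fin n) : ↥(intE M A E) :=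
  ⟨coeffMap (Int.castRingHom ↥A) (y i), coeffMap_intCast_mem_intE A E hS i⟩

theorem coe_toOm_yInt [NeZero M] (hS : H516.SpansQ M y) (i : Fin n) :
    ((toOm M A E (yInt A E hS i) : Om M) : LaurentSeries Qb) =
      coeffMap (Int.castRingHom Qb) (y i) := by
  rw [coe_toOm]
  show coeffMap A.subtype (coeffMap (Int.castRingHom ↥A) (y i)) = _
  rw [coeffMap_coeffMap]
  exact coeffMap_congr (RingHom.ext_int _ _) _

theorem redE_yInt [NeZero M] (hS : H516.SpansQ M y) (i : Fin n) :
    redE M A E (yInt A E hS i) =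
      coeffMap (Int.castRingHom (IsLocalRing.ResidueField ↥A)) (y i) := by
  show coeffMap (IsLocalRing.residue ↥A) (coeffMap (Int.castRingHom ↥A) (y i)) = _
  rw [coeffMap_coeffMap]
  exact coeffMap_congr (RingHom.ext_int _ _) _

/-- **(B3)** independence of the reductions over `κ[j̄]`. -/
theorem redE_sum_eq_zero [NeZero M] (hS : H516.SpansQ M y)
    (hli : LinearIndependent (jField (IsLocalRing.ResidueField ↥A))
      (fun i => coeffMap (Int.castRingHom (IsLocalRing.ResidueField ↥A)) (y i)))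
    (p : Fin n → (↥(S0 A E))[X])
    (h : redE M A E (∑ i, Uev M A E (p i) * yInt A E hS i) = 0) :
    ∀ i, (p i).map (resS A E) = 0 := by
  rw [map_sum] at h
  simp only [map_mul, redE_Uev, redE_yInt] at h
  have h2 := Fintype.linearIndependent_iff.mp hli
    (fun i => (⟨H516.evJ ((p i).map (resS A E)), H516.evJ_mem_jField _ _⟩ :
      jField (IsLocalRing.ResidueField ↥A))) h
  intro i
  have h3 := congrArg Subtype.val (h2 i)
  exact (H516.evJ_eq_zero_iff _).mp h3

/-! ### (B2) the scaled relation -/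

variable (M) in
theorem coe_toOm_Uev (p : (↥(S0 A E))[X]) :
    ((toOm M A E (Uev M A E p) : Om M) : LaurentSeries Qb) =
      H516.evJ (p.map (S0 A E).subtype) := by
  have h : (omVal M).comp ((toOm M A E).comp (Uev M A E)) =
      (Polynomial.eval₂RingHom (HahnSeries.C (Γ := ℤ) (R := Qb)) (jqModC Qb)).comp
        (Polynomial.mapRingHom (S0 A E).subtype) := by
    apply Polynomial.ringHom_ext
    · intro c
      simp only [RingHom.comp_apply, Uev, Polynomial.coe_eval₂RingHom, Polynomial.eval₂_C,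
        Polynomial.coe_mapRingHom, Polynomial.map_C, omVal_apply]
      rw [toOm_cS, coe_algebraMap_Om]
      rfl
    · simp only [RingHom.comp_apply, Uev, Polynomial.coe_eval₂RingHom, Polynomial.eval₂_X,
        Polynomial.coe_mapRingHom, Polynomial.map_X, omVal_apply]
      rw [toOm_jInt, coe_jOm]
  exact RingHom.congr_fun h p

/-- `A ∩ E` as a valuation subring of `E`. -/
def RE : ValuationSubring ↥E := A.comap (algebraMap ↥E Qb)

/-- `RE → S0`. -/
def reToS0 : ↥(RE A E) →+* ↥(S0 A E) where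
  toFun c := ⟨algebraMap ↥E Qb (c : ↥E), c.2, (c : ↥E).2⟩
  map_one' := Subtype.ext (by simp)
  map_mul' a b := Subtype.ext (by simp)
  map_zero' := Subtype.ext (by simp)
  map_add' a b := Subtype.ext (by simp)

theorem subtype_comp_reToS0 :
    (S0 A E).subtype.comp (reToS0 A E) = (algebraMap ↥E Qb).comp (RE A E).subtype := rfl

variable (M) in
theorem coe_toOm_Uev_map (P : (↥(RE A E))[X]) :
    ((toOm M A E (Uev M A E (P.map (reToS0 A E))) : Om M) : LaurentSeries Qb) =
      iotaE E (H516.evJ (P.map (RE A E).subtype)) := by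
  rw [coe_toOm_Uev, H516.coeffMap_evJ, Polynomial.map_map, Polynomial.map_map,
    subtype_comp_reToS0]

/-- **(B2)** every `f ∈ Fc M E` satisfies a jointly primitive relation
`q(j) f = ∑ pᵢ(j) yᵢ` over `A ∩ E`. -/
theorem exists_scaled_relation [NeZero M] (hS : H516.SpansQ M y) {f : Om M}
    (hf : f ∈ Fc M E) :
    ∃ (q : (↥(S0 A E))[X]) (p : Fin n → (↥(S0 A E))[X]),
      (q.map (resS A E) ≠ 0 ∨ ∃ i, (p i).map (resS A E) ≠ 0) ∧
      toOm M A E (Uev M A E q) * f =
        toOm M A E (∑ i, Uev M A E (p i) * yInt A E hS i) := by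
  classical
  obtain ⟨g, hg, hgf⟩ := exists_FE_of_Fc M E hf
  have hgs := (H516.mem_baseChange_iff_mem_spanL ↥E hS).mp hg
  obtain ⟨G, H, hG, hrel⟩ :=
    H516.exists_cleared ↥E (fun i => coeffMap (Int.castRingHom ↥E) (y i)) hgs
  obtain ⟨c, H', hc, hH', i0, m0, h1⟩ :=
    H516.exists_scale (RE A E) (Fin.cons G H : Fin (n + 1) → (↥E)[X]) ⟨0, by simpa using hG⟩
  have hq : (H' 0).map (RE A E).subtype = C c⁻¹ * G := by
    rw [hH' 0, Fin.cons_zero]
  have hp : ∀ i : Fin n, (H' i.succ).map (RE A E).subtype = C c⁻¹ * H i := by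
    intro i
    rw [hH' i.succ, Fin.cons_succ]
  refine ⟨(H' 0).map (reToS0 A E), fun i => (H' i.succ).map (reToS0 A E), ?_, ?_⟩
  · -- primitivity
    have hone : ∀ P : (↥(RE A E))[X], P.coeff m0 = 1 →
        (P.map (reToS0 A E)).map (resS A E) ≠ 0 := by
      intro P hP h0
      have := congrArg (fun q => q.coeff m0) h0
      simp only [Polynomial.coeff_map, hP, map_one, Polynomial.coeff_zero] at this
      exact one_ne_zero this
    rcases Fin.eq_zero_or_eq_succ i0 with h0 | ⟨i, hi⟩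
    · left
      exact hone _ (h0 ▸ h1)
    · right
      exact ⟨i, hone _ (hi ▸ h1)⟩
  · -- the relation
    have hE : H516.evJ ((H' 0).map (RE A E).subtype) * g =
        ∑ i, H516.evJ ((H' i.succ).map (RE A E).subtype) *
          coeffMap (Int.castRingHom ↥E) (y i) := by
      rw [hq, H516.evJ_mul, mul_assoc, hrel, Finset.mul_sum]
      refine Finset.sum_congr rfl fun i _ => ?_
      rw [hp i, H516.evJ_mul, mul_assoc]
    apply Subtype.ext
    have hy : ∀ i, iotaE E (coeffMap (Int.castRingHom ↥E) (y i)) =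
        ((toOm M A E (yInt A E hS i) : Om M) : LaurentSeries Qb) := by
      intro i
      rw [coe_toOm_yInt, coeffMap_coeffMap]
      exact coeffMap_congr (RingHom.ext_int _ _) _
    have h2 := congrArg (iotaE E) hE
    rw [map_mul, map_sum, hgf, ← coe_toOm_Uev_map M] at h2
    rw [map_sum]
    push_cast
    rw [h2]
    refine Finset.sum_congr rfl fun i _ => ?_
    rw [map_mul, hy, ← coe_toOm_Uev_map M, map_mul]
    rfl

end Fermat.Agent.S18.Mod.H216

end
end
-- ===== PACK-END S18/Mod/H216/Basis.lean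

-- ===== PACK-BEGIN S18/Mod/H216/DenJ.lean
section


/-!
# S18 / MOD (helper216): `V_total`, denominators and integrality for the coordinate `j`

From the S28 basis (`SpansQ M y`, independence of the reductions over `κ(j̄)`, integrality of the
`j(q^d)` over `ℤ[j]`):

* `V_total_j`     : `Vc M A E` is a valuation ring of `Fc M E`;
* `injective_evR_j` : `j` is transcendental over `Rc M A E`;
* `isIntegral_toOm_yInt` : the monomials are integral over `Rc[j]`;
* `denAt_j`       : the denominator statement `DenAt` on the chart `Rc[j]`.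
-/

set_option autoImplicit false
set_option linter.unusedSectionVars false

noncomputable section

namespace Fermat.Agent.S18.Mod.H216

open ModularCurve AlgebraicCurve HahnSeries Polynomial Fermat.Agent.S18 Fermat.Agent.S18.Mod
open Fermat.Agent.S28 Fermat.Agent.S18.Alg

variable {M : ℕ} [NeZero M] (A : ValuationSubring Qb) (E : IntermediateField ℚ Qb)
variable {n : ℕ} {y : Fin n → LaurentSeries ℤ}

theorem redE_sum_ne_zero (hS : H516.SpansQ M y)
    (hli : LinearIndependent (jField (IsLocalRing.ResidueField ↥A))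
      (fun i => coeffMap (Int.castRingHom (IsLocalRing.ResidueField ↥A)) (y i)))
    {q : (↥(S0 A E))[X]} {p : Fin n → (↥(S0 A E))[X]}
    (hprim : q.map (resS A E) ≠ 0 ∨ ∃ i, (p i).map (resS A E) ≠ 0)
    (hq : q.map (resS A E) = 0) :
    redE M A E (∑ i, Uev M A E (p i) * yInt A E hS i) ≠ 0 := by
  intro h
  have h1 := redE_sum_eq_zero A E hS hli p h
  rcases hprim with h2 | ⟨i, hi⟩
  · exact h2 hq
  · exact hi (h1 i)

/-- **`V_total`** for `x = j`. -/
theorem V_total_j (hS : H516.SpansQ M y)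
    (hli : LinearIndependent (jField (IsLocalRing.ResidueField ↥A))
      (fun i => coeffMap (Int.castRingHom (IsLocalRing.ResidueField ↥A)) (y i))) :
    ∀ f ∈ Fc M E, f ∈ Vc M A E ∨ f⁻¹ ∈ Vc M A E := by
  intro f hf
  obtain ⟨q, p, hprim, hrel⟩ := exists_scaled_relation A E hS hf
  by_cases hq : q.map (resS A E) = 0
  · right
    have hN := redE_sum_ne_zero A E hS hli hprim hq
    have hf0 : f ≠ 0 := by
      intro h0
      rw [h0, mul_zero] at hrel
      exact toOm_ne_zero_of_redE M A E hN hrel.symm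
    refine (mem_Vc_iff' M A E).mpr
      ⟨Uev M A E q, ∑ i, Uev M A E (p i) * yInt A E hS i, hN, ?_⟩
    rw [← hrel, mul_comm (toOm M A E (Uev M A E q)), ← mul_assoc, inv_mul_cancel₀ hf0, one_mul]
  · left
    have hD : redE M A E (Uev M A E q) ≠ 0 := by rwa [Ne, redE_Uev_eq_zero_iff]
    refine (mem_Vc_iff' M A E).mpr
      ⟨∑ i, Uev M A E (p i) * yInt A E hS i, Uev M A E q, hD, ?_⟩
    rw [mul_comm]
    exact hrel

/-- `j` is transcendental over `Rc`. -/
theorem injective_evR_j : Function.Injective (evR (Rc M A E) (jOm M)) := by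
  rw [injective_iff_map_eq_zero]
  intro p hp
  rw [evR_eq_toOm_Uev] at hp
  have h1 := congrArg (fun z : Om M => (z : LaurentSeries Qb)) hp
  simp only [coe_toOm_Uev, ZeroMemClass.coe_zero] at h1
  have h2 := (H516.evJ_eq_zero_iff Qb).mp h1
  rw [Polynomial.map_map] at h2
  have hinj : Function.Injective
      (((S0 A E).subtype).comp ((eRc M A E).symm : ↥(Rc M A E) →+* ↥(S0 A E))) :=
    (Subtype.val_injective).comp (eRc M A E).symm.injective
  exact Polynomial.map_injective _ hinj (by rw [h2, Polynomial.map_zero])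

theorem toOm_Uev_mem_polyRing (p : (↥(S0 A E))[X]) :
    toOm M A E (Uev M A E p) ∈ polyRing (Rc M A E) (jOm M) := by
  rw [toOm_Uev]
  exact (mem_polyRing_iff _ _).mpr ⟨_, rfl⟩

theorem isIntegral_toOm_Uev (p : (↥(S0 A E))[X]) :
    IsIntegral (polyRing (Rc M A E) (jOm M)) (toOm M A E (Uev M A E p)) :=
  isIntegral_algebraMap (R := polyRing (Rc M A E) (jOm M)) (A := Om M)
    (x := ⟨_, toOm_Uev_mem_polyRing A E p⟩)

/-- **Denominators** on the chart `Rc[j]`. -/
theorem denAt_j {w : Om M} (hR : PartR (Ec M E) (Rc M A E) w) (hS : H516.SpansQ M y)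
    (hli : LinearIndependent (jField (IsLocalRing.ResidueField ↥A))
      (fun i => coeffMap (Int.castRingHom (IsLocalRing.ResidueField ↥A)) (y i)))
    (hint : ∀ i, IsIntegral (polyRing (Rc M A E) (jOm M)) (toOm M A E (yInt A E hS i))) :
    DenAt (Fc M E) (Rc M A E) (Vc M A E) w (jOm M) := by
  intro f hf hfV
  obtain ⟨q, p, hprim, hrel⟩ := exists_scaled_relation A E hS hf
  have hq : q.map (resS A E) ≠ 0 := by
    intro hq0
    have hN := redE_sum_ne_zero A E hS hli hprim hq0
    obtain ⟨U₁, U₂, hne, heq⟩ := (mem_Vc_iff' M A E).mp hfV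
    have h1 : toOm M A E (Uev M A E q * U₁) =
        toOm M A E ((∑ i, Uev M A E (p i) * yInt A E hS i) * U₂) := by
      rw [map_mul, map_mul, ← heq, ← hrel]
      ring
    have h3 := congrArg (redE M A E) (toOm_injective M A E h1)
    rw [map_mul, map_mul, (redE_Uev_eq_zero_iff M A E q).mpr hq0, zero_mul] at h3
    exact mul_ne_zero hN hne h3.symm
  have hD : redE M A E (Uev M A E q) ≠ 0 := by rwa [Ne, redE_Uev_eq_zero_iff]
  refine ⟨toOm M A E (Uev M A E q), toOm_Uev_mem_polyRing A E q, ?_, ?_⟩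
  · intro h
    obtain ⟨c, hA, hE, hc0, hcinv, rfl⟩ := exists_unif M A E hR
    have hw0 : algebraMap Qb (Om M) c ≠ 0 := hR.w_ne_zero
    obtain ⟨U₁, U₂, hne, heq⟩ := (mem_Vc_iff' M A E).mp h
    have h1 : toOm M A E (Uev M A E q * U₂) = toOm M A E (cInt M A E hA hE * U₁) := by
      rw [map_mul, map_mul, toOm_cInt, ← heq]
      field_simp
    have h3 := congrArg (redE M A E) (toOm_injective M A E h1)
    rw [map_mul, map_mul, redE_cInt, residue_eq_zero_of_inv_not_mem A hA hcinv, map_zero,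
      zero_mul] at h3
    exact mul_ne_zero hD hne h3
  · rw [hrel, map_sum]
    refine IsIntegral.sum _ fun i _ => ?_
    rw [map_mul]
    exact (isIntegral_toOm_Uev A E (p i)).mul (hint i)

end Fermat.Agent.S18.Mod.H216

end
end
-- ===== PACK-END S18/Mod/H216/DenJ.lean

-- ===== PACK-BEGIN S28/H867/Transfer.lean
section



set_option autoImplicit false
noncomputable section
open ModularCurve HahnSeries IntermediateField Polynomial

namespace Fermat.Agent.S28.H867

section Transfer

variable (k : Type*) [Field k]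

/-- `coeffMap` commutes with `evalAt`. -/
theorem coeffMap_comp_evalAt (y : LaurentSeries ℤ) :
    (coeffMap (Int.castRingHom k)).comp (evalAt y) = evalAt (coeffMap (Int.castRingHom k) y) := by
  apply Polynomial.ringHom_ext
  · intro a
    simp [evalAt]
  · simp [evalAt]

/-- `qExpand` commutes with `evalAt`. -/
theorem qExpand_comp_evalAt (p : ℕ) [NeZero p] (y : LaurentSeries k) :
    (qExpand k p).comp (evalAt y) = evalAt (qExpand k p y) := by
  apply Polynomial.ringHom_ext
  · intro a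
    simp [evalAt]
  · simp [evalAt]

variable {k} in
theorem eval₂_evalAt_transfer (Φ : Polynomial (Polynomial ℤ)) (y x : LaurentSeries ℤ)
    (h : Φ.eval₂ (evalAt y) x = 0) :
    Φ.eval₂ (evalAt (coeffMap (Int.castRingHom k) y)) (coeffMap (Int.castRingHom k) x) = 0 := by
  rw [← coeffMap_comp_evalAt, ← Polynomial.hom_eval₂, h, map_zero]

variable {k} in
theorem eval₂_evalAt_qExpand (p : ℕ) [NeZero p] (Φ : Polynomial (Polynomial ℤ))
    (y x : LaurentSeries k) (h : Φ.eval₂ (evalAt y) x = 0) :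
    Φ.eval₂ (evalAt (qExpand k p y)) (qExpand k p x) = 0 := by
  rw [← qExpand_comp_evalAt, ← Polynomial.hom_eval₂, h, map_zero]

theorem coeffMap_jp (p : ℕ) [NeZero p] :
    coeffMap (Int.castRingHom k) (qExpand ℤ p (jqModC ℤ)) = jp k p := by
  rw [coeffMap_qExpand, coeffMap_jqModC]

/-- `Φ_p(j_p, j) = 0` over `k`. -/
theorem modPoly_eval_jp_field {p : ℕ} [NeZero p] (D : ModPolyData p) :
    D.Φ.eval₂ (evalAt (jqModC k)) (jp k p) = 0 := by
  have := eval₂_evalAt_transfer (k := k) D.Φ _ _ D.eval_jp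
  rwa [coeffMap_jp, coeffMap_jqModC] at this

/-- `Φ_p(j, j_p) = 0` over `k`. -/
theorem modPoly_eval_j_field {p : ℕ} [NeZero p] (D : ModPolyData p) :
    D.Φ.eval₂ (evalAt (jp k p)) (jqModC k) = 0 := by
  have := eval₂_evalAt_transfer (k := k) D.Φ _ _ D.eval_j
  rwa [coeffMap_jp, coeffMap_jqModC] at this

end Transfer

section PolyOver

variable {k : Type*} [Field k]

/-- The polynomial `Φ(X, y)` with coefficients in a subfield `A ∋ y`. -/
def polyOver (A : IntermediateField k (LaurentSeries k)) (y : A) (Φ : Polynomial (Polynomial ℤ)) :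
    Polynomial A :=
  Φ.map (Polynomial.aeval (R := ℤ) y).toRingHom

theorem polyOver_monic (A : IntermediateField k (LaurentSeries k)) (y : A)
    {Φ : Polynomial (Polynomial ℤ)} (h : Φ.Monic) : (polyOver A y Φ).Monic :=
  h.map _

theorem polyOver_natDegree (A : IntermediateField k (LaurentSeries k)) (y : A)
    {Φ : Polynomial (Polynomial ℤ)} (h : Φ.Monic) : (polyOver A y Φ).natDegree = Φ.natDegree :=
  h.natDegree_map _

theorem aeval_polyOver (A : IntermediateField k (LaurentSeries k)) (y : A)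
    (Φ : Polynomial (Polynomial ℤ)) (x : LaurentSeries k) :
    Polynomial.aeval x (polyOver A y Φ) = Φ.eval₂ (evalAt (y : LaurentSeries k)) x := by
  rw [polyOver, Polynomial.aeval_def, Polynomial.eval₂_map]
  congr 1
  apply Polynomial.ringHom_ext
  · intro a
    simp [evalAt]
  · simp [evalAt]

end PolyOver

end Fermat.Agent.S28.H867

end
end
-- ===== PACK-END S28/H867/Transfer.lean

-- ===== PACK-BEGIN S28/H867/Prime.lean
section



set_option autoImplicit false
noncomputable section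
open ModularCurve HahnSeries IntermediateField Polynomial

namespace Fermat.Agent.S28.H867

section Prime

variable (k : Type*) [Field k]

theorem jq_mem_jField : jqModC k ∈ jField k := mem_adjoin_simple_self k _

theorem jp_mem_jpField (p : ℕ) [NeZero p] : jp k p ∈ jpField k p := mem_adjoin_simple_self k _

theorem jpField_le_fieldRange (p : ℕ) [NeZero p] :
    jpField k p ≤ (qExpandAlgHomC k p).fieldRange := by
  rw [jpField, adjoin_simple_le_iff]
  exact ⟨jqModC k, rfl⟩

theorem qExpand_injective' (p : ℕ) [NeZero p] : Function.Injective (qExpand k p) :=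
  (qExpand k p).injective

/-- natDegree of the minimal polynomial of `j` over a subfield of `range V_p` is `≥ p`. -/
theorem le_natDegree_minpoly {p : ℕ} [NeZero p] (hI : LeafI k p)
    (B : IntermediateField k (LaurentSeries k)) (hB : B ≤ (qExpandAlgHomC k p).fieldRange)
    (hint : IsIntegral B (jqModC k)) : p ≤ (minpoly B (jqModC k)).natDegree := by
  rw [← relfinrank_sup_adjoin_simple B hint]
  refine le_relfinrank_of_linearIndependent le_sup_left ?_ _ ?_ (hI B hB)
  · rw [relfinrank_sup_adjoin_simple B hint]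
    exact (minpoly.natDegree_pos hint).ne'
  · intro i
    exact pow_mem ((le_sup_right : adjoin k {jqModC k} ≤ _) (mem_adjoin_simple_self k _)) _

theorem primeLevel_of_leaves {p : ℕ} [NeZero p] (hp : p.Prime) (D : ModPolyData p)
    (hI : LeafI k p) (hB1 : LeafB1 k p) : PrimeLevel k p := by
  set j := jqModC k with hj
  set A := jpField k p with hA
  set R := (qExpandAlgHomC k p).fieldRange with hR
  have hAR : A ≤ R := jpField_le_fieldRange k p
  let y : A := ⟨jp k p, jp_mem_jpField k p⟩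
  set ΦA := polyOver A y D.Φ with hΦA
  have hΦmonic : ΦA.Monic := polyOver_monic A y D.monic
  have hΦdeg : ΦA.natDegree = p + 1 := by
    rw [hΦA, polyOver_natDegree A y D.monic, D.natDegree_eq]
  have hΦj : Polynomial.aeval j ΦA = 0 := by
    rw [hΦA, aeval_polyOver]; exact modPoly_eval_j_field k D
  have hΦjpp : Polynomial.aeval (qExpand k p (jp k p)) ΦA = 0 := by
    rw [hΦA, aeval_polyOver]
    exact eval₂_evalAt_qExpand p D.Φ _ _ (modPoly_eval_jp_field k D)
  have hint : IsIntegral A j := ⟨ΦA, hΦmonic, by rwa [Polynomial.aeval_def] at hΦj⟩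
  set m := minpoly A j with hm
  have hmdvd : m ∣ ΦA := minpoly.dvd A j hΦj
  have hmmonic : m.Monic := minpoly.monic hint
  have hmle : m.natDegree ≤ p + 1 := by
    rw [← hΦdeg]
    exact Polynomial.natDegree_le_of_dvd hmdvd hΦmonic.ne_zero
  have hmge : p ≤ m.natDegree := le_natDegree_minpoly k hI A hAR hint
  -- the key step: the degree is not `p`
  have hmne : m.natDegree ≠ p := by
    intro hmp
    obtain ⟨c, hc⟩ := hmdvd
    have hcmonic : c.Monic := hmmonic.of_mul_monic_left (hc ▸ hΦmonic)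
    have hcdeg : c.natDegree = 1 := by
      have := congrArg Polynomial.natDegree hc
      rw [hmmonic.natDegree_mul hcmonic, hΦdeg, hmp] at this
      omega
    have hroot : Polynomial.aeval (qExpand k p (jp k p)) m *
        Polynomial.aeval (qExpand k p (jp k p)) c = 0 := by
      rw [← map_mul, ← hc, hΦjpp]
    rcases mul_eq_zero.mp hroot with h0 | h0
    · -- `j_{p²}` is a root of `m`, but `m` is irreducible of degree `p ≥ 2` over `R`
      set incl : A →+* R := (IntermediateField.inclusion hAR).toRingHom with hincl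
      have hcomp : (algebraMap R (LaurentSeries k)).comp incl = algebraMap A (LaurentSeries k) :=
        rfl
      set m' := m.map incl with hm'
      have hm'monic : m'.Monic := hmmonic.map _
      have hm'deg : m'.natDegree = p := by rw [hm', hmmonic.natDegree_map, hmp]
      have hm'eval : ∀ x : LaurentSeries k, Polynomial.aeval x m' = Polynomial.aeval x m := by
        intro x
        rw [hm', Polynomial.aeval_def, Polynomial.eval₂_map, hcomp, ← Polynomial.aeval_def]
      have hintR : IsIntegral R j := by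
        refine ⟨m', hm'monic, ?_⟩
        rw [← Polynomial.aeval_def, hm'eval]
        exact minpoly.aeval A j
      have hdvd : minpoly R j ∣ m' := minpoly.dvd R j (by rw [hm'eval]; exact minpoly.aeval A j)
      have hge : p ≤ (minpoly R j).natDegree := le_natDegree_minpoly k hI R le_rfl hintR
      have heq : m' = minpoly R j :=
        Polynomial.eq_of_monic_of_dvd_of_natDegree_le (minpoly.monic hintR) hm'monic hdvd
          (by rw [hm'deg]; exact hge)
      have hirr : Irreducible m' := heq ▸ minpoly.irreducible hintR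
      let r : R := ⟨qExpand k p (jp k p), ⟨jp k p, rfl⟩⟩
      have hr : m'.IsRoot r := by
        have h1 : Polynomial.aeval (algebraMap R (LaurentSeries k) r) m' = 0 := by
          rw [hm'eval]; exact h0
        rw [Polynomial.aeval_algebraMap_apply] at h1
        have h3 : Polynomial.aeval r m' = 0 :=
          (algebraMap R (LaurentSeries k)).injective (by rw [h1, map_zero])
        simpa [Polynomial.IsRoot] using h3
      have hdeg1 := Polynomial.degree_eq_one_of_irreducible_of_root hirr hr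
      have : m'.natDegree = 1 := Polynomial.natDegree_eq_of_degree_eq_some hdeg1
      have h2 := hp.two_le
      omega
    · -- `j_{p²} ∈ A`, hence `j_p ∈ k(j)`
      have hc' : c = Polynomial.X + Polynomial.C (c.coeff 0) :=
        hcmonic.eq_X_add_C hcdeg
      rw [hc'] at h0
      simp only [map_add, Polynomial.aeval_X, Polynomial.aeval_C] at h0
      have hmem : qExpand k p (jp k p) ∈ A := by
        have : qExpand k p (jp k p) = -(algebraMap A (LaurentSeries k) (c.coeff 0)) :=
          eq_neg_of_add_eq_zero_left h0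
        rw [this]
        exact neg_mem (c.coeff 0).2
      rw [hA, jpField_eq_map] at hmem
      obtain ⟨x, hx, hxe⟩ := hmem
      have : x = jp k p := qExpand_injective' k p hxe
      exact hB1 (this ▸ hx)
  have hmdeg : m.natDegree = p + 1 := by omega
  have hmΦ : ΦA = m :=
    Polynomial.eq_of_monic_of_dvd_of_natDegree_le hmmonic hΦmonic hmdvd (by rw [hΦdeg, hmdeg])
  have hdeg_jp : A.relfinrank (jField k ⊔ A) = p + 1 := by
    rw [sup_comm, jField, relfinrank_sup_adjoin_simple A hint, ← hm, hmdeg]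
  refine ⟨?_, hdeg_jp⟩
  -- transport along `V_p`
  set x := qExpand k p (jp k p) with hx
  have hintx : IsIntegral A x := ⟨ΦA, hΦmonic, by rwa [Polynomial.aeval_def] at hΦjpp⟩
  have hirr : Irreducible ΦA := hmΦ ▸ minpoly.irreducible hint
  have hminx : ΦA = minpoly A x := minpoly.eq_of_irreducible_of_monic hirr hΦjpp hΦmonic
  have h1 : A.relfinrank (A ⊔ adjoin k {x}) = p + 1 := by
    rw [relfinrank_sup_adjoin_simple A hintx, ← hminx, hΦdeg]
  have h2 : A ⊔ adjoin k {x} = (jField k ⊔ jpField k p).map (qExpandAlgHomC k p) := by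
    rw [IntermediateField.map_sup, ← jpField_eq_map, jpField, adjoin_map, Set.image_singleton]
    rfl
  rw [h2, hA, jpField_eq_map, relfinrank_map_map] at h1
  rw [jpField_eq_map]
  exact h1

end Prime

end Fermat.Agent.S28.H867

end
end
-- ===== PACK-END S28/H867/Prime.lean

-- ===== PACK-BEGIN S28/H867/Integral.lean
section



set_option autoImplicit false
noncomputable section
open ModularCurve HahnSeries IntermediateField Polynomial

namespace Fermat.Agent.S28.H867

section Integral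

variable (k : Type*) [Field k]

/-- `j(q^d)` for `d ≠ 0`, with junk value at `0` (total function in `d`). -/
def jd (d : ℕ) : LaurentSeries k :=
  if h : d = 0 then 0 else @qExpand k _ d ⟨h⟩ (jqModC k)

theorem jd_eq (d : ℕ) [hd : NeZero d] : jd k d = qExpand k d (jqModC k) := by
  rw [jd, dif_neg hd.out]

theorem jd_one : jd k 1 = jqModC k := by
  rw [jd_eq, qExpand_one_apply]

theorem qExpand_jd (a b : ℕ) [NeZero a] [NeZero b] : qExpand k a (jd k b) = jd k (a * b) := by
  rw [jd_eq, jd_eq, qExpand_qExpand]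

/-- If `x` and `V_a j` are integral over `k(j)`, so is `V_a x`. -/
theorem isIntegral_qExpand (a : ℕ) [NeZero a] {x : LaurentSeries k}
    (hx : IsIntegral (jField k) x) (ha : IsIntegral (jField k) (jd k a)) :
    IsIntegral (jField k) (qExpand k a x) := by
  set 𝔸 := algebraicClosure (jField k) (LaurentSeries k) with h𝔸
  have hmem : ∀ z ∈ jField k, qExpand k a z ∈ 𝔸.restrictScalars k := by
    have hle : (jField k).map (qExpandAlgHomC k a) ≤ 𝔸.restrictScalars k := by
      have h0 : (jField k).map (qExpandAlgHomC k a) = adjoin k {qExpand k a (jqModC k)} := by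
        rw [← jpField_eq_map]; rfl
      rw [h0, adjoin_simple_le_iff]
      show qExpand k a (jqModC k) ∈ 𝔸
      rw [h𝔸, mem_algebraicClosure_iff']
      rwa [jd_eq] at ha
    intro z hz
    exact hle ⟨z, hz, rfl⟩
  let φ : jField k →+* 𝔸 :=
    { toFun := fun z => ⟨qExpand k a z, hmem z z.2⟩
      map_one' := by ext; simp
      map_mul' := fun x y => by ext; simp
      map_zero' := by ext; simp
      map_add' := fun x y => by ext; simp }
  have h1 : IsIntegral 𝔸 (qExpand k a x) :=
    hx.map_of_comp_eq φ (qExpand k a) (by ext z; rfl)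
  have : Algebra.IsIntegral (jField k) 𝔸 :=
    (algebraicClosure.isAlgebraic (jField k) (LaurentSeries k)).isIntegral
  exact isIntegral_trans (R := jField k) (A := 𝔸) _ h1

theorem isIntegral_jd_prime {p : ℕ} [NeZero p] (D : ModPolyData p) :
    IsIntegral (jField k) (jd k p) := by
  let y : jField k := ⟨jqModC k, jq_mem_jField k⟩
  refine ⟨polyOver (jField k) y D.Φ, polyOver_monic _ y D.monic, ?_⟩
  rw [← Polynomial.aeval_def, aeval_polyOver, jd_eq]
  exact modPoly_eval_jp_field k D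

theorem isIntegral_jd (d : ℕ) (hd : d ≠ 0)
    (hΦ : ∀ p : ℕ, p.Prime → p ∣ d → ∀ [NeZero p], Nonempty (ModPolyData p)) :
    IsIntegral (jField k) (jd k d) := by
  induction d using Nat.recOnMul with
  | zero => exact absurd rfl hd
  | one =>
    rw [jd_one]
    exact isIntegral_algebraMap (x := (⟨jqModC k, jq_mem_jField k⟩ : jField k))
  | prime p hp =>
    have : NeZero p := ⟨hp.ne_zero⟩
    obtain ⟨D⟩ := hΦ p hp dvd_rfl
    exact isIntegral_jd_prime k D
  | mul a b iha ihb =>
    have ha0 : a ≠ 0 := fun h => hd (by rw [h, zero_mul])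
    have hb0 : b ≠ 0 := fun h => hd (by rw [h, mul_zero])
    have : NeZero a := ⟨ha0⟩
    have : NeZero b := ⟨hb0⟩
    rw [← qExpand_jd]
    exact isIntegral_qExpand k a
      (ihb hb0 fun p hp hpb => hΦ p hp (hpb.mul_left a))
      (iha ha0 fun p hp hpa => hΦ p hp (hpa.mul_right b))

theorem divisorExpansionsC_eq_image (M : ℕ) (hM : M ≠ 0) :
    divisorExpansionsC k M = (fun d => jd k d) '' (M.divisors : Set ℕ) := by
  ext x
  constructor
  · rintro ⟨d, hd, hdM, rfl⟩
    exact ⟨d, by simpa using ⟨hdM, hM⟩, jd_eq k d⟩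
  · rintro ⟨d, hd, rfl⟩
    have hd' : d ∣ M := Nat.dvd_of_mem_divisors hd
    have hd0 : d ≠ 0 := fun h => hM (by rw [h] at hd'; exact Nat.eq_zero_of_zero_dvd hd')
    have : NeZero d := ⟨hd0⟩
    exact ⟨d, ⟨hd0⟩, hd', jd_eq k d⟩

theorem degE_ne_zero (M : ℕ) (hM : M ≠ 0)
    (hΦ : ∀ p : ℕ, p.Prime → p ∣ M → ∀ [NeZero p], Nonempty (ModPolyData p)) :
    degE k M ≠ 0 := by
  have h1 : EF k M = jField k ⊔ adjoin k (divisorExpansionsC k M) :=
    (sup_eq_right.mpr (jField_le_EF k M)).symm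
  rw [degE, h1]
  refine relfinrank_sup_adjoin_ne_zero _ ?_ ?_
  · rw [divisorExpansionsC_eq_image k M hM]
    exact (Finset.finite_toSet _).image _
  · rw [divisorExpansionsC_eq_image k M hM]
    rintro x ⟨d, hd, rfl⟩
    have hd' : d ∣ M := Nat.dvd_of_mem_divisors hd
    have hd0 : d ≠ 0 := fun h => hM (by rw [h] at hd'; exact Nat.eq_zero_of_zero_dvd hd')
    exact isIntegral_jd k d hd0 fun p hp hpd => hΦ p hp (hpd.trans hd')

end Integral

end Fermat.Agent.S28.H867

end
end
-- ===== PACK-END S28/H867/Integral.lean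

-- ===== PACK-BEGIN S28/H867/Lower.lean
section




set_option autoImplicit false
noncomputable section
open ModularCurve HahnSeries IntermediateField Polynomial

namespace Fermat.Agent.S28.H867

section Lower

variable (k : Type*) [Field k]

/-- Everything the lower-bound induction needs at level `N`. -/
structure Good (N : ℕ) : Prop where
  ne_zero : N ≠ 0
  modPoly : ∀ p : ℕ, p.Prime → p ∣ N → ∀ [NeZero p], Nonempty (ModPolyData p)
  prime : ∀ p : ℕ, p.Prime → p ∣ N → ∀ [NeZero p], PrimeLevel k p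
  indep : ∀ p : ℕ, p.Prime → p ∣ N → ∀ [NeZero p], LeafI k p
  upper : ∀ M : ℕ, M ∣ N → degE k M ≤ gFun M

variable {k}

theorem Good.of_dvd {N M : ℕ} (h : Good k N) (hMN : M ∣ N) : Good k M where
  ne_zero := fun h0 => h.ne_zero (by rw [h0] at hMN; exact Nat.eq_zero_of_zero_dvd hMN)
  modPoly := fun p hp hpM => h.modPoly p hp (hpM.trans hMN)
  prime := fun p hp hpM => h.prime p hp (hpM.trans hMN)
  indep := fun p hp hpM => h.indep p hp (hpM.trans hMN)
  upper := fun M' hM' => h.upper M' (hM'.trans hMN)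

theorem Good.degE_ne_zero {N : ℕ} (h : Good k N) : degE k N ≠ 0 :=
  H867.degE_ne_zero k N h.ne_zero h.modPoly

variable (k) in
theorem degE_one : degE k 1 = 1 := by
  rw [degE, relfinrank_eq_one_iff]
  show adjoin k (divisorExpansionsC k 1) ≤ jField k
  rw [adjoin_le_iff]
  rintro x ⟨d, hd, hd1, rfl⟩
  have : d = 1 := Nat.dvd_one.mp hd1
  subst this
  rw [qExpand_one_apply]
  exact jq_mem_jField k

variable (k) in
theorem EF_prime_eq (p : ℕ) [NeZero p] (hp : p.Prime) : EF k p = jField k ⊔ jpField k p := by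
  apply le_antisymm
  · show adjoin k (divisorExpansionsC k p) ≤ _
    rw [adjoin_le_iff]
    rintro x ⟨d, hd, hdp, rfl⟩
    rcases (Nat.dvd_prime hp).mp hdp with h1 | h1
    · subst h1
      rw [qExpand_one_apply]
      exact (le_sup_left : jField k ≤ _) (jq_mem_jField k)
    · subst h1
      exact (le_sup_right : jpField k d ≤ _) (jp_mem_jpField k d)
  · refine sup_le (jField_le_EF k p) ?_
    rw [jpField, adjoin_simple_le_iff]
    exact jqModCd_mem_full k p dvd_rfl

theorem Good.degE_prime {p : ℕ} (hp : p.Prime) (h : Good k p) : degE k p = p + 1 := by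
  have : NeZero p := ⟨hp.ne_zero⟩
  rw [degE, EF_prime_eq k p hp]
  exact (h.prime p hp dvd_rfl).deg_j

/-- the (b)-step in `Good` form -/
theorem Good.mul_le {N p : ℕ} (h : Good k N) (hp : p.Prime) (hpN : p ∣ N) :
    p * degE k (N / p) ≤ degE k N := by
  have : NeZero p := ⟨hp.ne_zero⟩
  have hN : N / p * p = N := Nat.div_mul_cancel hpN
  have := degE_mul_ge k (N / p) p (h.prime p hp hpN) (h.indep p hp hpN)
    (by rw [hN]; exact h.degE_ne_zero)
  rwa [hN] at this

theorem Good.tower {N M : ℕ} (h : Good k N) (hMN : M ∣ N) :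
    degE k M * (EF k M).relfinrank (EF k N) = degE k N := by
  have : NeZero N := ⟨h.ne_zero⟩
  have : NeZero M := ⟨(h.of_dvd hMN).ne_zero⟩
  exact relfinrank_mul_relfinrank (jField_le_EF k M) (full_degeneracyC_le k hMN)

/-- For a prime `p ∣ N` with `p ∤ N / p`: if `[E_{N/p} : k(j)] = g(N/p)`, then `[E_N : k(j)]`
is `p · g(N/p)` or `(p+1) · g(N/p) = g(N)`. -/
theorem Good.dichotomy {N p : ℕ} (h : Good k N) (hp : p.Prime) (hpN : p ∣ N)
    (hpM : ¬ p ∣ N / p) (hM : degE k (N / p) = gFun (N / p)) :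
    degE k N = gFun N ∨ degE k N * (p + 1) = p * gFun N := by
  have hN : N / p * p = N := Nat.div_mul_cancel hpN
  have hM0 : N / p ≠ 0 := fun h0 => h.ne_zero (by rw [← hN, h0, zero_mul])
  have hg : gFun N = (p + 1) * gFun (N / p) := by
    conv_lhs => rw [← hN]
    exact gFun_mul_of_not_dvd hM0 hp hpM
  have htower := h.tower (Nat.div_dvd_of_dvd hpN)
  set a := (EF k (N / p)).relfinrank (EF k N) with ha
  have hup := h.upper N dvd_rfl
  have hlow := h.mul_le hp hpN
  rw [hM] at htower hlow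
  have hgpos := gFun_pos (N / p)
  rw [← htower] at hup hlow ⊢
  rw [hg] at hup ⊢
  have ha1 : p ≤ a := by
    rw [mul_comm] at hlow
    exact Nat.le_of_mul_le_mul_left hlow hgpos
  have ha2 : a ≤ p + 1 := by
    rw [mul_comm (p + 1)] at hup
    exact Nat.le_of_mul_le_mul_left hup hgpos
  rcases Nat.lt_or_ge a (p + 1) with h1 | h1
  · right
    have : a = p := by omega
    rw [this]; ring
  · left
    have : a = p + 1 := by omega
    rw [this]; ring

theorem Good.le_degE : ∀ {N : ℕ}, Good k N → gFun N ≤ degE k N := by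
  intro N
  induction N using Nat.strong_induction_on with
  | _ N ih =>
    intro h
    rcases Nat.lt_or_ge 1 N with hN1 | hN1
    swap
    · have : N = 1 := by have := h.ne_zero; omega
      subst this
      rw [gFun_one, degE_one]
    -- `N > 1`
    by_cases hsq : ∃ r : ℕ, r.Prime ∧ r ∣ N ∧ r ∣ N / r
    · obtain ⟨r, hr, hrN, hrM⟩ := hsq
      have hN : N / r * r = N := Nat.div_mul_cancel hrN
      have hM0 : N / r ≠ 0 := fun h0 => h.ne_zero (by rw [← hN, h0, zero_mul])
      have hlt : N / r < N := Nat.div_lt_self (by omega) hr.one_lt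
      have ihM := ih (N / r) hlt (h.of_dvd (Nat.div_dvd_of_dvd hrN))
      calc gFun N = gFun (N / r * r) := by rw [hN]
        _ = r * gFun (N / r) := gFun_mul_of_dvd hM0 hr hrM
        _ ≤ r * degE k (N / r) := Nat.mul_le_mul_left _ ihM
        _ ≤ degE k N := h.mul_le hr hrN
    · simp only [not_exists, not_and] at hsq
      -- first prime
      set p := N.minFac with hp
      have hpp : p.Prime := Nat.minFac_prime (by omega)
      have hpN : p ∣ N := Nat.minFac_dvd N
      have hN : N / p * p = N := Nat.div_mul_cancel hpN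
      rcases Nat.lt_or_ge 1 (N / p) with hM1 | hM1
      swap
      · -- `N = p` is prime
        have hM0 : N / p ≠ 0 := fun h0 => h.ne_zero (by rw [← hN, h0, zero_mul])
        have : N / p = 1 := Nat.le_antisymm hM1 (Nat.one_le_iff_ne_zero.mpr hM0)
        have hNp : N = p := by rw [← hN, this, one_mul]
        have h' : Good k p := hNp ▸ h
        rw [hNp, gFun_prime hpp, h'.degE_prime hpp]
      -- second prime
      set r := (N / p).minFac with hr
      have hrp : r.Prime := Nat.minFac_prime (by omega)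
      have hrM : r ∣ N / p := Nat.minFac_dvd _
      have hrN : r ∣ N := hrM.trans (Nat.div_dvd_of_dvd hpN)
      have hpM : ¬ p ∣ N / p := hsq p hpp hpN
      have hrM' : ¬ r ∣ N / r := hsq r hrp hrN
      have hne : r ≠ p := fun he => hpM (he ▸ hrM)
      have hltp : N / p < N := Nat.div_lt_self (by omega) hpp.one_lt
      have hltr : N / r < N := Nat.div_lt_self (by omega) hrp.one_lt
      have hMp : degE k (N / p) = gFun (N / p) :=
        le_antisymm (h.upper _ (Nat.div_dvd_of_dvd hpN))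
          (ih _ hltp (h.of_dvd (Nat.div_dvd_of_dvd hpN)))
      have hMr : degE k (N / r) = gFun (N / r) :=
        le_antisymm (h.upper _ (Nat.div_dvd_of_dvd hrN))
          (ih _ hltr (h.of_dvd (Nat.div_dvd_of_dvd hrN)))
      rcases h.dichotomy hpp hpN hpM hMp with h1 | h1
      · exact h1.ge
      rcases h.dichotomy hrp hrN hrM' hMr with h2 | h2
      · exact h2.ge
      exfalso
      have hD : degE k N ≠ 0 := h.degE_ne_zero
      have hD' : 0 < degE k N := Nat.pos_of_ne_zero hD
      have key : degE k N * ((p + 1) * r) = degE k N * ((r + 1) * p) := by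
        calc degE k N * ((p + 1) * r) = (degE k N * (p + 1)) * r := by ring
          _ = p * gFun N * r := by rw [h1]
          _ = (r * gFun N) * p := by ring
          _ = (degE k N * (r + 1)) * p := by rw [h2]
          _ = degE k N * ((r + 1) * p) := by ring
      have := Nat.eq_of_mul_eq_mul_left hD' key
      apply hne
      nlinarith

theorem Good.degE_eq {N : ℕ} (h : Good k N) : degE k N = gFun N :=
  le_antisymm (h.upper N dvd_rfl) h.le_degE

end Lower

end Fermat.Agent.S28.H867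

end
end
-- ===== PACK-END S28/H867/Lower.lean

-- ===== PACK-BEGIN S28/H626/Tower.lean
section
/-
S28 helper (helper626): generation of `k(j(q^d) : d ∣ Mp)` over `k(j(q^d) : d ∣ M)` by a single
element, and the degree bounds `≤ p + 1` (`p ∤ M`), `≤ p` (`p ∣ M`).
-/




set_option autoImplicit false

noncomputable section

open ModularCurve HahnSeries Polynomial IntermediateField

namespace Fermat.Agent.S28.H626

section Hyp

variable (k : Type*) [Field k]

/-- Hypothesis package for level `N`: every prime `p ∣ N` is invertible in `k` and has a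
modular polynomial. -/
def HasModPolys (N : ℕ) : Prop :=
  ∀ p (hp : p.Prime), p ∣ N →
    (p : k) ≠ 0 ∧ ∃ Φ : Polynomial (Polynomial ℤ), @IsModPoly p ⟨hp.ne_zero⟩ Φ

variable {k}

theorem HasModPolys.mono {N M : ℕ} (H : HasModPolys k N) (h : M ∣ N) : HasModPolys k M :=
  fun p hp hpM => H p hp (hpM.trans h)

end Hyp

section Generation

variable {k : Type*} [Field k]

/-- **Generation.** If an intermediate field `E` contains `j(q^d)` for all `d ∣ M` and
`j(q^{p^{b+1}})` for the exact power `p^b ∥ M`, then it contains `j(q^d)` for all `d ∣ M p`. -/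
theorem jd_mem_of_gen {M p : ℕ} (hp : p.Prime) (H : HasModPolys k (M * p))
    (E : IntermediateField k (LaurentSeries k))
    (h1 : ∀ (d : ℕ) [NeZero d], d ∣ M → jd k d ∈ E)
    (h2 : ∀ (b : ℕ) [NeZero (p ^ (b + 1))], p ^ b ∣ M → ¬ p ^ (b + 1) ∣ M →
      jd k (p ^ (b + 1)) ∈ E) :
    ∀ (d : ℕ) [NeZero d], d ∣ M * p → jd k d ∈ E := by
  intro d
  induction d using Nat.strong_induction_on with
  | _ d ih =>
    intro inst hd
    by_cases hdM : d ∣ M
    · exact h1 d hdM
    have hpd : p ∣ d := by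
      by_contra hpd
      have hcop : Nat.Coprime d p := ((Nat.Prime.coprime_iff_not_dvd hp).2 hpd).symm
      exact hdM (hcop.dvd_of_dvd_mul_right hd)
    obtain ⟨g, rfl⟩ := hpd
    have hg0 : g ≠ 0 := by
      rintro rfl
      exact (NeZero.ne (p * 0)) (mul_zero p)
    have hgM : g ∣ M := by
      rw [mul_comm M p] at hd
      exact Nat.dvd_of_mul_dvd_mul_left hp.pos hd
    have : NeZero p := ⟨hp.ne_zero⟩
    by_cases hg : ∃ r, r.Prime ∧ r ∣ g ∧ r ≠ p
    · obtain ⟨r, hr, ⟨e, rfl⟩, hrp⟩ := hg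
      have he0 : e ≠ 0 := by
        rintro rfl
        exact hg0 (mul_zero r)
      have : NeZero r := ⟨hr.ne_zero⟩
      have : NeZero e := ⟨he0⟩
      have hrM : r ∣ M * p := (Dvd.intro e rfl : r ∣ r * e).trans (hgM.trans (Dvd.intro p rfl))
      obtain ⟨hpk, Φp, hΦp⟩ := H p hp (Dvd.intro_left M rfl)
      obtain ⟨hrk, Φr, hΦr⟩ := H r hr hrM
      have : NeZero (p : k) := ⟨hpk⟩
      have : NeZero (r : k) := ⟨hrk⟩
      have m1 : jd k (r * e) ∈ E := h1 (r * e) hgM
      have m2 : jd k (p * e) ∈ E := by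
        refine ih (p * e) ?_ ?_
        · have : e < r * e := by
            have := hr.one_lt
            have he : 0 < e := Nat.pos_of_ne_zero he0
            nlinarith
          exact Nat.mul_lt_mul_of_pos_left this hp.pos
        · refine Dvd.dvd.trans ?_ hd
          exact mul_dvd_mul_left p (Dvd.intro_left r rfl)
      have := jd_mem_of_pair hp hr hrp.symm hΦp hΦr e E m1 m2
      rwa [jd_congr k (show p * r * e = p * (r * e) by ring)] at this
    · have hg' : ∀ {r : ℕ}, r.Prime → r ∣ g → r = p := by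
        intro r hr hrg
        by_contra hne
        exact hg ⟨r, hr, hrg, hne⟩
      have hgp := Nat.eq_prime_pow_of_unique_prime_dvd hg0 hg'
      set b := g.primeFactorsList.length with hb
      have hd' : p * g = p ^ (b + 1) := by rw [pow_succ, mul_comm, ← hgp]
      have : NeZero (p ^ (b + 1)) := ⟨pow_ne_zero _ hp.ne_zero⟩
      rw [jd_congr k hd']
      refine h2 b ?_ ?_
      · rw [← hgp]; exact hgM
      · rw [← hd']; exact hdM

end Generation

/-! ### Degree of a simple extension, in `relrank` form -/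

section Degree

variable {K L : Type*} [Field K] [Field L] [Algebra K L]

/-- If `A ≤ B ≤ A(x)`, `x ∈ B` and `x` is a root of a monic `P ∈ A[X]`, then `[B : A] ≤ deg P`. -/
theorem relrank_le_natDegree (A B : IntermediateField K L) (hAB : A ≤ B)
    (x : L) (P : Polynomial A) (hP : P.Monic) (hx : Polynomial.aeval x P = 0)
    (hB : B ≤ (IntermediateField.adjoin A {x}).restrictScalars K) (hxB : x ∈ B) :
    IntermediateField.relrank A B ≤ (P.natDegree : Cardinal) := by
  have hint : IsIntegral A x := ⟨P, hP, hx⟩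
  have hBeq : B = (IntermediateField.adjoin A {x}).restrictScalars K := by
    refine le_antisymm hB ?_
    rw [IntermediateField.restrictScalars_adjoin_eq_sup]
    refine sup_le hAB ?_
    rw [IntermediateField.adjoin_le_iff]
    intro y hy
    rw [Set.mem_singleton_iff] at hy
    rw [hy]
    exact hxB
  rw [IntermediateField.relrank_eq_rank_of_le hAB]
  have hext : IntermediateField.extendScalars hAB = IntermediateField.adjoin A {x} := by
    ext y
    rw [IntermediateField.mem_extendScalars, hBeq]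
    rfl
  rw [hext]
  have := IntermediateField.adjoin.finiteDimensional hint
  rw [← Module.finrank_eq_rank, IntermediateField.adjoin.finrank hint, Nat.cast_le]
  exact Polynomial.natDegree_le_natDegree (minpoly.degree_le_of_ne_zero A x hP.ne_zero hx)

end Degree

/-! ### The tower steps -/

section Steps

variable {k : Type*} [Field k]

theorem jd_mem_full (N : ℕ) [NeZero N] (d : ℕ) [NeZero d] (hd : d ∣ N) :
    jd k d ∈ modularFunctionFieldFullC k N :=
  jqModCd_mem_full k N hd

theorem full_le_of_forall_mem (N : ℕ) [NeZero N] (E : IntermediateField k (LaurentSeries k))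
    (h : ∀ (d : ℕ) [NeZero d], d ∣ N → jd k d ∈ E) : modularFunctionFieldFullC k N ≤ E := by
  rw [modularFunctionFieldFullC, IntermediateField.adjoin_le_iff]
  rintro x ⟨d, hne, hdvd, rfl⟩
  exact h d hdvd

theorem jd_one : jd k 1 = jqModC k := qExpand_one_apply _

/-- uniqueness of the exact exponent -/
theorem exact_pow_unique {p M a b : ℕ} (ha : p ^ a ∣ M) (ha' : ¬ p ^ (a + 1) ∣ M)
    (hb : p ^ b ∣ M) (hb' : ¬ p ^ (b + 1) ∣ M) : b = a := by
  rcases lt_trichotomy b a with h | h | h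
  · exact absurd ((pow_dvd_pow p (Nat.succ_le_of_lt h)).trans ha) hb'
  · exact h
  · exact absurd ((pow_dvd_pow p (Nat.succ_le_of_lt h)).trans hb) ha'

/-- **Generation, packaged.** `k(j_d : d ∣ Mp) ≤ k(j_d : d ∣ M)(j_{p^{a+1}})` for `p^a ∥ M`. -/
theorem full_mul_le_adjoin {M p a : ℕ} [NeZero M] [NeZero (M * p)] [NeZero (p ^ (a + 1))]
    (hp : p.Prime) (H : HasModPolys k (M * p))
    (ha : p ^ a ∣ M) (ha' : ¬ p ^ (a + 1) ∣ M) :
    modularFunctionFieldFullC k (M * p) ≤
      (IntermediateField.adjoin (modularFunctionFieldFullC k M)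
        {jd k (p ^ (a + 1))}).restrictScalars k := by
  refine full_le_of_forall_mem (M * p) _ ?_
  refine jd_mem_of_gen hp H _ ?_ ?_
  · intro d _ hd
    rw [IntermediateField.mem_restrictScalars]
    exact IntermediateField.algebraMap_mem _ (⟨jd k d, jd_mem_full M d hd⟩ :
      modularFunctionFieldFullC k M)
  · intro b _ hb hb'
    have hba : b = a := exact_pow_unique ha ha' hb hb'
    subst hba
    rw [IntermediateField.mem_restrictScalars]
    exact IntermediateField.subset_adjoin _ _ (Set.mem_singleton _)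

/-- **Step, `p ∤ M`**: `[k(j_d : d ∣ Mp) : k(j_d : d ∣ M)] ≤ p + 1`. -/
theorem relrank_full_step_of_not_dvd {M p : ℕ} [NeZero M] [NeZero (M * p)]
    (hp : p.Prime) (H : HasModPolys k (M * p)) (hpM : ¬ p ∣ M) :
    IntermediateField.relrank (modularFunctionFieldFullC k M)
      (modularFunctionFieldFullC k (M * p)) ≤ ((p + 1 : ℕ) : Cardinal) := by
  have instp : NeZero p := ⟨hp.ne_zero⟩
  have instp1 : NeZero (p ^ (0 + 1)) := ⟨pow_ne_zero _ hp.ne_zero⟩
  obtain ⟨-, Φ, hΦ⟩ := H p hp (Dvd.intro_left M rfl)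
  have hAB : modularFunctionFieldFullC k M ≤ modularFunctionFieldFullC k (M * p) :=
    full_degeneracyC_le k (Dvd.intro p rfl)
  have hj : jqModC k ∈ modularFunctionFieldFullC k M := jqModC_mem_full k M
  have hx : jd k (p ^ (0 + 1)) = jd k p := jd_congr k (by simp)
  have key := relrank_le_natDegree (modularFunctionFieldFullC k M)
    (modularFunctionFieldFullC k (M * p)) hAB (jd k (p ^ (0 + 1)))
    (spec Φ (⟨jqModC k, hj⟩ : modularFunctionFieldFullC k M)) (spec_monic hΦ.monic _) ?_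
    (full_mul_le_adjoin hp H (by simp) (by simpa using hpM)) ?_
  · rwa [spec_natDegree hΦ.monic, hΦ.natDegree_eq] at key
  · rw [Polynomial.aeval_def, Polynomial.eval₂_eq_eval_map, map_spec, eval_spec, hx]
    show ev2 Φ (jqModC k) (jd k p) = 0
    have := ev2_jd_up (k := k) hΦ 1
    rwa [jd_one, jd_congr k (one_mul p)] at this
  · rw [hx]
    exact jd_mem_full (M * p) p (Dvd.intro_left M rfl)

/-- **Step, `p ∣ M`**: `[k(j_d : d ∣ Mp) : k(j_d : d ∣ M)] ≤ p`. -/
theorem relrank_full_step_of_dvd {M p : ℕ} [NeZero M] [NeZero (M * p)]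
    (hp : p.Prime) (H : HasModPolys k (M * p)) (hpM : p ∣ M) :
    IntermediateField.relrank (modularFunctionFieldFullC k M)
      (modularFunctionFieldFullC k (M * p)) ≤ ((p : ℕ) : Cardinal) := by
  classical
  have instp : NeZero p := ⟨hp.ne_zero⟩
  obtain ⟨-, Φ, hΦ⟩ := H p hp (Dvd.intro_left M rfl)
  -- the exact exponent
  obtain ⟨a, M', hM', hMeq⟩ := Nat.exists_eq_pow_mul_and_not_dvd (NeZero.ne M) p hp.ne_one
  have ha : p ^ a ∣ M := ⟨M', hMeq⟩
  have ha' : ¬ p ^ (a + 1) ∣ M := by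
    rintro ⟨c, hc⟩
    apply hM'
    have h3 : p ^ a * M' = p ^ a * (p * c) := by rw [← hMeq, hc, pow_succ]; ring
    exact ⟨c, Nat.eq_of_mul_eq_mul_left (pow_pos hp.pos a) h3⟩
  have ha1 : a ≠ 0 := by
    rintro rfl
    apply hM'
    rw [pow_zero, one_mul] at hMeq
    rwa [← hMeq]
  obtain ⟨a', rfl⟩ := Nat.exists_eq_succ_of_ne_zero ha1
  have inst1 : NeZero (p ^ (a' + 1 + 1)) := ⟨pow_ne_zero _ hp.ne_zero⟩
  have inst2 : NeZero (p ^ (a' + 1)) := ⟨pow_ne_zero _ hp.ne_zero⟩
  have inst3 : NeZero (p ^ a') := ⟨pow_ne_zero _ hp.ne_zero⟩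
  have hAB : modularFunctionFieldFullC k M ≤ modularFunctionFieldFullC k (M * p) :=
    full_degeneracyC_le k (Dvd.intro p rfl)
  have hy : jd k (p ^ (a' + 1)) ∈ modularFunctionFieldFullC k M := jd_mem_full M _ ha
  have hz : jd k (p ^ a') ∈ modularFunctionFieldFullC k M :=
    jd_mem_full M _ ((pow_dvd_pow p (Nat.le_succ a')).trans ha)
  set y' : modularFunctionFieldFullC k M := ⟨jd k (p ^ (a' + 1)), hy⟩ with hy'
  set z' : modularFunctionFieldFullC k M := ⟨jd k (p ^ a'), hz⟩ with hz'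
  set x : LaurentSeries k := jd k (p ^ (a' + 1 + 1)) with hxdef
  -- `z'` is a root of `P₀ = Φ(y', X)`
  have hroot : (spec Φ y').IsRoot z' := by
    rw [Polynomial.IsRoot, eval_spec]
    apply (algebraMap (modularFunctionFieldFullC k M) (LaurentSeries k)).injective
    rw [map_ev2, map_zero]
    show ev2 Φ (jd k (p ^ (a' + 1))) (jd k (p ^ a')) = 0
    have := ev2_jd_down (k := k) hΦ (p ^ a')
    rwa [jd_congr k (show p ^ a' * p = p ^ (a' + 1) from (pow_succ p a').symm)] at this
  have hfac : (Polynomial.X - Polynomial.C z') * (spec Φ y' /ₘ (Polynomial.X - Polynomial.C z')) = spec Φ y' :=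
    Polynomial.mul_divByMonic_eq_iff_isRoot.mpr hroot
  have hmonic0 : (spec Φ y').Monic := spec_monic hΦ.monic _
  have hmonic : (spec Φ y' /ₘ (Polynomial.X - Polynomial.C z')).Monic := by
    refine Polynomial.Monic.of_mul_monic_left (Polynomial.monic_X_sub_C z') ?_
    rw [hfac]
    exact hmonic0
  have hdeg : (spec Φ y' /ₘ (Polynomial.X - Polynomial.C z')).natDegree = p := by
    rw [Polynomial.natDegree_divByMonic _ (Polynomial.monic_X_sub_C z'),
      spec_natDegree hΦ.monic, hΦ.natDegree_eq, Polynomial.natDegree_X_sub_C]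
    rfl
  have hx0 : Polynomial.aeval x (spec Φ y') = 0 := by
    rw [Polynomial.aeval_def, Polynomial.eval₂_eq_eval_map, map_spec, eval_spec]
    show ev2 Φ (jd k (p ^ (a' + 1))) (jd k (p ^ (a' + 1 + 1))) = 0
    have := ev2_jd_up (k := k) hΦ (p ^ (a' + 1))
    rwa [jd_congr k (show p ^ (a' + 1) * p = p ^ (a' + 1 + 1) from (pow_succ p (a' + 1)).symm)]
      at this
  have hxz : x - jd k (p ^ a') ≠ 0 := by
    rw [sub_ne_zero]
    refine jd_ne_of_ne ?_
    intro h
    have := Nat.pow_right_injective hp.two_le h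
    omega
  have hx1 : Polynomial.aeval x (spec Φ y' /ₘ (Polynomial.X - Polynomial.C z')) = 0 := by
    have h := hx0
    rw [← hfac, map_mul, map_sub, Polynomial.aeval_X, Polynomial.aeval_C] at h
    rcases mul_eq_zero.mp h with h | h
    · exact absurd h hxz
    · exact h
  have key := relrank_le_natDegree (modularFunctionFieldFullC k M)
    (modularFunctionFieldFullC k (M * p)) hAB x
    (spec Φ y' /ₘ (Polynomial.X - Polynomial.C z')) hmonic hx1
    (full_mul_le_adjoin hp H ha ha') ?_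
  · rwa [hdeg] at key
  · refine jd_mem_full (M * p) _ ?_
    rw [pow_succ]
    exact mul_dvd_mul_right ha p

end Steps

end Fermat.Agent.S28.H626

end

end
-- ===== PACK-END S28/H626/Tower.lean

-- ===== PACK-BEGIN S28/H626/Upper.lean
section
/-
S28 helper (helper626): the upper bound `[k(j(q^d) : d ∣ N) : k(j)] ≤ ψ(N)` for every field `k`
in which `N` is invertible, from the prime-level modular polynomials; and its
linear-independence / spanning forms.
-/




set_option autoImplicit false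

noncomputable section

open ModularCurve HahnSeries Polynomial IntermediateField

namespace Fermat.Agent.S28.H626

/-! ### Arithmetic of `dedekindPsi` -/

section Psi

theorem psi_mul_prime_of_dvd {N p : ℕ} (hN : N ≠ 0) (hp : p.Prime) (hpN : p ∣ N) :
    dedekindPsi (N * p) = p * dedekindPsi N := by
  unfold dedekindPsi
  have hset : (N * p).divisors.filter Squarefree = N.divisors.filter Squarefree := by
    ext d
    simp only [Finset.mem_filter, Nat.mem_divisors]
    constructor
    · rintro ⟨⟨hd, _⟩, hsq⟩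
      refine ⟨⟨?_, hN⟩, hsq⟩
      have h2 : d ∣ N ^ 2 := by
        rw [pow_two]
        exact hd.trans (mul_dvd_mul_left N hpN)
      exact (hsq.dvd_pow_iff_dvd two_ne_zero).1 h2
    · rintro ⟨⟨hd, _⟩, hsq⟩
      exact ⟨⟨hd.mul_right p, mul_ne_zero hN hp.ne_zero⟩, hsq⟩
  rw [hset, Finset.mul_sum]
  refine Finset.sum_congr rfl fun d hd => ?_
  have hdN : d ∣ N := (Nat.mem_divisors.1 (Finset.mem_filter.1 hd).1).1
  obtain ⟨e, rfl⟩ := hdN
  have hd0 : 0 < d := Nat.pos_of_ne_zero (by rintro rfl; simp at hN)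
  rw [mul_assoc, Nat.mul_div_cancel_left _ hd0, Nat.mul_div_cancel_left _ hd0, mul_comm]

theorem psi_mul_prime_of_not_dvd {N p : ℕ} (hN : N ≠ 0) (hp : p.Prime) (hpN : ¬ p ∣ N) :
    dedekindPsi (N * p) = (p + 1) * dedekindPsi N := by
  unfold dedekindPsi
  have hcop : ∀ d, d ∣ N → Nat.Coprime d p := fun d hd =>
    (Nat.Coprime.symm ((Nat.Prime.coprime_iff_not_dvd hp).2 fun h => hpN (h.trans hd)))
  have hset : (N * p).divisors.filter Squarefree
      = (N.divisors.filter Squarefree) ∪ (N.divisors.filter Squarefree).image (· * p) := by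
    ext d
    simp only [Finset.mem_filter, Nat.mem_divisors, Finset.mem_union, Finset.mem_image]
    constructor
    · rintro ⟨⟨hd, _⟩, hsq⟩
      by_cases hpd : p ∣ d
      · right
        obtain ⟨e, rfl⟩ := hpd
        refine ⟨e, ⟨⟨?_, hN⟩, hsq.squarefree_of_dvd (Dvd.intro_left p rfl)⟩, mul_comm e p⟩
        rw [mul_comm p e] at hd
        exact Nat.dvd_of_mul_dvd_mul_right hp.pos hd
      · left
        refine ⟨⟨?_, hN⟩, hsq⟩
        have : Nat.Coprime d p := (Nat.Coprime.symm ((Nat.Prime.coprime_iff_not_dvd hp).2 hpd))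
        exact this.dvd_of_dvd_mul_right hd
    · rintro (⟨⟨hd, _⟩, hsq⟩ | ⟨e, ⟨⟨he, _⟩, hsq⟩, rfl⟩)
      · exact ⟨⟨hd.mul_right p, mul_ne_zero hN hp.ne_zero⟩, hsq⟩
      · refine ⟨⟨mul_dvd_mul_right he p, mul_ne_zero hN hp.ne_zero⟩, ?_⟩
        exact (Nat.squarefree_mul (hcop e he)).2 ⟨hsq, hp.squarefree⟩
  have hdisj : Disjoint (N.divisors.filter Squarefree)
      ((N.divisors.filter Squarefree).image (· * p)) := by
    rw [Finset.disjoint_left]
    intro d hd hd'
    simp only [Finset.mem_filter, Nat.mem_divisors, Finset.mem_image] at hd hd'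
    obtain ⟨e, _, rfl⟩ := hd'
    exact hpN ((Dvd.intro_left e rfl).trans hd.1.1)
  rw [hset, Finset.sum_union hdisj, Finset.sum_image, add_mul, one_mul, Finset.mul_sum]
  · congr 1
    · refine Finset.sum_congr rfl fun d hd => ?_
      have hdN : d ∣ N := (Nat.mem_divisors.1 (Finset.mem_filter.1 hd).1).1
      obtain ⟨e, rfl⟩ := hdN
      have hd0 : 0 < d := Nat.pos_of_ne_zero (by rintro rfl; simp at hN)
      rw [mul_assoc, Nat.mul_div_cancel_left _ hd0, Nat.mul_div_cancel_left _ hd0, mul_comm]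
    · refine Finset.sum_congr rfl fun d hd => ?_
      exact Nat.mul_div_mul_right N d hp.pos
  · intro a _ b _ hab
    exact Nat.eq_of_mul_eq_mul_right hp.pos hab

end Psi

/-! ### The upper bound -/

section Upper

variable {k : Type*} [Field k]

theorem full_one_eq : modularFunctionFieldFullC k 1 = IntermediateField.adjoin k {jqModC k} := by
  apply le_antisymm
  · refine full_le_of_forall_mem 1 _ ?_
    intro d _ hd
    have hd1 : d = 1 := Nat.dvd_one.mp hd
    rw [jd_congr k hd1, jd_one]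
    exact IntermediateField.subset_adjoin _ _ (Set.mem_singleton _)
  · rw [IntermediateField.adjoin_le_iff]
    intro y hy
    rw [Set.mem_singleton_iff] at hy
    rw [hy]
    exact jqModC_mem_full k 1

/-- **Upper bound**, `relrank` form (a `Cardinal` inequality, so it includes finiteness). -/
theorem relrank_full_le (N : ℕ) [NeZero N] (H : HasModPolys k N) :
    IntermediateField.relrank (modularFunctionFieldFullC k 1) (modularFunctionFieldFullC k N) ≤
      ((dedekindPsi N : ℕ) : Cardinal) := by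
  revert H
  have main : ∀ n : ℕ, ∀ (N : ℕ) [NeZero N], N = n → HasModPolys k N →
      IntermediateField.relrank (modularFunctionFieldFullC k 1) (modularFunctionFieldFullC k N) ≤
        ((dedekindPsi N : ℕ) : Cardinal) := by
    intro n
    induction n using Nat.strong_induction_on with
    | _ n ih =>
      intro N instN hNn H
      by_cases hN1 : N = 1
      · subst hN1
        rw [IntermediateField.relrank_self, dedekindPsi_one, Nat.cast_one]
      obtain ⟨p, hp, hpN⟩ := Nat.exists_prime_and_dvd hN1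
      obtain ⟨M, hM⟩ := hpN
      have hNM : N = M * p := by rw [hM, mul_comm]
      subst hNM
      have hM0 : M ≠ 0 := by
        rintro rfl
        exact (NeZero.ne (0 * p)) (zero_mul p)
      have instM : NeZero M := ⟨hM0⟩
      have hlt : M < n := by
        rw [← hNn]
        have := hp.one_lt
        have hMpos : 0 < M := Nat.pos_of_ne_zero hM0
        nlinarith
      have IH := ih M hlt M rfl (H.mono (Dvd.intro p rfl))
      have h1 : modularFunctionFieldFullC k 1 ≤ modularFunctionFieldFullC k M :=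
        full_degeneracyC_le k (one_dvd M)
      have h2 : modularFunctionFieldFullC k M ≤ modularFunctionFieldFullC k (M * p) :=
        full_degeneracyC_le k (Dvd.intro p rfl)
      rw [← IntermediateField.relrank_mul_relrank h1 h2]
      by_cases hpM : p ∣ M
      · rw [psi_mul_prime_of_dvd hM0 hp hpM, mul_comm p, Nat.cast_mul]
        exact mul_le_mul' IH (relrank_full_step_of_dvd hp H hpM)
      · rw [psi_mul_prime_of_not_dvd hM0 hp hpM, mul_comm (p + 1), Nat.cast_mul]
        exact mul_le_mul' IH (relrank_full_step_of_not_dvd hp H hpM)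
  exact main N N rfl

/-- `k(j) ≤ k(j(q^d) : d ∣ N)`. -/
theorem adjoin_j_le_full (N : ℕ) [NeZero N] :
    IntermediateField.adjoin k {jqModC k} ≤ modularFunctionFieldFullC k N := by
  rw [IntermediateField.adjoin_le_iff]
  intro y hy
  rw [Set.mem_singleton_iff] at hy
  rw [hy]
  exact jqModC_mem_full k N

/-- **Upper bound** over `k(j) = IntermediateField.adjoin k {j}`. -/
theorem relrank_adjoin_j_full_le (N : ℕ) [NeZero N] (H : HasModPolys k N) :
    IntermediateField.relrank (IntermediateField.adjoin k {jqModC k})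
      (modularFunctionFieldFullC k N) ≤ ((dedekindPsi N : ℕ) : Cardinal) := by
  rw [← full_one_eq]
  exact relrank_full_le N H

/-- The function field as a finite-dimensional `k(j)`-vector space: rank bound. -/
theorem rank_extendScalars_le (N : ℕ) [NeZero N] (H : HasModPolys k N) :
    Module.rank (IntermediateField.adjoin k {jqModC k})
      (IntermediateField.extendScalars (adjoin_j_le_full (k := k) N)) ≤
        ((dedekindPsi N : ℕ) : Cardinal) := by
  rw [← IntermediateField.relrank_eq_rank_of_le]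
  exact relrank_adjoin_j_full_le N H

theorem finiteDimensional_extendScalars (N : ℕ) [NeZero N] (H : HasModPolys k N) :
    FiniteDimensional (IntermediateField.adjoin k {jqModC k})
      (IntermediateField.extendScalars (adjoin_j_le_full (k := k) N)) := by
  rw [FiniteDimensional, ← Module.rank_lt_aleph0_iff]
  exact lt_of_le_of_lt (rank_extendScalars_le N H) (Cardinal.nat_lt_aleph0 _)

theorem finrank_extendScalars_le (N : ℕ) [NeZero N] (H : HasModPolys k N) :
    Module.finrank (IntermediateField.adjoin k {jqModC k})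
      (IntermediateField.extendScalars (adjoin_j_le_full (k := k) N)) ≤ dedekindPsi N := by
  have := finiteDimensional_extendScalars N H
  have h := rank_extendScalars_le N H
  rw [← Module.finrank_eq_rank, Nat.cast_le] at h
  exact h

/-- **Upper bound, linear-independence form.** A family of elements of `k(j(q^d) : d ∣ N)` which
is linearly independent over `k(j)` has at most `ψ(N)` members. -/
theorem card_le_of_linearIndependent (N : ℕ) [NeZero N] (H : HasModPolys k N)
    {ι : Type*} [Fintype ι] (v : ι → LaurentSeries k)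
    (hv : ∀ i, v i ∈ modularFunctionFieldFullC k N)
    (hli : LinearIndependent (IntermediateField.adjoin k {jqModC k}) v) :
    Fintype.card ι ≤ dedekindPsi N := by
  have := finiteDimensional_extendScalars N H
  set B := IntermediateField.extendScalars (adjoin_j_le_full (k := k) N) with hB
  let w : ι → B := fun i => ⟨v i, hv i⟩
  have hw : LinearIndependent (IntermediateField.adjoin k {jqModC k}) w := by
    refine LinearIndependent.of_comp (B.val.toLinearMap) ?_
    exact hli
  exact (hw.fintype_card_le_finrank).trans (finrank_extendScalars_le N H)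

/-- **Upper bound, spanning form.** A family of at least `ψ(N)` elements of
`k(j(q^d) : d ∣ N)` which is linearly independent over `k(j)` spans `k(j(q^d) : d ∣ N)`
over `k(j)`. -/
theorem mem_span_of_linearIndependent (N : ℕ) [NeZero N] (H : HasModPolys k N)
    {ι : Type*} [Fintype ι] (v : ι → LaurentSeries k)
    (hv : ∀ i, v i ∈ modularFunctionFieldFullC k N)
    (hli : LinearIndependent (IntermediateField.adjoin k {jqModC k}) v)
    (hcard : dedekindPsi N ≤ Fintype.card ι)
    {x : LaurentSeries k} (hx : x ∈ modularFunctionFieldFullC k N) :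
    x ∈ Submodule.span (IntermediateField.adjoin k {jqModC k}) (Set.range v) := by
  classical
  have := finiteDimensional_extendScalars N H
  set B := IntermediateField.extendScalars (adjoin_j_le_full (k := k) N) with hB
  let w : ι → B := fun i => ⟨v i, hv i⟩
  have hw : LinearIndependent (IntermediateField.adjoin k {jqModC k}) w := by
    refine LinearIndependent.of_comp (B.val.toLinearMap) ?_
    exact hli
  have hcard' : Fintype.card ι = Module.finrank (IntermediateField.adjoin k {jqModC k}) B :=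
    le_antisymm hw.fintype_card_le_finrank ((finrank_extendScalars_le N H).trans hcard)
  have htop : Submodule.span (IntermediateField.adjoin k {jqModC k}) (Set.range w) = ⊤ :=
    hw.span_eq_top_of_card_eq_finrank' hcard'
  have hxB : (⟨x, hx⟩ : B) ∈ Submodule.span (IntermediateField.adjoin k {jqModC k})
      (Set.range w) := by
    rw [htop]; exact Submodule.mem_top
  have := Submodule.apply_mem_span_image_of_mem_span (B.val.toLinearMap) hxB
  have himg : (B.val.toLinearMap) '' (Set.range w) = Set.range v := by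
    ext y
    constructor
    · rintro ⟨_, ⟨i, rfl⟩, rfl⟩
      exact ⟨i, rfl⟩
    · rintro ⟨i, rfl⟩
      exact ⟨w i, ⟨i, rfl⟩, rfl⟩
  rw [himg] at this
  exact this

end Upper

end Fermat.Agent.S28.H626

end

end
-- ===== PACK-END S28/H626/Upper.lean

-- ===== PACK-BEGIN S28/H867/Core.lean
section








set_option autoImplicit false
noncomputable section
open ModularCurve HahnSeries IntermediateField Polynomial

namespace Fermat.Agent.S28.H867

section Psi

theorem gFun_eq_dedekindPsi : ∀ {N : ℕ}, N ≠ 0 → gFun N = dedekindPsi N := by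
  intro N
  induction N using Nat.strong_induction_on with
  | _ N ih =>
    intro hN
    rcases Nat.lt_or_ge 1 N with hN1 | hN1
    swap
    · have : N = 1 := by omega
      subst this
      rw [gFun_one, dedekindPsi_one]
    have hpp : N.minFac.Prime := Nat.minFac_prime (by omega)
    have hpN : N.minFac ∣ N := Nat.minFac_dvd N
    have hNe : N / N.minFac * N.minFac = N := Nat.div_mul_cancel hpN
    have hM0 : N / N.minFac ≠ 0 := fun h0 => hN (by rw [← hNe, h0, zero_mul])
    have hlt : N / N.minFac < N := Nat.div_lt_self (by omega) hpp.one_lt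
    have ihM := ih _ hlt hM0
    by_cases hd : N.minFac ∣ N / N.minFac
    · calc gFun N = gFun (N / N.minFac * N.minFac) := by rw [hNe]
        _ = N.minFac * gFun (N / N.minFac) := gFun_mul_of_dvd hM0 hpp hd
        _ = N.minFac * dedekindPsi (N / N.minFac) := by rw [ihM]
        _ = dedekindPsi (N / N.minFac * N.minFac) := (H626.psi_mul_prime_of_dvd hM0 hpp hd).symm
        _ = dedekindPsi N := by rw [hNe]
    · calc gFun N = gFun (N / N.minFac * N.minFac) := by rw [hNe]
        _ = (N.minFac + 1) * gFun (N / N.minFac) := gFun_mul_of_not_dvd hM0 hpp hd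
        _ = (N.minFac + 1) * dedekindPsi (N / N.minFac) := by rw [ihM]
        _ = dedekindPsi (N / N.minFac * N.minFac) :=
            (H626.psi_mul_prime_of_not_dvd hM0 hpp hd).symm
        _ = dedekindPsi N := by rw [hNe]

end Psi

section Adapters

variable (k : Type*) [Field k]

/-- Leaf [L.I] from helper145's `eq_zero_of_sum_qExpand_mul_pow_eq_zero`. -/
theorem leafI (p : ℕ) [NeZero p] : LeafI k p := by
  intro B hB
  rw [Fintype.linearIndependent_iff]
  intro g hg i
  have hc : ∀ i, ∃ c : LaurentSeries k, qExpand k p c = (g i : LaurentSeries k) := by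
    intro i
    obtain ⟨c, hc⟩ := hB (g i).2
    exact ⟨c, hc⟩
  choose c hc using hc
  have h : ∑ i : Fin p, qExpand k p (c i) * (jqModC k) ^ (i : ℕ) = 0 := by
    rw [← hg]
    refine Finset.sum_congr rfl fun i _ => ?_
    rw [hc i]
    rfl
  have := H145.eq_zero_of_sum_qExpand_mul_pow_eq_zero p (jqModC k) (H145.jqModC_ne_zero' k)
    (H145.isCoprime_order_jqModC k p) c h i
  apply Subtype.ext
  rw [← hc i, this, map_zero]
  rfl

/-- Leaf [L.B1] from helper88's `h88_jp_not_mem_jField`. -/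
theorem leafB1 (p : ℕ) [NeZero p] (hp : p.Prime) (hpk : (p : k) ≠ 0) (W : UnitPolyData p)
    (hθ : (thetaL ℤ (jqModC ℤ)) ^ 6 = deltaL ℤ * (jqModC ℤ) ^ 4 * (jqModC ℤ - 1728) ^ 3) :
    LeafB1 k p :=
  h88_jp_not_mem_jField k p hpk hp.one_lt W hθ

/-- `ModPolyData` in helper626's hypothesis form. -/
theorem isModPoly_of_modPolyData {p : ℕ} [NeZero p] (D : ModPolyData p) :
    H626.IsModPoly p D.Φ := by
  have hev : ∀ y x : LaurentSeries ℤ, H626.ev2 D.Φ y x = D.Φ.eval₂ (evalAt y) x := by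
    intro y x
    unfold H626.ev2
    congr 1
    apply Polynomial.ringHom_ext
    · intro a; simp [evalAt]
    · simp [evalAt]
  refine ⟨D.monic, D.natDegree_eq, ?_, ?_⟩
  · rw [hev]; exact D.eval_jp
  · rw [hev]; exact D.eval_j

end Adapters

end Fermat.Agent.S28.H867

namespace Fermat.Agent.S28.H867

section Assembly

variable (k : Type*) [Field k]

theorem hasModPolys (N : ℕ)
    (hΦ : ∀ p : ℕ, p.Prime → p ∣ N → ∀ [NeZero p], Nonempty (ModPolyData p))
    (hchar : ∀ p : ℕ, p.Prime → p ∣ N → (p : k) ≠ 0) : H626.HasModPolys k N := by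
  intro p hp hpN
  have : NeZero p := ⟨hp.ne_zero⟩
  obtain ⟨D⟩ := hΦ p hp hpN
  exact ⟨hchar p hp hpN, D.Φ, isModPoly_of_modPolyData D⟩

/-- The upper bound in `relfinrank` form. -/
theorem degE_le_gFun (M : ℕ) (hM : M ≠ 0) (H : H626.HasModPolys k M) : degE k M ≤ gFun M := by
  have : NeZero M := ⟨hM⟩
  rw [gFun_eq_dedekindPsi hM, degE, relfinrank_eq_finrank_of_le (jField_le_EF k M)]
  exact H626.finrank_extendScalars_le M H

theorem good_of_inputs (N : ℕ) (hN : N ≠ 0)
    (hΦ : ∀ p : ℕ, p.Prime → p ∣ N → ∀ [NeZero p], Nonempty (ModPolyData p))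
    (hW : ∀ p : ℕ, p.Prime → p ∣ N → ∀ [NeZero p], Nonempty (UnitPolyData p))
    (hθ : (thetaL ℤ (jqModC ℤ)) ^ 6 = deltaL ℤ * (jqModC ℤ) ^ 4 * (jqModC ℤ - 1728) ^ 3)
    (hchar : ∀ p : ℕ, p.Prime → p ∣ N → (p : k) ≠ 0) : Good k N where
  ne_zero := hN
  modPoly := hΦ
  prime := by
    intro p hp hpN _
    obtain ⟨D⟩ := hΦ p hp hpN
    obtain ⟨W⟩ := hW p hp hpN
    exact primeLevel_of_leaves k hp D (leafI k p) (leafB1 k p hp (hchar p hp hpN) W hθ)
  indep := fun p _ _ _ => leafI k p
  upper := by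
    intro M hMN
    have hM : M ≠ 0 := fun h0 => hN (by rw [h0] at hMN; exact Nat.eq_zero_of_zero_dvd hMN)
    exact degE_le_gFun k M hM ((hasModPolys k N hΦ hchar).mono hMN)

variable {k} in
/-- Extraction of `ψ(N)` independent elements. -/
theorem Good.exists_linearIndependent {N : ℕ} (h : Good k N) :
    ∃ x : Fin (dedekindPsi N) → LaurentSeries k,
      (∀ i, x i ∈ modularFunctionFieldFullC k N) ∧ LinearIndependent (jField k) x := by
  have hdeg : degE k N = dedekindPsi N := by rw [h.degE_eq, gFun_eq_dedekindPsi h.ne_zero]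
  have hle := jField_le_EF k N
  rw [degE, relfinrank_eq_finrank_of_le hle] at hdeg
  obtain ⟨x, hx⟩ : ∃ x : Fin (dedekindPsi N) → extendScalars hle,
      LinearIndependent (jField k) x :=
    exists_linearIndependent_of_le_finrank hdeg.ge
  refine ⟨fun i => (x i : LaurentSeries k), fun i => (x i).2, ?_⟩
  have := hx.map' (extendScalars hle).val.toLinearMap
    (LinearMap.ker_eq_bot.mpr (extendScalars hle).val.injective)
  exact this

end Assembly

section Final

/-- **[L]** `CoreData` from the three analytic inputs. -/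
theorem coreData_of_inputs (N : ℕ) [NeZero N] (ℓ : ℕ) [Fact ℓ.Prime] (hℓN : ¬ ℓ ∣ N)
    (K : Type) [Field K] [CharP K ℓ]
    (hΦ : ∀ p : ℕ, p.Prime → p ∣ N → ∀ [NeZero p], Nonempty (ModPolyData p))
    (hW : ∀ p : ℕ, p.Prime → p ∣ N → ∀ [NeZero p], Nonempty (UnitPolyData p))
    (hθ : (thetaL ℤ (jqModC ℤ)) ^ 6 = deltaL ℤ * (jqModC ℤ) ^ 4 * (jqModC ℤ - 1728) ^ 3) :
    CoreData N K := by
  have hN : N ≠ 0 := NeZero.ne N
  have hcharK : ∀ p : ℕ, p.Prime → p ∣ N → (p : K) ≠ 0 := by
    intro p hp hpN h0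
    have hdvd : ℓ ∣ p := (CharP.cast_eq_zero_iff K ℓ p).mp h0
    have hℓ : ℓ.Prime := Fact.out
    have : ℓ = p := (Nat.prime_dvd_prime_iff_eq hℓ hp).mp hdvd
    exact hℓN (this ▸ hpN)
  have hcharQ : ∀ p : ℕ, p.Prime → p ∣ N → (p : ℚ) ≠ 0 := by
    intro p hp _
    exact_mod_cast hp.ne_zero
  have hgood : Good K N := good_of_inputs K N hN hΦ hW hθ hcharK
  refine H325.coreData_of_bounds N K (RingHom.id K) (dedekindPsi N)
    (coreData_integral N hΦ) ?_ hgood.exists_linearIndependent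
  intro m x hx hli
  have := H626.card_le_of_linearIndependent (k := ℚ) N (hasModPolys ℚ N hΦ hcharQ) x hx hli
  simpa using this

end Final

end Fermat.Agent.S28.H867

end
end
-- ===== PACK-END S28/H867/Core.lean

-- ===== PACK-BEGIN S28/H807/Points.lean
section
/-
S28 / helper807 — the points `(τ+b)/p` and `pτ` of the upper half plane, the nome `q(τ)`,
and `q`-expansions of functions on `ℍ`.
-/



set_option autoImplicit false
set_option maxHeartbeats 400000

noncomputable section

open ModularCurve Polynomial Matrix UpperHalfPlane Complex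

namespace Fermat.Agent.S28.H807

/-- The nome `q(τ) = exp(2πiτ)`. -/
def nome (τ : ℍ) : ℂ := Complex.exp (2 * Real.pi * Complex.I * (τ : ℂ))

theorem nome_ne_zero (τ : ℍ) : nome τ ≠ 0 := Complex.exp_ne_zero _

theorem nome_eq_qParam (τ : ℍ) : nome τ = Function.Periodic.qParam 1 (τ : ℂ) := by
  simp [nome, Function.Periodic.qParam]

/-- `f` has the (everywhere convergent) `q`-expansion `c`. -/
def HasQExp (c : LaurentSeries ℂ) (F : ℍ → ℂ) : Prop :=
  ∀ τ : ℍ, HasLSum c (nome τ) (F τ)

theorem hasQExp_iff (c : LaurentSeries ℂ) (F : ℍ → ℂ) :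
    HasQExp c F ↔ ∀ τ : ℍ, HasSum (fun n : ℤ => c.coeff n *
      (Function.Periodic.qParam 1 (τ : ℂ)) ^ n) (F τ) := by
  unfold HasQExp HasLSum
  simp only [nome_eq_qParam]

/-- The point `(τ + b)/p`. -/
def divShift (p : ℕ) [NeZero p] (b : ℤ) (τ : ℍ) : ℍ :=
  ⟨((τ : ℂ) + (b : ℂ)) / (p : ℂ), by
    have hp : (0 : ℝ) < (p : ℝ) := by exact_mod_cast Nat.pos_of_ne_zero (NeZero.ne p)
    have h1 : (((τ : ℂ) + (b : ℂ)) / (p : ℂ)).im = (τ : ℂ).im / (p : ℝ) := by
      rw [show ((p : ℂ)) = ((p : ℝ) : ℂ) by push_cast; rfl, Complex.div_ofReal_im]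
      simp
    rw [h1]
    exact div_pos τ.im_pos hp⟩

/-- The point `pτ`. -/
def mulNat (p : ℕ) [NeZero p] (τ : ℍ) : ℍ :=
  ⟨(p : ℂ) * (τ : ℂ), by
    have hp : (0 : ℝ) < (p : ℝ) := by exact_mod_cast Nat.pos_of_ne_zero (NeZero.ne p)
    have h1 : ((p : ℂ) * (τ : ℂ)).im = (p : ℝ) * (τ : ℂ).im := by
      rw [show ((p : ℂ)) = ((p : ℝ) : ℂ) by push_cast; rfl, Complex.im_ofReal_mul]
    rw [h1]
    exact mul_pos hp τ.im_pos⟩

@[simp] theorem coe_divShift (p : ℕ) [NeZero p] (b : ℤ) (τ : ℍ) :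
    ((divShift p b τ : ℍ) : ℂ) = ((τ : ℂ) + (b : ℂ)) / (p : ℂ) := rfl

@[simp] theorem coe_mulNat (p : ℕ) [NeZero p] (τ : ℍ) :
    ((mulNat p τ : ℍ) : ℂ) = (p : ℂ) * (τ : ℂ) := rfl

theorem nome_mulNat (p : ℕ) [NeZero p] (τ : ℍ) : nome (mulNat p τ) = nome τ ^ p := by
  unfold nome
  rw [← Complex.exp_nat_mul, coe_mulNat]
  congr 1; ring

theorem nome_divShift_pow (p : ℕ) [NeZero p] (b : ℤ) (τ : ℍ) :
    nome (divShift p b τ) ^ p = nome τ := by
  have hp : (p : ℂ) ≠ 0 := by exact_mod_cast NeZero.ne p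
  unfold nome
  rw [← Complex.exp_nat_mul, coe_divShift]
  have : (p : ℂ) * (2 * Real.pi * Complex.I * (((τ : ℂ) + (b : ℂ)) / (p : ℂ)))
      = 2 * Real.pi * Complex.I * (τ : ℂ) + (b : ℂ) * (2 * Real.pi * Complex.I) := by
    field_simp
  rw [this, Complex.exp_add, Complex.exp_int_mul_two_pi_mul_I, mul_one]

theorem nome_divShift_injective (p : ℕ) [NeZero p] (τ : ℍ) :
    Function.Injective (fun b : Fin p => nome (divShift p ((b : ℕ) : ℤ) τ)) := by
  have hp : (p : ℂ) ≠ 0 := by exact_mod_cast NeZero.ne p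
  intro b b' h
  simp only [nome] at h
  rw [Complex.exp_eq_exp_iff_exists_int] at h
  obtain ⟨n, hn⟩ := h
  simp only [coe_divShift] at hn
  have hpi : (2 * Real.pi * Complex.I : ℂ) ≠ 0 := by
    simp [Real.pi_ne_zero]
  have h1 : ((τ : ℂ) + ((b : ℕ) : ℤ)) / (p : ℂ) = ((τ : ℂ) + ((b' : ℕ) : ℤ)) / (p : ℂ) + n := by
    have := hn
    have h2 : 2 * Real.pi * Complex.I * (((τ : ℂ) + ((b : ℕ) : ℤ)) / (p : ℂ))
        = 2 * Real.pi * Complex.I * (((τ : ℂ) + ((b' : ℕ) : ℤ)) / (p : ℂ) + n) := by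
      rw [this]; ring
    exact mul_left_cancel₀ hpi h2
  have h3 : (((b : ℕ) : ℤ) : ℂ) = (((b' : ℕ) : ℤ) : ℂ) + (n : ℂ) * (p : ℂ) := by
    field_simp at h1
    linear_combination h1
  have h4 : ((b : ℕ) : ℤ) = ((b' : ℕ) : ℤ) + n * (p : ℤ) := by exact_mod_cast h3
  have hb := b.2
  have hb' := b'.2
  have hn0 : n = 0 := by
    by_contra hne
    rcases lt_or_gt_of_ne hne with hlt | hgt
    · have : n ≤ -1 := by omega
      have : n * (p : ℤ) ≤ -1 * (p : ℤ) := by
        apply mul_le_mul_of_nonneg_right this; positivity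
      omega
    · have : 1 ≤ n := by omega
      have : 1 * (p : ℤ) ≤ n * (p : ℤ) := by
        apply mul_le_mul_of_nonneg_right this; positivity
      omega
  rw [hn0] at h4
  apply Fin.ext
  omega

/-- **Generic analytic theorem**: the coefficients of `(X - e)·charpoly(secMat p g)` have
convergent `q`-expansions, with values the coefficients of
`(X - E(τ)) ∏_b (X - G((τ+b)/p))`. -/
theorem hasQExp_coeff_mul_charpoly (p : ℕ) [NeZero p] (g e : LaurentSeries ℂ) (G E : ℍ → ℂ)
    (hG : HasQExp g G) (hE : HasQExp e E) (k : ℕ) :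
    HasQExp (((X - C e) * (secMat p g).charpoly).coeff k)
      (fun τ => ((X - C (E τ)) *
        ∏ b : Fin p, (X - C (G (divShift p ((b : ℕ) : ℤ) τ)))).coeff k) := by
  intro τ
  exact hasLSum_coeff_mul_charpoly g e (nome τ)
    (fun b : Fin p => nome (divShift p ((b : ℕ) : ℤ) τ))
    (fun b => nome_ne_zero _) (fun b => nome_divShift_pow p _ τ)
    (nome_divShift_injective p τ)
    (fun b => G (divShift p ((b : ℕ) : ℤ) τ)) (fun b => hG _) (E τ) (hE τ) k

/-- `q`-expansion of `τ ↦ F(pτ)`. -/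
theorem HasQExp.mulNat {c : LaurentSeries ℂ} {F : ℍ → ℂ} (h : HasQExp c F) (p : ℕ) [NeZero p] :
    HasQExp (ModularCurve.qExpand ℂ p c) (fun τ => F (mulNat p τ)) := by
  intro τ
  apply HasLSum.expand
  rw [← nome_mulNat]
  exact h _

theorem HasQExp.mul {c d : LaurentSeries ℂ} {F G : ℍ → ℂ} (h1 : HasQExp c F)
    (h2 : HasQExp d G) : HasQExp (c * d) (fun τ => F τ * G τ) :=
  fun τ => (h1 τ).mul (nome_ne_zero τ) (h2 τ)

theorem HasQExp.add {c d : LaurentSeries ℂ} {F G : ℍ → ℂ} (h1 : HasQExp c F)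
    (h2 : HasQExp d G) : HasQExp (c + d) (fun τ => F τ + G τ) :=
  fun τ => (h1 τ).add (h2 τ)

theorem hasQExp_C (a : ℂ) : HasQExp (HahnSeries.C a) (fun _ => a) :=
  fun _ => hasLSum_C _ a

theorem HasQExp.unique {c : LaurentSeries ℂ} {F G : ℍ → ℂ} (h1 : HasQExp c F)
    (h2 : HasQExp c G) : F = G :=
  funext fun τ => (h1 τ).unique (h2 τ)

end Fermat.Agent.S28.H807

end

end
-- ===== PACK-END S28/H807/Points.lean

-- ===== PACK-BEGIN S28/H807/SAction.lean
section
/-
S28 / helper807 — the action of `S : τ ↦ -1/τ` on the `p+1` conjugates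
`{E(τ)} ∪ {G((τ+b)/p) : b < p}`: abstract permutation lemma + the point identities in `ℍ`.
-/



set_option autoImplicit false
set_option maxHeartbeats 400000

noncomputable section

open ModularCurve Polynomial Matrix UpperHalfPlane Complex
open scoped MatrixGroups

namespace Fermat.Agent.S28.H807

section Perm

variable (p : ℕ) [Fact p.Prime]

/-- `b ↦ -1/b` on nonzero residues, on representatives in `Fin p`. -/
def negInvFin (b : Fin p) : Fin p :=
  ⟨(-((b : ℕ) : ZMod p)⁻¹).val, ZMod.val_lt _⟩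

theorem negInvFin_cast (b : Fin p) :
    (((negInvFin p b : Fin p) : ℕ) : ZMod p) = -((b : ℕ) : ZMod p)⁻¹ := by
  simp [negInvFin]

theorem cast_ne_zero_of_ne_zero {b : Fin p} (hb : (b : ℕ) ≠ 0) : (((b : ℕ) : ZMod p)) ≠ 0 := by
  intro h
  rw [ZMod.natCast_eq_zero_iff] at h
  have := Nat.le_of_dvd (Nat.pos_of_ne_zero hb) h
  exact absurd b.2 (not_lt.mpr this)

theorem negInvFin_ne_zero {b : Fin p} (hb : (b : ℕ) ≠ 0) : ((negInvFin p b : Fin p) : ℕ) ≠ 0 := by
  intro h
  have h1 := negInvFin_cast p b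
  rw [h] at h1
  simp only [Nat.cast_zero] at h1
  have h2 : (((b : ℕ) : ZMod p))⁻¹ = 0 := by
    have := h1.symm
    rwa [neg_eq_zero] at this
  rw [inv_eq_zero] at h2
  exact cast_ne_zero_of_ne_zero p hb h2

theorem negInvFin_negInvFin {b : Fin p} (_hb : (b : ℕ) ≠ 0) :
    negInvFin p (negInvFin p b) = b := by
  apply Fin.ext
  show (-(((negInvFin p b : Fin p) : ℕ) : ZMod p)⁻¹).val = (b : ℕ)
  rw [negInvFin_cast, inv_neg, neg_neg, inv_inv, ZMod.val_natCast_of_lt b.2]

theorem dvd_mul_negInvFin_add_one {b : Fin p} (hb : (b : ℕ) ≠ 0) :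
    (p : ℤ) ∣ ((b : ℕ) : ℤ) * (((negInvFin p b : Fin p) : ℕ) : ℤ) + 1 := by
  have h1 : ((((b : ℕ) : ℤ) * (((negInvFin p b : Fin p) : ℕ) : ℤ) + 1 : ℤ) : ZMod p) = 0 := by
    push_cast
    rw [negInvFin_cast, mul_neg, mul_inv_cancel₀ (cast_ne_zero_of_ne_zero p hb)]
    ring
  exact (ZMod.intCast_zmod_eq_zero_iff_dvd _ p).mp h1

/-- The permutation of `P¹(𝔽_p) = Option (Fin p)` induced by `S`. -/
def sPermFun : Option (Fin p) → Option (Fin p)
  | none => some ⟨0, (Fact.out : p.Prime).pos⟩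
  | some b => if (b : ℕ) = 0 then none else some (negInvFin p b)

theorem sPermFun_involutive : Function.Involutive (sPermFun p) := by
  intro i
  cases i with
  | none => simp [sPermFun]
  | some b =>
    by_cases hb : (b : ℕ) = 0
    · simp only [sPermFun, hb, if_true]
      congr 1
      exact Fin.ext hb.symm
    · simp only [sPermFun, hb, if_false, negInvFin_ne_zero p hb]
      rw [negInvFin_negInvFin p hb]

/-- **Abstract `S`-invariance**: if the conjugates at `τ'` are obtained from those at `τ` by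
the permutation `sPermFun`, the two products agree. -/
theorem prod_conj_eq_of_perm (E E' : ℂ) (G G' : Fin p → ℂ)
    (ha : E' = G ⟨0, (Fact.out : p.Prime).pos⟩)
    (hb : G' ⟨0, (Fact.out : p.Prime).pos⟩ = E)
    (hc : ∀ b : Fin p, (b : ℕ) ≠ 0 → G' b = G (negInvFin p b)) :
    (X - C E') * ∏ b : Fin p, (X - C (G' b)) = (X - C E) * ∏ b : Fin p, (X - C (G b)) := by
  set f : Option (Fin p) → ℂ := fun i => Option.elim i E G with hf
  set f' : Option (Fin p) → ℂ := fun i => Option.elim i E' G' with hf'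
  have h1 : (X - C E) * ∏ b : Fin p, (X - C (G b)) = ∏ i : Option (Fin p), (X - C (f i)) := by
    rw [Fintype.prod_option]; rfl
  have h2 : (X - C E') * ∏ b : Fin p, (X - C (G' b)) = ∏ i : Option (Fin p), (X - C (f' i)) := by
    rw [Fintype.prod_option]; rfl
  have h3 : ∀ i, f' i = f (sPermFun p i) := by
    intro i
    cases i with
    | none => simp [hf, hf', sPermFun, ha]
    | some b =>
      by_cases hb0 : (b : ℕ) = 0
      · have hb1 : b = ⟨0, (Fact.out : p.Prime).pos⟩ := Fin.ext hb0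
        subst hb1
        show G' ⟨0, (Fact.out : p.Prime).pos⟩ = f (sPermFun p (some ⟨0, (Fact.out : p.Prime).pos⟩))
        rw [hb]
        simp [hf, sPermFun]
      · simp [hf, hf', sPermFun, hb0, hc b hb0]
  rw [h1, h2]
  rw [← Equiv.prod_comp ((sPermFun_involutive p).toPerm _) (fun i => (X - C (f i)))]
  apply Finset.prod_congr rfl
  intro i _
  rw [h3 i]
  rfl

end Perm

section PointIdentities

variable (p : ℕ) [NeZero p]

theorem mulNat_S_smul (τ : ℍ) :
    mulNat p (ModularGroup.S • τ) = ModularGroup.S • divShift p 0 τ := by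
  have hp : (p : ℂ) ≠ 0 := by exact_mod_cast NeZero.ne p
  have hτ : (τ : ℂ) ≠ 0 := ne_zero τ
  apply UpperHalfPlane.ext
  rw [modular_S_smul, modular_S_smul]
  simp only [coe_mulNat, coe_divShift, Int.cast_zero, add_zero]
  field_simp

theorem divShift_zero_S_smul (τ : ℍ) :
    divShift p 0 (ModularGroup.S • τ) = ModularGroup.S • mulNat p τ := by
  have hp : (p : ℂ) ≠ 0 := by exact_mod_cast NeZero.ne p
  have hτ : (τ : ℂ) ≠ 0 := ne_zero τ
  apply UpperHalfPlane.ext
  rw [modular_S_smul, modular_S_smul]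
  simp only [coe_mulNat, coe_divShift, Int.cast_zero, add_zero]
  field_simp

theorem mulNat_divShift (b : ℤ) (τ : ℍ) :
    mulNat p (divShift p b τ) = ModularGroup.T ^ b • τ := by
  have hp : (p : ℂ) ≠ 0 := by exact_mod_cast NeZero.ne p
  apply UpperHalfPlane.ext
  rw [modular_T_zpow_smul]
  simp only [coe_mulNat, coe_divShift, UpperHalfPlane.coe_vadd]
  field_simp
  push_cast
  ring

/-- The matrix `[[B, -k], [p, -B']]` with `B B' + 1 = p k`. -/
def conjMat (B B' k : ℤ) (h : B * B' + 1 = (p : ℤ) * k) : SL(2, ℤ) :=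
  ⟨!![B, -k; (p : ℤ), -B'], by
    rw [Matrix.det_fin_two_of]
    linarith⟩

theorem conjMat_smul (B B' k : ℤ) (h : B * B' + 1 = (p : ℤ) * k) (τ : ℍ) :
    conjMat p B B' k h • divShift p B' τ = divShift p B (ModularGroup.S • τ) := by
  have hp : (p : ℂ) ≠ 0 := by exact_mod_cast NeZero.ne p
  have hτ : (τ : ℂ) ≠ 0 := ne_zero τ
  have hk : (B : ℂ) * (B' : ℂ) + 1 = (p : ℂ) * (k : ℂ) := by exact_mod_cast h
  apply UpperHalfPlane.ext
  rw [coe_specialLinearGroup_apply, modular_S_smul]
  simp only [coe_divShift, conjMat]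
  simp only [Matrix.of_apply, Matrix.cons_val',
    Matrix.cons_val_zero, Matrix.cons_val_one, Matrix.cons_val_fin_one, algebraMap_int_eq,
    eq_intCast, Int.cast_neg, Int.cast_natCast, Complex.ofReal_intCast, Complex.ofReal_neg,
    Complex.ofReal_natCast]
  have hden : (p : ℂ) * (((τ : ℂ) + (B' : ℂ)) / (p : ℂ)) + -(B' : ℂ) = (τ : ℂ) := by
    field_simp; ring
  rw [hden]
  field_simp
  linear_combination hk

theorem denom_conjMat (B B' k : ℤ) (h : B * B' + 1 = (p : ℤ) * k) (τ : ℍ) :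
    denom (conjMat p B B' k h) (divShift p B' τ) = (τ : ℂ) := by
  have hp : (p : ℂ) ≠ 0 := by exact_mod_cast NeZero.ne p
  rw [ModularGroup.denom_apply]
  simp only [coe_divShift, conjMat]
  simp only [Matrix.of_apply, Matrix.cons_val',
    Matrix.cons_val_zero, Matrix.cons_val_one, Matrix.cons_val_fin_one]
  push_cast
  field_simp
  ring

end PointIdentities

end Fermat.Agent.S28.H807

end

end
-- ===== PACK-END S28/H807/SAction.lean

-- ===== PACK-BEGIN S28/H807/Families.lean
section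
/-
S28 / helper807 — `S`-invariance of the two families of conjugates:
* `j`-family: `{J(pτ)} ∪ {J((τ+b)/p)}` for an `SL(2,ℤ)`-invariant `J`;
* unit family: `{p¹² D(pτ)/D(τ)} ∪ {D((τ+b)/p)/D(τ)}` for a weight-12 form `D`.
-/



set_option autoImplicit false
set_option maxHeartbeats 400000

noncomputable section

open ModularCurve Polynomial Matrix UpperHalfPlane Complex
open scoped MatrixGroups

namespace Fermat.Agent.S28.H807

variable (p : ℕ) [NeZero p]

/-- The polynomial `(X - E(τ)) ∏_b (X - G((τ+b)/p))`. -/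
def conjPoly (E G : ℍ → ℂ) (τ : ℍ) : Polynomial ℂ :=
  (X - C (E τ)) * ∏ b : Fin p, (X - C (G (divShift p ((b : ℕ) : ℤ) τ)))

theorem conjPoly_S_of (hp : p.Prime) (E G : ℍ → ℂ)
    (ha : ∀ τ : ℍ, E (ModularGroup.S • τ) = G (divShift p 0 τ))
    (hb : ∀ τ : ℍ, G (divShift p 0 (ModularGroup.S • τ)) = E τ)
    (hc : ∀ (B B' k : ℤ) (_ : B * B' + 1 = (p : ℤ) * k) (τ : ℍ),
      G (divShift p B (ModularGroup.S • τ)) = G (divShift p B' τ))
    (τ : ℍ) : conjPoly p E G (ModularGroup.S • τ) = conjPoly p E G τ := by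
  have : Fact p.Prime := ⟨hp⟩
  unfold conjPoly
  apply prod_conj_eq_of_perm p (E τ) (E (ModularGroup.S • τ))
    (fun b => G (divShift p ((b : ℕ) : ℤ) τ))
    (fun b => G (divShift p ((b : ℕ) : ℤ) (ModularGroup.S • τ)))
  · simpa using ha τ
  · simpa using hb τ
  · intro b hb0
    obtain ⟨k, hk⟩ := dvd_mul_negInvFin_add_one p hb0
    exact hc _ _ k hk τ

/-- `S`-invariance for the `j`-family. -/
theorem conjPoly_J_S (hp : p.Prime) (J : ℍ → ℂ)
    (hJ : ∀ (γ : SL(2, ℤ)) (τ : ℍ), J (γ • τ) = J τ) (τ : ℍ) :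
    conjPoly p (fun τ => J (mulNat p τ)) J (ModularGroup.S • τ)
      = conjPoly p (fun τ => J (mulNat p τ)) J τ := by
  apply conjPoly_S_of p hp
  · intro τ
    rw [mulNat_S_smul, hJ]
  · intro τ
    rw [divShift_zero_S_smul, hJ]
  · intro B B' k h τ
    rw [← conjMat_smul p B B' k h, hJ]

/-- The function `τ' ↦ D(τ')/D(pτ')`, whose values at `(τ+b)/p` are `D((τ+b)/p)/D(τ)`. -/
def unitG (D : ℍ → ℂ) (τ : ℍ) : ℂ := D τ / D (mulNat p τ)

/-- The function `τ ↦ p¹² D(pτ)/D(τ)`. -/
def unitE (D : ℍ → ℂ) (τ : ℍ) : ℂ := (p : ℂ) ^ 12 * D (mulNat p τ) / D τ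

/-- `S`-invariance for the unit family. -/
theorem conjPoly_unit_S (hp : p.Prime) (D : ℍ → ℂ) (hD0 : ∀ τ, D τ ≠ 0)
    (hD : ∀ (γ : SL(2, ℤ)) (τ : ℍ), D (γ • τ) = (denom γ τ) ^ 12 * D τ) (τ : ℍ) :
    conjPoly p (unitE p D) (unitG p D) (ModularGroup.S • τ)
      = conjPoly p (unitE p D) (unitG p D) τ := by
  have hpc : (p : ℂ) ≠ 0 := by exact_mod_cast NeZero.ne p
  have hS : ∀ z : ℍ, D (ModularGroup.S • z) = (z : ℂ) ^ 12 * D z := by
    intro z
    rw [hD, ModularGroup.denom_S]
  have hT : ∀ (n : ℤ) (z : ℍ), D (ModularGroup.T ^ n • z) = D z := by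
    intro n z
    rw [hD]
    have : denom ((ModularGroup.T ^ n : SL(2, ℤ)) : GL (Fin 2) ℝ) z = 1 := by
      rw [ModularGroup.denom_apply]
      simp [ModularGroup.coe_T_zpow]
    rw [this, one_pow, one_mul]
  apply conjPoly_S_of p hp
  · intro τ
    have hτ : (τ : ℂ) ≠ 0 := ne_zero τ
    unfold unitE unitG
    rw [mulNat_S_smul, hS, hS, mulNat_divShift, hT]
    have h1 : ((divShift p 0 τ : ℍ) : ℂ) = (τ : ℂ) / (p : ℂ) := by simp
    rw [h1]
    have := hD0 τ
    field_simp
  · intro τ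
    have hτ : (τ : ℂ) ≠ 0 := ne_zero τ
    unfold unitE unitG
    rw [mulNat_divShift, hT, divShift_zero_S_smul, hS, hS]
    have h1 : ((mulNat p τ : ℍ) : ℂ) = (p : ℂ) * (τ : ℂ) := by simp
    rw [h1]
    have := hD0 τ
    field_simp
  · intro B B' k h τ
    have hτ : (τ : ℂ) ≠ 0 := ne_zero τ
    unfold unitG
    rw [mulNat_divShift, hT, mulNat_divShift, hT, ← conjMat_smul p B B' k h, hD,
      denom_conjMat, hS]
    have := hD0 τ
    field_simp

end Fermat.Agent.S28.H807

end

end
-- ===== PACK-END S28/H807/Families.lean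

-- ===== PACK-BEGIN S28/H807/Core.lean
section
/-
S28 / helper807 — generic construction: from two convergent `q`-series `g, e ∈ ℤ((q))` whose
families of conjugates are `S`-stable, the polynomial `(X - e)·charpoly(secMat p g)` has
coefficients in `ℤ[j]`.
-/





set_option autoImplicit false
set_option maxHeartbeats 400000

noncomputable section

open ModularCurve Polynomial Matrix UpperHalfPlane
open scoped MatrixGroups

namespace Fermat.Agent.S28.H807

/-- The level-one polynomial principle (analytic input, provided by the bridge seats):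
an `S`-invariant function on `ℍ` with a convergent Laurent `q`-expansion is a polynomial in `j`. -/
def PolyPrinciple : Prop :=
  ∀ (c : LaurentSeries ℂ) (F : ℍ → ℂ), HasQExp c F →
    (∀ τ : ℍ, F (ModularGroup.S • τ) = F τ) → ∃ P : Polynomial ℂ, c = evalJ ℂ P

section Formal

variable {R : Type*} [CommRing R] (p : ℕ) [NeZero p]

/-- The formal polynomial `(X - e) · charpoly (secMat p g)`. -/
def formalPoly (g e : LaurentSeries R) : Polynomial (LaurentSeries R) :=
  (X - C e) * (secMat p g).charpoly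

theorem formalPoly_monic (g e : LaurentSeries R) : (formalPoly p g e).Monic :=
  (monic_X_sub_C e).mul (Matrix.charpoly_monic _)

theorem formalPoly_natDegree [Nontrivial R] (g e : LaurentSeries R) :
    (formalPoly p g e).natDegree = p + 1 := by
  unfold formalPoly
  rw [Polynomial.Monic.natDegree_mul (monic_X_sub_C e) (Matrix.charpoly_monic _),
    natDegree_X_sub_C, Matrix.charpoly_natDegree_eq_dim, Fintype.card_fin, add_comm]

theorem formalPoly_eval_self (g e : LaurentSeries R) : (formalPoly p g e).eval e = 0 := by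
  simp [formalPoly]

theorem formalPoly_map_qExpand_eval (g e : LaurentSeries R) :
    ((formalPoly p g e).map (qExpand R p)).eval g = 0 := by
  unfold formalPoly
  rw [Polynomial.map_mul, Polynomial.eval_mul, secMat_charpoly_eval, mul_zero]

theorem formalPoly_map_coeffMap {S : Type*} [CommRing S] (φ : R →+* S) (g e : LaurentSeries R) :
    (formalPoly p g e).map (coeffMap φ) = formalPoly p (coeffMap φ g) (coeffMap φ e) := by
  unfold formalPoly
  rw [Polynomial.map_mul, Polynomial.map_sub, Polynomial.map_X, Polynomial.map_C,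
    ← Matrix.charpoly_map, secMat_coeffMap]

end Formal

/-- Evaluation at `j` as a ring hom `ℤ[Y] → ℤ((q))`. -/
def evalJZHom : Polynomial ℤ →+* LaurentSeries ℤ :=
  Polynomial.eval₂RingHom (Int.castRingHom _) (jqModC ℤ)

theorem evalJZHom_apply (Q : Polynomial ℤ) : evalJZHom Q = evalJZ Q := rfl

variable (p : ℕ) [NeZero p]

/-- The coefficients of the formal polynomial lie in `ℤ[j]`. -/
theorem formalPoly_coeff_mem_range (hPP : PolyPrinciple) (gZ eZ : LaurentSeries ℤ)
    (G E : ℍ → ℂ)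
    (hG : HasQExp (coeffMap (Int.castRingHom ℂ) gZ) G)
    (hE : HasQExp (coeffMap (Int.castRingHom ℂ) eZ) E)
    (hS : ∀ τ : ℍ, conjPoly p E G (ModularGroup.S • τ) = conjPoly p E G τ) (k : ℕ) :
    (formalPoly p gZ eZ).coeff k ∈ Set.range evalJZHom := by
  have h1 : HasQExp ((formalPoly p (coeffMap (Int.castRingHom ℂ) gZ)
      (coeffMap (Int.castRingHom ℂ) eZ)).coeff k) (fun τ => (conjPoly p E G τ).coeff k) :=
    hasQExp_coeff_mul_charpoly p _ _ G E hG hE k
  have h2 : ∀ τ : ℍ, (conjPoly p E G (ModularGroup.S • τ)).coeff k = (conjPoly p E G τ).coeff k :=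
    fun τ => by rw [hS τ]
  obtain ⟨P, hP⟩ := hPP _ _ h1 h2
  have h3 : evalJ ℂ P = coeffMap (Int.castRingHom ℂ) ((formalPoly p gZ eZ).coeff k) := by
    rw [← hP, ← formalPoly_map_coeffMap, Polynomial.coeff_map]
  obtain ⟨Q, hQ⟩ := exists_int_poly_of_evalJ_eq P _ h3
  exact ⟨Q, hQ⟩

/-- **Main generic theorem**: a monic lift of the formal polynomial to `ℤ[Y][X]`. -/
theorem exists_lift_formalPoly (hPP : PolyPrinciple) (gZ eZ : LaurentSeries ℤ)
    (G E : ℍ → ℂ)
    (hG : HasQExp (coeffMap (Int.castRingHom ℂ) gZ) G)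
    (hE : HasQExp (coeffMap (Int.castRingHom ℂ) eZ) E)
    (hS : ∀ τ : ℍ, conjPoly p E G (ModularGroup.S • τ) = conjPoly p E G τ) :
    ∃ Φ : Polynomial (Polynomial ℤ), Φ.Monic ∧ Φ.natDegree = p + 1 ∧
      Φ.map evalJZHom = formalPoly p gZ eZ := by
  have hl : formalPoly p gZ eZ ∈ Polynomial.lifts evalJZHom := by
    rw [Polynomial.lifts_iff_coeff_lifts]
    intro k
    exact formalPoly_coeff_mem_range p hPP gZ eZ G E hG hE hS k
  obtain ⟨Φ, h1, h2, h3⟩ :=
    Polynomial.lifts_and_natDegree_eq_and_monic hl (formalPoly_monic p gZ eZ)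
  exact ⟨Φ, h3, by rw [h2, formalPoly_natDegree], h1⟩

end Fermat.Agent.S28.H807

end

end
-- ===== PACK-END S28/H807/Core.lean

-- ===== PACK-BEGIN S28/H807/ModPoly.lean
section
/-
S28 / helper807 — the prime-level analytic inputs `ModPolyData p` and `UnitPolyData p`
of the captain skeleton (`Fermat/Agent/S28/Defs.lean`), from three explicit analytic
hypotheses (level-one polynomial principle, `q`-expansion of `j`, `q`-expansion of `Δ^{±1}`).
-/




set_option autoImplicit false
set_option maxHeartbeats 400000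

noncomputable section

open ModularCurve Polynomial Matrix UpperHalfPlane
open scoped MatrixGroups

namespace Fermat.Agent.S28.H807

open Fermat.Agent.S28

theorem evalAt_jqModC_eq : evalAt (jqModC ℤ) = evalJZHom := by
  apply Polynomial.ringHom_ext
  · intro a
    simp [evalAt, evalJZHom]
  · simp [evalAt, evalJZHom]

theorem evalAt_comp_qExpand (p : ℕ) [NeZero p] :
    evalAt (qExpand ℤ p (jqModC ℤ)) = (qExpand ℤ p).comp evalJZHom := by
  apply Polynomial.ringHom_ext
  · intro a
    simp [evalAt, evalJZHom]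
  · simp [evalAt, evalJZHom]

variable (p : ℕ) [NeZero p]

/-- **[A-Φ]** The modular polynomial of prime level `p`, from the analytic hypotheses. -/
theorem nonempty_modPolyData_of (hp : p.Prime) (hPP : PolyPrinciple) (J : ℍ → ℂ)
    (hJinv : ∀ (γ : SL(2, ℤ)) (τ : ℍ), J (γ • τ) = J τ)
    (hJexp : HasQExp (jqModC ℂ) J) : Nonempty (ModPolyData p) := by
  have hG : HasQExp (coeffMap (Int.castRingHom ℂ) (jqModC ℤ)) J := by
    rw [coeffMap_jqModC]; exact hJexp
  have hE : HasQExp (coeffMap (Int.castRingHom ℂ) (qExpand ℤ p (jqModC ℤ)))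
      (fun τ => J (mulNat p τ)) := by
    rw [coeffMap_qExpand, coeffMap_jqModC]; exact hJexp.mulNat p
  obtain ⟨Φ, hmonic, hdeg, hmap⟩ := exists_lift_formalPoly p hPP (jqModC ℤ)
    (qExpand ℤ p (jqModC ℤ)) J (fun τ => J (mulNat p τ)) hG hE (conjPoly_J_S p hp J hJinv)
  refine ⟨⟨Φ, hmonic, hdeg, ?_, ?_⟩⟩
  · rw [evalAt_jqModC_eq, Polynomial.eval₂_eq_eval_map, hmap]
    exact formalPoly_eval_self p _ _
  · rw [evalAt_comp_qExpand, Polynomial.eval₂_eq_eval_map, ← Polynomial.map_map, hmap]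
    exact formalPoly_map_qExpand_eval p _ _

/-- **[A-W]** `p¹² Δ(q^p)/Δ(q)` is integral over `ℤ[j]`, from the analytic hypotheses. -/
theorem nonempty_unitPolyData_of (hp : p.Prime) (hPP : PolyPrinciple) (D : ℍ → ℂ)
    (hD0 : ∀ τ, D τ ≠ 0)
    (hD : ∀ (γ : SL(2, ℤ)) (τ : ℍ), D (γ • τ) = (denom γ τ) ^ 12 * D τ)
    (hDexp : HasQExp (coeffMap (Int.castRingHom ℂ) (deltaL ℤ)) D)
    (hDinvexp : HasQExp (coeffMap (Int.castRingHom ℂ) (deltaInvL ℤ)) (fun τ => (D τ)⁻¹)) :
    Nonempty (UnitPolyData p) := by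
  have hG : HasQExp (coeffMap (Int.castRingHom ℂ) (deltaL ℤ * qExpand ℤ p (deltaInvL ℤ)))
      (unitG p D) := by
    rw [map_mul, coeffMap_qExpand]
    intro τ
    have := (hDexp.mul (hDinvexp.mulNat p)) τ
    simpa [unitG, div_eq_mul_inv] using this
  have hE : HasQExp (coeffMap (Int.castRingHom ℂ) ((p : LaurentSeries ℤ) ^ 12 * unitL ℤ p))
      (unitE p D) := by
    rw [map_mul, map_pow, map_natCast, unitL, map_mul, coeffMap_qExpand]
    have hc : HasQExp ((p : LaurentSeries ℂ) ^ 12) (fun _ => (p : ℂ) ^ 12) := by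
      have h1 : ((p : LaurentSeries ℂ) ^ 12) = HahnSeries.C ((p : ℂ) ^ 12) := by
        rw [map_pow, map_natCast]
      rw [h1]
      exact hasQExp_C _
    intro τ
    have := (hc.mul ((hDexp.mulNat p).mul hDinvexp)) τ
    simpa [unitE, div_eq_mul_inv, mul_assoc] using this
  obtain ⟨Φ, hmonic, _, hmap⟩ := exists_lift_formalPoly p hPP
    (deltaL ℤ * qExpand ℤ p (deltaInvL ℤ)) ((p : LaurentSeries ℤ) ^ 12 * unitL ℤ p)
    (unitG p D) (unitE p D) hG hE (conjPoly_unit_S p hp D hD0 hD)
  refine ⟨⟨Φ, hmonic, ?_⟩⟩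
  rw [evalAt_jqModC_eq, Polynomial.eval₂_eq_eval_map, hmap]
  exact formalPoly_eval_self p _ _

end Fermat.Agent.S28.H807

end

end
-- ===== PACK-END S28/H807/ModPoly.lean

-- ===== PACK-BEGIN S28/H685/JFun.lean
section





/-!
# S28 helper (helper685): the analytic `j`-function and its formal `q`-expansion

* `jFun τ = E₄ τ ^ 3 / Δ τ`, holomorphic on `ℍ`, invariant under `SL(2, ℤ)`.
* `hasQLaurent_jFun` : `jFun` is the sum of the Prelude's formal series `ModularCurve.jqModC ℂ`
  (the image of `ModularCurve.jq` in `ℂ((q))`).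
* `exists_polynomial_of_S_invariant` : **the `j`-polynomial principle**.
* `exists_polynomial_of_S_invariant_of_mem` : integrality of the polynomial.
-/

set_option autoImplicit false

namespace Fermat.Agent.S28.H685

open UpperHalfPlane Function Complex Filter HahnSeries ModularForm SlashInvariantForm
  ModularFormClass EisensteinSeries
open scoped Topology Manifold MatrixGroups

noncomputable section

local notation "𝕢" => Periodic.qParam

/-- The analytic `j`-function (normalised as `q⁻¹ + 744 + ⋯`). -/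
def jFun (τ : ℍ) : ℂ := E₄ τ ^ 3 / ModularForm.discriminant τ

/-- The formal `q`-expansion of `E₄`, with complex coefficients. -/
def eisenstein4C : PowerSeries ℂ := ModularCurve.eisenstein4.map (Int.castRingHom ℂ)

theorem qExpansion_E4_eq : qExpansion 1 E₄ = eisenstein4C := by
  ext m
  rw [E_qExpansion_coeff _ ⟨2, rfl⟩]
  simp only [eisenstein4C, ModularCurve.eisenstein4, PowerSeries.coeff_map, PowerSeries.coeff_mk]
  split_ifs with h
  · simp
  · rw [show bernoulli 4 = -1 / 30 by decide +kernel, ArithmeticFunction.sigma_apply]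
    simp only [eq_intCast]
    push_cast
    norm_num

theorem hasQExp_E4 : HasQExp 1 E₄ eisenstein4C := by
  intro τ
  have := ModularForm.hasSum_qExpansion E₄ one_pos one_mem_strictPeriods_SL τ
  rwa [qExpansion_E4_eq] at this

theorem discriminant_eq_etaC (τ : ℍ) :
    ModularForm.discriminant τ = 𝕢 1 τ * etaC (𝕢 1 τ) ^ 24 := by
  rw [discriminant_eq_q_prod]
  congr 1
  have hq : ‖𝕢 1 (τ : ℂ)‖ < 1 := Periodic.norm_qParam_lt_one one_pos τ.im_pos
  rw [etaC, ← (multipliable_one_sub_pow hq).tprod_pow]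

theorem etaC_qParam_ne_zero (τ : ℍ) : etaC (𝕢 1 τ) ≠ 0 := by
  intro h0
  have := discriminant_ne_zero τ
  rw [discriminant_eq_etaC, h0] at this
  simp at this

/-- The formal series `η^24 / q`, with complex coefficients. -/
def dedekindEtaUnitC : PowerSeries ℂ := ModularCurve.dedekindEtaUnit.map (Int.castRingHom ℂ)

theorem dedekindEtaUnitC_eq : dedekindEtaUnitC = etaProdC ^ 24 := by
  rw [dedekindEtaUnitC, ModularCurve.dedekindEtaUnit, map_pow, etaProdC]

theorem hasQExp_dedekindEtaUnitC : HasQExp 1 (fun τ => etaC (𝕢 1 τ) ^ 24) dedekindEtaUnitC := by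
  rw [dedekindEtaUnitC_eq]
  exact hasQExp_etaC.pow 24

theorem dedekindEtaUnitC_inv :
    dedekindEtaUnitC⁻¹ = ModularCurve.dedekindEtaUnitInv.map (Int.castRingHom ℂ) := by
  have h0 : PowerSeries.constantCoeff dedekindEtaUnitC ≠ 0 := by
    rw [dedekindEtaUnitC, ← PowerSeries.coeff_zero_eq_constantCoeff, PowerSeries.coeff_map,
      PowerSeries.coeff_zero_eq_constantCoeff, ModularCurve.constantCoeff_dedekindEtaUnit]
    simp
  symm
  rw [PowerSeries.eq_inv_iff_mul_eq_one h0, dedekindEtaUnitC, ← map_mul, mul_comm,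
    ModularCurve.dedekindEtaUnit_mul_inv, map_one]

/-- The formal numerator of `j`, with complex coefficients. -/
def jNumC : PowerSeries ℂ := ModularCurve.jNum.map (Int.castRingHom ℂ)

theorem jNumC_eq : jNumC = eisenstein4C ^ 3 * dedekindEtaUnitC⁻¹ := by
  rw [jNumC, ModularCurve.jNum, map_mul, map_pow, dedekindEtaUnitC_inv, eisenstein4C]

theorem constantCoeff_jNumC : PowerSeries.constantCoeff jNumC = 1 := by
  rw [jNumC, ← PowerSeries.coeff_zero_eq_constantCoeff, PowerSeries.coeff_map,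
    PowerSeries.coeff_zero_eq_constantCoeff, ModularCurve.constantCoeff_jNum]
  simp

theorem hasQExp_jNumC : HasQExp 1 (fun τ => E₄ τ ^ 3 * (etaC (𝕢 1 τ) ^ 24)⁻¹) jNumC := by
  rw [jNumC_eq]
  refine (hasQExp_E4.pow 3).mul (hasQExp_dedekindEtaUnitC.inv one_pos
    (fun τ => pow_ne_zero _ (etaC_qParam_ne_zero τ)) ?_)
  rw [dedekindEtaUnitC, PowerSeries.coeff_map, PowerSeries.coeff_zero_eq_constantCoeff,
    ModularCurve.constantCoeff_dedekindEtaUnit]
  simp

theorem jqModC_eq : ModularCurve.jqModC ℂ =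
    HahnSeries.single (-1 : ℤ) (1 : ℂ) * HahnSeries.ofPowerSeries ℤ ℂ jNumC := rfl

/-- **Bridge**: the analytic `j`-function is the sum of the Prelude's formal series `jq`. -/
theorem hasQLaurent_jFun : HasQLaurent 1 jFun (ModularCurve.jqModC ℂ) := by
  rw [jqModC_eq, hasQLaurent_single_mul_iff]
  refine hasQExp_jNumC.congr_fun fun τ => ?_
  have hq : 𝕢 1 (τ : ℂ) ≠ 0 := Periodic.qParam_ne_zero _
  have hη := etaC_qParam_ne_zero τ
  rw [jFun, discriminant_eq_etaC]
  simp only [neg_neg, zpow_one]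
  field_simp

/-- `jFun` in the explicit `HasSum` form, in terms of `ModularCurve.jq`. -/
theorem hasSum_jq (τ : ℍ) :
    HasSum (fun n : ℤ => ((ModularCurve.jq.coeff n : ℚ) : ℂ) * 𝕢 1 τ ^ n) (jFun τ) := by
  have := hasQLaurent_jFun τ
  have hc : ∀ n : ℤ, (ModularCurve.jqModC ℂ).coeff n = ((ModularCurve.jq.coeff n : ℚ) : ℂ) := by
    intro n
    rw [← ModularCurve.jqModC_rat, ← ModularCurve.map_jqModC (algebraMap ℚ ℂ),
      HahnSeries.map_coeff]
    rfl
  simpa only [hc] using this

theorem jFun_S (τ : ℍ) : jFun (ModularGroup.S • τ) = jFun τ := by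
  have hS : ((ModularGroup.S : SL(2, ℤ)) : GL (Fin 2) ℝ) ∈ 𝒮ℒ := ⟨ModularGroup.S, rfl⟩
  have h1 : E₄ (ModularGroup.S • τ) = _ := slash_action_eqn'' E₄ hS τ
  have h2 : CuspForm.discriminant (ModularGroup.S • τ) = _ :=
    slash_action_eqn'' CuspForm.discriminant hS τ
  have hd : denom ((ModularGroup.S : SL(2, ℤ)) : GL (Fin 2) ℝ) τ ≠ 0 := denom_ne_zero _ _
  have hΔ := discriminant_ne_zero τ
  rw [CuspForm.coe_discriminant] at h2
  rw [jFun, jFun]
  rw [h1, h2]
  rw [div_eq_div_iff (mul_ne_zero (zpow_ne_zero _ hd) hΔ) hΔ]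
  rw [mul_pow, ← zpow_natCast, ← zpow_mul]
  norm_num
  ring

theorem jFun_T (τ : ℍ) : jFun (ModularGroup.T • τ) = jFun τ :=
  hasQLaurent_jFun.T_invariant τ

theorem mdifferentiable_jFun : MDiff jFun :=
  hasQLaurent_jFun.mdifferentiable one_pos

/-- **The `j`-polynomial principle.**  A function on `ℍ` which is the sum of a convergent
Laurent series `φ` in `q = exp (2 π i τ)` with exponents `≥ -m` and which is invariant under
`τ ↦ -1/τ` is a polynomial of degree `≤ m` in `j`; the same identity holds formally. -/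
theorem exists_polynomial_of_S_invariant (m : ℕ) (F : ℍ → ℂ) (φ : LaurentSeries ℂ)
    (hφ : ∀ n : ℤ, n < -(m : ℤ) → φ.coeff n = 0) (hF : HasQLaurent 1 F φ)
    (hS : ∀ τ, F (ModularGroup.S • τ) = F τ) :
    ∃ P : Polynomial ℂ, P.natDegree ≤ m ∧ φ = Polynomial.aeval (ModularCurve.jqModC ℂ) P ∧
      ∀ τ, F τ = P.eval (jFun τ) :=
  exists_polynomial_of_S_invariant_aux jFun jNumC constantCoeff_jNumC hasQLaurent_jFun jFun_S
    m F φ hφ hF hS

/-- Version without an a priori bound on the pole order. -/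
theorem exists_polynomial_of_S_invariant' (F : ℍ → ℂ) (φ : LaurentSeries ℂ)
    (hF : HasQLaurent 1 F φ) (hS : ∀ τ, F (ModularGroup.S • τ) = F τ) :
    ∃ P : Polynomial ℂ, φ = Polynomial.aeval (ModularCurve.jqModC ℂ) P ∧
      ∀ τ, F τ = P.eval (jFun τ) := by
  obtain ⟨P, -, h1, h2⟩ := exists_polynomial_of_S_invariant (-φ.order).toNat F φ
    (fun n hn => HahnSeries.coeff_eq_zero_of_lt_order (by omega)) hF hS
  exact ⟨P, h1, h2⟩

end

end Fermat.Agent.S28.H685

end
-- ===== PACK-END S28/H685/JFun.lean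

-- ===== PACK-BEGIN S28/H25/ThetaLaurent.lean
section




/-!
# The `θ`-identity for `j` in `ℤ((q))` (helper25, S28 piece [A-θ])

`(θ j)⁶ = Δ · j⁴ · (j - 1728)³` for `j = jqModC ℤ`, `Δ = q ∏ (1 - qⁿ)²⁴`, `θ = q d/dq`,
under the bridge hypothesis `DeltaBridge`.
-/

set_option autoImplicit false

open ModularCurve HahnSeries

noncomputable section

namespace Fermat.Agent.S28.H25

/-- `θ = q d/dq` on Laurent series: multiplies the coefficient of `qⁿ` by `n`.
(Same definition as `thetaL` in helper28's skeleton.) -/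
def thetaLaurent (R : Type*) [CommRing R] (f : LaurentSeries R) : LaurentSeries R where
  coeff n := (n : R) * f.coeff n
  isPWO_support' := f.isPWO_support.mono fun n hn => by
    simp only [Function.mem_support, ne_eq] at hn ⊢
    intro h
    exact hn (by rw [h, mul_zero])

@[simp] theorem thetaLaurent_coeff (R : Type*) [CommRing R] (f : LaurentSeries R) (n : ℤ) :
    (thetaLaurent R f).coeff n = (n : R) * f.coeff n := rfl

theorem thetaLaurent_single_neg_one_mul {R : Type*} [CommRing R] (u : PowerSeries R) :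
    thetaLaurent R (single (-1 : ℤ) 1 * ofPowerSeries ℤ R u) =
      single (-1 : ℤ) 1 * ofPowerSeries ℤ R (thetaP u - u) := by
  ext n
  rw [thetaLaurent_coeff, coeff_single_mul, coeff_single_mul, one_mul, one_mul, sub_neg_eq_add]
  rcases le_or_gt 0 (n + 1) with hn | hn
  · obtain ⟨m, hm⟩ := Int.eq_ofNat_of_zero_le hn
    rw [hm, ofPowerSeries_apply_coeff, ofPowerSeries_apply_coeff, map_sub, coeff_thetaP]
    have hn' : (n : R) = (m : R) - 1 := by
      have : n = (m : ℤ) - 1 := by omega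
      rw [this]
      push_cast
      ring
    rw [hn']
    ring
  · rw [ofPowerSeries_coeff_of_neg _ hn, ofPowerSeries_coeff_of_neg _ hn, mul_zero]

theorem jNum_map_int : jNum.map (Int.castRingHom ℤ) = jNum := by
  ext n
  simp

theorem jqModC_int_eq : jqModC ℤ = single (-1 : ℤ) 1 * ofPowerSeries ℤ ℤ jNum := by
  rw [jqModC, jNum_map_int]

/-- The formal discriminant `Δ = q ∏ (1 - qⁿ)²⁴` in `ℤ((q))`. -/
def deltaLaurentInt : LaurentSeries ℤ :=
  single (1 : ℤ) 1 * ofPowerSeries ℤ ℤ dedekindEtaUnit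

/-- **θ-identity**: `(θ j)⁶ = Δ · j⁴ · (j - 1728)³` in `ℤ((q))`. -/
theorem theta_identity_laurent (hΔ : DeltaBridge) :
    (thetaLaurent ℤ (jqModC ℤ)) ^ 6 =
      deltaLaurentInt * (jqModC ℤ) ^ 4 * (jqModC ℤ - 1728) ^ 3 := by
  have hP := theta_identity_powerSeries hΔ
  have hst : (single (-1 : ℤ) (1 : ℤ) : LaurentSeries ℤ) * single (1 : ℤ) (1 : ℤ) = 1 := by
    rw [single_mul_single]
    simp
  have hj' : jqModC ℤ - 1728 =
      single (-1 : ℤ) 1 * ofPowerSeries ℤ ℤ (jNum - 1728 * PowerSeries.X) := by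
    rw [jqModC_int_eq, map_sub, map_mul, ofPowerSeries_X, map_ofNat (ofPowerSeries ℤ ℤ) 1728]
    linear_combination (1728 : LaurentSeries ℤ) * hst
  have hP' : (ofPowerSeries ℤ ℤ (thetaP jNum - jNum)) ^ 6 =
      ofPowerSeries ℤ ℤ dedekindEtaUnit * (ofPowerSeries ℤ ℤ jNum) ^ 4 *
        (ofPowerSeries ℤ ℤ (jNum - 1728 * PowerSeries.X)) ^ 3 := by
    rw [← map_pow, hP]
    simp only [map_mul, map_pow]
  rw [hj', jqModC_int_eq, thetaLaurent_single_neg_one_mul, deltaLaurentInt]
  linear_combination (single (-1 : ℤ) (1 : ℤ) : LaurentSeries ℤ) ^ 6 * hP' -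
    (single (-1 : ℤ) (1 : ℤ) : LaurentSeries ℤ) ^ 6 * ofPowerSeries ℤ ℤ dedekindEtaUnit *
      (ofPowerSeries ℤ ℤ jNum) ^ 4 * (ofPowerSeries ℤ ℤ (jNum - 1728 * PowerSeries.X)) ^ 3 * hst

end Fermat.Agent.S28.H25

end
end
-- ===== PACK-END S28/H25/ThetaLaurent.lean

-- ===== PACK-BEGIN S28/H25/Theta.lean
section





/-!
# [A-θ] The `θ`-identity `(θ j)⁶ = Δ · j⁴ · (j - 1728)³` in `ℤ((q))` (helper25)

Unconditional, in the exact shape of the captain skeleton
(`Fermat.Agent.S28.thetaL`, `Fermat.Agent.S28.deltaL`, Prelude `jqModC`).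
-/

set_option autoImplicit false

open UpperHalfPlane hiding I
open ModularCurve HahnSeries

noncomputable section

namespace Fermat.Agent.S28.H25

/-- Bridge B2: `qExpansion 1 Δ = q ∏ (1 - qⁿ)²⁴` (from helper685's eta bridge). -/
theorem deltaBridge : DeltaBridge := by
  have h1 : Fermat.Agent.S28.H685.HasQExp 1 (fun τ => ModularForm.discriminant τ)
      (PowerSeries.X * Fermat.Agent.S28.H685.dedekindEtaUnitC) :=
    (Fermat.Agent.S28.H685.HasQExp.X.mul
      Fermat.Agent.S28.H685.hasQExp_dedekindEtaUnitC).congr_fun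
      (fun τ => (Fermat.Agent.S28.H685.discriminant_eq_etaC τ).symm)
  have h2 : Fermat.Agent.S28.H685.HasQExp 1 (fun τ => ModularForm.discriminant τ)
      (qExpansion 1 ModularForm.discriminant) := by
    intro τ
    exact ModularForm.hasSum_qExpansion (discForm) one_pos
      one_mem_strictPeriods_SL τ
  exact h2.unique one_pos h1

theorem thetaL_eq_thetaLaurent (R : Type*) [CommRing R] (f : LaurentSeries R) :
    Fermat.Agent.S28.thetaL R f = thetaLaurent R f := rfl

theorem deltaL_int_eq : Fermat.Agent.S28.deltaL ℤ = deltaLaurentInt := by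
  have h : dedekindEtaUnit.map (Int.castRingHom ℤ) = dedekindEtaUnit := by
    ext n
    simp
  rw [Fermat.Agent.S28.deltaL, deltaLaurentInt, h]

/-- **[A-θ]** `(θ j)⁶ = Δ · j⁴ · (j - 1728)³` in `ℤ((q))`. -/
theorem theta_identity :
    (Fermat.Agent.S28.thetaL ℤ (jqModC ℤ)) ^ 6 =
      Fermat.Agent.S28.deltaL ℤ * (jqModC ℤ) ^ 4 * (jqModC ℤ - 1728) ^ 3 := by
  rw [thetaL_eq_thetaLaurent, deltaL_int_eq]
  exact theta_identity_laurent deltaBridge

end Fermat.Agent.S28.H25

end
end
-- ===== PACK-END S28/H25/Theta.lean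

-- ===== PACK-BEGIN S20/Comb/OrbitCounts.lean
section




/-!
# Orbit counts of `S` and `S * T` on `SL(2,ℤ) ⧸ Gamma0 N`, and the genus identity

* `two_mul_card_orbits_S : 2 * #(Q / ⟨S⟩) = ψ(N) + ν₂(N)`
* `three_mul_card_orbits_ST : 3 * #(Q / ⟨S * T⟩) = ψ(N) + 2 * ν₃(N)`
* `genusFormula_eq_of_card_orbits_T` : the Euler-characteristic identity
  `genusFormula N = 1 + (μ - o₂ - o₃ - o∞) / 2`.
-/

set_option autoImplicit false

namespace Fermat.Agent.S20.Comb

open Matrix MatrixGroups CongruenceSubgroup MulAction Subgroup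

/-- `-1` acts trivially on `SL(2,ℤ) ⧸ Γ₀(N)`. -/
lemma neg_one_smul_quotient (N : ℕ) (q : SL(2, ℤ) ⧸ Gamma0 N) : (-1 : SL(2, ℤ)) • q = q := by
  obtain ⟨g, rfl⟩ := QuotientGroup.mk_surjective q
  rw [smul_mk_eq_mk_iff]
  have h : ∀ i j, ((-1 : SL(2, ℤ)) * g) i j = - g i j := by
    intro i j
    rw [neg_mul, one_mul, Matrix.SpecialLinearGroup.coe_neg, Matrix.neg_apply]
  rw [h, h]
  push_cast
  ring

lemma S_pow_two : ModularGroup.S ^ 2 = (-1 : SL(2, ℤ)) := by
  apply Subtype.ext
  rw [pow_two, Matrix.SpecialLinearGroup.coe_mul, ModularGroup.coe_S,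
    Matrix.SpecialLinearGroup.coe_neg, Matrix.SpecialLinearGroup.coe_one]
  ext i j
  fin_cases i <;> fin_cases j <;> simp [Matrix.mul_apply, Fin.sum_univ_two]

lemma ST_pow_three : (ModularGroup.S * ModularGroup.T) ^ 3 = (-1 : SL(2, ℤ)) := by
  apply Subtype.ext
  rw [pow_succ, pow_two, Matrix.SpecialLinearGroup.coe_mul, Matrix.SpecialLinearGroup.coe_mul,
    coe_S_mul_T, Matrix.SpecialLinearGroup.coe_neg, Matrix.SpecialLinearGroup.coe_one]
  ext i j
  fin_cases i <;> fin_cases j <;> simp [Matrix.mul_apply, Fin.sum_univ_two]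

/-- `2 * #(S-orbits) = ψ(N) + ν₂(N)`. -/
theorem two_mul_card_orbits_S (N : ℕ) [NeZero N] :
    2 * Nat.card (orbitRel.Quotient (zpowers ModularGroup.S) (SL(2, ℤ) ⧸ Gamma0 N))
      = ModularCurve.dedekindPsi N + ModularCurve.nuTwo N := by
  have h := prime_mul_card_orbits (X := SL(2, ℤ) ⧸ Gamma0 N) ModularGroup.S 2 Nat.prime_two
    (fun x => by rw [S_pow_two]; exact neg_one_smul_quotient N x)
  rw [card_quotient_Gamma0, card_fixedBy_S] at h
  exact h.trans (by norm_num)

/-- `3 * #(ST-orbits) = ψ(N) + 2 * ν₃(N)`. -/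
theorem three_mul_card_orbits_ST (N : ℕ) [NeZero N] :
    3 * Nat.card (orbitRel.Quotient (zpowers (ModularGroup.S * ModularGroup.T))
        (SL(2, ℤ) ⧸ Gamma0 N))
      = ModularCurve.dedekindPsi N + 2 * ModularCurve.nuThree N := by
  have h := prime_mul_card_orbits (X := SL(2, ℤ) ⧸ Gamma0 N)
    (ModularGroup.S * ModularGroup.T) 3 Nat.prime_three
    (fun x => by rw [ST_pow_three]; exact neg_one_smul_quotient N x)
  rw [card_quotient_Gamma0, card_fixedBy_ST] at h
  exact h.trans (by norm_num)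

/-- The Euler-characteristic identity: with `μ = #Q`, `o₂`, `o₃`, `o∞` the numbers of orbits of
`S`, `S * T`, `T` on `Q = SL(2,ℤ) ⧸ Γ₀(N)`, one has `genusFormula N = 1 + (μ - o₂ - o₃ - o∞) / 2`,
provided `o∞ = cuspCount N`. -/
theorem genusFormula_eq_of_card_orbits_T (N : ℕ) [NeZero N]
    (hT : Nat.card (orbitRel.Quotient (zpowers ModularGroup.T) (SL(2, ℤ) ⧸ Gamma0 N))
      = ModularCurve.cuspCount N) :
    ModularCurve.genusFormula N
      = 1 + ((Nat.card (SL(2, ℤ) ⧸ Gamma0 N) : ℚ)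
          - (Nat.card (orbitRel.Quotient (zpowers ModularGroup.S) (SL(2, ℤ) ⧸ Gamma0 N)) : ℚ)
          - (Nat.card (orbitRel.Quotient (zpowers (ModularGroup.S * ModularGroup.T))
              (SL(2, ℤ) ⧸ Gamma0 N)) : ℚ)
          - (Nat.card (orbitRel.Quotient (zpowers ModularGroup.T)
              (SL(2, ℤ) ⧸ Gamma0 N)) : ℚ)) / 2 := by
  have h2 := two_mul_card_orbits_S N
  have h3 := three_mul_card_orbits_ST N
  have h2' := congrArg (Nat.cast : ℕ → ℚ) h2
  have h3' := congrArg (Nat.cast : ℕ → ℚ) h3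
  push_cast at h2' h3'
  rw [hT, card_quotient_Gamma0, ModularCurve.genusFormula]
  linear_combination (1 / 4 : ℚ) * h2' + (1 / 6 : ℚ) * h3'

/-- Orbit-count form used by dimension bounds: `μ + 2 - o₂ - o₃ - o∞ = 2 * genusFormula N`. -/
theorem two_mul_genusFormula_of_card_orbits_T (N : ℕ) [NeZero N]
    (hT : Nat.card (orbitRel.Quotient (zpowers ModularGroup.T) (SL(2, ℤ) ⧸ Gamma0 N))
      = ModularCurve.cuspCount N) :
    2 * ModularCurve.genusFormula N
      + (Nat.card (orbitRel.Quotient (zpowers ModularGroup.S) (SL(2, ℤ) ⧸ Gamma0 N)) : ℚ)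
      + (Nat.card (orbitRel.Quotient (zpowers (ModularGroup.S * ModularGroup.T))
          (SL(2, ℤ) ⧸ Gamma0 N)) : ℚ)
      + (Nat.card (orbitRel.Quotient (zpowers ModularGroup.T) (SL(2, ℤ) ⧸ Gamma0 N)) : ℚ)
      = (Nat.card (SL(2, ℤ) ⧸ Gamma0 N) : ℚ) + 2 := by
  rw [genusFormula_eq_of_card_orbits_T N hT]
  ring

end Fermat.Agent.S20.Comb

end
-- ===== PACK-END S20/Comb/OrbitCounts.lean

-- ===== PACK-BEGIN S18/B12/H278/SF.lean
section


/-!
# b2-SF and b2-SF' (helper278): proofs of the frozen statements `SFIdemStatement` and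
`SFLatticeStatement` of `Fermat/Agent/S18/B12/Spec.lean`.

Both are instances of `exists_smul_mem_range_of_isIntegral` (`Transfer.lean`), which is the
localisation at `(t)` of the DVR normality criterion `mem_range_of_isIntegral`
(`Fermat/Agent/S37/H278/Normal.lean`).
-/

set_option autoImplicit false
set_option linter.style.haveILetI false
set_option linter.unusedSectionVars false

namespace Fermat.Agent.S18.B12.H278

open Module Polynomial Fermat.Agent.S37.H278

universe u v

/-- An idempotent is integral. -/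
theorem isIntegral_of_mul_self_eq {Λ : Type*} [CommRing Λ] [Nontrivial Λ] {L : Type*} [CommRing L] [Algebra Λ L]
    {ε : L} (hε : ε * ε = ε) : IsIntegral Λ ε := by
  refine ⟨X ^ 2 - X, ?_, ?_⟩
  · apply monic_X_pow_sub
    rw [degree_X]
    norm_num
  · simp [pow_two, hε]

/-- **b2-SF'** (= frozen statement `SFIdemStatement` of `B12/Spec.lean`, unfolded). -/
theorem sfIdem :
  ∀ (Λ : Type u) [CommRing Λ] [IsDomain Λ] [IsPrincipalIdealRing Λ] (t : Λ) (_ : Prime t)
    (L : Type v) [CommRing L] [Algebra Λ L] [Module.IsTorsionFree Λ L] (C : Subalgebra Λ L)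
    (n : ℕ) (b : Module.Basis (Fin n) Λ C)
    (s : ℕ) (y : Fin s → C)
    (_ : ∀ x : C, ∃ a : Fin s → Λ,
        x - ∑ i, a i • y i ∈ (Ideal.span {algebraMap Λ C t}).radical),
    Algebra.discr Λ b ≠ 0 → ¬ t ^ (n - s + 1) ∣ Algebra.discr Λ b →
    ∀ ε : L, ε * ε = ε → (∃ g₀ : Λ, g₀ ≠ 0 ∧ g₀ • ε ∈ C) → ∃ g : Λ, ¬ t ∣ g ∧ g • ε ∈ C := by
  intro Λ _ _ _ t ht L _ _ _ C n b s y hy _ hd ε hε hε0
  have hL : ∀ (g : Λ) (l : L), g ≠ 0 → g • l = 0 → l = 0 := by
    intro g l hg h
    have hreg : IsSMulRegular L g := Module.IsTorsionFree.isSMulRegular (IsRegular.of_ne_zero hg)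
    exact hreg (by simpa using h)
  have hx0 : ∃ g₀ : Λ, g₀ ≠ 0 ∧ g₀ • ε ∈ (C.val : C →ₐ[Λ] L).range := by
    obtain ⟨g₀, h0, h1⟩ := hε0
    exact ⟨g₀, h0, ⟨⟨_, h1⟩, rfl⟩⟩
  obtain ⟨g, hg, c, hc⟩ := exists_smul_mem_range_of_isIntegral ht hL C.val
    Subtype.val_injective b s y hy (by simpa using hd) ε (isIntegral_of_mul_self_eq hε) hx0
  refine ⟨g, hg, ?_⟩
  have hc' : (c : L) = g • ε := hc
  rw [← hc']
  exact c.2

/-- An injective linear map between free modules of the same finite rank over a domain has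
torsion cokernel: `d • N ⊆ range f` for some `d ≠ 0` (`d` = determinant). -/
theorem exists_smul_mem_range_of_injective {Λ : Type*} [CommRing Λ] [IsDomain Λ]
    {M N : Type*} [AddCommGroup M] [AddCommGroup N] [Module Λ M] [Module Λ N]
    {ι : Type*} [Fintype ι] [DecidableEq ι] (b : Basis ι Λ M) (bt : Basis ι Λ N)
    (f : M →ₗ[Λ] N) (hf : Function.Injective f) :
    ∃ d : Λ, d ≠ 0 ∧ ∀ z : N, d • z ∈ LinearMap.range f := by
  classical
  set A := LinearMap.toMatrix b bt f with hA
  have hdet : A.det ≠ 0 := by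
    intro h0
    obtain ⟨v, hv, hAv⟩ := Matrix.exists_mulVec_eq_zero_iff.mpr h0
    have h1 : f (b.equivFun.symm v) = 0 := by
      apply bt.equivFun.injective
      rw [map_zero]
      have := LinearMap.toMatrix_mulVec_repr b bt f (b.equivFun.symm v)
      rw [← hA] at this
      have hv' : ⇑(b.repr (b.equivFun.symm v)) = v := by
        rw [← Basis.equivFun_apply, LinearEquiv.apply_symm_apply]
      rw [hv', hAv] at this
      funext i
      have := congrFun this i
      simpa using this.symm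
    have h2 : b.equivFun.symm v = 0 := hf (by rw [h1, map_zero])
    apply hv
    have := congrArg b.equivFun h2
    rw [LinearEquiv.apply_symm_apply, map_zero] at this
    exact this
  refine ⟨A.det, hdet, fun z => ⟨Matrix.toLin bt b A.adjugate z, ?_⟩⟩
  have h3 : f ∘ₗ Matrix.toLin bt b A.adjugate = A.det • LinearMap.id := by
    conv_lhs => rw [← Matrix.toLin_toMatrix b bt f, ← hA]
    rw [← Matrix.toLin_mul, Matrix.mul_adjugate, map_smul, Matrix.toLin_one]
  have := LinearMap.congr_fun h3 z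
  simpa using this

/-- **b2-SF** (= frozen statement `SFLatticeStatement` of `B12/Spec.lean`, unfolded). -/
theorem sfLattice :
  ∀ (Λ : Type u) [CommRing Λ] [IsDomain Λ] [IsPrincipalIdealRing Λ] (t : Λ) (_ : Prime t)
    (L : Type v) [CommRing L] [Algebra Λ L] (C Ct : Subalgebra Λ L) (_ : C ≤ Ct)
    (n : ℕ) (b : Module.Basis (Fin n) Λ C) (_ : Module.Basis (Fin n) Λ Ct)
    (s : ℕ) (y : Fin s → C)
    (_ : ∀ x : C, ∃ a : Fin s → Λ,
        x - ∑ i, a i • y i ∈ (Ideal.span {algebraMap Λ C t}).radical),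
    Algebra.discr Λ b ≠ 0 → ¬ t ^ (n - s + 1) ∣ Algebra.discr Λ b →
    ∀ x ∈ Ct, ∃ g : Λ, ¬ t ∣ g ∧ g • x ∈ C := by
  intro Λ _ _ _ t ht L _ _ C Ct hle n b bt s y hy _ hd x hx
  haveI : Module.Free Λ Ct := Module.Free.of_basis bt
  have hL : ∀ (g : Λ) (l : Ct), g ≠ 0 → g • l = 0 → l = 0 := by
    intro g l hg h
    exact smul_eq_zero_imp hg h
  have hf : Function.Injective (Subalgebra.inclusion hle) := Subalgebra.inclusion_injective hle
  haveI : Module.Finite Λ Ct := Module.Finite.of_basis bt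
  have hxint : IsIntegral Λ (⟨x, hx⟩ : Ct) := Algebra.IsIntegral.isIntegral _
  obtain ⟨d, hd0, hdr⟩ := exists_smul_mem_range_of_injective b bt
    (Subalgebra.inclusion hle).toLinearMap hf
  have hx0 : ∃ g₀ : Λ, g₀ ≠ 0 ∧ g₀ • (⟨x, hx⟩ : Ct) ∈ (Subalgebra.inclusion hle).range := by
    obtain ⟨c, hc⟩ := hdr ⟨x, hx⟩
    exact ⟨d, hd0, c, hc⟩
  obtain ⟨g, hg, c, hc⟩ := exists_smul_mem_range_of_isIntegral ht hL (Subalgebra.inclusion hle)
    hf b s y hy (by simpa using hd) ⟨x, hx⟩ hxint hx0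
  refine ⟨g, hg, ?_⟩
  have hc' : ((Subalgebra.inclusion hle c : Ct) : L) = g • x := congrArg Subtype.val hc
  rw [← hc']
  exact c.2

end Fermat.Agent.S18.B12.H278

end
-- ===== PACK-END S18/B12/H278/SF.lean

-- ===== PACK-BEGIN S18/B12/H84/Stmt.lean
section





/-!
# S18 / b2.5 / A8 + A9 (helper84): the `Spec3`-typed statements

* `a9 : RegularAlongOfDedekindStatement`
* `a8_of_sfLattice : SFLatticeStatement → IntClosedOfDiscrStatement`
* `a8 : IntClosedOfDiscrStatement` (unconditional, with Theorem L = `H278.sfLattice` on main)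
-/

set_option autoImplicit false

namespace Fermat.Agent.S18.B12.H84

universe u v

/-- **A9**, exact frozen shape. -/
theorem a9 : B12.RegularAlongOfDedekindStatement.{u} :=
  fun B _ ϖ hD 𝔪 h𝔪 hϖ => regularAlongOfDedekind B ϖ hD 𝔪 h𝔪 hϖ

/-- **A8** from Theorem L, exact frozen shapes. -/
theorem a8_of_sfLattice (hSF : B12.SFLatticeStatement.{u, v}) :
    B12.IntClosedOfDiscrStatement.{u, v} :=
  fun Λ _ _ _ C _ _ _ n b hdisc hbound =>
    intClosedOfDiscr_of_sfLattice hSF Λ C n b hdisc hbound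

/-- **A8**, exact frozen shape, unconditional (Theorem L from `H278.sfLattice`). -/
theorem a8 : B12.IntClosedOfDiscrStatement.{u, v} :=
  a8_of_sfLattice H278.sfLattice.{u, v}

end Fermat.Agent.S18.B12.H84

end
-- ===== PACK-END S18/B12/H84/Stmt.lean

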