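import Mathlib
import Mathlib.Analysis.Complex.UpperHalfPlane.Manifold
import Mathlib.Geometry.Manifold.Notation
import Mathlib.Geometry.Manifold.MFDeriv.SpecificFunctions
import Mathlib.NumberTheory.ModularForms.Basic
import Fermat.Prelude.Def_FLTPrelim_Ramification
import Fermat.Prelude.Def_ModularCurve_ReductionModL
import Mathlib.NumberTheory.ModularForms.CuspFormSubmodule
import Fermat.Prelude.Thm_ModularForm_sturm_bound_Gamma0
import Fermat.Prelude.Def_ModularCurve_JqCoeff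
import Fermat.Agent.Pack.S48.G0E1L0
import Fermat.Agent.Pack.S48.G0E1L1
import Fermat.Agent.Pack.S48.G2E0L0
import Fermat.Agent.Pack.S48.G0E1L2
import Fermat.Agent.Pack.S48.G0E0L0
import Fermat.Agent.Pack.S48.G0E1L3
import Fermat.Agent.Pack.S48.G0E0L2
import Fermat.Agent.Pack.S48.G6E0L0
import Fermat.Agent.Pack.S48.G0E0L1

-- ===== PACK-BEGIN S48/H948/ExactAway.lean
section



/-!
# S48 glue piece EXA (helper948): `ComplexLiftStatement ⟹ ExactAwayStatement`

Deligne–Serre §8, second half.  The complex lifts `ρ_ℓ` have image of order `≤ A`, so the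
traces and determinants of Frobenius elements lie in the finite set
`Y = {(α + β, α β) : α^(A!) = β^(A!) = 1}`.  A congruence modulo a place above a large prime
between two algebraic integers whose difference lies in a fixed finite set is an equality
(Z-lemma).  First `(a_p, ε(p)) ∈ Y` for every `p` (with `ℓ` large depending on `p`), then
`(tr, det) ρ_ℓ(Frob_p) = (a_p, ε(p))` for all `p ∤ Nℓ`, `ℓ` large.
-/

set_option autoImplicit false

open CongruenceSubgroup
open scoped MatrixGroups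

namespace Fermat.Agent.S48.H948

open Fermat.Agent.Lib.Cheb.Spec Fermat.Agent.Lib.Cheb.SpecQ Fermat.Agent.S48.Top

/-- Elements of a finite subgroup of order `≤ A` are killed by `A!`. -/
theorem pow_factorial_eq_one_of_card_range_le {G H : Type*} [Group G] [Group H] (ρ : G →* H)
    (hfin : Finite ρ.range) {A : ℕ} (hA : Nat.card ρ.range ≤ A) (σ : G) :
    (ρ σ) ^ A.factorial = 1 := by
  have hpos : 0 < Nat.card ρ.range := Nat.card_pos
  have h1 : orderOf (⟨ρ σ, σ, rfl⟩ : ρ.range) ∣ Nat.card ρ.range := orderOf_dvd_natCard _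
  have h2 : Nat.card ρ.range ∣ A.factorial := Nat.dvd_factorial hpos hA
  have h3 := orderOf_dvd_iff_pow_eq_one.mp (h1.trans h2)
  have h4 := congrArg (fun x : ρ.range => (x : H)) h3
  simpa using h4

/-- (EXA) -/
theorem exactAwayPiece : ExactAwayPiece := by
  intro hCL N _ ε f hyp
  obtain ⟨A₀, B₀, h⟩ := hCL N ε f hyp
  set m := A₀.factorial with hm
  have hmpos : 0 < m := Nat.factorial_pos _
  -- traces and determinants of Frobenius elements lie in `unitPairs m`
  have hY : ∀ (ρ : GQ →* GL (Fin 2) ℂ), Finite ρ.range → Nat.card ρ.range ≤ A₀ → ∀ σ : GQ,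
      (((ρ σ : GL (Fin 2) ℂ) : Matrix (Fin 2) (Fin 2) ℂ).trace,
        ((ρ σ : GL (Fin 2) ℂ) : Matrix (Fin 2) (Fin 2) ℂ).det) ∈ unitPairs m := by
    intro ρ hfin hcard σ
    exact trace_det_mem_unitPairs (ρ σ) hmpos
      (pow_factorial_eq_one_of_card_range_le ρ hfin hcard σ)
  -- Step 1: `(a_p, ε p) ∈ unitPairs m` as soon as there is a Frobenius element at `p`
  have claim : ∀ p : ℕ, p.Prime → ¬ p ∣ N →
      (∃ (A : ValuationSubring Qb) (σ : GQ), A.LiesOverPrime p ∧ A.IsFrobeniusAt σ p) →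
      (ModularFormClass.qCoeff f p, ε (p : ZMod N)) ∈ unitPairs m := by
    intro p hp hpN ⟨A, σ, hA, hσ⟩
    set D : Finset ℂ :=
      (unitPairs m).image (fun y => ModularFormClass.qCoeff f p - y.1) ∪
        (unitPairs m).image (fun y => ε (p : ZMod N) - y.2) with hD
    obtain ⟨ℓ, hℓge, hℓ⟩ := Nat.exists_infinite_primes (max B₀ (max p (killProd D)) + 1)
    have hℓB : B₀ < ℓ := by have := le_max_left B₀ (max p (killProd D)); omega
    have hℓp : p < ℓ := by
      have := le_max_left p (killProd D)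
      have := le_max_right B₀ (max p (killProd D)); omega
    have hℓD : killProd D < ℓ := by
      have := le_max_right p (killProd D)
      have := le_max_right B₀ (max p (killProd D)); omega
    obtain ⟨k, _, _, φ, ρ, -, hC, hfin, hcard⟩ := h ℓ hℓ hℓB
    have hnd : ¬ p ∣ N * ℓ := by
      intro hdvd
      rcases (Nat.Prime.dvd_mul hp).mp hdvd with h1 | h1
      · exact hpN h1
      · have := (Nat.prime_dvd_prime_iff_eq hp hℓ).mp h1
        omega
    obtain ⟨a, e, t, d, ha, he, ht, hd, hta, hde⟩ := (hC p hp hnd A hA).2 σ hσ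
    have hmem := hY ρ hfin hcard σ
    rw [← ht, ← hd] at hmem
    have h1 : a = t := by
      refine eq_of_map_eq_of_lt_char D hℓD φ a t ?_ hta.symm
      rw [hD, Finset.mem_union]
      left
      rw [Finset.mem_image]
      exact ⟨_, hmem, by rw [ha]⟩
    have h2 : e = d := by
      refine eq_of_map_eq_of_lt_char D hℓD φ e d ?_ hde.symm
      rw [hD, Finset.mem_union]
      right
      rw [Finset.mem_image]
      exact ⟨_, hmem, by rw [he]⟩
    rw [← ha, ← he, h1, h2]
    exact hmem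
  -- Step 2: exact equality for large `ℓ`
  set D : Finset ℂ :=
    (unitPairs m ×ˢ unitPairs m).image (fun yy => yy.1.1 - yy.2.1) ∪
      (unitPairs m ×ˢ unitPairs m).image (fun yy => yy.1.2 - yy.2.2) with hD
  refine ⟨max B₀ (killProd D), ?_⟩
  intro ℓ hℓ hℓB
  have hℓB₀ : B₀ < ℓ := lt_of_le_of_lt (le_max_left _ _) hℓB
  have hℓD : killProd D < ℓ := lt_of_le_of_lt (le_max_right _ _) hℓB
  obtain ⟨k, _, _, φ, ρ, hFL, hC, hfin, hcard⟩ := h ℓ hℓ hℓB₀
  refine ⟨ρ, hFL, ?_⟩
  intro p hp hnd A hA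
  obtain ⟨hin, hF⟩ := hC p hp hnd A hA
  refine ⟨hin, ?_⟩
  intro σ hσ
  obtain ⟨a, e, t, d, ha, he, ht, hd, hta, hde⟩ := hF σ hσ
  have hpN : ¬ p ∣ N := fun h1 => hnd (Dvd.dvd.mul_right h1 ℓ)
  have hmem1 := claim p hp hpN ⟨A, σ, hA, hσ⟩
  have hmem2 := hY ρ hfin hcard σ
  rw [← ht, ← hd] at hmem2
  have h1 : a = t := by
    refine eq_of_map_eq_of_lt_char D hℓD φ a t ?_ hta.symm
    rw [hD, Finset.mem_union]
    left
    rw [Finset.mem_image]
    exact ⟨(_, _), Finset.mem_product.mpr ⟨hmem1, hmem2⟩, by rw [ha]⟩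
  have h2 : e = d := by
    refine eq_of_map_eq_of_lt_char D hℓD φ e d ?_ hde.symm
    rw [hD, Finset.mem_union]
    right
    rw [Finset.mem_image]
    exact ⟨(_, _), Finset.mem_product.mpr ⟨hmem1, hmem2⟩, by rw [he]⟩
  exact ⟨by rw [← ht, ← ha, h1], by rw [← hd, ← he, h2]⟩

end Fermat.Agent.S48.H948

end
-- ===== PACK-END S48/H948/ExactAway.lean

-- ===== PACK-BEGIN S24/Mod/H997Local.lean
section


/-!
# S24 / MOD — construction of `LocalData` from an abstract expansion with rotation data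
-/

set_option autoImplicit false

noncomputable section

open ModularCurve HahnSeries UpperHalfPlane
open scoped MatrixGroups

namespace Fermat.Agent.S24.H997

/-! ### The "rotation relation" on Laurent series -/

/-- `b` has the same order as `a`, and leading coefficient `ζ ^ order * (leading coeff of a)`. -/
def RotRel (ζ : ℂ) (a b : LaurentSeries ℂ) : Prop :=
  b.order = a.order ∧ b.leadingCoeff = ζ ^ a.order * a.leadingCoeff

namespace RotRel

variable {ζ : ℂ} {a b a' b' : LaurentSeries ℂ}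

theorem zero : RotRel ζ 0 0 := ⟨rfl, by simp⟩

theorem eq_zero_iff (h : RotRel ζ a b) (hζ : ζ ≠ 0) : b = 0 ↔ a = 0 := by
  rw [← leadingCoeff_eq_zero (x := b), ← leadingCoeff_eq_zero (x := a), h.2]
  simp [zpow_ne_zero _ hζ]

theorem mul (hζ : ζ ≠ 0) (h : RotRel ζ a b) (h' : RotRel ζ a' b') :
    RotRel ζ (a * a') (b * b') := by
  by_cases ha : a = 0
  · have hb : b = 0 := (h.eq_zero_iff hζ).mpr ha
    simp only [ha, hb, zero_mul]; exact zero
  by_cases ha' : a' = 0
  · have hb' : b' = 0 := (h'.eq_zero_iff hζ).mpr ha'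
    simp only [ha', hb', mul_zero]; exact zero
  have hb : b ≠ 0 := fun hb => ha ((h.eq_zero_iff hζ).mp hb)
  have hb' : b' ≠ 0 := fun hb' => ha' ((h'.eq_zero_iff hζ).mp hb')
  have hab : a.leadingCoeff * a'.leadingCoeff ≠ 0 :=
    mul_ne_zero (leadingCoeff_ne_zero.mpr ha) (leadingCoeff_ne_zero.mpr ha')
  have hbb : b.leadingCoeff * b'.leadingCoeff ≠ 0 :=
    mul_ne_zero (leadingCoeff_ne_zero.mpr hb) (leadingCoeff_ne_zero.mpr hb')
  refine ⟨?_, ?_⟩
  · rw [order_mul_of_ne_zero hab, order_mul_of_ne_zero hbb, h.1, h'.1]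
  · rw [leadingCoeff_mul, leadingCoeff_mul, order_mul_of_ne_zero hab, h.2, h'.2, zpow_add₀ hζ]
    ring

theorem one : RotRel ζ 1 1 := ⟨rfl, by simp⟩

theorem order_inv' {x : LaurentSeries ℂ} (hx : x ≠ 0) : x⁻¹.order = -x.order := by
  have hxi : x⁻¹ ≠ 0 := inv_ne_zero hx
  have h : x.leadingCoeff * x⁻¹.leadingCoeff ≠ 0 :=
    mul_ne_zero (leadingCoeff_ne_zero.mpr hx) (leadingCoeff_ne_zero.mpr hxi)
  have := order_mul_of_ne_zero h
  rw [mul_inv_cancel₀ hx, order_one] at this
  omega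

theorem leadingCoeff_inv' {x : LaurentSeries ℂ} (hx : x ≠ 0) :
    x⁻¹.leadingCoeff = (x.leadingCoeff)⁻¹ := by
  have := leadingCoeff_mul x x⁻¹
  rw [mul_inv_cancel₀ hx, leadingCoeff_one] at this
  exact eq_inv_of_mul_eq_one_right this.symm

theorem inv (hζ : ζ ≠ 0) (h : RotRel ζ a b) : RotRel ζ a⁻¹ b⁻¹ := by
  by_cases ha : a = 0
  · have hb : b = 0 := (h.eq_zero_iff hζ).mpr ha
    simp only [ha, hb, inv_zero]; exact zero
  have hb : b ≠ 0 := fun hb => ha ((h.eq_zero_iff hζ).mp hb)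
  refine ⟨?_, ?_⟩
  · rw [order_inv' hb, order_inv' ha, h.1]
  · rw [leadingCoeff_inv' hb, leadingCoeff_inv' ha, order_inv' ha, h.2, mul_inv, zpow_neg]

theorem div (hζ : ζ ≠ 0) (h : RotRel ζ a b) (h' : RotRel ζ a' b') :
    RotRel ζ (a / a') (b / b') := by
  rw [div_eq_mul_inv, div_eq_mul_inv]
  exact h.mul hζ (h'.inv hζ)

end RotRel

variable {N : ℕ} [NeZero N]

/-- An abstract injective expansion ring hom on `Hol`. -/
structure Expansion (B : HolBase N) where
  E : B.Hol →+* LaurentSeries ℂ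
  inj : Function.Injective E
  const : ∀ c : ℂ, E (B.constH c) = HahnSeries.C c

/-- Rotation data for an expansion: precomposition with `ε` rotates the local coordinate
by the primitive `m`-th root of unity `ζ` (to first order). -/
structure RotData (B : HolBase N) (X : Expansion B) (ε : SL(2, ℤ)) where
  m : ℕ
  m_pos : 0 < m
  ζ : ℂ
  hζ : IsPrimitiveRoot ζ m
  rot : ∀ h : B.Hol, RotRel ζ (X.E h) (X.E (B.compH ε h))

namespace HolBase

variable (B : HolBase N) (X : Expansion B)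

/-- the ring hom `R_N → ℂ((z))`, `r ↦ E (e r ∘ g⁻¹)` -/
def sG (g : SL(2, ℤ)) : RN N →+* LaurentSeries ℂ :=
  X.E.comp ((B.compH g⁻¹).comp B.bridge)

theorem sG_apply (g : SL(2, ℤ)) (r : RN N) :
    B.sG X g r = X.E (B.compH g⁻¹ (B.bridge r)) := rfl

theorem sG_injective (g : SL(2, ℤ)) : Function.Injective (B.sG X g) :=
  X.inj.comp ((B.compH_injective g⁻¹).comp B.bridge_injective)

/-- the embedding `FF N → ℂ((z))` attached to `g` -/
def sigmaG (g : SL(2, ℤ)) : FF N →+* LaurentSeries ℂ :=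
  liftF (B.sG X g) (B.sG_injective X g)

theorem sigmaG_inclRN (g : SL(2, ℤ)) (r : RN N) :
    B.sigmaG X g (inclRN N r) = X.E (B.compH g⁻¹ (B.bridge r)) :=
  liftF_inclRN _ _ r

theorem sigmaG_algebraMap (g : SL(2, ℤ)) (c : Kbar) :
    B.sigmaG X g (algebraMap Kbar (FF N) c) = HahnSeries.C (ιK c) := by
  rw [sigmaG, liftF_algebraMap, sG_apply, bridge_algebraMap, compH_constH, X.const]

theorem sigmaG_jF (g : SL(2, ℤ)) :
    B.sigmaG X g (jF N) = X.E (B.JH 1 (one_dvd N)) := by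
  rw [← inclRN_jR_one, sigmaG_inclRN, bridge_jR, compH_JH_one]

theorem sG_mul_of_mem (g : SL(2, ℤ)) {δ : SL(2, ℤ)} (hδ : δ ∈ CongruenceSubgroup.Gamma0 N) :
    B.sG X (g * δ) = B.sG X g := by
  ext1 r
  rw [sG_apply, sG_apply, mul_inv_rev, compH_mul,
    B.compH_bridge_of_mem (inv_mem hδ)]

theorem sigmaG_mul_of_mem (g : SL(2, ℤ)) {δ : SL(2, ℤ)}
    (hδ : δ ∈ CongruenceSubgroup.Gamma0 N) : B.sigmaG X (g * δ) = B.sigmaG X g := by
  unfold sigmaG
  congr 1
  exact B.sG_mul_of_mem X g hδ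

theorem sigmaG_eq_of_mk_eq {g g' : SL(2, ℤ)}
    (h : (g : XX N) = (g' : XX N)) : B.sigmaG X g = B.sigmaG X g' := by
  have hmem : g⁻¹ * g' ∈ CongruenceSubgroup.Gamma0 N := QuotientGroup.eq.mp h
  have := B.sigmaG_mul_of_mem X g hmem
  rw [mul_inv_cancel_left] at this
  exact this.symm

/-- the embedding attached to a coset -/
def sigmaX (x : XX N) : FF N →+* LaurentSeries ℂ := B.sigmaG X (Quotient.out x)

theorem sigmaX_mk (g : SL(2, ℤ)) : B.sigmaX X (g : XX N) = B.sigmaG X g :=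
  B.sigmaG_eq_of_mk_eq X (QuotientGroup.out_eq' _)

theorem sigmaX_injective : Function.Injective (B.sigmaX X) := by
  intro x y hxy
  obtain ⟨g, rfl⟩ := QuotientGroup.mk_surjective x
  obtain ⟨g', rfl⟩ := QuotientGroup.mk_surjective y
  rw [sigmaX_mk, sigmaX_mk] at hxy
  have h1 := congrArg (fun s => s (inclRN N (jR N N dvd_rfl))) hxy
  simp only [sigmaG_inclRN, bridge_jR] at h1
  have h2 := X.inj h1
  apply QuotientGroup.eq.mpr
  apply B.J_distinct
  intro τ
  have h3 := congrArg (fun h : B.Hol => (h : ℍ → ℂ) (g' • τ)) h2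
  simp only [compH_apply] at h3
  rw [← mul_smul, ← mul_smul, inv_mul_cancel, one_smul] at h3
  exact h3

theorem rotRel_sigmaG (ε : SL(2, ℤ)) (R : RotData B X ε) (g : SL(2, ℤ)) (f : FF N) :
    RotRel R.ζ (B.sigmaG X g f) (B.sigmaG X (ε⁻¹ * g) f) := by
  have hζ : R.ζ ≠ 0 := R.hζ.ne_zero R.m_pos.ne'
  obtain ⟨r, t, -, rfl⟩ := exists_div_inclRN N f
  rw [map_div₀, map_div₀]
  have key : ∀ r : RN N, RotRel R.ζ (B.sigmaG X g (inclRN N r))
      (B.sigmaG X (ε⁻¹ * g) (inclRN N r)) := by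
    intro r
    rw [sigmaG_inclRN, sigmaG_inclRN, mul_inv_rev, inv_inv, compH_mul]
    exact R.rot _
  exact (key r).div hζ (key t)

/-- `LocalData` from an expansion with rotation data. -/
def mkLocalData (ε : SL(2, ℤ)) (R : RotData B X ε) (t : FF N) (u : LaurentSeries ℂ)
    (ht : ∀ g : SL(2, ℤ), B.sigmaG X g t = u) (hu : u.order = (R.m : ℤ)) :
    LocalData Kbar (FF N) ℂ (XX N) t where
  m := R.m
  m_pos := R.m_pos
  ζ := R.ζ
  hζ := R.hζ
  ι := ιK
  perm := permOf N ε⁻¹
  σ := B.sigmaX X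
  σ_inj := B.sigmaX_injective X
  σ_const x c := B.sigmaG_algebraMap X _ c
  σ_t_eq x y := by
    show B.sigmaG X _ t = B.sigmaG X _ t
    rw [ht, ht]
  σ_t_order x := by
    show (B.sigmaG X _ t).order = _
    rw [ht, hu]
  σ_perm_order x f := by
    obtain ⟨g, rfl⟩ := QuotientGroup.mk_surjective x
    have h : permOf N ε⁻¹ (g : XX N) = ((ε⁻¹ * g : SL(2, ℤ)) : XX N) := rfl
    rw [h, sigmaX_mk, sigmaX_mk]
    exact (B.rotRel_sigmaG X ε R g f).1
  σ_perm_leadingCoeff x f := by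
    obtain ⟨g, rfl⟩ := QuotientGroup.mk_surjective x
    have h : permOf N ε⁻¹ (g : XX N) = ((ε⁻¹ * g : SL(2, ℤ)) : XX N) := rfl
    rw [h, sigmaX_mk, sigmaX_mk]
    exact (B.rotRel_sigmaG X ε R g f).2

@[simp] theorem mkLocalData_perm (ε : SL(2, ℤ)) (R : RotData B X ε) (t : FF N)
    (u : LaurentSeries ℂ) (ht : ∀ g : SL(2, ℤ), B.sigmaG X g t = u)
    (hu : u.order = (R.m : ℤ)) :
    (B.mkLocalData X ε R t u ht hu).perm = permOf N ε⁻¹ := rfl

end HolBase

end Fermat.Agent.S24.H997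

end
end
-- ===== PACK-END S24/Mod/H997Local.lean

-- ===== PACK-BEGIN S24/Mod/H997Core.lean
section


/-!
# S24 / MOD — the analytic interface `AnalyticCore N` and the assembly of the modular package

`AnalyticCore N` is the complete list of analytic facts needed (besides the degree bound
`[FF N : ℚ̄(j)] ≤ |SL₂(ℤ)/Γ₀(N)|`) to produce all the `LocalData` of helper984's interface
`ModularPackage N`.
-/

set_option autoImplicit false

noncomputable section

open ModularCurve HahnSeries UpperHalfPlane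
open scoped MatrixGroups

namespace Fermat.Agent.S24.H997

variable {N : ℕ} [NeZero N]

/-- Local data at a point of `ℍ` lying over `a = J(τ₀)`: an expansion (Taylor expansion at `τ₀`),
rotation data for the stabilising element `ε`, and the order of vanishing of `J - a`. -/
structure PointData (B : HolBase N) (a : ℂ) (ε : SL(2, ℤ)) where
  X : Expansion B
  R : RotData B X ε
  order_J : (X.E (B.JH 1 (one_dvd N) - B.constH a)).order = (R.m : ℤ)

/-- **The analytic interface.** -/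
structure AnalyticCore (N : ℕ) [NeZero N] extends HolBase N where
  /-- generic points: `J - a` has a simple zero at some `τ₀` -/
  generic : ∀ a : ℂ, a ≠ 0 → a ≠ 1728 → PointData toHolBase a 1

  /-- the point `i` over `1728`, rotation by `S` -/
  at1728 : PointData toHolBase 1728 ModularGroup.S
  /-- the point `ρ` over `0`, rotation by `S * T` -/
  at0 : PointData toHolBase 0 (ModularGroup.S * ModularGroup.T)
  /-- the cusp `∞`: `qexp (h ∘ T)` is `qexp h` with `z` replaced by `ζ z` -/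
  infζ : ℂ
  inf_hζ : IsPrimitiveRoot infζ N
  inf_shift : ∀ (h : Hol) (n : ℤ),
    (qexp (toHolBase.compH ModularGroup.T h)).coeff n = infζ ^ n * (qexp h).coeff n

namespace HolBase

variable (B : HolBase N)

/-- the expansion at `∞` -/
def qexpExpansion : Expansion B := ⟨B.qexp, B.qexp_injective, B.qexp_const⟩

theorem qexp_J_one_coeff (k : ℤ) :
    (B.qexp (B.JH 1 (one_dvd N))).coeff k
      = if (N : ℤ) ∣ k then ((jq.coeff (k / (N : ℤ)) : ℚ) : ℂ) else 0 := by
  have := B.qexp_J 1 (one_dvd N) k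
  simpa [JH] using this

theorem qexp_J_one_ne_zero : B.qexp (B.JH 1 (one_dvd N)) ≠ 0 := by
  apply ne_zero_of_coeff_ne_zero (g := -(N : ℤ))
  rw [qexp_J_one_coeff, if_pos (dvd_neg.mpr dvd_rfl)]
  have hN : (N : ℤ) ≠ 0 := by exact_mod_cast NeZero.ne N
  rw [Int.neg_ediv_of_dvd dvd_rfl, Int.ediv_self hN, coeff_jq_neg_one]
  simp

theorem order_qexp_J_one : (B.qexp (B.JH 1 (one_dvd N))).order = -(N : ℤ) := by
  have hN : (N : ℤ) ≠ 0 := by exact_mod_cast NeZero.ne N
  have hNpos : (0 : ℤ) < N := by exact_mod_cast Nat.pos_of_ne_zero (NeZero.ne N)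
  apply le_antisymm
  · apply order_le_of_coeff_ne_zero
    rw [qexp_J_one_coeff, if_pos (dvd_neg.mpr dvd_rfl)]
    rw [Int.neg_ediv_of_dvd dvd_rfl, Int.ediv_self hN, coeff_jq_neg_one]
    simp
  · by_contra hlt
    replace hlt := lt_of_not_ge hlt
    have h0 := coeff_order_eq_zero.not.mpr B.qexp_J_one_ne_zero
    apply h0
    rw [qexp_J_one_coeff]
    split_ifs with hdvd
    · obtain ⟨m, hm⟩ := hdvd
      rw [hm, Int.mul_ediv_cancel_left _ hN]
      have : m < -1 := by
        rw [hm] at hlt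
        by_contra hge
        replace hge := le_of_not_gt hge
        have : (N : ℤ) * m ≥ N * (-1) := mul_le_mul_of_nonneg_left hge hNpos.le
        linarith
      rw [coeff_jq_of_lt this]
      simp
    · rfl

end HolBase

/-- Rotation data from a coefficientwise statement `coeff_n (E (h ∘ ε)) = ζ^n coeff_n (E h)`. -/
def RotData.ofCoeff (B : HolBase N) (X : Expansion B) (ε : SL(2, ℤ)) (m : ℕ) (m_pos : 0 < m)
    (ζ : ℂ) (hζ : IsPrimitiveRoot ζ m)
    (h : ∀ (f : B.Hol) (n : ℤ), (X.E (B.compH ε f)).coeff n = ζ ^ n * (X.E f).coeff n) :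
    RotData B X ε where
  m := m
  m_pos := m_pos
  ζ := ζ
  hζ := hζ
  rot f := by
    have hζ0 : ζ ≠ 0 := hζ.ne_zero m_pos.ne'
    by_cases hf : X.E f = 0
    · have : X.E (B.compH ε f) = 0 := by
        ext n; rw [h, hf]; simp
      rw [hf, this]; exact RotRel.zero
    · have hf' : X.E (B.compH ε f) ≠ 0 := by
        intro h0
        apply hf
        ext n
        have := congrArg (fun s => s.coeff n) h0
        simp only [h, coeff_zero, mul_eq_zero, zpow_ne_zero n hζ0, false_or] at this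
        simpa using this
      have hord : (X.E (B.compH ε f)).order = (X.E f).order := by
        apply le_antisymm
        · apply order_le_of_coeff_ne_zero
          rw [h]
          exact mul_ne_zero (zpow_ne_zero _ hζ0) (coeff_order_eq_zero.not.mpr hf)
        · apply order_le_of_coeff_ne_zero
          have := coeff_order_eq_zero.not.mpr hf'
          rw [h] at this
          exact right_ne_zero_of_mul this
      refine ⟨hord, ?_⟩
      rw [leadingCoeff_eq, leadingCoeff_eq, hord, h]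

theorem numOrbits_inv {X : Type*} (π : Equiv.Perm X) : numOrbits π⁻¹ = numOrbits π := by
  unfold numOrbits
  rw [Subgroup.zpowers_inv]

theorem permOf_inv (N : ℕ) [NeZero N] (g : SL(2, ℤ)) : permOf N g⁻¹ = (permOf N g)⁻¹ := by
  ext x
  simp [permOf]

theorem permOf_one (N : ℕ) [NeZero N] : permOf N 1 = 1 := by
  ext x
  simp [permOf]

namespace AnalyticCore

variable (A : AnalyticCore N)

/-- rotation data at the cusp -/
def infRot : RotData A.toHolBase A.toHolBase.qexpExpansion ModularGroup.T :=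
  RotData.ofCoeff A.toHolBase A.toHolBase.qexpExpansion ModularGroup.T N
    (Nat.pos_of_ne_zero (NeZero.ne N)) A.infζ A.inf_hζ A.inf_shift

/-- the local data at `∞` -/
def dataInf : LocalData Kbar (FF N) ℂ (XX N) (jF N)⁻¹ :=
  A.toHolBase.mkLocalData A.toHolBase.qexpExpansion ModularGroup.T A.infRot (jF N)⁻¹
    (A.qexp (A.toHolBase.JH 1 (one_dvd N)))⁻¹
    (fun g => by rw [map_inv₀, HolBase.sigmaG_jF]; rfl)
    (by
      rw [RotRel.order_inv' A.toHolBase.qexp_J_one_ne_zero, A.toHolBase.order_qexp_J_one, neg_neg]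
      rfl)

theorem sigmaG_sub {a : Kbar} {ε : SL(2, ℤ)} (P : PointData A.toHolBase (ιK a) ε)
    (g : SL(2, ℤ)) :
    A.toHolBase.sigmaG P.X g (jF N - algebraMap Kbar (FF N) a)
      = P.X.E (A.toHolBase.JH 1 (one_dvd N) - A.toHolBase.constH (ιK a)) := by
  rw [map_sub, HolBase.sigmaG_jF, HolBase.sigmaG_algebraMap, map_sub, P.X.const]

/-- the local data attached to point data over `a` -/
def dataOfPoint {a : Kbar} {ε : SL(2, ℤ)} (P : PointData A.toHolBase (ιK a) ε) :
    LocalData Kbar (FF N) ℂ (XX N) (jF N - algebraMap Kbar (FF N) a) :=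
  A.toHolBase.mkLocalData P.X ε P.R _ _ (fun g => A.sigmaG_sub P g) P.order_J

/-- all the embeddings `σ_x` agree on `ℚ̄(j)` -/
theorem sigmaX_eq_on_adjoin (X : Expansion A.toHolBase) (x y : XX N) {f : FF N}
    (hf : f ∈ IntermediateField.adjoin Kbar {jF N}) :
    A.toHolBase.sigmaX X x f = A.toHolBase.sigmaX X y f := by
  induction hf using IntermediateField.adjoin_induction with
  | mem z hz =>
      rw [Set.mem_singleton_iff] at hz
      subst hz
      show A.toHolBase.sigmaG X _ (jF N) = A.toHolBase.sigmaG X _ (jF N)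
      rw [HolBase.sigmaG_jF, HolBase.sigmaG_jF]
  | algebraMap c =>
      show A.toHolBase.sigmaG X _ _ = A.toHolBase.sigmaG X _ _
      rw [HolBase.sigmaG_algebraMap, HolBase.sigmaG_algebraMap]
  | add z w _ _ hz hw => rw [map_add, map_add, hz, hw]
  | inv z _ hz => rw [map_inv₀, map_inv₀, hz]
  | mul z w _ _ hz hw => rw [map_mul, map_mul, hz, hw]

/-- lower bound for the degree: `|SL₂(ℤ)/Γ₀(N)| ≤ [FF N : ℚ̄(j)]`. -/
theorem card_le_finrank (A : AnalyticCore N)
    [FiniteDimensional ↥(IntermediateField.adjoin Kbar {jF N}) (FF N)] :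
    Nat.card (XX N) ≤ Module.finrank ↥(IntermediateField.adjoin Kbar {jF N}) (FF N) := by
  classical
  set E := IntermediateField.adjoin Kbar {jF N} with hE
  let X := A.toHolBase.qexpExpansion
  let x0 : XX N := ((1 : SL(2, ℤ)) : XX N)
  let ψ : ↥E →+* LaurentSeries ℂ := (A.toHolBase.sigmaX X x0).comp (algebraMap ↥E (FF N))
  letI : Algebra ↥E (LaurentSeries ℂ) := ψ.toAlgebra
  let a : XX N → (FF N →ₐ[↥E] LaurentSeries ℂ) := fun x =>
    { A.toHolBase.sigmaX X x with
      commutes' := fun y => A.sigmaX_eq_on_adjoin X x x0 y.2 }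
  have ha : Function.Injective a := by
    intro x y hxy
    apply A.toHolBase.sigmaX_injective X
    refine RingHom.ext fun f => ?_
    exact congrArg (fun φ : FF N →ₐ[↥E] LaurentSeries ℂ => φ f) hxy
  haveI : Module.Free ↥E (FF N) := Module.Free.of_divisionRing ↥E (FF N)
  haveI : Module.Finite ↥E (FF N) := ‹FiniteDimensional ↥E (FF N)›
  haveI : Finite (FF N →ₐ[↥E] LaurentSeries ℂ) := Finite.algHom ↥E (FF N) (LaurentSeries ℂ)
  calc Nat.card (XX N) ≤ Nat.card (FF N →ₐ[↥E] LaurentSeries ℂ) :=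
        Nat.card_le_card_of_injective a ha
    _ ≤ Module.finrank ↥E (FF N) := card_algHom_le_finrank ↥E (FF N) (LaurentSeries ℂ)

/-- the local data over a finite point `a : ℚ̄` -/
def dataFin (a : Kbar) : LocalData Kbar (FF N) ℂ (XX N) (jF N - algebraMap Kbar (FF N) a) :=
  letI := Classical.propDecidable
  if h0 : a = 0 then
    A.dataOfPoint (a := a) (ε := ModularGroup.S * ModularGroup.T)
      (by rw [h0, map_zero]; exact A.at0)
  else if h1 : a = 1728 then
    A.dataOfPoint (a := a) (ε := ModularGroup.S)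
      (by
        have : ιK a = 1728 := by rw [h1]; exact map_ofNat ιK 1728
        rw [this]; exact A.at1728)
  else
    A.dataOfPoint (a := a) (ε := 1)
      (A.generic (ιK a)
        (fun h => h0 (ιK_injective (by rw [h, map_zero])))
        (fun h => h1 (ιK_injective (by rw [h]; exact (map_ofNat ιK 1728).symm))))

theorem dataFin_perm_generic (a : Kbar) (h0 : a ≠ 0) (h1 : a ≠ 1728) :
    (A.dataFin a).perm = 1 := by
  unfold dataFin
  rw [dif_neg h0, dif_neg h1]
  show permOf N 1⁻¹ = 1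
  rw [inv_one, permOf_one]

theorem dataFin_zero_perm :
    numOrbits (A.dataFin 0).perm = numOrbits (permOf N (ModularGroup.S * ModularGroup.T)) := by
  unfold dataFin
  rw [dif_pos rfl]
  show numOrbits (permOf N (ModularGroup.S * ModularGroup.T)⁻¹) = _
  rw [permOf_inv, numOrbits_inv]

theorem dataFin_1728_perm :
    numOrbits (A.dataFin 1728).perm = numOrbits (permOf N ModularGroup.S) := by
  have h0 : (1728 : Kbar) ≠ 0 := by norm_num
  unfold dataFin
  rw [dif_neg h0, dif_pos rfl]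
  show numOrbits (permOf N ModularGroup.S⁻¹) = _
  rw [permOf_inv, numOrbits_inv]

theorem dataInf_perm :
    numOrbits A.dataInf.perm = numOrbits (permOf N ModularGroup.T) := by
  show numOrbits (permOf N ModularGroup.T⁻¹) = _
  rw [permOf_inv, numOrbits_inv]

/-- **Assembly.**  All fields of helper984's `ModularPackage N` from the analytic core and the
degree bound. -/
theorem modularPackage_fields (A : AnalyticCore N)
    (hfd : FiniteDimensional ↥(IntermediateField.adjoin Kbar {jF N}) (FF N))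
    (hle : Module.finrank ↥(IntermediateField.adjoin Kbar {jF N}) (FF N) ≤ Nat.card (XX N)) :
    ∃ (dataFin : ∀ a : Kbar, LocalData Kbar (FF N) ℂ (XX N) (jF N - algebraMap Kbar (FF N) a))
      (dataInf : LocalData Kbar (FF N) ℂ (XX N) (jF N)⁻¹),
      Module.finrank ↥(IntermediateField.adjoin Kbar {jF N}) (FF N) = Nat.card (XX N) ∧
      (∀ a : Kbar, a ≠ 0 → a ≠ 1728 → (dataFin a).perm = 1) ∧
      numOrbits (dataFin 0).perm = numOrbits (permOf N (ModularGroup.S * ModularGroup.T)) ∧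
      numOrbits (dataFin 1728).perm = numOrbits (permOf N ModularGroup.S) ∧
      numOrbits dataInf.perm = numOrbits (permOf N ModularGroup.T) :=
  ⟨A.dataFin, A.dataInf, le_antisymm hle A.card_le_finrank, A.dataFin_perm_generic,
    A.dataFin_zero_perm, A.dataFin_1728_perm, A.dataInf_perm⟩

end AnalyticCore

end Fermat.Agent.S24.H997

end
end
-- ===== PACK-END S24/Mod/H997Core.lean

-- ===== PACK-BEGIN S24/H624/SL2Z.lean
section


/-!
# `SL(2, ℤ)` acting on holomorphic functions; divisibility of orders at elliptic points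
-/

set_option autoImplicit false

namespace Fermat.Agent.S24.H624

open UpperHalfPlane Complex
open scoped Manifold Topology MatrixGroups

theorem det_coe_SL_pos (γ : SL(2, ℤ)) : 0 < ((γ : GL (Fin 2) ℝ).det.val : ℝ) := by
  simp

theorem det_coe_SL (γ : SL(2, ℤ)) : ((γ : GL (Fin 2) ℝ).det.val : ℝ) = 1 := by
  simp

/-- Precomposition with `γ ∈ SL(2, ℤ)` as an algebra endomorphism of `holoRing`. -/
noncomputable def precompSL (γ : SL(2, ℤ)) : holoRing →ₐ[ℂ] holoRing where
  toFun f := ⟨fun τ => (f : ℍ → ℂ) (γ • τ), mdiff_comp_smul (det_coe_SL_pos γ) f.2⟩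
  map_one' := rfl
  map_mul' _ _ := rfl
  map_zero' := rfl
  map_add' _ _ := rfl
  commutes' _ := rfl

@[simp]
theorem precompSL_apply (γ : SL(2, ℤ)) (f : holoRing) (τ : ℍ) :
    (precompSL γ f : ℍ → ℂ) τ = (f : ℍ → ℂ) (γ • τ) := rfl

theorem precompSL_one (f : holoRing) : precompSL 1 f = f := by
  ext τ
  simp

theorem precompSL_mul (γ δ : SL(2, ℤ)) (f : holoRing) :
    precompSL (γ * δ) f = precompSL δ (precompSL γ f) := by
  ext τ
  simp [mul_smul]

/-- Left action of `SL(2, ℤ)` on holomorphic functions: `(γ • f) τ = f (γ⁻¹ • τ)`. -/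
noncomputable instance instMulSemiringActionHoloRing : MulSemiringAction SL(2, ℤ) holoRing where
  smul γ f := precompSL γ⁻¹ f
  one_smul f := by
    show precompSL (1 : SL(2, ℤ))⁻¹ f = f
    rw [inv_one, precompSL_one]
  mul_smul γ δ f := by
    show precompSL (γ * δ)⁻¹ f = precompSL γ⁻¹ (precompSL δ⁻¹ f)
    rw [mul_inv_rev, precompSL_mul]
  smul_zero γ := map_zero _
  smul_add γ f g := map_add _ f g
  smul_one γ := map_one _
  smul_mul γ f g := map_mul _ f g

theorem smul_holoRing_apply (γ : SL(2, ℤ)) (f : holoRing) (τ : ℍ) :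
    ((γ • f : holoRing) : ℍ → ℂ) τ = (f : ℍ → ℂ) (γ⁻¹ • τ) := rfl

theorem smul_holoRing_def (γ : SL(2, ℤ)) (f : holoRing) : γ • f = precompSL γ⁻¹ f := rfl

instance instSMulCommClassHoloRing : SMulCommClass SL(2, ℤ) ℂ holoRing where
  smul_comm γ c f := by
    ext τ
    rfl

theorem ordAt_precompSL (γ : SL(2, ℤ)) (f : holoRing) (τ : ℍ) :
    ordAt τ (precompSL γ f : ℍ → ℂ) = ordAt (γ • τ) (f : ℍ → ℂ) :=
  ordAt_comp_smul (det_coe_SL_pos γ) (f : ℍ → ℂ) τ

theorem ordAt_smul_holoRing (γ : SL(2, ℤ)) (f : holoRing) (τ : ℍ) :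
    ordAt (γ • τ) ((γ • f : holoRing) : ℍ → ℂ) = ordAt τ (f : ℍ → ℂ) := by
  rw [smul_holoRing_def, ordAt_precompSL, inv_smul_smul]

/-- Rotation lemma for `SL(2, ℤ)`: if `γ` fixes `τ` and `f ≠ 0` is `γ`-invariant of order `n`
at `τ`, then `(c τ + d) ^ (2 n) = 1`. -/
theorem denom_pow_eq_one {γ : SL(2, ℤ)} {f : ℍ → ℂ} (hf : MDiff f) (hf0 : f ≠ 0) {τ : ℍ}
    (hτ : γ • τ = τ) (hinv : ∀ z : ℍ, f (γ • z) = f z) :
    denom (γ : GL (Fin 2) ℝ) (τ : ℂ) ^ (2 * (ordAt τ f).toNat) = 1 := by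
  have h := rotation_lemma (g := (γ : GL (Fin 2) ℝ)) (det_coe_SL_pos γ) hf hf0 hτ hinv
  rw [det_coe_SL γ] at h
  have hd : denom (γ : GL (Fin 2) ℝ) (τ : ℂ) ≠ 0 := denom_ne_zero _ τ
  rw [Complex.ofReal_one, div_pow, one_pow, ← pow_mul] at h
  have h2 := (div_eq_one_iff_eq (pow_ne_zero _ hd)).mp h
  exact h2.symm

/-- The quadratic relation satisfied by `λ = c τ + d` at a fixed point:
`λ ^ 2 - (a + d) λ + 1 = 0`. -/
theorem denom_sq_eq_of_fixed {γ : SL(2, ℤ)} {τ : ℍ} (hτ : γ • τ = τ) :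
    denom (γ : GL (Fin 2) ℝ) (τ : ℂ) ^ 2
      = (((γ 0 0 + γ 1 1 : ℤ) : ℂ)) * denom (γ : GL (Fin 2) ℝ) (τ : ℂ) - 1 := by
  have hd : denom (γ : GL (Fin 2) ℝ) (τ : ℂ) ≠ 0 := denom_ne_zero _ τ
  have h1 : ((γ • τ : ℍ) : ℂ) = num (γ : GL (Fin 2) ℝ) τ / denom (γ : GL (Fin 2) ℝ) τ :=
    coe_smul_of_det_pos (det_coe_SL_pos γ) τ
  rw [hτ] at h1
  have h2 : (τ : ℂ) * denom (γ : GL (Fin 2) ℝ) τ = num (γ : GL (Fin 2) ℝ) τ :=
    (eq_div_iff hd).mp h1
  have hdet : ((γ 0 0 : ℤ) : ℂ) * ((γ 1 1 : ℤ) : ℂ) - ((γ 0 1 : ℤ) : ℂ) * ((γ 1 0 : ℤ) : ℂ) = 1 := by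
    have := γ.det_coe
    rw [Matrix.det_fin_two] at this
    exact_mod_cast this
  have hnum : num (γ : GL (Fin 2) ℝ) (τ : ℂ) = ((γ 0 0 : ℤ) : ℂ) * τ + ((γ 0 1 : ℤ) : ℂ) := by
    simp [num]
  have hden : denom (γ : GL (Fin 2) ℝ) (τ : ℂ) = ((γ 1 0 : ℤ) : ℂ) * τ + ((γ 1 1 : ℤ) : ℂ) := by
    simp [denom]
  rw [hnum, hden] at h2
  rw [hden]
  push_cast
  linear_combination (((γ 1 0 : ℤ) : ℂ)) * h2 - hdet

/-- At a fixed point of an element of trace `0`, invariant functions vanish to even order. -/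
theorem even_ordAt_of_trace_zero {γ : SL(2, ℤ)} {f : ℍ → ℂ} (hf : MDiff f) (hf0 : f ≠ 0)
    {τ : ℍ} (hτ : γ • τ = τ) (htr : γ 0 0 + γ 1 1 = 0) (hinv : ∀ z : ℍ, f (γ • z) = f z) :
    Even (ordAt τ f).toNat := by
  have h1 := denom_pow_eq_one hf hf0 hτ hinv
  have h2 := denom_sq_eq_of_fixed hτ
  rw [htr] at h2
  simp only [Int.cast_zero, zero_mul, zero_sub] at h2
  rw [pow_mul, h2] at h1
  by_contra hodd
  rw [Nat.not_even_iff_odd] at hodd
  rw [hodd.neg_one_pow] at h1
  norm_num at h1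

theorem three_dvd_of_root {μ : ℂ} (hμ : μ ^ 2 + μ + 1 = 0) {n : ℕ} (hn : μ ^ n = 1) : 3 ∣ n := by
  have h3 : μ ^ 3 = 1 := by linear_combination (μ - 1) * hμ
  have hμ1 : μ ≠ 1 := by
    rintro rfl
    norm_num at hμ
  have hμ2 : μ ^ 2 ≠ 1 := by
    intro h
    have : μ = -2 := by linear_combination hμ - h
    rw [this] at h
    norm_num at h
  have hdiv : μ ^ n = μ ^ (n % 3) := by
    conv_lhs => rw [← Nat.div_add_mod n 3, pow_add, pow_mul, h3, one_pow, one_mul]
  rw [hdiv] at hn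
  have hlt : n % 3 < 3 := Nat.mod_lt _ (by norm_num)
  interval_cases h : n % 3
  · exact Nat.dvd_of_mod_eq_zero h
  · rw [pow_one] at hn; exact absurd hn hμ1
  · exact absurd hn hμ2

/-- At a fixed point of an element of trace `±1`, invariant functions vanish to order divisible
by `3`. -/
theorem three_dvd_ordAt_of_trace {γ : SL(2, ℤ)} {f : ℍ → ℂ} (hf : MDiff f) (hf0 : f ≠ 0)
    {τ : ℍ} (hτ : γ • τ = τ) (htr : γ 0 0 + γ 1 1 = 1 ∨ γ 0 0 + γ 1 1 = -1)
    (hinv : ∀ z : ℍ, f (γ • z) = f z) :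
    3 ∣ (ordAt τ f).toNat := by
  have h1 := denom_pow_eq_one hf hf0 hτ hinv
  have h2 := denom_sq_eq_of_fixed hτ
  rw [pow_mul] at h1
  set lam := denom (γ : GL (Fin 2) ℝ) (τ : ℂ) with hlam
  refine three_dvd_of_root (μ := lam ^ 2) ?_ h1
  rcases htr with htr | htr
  · rw [htr] at h2
    simp only [Int.cast_one, one_mul] at h2
    linear_combination (lam ^ 2 + lam + 1) * h2
  · rw [htr] at h2
    simp only [Int.cast_neg, Int.cast_one, neg_mul, one_mul] at h2
    linear_combination (lam ^ 2 - lam + 1) * h2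

end Fermat.Agent.S24.H624

end
-- ===== PACK-END S24/H624/SL2Z.lean

-- ===== PACK-BEGIN S24/H624/Germ.lean
section


/-!
# Taylor coefficients of germs; leading coefficient under Möbius transformations
-/

set_option autoImplicit false

namespace Fermat.Agent.S24.H624

open UpperHalfPlane Complex
open scoped Manifold Topology MatrixGroups

/-- `n`-th Taylor coefficient at `z₀` of a function `ℂ → ℂ`. -/
noncomputable def germCoeff (z₀ : ℂ) (F : ℂ → ℂ) (n : ℕ) : ℂ :=
  iteratedDeriv n F z₀ / (n.factorial : ℂ)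

theorem taylorCoeff_eq_germCoeff (τ : ℍ) (f : ℍ → ℂ) (n : ℕ) :
    taylorCoeff τ f n = germCoeff (τ : ℂ) (f ∘ ofComplex) n := rfl

theorem germCoeff_congr {F G : ℂ → ℂ} {z₀ : ℂ} (h : F =ᶠ[𝓝 z₀] G) (n : ℕ) :
    germCoeff z₀ F n = germCoeff z₀ G n := by
  unfold germCoeff
  rw [h.iteratedDeriv_eq]

theorem germCoeff_zero_idx (z₀ : ℂ) (F : ℂ → ℂ) : germCoeff z₀ F 0 = F z₀ := by
  simp [germCoeff]

theorem germCoeff_mul {F G : ℂ → ℂ} {z₀ : ℂ} (hF : AnalyticAt ℂ F z₀) (hG : AnalyticAt ℂ G z₀)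
    (n : ℕ) :
    germCoeff z₀ (F * G) n
      = ∑ p ∈ Finset.HasAntidiagonal.antidiagonal n, germCoeff z₀ F p.1 * germCoeff z₀ G p.2 := by
  unfold germCoeff
  have hF' : ContDiffAt ℂ n F z₀ := hF.contDiffAt.of_le (by exact_mod_cast le_top)
  have hG' : ContDiffAt ℂ n G z₀ := hG.contDiffAt.of_le (by exact_mod_cast le_top)
  rw [iteratedDeriv_mul hF' hG',
    Finset.Nat.sum_antidiagonal_eq_sum_range_succ
      (fun i j => iteratedDeriv i F z₀ / (i.factorial : ℂ)
        * (iteratedDeriv j G z₀ / (j.factorial : ℂ))) n,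
    Finset.sum_div]
  refine Finset.sum_congr rfl fun i hi => ?_
  have hi' : i ≤ n := Nat.lt_succ_iff.mp (Finset.mem_range.mp hi)
  have h1 : (n.choose i : ℂ)
      = (n.factorial : ℂ) / ((i.factorial : ℂ) * ((n - i).factorial : ℂ)) := by
    rw [Nat.choose_eq_factorial_div_factorial hi']
    rw [Nat.cast_div (Nat.factorial_mul_factorial_dvd_factorial hi')
      (by exact_mod_cast (Nat.mul_pos (Nat.factorial_pos _) (Nat.factorial_pos _)).ne')]
    push_cast
    rfl
  rw [h1]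
  have hn : (n.factorial : ℂ) ≠ 0 := by exact_mod_cast (Nat.factorial_pos n).ne'
  have hi0 : (i.factorial : ℂ) ≠ 0 := by exact_mod_cast (Nat.factorial_pos i).ne'
  have hni : ((n - i).factorial : ℂ) ≠ 0 := by exact_mod_cast (Nat.factorial_pos (n - i)).ne'
  field_simp

theorem germCoeff_sub_id (z₀ : ℂ) (n : ℕ) :
    germCoeff z₀ (fun z => z - z₀) n = if n = 1 then 1 else 0 := by
  unfold germCoeff
  rcases n with _ | _ | n
  · simp
  · have h : deriv (fun z : ℂ => z - z₀) = fun _ => (1 : ℂ) := by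
      funext z
      simp
    rw [iteratedDeriv_succ', h]
    simp
  · have h : deriv (fun z : ℂ => z - z₀) = fun _ => (1 : ℂ) := by
      funext z
      simp
    rw [iteratedDeriv_succ', h, iteratedDeriv_succ']
    simp

theorem germCoeff_sub_mul {G : ℂ → ℂ} {z₀ : ℂ} (hG : AnalyticAt ℂ G z₀) (n : ℕ) :
    germCoeff z₀ (fun z => (z - z₀) * G z) (n + 1) = germCoeff z₀ G n := by
  have hF : AnalyticAt ℂ (fun z : ℂ => z - z₀) z₀ := by fun_prop
  have := germCoeff_mul hF hG (n + 1)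
  rw [show (fun z => (z - z₀) * G z) = (fun z : ℂ => z - z₀) * G from rfl, this]
  rw [Finset.sum_eq_single (1, n)]
  · rw [germCoeff_sub_id]
    simp
  · rintro ⟨i, j⟩ hij hne
    rw [germCoeff_sub_id]
    have hsum : i + j = n + 1 := by simpa using hij
    have hi : i ≠ 1 := by
      rintro rfl
      apply hne
      have : j = n := by omega
      rw [this]
    simp [hi]
  · intro h
    exfalso
    apply h
    simp
    omega

theorem germCoeff_pow_mul {G : ℂ → ℂ} {z₀ : ℂ} (hG : AnalyticAt ℂ G z₀) (n : ℕ) :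
    germCoeff z₀ (fun z => (z - z₀) ^ n * G z) n = G z₀ := by
  induction n generalizing G with
  | zero => simp [germCoeff_zero_idx]
  | succ n ih =>
    have hG' : AnalyticAt ℂ (fun z => (z - z₀) ^ n * G z) z₀ := by fun_prop
    have h1 : (fun z => (z - z₀) ^ (n + 1) * G z)
        = fun z => (z - z₀) * ((z - z₀) ^ n * G z) := by
      funext z
      ring
    rw [h1, germCoeff_sub_mul hG', ih hG]

/-- Leading Taylor coefficient via a local factorisation. -/
theorem germCoeff_of_eventuallyEq {F u : ℂ → ℂ} {z₀ : ℂ} (hu : AnalyticAt ℂ u z₀) {n : ℕ}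
    (h : ∀ᶠ z in 𝓝 z₀, F z = (z - z₀) ^ n * u z) : germCoeff z₀ F n = u z₀ := by
  rw [germCoeff_congr (G := fun z => (z - z₀) ^ n * u z) h, germCoeff_pow_mul hu]

/-- **Leading coefficient form of the rotation lemma.**  If `f` has order `n` at `g • τ`, the
`n`-th Taylor coefficient of `f ∘ g` at `τ` is `(g'(τ)) ^ n` times that of `f` at `g • τ`. -/
theorem taylorCoeff_comp_smul {g : GL (Fin 2) ℝ} (hg : 0 < g.det.val) {f : ℍ → ℂ} (hf : MDiff f)
    (τ : ℍ) {n : ℕ} (hn : ordAt (g • τ) f = n) :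
    taylorCoeff τ (fun z : ℍ => f (g • z)) n
      = (((g.det.val : ℝ) : ℂ) / denom g (τ : ℂ) ^ 2) ^ n * taylorCoeff (g • τ) f n := by
  have hord : analyticOrderAt (f ∘ ofComplex) ((g • τ : ℍ) : ℂ) = (n : ℕ∞) := by
    rw [← ordAt_def, hn]
  obtain ⟨u, hu, -, hfu⟩ :=
    ((analyticAt_of_mdiff hf (g • τ)).analyticOrderAt_eq_natCast).mp hord
  have hd : denom g (τ : ℂ) ≠ 0 := denom_ne_zero g τ
  have hmτ : moeb g (τ : ℂ) = ((g • τ : ℍ) : ℂ) := moeb_coe hg τ
  have hman : AnalyticAt ℂ (moeb g) (τ : ℂ) := analyticAt_moeb g hd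
  have hmcont : ContinuousAt (moeb g) (τ : ℂ) := hman.continuousAt
  set c : ℂ := ((g.det.val : ℝ) : ℂ) with hc
  -- right-hand side: value of u at g τ
  have hR : taylorCoeff (g • τ) f n = u ((g • τ : ℍ) : ℂ) := by
    rw [taylorCoeff_eq_germCoeff]
    refine germCoeff_of_eventuallyEq hu ?_
    filter_upwards [hfu] with z hz
    rw [hz, smul_eq_mul]
  -- left-hand side
  have h2 : ∀ᶠ z in 𝓝 (τ : ℂ), (f ∘ ofComplex) (moeb g z)
      = (moeb g z - ((g • τ : ℍ) : ℂ)) ^ n • u (moeb g z) := by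
    have : Filter.Tendsto (moeb g) (𝓝 (τ : ℂ)) (𝓝 ((g • τ : ℍ) : ℂ)) := by
      have := hmcont.tendsto
      rwa [hmτ] at this
    exact this.eventually hfu
  have h3 : ∀ᶠ z in 𝓝 (τ : ℂ), denom g z ≠ 0 :=
    (hasDerivAt_denom g _).continuousAt.eventually_ne hd
  have hden_an : AnalyticAt ℂ (fun z => denom g z * denom g (τ : ℂ)) (τ : ℂ) := by
    have : (fun z => denom g z * denom g (τ : ℂ))
        = fun w : ℂ => (((g 1 0 : ℝ) : ℂ) * w + ((g 1 1 : ℝ) : ℂ)) * denom g (τ : ℂ) := by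
      funext w; simp [denom]
    rw [this]
    fun_prop
  have hU : AnalyticAt ℂ (fun z => (c / (denom g z * denom g (τ : ℂ))) ^ n * u (moeb g z))
      (τ : ℂ) := by
    have h1 : AnalyticAt ℂ (fun z => c / (denom g z * denom g (τ : ℂ))) (τ : ℂ) :=
      analyticAt_const.div hden_an (mul_ne_zero hd hd)
    have h2' : AnalyticAt ℂ (fun z => u (moeb g z)) (τ : ℂ) := by
      have : AnalyticAt ℂ u (moeb g (τ : ℂ)) := by rw [hmτ]; exact hu
      exact AnalyticAt.fun_comp this hman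
    exact (h1.pow n).mul h2'
  have hL : taylorCoeff τ (fun z : ℍ => f (g • z)) n
      = (c / (denom g (τ : ℂ) * denom g (τ : ℂ))) ^ n * u (moeb g (τ : ℂ)) := by
    rw [taylorCoeff_eq_germCoeff]
    refine germCoeff_of_eventuallyEq (u := fun z => (c / (denom g z * denom g (τ : ℂ))) ^ n
      * u (moeb g z)) hU ?_
    filter_upwards [eventuallyEq_comp_smul hg f τ, h2, h3] with z e1 e2 e3
    rw [e1]
    simp only [Function.comp_apply] at e2 ⊢
    rw [e2, ← hmτ, moeb_sub_moeb g e3 hd, smul_eq_mul, ← mul_assoc, ← mul_pow]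
    congr 2
    ring
  rw [hL, hR, hmτ, sq]

/-- `SL(2, ℤ)` version for the left action `(γ • f) τ = f (γ⁻¹ • τ)`. -/
theorem taylorCoeff_smul_holoRing (γ : SL(2, ℤ)) (f : holoRing) (τ : ℍ) {n : ℕ}
    (hn : ordAt (γ⁻¹ • τ) (f : ℍ → ℂ) = n) :
    taylorCoeff τ ((γ • f : holoRing) : ℍ → ℂ) n
      = (1 / denom ((γ⁻¹ : SL(2, ℤ)) : GL (Fin 2) ℝ) (τ : ℂ) ^ 2) ^ n
        * taylorCoeff (γ⁻¹ • τ) (f : ℍ → ℂ) n := by
  have h := taylorCoeff_comp_smul (g := ((γ⁻¹ : SL(2, ℤ)) : GL (Fin 2) ℝ))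
    (det_coe_SL_pos γ⁻¹) f.2 τ (n := n) hn
  rw [det_coe_SL, Complex.ofReal_one] at h
  exact h

end Fermat.Agent.S24.H624

end
-- ===== PACK-END S24/H624/Germ.lean

-- ===== PACK-BEGIN S24/H624/Laurent.lean
section


/-!
# Laurent expansion of quotients of holomorphic functions; `SL(2, ℤ)`-action and the
leading-coefficient form of the rotation lemma

`MerH := FractionRing holoRing` is the field of quotients of holomorphic functions on `ℍ`.
`laurentAt τ : MerH →+* LaurentSeries ℂ` is the (injective) Laurent expansion at `τ` in the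
coordinate `z - τ`.
-/

set_option autoImplicit false

namespace Fermat.Agent.S24.H624

open UpperHalfPlane Complex
open scoped Manifold Topology MatrixGroups

/-! ### order and leading coefficient of a power series viewed as a Laurent series -/

section PowerSeriesCoe

variable {R : Type*} [CommRing R]

theorem coeff_ofPowerSeries_nat (φ : PowerSeries R) (n : ℕ) :
    (HahnSeries.ofPowerSeries ℤ R φ).coeff (n : ℤ) = PowerSeries.coeff n φ := by
  simp

theorem coeff_ofPowerSeries_neg (φ : PowerSeries R) {i : ℤ} (hi : i < 0) :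
    (HahnSeries.ofPowerSeries ℤ R φ).coeff i = 0 := by
  have := PowerSeries.coeff_coe (R := R) (f := φ) i
  rw [if_pos hi] at this
  exact this

theorem order_ofPowerSeries {φ : PowerSeries R} {n : ℕ} (hn : φ.order = n) :
    (HahnSeries.ofPowerSeries ℤ R φ).order = (n : ℤ) := by
  have hφn : PowerSeries.coeff n φ ≠ 0 := ((PowerSeries.order_eq_nat).mp hn).1
  have hlt : ∀ i < n, PowerSeries.coeff i φ = 0 := ((PowerSeries.order_eq_nat).mp hn).2
  set x := HahnSeries.ofPowerSeries ℤ R φ with hx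
  have hxn : x.coeff (n : ℤ) ≠ 0 := by rw [hx, coeff_ofPowerSeries_nat]; exact hφn
  have hx0 : x ≠ 0 := fun h => hxn (by rw [h]; rfl)
  have hle : x.order ≤ n := HahnSeries.order_le_of_coeff_ne_zero hxn
  have hco : x.coeff x.order ≠ 0 := fun h => hx0 (HahnSeries.coeff_order_eq_zero.mp h)
  have hnn : 0 ≤ x.order := by
    by_contra hneg
    exact hco (coeff_ofPowerSeries_neg φ (not_le.mp hneg))
  obtain ⟨k, hk⟩ := Int.eq_ofNat_of_zero_le hnn
  rw [hk, coeff_ofPowerSeries_nat] at hco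
  have hkn : n ≤ k := by
    by_contra hlt'
    exact hco (hlt k (not_le.mp hlt'))
  rw [hk] at hle ⊢
  have : (k : ℤ) ≤ n := hle
  omega

theorem leadingCoeff_ofPowerSeries {φ : PowerSeries R} {n : ℕ} (hn : φ.order = n) :
    (HahnSeries.ofPowerSeries ℤ R φ).leadingCoeff = PowerSeries.coeff n φ := by
  rw [HahnSeries.leadingCoeff_eq, order_ofPowerSeries hn, coeff_ofPowerSeries_nat]

end PowerSeriesCoe

/-! ### transfer of order / leading coefficient relations to the fraction field -/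

section Transfer

variable {A : Type*} [CommRing A] [IsDomain A] {K : Type*} [Field K] [Algebra A K]
  [IsFractionRing A K] {C : Type*} [Field C]

theorem order_div_of_ne_zero {x y : LaurentSeries C} (hx : x ≠ 0) (hy : y ≠ 0) :
    (x / y).order = x.order - y.order := by
  have hxy : x / y ≠ 0 := div_ne_zero hx hy
  have h := HahnSeries.order_mul hxy hy
  rw [div_mul_cancel₀ x hy] at h
  omega

theorem leadingCoeff_div_of_ne_zero {x y : LaurentSeries C} (hy : y ≠ 0) :
    (x / y).leadingCoeff = x.leadingCoeff / y.leadingCoeff := by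
  have h := HahnSeries.leadingCoeff_mul (x / y) y
  rw [div_mul_cancel₀ x hy] at h
  rw [h, mul_div_assoc, div_self (HahnSeries.leadingCoeff_ne_zero.mpr hy), mul_one]

/-- If two embeddings `φ ψ : K → C((z))` of a fraction field satisfy
`ord (φ a) = ord (ψ a)` and `lc (φ a) = ζ ^ ord (ψ a) * lc (ψ a)` on the ring `A`, they do so
on all of `K`. -/
theorem order_leadingCoeff_transfer (φ ψ : K →+* LaurentSeries C) (ζ : C) (hζ : ζ ≠ 0)
    (h : ∀ a : A, a ≠ 0 → (φ (algebraMap A K a)).order = (ψ (algebraMap A K a)).order ∧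
      (φ (algebraMap A K a)).leadingCoeff
        = ζ ^ (ψ (algebraMap A K a)).order * (ψ (algebraMap A K a)).leadingCoeff)
    (x : K) :
    (φ x).order = (ψ x).order ∧
      (φ x).leadingCoeff = ζ ^ (ψ x).order * (ψ x).leadingCoeff := by
  obtain ⟨a, b, hb, rfl⟩ := IsFractionRing.div_surjective (A := A) x
  have hb0 : b ≠ 0 := nonZeroDivisors.ne_zero hb
  have hbK : algebraMap A K b ≠ 0 := by
    intro h0
    exact hb0 ((IsFractionRing.injective A K) (by rw [h0, map_zero]))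
  by_cases ha0 : a = 0
  · subst ha0
    simp
  have haK : algebraMap A K a ≠ 0 := by
    intro h0
    exact ha0 ((IsFractionRing.injective A K) (by rw [h0, map_zero]))
  have hφa : φ (algebraMap A K a) ≠ 0 := (map_ne_zero φ).mpr haK
  have hφb : φ (algebraMap A K b) ≠ 0 := (map_ne_zero φ).mpr hbK
  have hψa : ψ (algebraMap A K a) ≠ 0 := (map_ne_zero ψ).mpr haK
  have hψb : ψ (algebraMap A K b) ≠ 0 := (map_ne_zero ψ).mpr hbK
  obtain ⟨ha1, ha2⟩ := h a ha0
  obtain ⟨hb1, hb2⟩ := h b hb0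
  rw [map_div₀, map_div₀, order_div_of_ne_zero hφa hφb, order_div_of_ne_zero hψa hψb,
    leadingCoeff_div_of_ne_zero hφb, leadingCoeff_div_of_ne_zero hψb, ha1, hb1, ha2, hb2]
  refine ⟨rfl, ?_⟩
  rw [zpow_sub₀ hζ]
  have h1 : ζ ^ (ψ (algebraMap A K b)).order ≠ 0 := zpow_ne_zero _ hζ
  have h2 : (ψ (algebraMap A K b)).leadingCoeff ≠ 0 := HahnSeries.leadingCoeff_ne_zero.mpr hψb
  field_simp

end Transfer

/-! ### the field `MerH` and its Laurent expansions -/

/-- The field of quotients of holomorphic functions on the upper half-plane. -/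
abbrev MerH : Type := FractionRing holoRing

/-- Taylor expansion at `τ` as a ring hom into Laurent series. -/
noncomputable def taylorLaurent (τ : ℍ) : holoRing →+* LaurentSeries ℂ :=
  (HahnSeries.ofPowerSeries ℤ ℂ).comp (taylorAt τ : holoRing →+* PowerSeries ℂ)

theorem taylorLaurent_apply (τ : ℍ) (f : holoRing) :
    taylorLaurent τ f = HahnSeries.ofPowerSeries ℤ ℂ (taylorAt τ f) := rfl

theorem taylorLaurent_injective (τ : ℍ) : Function.Injective (taylorLaurent τ) := by
  intro f g h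
  exact taylorAt_injective τ (HahnSeries.ofPowerSeries_injective h)

/-- Laurent expansion at `τ` (coordinate `z - τ`) of a quotient of holomorphic functions. -/
noncomputable def laurentAt (τ : ℍ) : MerH →+* LaurentSeries ℂ :=
  IsFractionRing.lift (taylorLaurent_injective τ)

@[simp]
theorem laurentAt_algebraMap (τ : ℍ) (f : holoRing) :
    laurentAt τ (algebraMap holoRing MerH f) = HahnSeries.ofPowerSeries ℤ ℂ (taylorAt τ f) :=
  IsFractionRing.lift_algebraMap (taylorLaurent_injective τ) f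

theorem laurentAt_injective (τ : ℍ) : Function.Injective (laurentAt τ) :=
  (laurentAt τ).injective

theorem laurentAt_const (τ : ℍ) (c : ℂ) :
    laurentAt τ (algebraMap holoRing MerH (algebraMap ℂ holoRing c)) = HahnSeries.C c := by
  rw [laurentAt_algebraMap, AlgHom.commutes, PowerSeries.algebraMap_apply,
    Algebra.algebraMap_self, RingHom.id_apply, HahnSeries.ofPowerSeries_C]

theorem order_laurentAt_algebraMap (τ : ℍ) {f : holoRing} (hf : f ≠ 0) :
    (laurentAt τ (algebraMap holoRing MerH f)).order = ((ordAt τ (f : ℍ → ℂ)).toNat : ℤ) := by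
  rw [laurentAt_algebraMap]
  refine order_ofPowerSeries ?_
  rw [order_taylorAt, ENat.natCast_toNat (ordAt_ne_top f.2 (fun h => hf (Subtype.ext h)) τ)]

theorem leadingCoeff_laurentAt_algebraMap (τ : ℍ) {f : holoRing} (hf : f ≠ 0) :
    (laurentAt τ (algebraMap holoRing MerH f)).leadingCoeff
      = taylorCoeff τ (f : ℍ → ℂ) (ordAt τ (f : ℍ → ℂ)).toNat := by
  rw [laurentAt_algebraMap, leadingCoeff_ofPowerSeries (n := (ordAt τ (f : ℍ → ℂ)).toNat),
    coeff_taylorAt]
  rw [order_taylorAt, ENat.natCast_toNat (ordAt_ne_top f.2 (fun h => hf (Subtype.ext h)) τ)]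

/-! ### the `SL(2, ℤ)`-action on `MerH` -/

/-- The action of `SL(2, ℤ)` on `MerH` extending `(γ • f) τ = f (γ⁻¹ • τ)`. -/
noncomputable instance instMulSemiringActionMerH : MulSemiringAction SL(2, ℤ) MerH :=
  IsFractionRing.mulSemiringAction SL(2, ℤ) holoRing MerH

theorem smul_algebraMap_MerH (γ : SL(2, ℤ)) (f : holoRing) :
    γ • algebraMap holoRing MerH f = algebraMap holoRing MerH (γ • f) :=
  IsFractionRing.ringEquivOfRingEquiv_algebraMap (MulSemiringAction.toRingEquiv SL(2, ℤ) holoRing γ) f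

/-- The ring automorphism of `MerH` given by `γ`. -/
noncomputable def merSL (γ : SL(2, ℤ)) : MerH ≃+* MerH :=
  MulSemiringAction.toRingEquiv SL(2, ℤ) MerH γ

@[simp]
theorem merSL_apply (γ : SL(2, ℤ)) (F : MerH) : merSL γ F = γ • F := rfl

/-- **Rotation lemma, order + leading coefficient form**, on `MerH`. -/
theorem laurentAt_smul (γ : SL(2, ℤ)) (τ : ℍ) (F : MerH) :
    (laurentAt τ (γ • F)).order = (laurentAt (γ⁻¹ • τ) F).order ∧
    (laurentAt τ (γ • F)).leadingCoeff
      = (1 / denom ((γ⁻¹ : SL(2, ℤ)) : GL (Fin 2) ℝ) (τ : ℂ) ^ 2) ^ (laurentAt (γ⁻¹ • τ) F).order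
        * (laurentAt (γ⁻¹ • τ) F).leadingCoeff := by
  have hd : denom ((γ⁻¹ : SL(2, ℤ)) : GL (Fin 2) ℝ) (τ : ℂ) ≠ 0 := denom_ne_zero _ τ
  have hζ : (1 / denom ((γ⁻¹ : SL(2, ℤ)) : GL (Fin 2) ℝ) (τ : ℂ) ^ 2) ≠ 0 :=
    one_div_ne_zero (pow_ne_zero _ hd)
  refine order_leadingCoeff_transfer (A := holoRing)
    ((laurentAt τ).comp (merSL γ : MerH →+* MerH)) (laurentAt (γ⁻¹ • τ)) _ hζ ?_ F
  intro f hf
  have hγf : γ • f ≠ 0 := by
    intro h
    apply hf
    have := congrArg (fun g => γ⁻¹ • g) h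
    simpa using this
  have hord : ordAt τ ((γ • f : holoRing) : ℍ → ℂ) = ordAt (γ⁻¹ • τ) (f : ℍ → ℂ) := by
    have := ordAt_smul_holoRing γ f (γ⁻¹ • τ)
    rwa [smul_inv_smul] at this
  have hne := ordAt_ne_top f.2 (fun h => hf (Subtype.ext h)) (γ⁻¹ • τ)
  simp only [RingHom.coe_comp, RingHom.coe_coe, Function.comp_apply, merSL_apply]
  rw [smul_algebraMap_MerH, order_laurentAt_algebraMap τ hγf,
    order_laurentAt_algebraMap _ hf, leadingCoeff_laurentAt_algebraMap τ hγf,
    leadingCoeff_laurentAt_algebraMap _ hf, hord]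
  refine ⟨rfl, ?_⟩
  rw [zpow_natCast]
  exact taylorCoeff_smul_holoRing γ f τ (ENat.natCast_toNat hne).symm

theorem order_laurentAt_smul (γ : SL(2, ℤ)) (τ : ℍ) (F : MerH) :
    (laurentAt τ (γ • F)).order = (laurentAt (γ⁻¹ • τ) F).order :=
  (laurentAt_smul γ τ F).1

theorem leadingCoeff_laurentAt_smul (γ : SL(2, ℤ)) (τ : ℍ) (F : MerH) :
    (laurentAt τ (γ • F)).leadingCoeff
      = (1 / denom ((γ⁻¹ : SL(2, ℤ)) : GL (Fin 2) ℝ) (τ : ℂ) ^ 2) ^ (laurentAt (γ⁻¹ • τ) F).order
        * (laurentAt (γ⁻¹ • τ) F).leadingCoeff :=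
  (laurentAt_smul γ τ F).2

/-- Fixed-point version, in exactly the shape of the `LocalData` fields
`σ_perm_order` / `σ_perm_leadingCoeff`. -/
theorem laurentAt_smul_of_fixed {γ : SL(2, ℤ)} {τ : ℍ} (hτ : γ • τ = τ) (F : MerH) :
    (laurentAt τ (γ • F)).order = (laurentAt τ F).order ∧
    (laurentAt τ (γ • F)).leadingCoeff
      = (1 / denom ((γ⁻¹ : SL(2, ℤ)) : GL (Fin 2) ℝ) (τ : ℂ) ^ 2) ^ (laurentAt τ F).order
        * (laurentAt τ F).leadingCoeff := by
  have h := laurentAt_smul γ τ F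
  have hfix : γ⁻¹ • τ = τ := by
    rw [inv_smul_eq_iff, hτ]
  rwa [hfix] at h

end Fermat.Agent.S24.H624

end
-- ===== PACK-END S24/H624/Laurent.lean

-- ===== PACK-BEGIN S24/H624/Elliptic.lean
section


/-!
# Elliptic fixed points: the rotation factor is a primitive 2nd / 3rd root of unity
-/

set_option autoImplicit false

namespace Fermat.Agent.S24.H624

open UpperHalfPlane Complex
open scoped Manifold Topology MatrixGroups

/-- The factor by which `γ` rotates leading coefficients at `τ`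
(the derivative of `z ↦ γ⁻¹ • z` at `τ`). -/
noncomputable def rotFactor (γ : SL(2, ℤ)) (τ : ℍ) : ℂ :=
  1 / denom ((γ⁻¹ : SL(2, ℤ)) : GL (Fin 2) ℝ) (τ : ℂ) ^ 2

theorem rotFactor_def (γ : SL(2, ℤ)) (τ : ℍ) :
    rotFactor γ τ = 1 / denom ((γ⁻¹ : SL(2, ℤ)) : GL (Fin 2) ℝ) (τ : ℂ) ^ 2 := rfl

theorem rotFactor_ne_zero (γ : SL(2, ℤ)) (τ : ℍ) : rotFactor γ τ ≠ 0 :=
  one_div_ne_zero (pow_ne_zero _ (denom_ne_zero _ τ))

/-- `LocalData`-shaped statement with `rotFactor`. -/
theorem laurentAt_smul_fixed_rotFactor {γ : SL(2, ℤ)} {τ : ℍ} (hτ : γ • τ = τ) (F : MerH) :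
    (laurentAt τ (γ • F)).order = (laurentAt τ F).order ∧
    (laurentAt τ (γ • F)).leadingCoeff
      = rotFactor γ τ ^ (laurentAt τ F).order * (laurentAt τ F).leadingCoeff :=
  laurentAt_smul_of_fixed hτ F

theorem trace_inv_SL (γ : SL(2, ℤ)) : (γ⁻¹) 0 0 + (γ⁻¹) 1 1 = γ 0 0 + γ 1 1 := by
  rw [Matrix.SpecialLinearGroup.coe_inv, Matrix.adjugate_fin_two]
  simp
  ring

theorem inv_smul_of_fixed {γ : SL(2, ℤ)} {τ : ℍ} (hτ : γ • τ = τ) : γ⁻¹ • τ = τ := by
  rw [inv_smul_eq_iff, hτ]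

theorem rotFactor_eq_neg_one {γ : SL(2, ℤ)} {τ : ℍ} (hτ : γ • τ = τ)
    (htr : γ 0 0 + γ 1 1 = 0) : rotFactor γ τ = -1 := by
  have h2 := denom_sq_eq_of_fixed (inv_smul_of_fixed hτ)
  rw [trace_inv_SL, htr] at h2
  simp only [Int.cast_zero, zero_mul, zero_sub] at h2
  rw [rotFactor_def, h2]
  norm_num

theorem isPrimitiveRoot_rotFactor_two {γ : SL(2, ℤ)} {τ : ℍ} (hτ : γ • τ = τ)
    (htr : γ 0 0 + γ 1 1 = 0) : IsPrimitiveRoot (rotFactor γ τ) 2 := by
  rw [rotFactor_eq_neg_one hτ htr]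
  exact IsPrimitiveRoot.neg_one 0 (by norm_num)

theorem isPrimitiveRoot_three_of_root {μ : ℂ} (hμ : μ ^ 2 + μ + 1 = 0) : IsPrimitiveRoot μ 3 := by
  have h3 : μ ^ 3 = 1 := by linear_combination (μ - 1) * hμ
  refine IsPrimitiveRoot.mk_of_lt μ (by norm_num) h3 ?_
  intro l hl0 hl3 hl
  have : 3 ∣ l := three_dvd_of_root hμ hl
  omega

theorem isPrimitiveRoot_rotFactor_three {γ : SL(2, ℤ)} {τ : ℍ} (hτ : γ • τ = τ)
    (htr : γ 0 0 + γ 1 1 = 1 ∨ γ 0 0 + γ 1 1 = -1) : IsPrimitiveRoot (rotFactor γ τ) 3 := by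
  have h2 := denom_sq_eq_of_fixed (inv_smul_of_fixed hτ)
  rw [trace_inv_SL] at h2
  set lam := denom ((γ⁻¹ : SL(2, ℤ)) : GL (Fin 2) ℝ) (τ : ℂ) with hlam
  have hlam0 : lam ≠ 0 := denom_ne_zero _ τ
  have hμ : (lam ^ 2) ^ 2 + lam ^ 2 + 1 = 0 := by
    rcases htr with htr | htr
    · rw [htr] at h2
      simp only [Int.cast_one, one_mul] at h2
      linear_combination (lam ^ 2 + lam + 1) * h2
    · rw [htr] at h2
      simp only [Int.cast_neg, Int.cast_one, neg_mul, one_mul] at h2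
      linear_combination (lam ^ 2 - lam + 1) * h2
  apply isPrimitiveRoot_three_of_root
  rw [rotFactor_def, ← hlam]
  have h4 : (lam ^ 2) ≠ 0 := pow_ne_zero _ hlam0
  field_simp
  linear_combination hμ

theorem S_smul_I : ModularGroup.S • UpperHalfPlane.I = UpperHalfPlane.I := by
  rw [modular_S_smul]
  ext
  simp [UpperHalfPlane.coe_I, Complex.inv_I]

theorem trace_S : (ModularGroup.S : SL(2, ℤ)) 0 0 + (ModularGroup.S : SL(2, ℤ)) 1 1 = 0 := by
  decide

theorem trace_ST :
    (ModularGroup.S * ModularGroup.T : SL(2, ℤ)) 0 0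
      + (ModularGroup.S * ModularGroup.T : SL(2, ℤ)) 1 1 = 1 := by
  decide

/-- The point `ρ = -1/2 + (√3/2) i`. -/
noncomputable def rhoH : ℍ :=
  ⟨⟨-1 / 2, Real.sqrt 3 / 2⟩, by
    show (0 : ℝ) < Real.sqrt 3 / 2
    positivity⟩

theorem rhoH_coe : (rhoH : ℂ) = ⟨-1 / 2, Real.sqrt 3 / 2⟩ := rfl

theorem rhoH_sq : (rhoH : ℂ) ^ 2 + (rhoH : ℂ) + 1 = 0 := by
  have h3 : Real.sqrt 3 * Real.sqrt 3 = 3 := Real.mul_self_sqrt (by norm_num)
  rw [rhoH_coe]
  apply Complex.ext
  · simp [pow_two]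
    nlinarith
  · simp [pow_two]
    ring

theorem ST_smul_rhoH : (ModularGroup.S * ModularGroup.T) • rhoH = rhoH := by
  apply UpperHalfPlane.ext
  rw [coe_specialLinearGroup_apply]
  have h := rhoH_sq
  have hne : (rhoH : ℂ) + 1 ≠ 0 := by
    intro h0
    have : (rhoH : ℂ) = -1 := by linear_combination h0
    rw [this] at h
    norm_num at h
  have e00 : (ModularGroup.S * ModularGroup.T : SL(2, ℤ)) 0 0 = 0 := by decide
  have e01 : (ModularGroup.S * ModularGroup.T : SL(2, ℤ)) 0 1 = -1 := by decide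
  have e10 : (ModularGroup.S * ModularGroup.T : SL(2, ℤ)) 1 0 = 1 := by decide
  have e11 : (ModularGroup.S * ModularGroup.T : SL(2, ℤ)) 1 1 = 1 := by decide
  rw [e00, e01, e10, e11]
  simp only [algebraMap_int_eq, Int.coe_castRingHom, Int.cast_zero, Complex.ofReal_zero,
    zero_mul, Int.cast_neg, Int.cast_one, Complex.ofReal_neg, Complex.ofReal_one, zero_add,
    one_mul]
  rw [div_eq_iff hne]
  linear_combination -h

theorem isPrimitiveRoot_rotFactor_S :
    IsPrimitiveRoot (rotFactor ModularGroup.S UpperHalfPlane.I) 2 :=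
  isPrimitiveRoot_rotFactor_two S_smul_I trace_S

theorem isPrimitiveRoot_rotFactor_ST :
    IsPrimitiveRoot (rotFactor (ModularGroup.S * ModularGroup.T) rhoH) 3 :=
  isPrimitiveRoot_rotFactor_three ST_smul_rhoH (Or.inl trace_ST)

end Fermat.Agent.S24.H624

end
-- ===== PACK-END S24/H624/Elliptic.lean

-- ===== PACK-BEGIN S24/Mod/H997Taylor.lean
section




/-!
# S24 / MOD — the finite-point data of `AnalyticCore` from Taylor expansions

For a `HolBase N` whose ring `Hol` consists of holomorphic functions and whose `J 1` is the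
`j`-function, the three `PointData` fields of `AnalyticCore` are constructed from
helper624's Taylor/rotation package (`H624`) and helper47's local orders of `j` (`M7.H47`).
-/

set_option autoImplicit false

noncomputable section

open ModularCurve HahnSeries UpperHalfPlane ModularForm EisensteinSeries
open scoped MatrixGroups Manifold

namespace Fermat.Agent.S24.H997

open Fermat.Agent.S24.H624 Fermat.Agent.S20.L1 Fermat.Agent.S24.M7.H47

variable {N : ℕ} [NeZero N]

/-- `Hol` consists of holomorphic functions and `J 1` is the `j`-function. -/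
structure HolBase.IsHolo (B : HolBase N) : Prop where
  mdiff : ∀ f ∈ B.Hol, f ∈ holoRing
  J_one : B.J 1 = jFun

namespace HolBase

variable (B : HolBase N) (hB : B.IsHolo)

/-- the inclusion `Hol → holoRing` -/
def toHolo : B.Hol →+* holoRing where
  toFun h := ⟨h.1, hB.mdiff h.1 h.2⟩
  map_one' := rfl
  map_mul' _ _ := rfl
  map_zero' := rfl
  map_add' _ _ := rfl

theorem toHolo_injective : Function.Injective (B.toHolo hB) := by
  intro x y h
  exact Subtype.ext (congrArg (fun f : holoRing => (f : ℍ → ℂ)) h)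

theorem toHolo_compH (ε : SL(2, ℤ)) (h : B.Hol) :
    B.toHolo hB (B.compH ε h) = ε⁻¹ • B.toHolo hB h := by
  apply Subtype.ext
  funext τ
  rw [smul_holoRing_apply, inv_inv]
  rfl

/-- the Taylor expansion at `τ₀` as an `Expansion` -/
def taylorExpansion (τ₀ : ℍ) : Expansion B where
  E := (taylorLaurent τ₀).comp (B.toHolo hB)
  inj := (taylorLaurent_injective τ₀).comp (B.toHolo_injective hB)
  const c := by
    show HahnSeries.ofPowerSeries ℤ ℂ (taylorAt τ₀ (B.toHolo hB (B.constH c))) = HahnSeries.C c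
    have : B.toHolo hB (B.constH c) = algebraMap ℂ holoRing c := rfl
    rw [this, AlgHom.commutes, PowerSeries.algebraMap_apply, Algebra.algebraMap_self,
      RingHom.id_apply, HahnSeries.ofPowerSeries_C]

theorem taylorExpansion_E (τ₀ : ℍ) (h : B.Hol) :
    (B.taylorExpansion hB τ₀).E h
      = laurentAt τ₀ (algebraMap holoRing MerH (B.toHolo hB h)) :=
  (laurentAt_algebraMap τ₀ _).symm

/-- rotation data at a fixed point -/
def taylorRot {τ₀ : ℍ} {ε : SL(2, ℤ)} (hε : ε • τ₀ = τ₀) (m : ℕ) (hm : 0 < m)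
    (hζ : IsPrimitiveRoot (rotFactor ε⁻¹ τ₀) m) :
    RotData B (B.taylorExpansion hB τ₀) ε where
  m := m
  m_pos := hm
  ζ := rotFactor ε⁻¹ τ₀
  hζ := hζ
  rot h := by
    have hfix : ε⁻¹ • τ₀ = τ₀ := inv_smul_of_fixed hε
    rw [taylorExpansion_E, taylorExpansion_E, toHolo_compH, ← smul_algebraMap_MerH]
    exact laurentAt_smul_fixed_rotFactor hfix _

/-- trivial rotation data -/
def trivialRot (X : Expansion B) : RotData B X 1 where
  m := 1
  m_pos := one_pos
  ζ := 1
  hζ := IsPrimitiveRoot.one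
  rot h := by
    rw [B.compH_one]
    exact ⟨rfl, by simp⟩

theorem taylor_order_J (τ₀ : ℍ) (a : ℂ) (ha : jFun τ₀ = a) (m : ℕ)
    (hord : analyticOrderAt (fun w : ℂ => jFun (ofComplex w) - jFun τ₀) (τ₀ : ℂ) = m) :
    ((B.taylorExpansion hB τ₀).E (B.JH 1 (one_dvd N) - B.constH a)).order = (m : ℤ) := by
  show (HahnSeries.ofPowerSeries ℤ ℂ (taylorAt τ₀ (B.toHolo hB _))).order = _
  apply order_ofPowerSeries
  rw [order_taylorAt, ordAt_def, ← hord]
  congr 1
  funext w
  show B.J 1 (ofComplex w) - a = _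
  rw [hB.J_one, ha]

/-- the point data over a generic value -/
def genericPoint (a : ℂ) (h0 : a ≠ 0) (h1 : a ≠ 1728) : PointData B a 1 :=
  let τ₀ : ℍ := (jFun_surjective a).choose
  have hτ₀ : jFun τ₀ = a := (jFun_surjective a).choose_spec
  { X := B.taylorExpansion hB τ₀
    R := B.trivialRot _
    order_J := by
      have h4 : E₄ τ₀ ≠ 0 := fun h => h0 (hτ₀ ▸ (jFun_eq_zero_iff τ₀).mpr h)
      have h6 : E₆ τ₀ ≠ 0 := fun h => h1 (hτ₀ ▸ (jFun_eq_1728_iff τ₀).mpr h)
      have := B.taylor_order_J hB τ₀ a hτ₀ 1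
        (by exact_mod_cast analyticOrderAt_jFun_sub_generic h4 h6)
      exact this }

/-- the point data over `1728` (at `i`, rotation by `S`) -/
def point1728 : PointData B 1728 ModularGroup.S where
  X := B.taylorExpansion hB UpperHalfPlane.I
  R := B.taylorRot hB (τ₀ := UpperHalfPlane.I) (ε := ModularGroup.S)
    Fermat.Agent.S24.H624.S_smul_I 2 two_pos
    (isPrimitiveRoot_rotFactor_two (inv_smul_of_fixed Fermat.Agent.S24.H624.S_smul_I)
      (by rw [trace_inv_SL]; exact trace_S))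
  order_J := by
    have := B.taylor_order_J hB UpperHalfPlane.I 1728 jFun_I 2
      (by exact_mod_cast analyticOrderAt_jFun_sub_of_E₆ E₆_I)
    exact this

/-- the point data over `0` (at `ρ`, rotation by `S * T`) -/
def point0 : PointData B 0 (ModularGroup.S * ModularGroup.T) where
  X := B.taylorExpansion hB rho
  R := B.taylorRot hB (τ₀ := rho) (ε := ModularGroup.S * ModularGroup.T)
    ST_smul_rho 3 (by norm_num)
    (isPrimitiveRoot_rotFactor_three (inv_smul_of_fixed ST_smul_rho)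
      (by rw [trace_inv_SL]; exact Or.inl trace_ST))
  order_J := by
    have := B.taylor_order_J hB rho 0 jFun_rho 3
      (by exact_mod_cast analyticOrderAt_jFun_sub_of_E₄ E₄_rho)
    exact this

/-- **`AnalyticCore` from a holomorphic `HolBase` with `T`-shift.** -/
def toAnalyticCore (ζ : ℂ) (hζ : IsPrimitiveRoot ζ N)
    (hshift : ∀ (h : B.Hol) (n : ℤ),
      (B.qexp (B.compH ModularGroup.T h)).coeff n = ζ ^ n * (B.qexp h).coeff n) :
    AnalyticCore N where
  toHolBase := B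
  generic := B.genericPoint hB
  at1728 := B.point1728 hB
  at0 := B.point0 hB
  infζ := ζ
  inf_hζ := hζ
  inf_shift := hshift

end HolBase

end Fermat.Agent.S24.H997

end
end
-- ===== PACK-END S24/Mod/H997Taylor.lean

-- ===== PACK-BEGIN S24/H117/Integral.lean
section




/-!
# S24 / H117 — integrality at all places over `t = 0` from the embeddings

Key lemma for LT2: if `F / E` (`E ⊆ K(t)`) has degree `#X` and `L : LocalData K F C X t`, then an
element `f : F` whose images under all the embeddings `L.σ x` have non-negative order has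
non-negative order at **every** place `v` of `F` with `0 < v.ord t`.
-/

set_option autoImplicit false
set_option linter.style.haveILetI false

noncomputable section

open AlgebraicCurve Polynomial IntermediateField

namespace Fermat.Agent.S24.H117

variable {K F : Type*} [Field K] [Field F] [Algebra K F]
variable {C : Type*} [Field C] {X : Type*}
variable {t : F} (L : LocalData K F C X t)

theorem σ_aeval_eq (x y : X) (p : K[X]) : L.σ x (aeval t p) = L.σ y (aeval t p) := by
  rw [aeval_eq_sum_range]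
  simp only [map_sum, Algebra.smul_def, map_mul, map_pow, L.σ_const, L.σ_t_eq x y]

/-- All the embeddings of a `LocalData` agree on `K(t)`. -/
theorem σ_eq_of_mem_adjoin (x y : X) {e : F} (he : e ∈ K⟮t⟯) : L.σ x e = L.σ y e := by
  obtain ⟨r, s, rfl⟩ := (mem_adjoin_simple_iff K e).mp he
  rw [map_div₀, map_div₀, σ_aeval_eq L x y r, σ_aeval_eq L x y s]

variable [CharZero K]

/-- **Integrality lemma.** -/
theorem ord_nonneg_of_forall_order_nonneg
    (E : IntermediateField K F) (hE : E ≤ K⟮t⟯) [FiniteDimensional E F]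
    (hrank : Module.finrank E F = Nat.card X)
    (f : F) (hf : ∀ x, 0 ≤ ((L.σ x) f).order)
    (v : Place K F) (hv : 0 < v.ord t) : 0 ≤ v.ord f := by
  classical
  have hXne : Nonempty X := by
    have h0 : 0 < Nat.card X := hrank ▸ Module.finrank_pos
    exact (Nat.card_pos_iff.mp h0).1
  obtain ⟨x₀⟩ := hXne
  have : CharZero E := charZero_of_injective_algebraMap (algebraMap K E).injective
  let σ₀ : E →+* LaurentSeries C := (L.σ x₀).comp (algebraMap E F)
  letI algELS : Algebra E (LaurentSeries C) := σ₀.toAlgebra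
  -- the embeddings as `E`-algebra homomorphisms into the algebraic closure
  let τ : X → (F →ₐ[E] AlgebraicClosure (LaurentSeries C)) := fun x =>
    { toRingHom := (algebraMap (LaurentSeries C) (AlgebraicClosure (LaurentSeries C))).comp (L.σ x)
      commutes' := fun e => by
        show algebraMap (LaurentSeries C) (AlgebraicClosure (LaurentSeries C)) (L.σ x (e : F))
          = algebraMap (LaurentSeries C) (AlgebraicClosure (LaurentSeries C)) (L.σ x₀ (e : F))
        rw [σ_eq_of_mem_adjoin L x x₀ (hE e.2)] }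
  have hτapply : ∀ x g, τ x g
      = algebraMap (LaurentSeries C) (AlgebraicClosure (LaurentSeries C)) (L.σ x g) :=
    fun _ _ => rfl
  have hτinj : Function.Injective τ := by
    intro x y hxy
    apply L.σ_inj
    ext g : 1
    have := DFunLike.congr_fun hxy g
    rw [hτapply, hτapply] at this
    exact (algebraMap (LaurentSeries C) (AlgebraicClosure (LaurentSeries C))).injective this
  have hcard : Nat.card (F →ₐ[E] AlgebraicClosure (LaurentSeries C)) = Nat.card X := by
    rw [← hrank, ← Fintype.card_eq_nat_card]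
    exact AlgHom.card E F (AlgebraicClosure (LaurentSeries C))
  have hτsurj : Function.Surjective τ :=
    ((Nat.bijective_iff_injective_and_card τ).mpr ⟨hτinj, hcard.symm⟩).2
  -- the minimal polynomial of `f`
  have hfint : IsIntegral E f := Algebra.IsIntegral.isIntegral f
  have hPmonic : (minpoly E f).Monic := minpoly.monic hfint
  -- coefficients of the minimal polynomial are integral at `x₀`
  have hcoeff : ∀ i, 0 ≤ ((L.σ x₀) (((minpoly E f).coeff i : E) : F)).order := by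
    intro i
    have hint : IsIntegral (OL C)
        (((minpoly E f).map (algebraMap E (AlgebraicClosure (LaurentSeries C)))).coeff i) := by
      refine Polynomial.isIntegral_coeff_of_factors _ ?_ (IsAlgClosed.splits _) ?_ i
      · rw [(hPmonic.map _).leadingCoeff]
        exact isIntegral_one
      · intro r hr
        have hr' : r ∈ (minpoly E f).rootSet (AlgebraicClosure (LaurentSeries C)) := by
          rw [mem_rootSet']
          refine ⟨(hPmonic.map _).ne_zero, ?_⟩
          rw [IsRoot, eval_map_algebraMap] at hr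
          exact hr
        rw [← Algebra.IsAlgebraic.range_eval_eq_rootSet_minpoly] at hr'
        obtain ⟨ψ, rfl⟩ := hr'
        obtain ⟨x, rfl⟩ := hτsurj ψ
        show IsIntegral (OL C) (τ x f)
        rw [hτapply]
        have : algebraMap (LaurentSeries C) (AlgebraicClosure (LaurentSeries C)) (L.σ x f)
            = algebraMap (OL C) (AlgebraicClosure (LaurentSeries C)) ⟨L.σ x f, hf x⟩ := rfl
        rw [this]
        exact isIntegral_algebraMap
    rw [coeff_map] at hint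
    have h2 : IsIntegral (OL C) (σ₀ ((minpoly E f).coeff i)) := by
      have : algebraMap E (AlgebraicClosure (LaurentSeries C)) ((minpoly E f).coeff i)
          = algebraMap (LaurentSeries C) (AlgebraicClosure (LaurentSeries C))
            (σ₀ ((minpoly E f).coeff i)) := rfl
      rw [this] at hint
      exact (isIntegral_algebraMap_iff
        (algebraMap (LaurentSeries C) (AlgebraicClosure (LaurentSeries C))).injective).mp hint
    obtain ⟨y, hy⟩ := IsIntegrallyClosed.isIntegral_iff.mp h2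
    have : σ₀ ((minpoly E f).coeff i) ∈ OL C := hy ▸ y.2
    exact this
  -- transfer to `v`
  have hcoeffv : ∀ i, (((minpoly E f).coeff i : E) : F) ∈ v.toValuationSubring := fun i =>
    mem_of_ord_nonneg v (ord_nonneg_of_mem_adjoin (hE ((minpoly E f).coeff i).2) hv
      (ord_t_pos L x₀) ((ord_placeOf_nonneg_iff L x₀ _).mpr (hcoeff i)))
  -- `f` is integral over `O_v`
  have hint : IsIntegral v.toValuationSubring f := by
    have hlifts : (minpoly E f).map (algebraMap E F)
        ∈ Polynomial.lifts (algebraMap v.toValuationSubring F) := by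
      rw [lifts_iff_coeff_lifts]
      intro n
      rw [coeff_map]
      exact ⟨⟨_, hcoeffv n⟩, rfl⟩
    obtain ⟨q, hq, -, hqm⟩ := lifts_and_natDegree_eq_and_monic hlifts (hPmonic.map _)
    refine ⟨q, hqm, ?_⟩
    rw [← eval_map, hq, eval_map_algebraMap]
    exact minpoly.aeval E f
  obtain ⟨y, hy⟩ := IsIntegrallyClosed.isIntegral_iff.mp hint
  exact ord_nonneg_of_mem v (hy ▸ y.2)

end Fermat.Agent.S24.H117

end
end
-- ===== PACK-END S24/H117/Integral.lean

-- ===== PACK-BEGIN S24/H117/LocalThm.lean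
section




/-!
# S24 / H117 — the local theorem (LT2, LT3)

For `L : LocalData K F C X t` with `[F : E] = #X` (`E ⊆ K(t)`):

* `exists_placeOf_eq` (LT2): every place `v` of `F/K` with `0 < v.ord t` is induced by one of
  the embeddings `L.σ x`;
* `localThm` (LT3): if moreover `#X ≤ ∑_{v | t} v.ord t`, then the places over `t = 0`
  correspond bijectively to the cycles of `L.perm`, and `v.ord t` is the length of the cycle.
-/

set_option autoImplicit false
set_option linter.style.haveILetI false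

noncomputable section

open AlgebraicCurve IntermediateField

namespace Fermat.Agent.S24.H117

variable {K F : Type*} [Field K] [Field F] [Algebra K F] [CharZero K]
variable {C : Type*} [Field C] {X : Type*} [Finite X]
variable {t : F} (L : LocalData K F C X t)

omit [CharZero K] [Finite X] in
theorem order_leadingCoeff_iterate (x : X) (f : F) (i : ℕ) :
    (L.σ ((L.perm ^ i) x) f).order = (L.σ x f).order ∧
      (L.σ ((L.perm ^ i) x) f).leadingCoeff
        = (L.ζ ^ (L.σ x f).order) ^ i * (L.σ x f).leadingCoeff := by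
  induction i with
  | zero => simp
  | succ n ih =>
    rw [pow_succ', Equiv.Perm.mul_apply]
    refine ⟨by rw [L.σ_perm_order, ih.1], ?_⟩
    rw [L.σ_perm_leadingCoeff, ih.1, ih.2, pow_succ]
    ring

omit [CharZero K] [Finite X] in
/-- The ramification index `e = ord_v t` divides every period of `x` under `perm`. -/
theorem ord_t_dvd_of_pow_apply_eq (x : X) (i : ℕ) (hi : (L.perm ^ i) x = x) :
    (placeOf L x).ord t ∣ (i : ℤ) := by
  obtain ⟨π, hπ0, hπ⟩ := exists_ord_eq_one (placeOf L x)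
  have hord : (L.σ x π).order = mult L x := by rw [order_eq, hπ, mul_one]
  have hlc : (L.σ x π).leadingCoeff ≠ 0 :=
    HahnSeries.leadingCoeff_ne_zero.mpr ((map_ne_zero (L.σ x)).mpr hπ0)
  have h := (order_leadingCoeff_iterate L x π i).2
  rw [hi, hord, zpow_natCast] at h
  have h1 : (L.ζ ^ mult L x) ^ i = 1 := by
    have : (L.ζ ^ mult L x) ^ i * (L.σ x π).leadingCoeff = 1 * (L.σ x π).leadingCoeff := by
      rw [one_mul]; exact h.symm
    exact mul_right_cancel₀ hlc this
  rw [← pow_mul] at h1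
  have h2 : L.m ∣ mult L x * i := (L.hζ.pow_eq_one_iff_dvd _).mp h1
  have h3 : ((mult L x : ℤ) * (placeOf L x).ord t) ∣ (mult L x : ℤ) * i := by
    rw [mult_mul_ord_t]
    exact_mod_cast h2
  have hk : (mult L x : ℤ) ≠ 0 := by exact_mod_cast (mult_pos L x).ne'
  exact (mul_dvd_mul_iff_left hk).mp h3

variable (E : IntermediateField K F) (hE : E ≤ K⟮t⟯) [FiniteDimensional E F]
  (hrank : Module.finrank E F = Nat.card X)

include hE hrank in
/-- **LT2.** Every place over `t = 0` is induced by one of the embeddings. -/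
theorem exists_placeOf_eq (v : Place K F) (hv : 0 < v.ord t) : ∃ x, placeOf L x = v := by
  classical
  by_contra hcon
  push Not at hcon
  haveI : Fintype X := Fintype.ofFinite X
  have hvs : v ∉ Finset.univ.image (placeOf L) := by
    intro h
    obtain ⟨x, -, hx⟩ := Finset.mem_image.mp h
    exact hcon x hx
  obtain ⟨f, hf1, hf2⟩ := exists_ord_neg_forall_pos v _ hvs
  have hf3 : ∀ x, 0 ≤ ((L.σ x) f).order := fun x =>
    (ord_placeOf_nonneg_iff L x f).mp
      (hf2 _ (Finset.mem_image_of_mem _ (Finset.mem_univ x))).le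
  have := ord_nonneg_of_forall_order_nonneg L E hE hrank f hf3 v hv
  omega

include hE hrank in
theorem mem_image_placeOf_iff [Fintype X] [DecidableEq (Place K F)] (v : Place K F) :
    v ∈ Finset.univ.image (placeOf L) ↔ 0 < v.ord t := by
  constructor
  · intro h
    obtain ⟨x, -, rfl⟩ := Finset.mem_image.mp h
    exact ord_t_pos L x
  · intro h
    obtain ⟨x, rfl⟩ := exists_placeOf_eq L E hE hrank v h
    exact Finset.mem_image_of_mem _ (Finset.mem_univ x)

include L hE hrank in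
/-- The set of places over `t = 0` is finite. -/
theorem finite_places_over : {v : Place K F | 0 < v.ord t}.Finite := by
  classical
  haveI : Fintype X := Fintype.ofFinite X
  refine (Finset.univ.image (placeOf L)).finite_toSet.subset ?_
  intro v hv
  exact (mem_image_placeOf_iff L E hE hrank v).mpr hv

include hE hrank in
/-- **LT3 (local theorem).**  Assume the fundamental inequality `#X ≤ ∑_{v | t} ord_v t`.
Then the places over `t = 0` are in bijection with the cycles of `perm`, the ramification index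
of the place induced by `x` is the length of the cycle through `x`, and
`∑_{v | t} ord_v t = #X`. -/
theorem localThm (s : Finset (Place K F)) (hs : ∀ v, v ∈ s ↔ 0 < v.ord t)
    (hsum : (Nat.card X : ℤ) ≤ ∑ v ∈ s, v.ord t) :
    s.card = numOrbits L.perm ∧
      (∀ x, (Nat.card (MulAction.orbit (Subgroup.zpowers L.perm) x) : ℤ) = (placeOf L x).ord t) ∧
      (∑ v ∈ s, v.ord t = Nat.card X) := by
  classical
  haveI : Fintype X := Fintype.ofFinite X
  have hs' : s = Finset.univ.image (placeOf L) := by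
    ext v
    rw [hs, mem_image_placeOf_iff L E hE hrank]
  subst hs'
  have hcast : ∀ v ∈ Finset.univ.image (placeOf L), (((v.ord t).toNat : ℕ) : ℤ) = v.ord t := by
    intro v hv
    exact Int.toNat_of_nonneg ((hs v).mp hv).le
  have hsumNat : Fintype.card X ≤ ∑ v ∈ Finset.univ.image (placeOf L), (v.ord t).toNat := by
    have : (Nat.card X : ℤ) ≤ ((∑ v ∈ Finset.univ.image (placeOf L), (v.ord t).toNat : ℕ) : ℤ) := by
      rw [Nat.cast_sum, Finset.sum_congr rfl hcast]
      exact hsum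
    rw [Nat.card_eq_fintype_card] at this
    exact_mod_cast this
  obtain ⟨h1, h2, h3⟩ := orbit_count_squeeze L.perm (placeOf L) (fun v => (v.ord t).toNat)
    (placeOf_perm L)
    (fun x i hi => by
      have := ord_t_dvd_of_pow_apply_eq L x i hi
      have hpos := ord_t_pos L x
      exact Int.natCast_dvd_natCast.mp (by rwa [Int.toNat_of_nonneg hpos.le]))
    hsumNat
  refine ⟨by rw [numOrbits, h1], fun x => ?_, ?_⟩
  · rw [h2 x]
    exact Int.toNat_of_nonneg (ord_t_pos L x).le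
  · have : ((∑ v ∈ Finset.univ.image (placeOf L), (v.ord t).toNat : ℕ) : ℤ) = Fintype.card X := by
      exact_mod_cast h3
    rw [Nat.cast_sum, Finset.sum_congr rfl hcast] at this
    rw [this, Nat.card_eq_fintype_card]

end Fermat.Agent.S24.H117

end
end
-- ===== PACK-END S24/H117/LocalThm.lean

-- ===== PACK-BEGIN S24/Alg/LocSurj.lean
section





/-!
# S24 / ALG-LOC, part 2 (LOC2): every place over `t = 0` is induced by an embedding

For local data `L : LocalData K F C X t` with `[F : F₀] = |X|` (`F₀ ⊆ K(t)`), every place `v` of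
`F/K` with `ord_v t > 0` is the place cut out by one of the embeddings `L.σ x`.
-/

set_option autoImplicit false

noncomputable section

open AlgebraicCurve Polynomial IntermediateField

namespace Fermat.Agent.S24.H144

variable {K F : Type*} [Field K] [Field F] [Algebra K F]
variable {C : Type*} [Field C] {X : Type*} {t : F}

theorem loc_order_const (L : LocalData K F C X t) (x : X) (c : K) :
    (L.σ x (algebraMap K F c)).order = 0 := by
  rw [L.σ_const]; exact HahnSeries.order_C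

theorem loc_order_t_pos (L : LocalData K F C X t) (x : X) : 0 < (L.σ x t).order := by
  rw [L.σ_t_order]; exact_mod_cast L.m_pos

theorem loc_isTVal (L : LocalData K F C X t) (x : X) :
    IsTVal K t (fun f => (L.σ x f).order) :=
  isTVal_order (L.σ x) (loc_order_const L x) (loc_order_t_pos L x)

/-- The place of `F` cut out by the embedding `L.σ x`. -/
def locPlace (L : LocalData K F C X t) (x : X) : Place K F :=
  placeOfEmb (L.σ x) (fun c => (loc_order_const L x c).ge)
    ⟨t⁻¹, by rw [loc_order_map_inv]; have := loc_order_t_pos L x; omega⟩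

theorem loc_induces_locPlace (L : LocalData K F C X t) (x : X) :
    Induces (L.σ x) (locPlace L x) :=
  induces_placeOfEmb _ _ _

theorem loc_mem_locPlace (L : LocalData K F C X t) (x : X) (f : F) :
    f ∈ (locPlace L x).toValuationSubring ↔ 0 ≤ (L.σ x f).order :=
  loc_induces_locPlace L x f

/-- All the embeddings `L.σ x` agree on `K(t)`. -/
theorem loc_agree (L : LocalData K F C X t) (x y : X) {c : F} (hc : c ∈ K⟮t⟯) :
    L.σ x c = L.σ y c := by
  induction hc using IntermediateField.adjoin_induction with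
  | mem c hc =>
    rw [Set.mem_singleton_iff] at hc
    rw [hc]; exact L.σ_t_eq x y
  | algebraMap c => rw [L.σ_const, L.σ_const]
  | add a b _ _ iha ihb => rw [map_add, map_add, iha, ihb]
  | inv a _ iha => rw [map_inv₀, map_inv₀, iha]
  | mul a b _ _ iha ihb => rw [map_mul, map_mul, iha, ihb]

/-- The subring of Laurent series of non-negative order. -/
def locPowerSubring (C : Type*) [Field C] : Subring (LaurentSeries C) :=
  (locValSubring (RingHom.id (LaurentSeries C))).toSubring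

theorem mem_locPowerSubring {s : LaurentSeries C} : s ∈ locPowerSubring C ↔ 0 ≤ s.order :=
  Iff.rfl

/-- **Integrality criterion.** If all conjugates `L.σ x u` have non-negative order, then `u` lies
in the valuation ring of every place `v` at which `t` vanishes. -/
theorem loc_mem_of_forall_order_nonneg [CharZero K] [Finite X] (L : LocalData K F C X t)
    (F₀ : IntermediateField K F) (hF₀ : F₀ ≤ K⟮t⟯) [FiniteDimensional F₀ F]
    (hrank : Module.finrank F₀ F = Nat.card X)
    (v : Place K F) (hv : 0 < v.ord t) (u : F) (hu : ∀ x, 0 ≤ (L.σ x u).order) :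
    u ∈ v.toValuationSubring := by
  classical
  -- `X` is nonempty
  have hX : Nonempty X := by
    have hpos : 0 < Module.finrank F₀ F := Module.finrank_pos
    rw [hrank] at hpos
    exact (Nat.card_pos_iff.mp hpos).1
  obtain ⟨x₀⟩ := hX
  have hagree : ∀ (x y : X) (c : F₀), L.σ x (algebraMap F₀ F c) = L.σ y (algebraMap F₀ F c) :=
    fun x y c => loc_agree L x y (hF₀ c.2)
  -- coefficients of the minimal polynomial have non-negative order
  have hcoeff : ∀ i, (algebraMap F₀ F ((minpoly F₀ u).coeff i)) ∈ v.toValuationSubring := by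
    intro i
    have h1 := loc_minpoly_coeff_mem (F₀ := F₀) L.σ L.σ_inj hagree hrank (locPowerSubring C) u
      (fun x => mem_locPowerSubring.mpr (hu x)) x₀ i
    rw [mem_locPowerSubring] at h1
    apply loc_mem_of_ord_nonneg
    exact loc_tval_nonneg (K := K) t (hF₀ ((minpoly F₀ u).coeff i).2) (loc_isTVal L x₀)
      (isTVal_ord v hv) h1
  -- hence `u` is integral over the valuation ring
  have hint : IsIntegral F₀ u := Algebra.IsIntegral.isIntegral u
  have hmonic : ((minpoly F₀ u).map (algebraMap F₀ F)).Monic := (minpoly.monic hint).map _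
  have hlift : (minpoly F₀ u).map (algebraMap F₀ F)
      ∈ Polynomial.lifts (algebraMap v.toValuationSubring F) := by
    rw [lifts_iff_coeff_lifts]
    intro i
    rw [coeff_map]
    exact ⟨⟨_, hcoeff i⟩, rfl⟩
  obtain ⟨q, hq, _, hqm⟩ := lifts_and_degree_eq_and_monic hlift hmonic
  have hroot : eval₂ (algebraMap v.toValuationSubring F) u q = 0 := by
    rw [← eval_map, hq, eval_map, ← aeval_def]
    exact minpoly.aeval F₀ u
  have hintv : IsIntegral v.toValuationSubring u := ⟨q, hqm, hroot⟩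
  obtain ⟨y, hy⟩ := IsIntegrallyClosed.isIntegral_iff.mp hintv
  rw [← hy]; exact y.2

/-- **LOC2.** Every place at which `t` vanishes is induced by one of the embeddings. -/
theorem loc_exists_emb [CharZero K] [Finite X] (L : LocalData K F C X t)
    (F₀ : IntermediateField K F) (hF₀ : F₀ ≤ K⟮t⟯) [FiniteDimensional F₀ F]
    (hrank : Module.finrank F₀ F = Nat.card X)
    (v : Place K F) (hv : 0 < v.ord t) : ∃ x, Induces (L.σ x) v := by
  classical
  by_contra hno
  have hne : ∀ x, v ≠ locPlace L x := by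
    intro x hx
    exact hno ⟨x, hx ▸ loc_induces_locPlace L x⟩
  have : Fintype X := Fintype.ofFinite X
  have hvS : v ∉ Finset.univ.image (locPlace L) := by
    intro h
    obtain ⟨x, _, hx⟩ := Finset.mem_image.mp h
    exact hne x hx.symm
  obtain ⟨u, huv, huS⟩ := loc_exists_pole_zeros v _ hvS
  have hu : ∀ x, 0 ≤ (L.σ x u).order := by
    intro x
    have h1 := huS (locPlace L x) (Finset.mem_image_of_mem _ (Finset.mem_univ x))
    exact (loc_mem_locPlace L x u).mp (loc_mem_of_ord_nonneg _ h1.le)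
  have := loc_ord_nonneg_of_mem v (loc_mem_of_forall_order_nonneg L F₀ hF₀ hrank v hv u hu)
  omega

end Fermat.Agent.S24.H144

end
end
-- ===== PACK-END S24/Alg/LocSurj.lean

-- ===== PACK-BEGIN S24/Alg/LocFund.lean
section



/-!
# S24 / ALG-LOC: the fundamental inequality from local data (no Dedekind theory)

For `L : LocalData K F C X t`: at most `ord_v t` of the embeddings `L.σ x` induce a given
place `v` (with residue field `K`).  Hence `|X| ≤ ∑_{v | t} ord_v t`.
-/

set_option autoImplicit false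

noncomputable section

open AlgebraicCurve Polynomial

namespace Fermat.Agent.S24.H144

variable {K F : Type*} [Field K] [Field F] [Algebra K F]
variable {C : Type*} [Field C] {X : Type*} {t : F}

theorem loc_coeff_zero_C (c : C) : (HahnSeries.C c : LaurentSeries C).coeff 0 = c := by
  simp [HahnSeries.C, HahnSeries.coeff_single_same]

/-- The place induced by `L.σ x` lies over `t = 0`. -/
theorem loc_ord_t_pos_of_induces (L : LocalData K F C X t) {x : X} {v : Place K F}
    (hx : Induces (L.σ x) v) : 0 < v.ord t := by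
  obtain ⟨g, hg, hord⟩ := loc_exists_mult v (L.σ x) hx
  have h1 := hord t
  have h2 := loc_order_t_pos L x
  rw [h1] at h2
  have hg' : (0 : ℤ) < g := Int.natCast_pos.mpr hg
  exact (mul_pos_iff_of_pos_left hg').mp h2

/-- **Fibre bound.** At most `ord_v t` of the embeddings induce the place `v`. -/
theorem loc_fibre_card_le [CharZero C] (L : LocalData K F C X t) (v : Place K F)
    (hv : 0 < v.ord t) (hres : ResidueTrivial v) (T : Finset X)
    (hT : ∀ x ∈ T, Induces (L.σ x) v) : (T.card : ℤ) ≤ v.ord t := by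
  classical
  obtain ⟨π, hπ⟩ := loc_exists_ord_eq_one v
  have hπ0 : π ≠ 0 := by rintro rfl; simp at hπ
  have ht0 : t ≠ 0 := by rintro rfl; simp at hv
  obtain ⟨k, hk⟩ : ∃ k : ℕ, v.ord t = (k : ℤ) + 1 := ⟨(v.ord t - 1).toNat, by omega⟩
  -- the unit part of `t`
  set u : F := t * (π ^ (k + 1))⁻¹ with hu
  have hpk : π ^ (k + 1) ≠ 0 := pow_ne_zero _ hπ0
  have hu0 : u ≠ 0 := mul_ne_zero ht0 (inv_ne_zero hpk)
  have hut : t = u * π ^ (k + 1) := by rw [hu]; field_simp
  have hordu : v.ord u = 0 := by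
    rw [hu, v.ord_mul ht0 (inv_ne_zero hpk), v.ord_inv, loc_ord_pow, hπ, hk]
    push_cast; ring
  have humem : u ∈ v.toValuationSubring := loc_mem_of_ord_nonneg v hordu.ge
  -- the residue of `u`
  obtain ⟨c, hc⟩ := hres u humem
  have hucoeff : ∀ x ∈ T, (L.σ x u).coeff 0 = L.ι c := by
    intro x hx
    rcases hc with hc | hc
    · rw [hc, L.σ_const, loc_coeff_zero_C]
    · obtain ⟨g, hg, hord⟩ := loc_exists_mult v (L.σ x) (hT x hx)
      have h1 : 0 < (L.σ x (u - algebraMap K F c)).order := by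
        rw [hord]
        exact mul_pos (Int.natCast_pos.mpr hg) hc
      have h2 : (L.σ x (u - algebraMap K F c)).coeff 0 = 0 :=
        HahnSeries.coeff_eq_zero_of_lt_order h1
      rw [map_sub, HahnSeries.coeff_sub, L.σ_const, loc_coeff_zero_C, sub_eq_zero] at h2
      exact h2
  -- the key relation
  have hrel : ∀ x ∈ T, L.ι c * ((L.σ x π).leadingCoeff) ^ (k + 1) = (L.σ x t).leadingCoeff := by
    intro x hx
    obtain ⟨g, hg, hord⟩ := loc_exists_mult v (L.σ x) (hT x hx)
    have hou : LocBig 0 (L.σ x u) := LocBig.of_le_order (by rw [hord, hordu, mul_zero])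
    have hoπ : (L.σ x π).order = g := by rw [hord, hπ, mul_one]
    have hbπ : LocBig (g : ℤ) (L.σ x π) := LocBig.of_le_order hoπ.ge
    have hot : (L.σ x t).order = ((k + 1 : ℕ) : ℤ) * g := by
      rw [hord, hk]; push_cast; ring
    have h1 := hou.coeff_mul (hbπ.pow (k + 1))
    rw [hbπ.coeff_pow, zero_add, ← map_pow, ← map_mul, ← hut, hucoeff x hx] at h1
    have e1 : (L.σ x π).leadingCoeff = (L.σ x π).coeff g := by
      rw [HahnSeries.leadingCoeff_eq, hoπ]
    have e2 : (L.σ x t).leadingCoeff = (L.σ x t).coeff (((k + 1 : ℕ) : ℤ) * g) := by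
      rw [HahnSeries.leadingCoeff_eq, hot]
    rw [e1, e2, h1]
  have hιc : ∀ x ∈ T, L.ι c ≠ 0 := by
    intro x hx
    rw [← hucoeff x hx]
    obtain ⟨g, hg, hord⟩ := loc_exists_mult v (L.σ x) (hT x hx)
    have ho : (L.σ x u).order = 0 := by rw [hord, hordu, mul_zero]
    rw [← ho]
    exact HahnSeries.coeff_order_eq_zero.not.mpr ((map_ne_zero (L.σ x)).mpr hu0)
  rcases T.eq_empty_or_nonempty with rfl | ⟨x₀, hx₀⟩
  · simp only [Finset.card_empty, Nat.cast_zero]; exact hv.le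
  -- all leading coefficients are `(k+1)`-th roots of the same element
  set A : C := (L.σ x₀ t).leadingCoeff * (L.ι c)⁻¹ with hA
  have hroot : ∀ x ∈ T, (L.σ x π).leadingCoeff ∈ (nthRoots (k + 1) A).toFinset := by
    intro x hx
    rw [Multiset.mem_toFinset, mem_nthRoots (Nat.succ_pos k), hA, L.σ_t_eq x₀ x, ← hrel x hx]
    field_simp [hιc x hx]
  have hinj : Set.InjOn (fun x => (L.σ x π).leadingCoeff) (T : Set X) := by
    intro x hx y hy hxy
    apply L.σ_inj
    exact loc_emb_eq_of_leadingCoeff_eq hres hv hπ L.ι (L.σ x) (L.σ y) (L.σ_const x)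
      (L.σ_const y) (hT x hx) (hT y hy) (L.σ_t_eq x y) hxy
  have h1 : T.card ≤ (nthRoots (k + 1) A).toFinset.card :=
    Finset.card_le_card_of_injOn _ hroot hinj
  have h2 : (nthRoots (k + 1) A).toFinset.card ≤ k + 1 :=
    (Multiset.toFinset_card_le _).trans (card_nthRoots _ _)
  rw [hk]
  have : T.card ≤ k + 1 := h1.trans h2
  exact_mod_cast this

/-- **Fundamental inequality** `|X| ≤ ∑_{v | t} ord_v t`, hypothesis-explicit version. -/
theorem loc_card_le_sum_of_residueTrivial [CharZero C] [Finite X] (L : LocalData K F C X t)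
    (hres : ∀ v : Place K F, 0 < v.ord t → ResidueTrivial v)
    (s : Finset (Place K F)) (hs : ∀ v, v ∈ s ↔ 0 < v.ord t) :
    (Nat.card X : ℤ) ≤ ∑ v ∈ s, v.ord t := by
  classical
  have : Fintype X := Fintype.ofFinite X
  rw [Nat.card_eq_fintype_card, ← Finset.card_univ,
    Finset.card_eq_sum_card_image (locPlace L) Finset.univ]
  push_cast
  have himg : Finset.univ.image (locPlace L) ⊆ s := by
    intro v hv
    obtain ⟨x, _, rfl⟩ := Finset.mem_image.mp hv
    exact (hs _).mpr (loc_ord_t_pos_of_induces L (loc_induces_locPlace L x))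
  refine le_trans (Finset.sum_le_sum fun v hv => ?_)
    (Finset.sum_le_sum_of_subset_of_nonneg himg fun v hv _ => ((hs v).mp hv).le)
  have hvpos : 0 < v.ord t := (hs v).mp (himg hv)
  apply loc_fibre_card_le L v hvpos (hres v hvpos)
  intro x hx
  rw [Finset.mem_filter] at hx
  rw [← hx.2]
  exact loc_induces_locPlace L x

end Fermat.Agent.S24.H144

end
end
-- ===== PACK-END S24/Alg/LocFund.lean

-- ===== PACK-BEGIN S24/Alg/LocFundFF.lean
section



/-!
# S24 / ALG-LOC: the fundamental inequality `|X| ≤ ∑_{v | t} ord_v t` (final form)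

Combines the local uniqueness argument (`LocFund.lean`) with "residue field `= K`"
(helper804, `FFFinite.lean`).  No Dedekind theory.
-/

set_option autoImplicit false

noncomputable section

open AlgebraicCurve IntermediateField

namespace Fermat.Agent.S24.H144

variable {K F : Type*} [Field K] [Field F] [Algebra K F]
variable {C : Type*} [Field C] {X : Type*} {t : F}

/-- Over an algebraically closed constant field the residue field of every place is `K`. -/
theorem loc_residueTrivial [IsAlgClosed K] (v : Place K F) (ht : 0 < v.ord t)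
    [FiniteDimensional K⟮t⟯ F] : ResidueTrivial v := by
  have htr : Transcendental K t := by
    apply FF.transcendental_of_not_mem_range
    rintro ⟨c, rfl⟩
    rw [loc_ord_algebraMap] at ht
    exact lt_irrefl _ ht
  intro f hf
  obtain ⟨a, ha⟩ := FF.exists_const_sub_mem_nonunits v htr hf
  refine ⟨a, ?_⟩
  rcases eq_or_ne (f - algebraMap K F a) 0 with h0 | h0
  · exact Or.inl (sub_eq_zero.mp h0)
  · exact Or.inr ((FF.ord_pos_iff_mem_nonunits v h0).mpr ha)

/-- **Fundamental inequality from local data.** -/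
theorem loc_fundamental_inequality [IsAlgClosed K] [CharZero C] [Finite X]
    [FiniteDimensional K⟮t⟯ F] (L : LocalData K F C X t)
    (s : Finset (Place K F)) (hs : ∀ v, v ∈ s ↔ 0 < v.ord t) :
    (Nat.card X : ℤ) ≤ ∑ v ∈ s, v.ord t :=
  loc_card_le_sum_of_residueTrivial L (fun v hv => loc_residueTrivial v hv) s hs

end Fermat.Agent.S24.H144

end
end
-- ===== PACK-END S24/Alg/LocFundFF.lean

-- ===== PACK-BEGIN S24/H504/FF1.lean
section



/-!
# The fundamental inequality `n ≤ ∑_{v | t} e_v` from local embedding data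

Dedekind-free: every embedding `σ x` induces a place over `t = 0`, and at most `e_v = v(t)`
embeddings induce a given place `v` (rigidity, `card_induces_le`).
-/

set_option autoImplicit false

namespace Fermat.Agent.S24.H504

open AlgebraicCurve

variable {K F : Type*} [Field K] [Field F] [Algebra K F]
variable {C : Type*} [Field C] {X : Type*} {t : F}

theorem LocalData.order_const_nonneg (L : LocalData K F C X t) (x : X) (c : K) :
    0 ≤ (L.σ x (algebraMap K F c)).order := by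
  rw [L.σ_const, HahnSeries.order_C]

theorem LocalData.exists_order_ne_zero (L : LocalData K F C X t) (x : X) :
    ∃ f : F, (L.σ x f).order ≠ 0 :=
  ⟨t, by rw [L.σ_t_order]; exact_mod_cast L.m_pos.ne'⟩

/-- The place of `F/K` induced by the embedding `σ x`. -/
noncomputable def LocalData.placeAt (L : LocalData K F C X t) (x : X) : Place K F :=
  placeOfEmb (L.σ x) (LocalData.order_const_nonneg L x) (LocalData.exists_order_ne_zero L x)

theorem LocalData.induces_placeAt (L : LocalData K F C X t) (x : X) :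
    Induces (L.σ x) (LocalData.placeAt L x) :=
  induces_placeOfEmb _ _ _

theorem LocalData.ord_t_pos_of_induces (L : LocalData K F C X t) {x : X} {v : Place K F}
    (h : Induces (L.σ x) v) : 0 < v.ord t := by
  have hm : 0 < (L.σ x t).order := by rw [L.σ_t_order]; exact_mod_cast L.m_pos
  have h1 := (h.order_nonneg_iff t).mp hm.le
  have h2 := (h.order_eq_zero_iff t).not.mp hm.ne'
  omega

theorem LocalData.placeAt_ord_t_pos (L : LocalData K F C X t) (x : X) :
    0 < (LocalData.placeAt L x).ord t :=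
  LocalData.ord_t_pos_of_induces L (LocalData.induces_placeAt L x)

theorem LocalData.placeAt_eq_iff (L : LocalData K F C X t) (x : X) (v : Place K F) :
    LocalData.placeAt L x = v ↔ Induces (L.σ x) v :=
  ⟨fun h => h ▸ LocalData.induces_placeAt L x,
    fun h => (LocalData.induces_placeAt L x).unique h⟩

/-- **Fibre bound** in `LocalData` language: at most `v(t)` of the embeddings induce `v`. -/
theorem LocalData.card_fibre_le [IsAlgClosed K] [CharZero C] [Finite X]
    [Algebra.IsAlgebraic (IntermediateField.adjoin K {t}) F]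
    (L : LocalData K F C X t) (v : Place K F) (hv : 0 < v.ord t) :
    (Nat.card {x : X // Induces (L.σ x) v} : ℤ) ≤ v.ord t := by
  have := card_induces_le hv L.ι L.σ L.σ_inj L.σ_const L.σ_t_eq
  have h2 : ((v.ord t).toNat : ℤ) = v.ord t := Int.toNat_of_nonneg hv.le
  rw [← h2]
  exact_mod_cast this

/-- **Fundamental inequality (FF1).** `n = #X ≤ ∑_{v over t = 0} v(t)`. -/
theorem LocalData.card_le_sum_ord [IsAlgClosed K] [CharZero C] [Finite X]
    [Algebra.IsAlgebraic (IntermediateField.adjoin K {t}) F]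
    (L : LocalData K F C X t) (s : Finset (Place K F)) (hs : ∀ v, v ∈ s ↔ 0 < v.ord t) :
    (Nat.card X : ℤ) ≤ ∑ v ∈ s, v.ord t := by
  classical
  have := Fintype.ofFinite X
  have hmaps : ∀ x ∈ (Finset.univ : Finset X), LocalData.placeAt L x ∈ s :=
    fun x _ => (hs _).mpr (LocalData.placeAt_ord_t_pos L x)
  have hcard := Finset.card_eq_sum_card_fiberwise hmaps
  rw [Nat.card_eq_fintype_card, ← Finset.card_univ, hcard]
  push_cast
  apply Finset.sum_le_sum
  intro v hv
  have hfib := LocalData.card_fibre_le L v ((hs v).mp hv)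
  refine le_trans (le_of_eq ?_) hfib
  congr 1
  rw [Nat.card_eq_fintype_card, Fintype.card_subtype]
  congr 1
  ext x
  simp only [Finset.mem_filter, Finset.mem_univ, true_and]
  exact LocalData.placeAt_eq_iff L x v

end Fermat.Agent.S24.H504

end
-- ===== PACK-END S24/H504/FF1.lean

-- ===== PACK-BEGIN S24/H504/FF3Local.lean
section



/-!
# Local norm formula: `∑_x ord_z (σ_x f) = m · ∑_{v | t} ord_v f`
-/

set_option autoImplicit false
set_option linter.style.haveILetI false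
set_option linter.unusedSectionVars false

namespace Fermat.Agent.S24.H504

open AlgebraicCurve IntermediateField

variable {K F : Type*} [Field K] [Field F] [Algebra K F]
variable {C : Type*} [Field C] {X : Type*} {t : F}

/-- `F` is algebraic over `K(t)` as soon as it is finite over a subfield of `K(t)`. -/
theorem isAlgebraic_adjoin_of_le (E : IntermediateField K F) (hE : E ≤ K⟮t⟯)
    [FiniteDimensional E F] : Algebra.IsAlgebraic K⟮t⟯ F := by
  letI : Algebra E K⟮t⟯ := (IntermediateField.inclusion hE).toRingHom.toAlgebra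
  haveI : IsScalarTower E K⟮t⟯ F := IsScalarTower.of_algebraMap_eq (fun x => rfl)
  exact Algebra.IsAlgebraic.tower_top (K := E) K⟮t⟯

theorem induces_placeOf (L : LocalData K F C X t) (x : X) :
    Induces (L.σ x) (H117.placeOf L x) :=
  fun f => H117.mem_placeOf_iff L x f

theorem placeOf_eq_iff_induces (L : LocalData K F C X t) (x : X) (v : Place K F) :
    H117.placeOf L x = v ↔ Induces (L.σ x) v :=
  ⟨fun h => h ▸ induces_placeOf L x, fun h => (induces_placeOf L x).unique h⟩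

section

variable [IsAlgClosed K] [CharZero K] [CharZero C] [Finite X]
variable (L : LocalData K F C X t)
variable (E : IntermediateField K F) (hE : E ≤ K⟮t⟯) [FiniteDimensional E F]
  (hrank : Module.finrank E F = Nat.card X)

include L hE hrank in
/-- **FF1 (equality).** `∑_{v | t} v(t) = #X = [F : E]`. -/
theorem sum_ord_eq_card (s : Finset (Place K F)) (hs : ∀ v, v ∈ s ↔ 0 < v.ord t) :
    ∑ v ∈ s, v.ord t = Nat.card X := by
  haveI := isAlgebraic_adjoin_of_le (t := t) E hE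
  exact (H117.localThm L E hE hrank s hs (LocalData.card_le_sum_ord L s hs)).2.2

include hE hrank in
theorem card_places_eq_numOrbits (s : Finset (Place K F)) (hs : ∀ v, v ∈ s ↔ 0 < v.ord t) :
    s.card = numOrbits L.perm := by
  haveI := isAlgebraic_adjoin_of_le (t := t) E hE
  exact (H117.localThm L E hE hrank s hs (LocalData.card_le_sum_ord L s hs)).1

omit [IsAlgClosed K] [CharZero K] [CharZero C] in
theorem sum_card_fibre [Fintype X] [DecidableEq (Place K F)] (s : Finset (Place K F))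
    (hs : ∀ v, v ∈ s ↔ 0 < v.ord t) :
    ∑ v ∈ s, (Finset.univ.filter (fun x => H117.placeOf L x = v)).card = Fintype.card X := by
  have hmaps : ∀ x ∈ (Finset.univ : Finset X), H117.placeOf L x ∈ s :=
    fun x _ => (hs _).mpr (H117.ord_t_pos L x)
  rw [← Finset.card_univ, Finset.card_eq_sum_card_fiberwise hmaps]

include hE hrank in
/-- Exactly `v(t)` embeddings induce a place `v` over `t = 0`. -/
theorem card_fibre_eq [Fintype X] [DecidableEq (Place K F)] (v : Place K F)
    (hv : 0 < v.ord t) :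
    ((Finset.univ.filter (fun x => H117.placeOf L x = v)).card : ℤ) = v.ord t := by
  haveI := isAlgebraic_adjoin_of_le (t := t) E hE
  have hfin : {v : Place K F | 0 < v.ord t}.Finite := H117.finite_places_over L E hE hrank
  set s := hfin.toFinset with hsdef
  have hs : ∀ v, v ∈ s ↔ 0 < v.ord t := fun v => by simp [hsdef]
  have hle : ∀ w ∈ s, ((Finset.univ.filter (fun x => H117.placeOf L x = w)).card : ℤ)
      ≤ w.ord t := by
    intro w hw
    have := LocalData.card_fibre_le L w ((hs w).mp hw)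
    have hc : Nat.card {x : X // Induces (L.σ x) w}
        = (Finset.univ.filter (fun x => H117.placeOf L x = w)).card := by
      haveI : Fintype {x : X // Induces (L.σ x) w} := Fintype.ofFinite _
      rw [Nat.card_eq_fintype_card]
      exact Fintype.card_of_subtype _ (fun x => by
        simp only [Finset.mem_filter, Finset.mem_univ, true_and]
        exact placeOf_eq_iff_induces L x w)
    rw [← hc]
    exact this
  have h1 := sum_ord_eq_card L E hE hrank s hs
  have h2 := sum_card_fibre L s hs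
  have h3 : ∑ w ∈ s, (w.ord t
      - ((Finset.univ.filter (fun x => H117.placeOf L x = w)).card : ℤ)) = 0 := by
    rw [Finset.sum_sub_distrib, h1, ← Nat.cast_sum, h2, Nat.card_eq_fintype_card]
    ring
  have h4 := (Finset.sum_eq_zero_iff_of_nonneg (fun w hw => sub_nonneg.mpr (hle w hw))).mp h3
    v ((hs v).mpr hv)
  linarith

include hE hrank in
/-- **Local norm formula.** -/
theorem sum_order_eq [Fintype X] (s : Finset (Place K F))
    (hs : ∀ v, v ∈ s ↔ 0 < v.ord t) (f : F) :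
    ∑ x, (L.σ x f).order = L.m * ∑ v ∈ s, v.ord f := by
  classical
  have hmaps : ∀ x ∈ (Finset.univ : Finset X), H117.placeOf L x ∈ s :=
    fun x _ => (hs _).mpr (H117.ord_t_pos L x)
  rw [← Finset.sum_fiberwise_of_maps_to hmaps, Finset.mul_sum]
  apply Finset.sum_congr rfl
  intro v hv
  have hv' : 0 < v.ord t := (hs v).mp hv
  have hcard := card_fibre_eq L E hE hrank v hv'
  have hterm : ∀ x ∈ Finset.univ.filter (fun x => H117.placeOf L x = v),
      v.ord t * (L.σ x f).order = L.m * v.ord f := by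
    intro x hx
    have hx' : H117.placeOf L x = v := (Finset.mem_filter.mp hx).2
    have h1 := H117.order_eq L x f
    have h2 := H117.mult_mul_ord_t L x
    rw [hx'] at h1 h2
    rw [h1, ← h2]
    ring
  have hsum : v.ord t * ∑ x ∈ Finset.univ.filter (fun x => H117.placeOf L x = v),
      (L.σ x f).order = v.ord t * (L.m * v.ord f) := by
    rw [Finset.mul_sum, Finset.sum_congr rfl hterm, Finset.sum_const, nsmul_eq_mul, hcard]
  exact mul_left_cancel₀ hv'.ne' hsum

end

end Fermat.Agent.S24.H504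

end
-- ===== PACK-END S24/H504/FF3Local.lean

-- ===== PACK-BEGIN S29/H942/MeroRootGlue.lean
section


/-!
# Gluing meromorphic `p`-th roots along an exhaustion by simply connected open sets
-/

set_option autoImplicit false

noncomputable section

open Filter Topology Set Complex MeromorphicOn Function

namespace Fermat.Agent.S29.H942

/-- Existence of a root in normal form on a simply connected open set on which `f` has finitely
many zeros and poles. -/
theorem exists_isNFRootOn_of_finite {f : ℂ → ℂ} {U : Set ℂ}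
    (hUc : IsSimplyConnected U) (hU : IsOpen U) (hf : MeromorphicOn f U)
    (h₂f : ∀ x ∈ U, meromorphicOrderAt f x ≠ ⊤) (h₃f : (divisor f U).support.Finite)
    {p : ℕ} (hp : p ≠ 0) (hdiv : ∀ x ∈ U, (p : ℤ) ∣ (meromorphicOrderAt f x).untop₀) :
    ∃ h : ℂ → ℂ, IsNFRootOn h f U p := by
  have hdiv' : ∀ z, (p : ℤ) ∣ divisor f U z := by
    intro z
    by_cases hz : z ∈ U
    · rw [divisor_apply hf hz]
      exact hdiv z hz
    · have : divisor f U z = 0 := by
        rw [divisor_def]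
        simp [hz]
      rw [this]
      exact dvd_zero _
  obtain ⟨h, hh, hpow⟩ := exists_meromorphicOn_pow_eq_of_finite hUc hU hf
    (fun u => h₂f u u.2) h₃f hp hdiv'
  exact ⟨_, isNFRootOn_toMeromorphicNFOn hU hh hpow⟩

/-- Multiplying a root by a root of unity gives a root. -/
lemma IsNFRootOn.const_mul {h f : ℂ → ℂ} {V : Set ℂ} {p : ℕ} (hh : IsNFRootOn h f V p)
    {ζ : ℂ} (hζ : ζ ^ p = 1) (hζ0 : ζ ≠ 0) : IsNFRootOn (fun z => ζ * h z) f V p := by
  refine ⟨fun x hx => ?_, fun x hx => ?_⟩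
  · have := (hh.1 hx).smul_analytic (g := fun _ : ℂ => ζ) analyticAt_const hζ0
    exact this
  · filter_upwards [hh.2 x hx] with y hy
    simp only [Pi.pow_apply] at hy ⊢
    rw [mul_pow, hζ, one_mul, hy]

/-- A root (of a function of finite order) on a nonempty open set is non-zero somewhere. -/
lemma IsNFRootOn.exists_ne_zero {h f : ℂ → ℂ} {V : Set ℂ} {p : ℕ} (hp : p ≠ 0)
    (hh : IsNFRootOn h f V p) (hV : IsOpen V) (hne : V.Nonempty)
    (hf : ∀ x ∈ V, meromorphicOrderAt f x ≠ ⊤) : ∃ y ∈ V, h y ≠ 0 := by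
  obtain ⟨x, hx⟩ := hne
  have h1 := hh.eventually_ne_zero hp hx (hf x hx)
  have h2 : V ∈ 𝓝[≠] x := mem_nhdsWithin_of_mem_nhds (hV.mem_nhds hx)
  obtain ⟨y, hy1, hy2⟩ := (h1.and h2).exists
  exact ⟨y, hy2, hy1⟩

/-- **Gluing.** -/
theorem exists_isNFRootOn_iUnion {f : ℂ → ℂ} {p : ℕ} (hp : p ≠ 0) (V : ℕ → Set ℂ)
    (hVo : ∀ n, IsOpen (V n)) (hVsc : ∀ n, IsSimplyConnected (V n)) (hmono : Monotone V)
    (hf : ∀ n, MeromorphicOn f (V n)) (hford : ∀ n, ∀ x ∈ V n, meromorphicOrderAt f x ≠ ⊤)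
    (hfin : ∀ n, (divisor f (V n)).support.Finite)
    (hdiv : ∀ n, ∀ x ∈ V n, (p : ℤ) ∣ (meromorphicOrderAt f x).untop₀) :
    ∃ h : ℂ → ℂ, IsNFRootOn h f (⋃ n, V n) p := by
  classical
  -- roots on each `V n`
  have h1 : ∀ n, ∃ h : ℂ → ℂ, IsNFRootOn h f (V n) p := fun n =>
    exists_isNFRootOn_of_finite (hVsc n) (hVo n) (hf n) (hford n) (hfin n) hp (hdiv n)
  choose H hH using h1
  have hpc : ∀ n, IsPreconnected (V n) := fun n =>
    (hVsc n).isPathConnected.isConnected.isPreconnected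
  have hV0 : ∀ n, V 0 ⊆ V n := fun n => hmono (Nat.zero_le n)
  -- normalisation against `H 0` on `V 0`
  have h2 : ∀ n, ∃ ζ : ℂ, ζ ^ p = 1 ∧ ∀ x ∈ V 0, H n x = ζ * H 0 x := fun n =>
    IsNFRootOn.exists_eq_mul hp (hVo 0) (hpc 0) (hford 0) (hH 0) ((hH n).mono (hV0 n))
  choose ζ hζ hζH using h2
  have hζ0 : ∀ n, ζ n ≠ 0 := by
    intro n h0
    have := hζ n
    rw [h0, zero_pow hp] at this
    exact zero_ne_one this
  set H' : ℕ → ℂ → ℂ := fun n z => (ζ n)⁻¹ * H n z with hH'def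
  have hH' : ∀ n, IsNFRootOn (H' n) f (V n) p := fun n =>
    (hH n).const_mul (by rw [inv_pow, hζ n, inv_one]) (inv_ne_zero (hζ0 n))
  have hH'0 : ∀ n, ∀ x ∈ V 0, H' n x = H 0 x := by
    intro n x hx
    simp only [hH'def]
    rw [hζH n x hx, ← mul_assoc, inv_mul_cancel₀ (hζ0 n), one_mul]
  obtain ⟨y₀, hy₀V, hy₀⟩ := (hH 0).exists_ne_zero hp (hVo 0) (hVsc 0).nonempty (hford 0)
  -- compatibility
  have h3 : ∀ n m, n ≤ m → ∀ x ∈ V n, H' m x = H' n x := by
    intro n m hnm x hx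
    obtain ⟨ξ, -, hξH⟩ := IsNFRootOn.exists_eq_mul hp (hVo n) (hpc n) (hford n) (hH' n)
      ((hH' m).mono (hmono hnm))
    have h4 := hξH y₀ (hV0 n hy₀V)
    rw [hH'0 m y₀ hy₀V, hH'0 n y₀ hy₀V] at h4
    have h5 : ξ = 1 := by
      have : (ξ - 1) * H 0 y₀ = 0 := by rw [sub_mul, one_mul, ← h4, sub_self]
      rcases mul_eq_zero.1 this with h | h
      · exact sub_eq_zero.1 h
      · exact absurd h hy₀
    rw [hξH x hx, h5, one_mul]
  -- the glued function
  set idx : ℂ → ℕ := fun z => if hz : ∃ n, z ∈ V n then Nat.find hz else 0 with hidx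
  set h : ℂ → ℂ := fun z => H' (idx z) z with hh
  have h6 : ∀ m, ∀ x ∈ V m, h x = H' m x := by
    intro m x hx
    have hex : ∃ n, x ∈ V n := ⟨m, hx⟩
    have hi : idx x = Nat.find hex := by simp only [hidx, dif_pos hex]
    have hle : idx x ≤ m := by rw [hi]; exact Nat.find_min' hex hx
    have hmem : x ∈ V (idx x) := by rw [hi]; exact Nat.find_spec hex
    exact (h3 (idx x) m hle x hmem).symm
  refine ⟨h, fun x hx => ?_, fun x hx => ?_⟩
  · obtain ⟨m, hm⟩ := mem_iUnion.1 hx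
    have heq : h =ᶠ[𝓝 x] H' m := by
      filter_upwards [(hVo m).mem_nhds hm] with y hy using h6 m y hy
    exact (meromorphicNFAt_congr heq).2 ((hH' m).1 hm)
  · obtain ⟨m, hm⟩ := mem_iUnion.1 hx
    have hVn : V m ∈ 𝓝[≠] x := mem_nhdsWithin_of_mem_nhds ((hVo m).mem_nhds hm)
    filter_upwards [(hH' m).2 x hm, hVn] with y hy hyV
    simp only [Pi.pow_apply] at hy ⊢
    rw [h6 m y hyV, hy]

end Fermat.Agent.S29.H942

end
end
-- ===== PACK-END S29/H942/MeroRootGlue.lean

-- ===== PACK-BEGIN S29/H942/MeroRoot.lean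
section


/-!
# `p`-th roots of meromorphic functions on the upper half plane

Main result: `exists_meromorphic_root_upperHalfPlane`. If `f` is meromorphic on the upper half
plane `{z | 0 < z.im}`, nowhere locally zero, and all its orders are divisible by `p ≠ 0`, then
there is a function `h`, meromorphic (in normal form) on the upper half plane, with `h ^ p = f`
away from a discrete set.  The root is unique up to a `p`-th root of unity
(`IsNFRootOn.exists_eq_mul`).
-/

set_option autoImplicit false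

noncomputable section

open Filter Topology Set Complex MeromorphicOn Function Metric

namespace Fermat.Agent.S29.H942

/-- The upper half plane as a subset of `ℂ`. -/
def uhpSet : Set ℂ := {z : ℂ | 0 < z.im}

lemma mem_uhpSet {z : ℂ} : z ∈ uhpSet ↔ 0 < z.im := Iff.rfl

lemma isOpen_uhpSet : IsOpen uhpSet := isOpen_lt continuous_const Complex.continuous_im

/-- The centres of the exhausting balls. -/
def exhCenter (n : ℕ) : ℂ := ((n : ℝ) + 1 : ℝ) * I

/-- The radii of the exhausting balls. -/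
def exhRadius (n : ℕ) : ℝ := (n : ℝ) + 1 - 1 / ((n : ℝ) + 2)

lemma exhRadius_pos (n : ℕ) : 0 < exhRadius n := by
  unfold exhRadius
  have h1 : (0 : ℝ) ≤ n := Nat.cast_nonneg n
  have h2 : 1 / ((n : ℝ) + 2) < 1 := by
    rw [div_lt_one (by linarith)]
    linarith
  linarith

lemma exhRadius_lt (n : ℕ) : exhRadius n < (n : ℝ) + 1 := by
  unfold exhRadius
  have h1 : (0 : ℝ) ≤ n := Nat.cast_nonneg n
  have h2 : 0 < 1 / ((n : ℝ) + 2) := by positivity
  linarith

lemma exhCenter_im (n : ℕ) : (exhCenter n).im = (n : ℝ) + 1 := by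
  simp [exhCenter]

lemma exhCenter_re (n : ℕ) : (exhCenter n).re = 0 := by
  simp [exhCenter]

lemma closedBall_exh_subset (n : ℕ) : closedBall (exhCenter n) (exhRadius n) ⊆ uhpSet := by
  intro z hz
  rw [mem_closedBall, dist_eq_norm] at hz
  have h1 : |(z - exhCenter n).im| ≤ ‖z - exhCenter n‖ := Complex.abs_im_le_norm _
  have h2 : (z - exhCenter n).im = z.im - ((n : ℝ) + 1) := by
    rw [Complex.sub_im, exhCenter_im]
  have h3 := (abs_le.1 (h1.trans hz)).1
  rw [h2] at h3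
  have h4 := exhRadius_lt n
  rw [mem_uhpSet]
  linarith

lemma ball_exh_subset (n : ℕ) : ball (exhCenter n) (exhRadius n) ⊆ uhpSet :=
  ball_subset_closedBall.trans (closedBall_exh_subset n)

lemma ball_exh_mono : Monotone fun n => ball (exhCenter n) (exhRadius n) := by
  refine monotone_nat_of_le_succ fun n => ?_
  apply ball_subset_ball'
  have hd : dist (exhCenter n) (exhCenter (n + 1)) = 1 := by
    rw [dist_eq_norm]
    have : exhCenter n - exhCenter (n + 1) = -I := by
      simp only [exhCenter]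
      push_cast
      ring
    rw [this, norm_neg, Complex.norm_I]
  rw [hd]
  unfold exhRadius
  have h1 : (0 : ℝ) ≤ n := Nat.cast_nonneg n
  have h2 : 1 / (((n + 1 : ℕ) : ℝ) + 2) ≤ 1 / ((n : ℝ) + 2) := by
    apply one_div_le_one_div_of_le (by linarith)
    push_cast
    linarith
  push_cast at h2 ⊢
  linarith

lemma iUnion_ball_exh : (⋃ n, ball (exhCenter n) (exhRadius n)) = uhpSet := by
  apply Subset.antisymm
  · exact iUnion_subset fun n => ball_exh_subset n
  · intro z hz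
    rw [mem_uhpSet] at hz
    obtain ⟨n, hn⟩ := exists_nat_gt ((z.re ^ 2 + z.im ^ 2 + 2) / (2 * z.im))
    refine mem_iUnion.2 ⟨n, ?_⟩
    rw [mem_ball, dist_eq_norm]
    have hR : (0 : ℝ) < (n : ℝ) + 1 := by positivity
    have hr := exhRadius_pos n
    have hlt : (z.re ^ 2 + z.im ^ 2 + 2) < 2 * z.im * ((n : ℝ) + 1) := by
      have := (div_lt_iff₀ (by linarith : (0 : ℝ) < 2 * z.im)).1 hn
      nlinarith
    have hsq : ‖z - exhCenter n‖ ^ 2 < exhRadius n ^ 2 := by
      have h1 : ‖z - exhCenter n‖ ^ 2 = z.re ^ 2 + (z.im - ((n : ℝ) + 1)) ^ 2 := by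
        rw [Complex.sq_norm, Complex.normSq_apply, Complex.sub_re, Complex.sub_im,
          exhCenter_re, exhCenter_im]
        ring
      rw [h1]
      have h2 : exhRadius n ^ 2 ≥ ((n : ℝ) + 1) ^ 2 - 2 := by
        unfold exhRadius
        have h0 : (0 : ℝ) ≤ n := Nat.cast_nonneg n
        have h3 : 0 < 1 / ((n : ℝ) + 2) := by positivity
        have h4 : ((n : ℝ) + 1) * (1 / ((n : ℝ) + 2)) ≤ 1 := by
          rw [mul_one_div, div_le_one (by linarith)]
          linarith
        nlinarith [sq_nonneg (1 / ((n : ℝ) + 2))]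
      nlinarith
    exact lt_of_pow_lt_pow_left₀ 2 hr.le hsq

/-- **Meromorphic `p`-th roots on the upper half plane** (normal form version). -/
theorem exists_isNFRootOn_upperHalfPlane {f : ℂ → ℂ} (hf : MeromorphicOn f uhpSet)
    (hford : ∀ z ∈ uhpSet, meromorphicOrderAt f z ≠ ⊤) {p : ℕ} (hp : p ≠ 0)
    (hdiv : ∀ z ∈ uhpSet, (p : ℤ) ∣ (meromorphicOrderAt f z).untop₀) :
    ∃ h : ℂ → ℂ, IsNFRootOn h f uhpSet p := by
  have := exists_isNFRootOn_iUnion (f := f) hp (fun n => ball (exhCenter n) (exhRadius n))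
    (fun n => isOpen_ball)
    (fun n => isSimplyConnected_of_convex (convex_ball _ _)
      ⟨exhCenter n, mem_ball_self (exhRadius_pos n)⟩)
    ball_exh_mono
    (fun n => hf.mono_set (ball_exh_subset n))
    (fun n x hx => hford x (ball_exh_subset n hx))
    (fun n => divisor_support_finite_of_subset (hf.mono_set (closedBall_exh_subset n))
      (isCompact_closedBall _ _) ball_subset_closedBall)
    (fun n x hx => hdiv x (ball_exh_subset n hx))
  rwa [iUnion_ball_exh] at this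

/-- Roots in normal form are roots modulo equality on codiscrete sets. -/
lemma IsNFRootOn.eventuallyEq_codiscreteWithin {h f : ℂ → ℂ} {V : Set ℂ} {p : ℕ}
    (hh : IsNFRootOn h f V p) : (h ^ p) =ᶠ[codiscreteWithin V] f := by
  rw [EventuallyEq, eventually_iff, mem_codiscreteWithin_iff_forall_mem_nhdsNE]
  intro x hx
  filter_upwards [hh.2 x hx] with y hy
  exact Or.inl hy

/-- **Meromorphic `p`-th roots on the upper half plane.** -/
theorem exists_meromorphic_root_upperHalfPlane {f : ℂ → ℂ}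
    (hf : MeromorphicOn f {z : ℂ | 0 < z.im})
    (hford : ∀ z : ℂ, 0 < z.im → meromorphicOrderAt f z ≠ ⊤) {p : ℕ} (hp : p ≠ 0)
    (hdiv : ∀ z : ℂ, 0 < z.im → (p : ℤ) ∣ (meromorphicOrderAt f z).untop₀) :
    ∃ h : ℂ → ℂ, MeromorphicNFOn h {z : ℂ | 0 < z.im} ∧
      (∀ z : ℂ, 0 < z.im → (h ^ p) =ᶠ[𝓝[≠] z] f) ∧
      (h ^ p) =ᶠ[codiscreteWithin {z : ℂ | 0 < z.im}] f := by
  obtain ⟨h, hh⟩ := exists_isNFRootOn_upperHalfPlane (f := f) hf hford hp hdiv
  exact ⟨h, hh.1, hh.2, hh.eventuallyEq_codiscreteWithin⟩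

/-- **Uniqueness of meromorphic `p`-th roots on the upper half plane** up to a root of unity. -/
theorem meromorphic_root_upperHalfPlane_unique {f h₁ h₂ : ℂ → ℂ}
    (hford : ∀ z : ℂ, 0 < z.im → meromorphicOrderAt f z ≠ ⊤) {p : ℕ} (hp : p ≠ 0)
    (h₁NF : MeromorphicNFOn h₁ {z : ℂ | 0 < z.im})
    (h₁pow : ∀ z : ℂ, 0 < z.im → (h₁ ^ p) =ᶠ[𝓝[≠] z] f)
    (h₂NF : MeromorphicNFOn h₂ {z : ℂ | 0 < z.im})
    (h₂pow : ∀ z : ℂ, 0 < z.im → (h₂ ^ p) =ᶠ[𝓝[≠] z] f) :
    ∃ ζ : ℂ, ζ ^ p = 1 ∧ ∀ z : ℂ, 0 < z.im → h₂ z = ζ * h₁ z := by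
  have hconv : Convex ℝ uhpSet := by
    have : uhpSet = Complex.im ⁻¹' (Ioi 0) := rfl
    rw [this]
    exact (convex_Ioi (0 : ℝ)).is_linear_preimage Complex.imLm.isLinear
  exact IsNFRootOn.exists_eq_mul hp isOpen_uhpSet hconv.isPreconnected hford
    ⟨h₁NF, h₁pow⟩ ⟨h₂NF, h₂pow⟩

end Fermat.Agent.S29.H942

end
end
-- ===== PACK-END S29/H942/MeroRoot.lean

-- ===== PACK-BEGIN S29/H942/HoloRoot.lean
section





/-!
# Holomorphic `p`-th roots on the upper half plane

If `g : ℍ → ℂ` is holomorphic, not identically zero, and all its orders of vanishing are divisible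
by `p`, then `g = c ^ p` for a holomorphic `c : ℍ → ℂ`.
-/

set_option autoImplicit false

noncomputable section

open Filter Topology Set Complex MeromorphicOn Function UpperHalfPlane
open scoped Manifold

namespace Fermat.Agent.S29.H942

/-- A root in normal form of an analytic function is analytic. -/
lemma IsNFRootOn.analyticAt {h f : ℂ → ℂ} {V : Set ℂ} {p : ℕ} (hp : p ≠ 0)
    (hh : IsNFRootOn h f V p) {x : ℂ} (hx : x ∈ V) (hf : AnalyticAt ℂ f x) :
    AnalyticAt ℂ h x := by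
  rw [← (hh.1 hx).meromorphicOrderAt_nonneg_iff_analyticAt]
  have h1 : meromorphicOrderAt (h ^ p) x = meromorphicOrderAt f x :=
    meromorphicOrderAt_congr (hh.2 x hx)
  rw [meromorphicOrderAt_pow (hh.1 hx).meromorphicAt] at h1
  have h2 : 0 ≤ meromorphicOrderAt f x := hf.meromorphicOrderAt_nonneg
  rw [← h1] at h2
  by_cases htop : meromorphicOrderAt h x = ⊤
  · rw [htop]
    exact le_top
  · obtain ⟨n, hn⟩ := WithTop.ne_top_iff_exists.1 htop
    rw [← hn] at h2 ⊢
    have h4 : ((p : ℕ) : WithTop ℤ) * ((n : ℤ) : WithTop ℤ) = (((p : ℤ) * n : ℤ) : WithTop ℤ) := by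
      push_cast
      rfl
    rw [h4] at h2
    have h5 : (0 : ℤ) ≤ (p : ℤ) * n := by exact_mod_cast h2
    have hp' : (0 : ℤ) < p := by exact_mod_cast Nat.pos_of_ne_zero hp
    have h6 : (0 : ℤ) ≤ n := by
      by_contra hneg
      rw [not_le] at hneg
      nlinarith
    exact_mod_cast h6

/-- A root in normal form of an analytic function is a root everywhere. -/
lemma IsNFRootOn.pow_eq {h f : ℂ → ℂ} {V : Set ℂ} {p : ℕ} (hp : p ≠ 0)
    (hh : IsNFRootOn h f V p) {x : ℂ} (hx : x ∈ V) (hf : AnalyticAt ℂ f x) :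
    h x ^ p = f x := by
  have hA := hh.analyticAt hp hx hf
  have hc : ContinuousAt (h ^ p) x := (hA.pow p).continuousAt
  have := (hc.eventuallyEq_nhds_iff_eventuallyEq_nhdsNE hf.continuousAt).1 (hh.2 x hx)
  exact this.self_of_nhds

/-- **Holomorphic `p`-th roots on the upper half plane.** -/
theorem exists_holomorphic_root {g : ℍ → ℂ} (hg : MDiff g) {p : ℕ} (hp : p ≠ 0)
    (hdiv : ∀ τ : ℍ, ∃ k : ℕ, analyticOrderAt (g ∘ ofComplex) (τ : ℂ) = ((p * k : ℕ) : ℕ∞)) :
    ∃ c : ℍ → ℂ, MDiff c ∧ c ^ p = g := by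
  set f : ℂ → ℂ := g ∘ ofComplex with hf
  have hAn : AnalyticOnNhd ℂ f uhpSet :=
    (UpperHalfPlane.mdifferentiable_iff.mp hg).analyticOnNhd isOpen_upperHalfPlaneSet
  have hord : ∀ z ∈ uhpSet, ∃ k : ℕ, meromorphicOrderAt f z = ((p * k : ℕ) : ℤ) := by
    intro z hz
    obtain ⟨k, hk⟩ := hdiv ⟨z, hz⟩
    refine ⟨k, ?_⟩
    rw [(hAn z hz).meromorphicOrderAt_eq]
    have : analyticOrderAt f z = ((p * k : ℕ) : ℕ∞) := hk
    rw [this]
    rfl
  obtain ⟨h, hh⟩ := exists_isNFRootOn_upperHalfPlane (f := f) hAn.meromorphicOn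
    (fun z hz => by
      obtain ⟨k, hk⟩ := hord z hz
      rw [hk]
      exact WithTop.coe_ne_top)
    hp
    (fun z hz => by
      obtain ⟨k, hk⟩ := hord z hz
      rw [hk]
      simp only [WithTop.untop₀_coe]
      exact ⟨k, by push_cast; ring⟩)
  have hhA : AnalyticOnNhd ℂ h uhpSet := fun z hz => hh.analyticAt hp hz (hAn z hz)
  have hhp : ∀ z ∈ uhpSet, h z ^ p = f z := fun z hz => hh.pow_eq hp hz (hAn z hz)
  refine ⟨fun τ => h (τ : ℂ), ?_, ?_⟩
  · rw [UpperHalfPlane.mdifferentiable_iff]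
    refine hhA.differentiableOn.congr fun z hz => ?_
    simp only [Function.comp_apply]
    rw [ofComplex_apply_of_im_pos hz]
  · funext τ
    have := hhp (τ : ℂ) τ.im_pos
    simp only [Pi.pow_apply]
    rw [this, hf, Function.comp_apply, ofComplex_apply]

/-- Uniqueness of holomorphic `p`-th roots up to roots of unity. -/
theorem holomorphic_root_unique {c₁ c₂ : ℍ → ℂ} (h₁ : MDiff c₁) (h₂ : MDiff c₂)
    (h₁0 : c₁ ≠ 0) {p : ℕ} (hp : p ≠ 0) (hpow : c₁ ^ p = c₂ ^ p) :
    ∃ ζ : ℂ, ζ ^ p = 1 ∧ c₂ = fun τ => ζ * c₁ τ := by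
  set f : ℂ → ℂ := (c₁ ^ p) ∘ ofComplex with hf
  have hA₁ : AnalyticOnNhd ℂ (c₁ ∘ ofComplex) uhpSet :=
    (UpperHalfPlane.mdifferentiable_iff.mp h₁).analyticOnNhd isOpen_upperHalfPlaneSet
  have hA₂ : AnalyticOnNhd ℂ (c₂ ∘ ofComplex) uhpSet :=
    (UpperHalfPlane.mdifferentiable_iff.mp h₂).analyticOnNhd isOpen_upperHalfPlaneSet
  have hAf : AnalyticOnNhd ℂ f uhpSet :=
    (UpperHalfPlane.mdifferentiable_iff.mp (MDifferentiable.pow h₁ p)).analyticOnNhd isOpen_upperHalfPlaneSet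
  have hR₁ : IsNFRootOn (c₁ ∘ ofComplex) f uhpSet p :=
    ⟨hA₁.meromorphicNFOn, fun x _ => Eventually.of_forall fun y => rfl⟩
  have hR₂ : IsNFRootOn (c₂ ∘ ofComplex) f uhpSet p :=
    ⟨hA₂.meromorphicNFOn, fun x _ => Eventually.of_forall fun y => by
      simp only [hf, hpow, Pi.pow_apply, Function.comp_apply]⟩
  have hford : ∀ x ∈ uhpSet, meromorphicOrderAt f x ≠ ⊤ := by
    intro x hx htop
    rw [(hAf x hx).meromorphicOrderAt_eq] at htop
    have h3 : analyticOrderAt f x = ⊤ := by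
      by_contra hne
      obtain ⟨n, hn⟩ := ENat.ne_top_iff_exists.1 hne
      rw [← hn] at htop
      exact absurd htop (by simp)
    have h5 : ∀ᶠ z in 𝓝 x, f z = 0 := analyticOrderAt_eq_top.mp h3
    have hpre : IsPreconnected uhpSet := by
      have hconv : Convex ℝ uhpSet := by
        have : uhpSet = Complex.im ⁻¹' (Ioi 0) := rfl
        rw [this]
        exact (convex_Ioi (0 : ℝ)).is_linear_preimage Complex.imLm.isLinear
      exact hconv.isPreconnected
    have h6 := hAf.eqOn_zero_of_preconnected_of_eventuallyEq_zero hpre hx h5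
    apply h₁0
    funext τ
    have h7 := h6 τ.im_pos
    simp only [hf, Function.comp_apply, ofComplex_apply, Pi.pow_apply, Pi.zero_apply] at h7 ⊢
    exact pow_eq_zero_iff hp |>.mp h7
  have hconv : Convex ℝ uhpSet := by
    have : uhpSet = Complex.im ⁻¹' (Ioi 0) := rfl
    rw [this]
    exact (convex_Ioi (0 : ℝ)).is_linear_preimage Complex.imLm.isLinear
  obtain ⟨ζ, hζ, hζe⟩ := IsNFRootOn.exists_eq_mul hp isOpen_uhpSet hconv.isPreconnected hford
    hR₁ hR₂
  refine ⟨ζ, hζ, ?_⟩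
  funext τ
  have := hζe (τ : ℂ) τ.im_pos
  simpa [Function.comp_apply, ofComplex_apply] using this

end Fermat.Agent.S29.H942

end
end
-- ===== PACK-END S29/H942/HoloRoot.lean

-- ===== PACK-BEGIN S29/H942/KummerChar.lean
section



/-!
# The Kummer character of a holomorphic function with invariant `p`-th power

If `c : ℍ → ℂ` is holomorphic, `c ≠ 0`, and `c ^ p` is invariant under a subgroup
`Γ ≤ SL(2,ℤ)`, then `c (γ z) = κ γ * c z` for a unique character `κ : Γ →* ℂˣ` with `κ ^ p = 1`.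
-/

set_option autoImplicit false

noncomputable section

open Filter Topology Set Complex Function UpperHalfPlane ModularForm
open scoped Manifold MatrixGroups

namespace Fermat.Agent.S29.H942

lemma mdiff_comp_smul {c : ℍ → ℂ} (hc : MDiff c) (γ : SL(2, ℤ)) :
    MDiff (fun z : ℍ => c (γ • z)) := by
  have h := MDifferentiable.slash hc 0 (γ : GL (Fin 2) ℝ)
  have h2 : (c ∣[(0 : ℤ)] (γ : GL (Fin 2) ℝ)) = fun z : ℍ => c (γ • z) := by
    funext z
    rw [← SL_slash, SL_slash_apply]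
    simp
  rwa [h2] at h

lemma exists_ne_zero_of_ne_zero {c : ℍ → ℂ} (hc0 : c ≠ 0) : ∃ z : ℍ, c z ≠ 0 := by
  by_contra h
  simp only [not_exists, not_not] at h
  exact hc0 (funext h)

/-- **Kummer character.** -/
theorem exists_kummerChar (Γ : Subgroup SL(2, ℤ)) {c : ℍ → ℂ} (hc : MDiff c) (hc0 : c ≠ 0)
    {p : ℕ} (hp : p ≠ 0)
    (hinv : ∀ γ ∈ Γ, ∀ z : ℍ, c (γ • z) ^ p = c z ^ p) :
    ∃ κ : Γ →* ℂˣ, (∀ γ, κ γ ^ p = 1) ∧
      ∀ (γ : Γ) (z : ℍ), c ((γ : SL(2, ℤ)) • z) = ((κ γ : ℂˣ) : ℂ) * c z := by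
  obtain ⟨z₀, hz₀⟩ := exists_ne_zero_of_ne_zero hc0
  have h1 : ∀ γ : Γ, ∃ ζ : ℂ, ζ ^ p = 1 ∧
      (fun z : ℍ => c ((γ : SL(2, ℤ)) • z)) = fun z => ζ * c z := by
    intro γ
    refine holomorphic_root_unique hc (mdiff_comp_smul hc γ) hc0 hp ?_
    funext z
    simp only [Pi.pow_apply]
    exact (hinv γ γ.2 z).symm
  choose ζ hζ hζc using h1
  have hζ0 : ∀ γ, ζ γ ≠ 0 := by
    intro γ h0
    have := hζ γ
    rw [h0, zero_pow hp] at this
    exact zero_ne_one this
  have hζapp : ∀ (γ : Γ) (z : ℍ), c ((γ : SL(2, ℤ)) • z) = ζ γ * c z := fun γ z =>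
    congrFun (hζc γ) z
  have hone : ζ 1 = 1 := by
    have := hζapp 1 z₀
    simp only [Subgroup.coe_one, one_smul] at this
    have h2 : (ζ 1 - 1) * c z₀ = 0 := by rw [sub_mul, one_mul, ← this, sub_self]
    rcases mul_eq_zero.1 h2 with h | h
    · exact sub_eq_zero.1 h
    · exact absurd h hz₀
  have hmul : ∀ γ δ : Γ, ζ (γ * δ) = ζ γ * ζ δ := by
    intro γ δ
    have h2 := hζapp (γ * δ) z₀
    rw [Subgroup.coe_mul, mul_smul, hζapp γ, hζapp δ] at h2
    have h3 : (ζ (γ * δ) - ζ γ * ζ δ) * c z₀ = 0 := by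
      rw [sub_mul, ← h2]
      ring
    rcases mul_eq_zero.1 h3 with h | h
    · exact sub_eq_zero.1 h
    · exact absurd h hz₀
  refine ⟨{ toFun := fun γ => Units.mk0 (ζ γ) (hζ0 γ)
            map_one' := by
              apply Units.ext
              simpa using hone
            map_mul' := fun γ δ => by
              apply Units.ext
              simpa using hmul γ δ }, fun γ => ?_, fun γ z => ?_⟩
  · apply Units.ext
    simpa using hζ γ
  · simpa using hζapp γ z

end Fermat.Agent.S29.H942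

end
end
-- ===== PACK-END S29/H942/KummerChar.lean

-- ===== PACK-BEGIN S29/H452/MerGL.lean
section


/-!
# S29 / BR / NORM (helper452) — precomposition with Möbius maps on `MerH`

`precompGL g hg : holoRing ≃+* holoRing`, `f ↦ f ∘ (g • ·)` for `g ∈ GL₂(ℝ)` with `det g > 0`, and
its extension `merGL g hg : MerH ≃+* MerH` to `MerH = Frac holoRing`.
Rules: `merGL (g * h) = merGL h ∘ merGL g`, `merGL γ = (γ⁻¹ • ·)` for `γ ∈ SL(2,ℤ)`.
-/

set_option autoImplicit false

noncomputable section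

open UpperHalfPlane
open scoped MatrixGroups

namespace Fermat.Agent.S29.H452

open Fermat.Agent.S24.H624

theorem det_inv_pos {g : GL (Fin 2) ℝ} (hg : 0 < g.det.val) : 0 < (g⁻¹).det.val := by
  rw [map_inv, Units.val_inv_eq_inv_val]
  exact inv_pos.mpr hg

theorem det_mul_pos {g h : GL (Fin 2) ℝ} (hg : 0 < g.det.val) (hh : 0 < h.det.val) :
    0 < (g * h).det.val := by
  rw [map_mul, Units.val_mul]
  exact mul_pos hg hh

/-- Precomposition with the Möbius map of `g` as a ring endomorphism of `holoRing`. -/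
def precompGLHom (g : GL (Fin 2) ℝ) (hg : 0 < g.det.val) : holoRing →+* holoRing where
  toFun f := ⟨fun τ => (f : ℍ → ℂ) (g • τ), mdiff_comp_smul hg f.2⟩
  map_one' := rfl
  map_mul' _ _ := rfl
  map_zero' := rfl
  map_add' _ _ := rfl

@[simp] theorem precompGLHom_apply (g : GL (Fin 2) ℝ) (hg : 0 < g.det.val) (f : holoRing) (τ : ℍ) :
    ((precompGLHom g hg f : holoRing) : ℍ → ℂ) τ = (f : ℍ → ℂ) (g • τ) := rfl

theorem precompGLHom_mul (g h : GL (Fin 2) ℝ) (hg : 0 < g.det.val) (hh : 0 < h.det.val)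
    (f : holoRing) :
    precompGLHom (g * h) (det_mul_pos hg hh) f = precompGLHom h hh (precompGLHom g hg f) := by
  apply Subtype.ext
  funext τ
  simp [mul_smul]

theorem precompGLHom_one (f : holoRing) :
    precompGLHom 1 (by simp) f = f := by
  apply Subtype.ext
  funext τ
  simp

theorem precompGLHom_congr {g h : GL (Fin 2) ℝ} (e : g = h) (hg : 0 < g.det.val)
    (hh : 0 < h.det.val) : precompGLHom g hg = precompGLHom h hh := by
  subst e; rfl

theorem precompGLHom_inv_right (g : GL (Fin 2) ℝ) (hg : 0 < g.det.val) (f : holoRing) :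
    precompGLHom g hg (precompGLHom g⁻¹ (det_inv_pos hg) f) = f := by
  apply Subtype.ext
  funext τ
  simp

theorem precompGLHom_inv_left (g : GL (Fin 2) ℝ) (hg : 0 < g.det.val) (f : holoRing) :
    precompGLHom g⁻¹ (det_inv_pos hg) (precompGLHom g hg f) = f := by
  apply Subtype.ext
  funext τ
  simp

/-- Precomposition with the Möbius map of `g` as a ring automorphism of `holoRing`. -/
def precompGL (g : GL (Fin 2) ℝ) (hg : 0 < g.det.val) : holoRing ≃+* holoRing :=
  RingEquiv.ofRingHom (precompGLHom g hg) (precompGLHom g⁻¹ (det_inv_pos hg))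
    (RingHom.ext fun f => precompGLHom_inv_right g hg f)
    (RingHom.ext fun f => precompGLHom_inv_left g hg f)

@[simp] theorem precompGL_apply (g : GL (Fin 2) ℝ) (hg : 0 < g.det.val) (f : holoRing) (τ : ℍ) :
    ((precompGL g hg f : holoRing) : ℍ → ℂ) τ = (f : ℍ → ℂ) (g • τ) := rfl

/-- Precomposition with the Möbius map of `g` on meromorphic functions. -/
def merGL (g : GL (Fin 2) ℝ) (hg : 0 < g.det.val) : MerH ≃+* MerH :=
  IsFractionRing.ringEquivOfRingEquiv (precompGL g hg)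

@[simp] theorem merGL_algebraMap (g : GL (Fin 2) ℝ) (hg : 0 < g.det.val) (f : holoRing) :
    merGL g hg (algebraMap holoRing MerH f) = algebraMap holoRing MerH (precompGL g hg f) :=
  IsFractionRing.ringEquivOfRingEquiv_algebraMap _ f

/-- Two ring homs out of `MerH` agreeing on holomorphic functions are equal. -/
theorem merH_ringHom_ext {L : Type*} [Semiring L] {φ ψ : MerH →+* L}
    (h : ∀ f : holoRing, φ (algebraMap holoRing MerH f) = ψ (algebraMap holoRing MerH f)) :
    φ = ψ :=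
  IsLocalization.ringHom_ext (nonZeroDivisors holoRing) (RingHom.ext h)

theorem merGL_mul (g h : GL (Fin 2) ℝ) (hg : 0 < g.det.val) (hh : 0 < h.det.val) (F : MerH) :
    merGL (g * h) (det_mul_pos hg hh) F = merGL h hh (merGL g hg F) := by
  have : (merGL (g * h) (det_mul_pos hg hh) : MerH →+* MerH)
      = ((merGL h hh : MerH →+* MerH).comp (merGL g hg : MerH →+* MerH)) := by
    apply merH_ringHom_ext
    intro f
    simp only [RingHom.coe_coe, RingHom.comp_apply, merGL_algebraMap]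
    congr 1
    exact precompGLHom_mul g h hg hh f
  exact RingHom.congr_fun this F

theorem merGL_congr {g h : GL (Fin 2) ℝ} (e : g = h) (hg : 0 < g.det.val)
    (hh : 0 < h.det.val) : merGL g hg = merGL h hh := by
  subst e; rfl

/-- For `γ ∈ SL(2,ℤ)`, `merGL γ` is the action of `γ⁻¹`. -/
theorem merGL_SL (γ : SL(2, ℤ)) (F : MerH) :
    merGL (γ : GL (Fin 2) ℝ) (det_coe_SL_pos γ) F = γ⁻¹ • F := by
  have : (merGL (γ : GL (Fin 2) ℝ) (det_coe_SL_pos γ) : MerH →+* MerH)
      = (merSL γ⁻¹ : MerH →+* MerH) := by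
    apply merH_ringHom_ext
    intro f
    simp only [RingHom.coe_coe, merGL_algebraMap, merSL_apply, smul_algebraMap_MerH]
    congr 1
    apply Subtype.ext
    funext τ
    rw [smul_holoRing_apply, inv_inv]
    rfl
  exact RingHom.congr_fun this F

end Fermat.Agent.S29.H452

end

end
-- ===== PACK-END S29/H452/MerGL.lean

-- ===== PACK-BEGIN S24/Mod/H564HolBase.lean
section




/-!
# S24 / MOD — a concrete term of helper997's `HolBase N` (helper564)

`Hol` is the ring of holomorphic functions `f : ℍ → ℂ` such that every `f ∘ g`, `g ∈ SL(2,ℤ)`,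
has a convergent Laurent expansion in `z = exp (2πiτ/N)` (helper384's `expRing N`).  The
expansion map is helper384's `expInf N`, and `J d τ = J (dτ)`.

Inputs: an abstract `J : ℍ → ℂ`, holomorphic, `SL(2,ℤ)`-invariant, with `q`-expansion the
Prelude series `jq` — and at the end the concrete instance `J = E₄³/Δ` (helper264's `jFun`).
-/

set_option autoImplicit false

noncomputable section

open HahnSeries ModularCurve UpperHalfPlane Complex
open scoped Real MatrixGroups Manifold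

namespace Fermat.Agent.S24.H564

open Fermat.Agent.S24.H997

/-! ### Holomorphy of the substitutions -/

theorem mdiff_compSL (g : SL(2, ℤ)) {f : ℍ → ℂ} (hf : MDiff f) : MDiff (compSL g f) :=
  hf.comp (UpperHalfPlane.mdifferentiable_smul (g := (g : GL (Fin 2) ℝ)) (by simp))

theorem mdiff_comp_infAff {J : ℍ → ℂ} (hJ : MDiff J) {a d : ℕ} (ha : 0 < a) (hd : 0 < d)
    (b : ℤ) : MDiff (fun τ => J (infAff a b d τ)) := by
  rw [UpperHalfPlane.mdifferentiable_iff] at hJ ⊢
  have hmap : ∀ z ∈ {z : ℂ | 0 < z.im}, ((a : ℂ) * z + b) / d ∈ {z : ℂ | 0 < z.im} := by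
    intro z hz
    exact (infAff a b d ⟨z, hz⟩).im_pos.trans_eq (by rw [← UpperHalfPlane.coe_im,
      infAff_coe ha hd])
  have hdiff : DifferentiableOn ℂ (fun z : ℂ => ((a : ℂ) * z + b) / d) {z : ℂ | 0 < z.im} := by
    intro z _
    exact ((differentiableAt_id.const_mul _).add_const _).div_const _ |>.differentiableWithinAt
  have h2 : DifferentiableOn ℂ ((J ∘ ofComplex) ∘ fun z : ℂ => ((a : ℂ) * z + b) / d)
      {z : ℂ | 0 < z.im} := hJ.comp hdiff hmap
  refine h2.congr ?_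
  intro z hz
  simp only [Function.comp_apply]
  congr 1
  apply UpperHalfPlane.ext
  rw [infAff_coe ha hd, ofComplex_apply_of_im_pos hz, ofComplex_apply_of_im_pos (hmap z hz)]

/-! ### The ring `Hol` -/

/-- Holomorphic functions on `ℍ` all of whose `SL(2,ℤ)`-translates have a convergent Laurent
expansion in `exp (2πiτ/N)`. -/
def holSubring (N : ℕ) [NeZero N] : Subring (ℍ → ℂ) where
  carrier := {f | MDiff f ∧ ∀ g : SL(2, ℤ), compSL g f ∈ expRing N}
  mul_mem' := by
    rintro f h ⟨hf, hf'⟩ ⟨hh, hh'⟩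
    exact ⟨hf.mul hh, fun g => (expRing N).mul_mem (hf' g) (hh' g)⟩
  one_mem' := ⟨mdifferentiable_const, fun _ => (expRing N).one_mem⟩
  add_mem' := by
    rintro f h ⟨hf, hf'⟩ ⟨hh, hh'⟩
    exact ⟨hf.add hh, fun g => (expRing N).add_mem (hf' g) (hh' g)⟩
  zero_mem' := ⟨mdifferentiable_const, fun _ => (expRing N).zero_mem⟩
  neg_mem' := by
    rintro f ⟨hf, hf'⟩
    exact ⟨hf.neg, fun g => (expRing N).neg_mem (hf' g)⟩

variable {N : ℕ} [NeZero N]

theorem mem_holSubring {f : ℍ → ℂ} :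
    f ∈ holSubring N ↔ MDiff f ∧ ∀ g : SL(2, ℤ), compSL g f ∈ expRing N := Iff.rfl

theorem mdiff_of_mem_holSubring {f : ℍ → ℂ} (hf : f ∈ holSubring N) : MDiff f := hf.1

theorem holSubring_le_expRing : holSubring N ≤ expRing N := by
  intro f hf
  have := hf.2 1
  rwa [compSL_one] at this

theorem const_mem_holSubring (c : ℂ) : (fun _ : ℍ => c) ∈ holSubring N :=
  ⟨mdifferentiable_const, fun _ => (InfExp.const c).mem_expRing⟩

theorem compSL_mem_holSubring (g : SL(2, ℤ)) {f : ℍ → ℂ} (hf : f ∈ holSubring N) :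
    compSL g f ∈ holSubring N :=
  ⟨mdiff_compSL g hf.1, fun g' => by rw [← compSL_mul]; exact hf.2 _⟩

/-- The inclusion `Hol → expRing N`. -/
def holToExp (N : ℕ) [NeZero N] : holSubring N →+* expRing N :=
  Subring.inclusion holSubring_le_expRing

theorem holToExp_injective : Function.Injective (_root_.Fermat.Agent.S24.H564.holToExp N) :=
  Subring.inclusion_injective _

/-- The expansion at `i∞` in `z = exp (2πiτ/N)` on `Hol`. -/
def holQexp (N : ℕ) [NeZero N] : holSubring N →+* LaurentSeries ℂ :=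
  (expInf N).comp (_root_.Fermat.Agent.S24.H564.holToExp N)

theorem holQexp_injective : Function.Injective (holQexp N) :=
  (expInf_injective (N := N)).comp _root_.Fermat.Agent.S24.H564.holToExp_injective

theorem holQexp_spec (f : holSubring N) : InfExp N (f : ℍ → ℂ) (holQexp N f) :=
  expInf_spec (_root_.Fermat.Agent.S24.H564.holToExp N f)

theorem holQexp_eq {f : ℍ → ℂ} (hf : f ∈ holSubring N) {φ : LaurentSeries ℂ}
    (h : InfExp N f φ) : holQexp N ⟨f, hf⟩ = φ :=
  (holQexp_spec ⟨f, hf⟩).unique h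

theorem holQexp_const (c : ℂ) :
    holQexp N ⟨_, const_mem_holSubring c⟩ = HahnSeries.C c :=
  holQexp_eq _ (InfExp.const c)

/-! ### The functions `J d` -/

section Abstract

variable {J : ℍ → ℂ}

/-- `Γ₀(N)`-invariance of `τ ↦ J(dτ)` for `d ∣ N`. -/
theorem J_dil_invariant (hinv : ∀ (γ : SL(2, ℤ)) (τ : ℍ), J (γ • τ) = J τ) {d : ℕ}
    (hd : d ∣ N) {g : SL(2, ℤ)} (hg : g ∈ CongruenceSubgroup.Gamma0 N) (τ : ℍ) :
    J (infAff d 0 1 (g • τ)) = J (infAff d 0 1 τ) := by
  have hN : 0 < N := Nat.pos_of_ne_zero (NeZero.ne N)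
  have hd0 : 0 < d := Nat.pos_of_dvd_of_pos hd hN
  rw [CongruenceSubgroup.Gamma0_mem, ZMod.intCast_zmod_eq_zero_iff_dvd] at hg
  obtain ⟨c, hc⟩ : (d : ℤ) ∣ g 1 0 := (Int.natCast_dvd_natCast.mpr hd).trans hg
  have hdet := inf_sl_det g
  let g' : SL(2, ℤ) := ⟨!![g 0 0, (d : ℤ) * g 0 1; c, g 1 1], by
    rw [Matrix.det_fin_two_of]
    rw [hc] at hdet
    linear_combination hdet⟩
  have h := inf_aff_smul_eq (d := d) (a := d) (d' := 1) (b := 0) hd0 hd0 one_pos g g'
    (by simp [g']; ring) (by simp [g']) (by simp [g', hc]; ring) (by simp [g']) τ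
  rw [h, hinv]

variable (N) in
/-- **A concrete `HolBase N`** from an abstract `J`. -/
def holBase (J : ℍ → ℂ) (hol : MDiff J)
    (hinv : ∀ (γ : SL(2, ℤ)) (τ : ℍ), J (γ • τ) = J τ) (hexp : InfExp 1 J infJq) :
    HolBase N where
  Hol := holSubring N
  const_mem := const_mem_holSubring
  comp_mem g f hf := compSL_mem_holSubring g hf
  J d := fun τ => J (infAff d 0 1 τ)
  J_mem d hd :=
    ⟨mdiff_comp_infAff hol (Nat.pos_of_dvd_of_pos hd (Nat.pos_of_ne_zero (NeZero.ne N)))
        one_pos 0,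
      fun g => inf_J_mul_smul_mem_expRing hinv hexp hd g⟩
  J_one_inv g τ := by
    simp only [infAff_one_zero_one]
    exact hinv g τ
  J_inv d hd g hg τ := J_dil_invariant hinv hd hg τ
  J_distinct g h := by
    have := inf_distinct hinv hexp (N := N) g 1 (fun τ => by rw [one_smul]; exact h τ)
    simpa using this
  qexp := holQexp N
  qexp_injective := holQexp_injective
  qexp_const := holQexp_const
  qexp_J d hd k := by
    have hN : 0 < N := Nat.pos_of_ne_zero (NeZero.ne N)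
    have hd0 : 0 < d := Nat.pos_of_dvd_of_pos hd hN
    have : NeZero (d * N) := ⟨(Nat.mul_pos hd0 hN).ne'⟩
    have hE := inf_J_mul_exp hexp hd0 hN
    rw [holQexp_eq _ hE]
    have hcast : ((N * d : ℕ) : ℤ) = ((d * N : ℕ) : ℤ) := by rw [Nat.mul_comm]
    rw [hcast]
    split_ifs with hdvd
    · obtain ⟨m, rfl⟩ := hdvd
      rw [qExpand_coeff_mul, Int.mul_ediv_cancel_left _ (by exact_mod_cast NeZero.ne (d * N))]
      rfl
    · exact qExpand_coeff_of_not_dvd (d * N) _ hdvd

end Abstract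

/-! ### The shift `τ ↦ τ + 1` at the cusp -/

/-- The primitive `N`-th root of unity `exp (2πi/N)`. -/
def zetaInf (N : ℕ) : ℂ := Complex.exp (2 * π * Complex.I / N)

theorem isPrimitiveRoot_zetaInf (N : ℕ) [NeZero N] : IsPrimitiveRoot (zetaInf N) N :=
  Complex.isPrimitiveRoot_exp N (NeZero.ne N)

theorem T_smul_eq_infAff (τ : ℍ) : ModularGroup.T • τ = infAff 1 1 1 τ := by
  apply UpperHalfPlane.ext
  rw [UpperHalfPlane.modular_T_smul, infAff_coe one_pos one_pos, UpperHalfPlane.coe_vadd]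
  push_cast
  ring

/-- Coefficientwise description of the expansion of `h ∘ T`. -/
theorem holQexp_compSL_T {f : ℍ → ℂ} (hf : f ∈ holSubring N) (n : ℤ) :
    (holQexp N ⟨compSL ModularGroup.T f, compSL_mem_holSubring _ hf⟩).coeff n
      = zetaInf N ^ n * (holQexp N ⟨f, hf⟩).coeff n := by
  have h1 := (holQexp_spec (N := N) ⟨f, hf⟩).comp_translate 1
  have h2 : InfExp N (compSL ModularGroup.T f)
      (infTwist (infRoot 1 N) (holQexp N ⟨f, hf⟩)) := by
    refine h1.congr fun τ => ?_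
    simp only [compSL_apply, _root_.Fermat.Agent.S24.H564.T_smul_eq_infAff]
  rw [holQexp_eq _ h2, infTwist_coeff, infRoot_zpow_coe, mul_comm, zetaInf]
  simp

/-- The `inf_shift` field of helper997's `AnalyticCore` for `holBase`. -/
theorem holBase_inf_shift (J : ℍ → ℂ) (hol : MDiff J)
    (hinv : ∀ (γ : SL(2, ℤ)) (τ : ℍ), J (γ • τ) = J τ) (hexp : InfExp 1 J infJq)
    (h : (_root_.Fermat.Agent.S24.H564.holBase N J hol hinv hexp).Hol) (n : ℤ) :
    ((_root_.Fermat.Agent.S24.H564.holBase N J hol hinv hexp).qexp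
        ((_root_.Fermat.Agent.S24.H564.holBase N J hol hinv hexp).compH ModularGroup.T h)).coeff n
      = zetaInf N ^ n * ((_root_.Fermat.Agent.S24.H564.holBase N J hol hinv hexp).qexp h).coeff n :=
  holQexp_compSL_T h.2 n

/-! ### The concrete `J = E₄³/Δ` -/

theorem jqModC_complex_eq_infJq : ModularCurve.jqModC ℂ = infJq := by
  rw [← ModularCurve.map_jqModC (algebraMap ℚ ℂ), ModularCurve.jqModC_rat]
  rfl

/-- The `q`-expansion of `jFun = E₄³/Δ` is the Prelude series `jq` (helper264's bridge in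
helper384's language). -/
theorem infExp_jFun : InfExp 1 JFun.jFun infJq := by
  intro τ
  have h := JFun.hasSum_jFun τ
  rw [jqModC_complex_eq_infJq] at h
  simpa [infZ] using h

variable (N) in
/-- **The concrete `HolBase N`** for `J = E₄³/Δ`. -/
def holBaseJ : HolBase N :=
  _root_.Fermat.Agent.S24.H564.holBase N JFun.jFun JFun.jFun_mdifferentiable JFun.jFun_smul _root_.Fermat.Agent.S24.H564.infExp_jFun

theorem holBaseJ_Hol : (holBaseJ N).Hol = holSubring N := rfl

theorem holBaseJ_J (d : ℕ) (τ : ℍ) : (holBaseJ N).J d τ = JFun.jFun (infAff d 0 1 τ) := rfl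

theorem holBaseJ_J_one (τ : ℍ) : (holBaseJ N).J 1 τ = JFun.jFun τ := by
  rw [holBaseJ_J, infAff_one_zero_one]

theorem holBaseJ_qexp : (holBaseJ N).qexp = holQexp N := rfl

theorem holBaseJ_inf_shift (h : (holBaseJ N).Hol) (n : ℤ) :
    ((holBaseJ N).qexp ((holBaseJ N).compH ModularGroup.T h)).coeff n
      = zetaInf N ^ n * ((holBaseJ N).qexp h).coeff n :=
  holQexp_compSL_T h.2 n

end Fermat.Agent.S24.H564

end
end
-- ===== PACK-END S24/Mod/H564HolBase.lean

-- ===== PACK-BEGIN S20/Comb694/OrbitCounts.lean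
section




/-!
# Orbit counts of `S` and `S * T` on `SL(2,ℤ) ⧸ Gamma0 N`, and the genus identity

* `two_mul_card_orbits_S : 2 * #(Q / ⟨S⟩) = ψ(N) + ν₂(N)`
* `three_mul_card_orbits_ST : 3 * #(Q / ⟨S * T⟩) = ψ(N) + 2 * ν₃(N)`
* `genusFormula_eq_of_card_orbits_T` : the Euler-characteristic identity
  `genusFormula N = 1 + (μ - o₂ - o₃ - o∞) / 2`.
-/

set_option autoImplicit false

namespace Fermat.Agent.S20.Comb694

open Matrix MatrixGroups CongruenceSubgroup MulAction Subgroup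

/-- `-1` acts trivially on `SL(2,ℤ) ⧸ Γ₀(N)`. -/
lemma neg_one_smul_quotient (N : ℕ) (q : SL(2, ℤ) ⧸ Gamma0 N) : (-1 : SL(2, ℤ)) • q = q := by
  obtain ⟨g, rfl⟩ := QuotientGroup.mk_surjective q
  rw [smul_mk_eq_mk_iff]
  have h : ∀ i j, ((-1 : SL(2, ℤ)) * g) i j = - g i j := by
    intro i j
    rw [neg_mul, one_mul, Matrix.SpecialLinearGroup.coe_neg, Matrix.neg_apply]
  rw [h, h]
  push_cast
  ring

lemma S_pow_two : ModularGroup.S ^ 2 = (-1 : SL(2, ℤ)) := by
  apply Subtype.ext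
  rw [pow_two, Matrix.SpecialLinearGroup.coe_mul, ModularGroup.coe_S,
    Matrix.SpecialLinearGroup.coe_neg, Matrix.SpecialLinearGroup.coe_one]
  ext i j
  fin_cases i <;> fin_cases j <;> simp [Matrix.mul_apply, Fin.sum_univ_two]

lemma ST_pow_three : (ModularGroup.S * ModularGroup.T) ^ 3 = (-1 : SL(2, ℤ)) := by
  apply Subtype.ext
  rw [pow_succ, pow_two, Matrix.SpecialLinearGroup.coe_mul, Matrix.SpecialLinearGroup.coe_mul,
    coe_S_mul_T, Matrix.SpecialLinearGroup.coe_neg, Matrix.SpecialLinearGroup.coe_one]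
  ext i j
  fin_cases i <;> fin_cases j <;> simp [Matrix.mul_apply, Fin.sum_univ_two]

/-- `2 * #(S-orbits) = ψ(N) + ν₂(N)`. -/
theorem two_mul_card_orbits_S (N : ℕ) [NeZero N] :
    2 * Nat.card (orbitRel.Quotient (zpowers ModularGroup.S) (SL(2, ℤ) ⧸ Gamma0 N))
      = ModularCurve.dedekindPsi N + ModularCurve.nuTwo N := by
  have h := prime_mul_card_orbits (X := SL(2, ℤ) ⧸ Gamma0 N) ModularGroup.S 2 Nat.prime_two
    (fun x => by rw [S_pow_two]; exact neg_one_smul_quotient N x)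
  rw [card_quotient_Gamma0, card_fixedBy_S] at h
  exact h.trans (by norm_num)

/-- `3 * #(ST-orbits) = ψ(N) + 2 * ν₃(N)`. -/
theorem three_mul_card_orbits_ST (N : ℕ) [NeZero N] :
    3 * Nat.card (orbitRel.Quotient (zpowers (ModularGroup.S * ModularGroup.T))
        (SL(2, ℤ) ⧸ Gamma0 N))
      = ModularCurve.dedekindPsi N + 2 * ModularCurve.nuThree N := by
  have h := prime_mul_card_orbits (X := SL(2, ℤ) ⧸ Gamma0 N)
    (ModularGroup.S * ModularGroup.T) 3 Nat.prime_three
    (fun x => by rw [ST_pow_three]; exact neg_one_smul_quotient N x)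
  rw [card_quotient_Gamma0, card_fixedBy_ST] at h
  exact h.trans (by norm_num)

/-- The Euler-characteristic identity: with `μ = #Q`, `o₂`, `o₃`, `o∞` the numbers of orbits of
`S`, `S * T`, `T` on `Q = SL(2,ℤ) ⧸ Γ₀(N)`, one has `genusFormula N = 1 + (μ - o₂ - o₃ - o∞) / 2`,
provided `o∞ = cuspCount N`. -/
theorem genusFormula_eq_of_card_orbits_T (N : ℕ) [NeZero N]
    (hT : Nat.card (orbitRel.Quotient (zpowers ModularGroup.T) (SL(2, ℤ) ⧸ Gamma0 N))
      = ModularCurve.cuspCount N) :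
    ModularCurve.genusFormula N
      = 1 + ((Nat.card (SL(2, ℤ) ⧸ Gamma0 N) : ℚ)
          - (Nat.card (orbitRel.Quotient (zpowers ModularGroup.S) (SL(2, ℤ) ⧸ Gamma0 N)) : ℚ)
          - (Nat.card (orbitRel.Quotient (zpowers (ModularGroup.S * ModularGroup.T))
              (SL(2, ℤ) ⧸ Gamma0 N)) : ℚ)
          - (Nat.card (orbitRel.Quotient (zpowers ModularGroup.T)
              (SL(2, ℤ) ⧸ Gamma0 N)) : ℚ)) / 2 := by
  have h2 := two_mul_card_orbits_S N
  have h3 := three_mul_card_orbits_ST N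
  have h2' := congrArg (Nat.cast : ℕ → ℚ) h2
  have h3' := congrArg (Nat.cast : ℕ → ℚ) h3
  push_cast at h2' h3'
  rw [hT, card_quotient_Gamma0, ModularCurve.genusFormula]
  linear_combination (1 / 4 : ℚ) * h2' + (1 / 6 : ℚ) * h3'

/-- Orbit-count form used by dimension bounds: `μ + 2 - o₂ - o₃ - o∞ = 2 * genusFormula N`. -/
theorem two_mul_genusFormula_of_card_orbits_T (N : ℕ) [NeZero N]
    (hT : Nat.card (orbitRel.Quotient (zpowers ModularGroup.T) (SL(2, ℤ) ⧸ Gamma0 N))
      = ModularCurve.cuspCount N) :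
    2 * ModularCurve.genusFormula N
      + (Nat.card (orbitRel.Quotient (zpowers ModularGroup.S) (SL(2, ℤ) ⧸ Gamma0 N)) : ℚ)
      + (Nat.card (orbitRel.Quotient (zpowers (ModularGroup.S * ModularGroup.T))
          (SL(2, ℤ) ⧸ Gamma0 N)) : ℚ)
      + (Nat.card (orbitRel.Quotient (zpowers ModularGroup.T) (SL(2, ℤ) ⧸ Gamma0 N)) : ℚ)
      = (Nat.card (SL(2, ℤ) ⧸ Gamma0 N) : ℚ) + 2 := by
  rw [genusFormula_eq_of_card_orbits_T N hT]
  ring

end Fermat.Agent.S20.Comb694

end
-- ===== PACK-END S20/Comb694/OrbitCounts.lean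

-- ===== PACK-BEGIN S24/Count/H324Interface.lean
section




/-!
# S24 — COUNT interface, exact frozen shapes (helper324)

The four COUNT interface theorems of `Fermat/Agent/S24/Count.lean` (skeleton of helper984),
proved in the exact shapes `numOrbits (permOf N g)`, assembled from

* `Fermat.Agent.S20.Comb694` (helper694): index of `Γ₀(N)`, fixed points and orbit counts of
  `S` and `S * T`;
* `Fermat.Agent.S20.CuspCount360` (helper360): orbits of `T`.

The only new ingredient is the bridge between orbits of the cyclic group generated by the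
permutation `MulAction.toPerm g` and orbits of the cyclic group generated by `g`.
-/

set_option autoImplicit false

noncomputable section

open ModularCurve MulAction Subgroup
open scoped MatrixGroups

namespace Fermat.Agent.S24.H324

section Bridge

variable {G X : Type*} [Group G] [MulAction G X]

/-- The orbit relation of `⟨toPerm g⟩ ≤ Perm X` is the orbit relation of `⟨g⟩ ≤ G`. -/
theorem orbitRel_zpowers_toPerm (g : G) :
    orbitRel (zpowers (MulAction.toPerm g : Equiv.Perm X)) X = orbitRel (zpowers g) X := by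
  ext x y
  simp only [orbitRel_apply]
  constructor
  · rintro ⟨⟨π, hπ⟩, rfl⟩
    obtain ⟨k, rfl⟩ := Subgroup.mem_zpowers_iff.mp hπ
    refine ⟨⟨g ^ k, zpow_mem_zpowers g k⟩, ?_⟩
    have h : (MulAction.toPerm g : Equiv.Perm X) ^ k = MulAction.toPerm (g ^ k) :=
      (map_zpow (MulAction.toPermHom G X) g k).symm
    change g ^ k • y = ((MulAction.toPerm g : Equiv.Perm X) ^ k) y
    rw [h]
    rfl
  · rintro ⟨⟨h, hh⟩, rfl⟩
    obtain ⟨k, rfl⟩ := Subgroup.mem_zpowers_iff.mp hh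
    refine ⟨⟨(MulAction.toPerm g : Equiv.Perm X) ^ k, zpow_mem_zpowers _ k⟩, ?_⟩
    have h : (MulAction.toPerm g : Equiv.Perm X) ^ k = MulAction.toPerm (g ^ k) :=
      (map_zpow (MulAction.toPermHom G X) g k).symm
    change ((MulAction.toPerm g : Equiv.Perm X) ^ k) y = g ^ k • y
    rw [h]
    rfl

/-- `numOrbits (toPerm g)` is the number of orbits of the cyclic group generated by `g`. -/
theorem numOrbits_toPerm (g : G) :
    numOrbits (MulAction.toPerm g : Equiv.Perm X)
      = Nat.card (orbitRel.Quotient (zpowers g) X) := by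
  unfold numOrbits
  refine Nat.card_congr (Quotient.congr (Equiv.refl X) ?_)
  intro x y
  have h := orbitRel_zpowers_toPerm (X := X) g
  exact iff_of_eq (congrArg (fun s : Setoid X => s x y) h)

/-- `numOrbits` only depends on the cyclic group generated by the permutation. -/
theorem numOrbits_congr_zpowers {π π' : Equiv.Perm X} (h : zpowers π = zpowers π') :
    numOrbits π = numOrbits π' := by
  unfold numOrbits
  rw [h]

/-- A permutation and its inverse have the same number of orbits. -/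
theorem numOrbits_inv (π : Equiv.Perm X) : numOrbits π⁻¹ = numOrbits π :=
  numOrbits_congr_zpowers zpowers_inv

/-- `g⁻¹` and `g` have the same number of orbits. -/
theorem numOrbits_toPerm_inv (g : G) :
    numOrbits (MulAction.toPerm g⁻¹ : Equiv.Perm X)
      = numOrbits (MulAction.toPerm g : Equiv.Perm X) := by
  have h : (MulAction.toPerm g⁻¹ : Equiv.Perm X) = (MulAction.toPerm g : Equiv.Perm X)⁻¹ :=
    map_inv (MulAction.toPermHom G X) g
  rw [h, numOrbits_inv]

/-- Conjugate elements have the same number of orbits. -/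
theorem numOrbits_toPerm_conj (g h : G) :
    numOrbits (MulAction.toPerm (h * g * h⁻¹) : Equiv.Perm X)
      = numOrbits (MulAction.toPerm g : Equiv.Perm X) := by
  rw [numOrbits_toPerm, numOrbits_toPerm]
  refine Nat.card_congr (Quotient.congr (MulAction.toPerm h⁻¹) ?_)
  intro x y
  change x ∈ MulAction.orbit (zpowers (h * g * h⁻¹)) y ↔
    (h⁻¹ • x) ∈ MulAction.orbit (zpowers g) (h⁻¹ • y)
  constructor
  · rintro ⟨⟨u, hu⟩, rfl⟩
    obtain ⟨k, rfl⟩ := Subgroup.mem_zpowers_iff.mp hu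
    refine ⟨⟨g ^ k, zpow_mem_zpowers g k⟩, ?_⟩
    change g ^ k • h⁻¹ • y = h⁻¹ • ((h * g * h⁻¹) ^ k • y)
    have : (h * g * h⁻¹) ^ k = h * g ^ k * h⁻¹ := by
      rw [← conj_zpow]
    rw [this, smul_smul, smul_smul]
    congr 1
    group
  · rintro ⟨⟨u, hu⟩, hxy⟩
    obtain ⟨k, rfl⟩ := Subgroup.mem_zpowers_iff.mp hu
    refine ⟨⟨(h * g * h⁻¹) ^ k, zpow_mem_zpowers _ k⟩, ?_⟩
    change (h * g * h⁻¹) ^ k • y = x
    have hxy' : g ^ k • h⁻¹ • y = h⁻¹ • x := hxy
    have : (h * g * h⁻¹) ^ k = h * g ^ k * h⁻¹ := by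
      rw [← conj_zpow]
    rw [this, mul_smul, mul_smul, hxy', smul_inv_smul]

end Bridge

variable (N : ℕ)

theorem numOrbits_permOf (g : SL(2, ℤ)) :
    numOrbits (permOf N g)
      = Nat.card (orbitRel.Quotient (zpowers g) (SL(2, ℤ) ⧸ CongruenceSubgroup.Gamma0 N)) :=
  numOrbits_toPerm g

theorem card_XX : Nat.card (XX N) = dedekindPsi N :=
  Fermat.Agent.S20.Comb694.card_quotient_Gamma0 N

theorem numOrbits_permOf_inv (g : SL(2, ℤ)) :
    numOrbits (permOf N g⁻¹) = numOrbits (permOf N g) :=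
  numOrbits_toPerm_inv g

theorem numOrbits_permOf_conj (g h : SL(2, ℤ)) :
    numOrbits (permOf N (h * g * h⁻¹)) = numOrbits (permOf N g) :=
  numOrbits_toPerm_conj g h

variable [NeZero N]

theorem two_mul_numOrbits_S :
    2 * numOrbits (permOf N ModularGroup.S) = dedekindPsi N + nuTwo N := by
  rw [numOrbits_permOf]
  exact Fermat.Agent.S20.Comb694.two_mul_card_orbits_S N

theorem three_mul_numOrbits_ST :
    3 * numOrbits (permOf N (ModularGroup.S * ModularGroup.T))
      = dedekindPsi N + 2 * nuThree N := by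
  rw [numOrbits_permOf]
  exact Fermat.Agent.S20.Comb694.three_mul_card_orbits_ST N

theorem numOrbits_T : numOrbits (permOf N ModularGroup.T) = cuspCount N := by
  rw [numOrbits_permOf]
  exact Fermat.Agent.S20.CuspCount360.card_orbits_T N

end Fermat.Agent.S24.H324

end
end
-- ===== PACK-END S24/Count/H324Interface.lean

-- ===== PACK-BEGIN S24/Count.lean
section



/-!
# S24 — counting on `SL₂(ℤ)/Γ₀(N) ≅ ℙ¹(ℤ/N)`

INTERFACE FILE (statements frozen by helper984 @4630f4b), proofs filled in by helper324 from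
`Fermat.Agent.S24.H324` (which assembles helper694's `S20.Comb` and helper360's `CuspCount360`).
-/

set_option autoImplicit false

noncomputable section

open ModularCurve
open scoped MatrixGroups

namespace Fermat.Agent.S24

variable (N : ℕ) [NeZero N]

theorem card_XX : Nat.card (XX N) = dedekindPsi N :=
  H324.card_XX N

theorem two_mul_numOrbits_S :
    2 * numOrbits (permOf N ModularGroup.S) = dedekindPsi N + nuTwo N :=
  H324.two_mul_numOrbits_S N

theorem three_mul_numOrbits_ST :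
    3 * numOrbits (permOf N (ModularGroup.S * ModularGroup.T))
      = dedekindPsi N + 2 * nuThree N :=
  H324.three_mul_numOrbits_ST N

theorem numOrbits_T : numOrbits (permOf N ModularGroup.T) = cuspCount N :=
  H324.numOrbits_T N

end Fermat.Agent.S24

end
end
-- ===== PACK-END S24/Count.lean

-- ===== PACK-BEGIN S48/H428/NormGen.lean
section



/-!
# S48 / RES (Tower A1) — node A1-NORM, GENERIC part (helper428)

The hypothesis `NormId` of the raw Eichler–Shimura relation, with a diamond operator, for an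
ARBITRARY pair of function fields `F → F'` with `q`-expansions in `K((q))`:

  `Nm_α (β y) = V_ℓ y · det (secMat ℓ (δ y))`      (`= y(q^ℓ) · ∏_{b<ℓ} (δ y)(ζ^b q^{1/ℓ})`).

Inputs (everything else is proved here):
* `α β : F →+* F'` with `q`-expansions `cF' (α y) = cF y`, `cF' (β y) = V_ℓ (cF y)`;
* the degree bound `[F' : α F] ≤ ℓ + 1`;
* `ℓ` further embeddings `σ b : F' →+* Ω` (`b < ℓ`) into ANY field `Ω` receiving `K((u))` through
  `Ψ`, with `σ b ∘ α = Ψ ∘ V_ℓ ∘ cF` and `σ b (β y) = Ψ ((δ y)(ζ^b u))`;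
* one `y₀` such that `δ y₀` has a nonzero coefficient at an index prime to `ℓ` (e.g. `j`).

Main results
* `norm_eq_prod_of_embeddings` : pure field theory (`finrank ≤ #I` distinct embeddings ⟹ the norm
  is the product over them);
* `qExpand_det_secMat_tw` : `V_ℓ (det (secMat ℓ f)) = ∏_b f(ζ^b u)`;
* `normId_of_embeddings` : the generic NORM-ID with diamond;
* `normId_of_embeddings_coeff` : the same with the twist given coefficientwise.
-/

set_option autoImplicit false
set_option linter.style.haveILetI false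

noncomputable section

open ModularCurve Polynomial

namespace Fermat.Agent.S48.H428

open Fermat.Agent.S37

/-! ### Field theory: the norm as a product over sufficiently many embeddings -/

/-- If `F'/F` is finite of degree `≤ #I` (characteristic `0`) and `τ i : F' →+* Ω` (`i : I`) are
pairwise distinct embeddings into a field, all restricting to the same `ι` on `F`, then the norm
is the product over the `τ i`. -/
theorem norm_eq_prod_of_embeddings {F F' Ω I : Type*} [Field F] [Field F'] [Field Ω]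
    [CharZero F] [Algebra F F'] [FiniteDimensional F F'] [Fintype I]
    (hdeg : Module.finrank F F' ≤ Fintype.card I)
    (ι : F →+* Ω) (τ : I → F' →+* Ω) (hτ : ∀ i x, τ i (algebraMap F F' x) = ι x)
    (hinj : Function.Injective τ) (x : F') :
    ι (Algebra.norm F x) = ∏ i, τ i x := by
  classical
  let E := AlgebraicClosure Ω
  letI : Algebra F E := ((algebraMap Ω E).comp ι).toAlgebra
  have hFE : ∀ a : F, algebraMap F E a = algebraMap Ω E (ι a) := fun _ => rfl
  let τ' : I → F' →ₐ[F] E := fun i =>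
    { toRingHom := (algebraMap Ω E).comp (τ i)
      commutes' := fun a => by
        show algebraMap Ω E (τ i (algebraMap F F' a)) = algebraMap F E a
        rw [hτ, hFE] }
  have hτ'_apply : ∀ i z, τ' i z = algebraMap Ω E (τ i z) := fun _ _ => rfl
  have hinj' : Function.Injective τ' := by
    intro i j hij
    apply hinj
    ext z
    have := DFunLike.congr_fun hij z
    rw [hτ'_apply, hτ'_apply] at this
    exact (algebraMap Ω E).injective this
  haveI : Algebra.IsSeparable F F' := Algebra.IsAlgebraic.isSeparable_of_perfectField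
  have hcard : Fintype.card (F' →ₐ[F] E) = Module.finrank F F' := AlgHom.card F F' E
  have hbij : Function.Bijective τ' := by
    rw [Fintype.bijective_iff_injective_and_card]
    refine ⟨hinj', le_antisymm (Fintype.card_le_of_injective _ hinj') ?_⟩
    rw [hcard]
    exact hdeg
  have h := Algebra.norm_eq_prod_embeddings F E x
  rw [← hbij.prod_comp (fun σ : F' →ₐ[F] E => σ x)] at h
  simp only [hτ'_apply] at h
  rw [hFE, ← map_prod] at h
  exact (algebraMap Ω E).injective h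

/-! ### Formal Kronecker identities -/

section Formal

variable {R : Type*} [CommRing R]

/-- H400's section matrix is H340's Kronecker matrix. -/
theorem secMat_eq_kronMat_g (p : ℕ) [NeZero p] (f : LaurentSeries R) :
    H400.secMat p f = H340.kronMat p f := by
  ext i j n
  rw [H400.secMat_apply', H340.kronMat_apply, H400.secL_coeff, H340.sect_coeff]

/-- `V_ℓ (det (secMat ℓ f)) = ∏_{b<ℓ} f(ζ^b u)`. -/
theorem qExpand_det_secMat_tw [IsDomain R] (ℓ : ℕ) [NeZero ℓ] {ζ : R}
    (hζ : IsPrimitiveRoot ζ ℓ) (f : LaurentSeries R) :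
    qExpand R ℓ (H400.secMat ℓ f).det = ∏ b : Fin ℓ, H340.tw ℓ (ζ ^ (b : ℕ)) f := by
  have h := H340.kron_map_qExpand_eq_prod hζ f
  rw [H340.kron, ← secMat_eq_kronMat_g, ← Matrix.charpoly_map] at h
  have hdet : qExpand R ℓ (H400.secMat ℓ f).det
      = ((H400.secMat ℓ f).map (qExpand R ℓ)).det := by
    rw [RingHom.map_det, RingHom.mapMatrix_apply]
  rw [hdet, Matrix.det_eq_sign_charpoly_coeff, h, Fintype.card_fin,
    Polynomial.coeff_zero_eq_eval_zero, Polynomial.eval_prod]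
  simp only [Polynomial.eval_sub, Polynomial.eval_X, Polynomial.eval_C, zero_sub]
  rw [Finset.prod_neg, Finset.card_univ, Fintype.card_fin, ← mul_assoc, ← mul_pow]
  simp only [mul_neg, mul_one, neg_neg, one_pow, one_mul]

/-- the twists `f(ζ^b u)` of a series with a nonzero coefficient prime to `ℓ` are pairwise
distinct -/
theorem tw_pow_injective [IsDomain R] {ℓ : ℕ} [NeZero ℓ] (hℓ : ℓ.Prime) {ζ : R}
    (hζ : IsPrimitiveRoot ζ ℓ) {f : LaurentSeries R} {n : ℤ} (hn : ¬ (ℓ : ℤ) ∣ n)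
    (hf : f.coeff n ≠ 0) :
    Function.Injective fun b : Fin ℓ => H340.tw ℓ (ζ ^ (b : ℕ)) f := by
  intro b b' h
  have h1 := congrArg (fun s : LaurentSeries R => s.coeff n) h
  simp only [H340.tw_coeff] at h1
  have h2 : H340.zpw ℓ (ζ ^ (b : ℕ)) n = H340.zpw ℓ (ζ ^ (b' : ℕ)) n :=
    mul_right_cancel₀ hf h1
  unfold H340.zpw at h2
  rw [← pow_mul, ← pow_mul] at h2
  -- `ζ ^ (b r) = ζ ^ (b' r)` with `r = n mod ℓ ≠ 0`
  set r : ℕ := (n % (ℓ : ℤ)).toNat with hr
  have hℓ0 : (ℓ : ℤ) ≠ 0 := by exact_mod_cast NeZero.ne ℓ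
  have hr0 : 0 ≤ n % (ℓ : ℤ) := Int.emod_nonneg n hℓ0
  have hrℓ : n % (ℓ : ℤ) < ℓ := Int.emod_lt_of_pos n (by exact_mod_cast hℓ.pos)
  have hrne : n % (ℓ : ℤ) ≠ 0 := fun h0 => hn (Int.dvd_of_emod_eq_zero h0)
  have hrpos : 0 < r := by omega
  have hrlt : r < ℓ := by omega
  have hcop : Nat.Coprime ℓ r := Nat.coprime_of_lt_prime hrpos.ne' hrlt hℓ
  have hmod : (b : ℕ) * r ≡ (b' : ℕ) * r [MOD ℓ] := by
    have key : ∀ m : ℕ, ζ ^ (m % ℓ) = ζ ^ m := by
      intro m
      conv_rhs => rw [← Nat.div_add_mod m ℓ, pow_add, pow_mul, hζ.pow_eq_one, one_pow, one_mul]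
    have e1 : ζ ^ ((b : ℕ) * r % ℓ) = ζ ^ ((b' : ℕ) * r % ℓ) := by
      rw [key, key]
      exact h2
    exact hζ.pow_inj (Nat.mod_lt _ hℓ.pos) (Nat.mod_lt _ hℓ.pos) e1
  have hmod' : (b : ℕ) ≡ (b' : ℕ) [MOD ℓ] := Nat.ModEq.cancel_right_of_coprime hcop hmod
  apply Fin.ext
  have := Nat.ModEq.eq_of_lt_of_lt hmod' b.2 b'.2
  exact this

end Formal

/-! ### The generic NORM-ID with diamond -/

section Main

variable {K : Type*} [Field K] [CharZero K]

omit [CharZero K] in
theorem zpw_ne_zero_g {ℓ : ℕ} {ξ : K} (hξ : ξ ≠ 0) (n : ℤ) : H340.zpw ℓ ξ n ≠ 0 := by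
  unfold H340.zpw
  exact pow_ne_zero _ hξ

/-- **A1-NORM, generic form.**  `F → F'` function fields with `q`-expansions `cF`, `cF'` in
`K((q))` (`K` of characteristic `0`), `α` = inclusion, `β = V_ℓ` on `q`-expansions, `[F' : αF] ≤
ℓ + 1`, and `ℓ` embeddings `σ b : F' →+* Ω` over `Ψ ∘ V_ℓ ∘ cF` with
`σ b (β y) = Ψ ((δ y)(ζ^b u))`.  Then `Nm_α (β y) = V_ℓ y · det (secMat ℓ (δ y))`. -/
theorem normId_of_embeddings (ℓ : ℕ) [NeZero ℓ] (hℓ : ℓ.Prime)
    {F F' Ω : Type*} [Field F] [Field F'] [Field Ω]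
    (cF : F →+* LaurentSeries K) (cF' : F' →+* LaurentSeries K)
    (α β : F →+* F') (hα : ∀ y, cF' (α y) = cF y)
    (hβ : ∀ y, cF' (β y) = qExpand K ℓ (cF y))
    (hfin : letI := α.toAlgebra; Module.Finite F F')
    (hdeg : letI := α.toAlgebra; Module.finrank F F' ≤ ℓ + 1)
    (δ : F → F) {ζ : K} (hζ : IsPrimitiveRoot ζ ℓ)
    (Ψ : LaurentSeries K →+* Ω) (σ : Fin ℓ → F' →+* Ω)
    (hσα : ∀ b y, σ b (α y) = Ψ (qExpand K ℓ (cF y)))
    (hσβ : ∀ b y, σ b (β y) = Ψ (H340.tw ℓ (ζ ^ (b : ℕ)) (cF (δ y))))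
    (hdist : ∃ y₀ : F, ∃ n : ℤ, ¬ (ℓ : ℤ) ∣ n ∧ (cF (δ y₀)).coeff n ≠ 0) (y : F) :
    cF (letI := α.toAlgebra; Algebra.norm F (β y))
      = qExpand K ℓ (cF y) * (H400.secMat ℓ (cF (δ y))).det := by
  classical
  letI := α.toAlgebra
  haveI : Module.Finite F F' := hfin
  haveI : CharZero (LaurentSeries K) :=
    charZero_of_injective_algebraMap (algebraMap K (LaurentSeries K)).injective
  haveI : CharZero F := charZero_of_inj_zero fun n hn => by
    have h0 := congrArg cF hn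
    rw [map_natCast, map_zero] at h0
    exact_mod_cast h0
  have hζ0 : ζ ≠ 0 := hζ.ne_zero (NeZero.ne ℓ)
  let ι : F →+* Ω := (Ψ.comp (qExpand K ℓ)).comp cF
  let τ : Option (Fin ℓ) → F' →+* Ω := fun o => o.elim ((Ψ.comp (qExpand K ℓ)).comp cF') σ
  have hτ : ∀ i x, τ i (algebraMap F F' x) = ι x := by
    intro i x
    cases i with
    | none =>
        show Ψ (qExpand K ℓ (cF' (α x))) = Ψ (qExpand K ℓ (cF x))
        rw [hα]
    | some b => exact hσα b x
  have hinj : Function.Injective τ := by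
    obtain ⟨y₀, n, hn, hy₀⟩ := hdist
    have hns : ∀ b : Fin ℓ, τ none ≠ τ (some b) := by
      intro b h
      have h1 := DFunLike.congr_fun h (β y₀)
      have h2 : Ψ (qExpand K ℓ (cF' (β y₀))) = σ b (β y₀) := h1
      rw [hσβ, hβ] at h2
      have h3 := congrArg (fun s : LaurentSeries K => s.coeff n) (Ψ.injective h2)
      simp only [H340.tw_coeff] at h3
      rw [qExpand_coeff_of_not_dvd ℓ _ hn] at h3
      exact mul_ne_zero (zpw_ne_zero_g (pow_ne_zero _ hζ0) n) hy₀ h3.symm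
    intro i j hij
    cases i with
    | none =>
        cases j with
        | none => rfl
        | some b => exact absurd hij (hns b)
    | some b =>
        cases j with
        | none => exact absurd hij.symm (hns b)
        | some b' =>
            have h1 := DFunLike.congr_fun hij (β y₀)
            have h2 : σ b (β y₀) = σ b' (β y₀) := h1
            rw [hσβ, hσβ] at h2
            exact congrArg some (tw_pow_injective hℓ hζ hn hy₀ (Ψ.injective h2))
  have hcard : Module.finrank F F' ≤ Fintype.card (Option (Fin ℓ)) := by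
    rw [Fintype.card_option, Fintype.card_fin]
    exact hdeg
  have h := norm_eq_prod_of_embeddings hcard ι τ hτ hinj (β y)
  rw [Fintype.prod_option] at h
  have h1 : τ none (β y) = Ψ (qExpand K ℓ (qExpand K ℓ (cF y))) := by
    show Ψ (qExpand K ℓ (cF' (β y))) = _
    rw [hβ]
  have h2 : ∀ b : Fin ℓ, τ (some b) (β y) = Ψ (H340.tw ℓ (ζ ^ (b : ℕ)) (cF (δ y))) :=
    fun b => hσβ b y
  simp only [h2] at h
  rw [h1, ← map_prod, ← qExpand_det_secMat_tw ℓ hζ, ← map_mul, ← map_mul] at h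
  exact qExpand_injective (R := K) (N := ℓ) (Ψ.injective h)

end Main

end Fermat.Agent.S48.H428

end
end
-- ===== PACK-END S48/H428/NormGen.lean

-- ===== PACK-BEGIN S18/H107/Base.lean
section






/-!
# helper107 — S18 / M3-T : `BaseModel107` = `GoodModel` without the branch-set fields

`BaseModel107 Lc Ec Fc R V w x` consists of all fields of the frozen `Alg.GoodModel` (v4) except
`S_mem`, `S_distinct`, `S_unit`, `unramified`.  For `x = j` it holds for every `ℓ ∤ M`
(including `ℓ = 2, 3`, where `GoodModel … j {0, 1728}` is FALSE because `0 ≡ 1728`).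

Generic transfer lemmas `j ↦ t` for the easy fields: `transcendental`, `finite`, `separable`,
`t ∈ V` (integral closedness of `V` in `Fc`).
-/

set_option autoImplicit false

namespace Fermat.Agent.S18.H107

open Polynomial Fermat.Agent.S18.Alg

variable {Ω : Type*} [Field Ω]

/-- All fields of `Alg.GoodModel` that do not mention the branch set `S`. -/
structure BaseModel107 (Lc Ec Fc : Subfield Ω) (R V : Subring Ω) (w x : Ω) : Prop where
  charZero : CharZero Ω
  R_le : (R : Set Ω) ⊆ Ec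
  R_total : ∀ e ∈ Ec, e ∈ R ∨ e⁻¹ ∈ R
  w_mem : w ∈ R
  w_ne_zero : w ≠ 0
  w_inv_not_mem : w⁻¹ ∉ R
  w_gen : ∀ r ∈ R, r⁻¹ ∉ R → r * w⁻¹ ∈ R
  w_discrete : ∀ r ∈ R, r ≠ 0 → ∃ n : ℕ, r * (w⁻¹) ^ n ∈ R ∧ (r * (w⁻¹) ^ n)⁻¹ ∈ R
  residue_perfect : ∃ p : ℕ, p.Prime ∧ (p : Ω) * w⁻¹ ∈ R ∧
    ∀ r ∈ R, ∃ s ∈ R, (r - s ^ p) * w⁻¹ ∈ R
  E_le_L : Ec ≤ Lc
  E_le_F : Ec ≤ Fc
  L_algebraic : ∀ a ∈ Lc, IsAlgebraic Ec a
  L_algClosed : IsAlgClosed Lc
  E_closed_in_F : ∀ f ∈ Fc, IsAlgebraic Ec f → f ∈ Ec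
  compositum : Subfield.closure ((Fc : Set Ω) ∪ Lc) = ⊤
  x_mem : x ∈ Fc
  x_transcendental : Transcendental Lc x
  finite : ∃ s : Finset Ω, (s : Set Ω) ⊆ Fc ∧
    ∀ f ∈ Fc, f ∈ Submodule.span (ratField Ec x) (s : Set Ω)
  V_le : (V : Set Ω) ⊆ Fc
  V_total : ∀ f ∈ Fc, f ∈ V ∨ f⁻¹ ∈ V
  R_le_V : R ≤ V
  w_inv_not_mem_V : w⁻¹ ∉ V
  V_gen : ∀ f ∈ V, f⁻¹ ∉ V → f * w⁻¹ ∈ V
  x_mem_V : x ∈ V
  gauss : ∀ P : Polynomial Ω, (∀ i, P.coeff i ∈ R) → (∃ i, P.coeff i ≠ 0 ∧ (P.coeff i)⁻¹ ∈ R) →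
    (P.eval x)⁻¹ ∈ V
  qep_fin : ∀ b ∈ chart Fc R x, b * w⁻¹ ∈ V → b * w⁻¹ ∈ chart Fc R x
  qep_inf : ∀ b ∈ chart Fc R x⁻¹, b * w⁻¹ ∈ V → b * w⁻¹ ∈ chart Fc R x⁻¹
  separable : ∀ f ∈ V, ∃ P : Polynomial Ω, (∀ i, P.coeff i ∈ polyRing R x) ∧
    P.eval f * w⁻¹ ∈ V ∧ (Polynomial.derivative P).eval f ≠ 0 ∧
    ((Polynomial.derivative P).eval f)⁻¹ ∈ V

theorem baseModel_of_goodModel107 {Lc Ec Fc : Subfield Ω} {R V : Subring Ω} {w x : Ω}
    {S : Finset Ω} (h : GoodModel Lc Ec Fc R V w x S) : BaseModel107 Lc Ec Fc R V w x where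
  charZero := h.charZero
  R_le := h.R_le
  R_total := h.R_total
  w_mem := h.w_mem
  w_ne_zero := h.w_ne_zero
  w_inv_not_mem := h.w_inv_not_mem
  w_gen := h.w_gen
  w_discrete := h.w_discrete
  residue_perfect := h.residue_perfect
  E_le_L := h.E_le_L
  E_le_F := h.E_le_F
  L_algebraic := h.L_algebraic
  L_algClosed := h.L_algClosed
  E_closed_in_F := h.E_closed_in_F
  compositum := h.compositum
  x_mem := h.x_mem
  x_transcendental := h.x_transcendental
  finite := h.finite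
  V_le := h.V_le
  V_total := h.V_total
  R_le_V := h.R_le_V
  w_inv_not_mem_V := h.w_inv_not_mem_V
  V_gen := h.V_gen
  x_mem_V := h.x_mem_V
  gauss := h.gauss
  qep_fin := h.qep_fin
  qep_inf := h.qep_inf
  separable := h.separable

theorem BaseModel107.toGoodModel {Lc Ec Fc : Subfield Ω} {R V : Subring Ω} {w x : Ω}
    (h : BaseModel107 Lc Ec Fc R V w x) (S : Finset Ω) (S_mem : ∀ s ∈ S, s ∈ R)
    (S_distinct : ∀ s ∈ S, ∀ t ∈ S, s ≠ t → (s - t)⁻¹ ∈ R)
    (S_unit : ∀ s ∈ S, s ≠ 0 → s⁻¹ ∈ R)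
    (unramified : ∀ O : ValuationSubring Ω, (∀ a ∈ Lc, a ∈ O) → ∀ c ∈ Lc, c ∉ S →
      x - c ∈ O → (x - c)⁻¹ ∉ O → ∀ t ∈ O, t⁻¹ ∉ O → t * (x - c)⁻¹ ∈ O) :
    GoodModel Lc Ec Fc R V w x S where
  charZero := h.charZero
  R_le := h.R_le
  R_total := h.R_total
  w_mem := h.w_mem
  w_ne_zero := h.w_ne_zero
  w_inv_not_mem := h.w_inv_not_mem
  w_gen := h.w_gen
  w_discrete := h.w_discrete
  residue_perfect := h.residue_perfect
  E_le_L := h.E_le_L
  E_le_F := h.E_le_F
  L_algebraic := h.L_algebraic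
  L_algClosed := h.L_algClosed
  E_closed_in_F := h.E_closed_in_F
  compositum := h.compositum
  x_mem := h.x_mem
  x_transcendental := h.x_transcendental
  finite := h.finite
  V_le := h.V_le
  V_total := h.V_total
  R_le_V := h.R_le_V
  w_inv_not_mem_V := h.w_inv_not_mem_V
  V_gen := h.V_gen
  x_mem_V := h.x_mem_V
  gauss := h.gauss
  qep_fin := h.qep_fin
  qep_inf := h.qep_inf
  separable := h.separable
  S_mem := S_mem
  S_distinct := S_distinct
  S_unit := S_unit
  unramified := unramified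

/-- A subring `V` that is "total at `b`" contains `b` as soon as `b` is integral over a subring
of `V` (valuation rings are integrally closed). -/
theorem mem_of_isIntegral_of_total107 (V T : Subring Ω) (hT : T ≤ V) {b : Ω}
    (hb : b ∈ V ∨ b⁻¹ ∈ V) (hint : IsIntegral T b) : b ∈ V := by
  rcases hb with h | h
  · exact h
  obtain ⟨P, hP, hc, hPb⟩ := (isIntegral_iff_exists_poly107 T b).1 hint
  rcases eq_or_ne b 0 with rfl | hb0
  · exact V.zero_mem
  have hn : P.natDegree ≠ 0 := by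
    intro h0
    have h1 : P = 1 := by
      have := Polynomial.eq_C_of_natDegree_eq_zero h0
      rw [this, ← h0]
      have hl : P.coeff P.natDegree = 1 := hP
      rw [hl, map_one]
    rw [h1, eval_one] at hPb
    exact one_ne_zero hPb
  obtain ⟨n, hn'⟩ := Nat.exists_eq_succ_of_ne_zero hn
  rw [eval_eq_sum_range, hn', Finset.sum_range_succ] at hPb
  have hlead : P.coeff (n + 1) = 1 := by
    have : P.coeff P.natDegree = 1 := hP
    rwa [hn'] at this
  rw [hlead, one_mul] at hPb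
  -- `b = - ∑ i < n+1, a_i * (b⁻¹) ^ (n - i)`
  have key : b = -∑ i ∈ Finset.range (n + 1), P.coeff i * (b⁻¹) ^ (n - i) := by
    have h1 : b ^ (n + 1) = -∑ i ∈ Finset.range (n + 1), P.coeff i * b ^ i := by
      linear_combination hPb
    calc b = b ^ (n + 1) * (b⁻¹) ^ n := by
          rw [pow_succ, inv_pow]
          field_simp
      _ = (-∑ i ∈ Finset.range (n + 1), P.coeff i * b ^ i) * (b⁻¹) ^ n := by rw [h1]
      _ = -∑ i ∈ Finset.range (n + 1), P.coeff i * (b⁻¹) ^ (n - i) := by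
          rw [neg_mul, Finset.sum_mul]
          congr 1
          refine Finset.sum_congr rfl fun i hi => ?_
          have hi' : i ≤ n := Nat.lt_succ_iff.1 (Finset.mem_range.1 hi)
          have e : (b⁻¹) ^ n = (b⁻¹) ^ i * (b⁻¹) ^ (n - i) := by
            rw [← pow_add, Nat.add_sub_cancel' hi']
          rw [e, mul_assoc, ← mul_assoc (b ^ i), inv_pow b i,
            mul_inv_cancel₀ (pow_ne_zero _ hb0), one_mul]
  rw [key]
  refine V.neg_mem (V.sum_mem fun i _ => V.mul_mem (hT (hc i)) (V.pow_mem h _))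

theorem ratField_le107 {Ec : Subfield Ω} {x y : Ω} (h : x ∈ ratField Ec y) :
    ratField Ec x ≤ ratField Ec y := by
  refine Subfield.closure_le.2 ?_
  rintro c (hc | hc)
  · exact Subfield.subset_closure (Or.inl hc)
  · rw [Set.mem_singleton_iff] at hc
    rw [hc]
    exact h

theorem self_mem_ratField107 (Ec : Subfield Ω) (x : Ω) : x ∈ ratField Ec x :=
  Subfield.subset_closure (Or.inr rfl)

theorem natCast_mem_ratField107 (Ec : Subfield Ω) (x : Ω) (n : ℕ) [n.AtLeastTwo] :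
    (OfNat.ofNat n : Ω) ∈ ratField Ec x := ofNat_mem _ n

/-- Spans over a bigger subfield are bigger. -/
theorem span_mono_subfield107 {K₁ K₂ : Subfield Ω} (h : K₁ ≤ K₂) (s : Set Ω) {f : Ω}
    (hf : f ∈ Submodule.span K₁ s) : f ∈ Submodule.span K₂ s := by
  induction hf using Submodule.span_induction with
  | mem x hx => exact Submodule.subset_span hx
  | zero => exact Submodule.zero_mem _
  | add x y _ _ hx hy => exact Submodule.add_mem _ hx hy
  | smul a x _ hx =>
    have : a • x = (⟨(a : Ω), h a.2⟩ : K₂) • x := rfl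
    rw [this]
    exact Submodule.smul_mem _ _ hx

theorem finite_transfer107 {Ec Fc : Subfield Ω} {j t : Ω} (hj : j ∈ ratField Ec t)
    (h : ∃ s : Finset Ω, (s : Set Ω) ⊆ Fc ∧
      ∀ f ∈ Fc, f ∈ Submodule.span (ratField Ec j) (s : Set Ω)) :
    ∃ s : Finset Ω, (s : Set Ω) ⊆ Fc ∧
      ∀ f ∈ Fc, f ∈ Submodule.span (ratField Ec t) (s : Set Ω) := by
  obtain ⟨s, hs, hspan⟩ := h
  exact ⟨s, hs, fun f hf => span_mono_subfield107 (ratField_le107 hj) _ (hspan f hf)⟩

/-- `separable` passes from `j` to `t` when `j * e ∈ R[t]` for some `e ∈ R[t]` that is a unit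
of `V`. -/
theorem separable_transfer107 {R V : Subring Ω} {w j t e : Ω} (he : e ∈ polyRing R t)
    (hje : j * e ∈ polyRing R t) (heV : e ∈ V) (heV' : e⁻¹ ∈ V) (he0 : e ≠ 0)
    (h : ∀ f ∈ V, ∃ P : Polynomial Ω, (∀ i, P.coeff i ∈ polyRing R j) ∧
      P.eval f * w⁻¹ ∈ V ∧ (Polynomial.derivative P).eval f ≠ 0 ∧
      ((Polynomial.derivative P).eval f)⁻¹ ∈ V) :
    ∀ f ∈ V, ∃ P : Polynomial Ω, (∀ i, P.coeff i ∈ polyRing R t) ∧
      P.eval f * w⁻¹ ∈ V ∧ (Polynomial.derivative P).eval f ≠ 0 ∧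
      ((Polynomial.derivative P).eval f)⁻¹ ∈ V := by
  intro f hf
  obtain ⟨P, hc, hPf, hd0, hdV⟩ := h f hf
  have hex : ∀ i, ∃ d : ℕ, ∀ d', d ≤ d' → P.coeff i * e ^ d' ∈ polyRing R t := fun i =>
    exists_pow_mul_mem107 (le_polyRing107 R t) he hje (hc i)
  choose d hd using hex
  set D := (Finset.range (P.natDegree + 1)).sup d with hD
  have hDi : ∀ i, P.coeff i * e ^ D ∈ polyRing R t := by
    intro i
    by_cases hi : i ∈ Finset.range (P.natDegree + 1)
    · exact hd i D (Finset.le_sup hi)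
    · rw [Finset.mem_range, not_lt] at hi
      rw [coeff_eq_zero_of_natDegree_lt (by omega), zero_mul]
      exact Subring.zero_mem _
  refine ⟨C (e ^ D) * P, fun i => ?_, ?_, ?_, ?_⟩
  · rw [coeff_C_mul, mul_comm]
    exact hDi i
  · rw [eval_mul, eval_C, mul_assoc]
    exact V.mul_mem (V.pow_mem heV D) hPf
  · rw [derivative_C_mul, eval_mul, eval_C]
    exact mul_ne_zero (pow_ne_zero _ he0) hd0
  · rw [derivative_C_mul, eval_mul, eval_C, mul_inv, ← inv_pow]
    exact V.mul_mem (V.pow_mem heV' D) hdV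

end Fermat.Agent.S18.H107

end
-- ===== PACK-END S18/H107/Base.lean

-- ===== PACK-BEGIN S48/H588/StepU.lean
section



/-!
# Tower A1 (S48 / RES): one step of the tower of good models, RAMIFIED version (helper588)

`Step.lean` (`goodModel_step`) asks that `Ω'/Ω` be unramified at every place over `Lc`
(`StepData.unram`).  The steps of Tower A1 are ramified over the branch values
(`F₁(M)/F₀(M)`: elliptic points and some cusps), and for `ℓ = 2, 3` the base at the coordinate
`j` is only a `H107.BaseModel107` (= `Alg.GoodModel` without the four branch fields, which is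
what `S18/H24/NodeMod.lean : baseModel_j` provides for EVERY `ℓ ∤ M`).  This file provides

* `StepCore`          : `StepData` without the field `unram`;
* `baseModel_stepU`   : `BaseModel107` (base) + `StepCore` ⟹ `BaseModel107` (top)
                        (`qep_fin`, `qep_inf` climb by Galois descent, `H588.qep_of_galois`);
* `goodModel_stepU`   : `GoodModel` (base) + `StepCore` + `unramified` (top) ⟹ `GoodModel` (top);
* `liftModel`, `goodFamily_stepU` : the same for a whole `Alg.GoodFamily`, so that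
  `Alg.AlgMainStatement` (proved for all arguments in `S18/H94/NodeAlg.lean`) applies at the top;
* **node I-S28 of IGUSA1** (`IgusaBase`, `igusaBase_of_baseModel`): the fields
  `R_le R_total w_mem w_ne_zero w_inv_not_mem w_discrete qep0` of `H856.IgusaData` for
  `F0 = ι(Fc)`, `R = ι(R)`, `w = ι w`, `x = ι x`, from a `BaseModel107` of the base (S18
  `node_mod`) and ANY subring `V'` of the big field with `ι(V) ⊆ V'`, `(ι w)⁻¹ ∉ V'`
  (e.g. the Gauss ring of the full-level field, `ι = (q ↦ X^M)`).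
-/

set_option autoImplicit false

namespace Fermat.Agent.S48.H588

open Fermat.Agent.S18.Alg Fermat.Agent.S18.H107 Polynomial

variable {Ω Ω' : Type*} [Field Ω] [Field Ω']

/-- `StepData` without `unram` (see the module docstring). -/
structure StepCore (ι : Ω →+* Ω') (Lc Ec Fc : Subfield Ω) (R V : Subring Ω) (w x : Ω)
    (Fc' : Subfield Ω') (V' : Subring Ω') (G : Subgroup (Ω' ≃+* Ω')) : Prop where
  F_le : Fc.map ι ≤ Fc'
  compositum : Subfield.closure ((Fc' : Set Ω') ∪ ((Lc.map ι : Subfield Ω') : Set Ω')) = ⊤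
  E_closed : ∀ f ∈ Fc', IsAlgebraic (Ec.map ι) f → f ∈ Ec.map ι
  finite : ∃ s : Finset Ω', (s : Set Ω') ⊆ Fc' ∧
    ∀ f ∈ Fc', f ∈ Submodule.span (Fc.map ι) (s : Set Ω')
  V_le : (V' : Set Ω') ⊆ Fc'
  V_total : ∀ f ∈ Fc', f ∈ V' ∨ f⁻¹ ∈ V'
  V_le_V' : V.map ι ≤ V'
  w_inv_not_mem : (ι w)⁻¹ ∉ V'
  V_gen : ∀ f ∈ V', f⁻¹ ∉ V' → f * (ι w)⁻¹ ∈ V'
  separable : ∀ f ∈ V', ∃ P : Polynomial Ω', (∀ i, P.coeff i ∈ polyRing (R.map ι) (ι x)) ∧
    P.eval f * (ι w)⁻¹ ∈ V' ∧ (Polynomial.derivative P).eval f ≠ 0 ∧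
    ((Polynomial.derivative P).eval f)⁻¹ ∈ V'
  G_finite : Finite G
  G_fix : ∀ g ∈ G, ∀ a ∈ Fc.map ι, (g : Ω' ≃+* Ω') a = a
  G_F : ∀ g ∈ G, ∀ f ∈ Fc', (g : Ω' ≃+* Ω') f ∈ Fc'
  G_V : ∀ g ∈ G, ∀ f ∈ V', (g : Ω' ≃+* Ω') f ∈ V'
  G_inv : ∀ f ∈ Fc', (∀ g ∈ G, (g : Ω' ≃+* Ω') f = f) → f ∈ Fc.map ι

section StepU

variable {ι : Ω →+* Ω'} {Lc Ec Fc : Subfield Ω} {R V : Subring Ω} {w x : Ω} {S : Finset Ω}
  {Fc' : Subfield Ω'} {V' : Subring Ω'} {G : Subgroup (Ω' ≃+* Ω')}

theorem StepData.toCore (hs : StepData ι Lc Ec Fc R V w x Fc' V' G) :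
    StepCore ι Lc Ec Fc R V w x Fc' V' G :=
  { F_le := hs.F_le, compositum := hs.compositum, E_closed := hs.E_closed, finite := hs.finite,
    V_le := hs.V_le, V_total := hs.V_total, V_le_V' := hs.V_le_V',
    w_inv_not_mem := hs.w_inv_not_mem, V_gen := hs.V_gen, separable := hs.separable,
    G_finite := hs.G_finite, G_fix := hs.G_fix, G_F := hs.G_F, G_V := hs.G_V, G_inv := hs.G_inv }

theorem baseModel_R_le_F588 (h : BaseModel107 Lc Ec Fc R V w x) : ∀ r ∈ R, r ∈ Fc :=
  fun _ hr => h.E_le_F (h.R_le hr)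

theorem baseModel_w_mem_V588 (h : BaseModel107 Lc Ec Fc R V w x) : w ∈ V := h.R_le_V h.w_mem

/-- `V' ∩ ι(Fc) = ι(V)`. -/
theorem StepCore.mem_V_of_map_mem (hs : StepCore ι Lc Ec Fc R V w x Fc' V' G)
    (h : BaseModel107 Lc Ec Fc R V w x) {a : Ω} (haF : a ∈ Fc) (ha : ι a ∈ V') : a ∈ V := by
  rcases h.V_total a haF with h1 | h1
  · exact h1
  · by_contra hV
    have h2 : (a⁻¹)⁻¹ ∉ V := by rwa [inv_inv]
    have h3 := h.V_gen a⁻¹ h1 h2
    have ha0 : a ≠ 0 := fun h0 => hV (by rw [h0]; exact V.zero_mem)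
    have h4 : ι (a⁻¹ * w⁻¹) ∈ V' := hs.V_le_V' ⟨_, h3, rfl⟩
    have h5 : ι a * ι (a⁻¹ * w⁻¹) ∈ V' := V'.mul_mem ha h4
    have h6 : ι a * ι (a⁻¹ * w⁻¹) = (ι w)⁻¹ := by
      rw [← map_mul, ← mul_assoc, mul_inv_cancel₀ ha0, one_mul, map_inv₀]
    rw [h6] at h5
    exact hs.w_inv_not_mem h5

theorem baseModel_polyRing_le588 (h : BaseModel107 Lc Ec Fc R V w x) {x₀ : Ω} (hx₀ : x₀ ∈ Fc) :
    polyRing R x₀ ≤ Fc.toSubring := by
  unfold polyRing
  rw [Subring.closure_le]
  rintro z (hz | hz)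
  · exact (baseModel_R_le_F588 h) z hz
  · rw [Set.mem_singleton_iff] at hz
    rw [hz]; exact hx₀

/-- Iterating the `q`-expansion principle of the base. -/
theorem baseModel_mem_chart_of_mul_pow588 (h : BaseModel107 Lc Ec Fc R V w x) {x₀ : Ω}
    (hqep : ∀ b ∈ chart Fc R x₀, b * w⁻¹ ∈ V → b * w⁻¹ ∈ chart Fc R x₀)
    {a : Ω} (haV : a ∈ V) : ∀ j : ℕ, a * w ^ j ∈ chart Fc R x₀ → a ∈ chart Fc R x₀ := by
  intro j
  induction j with
  | zero => intro hj; simpa using hj
  | succ j ih =>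
    intro hj
    apply ih
    have h1 : a * w ^ (j + 1) * w⁻¹ = a * w ^ j := by
      rw [pow_succ, mul_assoc, mul_assoc, mul_inv_cancel₀ h.w_ne_zero, mul_one]
    have h2 : a * w ^ (j + 1) * w⁻¹ ∈ V := by
      rw [h1]; exact V.mul_mem haV (V.pow_mem (baseModel_w_mem_V588 h) j)
    have := hqep _ hj h2
    rwa [h1] at this

/-- **The `q`-expansion principle climbs the step** (for any coordinate `x₀ ∈ Fc`). -/
theorem StepCore.qep (hs : StepCore ι Lc Ec Fc R V w x Fc' V' G)
    (h : BaseModel107 Lc Ec Fc R V w x) {x₀ : Ω} (hx₀ : x₀ ∈ Fc)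
    (hqep : ∀ b ∈ chart Fc R x₀, b * w⁻¹ ∈ V → b * w⁻¹ ∈ chart Fc R x₀) :
    ∀ b ∈ chart Fc' (R.map ι) (ι x₀), b * (ι w)⁻¹ ∈ V' →
      b * (ι w)⁻¹ ∈ chart Fc' (R.map ι) (ι x₀) := by
  intro b hb hbV
  have hwF' : ι w ∈ Fc' := hs.F_le ⟨w, (baseModel_R_le_F588 h) w h.w_mem, rfl⟩
  refine ⟨Fc'.mul_mem hb.1 (Fc'.inv_mem hwF'), ?_⟩
  have _hfin := hs.G_finite
  have hP : polyRing (R.map ι) (ι x₀) ≤ (Fc.map ι).toSubring := by
    rw [← polyRing_map]
    intro z hz
    obtain ⟨a, ha, rfl⟩ := hz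
    exact ⟨a, baseModel_polyRing_le588 h hx₀ ha, rfl⟩
  refine qep_of_galois (polyRing (R.map ι) (ι x₀)) (Fc.map ι) Fc' V' (ι w)
    ((map_ne_zero ι).mpr h.w_ne_zero) hwF' G
    (fun g hg a ha => hs.G_fix g hg a (hP ha))
    (fun g hg => hs.G_fix g hg _ ⟨w, (baseModel_R_le_F588 h) w h.w_mem, rfl⟩)
    hs.G_F hs.G_V hs.G_inv ?_ hb.1 hb.2 hbV
  rintro c ⟨a, haF, rfl⟩ hcV ⟨j, hj⟩
  have haV : a ∈ V := hs.mem_V_of_map_mem h haF hcV
  have h1 : a * w ^ j ∈ chart Fc R x₀ := by
    refine mem_chart_of_map ι (Fc.mul_mem haF (Fc.pow_mem ((baseModel_R_le_F588 h) w h.w_mem) j)) ?_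
    rwa [map_mul, map_pow]
  have h2 := baseModel_mem_chart_of_mul_pow588 h hqep haV j h1
  rw [← polyRing_map]
  exact isIntegral_map_of_isIntegral ι h2.2

/-- The Gauss property climbs the step. -/
theorem StepCore.gauss (hs : StepCore ι Lc Ec Fc R V w x Fc' V' G)
    (h : BaseModel107 Lc Ec Fc R V w x) :
    ∀ P : Polynomial Ω', (∀ i, P.coeff i ∈ R.map ι) →
      (∃ i, P.coeff i ≠ 0 ∧ (P.coeff i)⁻¹ ∈ R.map ι) → (P.eval (ι x))⁻¹ ∈ V' := by
  intro P hP ⟨i, hi0, hi⟩
  have hlift : P ∈ Polynomial.lifts ι := by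
    rw [Polynomial.lifts_iff_coeff_lifts]
    intro n
    obtain ⟨a, _, ha⟩ := hP n
    exact ⟨a, ha⟩
  obtain ⟨Q, rfl⟩ := (Polynomial.mem_lifts _).mp hlift
  have hQ : ∀ n, Q.coeff n ∈ R := by
    intro n
    have := hP n
    rw [coeff_map] at this
    exact (mem_subring_map_iff ι).mp this
  have hQi : Q.coeff i ≠ 0 ∧ (Q.coeff i)⁻¹ ∈ R := by
    rw [coeff_map] at hi0 hi
    refine ⟨fun h0 => hi0 (by rw [h0, map_zero]), ?_⟩
    rw [← map_inv₀] at hi
    exact (mem_subring_map_iff ι).mp hi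
  have h1 := h.gauss Q hQ ⟨i, hQi⟩
  have h2 : eval₂ ι (ι x) Q = ι (eval x Q) := by
    have := Polynomial.hom_eval₂ Q (RingHom.id Ω) ι x
    rw [RingHom.comp_id, eval₂_id] at this
    exact this.symm
  rw [eval_map, h2, ← map_inv₀]
  exact hs.V_le_V' ⟨_, h1, rfl⟩

/-- Finiteness climbs the step. -/
theorem StepCore.finite' (hs : StepCore ι Lc Ec Fc R V w x Fc' V' G)
    (h : BaseModel107 Lc Ec Fc R V w x) :
    ∃ s : Finset Ω', (s : Set Ω') ⊆ Fc' ∧
      ∀ f ∈ Fc', f ∈ Submodule.span (ratField (Ec.map ι) (ι x)) (s : Set Ω') := by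
  classical
  obtain ⟨s₀, hs₀F, hs₀⟩ := h.finite
  obtain ⟨s₁, hs₁F, hs₁⟩ := hs.finite
  refine ⟨(s₀.image ι ×ˢ s₁).image (fun ab => ab.1 * ab.2), ?_, ?_⟩
  · intro z hz
    simp only [Finset.coe_image, Set.mem_image, Finset.mem_coe, Finset.mem_product,
      Finset.mem_image, Prod.exists] at hz
    obtain ⟨a, b, ⟨⟨a₀, ha₀, rfl⟩, hb⟩, rfl⟩ := hz
    exact Fc'.mul_mem (hs.F_le ⟨a₀, hs₀F ha₀, rfl⟩) (hs₁F hb)
  · intro f hf
    set K' := ratField (Ec.map ι) (ι x) with hK'
    set T : Submodule K' Ω' :=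
      Submodule.span K' (((s₀.image ι ×ˢ s₁).image (fun ab => ab.1 * ab.2) : Finset Ω') : Set Ω')
      with hT
    -- step 1: `ι a * b ∈ T` for `a ∈ Fc`, `b ∈ s₁`
    have step1 : ∀ a ∈ Fc, ∀ b ∈ s₁, ι a * b ∈ T := by
      intro a ha b hb
      have ha' := hs₀ a ha
      -- induct on the span membership of `a`
      refine Submodule.span_induction (p := fun a _ => ι a * b ∈ T) ?_ ?_ ?_ ?_ ha'
      · intro a₀ ha₀
        refine Submodule.subset_span ?_
        simp only [Finset.coe_image, Set.mem_image, Finset.mem_coe, Finset.mem_product,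
          Finset.mem_image, Prod.exists]
        exact ⟨ι a₀, b, ⟨⟨a₀, ha₀, rfl⟩, hb⟩, rfl⟩
      · simp
      · intro y z _ _ hy hz
        rw [map_add, add_mul]
        exact T.add_mem hy hz
      · intro c y _ hy
        have hc : ι (c : Ω) ∈ K' := by
          rw [hK', ← ratField_map]
          exact ⟨c, c.2, rfl⟩
        have : ι (c • y) * b = (⟨ι (c : Ω), hc⟩ : K') • (ι y * b) := by
          rw [Subfield.smul_def, Subfield.smul_def, smul_eq_mul, smul_eq_mul, map_mul, mul_assoc]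
        rw [this]
        exact T.smul_mem _ hy
    -- `T` is stable under multiplication by `ι(Fc)`
    have stab : ∀ a ∈ Fc, ∀ t ∈ T, ι a * t ∈ T := by
      intro a ha t ht
      refine Submodule.span_induction (p := fun t _ => ι a * t ∈ T) ?_ ?_ ?_ ?_ ht
      · intro z hz
        simp only [Finset.coe_image, Set.mem_image, Finset.mem_coe, Finset.mem_product,
          Finset.mem_image, Prod.exists] at hz
        obtain ⟨_, b, ⟨⟨a₀, ha₀, rfl⟩, hb⟩, rfl⟩ := hz
        have := step1 (a * a₀) (Fc.mul_mem ha (hs₀F ha₀)) b hb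
        rwa [map_mul, mul_assoc] at this
      · simp
      · intro y z _ _ hy hz
        rw [mul_add]
        exact T.add_mem hy hz
      · intro c y _ hy
        have : ι a * c • y = c • (ι a * y) := by
          rw [Subfield.smul_def, Subfield.smul_def, smul_eq_mul, smul_eq_mul]; ring
        rw [this]
        exact T.smul_mem _ hy
    -- step 2: `f ∈ span_{ι Fc} s₁`
    have hf' := hs₁ f hf
    refine Submodule.span_induction (p := fun f _ => f ∈ T) ?_ ?_ ?_ ?_ hf'
    · intro b hb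
      have := step1 1 Fc.one_mem b hb
      simpa using this
    · exact T.zero_mem
    · intro y z _ _ hy hz
      exact T.add_mem hy hz
    · intro c y _ hy
      obtain ⟨a, ha, hac⟩ := Subfield.mem_map.mp c.2
      have : c • y = ι a * y := by
        rw [Subfield.smul_def, smul_eq_mul, hac]
      rw [this]
      exact stab a ha y hy

/-- **ONE STEP of the tower of base models** (= good models without the branch fields; no
hypothesis on the ramification of `Ω'/Ω`). -/
theorem baseModel_stepU (h : BaseModel107 Lc Ec Fc R V w x)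
    (hs : StepCore ι Lc Ec Fc R V w x Fc' V' G) :
    BaseModel107 (Lc.map ι) (Ec.map ι) Fc' (R.map ι) V' (ι w) (ι x) where
  charZero := by
    have _h0 : CharZero Ω := h.charZero
    exact charZero_of_injective_ringHom ι.injective
  R_le := by
    rintro _ ⟨r, hr, rfl⟩
    exact ⟨r, h.R_le hr, rfl⟩
  R_total := by
    rintro _ ⟨e, he, rfl⟩
    rcases h.R_total e he with h1 | h1
    · exact Or.inl ⟨e, h1, rfl⟩
    · exact Or.inr ⟨e⁻¹, h1, map_inv₀ ι e⟩
  w_mem := ⟨w, h.w_mem, rfl⟩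
  w_ne_zero := (map_ne_zero ι).mpr h.w_ne_zero
  w_inv_not_mem := by
    rw [← map_inv₀, mem_subring_map_iff]
    exact h.w_inv_not_mem
  w_gen := by
    rintro _ ⟨r, hr, rfl⟩ hr'
    rw [← map_inv₀, mem_subring_map_iff] at hr'
    rw [← map_inv₀, ← map_mul, mem_subring_map_iff]
    exact h.w_gen r hr hr'
  w_discrete := by
    rintro _ ⟨r, hr, rfl⟩ hr0
    have hr0' : r ≠ 0 := fun h0 => hr0 (by rw [h0, map_zero])
    obtain ⟨n, hn1, hn2⟩ := h.w_discrete r hr hr0'
    refine ⟨n, ?_, ?_⟩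
    · rw [← map_inv₀, ← map_pow, ← map_mul, mem_subring_map_iff]
      exact hn1
    · rw [← map_inv₀, ← map_pow, ← map_mul, ← map_inv₀, mem_subring_map_iff]
      exact hn2
  residue_perfect := by
    obtain ⟨p, hp, hp1, hp2⟩ := h.residue_perfect
    refine ⟨p, hp, ?_, ?_⟩
    · rw [← map_natCast ι p, ← map_inv₀, ← map_mul, mem_subring_map_iff]
      exact hp1
    · rintro _ ⟨r, hr, rfl⟩
      obtain ⟨s, hs1, hs2⟩ := hp2 r hr
      refine ⟨ι s, ⟨s, hs1, rfl⟩, ?_⟩
      rw [← map_pow, ← map_sub, ← map_inv₀, ← map_mul, mem_subring_map_iff]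
      exact hs2
  E_le_L := by
    rintro _ ⟨e, he, rfl⟩
    exact ⟨e, h.E_le_L he, rfl⟩
  E_le_F := by
    rintro _ ⟨e, he, rfl⟩
    exact hs.F_le ⟨e, h.E_le_F he, rfl⟩
  L_algebraic := by
    rintro _ ⟨a, ha, rfl⟩
    exact isAlgebraic_map ι (h.L_algebraic a ha)
  L_algClosed := isAlgClosed_map ι h.L_algClosed
  E_closed_in_F := hs.E_closed
  compositum := hs.compositum
  x_mem := hs.F_le ⟨x, h.x_mem, rfl⟩
  x_transcendental := fun halg => h.x_transcendental (isAlgebraic_of_map ι halg)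
  finite := hs.finite' h
  V_le := hs.V_le
  V_total := hs.V_total
  R_le_V := by
    rintro _ ⟨r, hr, rfl⟩
    exact hs.V_le_V' ⟨r, h.R_le_V hr, rfl⟩
  w_inv_not_mem_V := hs.w_inv_not_mem
  V_gen := hs.V_gen
  x_mem_V := hs.V_le_V' ⟨x, h.x_mem_V, rfl⟩
  gauss := hs.gauss h
  qep_fin := hs.qep h h.x_mem h.qep_fin
  qep_inf := by
    have := hs.qep h (Fc.inv_mem h.x_mem) h.qep_inf
    rwa [map_inv₀] at this
  separable := hs.separable


/-- **ONE STEP of the tower of good models**, with `unramified` supplied directly at the top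
(for steps that are ramified over `Lc`, e.g. `F₁(M)/F₀(M)` or the full-level field). -/
theorem goodModel_stepU (h : GoodModel Lc Ec Fc R V w x S)
    (hs : StepCore ι Lc Ec Fc R V w x Fc' V' G)
    (hunr : ∀ O : ValuationSubring Ω', (∀ a ∈ Lc.map ι, a ∈ O) → ∀ c ∈ Lc.map ι,
      c ∉ S.map ⟨ι, ι.injective⟩ → ι x - c ∈ O → (ι x - c)⁻¹ ∉ O →
      ∀ t ∈ O, t⁻¹ ∉ O → t * (ι x - c)⁻¹ ∈ O) :
    GoodModel (Lc.map ι) (Ec.map ι) Fc' (R.map ι) V' (ι w) (ι x) (S.map ⟨ι, ι.injective⟩) := by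
  refine (baseModel_stepU (baseModel_of_goodModel107 h) hs).toGoodModel _ ?_ ?_ ?_ hunr
  · intro s hs'
    obtain ⟨s₀, hs₀, rfl⟩ := Finset.mem_map.mp hs'
    exact ⟨s₀, h.S_mem s₀ hs₀, rfl⟩
  · intro s hs' t ht' hst
    obtain ⟨s₀, hs₀, rfl⟩ := Finset.mem_map.mp hs'
    obtain ⟨t₀, ht₀, rfl⟩ := Finset.mem_map.mp ht'
    have hne : s₀ ≠ t₀ := fun he => hst (by rw [he])
    exact ⟨(s₀ - t₀)⁻¹, h.S_distinct s₀ hs₀ t₀ ht₀ hne, by
      simp [map_inv₀, map_sub]⟩
  · intro s hs' hs0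
    obtain ⟨s₀, hs₀, rfl⟩ := Finset.mem_map.mp hs'
    have hne : s₀ ≠ 0 := fun he => hs0 (by simp [he])
    exact ⟨s₀⁻¹, h.S_unit s₀ hs₀ hne, by simp [map_inv₀]⟩

end StepU

section Family

variable (ι : Ω →+* Ω')

/-- The lifted model: constants transported by `ι`, function field and Gauss ring given by `Φ`. -/
def liftModel (Φ : Model Ω → Subfield Ω' × Subring Ω') (p : Model Ω) : Model Ω' :=
  (p.1.map ι, (Φ p).1, p.2.2.1.map ι, (Φ p).2, ι p.2.2.2.2)

variable {ι}

/-- **ONE STEP for a directed family of good models.**  `Φ p = (Fc', V')` is the function field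
and the Gauss ring over the member `p`, monotone in `p`; each member satisfies `StepCore`
(with its own group `G p`); `unramified` is supplied at the top. -/
theorem goodFamily_stepU {Lc : Subfield Ω} {x : Ω} {S : Finset Ω} {𝓕 : Set (Model Ω)}
    (h : GoodFamily Lc x S 𝓕) (Φ : Model Ω → Subfield Ω' × Subring Ω')
    (G : Model Ω → Subgroup (Ω' ≃+* Ω'))
    (hs : ∀ p ∈ 𝓕, StepCore ι Lc p.1 p.2.1 p.2.2.1 p.2.2.2.1 p.2.2.2.2 x (Φ p).1 (Φ p).2 (G p))
    (hmono : ∀ p ∈ 𝓕, ∀ p' ∈ 𝓕, Model.le p p' → (Φ p).1 ≤ (Φ p').1 ∧ (Φ p).2 ≤ (Φ p').2)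
    (hunr : ∀ O : ValuationSubring Ω', (∀ a ∈ Lc.map ι, a ∈ O) → ∀ c ∈ Lc.map ι,
      c ∉ S.map ⟨ι, ι.injective⟩ → ι x - c ∈ O → (ι x - c)⁻¹ ∉ O →
      ∀ t ∈ O, t⁻¹ ∉ O → t * (ι x - c)⁻¹ ∈ O) :
    GoodFamily (Lc.map ι) (ι x) (S.map ⟨ι, ι.injective⟩) (liftModel ι Φ '' 𝓕) where
  good := by
    rintro _ ⟨p, hp, rfl⟩
    exact goodModel_stepU (h.good p hp) (hs p hp) hunr
  enlarge := by
    classical
    rintro _ ⟨p, hp, rfl⟩ T hT
    -- pull `T` back to `Lc`
    have hex : ∀ a ∈ T, ∃ a₀ ∈ Lc, ι a₀ = a := fun a ha => hT a ha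
    choose! f hf using hex
    obtain ⟨p', hp', hle, hmem⟩ := h.enlarge p hp (T.image f) (by
      intro a ha
      obtain ⟨b, hb, rfl⟩ := Finset.mem_image.mp ha
      exact (hf b hb).1)
    refine ⟨liftModel ι Φ p', ⟨p', hp', rfl⟩, ?_, ?_⟩
    · obtain ⟨h1, h2, h3, h4⟩ := hle
      obtain ⟨m1, m2⟩ := hmono p hp p' hp' ⟨h1, h2, h3, h4⟩
      refine ⟨?_, m1, ?_, m2⟩
      · rintro _ ⟨e, he, rfl⟩
        exact ⟨e, h1 he, rfl⟩
      · rintro _ ⟨e, he, rfl⟩
        exact ⟨e, h3 he, rfl⟩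
    · intro a ha
      refine ⟨f a, hmem _ (Finset.mem_image_of_mem f ha), (hf a ha).2⟩

end Family

/-! ### Node I-S28 of IGUSA1: the base fields of `H856.IgusaData` from S18 `node_mod` -/

section IgusaBase

variable {ι : Ω →+* Ω'} {Lc Ec Fc : Subfield Ω} {R V : Subring Ω} {w x : Ω}

/-- `V' ∩ ι(Fc) = ι(V)` for ANY subring `V' ⊇ ι(V)` with `(ι w)⁻¹ ∉ V'`. -/
theorem baseModel_mem_V_of_map_mem588 (h : BaseModel107 Lc Ec Fc R V w x) {V' : Subring Ω'}
    (hV : V.map ι ≤ V') (hw : (ι w)⁻¹ ∉ V') {a : Ω} (haF : a ∈ Fc) (ha : ι a ∈ V') : a ∈ V := by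
  rcases h.V_total a haF with h1 | h1
  · exact h1
  · by_contra hV0
    have h2 : (a⁻¹)⁻¹ ∉ V := by rwa [inv_inv]
    have h3 := h.V_gen a⁻¹ h1 h2
    have ha0 : a ≠ 0 := fun h0 => hV0 (by rw [h0]; exact V.zero_mem)
    have h4 : ι (a⁻¹ * w⁻¹) ∈ V' := hV ⟨_, h3, rfl⟩
    have h5 : ι a * ι (a⁻¹ * w⁻¹) ∈ V' := V'.mul_mem ha h4
    have h6 : ι a * ι (a⁻¹ * w⁻¹) = (ι w)⁻¹ := by
      rw [← map_mul, ← mul_assoc, mul_inv_cancel₀ ha0, one_mul, map_inv₀]
    rw [h6] at h5
    exact hw h5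

/-- **Transport of the `q`-expansion principle** along `ι` (any coordinate `x₀`). -/
theorem baseModel_qep_map588 (h : BaseModel107 Lc Ec Fc R V w x) {V' : Subring Ω'}
    (hV : V.map ι ≤ V') (hw : (ι w)⁻¹ ∉ V') {x₀ : Ω}
    (hqep : ∀ b ∈ chart Fc R x₀, b * w⁻¹ ∈ V → b * w⁻¹ ∈ chart Fc R x₀) :
    ∀ b ∈ chart (Fc.map ι) (R.map ι) (ι x₀), b * (ι w)⁻¹ ∈ V' →
      b * (ι w)⁻¹ ∈ chart (Fc.map ι) (R.map ι) (ι x₀) := by
  rintro _ ⟨⟨b, hbF, rfl⟩, hbint⟩ hbV
  have hwF : w ∈ Fc := baseModel_R_le_F588 h w h.w_mem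
  have hb : b ∈ chart Fc R x₀ := mem_chart_of_map ι hbF hbint
  have h1 : ι (b * w⁻¹) ∈ V' := by rwa [map_mul, map_inv₀]
  have h2 : b * w⁻¹ ∈ V :=
    baseModel_mem_V_of_map_mem588 h hV hw (Fc.mul_mem hbF (Fc.inv_mem hwF)) h1
  have h3 := chart_map ι (hqep b hb h2)
  rwa [map_mul, map_inv₀] at h3

/-- The fields of `H856.IgusaData` that come from the base (`Γ₀`-level) model. -/
structure IgusaBase (Ec F0 : Subfield Ω') (R V : Subring Ω') (w x : Ω') : Prop where
  R_le : ∀ r ∈ R, r ∈ Ec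
  R_total : ∀ e ∈ Ec, e ∈ R ∨ e⁻¹ ∈ R
  w_mem : w ∈ R
  w_ne_zero : w ≠ 0
  w_inv_not_mem : w⁻¹ ∉ R
  w_gen : ∀ r ∈ R, r⁻¹ ∉ R → r * w⁻¹ ∈ R
  w_discrete : ∀ r ∈ R, r ≠ 0 → ∃ n : ℕ, r * (w⁻¹) ^ n ∈ R ∧ (r * (w⁻¹) ^ n)⁻¹ ∈ R
  E_le_F0 : Ec ≤ F0
  x_mem_F0 : x ∈ F0
  x_transcendental : Transcendental R x
  R_le_V : R ≤ V
  x_mem_V : x ∈ V
  V_total_F0 : ∀ f ∈ F0, f ∈ V ∨ f⁻¹ ∈ V
  gauss : ∀ P : Polynomial Ω', (∀ i, P.coeff i ∈ R) → (∃ i, P.coeff i ≠ 0 ∧ (P.coeff i)⁻¹ ∈ R) →
    (P.eval x)⁻¹ ∈ V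
  qep0 : ∀ b ∈ chart F0 R x, b * w⁻¹ ∈ V → b * w⁻¹ ∈ chart F0 R x
  qep0_inf : ∀ b ∈ chart F0 R x⁻¹, b * w⁻¹ ∈ V → b * w⁻¹ ∈ chart F0 R x⁻¹

/-- `x` transcendental over `Lc` ⟹ `ι x` transcendental over (the subring) `ι(R)`. -/
theorem baseModel_transcendental_map588 (h : BaseModel107 Lc Ec Fc R V w x) :
    Transcendental (R.map ι) (ι x) := by
  intro halg
  apply h.x_transcendental
  apply isAlgebraic_of_map ι
  have hle : ∀ a : R.map ι, (a : Ω') ∈ Lc.map ι := by
    rintro ⟨_, r, hr, rfl⟩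
    exact ⟨r, h.E_le_L (h.R_le hr), rfl⟩
  let f : (R.map ι) →+* (Lc.map ι) :=
    { toFun := fun a => ⟨a, hle a⟩
      map_one' := rfl
      map_mul' := fun _ _ => rfl
      map_zero' := rfl
      map_add' := fun _ _ => rfl }
  have hf : Function.Injective f := by
    intro a b hab
    have := congrArg (fun c : Lc.map ι => (c : Ω')) hab
    exact Subtype.ext this
  have h1 := IsAlgebraic.ringHom_of_comp_eq (A := Ω') (B := Ω') f (RingHom.id Ω') halg hf
    (by ext; rfl)
  simpa using h1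

/-- **Node I-S28.**  The base fields of `H856.IgusaData` from a `BaseModel107` of the
`Γ₀`-level field (S18 `node_mod`, e.g. `S18.H24.baseModel_j` for the coordinate `j` and every
`ℓ ∤ M`), for ANY ring hom `ι` into the big field (e.g. `q ↦ X^M`) and ANY subring `V'` of the
big field with `ι(V) ⊆ V'` and `(ι w)⁻¹ ∉ V'` (e.g. the Gauss ring of the full-level field). -/
theorem igusaBase_of_baseModel (h : BaseModel107 Lc Ec Fc R V w x) (ι : Ω →+* Ω')
    {V' : Subring Ω'} (hV : V.map ι ≤ V') (hw : (ι w)⁻¹ ∉ V') :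
    IgusaBase (Ec.map ι) (Fc.map ι) (R.map ι) V' (ι w) (ι x) where
  R_le := by
    rintro _ ⟨r, hr, rfl⟩
    exact ⟨r, h.R_le hr, rfl⟩
  R_total := by
    rintro _ ⟨e, he, rfl⟩
    rcases h.R_total e he with h1 | h1
    · exact Or.inl ⟨e, h1, rfl⟩
    · exact Or.inr ⟨e⁻¹, h1, map_inv₀ ι e⟩
  w_mem := ⟨w, h.w_mem, rfl⟩
  w_ne_zero := (map_ne_zero ι).mpr h.w_ne_zero
  w_inv_not_mem := by
    rw [← map_inv₀, mem_subring_map_iff]
    exact h.w_inv_not_mem
  w_gen := by
    rintro _ ⟨r, hr, rfl⟩ hr'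
    rw [← map_inv₀, mem_subring_map_iff] at hr'
    rw [← map_inv₀, ← map_mul, mem_subring_map_iff]
    exact h.w_gen r hr hr'
  w_discrete := by
    rintro _ ⟨r, hr, rfl⟩ hr0
    have hr0' : r ≠ 0 := fun h0 => hr0 (by rw [h0, map_zero])
    obtain ⟨n, hn1, hn2⟩ := h.w_discrete r hr hr0'
    refine ⟨n, ?_, ?_⟩
    · rw [← map_inv₀, ← map_pow, ← map_mul, mem_subring_map_iff]
      exact hn1
    · rw [← map_inv₀, ← map_pow, ← map_mul, ← map_inv₀, mem_subring_map_iff]
      exact hn2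
  E_le_F0 := by
    rintro _ ⟨e, he, rfl⟩
    exact ⟨e, h.E_le_F he, rfl⟩
  x_mem_F0 := ⟨x, h.x_mem, rfl⟩
  x_transcendental := baseModel_transcendental_map588 h
  R_le_V := by
    rintro _ ⟨r, hr, rfl⟩
    exact hV ⟨r, h.R_le_V hr, rfl⟩
  x_mem_V := hV ⟨x, h.x_mem_V, rfl⟩
  V_total_F0 := by
    rintro _ ⟨f, hf, rfl⟩
    rcases h.V_total f hf with h1 | h1
    · exact Or.inl (hV ⟨f, h1, rfl⟩)
    · exact Or.inr (hV ⟨f⁻¹, h1, map_inv₀ ι f⟩)
  gauss := by
    intro P hP ⟨i, hi0, hi⟩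
    have hlift : P ∈ Polynomial.lifts ι := by
      rw [Polynomial.lifts_iff_coeff_lifts]
      intro n
      obtain ⟨a, _, ha⟩ := hP n
      exact ⟨a, ha⟩
    obtain ⟨Q, rfl⟩ := (Polynomial.mem_lifts _).mp hlift
    have hQ : ∀ n, Q.coeff n ∈ R := by
      intro n
      have := hP n
      rw [coeff_map] at this
      exact (mem_subring_map_iff ι).mp this
    have hQi : Q.coeff i ≠ 0 ∧ (Q.coeff i)⁻¹ ∈ R := by
      rw [coeff_map] at hi0 hi
      refine ⟨fun h0 => hi0 (by rw [h0, map_zero]), ?_⟩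
      rw [← map_inv₀] at hi
      exact (mem_subring_map_iff ι).mp hi
    have h1 := h.gauss Q hQ ⟨i, hQi⟩
    have h2 : eval₂ ι (ι x) Q = ι (eval x Q) := by
      have := Polynomial.hom_eval₂ Q (RingHom.id Ω) ι x
      rw [RingHom.comp_id, eval₂_id] at this
      exact this.symm
    rw [eval_map, h2, ← map_inv₀]
    exact hV ⟨_, h1, rfl⟩
  qep0 := baseModel_qep_map588 h hV hw h.qep_fin
  qep0_inf := by
    have := baseModel_qep_map588 h hV hw h.qep_inf
    rwa [map_inv₀] at this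

end IgusaBase

end Fermat.Agent.S48.H588

end
-- ===== PACK-END S48/H588/StepU.lean

-- ===== PACK-BEGIN S48/Red1/StepQ.lean
section


/-!
# S48 / RES (Tower A1), sub-tower A1-RED: one step of the tower of good models, `q`-expansion
principle SUPPLIED at the top (helper588)

`H588/StepU.lean` climbs a step `Ω → Ω'` with a finite group acting on `Ω'` (Galois descent of the
`q`-expansion principle).  For the `Γ₁`-fields the `q`-expansion principle comes from node IGUSA1
(`H856.IgusaData.qep_fin`, in the full-level field) and no group on `Ω'` is available.  This file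
is the group-free version:

* `StepQ`            : `StepCore` with the fields `G_*` replaced by `qep_fin`, `qep_inf`;
* `baseModel_stepQ`  : `BaseModel107` (base) + `StepQ` ⟹ `BaseModel107` (top);
* `goodModel_stepQ`  : `GoodModel` (base) + `StepQ` + `unramified` (top) ⟹ `GoodModel` (top);
* `goodFamily_restrict` : the members of a `GoodFamily` whose constant field contains a given
                       finite set of constants form a `GoodFamily`;
* `goodFamily_stepQ` : the same for a directed family.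
-/

set_option autoImplicit false

namespace Fermat.Agent.S48.Red1

open Fermat.Agent.S18.Alg Fermat.Agent.S18.H107 Fermat.Agent.S48.H588 Polynomial

variable {Ω Ω' : Type*} [Field Ω] [Field Ω']

/-- One step of the tower, with the `q`-expansion principle supplied at the top. -/
structure StepQ (ι : Ω →+* Ω') (Lc Ec Fc : Subfield Ω) (R V : Subring Ω) (w x : Ω)
    (Fc' : Subfield Ω') (V' : Subring Ω') : Prop where
  F_le : Fc.map ι ≤ Fc'
  compositum : Subfield.closure ((Fc' : Set Ω') ∪ ((Lc.map ι : Subfield Ω') : Set Ω')) = ⊤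
  E_closed : ∀ f ∈ Fc', IsAlgebraic (Ec.map ι) f → f ∈ Ec.map ι
  finite : ∃ s : Finset Ω', (s : Set Ω') ⊆ Fc' ∧
    ∀ f ∈ Fc', f ∈ Submodule.span (ratField (Ec.map ι) (ι x)) (s : Set Ω')
  V_le : (V' : Set Ω') ⊆ Fc'
  V_total : ∀ f ∈ Fc', f ∈ V' ∨ f⁻¹ ∈ V'
  V_le_V' : V.map ι ≤ V'
  w_inv_not_mem : (ι w)⁻¹ ∉ V'
  V_gen : ∀ f ∈ V', f⁻¹ ∉ V' → f * (ι w)⁻¹ ∈ V'
  separable : ∀ f ∈ V', ∃ P : Polynomial Ω', (∀ i, P.coeff i ∈ polyRing (R.map ι) (ι x)) ∧
    P.eval f * (ι w)⁻¹ ∈ V' ∧ (Polynomial.derivative P).eval f ≠ 0 ∧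
    ((Polynomial.derivative P).eval f)⁻¹ ∈ V'
  qep_fin : ∀ b ∈ chart Fc' (R.map ι) (ι x), b * (ι w)⁻¹ ∈ V' →
    b * (ι w)⁻¹ ∈ chart Fc' (R.map ι) (ι x)
  qep_inf : ∀ b ∈ chart Fc' (R.map ι) (ι x)⁻¹, b * (ι w)⁻¹ ∈ V' →
    b * (ι w)⁻¹ ∈ chart Fc' (R.map ι) (ι x)⁻¹

section Step

variable {ι : Ω →+* Ω'} {Lc Ec Fc : Subfield Ω} {R V : Subring Ω} {w x : Ω} {S : Finset Ω}
  {Fc' : Subfield Ω'} {V' : Subring Ω'}

/-- The Gauss property climbs the step. -/
theorem gauss_stepQ (h : BaseModel107 Lc Ec Fc R V w x) (hVV : V.map ι ≤ V') :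
    ∀ P : Polynomial Ω', (∀ i, P.coeff i ∈ R.map ι) →
      (∃ i, P.coeff i ≠ 0 ∧ (P.coeff i)⁻¹ ∈ R.map ι) → (P.eval (ι x))⁻¹ ∈ V' := by
  intro P hP ⟨i, hi0, hi⟩
  have hlift : P ∈ Polynomial.lifts ι := by
    rw [Polynomial.lifts_iff_coeff_lifts]
    intro n
    obtain ⟨a, _, ha⟩ := hP n
    exact ⟨a, ha⟩
  obtain ⟨Q, rfl⟩ := (Polynomial.mem_lifts _).mp hlift
  have hQ : ∀ n, Q.coeff n ∈ R := by
    intro n
    have := hP n
    rw [coeff_map] at this
    exact (mem_subring_map_iff ι).mp this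
  have hQi : Q.coeff i ≠ 0 ∧ (Q.coeff i)⁻¹ ∈ R := by
    rw [coeff_map] at hi0 hi
    refine ⟨fun h0 => hi0 (by rw [h0, map_zero]), ?_⟩
    rw [← map_inv₀] at hi
    exact (mem_subring_map_iff ι).mp hi
  have h1 := h.gauss Q hQ ⟨i, hQi⟩
  have h2 : eval₂ ι (ι x) Q = ι (eval x Q) := by
    have := Polynomial.hom_eval₂ Q (RingHom.id Ω) ι x
    rw [RingHom.comp_id, eval₂_id] at this
    exact this.symm
  rw [eval_map, h2, ← map_inv₀]
  exact hVV ⟨_, h1, rfl⟩

/-- Finiteness climbs a step (finite over `ι(Fc)` ⟹ finite over `E(x)`). -/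
theorem finite_stepQ (h : BaseModel107 Lc Ec Fc R V w x) (hFF : Fc.map ι ≤ Fc')
    (hfin : ∃ s : Finset Ω', (s : Set Ω') ⊆ Fc' ∧
      ∀ f ∈ Fc', f ∈ Submodule.span (Fc.map ι) (s : Set Ω')) :
    ∃ s : Finset Ω', (s : Set Ω') ⊆ Fc' ∧
      ∀ f ∈ Fc', f ∈ Submodule.span (ratField (Ec.map ι) (ι x)) (s : Set Ω') := by
  classical
  obtain ⟨s₀, hs₀F, hs₀⟩ := h.finite
  obtain ⟨s₁, hs₁F, hs₁⟩ := hfin
  refine ⟨(s₀.image ι ×ˢ s₁).image (fun ab => ab.1 * ab.2), ?_, ?_⟩
  · intro z hz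
    simp only [Finset.coe_image, Set.mem_image, Finset.mem_coe, Finset.mem_product,
      Finset.mem_image, Prod.exists] at hz
    obtain ⟨a, b, ⟨⟨a₀, ha₀, rfl⟩, hb⟩, rfl⟩ := hz
    exact Fc'.mul_mem (hFF ⟨a₀, hs₀F ha₀, rfl⟩) (hs₁F hb)
  · intro f hf
    set K' := ratField (Ec.map ι) (ι x) with hK'
    set T : Submodule K' Ω' :=
      Submodule.span K' (((s₀.image ι ×ˢ s₁).image (fun ab => ab.1 * ab.2) : Finset Ω') : Set Ω')
      with hT
    have step1 : ∀ a ∈ Fc, ∀ b ∈ s₁, ι a * b ∈ T := by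
      intro a ha b hb
      have ha' := hs₀ a ha
      refine Submodule.span_induction (p := fun a _ => ι a * b ∈ T) ?_ ?_ ?_ ?_ ha'
      · intro a₀ ha₀
        refine Submodule.subset_span ?_
        simp only [Finset.coe_image, Set.mem_image, Finset.mem_coe, Finset.mem_product,
          Finset.mem_image, Prod.exists]
        exact ⟨ι a₀, b, ⟨⟨a₀, ha₀, rfl⟩, hb⟩, rfl⟩
      · simp
      · intro y z _ _ hy hz
        rw [map_add, add_mul]
        exact T.add_mem hy hz
      · intro c y _ hy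
        have hc : ι (c : Ω) ∈ K' := by
          rw [hK', ← ratField_map]
          exact ⟨c, c.2, rfl⟩
        have : ι (c • y) * b = (⟨ι (c : Ω), hc⟩ : K') • (ι y * b) := by
          rw [Subfield.smul_def, Subfield.smul_def, smul_eq_mul, smul_eq_mul, map_mul, mul_assoc]
        rw [this]
        exact T.smul_mem _ hy
    have stab : ∀ a ∈ Fc, ∀ t ∈ T, ι a * t ∈ T := by
      intro a ha t ht
      refine Submodule.span_induction (p := fun t _ => ι a * t ∈ T) ?_ ?_ ?_ ?_ ht
      · intro z hz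
        simp only [Finset.coe_image, Set.mem_image, Finset.mem_coe, Finset.mem_product,
          Finset.mem_image, Prod.exists] at hz
        obtain ⟨_, b, ⟨⟨a₀, ha₀, rfl⟩, hb⟩, rfl⟩ := hz
        have := step1 (a * a₀) (Fc.mul_mem ha (hs₀F ha₀)) b hb
        rwa [map_mul, mul_assoc] at this
      · simp
      · intro y z _ _ hy hz
        rw [mul_add]
        exact T.add_mem hy hz
      · intro c y _ hy
        have : ι a * c • y = c • (ι a * y) := by
          rw [Subfield.smul_def, Subfield.smul_def, smul_eq_mul, smul_eq_mul]; ring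
        rw [this]
        exact T.smul_mem _ hy
    have hf' := hs₁ f hf
    refine Submodule.span_induction (p := fun f _ => f ∈ T) ?_ ?_ ?_ ?_ hf'
    · intro b hb
      have := step1 1 Fc.one_mem b hb
      simpa using this
    · exact T.zero_mem
    · intro y z _ _ hy hz
      exact T.add_mem hy hz
    · intro c y _ hy
      obtain ⟨a, ha, hac⟩ := Subfield.mem_map.mp c.2
      have : c • y = ι a * y := by
        rw [Subfield.smul_def, smul_eq_mul, hac]
      rw [this]
      exact stab a ha y hy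

/-- **ONE STEP of the tower of base models**, `q`-expansion principle supplied at the top. -/
theorem baseModel_stepQ (h : BaseModel107 Lc Ec Fc R V w x)
    (hs : StepQ ι Lc Ec Fc R V w x Fc' V') :
    BaseModel107 (Lc.map ι) (Ec.map ι) Fc' (R.map ι) V' (ι w) (ι x) where
  charZero := by
    have _h0 : CharZero Ω := h.charZero
    exact charZero_of_injective_ringHom ι.injective
  R_le := by
    rintro _ ⟨r, hr, rfl⟩
    exact ⟨r, h.R_le hr, rfl⟩
  R_total := by
    rintro _ ⟨e, he, rfl⟩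
    rcases h.R_total e he with h1 | h1
    · exact Or.inl ⟨e, h1, rfl⟩
    · exact Or.inr ⟨e⁻¹, h1, map_inv₀ ι e⟩
  w_mem := ⟨w, h.w_mem, rfl⟩
  w_ne_zero := (map_ne_zero ι).mpr h.w_ne_zero
  w_inv_not_mem := by
    rw [← map_inv₀, mem_subring_map_iff]
    exact h.w_inv_not_mem
  w_gen := by
    rintro _ ⟨r, hr, rfl⟩ hr'
    rw [← map_inv₀, mem_subring_map_iff] at hr'
    rw [← map_inv₀, ← map_mul, mem_subring_map_iff]
    exact h.w_gen r hr hr'
  w_discrete := by
    rintro _ ⟨r, hr, rfl⟩ hr0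
    have hr0' : r ≠ 0 := fun h0 => hr0 (by rw [h0, map_zero])
    obtain ⟨n, hn1, hn2⟩ := h.w_discrete r hr hr0'
    refine ⟨n, ?_, ?_⟩
    · rw [← map_inv₀, ← map_pow, ← map_mul, mem_subring_map_iff]
      exact hn1
    · rw [← map_inv₀, ← map_pow, ← map_mul, ← map_inv₀, mem_subring_map_iff]
      exact hn2
  residue_perfect := by
    obtain ⟨p, hp, hp1, hp2⟩ := h.residue_perfect
    refine ⟨p, hp, ?_, ?_⟩
    · rw [← map_natCast ι p, ← map_inv₀, ← map_mul, mem_subring_map_iff]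
      exact hp1
    · rintro _ ⟨r, hr, rfl⟩
      obtain ⟨s, hs1, hs2⟩ := hp2 r hr
      refine ⟨ι s, ⟨s, hs1, rfl⟩, ?_⟩
      rw [← map_pow, ← map_sub, ← map_inv₀, ← map_mul, mem_subring_map_iff]
      exact hs2
  E_le_L := by
    rintro _ ⟨e, he, rfl⟩
    exact ⟨e, h.E_le_L he, rfl⟩
  E_le_F := by
    rintro _ ⟨e, he, rfl⟩
    exact hs.F_le ⟨e, h.E_le_F he, rfl⟩
  L_algebraic := by
    rintro _ ⟨a, ha, rfl⟩
    exact isAlgebraic_map ι (h.L_algebraic a ha)
  L_algClosed := isAlgClosed_map ι h.L_algClosed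
  E_closed_in_F := hs.E_closed
  compositum := hs.compositum
  x_mem := hs.F_le ⟨x, h.x_mem, rfl⟩
  x_transcendental := fun halg => h.x_transcendental (isAlgebraic_of_map ι halg)
  finite := hs.finite
  V_le := hs.V_le
  V_total := hs.V_total
  R_le_V := by
    rintro _ ⟨r, hr, rfl⟩
    exact hs.V_le_V' ⟨r, h.R_le_V hr, rfl⟩
  w_inv_not_mem_V := hs.w_inv_not_mem
  V_gen := hs.V_gen
  x_mem_V := hs.V_le_V' ⟨x, h.x_mem_V, rfl⟩
  gauss := gauss_stepQ h hs.V_le_V'
  qep_fin := hs.qep_fin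
  qep_inf := hs.qep_inf
  separable := hs.separable

/-- **ONE STEP of the tower of good models**, `q`-expansion principle and `unramified` supplied
at the top. -/
theorem goodModel_stepQ (h : GoodModel Lc Ec Fc R V w x S)
    (hs : StepQ ι Lc Ec Fc R V w x Fc' V')
    (hunr : ∀ O : ValuationSubring Ω', (∀ a ∈ Lc.map ι, a ∈ O) → ∀ c ∈ Lc.map ι,
      c ∉ S.map ⟨ι, ι.injective⟩ → ι x - c ∈ O → (ι x - c)⁻¹ ∉ O →
      ∀ t ∈ O, t⁻¹ ∉ O → t * (ι x - c)⁻¹ ∈ O) :
    GoodModel (Lc.map ι) (Ec.map ι) Fc' (R.map ι) V' (ι w) (ι x) (S.map ⟨ι, ι.injective⟩) := by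
  refine (baseModel_stepQ (baseModel_of_goodModel107 h) hs).toGoodModel _ ?_ ?_ ?_ hunr
  · intro s hs'
    obtain ⟨s₀, hs₀, rfl⟩ := Finset.mem_map.mp hs'
    exact ⟨s₀, h.S_mem s₀ hs₀, rfl⟩
  · intro s hs' t ht' hst
    obtain ⟨s₀, hs₀, rfl⟩ := Finset.mem_map.mp hs'
    obtain ⟨t₀, ht₀, rfl⟩ := Finset.mem_map.mp ht'
    have hne : s₀ ≠ t₀ := fun he => hst (by rw [he])
    exact ⟨(s₀ - t₀)⁻¹, h.S_distinct s₀ hs₀ t₀ ht₀ hne, by
      simp [map_inv₀, map_sub]⟩
  · intro s hs' hs0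
    obtain ⟨s₀, hs₀, rfl⟩ := Finset.mem_map.mp hs'
    have hne : s₀ ≠ 0 := fun he => hs0 (by simp [he])
    exact ⟨s₀⁻¹, h.S_unit s₀ hs₀ hne, by simp [map_inv₀]⟩

end Step

section Family

/-- The members of a good family whose constant field contains a given finite set `T₀` of
constants form a good family. -/
theorem goodFamily_restrict {Lc : Subfield Ω} {x : Ω} {S : Finset Ω} {𝓕 : Set (Model Ω)}
    (h : GoodFamily Lc x S 𝓕) (T₀ : Finset Ω) (hT₀ : ∀ a ∈ T₀, a ∈ Lc) :
    GoodFamily Lc x S {p | p ∈ 𝓕 ∧ ∀ a ∈ T₀, a ∈ p.1} where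
  good := fun p hp => h.good p hp.1
  enlarge := by
    classical
    intro p hp T hT
    obtain ⟨p', hp', hle, hmem⟩ := h.enlarge p hp.1 (T ∪ T₀) (by
      intro a ha
      rcases Finset.mem_union.mp ha with ha | ha
      · exact hT a ha
      · exact hT₀ a ha)
    exact ⟨p', ⟨hp', fun a ha => hmem a (Finset.mem_union_right _ ha)⟩, hle,
      fun a ha => hmem a (Finset.mem_union_left _ ha)⟩

variable {ι : Ω →+* Ω'}

/-- **Lifting a directed family**: if every lifted member is a good model (for a coordinate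
`x'` and a branch set `S'` of the top field) and `Φ` is monotone, the lifted family is a good
family. -/
theorem goodFamily_lift {Lc : Subfield Ω} {x : Ω} {S : Finset Ω} {𝓕 : Set (Model Ω)}
    (h : GoodFamily Lc x S 𝓕) (Φ : Model Ω → Subfield Ω' × Subring Ω') (x' : Ω')
    (S' : Finset Ω')
    (hgood : ∀ p ∈ 𝓕, GoodModel (Lc.map ι) (p.1.map ι) (Φ p).1 (p.2.2.1.map ι) (Φ p).2
      (ι p.2.2.2.2) x' S')
    (hmono : ∀ p ∈ 𝓕, ∀ p' ∈ 𝓕, Model.le p p' → (Φ p).1 ≤ (Φ p').1 ∧ (Φ p).2 ≤ (Φ p').2) :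
    GoodFamily (Lc.map ι) x' S' (liftModel ι Φ '' 𝓕) where
  good := by
    rintro _ ⟨p, hp, rfl⟩
    exact hgood p hp
  enlarge := by
    classical
    rintro _ ⟨p, hp, rfl⟩ T hT
    have hex : ∀ a ∈ T, ∃ a₀ ∈ Lc, ι a₀ = a := fun a ha => hT a ha
    choose! f hf using hex
    obtain ⟨p', hp', hle, hmem⟩ := h.enlarge p hp (T.image f) (by
      intro a ha
      obtain ⟨b, hb, rfl⟩ := Finset.mem_image.mp ha
      exact (hf b hb).1)
    refine ⟨liftModel ι Φ p', ⟨p', hp', rfl⟩, ?_, ?_⟩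
    · obtain ⟨h1, h2, h3, h4⟩ := hle
      obtain ⟨m1, m2⟩ := hmono p hp p' hp' ⟨h1, h2, h3, h4⟩
      refine ⟨?_, m1, ?_, m2⟩
      · rintro _ ⟨e, he, rfl⟩
        exact ⟨e, h1 he, rfl⟩
      · rintro _ ⟨e, he, rfl⟩
        exact ⟨e, h3 he, rfl⟩
    · intro a ha
      refine ⟨f a, hmem _ (Finset.mem_image_of_mem f ha), (hf a ha).2⟩

/-- **ONE STEP for a directed family of good models**, `q`-expansion principle and `unramified`
supplied at the top.  `Φ p = (Fc', V')` is the function field and the Gauss ring over the member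
`p`, monotone in `p`. -/
theorem goodFamily_stepQ {Lc : Subfield Ω} {x : Ω} {S : Finset Ω} {𝓕 : Set (Model Ω)}
    (h : GoodFamily Lc x S 𝓕) (Φ : Model Ω → Subfield Ω' × Subring Ω')
    (hs : ∀ p ∈ 𝓕, StepQ ι Lc p.1 p.2.1 p.2.2.1 p.2.2.2.1 p.2.2.2.2 x (Φ p).1 (Φ p).2)
    (hmono : ∀ p ∈ 𝓕, ∀ p' ∈ 𝓕, Model.le p p' → (Φ p).1 ≤ (Φ p').1 ∧ (Φ p).2 ≤ (Φ p').2)
    (hunr : ∀ O : ValuationSubring Ω', (∀ a ∈ Lc.map ι, a ∈ O) → ∀ c ∈ Lc.map ι,
      c ∉ S.map ⟨ι, ι.injective⟩ → ι x - c ∈ O → (ι x - c)⁻¹ ∉ O →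
      ∀ t ∈ O, t⁻¹ ∉ O → t * (ι x - c)⁻¹ ∈ O) :
    GoodFamily (Lc.map ι) (ι x) (S.map ⟨ι, ι.injective⟩) (liftModel ι Φ '' 𝓕) :=
  goodFamily_lift h Φ _ _ (fun p hp => goodModel_stepQ (h.good p hp) (hs p hp) hunr) hmono

end Family

end Fermat.Agent.S48.Red1

end
-- ===== PACK-END S48/Red1/StepQ.lean

-- ===== PACK-BEGIN S18/H456/ModFields.lean
section


/-!
# S18 / MOD assembly (helper456): the fields `compositum`, `E_closed_in_F`, `x_mem`,
`x_transcendental` of `Alg.GoodModel` for the concrete objects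
-/

set_option autoImplicit false

noncomputable section

namespace Fermat.Agent.S18.H456

open ModularCurve AlgebraicCurve HahnSeries Fermat.Agent.S18 Fermat.Agent.S18.Mod

/-! ### Algebraic Laurent series are constant -/

section LaurentConst

variable {K : Type*} [Field K]

/-- A Laurent series over a field `K` which is algebraic over `K` is constant. -/
theorem laurent_const_of_isAlgebraic (f : LaurentSeries K) (hf : IsAlgebraic K f) :
    ∃ c : K, f = algebraMap K (LaurentSeries K) c := by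
  have key : ∀ g : LaurentSeries K, IsAlgebraic K g →
      ∃ y : PowerSeries K, algebraMap (PowerSeries K) (LaurentSeries K) y = g := by
    intro g hg
    obtain ⟨p, hpm, hp⟩ := hg.isIntegral
    have h2 : IsIntegral (PowerSeries K) g := by
      refine ⟨p.map (PowerSeries.C (R := K)), hpm.map _, ?_⟩
      rw [Polynomial.eval₂_map]
      exact hp
    exact IsIntegrallyClosed.isIntegral_iff.mp h2
  obtain ⟨y, hy⟩ := key f hf
  set c₀ := PowerSeries.constantCoeff y with hc₀
  by_cases hg : y - PowerSeries.C c₀ = 0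
  · refine ⟨c₀, ?_⟩
    rw [← hy, sub_eq_zero.mp hg]
    rfl
  · exfalso
    have hg' : algebraMap (PowerSeries K) (LaurentSeries K) (y - PowerSeries.C c₀) ≠ 0 := by
      intro h
      exact hg ((injective_iff_map_eq_zero _).1
        (IsFractionRing.injective (PowerSeries K) (LaurentSeries K)) _ h)
    have halg : IsAlgebraic K (algebraMap (PowerSeries K) (LaurentSeries K)
        (y - PowerSeries.C c₀)) := by
      rw [map_sub, hy]
      refine hf.sub ?_
      have : algebraMap (PowerSeries K) (LaurentSeries K) (PowerSeries.C c₀) =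
          algebraMap K (LaurentSeries K) c₀ := rfl
      rw [this]
      exact isAlgebraic_algebraMap c₀
    obtain ⟨z, hz⟩ := key _ halg.inv
    have h1 : algebraMap (PowerSeries K) (LaurentSeries K) ((y - PowerSeries.C c₀) * z) =
        algebraMap (PowerSeries K) (LaurentSeries K) 1 := by
      rw [map_mul, hz, map_one, mul_inv_cancel₀ hg']
    have h2 := IsFractionRing.injective (PowerSeries K) (LaurentSeries K) h1
    have h3 := congrArg (PowerSeries.constantCoeff (R := K)) h2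
    rw [map_mul, map_sub, PowerSeries.constantCoeff_C, ← hc₀, sub_self, zero_mul, map_one] at h3
    exact zero_ne_one h3

end LaurentConst

variable (M : ℕ) (A : ValuationSubring Qb) (E : IntermediateField ℚ Qb)

/-! ### Coefficients of elements of `Fc` lie in `E` -/

/-- The subfield of `Q̄((q))` of series with coefficients in `E`. -/
def coeffField : Subfield (LaurentSeries Qb) :=
  (coeffMap (algebraMap E Qb)).fieldRange

theorem mem_coeffField_iff {g : LaurentSeries Qb} :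
    g ∈ coeffField E ↔ ∃ h : LaurentSeries E, coeffMap (algebraMap E Qb) h = g := Iff.rfl

theorem coeff_mem_of_mem_coeffField {g : LaurentSeries Qb} (hg : g ∈ coeffField E) (n : ℤ) :
    g.coeff n ∈ E := by
  obtain ⟨h, rfl⟩ := hg
  rw [coeffMap_coeff]
  exact (h.coeff n).2

theorem val_cst (c : Qb) : ((cst M c : Om M) : LaurentSeries Qb) =
    HahnSeries.single 0 c := by
  show algebraMap Qb (LaurentSeries Qb) c = _
  exact algebraMap_laurentSeries_eq_single Qb c

theorem coeffEmb_mem_coeffField (z : LaurentSeries ℚ) : coeffEmb Qb z ∈ coeffField E := by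
  refine ⟨coeffMap (algebraMap ℚ E) z, ?_⟩
  rw [coeffMap_coeffMap, coeffEmb]
  exact coeffMap_congr (RingHom.ext_rat _ _) z

theorem val_mem_coeffField {f : Om M} (hf : f ∈ Fc M E) :
    (f : LaurentSeries Qb) ∈ coeffField E := by
  unfold Fc at hf
  induction hf using Subfield.closure_induction with
  | mem y hy =>
      rcases hy with hy | hy
      · obtain ⟨c, hc, rfl⟩ := (mem_Ec_iff M E).1 hy
        rw [val_cst]
        exact ⟨HahnSeries.single 0 ⟨c, hc⟩, by rw [coeffMap_single]; rfl⟩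
      · obtain ⟨d, hd, hdM, rfl⟩ := hy
        exact coeffEmb_mem_coeffField E _
  | one => exact one_mem _
  | add x y _ _ hx hy => exact add_mem hx hy
  | neg x _ hx => exact neg_mem hx
  | inv x _ hx =>
      show ((x⁻¹ : Om M) : LaurentSeries Qb) ∈ _
      rw [show ((x⁻¹ : Om M) : LaurentSeries Qb) = (x : LaurentSeries Qb)⁻¹ from rfl]
      exact inv_mem hx
  | mul x y _ _ hx hy => exact mul_mem hx hy

theorem coeff_mem_of_mem_Fc {f : Om M} (hf : f ∈ Fc M E) (n : ℤ) :
    (f : LaurentSeries Qb).coeff n ∈ E :=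
  coeff_mem_of_mem_coeffField E (val_mem_coeffField M E hf) n

/-! ### Elements of `ℚ(j_d)` lie in `Fc` -/

theorem ratCast_mem_Fc (c : ℚ) : cst M (algebraMap ℚ Qb c) ∈ Fc M E :=
  field_E_le_F M E (cst_mem_Ec M E (E.algebraMap_mem c))

/-- The image of `z ∈ ℚ(j_d : d ∣ M)` in `Ω`. -/
def ofFull [NeZero M] (z : LaurentSeries ℚ) (hz : z ∈ modularFunctionFieldFull M) : Om M :=
  ⟨coeffEmb Qb z, coeffEmb_mem_laurentBaseChange Qb hz⟩

theorem ofFull_mem_Fc [NeZero M] (z : LaurentSeries ℚ) (hz : z ∈ modularFunctionFieldFull M) :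
    ofFull M z hz ∈ Fc M E := by
  have hz' := hz
  unfold modularFunctionFieldFull at hz'
  -- induction over the adjoin, keeping track of membership
  have key : ∀ y (hy : y ∈ IntermediateField.adjoin ℚ (divisorExpansions M)),
      ∃ h : y ∈ modularFunctionFieldFull M, ofFull M y h ∈ Fc M E := by
    intro y hy
    induction hy using IntermediateField.adjoin_induction with
    | mem y hy =>
        obtain ⟨d, hd, hdM, rfl⟩ := hy
        refine ⟨jqd_mem_full M hdM, ?_⟩
        exact Subfield.subset_closure (Or.inr ⟨d, hd, hdM, rfl⟩)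
    | algebraMap c =>
        refine ⟨(modularFunctionFieldFull M).algebraMap_mem c, ?_⟩
        have : ofFull M (algebraMap ℚ (LaurentSeries ℚ) c)
            ((modularFunctionFieldFull M).algebraMap_mem c) = cst M (algebraMap ℚ Qb c) := by
          apply Subtype.ext
          show coeffEmb Qb (algebraMap ℚ (LaurentSeries ℚ) c) = _
          rw [val_cst, coeffEmb, algebraMap_laurentSeries_eq_single, coeffMap_single]
        rw [this]
        exact ratCast_mem_Fc M E c
    | add x y _ _ hx hy =>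
        obtain ⟨hx1, hx2⟩ := hx
        obtain ⟨hy1, hy2⟩ := hy
        refine ⟨add_mem hx1 hy1, ?_⟩
        have : ofFull M (x + y) (add_mem hx1 hy1) = ofFull M x hx1 + ofFull M y hy1 :=
          Subtype.ext (map_add (coeffEmb Qb) x y)
        rw [this]
        exact add_mem hx2 hy2
    | inv x _ hx =>
        obtain ⟨hx1, hx2⟩ := hx
        refine ⟨inv_mem hx1, ?_⟩
        have : ofFull M x⁻¹ (inv_mem hx1) = (ofFull M x hx1)⁻¹ :=
          Subtype.ext (map_inv₀ (coeffEmb Qb) x)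
        rw [this]
        exact inv_mem hx2
    | mul x y _ _ hx hy =>
        obtain ⟨hx1, hx2⟩ := hx
        obtain ⟨hy1, hy2⟩ := hy
        refine ⟨mul_mem hx1 hy1, ?_⟩
        have : ofFull M (x * y) (mul_mem hx1 hy1) = ofFull M x hx1 * ofFull M y hy1 :=
          Subtype.ext (map_mul (coeffEmb Qb) x y)
        rw [this]
        exact mul_mem hx2 hy2
  obtain ⟨_, h⟩ := key z hz'
  exact h

/-! ### `compositum` -/

theorem field_compositum [NeZero M] :
    Subfield.closure ((Fc M E : Set (Om M)) ∪ Lc M) = ⊤ := by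
  rw [eq_top_iff]
  rintro ⟨f, hf⟩ -
  set T : Subfield (Om M) := Subfield.closure ((Fc M E : Set (Om M)) ∪ Lc M) with hT
  let val : Om M →+* LaurentSeries Qb := (modularFunctionFieldBar M).val.toRingHom
  have hle : Subfield.closure
        (Set.range (algebraMap Qb (LaurentSeries Qb)) ∪
          (⇑(coeffEmb Qb) '' (modularFunctionFieldFull M : Set (LaurentSeries ℚ)))) ≤
      T.map val := by
    rw [Subfield.closure_le]
    rintro y (⟨c, rfl⟩ | ⟨z, hz, rfl⟩)
    · exact ⟨cst M c, Subfield.subset_closure (Or.inr (cst_mem_Lc M c)), rfl⟩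
    · exact ⟨ofFull M z hz, Subfield.subset_closure (Or.inl (ofFull_mem_Fc M E z hz)), rfl⟩
  obtain ⟨t, ht, htf⟩ := hle (mem_laurentBaseChange_iff.1 hf)
  have : t = ⟨f, hf⟩ := Subtype.ext htf
  rw [← this]
  exact ht

end Fermat.Agent.S18.H456

end
end
-- ===== PACK-END S18/H456/ModFields.lean

-- ===== PACK-BEGIN S18/H456/ModCoord.lean
section


/-!
# S18 / MOD assembly (helper456): `E_closed_in_F`, `x_mem`, `x_transcendental`
-/

set_option autoImplicit false

noncomputable section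

namespace Fermat.Agent.S18.H456

open ModularCurve AlgebraicCurve HahnSeries Fermat.Agent.S18 Fermat.Agent.S18.Mod

variable (M : ℕ) (A : ValuationSubring Qb) (E : IntermediateField ℚ Qb)

/-- `Q̄ ≃ Lc`. -/
def LcEquiv : Qb ≃+* Lc M :=
  RingEquiv.ofBijective (algebraMap Qb (Om M)).rangeRestrictField
    ⟨(algebraMap Qb (Om M)).rangeRestrictField.injective, fun ⟨_, c, hc⟩ => ⟨c, Subtype.ext hc⟩⟩

theorem cst_LcEquiv_symm (y : Lc M) : cst M ((LcEquiv M).symm y) = (y : Om M) := by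
  have h := (LcEquiv M).apply_symm_apply y
  exact congrArg Subtype.val h

/-- An element of `Ω` which is algebraic over a field of constants is constant. -/
theorem exists_cst_of_isAlgebraic (K₀ : Subfield (Om M)) (hK : K₀ ≤ Lc M) (f : Om M)
    (hf : IsAlgebraic K₀ f) : ∃ c : Qb, f = cst M c := by
  obtain ⟨p, hp0, hp⟩ := hf
  let ψ : K₀ →+* Qb := ((LcEquiv M).symm : Lc M →+* Qb).comp (Subfield.inclusion hK)
  have hψ : ∀ y : K₀, cst M (ψ y) = (y : Om M) := fun y =>
    cst_LcEquiv_symm M (Subfield.inclusion hK y)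
  let val : Om M →+* LaurentSeries Qb := (modularFunctionFieldBar M).val.toRingHom
  have hcomp : val.comp (algebraMap K₀ (Om M)) =
      (algebraMap Qb (LaurentSeries Qb)).comp ψ := by
    ext1 y
    show ((algebraMap K₀ (Om M) y : Om M) : LaurentSeries Qb) =
      algebraMap Qb (LaurentSeries Qb) (ψ y)
    have : (algebraMap K₀ (Om M) y : Om M) = cst M (ψ y) := (hψ y).symm
    rw [this]
    rfl
  have halg : IsAlgebraic Qb (f : LaurentSeries Qb) := by
    refine ⟨p.map ψ, (Polynomial.map_ne_zero_iff ψ.injective).2 hp0, ?_⟩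
    rw [Polynomial.aeval_def, Polynomial.eval₂_map, ← hcomp]
    have h := Polynomial.hom_eval₂ p (algebraMap K₀ (Om M)) val f
    rw [Polynomial.aeval_def] at hp
    rw [hp, map_zero] at h
    exact h.symm
  obtain ⟨c, hc⟩ := laurent_const_of_isAlgebraic _ halg
  exact ⟨c, Subtype.ext hc⟩

theorem field_E_closed_in_F : ∀ f ∈ Fc M E, IsAlgebraic (Ec M E) f → f ∈ Ec M E := by
  intro f hf halg
  obtain ⟨c, rfl⟩ := exists_cst_of_isAlgebraic M (Ec M E) (field_E_le_L M E) f halg
  have h := coeff_mem_of_mem_Fc M E hf 0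
  rw [val_cst, HahnSeries.coeff_single_same] at h
  exact cst_mem_Ec M E h

/-! ### The coordinate -/

/-- The data of an integral `q`-expansion `q⁻¹ + …` of the coordinate. -/
def HasIntExp [NeZero M] (x : Om M) : Prop :=
  ∃ X : LaurentSeries ℤ, X.coeff (-1) = 1 ∧ (∀ k : ℤ, k < -1 → X.coeff k = 0) ∧
     (x : LaurentSeries Qb) = coeffMap (Int.castRingHom Qb) X ∧
     coeffMap (Int.castRingHom ℚ) X ∈ modularFunctionFieldFull M

theorem val_jOm [NeZero M] : ((jOm M : Om M) : LaurentSeries Qb) = jqModC Qb := by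
  show coeffEmb Qb (qExpand ℚ 1 jq) = _
  rw [qExpand_one_apply]
  exact coeffMap_jqModC (algebraMap ℚ Qb)

theorem hasIntExp_jOm [NeZero M] : HasIntExp M (jOm M) := by
  refine ⟨jqModC ℤ, coeff_jqModC_neg_one ℤ, fun k hk => coeff_jqModC_of_lt ℤ hk, ?_, ?_⟩
  · rw [val_jOm, coeffMap_jqModC]
  · rw [coeffMap_jqModC]
    exact modularFunctionField_le_full M (jq_mem M)

theorem hasIntExp_of_isCoordinate [NeZero M] {ℓ : ℕ} {x : Om M} {S : Finset (Om M)}
    (hx : IsCoordinate M ℓ x S) : HasIntExp M x := by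
  rcases hx with ⟨-, rfl, -⟩ | ⟨-, h⟩
  · exact hasIntExp_jOm M
  · exact h

theorem coeff_neg_one_of_hasIntExp [NeZero M] {x : Om M} (hx : HasIntExp M x) :
    (x : LaurentSeries Qb).coeff (-1) = 1 := by
  obtain ⟨X, h1, -, h3, -⟩ := hx
  rw [h3, coeffMap_coeff, h1, map_one]

theorem coeff_of_lt_of_hasIntExp [NeZero M] {x : Om M} (hx : HasIntExp M x) {k : ℤ}
    (hk : k < -1) : (x : LaurentSeries Qb).coeff k = 0 := by
  obtain ⟨X, -, h2, h3, -⟩ := hx
  rw [h3, coeffMap_coeff, h2 k hk, map_zero]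

theorem mem_Fc_of_hasIntExp [NeZero M] {x : Om M} (hx : HasIntExp M x) : x ∈ Fc M E := by
  obtain ⟨X, -, -, h3, h4⟩ := hx
  have : x = ofFull M _ h4 := by
    apply Subtype.ext
    rw [h3]
    show _ = coeffEmb Qb (coeffMap (Int.castRingHom ℚ) X)
    rw [coeffEmb, coeffMap_coeffMap]
    exact coeffMap_congr (RingHom.ext_int _ _) X
  rw [this]
  exact ofFull_mem_Fc M E _ h4

theorem transcendental_of_hasIntExp [NeZero M] {x : Om M} (hx : HasIntExp M x) :
    Transcendental (Lc M) x := by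
  intro halg
  obtain ⟨c, hc⟩ := exists_cst_of_isAlgebraic M (Lc M) le_rfl x halg
  have h := coeff_neg_one_of_hasIntExp M hx
  rw [hc, val_cst, HahnSeries.coeff_single_of_ne (by decide)] at h
  exact zero_ne_one h

theorem field_x_mem [NeZero M] {ℓ : ℕ} {x : Om M} {S : Finset (Om M)}
    (hx : IsCoordinate M ℓ x S) : x ∈ Fc M E :=
  mem_Fc_of_hasIntExp M E (hasIntExp_of_isCoordinate M hx)

theorem field_x_transcendental [NeZero M] {ℓ : ℕ} {x : Om M} {S : Finset (Om M)}
    (hx : IsCoordinate M ℓ x S) : Transcendental (Lc M) x :=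
  transcendental_of_hasIntExp M (hasIntExp_of_isCoordinate M hx)

end Fermat.Agent.S18.H456

end
end
-- ===== PACK-END S18/H456/ModCoord.lean

-- ===== PACK-BEGIN S18/H24/GaussA.lean
section


/-!
# S18 / MOD-ASM, piece G-V (helper24) — part A: integral series and the Gauss valuation ring

Concrete objects of `S18/Mod/Defs.lean`.  `inc = coeffMap A.subtype : A((q)) → Q̄((q))`,
`red = coeffMap (residue A) : A((q)) → κ((q))`.

* `isIntE_iff`                 : `IsIntE M A E U ↔ ∃ f ∈ Fc M E, f = inc U`;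
* `IsIntE.add/mul/neg/...`     : integral series form a ring;
* `Vc M A E : Subring (Om M)`  : the Gauss valuation ring, with carrier `VcSet M A E`
  (`coe_Vc`);
* fields `V_le`, `R_le_V`, `w_inv_not_mem_V` of `Alg.GoodModel`.
-/

set_option autoImplicit false

noncomputable section

namespace Fermat.Agent.S18.H24

open ModularCurve AlgebraicCurve HahnSeries Fermat.Agent.S18 Fermat.Agent.S18.Mod
open Fermat.Agent.S18.H456

variable (M : ℕ) (A : ValuationSubring Qb) (E : IntermediateField ℚ Qb)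

/-- `A((q)) → Q̄((q))`. -/
abbrev inc : LaurentSeries A →+* LaurentSeries Qb := coeffMap A.subtype

/-- `A((q)) → κ((q))`. -/
abbrev red : LaurentSeries A →+* LaurentSeries (IsLocalRing.ResidueField A) :=
  coeffMap (IsLocalRing.residue A)

variable {A} in
theorem inc_injective : Function.Injective (inc A) := by
  intro x y hxy
  ext k
  have := congrArg (fun z => z.coeff k) hxy
  simpa using this

variable {A} in
theorem inc_coeff (U : LaurentSeries A) (n : ℤ) : (inc A U).coeff n = (U.coeff n : Qb) := by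
  rw [coeffMap_coeff]; rfl

variable {A} in
theorem red_coeff (U : LaurentSeries A) (n : ℤ) :
    (red A U).coeff n = IsLocalRing.residue A (U.coeff n) := by
  rw [coeffMap_coeff]

variable {A} in
/-- A series over `Q̄` with coefficients in `A` comes from `A((q))`. -/
theorem exists_inc_eq {g : LaurentSeries Qb} (hg : ∀ n, g.coeff n ∈ A) :
    ∃ U : LaurentSeries A, inc A U = g := by
  have hsupp : (Function.support fun n => (⟨g.coeff n, hg n⟩ : A)) = g.support := by
    ext n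
    simp only [Function.mem_support, HahnSeries.mem_support, ne_eq]
    constructor
    · intro h h0
      exact h (Subtype.ext h0)
    · intro h h0
      exact h (congrArg Subtype.val h0)
  refine ⟨⟨fun n => ⟨g.coeff n, hg n⟩, ?_⟩, ?_⟩
  · rw [hsupp]; exact g.isPWO_support
  · ext n
    rw [inc_coeff]

variable {A} in
theorem red_eq_zero_iff (U : LaurentSeries A) :
    red A U = 0 ↔ ∀ n, U.coeff n ∈ IsLocalRing.maximalIdeal A := by
  constructor
  · intro h n
    have := congrArg (fun z => z.coeff n) h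
    simp only [red_coeff, HahnSeries.coeff_zero] at this
    exact (IsLocalRing.residue_eq_zero_iff _).mp this
  · intro h
    ext n
    rw [red_coeff, HahnSeries.coeff_zero]
    exact (IsLocalRing.residue_eq_zero_iff _).mpr (h n)

variable {A} in
/-- an element of `A` is in the maximal ideal iff it is `0` or its inverse is not in `A`. -/
theorem mem_maximalIdeal_iff (c : A) :
    c ∈ IsLocalRing.maximalIdeal A ↔ (c : Qb) = 0 ∨ (c : Qb)⁻¹ ∉ A := by
  rw [IsLocalRing.mem_maximalIdeal, mem_nonunits_iff]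
  constructor
  · intro h
    by_contra hcon
    rw [not_or, not_not] at hcon
    apply h
    exact isUnit_iff_exists_inv.mpr ⟨⟨(c : Qb)⁻¹, hcon.2⟩, Subtype.ext (by
      show (c : Qb) * (c : Qb)⁻¹ = 1
      exact mul_inv_cancel₀ hcon.1)⟩
  · rintro (h | h) hu
    · have : c = 0 := Subtype.ext h
      rw [this] at hu
      exact not_isUnit_zero hu
    · obtain ⟨d, hd⟩ := isUnit_iff_exists_inv.mp hu
      apply h
      have h1 : (c : Qb) * (d : Qb) = 1 := congrArg Subtype.val hd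
      have : (c : Qb)⁻¹ = d := inv_eq_of_mul_eq_one_right h1
      rw [this]; exact d.2

/-! ### Integral series -/

theorem isIntE_iff {U : LaurentSeries A} :
    IsIntE M A E U ↔ ∃ f ∈ Fc M E, (f : LaurentSeries Qb) = inc A U := by
  constructor
  · exact fun h => h.2
  · rintro ⟨f, hf, hfU⟩
    refine ⟨fun n => ?_, f, hf, hfU⟩
    have := coeff_mem_of_mem_Fc M E hf n
    rw [hfU, inc_coeff] at this
    exact this

variable {M A E}

theorem isIntE_zero : IsIntE M A E 0 :=
  (isIntE_iff M A E).mpr ⟨0, zero_mem _, by simp⟩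

theorem isIntE_one : IsIntE M A E 1 :=
  (isIntE_iff M A E).mpr ⟨1, one_mem _, by simp⟩

theorem IsIntE.add {U U' : LaurentSeries A} (h : IsIntE M A E U) (h' : IsIntE M A E U') :
    IsIntE M A E (U + U') := by
  obtain ⟨f, hf, hfU⟩ := (isIntE_iff M A E).mp h
  obtain ⟨f', hf', hfU'⟩ := (isIntE_iff M A E).mp h'
  exact (isIntE_iff M A E).mpr ⟨f + f', add_mem hf hf', by
    rw [map_add, ← hfU, ← hfU']; rfl⟩

theorem IsIntE.mul {U U' : LaurentSeries A} (h : IsIntE M A E U) (h' : IsIntE M A E U') :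
    IsIntE M A E (U * U') := by
  obtain ⟨f, hf, hfU⟩ := (isIntE_iff M A E).mp h
  obtain ⟨f', hf', hfU'⟩ := (isIntE_iff M A E).mp h'
  exact (isIntE_iff M A E).mpr ⟨f * f', mul_mem hf hf', by
    rw [map_mul, ← hfU, ← hfU']; rfl⟩

theorem IsIntE.neg {U : LaurentSeries A} (h : IsIntE M A E U) : IsIntE M A E (-U) := by
  obtain ⟨f, hf, hfU⟩ := (isIntE_iff M A E).mp h
  exact (isIntE_iff M A E).mpr ⟨-f, neg_mem hf, by
    rw [map_neg, ← hfU]; rfl⟩

theorem IsIntE.pow {U : LaurentSeries A} (h : IsIntE M A E U) (n : ℕ) : IsIntE M A E (U ^ n) := by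
  induction n with
  | zero => rw [pow_zero]; exact isIntE_one
  | succ n ih => rw [pow_succ]; exact IsIntE.mul ih h

/-- A constant `c ∈ A ∩ E` as an integral series. -/
theorem isIntE_C {c : A} (hc : (c : Qb) ∈ E) : IsIntE M A E (HahnSeries.C c) := by
  refine (isIntE_iff M A E).mpr ⟨cst M (c : Qb), field_E_le_F M E (cst_mem_Ec M E hc), ?_⟩
  rw [val_cst]
  ext n
  rw [inc_coeff]
  by_cases hn : n = 0
  · subst hn
    simp [HahnSeries.C_apply]
  · rw [HahnSeries.coeff_single_of_ne hn]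
    have : (HahnSeries.C c : LaurentSeries A).coeff n = 0 := by
      rw [HahnSeries.C_apply, HahnSeries.coeff_single_of_ne hn]
    rw [this]; rfl

theorem inc_C (c : A) : inc A (HahnSeries.C c) = HahnSeries.C (c : Qb) := by
  ext n
  rw [inc_coeff]
  by_cases hn : n = 0
  · subst hn
    simp [HahnSeries.C_apply]
  · rw [HahnSeries.C_apply, HahnSeries.C_apply, HahnSeries.coeff_single_of_ne hn,
      HahnSeries.coeff_single_of_ne hn]
    rfl

theorem red_C (c : A) : red A (HahnSeries.C c) = HahnSeries.C (IsLocalRing.residue A c) := by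
  ext n
  rw [red_coeff]
  by_cases hn : n = 0
  · subst hn
    simp [HahnSeries.C_apply]
  · rw [HahnSeries.C_apply, HahnSeries.C_apply, HahnSeries.coeff_single_of_ne hn,
      HahnSeries.coeff_single_of_ne hn, map_zero]

/-! ### The Gauss valuation ring -/

theorem mem_VcSet_iff {f : Om M} :
    f ∈ VcSet M A E ↔ f ∈ Fc M E ∧ ∃ U₁ U₂ : LaurentSeries A, IsIntE M A E U₁ ∧ IsIntE M A E U₂ ∧
      red A U₂ ≠ 0 ∧ (f : LaurentSeries Qb) * inc A U₂ = inc A U₁ := Iff.rfl

/-- An integral series defines an element of `V`. -/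
theorem mem_VcSet_of_isIntE {f : Om M} {U : LaurentSeries A} (hU : IsIntE M A E U)
    (hf : (f : LaurentSeries Qb) = inc A U) : f ∈ VcSet M A E := by
  obtain ⟨g, hg, hgU⟩ := (isIntE_iff M A E).mp hU
  have hfg : f = g := Subtype.ext (by rw [hf, hgU])
  refine ⟨hfg ▸ hg, U, 1, hU, isIntE_one, ?_, ?_⟩
  · rw [map_one]; exact one_ne_zero
  · rw [map_one, mul_one, hf]

variable (M A E) in
/-- The Gauss valuation ring `V` of `Fc`, as a subring of `Ω`. -/
def Vc : Subring (Om M) where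
  carrier := VcSet M A E
  zero_mem' := mem_VcSet_of_isIntE isIntE_zero (by simp)
  one_mem' := mem_VcSet_of_isIntE isIntE_one (by simp)
  add_mem' := by
    rintro f g ⟨hf, U₁, U₂, h₁, h₂, hr, hfU⟩ ⟨hg, W₁, W₂, k₁, k₂, kr, hgW⟩
    refine ⟨add_mem hf hg, U₁ * W₂ + W₁ * U₂, U₂ * W₂, IsIntE.add (IsIntE.mul h₁ k₂) (IsIntE.mul k₁ h₂), IsIntE.mul h₂ k₂,
      ?_, ?_⟩
    · rw [map_mul]; exact mul_ne_zero hr kr
    · show ((f : LaurentSeries Qb) + (g : LaurentSeries Qb)) * inc A (U₂ * W₂) = _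
      rw [map_mul, map_add, map_mul, map_mul, ← hfU, ← hgW]
      ring
  mul_mem' := by
    rintro f g ⟨hf, U₁, U₂, h₁, h₂, hr, hfU⟩ ⟨hg, W₁, W₂, k₁, k₂, kr, hgW⟩
    refine ⟨mul_mem hf hg, U₁ * W₁, U₂ * W₂, IsIntE.mul h₁ k₁, IsIntE.mul h₂ k₂, ?_, ?_⟩
    · rw [map_mul]; exact mul_ne_zero hr kr
    · show ((f : LaurentSeries Qb) * (g : LaurentSeries Qb)) * inc A (U₂ * W₂) = _
      rw [map_mul, map_mul, ← hfU, ← hgW]
      ring
  neg_mem' := by
    rintro f ⟨hf, U₁, U₂, h₁, h₂, hr, hfU⟩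
    refine ⟨neg_mem hf, -U₁, U₂, IsIntE.neg h₁, h₂, hr, ?_⟩
    show (-(f : LaurentSeries Qb)) * inc A U₂ = _
    rw [map_neg, ← hfU]
    ring

variable (M A E) in
theorem coe_Vc : (Vc M A E : Set (Om M)) = VcSet M A E := rfl

theorem mem_Vc_iff {f : Om M} : f ∈ Vc M A E ↔ f ∈ VcSet M A E := Iff.rfl

variable (M A E) in
/-- field `V_le`. -/
theorem field_V_le : (Vc M A E : Set (Om M)) ⊆ Fc M E := fun _ hf => hf.1

variable (M A E) in
/-- field `R_le_V`. -/
theorem field_R_le_V : Rc M A E ≤ Vc M A E := by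
  intro r hr
  obtain ⟨c, hcA, hcE, rfl⟩ := (mem_Rc_iff M A E).mp hr
  refine mem_VcSet_of_isIntE (U := HahnSeries.C (⟨c, hcA⟩ : A)) (isIntE_C hcE) ?_
  rw [val_cst, inc_C]
  rfl

/-- field `w_inv_not_mem_V`: a non-unit `w₀ ≠ 0` of `A` is not invertible in `V`. -/
theorem field_w_inv_not_mem_V {w₀ : Qb} (hw0 : w₀ ≠ 0) (hwn : w₀⁻¹ ∉ A) :
    (cst M w₀)⁻¹ ∉ Vc M A E := by
  rintro ⟨-, U₁, U₂, -, -, hr, hU⟩
  apply hr
  rw [red_eq_zero_iff]
  intro n
  rw [mem_maximalIdeal_iff]
  have hval : (((cst M w₀)⁻¹ : Om M) : LaurentSeries Qb) = HahnSeries.C (w₀⁻¹) := by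
    rw [← map_inv₀]
    exact val_cst M _
  rw [hval] at hU
  have hn := congrArg (fun z => z.coeff n) hU
  simp only [HahnSeries.C_mul_eq_smul, HahnSeries.coeff_smul, inc_coeff, smul_eq_mul] at hn
  by_cases h0 : ((U₂.coeff n : A) : Qb) = 0
  · exact Or.inl h0
  · right
    intro hinv
    apply hwn
    have : w₀⁻¹ = (U₁.coeff n : Qb) * ((U₂.coeff n : A) : Qb)⁻¹ := by
      rw [← hn]; field_simp
    rw [this]
    exact A.mul_mem _ _ (U₁.coeff n).2 hinv

end Fermat.Agent.S18.H24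

end
end
-- ===== PACK-END S18/H24/GaussA.lean

-- ===== PACK-BEGIN S18/H24/GaussB.lean
section


/-!
# S18 / MOD-ASM, piece G-V (helper24) — part B: `V_gen`, primitive parts, `V_total`

`IsUnif A E w₀` : `w₀` is a uniformiser of the discrete valuation ring `A ∩ E` (element-wise form,
to be supplied by G-R).  With `w = cst M w₀`:

* `field_V_gen`          : `f ∈ V`, `f⁻¹ ∉ V` ⟹ `f/w ∈ V`;
* `exists_primitive`     : a nonzero integral series is `w₀^a ·` (integral series with nonzero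
                           reduction);
* `exists_gauss_form`    : every `f ≠ 0` in `Fc` is `w^n · U₁/U₂` with `U₁, U₂` integral of nonzero
                           reduction;
* `field_V_total`        : `f ∈ V ∨ f⁻¹ ∈ V` for `f ∈ Fc`.
-/

set_option autoImplicit false

noncomputable section

namespace Fermat.Agent.S18.H24

open ModularCurve AlgebraicCurve HahnSeries Fermat.Agent.S18 Fermat.Agent.S18.Mod
open Fermat.Agent.S18.H456

/-- `w₀` is a uniformiser of the discrete valuation ring `A ∩ E`. -/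
structure IsUnif (A : ValuationSubring Qb) (E : IntermediateField ℚ Qb) (w₀ : Qb) : Prop where
  mem_A : w₀ ∈ A
  mem_E : w₀ ∈ E
  ne_zero : w₀ ≠ 0
  inv_not_mem : w₀⁻¹ ∉ A
  gen : ∀ c, c ∈ A → c ∈ E → c⁻¹ ∉ A → c * w₀⁻¹ ∈ A
  discrete : ∀ c, c ∈ A → c ∈ E → c ≠ 0 →
    ∃ n : ℕ, c * (w₀⁻¹) ^ n ∈ A ∧ (c * (w₀⁻¹) ^ n)⁻¹ ∈ A

variable {M : ℕ} {A : ValuationSubring Qb} {E : IntermediateField ℚ Qb}

theorem val_inv (f : Om M) : ((f⁻¹ : Om M) : LaurentSeries Qb) = (f : LaurentSeries Qb)⁻¹ := rfl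

theorem val_mul (f g : Om M) :
    ((f * g : Om M) : LaurentSeries Qb) = (f : LaurentSeries Qb) * (g : LaurentSeries Qb) := rfl

theorem val_cst' (c : Qb) : ((cst M c : Om M) : LaurentSeries Qb) = HahnSeries.C c := by
  rw [val_cst]; rfl

theorem val_eq_zero_iff {f : Om M} : (f : LaurentSeries Qb) = 0 ↔ f = 0 :=
  ⟨fun h => Subtype.ext h, fun h => by rw [h]; rfl⟩

theorem red_ne_zero_imp_inc_ne_zero {U : LaurentSeries A} (h : red A U ≠ 0) : inc A U ≠ 0 := by
  intro h0
  apply h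
  have : U = 0 := inc_injective (by rw [h0, map_zero])
  rw [this, map_zero]

/-- Dividing an integral series with zero reduction by the uniformiser. -/
theorem exists_div_unif {w₀ : Qb} (hw : _root_.Fermat.Agent.S18.H24.IsUnif A E w₀) {U : LaurentSeries A}
    (hU : IsIntE M A E U) (hred : red A U = 0) :
    ∃ U' : LaurentSeries A, IsIntE M A E U' ∧ inc A U' = HahnSeries.C (w₀⁻¹) * inc A U := by
  have hcoef : ∀ n, (HahnSeries.C (w₀⁻¹) * inc A U).coeff n ∈ A := by
    intro n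
    rw [HahnSeries.C_mul_eq_smul, HahnSeries.coeff_smul, inc_coeff, smul_eq_mul, mul_comm]
    have hm := (red_eq_zero_iff U).mp hred n
    rcases (mem_maximalIdeal_iff _).mp hm with h0 | hni
    · rw [h0, zero_mul]; exact A.zero_mem
    · exact hw.gen _ (U.coeff n).2 (hU.1 n) hni
  obtain ⟨U', hU'⟩ := exists_inc_eq hcoef
  refine ⟨U', ?_, hU'⟩
  obtain ⟨f, hf, hfU⟩ := hU.2
  refine (isIntE_iff M A E).mpr ⟨(cst M w₀)⁻¹ * f, ?_, ?_⟩
  · exact mul_mem (inv_mem (field_E_le_F M E (cst_mem_Ec M E hw.mem_E))) hf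
  · rw [hU', val_mul, val_inv, val_cst', hfU, ← map_inv₀]

variable (M) in
/-- field `V_gen`. -/
theorem field_V_gen {w₀ : Qb} (hw : _root_.Fermat.Agent.S18.H24.IsUnif A E w₀) :
    ∀ f ∈ Vc M A E, f⁻¹ ∉ Vc M A E → f * (cst M w₀)⁻¹ ∈ Vc M A E := by
  rintro f ⟨hfF, U₁, U₂, h₁, h₂, hr, hfU⟩ hfinv
  have hf0 : f ≠ 0 := by
    rintro rfl
    rw [inv_zero] at hfinv
    exact hfinv (zero_mem _)
  have hfv0 : (f : LaurentSeries Qb) ≠ 0 := fun h => hf0 (val_eq_zero_iff.mp h)
  have hred : red A U₁ = 0 := by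
    by_contra hne
    apply hfinv
    refine ⟨inv_mem hfF, U₂, U₁, h₂, h₁, hne, ?_⟩
    rw [val_inv, ← hfU]
    field_simp
  obtain ⟨U', hU', hU'eq⟩ := exists_div_unif hw h₁ hred
  refine ⟨mul_mem hfF (inv_mem (field_E_le_F M E (cst_mem_Ec M E hw.mem_E))), U', U₂, hU', h₂, hr,
    ?_⟩
  rw [hU'eq, val_mul, val_inv, val_cst', ← hfU, ← map_inv₀]
  ring

/-! ### Primitive parts -/

theorem unit_mul_pow_mem {w₀ : Qb} (hw : _root_.Fermat.Agent.S18.H24.IsUnif A E w₀) {c : Qb} {k a : ℕ} (hak : a ≤ k)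
    (hc : c * (w₀⁻¹) ^ k ∈ A) : c * (w₀⁻¹) ^ a ∈ A := by
  obtain ⟨d, rfl⟩ := Nat.exists_eq_add_of_le hak
  have : c * (w₀⁻¹) ^ a = c * (w₀⁻¹) ^ (a + d) * w₀ ^ d := by
    rw [_root_.pow_add, inv_pow, inv_pow]
    have := hw.ne_zero
    field_simp
  rw [this]
  exact A.mul_mem _ _ hc (pow_mem hw.mem_A d)

/-- A nonzero integral series is a power of the uniformiser times an integral series with
nonzero reduction. -/
theorem exists_primitive {w₀ : Qb} (hw : _root_.Fermat.Agent.S18.H24.IsUnif A E w₀) {U : LaurentSeries A}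
    (hU : IsIntE M A E U) (hU0 : U ≠ 0) :
    ∃ (a : ℕ) (U₀ : LaurentSeries A), IsIntE M A E U₀ ∧ red A U₀ ≠ 0 ∧
      inc A U = HahnSeries.C (w₀ ^ a) * inc A U₀ := by
  classical
  -- the set of valuations of nonzero coefficients
  have hex : ∃ k : ℕ, ∃ n : ℤ, U.coeff n ≠ 0 ∧ (U.coeff n : Qb) * (w₀⁻¹) ^ k ∈ A ∧
      ((U.coeff n : Qb) * (w₀⁻¹) ^ k)⁻¹ ∈ A := by
    obtain ⟨n, hn⟩ : ∃ n, U.coeff n ≠ 0 := by
      by_contra h
      push Not at h
      exact hU0 (HahnSeries.ext (funext h))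
    have hn' : (U.coeff n : Qb) ≠ 0 := fun h => hn (Subtype.ext h)
    obtain ⟨k, hk1, hk2⟩ := hw.discrete _ (U.coeff n).2 (hU.1 n) hn'
    exact ⟨k, n, hn, hk1, hk2⟩
  set a := Nat.find hex with ha
  obtain ⟨n₀, hn₀, hn₀1, hn₀2⟩ := Nat.find_spec hex
  have hmin : ∀ k, (∃ n : ℤ, U.coeff n ≠ 0 ∧ (U.coeff n : Qb) * (w₀⁻¹) ^ k ∈ A ∧
      ((U.coeff n : Qb) * (w₀⁻¹) ^ k)⁻¹ ∈ A) → a ≤ k := fun k hk => Nat.find_min' hex hk
  have hcoef : ∀ n, (HahnSeries.C ((w₀⁻¹) ^ a) * inc A U).coeff n ∈ A := by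
    intro n
    rw [HahnSeries.C_mul_eq_smul, HahnSeries.coeff_smul, inc_coeff, smul_eq_mul, mul_comm]
    by_cases hn : U.coeff n = 0
    · rw [hn]; simp
    · have hn' : (U.coeff n : Qb) ≠ 0 := fun h => hn (Subtype.ext h)
      obtain ⟨k, hk1, hk2⟩ := hw.discrete _ (U.coeff n).2 (hU.1 n) hn'
      exact unit_mul_pow_mem hw (hmin k ⟨n, hn, hk1, hk2⟩) hk1
  obtain ⟨U₀, hU₀⟩ := exists_inc_eq hcoef
  have hw0 := hw.ne_zero
  refine ⟨a, U₀, ?_, ?_, ?_⟩
  · obtain ⟨f, hf, hfU⟩ := hU.2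
    refine (isIntE_iff M A E).mpr ⟨((cst M w₀)⁻¹) ^ a * f, ?_, ?_⟩
    · exact mul_mem (pow_mem (inv_mem (field_E_le_F M E (cst_mem_Ec M E hw.mem_E))) _) hf
    · rw [hU₀, val_mul, hfU]
      congr 1
      show (((cst M w₀)⁻¹ ^ a : Om M) : LaurentSeries Qb) = _
      rw [← map_inv₀, ← map_pow]
      exact val_cst' _
  · intro hred
    have hm := (red_eq_zero_iff U₀).mp hred n₀
    rcases (mem_maximalIdeal_iff _).mp hm with h0 | hni
    · have h1 : ((U₀.coeff n₀ : A) : Qb) = (U.coeff n₀ : Qb) * (w₀⁻¹) ^ a := by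
        rw [← inc_coeff, hU₀, HahnSeries.C_mul_eq_smul, HahnSeries.coeff_smul, inc_coeff,
          smul_eq_mul, mul_comm]
      rw [h1] at h0
      have hn₀' : (U.coeff n₀ : Qb) ≠ 0 := fun h => hn₀ (Subtype.ext h)
      exact mul_ne_zero hn₀' (pow_ne_zero _ (inv_ne_zero hw0)) h0
    · apply hni
      have h1 : ((U₀.coeff n₀ : A) : Qb) = (U.coeff n₀ : Qb) * (w₀⁻¹) ^ a := by
        rw [← inc_coeff, hU₀, HahnSeries.C_mul_eq_smul, HahnSeries.coeff_smul, inc_coeff,
          smul_eq_mul, mul_comm]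
      rw [h1]
      exact hn₀2
  · rw [hU₀, ← mul_assoc, ← map_mul, inv_pow, mul_inv_cancel₀ (pow_ne_zero _ hw0), map_one,
      one_mul]

/-! ### The Gauss normal form -/

/-- `f = w^n · U₁ / U₂` with integral `U₁, U₂` of nonzero reduction. -/
def GaussForm (M : ℕ) (A : ValuationSubring Qb) (E : IntermediateField ℚ Qb) (w₀ : Qb)
    (f : Om M) : Prop :=
  ∃ (n : ℤ) (U₁ U₂ : LaurentSeries A), IsIntE M A E U₁ ∧ IsIntE M A E U₂ ∧
    red A U₁ ≠ 0 ∧ red A U₂ ≠ 0 ∧
    (f : LaurentSeries Qb) * inc A U₂ = HahnSeries.C w₀ ^ n * inc A U₁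

theorem GaussForm.ne_zero {w₀ : Qb} (hw0 : w₀ ≠ 0) {f : Om M} (h : GaussForm M A E w₀ f) :
    f ≠ 0 := by
  rintro rfl
  obtain ⟨n, U₁, U₂, -, -, hr₁, -, heq⟩ := h
  have h1 : (HahnSeries.C w₀ : LaurentSeries Qb) ≠ 0 := by
    intro h
    exact hw0 (HahnSeries.C_injective (by rw [h, map_zero]))
  have : HahnSeries.C w₀ ^ n * inc A U₁ = 0 := by
    rw [← heq]
    show (0 : LaurentSeries Qb) * _ = 0
    rw [zero_mul]
  rcases mul_eq_zero.mp this with h | h
  · exact zpow_ne_zero n h1 h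
  · exact red_ne_zero_imp_inc_ne_zero hr₁ h

theorem C_ne_zero' {w₀ : Qb} (hw0 : w₀ ≠ 0) : (HahnSeries.C w₀ : LaurentSeries Qb) ≠ 0 := by
  intro h
  exact hw0 (HahnSeries.C_injective (by rw [h, map_zero]))

theorem GaussForm.inv {w₀ : Qb} (hw0 : w₀ ≠ 0) {f : Om M} (h : GaussForm M A E w₀ f) :
    GaussForm M A E w₀ f⁻¹ := by
  have hf0 := h.ne_zero hw0
  obtain ⟨n, U₁, U₂, h₁, h₂, hr₁, hr₂, heq⟩ := h
  refine ⟨-n, U₂, U₁, h₂, h₁, hr₂, hr₁, ?_⟩
  have hfv0 : (f : LaurentSeries Qb) ≠ 0 := fun h => hf0 (val_eq_zero_iff.mp h)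
  have hC := C_ne_zero' hw0
  have hCn : (HahnSeries.C w₀ : LaurentSeries Qb) ^ n ≠ 0 := zpow_ne_zero n hC
  rw [val_inv, zpow_neg]
  have h1 : inc A U₁ = (HahnSeries.C w₀ ^ n)⁻¹ * ((f : LaurentSeries Qb) * inc A U₂) := by
    rw [heq, ← mul_assoc, inv_mul_cancel₀ hCn, one_mul]
  rw [h1]
  field_simp

theorem GaussForm.mul {w₀ : Qb} (hw0 : w₀ ≠ 0) {f g : Om M} (hf : GaussForm M A E w₀ f)
    (hg : GaussForm M A E w₀ g) : GaussForm M A E w₀ (f * g) := by
  obtain ⟨n, U₁, U₂, h₁, h₂, hr₁, hr₂, heq⟩ := hf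
  obtain ⟨n', W₁, W₂, k₁, k₂, kr₁, kr₂, heq'⟩ := hg
  refine ⟨n + n', U₁ * W₁, U₂ * W₂, IsIntE.mul h₁ k₁, IsIntE.mul h₂ k₂, ?_, ?_, ?_⟩
  · rw [map_mul]; exact mul_ne_zero hr₁ kr₁
  · rw [map_mul]; exact mul_ne_zero hr₂ kr₂
  · rw [val_mul, map_mul, map_mul, zpow_add₀ (C_ne_zero' hw0)]
    calc (f : LaurentSeries Qb) * (g : LaurentSeries Qb) * (inc A U₂ * inc A W₂)
        = ((f : LaurentSeries Qb) * inc A U₂) * ((g : LaurentSeries Qb) * inc A W₂) := by ring
      _ = _ := by rw [heq, heq']; ring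

theorem GaussForm.neg {w₀ : Qb} {f : Om M} (hf : GaussForm M A E w₀ f) :
    GaussForm M A E w₀ (-f) := by
  obtain ⟨n, U₁, U₂, h₁, h₂, hr₁, hr₂, heq⟩ := hf
  refine ⟨n, -U₁, U₂, IsIntE.neg h₁, h₂, ?_, hr₂, ?_⟩
  · rw [map_neg]; exact neg_ne_zero.mpr hr₁
  · show (-(f : LaurentSeries Qb)) * inc A U₂ = _
    rw [map_neg, neg_mul, heq, mul_neg]

/-- The sum of two Gauss forms (with `n ≤ n'`) is `0` or a Gauss form. -/
theorem GaussForm.add_aux {w₀ : Qb} (hw : _root_.Fermat.Agent.S18.H24.IsUnif A E w₀) {f g : Om M} {n : ℤ} {d : ℕ}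
    {U₁ U₂ W₁ W₂ : LaurentSeries A}
    (h₁ : IsIntE M A E U₁) (h₂ : IsIntE M A E U₂) (hr₂ : red A U₂ ≠ 0)
    (heq : (f : LaurentSeries Qb) * inc A U₂ = HahnSeries.C w₀ ^ n * inc A U₁)
    (k₁ : IsIntE M A E W₁) (k₂ : IsIntE M A E W₂) (kr₂ : red A W₂ ≠ 0)
    (heq' : (g : LaurentSeries Qb) * inc A W₂ = HahnSeries.C w₀ ^ (n + d) * inc A W₁) :
    f + g = 0 ∨ GaussForm M A E w₀ (f + g) := by
  have hw0 := hw.ne_zero
  have hC := C_ne_zero' hw0
  -- the numerator
  set Nn : LaurentSeries A := U₁ * W₂ + HahnSeries.C (⟨w₀, hw.mem_A⟩ ^ d : A) * W₁ * U₂ with hNn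
  have hNint : IsIntE M A E Nn := by
    refine IsIntE.add (IsIntE.mul h₁ k₂) (IsIntE.mul (IsIntE.mul ?_ k₁) h₂)
    refine isIntE_C ?_
    show ((⟨w₀, hw.mem_A⟩ ^ d : A) : Qb) ∈ E
    rw [SubmonoidClass.coe_pow]
    exact pow_mem hw.mem_E d
  have hincN : inc A Nn = inc A U₁ * inc A W₂ + HahnSeries.C w₀ ^ d * inc A W₁ * inc A U₂ := by
    rw [hNn, map_add, map_mul, map_mul, map_mul, inc_C, SubmonoidClass.coe_pow, map_pow]
  have hden : red A (U₂ * W₂) ≠ 0 := by rw [map_mul]; exact mul_ne_zero hr₂ kr₂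
  have hmain : ((f + g : Om M) : LaurentSeries Qb) * inc A (U₂ * W₂) =
      HahnSeries.C w₀ ^ n * inc A Nn := by
    show ((f : LaurentSeries Qb) + (g : LaurentSeries Qb)) * inc A (U₂ * W₂) = _
    rw [map_mul, hincN]
    calc ((f : LaurentSeries Qb) + (g : LaurentSeries Qb)) * (inc A U₂ * inc A W₂)
        = ((f : LaurentSeries Qb) * inc A U₂) * inc A W₂ +
            ((g : LaurentSeries Qb) * inc A W₂) * inc A U₂ := by ring
      _ = _ := by
        rw [heq, heq', zpow_add₀ hC, zpow_natCast]; ring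
  by_cases hN0 : Nn = 0
  · left
    rw [hN0, map_zero, mul_zero] at hmain
    rcases mul_eq_zero.mp hmain with h | h
    · exact val_eq_zero_iff.mp h
    · exact absurd h (red_ne_zero_imp_inc_ne_zero hden)
  · right
    obtain ⟨a, N₀, hN₀, hrN₀, hNeq⟩ := exists_primitive hw hNint hN0
    refine ⟨n + a, N₀, U₂ * W₂, hN₀, IsIntE.mul h₂ k₂, hrN₀, hden, ?_⟩
    rw [hmain, hNeq, zpow_add₀ hC, zpow_natCast, map_pow]
    ring

theorem GaussForm.add {w₀ : Qb} (hw : _root_.Fermat.Agent.S18.H24.IsUnif A E w₀) {f g : Om M}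
    (hf : GaussForm M A E w₀ f) (hg : GaussForm M A E w₀ g) :
    f + g = 0 ∨ GaussForm M A E w₀ (f + g) := by
  obtain ⟨n, U₁, U₂, h₁, h₂, -, hr₂, heq⟩ := hf
  obtain ⟨n', W₁, W₂, k₁, k₂, -, kr₂, heq'⟩ := hg
  rcases le_total n n' with h | h
  · obtain ⟨d, hd⟩ := Int.le.dest h
    rw [← hd] at heq'
    exact GaussForm.add_aux hw h₁ h₂ hr₂ heq k₁ k₂ kr₂ heq'
  · obtain ⟨d, hd⟩ := Int.le.dest h
    rw [← hd] at heq
    rw [add_comm]
    exact GaussForm.add_aux hw k₁ k₂ kr₂ heq' h₁ h₂ hr₂ heq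

end Fermat.Agent.S18.H24

end
end
-- ===== PACK-END S18/H24/GaussB.lean

-- ===== PACK-BEGIN S18/H24/GaussC.lean
section



/-!
# S18 / MOD-ASM, piece G-V (helper24) — part C: `V_total`, `gauss`, `x ∈ V`

* `gaussForm_of_mem_Fc` : every `f ∈ Fc` is `0` or has a Gauss normal form `w^n U₁/U₂`;
* `field_V_total`       : field `V_total` of `Alg.GoodModel`;
* `field_gauss`         : field `gauss` for every coordinate with an integral expansion `q⁻¹ + …`;
* `coord_mem_Vc`        : the coordinate lies in `V`.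
-/

set_option autoImplicit false

noncomputable section

namespace Fermat.Agent.S18.H24

open ModularCurve AlgebraicCurve HahnSeries Fermat.Agent.S18 Fermat.Agent.S18.Mod
open Fermat.Agent.S18.H456

variable {M : ℕ} {A : ValuationSubring Qb} {E : IntermediateField ℚ Qb}

theorem residue_ne_zero_of_inv_mem {c : A} (hc0 : (c : Qb) ≠ 0) (hc : (c : Qb)⁻¹ ∈ A) :
    IsLocalRing.residue A c ≠ 0 := by
  intro h
  have hm := (IsLocalRing.residue_eq_zero_iff _).mp h
  rcases (mem_maximalIdeal_iff _).mp hm with h0 | hni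
  · exact hc0 h0
  · exact hni hc

/-- Gauss form of a nonzero constant of `E`. -/
theorem gaussForm_cst {w₀ : Qb} (hw : _root_.Fermat.Agent.S18.H24.IsUnif A E w₀) {c : Qb} (hcE : c ∈ E) (hc0 : c ≠ 0) :
    GaussForm M A E w₀ (cst M c) := by
  have hw0 := hw.ne_zero
  have hC := C_ne_zero' hw0
  -- the case `c ∈ A`
  have key : ∀ c : Qb, c ∈ E → c ≠ 0 → c ∈ A → GaussForm M A E w₀ (cst M c) := by
    intro c hcE hc0 hcA
    obtain ⟨k, hk1, hk2⟩ := hw.discrete c hcA hcE hc0
    have hu0 : c * (w₀⁻¹) ^ k ≠ 0 := mul_ne_zero hc0 (pow_ne_zero _ (inv_ne_zero hw0))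
    have huE : c * (w₀⁻¹) ^ k ∈ E := mul_mem hcE (pow_mem (inv_mem hw.mem_E) _)
    refine ⟨k, HahnSeries.C (⟨c * (w₀⁻¹) ^ k, hk1⟩ : A), 1, isIntE_C huE, isIntE_one, ?_, ?_, ?_⟩
    · rw [red_C]
      intro h
      exact residue_ne_zero_of_inv_mem (c := ⟨c * (w₀⁻¹) ^ k, hk1⟩) hu0 hk2
        (HahnSeries.C_injective (by rw [h, map_zero]))
    · rw [map_one]; exact one_ne_zero
    · rw [map_one, mul_one, val_cst', inc_C, zpow_natCast, ← map_pow, ← map_mul]
      congr 1
      show c = w₀ ^ k * (c * (w₀⁻¹) ^ k)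
      rw [inv_pow]
      field_simp
  rcases A.mem_or_inv_mem c with hcA | hcA
  · exact key c hcE hc0 hcA
  · have := (key c⁻¹ (inv_mem hcE) (inv_ne_zero hc0) hcA).inv hw0
    rwa [← map_inv₀, inv_inv] at this

theorem jqNModC_ne_zero (K : Type*) [CommRing K] [Nontrivial K] (d : ℕ) [NeZero d] :
    jqNModC K d ≠ 0 := by
  intro h
  have : jqModC K = 0 := qExpand_injective d (by rw [map_zero]; exact h)
  exact jqModC_ne_zero_of_nontrivial K this

theorem val_jd (d : ℕ) [NeZero d] (hd : d ∣ M) :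
    ((jd M d hd : Om M) : LaurentSeries Qb) = inc A (jqNModC A d) := by
  show coeffEmb Qb (qExpand ℚ d jq) = _
  have h1 : coeffEmb Qb (qExpand ℚ d jq) = jqNModC Qb d := coeffMap_jqNModC (algebraMap ℚ Qb) d
  rw [h1]
  exact (coeffMap_jqNModC A.subtype d).symm

theorem jd_mem_Fc (d : ℕ) [NeZero d] (hd : d ∣ M) : jd M d hd ∈ Fc M E :=
  Subfield.subset_closure (Or.inr ⟨d, inferInstance, hd, rfl⟩)

theorem gaussForm_jd (w₀ : Qb) (d : ℕ) [NeZero d] (hd : d ∣ M) :
    GaussForm M A E w₀ (jd M d hd) := by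
  refine ⟨0, jqNModC A d, 1, ?_, isIntE_one, ?_, ?_, ?_⟩
  · exact (isIntE_iff M A E).mpr ⟨jd M d hd, jd_mem_Fc d hd, val_jd d hd⟩
  · show coeffMap (IsLocalRing.residue A) (jqNModC A d) ≠ 0
    rw [coeffMap_jqNModC]
    exact jqNModC_ne_zero _ d
  · rw [map_one]; exact one_ne_zero
  · rw [map_one, mul_one, zpow_zero, one_mul, val_jd d hd]

theorem gaussForm_one (w₀ : Qb) : GaussForm M A E w₀ 1 := by
  refine ⟨0, 1, 1, isIntE_one, isIntE_one, ?_, ?_, ?_⟩
  · rw [map_one]; exact one_ne_zero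
  · rw [map_one]; exact one_ne_zero
  · rw [map_one, mul_one, zpow_zero, one_mul]; rfl

/-- **Gauss normal form.** -/
theorem gaussForm_of_mem_Fc {w₀ : Qb} (hw : _root_.Fermat.Agent.S18.H24.IsUnif A E w₀) {f : Om M} (hf : f ∈ Fc M E) :
    f = 0 ∨ GaussForm M A E w₀ f := by
  have hw0 := hw.ne_zero
  unfold Fc at hf
  induction hf using Subfield.closure_induction with
  | mem y hy =>
    rcases hy with hy | hy
    · obtain ⟨c, hc, rfl⟩ := (mem_Ec_iff M E).1 hy
      by_cases hc0 : c = 0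
      · left; rw [hc0]; exact map_zero _
      · right; exact gaussForm_cst hw hc hc0
    · obtain ⟨d, hd, hdM, rfl⟩ := hy
      right
      exact gaussForm_jd w₀ d hdM
  | one => right; exact gaussForm_one w₀
  | add x y _ _ hx hy =>
    rcases hx with rfl | hx
    · rw [zero_add]; exact hy
    · rcases hy with rfl | hy
      · rw [add_zero]; exact Or.inr hx
      · exact hx.add hw hy
  | neg x _ hx =>
    rcases hx with rfl | hx
    · left; rw [neg_zero]
    · right; exact hx.neg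
  | inv x _ hx =>
    rcases hx with rfl | hx
    · left; rw [inv_zero]
    · right; exact hx.inv hw0
  | mul x y _ _ hx hy =>
    rcases hx with rfl | hx
    · left; rw [zero_mul]
    · rcases hy with rfl | hy
      · left; rw [mul_zero]
      · right; exact hx.mul hw0 hy

/-- A Gauss form with `n ≥ 0` lies in `V`. -/
theorem GaussForm.mem_Vc_of_nonneg {w₀ : Qb} (hw : _root_.Fermat.Agent.S18.H24.IsUnif A E w₀) {f : Om M} (hfF : f ∈ Fc M E)
    {n : ℕ} {U₁ U₂ : LaurentSeries A} (h₁ : IsIntE M A E U₁) (h₂ : IsIntE M A E U₂)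
    (hr₂ : red A U₂ ≠ 0)
    (heq : (f : LaurentSeries Qb) * inc A U₂ = HahnSeries.C w₀ ^ n * inc A U₁) :
    f ∈ Vc M A E := by
  refine ⟨hfF, HahnSeries.C (⟨w₀, hw.mem_A⟩ ^ n : A) * U₁, U₂, IsIntE.mul (isIntE_C ?_) h₁, h₂,
    hr₂, ?_⟩
  · show ((⟨w₀, hw.mem_A⟩ ^ n : A) : Qb) ∈ E
    rw [SubmonoidClass.coe_pow]
    exact pow_mem hw.mem_E n
  · rw [heq, map_mul, inc_C, SubmonoidClass.coe_pow, map_pow]

variable (M) in
/-- field `V_total`. -/
theorem field_V_total {w₀ : Qb} (hw : _root_.Fermat.Agent.S18.H24.IsUnif A E w₀) :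
    ∀ f ∈ Fc M E, f ∈ Vc M A E ∨ f⁻¹ ∈ Vc M A E := by
  intro f hf
  rcases gaussForm_of_mem_Fc hw hf with rfl | hG
  · left; exact zero_mem _
  · have hw0 := hw.ne_zero
    obtain ⟨n, U₁, U₂, h₁, h₂, hr₁, hr₂, heq⟩ := hG
    rcases le_total 0 n with hn | hn
    · left
      obtain ⟨d, rfl⟩ := Int.eq_ofNat_of_zero_le hn
      rw [zpow_natCast] at heq
      exact GaussForm.mem_Vc_of_nonneg hw hf h₁ h₂ hr₂ heq
    · right
      have hG' : GaussForm M A E w₀ f := ⟨n, U₁, U₂, h₁, h₂, hr₁, hr₂, heq⟩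
      obtain ⟨n', W₁, W₂, k₁, k₂, kr₁, kr₂, heq'⟩ := hG'.inv hw0
      -- use the explicit inverse form instead
      have hf0 := hG'.ne_zero hw0
      have hfv0 : (f : LaurentSeries Qb) ≠ 0 := fun h => hf0 (val_eq_zero_iff.mp h)
      have hC := C_ne_zero' hw0
      obtain ⟨d, hd⟩ : ∃ d : ℕ, -n = d := Int.eq_ofNat_of_zero_le (by omega)
      have heq2 : ((f⁻¹ : Om M) : LaurentSeries Qb) * inc A U₁ = HahnSeries.C w₀ ^ d * inc A U₂ := by
        rw [val_inv]
        have hCn : (HahnSeries.C w₀ : LaurentSeries Qb) ^ n ≠ 0 := zpow_ne_zero n hC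
        have h1 : inc A U₁ = (HahnSeries.C w₀ ^ n)⁻¹ * ((f : LaurentSeries Qb) * inc A U₂) := by
          rw [heq, ← mul_assoc, inv_mul_cancel₀ hCn, one_mul]
        rw [h1, ← zpow_neg, hd, zpow_natCast]
        field_simp
      exact GaussForm.mem_Vc_of_nonneg hw (inv_mem hf) h₂ h₁ hr₁ heq2

/-! ### The coordinate and the field `gauss` -/

section Coord

variable [NeZero M]

/-- The integral series of a coordinate, over `A`. -/
theorem exists_series_of_hasIntExp {x : Om M} (hx : HasIntExp M x) :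
    ∃ XA : LaurentSeries A, IsIntE M A E XA ∧ inc A XA = (x : LaurentSeries Qb) ∧
      (red A XA).order ≠ 0 := by
  have hxF := mem_Fc_of_hasIntExp M E hx
  obtain ⟨X, h1, h2, h3, -⟩ := hx
  refine ⟨coeffMap (Int.castRingHom A) X, ?_, ?_, ?_⟩
  · refine (isIntE_iff M A E).mpr ⟨x, hxF, ?_⟩
    rw [h3]
    show _ = coeffMap A.subtype (coeffMap (Int.castRingHom A) X)
    rw [coeffMap_coeffMap]
    exact coeffMap_congr (RingHom.ext_int _ _) X
  · rw [h3]
    show coeffMap A.subtype (coeffMap (Int.castRingHom A) X) = _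
    rw [coeffMap_coeffMap]
    exact coeffMap_congr (RingHom.ext_int _ _) X
  · show (coeffMap (IsLocalRing.residue A) (coeffMap (Int.castRingHom A) X)).order ≠ 0
    rw [coeffMap_coeffMap]
    set Xk := coeffMap ((IsLocalRing.residue A).comp (Int.castRingHom A)) X with hXk
    have hc1 : Xk.coeff (-1) = 1 := by
      rw [hXk, coeffMap_coeff, h1, map_one]
    have hne : Xk ≠ 0 := by
      intro h
      rw [h, HahnSeries.coeff_zero] at hc1
      exact zero_ne_one hc1
    have hle : Xk.order ≤ -1 := HahnSeries.order_le_of_coeff_ne_zero (by rw [hc1]; exact one_ne_zero)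
    omega

theorem coord_mem_Vc {x : Om M} (hx : HasIntExp M x) : x ∈ Vc M A E := by
  obtain ⟨XA, hXA, hinc, -⟩ := exists_series_of_hasIntExp (A := A) (E := E) hx
  exact mem_VcSet_of_isIntE hXA hinc.symm

/-- field `gauss` (for a coordinate with integral expansion `q⁻¹ + …`). -/
theorem field_gauss {x : Om M} (hx : HasIntExp M x) :
    ∀ P : Polynomial (Om M), (∀ i, P.coeff i ∈ Rc M A E) →
      (∃ i, P.coeff i ≠ 0 ∧ (P.coeff i)⁻¹ ∈ Rc M A E) → (P.eval x)⁻¹ ∈ Vc M A E := by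
  intro P hP hunit
  have hxF := mem_Fc_of_hasIntExp M E hx
  obtain ⟨XA, hXA, hinc, hord⟩ := exists_series_of_hasIntExp (A := A) (E := E) hx
  -- lift `P` to `A[X]`
  let φ : A →+* Om M := (algebraMap Qb (Om M)).comp A.subtype
  have hlift : P ∈ Polynomial.lifts φ := by
    rw [Polynomial.lifts_iff_coeff_lifts]
    intro i
    obtain ⟨c, hcA, -, hc⟩ := (mem_Rc_iff M A E).mp (hP i)
    exact ⟨⟨c, hcA⟩, hc⟩
  obtain ⟨p, hp'⟩ := hlift
  have hp : p.map φ = P := hp'
  have hpcoeff : ∀ i, cst M ((p.coeff i : A) : Qb) = P.coeff i := by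
    intro i
    rw [← hp, Polynomial.coeff_map]
    rfl
  have hpE : ∀ i, ((p.coeff i : A) : Qb) ∈ E := by
    intro i
    obtain ⟨c, -, hcE, hc⟩ := (mem_Rc_iff M A E).mp (hP i)
    have : c = ((p.coeff i : A) : Qb) := cst_injective M (by rw [hc, hpcoeff])
    rw [← this]; exact hcE
  -- the series
  set U : LaurentSeries A := p.eval₂ (HahnSeries.C (Γ := ℤ) (R := A)) XA with hU
  have hUint : IsIntE M A E U := by
    rw [hU, Polynomial.eval₂_eq_sum_range]
    have : ∀ (s : Finset ℕ), IsIntE M A E (∑ i ∈ s, HahnSeries.C (p.coeff i) * XA ^ i) := by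
      intro s
      induction s using Finset.induction_on with
      | empty => rw [Finset.sum_empty]; exact isIntE_zero
      | insert a s ha ih =>
        rw [Finset.sum_insert ha]
        exact IsIntE.add (IsIntE.mul (isIntE_C (hpE a)) (IsIntE.pow hXA a)) ih
    exact this _
  have hincU : inc A U = ((P.eval x : Om M) : LaurentSeries Qb) := by
    rw [hU, Polynomial.hom_eval₂, hinc]
    have h1 : ((P.eval x : Om M) : LaurentSeries Qb) =
        P.eval₂ (modularFunctionFieldBar M).val.toRingHom (x : LaurentSeries Qb) := by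
      have := Polynomial.hom_eval₂ P (RingHom.id (Om M)) (modularFunctionFieldBar M).val.toRingHom x
      simp only [Polynomial.eval₂_id, RingHom.comp_id] at this
      exact this
    rw [h1, ← hp, Polynomial.eval₂_map]
    congr 1
    ext c : 1
    show inc A (HahnSeries.C c) = ((cst M (c : Qb) : Om M) : LaurentSeries Qb)
    rw [inc_C, val_cst']
  have hredU : red A U ≠ 0 := by
    rw [hU, Polynomial.hom_eval₂]
    have hcomp : (red A).comp (HahnSeries.C (Γ := ℤ) (R := A)) =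
        (HahnSeries.C (Γ := ℤ) (R := IsLocalRing.ResidueField A)).comp (IsLocalRing.residue A) := by
      ext c : 1
      exact red_C c
    rw [hcomp, ← Polynomial.eval₂_map]
    intro h0
    have hp0 := Fermat.Agent.S28.H806.eq_zero_of_eval₂_C_eq_zero _ hord _ h0
    obtain ⟨i, hi0, hiinv⟩ := hunit
    have hci : (p.map (IsLocalRing.residue A)).coeff i = 0 := by rw [hp0, Polynomial.coeff_zero]
    rw [Polynomial.coeff_map] at hci
    have hc0 : ((p.coeff i : A) : Qb) ≠ 0 := by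
      intro h
      apply hi0
      rw [← hpcoeff, h]
      exact map_zero _
    have hcinv : ((p.coeff i : A) : Qb)⁻¹ ∈ A := by
      obtain ⟨c, hcA, -, hc⟩ := (mem_Rc_iff M A E).mp hiinv
      rw [← hpcoeff, ← map_inv₀] at hc
      have := cst_injective M hc
      rw [← this]; exact hcA
    exact residue_ne_zero_of_inv_mem hc0 hcinv hci
  have hPx0 : ((P.eval x : Om M) : LaurentSeries Qb) ≠ 0 := by
    rw [← hincU]; exact red_ne_zero_imp_inc_ne_zero hredU
  refine ⟨inv_mem ?_, 1, U, isIntE_one, hUint, hredU, ?_⟩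
  · -- `P.eval x ∈ Fc`
    rw [Polynomial.eval_eq_sum_range]
    refine Subfield.sum_mem _ fun i _ => ?_
    exact mul_mem (field_E_le_F M E (field_R_le M A E (hP i))) (pow_mem hxF i)
  · rw [val_inv, hincU, map_one, inv_mul_cancel₀ hPx0]

end Coord

end Fermat.Agent.S18.H24

end
end
-- ===== PACK-END S18/H24/GaussC.lean

-- ===== PACK-BEGIN S18/H456/ModS.lean
section



/-!
# S18 / MOD assembly (helper456): the fields `S_mem`, `S_distinct`, `S_unit` of `Alg.GoodModel`
-/

set_option autoImplicit false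

noncomputable section

namespace Fermat.Agent.S18.H456

open ModularCurve AlgebraicCurve HahnSeries Fermat.Agent.S18 Fermat.Agent.S18.Mod

variable (M : ℕ) (A : ValuationSubring Qb) (E : IntermediateField ℚ Qb)

/-- An integer prime to `ℓ` is a unit of `A`. -/
theorem inv_intCast_mem_A {ℓ : ℕ} (hA : A.LiesOverPrime ℓ) (n : ℤ)
    (hn : IsCoprime n (ℓ : ℤ)) : ((n : Qb))⁻¹ ∈ A := by
  obtain ⟨a, b, hab⟩ := hn
  have hℓ : A.valuation (ℓ : Qb) < 1 := (ValuationSubring.mem_nonunits_iff A).1 hA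
  have hle : ∀ k : ℤ, A.valuation (k : Qb) ≤ 1 := fun k =>
    (A.valuation_le_one_iff _).2 (intCast_mem A k)
  rw [← A.valuation_le_one_iff, map_inv₀]
  by_contra hcon
  have hlt : A.valuation (n : Qb) < 1 := by
    by_contra h
    push Not at h
    have h1 : A.valuation (n : Qb) = 1 := le_antisymm (hle n) h
    rw [h1, inv_one] at hcon
    exact hcon le_rfl
  have h1 : A.valuation ((a : Qb) * n + b * ℓ) < 1 := by
    refine lt_of_le_of_lt (A.valuation.map_add _ _) (max_lt ?_ ?_)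
    · rw [map_mul]
      calc A.valuation (a : Qb) * A.valuation (n : Qb) ≤ 1 * A.valuation (n : Qb) :=
            mul_le_mul_left (hle a) _
        _ = A.valuation (n : Qb) := one_mul _
        _ < 1 := hlt
    · rw [map_mul]
      calc A.valuation (b : Qb) * A.valuation (ℓ : Qb) ≤ 1 * A.valuation (ℓ : Qb) :=
            mul_le_mul_left (hle b) _
        _ = A.valuation (ℓ : Qb) := one_mul _
        _ < 1 := hℓ
  have h2 : ((a : Qb) * n + b * ℓ) = 1 := by
    have := congrArg (Int.cast : ℤ → Qb) hab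
    push_cast at this
    exact this
  rw [h2, map_one] at h1
  exact lt_irrefl _ h1

theorem cst_intCast (n : ℤ) : cst M (n : Qb) = (n : Om M) := map_intCast _ n

theorem intCast_mem_Rc (n : ℤ) : (n : Om M) ∈ Rc M A E := by
  rw [← cst_intCast]
  exact cst_mem_Rc M A E (intCast_mem A n) (intCast_mem E n)

theorem inv_intCast_mem_Rc {ℓ : ℕ} (hA : A.LiesOverPrime ℓ) (n : ℤ)
    (hn : IsCoprime n (ℓ : ℤ)) : ((n : Om M))⁻¹ ∈ Rc M A E := by
  rw [← cst_intCast, ← map_inv₀]
  exact cst_mem_Rc M A E (inv_intCast_mem_A A hA n hn) (inv_mem (intCast_mem E n))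

/-- The three fields `S_mem`, `S_distinct`, `S_unit` for `S = {0, b}`, `b` an integer prime
to `ℓ`. -/
theorem S_fields_of_int {ℓ : ℕ} (hA : A.LiesOverPrime ℓ) (b : ℤ) (hb : IsCoprime b (ℓ : ℤ))
    (S : Finset (Om M)) (hS : ∀ s, s ∈ S ↔ s = 0 ∨ s = (b : Om M)) :
    (∀ s ∈ S, s ∈ Rc M A E) ∧
    (∀ s ∈ S, ∀ t ∈ S, s ≠ t → (s - t)⁻¹ ∈ Rc M A E) ∧
    (∀ s ∈ S, s ≠ 0 → s⁻¹ ∈ Rc M A E) := by
  have hb' : IsCoprime (-b) (ℓ : ℤ) := hb.neg_left
  refine ⟨?_, ?_, ?_⟩
  · intro s hs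
    rcases (hS s).1 hs with rfl | rfl
    · exact zero_mem _
    · exact intCast_mem_Rc M A E b
  · intro s hs t ht hst
    rcases (hS s).1 hs with rfl | rfl <;> rcases (hS t).1 ht with rfl | rfl
    · exact absurd rfl hst
    · rw [zero_sub]
      have := inv_intCast_mem_Rc M A E hA (-b) hb'
      rwa [Int.cast_neg] at this
    · rw [sub_zero]
      exact inv_intCast_mem_Rc M A E hA b hb
    · exact absurd rfl hst
  · intro s hs hs0
    rcases (hS s).1 hs with rfl | rfl
    · exact absurd rfl hs0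
    · exact inv_intCast_mem_Rc M A E hA b hb

/-- **S-fields** for an admissible coordinate (`ℓ` prime). -/
theorem field_S [NeZero M] {ℓ : ℕ} (hℓ : ℓ.Prime) (hA : A.LiesOverPrime ℓ) {x : Om M}
    {S : Finset (Om M)} (hx : IsCoordinate M ℓ x S) :
    (∀ s ∈ S, s ∈ Rc M A E) ∧
    (∀ s ∈ S, ∀ t ∈ S, s ≠ t → (s - t)⁻¹ ∈ Rc M A E) ∧
    (∀ s ∈ S, s ≠ 0 → s⁻¹ ∈ Rc M A E) := by
  rcases hx with ⟨h5, -, hS⟩ | ⟨⟨h3, -, hS⟩ | ⟨h2, -, hS⟩, -⟩
  · refine S_fields_of_int M A E hA 1728 ?_ S (fun s => by rw [hS s]; norm_num)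
    have h1728 : (1728 : ℤ) = 2 ^ 6 * 3 ^ 3 := by norm_num
    rw [h1728]
    have h2 : IsCoprime (2 : ℤ) (ℓ : ℤ) := by
      rw [Int.isCoprime_iff_gcd_eq_one]
      exact (Nat.coprime_primes Nat.prime_two hℓ).2 (by omega)
    have h3 : IsCoprime (3 : ℤ) (ℓ : ℤ) := by
      rw [Int.isCoprime_iff_gcd_eq_one]
      exact (Nat.coprime_primes Nat.prime_three hℓ).2 (by omega)
    exact (h2.pow_left).mul_left (h3.pow_left)
  · subst h3
    refine S_fields_of_int M A E hA (-64) ?_ S (fun s => by rw [hS s]; norm_num)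
    have h64 : (-64 : ℤ) = -(2 ^ 6) := by norm_num
    rw [h64]
    have h2 : IsCoprime (2 : ℤ) ((3 : ℕ) : ℤ) := by
      rw [Int.isCoprime_iff_gcd_eq_one]; decide
    exact (h2.pow_left).neg_left
  · subst h2
    refine S_fields_of_int M A E hA (-27) ?_ S (fun s => by rw [hS s]; norm_num)
    have h27 : (-27 : ℤ) = -(3 ^ 3) := by norm_num
    rw [h27]
    have h3 : IsCoprime (3 : ℤ) ((2 : ℕ) : ℤ) := by
      rw [Int.isCoprime_iff_gcd_eq_one]; decide
    exact (h3.pow_left).neg_left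

end Fermat.Agent.S18.H456

end
end
-- ===== PACK-END S18/H456/ModS.lean

-- ===== PACK-BEGIN S18/H456/ModR.lean
section



/-!
# S18 / MOD assembly (helper456): G-R — the fields `w_mem`, `w_ne_zero`, `w_inv_not_mem`, `w_gen`,
`w_discrete`, `residue_perfect` of `Alg.GoodModel` for `R = Rc M A E` (`E/ℚ` finite)

Input: `H602.isDiscreteValuationRing_RE` (helper602, on main).
-/

set_option autoImplicit false

noncomputable section

namespace Fermat.Agent.S18.H456

open ModularCurve AlgebraicCurve HahnSeries Fermat.Agent.S18 Fermat.Agent.S18.Mod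
open scoped NumberField

variable (M : ℕ) (A : ValuationSubring Qb) (E : IntermediateField ℚ Qb)

/-- The constant in `Ω` attached to an element of `R_E = A ∩ E`. -/
def cstR (r : H602.RE A E) : Om M := cst M ((r : E) : Qb)

theorem cstR_mem_Rc (r : H602.RE A E) : cstR M A E r ∈ Rc M A E :=
  cst_mem_Rc M A E (H602.mem_RE.1 r.2) (r : E).2

theorem mem_Rc_iff_cstR {f : Om M} : f ∈ Rc M A E ↔ ∃ r : H602.RE A E, cstR M A E r = f := by
  constructor
  · intro hf
    obtain ⟨c, hA, hE, rfl⟩ := (mem_Rc_iff M A E).1 hf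
    exact ⟨⟨⟨c, hE⟩, H602.mem_RE.2 hA⟩, rfl⟩
  · rintro ⟨r, rfl⟩
    exact cstR_mem_Rc M A E r

theorem cstR_injective : Function.Injective (cstR M A E) := by
  intro r s h
  have h1 : ((r : E) : Qb) = ((s : E) : Qb) := cst_injective M h
  exact Subtype.ext (Subtype.ext h1)

theorem cstR_mul (r s : H602.RE A E) : cstR M A E (r * s) = cstR M A E r * cstR M A E s := by
  unfold cstR
  rw [← map_mul]
  rfl

theorem cstR_pow (r : H602.RE A E) (n : ℕ) : cstR M A E (r ^ n) = cstR M A E r ^ n := by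
  unfold cstR
  rw [← map_pow]
  rfl

theorem cstR_sub (r s : H602.RE A E) : cstR M A E (r - s) = cstR M A E r - cstR M A E s := by
  unfold cstR
  rw [← map_sub]
  rfl

theorem cstR_one : cstR M A E 1 = 1 := by
  unfold cstR
  exact map_one _

theorem cstR_zero : cstR M A E 0 = 0 := by
  unfold cstR
  exact map_zero _

theorem cstR_natCast (n : ℕ) : cstR M A E (n : H602.RE A E) = (n : Om M) := by
  unfold cstR
  show cst M (((n : H602.RE A E) : E) : Qb) = _
  have : (((n : H602.RE A E) : E) : Qb) = (n : Qb) := by simp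
  rw [this]
  exact map_natCast _ n

theorem cstR_eq_zero_iff {r : H602.RE A E} : cstR M A E r = 0 ↔ r = 0 := by
  rw [← cstR_zero M A E]
  exact (cstR_injective M A E).eq_iff

/-- `cstR r` is invertible in `Rc` iff `r` is a unit. -/
theorem inv_cstR_mem_Rc_iff {r : H602.RE A E} (hr : r ≠ 0) :
    (cstR M A E r)⁻¹ ∈ Rc M A E ↔ IsUnit r := by
  constructor
  · intro h
    obtain ⟨s, hs⟩ := (mem_Rc_iff_cstR M A E).1 h
    refine isUnit_iff_exists_inv.2 ⟨s, ?_⟩
    apply cstR_injective M A E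
    rw [cstR_mul, hs, cstR_one]
    exact mul_inv_cancel₀ (fun h0 => hr ((cstR_eq_zero_iff M A E).1 h0))
  · intro h
    obtain ⟨s, hs⟩ := isUnit_iff_exists_inv.1 h
    have : (cstR M A E r)⁻¹ = cstR M A E s := by
      apply inv_eq_of_mul_eq_one_right
      rw [← cstR_mul, hs, cstR_one]
    rw [this]
    exact cstR_mem_Rc M A E s

/-- `w` is (the image of) a uniformiser of `R_E`. -/
def IsUnif (w : Om M) : Prop := ∃ ϖ : H602.RE A E, Irreducible ϖ ∧ w = cstR M A E ϖ

variable {M A E}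

theorem IsUnif.mem {w : Om M} (hw : IsUnif M A E w) : w ∈ Rc M A E := by
  obtain ⟨ϖ, -, rfl⟩ := hw
  exact cstR_mem_Rc M A E ϖ

theorem IsUnif.ne_zero {w : Om M} (hw : IsUnif M A E w) : w ≠ 0 := by
  obtain ⟨ϖ, hϖ, rfl⟩ := hw
  exact fun h => hϖ.ne_zero ((cstR_eq_zero_iff M A E).1 h)

theorem IsUnif.inv_not_mem {w : Om M} (hw : IsUnif M A E w) : w⁻¹ ∉ Rc M A E := by
  obtain ⟨ϖ, hϖ, rfl⟩ := hw
  exact fun h => hϖ.not_isUnit ((inv_cstR_mem_Rc_iff M A E hϖ.ne_zero).1 h)

section DVR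

variable [IsDiscreteValuationRing (H602.RE A E)]

theorem IsUnif.gen {w : Om M} (hw : IsUnif M A E w) :
    ∀ r ∈ Rc M A E, r⁻¹ ∉ Rc M A E → r * w⁻¹ ∈ Rc M A E := by
  obtain ⟨ϖ, hϖ, rfl⟩ := hw
  intro r hr hrinv
  obtain ⟨r₀, rfl⟩ := (mem_Rc_iff_cstR M A E).1 hr
  have hr0 : r₀ ≠ 0 := by
    rintro rfl
    rw [cstR_zero, inv_zero] at hrinv
    exact hrinv (zero_mem _)
  have hnu : ¬ IsUnit r₀ := fun h => hrinv ((inv_cstR_mem_Rc_iff M A E hr0).2 h)
  have hmem : r₀ ∈ IsLocalRing.maximalIdeal (H602.RE A E) :=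
    (IsLocalRing.mem_maximalIdeal _).2 hnu
  rw [hϖ.maximalIdeal_eq, Ideal.mem_span_singleton] at hmem
  obtain ⟨s, rfl⟩ := hmem
  rw [cstR_mul, mul_comm (cstR M A E ϖ), mul_assoc,
    mul_inv_cancel₀ (fun h => hϖ.ne_zero ((cstR_eq_zero_iff M A E).1 h)), mul_one]
  exact cstR_mem_Rc M A E s

theorem IsUnif.discrete {w : Om M} (hw : IsUnif M A E w) :
    ∀ r ∈ Rc M A E, r ≠ 0 →
      ∃ n : ℕ, r * (w⁻¹) ^ n ∈ Rc M A E ∧ (r * (w⁻¹) ^ n)⁻¹ ∈ Rc M A E := by
  obtain ⟨ϖ, hϖ, rfl⟩ := hw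
  intro r hr hr0
  obtain ⟨r₀, rfl⟩ := (mem_Rc_iff_cstR M A E).1 hr
  have hr0' : r₀ ≠ 0 := fun h => hr0 (by rw [h, cstR_zero])
  obtain ⟨n, u, hu⟩ := IsDiscreteValuationRing.eq_unit_mul_pow_irreducible hr0' hϖ
  have hw0 : cstR M A E ϖ ≠ 0 := fun h => hϖ.ne_zero ((cstR_eq_zero_iff M A E).1 h)
  have key : cstR M A E r₀ * ((cstR M A E ϖ)⁻¹) ^ n = cstR M A E (u : H602.RE A E) := by
    rw [hu, cstR_mul, cstR_pow, mul_assoc, inv_pow, mul_inv_cancel₀ (pow_ne_zero n hw0), mul_one]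
  refine ⟨n, ?_, ?_⟩
  · rw [key]
    exact cstR_mem_Rc M A E _
  · rw [key]
    exact (inv_cstR_mem_Rc_iff M A E u.ne_zero).2 u.isUnit

/-- Membership in the maximal ideal, in terms of `w`. -/
theorem IsUnif.mul_inv_mem_iff {w : Om M} (hw : IsUnif M A E w) (r : H602.RE A E) :
    cstR M A E r * w⁻¹ ∈ Rc M A E ↔ r ∈ IsLocalRing.maximalIdeal (H602.RE A E) := by
  obtain ⟨ϖ, hϖ, rfl⟩ := hw
  have hw0 : cstR M A E ϖ ≠ 0 := fun h => hϖ.ne_zero ((cstR_eq_zero_iff M A E).1 h)
  rw [hϖ.maximalIdeal_eq, Ideal.mem_span_singleton]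
  constructor
  · intro h
    obtain ⟨s, hs⟩ := (mem_Rc_iff_cstR M A E).1 h
    refine ⟨s, ?_⟩
    apply cstR_injective M A E
    rw [cstR_mul, hs, mul_comm, mul_assoc, inv_mul_cancel₀ hw0, mul_one]
  · rintro ⟨s, rfl⟩
    rw [cstR_mul, mul_comm (cstR M A E ϖ), mul_assoc, mul_inv_cancel₀ hw0, mul_one]
    exact cstR_mem_Rc M A E s

end DVR

variable (M A E)

theorem exists_isUnif [IsDiscreteValuationRing (H602.RE A E)] : ∃ w : Om M, IsUnif M A E w := by
  obtain ⟨ϖ, hϖ⟩ := IsDiscreteValuationRing.exists_irreducible (H602.RE A E)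
  exact ⟨cstR M A E ϖ, ϖ, hϖ, rfl⟩

end Fermat.Agent.S18.H456

end
end
-- ===== PACK-END S18/H456/ModR.lean

-- ===== PACK-BEGIN S18/H516/GaussRing.lean
section





/-!
# S18 / MOD (helper516): the Gauss valuation ring (G6), generic form

`A` a valuation subring of `L ⊇ ℚ`, `π : A →+* k` a ring hom to a field, `F_L` the function
field of level `N` over `L`.

`gaussSet A π N` := elements `f ∈ F_L` of the form `U₁ / U₂` with `U₁, U₂ ∈ A((q))`, images in
`F_L`, `π(U₂) ≠ 0`.  It is a subring (`gaussRing`); given `CoreData N k` it is a valuation ring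
of `F_L` (`gaussSet_total`), with `gaussSet ∩ L = A` when `ker π = 𝔪_A`
(`C_inv_not_mem_gaussSet`), and it has the normal form `f = c · U₁/U₂`, `c ∈ A`
(`exists_normal_form`).
-/

set_option autoImplicit false
set_option linter.unusedSectionVars false

noncomputable section

namespace Fermat.Agent.S18.H516

open ModularCurve IntermediateField Polynomial Fermat.Agent.S28

section G6

variable {L : Type*} [Field L] [Algebra ℚ L] (A : ValuationSubring L)
variable {k : Type} [Field k] (π : A →+* k) (N : ℕ) [NeZero N]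

/-- Gauss-integral series: coefficients in `A`, image in `F_L`. -/
def IsGI (U : LaurentSeries A) : Prop :=
  coeffMap A.subtype U ∈ laurentBaseChange L (modularFunctionFieldFull N)

variable {A N} in
theorem IsGI.add {U W : LaurentSeries A} (hU : IsGI A N U) (hW : IsGI A N W) :
    IsGI A N (U + W) := by
  unfold IsGI at *; rw [map_add]; exact add_mem hU hW

variable {A N} in
theorem IsGI.mul {U W : LaurentSeries A} (hU : IsGI A N U) (hW : IsGI A N W) :
    IsGI A N (U * W) := by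
  unfold IsGI at *; rw [map_mul]; exact mul_mem hU hW

variable {A N} in
theorem IsGI.neg {U : LaurentSeries A} (hU : IsGI A N U) : IsGI A N (-U) := by
  unfold IsGI at *; rw [map_neg]; exact neg_mem hU

theorem isGI_zero : IsGI A N 0 := by
  unfold IsGI; rw [map_zero]; exact zero_mem _

theorem isGI_one : IsGI A N 1 := by
  unfold IsGI; rw [map_one]; exact one_mem _

theorem isGI_C (a : A) : IsGI A N (HahnSeries.C a) := by
  unfold IsGI; rw [coeffMap_C]; exact C_mem_baseChange N _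

variable {A π N} in
theorem IsIntSeries.isGI {U : LaurentSeries A} (hU : IsIntSeries A π N U) : IsGI A N U := hU.1

/-- The Gauss valuation ring, as a set of Laurent series over `L`. -/
def gaussSet : Set (LaurentSeries L) :=
  {f | f ∈ laurentBaseChange L (modularFunctionFieldFull N) ∧
    ∃ U₁ U₂ : LaurentSeries A, IsGI A N U₁ ∧ IsGI A N U₂ ∧ coeffMap π U₂ ≠ 0 ∧
      f * coeffMap A.subtype U₂ = coeffMap A.subtype U₁}

variable {A π N}

theorem incl_mem_gaussSet {U : LaurentSeries A} (hU : IsGI A N U) :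
    coeffMap A.subtype U ∈ gaussSet A π N :=
  ⟨hU, U, 1, hU, isGI_one A N, by rw [map_one]; exact one_ne_zero, by rw [map_one, mul_one]⟩

theorem zero_mem_gaussSet : (0 : LaurentSeries L) ∈ gaussSet A π N := by
  have := incl_mem_gaussSet (π := π) (isGI_zero A N)
  rwa [map_zero] at this

theorem one_mem_gaussSet : (1 : LaurentSeries L) ∈ gaussSet A π N := by
  have := incl_mem_gaussSet (π := π) (isGI_one A N)
  rwa [map_one] at this

theorem C_mem_gaussSet (a : A) : HahnSeries.C (Γ := ℤ) (a : L) ∈ gaussSet A π N := by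
  have := incl_mem_gaussSet (π := π) (isGI_C A N a)
  rwa [coeffMap_C] at this

theorem add_mem_gaussSet {f g : LaurentSeries L} (hf : f ∈ gaussSet A π N)
    (hg : g ∈ gaussSet A π N) : f + g ∈ gaussSet A π N := by
  obtain ⟨hfF, U₁, U₂, hU₁, hU₂, hU₂k, hfU⟩ := hf
  obtain ⟨hgF, W₁, W₂, hW₁, hW₂, hW₂k, hgW⟩ := hg
  refine ⟨add_mem hfF hgF, U₁ * W₂ + W₁ * U₂, U₂ * W₂, (hU₁.mul hW₂).add (hW₁.mul hU₂),
    hU₂.mul hW₂, by rw [map_mul]; exact mul_ne_zero hU₂k hW₂k, ?_⟩
  rw [map_add, map_mul, map_mul, map_mul, ← hfU, ← hgW]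
  ring

theorem neg_mem_gaussSet {f : LaurentSeries L} (hf : f ∈ gaussSet A π N) :
    -f ∈ gaussSet A π N := by
  obtain ⟨hfF, U₁, U₂, hU₁, hU₂, hU₂k, hfU⟩ := hf
  exact ⟨neg_mem hfF, -U₁, U₂, hU₁.neg, hU₂, hU₂k, by rw [map_neg, ← hfU]; ring⟩

theorem mul_mem_gaussSet {f g : LaurentSeries L} (hf : f ∈ gaussSet A π N)
    (hg : g ∈ gaussSet A π N) : f * g ∈ gaussSet A π N := by
  obtain ⟨hfF, U₁, U₂, hU₁, hU₂, hU₂k, hfU⟩ := hf
  obtain ⟨hgF, W₁, W₂, hW₁, hW₂, hW₂k, hgW⟩ := hg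
  refine ⟨mul_mem hfF hgF, U₁ * W₁, U₂ * W₂, hU₁.mul hW₁, hU₂.mul hW₂,
    by rw [map_mul]; exact mul_ne_zero hU₂k hW₂k, ?_⟩
  rw [map_mul, map_mul, ← hfU, ← hgW]
  ring

variable (A π N) in
/-- The Gauss valuation ring as a subring of `L((q))`. -/
def gaussRing : Subring (LaurentSeries L) where
  carrier := gaussSet A π N
  mul_mem' := mul_mem_gaussSet
  one_mem' := one_mem_gaussSet
  add_mem' := add_mem_gaussSet
  zero_mem' := zero_mem_gaussSet
  neg_mem' := neg_mem_gaussSet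

theorem mem_gaussRing {f : LaurentSeries L} : f ∈ gaussRing A π N ↔ f ∈ gaussSet A π N := Iff.rfl

theorem gaussSet_subset {f : LaurentSeries L} (hf : f ∈ gaussSet A π N) :
    f ∈ laurentBaseChange L (modularFunctionFieldFull N) := hf.1

/-- Quotients of integral series with nonzero reduction are units of the Gauss ring. -/
theorem div_mem_gaussSet {U₁ U₂ : LaurentSeries A} (h₁ : IsGI A N U₁) (h₂ : IsGI A N U₂)
    (h₂k : coeffMap π U₂ ≠ 0) :
    coeffMap A.subtype U₁ * (coeffMap A.subtype U₂)⁻¹ ∈ gaussSet A π N := by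
  have h0 : coeffMap A.subtype U₂ ≠ 0 := by
    intro h
    have : U₂ = 0 := incl_injective A (by rw [h, map_zero])
    exact h₂k (by rw [this, map_zero])
  exact ⟨mul_mem h₁ (inv_mem h₂), U₁, U₂, h₁, h₂, h₂k, by
    rw [mul_assoc, inv_mul_cancel₀ h0, mul_one]⟩

/-- **Normal form.** Given the S28 core data, every nonzero `f ∈ F_L` is `c · U₁/U₂` with
integral `U₁, U₂` of nonzero reduction. -/
theorem exists_normal_form (core : CoreData N k) {f : LaurentSeries L}
    (hf : f ∈ laurentBaseChange L (modularFunctionFieldFull N)) (hf0 : f ≠ 0) :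
    ∃ (c : L) (u : LaurentSeries L), c ≠ 0 ∧ f = HahnSeries.C c * u ∧
      u ∈ gaussSet A π N ∧ u⁻¹ ∈ gaussSet A π N := by
  obtain ⟨c, U₁, U₂, hc, h₁, h₂, heq⟩ := exists_gauss_decomp A π N core hf hf0
  have h20 : coeffMap A.subtype U₂ ≠ 0 := by
    intro h
    have : U₂ = 0 := incl_injective A (by rw [h, map_zero])
    exact h₂.2.2 (by rw [this, map_zero])
  refine ⟨c, coeffMap A.subtype U₁ * (coeffMap A.subtype U₂)⁻¹, hc, ?_,
    div_mem_gaussSet h₁.1 h₂.1 h₂.2.2, ?_⟩
  · rw [← mul_assoc, ← heq, mul_assoc, mul_inv_cancel₀ h20, mul_one]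
  · rw [mul_inv, inv_inv, mul_comm]
    exact div_mem_gaussSet h₂.1 h₁.1 h₁.2.2

/-- **Valuation ring.** -/
theorem gaussSet_total (core : CoreData N k) {f : LaurentSeries L}
    (hf : f ∈ laurentBaseChange L (modularFunctionFieldFull N)) :
    f ∈ gaussSet A π N ∨ f⁻¹ ∈ gaussSet A π N := by
  by_cases hf0 : f = 0
  · left; rw [hf0]; exact zero_mem_gaussSet
  obtain ⟨c, u, hc, rfl, hu, hu'⟩ := exists_normal_form (A := A) (π := π) core hf hf0
  rcases A.mem_or_inv_mem c with hcA | hcA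
  · left
    exact mul_mem_gaussSet (C_mem_gaussSet ⟨c, hcA⟩) hu
  · right
    rw [mul_inv, ← map_inv₀]
    exact mul_mem_gaussSet (C_mem_gaussSet ⟨c⁻¹, hcA⟩) hu'

/-- Reduction of the defining relation: if `f = U₁/U₂ = W₁/W₂` then `Ū₁ W̄₂ = W̄₁ Ū₂`. -/
theorem red_cross {U₁ U₂ W₁ W₂ : LaurentSeries A} {f : LaurentSeries L}
    (hU : f * coeffMap A.subtype U₂ = coeffMap A.subtype U₁)
    (hW : f * coeffMap A.subtype W₂ = coeffMap A.subtype W₁) :
    coeffMap π U₁ * coeffMap π W₂ = coeffMap π W₁ * coeffMap π U₂ := by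
  have h : U₁ * W₂ = W₁ * U₂ := by
    apply incl_injective A
    rw [map_mul, map_mul, ← hU, ← hW]
    ring
  have := congrArg (coeffMap π) h
  rwa [map_mul, map_mul] at this

/-- A constant `a ∈ A` killed by `π` is not a unit of the Gauss ring. -/
theorem C_inv_not_mem_gaussSet {a : L} (haA : a ∈ A) (ha0 : a ≠ 0) (hπ : π ⟨a, haA⟩ = 0) :
    (HahnSeries.C (Γ := ℤ) a)⁻¹ ∉ gaussSet A π N := by
  rintro ⟨-, U₁, U₂, -, -, hU₂k, hU⟩
  have hC : HahnSeries.C (Γ := ℤ) a ≠ 0 := by
    intro h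
    exact ha0 (HahnSeries.C_injective (by rw [h, map_zero]))
  have h : U₂ = HahnSeries.C ⟨a, haA⟩ * U₁ := by
    apply incl_injective A
    rw [map_mul, coeffMap_C, ← hU]
    show _ = HahnSeries.C a * _
    rw [← mul_assoc, mul_inv_cancel₀ hC, one_mul]
  apply hU₂k
  rw [h, map_mul, coeffMap_C, hπ, map_zero, zero_mul]

/-- **`V_gen`, generic form.** If `f ∈ V` and `f⁻¹ ∉ V` then `f = c · u` with `c ∈ A` a
non-unit and `u` a unit of `V`. -/
theorem exists_nonunit_factor (core : CoreData N k) {f : LaurentSeries L}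
    (hf : f ∈ gaussSet A π N) (hf' : f⁻¹ ∉ gaussSet A π N) :
    ∃ (c : L) (u : LaurentSeries L), c ∈ A ∧ c⁻¹ ∉ A ∧ f = HahnSeries.C c * u ∧
      u ∈ gaussSet A π N ∧ u⁻¹ ∈ gaussSet A π N := by
  have hf0 : f ≠ 0 := by
    rintro rfl
    rw [inv_zero] at hf'
    exact hf' zero_mem_gaussSet
  obtain ⟨c, u, hc, rfl, hu, hu'⟩ := exists_normal_form (A := A) (π := π) core hf.1 hf0
  have hcA : c⁻¹ ∉ A := by
    intro h
    apply hf'
    rw [mul_inv, ← map_inv₀]
    exact mul_mem_gaussSet (C_mem_gaussSet ⟨c⁻¹, h⟩) hu'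
  exact ⟨c, u, (A.mem_or_inv_mem c).resolve_right hcA, hcA, rfl, hu, hu'⟩

end G6

section Coordinate

variable {L : Type*} [Field L] [Algebra ℚ L] (A : ValuationSubring L)
variable {k : Type} [Field k] (π : A →+* k) (N : ℕ) [NeZero N]

/-- Order of a series with lowest term `q⁻¹`. -/
theorem order_of_coeff_neg_one {D : Type*} [CommRing D] [Nontrivial D] {X : LaurentSeries D}
    (h1 : X.coeff (-1) = 1) (h2 : ∀ n : ℤ, n < -1 → X.coeff n = 0) : X.order = -1 := by
  have hne : X ≠ 0 := by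
    rintro rfl
    simp at h1
  apply le_antisymm
  · exact HahnSeries.order_le_of_coeff_ne_zero (by rw [h1]; exact one_ne_zero)
  · by_contra hlt
    push Not at hlt
    exact hne (HahnSeries.coeff_order_eq_zero.mp (h2 _ hlt))

variable {A π N} in
/-- **`gauss`, generic form.** `X ∈ A((q))` Gauss-integral whose reduction has nonzero order
(e.g. `X = q⁻¹ + …`), `P ∈ A[T]` with `P̄ ≠ 0`: then `P(X)` is a unit of the Gauss ring. -/
theorem inv_eval_mem_gaussSet {X : LaurentSeries A} (hX : IsGI A N X)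
    (hXk : (coeffMap π X).order ≠ 0) (P : A[X]) (hP : P.map π ≠ 0) :
    (coeffMap A.subtype (P.eval₂ (HahnSeries.C (Γ := ℤ)) X))⁻¹ ∈ gaussSet A π N := by
  have hGI : IsGI A N (P.eval₂ (HahnSeries.C (Γ := ℤ)) X) := by
    rw [Polynomial.eval₂_eq_sum_range]
    unfold IsGI
    rw [map_sum]
    refine sum_mem fun i _ => ?_
    rw [map_mul, map_pow, coeffMap_C]
    exact mul_mem (C_mem_baseChange N _) (pow_mem hX _)
  have hk : coeffMap π (P.eval₂ (HahnSeries.C (Γ := ℤ)) X) ≠ 0 := by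
    intro h
    apply hP
    apply Fermat.Agent.S28.H806.eq_zero_of_eval₂_C_eq_zero (coeffMap π X) hXk
    rw [Polynomial.eval₂_map]
    rw [Polynomial.hom_eval₂] at h
    convert h using 2
    ext a : 1
    exact (coeffMap_C π a).symm
  have := div_mem_gaussSet (π := π) (isGI_one A N) hGI hk
  rwa [map_one, one_mul] at this

end Coordinate

end Fermat.Agent.S18.H516

end
end
-- ===== PACK-END S18/H516/GaussRing.lean

-- ===== PACK-BEGIN S18/H516/GaussRes.lean
section





/-!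
# S18 / MOD (helper516): the residue homomorphism of the Gauss valuation ring

`gaussRes : gaussRing A π N →+* k((q))`, `U₁/U₂ ↦ Ū₁/Ū₂`.

* `gaussRes_eq` : value on any representation;  `gaussRes_incl`, `gaussRes_C`;
* `gaussRes_mem` : values in `F_k` (needs `CoreData N k`);
* `inv_mem_of_gaussRes_ne_zero` : `gaussRes f ≠ 0 → f⁻¹ ∈ V`;
* `exists_factor_of_gaussRes_eq_zero` : `gaussRes f = 0 → f = C c · u`, `π c = 0`, `u ∈ V`.
-/

set_option autoImplicit false
set_option linter.unusedSectionVars false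

noncomputable section

namespace Fermat.Agent.S18.H516

open ModularCurve IntermediateField Polynomial Fermat.Agent.S28

section Res

variable {L : Type*} [Field L] [Algebra ℚ L] (A : ValuationSubring L)
variable {k : Type} [Field k] (π : A →+* k) (N : ℕ) [NeZero N]

/-- Numerator of a chosen representation. -/
def gNum (f : gaussRing A π N) : LaurentSeries A := f.2.2.choose

/-- Denominator of a chosen representation. -/
def gDen (f : gaussRing A π N) : LaurentSeries A := f.2.2.choose_spec.choose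

variable {A π N}

theorem gDen_ne_zero (f : gaussRing A π N) : coeffMap π (gDen A π N f) ≠ 0 :=
  f.2.2.choose_spec.choose_spec.2.2.1

theorem gNum_gDen_spec (f : gaussRing A π N) :
    (f : LaurentSeries L) * coeffMap A.subtype (gDen A π N f) =
      coeffMap A.subtype (gNum A π N f) :=
  f.2.2.choose_spec.choose_spec.2.2.2

variable (A π N) in
/-- The residue map as a function. -/
def gaussResFun (f : gaussRing A π N) : LaurentSeries k :=
  coeffMap π (gNum A π N f) * (coeffMap π (gDen A π N f))⁻¹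

theorem gaussResFun_eq (f : gaussRing A π N) {U₁ U₂ : LaurentSeries A}
    (hk : coeffMap π U₂ ≠ 0)
    (heq : (f : LaurentSeries L) * coeffMap A.subtype U₂ = coeffMap A.subtype U₁) :
    gaussResFun A π N f = coeffMap π U₁ * (coeffMap π U₂)⁻¹ := by
  have h := red_cross (π := π) (gNum_gDen_spec f) heq
  unfold gaussResFun
  have h' := (div_eq_div_iff (gDen_ne_zero f) hk).mpr h
  rwa [div_eq_mul_inv, div_eq_mul_inv] at h'

variable (A π N) in
/-- **The residue homomorphism** of the Gauss valuation ring. -/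
def gaussRes : gaussRing A π N →+* LaurentSeries k where
  toFun := gaussResFun A π N
  map_one' := by
    rw [gaussResFun_eq (1 : gaussRing A π N) (U₁ := 1) (U₂ := 1)
      (by rw [map_one]; exact one_ne_zero) (by simp)]
    simp
  map_zero' := by
    rw [gaussResFun_eq (0 : gaussRing A π N) (U₁ := 0) (U₂ := 1)
      (by rw [map_one]; exact one_ne_zero) (by simp)]
    simp
  map_mul' f g := by
    have hf := gNum_gDen_spec f
    have hg := gNum_gDen_spec g
    rw [gaussResFun_eq (f * g) (U₁ := gNum A π N f * gNum A π N g)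
      (U₂ := gDen A π N f * gDen A π N g)
      (by rw [map_mul]; exact mul_ne_zero (gDen_ne_zero f) (gDen_ne_zero g))
      (by
        show (f : LaurentSeries L) * (g : LaurentSeries L) * _ = _
        rw [map_mul, map_mul, ← hf, ← hg]; ring)]
    unfold gaussResFun
    rw [map_mul, map_mul, mul_inv]
    ring
  map_add' f g := by
    have hf := gNum_gDen_spec f
    have hg := gNum_gDen_spec g
    rw [gaussResFun_eq (f + g)
      (U₁ := gNum A π N f * gDen A π N g + gNum A π N g * gDen A π N f)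
      (U₂ := gDen A π N f * gDen A π N g)
      (by rw [map_mul]; exact mul_ne_zero (gDen_ne_zero f) (gDen_ne_zero g))
      (by
        show ((f : LaurentSeries L) + (g : LaurentSeries L)) * _ = _
        rw [map_add, map_mul, map_mul, map_mul, ← hf, ← hg]; ring)]
    unfold gaussResFun
    rw [map_add, map_mul, map_mul, map_mul]
    have h1 := gDen_ne_zero f
    have h2 := gDen_ne_zero g
    field_simp

theorem gaussRes_eq (f : gaussRing A π N) {U₁ U₂ : LaurentSeries A}
    (hk : coeffMap π U₂ ≠ 0)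
    (heq : (f : LaurentSeries L) * coeffMap A.subtype U₂ = coeffMap A.subtype U₁) :
    gaussRes A π N f = coeffMap π U₁ * (coeffMap π U₂)⁻¹ :=
  gaussResFun_eq f hk heq

/-- On Gauss-integral series the residue map is the coefficientwise reduction. -/
theorem gaussRes_incl {U : LaurentSeries A} (hU : IsGI A N U) :
    gaussRes A π N ⟨coeffMap A.subtype U, incl_mem_gaussSet hU⟩ = coeffMap π U := by
  rw [gaussRes_eq _ (U₁ := U) (U₂ := 1) (by rw [map_one]; exact one_ne_zero)
    (by simp)]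
  simp

theorem gaussRes_C (a : A) :
    gaussRes A π N ⟨HahnSeries.C (Γ := ℤ) (a : L), C_mem_gaussSet a⟩ = HahnSeries.C (π a) := by
  rw [gaussRes_eq _ (U₁ := HahnSeries.C a) (U₂ := 1) (by rw [map_one]; exact one_ne_zero)
    (by rw [map_one, mul_one, coeffMap_C]; rfl)]
  rw [map_one, inv_one, mul_one, coeffMap_C]

/-- The residue map takes values in `F_k`. -/
theorem gaussRes_mem (core : CoreData N k) (f : gaussRing A π N) :
    gaussRes A π N f ∈ modularFunctionFieldFullC k N := by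
  obtain ⟨-, U₁, U₂, h₁, h₂, hk, heq⟩ := f.2
  rw [gaussRes_eq f hk heq]
  exact mul_mem (red_mem_of_incl_mem A π N core h₁) (inv_mem (red_mem_of_incl_mem A π N core h₂))

/-- Elements with nonzero residue are units. -/
theorem inv_mem_of_gaussRes_ne_zero (f : gaussRing A π N) (hf : gaussRes A π N f ≠ 0) :
    (f : LaurentSeries L)⁻¹ ∈ gaussSet A π N := by
  obtain ⟨-, U₁, U₂, h₁, h₂, hk, heq⟩ := f.2
  rw [gaussRes_eq f hk heq] at hf
  have h1k : coeffMap π U₁ ≠ 0 := fun h => hf (by rw [h, zero_mul])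
  have h20 : coeffMap A.subtype U₂ ≠ 0 := by
    intro h
    have : U₂ = 0 := incl_injective A (by rw [h, map_zero])
    exact hk (by rw [this, map_zero])
  have hfe : (f : LaurentSeries L) = coeffMap A.subtype U₁ * (coeffMap A.subtype U₂)⁻¹ := by
    rw [← heq, mul_assoc, mul_inv_cancel₀ h20, mul_one]
  rw [hfe, mul_inv, inv_inv, mul_comm]
  exact div_mem_gaussSet h₂ h₁ h1k

/-- **Kernel.** An element of zero residue is `C c · u` with `π c = 0`. -/
theorem exists_factor_of_gaussRes_eq_zero (core : CoreData N k) (f : gaussRing A π N)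
    (hf : gaussRes A π N f = 0) (hf0 : (f : LaurentSeries L) ≠ 0) :
    ∃ (c : A) (u : LaurentSeries L), π c = 0 ∧ (f : LaurentSeries L) = HahnSeries.C (c : L) * u ∧
      u ∈ gaussSet A π N ∧ u⁻¹ ∈ gaussSet A π N := by
  obtain ⟨c, U₁, U₂, hc, h₁, h₂, heq⟩ := exists_gauss_decomp A π N core f.2.1 hf0
  have h20 : coeffMap A.subtype U₂ ≠ 0 := by
    intro h
    have : U₂ = 0 := incl_injective A (by rw [h, map_zero])
    exact h₂.2.2 (by rw [this, map_zero])
  have hu : coeffMap A.subtype U₁ * (coeffMap A.subtype U₂)⁻¹ ∈ gaussSet A π N :=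
    div_mem_gaussSet h₁.1 h₂.1 h₂.2.2
  have hu' : (coeffMap A.subtype U₁ * (coeffMap A.subtype U₂)⁻¹)⁻¹ ∈ gaussSet A π N := by
    rw [mul_inv, inv_inv, mul_comm]
    exact div_mem_gaussSet h₂.1 h₁.1 h₁.2.2
  have hfe : (f : LaurentSeries L) =
      HahnSeries.C c * (coeffMap A.subtype U₁ * (coeffMap A.subtype U₂)⁻¹) := by
    rw [← mul_assoc, ← heq, mul_assoc, mul_inv_cancel₀ h20, mul_one]
  have hcA : c ∈ A := by
    by_contra hcA
    have hcinv : c⁻¹ ∈ A := (A.mem_or_inv_mem c).resolve_left hcA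
    -- then `f⁻¹ = C c⁻¹ · u⁻¹ ∈ V`, so `f` is a unit with zero residue
    have hfinv : (f : LaurentSeries L)⁻¹ ∈ gaussSet A π N := by
      rw [hfe, mul_inv, ← map_inv₀]
      exact mul_mem_gaussSet (C_mem_gaussSet ⟨c⁻¹, hcinv⟩) hu'
    have h1 : gaussRes A π N f * gaussRes A π N ⟨_, hfinv⟩ = 1 := by
      rw [← map_mul]
      have : f * ⟨_, hfinv⟩ = 1 := Subtype.ext (mul_inv_cancel₀ hf0)
      rw [this, map_one]
    rw [hf, zero_mul] at h1
    exact zero_ne_one h1
  refine ⟨⟨c, hcA⟩, _, ?_, hfe, hu, hu'⟩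
  -- residue of `f` is `π c · ū`, `ū ≠ 0`
  set fc : gaussRing A π N :=
    ⟨HahnSeries.C (Γ := ℤ) (((⟨c, hcA⟩ : A) : L)), C_mem_gaussSet (⟨c, hcA⟩ : A)⟩ with hfc
  have hfe' : f = fc * ⟨_, hu⟩ := Subtype.ext hfe
  have hC : gaussRes A π N fc = HahnSeries.C (π ⟨c, hcA⟩) := gaussRes_C (⟨c, hcA⟩ : A)
  rw [hfe', map_mul, hC] at hf
  have hune : gaussRes A π N ⟨_, hu⟩ ≠ 0 := by
    rw [gaussRes_eq ⟨_, hu⟩ (U₁ := U₁) (U₂ := U₂) h₂.2.2
      (by
        show coeffMap A.subtype U₁ * (coeffMap A.subtype U₂)⁻¹ * coeffMap A.subtype U₂ = _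
        rw [mul_assoc, inv_mul_cancel₀ h20, mul_one])]
    exact mul_ne_zero h₁.2.2 (inv_ne_zero h₂.2.2)
  have := (mul_eq_zero.mp hf).resolve_right hune
  exact HahnSeries.C_injective (by rw [this, map_zero])

end Res

end Fermat.Agent.S18.H516

end
end
-- ===== PACK-END S18/H516/GaussRes.lean

-- ===== PACK-BEGIN S18/H516/GaussBC.lean
section





/-!
# S18 / MOD (helper516): base-change bookkeeping

* `baseChange_eq_fullC` : `laurentBaseChange L (modularFunctionFieldFull N) = modularFunctionFieldFullC L N`.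
* `algebraMap_eq_C`, `aeval_jq_eq_evJ`, `integral_map` (integrality equations along coefficient maps),
  `integral_of_mem_closure`, `transcendental_jqModC`.
-/

set_option autoImplicit false
set_option linter.unusedSectionVars false

noncomputable section

namespace Fermat.Agent.S18.H516

open ModularCurve IntermediateField Polynomial Fermat.Agent.S28

section BaseChange

variable (L : Type*) [Field L] [Algebra ℚ L] (N : ℕ) [NeZero N]

theorem coeffEmb_qExpand_jq (d : ℕ) [NeZero d] :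
    coeffEmb L (qExpand ℚ d jq) = qExpand L d (jqModC L) := by
  rw [coeffEmb, coeffMap_qExpand, ← jqModC_rat, coeffMap_jqModC]

theorem coeffEmb_algebraMap' (r : ℚ) :
    coeffEmb L (algebraMap ℚ (LaurentSeries ℚ) r) =
      algebraMap L (LaurentSeries L) (algebraMap ℚ L r) := by
  rw [algebraMap_laurentSeries_eq_single, algebraMap_laurentSeries_eq_single, coeffEmb,
    coeffMap_single]

theorem coeffEmb_mem_fullC {x : LaurentSeries ℚ} (hx : x ∈ modularFunctionFieldFull N) :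
    coeffEmb L x ∈ modularFunctionFieldFullC L N := by
  unfold modularFunctionFieldFull at hx
  induction hx using IntermediateField.adjoin_induction with
  | mem x hx =>
    obtain ⟨d, hd, hdN, rfl⟩ := hx
    rw [coeffEmb_qExpand_jq]
    exact jqModCd_mem_full L N hdN
  | algebraMap r =>
    rw [coeffEmb_algebraMap']
    exact (modularFunctionFieldFullC L N).algebraMap_mem _
  | add x y _ _ hx hy => rw [map_add]; exact add_mem hx hy
  | inv x _ hx => rw [map_inv₀]; exact inv_mem hx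
  | mul x y _ _ hx hy => rw [map_mul]; exact mul_mem hx hy

/-- The two descriptions of the function field over `L` agree. -/
theorem baseChange_eq_fullC :
    laurentBaseChange L (modularFunctionFieldFull N) = modularFunctionFieldFullC L N := by
  apply le_antisymm
  · rw [laurentBaseChange, adjoin_le_iff]
    rintro z ⟨w, hw, rfl⟩
    exact coeffEmb_mem_fullC L N hw
  · rw [modularFunctionFieldFullC, adjoin_le_iff]
    rintro z ⟨d, hd, hdN, rfl⟩
    rw [← coeffEmb_qExpand_jq]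
    exact coeffEmb_mem_laurentBaseChange L (jqd_mem_full N hdN)

end BaseChange

section Aeval

variable {R : Type*} [CommRing R]

theorem algebraMap_eq_C (a : R) :
    algebraMap R (LaurentSeries R) a = HahnSeries.C (Γ := ℤ) a := by
  have h1 : algebraMap R (PowerSeries R) a = PowerSeries.C a := by simp
  rw [HahnSeries.algebraMap_apply', h1, HahnSeries.ofPowerSeries_C]

theorem aeval_jq_eq_evJ (s : R[X]) : Polynomial.aeval (jqModC R) s = evJ s := by
  rw [Polynomial.aeval_def, evJ]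
  congr 1
  ext a : 1
  exact algebraMap_eq_C a

theorem aeval_toRingHom_comp_map {S : Type*} [CommRing S] (f : R →+* S) (x : LaurentSeries R) :
    ((Polynomial.aeval (coeffMap f x)).toRingHom).comp (Polynomial.mapRingHom f) =
      (coeffMap f).comp (Polynomial.aeval x).toRingHom := by
  apply Polynomial.ringHom_ext
  · intro a
    simp only [RingHom.comp_apply, Polynomial.coe_mapRingHom, Polynomial.map_C,
      AlgHom.toRingHom_eq_coe, RingHom.coe_coe, Polynomial.aeval_C]
    rw [algebraMap_eq_C, algebraMap_eq_C, coeffMap_C]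
  · simp only [RingHom.comp_apply, Polynomial.coe_mapRingHom, Polynomial.map_X,
      AlgHom.toRingHom_eq_coe, RingHom.coe_coe, Polynomial.aeval_X]

/-- Base change of an integrality equation along a coefficient map. -/
theorem integral_map {S : Type*} [CommRing S] (f : R →+* S) {x y : LaurentSeries R}
    (h : ∃ P : R[X][X], P.Monic ∧ P.eval₂ (Polynomial.aeval x).toRingHom y = 0) :
    ∃ P : S[X][X], P.Monic ∧
      P.eval₂ (Polynomial.aeval (coeffMap f x)).toRingHom (coeffMap f y) = 0 := by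
  obtain ⟨P, hP, hPy⟩ := h
  refine ⟨P.map (Polynomial.mapRingHom f), hP.map _, ?_⟩
  rw [Polynomial.eval₂_map, aeval_toRingHom_comp_map, ← Polynomial.hom_eval₂, hPy, map_zero]

end Aeval

section IntZ

/-- Elements of `ℤ[j(q^d) : d ∣ N]` are integral over `ℤ[j]` as soon as the generators are. -/
theorem integral_of_mem_closure (N : ℕ)
    (hint : ∀ (d : ℕ) [NeZero d], d ∣ N →
      ∃ P : Polynomial (Polynomial ℤ), P.Monic ∧
        P.eval₂ (evalAt (jqModC ℤ)) (qExpand ℤ d (jqModC ℤ)) = 0)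
    {y : LaurentSeries ℤ} (hy : y ∈ Subring.closure (intDivisorExpansions N)) :
    (evalAt (jqModC ℤ)).IsIntegralElem y := by
  induction hy using Subring.closure_induction with
  | mem x hx =>
    obtain ⟨d, hd, hdN, rfl⟩ := hx
    exact hint d hdN
  | zero => exact (evalAt (jqModC ℤ)).isIntegralElem_zero
  | one => exact (evalAt (jqModC ℤ)).isIntegralElem_one
  | add x y _ _ hx hy => exact RingHom.IsIntegralElem.add _ hx hy
  | neg x _ hx => exact RingHom.IsIntegralElem.neg _ hx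
  | mul x y _ _ hx hy => exact RingHom.IsIntegralElem.mul _ hx hy

end IntZ

theorem transcendental_jqModC (K : Type*) [Field K] : Transcendental K (jqModC K) := by
  rw [transcendental_iff]
  intro p hp
  rw [aeval_eq_evJ] at hp
  exact (evJ_eq_zero_iff K).mp hp

end Fermat.Agent.S18.H516

end
end
-- ===== PACK-END S18/H516/GaussBC.lean

-- ===== PACK-BEGIN S18/MOD/H516/GaussV.lean
section







/-!
# S18 / MOD piece G-V (helper516): the Gauss valuation ring `VcSet M A E` of `Fc M E`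

Concrete objects of `Fermat/Agent/S18/Mod/Defs.lean` (row-lead helper18).  Input: the S28 output
`CoreData M k`, `k` the residue field of `A ⊆ Q̄`.  Output: the `V`-fields of `Alg.GoodModel`
for `V = VcSet M A E` (subring, `V_le`, `V_total`, `R_le_V`, `w_inv_not_mem_V`, `V_gen`, `gauss`),
for EVERY intermediate field `E` of `Q̄/ℚ`.
-/

set_option autoImplicit false
set_option linter.unusedSectionVars false

noncomputable section

namespace Fermat.Agent.S18.H516

open ModularCurve IntermediateField Fermat.Agent.S28 Fermat.Agent.S18 Fermat.Agent.S18.Mod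

section Transport

variable (M : ℕ) [NeZero M] (A : ValuationSubring Qb) (E : IntermediateField ℚ Qb)

/-- `A ∩ E` as a valuation subring of `E`. -/
def AE : ValuationSubring ↥E := A.comap (algebraMap ↥E Qb)

/-- `A ∩ E → A`. -/
def iotaA : ↥(AE A E) →+* ↥A where
  toFun x := ⟨algebraMap ↥E Qb (x : ↥E), x.2⟩
  map_one' := rfl
  map_mul' _ _ := rfl
  map_zero' := rfl
  map_add' _ _ := rfl

/-- `A ∩ E → k`. -/
def piE : ↥(AE A E) →+* IsLocalRing.ResidueField A := (IsLocalRing.residue A).comp (iotaA A E)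

/-- `E((q)) → Q̄((q))`. -/
abbrev PhiE : LaurentSeries ↥E →+* LaurentSeries Qb := coeffMap (algebraMap ↥E Qb)

theorem PhiE_injective : Function.Injective (PhiE E) := by
  intro x y hxy
  ext m
  have := congrArg (fun z : LaurentSeries Qb => z.coeff m) hxy
  exact this

theorem subtype_comp_iotaA :
    (A.subtype).comp (iotaA A E) = (algebraMap ↥E Qb).comp (AE A E).subtype := rfl

theorem incl_coeffMap_iotaA (U : LaurentSeries ↥(AE A E)) :
    coeffMap A.subtype (coeffMap (iotaA A E) U) = PhiE E (coeffMap (AE A E).subtype U) := by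
  rw [coeffMap_coeffMap, coeffMap_coeffMap, subtype_comp_iotaA]

theorem red_coeffMap_iotaA (U : LaurentSeries ↥(AE A E)) :
    coeffMap (IsLocalRing.residue A) (coeffMap (iotaA A E) U) = coeffMap (piE A E) U := by
  rw [coeffMap_coeffMap]; rfl

/-- The function field over `E`. -/
abbrev FE : IntermediateField ↥E (LaurentSeries ↥E) :=
  laurentBaseChange ↥E (modularFunctionFieldFull M)

theorem coe_jd (d : ℕ) [NeZero d] (hd : d ∣ M) :
    ((jd M d hd : Om M) : LaurentSeries Qb) = qExpand Qb d (jqModC Qb) := by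
  show coeffEmb Qb (qExpand ℚ d jq) = _
  rw [coeffEmb, coeffMap_qExpand, ← jqModC_rat, coeffMap_jqModC]

theorem coe_algebraMap_Om (c : Qb) :
    ((algebraMap Qb (Om M) c : Om M) : LaurentSeries Qb) = HahnSeries.C (Γ := ℤ) c := by
  show algebraMap Qb (LaurentSeries Qb) c = _
  rw [algebraMap_laurentSeries_eq_single, HahnSeries.C_apply]

/-- `Φ` maps `F_E` into `Fc M E`. -/
theorem PhiE_mem_Fc {g : LaurentSeries ↥E} (hg : g ∈ FE M E) :
    ∃ h : PhiE E g ∈ modularFunctionFieldBar M, (⟨PhiE E g, h⟩ : Om M) ∈ Fc M E := by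
  rw [FE, baseChange_eq_fullC] at hg
  unfold modularFunctionFieldFullC at hg
  induction hg using IntermediateField.adjoin_induction with
  | mem x hx =>
    obtain ⟨d, hd, hdM, rfl⟩ := hx
    have h1 : PhiE E (qExpand ↥E d (jqModC ↥E)) = ((jd M d hdM : Om M) : LaurentSeries Qb) := by
      rw [coe_jd, PhiE, coeffMap_qExpand, coeffMap_jqModC]
    refine ⟨h1 ▸ (jd M d hdM).2, ?_⟩
    have h2 : (⟨PhiE E (qExpand ↥E d (jqModC ↥E)), h1 ▸ (jd M d hdM).2⟩ : Om M) = jd M d hdM :=
      Subtype.ext h1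
    rw [h2]
    exact Subfield.subset_closure (Or.inr ⟨d, hd, hdM, rfl⟩)
  | algebraMap e =>
    have h1 : PhiE E (algebraMap ↥E (LaurentSeries ↥E) e) =
        ((algebraMap Qb (Om M) (e : Qb) : Om M) : LaurentSeries Qb) := by
      rw [coe_algebraMap_Om, algebraMap_laurentSeries_eq_single, PhiE, coeffMap_single,
        HahnSeries.C_apply]
      rfl
    refine ⟨h1 ▸ (algebraMap Qb (Om M) (e : Qb)).2, ?_⟩
    have h2 : (⟨PhiE E (algebraMap ↥E (LaurentSeries ↥E) e),
        h1 ▸ (algebraMap Qb (Om M) (e : Qb)).2⟩ : Om M) = algebraMap Qb (Om M) (e : Qb) :=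
      Subtype.ext h1
    rw [h2]
    exact Subfield.subset_closure (Or.inl ⟨(e : Qb), e.2, rfl⟩)
  | add x y _ _ hx hy =>
    obtain ⟨hx1, hx2⟩ := hx
    obtain ⟨hy1, hy2⟩ := hy
    have h1 : PhiE E (x + y) = PhiE E x + PhiE E y := map_add _ _ _
    refine ⟨h1 ▸ add_mem hx1 hy1, ?_⟩
    have h2 : (⟨PhiE E (x + y), h1 ▸ add_mem hx1 hy1⟩ : Om M) =
        ⟨PhiE E x, hx1⟩ + ⟨PhiE E y, hy1⟩ := Subtype.ext h1
    rw [h2]
    exact add_mem hx2 hy2
  | inv x _ hx =>
    obtain ⟨hx1, hx2⟩ := hx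
    have h1 : PhiE E x⁻¹ = (PhiE E x)⁻¹ := map_inv₀ _ _
    refine ⟨h1 ▸ inv_mem hx1, ?_⟩
    have h2 : (⟨PhiE E x⁻¹, h1 ▸ inv_mem hx1⟩ : Om M) = (⟨PhiE E x, hx1⟩ : Om M)⁻¹ :=
      Subtype.ext h1
    rw [h2]
    exact inv_mem hx2
  | mul x y _ _ hx hy =>
    obtain ⟨hx1, hx2⟩ := hx
    obtain ⟨hy1, hy2⟩ := hy
    have h1 : PhiE E (x * y) = PhiE E x * PhiE E y := map_mul _ _ _
    refine ⟨h1 ▸ mul_mem hx1 hy1, ?_⟩
    have h2 : (⟨PhiE E (x * y), h1 ▸ mul_mem hx1 hy1⟩ : Om M) =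
        ⟨PhiE E x, hx1⟩ * ⟨PhiE E y, hy1⟩ := Subtype.ext h1
    rw [h2]
    exact mul_mem hx2 hy2

/-- Every element of `Fc M E` comes from `F_E`. -/
theorem exists_PhiE_eq {f : Om M} (hf : f ∈ Fc M E) :
    ∃ g ∈ FE M E, PhiE E g = (f : LaurentSeries Qb) := by
  unfold Fc at hf
  induction hf using Subfield.closure_induction with
  | mem x hx =>
    rcases hx with ⟨e, he, rfl⟩ | ⟨d, hd, hdM, rfl⟩
    · refine ⟨algebraMap ↥E (LaurentSeries ↥E) ⟨e, he⟩, (FE M E).algebraMap_mem _, ?_⟩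
      show PhiE E _ = ((algebraMap Qb (Om M) e : Om M) : LaurentSeries Qb)
      rw [coe_algebraMap_Om, algebraMap_laurentSeries_eq_single, PhiE, coeffMap_single,
        HahnSeries.C_apply]
      rfl
    · refine ⟨qExpand ↥E d (jqModC ↥E), ?_, ?_⟩
      · rw [FE, baseChange_eq_fullC]
        exact jqModCd_mem_full ↥E M hdM
      · rw [coe_jd, PhiE, coeffMap_qExpand, coeffMap_jqModC]
  | one => exact ⟨1, one_mem _, map_one _⟩
  | add x y _ _ hx hy =>
    obtain ⟨gx, hgx, hx⟩ := hx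
    obtain ⟨gy, hgy, hy⟩ := hy
    exact ⟨gx + gy, add_mem hgx hgy, by rw [map_add, hx, hy]; rfl⟩
  | neg x _ hx =>
    obtain ⟨gx, hgx, hx⟩ := hx
    exact ⟨-gx, neg_mem hgx, by rw [map_neg, hx]; rfl⟩
  | inv x _ hx =>
    obtain ⟨gx, hgx, hx⟩ := hx
    exact ⟨gx⁻¹, inv_mem hgx, by rw [map_inv₀, hx]; rfl⟩
  | mul x y _ _ hx hy =>
    obtain ⟨gx, hgx, hx⟩ := hx
    obtain ⟨gy, hgy, hy⟩ := hy
    exact ⟨gx * gy, mul_mem hgx hgy, by rw [map_mul, hx, hy]; rfl⟩

/-- Lift of an `E`-rational series over `A` to a series over `A ∩ E`. -/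
def liftE (U : LaurentSeries A) (h : ∀ n : ℤ, ((U.coeff n : A) : Qb) ∈ E) :
    LaurentSeries ↥(AE A E) where
  coeff n := ⟨⟨((U.coeff n : A) : Qb), h n⟩, (U.coeff n).2⟩
  isPWO_support' := U.isPWO_support.mono fun n hn => by
    simp only [Function.mem_support, ne_eq] at hn ⊢
    intro h0
    apply hn
    apply Subtype.ext
    apply Subtype.ext
    show ((U.coeff n : A) : Qb) = 0
    rw [h0]; rfl

theorem coeffMap_iotaA_liftE (U : LaurentSeries A) (h : ∀ n : ℤ, ((U.coeff n : A) : Qb) ∈ E) :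
    coeffMap (iotaA A E) (liftE A E U h) = U := by
  ext n
  rfl

theorem isIntE_coeffMap_iotaA {U : LaurentSeries ↥(AE A E)}
    (hU : IsGI (AE A E) M U) : IsIntE M A E (coeffMap (iotaA A E) U) := by
  refine ⟨fun n => ?_, ?_⟩
  · exact ((U.coeff n : ↥(AE A E)) : ↥E).2
  · obtain ⟨h, hF⟩ := PhiE_mem_Fc M E hU
    exact ⟨⟨_, h⟩, hF, (incl_coeffMap_iotaA A E U).symm⟩

theorem isGI_liftE {U : LaurentSeries A} (hU : IsIntE M A E U) :
    IsGI (AE A E) M (liftE A E U hU.1) := by
  obtain ⟨hE, f', hf', hfU⟩ := hU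
  obtain ⟨g', hg', hg'f⟩ := exists_PhiE_eq M E hf'
  have : coeffMap (AE A E).subtype (liftE A E U hE) = g' := by
    apply PhiE_injective E
    rw [hg'f, hfU, ← incl_coeffMap_iotaA, coeffMap_iotaA_liftE]
  unfold IsGI
  rw [this]
  exact hg'

/-- **Dictionary.** The concrete `VcSet M A E` is the image of the generic Gauss ring of
`(E, A ∩ E, A ∩ E → k)`. -/
theorem mem_VcSet_iff {f : Om M} :
    f ∈ VcSet M A E ↔
      ∃ g ∈ gaussSet (AE A E) (piE A E) M, PhiE E g = (f : LaurentSeries Qb) := by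
  constructor
  · rintro ⟨hfF, U₁, U₂, hU₁, hU₂, hU₂k, hfU⟩
    obtain ⟨g, hg, hgf⟩ := exists_PhiE_eq M E hfF
    refine ⟨g, ⟨hg, liftE A E U₁ hU₁.1, liftE A E U₂ hU₂.1, isGI_liftE M A E hU₁,
      isGI_liftE M A E hU₂, ?_, ?_⟩, hgf⟩
    · rw [← red_coeffMap_iotaA, coeffMap_iotaA_liftE]
      exact hU₂k
    · apply PhiE_injective E
      rw [map_mul, hgf, ← incl_coeffMap_iotaA, ← incl_coeffMap_iotaA, coeffMap_iotaA_liftE,
        coeffMap_iotaA_liftE]
      exact hfU
  · rintro ⟨g, ⟨hg, U₁, U₂, hU₁, hU₂, hU₂k, hgU⟩, hgf⟩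
    obtain ⟨h, hF⟩ := PhiE_mem_Fc M E hg
    have hfe : f = ⟨PhiE E g, h⟩ := Subtype.ext hgf.symm
    refine ⟨hfe ▸ hF, coeffMap (iotaA A E) U₁, coeffMap (iotaA A E) U₂,
      isIntE_coeffMap_iotaA M A E hU₁, isIntE_coeffMap_iotaA M A E hU₂, ?_, ?_⟩
    · rw [red_coeffMap_iotaA]
      exact hU₂k
    · rw [incl_coeffMap_iotaA, incl_coeffMap_iotaA, ← hgf, ← map_mul, hgU]

end Transport

section VFacts

variable (M : ℕ) [NeZero M] (A : ValuationSubring Qb) (E : IntermediateField ℚ Qb)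

theorem VcSet_subset_Fc : VcSet M A E ⊆ (Fc M E : Set (Om M)) := fun _ hf => hf.1

variable {M A E}

theorem zero_mem_VcSet : (0 : Om M) ∈ VcSet M A E :=
  (mem_VcSet_iff M A E).mpr ⟨0, zero_mem_gaussSet, map_zero _⟩

theorem one_mem_VcSet : (1 : Om M) ∈ VcSet M A E :=
  (mem_VcSet_iff M A E).mpr ⟨1, one_mem_gaussSet, map_one _⟩

theorem add_mem_VcSet {f g : Om M} (hf : f ∈ VcSet M A E) (hg : g ∈ VcSet M A E) :
    f + g ∈ VcSet M A E := by
  obtain ⟨a, ha, haf⟩ := (mem_VcSet_iff M A E).mp hf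
  obtain ⟨b, hb, hbg⟩ := (mem_VcSet_iff M A E).mp hg
  exact (mem_VcSet_iff M A E).mpr ⟨a + b, add_mem_gaussSet ha hb, by rw [map_add, haf, hbg]; rfl⟩

theorem neg_mem_VcSet {f : Om M} (hf : f ∈ VcSet M A E) : -f ∈ VcSet M A E := by
  obtain ⟨a, ha, haf⟩ := (mem_VcSet_iff M A E).mp hf
  exact (mem_VcSet_iff M A E).mpr ⟨-a, neg_mem_gaussSet ha, by rw [map_neg, haf]; rfl⟩

theorem mul_mem_VcSet {f g : Om M} (hf : f ∈ VcSet M A E) (hg : g ∈ VcSet M A E) :
    f * g ∈ VcSet M A E := by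
  obtain ⟨a, ha, haf⟩ := (mem_VcSet_iff M A E).mp hf
  obtain ⟨b, hb, hbg⟩ := (mem_VcSet_iff M A E).mp hg
  exact (mem_VcSet_iff M A E).mpr ⟨a * b, mul_mem_gaussSet ha hb, by rw [map_mul, haf, hbg]; rfl⟩

variable (M A E) in
/-- **G-V (subring).** The Gauss valuation ring of `Fc M E` as a subring of `Ω`. -/
def VcRing : Subring (Om M) where
  carrier := VcSet M A E
  mul_mem' := mul_mem_VcSet
  one_mem' := one_mem_VcSet
  add_mem' := add_mem_VcSet
  zero_mem' := zero_mem_VcSet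
  neg_mem' := neg_mem_VcSet

theorem coe_VcRing : (VcRing M A E : Set (Om M)) = VcSet M A E := rfl

theorem mem_VcRing {f : Om M} : f ∈ VcRing M A E ↔ f ∈ VcSet M A E := Iff.rfl

/-- **G-V (`V_le`).** -/
theorem VcRing_le_Fc : (VcRing M A E : Set (Om M)) ⊆ Fc M E := VcSet_subset_Fc M A E

/-- **G-V (`V_total`).** -/
theorem VcRing_total (core : CoreData M (IsLocalRing.ResidueField A)) :
    ∀ f ∈ Fc M E, f ∈ VcRing M A E ∨ f⁻¹ ∈ VcRing M A E := by
  intro f hf
  obtain ⟨g, hg, hgf⟩ := exists_PhiE_eq M E hf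
  rcases gaussSet_total (A := AE A E) (π := piE A E) core hg with h | h
  · exact Or.inl ((mem_VcSet_iff M A E).mpr ⟨g, h, hgf⟩)
  · exact Or.inr ((mem_VcSet_iff M A E).mpr ⟨g⁻¹, h, by rw [map_inv₀, hgf]; rfl⟩)

theorem exists_of_mem_Rc {r : Om M} (hr : r ∈ Rc M A E) :
    ∃ a : Qb, a ∈ A ∧ a ∈ E ∧ algebraMap Qb (Om M) a = r := by
  obtain ⟨a, ⟨haA, haE⟩, rfl⟩ := hr
  exact ⟨a, haA, haE, rfl⟩

theorem mem_Rc_of {a : Qb} (haA : a ∈ A) (haE : a ∈ E) : algebraMap Qb (Om M) a ∈ Rc M A E :=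
  ⟨a, ⟨haA, haE⟩, rfl⟩

theorem PhiE_C (e : ↥E) : PhiE E (HahnSeries.C (Γ := ℤ) e) = HahnSeries.C (Γ := ℤ) (e : Qb) :=
  coeffMap_C _ _

/-- **G-V (`R_le_V`).** -/
theorem Rc_le_VcRing : Rc M A E ≤ VcRing M A E := by
  intro r hr
  obtain ⟨a, haA, haE, rfl⟩ := exists_of_mem_Rc hr
  refine (mem_VcSet_iff M A E).mpr ⟨HahnSeries.C (Γ := ℤ) (⟨a, haE⟩ : ↥E), ?_, ?_⟩
  · exact C_mem_gaussSet (A := AE A E) (⟨⟨a, haE⟩, haA⟩ : ↥(AE A E))
  · rw [PhiE_C, coe_algebraMap_Om]

theorem algebraMap_Om_injective : Function.Injective (algebraMap Qb (Om M)) :=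
  (algebraMap Qb (Om M)).injective

/-- **G-V (`w_inv_not_mem_V`).** -/
theorem inv_not_mem_VcRing {w : Om M} (hw : w ∈ Rc M A E) (hw0 : w ≠ 0)
    (hwinv : w⁻¹ ∉ Rc M A E) : w⁻¹ ∉ VcRing M A E := by
  obtain ⟨a, haA, haE, rfl⟩ := exists_of_mem_Rc hw
  have ha0 : a ≠ 0 := by
    rintro rfl
    exact hw0 (map_zero _)
  have hainv : a⁻¹ ∉ A := by
    intro h
    apply hwinv
    rw [← map_inv₀]
    exact mem_Rc_of h (inv_mem haE)
  have hres : piE A E (⟨⟨a, haE⟩, haA⟩ : ↥(AE A E)) = 0 := by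
    show IsLocalRing.residue A ⟨a, haA⟩ = 0
    rw [IsLocalRing.residue_eq_zero_iff]
    rw [IsLocalRing.mem_maximalIdeal, mem_nonunits_iff]
    intro hu
    apply hainv
    obtain ⟨u, hu⟩ := hu
    have h2 : a * (((u⁻¹ : (↥A)ˣ) : ↥A) : Qb) = 1 := by
      have h3 : ((u : ↥A) : Qb) * (((u⁻¹ : (↥A)ˣ) : ↥A) : Qb) = 1 :=
        congrArg Subtype.val u.mul_inv
      rwa [hu] at h3
    rw [inv_eq_of_mul_eq_one_right h2]
    exact (((u⁻¹ : (↥A)ˣ) : ↥A)).2
  intro hV
  obtain ⟨g, hg, hgf⟩ := (mem_VcSet_iff M A E).mp hV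
  have hE0 : (⟨a, haE⟩ : ↥E) ≠ 0 := fun h => ha0 (congrArg Subtype.val h)
  have hg' : g = (HahnSeries.C (Γ := ℤ) (⟨a, haE⟩ : ↥E))⁻¹ := by
    apply PhiE_injective E
    rw [hgf, map_inv₀, PhiE_C]
    show ((algebraMap Qb (Om M) a)⁻¹ : Om M).1 = _
    rw [← map_inv₀, coe_algebraMap_Om, map_inv₀]
  rw [hg'] at hg
  exact C_inv_not_mem_gaussSet (A := AE A E) (π := piE A E) (N := M)
    (a := (⟨a, haE⟩ : ↥E)) haA hE0 hres hg

/-- **G-V (`V_gen`).** -/
theorem VcRing_gen (core : CoreData M (IsLocalRing.ResidueField A)) {w : Om M}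
    (hgen : ∀ r ∈ Rc M A E, r⁻¹ ∉ Rc M A E → r * w⁻¹ ∈ Rc M A E) :
    ∀ f ∈ VcRing M A E, f⁻¹ ∉ VcRing M A E → f * w⁻¹ ∈ VcRing M A E := by
  intro f hf hf'
  obtain ⟨g, hg, hgf⟩ := (mem_VcSet_iff M A E).mp hf
  have hg' : g⁻¹ ∉ gaussSet (AE A E) (piE A E) M := fun h =>
    hf' ((mem_VcSet_iff M A E).mpr ⟨g⁻¹, h, by rw [map_inv₀, hgf]; rfl⟩)
  obtain ⟨c, u, hcA, hcinv, rfl, hu, hu'⟩ :=
    exists_nonunit_factor (A := AE A E) (π := piE A E) core hg hg'
  have hr : algebraMap Qb (Om M) (c : Qb) ∈ Rc M A E := mem_Rc_of hcA c.2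
  have hrinv : (algebraMap Qb (Om M) (c : Qb))⁻¹ ∉ Rc M A E := by
    intro h
    obtain ⟨b, hbA, hbE, hb⟩ := exists_of_mem_Rc h
    have hbc : b = (c : Qb)⁻¹ := algebraMap_Om_injective (by rw [hb, map_inv₀])
    apply hcinv
    show algebraMap ↥E Qb (c⁻¹) ∈ A
    rw [map_inv₀]
    exact hbc ▸ hbA
  have h1 := hgen _ hr hrinv
  obtain ⟨hu1, hu2⟩ := PhiE_mem_Fc M E hu.1
  have hfu : (⟨PhiE E u, hu1⟩ : Om M) ∈ VcSet M A E :=
    (mem_VcSet_iff M A E).mpr ⟨u, hu, rfl⟩
  have hf_eq : f = algebraMap Qb (Om M) (c : Qb) * ⟨PhiE E u, hu1⟩ := by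
    apply Subtype.ext
    rw [← hgf, map_mul, PhiE_C]
    show _ = ((algebraMap Qb (Om M) (c : Qb) : Om M) : LaurentSeries Qb) * _
    rw [coe_algebraMap_Om]
  have : f * w⁻¹ = (algebraMap Qb (Om M) (c : Qb) * w⁻¹) * ⟨PhiE E u, hu1⟩ := by
    rw [hf_eq]; ring
  rw [this]
  exact mul_mem_VcSet (Rc_le_VcRing h1) hfu

variable (M) in
/-- A coordinate with an integral model `X = q⁻¹ + … ∈ ℤ((q))` (as in `Mod.IsCoordinate`). -/
def HasIntModel (x : Om M) : Prop :=
  ∃ X : LaurentSeries ℤ, X.coeff (-1) = 1 ∧ (∀ k : ℤ, k < -1 → X.coeff k = 0) ∧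
    (x : LaurentSeries Qb) = coeffMap (Int.castRingHom Qb) X ∧
    coeffMap (Int.castRingHom ℚ) X ∈ modularFunctionFieldFull M

theorem hasIntModel_jOm : HasIntModel M (jOm M) := by
  refine ⟨jqModC ℤ, coeff_jqModC_neg_one ℤ, fun k hk => coeff_jqModC_of_lt ℤ hk, ?_, ?_⟩
  · show ((jd M 1 (one_dvd M) : Om M) : LaurentSeries Qb) = _
    rw [coe_jd, coeffMap_jqModC, qExpand_one_apply]
  · rw [coeffMap_jqModC, jqModC_rat]
    exact modularFunctionField_le_full M (jq_mem M)

theorem IsCoordinate.hasIntModel {ℓ : ℕ} {x : Om M} {S : Finset (Om M)}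
    (h : IsCoordinate M ℓ x S) : HasIntModel M x := by
  rcases h with ⟨-, rfl, -⟩ | ⟨-, h⟩
  · exact hasIntModel_jOm
  · exact h

/-- **G-V (`x_mem_V`, v4).** -/
theorem mem_VcRing_of_hasIntModel {x : Om M} (hx : HasIntModel M x) : x ∈ VcRing M A E := by
  obtain ⟨X, -, -, hxX, hXF⟩ := hx
  have hGI : IsGI (AE A E) M (coeffMap (Int.castRingHom ↥(AE A E)) X) := by
    unfold IsGI
    rw [coeffMap_coeffMap,
      show ((AE A E).subtype.comp (Int.castRingHom ↥(AE A E))) = Int.castRingHom ↥E from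
        RingHom.ext_int _ _, coeffMap_intCast_eq_coeffEmb]
    exact coeffEmb_mem_laurentBaseChange ↥E hXF
  refine (mem_VcSet_iff M A E).mpr ⟨_, incl_mem_gaussSet (π := piE A E) hGI, ?_⟩
  rw [hxX, PhiE, coeffMap_coeffMap, coeffMap_coeffMap]
  exact coeffMap_congr (RingHom.ext_int _ _) X

/-- **G-V (`gauss`).** -/
theorem VcRing_gauss {x : Om M} (hx : HasIntModel M x) :
    ∀ P : Polynomial (Om M), (∀ i, P.coeff i ∈ Rc M A E) →
      (∃ i, P.coeff i ≠ 0 ∧ (P.coeff i)⁻¹ ∈ Rc M A E) → (P.eval x)⁻¹ ∈ VcRing M A E := by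
  classical
  intro P hP ⟨i0, hi0, hi0'⟩
  obtain ⟨X, hX1, hX2, hxX, hXF⟩ := hx
  choose a haA haE ha using fun i => exists_of_mem_Rc (hP i)
  set aE : ℕ → ↥(AE A E) := fun i => ⟨⟨a i, haE i⟩, haA i⟩ with haEdef
  set PE : Polynomial ↥(AE A E) := ∑ i ∈ P.support, Polynomial.C (aE i) * Polynomial.X ^ i
    with hPE
  set XE : LaurentSeries ↥(AE A E) := coeffMap (Int.castRingHom ↥(AE A E)) X with hXE
  have hXE_GI : IsGI (AE A E) M XE := by
    unfold IsGI
    rw [hXE, coeffMap_coeffMap,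
      show ((AE A E).subtype.comp (Int.castRingHom ↥(AE A E))) = Int.castRingHom ↥E from
        RingHom.ext_int _ _, coeffMap_intCast_eq_coeffEmb]
    exact coeffEmb_mem_laurentBaseChange ↥E hXF
  have hXk : (coeffMap (piE A E) XE).order ≠ 0 := by
    have h1 : coeffMap (piE A E) XE =
        coeffMap (Int.castRingHom (IsLocalRing.ResidueField A)) X := by
      rw [hXE, coeffMap_coeffMap]
      exact coeffMap_congr (RingHom.ext_int _ _) X
    rw [h1, order_of_coeff_neg_one (X := coeffMap (Int.castRingHom (IsLocalRing.ResidueField A)) X)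
      (by rw [coeffMap_coeff, hX1, map_one])
      (fun n hn => by rw [coeffMap_coeff, hX2 n hn, map_zero])]
    norm_num
  have hcoeff : PE.coeff i0 = aE i0 := by
    rw [hPE, Polynomial.finsetSum_coeff]
    rw [Finset.sum_eq_single i0]
    · rw [Polynomial.coeff_C_mul, Polynomial.coeff_X_pow, if_pos rfl, mul_one]
    · intro j _ hj
      rw [Polynomial.coeff_C_mul, Polynomial.coeff_X_pow, if_neg (Ne.symm hj), mul_zero]
    · intro h
      exact absurd (Polynomial.mem_support_iff.mpr hi0) h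
  have hPEk : PE.map (piE A E) ≠ 0 := by
    intro h
    have h1 := congrArg (fun Q : Polynomial (IsLocalRing.ResidueField A) => Q.coeff i0) h
    simp only [Polynomial.coeff_map, Polynomial.coeff_zero, hcoeff] at h1
    -- `a i0` is a unit of `A`
    obtain ⟨b, hbA, hbE, hb⟩ := exists_of_mem_Rc hi0'
    have hbinv : b = (a i0)⁻¹ := algebraMap_Om_injective (by rw [hb, ← ha i0, map_inv₀])
    have ha0 : a i0 ≠ 0 := by
      intro h0
      apply hi0
      rw [← ha i0, h0, map_zero]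
    have hunit : IsUnit (⟨a i0, haA i0⟩ : ↥A) := by
      refine isUnit_iff_exists_inv.mpr ⟨⟨b, hbA⟩, ?_⟩
      apply Subtype.ext
      show a i0 * b = 1
      rw [hbinv, mul_inv_cancel₀ ha0]
    have : IsLocalRing.residue A ⟨a i0, haA i0⟩ = 0 := h1
    rw [IsLocalRing.residue_eq_zero_iff, IsLocalRing.mem_maximalIdeal, mem_nonunits_iff] at this
    exact this hunit
  have key := inv_eval_mem_gaussSet (A := AE A E) (π := piE A E) (N := M) hXE_GI hXk PE hPEk
  refine (mem_VcSet_iff M A E).mpr ⟨_, key, ?_⟩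
  rw [map_inv₀]
  show _ = ((P.eval x)⁻¹ : Om M).1
  have hval : PhiE E (coeffMap (AE A E).subtype (PE.eval₂ (HahnSeries.C (Γ := ℤ)) XE)) =
      ((P.eval x : Om M) : LaurentSeries Qb) := by
    rw [Polynomial.eval_eq_sum, Polynomial.sum_def, hPE, Polynomial.eval₂_finsetSum]
    rw [map_sum, map_sum]
    have hcoe : ((∑ i ∈ P.support, P.coeff i * x ^ i : Om M) : LaurentSeries Qb) =
        ∑ i ∈ P.support, ((P.coeff i : Om M) : LaurentSeries Qb) * (x : LaurentSeries Qb) ^ i := by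
      show (modularFunctionFieldBar M).val (∑ i ∈ P.support, P.coeff i * x ^ i) = _
      rw [map_sum]
      refine Finset.sum_congr rfl fun i _ => ?_
      rw [map_mul, map_pow]
      rfl
    rw [hcoe]
    refine Finset.sum_congr rfl fun i _ => ?_
    rw [Polynomial.eval₂_mul, Polynomial.eval₂_C, Polynomial.eval₂_pow, Polynomial.eval₂_X,
      map_mul, map_mul, map_pow, map_pow, coeffMap_C, coeffMap_C, ← ha i, coe_algebraMap_Om,
      hxX, hXE, coeffMap_coeffMap, coeffMap_coeffMap]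
    congr 2
  rw [hval]
  rfl

end VFacts

end Fermat.Agent.S18.H516

end
end
-- ===== PACK-END S18/MOD/H516/GaussV.lean

-- ===== PACK-BEGIN S24/H324/FundIneq.lean
section




/-!
# S24 / ALG (helper324) — the fundamental inequality from `LocalData`, Dedekind-free

For `L : LocalData K F C X t` (`K` algebraically closed, `C` of characteristic zero, `F` finite
over `K(t)`):

* `card_fiber_le` : at most `v.ord t` of the embeddings `L.σ x` induce a given place `v`;
* `card_le_sum_ord` : `#X ≤ ∑_{v | t} v.ord t`  (= hypothesis `hsum` of `H117.localThm`);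
* `local_count` : the statement `sub_local_count` of helper984's `Alg/Sub.lean`.
-/

set_option autoImplicit false
set_option linter.style.haveILetI false

noncomputable section

open AlgebraicCurve HahnSeries IntermediateField
open Fermat.Agent.S24.H117

namespace Fermat.Agent.S24.H324

variable {K F : Type*} [Field K] [Field F] [Algebra K F]
variable {C : Type*} [Field C] {X : Type*}
variable {t : F}

/-- Residue field `= K`: first-order expansion of an integral element along a uniformiser. -/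
theorem exists_decomp [IsAlgClosed K] [FiniteDimensional K⟮t⟯ F] (v : Place K F)
    (ht : 0 < v.ord t) (π : F) (hπ : v.ord π = 1) (f : F) (hf : 0 ≤ v.ord f) :
    ∃ (c : K) (f₁ : F), 0 ≤ v.ord f₁ ∧ f = algebraMap K F c + π * f₁ := by
  have hπ0 : π ≠ 0 := ne_zero_of_ord_ne_zero v (by rw [hπ]; norm_num)
  have htr : Transcendental K t := by
    apply FF.transcendental_of_not_mem_range
    rintro ⟨a, rfl⟩
    rw [H117.ord_algebraMap] at ht
    exact lt_irrefl _ ht
  obtain ⟨a, ha⟩ := FF.exists_const_sub_mem_nonunits v htr (H117.mem_of_ord_nonneg v hf)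
  refine ⟨a, (f - algebraMap K F a) / π, ?_, ?_⟩
  · rcases eq_or_ne (f - algebraMap K F a) 0 with h0 | h0
    · rw [h0, zero_div, v.ord_zero]
    · have hpos := (FF.ord_pos_iff_mem_nonunits v h0).mpr ha
      rw [ord_div v h0 hπ0, hπ]
      omega
  · rw [mul_div_cancel₀ _ hπ0]; ring

variable (L : LocalData K F C X t)

/-- Two points of `X` inducing the same place give the hypotheses `SamePlace`. -/
theorem samePlace_of_placeOf_eq {x y : X} (hxy : placeOf L y = placeOf L x) :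
    SamePlace (placeOf L x) (L.σ x) (L.σ y) (mult L x) where
  g_pos := mult_pos L x
  ordσ := order_eq L x
  ordτ := by
    have hm : mult L y = mult L x := by
      have h1 := mult_mul_ord_t L x
      have h2 := mult_mul_ord_t L y
      rw [hxy] at h2
      have hpos := ord_t_pos L x
      have : (mult L y : ℤ) = mult L x :=
        mul_right_cancel₀ hpos.ne' (h2.trans h1.symm)
      exact_mod_cast this
    intro f
    rw [order_eq L y f, hxy, hm]
  const c := by rw [L.σ_const, L.σ_const]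

variable [IsAlgClosed K] [CharZero C] [FiniteDimensional K⟮t⟯ F]

/-- **Local bound**: at most `v.ord t` of the embeddings induce the place `v`. -/
theorem card_fiber_le [Fintype X] [DecidableEq (Place K F)] (v : Place K F)
    (hv : 0 ≤ v.ord t) :
    ((Finset.univ.filter (fun x => placeOf L x = v)).card : ℤ) ≤ v.ord t := by
  classical
  rcases (Finset.univ.filter (fun x => placeOf L x = v)).eq_empty_or_nonempty with hemp | hne
  · rw [hemp]; simpa using hv
  obtain ⟨x₀, hx₀⟩ := hne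
  have hx₀v : placeOf L x₀ = v := (Finset.mem_filter.mp hx₀).2
  subst hx₀v
  have ht : 0 < (placeOf L x₀).ord t := ord_t_pos L x₀
  obtain ⟨π, hπ0, hπ⟩ := exists_ord_eq_one (placeOf L x₀)
  obtain ⟨e, he⟩ : ∃ e : ℕ, (e : ℤ) = (placeOf L x₀).ord t :=
    ⟨((placeOf L x₀).ord t).toNat, Int.toNat_of_nonneg ht.le⟩
  have he0 : 0 < e := by
    have : (0 : ℤ) < e := by rw [he]; exact ht
    exact_mod_cast this
  have hres := exists_decomp (placeOf L x₀) ht π hπ
  set a : C := (L.σ x₀ π).leadingCoeff ^ e with ha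
  have hmaps : Set.MapsTo (fun x => (L.σ x π).leadingCoeff)
      (↑(Finset.univ.filter (fun x => placeOf L x = placeOf L x₀)))
      (↑(Polynomial.nthRootsFinset e a) : Set C) := by
    intro x hx
    have hxv : placeOf L x = placeOf L x₀ := (Finset.mem_filter.mp hx).2
    have hS := samePlace_of_placeOf_eq L hxv
    have := hS.leadingCoeff_pow_eq π hπ hres t ht (L.σ_t_eq x₀ x) e he
    simp only [Finset.mem_coe]
    rw [Polynomial.mem_nthRootsFinset he0]
    exact this.symm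
  have hinj : Set.InjOn (fun x => (L.σ x π).leadingCoeff)
      (↑(Finset.univ.filter (fun x => placeOf L x = placeOf L x₀))) := by
    intro x hx y hy hxy
    have hxv : placeOf L x = placeOf L x₀ := (Finset.mem_filter.mp hx).2
    have hyv : placeOf L y = placeOf L x₀ := (Finset.mem_filter.mp hy).2
    have hyx : placeOf L y = placeOf L x := hyv.trans hxv.symm
    have hS := samePlace_of_placeOf_eq L hyx
    have hπx : (placeOf L x).ord π = 1 := by rw [hxv]; exact hπ
    have htx : 0 < (placeOf L x).ord t := ord_t_pos L x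
    have hresx := exists_decomp (placeOf L x) htx π hπx
    exact L.σ_inj (hS.eq_of_leadingCoeff_eq π hπx hresx t htx (L.σ_t_eq x y) hxy)
  have h1 := Finset.card_le_card_of_injOn _ hmaps hinj
  have h2 : (Polynomial.nthRootsFinset e a).card ≤ e := by
    unfold Polynomial.nthRootsFinset
    exact (Multiset.toFinset_card_le _).trans (Polynomial.card_nthRoots e a)
  rw [← he]
  exact_mod_cast h1.trans h2

variable [Finite X]

include L in
/-- **Fundamental inequality**, Dedekind-free. -/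
theorem card_le_sum_ord (s : Finset (Place K F)) (hs : ∀ v, v ∈ s ↔ 0 < v.ord t) :
    (Nat.card X : ℤ) ≤ ∑ v ∈ s, v.ord t := by
  classical
  haveI : Fintype X := Fintype.ofFinite X
  have hmaps : Set.MapsTo (placeOf L) (↑(Finset.univ : Finset X)) (↑s : Set (Place K F)) := by
    intro x _
    exact Finset.mem_coe.mpr ((hs _).mpr (ord_t_pos L x))
  have hcard := Finset.card_eq_sum_card_fiberwise hmaps
  rw [Nat.card_eq_fintype_card, ← Finset.card_univ, hcard, Nat.cast_sum]
  refine Finset.sum_le_sum fun v hv => ?_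
  exact card_fiber_le L v ((hs v).mp hv).le

/-- **LT** (statement `sub_local_count` of helper984's `Alg/Sub.lean`). -/
theorem local_count [CharZero K]
    (hrank : Module.finrank ↥(IntermediateField.adjoin K {t}) F = Nat.card X) :
    {v : Place K F | 0 < v.ord t}.Finite ∧
      Nat.card ↥{v : Place K F | 0 < v.ord t} = numOrbits L.perm ∧
      ∑ᶠ v ∈ {v : Place K F | 0 < v.ord t}, v.ord t = (Nat.card X : ℤ) := by
  classical
  have hfin : {v : Place K F | 0 < v.ord t}.Finite :=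
    finite_places_over L K⟮t⟯ le_rfl hrank
  set s := hfin.toFinset with hs
  have hmem : ∀ v, v ∈ s ↔ 0 < v.ord t := fun v => by
    rw [hs, Set.Finite.mem_toFinset]; rfl
  obtain ⟨h1, -, h3⟩ := localThm L K⟮t⟯ le_rfl hrank s hmem (card_le_sum_ord L s hmem)
  refine ⟨hfin, ?_, ?_⟩
  · rw [← h1, Nat.card_eq_card_finite_toFinset hfin]
  · rw [finsum_mem_eq_finite_toFinset_sum _ hfin]
    exact h3

end Fermat.Agent.S24.H324

end
end
-- ===== PACK-END S24/H324/FundIneq.lean

-- ===== PACK-BEGIN S18/H107/T2Qep.lean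
section






/-!
# helper107 — S18 / M3-T : QEP for the Hauptmodul `t = t₂` of `X₀(2)` (case `ℓ = 3`)

Input: the relation `j * t ^ 2 = (t + 256) ^ 3`, `2⁻¹ ∈ R`, QEP for the charts of `j` and `j⁻¹`.
Output: QEP for the charts of `t` and `t⁻¹` (`qep_t2_fin107`, `qep_t2_inf107`).
-/

set_option autoImplicit false

namespace Fermat.Agent.S18.H107

open Polynomial Fermat.Agent.S18.Alg

variable {Ω : Type*} [Field Ω]

/-- The Hauptmodul relation for `X₀(2)` together with the needed side conditions. -/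
structure HauptT2107 (Fc : Subfield Ω) (R V : Subring Ω) (j t : Ω) : Prop where
  rel : j * t ^ 2 = (t + 256) ^ 3
  two_inv : (2 : Ω)⁻¹ ∈ R
  two_ne : (2 : Ω) ≠ 0
  j_ne : j ≠ 0
  t_mem_Fc : t ∈ Fc
  t_mem_V : t ∈ V
  t256_inv_mem_V : (t + 256)⁻¹ ∈ V

namespace HauptT2107

variable {Fc : Subfield Ω} {R V : Subring Ω} {j t : Ω}

theorem c256_ne (h : HauptT2107 Fc R V j t) : (256 : Ω) ≠ 0 := by
  have : (256 : Ω) = 2 ^ 8 := by norm_num
  rw [this]
  exact pow_ne_zero _ h.two_ne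

theorem inv256_mem (h : HauptT2107 Fc R V j t) : (256 : Ω)⁻¹ ∈ R := by
  have := R.pow_mem h.two_inv 8
  have e : ((2 : Ω)⁻¹) ^ 8 = (256 : Ω)⁻¹ := by norm_num
  rwa [e] at this

theorem t_ne (h : HauptT2107 Fc R V j t) : t ≠ 0 := by
  intro ht
  have := h.rel
  rw [ht] at this
  have h256 := h.c256_ne
  have h3 : (256 : Ω) ^ 3 = 0 := by
    have e : ((0 : Ω) + 256) ^ 3 = 256 ^ 3 := by ring
    rw [← e, ← this]
    ring
  exact h256 (pow_eq_zero_iff (by norm_num) |>.1 h3)

theorem t256_ne (h : HauptT2107 Fc R V j t) : t + 256 ≠ 0 := by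
  intro ht
  have := h.rel
  rw [ht] at this
  have h0 : j * t ^ 2 = 0 := by rw [this]; ring
  rcases mul_eq_zero.1 h0 with hj | ht0
  · exact h.j_ne hj
  · exact h.t_ne (pow_eq_zero_iff (by norm_num) |>.1 ht0)

/-- `t` is integral over `R[j]`. -/
theorem t_int (h : HauptT2107 Fc R V j t) : t ∈ intCl107 (polyRing R j) := by
  refine mem_intCl_of_cubic107 _ t (768 - j) 196608 16777216 ?_ (ofNat_mem _ _) (ofNat_mem _ _) ?_
  · exact Subring.sub_mem _ (ofNat_mem _ _) (self_mem_polyRing107 R j)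
  · linear_combination -h.rel

/-- `h = t / (t + 256)` is integral over `R[j⁻¹]`. -/
theorem h_int (h : HauptT2107 Fc R V j t) : t * (t + 256)⁻¹ ∈ intCl107 (polyRing R j⁻¹) := by
  refine mem_intCl_of_cubic107 _ _ (-1) 0 (256 * j⁻¹) ?_ (Subring.zero_mem _) ?_ ?_
  · exact Subring.neg_mem _ (Subring.one_mem _)
  · exact Subring.mul_mem _ (ofNat_mem _ _) (self_mem_polyRing107 R j⁻¹)
  · have hj := h.j_ne
    have ht := h.t256_ne
    field_simp
    linear_combination (-256 : Ω) * h.rel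

/-- `t⁻¹` is integral over `R[j]` (uses `2⁻¹ ∈ R`). -/
theorem tinv_int (h : HauptT2107 Fc R V j t) : t⁻¹ ∈ intCl107 (polyRing R j) := by
  have h256 := h.inv256_mem
  have hR := le_polyRing107 R j
  refine mem_intCl_of_cubic107 _ _ (3 * (256 : Ω)⁻¹) ((768 - j) * ((256 : Ω)⁻¹) ^ 3)
    (((256 : Ω)⁻¹) ^ 3) ?_ ?_ ?_ ?_
  · exact Subring.mul_mem _ (ofNat_mem _ _) (hR h256)
  · exact Subring.mul_mem _ (Subring.sub_mem _ (ofNat_mem _ _) (self_mem_polyRing107 R j))
      (Subring.pow_mem _ (hR h256) 3)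
  · exact Subring.pow_mem _ (hR h256) 3
  · have ht := h.t_ne
    have hc := h.c256_ne
    field_simp
    linear_combination -h.rel

theorem open1_fin (h : HauptT2107 Fc R V j t) : OpenData107 Fc R V t j t 1 where
  g_mem := self_mem_polyRing107 R t
  e_mem_Fc := Fc.one_mem
  e_mem_V := V.one_mem
  e_int := Subring.one_mem _
  xe_int := by rw [mul_one]; exact h.t_int
  y_loc := ⟨2, by
    rw [h.rel]
    exact le_intCl107 _ (Subring.pow_mem _
      (Subring.add_mem _ (self_mem_polyRing107 R t) (ofNat_mem _ _)) 3)⟩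
  e_inv := ⟨1, Subring.one_mem _, 0, by simp⟩

theorem open2_fin (h : HauptT2107 Fc R V j t) :
    OpenData107 Fc R V t j⁻¹ (t + 256) (256 * (t + 256)⁻¹) where
  g_mem := Subring.add_mem _ (self_mem_polyRing107 R t) (ofNat_mem _ _)
  e_mem_Fc := Fc.mul_mem (ofNat_mem _ _)
    (Fc.inv_mem (Fc.add_mem h.t_mem_Fc (ofNat_mem _ _)))
  e_mem_V := V.mul_mem (ofNat_mem _ _) h.t256_inv_mem_V
  e_int := by
    have e : 256 * (t + 256)⁻¹ = 1 - t * (t + 256)⁻¹ := by
      have ht := h.t256_ne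
      field_simp
      ring
    rw [e]
    exact Subring.sub_mem _ (Subring.one_mem _) h.h_int
  xe_int := by
    have e : t * (256 * (t + 256)⁻¹) = 256 * (t * (t + 256)⁻¹) := by ring
    rw [e]
    exact Subring.mul_mem _ (ofNat_mem _ _) h.h_int
  y_loc := ⟨3, by
    have e : j⁻¹ * (t + 256) ^ 3 = t ^ 2 := by
      have hj := h.j_ne
      field_simp
      linear_combination -h.rel
    rw [e]
    exact le_intCl107 _ (Subring.pow_mem _ (self_mem_polyRing107 R t) 2)⟩
  e_inv := ⟨(t + 256) * (256 : Ω)⁻¹,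
    le_intCl107 _ (Subring.mul_mem _ (Subring.add_mem _ (self_mem_polyRing107 R t) (ofNat_mem _ _))
      (le_polyRing107 R t h.inv256_mem)), 0, by
    have ht := h.t256_ne
    have hc := h.c256_ne
    field_simp⟩

theorem open1_inf (h : HauptT2107 Fc R V j t) : OpenData107 Fc R V t⁻¹ j t⁻¹ 1 where
  g_mem := self_mem_polyRing107 R t⁻¹
  e_mem_Fc := Fc.one_mem
  e_mem_V := V.one_mem
  e_int := Subring.one_mem _
  xe_int := by rw [mul_one]; exact h.tinv_int
  y_loc := ⟨1, by
    have e : j * t⁻¹ ^ 1 = (1 + 256 * t⁻¹) ^ 3 := by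
      have ht := h.t_ne
      field_simp
      linear_combination h.rel
    rw [e]
    exact le_intCl107 _ (Subring.pow_mem _ (Subring.add_mem _ (Subring.one_mem _)
      (Subring.mul_mem _ (ofNat_mem _ _) (self_mem_polyRing107 R t⁻¹))) 3)⟩
  e_inv := ⟨1, Subring.one_mem _, 0, by simp⟩

theorem open2_inf (h : HauptT2107 Fc R V j t) :
    OpenData107 Fc R V t⁻¹ j⁻¹ (1 + 256 * t⁻¹) (t * (t + 256)⁻¹) where
  g_mem := Subring.add_mem _ (Subring.one_mem _)
    (Subring.mul_mem _ (ofNat_mem _ _) (self_mem_polyRing107 R t⁻¹))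
  e_mem_Fc := Fc.mul_mem h.t_mem_Fc (Fc.inv_mem (Fc.add_mem h.t_mem_Fc (ofNat_mem _ _)))
  e_mem_V := V.mul_mem h.t_mem_V h.t256_inv_mem_V
  e_int := h.h_int
  xe_int := by
    have e : t⁻¹ * (t * (t + 256)⁻¹) = (1 - t * (t + 256)⁻¹) * (256 : Ω)⁻¹ := by
      have ht := h.t_ne
      have ht' := h.t256_ne
      have hc := h.c256_ne
      field_simp
      ring
    rw [e]
    exact Subring.mul_mem _ (Subring.sub_mem _ (Subring.one_mem _) h.h_int)
      (le_intCl107 _ (le_polyRing107 R j⁻¹ h.inv256_mem))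
  y_loc := ⟨3, by
    have e : j⁻¹ * (1 + 256 * t⁻¹) ^ 3 = t⁻¹ := by
      have hj := h.j_ne
      have ht := h.t_ne
      field_simp
      linear_combination -h.rel
    rw [e]
    exact le_intCl107 _ (self_mem_polyRing107 R t⁻¹)⟩
  e_inv := ⟨1 + 256 * t⁻¹, le_intCl107 _ (Subring.add_mem _ (Subring.one_mem _)
      (Subring.mul_mem _ (ofNat_mem _ _) (self_mem_polyRing107 R t⁻¹))), 0, by
    have ht := h.t_ne
    have ht' := h.t256_ne
    field_simp⟩

/-- **QEP for the chart of `t₂`.** -/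
theorem qep_fin (h : HauptT2107 Fc R V j t) {w : Ω} (hw : w ∈ Fc)
    (q₁ : Qep107 Fc R V w j) (q₂ : Qep107 Fc R V w j⁻¹) : Qep107 Fc R V w t := by
  refine qep_transfer107 (a := -(256 : Ω)⁻¹) (b := (256 : Ω)⁻¹) hw q₁ q₂ h.open1_fin h.open2_fin
    (Subring.neg_mem _ (le_polyRing107 R t h.inv256_mem)) (le_polyRing107 R t h.inv256_mem) ?_
  have hc := h.c256_ne
  field_simp
  ring

/-- **QEP for the chart of `t₂⁻¹`.** -/
theorem qep_inf (h : HauptT2107 Fc R V j t) {w : Ω} (hw : w ∈ Fc)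
    (q₁ : Qep107 Fc R V w j) (q₂ : Qep107 Fc R V w j⁻¹) : Qep107 Fc R V w t⁻¹ := by
  refine qep_transfer107 (a := -256) (b := 1) hw q₁ q₂ h.open1_inf h.open2_inf
    (Subring.neg_mem _ (ofNat_mem _ _)) (Subring.one_mem _) ?_
  ring

end HauptT2107

end Fermat.Agent.S18.H107

end
-- ===== PACK-END S18/H107/T2Qep.lean

-- ===== PACK-BEGIN S18/H107/T2Model.lean
section






/-!
# helper107 — S18 / M3-T : the good model for the coordinate `t₂` (case `ℓ = 3`)

`goodModel_t2_107` : from the `j`-model WITHOUT branch-set fields (`BaseModel107 … j`, true for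
every `ℓ ∤ M`), the branch data of the `j`-line in characteristic `0` (`BranchJ107`), the identity
`j t² = (t + 256)³`, `2⁻¹ ∈ R`, `t ∈ Fc ∩ V` and the Gauss property of `t`, we get the frozen
`Alg.GoodModel Lc Ec Fc R V w t S` with `S = {0, -64}`.
-/

set_option autoImplicit false

namespace Fermat.Agent.S18.H107

open Polynomial Fermat.Agent.S18.Alg

variable {Ω : Type*} [Field Ω]

theorem ne_zero_of_transcendental107 {Lc : Subfield Ω} {j : Ω} (h : Transcendental Lc j) :
    j ≠ 0 := by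
  rintro rfl
  exact h isAlgebraic_zero

/-- `gauss` applied to `X + C a`. -/
theorem gauss_X_add_C107 {R V : Subring Ω} {t : Ω}
    (hgauss : ∀ P : Polynomial Ω, (∀ i, P.coeff i ∈ R) →
      (∃ i, P.coeff i ≠ 0 ∧ (P.coeff i)⁻¹ ∈ R) → (P.eval t)⁻¹ ∈ V)
    {a : Ω} (ha : a ∈ R) : (t + a)⁻¹ ∈ V := by
  have := hgauss (X + C a) (fun i => ?_) ⟨1, ?_, ?_⟩
  · simpa using this
  · rw [coeff_add, coeff_X, coeff_C]
    split_ifs
    · exact R.add_mem R.one_mem ha
    · exact R.add_mem R.one_mem R.zero_mem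
    · exact R.add_mem R.zero_mem ha
    · exact R.add_mem R.zero_mem R.zero_mem
  · simp [coeff_X]
  · simp [coeff_X, R.one_mem]

theorem gauss_X107 {R V : Subring Ω} {t : Ω}
    (hgauss : ∀ P : Polynomial Ω, (∀ i, P.coeff i ∈ R) →
      (∃ i, P.coeff i ≠ 0 ∧ (P.coeff i)⁻¹ ∈ R) → (P.eval t)⁻¹ ∈ V) : t⁻¹ ∈ V := by
  have := gauss_X_add_C107 hgauss R.zero_mem
  rwa [add_zero] at this

theorem goodModel_t2_107 {Lc Ec Fc : Subfield Ω} {R V : Subring Ω} {w j t : Ω} {S : Finset Ω}
    (hb : BaseModel107 Lc Ec Fc R V w j) (hB : BranchJ107 Lc j)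
    (hrel : j * t ^ 2 = (t + 256) ^ 3) (htF : t ∈ Fc) (htV : t ∈ V) (h2 : (2 : Ω)⁻¹ ∈ R)
    (hgauss : ∀ P : Polynomial Ω, (∀ i, P.coeff i ∈ R) →
      (∃ i, P.coeff i ≠ 0 ∧ (P.coeff i)⁻¹ ∈ R) → (P.eval t)⁻¹ ∈ V)
    (hS : ∀ s, s ∈ S ↔ s = 0 ∨ s = -64) :
    GoodModel Lc Ec Fc R V w t S := by
  have := hb.charZero
  have hj0 : j ≠ 0 := ne_zero_of_transcendental107 hb.x_transcendental
  have hH : HauptT2107 Fc R V j t :=
    { rel := hrel
      two_inv := h2
      two_ne := two_ne_zero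
      j_ne := hj0
      t_mem_Fc := htF
      t_mem_V := htV
      t256_inv_mem_V := gauss_X_add_C107 hgauss (ofNat_mem R 256) }
  have ht0 : t ≠ 0 := hH.t_ne
  have hwF : w ∈ Fc := hb.E_le_F (hb.R_le hb.w_mem)
  have htinvV : t⁻¹ ∈ V := gauss_X107 hgauss
  have h64 : (64 : Ω)⁻¹ ∈ R := by
    have := R.pow_mem h2 6
    have e : ((2 : Ω)⁻¹) ^ 6 = (64 : Ω)⁻¹ := by norm_num
    rwa [e] at this
  -- `j ∈ Ec(t)`
  have hjrat : j ∈ ratField Ec t := by
    have e : j = (t + 256) ^ 3 * (t ^ 2)⁻¹ := by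
      field_simp
      linear_combination hrel
    rw [e]
    have ht := self_mem_ratField107 Ec t
    exact mul_mem (pow_mem (add_mem ht (ofNat_mem _ 256)) 3) (inv_mem (pow_mem ht 2))
  -- transcendence of `t`
  have htr : Transcendental Lc t := by
    intro halg
    apply hb.x_transcendental
    have e : j = (t + 256) ^ 3 * (t ^ 2)⁻¹ := by
      field_simp
      linear_combination hrel
    rw [e]
    have h256 : IsAlgebraic Lc (256 : Ω) := by
      have : (256 : Ω) = algebraMap Lc Ω (256 : Lc) := by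
        rw [map_ofNat]
      rw [this]
      exact isAlgebraic_algebraMap _
    exact ((halg.add h256).pow 3).mul (halg.pow 2).inv
  refine (show BaseModel107 Lc Ec Fc R V w t from
    { charZero := hb.charZero
      R_le := hb.R_le
      R_total := hb.R_total
      w_mem := hb.w_mem
      w_ne_zero := hb.w_ne_zero
      w_inv_not_mem := hb.w_inv_not_mem
      w_gen := hb.w_gen
      w_discrete := hb.w_discrete
      residue_perfect := hb.residue_perfect
      E_le_L := hb.E_le_L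
      E_le_F := hb.E_le_F
      L_algebraic := hb.L_algebraic
      L_algClosed := hb.L_algClosed
      E_closed_in_F := hb.E_closed_in_F
      compositum := hb.compositum
      x_mem := htF
      x_transcendental := htr
      finite := finite_transfer107 hjrat hb.finite
      V_le := hb.V_le
      V_total := hb.V_total
      R_le_V := hb.R_le_V
      w_inv_not_mem_V := hb.w_inv_not_mem_V
      V_gen := hb.V_gen
      x_mem_V := htV
      gauss := hgauss
      qep_fin := hH.qep_fin hwF hb.qep_fin hb.qep_inf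
      qep_inf := hH.qep_inf hwF hb.qep_fin hb.qep_inf
      separable := separable_transfer107 (e := t ^ 2)
        (Subring.pow_mem _ (self_mem_polyRing107 R t) 2)
        (by
          rw [hrel]
          exact Subring.pow_mem _
            (Subring.add_mem _ (self_mem_polyRing107 R t) (ofNat_mem _ 256)) 3)
        (V.pow_mem htV 2) (by rw [← inv_pow]; exact V.pow_mem htinvV 2) (pow_ne_zero _ ht0)
        hb.separable }).toGoodModel S ?_ ?_ ?_ ?_
  · intro s hs
    rcases (hS s).1 hs with rfl | rfl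
    · exact R.zero_mem
    · exact R.neg_mem (ofNat_mem R 64)
  · intro s hs s' hs' hne
    rcases (hS s).1 hs with rfl | rfl <;> rcases (hS s').1 hs' with rfl | rfl
    · exact absurd rfl hne
    · have e : ((0 : Ω) - -64)⁻¹ = (64 : Ω)⁻¹ := by norm_num
      rw [e]
      exact h64
    · have e : ((-64 : Ω) - 0)⁻¹ = -(64 : Ω)⁻¹ := by
        rw [sub_zero, inv_neg]
      rw [e]
      exact R.neg_mem h64
    · exact absurd rfl hne
  · intro s hs hs0
    rcases (hS s).1 hs with rfl | rfl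
    · exact absurd rfl hs0
    · rw [inv_neg]
      exact R.neg_mem h64
  · intro O hL c hc hcS hz hz'
    have hc0 : c ≠ 0 := fun h => hcS ((hS c).2 (Or.inl h))
    have hc64 : c ≠ -64 := fun h => hcS ((hS c).2 (Or.inr h))
    exact unramified_t2_107 Lc j t hrel hB O hL c hc hc64 hc0 hz hz'

end Fermat.Agent.S18.H107

end
-- ===== PACK-END S18/H107/T2Model.lean

-- ===== PACK-BEGIN S18/H107/T3Qep.lean
section






/-!
# helper107 — S18 / M3-T : QEP for the Hauptmodul `t = t₃` of `X₀(3)` (case `ℓ = 2`)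

Input: the relation `j * t ^ 3 = (t + 27) * (t + 243) ^ 3`, `3⁻¹ ∈ R`, QEP for the charts of `j`
and `j⁻¹`.  Output: QEP for the charts of `t` and `t⁻¹`.
-/

set_option autoImplicit false

namespace Fermat.Agent.S18.H107

open Polynomial Fermat.Agent.S18.Alg

variable {Ω : Type*} [Field Ω]

/-- The Hauptmodul relation for `X₀(3)` together with the needed side conditions. -/
structure HauptT3107 (Fc : Subfield Ω) (R V : Subring Ω) (j t : Ω) : Prop where
  rel : j * t ^ 3 = (t + 27) * (t + 243) ^ 3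
  three_inv : (3 : Ω)⁻¹ ∈ R
  three_ne : (3 : Ω) ≠ 0
  j_ne : j ≠ 0
  t_mem_Fc : t ∈ Fc
  t_mem_V : t ∈ V
  t27_inv_mem_V : (t + 27)⁻¹ ∈ V

namespace HauptT3107

variable {Fc : Subfield Ω} {R V : Subring Ω} {j t : Ω}

theorem c27_ne (h : HauptT3107 Fc R V j t) : (27 : Ω) ≠ 0 := by
  have : (27 : Ω) = 3 ^ 3 := by norm_num
  rw [this]
  exact pow_ne_zero _ h.three_ne

theorem c243_ne (h : HauptT3107 Fc R V j t) : (243 : Ω) ≠ 0 := by
  have : (243 : Ω) = 3 ^ 5 := by norm_num
  rw [this]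
  exact pow_ne_zero _ h.three_ne

theorem c6561_ne (h : HauptT3107 Fc R V j t) : (6561 : Ω) ≠ 0 := by
  have : (6561 : Ω) = 3 ^ 8 := by norm_num
  rw [this]
  exact pow_ne_zero _ h.three_ne

theorem cBig_ne (h : HauptT3107 Fc R V j t) : (387420489 : Ω) ≠ 0 := by
  have : (387420489 : Ω) = 3 ^ 18 := by norm_num
  rw [this]
  exact pow_ne_zero _ h.three_ne

theorem inv27_mem (h : HauptT3107 Fc R V j t) : (27 : Ω)⁻¹ ∈ R := by
  have := R.pow_mem h.three_inv 3
  have e : ((3 : Ω)⁻¹) ^ 3 = (27 : Ω)⁻¹ := by norm_num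
  rwa [e] at this

theorem inv6561_mem (h : HauptT3107 Fc R V j t) : (6561 : Ω)⁻¹ ∈ R := by
  have := R.pow_mem h.three_inv 8
  have e : ((3 : Ω)⁻¹) ^ 8 = (6561 : Ω)⁻¹ := by norm_num
  rwa [e] at this

theorem invBig_mem (h : HauptT3107 Fc R V j t) : (387420489 : Ω)⁻¹ ∈ R := by
  have := R.pow_mem h.three_inv 18
  have e : ((3 : Ω)⁻¹) ^ 18 = (387420489 : Ω)⁻¹ := by norm_num
  rwa [e] at this

theorem t_ne (h : HauptT3107 Fc R V j t) : t ≠ 0 := by
  intro ht
  have := h.rel
  rw [ht] at this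
  have h0 : (27 : Ω) * 243 ^ 3 = 0 := by
    have e : ((0 : Ω) + 27) * (0 + 243) ^ 3 = 27 * 243 ^ 3 := by ring
    rw [← e, ← this]
    ring
  rcases mul_eq_zero.1 h0 with h1 | h1
  · exact h.c27_ne h1
  · exact h.c243_ne (pow_eq_zero_iff (by norm_num) |>.1 h1)

theorem t27_ne (h : HauptT3107 Fc R V j t) : t + 27 ≠ 0 := by
  intro ht
  have := h.rel
  rw [ht] at this
  have h0 : j * t ^ 3 = 0 := by rw [this]; ring
  rcases mul_eq_zero.1 h0 with hj | ht0
  · exact h.j_ne hj
  · exact h.t_ne (pow_eq_zero_iff (by norm_num) |>.1 ht0)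

theorem t243_ne (h : HauptT3107 Fc R V j t) : t + 243 ≠ 0 := by
  intro ht
  have := h.rel
  rw [ht] at this
  have h0 : j * t ^ 3 = 0 := by rw [this]; ring
  rcases mul_eq_zero.1 h0 with hj | ht0
  · exact h.j_ne hj
  · exact h.t_ne (pow_eq_zero_iff (by norm_num) |>.1 ht0)

/-- `t` is integral over `R[j]`. -/
theorem t_int (h : HauptT3107 Fc R V j t) : t ∈ intCl107 (polyRing R j) := by
  refine mem_intCl_of_quartic107 _ t (756 - j) 196830 19131876 387420489 ?_ (ofNat_mem _ _)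
    (ofNat_mem _ _) (ofNat_mem _ _) ?_
  · exact Subring.sub_mem _ (ofNat_mem _ _) (self_mem_polyRing107 R j)
  · linear_combination -h.rel

/-- `h₁ = t / (t + 27)` is integral over `R[j⁻¹]`. -/
theorem h_int (h : HauptT3107 Fc R V j t) : t * (t + 27)⁻¹ ∈ intCl107 (polyRing R j⁻¹) := by
  have hj' := self_mem_polyRing107 R j⁻¹
  refine mem_intCl_of_quartic107 _ _ (-1 - 13824 * j⁻¹) (46656 * j⁻¹) (-(52488 * j⁻¹))
    (19683 * j⁻¹) ?_ ?_ ?_ ?_ ?_
  · exact Subring.sub_mem _ (Subring.neg_mem _ (Subring.one_mem _))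
      (Subring.mul_mem _ (ofNat_mem _ _) hj')
  · exact Subring.mul_mem _ (ofNat_mem _ _) hj'
  · exact Subring.neg_mem _ (Subring.mul_mem _ (ofNat_mem _ _) hj')
  · exact Subring.mul_mem _ (ofNat_mem _ _) hj'
  · have hj := h.j_ne
    have ht := h.t27_ne
    field_simp
    linear_combination (-27 : Ω) * h.rel

/-- `t⁻¹` is integral over `R[j]` (uses `3⁻¹ ∈ R`). -/
theorem tinv_int (h : HauptT3107 Fc R V j t) : t⁻¹ ∈ intCl107 (polyRing R j) := by
  have hB := le_polyRing107 R j h.invBig_mem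
  refine mem_intCl_of_quartic107 _ _ (19131876 * (387420489 : Ω)⁻¹) (196830 * (387420489 : Ω)⁻¹)
    ((756 - j) * (387420489 : Ω)⁻¹) ((387420489 : Ω)⁻¹) ?_ ?_ ?_ hB ?_
  · exact Subring.mul_mem _ (ofNat_mem _ _) hB
  · exact Subring.mul_mem _ (ofNat_mem _ _) hB
  · exact Subring.mul_mem _ (Subring.sub_mem _ (ofNat_mem _ _) (self_mem_polyRing107 R j)) hB
  · have ht := h.t_ne
    have hc := h.cBig_ne
    field_simp
    linear_combination -h.rel

theorem open1_fin (h : HauptT3107 Fc R V j t) : OpenData107 Fc R V t j t 1 where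
  g_mem := self_mem_polyRing107 R t
  e_mem_Fc := Fc.one_mem
  e_mem_V := V.one_mem
  e_int := Subring.one_mem _
  xe_int := by rw [mul_one]; exact h.t_int
  y_loc := ⟨3, by
    rw [h.rel]
    have ht := self_mem_polyRing107 R t
    exact le_intCl107 _ (Subring.mul_mem _ (Subring.add_mem _ ht (ofNat_mem _ _))
      (Subring.pow_mem _ (Subring.add_mem _ ht (ofNat_mem _ _)) 3))⟩
  e_inv := ⟨1, Subring.one_mem _, 0, by simp⟩

theorem open2_fin (h : HauptT3107 Fc R V j t) :
    OpenData107 Fc R V t j⁻¹ ((t + 27) * (t + 243)) (27 * (t + 27)⁻¹) where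
  g_mem := by
    have ht := self_mem_polyRing107 R t
    exact Subring.mul_mem _ (Subring.add_mem _ ht (ofNat_mem _ _))
      (Subring.add_mem _ ht (ofNat_mem _ _))
  e_mem_Fc := Fc.mul_mem (ofNat_mem _ _)
    (Fc.inv_mem (Fc.add_mem h.t_mem_Fc (ofNat_mem _ _)))
  e_mem_V := V.mul_mem (ofNat_mem _ _) h.t27_inv_mem_V
  e_int := by
    have e : 27 * (t + 27)⁻¹ = 1 - t * (t + 27)⁻¹ := by
      have ht := h.t27_ne
      field_simp
      ring
    rw [e]
    exact Subring.sub_mem _ (Subring.one_mem _) h.h_int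
  xe_int := by
    have e : t * (27 * (t + 27)⁻¹) = 27 * (t * (t + 27)⁻¹) := by ring
    rw [e]
    exact Subring.mul_mem _ (ofNat_mem _ _) h.h_int
  y_loc := ⟨3, by
    have e : j⁻¹ * ((t + 27) * (t + 243)) ^ 3 = t ^ 3 * (t + 27) ^ 2 := by
      have hj := h.j_ne
      field_simp
      linear_combination (-(t + 27) ^ 2) * h.rel
    rw [e]
    have ht := self_mem_polyRing107 R t
    exact le_intCl107 _ (Subring.mul_mem _ (Subring.pow_mem _ ht 3)
      (Subring.pow_mem _ (Subring.add_mem _ ht (ofNat_mem _ _)) 2))⟩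
  e_inv := ⟨(t + 27) * (27 : Ω)⁻¹,
    le_intCl107 _ (Subring.mul_mem _ (Subring.add_mem _ (self_mem_polyRing107 R t) (ofNat_mem _ _))
      (le_polyRing107 R t h.inv27_mem)), 0, by
    have ht := h.t27_ne
    have hc := h.c27_ne
    field_simp⟩

theorem open1_inf (h : HauptT3107 Fc R V j t) : OpenData107 Fc R V t⁻¹ j t⁻¹ 1 where
  g_mem := self_mem_polyRing107 R t⁻¹
  e_mem_Fc := Fc.one_mem
  e_mem_V := V.one_mem
  e_int := Subring.one_mem _
  xe_int := by rw [mul_one]; exact h.tinv_int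
  y_loc := ⟨1, by
    have e : j * t⁻¹ ^ 1 = (1 + 27 * t⁻¹) * (1 + 243 * t⁻¹) ^ 3 := by
      have ht := h.t_ne
      field_simp
      linear_combination h.rel
    rw [e]
    have hs := self_mem_polyRing107 R t⁻¹
    exact le_intCl107 _ (Subring.mul_mem _
      (Subring.add_mem _ (Subring.one_mem _) (Subring.mul_mem _ (ofNat_mem _ _) hs))
      (Subring.pow_mem _ (Subring.add_mem _ (Subring.one_mem _)
        (Subring.mul_mem _ (ofNat_mem _ _) hs)) 3))⟩
  e_inv := ⟨1, Subring.one_mem _, 0, by simp⟩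

theorem open2_inf (h : HauptT3107 Fc R V j t) :
    OpenData107 Fc R V t⁻¹ j⁻¹ ((1 + 27 * t⁻¹) * (1 + 243 * t⁻¹)) (t * (t + 27)⁻¹) where
  g_mem := by
    have hs := self_mem_polyRing107 R t⁻¹
    exact Subring.mul_mem _
      (Subring.add_mem _ (Subring.one_mem _) (Subring.mul_mem _ (ofNat_mem _ _) hs))
      (Subring.add_mem _ (Subring.one_mem _) (Subring.mul_mem _ (ofNat_mem _ _) hs))
  e_mem_Fc := Fc.mul_mem h.t_mem_Fc (Fc.inv_mem (Fc.add_mem h.t_mem_Fc (ofNat_mem _ _)))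
  e_mem_V := V.mul_mem h.t_mem_V h.t27_inv_mem_V
  e_int := h.h_int
  xe_int := by
    have e : t⁻¹ * (t * (t + 27)⁻¹) = (1 - t * (t + 27)⁻¹) * (27 : Ω)⁻¹ := by
      have ht := h.t_ne
      have ht' := h.t27_ne
      have hc := h.c27_ne
      field_simp
      ring
    rw [e]
    exact Subring.mul_mem _ (Subring.sub_mem _ (Subring.one_mem _) h.h_int)
      (le_intCl107 _ (le_polyRing107 R j⁻¹ h.inv27_mem))
  y_loc := ⟨3, by
    have e : j⁻¹ * ((1 + 27 * t⁻¹) * (1 + 243 * t⁻¹)) ^ 3 = t⁻¹ * (1 + 27 * t⁻¹) ^ 2 := by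
      have hj := h.j_ne
      have ht := h.t_ne
      field_simp
      linear_combination (-(t + 27) ^ 2) * h.rel
    rw [e]
    have hs := self_mem_polyRing107 R t⁻¹
    exact le_intCl107 _ (Subring.mul_mem _ hs (Subring.pow_mem _
      (Subring.add_mem _ (Subring.one_mem _) (Subring.mul_mem _ (ofNat_mem _ _) hs)) 2))⟩
  e_inv := ⟨1 + 27 * t⁻¹, le_intCl107 _ (Subring.add_mem _ (Subring.one_mem _)
      (Subring.mul_mem _ (ofNat_mem _ _) (self_mem_polyRing107 R t⁻¹))), 0, by
    have ht := h.t_ne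
    have ht' := h.t27_ne
    field_simp⟩

/-- **QEP for the chart of `t₃`.** -/
theorem qep_fin (h : HauptT3107 Fc R V j t) {w : Ω} (hw : w ∈ Fc)
    (q₁ : Qep107 Fc R V w j) (q₂ : Qep107 Fc R V w j⁻¹) : Qep107 Fc R V w t := by
  have h6 := le_polyRing107 R t h.inv6561_mem
  refine qep_transfer107 (a := -((t + 270) * (6561 : Ω)⁻¹)) (b := (6561 : Ω)⁻¹) hw q₁ q₂
    h.open1_fin h.open2_fin
    (Subring.neg_mem _ (Subring.mul_mem _
      (Subring.add_mem _ (self_mem_polyRing107 R t) (ofNat_mem _ _)) h6)) h6 ?_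
  have hc := h.c6561_ne
  field_simp
  ring

/-- **QEP for the chart of `t₃⁻¹`.** -/
theorem qep_inf (h : HauptT3107 Fc R V j t) {w : Ω} (hw : w ∈ Fc)
    (q₁ : Qep107 Fc R V w j) (q₂ : Qep107 Fc R V w j⁻¹) : Qep107 Fc R V w t⁻¹ := by
  refine qep_transfer107 (a := -(270 + 6561 * t⁻¹)) (b := 1) hw q₁ q₂ h.open1_inf h.open2_inf
    (Subring.neg_mem _ (Subring.add_mem _ (ofNat_mem _ _)
      (Subring.mul_mem _ (ofNat_mem _ _) (self_mem_polyRing107 R t⁻¹)))) (Subring.one_mem _) ?_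
  ring

end HauptT3107

end Fermat.Agent.S18.H107

end
-- ===== PACK-END S18/H107/T3Qep.lean

-- ===== PACK-BEGIN S18/H107/T3Model.lean
section







/-!
# helper107 — S18 / M3-T : the good model for the coordinate `t₃` (case `ℓ = 2`)

`goodModel_t3_107` : from the `j`-model WITHOUT branch-set fields (`BaseModel107 … j`, true for
every `ℓ ∤ M`), the branch data of the `j`-line in characteristic `0` (`BranchJ107`), the identity
`j t³ = (t + 27)(t + 243)³`, `3⁻¹ ∈ R`, `t ∈ Fc ∩ V` and the Gauss property of `t`, we get the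
frozen `Alg.GoodModel Lc Ec Fc R V w t S` with `S = {0, -27}`.
-/

set_option autoImplicit false

namespace Fermat.Agent.S18.H107

open Polynomial Fermat.Agent.S18.Alg

variable {Ω : Type*} [Field Ω]

theorem goodModel_t3_107 {Lc Ec Fc : Subfield Ω} {R V : Subring Ω} {w j t : Ω} {S : Finset Ω}
    (hb : BaseModel107 Lc Ec Fc R V w j) (hB : BranchJ107 Lc j)
    (hrel : j * t ^ 3 = (t + 27) * (t + 243) ^ 3) (htF : t ∈ Fc) (htV : t ∈ V)
    (h3 : (3 : Ω)⁻¹ ∈ R)
    (hgauss : ∀ P : Polynomial Ω, (∀ i, P.coeff i ∈ R) →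
      (∃ i, P.coeff i ≠ 0 ∧ (P.coeff i)⁻¹ ∈ R) → (P.eval t)⁻¹ ∈ V)
    (hS : ∀ s, s ∈ S ↔ s = 0 ∨ s = -27) :
    GoodModel Lc Ec Fc R V w t S := by
  have := hb.charZero
  have hj0 : j ≠ 0 := ne_zero_of_transcendental107 hb.x_transcendental
  have hH : HauptT3107 Fc R V j t :=
    { rel := hrel
      three_inv := h3
      three_ne := three_ne_zero
      j_ne := hj0
      t_mem_Fc := htF
      t_mem_V := htV
      t27_inv_mem_V := gauss_X_add_C107 hgauss (ofNat_mem R 27) }
  have ht0 : t ≠ 0 := hH.t_ne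
  have hwF : w ∈ Fc := hb.E_le_F (hb.R_le hb.w_mem)
  have htinvV : t⁻¹ ∈ V := gauss_X107 hgauss
  have h64 : (27 : Ω)⁻¹ ∈ R := hH.inv27_mem
  -- `j ∈ Ec(t)`
  have hjrat : j ∈ ratField Ec t := by
    have e : j = (t + 27) * (t + 243) ^ 3 * (t ^ 3)⁻¹ := by
      field_simp
      linear_combination hrel
    rw [e]
    have ht := self_mem_ratField107 Ec t
    exact mul_mem (mul_mem (add_mem ht (ofNat_mem _ 27)) (pow_mem (add_mem ht (ofNat_mem _ 243)) 3))
      (inv_mem (pow_mem ht 3))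
  -- transcendence of `t`
  have htr : Transcendental Lc t := by
    intro halg
    apply hb.x_transcendental
    have e : j = (t + 27) * (t + 243) ^ 3 * (t ^ 3)⁻¹ := by
      field_simp
      linear_combination hrel
    rw [e]
    have h27 : IsAlgebraic Lc (27 : Ω) := by
      have : (27 : Ω) = algebraMap Lc Ω (27 : Lc) := by
        rw [map_ofNat]
      rw [this]
      exact isAlgebraic_algebraMap _
    have h243 : IsAlgebraic Lc (243 : Ω) := by
      have : (243 : Ω) = algebraMap Lc Ω (243 : Lc) := by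
        rw [map_ofNat]
      rw [this]
      exact isAlgebraic_algebraMap _
    exact ((halg.add h27).mul ((halg.add h243).pow 3)).mul (halg.pow 3).inv
  refine (show BaseModel107 Lc Ec Fc R V w t from
    { charZero := hb.charZero
      R_le := hb.R_le
      R_total := hb.R_total
      w_mem := hb.w_mem
      w_ne_zero := hb.w_ne_zero
      w_inv_not_mem := hb.w_inv_not_mem
      w_gen := hb.w_gen
      w_discrete := hb.w_discrete
      residue_perfect := hb.residue_perfect
      E_le_L := hb.E_le_L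
      E_le_F := hb.E_le_F
      L_algebraic := hb.L_algebraic
      L_algClosed := hb.L_algClosed
      E_closed_in_F := hb.E_closed_in_F
      compositum := hb.compositum
      x_mem := htF
      x_transcendental := htr
      finite := finite_transfer107 hjrat hb.finite
      V_le := hb.V_le
      V_total := hb.V_total
      R_le_V := hb.R_le_V
      w_inv_not_mem_V := hb.w_inv_not_mem_V
      V_gen := hb.V_gen
      x_mem_V := htV
      gauss := hgauss
      qep_fin := hH.qep_fin hwF hb.qep_fin hb.qep_inf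
      qep_inf := hH.qep_inf hwF hb.qep_fin hb.qep_inf
      separable := separable_transfer107 (e := t ^ 3)
        (Subring.pow_mem _ (self_mem_polyRing107 R t) 3)
        (by
          rw [hrel]
          exact Subring.mul_mem _ (Subring.add_mem _ (self_mem_polyRing107 R t) (ofNat_mem _ 27))
            (Subring.pow_mem _
              (Subring.add_mem _ (self_mem_polyRing107 R t) (ofNat_mem _ 243)) 3))
        (V.pow_mem htV 3) (by rw [← inv_pow]; exact V.pow_mem htinvV 3) (pow_ne_zero _ ht0)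
        hb.separable }).toGoodModel S ?_ ?_ ?_ ?_
  · intro s hs
    rcases (hS s).1 hs with rfl | rfl
    · exact R.zero_mem
    · exact R.neg_mem (ofNat_mem R 27)
  · intro s hs s' hs' hne
    rcases (hS s).1 hs with rfl | rfl <;> rcases (hS s').1 hs' with rfl | rfl
    · exact absurd rfl hne
    · have e : ((0 : Ω) - -27)⁻¹ = (27 : Ω)⁻¹ := by norm_num
      rw [e]
      exact h64
    · have e : ((-27 : Ω) - 0)⁻¹ = -(27 : Ω)⁻¹ := by
        rw [sub_zero, inv_neg]
      rw [e]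
      exact R.neg_mem h64
    · exact absurd rfl hne
  · intro s hs hs0
    rcases (hS s).1 hs with rfl | rfl
    · exact absurd rfl hs0
    · rw [inv_neg]
      exact R.neg_mem h64
  · intro O hL c hc hcS hz hz'
    have hc0 : c ≠ 0 := fun h => hcS ((hS c).2 (Or.inl h))
    have hc64 : c ≠ -27 := fun h => hcS ((hS c).2 (Or.inr h))
    exact unramified_t3_107 Lc j t hrel hB O hL c hc hc64 hc0 hz hz'

end Fermat.Agent.S18.H107

end
-- ===== PACK-END S18/H107/T3Model.lean

-- ===== PACK-BEGIN Lib/Haupt/Analytic.lean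
section





/-!
# `q`-expansions of `E₄`, `Δ` and their level-raised versions (helper637)
-/

set_option autoImplicit false

open UpperHalfPlane ModularForm CongruenceSubgroup MatrixGroups
open Matrix.SpecialLinearGroup Filter Topology
open scoped Manifold

noncomputable section

namespace Fermat.Agent.Lib.Haupt

open Fermat.Agent.S24.JFun

local notation "𝕢" => Function.Periodic.qParam

/-- The discriminant as a level-one modular form. -/
def DeltaMF : ModularForm 𝒮ℒ 12 := CuspForm.toModularFormₗ CuspForm.discriminant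

theorem coe_DeltaMF : (DeltaMF : ℍ → ℂ) = ModularForm.discriminant := rfl

theorem analyticAt_qParam : AnalyticAt ℂ (cuspFunction 1 (fun τ : ℍ => 𝕢 1 (τ : ℂ))) 0 :=
  ofQ_analyticAt (g := fun q => q) differentiableOn_id

theorem qExpansion_qParam : qExpansion 1 (fun τ : ℍ => 𝕢 1 (τ : ℂ)) = PowerSeries.X := by
  ext m
  rw [PowerSeries.coeff_X]
  refine qExpansion_coeff_unique_fun (c := fun m => if m = 1 then 1 else 0) analyticAt_qParam
    (fun τ => ?_) m
  have h := hasSum_ite_eq (1 : ℕ) (𝕢 1 (τ : ℂ))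
  have hfun : (fun m : ℕ => (if m = 1 then (1 : ℂ) else 0) • 𝕢 1 (τ : ℂ) ^ m)
      = fun m : ℕ => if m = 1 then 𝕢 1 (τ : ℂ) else 0 := by
    funext m
    split_ifs with hm
    · rw [hm, pow_one, one_smul]
    · rw [zero_smul]
  rw [hfun]
  exact h

theorem qExpansion_DeltaMF :
    qExpansion 1 DeltaMF = DeltaZ.map (Int.castRingHom ℂ) := by
  have hfun : (DeltaMF : ℍ → ℂ) = (fun τ : ℍ => 𝕢 1 (τ : ℂ)) * (fun τ => eulerFun τ ^ 24) := by
    funext τ
    rw [coe_DeltaMF]
    exact discriminant_eq_q_mul_eulerFun τ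
  rw [hfun, qExpansion_mul analyticAt_qParam (analyticAt_eulerFun_pow 24), qExpansion_qParam,
    qExpansion_eulerFun_pow, DeltaZ, map_mul, map_pow, PowerSeries.map_X]

theorem qExpansion_E4 :
    qExpansion 1 (E₄ : ModularForm 𝒮ℒ 4) = ModularCurve.eisenstein4.map (Int.castRingHom ℂ) :=
  qExpansion_E₄

end Fermat.Agent.Lib.Haupt

end
end
-- ===== PACK-END Lib/Haupt/Analytic.lean

-- ===== PACK-BEGIN Lib/Haupt/Sturm.lean
section



/-!
# The four formal modular identities, via the Sturm bound (helper637)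
-/

set_option autoImplicit false

open UpperHalfPlane ModularForm CongruenceSubgroup MatrixGroups
open Matrix.SpecialLinearGroup Filter Topology
open scoped Manifold

noncomputable section

namespace Fermat.Agent.Lib.Haupt

/-- Crude bound for the index of `Γ₀(N)`. -/
theorem index_Gamma0_le (N : ℕ) [NeZero N] : (Gamma0 N).index ≤ N ^ 2 := by
  classical
  let f : SL(2, ℤ) ⧸ Gamma0 N → ZMod N × ZMod N :=
    fun q => (((q.out 0 0 : ℤ) : ZMod N), ((q.out 1 0 : ℤ) : ZMod N))
  have hf : Function.Injective f := by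
    intro x y hxy
    rw [← QuotientGroup.out_eq' x, ← QuotientGroup.out_eq' y]
    rw [QuotientGroup.eq]
    rw [CongruenceSubgroup.Gamma0_mem]
    simp only [f, Prod.mk.injEq] at hxy
    obtain ⟨h0, h1⟩ := hxy
    set A := x.out with hA
    set B := y.out with hB
    have hAinv : (A⁻¹ * B) 1 0 = - A 1 0 * B 0 0 + A 0 0 * B 1 0 := by
      rw [Matrix.SpecialLinearGroup.coe_mul, Matrix.SpecialLinearGroup.coe_inv,
        Matrix.adjugate_fin_two, Matrix.mul_apply]
      simp [Fin.sum_univ_two]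
    rw [hAinv]
    push_cast
    rw [h0, h1]
    ring
  have := Nat.card_le_card_of_injective f hf
  have hcard : Nat.card (ZMod N × ZMod N) = N ^ 2 := by
    rw [Nat.card_prod, Nat.card_zmod, sq]
  rw [hcard] at this
  exact this

theorem sturm_G0 (N : ℕ) [NeZero N] {k : ℤ} (f : ModularForm (G0 N) k) (B : ℕ)
    (hB : (k * (N : ℤ) ^ 2).toNat / 12 ≤ B)
    (h : ∀ n : ℕ, n ≤ B → (qExpansion 1 f).coeff n = 0) : f = 0 := by
  refine ModularForm.sturm_bound_Gamma0 N f (fun n hn => h n (le_trans hn (le_trans ?_ hB)))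
  apply Nat.div_le_div_right
  have hidx : ((Gamma0 N).index : ℤ) ≤ (N : ℤ) ^ 2 := by exact_mod_cast index_Gamma0_le N
  by_cases hk : 0 ≤ k
  · exact Int.toNat_le_toNat (mul_le_mul_of_nonneg_left hidx hk)
  · have hneg : k * ((Gamma0 N).index : ℤ) ≤ 0 :=
      mul_nonpos_of_nonpos_of_nonneg (le_of_lt (not_le.mp hk)) (Int.natCast_nonneg _)
    rw [Int.toNat_of_nonpos hneg]
    exact Nat.zero_le _

/-- Injectivity of the coefficient map `ℤ⟦X⟧ → ℂ⟦X⟧`. -/
theorem map_intCast_injective :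
    Function.Injective (PowerSeries.map (Int.castRingHom ℂ)) := by
  intro f g h
  ext n
  have := congrArg (PowerSeries.coeff n) h
  rw [PowerSeries.coeff_map, PowerSeries.coeff_map, eq_intCast, eq_intCast] at this
  exact_mod_cast this

/-! ### The forms -/

/-- `E₄` on `Γ₀(d)`. -/
abbrev eR (d : ℕ) : ModularForm (G0 d) ((4 : ℕ) : ℤ) := res d E₄
/-- `Δ` on `Γ₀(d)`. -/
abbrev dR (d : ℕ) : ModularForm (G0 d) 12 := res d DeltaMF
/-- `E₄(dτ)` on `Γ₀(d)`. -/
abbrev eL (d : ℕ) [NeZero d] : ModularForm (G0 d) ((4 : ℕ) : ℤ) := lev d E₄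
/-- `Δ(dτ)` on `Γ₀(d)`. -/
abbrev dL (d : ℕ) [NeZero d] : ModularForm (G0 d) 12 := lev d DeltaMF

theorem qExpansion_eR (d : ℕ) :
    qExpansion 1 (eR d) = E4Z.map (Int.castRingHom ℂ) := qExpansion_E4

theorem qExpansion_dR (d : ℕ) :
    qExpansion 1 (dR d) = DeltaZ.map (Int.castRingHom ℂ) := qExpansion_DeltaMF

theorem qExpansion_eL (d : ℕ) [NeZero d] :
    qExpansion 1 (eL d) = (ex d E4Z).map (Int.castRingHom ℂ) := by
  rw [eL, qExpansion_lev, qExpansion_E4, PowerSeries.map_expand]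

theorem qExpansion_dL (d : ℕ) [NeZero d] :
    qExpansion 1 (dL d) = (ex d DeltaZ).map (Int.castRingHom ℂ) := by
  rw [dL, qExpansion_lev, qExpansion_DeltaMF, PowerSeries.map_expand]

section qE

variable {d : ℕ} {k k' : ℤ}

theorem qE_add (f g : ModularForm (G0 d) k) :
    qExpansion 1 ((f + g : ModularForm (G0 d) k) : ℍ → ℂ) = qExpansion 1 f + qExpansion 1 g :=
  ModularForm.qExpansion_add one_pos (one_mem_strictPeriods_G0 d) f g

theorem qE_sub (f g : ModularForm (G0 d) k) :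
    qExpansion 1 ((f - g : ModularForm (G0 d) k) : ℍ → ℂ) = qExpansion 1 f - qExpansion 1 g :=
  ModularForm.qExpansion_sub one_pos (one_mem_strictPeriods_G0 d) f g

theorem qE_smul (c : ℂ) (f : ModularForm (G0 d) k) :
    qExpansion 1 ((c • f : ModularForm (G0 d) k) : ℍ → ℂ)
      = PowerSeries.C c * qExpansion 1 f := by
  rw [← PowerSeries.smul_eq_C_mul]
  exact ModularForm.qExpansion_smul one_pos (one_mem_strictPeriods_G0 d) c f

theorem qE_mul (f : ModularForm (G0 d) k) (g : ModularForm (G0 d) k') :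
    qExpansion 1 (f.mul g) = qExpansion 1 f * qExpansion 1 g :=
  ModularForm.qExpansion_mul one_pos (one_mem_strictPeriods_G0 d) f g

theorem qE_pow (f : ModularForm (G0 d) k) (n : ℕ) :
    qExpansion 1 (f.pow n) = qExpansion 1 f ^ n :=
  ModularForm.qExpansion_pow one_pos (one_mem_strictPeriods_G0 d) f n

theorem qE_mcast (h : k = k') (f : ModularForm (G0 d) k) :
    qExpansion 1 (mcast h f : ModularForm (G0 d) k') = qExpansion 1 f := rfl

end qE

/-- `E₄³ Δ Δ₂ - (Δ + 256 Δ₂)³` as a modular form of weight 36 on `Γ₀(2)`. -/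
def F1 : ModularForm (G0 2) 36 :=
  mcast (by norm_num) (((eR 2).pow 3).mul ((dR 2).mul (dL 2)))
    - mcast (by norm_num) ((dR 2 + (256 : ℂ) • dL 2).pow 3)

theorem qExpansion_F1 : qExpansion 1 F1 = Phi1.map (Int.castRingHom ℂ) := by
  rw [F1, qE_sub, qE_mcast, qE_mcast, qE_mul, qE_pow, qE_mul, qE_pow, qE_add, qE_smul,
    qExpansion_eR, qExpansion_dR, qExpansion_dL, Phi1]
  simp only [map_sub, map_mul, map_pow, map_add, PowerSeries.map_C]
  simp

theorem F1_eq_zero : F1 = 0 := by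
  refine sturm_G0 2 F1 12 (by decide) (fun n hn => ?_)
  rw [qExpansion_F1, PowerSeries.coeff_map, coeff_Phi1 (by omega), map_zero]

theorem Phi1_eq_zero : Phi1 = 0 := by
  apply map_intCast_injective
  rw [← qExpansion_F1, F1_eq_zero, map_zero]
  exact qExpansion_zero 1

/-- `E₄(2τ)³ Δ Δ₂ - (Δ + 16 Δ₂)³` as a modular form of weight 36 on `Γ₀(2)`. -/
def F2 : ModularForm (G0 2) 36 :=
  mcast (by norm_num) (((eL 2).pow 3).mul ((dR 2).mul (dL 2)))
    - mcast (by norm_num) ((dR 2 + (16 : ℂ) • dL 2).pow 3)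

theorem qExpansion_F2 : qExpansion 1 F2 = Phi2.map (Int.castRingHom ℂ) := by
  rw [F2, qE_sub, qE_mcast, qE_mcast, qE_mul, qE_pow, qE_mul, qE_pow, qE_add, qE_smul,
    qExpansion_eL, qExpansion_dR, qExpansion_dL, Phi2]
  simp only [map_sub, map_mul, map_pow, map_add, PowerSeries.map_C]
  simp

theorem F2_eq_zero : F2 = 0 := by
  refine sturm_G0 2 F2 12 (by decide) (fun n hn => ?_)
  rw [qExpansion_F2, PowerSeries.coeff_map, coeff_Phi2 (by omega), map_zero]

theorem Phi2_eq_zero : Phi2 = 0 := by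
  apply map_intCast_injective
  rw [← qExpansion_F2, F2_eq_zero, map_zero]
  exact qExpansion_zero 1

/-- `Δ Δ₃ (E₄³ - 756 Δ - 19131876 Δ₃)² - (Δ² + 196830 Δ Δ₃ + 387420489 Δ₃²)²`
as a modular form of weight 48 on `Γ₀(3)`. -/
def F3 : ModularForm (G0 3) 48 :=
  mcast (by norm_num) (((dR 3).mul (dL 3)).mul
      ((mcast (by norm_num) ((eR 3).pow 3) - ((756 : ℂ) • dR 3 + (19131876 : ℂ) • dL 3)
        : ModularForm (G0 3) 12).pow 2))
    - mcast (by norm_num)
      ((mcast (by norm_num) ((dR 3).pow 2) + ((196830 : ℂ) • mcast (by norm_num) ((dR 3).mul (dL 3))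
        + (387420489 : ℂ) • mcast (by norm_num) ((dL 3).pow 2)) : ModularForm (G0 3) 24).pow 2)

theorem qExpansion_F3 : qExpansion 1 F3 = Phi3.map (Int.castRingHom ℂ) := by
  rw [F3, qE_sub, qE_mcast, qE_mcast, qE_mul, qE_mul, qE_pow, qE_sub, qE_mcast, qE_pow, qE_add,
    qE_smul, qE_smul, qE_pow, qE_add, qE_mcast, qE_pow, qE_add, qE_smul, qE_smul, qE_mcast,
    qE_mcast, qE_mul, qE_pow,
    qExpansion_eR, qExpansion_dR, qExpansion_dL, Phi3]
  simp only [map_sub, map_mul, map_pow, map_add, PowerSeries.map_C]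
  simp

theorem F3_eq_zero : F3 = 0 := by
  refine sturm_G0 3 F3 36 (by decide) (fun n hn => ?_)
  rw [qExpansion_F3, PowerSeries.coeff_map, coeff_Phi3 (by omega), map_zero]

theorem Phi3_eq_zero : Phi3 = 0 := by
  apply map_intCast_injective
  rw [← qExpansion_F3, F3_eq_zero, map_zero]
  exact qExpansion_zero 1

/-- `Δ Δ₃ (E₄(3τ)³ - 36 Δ - 756 Δ₃)² - (Δ² + 270 Δ Δ₃ + 729 Δ₃²)²`
as a modular form of weight 48 on `Γ₀(3)`. -/
def F4 : ModularForm (G0 3) 48 :=
  mcast (by norm_num) (((dR 3).mul (dL 3)).mul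
      ((mcast (by norm_num) ((eL 3).pow 3) - ((36 : ℂ) • dR 3 + (756 : ℂ) • dL 3)
        : ModularForm (G0 3) 12).pow 2))
    - mcast (by norm_num)
      ((mcast (by norm_num) ((dR 3).pow 2) + ((270 : ℂ) • mcast (by norm_num) ((dR 3).mul (dL 3))
        + (729 : ℂ) • mcast (by norm_num) ((dL 3).pow 2)) : ModularForm (G0 3) 24).pow 2)

theorem qExpansion_F4 : qExpansion 1 F4 = Phi4.map (Int.castRingHom ℂ) := by
  rw [F4, qE_sub, qE_mcast, qE_mcast, qE_mul, qE_mul, qE_pow, qE_sub, qE_mcast, qE_pow, qE_add,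
    qE_smul, qE_smul, qE_pow, qE_add, qE_mcast, qE_pow, qE_add, qE_smul, qE_smul, qE_mcast,
    qE_mcast, qE_mul, qE_pow,
    qExpansion_eL, qExpansion_dR, qExpansion_dL, Phi4]
  simp only [map_sub, map_mul, map_pow, map_add, PowerSeries.map_C]
  simp

theorem F4_eq_zero : F4 = 0 := by
  refine sturm_G0 3 F4 36 (by decide) (fun n hn => ?_)
  rw [qExpansion_F4, PowerSeries.coeff_map, coeff_Phi4 (by omega), map_zero]

theorem Phi4_eq_zero : Phi4 = 0 := by
  apply map_intCast_injective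
  rw [← qExpansion_F4, F4_eq_zero, map_zero]
  exact qExpansion_zero 1

end Fermat.Agent.Lib.Haupt

end
end
-- ===== PACK-END Lib/Haupt/Sturm.lean

-- ===== PACK-BEGIN Lib/Haupt/PS.lean
section


/-!
# Hauptmodul identities for `Γ₀(2)` and `Γ₀(3)` as identities of integral power series (helper637)

With `P = ∏ (1 - Xⁿ)` (`ModularCurve.etaProd`), `E = E₄` (`ModularCurve.eisenstein4`) and
`f(X^d) = PowerSeries.expand d f`:

* `ps1` : `E³ P²⁴ P₂²⁴ = (P²⁴ + 256 X P₂²⁴)³`
* `ps2` : `E(X²)³ P²⁴ P₂²⁴ = (P²⁴ + 16 X P₂²⁴)³`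
* `ps3` : `E³ P¹² P₃¹² = (P¹² + 27 X P₃¹²) (P¹² + 243 X P₃¹²)³`
* `ps4` : `E(X³)³ P¹² P₃¹² = (P¹² + 27 X P₃¹²) (P¹² + 3 X P₃¹²)³`
-/

set_option autoImplicit false

noncomputable section

namespace Fermat.Agent.Lib.Haupt

open PowerSeries

/-- `P = ∏ (1 - Xⁿ)`. -/
abbrev PZ : PowerSeries ℤ := ModularCurve.etaProd

theorem ex_X (d : ℕ) [NeZero d] : ex d (X : PowerSeries ℤ) = X ^ d := expand_X d (NeZero.ne d)

theorem ex_DeltaZ (d : ℕ) [NeZero d] : ex d DeltaZ = X ^ d * ex d PZ ^ 24 := by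
  rw [DeltaZ, ex, map_mul, map_pow, expand_X]

theorem X_pow_mul_cancel {n : ℕ} {f g : PowerSeries ℤ} (h : X ^ n * f = X ^ n * g) : f = g :=
  mul_left_cancel₀ (pow_ne_zero n X_ne_zero) h

theorem ps1 : E4Z ^ 3 * (PZ ^ 24 * ex 2 PZ ^ 24) = (PZ ^ 24 + C 256 * (X * ex 2 PZ ^ 24)) ^ 3 := by
  have h := Phi1_eq_zero
  rw [Phi1, sub_eq_zero, ex_DeltaZ, DeltaZ] at h
  apply X_pow_mul_cancel (n := 3)
  linear_combination h

theorem ps2 :
    ex 2 E4Z ^ 3 * (PZ ^ 24 * ex 2 PZ ^ 24) = (PZ ^ 24 + C 16 * (X * ex 2 PZ ^ 24)) ^ 3 := by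
  have h := Phi2_eq_zero
  rw [Phi2, sub_eq_zero, ex_DeltaZ, DeltaZ] at h
  apply X_pow_mul_cancel (n := 3)
  linear_combination h

theorem constantCoeff_PZ : constantCoeff PZ = 1 := ModularCurve.constantCoeff_etaProd

theorem constantCoeff_ex (d : ℕ) [NeZero d] (f : PowerSeries ℤ) :
    constantCoeff (ex d f) = constantCoeff f := constantCoeff_expand d (NeZero.ne d) f

/-- In `ℤ⟦X⟧`: if `(X² u)² = (X² v)²` and `u`, `v` both have constant coefficient `1`,
then `u = v`. -/
theorem eq_of_sq_eq_sq {u v : PowerSeries ℤ} (hu : constantCoeff u = 1)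
    (hv : constantCoeff v = 1) (h : (X ^ 2 * u) ^ 2 = (X ^ 2 * v) ^ 2) : u = v := by
  rcases sq_eq_sq_iff_eq_or_eq_neg.mp h with h1 | h1
  · exact X_pow_mul_cancel h1
  · exfalso
    have h2 : u = -v := X_pow_mul_cancel (n := 2) (by rw [h1]; ring)
    have h3 := congrArg constantCoeff h2
    rw [map_neg, hu, hv] at h3
    norm_num at h3

theorem ps3 :
    E4Z ^ 3 * (PZ ^ 12 * ex 3 PZ ^ 12)
      = (PZ ^ 12 + C 27 * (X * ex 3 PZ ^ 12)) * (PZ ^ 12 + C 243 * (X * ex 3 PZ ^ 12)) ^ 3 := by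
  have h := Phi3_eq_zero
  rw [Phi3, sub_eq_zero, ex_DeltaZ, DeltaZ] at h
  set A := PZ ^ 12 with hA
  set Q := ex 3 PZ ^ 12 with hQ
  have hA2 : PZ ^ 24 = A ^ 2 := by rw [hA]; ring
  have hQ2 : ex 3 PZ ^ 24 = Q ^ 2 := by rw [hQ]; ring
  rw [hA2, hQ2] at h
  have hcA : constantCoeff A = 1 := by rw [hA, map_pow, constantCoeff_PZ, one_pow]
  have hcQ : constantCoeff Q = 1 := by
    rw [hQ, map_pow, constantCoeff_ex, constantCoeff_PZ, one_pow]
  have hcE : constantCoeff E4Z = 1 := ModularCurve.constantCoeff_eisenstein4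
  have key := eq_of_sq_eq_sq
    (u := A * Q * (E4Z ^ 3 - (C 756 * (X * A ^ 2) + C 19131876 * (X ^ 3 * Q ^ 2))))
    (v := A ^ 4 + (C 196830 * (X ^ 2 * (A ^ 2 * Q ^ 2)) + C 387420489 * (X ^ 4 * Q ^ 4)))
    (by simp [hcA, hcQ, hcE]) (by simp [hcA]) (by linear_combination h)
  have e1 : (C (27 : ℤ) : PowerSeries ℤ) = 27 := map_ofNat C 27
  have e2 : (C (243 : ℤ) : PowerSeries ℤ) = 243 := map_ofNat C 243
  have e3 : (C (756 : ℤ) : PowerSeries ℤ) = 756 := map_ofNat C 756
  have e4 : (C (19131876 : ℤ) : PowerSeries ℤ) = 19131876 := map_ofNat C 19131876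
  have e5 : (C (196830 : ℤ) : PowerSeries ℤ) = 196830 := map_ofNat C 196830
  have e6 : (C (387420489 : ℤ) : PowerSeries ℤ) = 387420489 := map_ofNat C 387420489
  rw [e3, e4, e5, e6] at key
  rw [e1, e2]
  linear_combination key

theorem ps4 :
    ex 3 E4Z ^ 3 * (PZ ^ 12 * ex 3 PZ ^ 12)
      = (PZ ^ 12 + C 27 * (X * ex 3 PZ ^ 12)) * (PZ ^ 12 + C 3 * (X * ex 3 PZ ^ 12)) ^ 3 := by
  have h := Phi4_eq_zero
  rw [Phi4, sub_eq_zero, ex_DeltaZ, DeltaZ] at h
  set A := PZ ^ 12 with hA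
  set Q := ex 3 PZ ^ 12 with hQ
  have hA2 : PZ ^ 24 = A ^ 2 := by rw [hA]; ring
  have hQ2 : ex 3 PZ ^ 24 = Q ^ 2 := by rw [hQ]; ring
  rw [hA2, hQ2] at h
  have hcA : constantCoeff A = 1 := by rw [hA, map_pow, constantCoeff_PZ, one_pow]
  have hcQ : constantCoeff Q = 1 := by
    rw [hQ, map_pow, constantCoeff_ex, constantCoeff_PZ, one_pow]
  have hcE : constantCoeff (ex 3 E4Z) = 1 := by
    rw [constantCoeff_ex]; exact ModularCurve.constantCoeff_eisenstein4
  have key := eq_of_sq_eq_sq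
    (u := A * Q * (ex 3 E4Z ^ 3 - (C 36 * (X * A ^ 2) + C 756 * (X ^ 3 * Q ^ 2))))
    (v := A ^ 4 + (C 270 * (X ^ 2 * (A ^ 2 * Q ^ 2)) + C 729 * (X ^ 4 * Q ^ 4)))
    (by simp [hcA, hcQ, hcE]) (by simp [hcA]) (by linear_combination h)
  have e1 : (C (27 : ℤ) : PowerSeries ℤ) = 27 := map_ofNat C 27
  have e2 : (C (3 : ℤ) : PowerSeries ℤ) = 3 := map_ofNat C 3
  have e3 : (C (36 : ℤ) : PowerSeries ℤ) = 36 := map_ofNat C 36
  have e4 : (C (756 : ℤ) : PowerSeries ℤ) = 756 := map_ofNat C 756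
  have e5 : (C (270 : ℤ) : PowerSeries ℤ) = 270 := map_ofNat C 270
  have e6 : (C (729 : ℤ) : PowerSeries ℤ) = 729 := map_ofNat C 729
  rw [e3, e4, e5, e6] at key
  rw [e1, e2]
  linear_combination key

end Fermat.Agent.Lib.Haupt

end
end
-- ===== PACK-END Lib/Haupt/PS.lean

-- ===== PACK-BEGIN Lib/Haupt/Main.lean
section



/-!
# Hauptmoduln of `Γ₀(2)` and `Γ₀(3)`: the relations with `j` (helper637)

For every commutative ring `K`:

* `t2 K = Δ(q)/Δ(q²) = q⁻¹ ∏ (1 - qⁿ)²⁴ / (1 - q²ⁿ)²⁴ ∈ K((q))`,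
  `jq_mul_t2_sq  : j · t₂² = (t₂ + 256)³`,
  `jq2_mul_t2    : j(q²) · t₂ = (t₂ + 16)³`;
* `t3 K = q⁻¹ ∏ (1 - qⁿ)¹² / (1 - q³ⁿ)¹² ∈ K((q))`,
  `jq_mul_t3_cube : j · t₃³ = (t₃ + 27)(t₃ + 243)³`,
  `jq3_mul_t3     : j(q³) · t₃ = (t₃ + 27)(t₃ + 3)³`,

where `j = ModularCurve.jqModC K` and `j(q^d) = ModularCurve.qExpand K d (jqModC K)`
(`= jqNModC K d`).  The integral power series versions are `T2_rel₁`, `T2_rel₂`, `T3_rel₁`,
`T3_rel₂`.
-/

set_option autoImplicit false

noncomputable section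

namespace Fermat.Agent.Lib.Haupt

open PowerSeries

/-- `P(X²)²⁴`. -/
abbrev Q2 : PowerSeries ℤ := ex 2 PZ ^ 24
/-- `P(X³)¹²`. -/
abbrev Q3 : PowerSeries ℤ := ex 3 PZ ^ 12

theorem constantCoeff_Q2 : constantCoeff Q2 = 1 := by
  rw [Q2, map_pow, constantCoeff_ex, constantCoeff_PZ, one_pow]

theorem constantCoeff_Q3 : constantCoeff Q3 = 1 := by
  rw [Q3, map_pow, constantCoeff_ex, constantCoeff_PZ, one_pow]

/-- `q · t₂ = ∏ (1 - qⁿ)²⁴ / (1 - q²ⁿ)²⁴` as an integral power series. -/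
def T2 : PowerSeries ℤ := PZ ^ 24 * Q2.invOfUnit 1

/-- `q · t₃ = ∏ (1 - qⁿ)¹² / (1 - q³ⁿ)¹²` as an integral power series. -/
def T3 : PowerSeries ℤ := PZ ^ 12 * Q3.invOfUnit 1

theorem T2_mul_Q2 : T2 * Q2 = PZ ^ 24 := by
  rw [T2, mul_assoc, mul_comm (Q2.invOfUnit 1),
    PowerSeries.mul_invOfUnit _ _ (by rw [constantCoeff_Q2]; rfl), mul_one]

theorem T3_mul_Q3 : T3 * Q3 = PZ ^ 12 := by
  rw [T3, mul_assoc, mul_comm (Q3.invOfUnit 1),
    PowerSeries.mul_invOfUnit _ _ (by rw [constantCoeff_Q3]; rfl), mul_one]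

theorem constantCoeff_T2 : constantCoeff T2 = 1 := by
  have h := congrArg constantCoeff T2_mul_Q2
  rwa [map_mul, constantCoeff_Q2, mul_one, map_pow, constantCoeff_PZ, one_pow] at h

theorem constantCoeff_T3 : constantCoeff T3 = 1 := by
  have h := congrArg constantCoeff T3_mul_Q3
  rwa [map_mul, constantCoeff_Q3, mul_one, map_pow, constantCoeff_PZ, one_pow] at h

theorem jNum_mul_P24 : ModularCurve.jNum * PZ ^ 24 = E4Z ^ 3 := by
  have h := ModularCurve.dedekindEtaUnit_mul_inv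
  rw [ModularCurve.dedekindEtaUnit] at h
  rw [ModularCurve.jNum, mul_assoc, mul_comm ModularCurve.dedekindEtaUnitInv, h, mul_one]

theorem Q2_ne_zero : Q2 ≠ 0 := fun h => by
  have := constantCoeff_Q2; rw [h, map_zero] at this; exact zero_ne_one this

theorem Q3_ne_zero : Q3 ≠ 0 := fun h => by
  have := constantCoeff_Q3; rw [h, map_zero] at this; exact zero_ne_one this

theorem PZ_ne_zero : PZ ≠ 0 := fun h => by
  have := constantCoeff_PZ; rw [h, map_zero] at this; exact zero_ne_one this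

/-- `j · t₂² = (t₂ + 256)³`, integral power series form. -/
theorem T2_rel₁ : ModularCurve.jNum * T2 ^ 2 = (T2 + C 256 * X) ^ 3 := by
  apply mul_right_cancel₀ (mul_ne_zero (pow_ne_zero 24 PZ_ne_zero) (pow_ne_zero 3 Q2_ne_zero))
  calc ModularCurve.jNum * T2 ^ 2 * (PZ ^ 24 * Q2 ^ 3)
      = (ModularCurve.jNum * PZ ^ 24) * (T2 * Q2) ^ 2 * Q2 := by ring
    _ = (E4Z ^ 3 * (PZ ^ 24 * Q2)) * PZ ^ 24 := by rw [jNum_mul_P24, T2_mul_Q2]; ring
    _ = (PZ ^ 24 + C 256 * (X * Q2)) ^ 3 * PZ ^ 24 := by rw [ps1]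
    _ = (T2 * Q2 + C 256 * (X * Q2)) ^ 3 * PZ ^ 24 := by rw [T2_mul_Q2]
    _ = (T2 + C 256 * X) ^ 3 * (PZ ^ 24 * Q2 ^ 3) := by ring

theorem ex_jNum_mul (d : ℕ) [NeZero d] :
    ex d ModularCurve.jNum * ex d PZ ^ 24 = ex d E4Z ^ 3 := by
  rw [← map_pow, ← map_mul, jNum_mul_P24, map_pow]

/-- `j(q²) · t₂ = (t₂ + 16)³`, integral power series form. -/
theorem T2_rel₂ : ex 2 ModularCurve.jNum * T2 = (T2 + C 16 * X) ^ 3 := by
  apply mul_right_cancel₀ (pow_ne_zero 3 Q2_ne_zero)
  calc ex 2 ModularCurve.jNum * T2 * Q2 ^ 3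
      = (ex 2 ModularCurve.jNum * ex 2 PZ ^ 24) * (T2 * Q2) * Q2 := by ring
    _ = ex 2 E4Z ^ 3 * (PZ ^ 24 * Q2) := by rw [ex_jNum_mul, T2_mul_Q2]; ring
    _ = (PZ ^ 24 + C 16 * (X * Q2)) ^ 3 := by rw [ps2]
    _ = (T2 * Q2 + C 16 * (X * Q2)) ^ 3 := by rw [T2_mul_Q2]
    _ = (T2 + C 16 * X) ^ 3 * Q2 ^ 3 := by ring

/-- `j · t₃³ = (t₃ + 27)(t₃ + 243)³`, integral power series form. -/
theorem T3_rel₁ :
    ModularCurve.jNum * T3 ^ 3 = (T3 + C 27 * X) * (T3 + C 243 * X) ^ 3 := by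
  apply mul_right_cancel₀ (mul_ne_zero (pow_ne_zero 24 PZ_ne_zero) (pow_ne_zero 4 Q3_ne_zero))
  calc ModularCurve.jNum * T3 ^ 3 * (PZ ^ 24 * Q3 ^ 4)
      = (ModularCurve.jNum * PZ ^ 24) * (T3 * Q3) ^ 3 * Q3 := by ring
    _ = (E4Z ^ 3 * (PZ ^ 12 * Q3)) * PZ ^ 24 := by rw [jNum_mul_P24, T3_mul_Q3]; ring
    _ = (PZ ^ 12 + C 27 * (X * Q3)) * (PZ ^ 12 + C 243 * (X * Q3)) ^ 3 * PZ ^ 24 := by
        rw [ps3]
    _ = (T3 * Q3 + C 27 * (X * Q3)) * (T3 * Q3 + C 243 * (X * Q3)) ^ 3 * PZ ^ 24 := by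
        rw [T3_mul_Q3]
    _ = (T3 + C 27 * X) * (T3 + C 243 * X) ^ 3 * (PZ ^ 24 * Q3 ^ 4) := by ring

/-- `j(q³) · t₃ = (t₃ + 27)(t₃ + 3)³`, integral power series form. -/
theorem T3_rel₂ :
    ex 3 ModularCurve.jNum * T3 = (T3 + C 27 * X) * (T3 + C 3 * X) ^ 3 := by
  apply mul_right_cancel₀ (pow_ne_zero 4 Q3_ne_zero)
  have hQ : ex 3 PZ ^ 24 = Q3 ^ 2 := by rw [Q3]; ring
  calc ex 3 ModularCurve.jNum * T3 * Q3 ^ 4
      = (ex 3 ModularCurve.jNum * ex 3 PZ ^ 24) * (T3 * Q3) * Q3 := by rw [hQ]; ring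
    _ = ex 3 E4Z ^ 3 * (PZ ^ 12 * Q3) := by rw [ex_jNum_mul, T3_mul_Q3]; ring
    _ = (PZ ^ 12 + C 27 * (X * Q3)) * (PZ ^ 12 + C 3 * (X * Q3)) ^ 3 := by rw [ps4]
    _ = (T3 * Q3 + C 27 * (X * Q3)) * (T3 * Q3 + C 3 * (X * Q3)) ^ 3 := by rw [T3_mul_Q3]
    _ = (T3 + C 27 * X) * (T3 + C 3 * X) ^ 3 * Q3 ^ 4 := by ring

end Fermat.Agent.Lib.Haupt

end
end
-- ===== PACK-END Lib/Haupt/Main.lean

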