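import Mathlib
import Fermat.Prelude.Thm_ModularCurve_coeffMap_qExpand
import Fermat.Prelude.Def_AlgebraicCurve_Correspondence
import Fermat.Prelude.Def_ModularCurve_ArithmeticGalois
import Fermat.Prelude.Def_AlgebraicCurve_BaseChangeGalois
import Fermat.Prelude.Def_FLTPrelim_Ramification
import Fermat.Prelude.Def_ModularCurve_ReductionModL
import Fermat.Prelude.Def_AlgebraicCurve_DivisorClassGroup
import Fermat.Prelude.Def_ModularCurve_LaurentCoeff
import Fermat.Prelude.Def_ModularCurve_X0ModL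
import Fermat.Agent.Pack.S48.G0E2L1
import Fermat.Agent.Pack.S48.G0E0L3
import Fermat.Agent.Pack.S48.G0E1L1
import Fermat.Agent.Pack.S48.G0E2L2
import Fermat.Agent.Pack.S48.G0E0L0
import Fermat.Agent.Pack.S48.G0E1L0
import Fermat.Agent.Pack.S48.G0E2L3
import Fermat.Agent.Pack.S48.G0E2L0
import Fermat.Agent.Pack.S48.G0E1L2
import Fermat.Agent.Pack.S48.G0E0L1
import Fermat.Agent.Pack.S48.G6E0L0
import Fermat.Agent.Pack.S48.G0E0L2
import Fermat.Agent.Pack.S48.G0E1L3
import Fermat.Agent.Pack.S48.G5E0L0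
import Fermat.Agent.Pack.S48.G2E0L0

-- ===== PACK-BEGIN Lib/NormL/Cosets.lean
section



/-!
# `NormL`, block KEY, part 2: coset decompositions of sums over ideals
-/

namespace Fermat.Agent.Lib.NormL

open NumberField Fermat.Agent.S14.H74
open scoped Classical

variable {K : Type*} [Field K] [NumberField K]

/-- The coset bijection: if `r i` is a system of representatives of `X` modulo `Λ`. -/
noncomputable def cosetSystemEquiv (X Λ : Ideal (𝓞 K)) (hΛ : Λ ≤ X) {ι : Type*} (r : ι → 𝓞 K)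
    (hr : ∀ i, r i ∈ X) (hex : ∀ x ∈ X, ∃ i, x - r i ∈ Λ)
    (hinj : ∀ i j, r i - r j ∈ Λ → i = j) : ι × Λ ≃ X :=
  Equiv.ofBijective (fun p ↦ ⟨r p.1 + (p.2 : 𝓞 K), X.add_mem (hr _) (hΛ p.2.2)⟩) (by
    constructor
    · rintro ⟨i, l⟩ ⟨j, l'⟩ h
      have h1 : r i + (l : 𝓞 K) = r j + (l' : 𝓞 K) := congrArg Subtype.val h
      have h2 : r i - r j = (l' : 𝓞 K) - (l : 𝓞 K) := by
        linear_combination h1
      have hij : i = j := hinj i j (by rw [h2]; exact Λ.sub_mem l'.2 l.2)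
      subst hij
      have : (l : 𝓞 K) = (l' : 𝓞 K) := add_left_cancel h1
      rw [Subtype.ext this]
    · rintro ⟨x, hx⟩
      obtain ⟨i, hi⟩ := hex x hx
      refine ⟨(i, ⟨x - r i, hi⟩), ?_⟩
      apply Subtype.ext
      show r i + (x - r i) = x
      ring)

theorem cosetSystemEquiv_apply (X Λ : Ideal (𝓞 K)) (hΛ : Λ ≤ X) {ι : Type*} (r : ι → 𝓞 K)
    (hr : ∀ i, r i ∈ X) (hex : ∀ x ∈ X, ∃ i, x - r i ∈ Λ)
    (hinj : ∀ i j, r i - r j ∈ Λ → i = j) (p : ι × Λ) :
    ((cosetSystemEquiv X Λ hΛ r hr hex hinj p : X) : 𝓞 K) = r p.1 + (p.2 : 𝓞 K) := rfl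

/-- **GEN**: decomposition of a sum over an ideal `X` into sums over cosets of `Λ ≤ X`. -/
theorem tsum_ideal_eq_sum_cosets {E : Type*} [NormedAddCommGroup E] [CompleteSpace E]
    (X Λ : Ideal (𝓞 K)) (hΛ : Λ ≤ X) {ι : Type*} [Fintype ι] (r : ι → 𝓞 K)
    (hr : ∀ i, r i ∈ X) (hex : ∀ x ∈ X, ∃ i, x - r i ∈ Λ)
    (hinj : ∀ i j, r i - r j ∈ Λ → i = j) (F : 𝓞 K → E) (hF : Summable F) :
    ∑' x : X, F (x : 𝓞 K) = ∑ i, ∑' l : Λ, F (r i + (l : 𝓞 K)) := by
  set e := cosetSystemEquiv X Λ hΛ r hr hex hinj with he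
  have hX : Summable fun x : X ↦ F (x : 𝓞 K) := hF.comp_injective Subtype.val_injective
  have hs : Summable fun p : ι × Λ ↦ F (r p.1 + (p.2 : 𝓞 K)) :=
    (e.summable_iff (f := fun x : X ↦ F (x : 𝓞 K))).mpr hX
  have hfib : ∀ i, Summable fun l : Λ ↦ F (r i + (l : 𝓞 K)) := fun i ↦
    hF.comp_injective (i := fun l : Λ ↦ r i + (l : 𝓞 K)) fun l l' h ↦
      Subtype.ext (add_left_cancel h)
  have e1 : ∑' x : X, F (x : 𝓞 K) = ∑' p : ι × Λ, F (r p.1 + (p.2 : 𝓞 K)) :=
    (e.tsum_eq (fun x : X ↦ F (x : 𝓞 K))).symm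
  rw [e1, hs.tsum_prod' hfib, tsum_fintype]

end Fermat.Agent.Lib.NormL

end
-- ===== PACK-END Lib/NormL/Cosets.lean

-- ===== PACK-BEGIN Lib/NormL/Index.lean
section


/-!
# `NormL`, block KEY, part 3: passing from `Λ` to the sublattice `Λ * P`
-/

namespace Fermat.Agent.Lib.NormL

open NumberField Fermat.Agent.S14.H74
open scoped Classical

variable {K : Type*} [Field K] [NumberField K]

/-- The kernel of `𝓞 ⧸ Λ' → 𝓞 ⧸ Λ`. -/
noncomputable abbrev factorKer (Λ' Λ : Ideal (𝓞 K)) (h : Λ' ≤ Λ) : AddSubgroup (𝓞 K ⧸ Λ') :=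
  (Ideal.Quotient.factor h).toAddMonoidHom.ker

theorem mem_factorKer_iff {Λ' Λ : Ideal (𝓞 K)} (h : Λ' ≤ Λ) (q : 𝓞 K ⧸ Λ') :
    q ∈ factorKer Λ' Λ h ↔ Quotient.out q ∈ Λ := by
  rw [AddMonoidHom.mem_ker]
  conv_lhs => rw [← Ideal.Quotient.mk_out q]
  show Ideal.Quotient.factor h (Ideal.Quotient.mk Λ' (Quotient.out q)) = 0 ↔ _
  rw [Ideal.Quotient.factor_mk, Ideal.Quotient.eq_zero_iff_mem]

theorem card_factorKer_mul (Λ' Λ : Ideal (𝓞 K)) (h : Λ' ≤ Λ) :
    Nat.card (factorKer Λ' Λ h) * Ideal.absNorm Λ = Ideal.absNorm Λ' := by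
  have h1 := AddSubgroup.card_mul_index (factorKer Λ' Λ h)
  have h2 : (factorKer Λ' Λ h).index = Nat.card (𝓞 K ⧸ Λ) := by
    unfold factorKer
    rw [AddSubgroup.index_ker]
    have hsurj : Function.Surjective (Ideal.Quotient.factor h).toAddMonoidHom :=
      Ideal.Quotient.factor_surjective h
    rw [AddMonoidHom.range_eq_top.mpr hsurj, AddSubgroup.card_top]
  rw [h2] at h1
  rw [Ideal.absNorm_apply, Ideal.absNorm_apply, Submodule.cardQuot_apply,
    Submodule.cardQuot_apply]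
  exact h1

theorem card_factorKer_mul_right (Λ P : Ideal (𝓞 K)) (hΛ : Λ ≠ ⊥) :
    Nat.card (factorKer (Λ * P) Λ Ideal.mul_le_left) = Ideal.absNorm P := by
  have h := card_factorKer_mul (Λ * P) Λ Ideal.mul_le_left
  rw [map_mul, mul_comm] at h
  have h0 : Ideal.absNorm Λ ≠ 0 := by
    rwa [Ne, Ideal.absNorm_eq_zero_iff]
  exact Nat.eq_of_mul_eq_mul_left (Nat.pos_of_ne_zero h0) h

/-- **K3**: `N(P) * ∑_{Λ P} GS (r' + ·) - ∑_{Λ} GS (r + ·)` extends continuously to `[1, 2]`. -/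
theorem exists_continuousOn_index_sub (ε : Bool) (Λ P : Ideal (𝓞 K)) (hΛ : Λ ≠ ⊥) (hP : P ≠ ⊥)
    (r r' : 𝓞 K) :
    ∃ D : ℝ → ℝ, ContinuousOn D (Set.Icc 1 2) ∧ ∀ s : ℝ, 1 < s → s ≤ 2 →
      (Ideal.absNorm P : ℝ) * (∑' l : (Λ * P : Ideal (𝓞 K)), GS K ε s (r' + (l : 𝓞 K))) -
        (∑' l : Λ, GS K ε s (r + (l : 𝓞 K))) = D s := by
  have hle : Λ * P ≤ Λ := Ideal.mul_le_left
  have hne : Λ * P ≠ ⊥ := mul_ne_zero hΛ hP
  have : Finite (𝓞 K ⧸ (Λ * P)) := Ideal.finiteQuotientOfFreeOfNeBot _ hne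
  let _ : Fintype (factorKer (Λ * P) Λ hle) := Fintype.ofFinite _
  have hcard : Fintype.card (factorKer (Λ * P) Λ hle) = Ideal.absNorm P := by
    rw [← Nat.card_eq_fintype_card]
    exact card_factorKer_mul_right Λ P hΛ
  set rep : factorKer (Λ * P) Λ hle → 𝓞 K := fun q ↦ Quotient.out (q : 𝓞 K ⧸ (Λ * P)) with hrep
  have hr : ∀ q, rep q ∈ Λ := fun q ↦ (mem_factorKer_iff hle _).mp q.2
  have hex : ∀ x ∈ Λ, ∃ q, x - rep q ∈ Λ * P := by
    intro x hx
    have hq : Ideal.Quotient.mk (Λ * P) x ∈ factorKer (Λ * P) Λ hle := by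
      rw [AddMonoidHom.mem_ker]
      show Ideal.Quotient.factor hle (Ideal.Quotient.mk (Λ * P) x) = 0
      rw [Ideal.Quotient.factor_mk, Ideal.Quotient.eq_zero_iff_mem]
      exact hx
    refine ⟨⟨_, hq⟩, ?_⟩
    rw [← Ideal.Quotient.eq, hrep]
    simp only
    rw [Ideal.Quotient.mk_out]
  have hinj : ∀ q q', rep q - rep q' ∈ Λ * P → q = q' := by
    intro q q' h
    rw [← Ideal.Quotient.eq, hrep] at h
    simp only at h
    rw [Ideal.Quotient.mk_out, Ideal.Quotient.mk_out] at h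
    exact Subtype.ext h
  choose D hDc hD using fun q : factorKer (Λ * P) Λ hle ↦
    exists_continuousOn_coset_sub (K := K) ε (Λ * P) r' (r + rep q)
  refine ⟨fun s ↦ ∑ q, D q s, continuousOn_finsetSum _ fun q _ ↦ hDc q, fun s hs1 hs2 ↦ ?_⟩
  have hF : Summable fun x : 𝓞 K ↦ GS K ε s (r + x) :=
    (summable_GS ε hs1).comp_injective (add_right_injective r)
  have h1 := tsum_ideal_eq_sum_cosets Λ (Λ * P) hle rep hr hex hinj
    (fun x : 𝓞 K ↦ GS K ε s (r + x)) hF
  rw [h1]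
  have h2 : (Ideal.absNorm P : ℝ) * (∑' l : (Λ * P : Ideal (𝓞 K)), GS K ε s (r' + (l : 𝓞 K))) =
      ∑ _q : factorKer (Λ * P) Λ hle, ∑' l : (Λ * P : Ideal (𝓞 K)), GS K ε s (r' + (l : 𝓞 K)) := by
    rw [Finset.sum_const, Finset.card_univ, hcard, nsmul_eq_mul]
  rw [h2, ← Finset.sum_sub_distrib]
  refine Finset.sum_congr rfl fun q _ ↦ ?_
  rw [← hD q s hs1 hs2]
  simp only [add_assoc]

end Fermat.Agent.Lib.NormL

end
-- ===== PACK-END Lib/NormL/Index.lean

-- ===== PACK-BEGIN Lib/NormL/Key.lean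
section


/-!
# `NormL`, block KEY: `N(P) * elemSum (A * P) - elemSum A` extends continuously to `[1, 2]`
-/

namespace Fermat.Agent.Lib.NormL

open NumberField Fermat.Agent.S14.H74
open scoped nonZeroDivisors Classical

variable {K : Type*} [Field K] [NumberField K]

/-- The weight `χ(N x)`. -/
noncomputable def wt {m : ℕ} (χ : DirichletCharacter ℂ m) (x : 𝓞 K) : ℂ :=
  χ ((Algebra.norm ℤ x : ℤ) : ZMod m)

theorem wt_eq_of_sub_mem {m : ℕ} (χ : DirichletCharacter ℂ m) {x x' : 𝓞 K}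
    (h : x - x' ∈ Ideal.span {(m : 𝓞 K)}) : wt χ x = wt χ x' := by
  unfold wt
  rw [norm_zmod_eq_of_sub_mem m h]

theorem norm_wt_le_one {m : ℕ} (χ : DirichletCharacter ℂ m) (x : 𝓞 K) : ‖wt χ x‖ ≤ 1 :=
  DirichletCharacter.norm_le_one χ _

theorem summable_wt_mul_GS {m : ℕ} (χ : DirichletCharacter ℂ m) (ε : Bool) {s : ℝ}
    (hs : 1 < s) : Summable fun x : 𝓞 K ↦ wt χ x * ((GS K ε s x : ℝ) : ℂ) :=
  Summable.of_norm_bounded (summable_FS (K := K) hs) fun x ↦ by
    rw [norm_mul, Complex.norm_real, Real.norm_eq_abs]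
    calc ‖wt χ x‖ * |GS K ε s x| ≤ 1 * FS K s x :=
          mul_le_mul (norm_wt_le_one χ x) (abs_GS_le ε s x) (abs_nonneg _) zero_le_one
      _ = FS K s x := one_mul _

theorem sup_span_natCast_eq_top {m : ℕ} {B : Ideal (𝓞 K)} (h : (Ideal.absNorm B).Coprime m) :
    B ⊔ Ideal.span {(m : 𝓞 K)} = ⊤ := by
  rw [Ideal.eq_top_iff_one]
  have hc : IsCoprime ((Ideal.absNorm B : ℕ) : ℤ) (m : ℤ) := Nat.isCoprime_iff_coprime.mpr h
  obtain ⟨u, v, huv⟩ := hc
  have h1 : ((u * (Ideal.absNorm B : ℤ) + v * (m : ℤ) : ℤ) : 𝓞 K) = 1 := by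
    rw [huv]
    simp
  rw [← h1]
  push_cast
  refine Submodule.add_mem_sup ?_ ?_
  · exact B.mul_mem_left _ (Ideal.absNorm_mem B)
  · exact Ideal.mul_mem_left _ _ (Ideal.subset_span rfl)

/-- **K2**: decomposition of `elemSum` along residues modulo `m`. -/
theorem elemSum_eq_sum_residues {m : ℕ} (χ : DirichletCharacter ℂ m) (ε : Bool)
    (B Λ M : Ideal (𝓞 K)) (hM : M = Ideal.span {(m : 𝓞 K)}) [Fintype (𝓞 K ⧸ M)]
    (hB : B ⊔ M = ⊤) (h1 : Λ ≤ B) (h2 : Λ ≤ M) (h3 : B ⊓ M ≤ Λ) :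
    ∃ r : (𝓞 K ⧸ M) → 𝓞 K, ∀ s : ℝ, 1 < s →
      elemSum K χ ε B s = ∑ ρ : 𝓞 K ⧸ M,
        wt χ (Quotient.out ρ) * ((∑' l : Λ, GS K ε s (r ρ + (l : 𝓞 K)) : ℝ) : ℂ) := by
  have hex0 : ∀ ρ : 𝓞 K ⧸ M, ∃ b : 𝓞 K, b ∈ B ∧ b - Quotient.out ρ ∈ M := by
    intro ρ
    have : Quotient.out ρ ∈ B ⊔ M := by rw [hB]; trivial
    obtain ⟨b, hb, c, hc, hbc⟩ := Submodule.mem_sup.mp this
    refine ⟨b, hb, ?_⟩
    have : b - Quotient.out ρ = -c := by rw [← hbc]; ring
    rw [this]
    exact M.neg_mem hc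
  choose r hrB hrM using hex0
  have hout : ∀ x : 𝓞 K, x - Quotient.out (Ideal.Quotient.mk M x) ∈ M := by
    intro x
    rw [← Ideal.Quotient.eq, Ideal.Quotient.mk_out]
  have hex : ∀ x ∈ B, ∃ ρ, x - r ρ ∈ Λ := by
    intro x hx
    refine ⟨Ideal.Quotient.mk M x, h3 ⟨B.sub_mem hx (hrB _), ?_⟩⟩
    have e : x - r (Ideal.Quotient.mk M x) =
        (x - Quotient.out (Ideal.Quotient.mk M x)) -
          (r (Ideal.Quotient.mk M x) - Quotient.out (Ideal.Quotient.mk M x)) := by ring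
    rw [e]
    exact M.sub_mem (hout x) (hrM _)
  have hinj : ∀ ρ ρ', r ρ - r ρ' ∈ Λ → ρ = ρ' := by
    intro ρ ρ' h
    have hm : Quotient.out ρ - Quotient.out ρ' ∈ M := by
      have e : Quotient.out ρ - Quotient.out ρ' =
          (r ρ - r ρ') - (r ρ - Quotient.out ρ) + (r ρ' - Quotient.out ρ') := by ring
      rw [e]
      exact M.add_mem (M.sub_mem (h2 h) (hrM ρ)) (hrM ρ')
    rw [← Ideal.Quotient.eq, Ideal.Quotient.mk_out, Ideal.Quotient.mk_out] at hm
    exact hm
  refine ⟨r, fun s hs ↦ ?_⟩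
  have hF := summable_wt_mul_GS (K := K) χ ε hs
  have hgen := tsum_ideal_eq_sum_cosets B Λ h1 r hrB hex hinj
    (fun x : 𝓞 K ↦ wt χ x * ((GS K ε s x : ℝ) : ℂ)) hF
  have e0 : elemSum K χ ε B s = ∑' x : B, wt χ (x : 𝓞 K) * ((GS K ε s (x : 𝓞 K) : ℝ) : ℂ) := rfl
  rw [e0, hgen]
  refine Finset.sum_congr rfl fun ρ _ ↦ ?_
  rw [Complex.ofReal_tsum, ← tsum_mul_left]
  refine tsum_congr fun l ↦ ?_
  congr 1
  apply wt_eq_of_sub_mem
  have e : r ρ + (l : 𝓞 K) - Quotient.out ρ = (r ρ - Quotient.out ρ) + (l : 𝓞 K) := by ring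
  rw [e, ← hM]
  exact M.add_mem (hrM ρ) (h2 l.2)

/-- **KEY**: for nonzero ideals `A`, `P` of norm coprime to `m`, the function
`N(P) * elemSum (A * P) - elemSum A` extends continuously to `[1, 2]`. -/
theorem exists_continuousOn_elemSum_sub (K : Type*) [Field K] [NumberField K]
    {m : ℕ} [NeZero m] (χ : DirichletCharacter ℂ m)
    (ε : Bool) (A P : (Ideal (𝓞 K))⁰)
    (hA : (Ideal.absNorm (A : Ideal (𝓞 K))).Coprime m)
    (hP : (Ideal.absNorm (P : Ideal (𝓞 K))).Coprime m) :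
    ∃ Δ : ℝ → ℂ, ContinuousOn Δ (Set.Icc 1 2) ∧ ∀ s : ℝ, 1 < s → s ≤ 2 →
      (Ideal.absNorm (P : Ideal (𝓞 K)) : ℂ) *
          elemSum K χ ε ((A : Ideal (𝓞 K)) * (P : Ideal (𝓞 K))) s -
        elemSum K χ ε (A : Ideal (𝓞 K)) s = Δ s := by
  set M : Ideal (𝓞 K) := Ideal.span {(m : 𝓞 K)} with hM
  have hm0 : (m : 𝓞 K) ≠ 0 := Nat.cast_ne_zero.mpr (NeZero.ne m)
  have hM0 : M ≠ ⊥ := by
    rw [hM, Ne, Ideal.span_singleton_eq_bot]
    exact hm0
  have hA0 : (A : Ideal (𝓞 K)) ≠ ⊥ := nonZeroDivisors.coe_ne_zero A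
  have hP0 : (P : Ideal (𝓞 K)) ≠ ⊥ := nonZeroDivisors.coe_ne_zero P
  have : Finite (𝓞 K ⧸ M) := Ideal.finiteQuotientOfFreeOfNeBot _ hM0
  let _ : Fintype (𝓞 K ⧸ M) := Fintype.ofFinite _
  have hAM : (A : Ideal (𝓞 K)) ⊔ M = ⊤ := sup_span_natCast_eq_top hA
  have hAPM : (A : Ideal (𝓞 K)) * (P : Ideal (𝓞 K)) ⊔ M = ⊤ := by
    apply sup_span_natCast_eq_top
    rw [map_mul]
    exact Nat.Coprime.mul_left hA hP
  set Λ : Ideal (𝓞 K) := (A : Ideal (𝓞 K)) * M with hΛ
  have hΛ0 : Λ ≠ ⊥ := mul_ne_zero hA0 hM0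
  have hΛP : Λ * (P : Ideal (𝓞 K)) = (A : Ideal (𝓞 K)) * (P : Ideal (𝓞 K)) * M := by
    rw [hΛ]
    ring
  obtain ⟨r, hr⟩ := elemSum_eq_sum_residues χ ε (A : Ideal (𝓞 K)) Λ M hM hAM Ideal.mul_le_left
    Ideal.mul_le_right (by
      rw [← Ideal.mul_eq_inf_of_isCoprime ((Ideal.isCoprime_iff_sup_eq).mpr hAM)])
  obtain ⟨r', hr'⟩ := elemSum_eq_sum_residues χ ε ((A : Ideal (𝓞 K)) * (P : Ideal (𝓞 K)))
    (Λ * (P : Ideal (𝓞 K))) M hM hAPM (by rw [hΛP]; exact Ideal.mul_le_left)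
    (by rw [hΛP]; exact Ideal.mul_le_right) (by
      rw [hΛP, ← Ideal.mul_eq_inf_of_isCoprime ((Ideal.isCoprime_iff_sup_eq).mpr hAPM)])
  choose D hDc hD using fun ρ : 𝓞 K ⧸ M ↦
    exists_continuousOn_index_sub (K := K) ε Λ (P : Ideal (𝓞 K)) hΛ0 hP0 (r ρ) (r' ρ)
  refine ⟨fun s ↦ ∑ ρ : 𝓞 K ⧸ M, wt χ (Quotient.out ρ) * ((D ρ s : ℝ) : ℂ), ?_,
    fun s hs1 hs2 ↦ ?_⟩
  · refine continuousOn_finsetSum _ fun ρ _ ↦ ?_
    exact continuousOn_const.mul (Complex.continuous_ofReal.comp_continuousOn (hDc ρ))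
  · rw [hr s hs1, hr' s hs1, Finset.mul_sum, ← Finset.sum_sub_distrib]
    refine Finset.sum_congr rfl fun ρ _ ↦ ?_
    rw [← hD ρ s hs1 hs2]
    push_cast
    ring

end Fermat.Agent.Lib.NormL

end
-- ===== PACK-END Lib/NormL/Key.lean

-- ===== PACK-BEGIN Lib/NormL/Main.lean
section





/-!
# `NormL`: main theorem (assembly)

If `χ(N I₀) ∉ {0, 1}` for some nonzero ideal `I₀`, then `s ↦ ∑_I χ(N I) N(I)^(-s)` extends to a
continuous function on `[1, 2]`; in particular it is bounded on `(1, 2]` and has a limit as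
`s → 1⁺`.
-/

namespace Fermat.Agent.Lib.NormL

open NumberField NumberField.mixedEmbedding
open scoped nonZeroDivisors Classical

variable (K : Type*) [Field K] [NumberField K]

theorem absNorm_pos_of_mem_nonZeroDivisors (I : (Ideal (𝓞 K))⁰) :
    0 < Ideal.absNorm (I : Ideal (𝓞 K)) := by
  rw [Nat.pos_iff_ne_zero, Ne, Ideal.absNorm_eq_zero_iff]
  exact nonZeroDivisors.coe_ne_zero I

/-- The denominator `χ(q) q^(1-s) - 1` does not vanish on `[1, 2]`. -/
theorem main_denominator_ne_zero {q : ℕ} (hq2 : (1 : ℝ) < q) {z : ℂ} (hz : ‖z‖ ≤ 1) (hz1 : z ≠ 1)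
    {s : ℝ} (hs : 1 ≤ s) : z * (((q : ℝ) ^ (1 - s) : ℝ) : ℂ) - 1 ≠ 0 := by
  intro h
  have h' : z * (((q : ℝ) ^ (1 - s) : ℝ) : ℂ) = 1 := sub_eq_zero.mp h
  have hq0 : (0 : ℝ) < q := by linarith
  rcases eq_or_lt_of_le hs with rfl | hs1
  · apply hz1
    simpa using h'
  · have hlt : (q : ℝ) ^ (1 - s) < 1 := Real.rpow_lt_one_of_one_lt_of_neg hq2 (by linarith)
    have hnn : 0 ≤ (q : ℝ) ^ (1 - s) := (Real.rpow_pos_of_pos hq0 _).le
    have hn : ‖z * (((q : ℝ) ^ (1 - s) : ℝ) : ℂ)‖ < 1 := by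
      rw [norm_mul, Complex.norm_real, Real.norm_of_nonneg hnn]
      calc ‖z‖ * (q : ℝ) ^ (1 - s) ≤ 1 * (q : ℝ) ^ (1 - s) := by gcongr
        _ < 1 := by linarith
    rw [h', norm_one] at hn
    exact lt_irrefl _ hn

/-- Pure algebra used in the assembly. -/
theorem main_algebra (a b w x y Q z r c c' ainv winv : ℂ) (ha : a * ainv = 1)
    (hw : w * winv = 1) (hxy : x * y = 1) (hQz : Q * z = r) :
    (Q * (w * (a * b * (x * z) * c')) - w * (a * x * c)) * ainv * y * winv = b * r * c' - c := by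
  calc (Q * (w * (a * b * (x * z) * c')) - w * (a * x * c)) * ainv * y * winv
      = (a * ainv) * (w * winv) * (x * y) * (Q * z) * b * c' -
          (a * ainv) * (w * winv) * (x * y) * c := by ring
    _ = b * r * c' - c := by rw [ha, hw, hxy, hQz]; ring

theorem exists_continuousOn_normL {m : ℕ} [NeZero m] (χ : DirichletCharacter ℂ m)
    (I₀ : (Ideal (𝓞 K))⁰)
    (h0 : χ ((Ideal.absNorm (I₀ : Ideal (𝓞 K)) : ℕ) : ZMod m) ≠ 0)
    (h1 : χ ((Ideal.absNorm (I₀ : Ideal (𝓞 K)) : ℕ) : ZMod m) ≠ 1) :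
    ∃ F : ℝ → ℂ, ContinuousOn F (Set.Icc 1 2) ∧
      ∀ s : ℝ, 1 < s → s ≤ 2 → F s = normL K χ s := by
  set q : ℕ := Ideal.absNorm (I₀ : Ideal (𝓞 K)) with hq
  have hq0 : 0 < q := absNorm_pos_of_mem_nonZeroDivisors K I₀
  have hqu : IsUnit ((q : ℕ) : ZMod m) := by
    by_contra hu
    exact h0 (χ.map_nonunit hu)
  have hqm : q.Coprime m := (ZMod.isUnit_iff_coprime q m).mp hqu
  have hq1 : q ≠ 1 := by
    intro h
    apply h1
    rw [h]
    simp
  have hq2 : (1 : ℝ) < q := by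
    have : 2 ≤ q := by omega
    exact_mod_cast this
  have hqpos : (0 : ℝ) < q := by linarith
  -- representatives
  choose J hJC hJm using fun C : ClassGroup (𝓞 K) ↦ exists_mk0_eq_and_coprime K m C⁻¹
  set ε : Bool := decide (χ (-1) = -1) with hε
  choose Δ hΔc hΔ using fun C : ClassGroup (𝓞 K) ↦
    exists_continuousOn_elemSum_sub K χ ε (J C) I₀ (hJm C) hqm
  set w : ℂ := (Units.torsionOrder K : ℂ) with hw
  have hw0 : w ≠ 0 := by
    rw [hw]
    exact_mod_cast (Units.torsionOrder_pos K).ne'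
  set nJ : ClassGroup (𝓞 K) → ℕ := fun C ↦ Ideal.absNorm (J C : Ideal (𝓞 K)) with hnJ
  have hnJpos : ∀ C, (0 : ℝ) < nJ C := fun C ↦ by
    have := absNorm_pos_of_mem_nonZeroDivisors K (J C)
    exact_mod_cast this
  have hχJ : ∀ C, χ ((nJ C : ℕ) : ZMod m) ≠ 0 := by
    intro C
    have hu : IsUnit ((nJ C : ℕ) : ZMod m) := (ZMod.isUnit_iff_coprime _ m).mpr (hJm C)
    exact (IsUnit.map χ hu).ne_zero
  have hχq : ‖χ ((q : ℕ) : ZMod m)‖ ≤ 1 := DirichletCharacter.norm_le_one χ _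
  set E : ℝ → ℂ := fun s ↦ ∑ C : ClassGroup (𝓞 K),
    Δ C s * (χ ((nJ C : ℕ) : ZMod m))⁻¹ * ((((nJ C : ℝ) ^ s : ℝ) : ℂ)) / w with hE
  set D : ℝ → ℂ := fun s ↦ χ ((q : ℕ) : ZMod m) * (((q : ℝ) ^ (1 - s) : ℝ) : ℂ) - 1 with hD
  have hDne : ∀ s ∈ Set.Icc (1 : ℝ) 2, D s ≠ 0 := fun s hs ↦
    main_denominator_ne_zero hq2 hχq h1 hs.1
  have hDc : ContinuousOn D (Set.Icc 1 2) := by
    apply Continuous.continuousOn
    have : Continuous fun s : ℝ ↦ (q : ℝ) ^ (1 - s) :=
      Real.continuous_const_rpow hqpos.ne' |>.comp (continuous_const.sub continuous_id)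
    exact (continuous_const.mul (Complex.continuous_ofReal.comp this)).sub continuous_const
  have hEc : ContinuousOn E (Set.Icc 1 2) := by
    apply continuousOn_finsetSum
    intro C _
    have h1 : Continuous fun s : ℝ ↦ (((nJ C : ℝ) ^ s : ℝ) : ℂ) :=
      Complex.continuous_ofReal.comp (Real.continuous_const_rpow (hnJpos C).ne')
    exact (((hΔc C).mul continuousOn_const).mul h1.continuousOn).div_const _
  refine ⟨fun s ↦ E s / D s, hEc.div hDc hDne, fun s hs1 hs2 ↦ ?_⟩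
  have hDs : D s ≠ 0 := hDne s ⟨hs1.le, hs2⟩
  rw [div_eq_iff hDs]
  -- the identity `E s = normL s * D s`
  have key : ∀ C : ClassGroup (𝓞 K),
      Δ C s * (χ ((nJ C : ℕ) : ZMod m))⁻¹ * ((((nJ C : ℝ) ^ s : ℝ) : ℂ)) / w =
        χ ((q : ℕ) : ZMod m) * (((q : ℝ) ^ (1 - s) : ℝ) : ℂ) *
          classL K χ (C * (ClassGroup.mk0 I₀)⁻¹) s - classL K χ C s := by
    intro C
    have e1 := elemSum_eq_torsionOrder_mul_prinL K χ (J C) hs1
    have e2 := elemSum_eq_torsionOrder_mul_prinL K χ (J C * I₀) hs1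
    have c1 := prinL_eq_mul_classL K χ C (J C) (hJC C) hs1
    have c2 := prinL_eq_mul_classL K χ (C * (ClassGroup.mk0 I₀)⁻¹) (J C * I₀)
      (by rw [map_mul, hJC C, mul_inv_rev, inv_inv, mul_comm]) hs1
    have hd := hΔ C s hs1 hs2
    have hcoe : ((J C * I₀ : (Ideal (𝓞 K))⁰) : Ideal (𝓞 K)) =
        (J C : Ideal (𝓞 K)) * (I₀ : Ideal (𝓞 K)) := rfl
    rw [hcoe] at e2 c2
    rw [← hε] at e1 e2
    rw [e1, e2, c1, c2] at hd
    have hN : Ideal.absNorm ((J C : Ideal (𝓞 K)) * (I₀ : Ideal (𝓞 K))) = nJ C * q := by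
      rw [map_mul]
    rw [hN] at hd
    have hcast : (((nJ C * q : ℕ) : ℕ) : ZMod m) = ((nJ C : ℕ) : ZMod m) * ((q : ℕ) : ZMod m) := by
      push_cast; ring
    have hpow : (((nJ C * q : ℕ) : ℝ)) ^ (-s) = (nJ C : ℝ) ^ (-s) * (q : ℝ) ^ (-s) := by
      push_cast
      rw [Real.mul_rpow (hnJpos C).le hqpos.le]
    rw [hcast, map_mul, hpow] at hd
    have hJs : (((nJ C : ℝ) ^ (-s) : ℝ) : ℂ) * (((nJ C : ℝ) ^ s : ℝ) : ℂ) = 1 := by
      rw [← Complex.ofReal_mul, ← Real.rpow_add (hnJpos C), neg_add_cancel, Real.rpow_zero]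
      simp
    have hqs : ((q : ℕ) : ℂ) * (((q : ℝ) ^ (-s) : ℝ) : ℂ) = (((q : ℝ) ^ (1 - s) : ℝ) : ℂ) := by
      rw [show (1 - s) = 1 + (-s) by ring, Real.rpow_add hqpos, Real.rpow_one]
      push_cast
      ring
    rw [← hd, div_eq_mul_inv]
    have hx := hχJ C
    have hcq : ((Ideal.absNorm (I₀ : Ideal (𝓞 K)) : ℕ) : ℂ) = ((q : ℕ) : ℂ) := rfl
    rw [hcq, Complex.ofReal_mul]
    exact main_algebra _ _ _ _ _ _ _ _ _ _ _ _ (mul_inv_cancel₀ hx) (mul_inv_cancel₀ hw0) hJs hqs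
  simp only [hE, hD]
  rw [Finset.sum_congr rfl fun C _ ↦ key C, Finset.sum_sub_distrib, ← Finset.mul_sum]
  have hre : ∑ C : ClassGroup (𝓞 K), classL K χ (C * (ClassGroup.mk0 I₀)⁻¹) s =
      ∑ C : ClassGroup (𝓞 K), classL K χ C s :=
    Fintype.sum_equiv (Equiv.mulRight (ClassGroup.mk0 I₀)⁻¹) _ _ fun _ ↦ rfl
  rw [hre, ← normL_eq_sum_classL K χ hs1]
  ring

end Fermat.Agent.Lib.NormL

end
-- ===== PACK-END Lib/NormL/Main.lean

-- ===== PACK-BEGIN Lib/Cheb/H44/DirichletLimit.lean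
section



/-!
# CHEB, Tier 2, piece (AN): `Spec.DirichletLimitStatement`

For a number field `F` and a Dirichlet character `χ` mod `m` with `χ(N I) ∉ {0, 1}` for some
ideal `I`, the series `L_F(s, χ ∘ N) = ∑_I χ(N I) N(I)^(-s)` has a limit as `s → 1⁺`.

Assembly: `NormL.exists_continuousOn_normL` (helper44: multiplier trick; blocks KEY/DS by
helper44, ORB by helper941, CLS by helper584, COP by helper704, tent toolkit by helper74) and the
bridge to the `LSeries` form of `Spec` by helper941.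
-/

namespace Fermat.Agent.Lib.Cheb.H44

open NumberField

/-- **(AN)** in the frozen `Spec` shape. -/
theorem dirichletLimit : Fermat.Agent.Lib.Cheb.Spec.DirichletLimitStatement :=
  Fermat.Agent.Lib.Cheb.H941.dirichletLimit_of_continuousOn fun F _ _ _ _ χ I₀ h0 h1 =>
    Fermat.Agent.Lib.NormL.exists_continuousOn_normL F χ I₀ h0 h1

end Fermat.Agent.Lib.Cheb.H44

end
-- ===== PACK-END Lib/Cheb/H44/DirichletLimit.lean

-- ===== PACK-BEGIN Lib/Cheb/H221/QSum.lean
section







/-!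
# CHEB-Q, piece Q-SUM: the quantitative prime sum in the class of `g` (helper221)

Situation of `Spec.CycStatement`; `c(p)` is the number of degree-one primes of `L^⟨g⟩` over `p`.
-/

set_option autoImplicit false

open NumberField IsDedekindDomain Filter Topology

namespace Fermat.Agent.Lib.Cheb.H221

set_option linter.unusedSectionVars false

/-- Q-SUM from the pieces (all hypotheses are interface statements). -/
theorem cycSum_of_pieces (hEP : EulerProductStatement) (hDEG : TwistedPrimeSumStatement)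
    (hABSQ : SpecQ.AbstractDirichletQStatement) (hALG : CycAlgStatement)
    (hZ : Spec.PrimeSumStatement) (hA : Spec.CountStatement) (hD : Spec.FrobStatement)
    (hM : Spec.FrobFiniteStatement) (hAN : Spec.DirichletLimitStatement) :
    SpecQ.CycSumStatement := by
  intro L _ _ _ m _ ζ hζ g hg
  classical
  obtain ⟨hord, B, hSUPP, hSPLIT, hNT, -⟩ := hALG hA hD hM L m ζ hζ g hg
  set a := hζ.autToPow ℚ g with ha
  set c : Nat.Primes → ℝ := fun p => (Spec.primeCount (fixM L g) p : ℝ) with hc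
  have hc0 : ∀ p, 0 ≤ c p := fun p => Nat.cast_nonneg _
  have hsumc : ∀ s : ℝ, 1 < s → s ≤ 2 →
      Summable (fun p : Nat.Primes => c p * (p : ℝ) ^ (-s)) :=
    fun s h1 _ => summable_primeCount (fixM L g) h1
  have hcne : ∀ p : Nat.Primes, c p ≠ 0 → Spec.primeCount (fixM L g) p ≠ 0 := by
    intro p hcp h
    apply hcp
    simp [hc, h]
  have hsupp : ∃ B : Finset ℕ, ∀ p : Nat.Primes, (p : ℕ) ∉ B → c p ≠ 0 →
      ∃ u ∈ Subgroup.zpowers a, ((u : (ZMod m)ˣ) : ZMod m) = ((p : ℕ) : ZMod m) :=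
    ⟨B, fun p hpB hcp => hSUPP p p.2 hpB (hcne p hcp)⟩
  have htot : ∃ C : ℝ, ∀ s : ℝ, 1 < s → s ≤ 2 →
      |(∑' p : Nat.Primes, c p * (p : ℝ) ^ (-s)) - Real.log (1 / (s - 1))| ≤ C :=
    hZ (fixM L g)
  have hone : ∃ C : ℝ, ∀ s : ℝ, 1 < s → s ≤ 2 →
      (Nat.card (Subgroup.zpowers a) : ℝ)⁻¹ * Real.log (1 / (s - 1)) - C ≤
        ∑' p : Nat.Primes, if ((p : ℕ) : ZMod m) = 1 then c p * (p : ℝ) ^ (-s) else 0 := by
    obtain ⟨C', hC'⟩ := hZ (fixBot L)
    set CE : ℝ := ∑ p ∈ primesIn B, (Spec.primeCount (fixBot L) p : ℝ) with hCE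
    have hn : (0 : ℝ) < Nat.card (Subgroup.zpowers a) := by exact_mod_cast Nat.card_pos
    refine ⟨(C' + CE) / Nat.card (Subgroup.zpowers a), fun s h1 h2 => ?_⟩
    set u : Nat.Primes → ℝ :=
      fun p => (Spec.primeCount (fixBot L) p : ℝ) * ((p : ℕ) : ℝ) ^ (-s) with hu
    set v : Nat.Primes → ℝ :=
      fun p => if ((p : ℕ) : ZMod m) = 1 then c p * ((p : ℕ) : ℝ) ^ (-s) else 0 with hv
    have hpw : ∀ p : Nat.Primes, 0 ≤ (((p : ℕ) : ℝ)) ^ (-s) :=
      fun p => Real.rpow_nonneg (Nat.cast_nonneg _) _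
    have hv0 : ∀ p, 0 ≤ v p := by
      intro p
      simp only [hv]
      split_ifs
      · exact mul_nonneg (hc0 p) (hpw p)
      · exact le_rfl
    have husum : Summable u := summable_primeCount (fixBot L) h1
    have hvsum : Summable v := by
      refine Summable.of_nonneg_of_le hv0 (fun p => ?_) (hsumc s h1 h2)
      simp only [hv]
      split_ifs
      · exact le_rfl
      · exact mul_nonneg (hc0 p) (hpw p)
    have hdiff : ∀ p : Nat.Primes, p ∉ primesIn B →
        u p - (Nat.card (Subgroup.zpowers a) : ℝ) * v p = 0 := by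
      intro p hp
      rw [mem_primesIn] at hp
      have h3 := hSPLIT p p.2 hp
      simp only [hu, hv, h3, hord, hc]
      split_ifs
      · push_cast
        ring
      · simp
    have h3 : (∑' p, u p) - (Nat.card (Subgroup.zpowers a) : ℝ) * ∑' p, v p =
        ∑ p ∈ primesIn B, (u p - (Nat.card (Subgroup.zpowers a) : ℝ) * v p) := by
      rw [← tsum_mul_left, ← husum.tsum_sub (hvsum.mul_left _)]
      exact tsum_eq_sum hdiff
    have h4 : ∑ p ∈ primesIn B, (u p - (Nat.card (Subgroup.zpowers a) : ℝ) * v p) ≤ CE := by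
      refine Finset.sum_le_sum fun p _ => ?_
      have h5 : u p ≤ (Spec.primeCount (fixBot L) p : ℝ) :=
        mul_le_of_le_one_right (Nat.cast_nonneg _) (rpow_neg_le_one p (by linarith))
      have h6 : 0 ≤ (Nat.card (Subgroup.zpowers a) : ℝ) * v p := mul_nonneg hn.le (hv0 p)
      linarith
    have h5 := hC' s h1 h2
    rw [abs_le] at h5
    have h6 : Real.log (1 / (s - 1)) - (C' + CE) ≤
        (Nat.card (Subgroup.zpowers a) : ℝ) * ∑' p, v p := by
      have : (∑' p : Nat.Primes, (Spec.primeCount (fixBot L) p : ℝ) * (p : ℝ) ^ (-s)) =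
          ∑' p, u p := rfl
      linarith [h5.1]
    have h7 : (Nat.card (Subgroup.zpowers a) : ℝ)⁻¹ * Real.log (1 / (s - 1)) -
        (C' + CE) / Nat.card (Subgroup.zpowers a) =
        (Real.log (1 / (s - 1)) - (C' + CE)) / Nat.card (Subgroup.zpowers a) := by
      field_simp
    rw [h7, div_le_iff₀ hn, mul_comm]
    exact h6
  have hχ : ∀ χ : DirichletCharacter ℂ m,
      (∃ u ∈ Subgroup.zpowers a, χ ((u : (ZMod m)ˣ) : ZMod m) ≠ 1) →
      ∃ (Λ : ℝ → ℂ) (ℓ : ℂ) (C : ℝ), ContinuousOn Λ (Set.Ioi 1) ∧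
        Tendsto (fun s => Complex.exp (Λ s)) (𝓝[>] 1) (𝓝 ℓ) ∧
        ∀ s : ℝ, 1 < s → s ≤ 2 →
          ‖Λ s - ∑' p : Nat.Primes, χ ((p : ℕ) : ZMod m) *
            ((c p * (p : ℝ) ^ (-s) : ℝ) : ℂ)‖ ≤ C := by
    rintro χ ⟨u, hu, hχu⟩
    have hχa : χ ((a : (ZMod m)ˣ) : ZMod m) ≠ 1 := by
      intro h1
      apply hχu
      obtain ⟨k, rfl⟩ := Subgroup.mem_zpowers_iff.mp hu
      have h2 : χ.toUnitHom a = 1 := by
        ext
        rw [MulChar.coe_toUnitHom]
        simpa using h1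
      have h3 : χ.toUnitHom (a ^ k) = 1 := by rw [map_zpow, h2, one_zpow]
      have h4 := congrArg Units.val h3
      rwa [MulChar.coe_toUnitHom] at h4
    obtain ⟨I, hI0, hI1⟩ := hNT χ hχa
    obtain ⟨ℓ, hℓ⟩ := hAN (fixM L g) m χ ⟨I, hI0, hI1⟩
    obtain ⟨CD, hCD⟩ := hDEG hZ (fixM L g) m χ
    set Nn : HeightOneSpectrum (𝓞 (fixM L g)) → ℝ :=
      fun 𝔭 => (Ideal.absNorm 𝔭.asIdeal : ℝ) with hNn
    set cχ : HeightOneSpectrum (𝓞 (fixM L g)) → ℂ :=
      fun 𝔭 => χ (Ideal.absNorm 𝔭.asIdeal : ZMod m) with hcχdef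
    have hN : ∀ 𝔭, 2 ≤ Nn 𝔭 := fun 𝔭 => by
      simp only [hNn]
      exact_mod_cast H761.two_le_absNorm (fixM L g) 𝔭
    have hsumN : ∀ s : ℝ, 1 < s → Summable (xs Nn s) :=
      fun s hs => H761.summable_primeSum (fixM L g) hs
    have hcχ : ∀ 𝔭, ‖cχ 𝔭‖ ≤ 1 := fun 𝔭 => DirichletCharacter.norm_le_one χ _
    refine ⟨logEuler Nn cχ, ℓ, (∑' r, xs Nn 2 r) + CD,
      continuousOn_logEuler hN hsumN hcχ, ?_, ?_⟩
    · refine hℓ.congr' ?_
      filter_upwards [self_mem_nhdsWithin] with s hs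
      exact (exp_logEuler_eq hN hsumN hcχ hs (hEP (fixM L g) m χ s hs)).symm
    · intro s h1 h2
      have e1 := norm_logEuler_sub_le hN hsumN hcχ h1
      have e2 := (hCD s h1 h2).2
      exact (norm_sub_le_norm_sub_add_norm_sub _ _ _).trans (add_le_add e1 e2)
  obtain ⟨C, hC⟩ := hABSQ m c hc0 hsumc (Subgroup.zpowers a) hsupp htot hone hχ a
    (Subgroup.mem_zpowers a)
  refine ⟨C, fun s h1 h2 => ⟨hsumc s h1 h2, ?_⟩⟩
  have := hC s h1 h2
  rw [hord] at this
  exact this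

/-- **Q-SUM**, unconditional. -/
theorem cycSum : SpecQ.CycSumStatement :=
  cycSum_of_pieces eulerProduct twistedPrimeSum abstractDirichletQ cycAlg
    H761.primeSum_statement H764.count H943.frobStatement frobFinite_main H44.dirichletLimit

end Fermat.Agent.Lib.Cheb.H221

end
-- ===== PACK-END Lib/Cheb/H221/QSum.lean

-- ===== PACK-BEGIN Lib/Cheb/ChebDensityOf.lean
section








/-!
# CHEB-Q: the whole chain, conditional on the last open leaf Q-ALG (`SpecQ.CycCountStatement`)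

    Q-SUM (H221) + Q-ALG ──► Q-CYC (O(1)-form, H993) ──► CROSS-Q (H968) ──► finite level
      ──► Q-SET (H993, with Q-DISJ H993) ──► Q-BR (H116) ──► client statements
-/

set_option autoImplicit false

namespace Fermat.Agent.Lib.Cheb

/-- finite level: primes with Frobenius class of `g` have lower density `≥ |C_g| / |G|` -/
theorem chebDensityFinite_of_cycCount (h : SpecQ.CycCountStatement) :
    SpecQ.ChebDensityFiniteStatement :=
  H993.chebDensityFinite_of_968
    (Fermat.Agent.Lib.ChebQ.H968.crossDensity H943.frobStatement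
      (H993.cycDensity968_of H221.cycSum h))

/-- finite level, arbitrary subsets of the Galois group -/
theorem chebDensitySet_of_cycCount (h : SpecQ.CycCountStatement) :
    SpecQ.ChebDensitySetStatement :=
  H993.chebDensitySetGlue H993.frobDisjoint (chebDensityFinite_of_cycCount h)

/-- client statement (`SpecQ` form) -/
theorem chebDensity_of_cycCount (h : SpecQ.CycCountStatement) : SpecQ.ChebDensityStatement :=
  H116.bridgeDensitySet (chebDensitySet_of_cycCount h)

/-- client statement (`ChebQ.Spec` form, Deligne–Serre Lemma 8.4 input) -/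
theorem chebDensityClient_of_cycCount (h : SpecQ.CycCountStatement) :
    Fermat.Agent.Lib.ChebQ.Spec.ChebDensityClientStatement :=
  H993.client968_of (chebDensity_of_cycCount h)

end Fermat.Agent.Lib.Cheb

end
-- ===== PACK-END Lib/Cheb/ChebDensityOf.lean

-- ===== PACK-BEGIN Lib/Cheb/ChebDensity.lean
section



/-!
# CHEB Tier 3 (CHEB-Q) END: the Chebotarev density theorem (lower Dirichlet density), unconditional

Client statements (finite-sum Dirichlet densities, see `SpecQ.lean` and `DensityBasic.lean`):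

* `chebDensity : SpecQ.ChebDensityStatement` — for `ρ : Gal(ℚ̄/ℚ) →* G` trivial on `Gal(ℚ̄/E)`,
  `E/ℚ` finite, any `C ⊆ G`, any finite `S`: the primes `p ∉ S` such that `ρ` is unramified at
  some valuation subring `A` over `p` and `ρ(τ) ∈ C` for some Frobenius `τ` at `A` have lower
  Dirichlet density at least `|C ∩ range ρ| / |range ρ|`.
* `chebDensityClient : ChebQ.Spec.ChebDensityClientStatement` — the same in the form used by
  Deligne–Serre Lemma 8.4: a set `X` of upper density `≤ η` containing all primes with a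
  Frobenius in `C` forces `|C ∩ range ρ| ≤ η |range ρ|`.
* `chebDensityFinite`, `chebDensitySet` — finite level (Galois number fields, `IsArithFrobAt`).

Pieces: AN (H44), EP/DEG (H163/H104), ALG (H221/H223/H281), Q-ABS (H776/H221/H163/H56),
Q-SUM (H221), Q-ALG (H56; 2nd copy H968), Q-CYC, Q-DISJ, Q-SET, adapters (H993), CROSS-Q (H968 on
H236), Q-BR (H116), Tier-1 pieces Z/A/D/M.
-/

set_option autoImplicit false

namespace Fermat.Agent.Lib.Cheb

/-- Chebotarev density theorem, finite level. -/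
theorem chebDensityFinite : SpecQ.ChebDensityFiniteStatement :=
  chebDensityFinite_of_cycCount H56.cycCount

/-- Chebotarev density theorem, finite level, arbitrary subsets of the Galois group. -/
theorem chebDensitySet : SpecQ.ChebDensitySetStatement :=
  chebDensitySet_of_cycCount H56.cycCount

/-- **Chebotarev density theorem** (lower Dirichlet density), client form over `ℚ̄`. -/
theorem chebDensity : SpecQ.ChebDensityStatement :=
  chebDensity_of_cycCount H56.cycCount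

/-- Chebotarev density theorem, client form of `ChebQ.Spec` (Deligne–Serre Lemma 8.4 input). -/
theorem chebDensityClient : Fermat.Agent.Lib.ChebQ.Spec.ChebDensityClientStatement :=
  chebDensityClient_of_cycCount H56.cycCount

end Fermat.Agent.Lib.Cheb

end
-- ===== PACK-END Lib/Cheb/ChebDensity.lean

-- ===== PACK-BEGIN S48/Top/Chain.lean
section













/-!
# S48 — the chain with every landed input discharged (helper948, row deputy)

`s48_of_int_res` (and `s48_of_val_res`): the frozen statement S48 follows from the TWO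
remaining inputs

* `Top.EigenConjStatement`  (P1 = INT: rational structure of `S₁(Γ₁(N))`, conjugate eigenforms),
* `Top.ResidualStatement`   (P2 + P3 = TOWER A1: mod-`ℓ` Galois representations).

Discharged here: RANKIN (`H308.rankin`), FI (`H428.finiteImage`), LIFT (`H528.liftStatement`),
CHEB-Q (`Lib.Cheb.chebDensity`), and the glue pieces VAL (`H308.values`), MAT
(`H108.residualMat`), BND (`H108.boundedImage`), CLIFT (`H468.complexLiftPiece`),
EXA / TWO / IRR (`H948`), END.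
-/

set_option autoImplicit false

namespace Fermat.Agent.S48.Top

/-- S48 from `ValuesStatement` (the only consequence of INT used by the row) and RES. -/
theorem s48_of_val_res (hVal : ValuesStatement) (hRes : ResidualStatement) :
    S48Statement :=
  endPiece
    (Fermat.Agent.S48.H948.exactPiece
      (Fermat.Agent.S48.H948.exactAwayPiece
        (Fermat.Agent.S48.H468.complexLiftPiece
          (Fermat.Agent.S48.H108.boundedImage (Fermat.Agent.S48.H108.residualMat hRes) hVal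
            Fermat.Agent.Lib.Cheb.chebDensity Fermat.Agent.S48.H428.finiteImage)
          Fermat.Agent.S48.H528.liftStatement))
      Fermat.Agent.Lib.Cheb.chebDensity)
    (Fermat.Agent.S48.H948.irreduciblePiece Fermat.Agent.S48.H308.rankin
      Fermat.Agent.Lib.Cheb.chebDensity)

/-- The exceptional-set statement VAL from INT alone. -/
theorem values_of_int (hConj : EigenConjStatement) : ValuesStatement :=
  Fermat.Agent.S48.H308.values Fermat.Agent.S48.H308.rankin hConj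

/-- S48 from the two remaining inputs INT and RES. -/
theorem s48_of_int_res (hConj : EigenConjStatement) (hRes : ResidualStatement) :
    S48Statement :=
  s48_of_val_res (values_of_int hConj) hRes

end Fermat.Agent.S48.Top

end
-- ===== PACK-END S48/Top/Chain.lean

-- ===== PACK-BEGIN S48/Top/ResultOf.lean
section



/-!
# Row S48 (Deligne–Serre): the final chain, `ResidualStatement → S48Statement`

All inputs of the row except the residual representations (`Top.ResidualStatement`,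
tower A1) are closed on main:

* `H128.eigenConj : Top.EigenConjStatement` (input P1 = INT: the Hecke eigenvalues are
  algebraic integers and the eigen-property is stable under conjugation),
* `Top.s48_of_int_res : EigenConjStatement → ResidualStatement → S48Statement`
  (`Top/Chain.lean`: Rankin bound, values, residual matrices, bounded image, complex lift,
  exactness away from a finite set, exactness, irreducibility, end piece).

Hence the frozen statement S48 follows from `Top.ResidualStatement` alone: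

  `Fermat.Agent.S48.Top.result_of_residual : ResidualStatement → S48Statement`.

`S48Statement` is the frozen statement verbatim, so `Fermat/Agent/S48.lean` is

  `theorem result … := Top.result_of_residual <residual> N ε f hf₁ hT`.
-/

set_option autoImplicit false

namespace Fermat.Agent.S48.Top

/-- The values piece, unconditionally: for an eigenform `f` of weight one, the Hecke
eigenvalues `a_p` (`p ∤ N`) take finitely many values, up to a set of primes of arbitrarily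
small upper density. -/
theorem values_unconditional : ValuesStatement :=
  values_of_int Fermat.Agent.S48.H128.eigenConj

/-- **The final chain of row S48.**  The frozen statement S48 (Deligne–Serre) follows from
the existence of the residual representations (`ResidualStatement`, tower A1). -/
theorem result_of_residual (hRes : ResidualStatement) : S48Statement :=
  s48_of_int_res Fermat.Agent.S48.H128.eigenConj hRes

end Fermat.Agent.S48.Top

end
-- ===== PACK-END S48/Top/ResultOf.lean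

-- ===== PACK-BEGIN S48/H888/MAsm.lean
section



/-!
# S48 / Tower A1 (helper888): abstract assembly of layer M with diamond operators

Port of `S29/H42/MAsm.lean` (helper42) to the nebentypus situation.

Input: an abelian group `A` (in the application: the `ℓ`-torsion of the Jacobian of `X₁(M)` or of
an intermediate curve `X_H`) with a `G_ℚ`-action and two families of operators `T p`, `D p`
(Hecke and diamond operators) commuting with the Galois action, such that

* every element has an open stabiliser,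
* inertia at `p ∤ S` acts trivially,
* every Frobenius at `p ∤ S` satisfies `σ² x - T_p (σ x) + p · D_p x = 0`,
* there is a nonzero simultaneous eigenvector `v ∈ F ⊗ A` with `T_p v = a p • v`,
  `D_p v = δ p • v`, where `p · δ p = e p` in `F`.

Output: `HasFrobModuleDet F S a e`, hence (with `a p = ψ a_p`, `e p = ψ (ε p)`)
`HasFrobModule1 ε f ℓ ψ` and, through LAYER-A', `Top.ResidualStatement`.
-/

set_option autoImplicit false

noncomputable section

open TensorProduct

namespace Fermat.Agent.S48.H888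

open Fermat.Agent.S29 Fermat.Agent.S29.H42 Fermat.Agent.S48.Top

/-- A nonzero smooth `F[G_ℚ]`-module, unramified outside `S`, on which every Frobenius element
at `p ∤ S` satisfies `σ² x - a p • σ x + e p • x = 0`. -/
def HasFrobModuleDet (F : Type) [Field F] (S : ℕ) (a e : ℕ → F) : Prop :=
  ∃ (M : Type) (_ : AddCommGroup M) (_ : Module F M) (ρ : GalQ →* Module.End F M),
    Nontrivial M ∧ IsSmoothRep ρ ∧ IsUnramOutside ρ S ∧
    ∀ p : ℕ, p.Prime → ¬ p ∣ S → ∀ A : ValuationSubring (AlgebraicClosure ℚ),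
      A.LiesOverPrime p → ∀ σ : GalQ, A.IsFrobeniusAt σ p → ∀ x : M,
        ρ σ (ρ σ x) - a p • ρ σ x + e p • x = 0

section asm

variable {F : Type} [Field F] {A : Type} [AddCommGroup A] [DistribMulAction GalQ A]

variable (F) in
/-- The simultaneous eigenspace of the operators `T p`, `D p` (`p` prime, `p ∤ S`). -/
def eigenSub2 (S : ℕ) (a δ : ℕ → F) (T D : ℕ → Module.End ℤ A) : Submodule F (F ⊗[ℤ] A) :=
  eigenSub F S a T ⊓ eigenSub F S δ D

theorem tensorRep_mem_eigenSub2 {S : ℕ} {a δ : ℕ → F} {T D : ℕ → Module.End ℤ A}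
    (hT : ∀ (p : ℕ) (σ : GalQ) (x : A), T p (σ • x) = σ • T p x)
    (hD : ∀ (p : ℕ) (σ : GalQ) (x : A), D p (σ • x) = σ • D p x) (σ : GalQ)
    {v : F ⊗[ℤ] A} (hv : v ∈ eigenSub2 F S a δ T D) :
    tensorRep F A σ v ∈ eigenSub2 F S a δ T D :=
  ⟨tensorRep_mem_eigenSub hT σ hv.1, tensorRep_mem_eigenSub hD σ hv.2⟩

/-- The representation on the simultaneous eigenspace. -/
def eigenRep2 (S : ℕ) (a δ : ℕ → F) (T D : ℕ → Module.End ℤ A)
    (hT : ∀ (p : ℕ) (σ : GalQ) (x : A), T p (σ • x) = σ • T p x)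
    (hD : ∀ (p : ℕ) (σ : GalQ) (x : A), D p (σ • x) = σ • D p x) :
    GalQ →* Module.End F (eigenSub2 F S a δ T D) where
  toFun σ := (tensorRep F A σ).restrict fun _ hv => tensorRep_mem_eigenSub2 hT hD σ hv
  map_one' := by
    ext v
    simp
  map_mul' σ τ := by
    ext v
    simp

@[simp] theorem coe_eigenRep2_apply (S : ℕ) (a δ : ℕ → F) (T D : ℕ → Module.End ℤ A)
    (hT : ∀ (p : ℕ) (σ : GalQ) (x : A), T p (σ • x) = σ • T p x)
    (hD : ∀ (p : ℕ) (σ : GalQ) (x : A), D p (σ • x) = σ • D p x) (σ : GalQ)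
    (v : eigenSub2 F S a δ T D) :
    ((eigenRep2 S a δ T D hT hD σ v : eigenSub2 F S a δ T D) : F ⊗[ℤ] A)
      = tensorRep F A σ v := rfl

/-- The relation `σ² - T σ + p D = 0` passes to `F ⊗ A`. -/
theorem tensorRep_quadratic2 {T D : Module.End ℤ A} (σ : GalQ) (p : ℕ)
    (h : ∀ x : A, σ • σ • x - T (σ • x) + (p : ℤ) • D x = 0) (v : F ⊗[ℤ] A) :
    tensorRep F A σ (tensorRep F A σ v) - T.baseChange F (tensorRep F A σ v)
      + (p : F) • D.baseChange F v = 0 := by
  induction v using TensorProduct.induction_on with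
  | zero => simp
  | tmul f x =>
      simp only [tensorRep_tmul, LinearMap.baseChange_tmul]
      have h1 : (p : F) • (f ⊗ₜ[ℤ] D x) = f ⊗ₜ[ℤ] ((p : ℤ) • D x) := by
        calc (p : F) • (f ⊗ₜ[ℤ] D x) = ((p : F) • f) ⊗ₜ[ℤ] D x := TensorProduct.smul_tmul' _ _ _
          _ = ((p : ℤ) • f) ⊗ₜ[ℤ] D x := by
              congr 1
              simp [zsmul_eq_mul]
          _ = f ⊗ₜ[ℤ] ((p : ℤ) • D x) := TensorProduct.smul_tmul _ _ _
      rw [h1, ← TensorProduct.tmul_sub, ← TensorProduct.tmul_add, h x, TensorProduct.tmul_zero]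
  | add v w hv hw =>
      have : tensorRep F A σ (tensorRep F A σ (v + w)) - T.baseChange F (tensorRep F A σ (v + w))
          + (p : F) • D.baseChange F (v + w)
          = (tensorRep F A σ (tensorRep F A σ v) - T.baseChange F (tensorRep F A σ v)
              + (p : F) • D.baseChange F v)
            + (tensorRep F A σ (tensorRep F A σ w) - T.baseChange F (tensorRep F A σ w)
              + (p : F) • D.baseChange F w) := by
        simp only [map_add, smul_add]
        abel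
      rw [this, hv, hw, add_zero]

/-- **Abstract assembly of layer M with diamond operators.** -/
theorem hasFrobModuleDet_of_eigenvector (S : ℕ) (a δ e : ℕ → F) (T D : ℕ → Module.End ℤ A)
    (hT : ∀ (p : ℕ) (σ : GalQ) (x : A), T p (σ • x) = σ • T p x)
    (hD : ∀ (p : ℕ) (σ : GalQ) (x : A), D p (σ • x) = σ • D p x)
    (hsmooth : ∀ x : A, ∃ L : IntermediateField ℚ (AlgebraicClosure ℚ), FiniteDimensional ℚ L ∧
      ∀ σ : GalQ, (∀ y ∈ L, σ y = y) → σ • x = x)
    (hunr : ∀ p : ℕ, p.Prime → ¬ p ∣ S → ∀ V : ValuationSubring (AlgebraicClosure ℚ),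
      V.LiesOverPrime p → ∀ σ ∈ V.inertiaSubgroupIn ℚ, ∀ x : A, σ • x = x)
    (hfrob : ∀ p : ℕ, p.Prime → ¬ p ∣ S → ∀ V : ValuationSubring (AlgebraicClosure ℚ),
      V.LiesOverPrime p → ∀ σ : GalQ, V.IsFrobeniusAt σ p →
        ∀ x : A, σ • σ • x - T p (σ • x) + (p : ℤ) • D p x = 0)
    (he : ∀ p : ℕ, p.Prime → ¬ p ∣ S → (p : F) * δ p = e p)
    (hocc : ∃ v : F ⊗[ℤ] A, v ≠ 0 ∧ ∀ p : ℕ, p.Prime → ¬ p ∣ S →
      (T p).baseChange F v = a p • v ∧ (D p).baseChange F v = δ p • v) :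
    HasFrobModuleDet F S a e := by
  obtain ⟨v, hv0, hv⟩ := hocc
  have hvmem : v ∈ eigenSub2 F S a δ T D :=
    ⟨fun p hp hS => (hv p hp hS).1, fun p hp hS => (hv p hp hS).2⟩
  refine ⟨eigenSub2 F S a δ T D, inferInstance, inferInstance, eigenRep2 S a δ T D hT hD,
    ?_, ?_, ?_, ?_⟩
  · exact ⟨⟨⟨v, hvmem⟩, 0, fun h => hv0 (congrArg Subtype.val h)⟩⟩
  · intro x
    obtain ⟨L, hL, hfix⟩ := tensorRep_smooth (F := F) hsmooth (x : F ⊗[ℤ] A)
    exact ⟨L, hL, fun σ hσ => Subtype.ext (hfix σ hσ)⟩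
  · intro p hp hS V hV σ hσ
    ext x
    have := tensorRep_eq_one_of_trivial (F := F) σ (hunr p hp hS V hV σ hσ)
    simp [this]
  · intro p hp hS V hV σ hσ x
    apply Subtype.ext
    have h1 := tensorRep_quadratic2 (F := F) σ p (hfrob p hp hS V hV σ hσ) (x : F ⊗[ℤ] A)
    have h2 := (tensorRep_mem_eigenSub2 hT hD σ x.2).1 p hp hS
    have h3 := x.2.2 p hp hS
    rw [h2, h3, smul_smul, he p hp hS] at h1
    simpa using h1

end asm

/-- From the abstract module to the hypothesis of LAYER-A'. -/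
theorem hasFrobModule1_of_det {N : ℕ} [NeZero N] (ε : DirichletCharacter ℂ N)
    (f : CuspForm (CongruenceSubgroup.Gamma1 N) 1) (ℓ : ℕ) {F : Type} [Field F]
    (ψ : Zbar →+* F) (a e : ℕ → Zbar)
    (ha : ∀ p : ℕ, p.Prime → ¬ p ∣ N * ℓ → ((a p : Zbar) : ℂ) = ModularFormClass.qCoeff f p)
    (he : ∀ p : ℕ, p.Prime → ¬ p ∣ N * ℓ → ((e p : Zbar) : ℂ) = ε (p : ZMod N))
    (h : HasFrobModuleDet F (N * ℓ) (fun p => ψ (a p)) (fun p => ψ (e p))) :
    HasFrobModule1 ε f ℓ ψ := by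
  obtain ⟨M, iA, iM, ρ, hnt, hsm, hur, hfq⟩ := h
  exact ⟨M, iA, iM, ρ, hnt, hsm, hur, fun p hp hS =>
    ⟨a p, e p, ha p hp hS, he p hp hS, fun A hA σ hσ x => hfq p hp hS A hA σ hσ x⟩⟩

end Fermat.Agent.S48.H888

end
end
-- ===== PACK-END S48/H888/MAsm.lean

-- ===== PACK-BEGIN S48/Res/Chain.lean
section



/-!
# S48 / RES (Tower A1) — the chain `RawES1 + OCC1 ⟹ Top.ResidualStatement` (helper168)

Sorry-free.  Uses the abstract assembly `H888.hasFrobModuleDet_of_eigenvector` (helper888) with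
`A = J₁(M)[ℓ]`, `T p = ⟨p⟩^{∓1} T_p`, `D p = ⟨p⟩^{∓1}`, the formal properties of `F1/Basic.lean`
(Galois equivariance of `T_p`, `⟨d⟩`; SMOOTH) and LAYER A' `H888.residualStatement_of_frobModule`.
-/

set_option autoImplicit false
set_option linter.style.haveILetI false

noncomputable section

open CongruenceSubgroup ModularCurve AlgebraicCurve
open scoped TensorProduct

namespace Fermat.Agent.S48.Res

open Fermat.Agent.S48.F1 Fermat.Agent.S48.Top Fermat.Agent.S48.H888

section Sign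

variable (s : Bool) (M m p : ℕ)

theorem diamondS_not_diamondS (x : J1 M) : diamondS (!s) M p (diamondS s M p x) = x := by
  cases s <;> simp [diamondS]

theorem coe_diamondST (x : J1T M m) :
    ((diamondST s M m p x : J1T M m) : J1 M) = diamondS s M p (x : J1 M) := by
  cases s <;> simp [diamondST, diamondS]

theorem diamondST_not_comp : diamondST (!s) M m p ∘ₗ diamondST s M m p = LinearMap.id := by
  ext x
  rw [LinearMap.comp_apply, coe_diamondST, coe_diamondST, diamondS_not_diamondS]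
  rfl

attribute [local instance] galoisActionJ1T in
theorem galois_smul_diamondST (σ : AlgebraicClosure ℚ ≃ₐ[ℚ] AlgebraicClosure ℚ)
    (x : J1T M m) : diamondST s M m p (σ • x) = σ • diamondST s M m p x := by
  cases s
  · exact galois_smul_diamondInvT M m (unitOf M p) σ x
  · exact galois_smul_diamondT M m (unitOf M p) σ x

end Sign

theorem frobModule_of_parts (s : Bool) (hES : RawES1Statement s) (hOcc : Occ1Statement s) :
    FrobModuleStatement := by
  intro N _ ε f hf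
  obtain ⟨B, hB⟩ := hOcc N ε f hf
  refine ⟨B, fun ℓ hℓ hBℓ F _ _ _ ψ => ?_⟩
  obtain ⟨M, a, e, d, hM0, hMp, hae, v, hv0, hv⟩ := hB ℓ hℓ hBℓ F ψ
  have hpM : ∀ p : ℕ, p.Prime → ¬ p ∣ N * ℓ → ¬ p ∣ M * ℓ := by
    intro p hp hS hd
    rcases (Nat.Prime.dvd_mul hp).1 hd with h | h
    · exact hS (hMp p hp h)
    · exact hS (h.mul_left N)
  have hd0 : ∀ p : ℕ, p.Prime → ¬ p ∣ N * ℓ → d p ≠ 0 := by
    intro p hp hS h0
    have h1 := (hae p hp hS).2.2
    rw [h0, zero_mul] at h1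
    have h2 : ℓ ∣ p := (CharP.cast_eq_zero_iff F ℓ p).1 h1.symm
    have h3 : ℓ = p := (Nat.prime_dvd_prime_iff_eq hℓ hp).1 h2
    exact hS (h3 ▸ Dvd.intro_left N rfl)
  letI := galoisActionJ1T M ℓ
  refine hasFrobModule1_of_det ε f ℓ ψ a e (fun p hp hS => (hae p hp hS).1)
    (fun p hp hS => (hae p hp hS).2.1) ?_
  refine hasFrobModuleDet_of_eigenvector (A := J1T M ℓ) (N * ℓ) (fun p => ψ (a p))
    (fun p => (d p)⁻¹) (fun p => ψ (e p))
    (fun p => diamondST (!s) M ℓ p ∘ₗ heckeT M ℓ p)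
    (fun p => diamondST (!s) M ℓ p) ?_ ?_ ?_ ?_ ?_ ?_ ?_
  · -- hT
    intro p σ x
    show diamondST (!s) M ℓ p (heckeT M ℓ p (σ • x))
      = σ • diamondST (!s) M ℓ p (heckeT M ℓ p x)
    rw [galois_smul_heckeT, galois_smul_diamondST]
  · -- hD
    intro p σ x
    exact galois_smul_diamondST (!s) M ℓ p σ x
  · -- smooth
    intro x
    obtain ⟨K, hK, hfix⟩ := j1_exists_finite_level_fix_torsion M hℓ.ne_zero (x : J1 M)
      (Pic0.mem_torsion.mp x.2)
    exact ⟨K, hK, fun σ hσ => Subtype.ext (hfix σ hσ)⟩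
  · -- unramified
    intro p hp hS V hV σ hσ x
    exact Subtype.ext ((hES M ℓ p hM0 hℓ hp (hpM p hp hS) V hV).1 σ hσ (x : J1 M)
      (Pic0.mem_torsion.mp x.2))
  · -- Frobenius relation
    intro p hp hS V hV σ hσ x
    apply Subtype.ext
    have h := (hES M ℓ p hM0 hℓ hp (hpM p hp hS) V hV).2 σ hσ (x : J1 M)
      (Pic0.mem_torsion.mp x.2)
    have h2 := congrArg (diamondS (!s) M p) h
    rw [map_add, map_sub, map_zero, diamondS_not_diamondS, map_zsmul] at h2
    show ((σ • σ • x - (diamondST (!s) M ℓ p ∘ₗ heckeT M ℓ p) (σ • x)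
      + (p : ℤ) • diamondST (!s) M ℓ p x : J1T M ℓ) : J1 M) = 0
    rw [AddSubgroup.coe_add, AddSubgroup.coe_sub, AddSubgroup.coe_zsmul, LinearMap.comp_apply,
      coe_diamondST, coe_diamondST]
    exact h2
  · -- p * δ p = e p
    intro p hp hS
    have h1 := (hae p hp hS).2.2
    show (p : F) * (d p)⁻¹ = ψ (e p)
    rw [← h1, mul_comm (d p), mul_assoc, mul_inv_cancel₀ (hd0 p hp hS), mul_one]
  · -- occurrence
    refine ⟨v, hv0, fun p hp hS => ?_⟩
    obtain ⟨h1, h2⟩ := hv p hp hS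
    have h3 : (diamondST (!s) M ℓ p).baseChange F v = (d p)⁻¹ • v := by
      have h4 := congrArg ((diamondST (!s) M ℓ p).baseChange F) h2
      rw [← LinearMap.comp_apply, ← LinearMap.baseChange_comp, diamondST_not_comp,
        LinearMap.baseChange_id, LinearMap.id_apply, map_smul] at h4
      have h5 := congrArg (fun w => (d p)⁻¹ • w) h4
      simp only [smul_smul, inv_mul_cancel₀ (hd0 p hp hS), one_smul] at h5
      exact h5.symm
    refine ⟨?_, h3⟩
    rw [LinearMap.baseChange_comp, LinearMap.comp_apply, h1, map_smul, h3, smul_smul,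
      mul_comm (d p), mul_assoc, mul_inv_cancel₀ (hd0 p hp hS), mul_one]

/-- **The chain of RES**: `RawES1Statement s → Occ1Statement s → Top.ResidualStatement`
(for either orientation `s`). -/
theorem residual_of_parts (s : Bool) (hES : RawES1Statement s) (hOcc : Occ1Statement s) :
    ResidualStatement :=
  residualStatement_of_frobModule (frobModule_of_parts s hES hOcc)

end Fermat.Agent.S48.Res

end
end
-- ===== PACK-END S48/Res/Chain.lean

-- ===== PACK-BEGIN S48/Res/ChainOcc.lean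
section






/-!
# S48 / RES (Tower A1) — `Eigenclass1 + M4b1 ⟹ Occ1Statement true` (helper168)

Sorry-free.  Port of `S29/M4c.lean` (`M4c_exists_eigenclass_of`) to `Γ₁(M)` with diamonds: the
eigenclass `cl : Γ₁(M) → F` is written in coordinates `cl = ∑ⱼ wⱼ cⱼ` (`cⱼ` with values in `𝔽_ℓ`,
`H188.exists_coords`), `v = ∑ⱼ wⱼ ⊗ κ(cⱼ)`; the tensor lemmas are those of helper92
(`S29.M4c_tensor_eigen`, `S29.M4c_tensor_ne_zero`).
-/

set_option autoImplicit false
set_option linter.style.haveILetI false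
set_option linter.unusedSectionVars false

noncomputable section

open CongruenceSubgroup ModularCurve AlgebraicCurve ModularCurve.Period
open scoped TensorProduct MatrixGroups

namespace Fermat.Agent.S48.Res

open Fermat.Agent.S48.F1 Fermat.Agent.S48.Top Fermat.Agent.S48.H548

section Adapter

variable {M ℓ : ℕ}

theorem isPar1_zero {A : Type*} [AddCommGroup A] : IsPar1 (0 : Additive (Gamma1 M) →+ A) :=
  ⟨fun _ _ => rfl, fun _ _ => rfl⟩

theorem IsPar1.add {A : Type*} [AddCommGroup A] {c c' : Additive (Gamma1 M) →+ A}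
    (h : IsPar1 c) (h' : IsPar1 c') : IsPar1 (c + c') :=
  ⟨fun γ hγ => by
      show c (Additive.ofMul γ) + c' (Additive.ofMul γ) = 0
      rw [h.1 γ hγ, h'.1 γ hγ, add_zero],
    fun γ hγ => by
      show c (Additive.ofMul γ) + c' (Additive.ofMul γ) = 0
      rw [h.2 γ hγ, h'.2 γ hγ, add_zero]⟩

/-- The predicate "`c` is (the underlying function of) a parabolic character". -/
def IsParFun (M ℓ : ℕ) (c : Additive (Gamma1 M) → ZMod ℓ) : Prop :=
  ∃ φ : Additive (Gamma1 M) →+ ZMod ℓ, ⇑φ = c ∧ IsPar1 φ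

open Classical in
/-- Extension of `κ` to plain functions. -/
def kappaFun {V : Type*} [AddCommGroup V] (κ : (Additive (Gamma1 M) →+ ZMod ℓ) → V)
    (c : Additive (Gamma1 M) → ZMod ℓ) : V :=
  if h : IsParFun M ℓ c then κ h.choose else 0

theorem kappaFun_coe {V : Type*} [AddCommGroup V] (κ : (Additive (Gamma1 M) →+ ZMod ℓ) → V)
    (φ : Additive (Gamma1 M) →+ ZMod ℓ) (hφ : IsPar1 φ) : kappaFun κ ⇑φ = κ φ := by
  have h : IsParFun M ℓ ⇑φ := ⟨φ, rfl, hφ⟩
  rw [kappaFun, dif_pos h]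
  congr 1
  exact DFunLike.coe_injective h.choose_spec.1

theorem isParFun_coe (φ : Additive (Gamma1 M) →+ ZMod ℓ) (hφ : IsPar1 φ) :
    IsParFun M ℓ ⇑φ := ⟨φ, rfl, hφ⟩

end Adapter

section Torsion

variable (M ℓ : ℕ)

/-- `J₁(M)[ℓ]` is killed by `ℓ`. -/
theorem j1T_nsmul_eq_zero (x : J1T M ℓ) : ℓ • x = 0 := by
  apply Subtype.ext
  have h := Pic0.mem_torsion.mp x.2
  have h2 : ((ℓ • x : J1T M ℓ) : J1 M) = (ℓ : ℤ) • (x : J1 M) := by
    rw [natCast_zsmul]
    rfl
  rw [h2, h]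
  rfl

end Torsion

theorem diaHom1_injective {M : ℕ} [NeZero M] (a : SL(2, ℤ)) (ha : a ∈ Gamma0 M)
    {A : Type*} [AddCommGroup A] (c : Additive (Gamma1 M) →+ A)
    (h : diaHom1 a ha A c = 0) : c = 0 := by
  refine AddMonoidHom.ext fun γ => ?_
  obtain ⟨γ, rfl⟩ : ∃ γ' : Gamma1 M, Additive.ofMul γ' = γ := ⟨Additive.toMul γ, rfl⟩
  have ha' : a⁻¹ ∈ Gamma0 M := (Gamma0 M).inv_mem ha
  have h1 := congrArg (fun f : Additive (Gamma1 M) →+ A => f (Additive.ofMul (conj1 a⁻¹ ha' γ))) h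
  simp only [diaHom1_apply, AddMonoidHom.zero_apply] at h1
  have h2 : conj1 a ha (conj1 a⁻¹ ha' γ) = γ := by
    apply Subtype.ext
    simp only [coe_conj1]
    group
  rw [h2] at h1
  exact h1

/-- **OCC1 from its parts.** -/
theorem occ1_of_parts (hE : Eigenclass1Statement) (hK : M4b1Statement) :
    Occ1Statement true := by
  classical
  intro N _ ε f hf
  obtain ⟨B, hB⟩ := hE N ε f hf
  refine ⟨B, fun ℓ hℓ hBℓ F _ _ _ ψ => ?_⟩
  obtain ⟨M, hM, a, e, hMp, hae, cl, hcl0, hclP, hcl⟩ := hB ℓ hℓ hBℓ F ψ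
  haveI := hM
  haveI hℓF : Fact ℓ.Prime := ⟨hℓ⟩
  letI : Algebra (ZMod ℓ) F := ZMod.algebra F ℓ
  letI : Module (ZMod ℓ) (J1T M ℓ) :=
    AddCommGroup.zmodModule (n := ℓ) (j1T_nsmul_eq_zero M ℓ)
  obtain ⟨κ, hκadd, hκinj, hκ⟩ := hK M ℓ hℓ
  haveI : Group.FG (Gamma1 M) := by
    haveI := Fermat.Agent.S48.H188.fg_SL2Z
    infer_instance
  obtain ⟨n, w, cc, hw, hsum, hzero⟩ :=
    Fermat.Agent.S48.H188.exists_coords (k := ZMod ℓ) cl
  have hccP : ∀ j, IsPar1 (cc j) := fun j =>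
    ⟨fun γ hγ => hzero _ (hclP.1 γ hγ) j, fun γ hγ => hzero _ (hclP.2 γ hγ) j⟩
  have hcc0 : ∃ j, (⇑(cc j) : Additive (Gamma1 M) → ZMod ℓ) ≠ 0 := by
    by_contra hcon
    rw [not_exists] at hcon
    apply hcl0
    refine AddMonoidHom.ext fun γ => ?_
    rw [hsum γ]
    refine Finset.sum_eq_zero fun j _ => ?_
    have h0 : (⇑(cc j) : Additive (Gamma1 M) → ZMod ℓ) = 0 := not_not.mp (hcon j)
    rw [show cc j γ = (⇑(cc j) : Additive (Gamma1 M) → ZMod ℓ) γ from rfl, h0]
    simp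
  -- the properties of the extended Kummer map
  have hP0 : IsParFun M ℓ 0 := ⟨0, rfl, isPar1_zero⟩
  have hPadd : ∀ c c', IsParFun M ℓ c → IsParFun M ℓ c' → IsParFun M ℓ (c + c') := by
    rintro _ _ ⟨φ, rfl, hφ⟩ ⟨φ', rfl, hφ'⟩
    exact ⟨φ + φ', rfl, hφ.add hφ'⟩
  have hKadd : ∀ c c', IsParFun M ℓ c → IsParFun M ℓ c' →
      kappaFun κ (c + c') = kappaFun κ c + kappaFun κ c' := by
    rintro _ _ ⟨φ, rfl, hφ⟩ ⟨φ', rfl, hφ'⟩
    have h1 : (⇑φ + ⇑φ' : Additive (Gamma1 M) → ZMod ℓ) = ⇑(φ + φ') := rfl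
    rw [h1, kappaFun_coe κ _ (hφ.add hφ'), kappaFun_coe κ _ hφ, kappaFun_coe κ _ hφ',
      hκadd φ φ' hφ hφ']
  have hKinj : ∀ c, IsParFun M ℓ c → kappaFun κ c = 0 → c = 0 := by
    rintro _ ⟨φ, rfl, hφ⟩ h
    rw [kappaFun_coe κ _ hφ] at h
    rw [hκinj φ hφ h]
    rfl
  -- the eigenvector
  set v : F ⊗[ℤ] J1T M ℓ := ∑ j, w j ⊗ₜ[ℤ] κ (cc j) with hv
  have hv' : v = ∑ j, w j ⊗ₜ[ℤ] kappaFun κ ⇑(cc j) := by
    rw [hv]
    refine Finset.sum_congr rfl fun j _ => ?_
    rw [kappaFun_coe κ _ (hccP j)]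
  have hv0 : v ≠ 0 := by
    rw [hv']
    exact Fermat.Agent.S29.M4c_tensor_ne_zero (IsParFun M ℓ) (kappaFun κ) hKinj w
      (fun j => ⇑(cc j)) hw (fun j => isParFun_coe _ (hccP j)) hcc0
  -- arithmetic of the primes
  have hpM : ∀ p : ℕ, p.Prime → ¬ p ∣ N * ℓ → ¬ p ∣ M := fun p hp hS h => hS (hMp p hp h)
  have hpℓ : ∀ p : ℕ, p.Prime → ¬ p ∣ N * ℓ → p ≠ ℓ := fun p _ hS h =>
    hS (h ▸ Dvd.intro_left N rfl)
  have hpF : ∀ p : ℕ, p.Prime → ¬ p ∣ N * ℓ → (p : F) ≠ 0 := by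
    intro p hp hS h0
    have h2 : ℓ ∣ p := (CharP.cast_eq_zero_iff F ℓ p).1 h0
    exact hpℓ p hp hS ((Nat.prime_dvd_prime_iff_eq hℓ hp).1 h2).symm
  have hψe : ∀ p : ℕ, p.Prime → ¬ p ∣ N * ℓ → ψ (e p) ≠ 0 := by
    intro p hp hS h0
    haveI : Fact p.Prime := ⟨hp⟩
    apply hcl0
    apply diaHom1_injective (sigmaP M p (hpM p hp hS)) (sigmaP_mem (hpM p hp hS))
    refine AddMonoidHom.ext fun γ => ?_
    have h1 := (hcl p (hpM p hp hS) hS γ).2
    rw [h0, zero_mul] at h1
    rcases mul_eq_zero.mp h1 with h2 | h2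
    · exact absurd h2 (hpF p hp hS)
    · exact h2
  refine ⟨M, a, e, fun p => (p : F) * (ψ (e p))⁻¹, NeZero.ne M, hMp, fun p hp hS => ?_, v, hv0,
    fun p hp hS => ?_⟩
  · refine ⟨(hae p hp hS).1, (hae p hp hS).2, ?_⟩
    rw [mul_assoc, inv_mul_cancel₀ (hψe p hp hS), mul_one]
  · haveI : Fact p.Prime := ⟨hp⟩
    have hpM' := hpM p hp hS
    set σ := sigmaP M p hpM' with hσ
    have hσm : σ ∈ Gamma0 M := sigmaP_mem hpM'
    -- `δ = ψ(e p) / p`, the eigenvalue of `diaHom1 σ`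
    set δ : F := ψ (e p) * (p : F)⁻¹ with hδ
    have hδ0 : δ ≠ 0 := mul_ne_zero (hψe p hp hS) (inv_ne_zero (hpF p hp hS))
    have hδinv : δ⁻¹ = (p : F) * (ψ (e p))⁻¹ := by
      rw [hδ, mul_inv, inv_inv, mul_comm]
    have hdia : ∀ γ : Additive (Gamma1 M), diaHom1 σ hσm F cl γ = δ * cl γ := by
      intro γ
      have h1 := (hcl p hpM' hS γ).2
      rw [hδ, mul_assoc, mul_comm ((p : F)⁻¹), ← mul_assoc, ← h1, mul_comm (p : F), mul_assoc,
        mul_inv_cancel₀ (hpF p hp hS), mul_one]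
    -- coordinates of the identities
    have hid1 : ∀ γ : Additive (Gamma1 M),
        ∑ j, w j * algebraMap (ZMod ℓ) F (diaHom1 σ hσm (ZMod ℓ) (cc j) γ)
          = δ * ∑ j, w j * algebraMap (ZMod ℓ) F (cc j γ) := by
      intro γ
      obtain ⟨γ, rfl⟩ : ∃ γ' : Gamma1 M, Additive.ofMul γ' = γ := ⟨Additive.toMul γ, rfl⟩
      rw [← hsum, ← hdia, diaHom1_apply, hsum]
      rfl
    have hid2 : ∀ γ : Additive (Gamma1 M),
        ∑ j, w j * algebraMap (ZMod ℓ) F (heckeHom1 p hpM' (ZMod ℓ) (cc j) γ)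
          = ψ (a p) * ∑ j, w j * algebraMap (ZMod ℓ) F (cc j γ) := by
      intro γ
      obtain ⟨γ, rfl⟩ : ∃ γ' : Gamma1 M, Additive.ofMul γ' = γ := ⟨Additive.toMul γ, rfl⟩
      rw [← hsum, ← (hcl p hpM' hS _).1, heckeHom1_apply]
      simp only [heckeHom1_apply, map_sum, Finset.mul_sum]
      rw [Finset.sum_comm]
      refine Finset.sum_congr rfl fun x _ => ?_
      rw [hsum]
    have hdP : ∀ j, IsPar1 (diaHom1 σ hσm (ZMod ℓ) (cc j)) := fun j =>
      ⟨isParabolicHom_diaHom1 σ hσm _ (hccP j).1, diaHom1_finOrder σ hσm _ (hccP j).2⟩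
    have hTP : ∀ j, IsPar1 (heckeHom1 p hpM' (ZMod ℓ) (cc j)) := fun j =>
      ⟨isParabolicHom_heckeHom1 hpM' _ (hccP j).1, heckeHom1_finOrder hpM' _ (hccP j).2⟩
    -- `v' = ∑ w ⊗ κ (cc ∘ conj σ) = δ • v`
    have hv1 : (∑ j, w j ⊗ₜ[ℤ] κ (diaHom1 σ hσm (ZMod ℓ) (cc j)) : F ⊗[ℤ] J1T M ℓ) = δ • v := by
      rw [hv']
      have := Fermat.Agent.S29.M4c_tensor_eigen (IsParFun M ℓ) (kappaFun κ) hP0 hPadd hKadd w
        (fun j => ⇑(cc j)) (fun j => ⇑(diaHom1 σ hσm (ZMod ℓ) (cc j)))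
        (fun j => isParFun_coe _ (hccP j)) (fun j => isParFun_coe _ (hdP j)) δ hid1
      rw [← this]
      refine Finset.sum_congr rfl fun j _ => ?_
      rw [kappaFun_coe κ _ (hdP j)]
    have hv2 : (∑ j, w j ⊗ₜ[ℤ] κ (heckeHom1 p hpM' (ZMod ℓ) (cc j)) : F ⊗[ℤ] J1T M ℓ)
        = ψ (a p) • v := by
      rw [hv']
      have := Fermat.Agent.S29.M4c_tensor_eigen (IsParFun M ℓ) (kappaFun κ) hP0 hPadd hKadd w
        (fun j => ⇑(cc j)) (fun j => ⇑(heckeHom1 p hpM' (ZMod ℓ) (cc j)))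
        (fun j => isParFun_coe _ (hccP j)) (fun j => isParFun_coe _ (hTP j)) (ψ (a p)) hid2
      rw [← this]
      refine Finset.sum_congr rfl fun j _ => ?_
      rw [kappaFun_coe κ _ (hTP j)]
    -- apply the operators to `δ • v`
    have hT : (heckeT M ℓ p).baseChange F (δ • v) = ψ (a p) • v := by
      rw [← hv1, map_sum, ← hv2]
      refine Finset.sum_congr rfl fun j _ => ?_
      rw [LinearMap.baseChange_tmul, (hκ p hpM' (hpℓ p hp hS) (cc j) (hccP j)).1]
    have hD : (diamondT M ℓ (unitOf M p)).baseChange F (δ • v) = v := by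
      rw [← hv1, map_sum, hv]
      refine Finset.sum_congr rfl fun j _ => ?_
      rw [LinearMap.baseChange_tmul, (hκ p hpM' (hpℓ p hp hS) (cc j) (hccP j)).2]
    rw [map_smul] at hT hD
    constructor
    · have h1 := congrArg (fun x => δ⁻¹ • x) hT
      simp only [smul_smul, inv_mul_cancel₀ hδ0, one_smul] at h1
      rw [h1, hδinv]
    · have h1 := congrArg (fun x => δ⁻¹ • x) hD
      simp only [smul_smul, inv_mul_cancel₀ hδ0, one_smul] at h1
      show (diamondST true M ℓ p).baseChange F v = _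
      have h2 : diamondST true M ℓ p = diamondT M ℓ (unitOf M p) := by simp [diamondST]
      rw [h2, h1, hδinv]

/-- **RES from its three deep inputs.** -/
theorem residual_of_three (hES : RawES1Statement true) (hE : Eigenclass1Statement)
    (hK : M4b1Statement) : ResidualStatement :=
  residual_of_parts true hES (occ1_of_parts hE hK)

end Fermat.Agent.S48.Res

end
end
-- ===== PACK-END S48/Res/ChainOcc.lean

-- ===== PACK-BEGIN S48/H796/FormQ.lean
section



/-!
# S48 / P2-EIS (helper796): `q`-expansion of `eisFam N b` in terms of `ZMod.stdAddChar`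

For `b ≠ 0` in `ZMod N`:
`eisFam N b = π cot(π b/N) + ∑_{n ≥ 1} (∑_{j ∣ n} 2πi (e(-bj) - e(bj))) qⁿ`, `e = ZMod.stdAddChar`,
and `π cot(π b/N) = πi (1 + (2/N) ∑_{a < N} a e(ab))`.
-/

set_option autoImplicit false

noncomputable section

namespace Fermat.Agent.S48.H796

open UpperHalfPlane hiding I
open Complex Filter Topology ModularForm CongruenceSubgroup
open scoped Real Manifold MatrixGroups

local notation "𝕢" => Function.Periodic.qParam

lemma zetaB_val (N : ℕ) [NeZero N] (b : ZMod N) :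
    zetaB N (b.val : ℤ) = ZMod.stdAddChar b := by
  rw [zetaB, ← ZMod.stdAddChar_coe]
  congr 1
  simp

lemma sCoef_val (N : ℕ) [NeZero N] (b : ZMod N) (j : ℕ) :
    sCoef N (b.val : ℤ) j =
      2 * π * I * (ZMod.stdAddChar (-(b * (j : ZMod N))) - ZMod.stdAddChar (b * (j : ZMod N))) := by
  have e1 : b * (j : ZMod N) = j • b := by rw [nsmul_eq_mul, mul_comm]
  rw [sCoef, zetaB_val, e1, AddChar.map_neg_eq_inv, AddChar.map_nsmul_eq_pow, inv_pow]

/-- The `q`-series of `eisFam N b`, `b ≠ 0`. -/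
theorem hasSum_eisFam {N : ℕ} [NeZero N] {b : ZMod N} (hb : b ≠ 0) (τ : ℍ) :
    HasSum (fun n => qCo N (b.val : ℤ) n • 𝕢 1 (τ : ℂ) ^ n) (eisFam N b τ) := by
  rw [coe_eisFam, fvZ_of_ne hb]
  exact hasSum_Fv_zero_qParam N _ τ

theorem qExpansion_eisFam {N : ℕ} [NeZero N] {b : ZMod N} (hb : b ≠ 0) (n : ℕ) :
    (qExpansion 1 ⇑(eisFam N b)).coeff n = qCo N (b.val : ℤ) n := by
  rw [coe_eisFam, fvZ_of_ne hb]
  exact qExpansion_Fv_zero_coeff N _ n

/-- **Constant term** of `eisFam N b`. -/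
theorem qExpansion_eisFam_zero {N : ℕ} [NeZero N] {b : ZMod N} (hb : b ≠ 0) :
    (qExpansion 1 ⇑(eisFam N b)).coeff 0 = cotPi ((b.val : ℂ) / N) := by
  rw [qExpansion_eisFam hb, qCo_zero, Int.cast_natCast]

/-- **Higher coefficients** of `eisFam N b`. -/
theorem qExpansion_eisFam_pos {N : ℕ} [NeZero N] {b : ZMod N} (hb : b ≠ 0) {n : ℕ}
    (hn : 1 ≤ n) :
    (qExpansion 1 ⇑(eisFam N b)).coeff n =
      ∑ j ∈ n.divisors,
        2 * π * I * (ZMod.stdAddChar (-(b * (j : ZMod N))) - ZMod.stdAddChar (b * (j : ZMod N))) := by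
  rw [qExpansion_eisFam hb, qCo_of_pos _ _ hn]
  exact Finset.sum_congr rfl (fun j _ => sCoef_val N b j)

/-! ### The finite cotangent identity -/

lemma sum_range_mul_pow (z : ℂ) (n : ℕ) :
    (z - 1) * ∑ a ∈ Finset.range n, (a : ℂ) * z ^ a =
      n * z ^ n - ∑ a ∈ Finset.range n, z ^ (a + 1) := by
  induction n with
  | zero => simp
  | succ n ih =>
    rw [Finset.sum_range_succ, mul_add, ih, Finset.sum_range_succ]
    push_cast
    ring

lemma sum_range_mul_pow_of_root {z : ℂ} {N : ℕ} (hz1 : z ≠ 1) (hzN : z ^ N = 1) :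
    ∑ a ∈ Finset.range N, (a : ℂ) * z ^ a = N / (z - 1) := by
  have hz : z - 1 ≠ 0 := sub_ne_zero.mpr hz1
  have h := sum_range_mul_pow z N
  have h2 : ∑ a ∈ Finset.range N, z ^ (a + 1) = 0 := by
    have e : ∀ a ∈ Finset.range N, z ^ (a + 1) = z * z ^ a := fun a _ => pow_succ' z a
    rw [Finset.sum_congr rfl e, ← Finset.mul_sum, geom_sum_eq hz1, hzN, sub_self, zero_div,
      mul_zero]
  rw [hzN, h2, sub_zero, mul_one] at h
  rw [eq_div_iff hz, mul_comm]
  exact h

/-- `π cot(π b/N) = πi (1 + (2/N) ∑_{a < N} a e(ab))` for `b ≠ 0` in `ZMod N`. -/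
theorem cotPi_val_eq {N : ℕ} [NeZero N] {b : ZMod N} (hb : b ≠ 0) :
    cotPi ((b.val : ℂ) / N) =
      π * I * (1 + 2 / N * ∑ a ∈ Finset.range N,
        (a : ℂ) * ZMod.stdAddChar ((a : ZMod N) * b)) := by
  have hN : (N : ℂ) ≠ 0 := by exact_mod_cast NeZero.ne N
  set z : ℂ := ZMod.stdAddChar b with hz
  have hz1 : z ≠ 1 := by
    intro h
    apply hb
    exact (AddChar.injective_iff.mp ZMod.injective_stdAddChar) h
  have hzN : z ^ N = 1 := by
    rw [hz, ← AddChar.map_nsmul_eq_pow, nsmul_eq_mul, ZMod.natCast_self, zero_mul,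
      AddChar.map_zero_eq_one]
  have e1 : ∀ a ∈ Finset.range N, (a : ℂ) * ZMod.stdAddChar ((a : ZMod N) * b) =
      (a : ℂ) * z ^ a := by
    intro a _
    rw [hz, ← AddChar.map_nsmul_eq_pow, nsmul_eq_mul]
  rw [Finset.sum_congr rfl e1, sum_range_mul_pow_of_root hz1 hzN]
  have hu : cexp (2 * π * I * ((b.val : ℂ) / N)) = z := by
    rw [hz, ← zetaB_val, zetaB]
    congr 1
    push_cast
    ring
  rw [cotPi_eq_exp, hu]
  have hz' : z - 1 ≠ 0 := sub_ne_zero.mpr hz1
  have hz'' : 1 - z ≠ 0 := sub_ne_zero.mpr (Ne.symm hz1)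
  have hI : (I : ℂ) ≠ 0 := Complex.I_ne_zero
  field_simp
  have hI2 : I ^ 2 = -1 := Complex.I_sq
  linear_combination (z ^ 2 - 1) * hI2

end Fermat.Agent.S48.H796

end
end
-- ===== PACK-END S48/H796/FormQ.lean

-- ===== PACK-BEGIN S48/H796/EisOne.lean
section




/-!
# S48 / P2-EIS (helper796): the unconditional results

`eisFam N` (steps 1–4, helper796) is an `EisFamily` in the sense of helper788 (steps 5–6), hence:

* `exists_eisenstein_one` : the weight-one Eisenstein series `E_{1,ψ}` of a primitive odd `ψ`;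
* `exists_multiplier` : for an odd prime `ℓ` and `φ : ℤ̄ → k`, `char k = ℓ`, a weight-one form `H`
  on `Γ₁(ℓ)` with nebentypus `ω⁻¹`, integral coefficients and `H ≡ 1 mod φ`.
-/

set_option autoImplicit false

noncomputable section

namespace Fermat.Agent.S48.H796

open UpperHalfPlane hiding I
open Complex ModularForm CongruenceSubgroup ModularFormClass
open scoped Real Manifold MatrixGroups

/-- The family `eisFam N` satisfies helper788's interface. -/
theorem eisFamily (N : ℕ) [NeZero N] : Fermat.Agent.S48.H788.EisFamily N (eisFam N) where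
  slash := fun _ hγ b _ => eisFam_slash hγ b
  coeff_zero := fun b hb => by
    rw [qCoeff, qExpansion_eisFam_zero hb, cotPi]
  coeff_pos := fun b hb n hn => by
    rw [qCoeff, qExpansion_eisFam_pos hb hn, Finset.mul_sum]
    refine Finset.sum_congr rfl fun k _ => ?_
    rw [Fermat.Agent.S48.H788.sin_eq_stdAddChar, neg_mul, mul_comm (k : ZMod N) b]
    ring

/-- **EIS.** The weight-one Eisenstein series `E_{1,ψ}` of a primitive odd Dirichlet character. -/
theorem exists_eisenstein_one (N : ℕ) [NeZero N] (ψ : DirichletCharacter ℂ N)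
    (hodd : ψ.Odd) (hprim : ψ.IsPrimitive) :
    ∃ E : ModularForm (Gamma1 N) 1,
      (∀ γ : SL(2, ℤ), γ ∈ Gamma0 N →
        (⇑E) ∣[(1 : ℤ)] γ = ψ (((γ 1 1 : ℤ)) : ZMod N) • ⇑E) ∧
      qCoeff (⇑E) 0 = -(∑ a ∈ Finset.range N, (a : ℂ) * ψ a) / (2 * N) ∧
      ∀ n : ℕ, 1 ≤ n → qCoeff (⇑E) n = ∑ d ∈ n.divisors, ψ d :=
  Fermat.Agent.S48.H788.eisenstein_one_of_family (eisFamily N) ψ hodd hprim

/-- **CONG.** The multiplier `H ≡ 1 mod λ` of weight one on `Γ₁(ℓ)`. -/
theorem exists_multiplier (ℓ : ℕ) [Fact ℓ.Prime] {k : Type*} [Field k] [CharP k ℓ]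
    (φ : Fermat.Agent.S48.H788.ZbarT →+* k) (hℓ2 : ℓ ≠ 2) :
    ∃ (ψ : DirichletCharacter ℂ ℓ) (H : ModularForm (Gamma1 ℓ) 1),
      (∀ a : ZMod ℓ, ∃ z : Fermat.Agent.S48.H788.ZbarT, (z : ℂ) = ψ a ∧
        φ z * ((a.val : ℕ) : k) = if a = 0 then 0 else 1) ∧
      (∀ γ : SL(2, ℤ), γ ∈ Gamma0 ℓ →
        (⇑H) ∣[(1 : ℤ)] γ = ψ (((γ 1 1 : ℤ)) : ZMod ℓ) • ⇑H) ∧
      (∀ n : ℕ, ∃ z : Fermat.Agent.S48.H788.ZbarT, (z : ℂ) = qCoeff (⇑H) n ∧
        φ z = if n = 0 then 1 else 0) :=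
  Fermat.Agent.S48.H788.exists_multiplier_of_family ℓ φ hℓ2 (eisFamily ℓ)

end Fermat.Agent.S48.H796

end
end
-- ===== PACK-END S48/H796/EisOne.lean

-- ===== PACK-BEGIN S48/H948/CohAsm.lean
section





/-!
# S48 / RES (Tower A1): the COHOMOLOGY SIDE, assembled (helper948)

`cohStatement : CohStatement` — for every weight-one eigen-datum `(N, ε, f)` there is a level
`M₀` (`N ∣ M₀`, same prime divisors) such that for every odd prime `ℓ`, every field `F` of
characteristic `ℓ` and every `ψ : ℤ̄ →+* F` there is a NONZERO PARABOLIC homomorphism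
`cl : Γ₁(M₀ ℓ) → F`, vanishing on elements of finite order, with

* `T_p cl = ψ(a_p(f)) • cl`            (`H548.heckeHom1`, transfer formula),
* `p • ⟨p⟩ cl = ψ(ε(p)) • cl`          (`H548.diaHom1 s`, `s ∈ Γ₀(M₀ ℓ)` with `s₁₁ ≡ p`),

for all primes `p ∤ M₀ ℓ`.  No characteristic-zero lift, no bound on `ℓ` besides `ℓ ≠ 2`.

Assembly of pieces on main:
* PACKET `H228.exists_integral_packet'` (helper228): the depleted form `h` of level `M₀`,
  everywhere integral, `a₁(h) = 1`;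
* P2-EIS `H796.exists_multiplier` (helper796/788/196): the weight-one multiplier `E ≡ 1 mod ψ`
  on `Γ₁(ℓ)` with nebentypus `ω⁻¹`;
* CHI0 + M4a1 `H548.exists_eigenclass_mul` (helper548/188): the eigenclass of `h · E`.

What remains of RES after this file is the GEOMETRIC side: the Kummer bridge
`Hom_par(Γ₁(M), 𝔽_ℓ) → J₁(M)[ℓ]` (Hecke- and diamond-equivariant, injective) and the raw
Eichler–Shimura relation on `J₁(M)[ℓ]`.
-/

set_option autoImplicit false
set_option linter.unusedSectionVars false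
set_option linter.style.haveILetI false

noncomputable section

namespace Fermat.Agent.S48.H948

open CongruenceSubgroup Matrix.SpecialLinearGroup ModularCurve.Period UpperHalfPlane
open ModularFormClass
open scoped MatrixGroups ModularForm

open Fermat.Agent.S48.Top (Zbar IsEigen)

/-- `cl : Γ₁(M) → F` is a cohomological eigenclass attached to `(f, ε)` through `ψ : ℤ̄ → F`. -/
structure IsCohEigenclass {N : ℕ} [NeZero N] (ε : DirichletCharacter ℂ N)
    (f : CuspForm (Gamma1 N) 1) (M : ℕ) [NeZero M] {F : Type} [Field F] (ψ : Zbar →+* F)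
    (cl : Additive (Gamma1 M) →+ F) : Prop where
  ne_zero : cl ≠ 0
  parabolic : IsParabolicHom (Gamma1 M) cl
  finOrder : ∀ γ : Gamma1 M, IsOfFinOrder γ → cl (Additive.ofMul γ) = 0
  hecke : ∀ (p : ℕ) [Fact p.Prime] (hpM : ¬ p ∣ M),
    ∃ a : Zbar, (a : ℂ) = qCoeff f p ∧
      ∀ γ : Additive (Gamma1 M), Fermat.Agent.S48.H548.heckeHom1 p hpM F cl γ = ψ a * cl γ
  diamond : ∀ (p : ℕ) [Fact p.Prime] (_ : ¬ p ∣ M) (s : SL(2, ℤ)) (hs : s ∈ Gamma0 M),
    ((s 1 1 : ℤ) : ZMod M) = (p : ZMod M) →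
    ∃ e : Zbar, (e : ℂ) = ε (p : ZMod N) ∧
      ∀ γ : Additive (Gamma1 M),
        (p : F) * Fermat.Agent.S48.H548.diaHom1 s hs F cl γ = ψ e * cl γ

/-- **COH**: the cohomology side of RES. -/
def CohStatement : Prop :=
  ∀ (N : ℕ) [NeZero N] (ε : DirichletCharacter ℂ N) (f : CuspForm (Gamma1 N) 1),
    IsEigen N ε f →
    ∃ (M₀ : ℕ) (_ : NeZero M₀), N ∣ M₀ ∧ (∀ q : ℕ, q.Prime → q ∣ M₀ → q ∣ N) ∧
      ∀ (ℓ : ℕ) [Fact ℓ.Prime], ℓ ≠ 2 →
        haveI : NeZero (M₀ * ℓ) := ⟨Nat.mul_ne_zero (NeZero.ne M₀) (Fact.out : ℓ.Prime).ne_zero⟩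
        ∀ (F : Type) [Field F] [CharP F ℓ] (ψ : Zbar →+* F),
          ∃ cl : Additive (Gamma1 (M₀ * ℓ)) →+ F, IsCohEigenclass ε f (M₀ * ℓ) ψ cl

/-- Values of Dirichlet characters are algebraic integers. -/
theorem isIntegral_dirichlet948 {M : ℕ} [NeZero M] (χ : DirichletCharacter ℂ M) (x : ZMod M) :
    IsIntegral ℤ (χ x) := by
  by_cases hx : IsUnit x
  · obtain ⟨u, rfl⟩ := hx
    have h1 : (χ (u : ZMod M)) ^ (Fintype.card (ZMod M)ˣ) = 1 := by
      rw [← map_pow, ← Units.val_pow_eq_pow_val, pow_card_eq_one, Units.val_one, map_one]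
    exact IsIntegral.of_pow (Fintype.card_pos) (h1 ▸ isIntegral_one)
  · rw [MulChar.map_nonunit χ hx]
    exact isIntegral_zero

theorem cohStatement : CohStatement := by
  intro N _ ε f hf
  obtain ⟨M₀, hM₀, hNM, hprimes, h, hE, hint, hp⟩ :=
    Fermat.Agent.S48.H228.exists_integral_packet' N ε f hf
  refine ⟨M₀, hM₀, hNM, hprimes, ?_⟩
  intro ℓ hℓ hℓ2 F _ _ ψ
  have : NeZero ℓ := ⟨hℓ.out.ne_zero⟩
  -- the multiplier
  obtain ⟨ψ', H, hψ', hHneb, hHq⟩ := Fermat.Agent.S48.H796.exists_multiplier ℓ ψ hℓ2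
  -- the data over `R = ℤ̄`
  set ε' : DirichletCharacter ℂ M₀ := DirichletCharacter.changeLevel hNM ε with hε'
  let ι : Zbar →+* ℂ := algebraMap Zbar ℂ
  have hι : Function.Injective ι := Subtype.val_injective
  let εR : ZMod M₀ → Zbar := fun x => ⟨ε' x, isIntegral_dirichlet948 ε' x⟩
  let ψR : ZMod ℓ → Zbar := fun a => (hψ' a).choose
  have hψR : ∀ a, ι (ψR a) = ψ' a := fun a => (hψ' a).choose_spec.1
  have hψR2 : ∀ a : ZMod ℓ, ψ (ψR a) * ((a.val : ℕ) : F) = if a = 0 then 0 else 1 :=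
    fun a => (hψ' a).choose_spec.2
  let c : ℕ → Zbar := fun n => ⟨qCoeff h n, hint n⟩
  let e : ℕ → Zbar := fun n => (hHq n).choose
  have he : ∀ n, qCoeff (⇑H : ℍ → ℂ) n = ι (e n) := fun n => ((hHq n).choose_spec.1).symm
  have he2 : ∀ n, ψ (e n) = if n = 0 then 1 else 0 := fun n => (hHq n).choose_spec.2
  have hc1 : c 1 = 1 := Subtype.ext hE.1
  -- Teichmüller property
  have hteich : ∀ p : ℕ, p.Prime → ¬ p ∣ M₀ * ℓ → ψ (ψR (p : ZMod ℓ)) * (p : F) = 1 := by
    intro p _ hpM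
    have hpℓ : ¬ ℓ ∣ p := fun hd => by
      have : p = ℓ := ((Nat.prime_dvd_prime_iff_eq hℓ.out ‹p.Prime›).mp hd).symm
      exact hpM (this ▸ Dvd.intro_left M₀ rfl)
    have h0 : ((p : ℕ) : ZMod ℓ) ≠ 0 := fun h => hpℓ ((ZMod.natCast_eq_zero_iff p ℓ).mp h)
    have h1 := hψR2 (p : ZMod ℓ)
    rw [if_neg h0] at h1
    have h2 : ((((p : ℕ) : ZMod ℓ).val : ℕ) : F) = (p : F) := by
      rw [ZMod.val_natCast]
      exact (CharP.cast_eq_mod F ℓ p).symm
    rwa [h2] at h1
  -- the Hecke relations of `h`, over `ℤ̄` and then mod `ψ`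
  have hrelR : ∀ p : ℕ, p.Prime → ¬ p ∣ M₀ * ℓ → ∀ n : ℕ,
      c (p * n) + εR (p : ZMod M₀) * (if p ∣ n then c (n / p) else 0) = c p * c n := by
    intro p hpr hpM n
    have hpM₀ : ¬ p ∣ M₀ := fun hd => hpM (Dvd.dvd.mul_right hd ℓ)
    apply Subtype.ext
    have := hE.2 p hpr hpM₀ n
    by_cases hd : p ∣ n
    · rw [if_pos hd] at this ⊢
      exact this
    · rw [if_neg hd] at this ⊢
      simpa using this
  have hrel : ∀ p : ℕ, p.Prime → ¬ p ∣ M₀ * ℓ → ∀ n : ℕ,
      ψ (c (p * n)) + ψ (εR (p : ZMod M₀)) * (if p ∣ n then ψ (c (n / p)) else 0) =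
        ψ (c p) * ψ (c n) := by
    intro p hpr hpM n
    have := congrArg ψ (hrelR p hpr hpM n)
    rw [map_add, map_mul, map_mul] at this
    rw [← this]
    by_cases hd : p ∣ n
    · rw [if_pos hd, if_pos hd]
    · rw [if_neg hd, if_neg hd, map_zero]
  -- nebentypus of `h` and `H`
  have hh : Fermat.Agent.S48.H548.HasNeb (fun x => ε' x) (⇑h) 1 := fun γ hγ =>
    Fermat.Agent.S48.H848.nebentypus_of_hecke_SL ε' h hE.2 γ hγ
  have hHn : Fermat.Agent.S48.H548.HasNeb (fun x => ψ' x) (⇑H) 1 := fun γ hγ => hHneb γ hγ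
  obtain ⟨cl, hcl0, hpar, hfin, hT, -, hD⟩ :=
    Fermat.Agent.S48.H548.exists_eigenclass_mul (N := M₀) (L := ℓ) (R := Zbar) (k := F) ℓ
      (ι := ι) (φ := ψ) hι (fun x => ε' x) εR (fun _ => rfl) (fun x => ψ' x) ψR hψR hteich
      (fun p => ψ (c p)) h hh c (fun _ => rfl) ⟨1, by rw [hc1, map_one]; exact one_ne_zero⟩
      hrel H hHn e he (by rw [he2, if_pos rfl])
      (fun n hn => by rw [he2, if_neg (by omega)])
  refine ⟨cl, hcl0, hpar, hfin, ?_, ?_⟩
  · intro p hpf hpM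
    have hpN : ¬ p ∣ N := fun hd => hpM (Dvd.dvd.mul_right (hd.trans hNM) ℓ)
    exact ⟨c p, hp p hpf.out hpN, fun γ => hT p hpM γ⟩
  · intro p hpf hpM s hs hsp
    have hpM₀ : ¬ p ∣ M₀ := fun hd => hpM (Dvd.dvd.mul_right hd ℓ)
    refine ⟨εR (p : ZMod M₀), ?_, fun γ => hD p hpM s hs hsp γ⟩
    have hc : IsCoprime ((p : ℕ) : ℤ) ((M₀ : ℕ) : ℤ) := by
      rw [Nat.isCoprime_iff_coprime]
      exact (Nat.Prime.coprime_iff_not_dvd hpf.out).mpr hpM₀
    have := DirichletCharacter.changeLevel_eq_cast_of_dvd' ε hNM hc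
    simpa using this

end Fermat.Agent.S48.H948

end
end
-- ===== PACK-END S48/H948/CohAsm.lean

-- ===== PACK-BEGIN S48/H451/Eigenclass1.lean
section



/-!
# S48 / RES (Tower A1): input (E) `Res.Eigenclass1Statement` (helper451)

`eigenclass1 : Res.Eigenclass1Statement`, UNCONDITIONAL: a pure adapter from the landed
cohomology side `H948.cohStatement` (PACKET + P2-EIS + CHI0 + M4a1).

Choices: `B := 2`, `M := M₀ * ℓ`, `a p`, `e p` := the eigenvalues provided by
`H948.IsCohEigenclass.hecke` / `.diamond` at `s := H548.sigmaP M p`.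
-/

set_option autoImplicit false

noncomputable section

open CongruenceSubgroup ModularCurve.Period
open scoped MatrixGroups

namespace Fermat.Agent.S48.H451

open Fermat.Agent.S48.Top Fermat.Agent.S48.Res Fermat.Agent.S48.H548 Fermat.Agent.S48.H948

/-- A prime not dividing `N * ℓ` does not divide `M₀ * ℓ` when the primes of `M₀` divide `N`. -/
theorem not_dvd_mul_of_primes451 {N M₀ ℓ p : ℕ} (hp : p.Prime)
    (hprimes : ∀ q : ℕ, q.Prime → q ∣ M₀ → q ∣ N) (h : ¬ p ∣ N * ℓ) : ¬ p ∣ M₀ * ℓ := by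
  intro hd
  rcases (Nat.Prime.dvd_mul hp).mp hd with h1 | h1
  · exact h (Dvd.dvd.mul_right (hprimes p hp h1) ℓ)
  · exact h (Dvd.dvd.mul_left h1 N)

/-- **(E)** `Res.Eigenclass1Statement`, from the landed cohomology side. -/
theorem eigenclass1 : Eigenclass1Statement := by
  intro N _ ε f hf
  obtain ⟨M₀, hM₀, hNM, hprimes, hcoh⟩ := cohStatement N ε f hf
  refine ⟨2, ?_⟩
  intro ℓ hℓ hBℓ F _ _ _ ψ
  haveI : Fact ℓ.Prime := ⟨hℓ⟩
  have hℓ2 : ℓ ≠ 2 := by omega
  haveI hM : NeZero (M₀ * ℓ) := ⟨Nat.mul_ne_zero (NeZero.ne M₀) hℓ.ne_zero⟩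
  obtain ⟨cl, hcl⟩ := hcoh ℓ hℓ2 F ψ
  classical
  -- the eigenvalues, by choice
  let a : ℕ → Zbar := fun p =>
    if h : p.Prime ∧ ¬ p ∣ M₀ * ℓ then
      haveI : Fact p.Prime := ⟨h.1⟩
      (hcl.hecke p h.2).choose
    else 0
  let e : ℕ → Zbar := fun p =>
    if h : p.Prime ∧ ¬ p ∣ M₀ * ℓ then
      haveI : Fact p.Prime := ⟨h.1⟩
      (hcl.diamond p h.2 (sigmaP (M₀ * ℓ) p h.2) (sigmaP_mem h.2) (sigmaP_lower h.2)).choose
    else 0
  have ha : ∀ (p : ℕ) [hp : Fact p.Prime] (hpM : ¬ p ∣ M₀ * ℓ),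
      ((a p : Zbar) : ℂ) = ModularFormClass.qCoeff f p ∧
        ∀ γ : Additive (Gamma1 (M₀ * ℓ)), heckeHom1 p hpM F cl γ = ψ (a p) * cl γ := by
    intro p hp hpM
    have h : p.Prime ∧ ¬ p ∣ M₀ * ℓ := ⟨hp.out, hpM⟩
    have hap : a p = (hcl.hecke p hpM).choose := dif_pos h
    rw [hap]
    exact (hcl.hecke p hpM).choose_spec
  have he : ∀ (p : ℕ) [hp : Fact p.Prime] (hpM : ¬ p ∣ M₀ * ℓ),
      ((e p : Zbar) : ℂ) = ε (p : ZMod N) ∧
        ∀ γ : Additive (Gamma1 (M₀ * ℓ)),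
          (p : F) * diaHom1 (sigmaP (M₀ * ℓ) p hpM) (sigmaP_mem hpM) F cl γ = ψ (e p) * cl γ := by
    intro p hp hpM
    have h : p.Prime ∧ ¬ p ∣ M₀ * ℓ := ⟨hp.out, hpM⟩
    have hep : e p = (hcl.diamond p hpM (sigmaP (M₀ * ℓ) p hpM) (sigmaP_mem hpM)
        (sigmaP_lower hpM)).choose := dif_pos h
    rw [hep]
    exact (hcl.diamond p hpM (sigmaP (M₀ * ℓ) p hpM) (sigmaP_mem hpM)
        (sigmaP_lower hpM)).choose_spec
  refine ⟨M₀ * ℓ, hM, a, e, ?_, ?_, cl, hcl.ne_zero, ⟨hcl.parabolic, hcl.finOrder⟩, ?_⟩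
  · intro p hp hd
    rcases (Nat.Prime.dvd_mul hp).mp hd with h1 | h1
    · exact Dvd.dvd.mul_right (hprimes p hp h1) ℓ
    · exact Dvd.dvd.mul_left h1 N
  · intro p hp hpN
    haveI : Fact p.Prime := ⟨hp⟩
    have hpM := not_dvd_mul_of_primes451 hp hprimes hpN
    exact ⟨(ha p hpM).1, (he p hpM).1⟩
  · intro p hp hpM _ γ
    exact ⟨(ha p hpM).2 γ, (he p hpM).2 γ⟩

end Fermat.Agent.S48.H451

end
end
-- ===== PACK-END S48/H451/Eigenclass1.lean

-- ===== PACK-BEGIN S48/Top/ResultOfTwo.lean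
section




/-!
# Row S48 (Deligne–Serre): the frozen statement from the TWO open inputs of Tower A1 (helper948)

`result_of_two : Res.RawES1Statement true → Res.M4b1Statement → S48Statement`

* `Res.RawES1Statement true` (`S48/Res/Parts.lean`): raw Eichler–Shimura with diamond on
  `J₁(M)(ℚ̄)[ℓ]` (sub-tower A1-ES + A1-RED);
* `Res.M4b1Statement` (`S48/Res/PartsOcc.lean`): the Kummer map
  `Hom_par(Γ₁(M), 𝔽_ℓ) → J₁(M)(ℚ̄)[ℓ]` with its Hecke and diamond equivariance (sub-tower A1-KUM,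
  `Kum.m4b1_of_leaves`).

The cohomology side is CLOSED: `H451.eigenclass1 : Res.Eigenclass1Statement` (from
`H948.cohStatement`), so NO further input (in particular no `Res.CohEigStatement`) is needed:
the chain is `result_of_residual ∘ Res.residual_of_three`.
-/

set_option autoImplicit false

namespace Fermat.Agent.S48.Top

/-- **Row S48 from RawES1 and M4b1.** -/
theorem result_of_two (hES : Fermat.Agent.S48.Res.RawES1Statement true)
    (hK : Fermat.Agent.S48.Res.M4b1Statement) : S48Statement :=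
  result_of_residual
    (Fermat.Agent.S48.Res.residual_of_three hES Fermat.Agent.S48.H451.eigenclass1 hK)

end Fermat.Agent.S48.Top

end
-- ===== PACK-END S48/Top/ResultOfTwo.lean

-- ===== PACK-BEGIN S24/Mod/H997HolBase.lean
section




/-!
# S24 / MOD — the concrete `HolBase N` and `Nonempty (AnalyticCore N)`

`Hol := {f holomorphic on ℍ | ∀ γ ∈ SL(2,ℤ), f ∘ γ has a convergent expansion in exp(2πiτ/N)}`,
`J d τ := j(dτ)`, `qexp :=` expansion at `i∞` (helper384's `expInf`).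
-/

set_option autoImplicit false

noncomputable section

open ModularCurve HahnSeries UpperHalfPlane ModularForm EisensteinSeries
open scoped MatrixGroups Manifold Real

namespace Fermat.Agent.S24.H997

open Fermat.Agent.S24.H624 Fermat.Agent.S20.L1

/-- the `j`-function has the Prelude `q`-expansion -/
theorem infExp_jFun : InfExp 1 jFun infJq := by
  intro τ
  have h := Fermat.Agent.S24.JFun.hasSum_jFun τ
  have h1 : infJq = jqModC ℂ := by
    rw [infJq, ← map_jqModC (algebraMap ℚ ℂ), jqModC_rat]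
    rfl
  have h2 : infZ 1 τ = Function.Periodic.qParam 1 (τ : ℂ) := by
    simp [infZ]
  rw [h1]
  simp only [h2]
  exact h

theorem jFun_smul' (γ : SL(2, ℤ)) (τ : ℍ) : jFun (γ • τ) = jFun τ :=
  Fermat.Agent.S24.M7.H47.jFun_smul γ τ

/-- `τ ↦ j(dτ)` -/
def Jd (d : ℕ) : ℍ → ℂ := fun τ => jFun (infAff d 0 1 τ)

theorem Jd_one : Jd 1 = jFun := by
  funext τ
  simp [Jd]

theorem mdiff_Jd {d : ℕ} (hd : 0 < d) : MDiff (Jd d) := by
  rw [UpperHalfPlane.mdifferentiable_iff]
  have hj : DifferentiableOn ℂ (jFun ∘ ofComplex) {z : ℂ | 0 < z.im} :=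
    UpperHalfPlane.mdifferentiable_iff.mp mdiff_jFun
  have hmul : DifferentiableOn ℂ (fun z : ℂ => (d : ℂ) * z) {z : ℂ | 0 < z.im} :=
    (differentiable_id.const_mul (d : ℂ)).differentiableOn
  have hmaps : Set.MapsTo (fun z : ℂ => (d : ℂ) * z) {z : ℂ | 0 < z.im} {z : ℂ | 0 < z.im} := by
    intro z hz
    simp only [Set.mem_ofPred_eq] at hz ⊢
    have : ((d : ℂ) * z).im = d * z.im := by simp
    rw [this]
    have hd' : (0 : ℝ) < d := by exact_mod_cast hd
    positivity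
  refine (hj.comp hmul hmaps).congr ?_
  intro z hz
  simp only [Set.mem_ofPred_eq] at hz
  simp only [Function.comp_apply, Jd]
  congr 1
  apply UpperHalfPlane.ext
  rw [infAff_coe hd one_pos, ofComplex_apply_of_im_pos hz]
  have hz' : 0 < ((d : ℂ) * z).im := hmaps hz
  rw [ofComplex_apply_of_im_pos hz']
  simp

variable (N : ℕ) [NeZero N]

/-- the ring `Hol` -/
def holN : Subring (ℍ → ℂ) where
  carrier := {f | f ∈ holoRing ∧ ∀ γ : SL(2, ℤ), compSL γ f ∈ expRing N}
  mul_mem' := by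
    rintro f g ⟨hf, hf'⟩ ⟨hg, hg'⟩
    exact ⟨mul_mem hf hg, fun γ => mul_mem (hf' γ) (hg' γ)⟩
  one_mem' := ⟨one_mem _, fun _ => one_mem _⟩
  add_mem' := by
    rintro f g ⟨hf, hf'⟩ ⟨hg, hg'⟩
    exact ⟨add_mem hf hg, fun γ => add_mem (hf' γ) (hg' γ)⟩
  zero_mem' := ⟨zero_mem _, fun _ => zero_mem _⟩
  neg_mem' := by
    rintro f ⟨hf, hf'⟩
    exact ⟨neg_mem hf, fun γ => neg_mem (hf' γ)⟩

theorem mem_holN {f : ℍ → ℂ} :
    f ∈ holN N ↔ f ∈ holoRing ∧ ∀ γ : SL(2, ℤ), compSL γ f ∈ expRing N := Iff.rfl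

theorem const_mem_holN (c : ℂ) : (fun _ : ℍ => c) ∈ holN N :=
  ⟨(algebraMap ℂ holoRing c).2, fun _ => (InfExp.const c).mem_expRing⟩

theorem comp_mem_holN (g : SL(2, ℤ)) (f : ℍ → ℂ) (hf : f ∈ holN N) : compSL g f ∈ holN N := by
  refine ⟨(precompSL g ⟨f, hf.1⟩).2, fun γ => ?_⟩
  rw [← compSL_mul]
  exact hf.2 _

theorem Jd_mem_holN (d : ℕ) (hd : d ∣ N) : Jd d ∈ holN N := by
  have hN : 0 < N := Nat.pos_of_ne_zero (NeZero.ne N)
  have hd0 : 0 < d := Nat.pos_of_dvd_of_pos hd hN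
  exact ⟨mdiff_Jd hd0, fun γ => inf_J_mul_smul_mem_expRing jFun_smul' infExp_jFun hd γ⟩

theorem Jd_inv (d : ℕ) (hd : d ∣ N) (g : SL(2, ℤ)) (hg : g ∈ CongruenceSubgroup.Gamma0 N)
    (τ : ℍ) : Jd d (g • τ) = Jd d τ := by
  have hN : 0 < N := Nat.pos_of_ne_zero (NeZero.ne N)
  have hd0 : 0 < d := Nat.pos_of_dvd_of_pos hd hN
  have hNg : (N : ℤ) ∣ g 1 0 := by
    rw [CongruenceSubgroup.Gamma0_mem] at hg
    exact (ZMod.intCast_zmod_eq_zero_iff_dvd _ _).mp hg
  have hdg : (d : ℤ) ∣ g 1 0 := dvd_trans (by exact_mod_cast hd) hNg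
  obtain ⟨c, hc⟩ := hdg
  have hdet := inf_sl_det g
  let g' : SL(2, ℤ) := ⟨!![g 0 0, d * g 0 1; c, g 1 1], by
    rw [Matrix.det_fin_two_of]
    rw [hc] at hdet
    linear_combination hdet⟩
  have h := inf_aff_smul_eq (d := d) (a := d) (d' := 1) (b := 0) hd0 hd0 one_pos g g'
    (by simp [g']; ring) (by simp [g']) (by simp [g', hc]; ring) (by simp [g']) τ
  show jFun (infAff d 0 1 (g • τ)) = jFun (infAff d 0 1 τ)
  rw [h, jFun_smul']

theorem Jd_distinct (g : SL(2, ℤ)) (h : ∀ τ : ℍ, Jd N (g • τ) = Jd N τ) :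
    g ∈ CongruenceSubgroup.Gamma0 N := by
  have := inf_distinct (J := jFun) jFun_smul' infExp_jFun (N := N) g 1
    (fun τ => by simpa [Jd] using h τ)
  simpa using this

/-- the inclusion `Hol → expRing N` -/
def holToExp : holN N →+* expRing N where
  toFun h := ⟨h.1, by simpa [compSL_one] using h.2.2 1⟩
  map_one' := rfl
  map_mul' _ _ := rfl
  map_zero' := rfl
  map_add' _ _ := rfl

theorem holToExp_injective : Function.Injective (holToExp N) := by
  intro x y h
  exact Subtype.ext (congrArg (fun f : expRing N => (f : ℍ → ℂ)) h)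

theorem expInf_Jd (d : ℕ) (hd : d ∣ N) :
    haveI : NeZero (d * N) := ⟨Nat.mul_ne_zero
      (Nat.pos_of_dvd_of_pos hd (Nat.pos_of_ne_zero (NeZero.ne N))).ne' (NeZero.ne N)⟩
    expInf N (holToExp N ⟨Jd d, Jd_mem_holN N d hd⟩) = qExpand ℂ (d * N) infJq := by
  have hN : 0 < N := Nat.pos_of_ne_zero (NeZero.ne N)
  have hd0 : 0 < d := Nat.pos_of_dvd_of_pos hd hN
  exact (inf_J_mul_exp infExp_jFun hd0 hN).expInf_eq

/-- **The concrete `HolBase N`.** -/
def holBase : HolBase N where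
  Hol := holN N
  const_mem := const_mem_holN N
  comp_mem := comp_mem_holN N
  J := Jd
  J_mem := Jd_mem_holN N
  J_one_inv g τ := by rw [Jd_one]; exact jFun_smul' g τ
  J_inv := Jd_inv N
  J_distinct := Jd_distinct N
  qexp := (expInf N).comp (holToExp N)
  qexp_injective := expInf_injective.comp (holToExp_injective N)
  qexp_const c := (InfExp.const c).expInf_eq
  qexp_J d hd k := by
    have hN : 0 < N := Nat.pos_of_ne_zero (NeZero.ne N)
    have hd0 : 0 < d := Nat.pos_of_dvd_of_pos hd hN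
    haveI : NeZero (d * N) := ⟨Nat.mul_ne_zero hd0.ne' (NeZero.ne N)⟩
    show (expInf N (holToExp N ⟨Jd d, Jd_mem_holN N d hd⟩)).coeff k = _
    rw [expInf_Jd N d hd]
    have hcast : ((N * d : ℕ) : ℤ) = ((d * N : ℕ) : ℤ) := by rw [mul_comm]
    rw [hcast]
    split_ifs with hk
    · obtain ⟨m, rfl⟩ := hk
      rw [qExpand_coeff_mul, Int.mul_ediv_cancel_left _
        (by exact_mod_cast (NeZero.ne (d * N)) : ((d * N : ℕ) : ℤ) ≠ 0)]
      rfl
    · exact qExpand_coeff_of_not_dvd (d * N) _ hk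

theorem holBase_isHolo : (holBase N).IsHolo where
  mdiff f hf := hf.1
  J_one := Jd_one

theorem T_smul_eq_infAff (τ : ℍ) : ModularGroup.T • τ = infAff 1 1 1 τ := by
  apply UpperHalfPlane.ext
  rw [UpperHalfPlane.modular_T_smul, infAff_coe one_pos one_pos]
  simp [add_comm]

theorem holBase_shift (h : (holBase N).Hol) (n : ℤ) :
    ((holBase N).qexp ((holBase N).compH ModularGroup.T h)).coeff n
      = ((infRoot 1 N : ℂˣ) : ℂ) ^ n * ((holBase N).qexp h).coeff n := by
  have hf : InfExp N (h : ℍ → ℂ) ((holBase N).qexp h) := expInf_spec (holToExp N h)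
  have hT := hf.comp_translate 1
  have hT' : InfExp N (((holBase N).compH ModularGroup.T h : (holBase N).Hol) : ℍ → ℂ)
      (infTwist (infRoot 1 N) ((holBase N).qexp h)) := by
    refine hT.congr fun τ => ?_
    show (h : ℍ → ℂ) (infAff 1 1 1 τ) = (h : ℍ → ℂ) (ModularGroup.T • τ)
    rw [T_smul_eq_infAff]
  have heq : (holBase N).qexp ((holBase N).compH ModularGroup.T h)
      = infTwist (infRoot 1 N) ((holBase N).qexp h) :=
    (expInf_spec (holToExp N ((holBase N).compH ModularGroup.T h))).unique hT'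
  rw [heq, infTwist_coeff, Units.val_zpow_eq_zpow_val, mul_comm]

theorem isPrimitiveRoot_infRoot : IsPrimitiveRoot ((infRoot 1 N : ℂˣ) : ℂ) N := by
  have h := Complex.isPrimitiveRoot_exp N (NeZero.ne N)
  have : ((infRoot 1 N : ℂˣ) : ℂ) = Complex.exp (2 * π * Complex.I / N) := by
    rw [infRoot_coe]
    congr 1
    push_cast
    ring
  rw [this]
  exact h

/-- **The analytic core exists.** -/
def analyticCore : AnalyticCore N :=
  (holBase N).toAnalyticCore (holBase_isHolo N) _ (isPrimitiveRoot_infRoot N) (holBase_shift N)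

theorem nonempty_analyticCore : Nonempty (AnalyticCore N) := ⟨analyticCore N⟩

end Fermat.Agent.S24.H997

end
end
-- ===== PACK-END S24/Mod/H997HolBase.lean

-- ===== PACK-BEGIN S24/Mod.lean
section




/-!
# S24 — modular side: local embedding data for the function field of `X₀(N)`

INTERFACE FILE (statements frozen by helper984 @4630f4b).

Proof: helper997's assembly `H997.AnalyticCore.modularPackage_fields` applied to
* the concrete analytic core `H997.analyticCore N` (`Mod/H997HolBase.lean`: helper384's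
  expansions at `∞`, helper624's Taylor expansions, helper47's local orders of `j`, helper264's
  `q`-expansion of `j`), and
* the degree bound `Deg457.degree_fields N` (helper457 / helper648 / helper708).
-/

set_option autoImplicit false

noncomputable section

open AlgebraicCurve ModularCurve
open scoped MatrixGroups

namespace Fermat.Agent.S24

/-- Everything the algebraic side needs to know about `F = ℚ̄(j(q^d) : d ∣ N)`. -/
structure ModularPackage (N : ℕ) [NeZero N] where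
  finiteDimensional :
    FiniteDimensional ↥(IntermediateField.adjoin Kbar {jF N}) (FF N)
  finrank_eq :
    Module.finrank ↥(IntermediateField.adjoin Kbar {jF N}) (FF N) = Nat.card (XX N)
  dataFin : ∀ a : Kbar, LocalData Kbar (FF N) ℂ (XX N) (jF N - algebraMap Kbar (FF N) a)
  dataInf : LocalData Kbar (FF N) ℂ (XX N) (jF N)⁻¹
  perm_generic : ∀ a : Kbar, a ≠ 0 → a ≠ 1728 → (dataFin a).perm = 1
  orbits_zero :
    numOrbits (dataFin 0).perm = numOrbits (permOf N (ModularGroup.S * ModularGroup.T))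
  orbits_1728 : numOrbits (dataFin 1728).perm = numOrbits (permOf N ModularGroup.S)
  orbits_inf : numOrbits dataInf.perm = numOrbits (permOf N ModularGroup.T)

theorem nonempty_modularPackage (N : ℕ) [NeZero N] : Nonempty (ModularPackage N) := by
  obtain ⟨hfd, hle⟩ := Deg457.degree_fields N
  obtain ⟨dF, dI, h1, h2, h3, h4, h5⟩ := (H997.analyticCore N).modularPackage_fields hfd hle
  exact ⟨⟨hfd, h1, dF, dI, h2, h3, h4, h5⟩⟩

end Fermat.Agent.S24

end
end
-- ===== PACK-END S24/Mod.lean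

-- ===== PACK-BEGIN S29/H882/MeroMain.lean
section




/-!
# S29 / MERO (helper882), part 3: good functions have `q`-expansions in the function field

Main result `qexpFun_mem_FC`: for `f` holomorphic on `ℍ`, `Γ₀(N)`-invariant, with all
`SL₂(ℤ)`-translates of at most exponential growth at `i∞` (i.e. `f ∈ S24.H648.goodRing N`), the
`q`-expansion of `f` lies in `laurentBaseChange ℂ (modularFunctionFieldFull N)`, the function field
of `X₀(N)` over `ℂ` of the Prelude.

Proof: the field `MC N` generated by all such `q`-expansions has degree `≤ [SL₂(ℤ):Γ₀(N)]` over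
`ℂ(j)` (conjugate product, landed S24), and contains `FC N`, which has degree `≥ [SL₂(ℤ):Γ₀(N)]`
(landed S24 over `ℚ̄`, transported to `ℂ` by descent of relations).
-/

set_option autoImplicit false

noncomputable section

open UpperHalfPlane ModularGroup CongruenceSubgroup Polynomial ModularCurve IntermediateField
open scoped MatrixGroups Manifold Modular Real

namespace Fermat.Agent.S29.H882

open Fermat.Agent.S24 Fermat.Agent.S24.H648 Fermat.Agent.S24.H708 Fermat.Agent.S24.Deg457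

section BaseChange

variable {K L : Type*} [Field K] [Algebra ℚ K] [Field L] [Algebra ℚ L]

/-- `coeffMap ι` maps the function field over `K` into the function field over `L`. -/
theorem coeffMap_mem_laurentBaseChange_of_mem (ι : K →+* L)
    (F₀ : IntermediateField ℚ (LaurentSeries ℚ)) {x : LaurentSeries K}
    (hx : x ∈ laurentBaseChange K F₀) : coeffMap ι x ∈ laurentBaseChange L F₀ := by
  rw [mem_laurentBaseChange_iff] at hx
  induction hx using Subfield.closure_induction with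
  | mem y hy =>
      rcases hy with ⟨a, rfl⟩ | ⟨z, hz, rfl⟩
      · rw [coeffMap_algebraMap']
        exact (laurentBaseChange L F₀).algebraMap_mem _
      · rw [coeffMap_coeffEmb']
        exact coeffEmb_mem_laurentBaseChange L hz
  | one => simp
  | add x y _ _ hx hy => simpa using add_mem hx hy
  | neg x _ hx => simpa using neg_mem hx
  | inv x _ hx => simpa using inv_mem hx
  | mul x y _ _ hx hy => simpa using mul_mem hx hy

end BaseChange

variable (N : ℕ) [NeZero N]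

/-- The function field of `X₀(N)` over `ℂ` (Prelude object). -/
abbrev FC : IntermediateField ℂ (LaurentSeries ℂ) :=
  laurentBaseChange ℂ (modularFunctionFieldFull N)

/-- The field generated by the `q`-expansions of good functions. -/
def MC : IntermediateField ℂ (LaurentSeries ℂ) :=
  IntermediateField.adjoin ℂ (goodQ N : Set (LaurentSeries ℂ))

theorem goodQ_le_MC {b : LaurentSeries ℂ} (hb : b ∈ goodQ N) : b ∈ MC N :=
  IntermediateField.subset_adjoin ℂ _ hb

theorem JK_mem_FC : JK ℂ ∈ FC N :=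
  coeffEmb_mem_laurentBaseChange ℂ (modularFunctionField_le_full N (jq_mem N))

theorem FC_le_MC : FC N ≤ MC N := by
  refine (laurentBaseChange_full_le (K := ℂ) N).trans ?_
  refine IntermediateField.adjoin.mono ℂ _ _ ?_
  intro b hb
  exact AK_le_goodQ N (Algebra.subset_adjoin hb)

/-- `j` as an element of `MC N`. -/
def jM : MC N := ⟨JK ℂ, goodQ_le_MC N (JK_mem_goodQ N)⟩

theorem aeval_jM_ne_zero {t : ℂ[X]} (ht : t ≠ 0) :
    aeval (AdjoinSimple.gen ℂ (jM N)) t ≠ 0 := by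
  intro h0
  apply aeval_JK_ne_zero ℂ ht
  have h1 := congrArg (algebraMap ↥(IntermediateField.adjoin ℂ {jM N}) (MC N)) h0
  rw [← aeval_algebraMap_apply, map_zero, AdjoinSimple.algebraMap_gen] at h1
  have h2 := congrArg (algebraMap (MC N) (LaurentSeries ℂ)) h1
  rw [← aeval_algebraMap_apply, map_zero] at h2
  exact h2

theorem algebraMap_comp_aeval_jM :
    (algebraMap (MC N) (LaurentSeries ℂ)).comp
      ((aeval (jM N) : ℂ[X] →ₐ[ℂ] MC N).toRingHom) = evJ (JK ℂ) := by
  refine Polynomial.ringHom_ext ?_ ?_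
  · intro c
    simp [evJ, ← IsScalarTower.algebraMap_apply]
  · simp [evJ]
    rfl

/-- **Degree bound**: `[MC N : ℂ(j)] ≤ [SL₂(ℤ) : Γ₀(N)]`. -/
theorem finiteDimensional_and_finrank_le_MC :
    FiniteDimensional ↥(IntermediateField.adjoin ℂ {jM N}) (MC N) ∧
      Module.finrank ↥(IntermediateField.adjoin ℂ {jM N}) (MC N) ≤ Nat.card (XX N) := by
  refine finiteDimensional_and_finrank_le_of_forall_natDegree_minpoly_le _ fun x => ?_
  obtain ⟨Q, hQ0, hQn, hQ⟩ := algDeg_of_mem_adjoin (goodQ N) (JK_mem_goodQ N)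
    (fun b hb => algDeg_of_mem_goodQ hb) x.2
  have hinc : Function.Injective (algebraMap (MC N) (LaurentSeries ℂ)) :=
    (algebraMap (MC N) (LaurentSeries ℂ)).injective
  refine isIntegral_and_natDegree_le_of_relation (K := ℂ)
    (AdjoinSimple.gen ℂ (jM N)) (fun t ht => aeval_jM_ne_zero N ht) x Q hQ0 _ hQn ?_
  apply hinc
  rw [map_zero, Polynomial.hom_eval₂, AdjoinSimple.algebraMap_gen, algebraMap_comp_aeval_jM]
  exact hQ

end Fermat.Agent.S29.H882

end
end
-- ===== PACK-END S29/H882/MeroMain.lean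

-- ===== PACK-BEGIN S29/H882/MeroPrim.lean
section


/-!
# S29 / MERO (helper882), part 4: `MC N = FC N`

A primitive element `θ` of the function field over `ℚ̄` stays of degree `[SL₂(ℤ):Γ₀(N)]` over
`ℂ(j)` after base change (descent of relations), hence generates `MC N` over `ℂ(j)`.
-/

set_option autoImplicit false

noncomputable section

open UpperHalfPlane ModularGroup CongruenceSubgroup Polynomial ModularCurve IntermediateField
open scoped MatrixGroups Manifold Modular Real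

namespace Fermat.Agent.S29.H882

open Fermat.Agent.S24 Fermat.Agent.S24.H648 Fermat.Agent.S24.H708 Fermat.Agent.S24.Deg457

variable (N : ℕ) [NeZero N]

/-- A primitive element of the function field over `ℚ̄(j)`. -/
theorem exists_theta (P : ModularPackage N) : ∃ θ : FF N,
    (minpoly ↥(IntermediateField.adjoin Kbar {jF N}) θ).natDegree = Nat.card (XX N) := by
  haveI := P.finiteDimensional
  obtain ⟨θ, hθ⟩ := Field.exists_primitive_element ↥(IntermediateField.adjoin Kbar {jF N}) (FF N)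
  refine ⟨θ, ?_⟩
  rw [(Field.primitive_element_iff_minpoly_natDegree_eq _ θ).mp hθ, P.finrank_eq]

/-- The base change of an element of the function field over `ℚ̄`, as a Laurent series over `ℂ`. -/
def ΘL (θ : FF N) : LaurentSeries ℂ := coeffMap iotaC (θ : LaurentSeries Kbar)

theorem ΘL_mem_FC (θ : FF N) : ΘL N θ ∈ FC N :=
  coeffMap_mem_laurentBaseChange_of_mem iotaC _ θ.2

/-- The same element in `MC N`. -/
def ΘM (θ : FF N) : MC N := ⟨ΘL N θ, FC_le_MC N (ΘL_mem_FC N θ)⟩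

theorem aeval_jF_ne_zero {t : Kbar[X]} (ht : t ≠ 0) :
    aeval (AdjoinSimple.gen Kbar (jF N)) t ≠ 0 := by
  intro h0
  apply aeval_JK_ne_zero Kbar ht
  have h1 := congrArg (algebraMap ↥(IntermediateField.adjoin Kbar {jF N}) (FF N)) h0
  rw [← aeval_algebraMap_apply, map_zero, AdjoinSimple.algebraMap_gen] at h1
  have h2 := congrArg (algebraMap (FF N) (LaurentSeries Kbar)) h1
  rw [← aeval_algebraMap_apply, map_zero] at h2
  exact h2

theorem algebraMap_comp_aeval_jF :
    (algebraMap (FF N) (LaurentSeries Kbar)).comp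
      ((aeval (jF N) : Kbar[X] →ₐ[Kbar] FF N).toRingHom) = evJ (JK Kbar) := by
  refine Polynomial.ringHom_ext ?_ ?_
  · intro c
    simp [evJ, ← IsScalarTower.algebraMap_apply]
  · simp [evJ]
    rfl

theorem card_le_natDegree_minpoly (θ : FF N)
    (hθ : (minpoly ↥(IntermediateField.adjoin Kbar {jF N}) θ).natDegree = Nat.card (XX N)) :
    Nat.card (XX N) ≤ (minpoly ↥(IntermediateField.adjoin ℂ {jM N}) (ΘM N θ)).natDegree := by
  haveI := (finiteDimensional_and_finrank_le_MC N).1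
  by_contra hlt
  rw [not_le] at hlt
  have hint : IsIntegral ↥(IntermediateField.adjoin ℂ {jM N}) (ΘM N θ) := IsIntegral.of_finite _ _
  have hp0 : minpoly ↥(IntermediateField.adjoin ℂ {jM N}) (ΘM N θ) ≠ 0 := minpoly.ne_zero hint
  obtain ⟨t, Q, ht, hQ⟩ := exists_clear_denominators (K := ℂ) (jM N)
    (minpoly ↥(IntermediateField.adjoin ℂ {jM N}) (ΘM N θ))
  have hφinj : Function.Injective
      ((aeval (AdjoinSimple.gen ℂ (jM N)) : ℂ[X] →ₐ[ℂ] ℂ⟮jM N⟯).toRingHom) := by
    rw [injective_iff_map_eq_zero]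
    intro t ht0
    by_contra h
    exact aeval_jM_ne_zero N h ht0
  have hQ0 : Q ≠ 0 := by
    intro h
    rw [h, Polynomial.map_zero] at hQ
    exact (mul_ne_zero (C_ne_zero.mpr ht) hp0) hQ.symm
  have hQd : Q.natDegree ≤
      (minpoly ↥(IntermediateField.adjoin ℂ {jM N}) (ΘM N θ)).natDegree := by
    rw [← Polynomial.natDegree_map_eq_of_injective hφinj Q, hQ, natDegree_C_mul ht]
  have hroot : Q.eval₂ (evJ (JK ℂ)) (ΘL N θ) = 0 := by
    have h1 : aeval (ΘM N θ)
        (Q.map ((aeval (AdjoinSimple.gen ℂ (jM N)) : ℂ[X] →ₐ[ℂ] ℂ⟮jM N⟯).toRingHom)) = 0 := by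
      rw [hQ, map_mul, minpoly.aeval, mul_zero]
    have h2 := congrArg (algebraMap (MC N) (LaurentSeries ℂ)) h1
    rw [map_zero, aeval_def, eval₂_map, Polynomial.hom_eval₂] at h2
    have hcomp : (algebraMap (MC N) (LaurentSeries ℂ)).comp
        ((algebraMap ↥(IntermediateField.adjoin ℂ {jM N}) (MC N)).comp
          ((aeval (AdjoinSimple.gen ℂ (jM N)) : ℂ[X] →ₐ[ℂ] ℂ⟮jM N⟯).toRingHom))
        = evJ (JK ℂ) := by
      refine Polynomial.ringHom_ext ?_ ?_
      · intro c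
        simp [evJ, ← IsScalarTower.algebraMap_apply]
      · simp [evJ]
        rfl
    rw [hcomp] at h2
    exact h2
  obtain ⟨Q', hQ'0, hQ'd, hQ'⟩ := exists_relation_of_coeffMap_ne_zero iotaC (JK Kbar)
    (θ : LaurentSeries Kbar) _ Q hQ0 hQd (by rw [coeffMap_JK]; exact hroot)
  have hinc : Function.Injective (algebraMap (FF N) (LaurentSeries Kbar)) :=
    (algebraMap (FF N) (LaurentSeries Kbar)).injective
  have key := isIntegral_and_natDegree_le_of_relation (K := Kbar)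
    (AdjoinSimple.gen Kbar (jF N)) (fun t ht => aeval_jF_ne_zero N ht) θ Q' hQ'0 _ hQ'd (by
      apply hinc
      rw [map_zero, Polynomial.hom_eval₂, AdjoinSimple.algebraMap_gen, algebraMap_comp_aeval_jF]
      exact hQ')
  have := key.2
  omega

/-- `ΘM` is a primitive element of `MC N` over `ℂ(j)`. -/
theorem adjoin_ΘM_eq_top (θ : FF N)
    (hθ : (minpoly ↥(IntermediateField.adjoin Kbar {jF N}) θ).natDegree = Nat.card (XX N)) :
    IntermediateField.adjoin ↥(IntermediateField.adjoin ℂ {jM N}) {ΘM N θ} = ⊤ := by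
  haveI := (finiteDimensional_and_finrank_le_MC N).1
  rw [Field.primitive_element_iff_minpoly_natDegree_eq]
  have h1 := card_le_natDegree_minpoly N θ hθ
  have h2 := (finiteDimensional_and_finrank_le_MC N).2
  have h3 : (minpoly ↥(IntermediateField.adjoin ℂ {jM N}) (ΘM N θ)).natDegree ≤
      Module.finrank ↥(IntermediateField.adjoin ℂ {jM N}) (MC N) := minpoly.natDegree_le _
  omega

theorem coe_mem_FC_of_mem_adjoin_jM (e : ↥(IntermediateField.adjoin ℂ {jM N})) :
    (((e : MC N)) : LaurentSeries ℂ) ∈ FC N := by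
  obtain ⟨r, s, hrs⟩ := (IntermediateField.mem_adjoin_simple_iff ℂ (e : MC N)).mp e.2
  have hr : ((aeval (jM N) r : MC N) : LaurentSeries ℂ) = aeval (JK ℂ) r := by
    have := (aeval_algebraMap_apply (LaurentSeries ℂ) (jM N) r).symm
    exact this
  have hs : ((aeval (jM N) s : MC N) : LaurentSeries ℂ) = aeval (JK ℂ) s := by
    have := (aeval_algebraMap_apply (LaurentSeries ℂ) (jM N) s).symm
    exact this
  have hmem : ∀ t : ℂ[X], aeval (JK ℂ) t ∈ FC N := by
    intro t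
    have := (aeval_algebraMap_apply (LaurentSeries ℂ) (⟨JK ℂ, JK_mem_FC N⟩ : FC N) t)
    have h2 : (algebraMap (FC N) (LaurentSeries ℂ)) (⟨JK ℂ, JK_mem_FC N⟩ : FC N) = JK ℂ := rfl
    rw [h2] at this
    rw [this]
    exact (aeval (⟨JK ℂ, JK_mem_FC N⟩ : FC N) t).2
  rw [hrs]
  have : (((aeval (jM N) r / aeval (jM N) s : MC N)) : LaurentSeries ℂ)
      = aeval (JK ℂ) r / aeval (JK ℂ) s := by
    rw [← hr, ← hs]
    rfl
  rw [this]
  exact div_mem (hmem r) (hmem s)

/-- **`MC N ≤ FC N`**: every `q`-expansion of a good function lies in the function field. -/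
theorem MC_le_FC : MC N ≤ FC N := by
  obtain ⟨P⟩ := nonempty_modularPackage N
  obtain ⟨θ, hθ⟩ := exists_theta N P
  have htop := adjoin_ΘM_eq_top N θ hθ
  intro y hy
  have hy' : (⟨y, hy⟩ : MC N) ∈
      IntermediateField.adjoin ↥(IntermediateField.adjoin ℂ {jM N}) {ΘM N θ} := by
    rw [htop]; exact IntermediateField.mem_top
  have key : ∀ z : MC N,
      z ∈ IntermediateField.adjoin ↥(IntermediateField.adjoin ℂ {jM N}) {ΘM N θ} →
      (z : LaurentSeries ℂ) ∈ FC N := by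
    intro z hz
    refine IntermediateField.adjoin_induction ↥(IntermediateField.adjoin ℂ {jM N})
      (p := fun (z : MC N) _ => ((z : MC N) : LaurentSeries ℂ) ∈ FC N) ?_ ?_ ?_ ?_ ?_ hz
    · intro x hx
      rw [Set.mem_singleton_iff] at hx
      subst hx
      exact ΘL_mem_FC N θ
    · intro e
      exact coe_mem_FC_of_mem_adjoin_jM N e
    · intro x y _ _ hx hy
      exact add_mem hx hy
    · intro x _ hx
      exact inv_mem hx
    · intro x y _ _ hx hy
      exact mul_mem hx hy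
  exact key ⟨y, hy⟩ hy'

theorem MC_eq_FC : MC N = FC N := le_antisymm (MC_le_FC N) (FC_le_MC N)

variable {N}

/-- **MERO (A)**: the `q`-expansion of a good function of level `N` lies in the function field of
`X₀(N)` over `ℂ`. -/
theorem mem_FC_of_mem_goodQ {b : LaurentSeries ℂ} (hb : b ∈ goodQ N) :
    b ∈ laurentBaseChange ℂ (modularFunctionFieldFull N) :=
  MC_le_FC N (goodQ_le_MC N hb)

/-- **MERO (A)**, function form. -/
theorem qexpFun_mem_FC {f : ℍ → ℂ} (hf : f ∈ goodRing N) :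
    qexpFun 1 f ∈ laurentBaseChange ℂ (modularFunctionFieldFull N) :=
  mem_FC_of_mem_goodQ (qexpFun_mem_goodQ hf)

/-- **MERO (A)**, `HasQExp` form. -/
theorem mem_FC_of_hasQExp {f : ℍ → ℂ} {b : LaurentSeries ℂ} (hf : f ∈ goodRing N)
    (hb : HasQExp 1 f b) : b ∈ laurentBaseChange ℂ (modularFunctionFieldFull N) :=
  mem_FC_of_mem_goodQ ⟨f, hf, hb⟩

end Fermat.Agent.S29.H882

end
end
-- ===== PACK-END S29/H882/MeroPrim.lean

-- ===== PACK-BEGIN S29/M4b/Defs.lean
section
/-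
S29 row, LAYER M, SUB-LAYER M4b (the Kummer map) — FROZEN interface definitions
(sub-architect: deputy helper822).  Namespace `Fermat.Agent.S29.M4b`.
Do not edit; propose changes via a note kind='question' stmt='S29'.

The relation `IsKum N p c x` ("`x` is the Kummer class of the character `c`"):
`x = [D]`, `p • D = div f` (landed `H455.IsKummerClass`), and after clearing poles by a `p`-th power
`t ^ p` the function `f * t ^ p` is the `p`-th power of a holomorphic `U : ℍ → ℂ` which transforms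
under `Γ₀(N)` by the character `γ ↦ ζ_p ^ c(γ)`.

"Analytic realisation" = equality of `q`-expansions at `i∞` (landed S24 / H882 language):
`G` realises `u ∈ FF N` iff `G ∈ S24.H648.goodRing N` (holomorphic, `Γ₀(N)`-invariant, all
`SL₂(ℤ)`-translates of at most exponential growth) and `qexpFun 1 G = coeffMap iotaC u`.
-/




set_option autoImplicit false

noncomputable section

open ModularCurve AlgebraicCurve CongruenceSubgroup UpperHalfPlane
open scoped MatrixGroups Manifold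

namespace Fermat.Agent.S29.M4b

open Fermat.Agent.S24 Fermat.Agent.S29

/-- The fixed primitive `p`-th root of unity `exp(2πi/p)`. -/
def zetaP (p : ℕ) : ℂ := Complex.exp (2 * Real.pi * Complex.I / p)

/-- `G : ℍ → ℂ` realises `u ∈ FF N = ℚ̄(j(q^d) : d ∣ N)`: `G` is a "good" function (holomorphic on
`ℍ`, `Γ₀(N)`-invariant, exponential growth at all cusps) whose `q`-expansion at `i∞` is `u`, the
coefficients being embedded by the fixed `Deg457.iotaC : ℚ̄ → ℂ`. -/
def Realises (N : ℕ) [NeZero N] (u : FF N) (G : ℍ → ℂ) : Prop :=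
  G ∈ H648.goodRing N ∧
    H708.qexpFun 1 G = coeffMap Deg457.iotaC ((u : FF N) : LaurentSeries Kbar)

/-- `U` transforms under `Γ₀(N)` by the character `γ ↦ ζ_p ^ c(γ)`. -/
def HasChar (N p : ℕ) (c : G0 N → ZMod p) (U : ℍ → ℂ) : Prop :=
  ∀ (γ : G0 N) (τ : ℍ), U ((γ : SL(2, ℤ)) • τ) = zetaP p ^ (c γ).val * U τ

/-- `U` is a twisted function of character `c`: holomorphic on `ℍ`, not identically zero, of
character `c`, with `U ^ p` good (i.e. `U` has at most exponential growth at every cusp). -/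
structure IsTwisted (N p : ℕ) (c : G0 N → ZMod p) (U : ℍ → ℂ) : Prop where
  mdiff : MDifferentiable 𝓘(ℂ) 𝓘(ℂ) U
  ne_zero : ∃ τ : ℍ, U τ ≠ 0
  hasChar : HasChar N p c U
  pow_mem : (fun τ => U τ ^ p) ∈ H648.goodRing N

/-- **The Kummer relation.**  `x ∈ J₀(N)(ℚ̄)` is the Kummer class of the character `c`. -/
def IsKum (N p : ℕ) [NeZero N] (c : G0 N → ZMod p) (x : JZero N) : Prop :=
  ∃ (f t : FF N) (U : ℍ → ℂ), t ≠ 0 ∧ H455.IsKummerClass (p : ℤ) f x ∧
    IsTwisted N p c U ∧ Realises N (f * t ^ p) (fun τ => U τ ^ p)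

/-- `c'` is the transfer (= Hecke image `T_ℓ c`) of `c`: `c'(γ) = ∑ᵢ c(δᵢ)` for EVERY
factorisation `αᵢ γ = δᵢ α_{π i}` (`αᵢ = heckeRep ℓ i` of `DefsM`).  For `ℓ ∤ N` prime the
factorisation exists and is unique (piece `HCoh`), so `c' = heckeCoh N ℓ c`. -/
def IsTransfer (N ℓ : ℕ) {A : Type*} [AddCommMonoid A] (c c' : G0 N → A) : Prop :=
  ∀ (γ : G0 N) (π : Option (Fin ℓ) → Option (Fin ℓ)) (δ : Option (Fin ℓ) → G0 N),
    (∀ i, IsHeckeFactor ℓ γ i (π i, δ i)) → c' γ = ∑ i, c (δ i)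

end Fermat.Agent.S29.M4b

end
end
-- ===== PACK-END S29/M4b/Defs.lean

-- ===== PACK-BEGIN S48/Kum/Defs.lean
section
/-
Tower A1 (row S48, RES) / sub-tower A1-KUM (the Kummer map) — FROZEN interface definitions.
Sub-architect: helper822.  Namespace `Fermat.Agent.S48.Kum`.
Do not edit; propose changes via a note kind='question' stmt='S48'.

GENERIC port of `Fermat/Agent/S29/M4b/Defs.lean`: the group `Γ ≤ SL(2,ℤ)` (for Tower A1:
`Γ₁(M)`) and the function field `F ⊆ ℚ̄((q))` (for Tower A1: `ℚ̄ · F₁(M)`) are PARAMETERS.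
For `Γ = Γ₀(N)`, `F = FF N` everything below is definitionally the S29 object.

* `IsGood Γ G`      : `G` holomorphic on `ℍ`, `Γ`-invariant, all `SL₂(ℤ)`-translates of at most
                      exponential growth (`S24.H648.goodRing N` for `Γ₀(N)`).
* `Realises Γ F u G`: `G` is good and its `q`-expansion at `i∞` is `u ∈ F` (coefficients embedded
                      by the fixed `Deg457.iotaC : ℚ̄ → ℂ`).
* `IsTwisted Γ p c U`: `U` holomorphic, not identically `0`, `U ∘ γ = ζ_p ^ c(γ) · U`, `U ^ p` good.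
* `IsKum Γ F p c x` : `x ∈ Pic⁰(F)` is the Kummer class of the character `c`.
* `IsParHom Γ c`    : `c` additive, zero on elements of trace `±2` and on torsion elements.
* `IsFactor`, `IsTransfer`, `IsTransferEx` : the transfer (cohomological Hecke operator) with
                      respect to an arbitrary finite family `A : I → GL₂(ℝ)` of coset
                      representatives.
-/


set_option autoImplicit false

noncomputable section

open ModularCurve AlgebraicCurve UpperHalfPlane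
open scoped MatrixGroups Manifold

namespace Fermat.Agent.S48.Kum

open Fermat.Agent.S24 Fermat.Agent.S29

/-- The type of function fields: intermediate fields `ℚ̄ ⊆ F ⊆ ℚ̄((q))`. -/
abbrev KF : Type := IntermediateField Kbar (LaurentSeries Kbar)

/-- `G` is a good function for `Γ`: holomorphic on `ℍ`, `Γ`-invariant, and every
`SL₂(ℤ)`-translate has at most exponential growth at `i∞`. -/
def IsGood (Γ : Subgroup SL(2, ℤ)) (G : ℍ → ℂ) : Prop :=
  MDifferentiable 𝓘(ℂ) 𝓘(ℂ) G ∧ (∀ γ ∈ Γ, ∀ τ : ℍ, G (γ • τ) = G τ) ∧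
    ∀ g : SL(2, ℤ), H648.ExpGrowth (fun τ => G (g • τ))

/-- `G : ℍ → ℂ` realises `u ∈ F`: `G` is good for `Γ` and its `q`-expansion at `i∞` is `u`. -/
def Realises (Γ : Subgroup SL(2, ℤ)) (F : KF) (u : F) (G : ℍ → ℂ) : Prop :=
  IsGood Γ G ∧ H708.qexpFun 1 G = coeffMap Deg457.iotaC ((u : F) : LaurentSeries Kbar)

/-- `U` transforms under `Γ` by the character `γ ↦ ζ_p ^ c(γ)`. -/
def HasChar (Γ : Subgroup SL(2, ℤ)) (p : ℕ) (c : Γ → ZMod p) (U : ℍ → ℂ) : Prop :=
  ∀ (γ : Γ) (τ : ℍ), U ((γ : SL(2, ℤ)) • τ) = M4b.zetaP p ^ (c γ).val * U τ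

/-- `U` is a twisted function of character `c`. -/
structure IsTwisted (Γ : Subgroup SL(2, ℤ)) (p : ℕ) (c : Γ → ZMod p) (U : ℍ → ℂ) : Prop where
  mdiff : MDifferentiable 𝓘(ℂ) 𝓘(ℂ) U
  ne_zero : ∃ τ : ℍ, U τ ≠ 0
  hasChar : HasChar Γ p c U
  pow_good : IsGood Γ (fun τ => U τ ^ p)

/-- **The Kummer relation.**  `x ∈ Pic⁰(F)` is the Kummer class of the character `c` of `Γ`:
`x = [D]`, `p • D = div f`, and after clearing poles by a `p`-th power `t ^ p` the function
`f * t ^ p` is (the `q`-expansion of) the `p`-th power of a twisted function of character `c`. -/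
def IsKum (Γ : Subgroup SL(2, ℤ)) (F : KF) (p : ℕ) (c : Γ → ZMod p) (x : Pic0 Kbar F) : Prop :=
  ∃ (f t : F) (U : ℍ → ℂ), t ≠ 0 ∧ H455.IsKummerClass (p : ℤ) f x ∧
    IsTwisted Γ p c U ∧ Realises Γ F (f * t ^ p) (fun τ => U τ ^ p)

/-- `c : Γ → A` is an additive character vanishing on all elements of trace `±2`
(cusp stabilisers, `-1`) and on all torsion (elliptic) elements. -/
structure IsParHom (Γ : Subgroup SL(2, ℤ)) {A : Type*} [AddCommGroup A] (c : Γ → A) : Prop where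
  map_mul : ∀ γ γ' : Γ, c (γ * γ') = c γ + c γ'
  parabolic : ∀ γ : Γ, (((γ : SL(2, ℤ)) : Matrix (Fin 2) (Fin 2) ℤ).trace = 2 ∨
    ((γ : SL(2, ℤ)) : Matrix (Fin 2) (Fin 2) ℤ).trace = -2) → c γ = 0
  elliptic : ∀ (γ : Γ) (n : ℕ), 0 < n → γ ^ n = 1 → c γ = 0

section Transfer

variable (Γ : Subgroup SL(2, ℤ)) {I : Type*}

/-- `A i * γ = δ * A j` in `GL₂(ℝ)`, with `(j, δ) = q`. -/
def IsFactor (A : I → GL (Fin 2) ℝ) (γ : Γ) (i : I) (q : I × Γ) : Prop :=
  A i * Matrix.SpecialLinearGroup.mapGL ℝ (γ : SL(2, ℤ)) =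
    Matrix.SpecialLinearGroup.mapGL ℝ ((q.2 : Γ) : SL(2, ℤ)) * A q.1

/-- `c'` is the transfer of `c` along the representatives `A`: `c'(γ) = ∑ᵢ c(δᵢ)` for EVERY
factorisation `Aᵢ γ = δᵢ A_{π i}`. -/
def IsTransfer [Fintype I] {B : Type*} [AddCommMonoid B] (A : I → GL (Fin 2) ℝ)
    (c c' : Γ → B) : Prop :=
  ∀ (γ : Γ) (π : I → I) (δ : I → Γ), (∀ i, IsFactor Γ A γ i (π i, δ i)) → c' γ = ∑ i, c (δ i)

/-- Every `γ ∈ Γ` permutes the representatives `A`. -/
def HasFactors (A : I → GL (Fin 2) ℝ) : Prop :=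
  ∀ γ : Γ, ∃ (π : Equiv.Perm I) (δ : I → Γ), ∀ i, IsFactor Γ A γ i (π i, δ i)

/-- Existential form of the transfer: for every `γ` there is SOME factorisation
`Aᵢ γ = δᵢ A_{π i}` (`π` a permutation) with `c'(γ) = ∑ᵢ c(δᵢ)`.
(`HasFactors` + `IsTransfer` imply `IsTransferEx`; this is the form used by the pieces.) -/
def IsTransferEx [Fintype I] {B : Type*} [AddCommMonoid B] (A : I → GL (Fin 2) ℝ)
    (c c' : Γ → B) : Prop :=
  ∀ γ : Γ, ∃ (π : Equiv.Perm I) (δ : I → Γ),
    (∀ i, IsFactor Γ A γ i (π i, δ i)) ∧ c' γ = ∑ i, c (δ i)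

theorem isTransferEx_of [Fintype I] {B : Type*} [AddCommMonoid B] {A : I → GL (Fin 2) ℝ}
    {c c' : Γ → B} (hfac : HasFactors Γ A) (htr : IsTransfer Γ A c c') :
    IsTransferEx Γ A c c' := fun γ => by
  obtain ⟨π, δ, h⟩ := hfac γ
  exact ⟨π, δ, h, htr γ π δ h⟩

end Transfer

end Fermat.Agent.S48.Kum

end
end
-- ===== PACK-END S48/Kum/Defs.lean

-- ===== PACK-BEGIN S48/Kum/Top.lean
section
/-
Tower A1 (row S48, RES) / sub-tower A1-KUM (the Kummer map) — PIECES and TOP ASSEMBLY.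
Sub-architect: helper822.  Namespace `Fermat.Agent.S48.Kum`.

GENERIC in the group `Γ ≤ SL(2,ℤ)` and the function field `F ⊆ ℚ̄((q))`; port of
`Fermat/Agent/S29/M4b/Top.lean`.  A piece is DONE when it proves one of the `Prop`s below for
`Γ = Γ₁(M)`, `F = ℚ̄·F₁(M)` (or generically).

* dictionary axioms (owners: A1-FF): `DictInter`, `DictMero`, `NormAn`, `DiaAn`;
* pieces: `PieceK1`, `PieceK2`, `PieceK3`, `PieceUniq`, `PieceInj`, `PieceAdd`,
  `PieceHecke` (for a correspondence `C : Corr F` and representatives `A`),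
  `PieceDia` (for a semilinear automorphism `δ` and `a` normalising `Γ`);
* assembly: `exists_kummerMap` (the map `κ`), `kummerMap_hecke`, `kummerMap_dia`.
-/


set_option autoImplicit false

noncomputable section

open ModularCurve AlgebraicCurve UpperHalfPlane
open scoped MatrixGroups Manifold

namespace Fermat.Agent.S48.Kum

open Fermat.Agent.S24 Fermat.Agent.S29

/-! ### Correspondences and diamond automorphisms -/

/-- A correspondence on the curve with function field `F`: a second function field `F'` with two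
`ℚ̄`-embeddings `φ ψ : F → F'` and the Prelude hypotheses needed to define
`Pic0.correspondence φ ψ = ψ_* φ^*`.  (Tower A1: `F' = ℚ̄·F₁(M;p)`, `ψ` = inclusion,
`φ` = `q ↦ q^p`.) -/
structure Corr (F : KF) where
  F' : Type
  [field : Field F']
  [alg : Algebra Kbar F']
  [hpd : HasPrincipalDivisors Kbar F']
  φ : F →ₐ[Kbar] F'
  ψ : F →ₐ[Kbar] F'
  hφ : φ.toRingHom.IsIntegral
  hψ : ψ.toRingHom.IsIntegral
  hFI : FundamentalIdentityAlong Kbar φ hφ
  hfin : FiniteAlong Kbar ψ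
  hN : NormFormulaAlong Kbar ψ hfin

attribute [instance] Corr.field Corr.alg Corr.hpd

/-- The operator `ψ_* φ^*` on `Pic⁰(F)`. -/
def Corr.op {F : KF} (C : Corr F) : Pic0 Kbar F →+ Pic0 Kbar F :=
  Pic0.correspondence C.φ C.ψ C.hφ C.hψ C.hFI C.hfin C.hN

/-- The norm map `u ↦ Norm_ψ (φ u)` on `F`. -/
def Corr.norm {F : KF} (C : Corr F) (u : F) : F := H455.normAlong C.ψ (C.φ u)

/-- Conjugation by `a` on `Γ` (`a` normalises `Γ`). -/
def conjΓ (Γ : Subgroup SL(2, ℤ)) (a : SL(2, ℤ)) (ha : ∀ γ ∈ Γ, a * γ * a⁻¹ ∈ Γ) (γ : Γ) : Γ :=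
  ⟨a * (γ : SL(2, ℤ)) * a⁻¹, ha γ γ.2⟩

/-! ### Dictionary axioms (inputs from A1-FF) -/

section Dict

variable (Γ : Subgroup SL(2, ℤ)) (F : KF)

/-- DICT-INTER: a good function whose `q`-expansion has coefficients in `ℚ̄` lies in `F`. -/
def DictInter : Prop :=
  ∀ (G : ℍ → ℂ) (s : LaurentSeries Kbar), IsGood Γ G →
    H708.qexpFun 1 G = coeffMap Deg457.iotaC s → s ∈ F

/-- DICT-MERO: every element of `F` is a quotient of two realised elements. -/
def DictMero : Prop :=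
  ∀ u : F, ∃ (u₁ u₂ : F) (G₁ G₂ : ℍ → ℂ), u₂ ≠ 0 ∧ u * u₂ = u₁ ∧
    Realises Γ F u₁ G₁ ∧ Realises Γ F u₂ G₂

/-- NORM-AN: the analytic norm formula for the correspondence `C` with representatives `A`:
if `G` realises `u` then `∏ᵢ G ∘ Aᵢ` realises `Norm_ψ (φ u)`. -/
def NormAn {I : Type*} [Fintype I] (C : Corr F) (A : I → GL (Fin 2) ℝ) : Prop :=
  ∀ (u : F) (G : ℍ → ℂ), Realises Γ F u G →
    Realises Γ F (C.norm u) (fun τ => ∏ i, G (A i • τ))

/-- DIA-AN: the automorphism `δ` of `F` is composition with `a` on realisations. -/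
def DiaAn (δ : SemilinearAut Kbar F) (a : SL(2, ℤ)) : Prop :=
  ∀ (u : F) (G : ℍ → ℂ), Realises Γ F u G → Realises Γ F (δ • u) (fun τ => G (a • τ))

end Dict

/-! ### The pieces -/

section Pieces

variable (Γ : Subgroup SL(2, ℤ)) (F : KF) (p : ℕ)

/-- PIECE `K1` (twisted Eisenstein series). -/
def PieceK1 : Prop :=
  ∀ {c : Γ → ZMod p}, _root_.Fermat.Agent.S48.Kum.IsParHom Γ c → ∃ U : ℍ → ℂ, IsTwisted Γ p c U

/-- PIECE `K3` (descent `ℂ → ℚ̄`). -/
def PieceK3 : Prop :=
  ∀ {c : Γ → ZMod p}, _root_.Fermat.Agent.S48.Kum.IsParHom Γ c → ∀ {U : ℍ → ℂ}, IsTwisted Γ p c U →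
    ∃ (U' : ℍ → ℂ) (u : F), IsTwisted Γ p c U' ∧ Realises Γ F u (fun τ => U' τ ^ p)

/-- PIECE `K2` (dictionary of places: `p ∣ ord_v u` for every place `v`). -/
def PieceK2 : Prop :=
  ∀ {c : Γ → ZMod p}, _root_.Fermat.Agent.S48.Kum.IsParHom Γ c → ∀ {U : ℍ → ℂ} {u : F}, IsTwisted Γ p c U →
    Realises Γ F u (fun τ => U τ ^ p) → ∃ x : Pic0 Kbar F, H455.IsKummerClass (p : ℤ) u x

/-- PIECE `K4-UNIQ`. -/
def PieceUniq : Prop :=
  ∀ {c : Γ → ZMod p} {x x' : Pic0 Kbar F}, IsKum Γ F p c x → IsKum Γ F p c x' → x = x'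

/-- PIECE `K4-INJ`. -/
def PieceInj : Prop :=
  ∀ {c : Γ → ZMod p}, IsKum Γ F p c (0 : Pic0 Kbar F) → c = 0

/-- PIECE `K4-ADD`. -/
def PieceAdd : Prop :=
  ∀ {c c' : Γ → ZMod p} {x x' : Pic0 Kbar F},
    IsKum Γ F p c x → IsKum Γ F p c' x' → IsKum Γ F p (c + c') (x + x')

/-- PIECE `K4-HECKE` for the correspondence `C` and the representatives `A`. -/
def PieceHecke {I : Type*} [Fintype I] (C : Corr F) (A : I → GL (Fin 2) ℝ) : Prop :=
  ∀ {c c' : Γ → ZMod p}, IsTransferEx Γ A c c' →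
    ∀ {x : Pic0 Kbar F}, IsKum Γ F p c x → IsKum Γ F p c' (C.op x)

/-- PIECE `K4-DIAMOND` for the automorphism `δ` and the normalising element `a`. -/
def PieceDia (δ : SemilinearAut Kbar F) (a : SL(2, ℤ)) (ha : ∀ γ ∈ Γ, a * γ * a⁻¹ ∈ Γ) : Prop :=
  ∀ {c : Γ → ZMod p} {x : Pic0 Kbar F}, IsKum Γ F p c x →
    IsKum Γ F p (fun γ => c (conjΓ Γ a ha γ)) (δ • x)

end Pieces

/-! ### Assembly -/

section Assembly

variable {Γ : Subgroup SL(2, ℤ)} {F : KF} {p : ℕ}

theorem isKum_exists (h1 : PieceK1 Γ p) (h3 : PieceK3 Γ F p) (h2 : PieceK2 Γ F p)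
    {c : Γ → ZMod p} (hc : _root_.Fermat.Agent.S48.Kum.IsParHom Γ c) : ∃ x : Pic0 Kbar F, IsKum Γ F p c x := by
  obtain ⟨U, hU⟩ := h1 hc
  obtain ⟨U', u, hU', hu⟩ := h3 hc hU
  obtain ⟨x, hx⟩ := h2 hc hU' hu
  refine ⟨x, u, 1, U', one_ne_zero, hx, hU', ?_⟩
  simpa using hu

theorem isKum_torsion {c : Γ → ZMod p} {x : Pic0 Kbar F} (h : IsKum Γ F p c x) :
    (p : ℤ) • x = 0 := by
  obtain ⟨f, t, U, -, hx, -, -⟩ := h
  exact hx.zsmul_eq_zero

open Classical in
/-- The Kummer map: `κ c` is THE Kummer class of `c` (and `0` if there is none). -/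
def kummerMap (Γ : Subgroup SL(2, ℤ)) (F : KF) (p : ℕ) (c : Γ → ZMod p) : Pic0 Kbar F :=
  if h : ∃ x : Pic0 Kbar F, IsKum Γ F p c x then h.choose else 0

theorem isKum_kummerMap (h1 : PieceK1 Γ p) (h3 : PieceK3 Γ F p) (h2 : PieceK2 Γ F p)
    {c : Γ → ZMod p} (hc : _root_.Fermat.Agent.S48.Kum.IsParHom Γ c) : IsKum Γ F p c (kummerMap Γ F p c) := by
  have h := isKum_exists h1 h3 h2 hc
  rw [kummerMap, dif_pos h]
  exact h.choose_spec

theorem kummerMap_eq (hu : PieceUniq Γ F p) {c : Γ → ZMod p} {x : Pic0 Kbar F}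
    (h : IsKum Γ F p c x) : kummerMap Γ F p c = x := by
  have h' : ∃ x : Pic0 Kbar F, IsKum Γ F p c x := ⟨x, h⟩
  rw [kummerMap, dif_pos h']
  exact hu h'.choose_spec h

theorem kummerMap_torsion (c : Γ → ZMod p) : (p : ℤ) • kummerMap Γ F p c = 0 := by
  unfold kummerMap
  split_ifs with h
  · exact isKum_torsion h.choose_spec
  · exact smul_zero _

/-- **Output of sub-tower A1-KUM** for a fixed group, field and modulus, from the six basic
pieces: the Kummer map `κ = kummerMap Γ F p` is additive and injective on parabolic characters,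
takes values in the `p`-torsion, and `κ c` is characterised by the relation `IsKum`. -/
theorem exists_kummerMap (h1 : PieceK1 Γ p) (h3 : PieceK3 Γ F p) (h2 : PieceK2 Γ F p)
    (hu : PieceUniq Γ F p) (hi : PieceInj Γ F p) (ha : PieceAdd Γ F p) :
    (∀ c, _root_.Fermat.Agent.S48.Kum.IsParHom Γ c → IsKum Γ F p c (kummerMap Γ F p c)) ∧
    (∀ c, (p : ℤ) • kummerMap Γ F p c = 0) ∧
    (∀ c c', _root_.Fermat.Agent.S48.Kum.IsParHom Γ c → _root_.Fermat.Agent.S48.Kum.IsParHom Γ c' →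
      kummerMap Γ F p (c + c') = kummerMap Γ F p c + kummerMap Γ F p c') ∧
    (∀ c, _root_.Fermat.Agent.S48.Kum.IsParHom Γ c → kummerMap Γ F p c = 0 → c = 0) ∧
    (∀ c x, IsKum Γ F p c x → kummerMap Γ F p c = x) := by
  refine ⟨fun c hc => isKum_kummerMap h1 h3 h2 hc, kummerMap_torsion, fun c c' hc hc' => ?_,
    fun c hc h0 => ?_, fun c x h => kummerMap_eq hu h⟩
  · exact kummerMap_eq hu (ha (isKum_kummerMap h1 h3 h2 hc) (isKum_kummerMap h1 h3 h2 hc'))
  · have h := isKum_kummerMap h1 h3 h2 hc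
    rw [h0] at h
    exact hi h

/-- Hecke equivariance of the Kummer map: `κ c' = T (κ c)` whenever `c'` is the transfer of `c`
along the representatives `A` of the correspondence `C` (`T = C.op`). -/
theorem kummerMap_hecke (h1 : PieceK1 Γ p) (h3 : PieceK3 Γ F p) (h2 : PieceK2 Γ F p)
    (hu : PieceUniq Γ F p) {I : Type*} [Fintype I] (C : Corr F) (A : I → GL (Fin 2) ℝ)
    (hh : PieceHecke Γ F p C A)
    {c c' : Γ → ZMod p} (hc : _root_.Fermat.Agent.S48.Kum.IsParHom Γ c) (htr : IsTransferEx Γ A c c') :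
    kummerMap Γ F p c' = C.op (kummerMap Γ F p c) :=
  kummerMap_eq hu (hh htr (isKum_kummerMap h1 h3 h2 hc))

/-- Diamond equivariance of the Kummer map: `κ (c ∘ conj_a) = δ • κ c`. -/
theorem kummerMap_dia (h1 : PieceK1 Γ p) (h3 : PieceK3 Γ F p) (h2 : PieceK2 Γ F p)
    (hu : PieceUniq Γ F p) (δ : SemilinearAut Kbar F) (a : SL(2, ℤ))
    (ha : ∀ γ ∈ Γ, a * γ * a⁻¹ ∈ Γ) (hd : PieceDia Γ F p δ a ha)
    {c : Γ → ZMod p} (hc : _root_.Fermat.Agent.S48.Kum.IsParHom Γ c) :
    kummerMap Γ F p (fun γ => c (conjΓ Γ a ha γ)) = δ • kummerMap Γ F p c :=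
  kummerMap_eq hu (hd (isKum_kummerMap h1 h3 h2 hc))

end Assembly

end Fermat.Agent.S48.Kum

end
end
-- ===== PACK-END S48/Kum/Top.lean

-- ===== PACK-BEGIN S29/M4b/H822/Basic.lean
section
/-
S29 / M4b (helper822): basic API for the frozen definitions of `M4b/Defs.lean`
(roots of unity, characters, realisations).  Sorry-free.
-/


set_option autoImplicit false

noncomputable section

open ModularCurve AlgebraicCurve CongruenceSubgroup UpperHalfPlane
open scoped MatrixGroups Manifold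

namespace Fermat.Agent.S29.M4b.H822

open Fermat.Agent.S24 Fermat.Agent.S29 Fermat.Agent.S29.M4b

/-! ### The root of unity `zetaP p` -/

theorem isPrimitiveRoot_zetaP (p : ℕ) [NeZero p] : IsPrimitiveRoot (zetaP p) p := by
  unfold zetaP
  exact Complex.isPrimitiveRoot_exp p (NeZero.ne p)

theorem zetaP_pow_self (p : ℕ) [NeZero p] : zetaP p ^ p = 1 :=
  (isPrimitiveRoot_zetaP p).pow_eq_one

theorem zetaP_ne_zero (p : ℕ) [NeZero p] : zetaP p ≠ 0 := by
  unfold zetaP
  exact Complex.exp_ne_zero _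

theorem zetaP_pow_val_add (p : ℕ) [NeZero p] (a b : ZMod p) :
    zetaP p ^ (a + b).val = zetaP p ^ a.val * zetaP p ^ b.val := by
  rw [ZMod.val_add, ← pow_add, ← pow_eq_pow_mod _ (zetaP_pow_self p)]

theorem zetaP_pow_val_eq_one_iff (p : ℕ) [NeZero p] (a : ZMod p) :
    zetaP p ^ a.val = 1 ↔ a = 0 := by
  rw [(isPrimitiveRoot_zetaP p).pow_eq_one_iff_dvd]
  constructor
  · intro h
    have h1 : a.val = 0 := Nat.eq_zero_of_dvd_of_lt h (ZMod.val_lt a)
    exact (ZMod.val_eq_zero a).mp h1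
  · rintro rfl
    simp

theorem zetaP_pow_val_zero (p : ℕ) [NeZero p] : zetaP p ^ (0 : ZMod p).val = 1 := by
  simp

/-! ### Characters -/

theorem hasChar_mul {N p : ℕ} [NeZero p] {c c' : G0 N → ZMod p} {U U' : ℍ → ℂ}
    (h : HasChar N p c U) (h' : HasChar N p c' U') :
    HasChar N p (c + c') (fun τ => U τ * U' τ) := by
  intro γ τ
  show U _ * U' _ = _
  rw [h γ τ, h' γ τ, Pi.add_apply, zetaP_pow_val_add]
  ring

theorem hasChar_pow_invariant {N p : ℕ} [NeZero p] {c : G0 N → ZMod p} {U : ℍ → ℂ}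
    (h : HasChar N p c U) (γ : G0 N) (τ : ℍ) :
    U ((γ : SL(2, ℤ)) • τ) ^ p = U τ ^ p := by
  rw [h γ τ, mul_pow, ← pow_mul, mul_comm (c γ).val p, pow_mul, zetaP_pow_self, one_pow, one_mul]

/-! ### Realisations -/

section Realises

variable {N : ℕ} [NeZero N]

theorem realises_mem {u : FF N} {G : ℍ → ℂ} (h : Realises N u G) : G ∈ H648.goodRing N := h.1

theorem realises_isMerInf {u : FF N} {G : ℍ → ℂ} (h : Realises N u G) : H708.IsMerInf 1 G :=
  H882.isMerInf_of_mem_goodRing h.1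

theorem realises_hasQExp {u : FF N} {G : ℍ → ℂ} (h : Realises N u G) :
    H708.HasQExp 1 G (coeffMap Deg457.iotaC ((u : FF N) : LaurentSeries Kbar)) :=
  ⟨realises_isMerInf h, h.2⟩

theorem realises_of_hasQExp {u : FF N} {G : ℍ → ℂ} (hG : G ∈ H648.goodRing N)
    (h : H708.HasQExp 1 G (coeffMap Deg457.iotaC ((u : FF N) : LaurentSeries Kbar))) :
    Realises N u G :=
  ⟨hG, h.2⟩

theorem realises_mul {u v : FF N} {G H : ℍ → ℂ} (hu : Realises N u G) (hv : Realises N v H) :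
    Realises N (u * v) (G * H) := by
  refine realises_of_hasQExp ((H648.goodRing N).mul_mem hu.1 hv.1) ?_
  have := (realises_hasQExp hu).mul (realises_hasQExp hv)
  simpa using this

theorem realises_pow {u : FF N} {G : ℍ → ℂ} (hu : Realises N u G) (n : ℕ) :
    Realises N (u ^ n) (G ^ n) := by
  refine realises_of_hasQExp ((H648.goodRing N).pow_mem hu.1 n) ?_
  have := (realises_hasQExp hu).pow n
  simpa using this

theorem coeffMap_iotaC_injective :
    Function.Injective (coeffMap Deg457.iotaC : LaurentSeries Kbar → LaurentSeries ℂ) := by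
  intro x y h
  ext n
  have h1 := congrArg (fun z : LaurentSeries ℂ => z.coeff n) h
  simp only [coeffMap] at h1
  exact Deg457.iotaC.injective (by simpa using h1)

/-- A realisation of a nonzero element is not the zero function. -/
theorem realises_ne_zero {u : FF N} {G : ℍ → ℂ} (h : Realises N u G) (hu : u ≠ 0) : G ≠ 0 := by
  intro hG
  have h1 := ((realises_hasQExp h).eq_zero_iff).mpr hG
  have h2 : ((u : FF N) : LaurentSeries Kbar) = 0 :=
    coeffMap_iotaC_injective (by rw [h1, map_zero])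
  exact hu (Subtype.ext h2)

/-- The realised element is determined by the function. -/
theorem realises_unique_left {u v : FF N} {G : ℍ → ℂ} (hu : Realises N u G)
    (hv : Realises N v G) : u = v := by
  apply Subtype.ext
  apply coeffMap_iotaC_injective
  rw [← hu.2, ← hv.2]

/-- The function is determined by the realised element. -/
theorem realises_unique_right {u : FF N} {G H : ℍ → ℂ} (hG : Realises N u G)
    (hH : Realises N u H) : G = H :=
  (realises_hasQExp hG).eq_of_eq (realises_hasQExp hH)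

/-- Every element of the polynomial ring `ℚ̄[j(q^d) : d ∣ N]` is realised by a good function. -/
theorem exists_realises_of_mem_AK {a : FF N}
    (ha : ((a : FF N) : LaurentSeries Kbar) ∈ Deg457.AK Kbar N) :
    ∃ G : ℍ → ℂ, Realises N a G := by
  have h1 := Deg457.coeffMap_mem_AK Deg457.iotaC ha
  obtain ⟨G, hG, hq⟩ := H882.AK_le_goodQ N h1
  exact ⟨G, hG, hq.2⟩

end Realises

end Fermat.Agent.S29.M4b.H822

end
end
-- ===== PACK-END S29/M4b/H822/Basic.lean

-- ===== PACK-BEGIN S29/M4b/H822/K4Uniq.lean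
section
/-
S29 / M4b (helper822): PIECE `K4-UNIQ` (`isKum_unique`) of `M4b/Skeleton.lean`, exact statement.
Sorry-free.  Inputs (all on main): MERO `H882.qexpFun_mem_FC`, `H32.mem_range_of_finite_orbit`,
`H32.exists_of_coeff_mem_range`, `H455.IsKummerClass` API.
-/




set_option autoImplicit false

noncomputable section

open ModularCurve AlgebraicCurve CongruenceSubgroup UpperHalfPlane
open scoped MatrixGroups Manifold

namespace Fermat.Agent.S29.M4b.H822

open Fermat.Agent.S24 Fermat.Agent.S29 Fermat.Agent.S29.M4b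

/-! ### Growth of roots -/

theorem expGrowth_of_pow {F : ℍ → ℂ} {p : ℕ} (hp : p ≠ 0)
    (h : H648.ExpGrowth (fun τ => F τ ^ p)) : H648.ExpGrowth F := by
  obtain ⟨C, m, hC⟩ := h
  refine ⟨1 + |C|, m, fun τ hτ => ?_⟩
  have h1 := hC τ hτ
  rw [norm_pow] at h1
  have hE : (1 : ℝ) ≤ Real.exp (2 * Real.pi * m * τ.im) := by
    apply Real.one_le_exp
    have : (0 : ℝ) ≤ τ.im := τ.im_pos.le
    positivity
  have h2 : ‖F τ‖ ≤ 1 + ‖F τ‖ ^ p := by
    rcases le_or_gt ‖F τ‖ 1 with h | h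
    · have : (0 : ℝ) ≤ ‖F τ‖ ^ p := by positivity
      linarith
    · have : ‖F τ‖ ≤ ‖F τ‖ ^ p := le_self_pow₀ h.le hp
      linarith
  have h3 : C * Real.exp (2 * Real.pi * m * τ.im) ≤ |C| * Real.exp (2 * Real.pi * m * τ.im) :=
    mul_le_mul_of_nonneg_right (le_abs_self C) (Real.exp_pos _).le
  calc ‖F τ‖ ≤ 1 + ‖F τ‖ ^ p := h2
    _ ≤ 1 + |C| * Real.exp (2 * Real.pi * m * τ.im) := by linarith
    _ ≤ Real.exp (2 * Real.pi * m * τ.im) + |C| * Real.exp (2 * Real.pi * m * τ.im) := by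
        linarith
    _ = (1 + |C|) * Real.exp (2 * Real.pi * m * τ.im) := by ring

/-- A holomorphic `Γ₀(N)`-invariant function whose `p`-th power is good is good. -/
theorem mem_goodRing_of_pow_mem {N : ℕ} {V : ℍ → ℂ} {p : ℕ} (hp : p ≠ 0)
    (hV : MDifferentiable 𝓘(ℂ) 𝓘(ℂ) V)
    (hinv : ∀ γ ∈ Gamma0 N, ∀ τ : ℍ, V (γ • τ) = V τ)
    (hpow : (fun τ => V τ ^ p) ∈ H648.goodRing N) : V ∈ H648.goodRing N :=
  ⟨hV, hinv, fun g => expGrowth_of_pow hp (hpow.2.2 g)⟩

/-! ### Algebraicity of the coefficients of a `p`-th root -/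

/-- The algebra structure `ℚ̄ → ℂ` given by the fixed embedding `iotaC`. -/
abbrev algKbarC : Algebra Kbar ℂ := Deg457.iotaC.toAlgebra

theorem isScalarTower_algKbarC :
    letI := algKbarC
    IsScalarTower ℚ Kbar ℂ := by
  letI := algKbarC
  refine IsScalarTower.of_algebraMap_eq fun q => ?_
  show (algebraMap ℚ ℂ) q = Deg457.iotaC (algebraMap ℚ Kbar q)
  unfold Deg457.iotaC
  simp

/-- If `s ^ p` has coefficients in `ℚ̄`, so has `s` (`p ≥ 1`). -/
theorem coeff_mem_range_of_pow_eq {p : ℕ} [NeZero p] {s : LaurentSeries ℂ}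
    {w : LaurentSeries Kbar} (hs : s ^ p = coeffMap Deg457.iotaC w) (n : ℤ) :
    s.coeff n ∈ Set.range Deg457.iotaC := by
  letI := algKbarC
  have hpn : p ≠ 0 := NeZero.ne p
  show s.coeff n ∈ Set.range (algebraMap Kbar ℂ)
  apply H32.mem_range_of_finite_orbit
  rcases eq_or_ne s 0 with rfl | hs0
  · refine (Set.finite_singleton (0 : ℂ)).subset ?_
    rintro _ ⟨σ, rfl⟩
    simp
  -- the conjugates are among the `ζ ^ i * s_n`
  refine (Set.finite_range fun i : Fin p => zetaP p ^ (i : ℕ) * s.coeff n).subset ?_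
  rintro _ ⟨σ, rfl⟩
  set s' : LaurentSeries ℂ := coeffMap (σ : ℂ →+* ℂ) s with hs'
  have h1 : s' ^ p = s ^ p := by
    rw [hs', ← map_pow, hs, coeffMap_coeffMap]
    apply coeffMap_congr
    ext c
    exact σ.commutes c
  have h2 : (s' / s) ^ p = 1 := by
    rw [div_pow, h1, div_self (pow_ne_zero _ hs0)]
  have hprim : IsPrimitiveRoot (algebraMap ℂ (LaurentSeries ℂ) (zetaP p)) p :=
    (isPrimitiveRoot_zetaP p).map_of_injective (algebraMap ℂ (LaurentSeries ℂ)).injective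
  obtain ⟨i, hi, hi2⟩ := hprim.eq_pow_of_pow_eq_one h2
  have h3 : s' = algebraMap ℂ (LaurentSeries ℂ) (zetaP p ^ i) * s := by
    rw [map_pow, hi2, div_mul_cancel₀ _ hs0]
  refine ⟨⟨i, hi⟩, ?_⟩
  show zetaP p ^ i * s.coeff n = σ (s.coeff n)
  have h4 : s'.coeff n = σ (s.coeff n) := rfl
  rw [← h4, h3, H32.coeff_algebraMap_mul]

/-! ### Powers of Kummer classes -/

theorem isKummerClass_pow {K F : Type*} [Field K] [Field F] [Algebra K F] {n : ℤ} {f : F}
    {x : Pic0 K F} (h : H455.IsKummerClass n f x) (k : ℕ) :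
    H455.IsKummerClass n (f ^ k) (k • x) := by
  induction k with
  | zero => simpa using (H455.IsKummerClass.zero (n := n) (K := K) (F := F))
  | succ k ih =>
    rw [pow_succ, succ_nsmul]
    exact ih.add h

/-! ### The piece -/

variable (N : ℕ) [NeZero N] (p : ℕ) [NeZero p]

/-- PIECE `K4-UNIQ`: the Kummer class of a character is unique. -/
theorem isKum_unique {c : G0 N → ZMod p} {x x' : JZero N}
    (h : IsKum N p c x) (h' : IsKum N p c x') : x = x' := by
  obtain ⟨f, t, U, ht, hx, hU, hr⟩ := h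
  obtain ⟨f', t', U', ht', hx', hU', hr'⟩ := h'
  have hpn : p ≠ 0 := NeZero.ne p
  have hp0 : (p : ℤ) ≠ 0 := by exact_mod_cast hpn
  have hp1 : p - 1 + 1 = p := Nat.sub_add_cancel (Nat.pos_of_ne_zero hpn)
  -- the invariant function `V = U * U' ^ (p - 1)`
  set V : ℍ → ℂ := fun τ => U τ * U' τ ^ (p - 1) with hVdef
  set w : FF N := f * t ^ p * (f' * t' ^ p) ^ (p - 1) with hw
  have hVpow : (fun τ => V τ ^ p) = (fun τ => U τ ^ p) * (fun τ => U' τ ^ p) ^ (p - 1) := by
    funext τ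
    simp only [hVdef, Pi.mul_apply, Pi.pow_apply, mul_pow]
    rw [← pow_mul, ← pow_mul, mul_comm (p - 1) p]
  have hWreal : Realises N w (fun τ => V τ ^ p) := by
    rw [hVpow]
    exact realises_mul hr (realises_pow hr' (p - 1))
  have hVmd : MDifferentiable 𝓘(ℂ) 𝓘(ℂ) V := hU.mdiff.mul (hU'.mdiff.pow (p - 1))
  have hVinv : ∀ γ ∈ Gamma0 N, ∀ τ : ℍ, V (γ • τ) = V τ := by
    intro γ hγ τ
    have e1 := hU.hasChar ⟨γ, hγ⟩ τ
    have e2 := hU'.hasChar ⟨γ, hγ⟩ τ
    simp only at e1 e2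
    show U (γ • τ) * U' (γ • τ) ^ (p - 1) = U τ * U' τ ^ (p - 1)
    rw [e1, e2, mul_pow]
    have e3 : zetaP p ^ (c ⟨γ, hγ⟩).val * (zetaP p ^ (c ⟨γ, hγ⟩).val) ^ (p - 1) = 1 := by
      rw [← pow_succ', hp1, ← pow_mul, mul_comm, pow_mul, zetaP_pow_self, one_pow]
    linear_combination (U τ * U' τ ^ (p - 1)) * e3
  have hVgood : V ∈ H648.goodRing N := mem_goodRing_of_pow_mem hpn hVmd hVinv hWreal.1
  -- its `q`-expansion `s`
  set s : LaurentSeries ℂ := H708.qexpFun 1 V with hsdef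
  have hsQ : H708.HasQExp 1 V s := H882.hasQExp_of_mem_goodRing hVgood
  have hsFC : s ∈ laurentBaseChange ℂ (modularFunctionFieldFull N) := H882.qexpFun_mem_FC (N := N) hVgood
  have hsp : s ^ p = coeffMap Deg457.iotaC ((w : FF N) : LaurentSeries Kbar) := by
    have h1 := hsQ.pow p
    have h2 : V ^ p = fun τ => V τ ^ p := rfl
    rw [h2] at h1
    exact h1.unique (realises_hasQExp hWreal)
  -- descent of `s` to `ℚ̄`
  let _ : Algebra Kbar ℂ := algKbarC
  have _ : IsScalarTower ℚ Kbar ℂ := isScalarTower_algKbarC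
  obtain ⟨y, hy, hys⟩ := H32.exists_of_coeff_mem_range (k := Kbar) (Ω := ℂ)
    (modularFunctionFieldFull N) hsFC (fun n => coeff_mem_range_of_pow_eq hsp n)
  set vv : FF N := ⟨y, hy⟩ with hvv
  have hvvp : vv ^ p = w := by
    apply Subtype.ext
    apply coeffMap_iotaC_injective
    show coeffMap Deg457.iotaC (((vv ^ p : FF N) : FF N) : LaurentSeries Kbar) = _
    rw [← hsp, ← hys]
    simp only [SubmonoidClass.coe_pow, map_pow]
    rfl
  -- `f * f' ^ (p - 1)` is a `p`-th power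
  have hf0 := hx.ne_zero
  have hf0' := hx'.ne_zero
  have hd0 : t * t' ^ (p - 1) ≠ 0 := mul_ne_zero ht (pow_ne_zero _ ht')
  set g : FF N := vv / (t * t' ^ (p - 1)) with hg
  have hgp : g ^ p = f * f' ^ (p - 1) := by
    rw [hg, div_pow, hvvp, hw]
    rw [div_eq_iff (pow_ne_zero _ hd0)]
    have e1 : (t' ^ p) ^ (p - 1) = (t' ^ (p - 1)) ^ p := by
      rw [← pow_mul, ← pow_mul, mul_comm]
    rw [mul_pow, mul_pow, e1]
    ring
  have hg0 : g ≠ 0 := by
    intro h0
    rw [h0, zero_pow hpn] at hgp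
    exact (mul_ne_zero hf0 (pow_ne_zero _ hf0')) hgp.symm
  have hsum : H455.IsKummerClass (p : ℤ) (f * f' ^ (p - 1)) (x + (p - 1) • x') :=
    hx.add (isKummerClass_pow hx' (p - 1))
  have hzero : x + (p - 1) • x' = 0 := by
    refine (hsum.eq_zero_iff hp0).mpr ⟨g, hg0, fun v => ?_⟩
    rw [← hgp, ← zpow_natCast, Place.ord_zpow]
  have hpx' : (p : ℤ) • x' = 0 := hx'.zsmul_eq_zero
  have h5 : (p - 1) • x' + x' = 0 := by
    rw [← succ_nsmul, hp1, ← natCast_zsmul]
    exact hpx'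
  have h6 : x - x' = 0 := by
    have : x - x' = (x + (p - 1) • x') - ((p - 1) • x' + x') := by abel
    rw [this, hzero, h5, sub_zero]
  exact sub_eq_zero.mp h6

end Fermat.Agent.S29.M4b.H822

end
end
-- ===== PACK-END S29/M4b/H822/K4Uniq.lean

-- ===== PACK-BEGIN S24/Alg/Sub.lean
section






/-!
# S24 / ALG — sub-interface (statements needed by the global assembly in `Alg.lean`)

Adapters (helper984) from the FF layer (helper804), the KD layer (helper84) and the local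
theorem (helper117) to the shapes used by the assembly.
-/

set_option autoImplicit false

noncomputable section

open AlgebraicCurve KaehlerDifferential

namespace Fermat.Agent.S24

variable {K F : Type*} [Field K] [Field F] [Algebra K F] [IsAlgClosed K] [CharZero K]
variable {C : Type*} [Field C] [CharZero C] {X : Type*} [Finite X]

/-- The places of `F/K` at which `t` vanishes. -/
def zeroPlaces (K : Type*) {F : Type*} [Field K] [Field F] [Algebra K F] (t : F) :
    Set (Place K F) := {v | 0 < v.ord t}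

/-! ### FF (function-field generalities) -/

omit [CharZero K] in
/-- FF2: all places have degree one. -/
theorem sub_deg_eq_one (j : F) (hj : Transcendental K j)
    [FiniteDimensional ↥(IntermediateField.adjoin K {j}) F] (v : Place K F) : v.deg = 1 :=
  FF.deg_eq_one v hj

/-- FF3: a principal divisor has degree zero. -/
theorem sub_degree_principal (j : F) (hj : Transcendental K j)
    [FiniteDimensional ↥(IntermediateField.adjoin K {j}) F] (f : F) (hf : f ≠ 0)
    (D : Divisor K F) (hD : ∀ v : Place K F, D v = v.ord f) : Divisor.degree D = 0 :=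
  degree_principal j hj f hf D hD

omit [CharZero K] in
/-- FF4: every place lies over a point of `ℙ¹_j`. -/
theorem sub_exists_point (j : F)
    [FiniteDimensional ↥(IntermediateField.adjoin K {j}) F] (v : Place K F) :
    v.ord j < 0 ∨ ∃ a : K, 0 < v.ord (j - algebraMap K F a) := by
  rcases lt_or_ge (v.ord j) 0 with h | h
  · exact Or.inl h
  · haveI : Algebra.IsAlgebraic ↥(IntermediateField.adjoin K {j}) F :=
      Algebra.IsAlgebraic.of_finite _ _
    exact Or.inr (FF.exists_ord_sub_pos v j h)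

/-! ### KD (Kähler differentials) -/

omit [IsAlgClosed K] in
/-- KD1: `Ω[F/K]` is spanned by `D j`. -/
theorem sub_exists_smul_D (j : F)
    [FiniteDimensional ↥(IntermediateField.adjoin K {j}) F] (ω : Ω[F⁄K]) :
    ∃ f : F, ω = f • D K F j := by
  haveI : Algebra.IsAlgebraic ↥(IntermediateField.adjoin K {j}) F :=
    Algebra.IsAlgebraic.of_finite _ _
  have h : ω ∈ Submodule.span F {D K F j} := by
    rw [H84.span_D_eq_top j]; exact Submodule.mem_top
  obtain ⟨f, hf⟩ := Submodule.mem_span_singleton.mp h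
  exact ⟨f, hf.symm⟩

/-- KD2: `ordDifferential` is additive in the coefficient. -/
theorem sub_ordDifferential_smul (j : F)
    [FiniteDimensional ↥(IntermediateField.adjoin K {j}) F] (v : Place K F)
    (f : F) (hf : f ≠ 0) (ω : Ω[F⁄K]) (hω : ω ≠ 0) :
    v.ordDifferential (f • ω) = v.ord f + v.ordDifferential ω := by
  haveI : v.DCoordGenerates := H84.place_dCoordGenerates j v
  haveI : Nontrivial Ω[F⁄K] := ⟨⟨ω, 0, hω⟩⟩
  refine v.ordDifferential_smul hf ?_
  intro h0
  apply hω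
  rw [← v.differentialCoeff_smul_dCoord ω, h0, zero_smul]

/-! ### LT (local theorem) -/

/-- LT: the places over the zero of `t` are finite in number, in bijection with the orbits of
`perm`, and the ramification indices add up to the degree. -/
theorem sub_local_count (t : F)
    [FiniteDimensional ↥(IntermediateField.adjoin K {t}) F]
    (hrank : Module.finrank ↥(IntermediateField.adjoin K {t}) F = Nat.card X)
    (d : LocalData K F C X t) :
    (zeroPlaces K t).Finite ∧ Nat.card ↥(zeroPlaces K t) = numOrbits d.perm ∧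
      ∑ᶠ v ∈ zeroPlaces K t, v.ord t = (Nat.card X : ℤ) := by
  classical
  have hfin : (zeroPlaces K t).Finite :=
    H117.finite_places_over d (IntermediateField.adjoin K {t}) le_rfl hrank
  have hs : ∀ v : Place K F, v ∈ hfin.toFinset ↔ 0 < v.ord t := fun v => by
    simp [zeroPlaces]
  have ht : Transcendental K t := by
    have hpos : 0 < Nat.card X := hrank ▸ Module.finrank_pos
    obtain ⟨x⟩ := (Nat.card_pos_iff.mp hpos).1
    refine FF.transcendental_of_not_mem_range ?_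
    rintro ⟨c, hc⟩
    have h1 := d.σ_t_order x
    have h3 : d.σ x t = HahnSeries.C (d.ι c) := by rw [← d.σ_const x c, hc]
    rw [h3] at h1
    have h2 : (HahnSeries.C (d.ι c) : LaurentSeries C).order = 0 := by
      rw [HahnSeries.C_apply]
      by_cases h0 : d.ι c = 0
      · simp [h0]
      · exact HahnSeries.order_single h0
    rw [h2] at h1
    have := d.m_pos
    omega
  have hle : (Nat.card X : ℤ) ≤ ∑ v ∈ hfin.toFinset, v.ord t := by
    rw [← hrank]
    exact fundamental_le t ht hfin.toFinset hs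
  obtain ⟨h1, -, h3⟩ :=
    H117.localThm d (IntermediateField.adjoin K {t}) le_rfl hrank hfin.toFinset hs hle
  refine ⟨hfin, ?_, ?_⟩
  · rw [Nat.card_coe_set_eq, Set.ncard_eq_toFinset_card _ hfin]
    exact h1
  · rw [finsum_mem_eq_finite_toFinset_sum _ hfin]
    exact h3

/-- LT + KD4: order of `dt` at a zero of `t`. -/
theorem sub_ordDifferential_D (t : F)
    [FiniteDimensional ↥(IntermediateField.adjoin K {t}) F]
    (hrank : Module.finrank ↥(IntermediateField.adjoin K {t}) F = Nat.card X)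
    (d : LocalData K F C X t) (v : Place K F) (hv : 0 < v.ord t) :
    v.ordDifferential (D K F t) = v.ord t - 1 := by
  obtain ⟨x, rfl⟩ :=
    H117.exists_placeOf_eq d (IntermediateField.adjoin K {t}) le_rfl hrank v hv
  haveI : (H117.placeOf d x).DCoordGenerates := H84.place_dCoordGenerates t _
  exact H84.place_ordDifferential_D_of_ord_ne_zero (H117.placeOf d x) (d.σ x) d.ι (d.σ_const x)
    (H117.mult d x) (H117.mult_pos d x) (fun f _ => H117.order_eq d x f) t hv.ne'

end Fermat.Agent.S24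

end
end
-- ===== PACK-END S24/Alg/Sub.lean

-- ===== PACK-BEGIN S24/Alg.lean
section





/-!
# S24 — algebraic side (Riemann–Hurwitz for `F / K(j)` from local embedding data)

Global assembly (helper984): the two frozen interface theorems
`exists_differential_ne_zero` and `degree_eq_of_localData`, proved from the sub-interface
in `Alg/Sub.lean`.
-/

set_option autoImplicit false

noncomputable section

open AlgebraicCurve KaehlerDifferential

namespace Fermat.Agent.S24

variable {K F : Type*} [Field K] [Field F] [Algebra K F] [IsAlgClosed K] [CharZero K]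
variable {C : Type*} [Field C] [CharZero C] {X : Type*} [Finite X]

omit [CharZero K] in
theorem exists_algebraMap_eq_of_isAlgebraic {x : F} (hx : IsAlgebraic K x) :
    ∃ c : K, algebraMap K F c = x := by
  have hint : IsIntegral K x := hx.isIntegral
  refine ⟨-(minpoly K x).coeff 0, ?_⟩
  have hq : (minpoly K x).leadingCoeff = 1 := minpoly.monic hint
  have h : (minpoly K x).degree = 1 :=
    IsAlgClosed.degree_eq_one_of_irreducible K (minpoly.irreducible hint)
  have : Polynomial.aeval x (minpoly K x) = 0 := minpoly.aeval K x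
  rw [Polynomial.eq_X_add_C_of_degree_eq_one h, hq, Polynomial.C_1, one_mul,
    Polynomial.aeval_add, Polynomial.aeval_X, Polynomial.aeval_C,
    add_eq_zero_iff_eq_neg] at this
  exact (map_neg (algebraMap K F) ((minpoly K x).coeff 0)).symm ▸ this.symm

omit [IsAlgClosed K] [CharZero K] [CharZero C] [Finite X] in
theorem not_mem_range_of_localData {t : F} [Nonempty X] (d : LocalData K F C X t) (c : K) :
    t ≠ algebraMap K F c := by
  intro h
  obtain ⟨x⟩ := ‹Nonempty X›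
  have h1 := d.σ_t_order x
  have h3 : d.σ x t = HahnSeries.C (d.ι c) := (congrArg (d.σ x) h).trans (d.σ_const x c)
  rw [h3] at h1
  have h2 : (HahnSeries.C (d.ι c) : LaurentSeries C).order = 0 := by
    rw [HahnSeries.C_apply]
    by_cases hc : d.ι c = 0
    · simp [hc]
    · exact HahnSeries.order_single hc
  rw [h2] at h1
  have := d.m_pos
  omega

omit [CharZero K] [CharZero C] [Finite X] in
theorem transcendental_of_localData_inv (j : F) [Nonempty X]
    (dataInf : LocalData K F C X j⁻¹) : Transcendental K j := by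
  intro halg
  obtain ⟨c, hc⟩ := exists_algebraMap_eq_of_isAlgebraic halg
  refine not_mem_range_of_localData dataInf c⁻¹ ?_
  rw [map_inv₀, hc]

omit [Finite X] in
theorem numOrbits_one : numOrbits (1 : Equiv.Perm X) = Nat.card X := by
  unfold numOrbits
  refine Nat.card_congr (Equiv.ofBijective (Quotient.mk'' (s₁ := MulAction.orbitRel _ X)) ?_).symm
  constructor
  · intro x y hxy
    have h := Quotient.exact' hxy
    change x ∈ MulAction.orbit _ y at h
    obtain ⟨⟨g, hg⟩, hgx⟩ := h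
    rw [Subgroup.zpowers_one_eq_bot, Subgroup.mem_bot] at hg
    subst hg
    simpa using hgx.symm
  · exact Quotient.mk''_surjective

end Fermat.Agent.S24

namespace Fermat.Agent.S24

variable {K F : Type*} [Field K] [Field F] [Algebra K F] [IsAlgClosed K] [CharZero K]
variable {C : Type*} [Field C] [CharZero C] {X : Type*} [Finite X]

omit [IsAlgClosed K] [CharZero K] [Finite X] in
/-- `dt ≠ 0` if there is local data at `t` (helper240). -/
theorem D_ne_zero_of_localData {t : F} [Nonempty X] (d : LocalData K F C X t) :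
    D K F t ≠ 0 := by
  obtain ⟨x⟩ := ‹Nonempty X›
  apply H240.exists_embDerivation (d.σ x) d.ι (d.σ_const x)
  apply H240.lsD_ne_zero_of_order_ne_zero
  rw [d.σ_t_order x]
  exact_mod_cast d.m_pos.ne'

omit [IsAlgClosed K] [CharZero K] [Finite X] in
/-- If `F` admits local data at `j⁻¹`, then `Ω[F/K] ≠ 0` (helper240). -/
theorem exists_differential_ne_zero (j : F) [Nonempty X]
    (dataInf : LocalData K F C X j⁻¹) :
    ∃ ω : Ω[F⁄K], ω ≠ 0 :=
  ⟨D K F j⁻¹, D_ne_zero_of_localData dataInf⟩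

section LocalConsequences

variable (t : F) [FiniteDimensional ↥(IntermediateField.adjoin K {t}) F]
  (hrank : Module.finrank ↥(IntermediateField.adjoin K {t}) F = Nat.card X)
  (d : LocalData K F C X t)

include hrank d in
theorem zeroPlaces_finite : (zeroPlaces K t).Finite := (sub_local_count t hrank d).1

include hrank in
theorem card_zeroPlaces_toFinset :
    ((zeroPlaces_finite t hrank d).toFinset.card : ℤ) = numOrbits d.perm := by
  have h := (sub_local_count t hrank d).2.1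
  rw [Nat.card_coe_set_eq, Set.ncard_eq_toFinset_card _ (zeroPlaces_finite t hrank d)] at h
  exact_mod_cast h

include hrank in
theorem sum_ord_zeroPlaces :
    ∑ v ∈ (zeroPlaces_finite t hrank d).toFinset, v.ord t = (Nat.card X : ℤ) := by
  have h := (sub_local_count t hrank d).2.2
  rwa [finsum_mem_eq_finite_toFinset_sum _ (zeroPlaces_finite t hrank d)] at h

include hrank in
theorem sum_ord_sub_one_zeroPlaces :
    ∑ v ∈ (zeroPlaces_finite t hrank d).toFinset, (v.ord t - 1)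
      = (Nat.card X : ℤ) - numOrbits d.perm := by
  rw [Finset.sum_sub_distrib, sum_ord_zeroPlaces t hrank d, Finset.sum_const,
    ← card_zeroPlaces_toFinset t hrank d]
  simp

include hrank in
theorem sum_neg_ord_sub_one_zeroPlaces :
    ∑ v ∈ (zeroPlaces_finite t hrank d).toFinset, (-(v.ord t) - 1)
      = -(Nat.card X : ℤ) - numOrbits d.perm := by
  rw [Finset.sum_sub_distrib, Finset.sum_neg_distrib, sum_ord_zeroPlaces t hrank d,
    Finset.sum_const, ← card_zeroPlaces_toFinset t hrank d]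
  simp

include hrank in
/-- If the monodromy is trivial, `t` is unramified: every zero of `t` is simple. -/
theorem ord_eq_one_of_perm_eq_one (hperm : d.perm = 1) (v : Place K F) (hv : 0 < v.ord t) :
    v.ord t = 1 := by
  have hsum := sum_ord_sub_one_zeroPlaces t hrank d
  rw [hperm, numOrbits_one, sub_self] at hsum
  have hnonneg : ∀ w ∈ (zeroPlaces_finite t hrank d).toFinset, 0 ≤ w.ord t - 1 := by
    intro w hw
    have : 0 < w.ord t := by simpa [zeroPlaces] using hw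
    omega
  have hz := (Finset.sum_eq_zero_iff_of_nonneg hnonneg).mp hsum v
    (by simpa [zeroPlaces] using hv)
  omega

end LocalConsequences

section Global

variable (j : F) [FiniteDimensional ↥(IntermediateField.adjoin K {j}) F]
  (hrank : Module.finrank ↥(IntermediateField.adjoin K {j}) F = Nat.card X)

include hrank in
/-- Local package at a finite point, with all instance transport done. -/
theorem local_fin (a : K) (d : LocalData K F C X (j - algebraMap K F a)) :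
    ∃ Z : Finset (Place K F), (∀ v : Place K F, v ∈ Z ↔ 0 < v.ord (j - algebraMap K F a)) ∧
      ∑ v ∈ Z, (v.ord (j - algebraMap K F a) - 1) = (Nat.card X : ℤ) - numOrbits d.perm ∧
      (∀ v : Place K F, 0 < v.ord (j - algebraMap K F a) →
        v.ordDifferential (D K F (j - algebraMap K F a)) = v.ord (j - algebraMap K F a) - 1) ∧
      (d.perm = 1 → ∀ v : Place K F, 0 < v.ord (j - algebraMap K F a) →
        v.ord (j - algebraMap K F a) = 1) := by
  obtain ⟨hfd, hfr⟩ := finiteDimensional_and_finrank_of_eq (adjoin_sub_algebraMap K j a)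
  have hr := hfr.trans hrank
  refine ⟨(zeroPlaces_finite _ hr d).toFinset, fun v => by simp [zeroPlaces],
    sum_ord_sub_one_zeroPlaces _ hr d, fun v hv => sub_ordDifferential_D _ hr d v hv,
    fun h v hv => ord_eq_one_of_perm_eq_one _ hr d h v hv⟩

include hrank in
/-- Local package at infinity, with all instance transport done. -/
theorem local_inf (d : LocalData K F C X j⁻¹) :
    ∃ Z : Finset (Place K F), (∀ v : Place K F, v ∈ Z ↔ 0 < v.ord j⁻¹) ∧
      ∑ v ∈ Z, (-(v.ord j⁻¹) - 1) = -(Nat.card X : ℤ) - numOrbits d.perm ∧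
      (∀ v : Place K F, 0 < v.ord j⁻¹ → v.ordDifferential (D K F j⁻¹) = v.ord j⁻¹ - 1) := by
  obtain ⟨hfd, hfr⟩ := finiteDimensional_and_finrank_of_eq (adjoin_inv K j)
  have hr := hfr.trans hrank
  exact ⟨(zeroPlaces_finite _ hr d).toFinset, fun v => by simp [zeroPlaces],
    sum_neg_ord_sub_one_zeroPlaces _ hr d, fun v hv => sub_ordDifferential_D _ hr d v hv⟩

omit [IsAlgClosed K] [CharZero K] in
theorem degree_eq_sum_of_deg_one (hdeg : ∀ v : Place K F, v.deg = 1) (E : Divisor K F)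
    (T : Finset (Place K F)) (hT : E.support ⊆ T) :
    Divisor.degree E = ∑ v ∈ T, E v := by
  have h1 : Divisor.degree E = E.sum fun v n => n * (v.deg : ℤ) := by
    simp [Divisor.degree, Finsupp.liftAddHom_apply]
  rw [h1, Finsupp.sum_of_support_subset E hT _ (fun v _ => by simp)]
  refine Finset.sum_congr rfl fun v _ => ?_
  rw [hdeg v]; simp

include hrank in
/-- **Riemann–Hurwitz from embeddings.**  Degree of the divisor of any nonzero differential. -/
theorem degree_eq_of_localData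
    (dataFin : ∀ a : K, LocalData K F C X (j - algebraMap K F a))
    (dataInf : LocalData K F C X j⁻¹)
    (S₀ : Finset K) (hgen : ∀ a : K, a ∉ S₀ → (dataFin a).perm = 1)
    (ω : Ω[F⁄K]) (hω : ω ≠ 0) (E : Divisor K F)
    (hE : ∀ v : Place K F, E v = v.ordDifferential ω) :
    Divisor.degree E =
      (∑ a ∈ S₀, ((Nat.card X : ℤ) - numOrbits (dataFin a).perm))
        - Nat.card X - numOrbits dataInf.perm := by
  classical
  have hpos : 0 < Nat.card X := hrank ▸ Module.finrank_pos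
  have hne : Nonempty X := (Nat.card_pos_iff.mp hpos).1
  have hj : Transcendental K j := transcendental_of_localData_inv j dataInf
  have hj0 : j ≠ 0 := fun h => hj (h ▸ isAlgebraic_zero)
  have hdeg : ∀ v : Place K F, v.deg = 1 := sub_deg_eq_one j hj
  -- `ω = f • dj`
  obtain ⟨f, rfl⟩ := sub_exists_smul_D j ω
  have hf : f ≠ 0 := by rintro rfl; simp at hω
  have hDinv : D K F j = (-(j ^ 2)) • D K F j⁻¹ := by
    have h := Derivation.leibniz_inv (D K F) (j⁻¹)
    rw [inv_inv] at h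
    exact h
  have hDjinv : D K F j⁻¹ ≠ 0 := D_ne_zero_of_localData dataInf
  have hc : (-(j ^ 2)) ≠ 0 := neg_ne_zero.mpr (pow_ne_zero 2 hj0)
  have hDj : D K F j ≠ 0 := by
    rw [hDinv]
    exact smul_ne_zero hc hDjinv
  -- local packages
  choose Zf hZf_mem hZf_sum hZf_ord hZf_unr using fun a => local_fin j hrank a (dataFin a)
  obtain ⟨Zi, hZi_mem, hZi_sum, hZi_ord⟩ := local_inf j hrank dataInf
  -- the ramification function
  set R : Place K F → ℤ := fun v => v.ordDifferential (D K F j) with hR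
  have hDv : ∀ v : Place K F, E v = v.ord f + R v := fun v => by
    rw [hE, sub_ordDifferential_smul j v f hf _ hDj]
  have hRfin : ∀ (a : K) (v : Place K F), 0 < v.ord (j - algebraMap K F a) →
      R v = v.ord (j - algebraMap K F a) - 1 := by
    intro a v hv
    have : D K F (j - algebraMap K F a) = D K F j := by simp
    rw [← hZf_ord a v hv, this]
  have hRinf : ∀ v : Place K F, 0 < v.ord j⁻¹ → R v = -(v.ord j⁻¹) - 1 := by
    intro v hv
    show v.ordDifferential (D K F j) = _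
    rw [hDinv, sub_ordDifferential_smul j v _ hc _ hDjinv, hZi_ord v hv, ord_neg, pow_two,
      v.ord_mul hj0 hj0]
    have := v.ord_inv j
    omega
  -- the finite set of special places
  set T : Finset (Place K F) := S₀.biUnion Zf ∪ Zi with hT
  have hRT : ∀ v : Place K F, R v ≠ 0 → v ∈ T := by
    intro v hv
    rcases sub_exists_point j v with h | ⟨a, ha⟩
    · refine Finset.mem_union_right _ ((hZi_mem v).mpr ?_)
      have := v.ord_inv j
      omega
    · by_cases haS : a ∈ S₀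
      · exact Finset.mem_union_left _ (Finset.mem_biUnion.mpr ⟨a, haS, (hZf_mem a v).mpr ha⟩)
      · exfalso
        apply hv
        rw [hRfin a v ha, hZf_unr a (hgen a haS) v ha]
        simp
  let Rfs : Divisor K F := Finsupp.onFinset T R hRT
  have hRfs : ∀ v : Place K F, Rfs v = R v := fun v => rfl
  have hprinc : Divisor.degree (E - Rfs) = 0 :=
    sub_degree_principal j hj f hf (E - Rfs) fun v => by
      rw [Finsupp.sub_apply, hRfs, hDv]; ring
  have hsplit : Divisor.degree E = Divisor.degree Rfs := by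
    have := map_sub (Divisor.degree (K := K) (F := F)) E Rfs
    rw [hprinc] at this
    linarith
  rw [hsplit, degree_eq_sum_of_deg_one hdeg Rfs T Finsupp.support_onFinset_subset]
  simp only [hRfs]
  -- split the sum
  have hdisj1 : Disjoint (S₀.biUnion Zf) Zi := by
    rw [Finset.disjoint_left]
    intro v hv hvi
    obtain ⟨a, -, hva⟩ := Finset.mem_biUnion.mp hv
    exact not_pos_ord_sub_of_pos_ord_inv v j a ((hZi_mem v).mp hvi) ((hZf_mem a v).mp hva)
  have hdisj2 : (S₀ : Set K).PairwiseDisjoint Zf := by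
    intro a _ b _ hab
    rw [Function.onFun, Finset.disjoint_left]
    intro v hva hvb
    exact hab (point_unique v j ((hZf_mem a v).mp hva) ((hZf_mem b v).mp hvb))
  rw [hT, Finset.sum_union hdisj1, Finset.sum_biUnion hdisj2]
  have h1 : ∀ a ∈ S₀, ∑ v ∈ Zf a, R v = (Nat.card X : ℤ) - numOrbits (dataFin a).perm := by
    intro a _
    rw [← hZf_sum a]
    exact Finset.sum_congr rfl fun v hv => hRfin a v ((hZf_mem a v).mp hv)
  have h2 : ∑ v ∈ Zi, R v = -(Nat.card X : ℤ) - numOrbits dataInf.perm := by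
    rw [← hZi_sum]
    exact Finset.sum_congr rfl fun v hv => hRinf v ((hZi_mem v).mp hv)
  rw [Finset.sum_congr rfl h1, h2]
  ring

end Global

end Fermat.Agent.S24

end
end
-- ===== PACK-END S24/Alg.lean

-- ===== PACK-BEGIN S18/H564/ConstF.lean
section




/-!
# S18 / T2 (helper564): `CONST_F` — a function without zeros is constant (char 0)

* `exists_const_of_forall_ord_eq_zero` : generic form, for any function field `F/K`
  (`K` algebraically closed of characteristic `0`) having a coordinate `t`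
  (`t` transcendental, `F/K(t)` finite): `u ≠ const ⇒ u` has a zero.  From the fundamental
  identity `∑_{v(u) > 0} ord_v u = [F : K(u)]` (S24, `FF.sum_ord_pos_eq_finrank`, on main).
* `constOfOrdZero_modularFunctionFieldBar N` : the instance `F = ℚ̄(j(q^d) : d ∣ N)`; its
  statement is (defeq to) helper94's `ConstOfOrdZero (AlgebraicClosure ℚ) (modularFunctionFieldBar N)`.
-/

set_option autoImplicit false

noncomputable section

open AlgebraicCurve ModularCurve IntermediateField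

namespace Fermat.Agent.S18.H564

section Generic

variable {K F : Type*} [Field K] [Field F] [Algebra K F] [IsAlgClosed K] [CharZero K]

/-- A non-constant function has a zero. -/
theorem exists_ord_pos_of_transcendental (t : F) (ht : Transcendental K t)
    [FiniteDimensional K⟮t⟯ F] {u : F} (hu : Transcendental K u) :
    ∃ v : Place K F, 0 < v.ord u := by
  have hcoord0 : Fermat.Agent.S24.FF.IsCoord K t := ⟨ht, inferInstance⟩
  have hcoord : Fermat.Agent.S24.FF.IsCoord K u :=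
    Fermat.Agent.S24.FF.IsCoord.of_transcendental (x := t) hu
  have : FiniteDimensional K⟮u⟯ F := hcoord.finite
  have hsum := Fermat.Agent.S24.FF.sum_ord_pos_eq_finrank (K := K) (F := F) hu
  by_contra hne
  have hempty : (Fermat.Agent.S24.FF.finite_setOf_ord_pos (K := K) (F := F) hu).toFinset = ∅ := by
    rw [Finset.eq_empty_iff_forall_notMem]
    intro v hv
    rw [Set.Finite.mem_toFinset] at hv
    exact hne ⟨v, hv⟩
  rw [hempty, Finset.sum_empty] at hsum
  have hpos : 0 < Module.finrank K⟮u⟯ F := Module.finrank_pos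
  omega

/-- **CONST_F, generic form.** -/
theorem exists_const_of_forall_ord_eq_zero (t : F) (ht : Transcendental K t)
    [FiniteDimensional K⟮t⟯ F] (u : F) (hu : ∀ v : Place K F, v.ord u = 0) :
    ∃ c : K, u = algebraMap K F c := by
  by_contra hne
  have hu_tr : Transcendental K u := by
    intro halg
    obtain ⟨c, hc⟩ := Fermat.Agent.S24.exists_algebraMap_eq_of_isAlgebraic halg
    exact hne ⟨c, hc.symm⟩
  obtain ⟨v, hv⟩ := exists_ord_pos_of_transcendental t ht hu_tr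
  rw [hu v] at hv
  exact lt_irrefl _ hv

end Generic

/-- `j` is a coordinate of the function field of `X₀(N)` over `ℚ̄`. -/
theorem transcendental_jF (N : ℕ) [NeZero N] :
    Transcendental (AlgebraicClosure ℚ) (Fermat.Agent.S24.jF N) := by
  obtain ⟨P⟩ := Fermat.Agent.S24.nonempty_modularPackage N
  have : Nonempty (Fermat.Agent.S24.XX N) := ⟨((1 : Matrix.SpecialLinearGroup (Fin 2) ℤ) :
    Fermat.Agent.S24.XX N)⟩
  exact Fermat.Agent.S24.transcendental_of_localData_inv (Fermat.Agent.S24.jF N) P.dataInf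

theorem finiteDimensional_jF (N : ℕ) [NeZero N] :
    FiniteDimensional (AlgebraicClosure ℚ)⟮Fermat.Agent.S24.jF N⟯
      ↥(modularFunctionFieldBar N) := by
  obtain ⟨P⟩ := Fermat.Agent.S24.nonempty_modularPackage N
  exact P.finiteDimensional

/-- **T2 = CONST_F** for `F = modularFunctionFieldBar N`
(= helper94's `ConstOfOrdZero (AlgebraicClosure ℚ) (modularFunctionFieldBar N)`, unfolded). -/
theorem constOfOrdZero_modularFunctionFieldBar (N : ℕ) [NeZero N] :
    ∀ u : ↥(modularFunctionFieldBar N), u ≠ 0 →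
      (∀ v : Place (AlgebraicClosure ℚ) ↥(modularFunctionFieldBar N), v.ord u = 0) →
      ∃ c : AlgebraicClosure ℚ,
        u = algebraMap (AlgebraicClosure ℚ) ↥(modularFunctionFieldBar N) c := by
  intro u _ hu
  have := finiteDimensional_jF N
  exact exists_const_of_forall_ord_eq_zero (Fermat.Agent.S24.jF N) (transcendental_jF N) u hu

/-- A non-constant modular function has a zero (and, applied to `u⁻¹`, a pole). -/
theorem exists_ord_pos_modularFunctionFieldBar (N : ℕ) [NeZero N]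
    {u : ↥(modularFunctionFieldBar N)} (hu : Transcendental (AlgebraicClosure ℚ) u) :
    ∃ v : Place (AlgebraicClosure ℚ) ↥(modularFunctionFieldBar N), 0 < v.ord u := by
  have := finiteDimensional_jF N
  exact exists_ord_pos_of_transcendental (Fermat.Agent.S24.jF N) (transcendental_jF N) hu

end Fermat.Agent.S18.H564

end
end
-- ===== PACK-END S18/H564/ConstF.lean

-- ===== PACK-BEGIN S29/M4b/H822/K4Basic.lean
section
/-
S29 / M4b (helper822): PIECES `K4-ADD` (`isKum_add`) and `K4-INJ` (`isKum_zero_right`) of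
`M4b/Skeleton.lean`, exact statements.  Sorry-free.
-/




set_option autoImplicit false

noncomputable section

open ModularCurve AlgebraicCurve CongruenceSubgroup UpperHalfPlane
open scoped MatrixGroups Manifold

namespace Fermat.Agent.S29.M4b.H822

open Fermat.Agent.S24 Fermat.Agent.S29 Fermat.Agent.S29.M4b

variable (N : ℕ) [NeZero N] (p : ℕ) [NeZero p]

/-- A function which is not the zero function has a point of non-vanishing. -/
theorem exists_ne_zero_of_ne_zero {G : ℍ → ℂ} (h : G ≠ 0) : ∃ τ : ℍ, G τ ≠ 0 := by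
  by_contra hh
  exact h (funext fun τ => not_not.mp fun hτ => hh ⟨τ, hτ⟩)

/-- PIECE `K4-ADD`: additivity of the Kummer relation. -/
theorem isKum_add {c c' : G0 N → ZMod p} {x x' : JZero N}
    (h : IsKum N p c x) (h' : IsKum N p c' x') : IsKum N p (c + c') (x + x') := by
  obtain ⟨f, t, U, ht, hx, hU, hr⟩ := h
  obtain ⟨f', t', U', ht', hx', hU', hr'⟩ := h'
  have hfun : (fun τ => (U τ * U' τ) ^ p) = (fun τ => U τ ^ p) * (fun τ => U' τ ^ p) := by
    funext τ
    simp [mul_pow]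
  have hreal : Realises N (f * f' * (t * t') ^ p) (fun τ => (U τ * U' τ) ^ p) := by
    have h1 := realises_mul hr hr'
    rw [hfun]
    have h2 : f * f' * (t * t') ^ p = f * t ^ p * (f' * t' ^ p) := by ring
    rw [h2]
    exact h1
  refine ⟨f * f', t * t', fun τ => U τ * U' τ, mul_ne_zero ht ht', hx.add hx', ?_, hreal⟩
  refine ⟨hU.mdiff.mul hU'.mdiff, ?_, hasChar_mul hU.hasChar hU'.hasChar, hreal.1⟩
  have hne : f * f' * (t * t') ^ p ≠ 0 :=
    mul_ne_zero (mul_ne_zero hx.ne_zero hx'.ne_zero) (pow_ne_zero _ (mul_ne_zero ht ht'))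
  obtain ⟨τ, hτ⟩ := exists_ne_zero_of_ne_zero (realises_ne_zero hreal hne)
  refine ⟨τ, fun h0 => hτ ?_⟩
  show (U τ * U' τ) ^ p = 0
  rw [h0, zero_pow (NeZero.ne p)]

/-- PIECE `K4-INJ`: only the trivial character has Kummer class `0`. -/
theorem isKum_zero_right {c : G0 N → ZMod p} (h : IsKum N p c (0 : JZero N)) : c = 0 := by
  obtain ⟨f, t, U, ht, hx, hU, hr⟩ := h
  have hp0 : (p : ℤ) ≠ 0 := by exact_mod_cast NeZero.ne p
  have hpn : p ≠ 0 := NeZero.ne p
  obtain ⟨g, hg, hfg⟩ := (hx.eq_zero_iff hp0).mp rfl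
  have hf0 := hx.ne_zero
  -- `f / g ^ p` is a constant
  have hu : ∀ v : Place Kbar (FF N), v.ord (f / g ^ p) = 0 := by
    intro v
    have hpow : v.ord (g ^ p) = (p : ℤ) * v.ord g := by
      rw [← zpow_natCast, Place.ord_zpow]
    rw [div_eq_mul_inv, Place.ord_mul v hf0 (inv_ne_zero (pow_ne_zero _ hg)), Place.ord_inv,
      hpow, hfg v]
    ring
  obtain ⟨a0, ha0⟩ := Fermat.Agent.S18.H564.constOfOrdZero_modularFunctionFieldBar N (f / g ^ p)
    (div_ne_zero hf0 (pow_ne_zero _ hg)) hu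
  obtain ⟨b0, hb0⟩ := IsAlgClosed.exists_pow_nat_eq a0 (Nat.pos_of_ne_zero hpn)
  -- `f * t ^ p = v ^ p`
  set v : FF N := algebraMap Kbar (FF N) b0 * g * t with hv
  have hvp : v ^ p = f * t ^ p := by
    have h1 : f = algebraMap Kbar (FF N) a0 * g ^ p := by
      rw [← ha0, div_mul_cancel₀ _ (pow_ne_zero _ hg)]
    rw [hv, mul_pow, mul_pow, ← map_pow, hb0, ← h1]
  have hv0 : v ≠ 0 := by
    intro h0
    have : f * t ^ p = 0 := by rw [← hvp, h0, zero_pow hpn]
    exact (mul_ne_zero hf0 (pow_ne_zero _ ht)) this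
  -- `v = A / B` with `A, B` polynomials in the `j(q^d)`
  obtain ⟨A, B, hB0, hvAB⟩ := H997.exists_div_inclRN N v
  have hB0' : H997.inclRN N B ≠ 0 := fun h0 =>
    hB0 (H997.inclRN_injective N (by rw [h0, map_zero]))
  have hA0' : H997.inclRN N A ≠ 0 := by
    intro h0
    rw [h0, zero_div] at hvAB
    exact hv0 hvAB
  obtain ⟨GA, hGA⟩ := exists_realises_of_mem_AK (a := H997.inclRN N A) A.2
  obtain ⟨GB, hGB⟩ := exists_realises_of_mem_AK (a := H997.inclRN N B) B.2
  have h3 : f * t ^ p * (H997.inclRN N B) ^ p = (H997.inclRN N A) ^ p := by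
    rw [← hvp, ← mul_pow, hvAB, div_mul_cancel₀ _ hB0']
  have h1 : Realises N ((H997.inclRN N A) ^ p) ((fun τ => U τ ^ p) * GB ^ p) := by
    have := realises_mul hr (realises_pow hGB p)
    rwa [h3] at this
  have h4 : (fun τ => U τ ^ p) * GB ^ p = GA ^ p := realises_unique_right h1 (realises_pow hGA p)
  have h5 : ∀ τ : ℍ, (U τ * GB τ) ^ p = GA τ ^ p := by
    intro τ
    have := congrFun h4 τ
    simp only [Pi.mul_apply, Pi.pow_apply] at this
    rw [mul_pow]
    exact this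
  obtain ⟨τ₀, hτ₀⟩ := exists_ne_zero_of_ne_zero (realises_ne_zero hGA hA0')
  have hUB0 : U τ₀ * GB τ₀ ≠ 0 := by
    intro h0
    have := h5 τ₀
    rw [h0, zero_pow hpn] at this
    exact hτ₀ (pow_eq_zero_iff hpn |>.mp this.symm)
  set z : ℂ := U τ₀ * GB τ₀ / GA τ₀ with hz
  have hzp : z ^ p = 1 := by
    rw [hz, div_pow, h5 τ₀, div_self (pow_ne_zero _ hτ₀)]
  have hGAmd : MDifferentiable 𝓘(ℂ) 𝓘(ℂ) GA := hGA.1.1
  have hGBmd : MDifferentiable 𝓘(ℂ) 𝓘(ℂ) GB := hGB.1.1
  have hEq : (fun τ => U τ * GB τ) = fun τ => z * GA τ := by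
    refine H751.eq_of_pow_eq_UHP (hU.mdiff.mul hGBmd) (mdifferentiable_const.mul hGAmd) hpn
      (fun τ => ?_) (τ₀ := τ₀) ?_ hUB0
    · show (U τ * GB τ) ^ p = (z * GA τ) ^ p
      rw [mul_pow z, hzp, one_mul, h5 τ]
    · show U τ₀ * GB τ₀ = z * GA τ₀
      rw [hz, div_mul_cancel₀ _ hτ₀]
  funext γ
  have hinvA : GA ((γ : SL(2, ℤ)) • τ₀) = GA τ₀ := hGA.1.2.1 _ γ.2 τ₀
  have hinvB : GB ((γ : SL(2, ℤ)) • τ₀) = GB τ₀ := hGB.1.2.1 _ γ.2 τ₀
  have e1 := congrFun hEq ((γ : SL(2, ℤ)) • τ₀)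
  have e2 := congrFun hEq τ₀
  rw [hinvA, hinvB, ← e2, hU.hasChar γ τ₀] at e1
  have e3 : (zetaP p ^ (c γ).val - 1) * (U τ₀ * GB τ₀) = 0 := by
    linear_combination e1
  rcases mul_eq_zero.mp e3 with h | h
  · exact (zetaP_pow_val_eq_one_iff p (c γ)).mp (sub_eq_zero.mp h)
  · exact absurd h hUB0

end Fermat.Agent.S29.M4b.H822

end
end
-- ===== PACK-END S29/M4b/H822/K4Basic.lean

-- ===== PACK-BEGIN S48/Kum/Basic.lean
section
/-
Tower A1 / A1-KUM (helper822): basic API for the frozen definitions of `Kum/Defs.lean`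
(good functions, characters, realisations).  Generic port of `S29/M4b/H822/Basic.lean`.
-/




set_option autoImplicit false

noncomputable section

open ModularCurve AlgebraicCurve UpperHalfPlane
open scoped MatrixGroups Manifold

namespace Fermat.Agent.S48.Kum

open Fermat.Agent.S24 Fermat.Agent.S29 Fermat.Agent.S29.M4b Fermat.Agent.S29.M4b.H822

/-! ### Good functions -/

section Good

variable {Γ : Subgroup SL(2, ℤ)}

theorem isGood_const (Γ : Subgroup SL(2, ℤ)) (c : ℂ) : IsGood Γ (fun _ => c) :=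
  ⟨mdifferentiable_const, fun _ _ _ => rfl, fun _ => H648.expGrowth_const c⟩

theorem IsGood.mul {G H : ℍ → ℂ} (hG : IsGood Γ G) (hH : IsGood Γ H) : IsGood Γ (G * H) := by
  obtain ⟨h1, h2, h3⟩ := hG
  obtain ⟨h1', h2', h3'⟩ := hH
  refine ⟨h1.mul h1', fun γ hγ τ => ?_, fun g => ?_⟩
  · show G (γ • τ) * H (γ • τ) = G τ * H τ
    rw [h2 γ hγ τ, h2' γ hγ τ]
  · exact (h3 g).mul (h3' g)

theorem IsGood.pow {G : ℍ → ℂ} (hG : IsGood Γ G) (n : ℕ) : IsGood Γ (G ^ n) := by
  induction n with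
  | zero =>
    have : (G ^ 0 : ℍ → ℂ) = fun _ => (1 : ℂ) := by
      funext τ
      simp
    rw [this]
    exact isGood_const Γ 1
  | succ n ih =>
    rw [pow_succ]
    exact ih.mul hG

theorem IsGood.mono {Γ' : Subgroup SL(2, ℤ)} {G : ℍ → ℂ} (h : IsGood Γ' G) (hle : Γ ≤ Γ') :
    IsGood Γ G :=
  ⟨h.1, fun γ hγ τ => h.2.1 γ (hle hγ) τ, h.2.2⟩

/-- A `Γ`-good function is good for the trivial level: it lies in `goodRing 0`
(`Γ₀(0) = {± T ^ n}`), provided `T ∈ Γ`. -/
theorem IsGood.periodic {G : ℍ → ℂ} (hG : IsGood Γ G) (hT : ModularGroup.T ∈ Γ) :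
    Function.Periodic (G ∘ ofComplex) (1 : ℝ) := by
  intro w
  by_cases hw : 0 < Complex.im w
  · have hw' : 0 < Complex.im (w + ((1 : ℝ) : ℂ)) := by simpa using hw
    simp only [Function.comp_apply, ofComplex_apply_of_im_pos hw', ofComplex_apply_of_im_pos hw]
    have h := hG.2.1 _ hT ⟨w, hw⟩
    rw [← h]
    congr 1
    apply UpperHalfPlane.ext
    rw [UpperHalfPlane.modular_T_smul, UpperHalfPlane.coe_vadd]
    simp [add_comm]
  · have hw0 : Complex.im w ≤ 0 := not_lt.mp hw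
    have hw' : Complex.im (w + ((1 : ℝ) : ℂ)) ≤ 0 := by simpa using hw0
    simp only [Function.comp_apply]
    rw [ofComplex_apply_of_im_nonpos hw', ofComplex_apply_of_im_nonpos hw0]

theorem IsGood.isMerInf {G : ℍ → ℂ} (hG : IsGood Γ G) (hT : ModularGroup.T ∈ Γ) :
    H708.IsMerInf 1 G := by
  refine ⟨hG.1, ?_, ?_⟩
  · have := hG.periodic hT
    simpa using this
  · have h := hG.2.2 1
    simp only [one_smul] at h
    exact H882.isBounded_mul_qh_pow_of_expGrowth h

theorem IsGood.hasQExp {G : ℍ → ℂ} (hG : IsGood Γ G) (hT : ModularGroup.T ∈ Γ) :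
    H708.HasQExp 1 G (H708.qexpFun 1 G) :=
  H708.HasQExp.of_isMerInf (hG.isMerInf hT)

/-- A holomorphic `Γ`-invariant function whose `p`-th power is good is good. -/
theorem isGood_of_pow {V : ℍ → ℂ} {p : ℕ} (hp : p ≠ 0)
    (hV : MDifferentiable 𝓘(ℂ) 𝓘(ℂ) V)
    (hinv : ∀ γ ∈ Γ, ∀ τ : ℍ, V (γ • τ) = V τ)
    (hpow : IsGood Γ (fun τ => V τ ^ p)) : IsGood Γ V :=
  ⟨hV, hinv, fun g => expGrowth_of_pow hp (hpow.2.2 g)⟩

end Good

/-! ### Characters -/

section Char

variable {Γ : Subgroup SL(2, ℤ)} {p : ℕ} [NeZero p]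

theorem hasChar_mul {c c' : Γ → ZMod p} {U U' : ℍ → ℂ}
    (h : _root_.Fermat.Agent.S48.Kum.HasChar Γ p c U) (h' : _root_.Fermat.Agent.S48.Kum.HasChar Γ p c' U') :
    _root_.Fermat.Agent.S48.Kum.HasChar Γ p (c + c') (fun τ => U τ * U' τ) := by
  intro γ τ
  show U _ * U' _ = _
  rw [h γ τ, h' γ τ, Pi.add_apply, zetaP_pow_val_add]
  ring

theorem hasChar_pow_invariant {c : Γ → ZMod p} {U : ℍ → ℂ}
    (h : _root_.Fermat.Agent.S48.Kum.HasChar Γ p c U) (γ : Γ) (τ : ℍ) :
    U ((γ : SL(2, ℤ)) • τ) ^ p = U τ ^ p := by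
  rw [h γ τ, mul_pow, ← pow_mul, mul_comm (c γ).val p, pow_mul, zetaP_pow_self, one_pow, one_mul]

end Char

/-! ### Realisations -/

section Realises

variable {Γ : Subgroup SL(2, ℤ)} {F : KF}

theorem Realises.isGood {u : F} {G : ℍ → ℂ} (h : _root_.Fermat.Agent.S48.Kum.Realises Γ F u G) : IsGood Γ G := h.1

theorem Realises.hasQExp (hT : ModularGroup.T ∈ Γ) {u : F} {G : ℍ → ℂ}
    (h : _root_.Fermat.Agent.S48.Kum.Realises Γ F u G) :
    H708.HasQExp 1 G (coeffMap Deg457.iotaC ((u : F) : LaurentSeries Kbar)) :=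
  ⟨h.1.isMerInf hT, h.2⟩

theorem realises_of_hasQExp {u : F} {G : ℍ → ℂ} (hG : IsGood Γ G)
    (h : H708.HasQExp 1 G (coeffMap Deg457.iotaC ((u : F) : LaurentSeries Kbar))) :
    _root_.Fermat.Agent.S48.Kum.Realises Γ F u G :=
  ⟨hG, h.2⟩

theorem Realises.mul (hT : ModularGroup.T ∈ Γ) {u v : F} {G H : ℍ → ℂ}
    (hu : _root_.Fermat.Agent.S48.Kum.Realises Γ F u G) (hv : _root_.Fermat.Agent.S48.Kum.Realises Γ F v H) : _root_.Fermat.Agent.S48.Kum.Realises Γ F (u * v) (G * H) := by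
  refine _root_.Fermat.Agent.S48.Kum.realises_of_hasQExp (hu.1.mul hv.1) ?_
  have := (hu.hasQExp hT).mul (hv.hasQExp hT)
  simpa using this

theorem Realises.pow (hT : ModularGroup.T ∈ Γ) {u : F} {G : ℍ → ℂ}
    (hu : _root_.Fermat.Agent.S48.Kum.Realises Γ F u G) (n : ℕ) : _root_.Fermat.Agent.S48.Kum.Realises Γ F (u ^ n) (G ^ n) := by
  refine _root_.Fermat.Agent.S48.Kum.realises_of_hasQExp (hu.1.pow n) ?_
  have := (hu.hasQExp hT).pow n
  simpa using this

/-- A realisation of a nonzero element is not the zero function. -/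
theorem Realises.ne_zero (hT : ModularGroup.T ∈ Γ) {u : F} {G : ℍ → ℂ}
    (h : _root_.Fermat.Agent.S48.Kum.Realises Γ F u G) (hu : u ≠ 0) : G ≠ 0 := by
  intro hG
  have h1 := ((h.hasQExp hT).eq_zero_iff).mpr hG
  have h2 : ((u : F) : LaurentSeries Kbar) = 0 :=
    coeffMap_iotaC_injective (by rw [h1, map_zero])
  exact hu (Subtype.ext h2)

/-- The realised element is determined by the function. -/
theorem Realises.unique_left {u v : F} {G : ℍ → ℂ} (hu : _root_.Fermat.Agent.S48.Kum.Realises Γ F u G)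
    (hv : _root_.Fermat.Agent.S48.Kum.Realises Γ F v G) : u = v := by
  apply Subtype.ext
  apply coeffMap_iotaC_injective
  rw [← hu.2, ← hv.2]

/-- The function is determined by the realised element. -/
theorem Realises.unique_right (hT : ModularGroup.T ∈ Γ) {u : F} {G H : ℍ → ℂ}
    (hG : _root_.Fermat.Agent.S48.Kum.Realises Γ F u G) (hH : _root_.Fermat.Agent.S48.Kum.Realises Γ F u H) : G = H :=
  (hG.hasQExp hT).eq_of_eq (hH.hasQExp hT)

end Realises

end Fermat.Agent.S48.Kum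

end
end
-- ===== PACK-END S48/Kum/Basic.lean

-- ===== PACK-BEGIN S48/Kum/K4.lean
section
/-
Tower A1 / A1-KUM (helper822): the pieces `K4-ADD`, `K4-INJ`, `K4-UNIQ` of the Kummer map,
GENERIC in `(Γ, F)`, from the dictionary axioms `DictInter`, `DictMero` and the constant-field
property of `F`.  Generic port of `S29/M4b/H822/{K4Basic,K4Uniq}.lean`.
-/



set_option autoImplicit false

noncomputable section

open ModularCurve AlgebraicCurve UpperHalfPlane
open scoped MatrixGroups Manifold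

namespace Fermat.Agent.S48.Kum

open Fermat.Agent.S24 Fermat.Agent.S29 Fermat.Agent.S29.M4b Fermat.Agent.S29.M4b.H822

/-- CONST: an element of `F` without zeros and poles is a constant. -/
def DictConst (F : KF) : Prop :=
  ∀ u : F, u ≠ 0 → (∀ v : Place Kbar F, v.ord u = 0) → ∃ a : Kbar, u = algebraMap Kbar F a

variable {Γ : Subgroup SL(2, ℤ)} {F : KF} {p : ℕ}

/-- PIECE `K4-ADD`: additivity of the Kummer relation. -/
theorem isKum_add [NeZero p] (hT : ModularGroup.T ∈ Γ) {c c' : Γ → ZMod p}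
    {x x' : Pic0 Kbar F} (h : _root_.Fermat.Agent.S48.Kum.IsKum Γ F p c x) (h' : _root_.Fermat.Agent.S48.Kum.IsKum Γ F p c' x') :
    _root_.Fermat.Agent.S48.Kum.IsKum Γ F p (c + c') (x + x') := by
  obtain ⟨f, t, U, ht, hx, hU, hr⟩ := h
  obtain ⟨f', t', U', ht', hx', hU', hr'⟩ := h'
  have hfun : (fun τ => (U τ * U' τ) ^ p) = (fun τ => U τ ^ p) * (fun τ => U' τ ^ p) := by
    funext τ
    simp [mul_pow]
  have hreal : _root_.Fermat.Agent.S48.Kum.Realises Γ F (f * f' * (t * t') ^ p) (fun τ => (U τ * U' τ) ^ p) := by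
    have h1 := hr.mul hT hr'
    rw [hfun]
    have h2 : f * f' * (t * t') ^ p = f * t ^ p * (f' * t' ^ p) := by ring
    rw [h2]
    exact h1
  refine ⟨f * f', t * t', fun τ => U τ * U' τ, mul_ne_zero ht ht', hx.add hx', ?_, hreal⟩
  refine ⟨hU.mdiff.mul hU'.mdiff, ?_, _root_.Fermat.Agent.S48.Kum.hasChar_mul hU.hasChar hU'.hasChar, hreal.1⟩
  have hne : f * f' * (t * t') ^ p ≠ 0 :=
    mul_ne_zero (mul_ne_zero hx.ne_zero hx'.ne_zero) (pow_ne_zero _ (mul_ne_zero ht ht'))
  obtain ⟨τ, hτ⟩ := exists_ne_zero_of_ne_zero (hreal.ne_zero hT hne)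
  refine ⟨τ, fun h0 => hτ ?_⟩
  show (U τ * U' τ) ^ p = 0
  rw [h0, zero_pow (NeZero.ne p)]

/-- PIECE `K4-INJ`: only the trivial character has Kummer class `0`. -/
theorem isKum_zero_right [NeZero p] (hT : ModularGroup.T ∈ Γ) (hmero : DictMero Γ F)
    (hconst : DictConst F) {c : Γ → ZMod p} (h : _root_.Fermat.Agent.S48.Kum.IsKum Γ F p c (0 : Pic0 Kbar F)) : c = 0 := by
  obtain ⟨f, t, U, ht, hx, hU, hr⟩ := h
  have hp0 : (p : ℤ) ≠ 0 := by exact_mod_cast NeZero.ne p
  have hpn : p ≠ 0 := NeZero.ne p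
  obtain ⟨g, hg, hfg⟩ := (hx.eq_zero_iff hp0).mp rfl
  have hf0 := hx.ne_zero
  -- `f / g ^ p` is a constant
  have hu : ∀ v : Place Kbar F, v.ord (f / g ^ p) = 0 := by
    intro v
    have hpow : v.ord (g ^ p) = (p : ℤ) * v.ord g := by
      rw [← zpow_natCast, Place.ord_zpow]
    rw [div_eq_mul_inv, Place.ord_mul v hf0 (inv_ne_zero (pow_ne_zero _ hg)), Place.ord_inv,
      hpow, hfg v]
    ring
  obtain ⟨a0, ha0⟩ := hconst (f / g ^ p) (div_ne_zero hf0 (pow_ne_zero _ hg)) hu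
  obtain ⟨b0, hb0⟩ := IsAlgClosed.exists_pow_nat_eq a0 (Nat.pos_of_ne_zero hpn)
  -- `f * t ^ p = v ^ p`
  set v : F := algebraMap Kbar F b0 * g * t with hv
  have hvp : v ^ p = f * t ^ p := by
    have h1 : f = algebraMap Kbar F a0 * g ^ p := by
      rw [← ha0, div_mul_cancel₀ _ (pow_ne_zero _ hg)]
    rw [hv, mul_pow, mul_pow, ← map_pow, hb0, ← h1]
  have hv0 : v ≠ 0 := by
    intro h0
    have : f * t ^ p = 0 := by rw [← hvp, h0, zero_pow hpn]
    exact (mul_ne_zero hf0 (pow_ne_zero _ ht)) this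
  -- `v = A / B` with `A, B` realised
  obtain ⟨A, B, GA, GB, hB0, hvAB, hGA, hGB⟩ := hmero v
  have hA0 : A ≠ 0 := by
    rw [← hvAB]
    exact mul_ne_zero hv0 hB0
  have h3 : f * t ^ p * B ^ p = A ^ p := by
    rw [← hvp, ← mul_pow, hvAB]
  have h1 : _root_.Fermat.Agent.S48.Kum.Realises Γ F (A ^ p) ((fun τ => U τ ^ p) * GB ^ p) := by
    have := hr.mul hT (hGB.pow hT p)
    rwa [h3] at this
  have h4 : (fun τ => U τ ^ p) * GB ^ p = GA ^ p := h1.unique_right hT (hGA.pow hT p)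
  have h5 : ∀ τ : ℍ, (U τ * GB τ) ^ p = GA τ ^ p := by
    intro τ
    have := congrFun h4 τ
    simp only [Pi.mul_apply, Pi.pow_apply] at this
    rw [mul_pow]
    exact this
  obtain ⟨τ₀, hτ₀⟩ := exists_ne_zero_of_ne_zero (hGA.ne_zero hT hA0)
  have hUB0 : U τ₀ * GB τ₀ ≠ 0 := by
    intro h0
    have := h5 τ₀
    rw [h0, zero_pow hpn] at this
    exact hτ₀ (pow_eq_zero_iff hpn |>.mp this.symm)
  set z : ℂ := U τ₀ * GB τ₀ / GA τ₀ with hz
  have hzp : z ^ p = 1 := by
    rw [hz, div_pow, h5 τ₀, div_self (pow_ne_zero _ hτ₀)]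
  have hGAmd : MDifferentiable 𝓘(ℂ) 𝓘(ℂ) GA := hGA.1.1
  have hGBmd : MDifferentiable 𝓘(ℂ) 𝓘(ℂ) GB := hGB.1.1
  have hEq : (fun τ => U τ * GB τ) = fun τ => z * GA τ := by
    refine H751.eq_of_pow_eq_UHP (hU.mdiff.mul hGBmd) (mdifferentiable_const.mul hGAmd) hpn
      (fun τ => ?_) (τ₀ := τ₀) ?_ hUB0
    · show (U τ * GB τ) ^ p = (z * GA τ) ^ p
      rw [mul_pow z, hzp, one_mul, h5 τ]
    · show U τ₀ * GB τ₀ = z * GA τ₀
      rw [hz, div_mul_cancel₀ _ hτ₀]
  funext γ
  have hinvA : GA ((γ : SL(2, ℤ)) • τ₀) = GA τ₀ := hGA.1.2.1 _ γ.2 τ₀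
  have hinvB : GB ((γ : SL(2, ℤ)) • τ₀) = GB τ₀ := hGB.1.2.1 _ γ.2 τ₀
  have e1 := congrFun hEq ((γ : SL(2, ℤ)) • τ₀)
  have e2 := congrFun hEq τ₀
  rw [hinvA, hinvB, ← e2, hU.hasChar γ τ₀] at e1
  have e3 : (zetaP p ^ (c γ).val - 1) * (U τ₀ * GB τ₀) = 0 := by
    linear_combination e1
  rcases mul_eq_zero.mp e3 with h | h
  · exact (zetaP_pow_val_eq_one_iff p (c γ)).mp (sub_eq_zero.mp h)
  · exact absurd h hUB0

/-- PIECE `K4-UNIQ`: the Kummer class of a character is unique. -/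
theorem isKum_unique [NeZero p] (hT : ModularGroup.T ∈ Γ) (hinter : DictInter Γ F)
    {c : Γ → ZMod p} {x x' : Pic0 Kbar F}
    (h : _root_.Fermat.Agent.S48.Kum.IsKum Γ F p c x) (h' : _root_.Fermat.Agent.S48.Kum.IsKum Γ F p c x') : x = x' := by
  obtain ⟨f, t, U, ht, hx, hU, hr⟩ := h
  obtain ⟨f', t', U', ht', hx', hU', hr'⟩ := h'
  have hpn : p ≠ 0 := NeZero.ne p
  have hp0 : (p : ℤ) ≠ 0 := by exact_mod_cast hpn
  have hp1 : p - 1 + 1 = p := Nat.sub_add_cancel (Nat.pos_of_ne_zero hpn)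
  -- the invariant function `V = U * U' ^ (p - 1)`
  set V : ℍ → ℂ := fun τ => U τ * U' τ ^ (p - 1) with hVdef
  set w : F := f * t ^ p * (f' * t' ^ p) ^ (p - 1) with hw
  have hVpow : (fun τ => V τ ^ p) = (fun τ => U τ ^ p) * (fun τ => U' τ ^ p) ^ (p - 1) := by
    funext τ
    simp only [hVdef, Pi.mul_apply, Pi.pow_apply, mul_pow]
    rw [← pow_mul, ← pow_mul, mul_comm (p - 1) p]
  have hWreal : _root_.Fermat.Agent.S48.Kum.Realises Γ F w (fun τ => V τ ^ p) := by
    rw [hVpow]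
    exact hr.mul hT (hr'.pow hT (p - 1))
  have hVmd : MDifferentiable 𝓘(ℂ) 𝓘(ℂ) V := hU.mdiff.mul (hU'.mdiff.pow (p - 1))
  have hVinv : ∀ γ ∈ Γ, ∀ τ : ℍ, V (γ • τ) = V τ := by
    intro γ hγ τ
    have e1 := hU.hasChar ⟨γ, hγ⟩ τ
    have e2 := hU'.hasChar ⟨γ, hγ⟩ τ
    simp only at e1 e2
    show U (γ • τ) * U' (γ • τ) ^ (p - 1) = U τ * U' τ ^ (p - 1)
    rw [e1, e2, mul_pow]
    have e3 : zetaP p ^ (c ⟨γ, hγ⟩).val * (zetaP p ^ (c ⟨γ, hγ⟩).val) ^ (p - 1) = 1 := by
      rw [← pow_succ', hp1, ← pow_mul, mul_comm, pow_mul, zetaP_pow_self, one_pow]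
    linear_combination (U τ * U' τ ^ (p - 1)) * e3
  have hVgood : IsGood Γ V := isGood_of_pow hpn hVmd hVinv hWreal.1
  -- its `q`-expansion `s`
  set s : LaurentSeries ℂ := H708.qexpFun 1 V with hsdef
  have hsQ : H708.HasQExp 1 V s := hVgood.hasQExp hT
  have hsp : s ^ p = coeffMap Deg457.iotaC ((w : F) : LaurentSeries Kbar) := by
    have h1 := hsQ.pow p
    have h2 : V ^ p = fun τ => V τ ^ p := rfl
    rw [h2] at h1
    exact h1.unique (hWreal.hasQExp hT)
  -- descent of `s` to `ℚ̄`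
  letI : Algebra Kbar ℂ := algKbarC
  have hys : coeffMap Deg457.iotaC (H32.coeffDown (k := Kbar) s) = s :=
    H32.coeffMap_coeffDown (k := Kbar) (Ω := ℂ) (fun n => coeff_mem_range_of_pow_eq hsp n)
  set y : LaurentSeries Kbar := H32.coeffDown (k := Kbar) s with hydef
  have hy : y ∈ F := hinter V y hVgood hys.symm
  set vv : F := ⟨y, hy⟩ with hvv
  have hvvp : vv ^ p = w := by
    apply Subtype.ext
    apply coeffMap_iotaC_injective
    show coeffMap Deg457.iotaC (((vv ^ p : F) : F) : LaurentSeries Kbar) = _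
    rw [← hsp, ← hys]
    simp only [SubmonoidClass.coe_pow, map_pow]
    rfl
  -- `f * f' ^ (p - 1)` is a `p`-th power
  have hf0 := hx.ne_zero
  have hf0' := hx'.ne_zero
  have hd0 : t * t' ^ (p - 1) ≠ 0 := mul_ne_zero ht (pow_ne_zero _ ht')
  set g : F := vv / (t * t' ^ (p - 1)) with hg
  have hgp : g ^ p = f * f' ^ (p - 1) := by
    rw [hg, div_pow, hvvp, hw]
    rw [div_eq_iff (pow_ne_zero _ hd0)]
    have e1 : (t' ^ p) ^ (p - 1) = (t' ^ (p - 1)) ^ p := by
      rw [← pow_mul, ← pow_mul, mul_comm]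
    rw [mul_pow, mul_pow, e1]
    ring
  have hg0 : g ≠ 0 := by
    intro h0
    rw [h0, zero_pow hpn] at hgp
    exact (mul_ne_zero hf0 (pow_ne_zero _ hf0')) hgp.symm
  have hsum : H455.IsKummerClass (p : ℤ) (f * f' ^ (p - 1)) (x + (p - 1) • x') :=
    hx.add (isKummerClass_pow hx' (p - 1))
  have hzero : x + (p - 1) • x' = 0 := by
    refine (hsum.eq_zero_iff hp0).mpr ⟨g, hg0, fun v => ?_⟩
    rw [← hgp, ← zpow_natCast, Place.ord_zpow]
  have hpx' : (p : ℤ) • x' = 0 := hx'.zsmul_eq_zero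
  have h5 : (p - 1) • x' + x' = 0 := by
    rw [← succ_nsmul, hp1, ← natCast_zsmul]
    exact hpx'
  have h6 : x - x' = 0 := by
    have : x - x' = (x + (p - 1) • x') - ((p - 1) • x' + x') := by abel
    rw [this, hzero, h5, sub_zero]
  exact sub_eq_zero.mp h6

/-! ### The pieces, in the shape of `Kum/Top.lean` -/

theorem pieceAdd (hT : ModularGroup.T ∈ Γ) (hp : p ≠ 0) : PieceAdd Γ F p := by
  haveI : NeZero p := ⟨hp⟩
  intro c c' x x' h h'
  exact _root_.Fermat.Agent.S48.Kum.isKum_add hT h h'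

theorem pieceInj (hT : ModularGroup.T ∈ Γ) (hmero : DictMero Γ F) (hconst : DictConst F)
    (hp : p ≠ 0) : PieceInj Γ F p := by
  haveI : NeZero p := ⟨hp⟩
  intro c h
  exact _root_.Fermat.Agent.S48.Kum.isKum_zero_right hT hmero hconst h

theorem pieceUniq (hT : ModularGroup.T ∈ Γ) (hinter : DictInter Γ F) (hp : p ≠ 0) :
    PieceUniq Γ F p := by
  haveI : NeZero p := ⟨hp⟩
  intro c x x' h h'
  exact _root_.Fermat.Agent.S48.Kum.isKum_unique hT hinter h h'

end Fermat.Agent.S48.Kum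

end
end
-- ===== PACK-END S48/Kum/K4.lean

-- ===== PACK-BEGIN S48/Kum/Hecke.lean
section
/-
Tower A1 / A1-KUM (helper822): the pieces `K4-HECKE` and `K4-DIAMOND` of the Kummer map,
GENERIC in `(Γ, F)`, from the analytic norm formula `NormAn` resp. the diamond formula `DiaAn`.
Generic port of `S29/M4b/H822/Hecke*.lean`.
-/



set_option autoImplicit false

noncomputable section

open ModularCurve AlgebraicCurve UpperHalfPlane
open scoped MatrixGroups Manifold

namespace Fermat.Agent.S48.Kum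

open Fermat.Agent.S24 Fermat.Agent.S29 Fermat.Agent.S29.M4b Fermat.Agent.S29.M4b.H822

variable {Γ : Subgroup SL(2, ℤ)} {F : KF} {p : ℕ}

/-! ### The norm on `F` -/

theorem Corr.norm_mul (C : Corr F) (u v : F) : C.norm (u * v) = C.norm u * C.norm v := by
  unfold Corr.norm
  rw [map_mul, H455.normAlong_mul]

theorem Corr.norm_pow (C : Corr F) (u : F) (n : ℕ) : C.norm (u ^ n) = C.norm u ^ n := by
  unfold Corr.norm
  rw [map_pow, H455.normAlong_pow]

theorem Corr.norm_ne_zero (C : Corr F) {u : F} (hu : u ≠ 0) : C.norm u ≠ 0 :=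
  H455.normAlong_ne_zero C.ψ C.hfin ((map_ne_zero C.φ).mpr hu)

theorem Corr.isKummerClass (C : Corr F) {n : ℤ} {f : F} {x : Pic0 Kbar F}
    (hx : H455.IsKummerClass n f x) : H455.IsKummerClass n (C.norm f) (C.op x) :=
  hx.correspondence C.φ C.ψ C.hφ C.hψ C.hFI C.hfin C.hN

/-! ### The Hecke product of a twisted function -/

section Product

variable {I : Type*} [Fintype I]

theorem SL_smul_eq_mapGL_smul (γ : SL(2, ℤ)) (τ : ℍ) :
    γ • τ = (Matrix.SpecialLinearGroup.mapGL ℝ γ) • τ := rfl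

/-- The transformation law of the Hecke product. -/
theorem hasChar_prod [NeZero p] {A : I → GL (Fin 2) ℝ}
    {c c' : Γ → ZMod p} (htr : IsTransferEx Γ A c c') {U : ℍ → ℂ} (hU : _root_.Fermat.Agent.S48.Kum.HasChar Γ p c U) :
    _root_.Fermat.Agent.S48.Kum.HasChar Γ p c' (fun τ => ∏ i, U (A i • τ)) := by
  intro γ τ
  obtain ⟨π, δ, hδ, hc'⟩ := htr γ
  have h1 : ∀ i, U (A i • ((γ : SL(2, ℤ)) • τ)) =
      zetaP p ^ (c (δ i)).val * U (A (π i) • τ) := by
    intro i
    have e : A i • ((γ : SL(2, ℤ)) • τ) = ((δ i : Γ) : SL(2, ℤ)) • (A (π i) • τ) := by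
      rw [SL_smul_eq_mapGL_smul, SL_smul_eq_mapGL_smul, ← mul_smul, ← mul_smul]
      have := hδ i
      unfold IsFactor at this
      rw [this]
    rw [e, hU (δ i) (A (π i) • τ)]
  show ∏ i, U (A i • ((γ : SL(2, ℤ)) • τ)) = zetaP p ^ (c' γ).val * ∏ i, U (A i • τ)
  rw [Finset.prod_congr rfl (fun i _ => h1 i), Finset.prod_mul_distrib,
    Equiv.prod_comp π (fun j => U (A j • τ))]
  congr 1
  rw [hc']
  -- `∏ ζ ^ (c (δ i)).val = ζ ^ (∑ c (δ i)).val`
  have key : ∀ s : Finset I, ∏ i ∈ s, zetaP p ^ (c (δ i)).val =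
      zetaP p ^ (∑ i ∈ s, c (δ i)).val := by
    classical
    intro s
    induction s using Finset.induction_on with
    | empty => simp
    | insert a s ha ih =>
      rw [Finset.prod_insert ha, Finset.sum_insert ha, ih, zetaP_pow_val_add]
  exact key Finset.univ

theorem mdiff_prod {A : I → GL (Fin 2) ℝ} (hdet : ∀ i, 0 < (A i).det.val) {U : ℍ → ℂ}
    (hU : MDifferentiable 𝓘(ℂ) 𝓘(ℂ) U) :
    MDifferentiable 𝓘(ℂ) 𝓘(ℂ) (fun τ => ∏ i, U (A i • τ)) := by
  classical
  have key : ∀ s : Finset I, MDifferentiable 𝓘(ℂ) 𝓘(ℂ) (fun τ => ∏ i ∈ s, U (A i • τ)) := by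
    intro s
    induction s using Finset.induction_on with
    | empty => simpa using (mdifferentiable_const : MDifferentiable 𝓘(ℂ) 𝓘(ℂ) fun _ : ℍ => (1 : ℂ))
    | insert a s ha ih =>
      have h1 : MDifferentiable 𝓘(ℂ) 𝓘(ℂ) (fun τ : ℍ => U (A a • τ)) :=
        hU.comp (UpperHalfPlane.mdifferentiable_smul (hdet a))
      have : (fun τ => ∏ i ∈ insert a s, U (A i • τ)) =
          (fun τ : ℍ => U (A a • τ)) * (fun τ => ∏ i ∈ s, U (A i • τ)) := by
        funext τ
        rw [Finset.prod_insert ha]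
        rfl
      rw [this]
      exact h1.mul ih
  exact key Finset.univ

end Product

/-! ### The pieces -/

/-- PIECE `K4-HECKE` from the analytic norm formula. -/
theorem pieceHecke_of_normAn (hT : ModularGroup.T ∈ Γ) (hp : p ≠ 0) {I : Type*} [Fintype I]
    (C : Corr F) (A : I → GL (Fin 2) ℝ) (hdet : ∀ i, 0 < (A i).det.val)
    (hN : NormAn Γ F C A) : PieceHecke Γ F p C A := by
  haveI : NeZero p := ⟨hp⟩
  intro c c' htr x h
  obtain ⟨f, t, U, ht, hx, hU, hr⟩ := h
  have hfun : (fun τ => (∏ i, U (A i • τ)) ^ p) = fun τ => ∏ i, (fun σ => U σ ^ p) (A i • τ) := by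
    funext τ
    rw [Finset.prod_pow]
  have hreal : _root_.Fermat.Agent.S48.Kum.Realises Γ F (C.norm f * C.norm t ^ p) (fun τ => (∏ i, U (A i • τ)) ^ p) := by
    have h1 := hN (f * t ^ p) (fun τ => U τ ^ p) hr
    rw [C.norm_mul, C.norm_pow] at h1
    rw [hfun]
    exact h1
  refine ⟨C.norm f, C.norm t, fun τ => ∏ i, U (A i • τ), C.norm_ne_zero ht,
    C.isKummerClass hx, ?_, hreal⟩
  refine ⟨mdiff_prod hdet hU.mdiff, ?_, hasChar_prod htr hU.hasChar, hreal.1⟩
  have hne : C.norm f * C.norm t ^ p ≠ 0 :=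
    mul_ne_zero (C.norm_ne_zero hx.ne_zero) (pow_ne_zero _ (C.norm_ne_zero ht))
  obtain ⟨τ, hτ⟩ := exists_ne_zero_of_ne_zero (hreal.ne_zero hT hne)
  refine ⟨τ, fun h0 => hτ ?_⟩
  show (∏ i, U (A i • τ)) ^ p = 0
  rw [h0, zero_pow hp]

/-- PIECE `K4-DIAMOND` from the diamond formula. -/
theorem pieceDia_of_diaAn (hT : ModularGroup.T ∈ Γ) (hp : p ≠ 0) (δ : SemilinearAut Kbar F)
    (a : SL(2, ℤ)) (ha : ∀ γ ∈ Γ, a * γ * a⁻¹ ∈ Γ) (hD : DiaAn Γ F δ a) :
    PieceDia Γ F p δ a ha := by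
  haveI : NeZero p := ⟨hp⟩
  intro c x h
  obtain ⟨f, t, U, ht, hx, hU, hr⟩ := h
  have hreal : _root_.Fermat.Agent.S48.Kum.Realises Γ F (δ • f * (δ • t) ^ p) (fun τ => U (a • τ) ^ p) := by
    have h1 := hD (f * t ^ p) (fun τ => U τ ^ p) hr
    rwa [smul_mul', smul_pow'] at h1
  have ht' : δ • t ≠ 0 := by
    rw [SemilinearAut.smul_def]
    exact (map_ne_zero _).mpr ht
  have hf' : δ • f ≠ 0 := by
    rw [SemilinearAut.smul_def]
    exact (map_ne_zero _).mpr hx.ne_zero
  refine ⟨δ • f, δ • t, fun τ => U (a • τ), ht', hx.smul δ, ?_, hreal⟩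
  refine ⟨?_, ?_, ?_, hreal.1⟩
  · have h1 : MDifferentiable 𝓘(ℂ) 𝓘(ℂ) (fun τ : ℍ => (Matrix.SpecialLinearGroup.mapGL ℝ a) • τ) :=
      UpperHalfPlane.mdifferentiable_smul (by simp)
    exact hU.mdiff.comp h1
  · have hne : δ • f * (δ • t) ^ p ≠ 0 := mul_ne_zero hf' (pow_ne_zero _ ht')
    obtain ⟨τ, hτ⟩ := exists_ne_zero_of_ne_zero (hreal.ne_zero hT hne)
    refine ⟨τ, fun h0 => hτ ?_⟩
    show U (a • τ) ^ p = 0
    rw [h0, zero_pow hp]
  · intro γ τ
    show U (a • ((γ : SL(2, ℤ)) • τ)) = zetaP p ^ (c (conjΓ Γ a ha γ)).val * U (a • τ)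
    have e : a • ((γ : SL(2, ℤ)) • τ) = ((conjΓ Γ a ha γ : Γ) : SL(2, ℤ)) • (a • τ) := by
      show a • ((γ : SL(2, ℤ)) • τ) = (a * (γ : SL(2, ℤ)) * a⁻¹) • (a • τ)
      rw [← mul_smul, ← mul_smul, mul_assoc, mul_assoc, inv_mul_cancel, mul_one]
    rw [e, hU.hasChar (conjΓ Γ a ha γ) (a • τ)]

end Fermat.Agent.S48.Kum

end
end
-- ===== PACK-END S48/Kum/Hecke.lean

-- ===== PACK-BEGIN S48/Kum/M4b1.lean
section
/-
Tower A1 / A1-KUM (helper822): ASSEMBLY of `Res.M4b1Statement` (the Kummer map for `Γ₁(M)` with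
its Hecke and diamond equivariance, `Fermat/Agent/S48/Res/PartsOcc.lean`) from the LEAVES of the
sub-tower, via the generic Kummer theory of `Kum/{Top,K4,Hecke}.lean`.

  `m4b1_of_leaves : Leaves → Res.M4b1Statement`

`Leaves` (all for `Γ = Γ₁(M)`, `F = F1Bar M = ℚ̄·F₁(M)`):
* `k1`, `k2`, `k3`      : the pieces `PieceK1`, `PieceK2`, `PieceK3`;
* `inter`, `mero`, `const` : the dictionary axioms `DictInter`, `DictMero`, `DictConst`;
* `corr`               : `F1.CorrInputs (beta1) (alpha1)` (so that `hecke1 = α_* β^*`);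
* `norm`               : the analytic norm formula `NormAn1 M p` for the representatives
                         `repA x = σ_p⁻¹ · H548.heckeRep1 x` of `Γ₁ diag(p,1) Γ₁`;
* `dia`                : the diamond formula `DiaAn` for `diamondAut p` and `σ_p⁻¹`.
-/





set_option autoImplicit false

noncomputable section

open CongruenceSubgroup ModularCurve AlgebraicCurve ModularCurve.Period UpperHalfPlane
open scoped MatrixGroups Manifold OnePoint

namespace Fermat.Agent.S48.Kum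

open Fermat.Agent.S24 Fermat.Agent.S29 Fermat.Agent.S48.F1 Fermat.Agent.S48.Res
  Fermat.Agent.S48.H548 Matrix.SpecialLinearGroup

/-! ### Characters of `Γ₁(M)` as functions -/

section OfHom

variable {M : ℕ} {A : Type*} [AddCommGroup A]

/-- The function `Γ₁(M) → A` underlying an additive character. -/
def ofHom (c : Additive (Gamma1 M) →+ A) : Gamma1 M → A := fun γ => c (Additive.ofMul γ)

@[simp] theorem ofHom_apply (c : Additive (Gamma1 M) →+ A) (γ : Gamma1 M) :
    ofHom c γ = c (Additive.ofMul γ) := rfl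

theorem ofHom_add (c c' : Additive (Gamma1 M) →+ A) : ofHom (c + c') = ofHom c + ofHom c' := rfl

theorem eq_zero_of_ofHom {c : Additive (Gamma1 M) →+ A} (h : ofHom c = 0) : c = 0 := by
  ext γ
  exact congrFun h (Additive.toMul γ)

theorem isParHom_ofHom {c : Additive (Gamma1 M) →+ A} (h : IsPar1 c) :
    _root_.Fermat.Agent.S48.Kum.IsParHom (Gamma1 M) (ofHom c) where
  map_mul γ γ' := by
    show c (Additive.ofMul (γ * γ')) = _
    rw [ofMul_mul, map_add]
    rfl
  parabolic γ hγ := h.1 γ (by rcases hγ with h | h <;> rw [h] <;> norm_num)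
  elliptic γ n hn hγ := h.2 γ (isOfFinOrder_iff_pow_eq_one.mpr ⟨n, hn, hγ⟩)

theorem trace_conj_SL (a g : SL(2, ℤ)) :
    ((a * g * a⁻¹ : SL(2, ℤ)) : Matrix (Fin 2) (Fin 2) ℤ).trace
      = (g : Matrix (Fin 2) (Fin 2) ℤ).trace := by
  have h1 : ((a * g * a⁻¹ : SL(2, ℤ)) : Matrix (Fin 2) (Fin 2) ℤ)
      = a.1 * g.1 * (a⁻¹ : SL(2, ℤ)).1 := by
    simp
  rw [h1, Matrix.trace_mul_comm, ← mul_assoc]
  have h2 : (a⁻¹ : SL(2, ℤ)).1 * a.1 = 1 := by
    rw [← Matrix.SpecialLinearGroup.coe_mul, inv_mul_cancel, Matrix.SpecialLinearGroup.coe_one]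
  rw [h2, one_mul]

theorem isPar1_diaHom1 [NeZero M] (a : SL(2, ℤ)) (ha : a ∈ Gamma0 M)
    {c : Additive (Gamma1 M) →+ A} (h : IsPar1 c) : IsPar1 (diaHom1 a ha A c) := by
  refine ⟨fun γ hγ => ?_, fun γ hγ => ?_⟩
  · rw [diaHom1_apply]
    refine h.1 _ ?_
    rw [coe_conj1, trace_conj_SL]
    exact hγ
  · rw [diaHom1_apply]
    refine h.2 _ ?_
    exact (conj1 a ha).isOfFinOrder hγ

end OfHom

/-! ### `T ∈ Γ₁(M)` -/

theorem T_mem_Gamma1 (M : ℕ) : ModularGroup.T ∈ Gamma1 M := by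
  rw [Gamma1_mem]
  simp [ModularGroup.T]

/-! ### The representatives of the adjugate double coset -/

section Rep

variable {M : ℕ} [NeZero M] {p : ℕ} [Fact p.Prime]

/-- The representatives `σ_p⁻¹ · heckeRep1 x` (`x ∈ ℙ¹(𝔽_p)`) of `Γ₁(M) \ Γ₁(M) diag(p,1) Γ₁(M)`:
`repA ∞ = diag(p, 1)`, `repA j = σ_p⁻¹ (1 j; 0 p)`. -/
def repA (hpM : ¬ p ∣ M) (x : OnePoint (ZMod p)) : GL (Fin 2) ℝ :=
  mapGL ℝ (sigmaP M p hpM)⁻¹ * heckeRep1 hpM x

theorem det_repA_pos (hpM : ¬ p ∣ M) (x : OnePoint (ZMod p)) :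
    0 < (repA hpM x).det.val := by
  show 0 < ((repA hpM x : GL (Fin 2) ℝ) : Matrix (Fin 2) (Fin 2) ℝ).det
  unfold repA
  rw [Matrix.GeneralLinearGroup.coe_mul, Matrix.det_mul]
  have h1 : ((mapGL ℝ (sigmaP M p hpM)⁻¹ : GL (Fin 2) ℝ) : Matrix (Fin 2) (Fin 2) ℝ).det = 1 :=
    Fermat.Agent.S21.H381.det_coe_SL _
  rw [h1, one_mul]
  exact det_heckeRep1_pos hpM x

theorem sigmaP_inv_conj_mem (hpM : ¬ p ∣ M) :
    ∀ γ ∈ Gamma1 M, (sigmaP M p hpM)⁻¹ * γ * ((sigmaP M p hpM)⁻¹)⁻¹ ∈ Gamma1 M := fun γ hγ =>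
  conj_mem_Gamma1 _ ((Gamma0 M).inv_mem (sigmaP_mem hpM)) ⟨γ, hγ⟩

/-- The transfer along `repA` of `c ∘ conj σ_p` is `T_p c = heckeHom1 p c`. -/
theorem isTransferEx_repA (hpM : ¬ p ∣ M) {B : Type*} [AddCommGroup B]
    (c : Additive (Gamma1 M) →+ B) :
    IsTransferEx (Gamma1 M) (repA hpM)
      (ofHom (diaHom1 (sigmaP M p hpM) (sigmaP_mem hpM) B c))
      (ofHom (heckeHom1 p hpM B c)) := by
  intro γ
  refine ⟨permOf1 γ, fun x => conjΓ (Gamma1 M) (sigmaP M p hpM)⁻¹ (sigmaP_inv_conj_mem hpM)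
    (trf1 hpM γ x), fun x => ?_, ?_⟩
  · show repA hpM x * mapGL ℝ (γ : SL(2, ℤ)) =
      mapGL ℝ ((sigmaP M p hpM)⁻¹ * ((trf1 hpM γ x : Gamma1 M) : SL(2, ℤ)) *
        ((sigmaP M p hpM)⁻¹)⁻¹) * repA hpM (permOf1 γ x)
    unfold repA
    rw [mul_assoc, trf1_spec hpM γ x, permOf1_apply, inv_inv, map_mul, map_mul, map_inv]
    group
  · rw [ofHom_apply, heckeHom1_apply]
    refine Finset.sum_congr rfl fun x _ => ?_
    rw [ofHom_apply, diaHom1_apply]
    congr 2
    apply Subtype.ext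
    rw [coe_conj1]
    show (trf1 hpM γ x : SL(2, ℤ)) = sigmaP M p hpM * ((sigmaP M p hpM)⁻¹ *
      ((trf1 hpM γ x : Gamma1 M) : SL(2, ℤ)) * ((sigmaP M p hpM)⁻¹)⁻¹) * (sigmaP M p hpM)⁻¹
    rw [inv_inv]
    group

end Rep

/-! ### The leaves -/

local notation "Qbar" => AlgebraicClosure ℚ

/-- NORM-AN for `Γ₁(M)`: if `G` realises `u ∈ ℚ̄·F₁(M)` then `∏ₓ G ∘ repA x` realises
`Norm_α (β u)` (`α` = inclusion, `β = (q ↦ q^p)`, into `ℚ̄·F₁(M;p)`). -/
def NormAn1 (M : ℕ) [NeZero M] (p : ℕ) [Fact p.Prime] (hpM : ¬ p ∣ M) : Prop :=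
  haveI : NeZero p := ⟨(Fact.out : p.Prime).ne_zero⟩
  ∀ (u : F1Bar M) (G : ℍ → ℂ), Realises (Gamma1 M) (F1Bar M) u G →
    Realises (Gamma1 M) (F1Bar M) (H455.normAlong (alpha1 Qbar M p) (beta1 Qbar M p u))
      (fun τ => ∏ x, G (repA hpM x • τ))

/-- DIA-AN for `Γ₁(M)`: `diamondAut p` is composition with `σ_p⁻¹` on realisations. -/
def DiaAn1 (M : ℕ) [NeZero M] (p : ℕ) [Fact p.Prime] (hpM : ¬ p ∣ M) : Prop :=
  DiaAn (Gamma1 M) (F1Bar M) (SemilinearAut.ofAlgAut (diamondAut Qbar M (unitOf M p)))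
    (sigmaP M p hpM)⁻¹

/-- The leaves of sub-tower A1-KUM. -/
structure Leaves : Prop where
  k1 : ∀ (M : ℕ) [NeZero M] (ℓ : ℕ), ℓ.Prime → PieceK1 (Gamma1 M) ℓ
  k2 : ∀ (M : ℕ) [NeZero M] (ℓ : ℕ), ℓ.Prime → PieceK2 (Gamma1 M) (F1Bar M) ℓ
  k3 : ∀ (M : ℕ) [NeZero M] (ℓ : ℕ), ℓ.Prime → PieceK3 (Gamma1 M) (F1Bar M) ℓ
  inter : ∀ (M : ℕ) [NeZero M], DictInter (Gamma1 M) (F1Bar M)
  mero : ∀ (M : ℕ) [NeZero M], DictMero (Gamma1 M) (F1Bar M)
  const : ∀ (M : ℕ) [NeZero M], DictConst (F1Bar M)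
  corr : ∀ (M : ℕ) [NeZero M] (p : ℕ) [Fact p.Prime], ¬ p ∣ M →
    haveI : NeZero p := ⟨(Fact.out : p.Prime).ne_zero⟩
    CorrInputs (beta1 Qbar M p) (alpha1 Qbar M p)
  norm : ∀ (M : ℕ) [NeZero M] (p : ℕ) [Fact p.Prime] (hpM : ¬ p ∣ M), NormAn1 M p hpM
  dia : ∀ (M : ℕ) [NeZero M] (p : ℕ) [Fact p.Prime] (hpM : ¬ p ∣ M), DiaAn1 M p hpM

/-! ### The assembly -/

section Assembly

variable {M : ℕ} [NeZero M]

/-- The correspondence `T_p = α_* β^*` of `J₁(M)` as a `Corr`. -/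
def corrOf (p : ℕ) [NeZero p] (hC : CorrInputs (beta1 Qbar M p) (alpha1 Qbar M p)) :
    Corr (F1Bar M) where
  F' := F1pL Qbar M p
  hpd := hC.snd.snd.fst
  φ := beta1 Qbar M p
  ψ := alpha1 Qbar M p
  hφ := hC.fst
  hψ := hC.snd.fst
  hFI := hC.snd.snd.snd.snd.1
  hfin := hC.snd.snd.snd.fst
  hN := hC.snd.snd.snd.snd.2

omit [NeZero M] in
theorem corrOf_op (p : ℕ) [NeZero p] (hC : CorrInputs (beta1 Qbar M p) (alpha1 Qbar M p))
    (x : J1 M) : (corrOf p hC).op x = hecke1 M p x := by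
  rw [hecke1_eq]
  show _ = heckeL Qbar M p x
  unfold heckeL corrOp
  rw [dif_pos hC]
  rfl

/-- The Kummer map of `Γ₁(M)` with values in `J₁(M)[ℓ]`. -/
def kappa1 (M ℓ : ℕ) (c : Additive (Gamma1 M) →+ ZMod ℓ) : J1T M ℓ :=
  ⟨kummerMap (Gamma1 M) (F1Bar M) ℓ (ofHom c),
    Pic0.mem_torsion.mpr (kummerMap_torsion (ofHom c))⟩

@[simp] theorem coe_kappa1 (M ℓ : ℕ) (c : Additive (Gamma1 M) →+ ZMod ℓ) :
    ((kappa1 M ℓ c : J1T M ℓ) : J1 M) = kummerMap (Gamma1 M) (F1Bar M) ℓ (ofHom c) := rfl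

end Assembly

/-- **Sub-tower A1-KUM**: `Res.M4b1Statement` from the leaves. -/
theorem m4b1_of_leaves (L : Leaves) : Res.M4b1Statement := by
  intro M ℓ _ hℓ
  have hT := T_mem_Gamma1 M
  have hℓ0 : ℓ ≠ 0 := hℓ.ne_zero
  have h1 : PieceK1 (Gamma1 M) ℓ := L.k1 M ℓ hℓ
  have h2 : PieceK2 (Gamma1 M) (F1Bar M) ℓ := L.k2 M ℓ hℓ
  have h3 : PieceK3 (Gamma1 M) (F1Bar M) ℓ := L.k3 M ℓ hℓ
  have hu : PieceUniq (Gamma1 M) (F1Bar M) ℓ := pieceUniq hT (L.inter M) hℓ0
  have hi : PieceInj (Gamma1 M) (F1Bar M) ℓ := pieceInj hT (L.mero M) (L.const M) hℓ0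
  have ha : PieceAdd (Gamma1 M) (F1Bar M) ℓ := pieceAdd hT hℓ0
  obtain ⟨hK, -, hadd, hinj, -⟩ := exists_kummerMap h1 h3 h2 hu hi ha
  refine ⟨kappa1 M ℓ, fun c c' hc hc' => ?_, fun c hc h0 => ?_, fun p _ hpM _ c hc => ⟨?_, ?_⟩⟩
  · apply Subtype.ext
    rw [AddSubgroup.coe_add, coe_kappa1, coe_kappa1, coe_kappa1, ofHom_add]
    exact hadd _ _ (isParHom_ofHom hc) (isParHom_ofHom hc')
  · have h0' : kummerMap (Gamma1 M) (F1Bar M) ℓ (ofHom c) = 0 := by
      have := congrArg (fun x : J1T M ℓ => (x : J1 M)) h0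
      simpa using this
    exact eq_zero_of_ofHom (hinj _ (isParHom_ofHom hc) h0')
  · -- Hecke
    haveI : NeZero p := ⟨(Fact.out : p.Prime).ne_zero⟩
    have hC := L.corr M p hpM
    have hN : NormAn (Gamma1 M) (F1Bar M) (corrOf p hC) (repA hpM) := L.norm M p hpM
    have hh : PieceHecke (Gamma1 M) (F1Bar M) ℓ (corrOf p hC) (repA hpM) :=
      pieceHecke_of_normAn hT hℓ0 (corrOf p hC) (repA hpM) (det_repA_pos hpM) hN
    have hpar := isParHom_ofHom (isPar1_diaHom1 (sigmaP M p hpM) (sigmaP_mem hpM) hc)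
    have key := kummerMap_hecke h1 h3 h2 hu (corrOf p hC) (repA hpM) hh hpar
      (isTransferEx_repA hpM c)
    apply Subtype.ext
    rw [coe_heckeT, coe_kappa1, coe_kappa1, key, corrOf_op]
  · -- diamond
    have hD : DiaAn1 M p hpM := L.dia M p hpM
    have hd : PieceDia (Gamma1 M) (F1Bar M) ℓ
        (SemilinearAut.ofAlgAut (diamondAut Qbar M (unitOf M p))) (sigmaP M p hpM)⁻¹
        (sigmaP_inv_conj_mem hpM) :=
      pieceDia_of_diaAn (p := ℓ) hT hℓ0
        (SemilinearAut.ofAlgAut (diamondAut Qbar M (unitOf M p))) (sigmaP M p hpM)⁻¹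
        (sigmaP_inv_conj_mem hpM) hD
    have hpar := isParHom_ofHom (isPar1_diaHom1 (sigmaP M p hpM) (sigmaP_mem hpM) hc)
    have key := kummerMap_dia h1 h3 h2 hu _ _ (sigmaP_inv_conj_mem hpM) hd hpar
    have hfun : (fun γ => ofHom (diaHom1 (sigmaP M p hpM) (sigmaP_mem hpM) (ZMod ℓ) c)
        (conjΓ (Gamma1 M) (sigmaP M p hpM)⁻¹ (sigmaP_inv_conj_mem hpM) γ)) = ofHom c := by
      funext γ
      rw [ofHom_apply, diaHom1_apply, ofHom_apply]
      congr 2
      apply Subtype.ext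
      rw [coe_conj1]
      show sigmaP M p hpM * ((sigmaP M p hpM)⁻¹ * (γ : SL(2, ℤ)) * ((sigmaP M p hpM)⁻¹)⁻¹) *
        (sigmaP M p hpM)⁻¹ = γ
      rw [inv_inv]
      group
    rw [hfun] at key
    apply Subtype.ext
    rw [coe_diamondT, coe_kappa1, coe_kappa1, diamond1_apply, key]

end Fermat.Agent.S48.Kum

end
end
-- ===== PACK-END S48/Kum/M4b1.lean

-- ===== PACK-BEGIN S29/H222/ESKFrob.lean
section
/-
S29 / helper222 — piece ESK-F: every Frobenius element at `A` satisfies the Eichler–Shimura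
relation `σ² - T_ℓ σ + ℓ = 0` on `J₀(N)(ℚ̄)[m]`, from `S18.CoreStatement N A m`, the Prelude's
`PrincipalGeneratedByIntegral`, `HeckeInputsAlong` and NORM-ID.

Proof: `x = [D]`, `m D = div U₁ - div U₂` (`U₁, U₂` integral).  With `K(U) := kronNorm ℓ (σU)`
(`= Nm_α (β (σU))` by NORM-ID, reduction `Ū^ℓ · Φ²Ū` by the Kronecker congruence) put
`V₁ = σ²U₁ · U₁^ℓ · K(U₂)`, `V₂ = σ²U₂ · U₂^ℓ · K(U₁)`: same reduction, and
`div V₁ - div V₂ = m (σ²D - T_ℓ σD + ℓ D)`.  CORE gives `V₁ = c y^m V₂`.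
-/


set_option autoImplicit false
set_option linter.style.haveILetI false

noncomputable section

namespace Fermat.Agent.S29.H222

open ModularCurve AlgebraicCurve HahnSeries IsLocalRing
open Fermat.Agent.S18 (Qb IsInt toF CoreStatement)
open Fermat.Agent.S37.H400 (kronNorm)

variable {A : ValuationSubring Qb} {N : ℕ}

section Kron

variable [NeZero N] {ℓ : ℕ} [Fact ℓ.Prime] [NeZero ℓ] [CharP (ResidueField A) ℓ]

/-- Reduction of the Kronecker norm of `σU` for a Frobenius element `σ`. -/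
theorem coeffMap_residue_kronNorm_galA {g : A.decompositionSubgroup ℚ}
    (hgk : decK g = frobenius (ResidueField A) ℓ) (U : LaurentSeries A) :
    coeffMap (residue A) (kronNorm ℓ (galA g U))
      = coeffMap (residue A) U ^ ℓ
        * coeffMap (decK g) (coeffMap (decK g) (coeffMap (residue A) U)) := by
  have h1 := Fermat.Agent.S37.H400.coeffMap_kronNorm_char ℓ (residue A) (galA g U)
  have h2 := Fermat.Agent.S37.H400.laurent_pow_char ℓ (coeffMap (residue A) U)
  rw [coeffMap_residue_galA, ← hgk] at h1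
  rw [← hgk] at h2
  rw [h1, h2]

/-- The integral Kronecker norm `K(U) = kronNorm ℓ (σ U)`. -/
theorem isInt_kronNorm_galA (hnid : NormId N ℓ) {g : A.decompositionSubgroup ℚ}
    (hgk : decK g = frobenius (ResidueField A) ℓ) {U : LaurentSeries A} (hU : IsInt A N U) :
    IsInt A N (kronNorm ℓ (galA g U)) := by
  refine ⟨?_, ?_, ?_⟩
  · rw [Fermat.Agent.S37.H400.coeffMap_kronNorm]
    have := hnid (toF (isInt_galA g hU))
    rw [coe_toF] at this
    rw [← this]
    exact (heckeNorm N ℓ (toF (isInt_galA g hU))).2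
  · rw [coeffMap_residue_kronNorm_galA hgk]
    exact mul_mem (pow_mem hU.2.1 ℓ) (coeffMap_mem_fullC _ (coeffMap_mem_fullC _ hU.2.1))
  · rw [coeffMap_residue_kronNorm_galA hgk]
    exact mul_ne_zero (pow_ne_zero ℓ hU.2.2)
      (coeffMap_ne_zero_of_injective _ (decK_injective g)
        (coeffMap_ne_zero_of_injective _ (decK_injective g) hU.2.2))

theorem toF_kronNorm_galA (hnid : NormId N ℓ) {g : A.decompositionSubgroup ℚ}
    (hgk : decK g = frobenius (ResidueField A) ℓ) {U : LaurentSeries A} (hU : IsInt A N U) :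
    toF (isInt_kronNorm_galA hnid hgk hU) = heckeNorm N ℓ (toF (isInt_galA g hU)) := by
  apply Subtype.ext
  rw [coe_toF, Fermat.Agent.S37.H400.coeffMap_kronNorm, hnid (toF (isInt_galA g hU)), coe_toF]

end Kron

end Fermat.Agent.S29.H222

namespace Fermat.Agent.S29.H222

open ModularCurve AlgebraicCurve HahnSeries IsLocalRing
open Fermat.Agent.S18 (Qb IsInt toF CoreStatement)
open Fermat.Agent.S37.H400 (kronNorm)

variable {A : ValuationSubring Qb} {N : ℕ}

/-- A class is zero as soon as its divisor is the divisor of a function. -/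
theorem pic0_mk_eq_zero_of_isDivOf
    (D : Divisor.degZero (K := Qb) (F := modularFunctionFieldBar N))
    {y : modularFunctionFieldBar N} (hy : y ≠ 0)
    (h : IsDivOf (K := Qb) y (D : Divisor Qb (modularFunctionFieldBar N))) :
    (Pic0.mk D : JZero N) = 0 := by
  refine (QuotientAddGroup.eq_zero_iff _).mpr ?_
  rw [AddSubgroup.mem_addSubgroupOf]
  exact ⟨y, hy, h⟩

theorem galois_smul_mk (σ : Qb ≃ₐ[ℚ] Qb)
    (D : Divisor.degZero (K := Qb) (F := modularFunctionFieldBar N)) :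
    σ • (Pic0.mk D : JZero N)
      = Pic0.mk (SemilinearAut.degZeroSMulHom
          (arithmeticGalois (modularFunctionFieldFull N) σ) D) := by
  rw [galois_smul_pic0_def, SemilinearAut.pic0_smul_mk]

/-- **ESK-F.** -/
theorem esk_frob : ESKFrobStatement := by
  intro N _ ℓ hℓ m hm A hA hcore hpgi hHI hnid σ hσ x hx
  haveI : NeZero ℓ := ⟨hℓ.ne_zero⟩
  haveI : Fact ℓ.Prime := ⟨hℓ⟩
  haveI : CharP (ResidueField A) ℓ := charP_residueField_of_liesOver hℓ hA
  obtain ⟨hdec, hfrob⟩ := hσ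
  set g : A.decompositionSubgroup ℚ := ⟨σ, hdec⟩ with hg
  have hgk : decK g = frobenius (ResidueField A) ℓ := RingHom.ext fun x => hfrob x
  obtain ⟨hα, hβ, hP, hfin, hFI, hN⟩ := hHI
  haveI := hP
  obtain ⟨D, rfl⟩ := Pic0.mk_surjective x
  obtain ⟨U₁, U₂, h₁, h₂, D₁, D₂, hd₁, hd₂, hDD⟩ :=
    exists_isInt_of_principal hpgi (smul_mem_principal_of_torsion D hx)
  set G := arithmeticGalois (modularFunctionFieldFull N) σ with hG
  -- the integral series
  have hg₁ := isInt_galA g h₁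
  have hg₂ := isInt_galA g h₂
  have hgg₁ := isInt_galA g hg₁
  have hgg₂ := isInt_galA g hg₂
  have hK₁ := isInt_kronNorm_galA hnid hgk h₁
  have hK₂ := isInt_kronNorm_galA hnid hgk h₂
  have hV₁ : IsInt A N (galA g (galA g U₁) * U₁ ^ ℓ * kronNorm ℓ (galA g U₂)) :=
    isInt_mul (isInt_mul hgg₁ (isInt_pow h₁ ℓ)) hK₂
  have hV₂ : IsInt A N (galA g (galA g U₂) * U₂ ^ ℓ * kronNorm ℓ (galA g U₁)) :=
    isInt_mul (isInt_mul hgg₂ (isInt_pow h₂ ℓ)) hK₁
  -- equal reductions
  have hred : coeffMap (residue A) (galA g (galA g U₁) * U₁ ^ ℓ * kronNorm ℓ (galA g U₂))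
      = coeffMap (residue A) (galA g (galA g U₂) * U₂ ^ ℓ * kronNorm ℓ (galA g U₁)) := by
    simp only [map_mul, map_pow, coeffMap_residue_galA, coeffMap_residue_kronNorm_galA hgk]
    ring
  -- divisors
  have hσ₁ : IsDivOf (toF hg₁) (G • D₁) := by rw [toF_galA]; exact hd₁.smul G
  have hσ₂ : IsDivOf (toF hg₂) (G • D₂) := by rw [toF_galA]; exact hd₂.smul G
  have hσσ₁ : IsDivOf (toF hgg₁) (G • G • D₁) := by rw [toF_galA]; exact hσ₁.smul G
  have hσσ₂ : IsDivOf (toF hgg₂) (G • G • D₂) := by rw [toF_galA]; exact hσ₂.smul G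
  have hp₁ : IsDivOf (toF (isInt_pow h₁ ℓ)) ((ℓ : ℤ) • D₁) := by
    rw [toF_pow]; exact hd₁.pow ℓ
  have hp₂ : IsDivOf (toF (isInt_pow h₂ ℓ)) ((ℓ : ℤ) • D₂) := by
    rw [toF_pow]; exact hd₂.pow ℓ
  have hT₁ : IsDivOf (toF hK₁) (heckeDivBar hα hβ (G • D₁)) := by
    rw [toF_kronNorm_galA hnid hgk h₁]
    exact isDivOf_heckeDivBar hα hβ hfin hN (toF_ne_zero hg₁) hσ₁
  have hT₂ : IsDivOf (toF hK₂) (heckeDivBar hα hβ (G • D₂)) := by
    rw [toF_kronNorm_galA hnid hgk h₂]
    exact isDivOf_heckeDivBar hα hβ hfin hN (toF_ne_zero hg₂) hσ₂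
  have hdV₁ : IsDivOf (toF hV₁)
      (G • G • D₁ + (ℓ : ℤ) • D₁ + heckeDivBar hα hβ (G • D₂)) := by
    rw [toF_mul (isInt_mul hgg₁ (isInt_pow h₁ ℓ)) hK₂, toF_mul hgg₁ (isInt_pow h₁ ℓ)]
    exact ((hσσ₁.mul (toF_ne_zero _) (toF_ne_zero _) hp₁).mul
      (mul_ne_zero (toF_ne_zero _) (toF_ne_zero _)) (toF_ne_zero _) hT₂)
  have hdV₂ : IsDivOf (toF hV₂)
      (G • G • D₂ + (ℓ : ℤ) • D₂ + heckeDivBar hα hβ (G • D₁)) := by
    rw [toF_mul (isInt_mul hgg₂ (isInt_pow h₂ ℓ)) hK₁, toF_mul hgg₂ (isInt_pow h₂ ℓ)]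
    exact ((hσσ₂.mul (toF_ne_zero _) (toF_ne_zero _) hp₂).mul
      (mul_ne_zero (toF_ne_zero _) (toF_ne_zero _)) (toF_ne_zero _) hT₁)
  -- the divisor of the relation
  set Dv : Divisor Qb (modularFunctionFieldBar N) := (D : Divisor Qb (modularFunctionFieldBar N))
    with hDv
  set E : Divisor Qb (modularFunctionFieldBar N) :=
    G • G • Dv - heckeDivBar hα hβ (G • Dv) + (ℓ : ℤ) • Dv with hE
  have hGz : ∀ X : Divisor Qb (modularFunctionFieldBar N), G • ((m : ℤ) • X) = (m : ℤ) • (G • X) :=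
    fun X => map_zsmul (DistribSMul.toAddMonoidHom (Divisor Qb (modularFunctionFieldBar N)) G) m X
  have hmE : (m : ℤ) • E
      = (G • G • D₁ + (ℓ : ℤ) • D₁ + heckeDivBar hα hβ (G • D₂))
        - (G • G • D₂ + (ℓ : ℤ) • D₂ + heckeDivBar hα hβ (G • D₁)) := by
    have e1 : (m : ℤ) • E = G • G • ((m : ℤ) • Dv) - heckeDivBar hα hβ (G • ((m : ℤ) • Dv))
        + (ℓ : ℤ) • ((m : ℤ) • Dv) := by
      rw [hE, smul_add, smul_sub, hGz, hGz, map_zsmul, smul_comm (m : ℤ) (ℓ : ℤ) Dv]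
    rw [e1, hDD, smul_sub, smul_sub, smul_sub, map_sub]
    abel
  have hkey : ∀ v : Place Qb (modularFunctionFieldBar N),
      (m : ℤ) * E v = v.ord (toF hV₁) - v.ord (toF hV₂) := by
    intro v
    rw [← hdV₁ v, ← hdV₂ v, ← Finsupp.sub_apply, ← hmE, Finsupp.smul_apply, smul_eq_mul]
  have hord : ∀ v : Place Qb (modularFunctionFieldBar N),
      (m : ℤ) ∣ v.ord (toF hV₁) - v.ord (toF hV₂) := fun v => ⟨_, (hkey v).symm⟩
  obtain ⟨c, y, hc, hy, hcy⟩ := hcore _ _ hV₁ hV₂ hred hord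
  have hEy : IsDivOf y E := isDivOf_of_eq_const_mul_pow hm hc hy (toF_ne_zero hV₂) hcy hkey
  -- conclusion in `Pic0`
  have hT : heckeOperatorBar N ⟨ℓ, hℓ⟩
      = (heckePic0Bar hα hβ hFI hfin hN).toIntLinearMap := by
    unfold heckeOperatorBar
    rw [heckeOperatorAlong_eq hα hβ hFI hfin hN]
  rw [galois_smul_mk, galois_smul_mk, hT]
  show Pic0.mk _ - Pic0.correspondence _ _ hβ hα hFI hfin hN (Pic0.mk _) + (ℓ : ℤ) • Pic0.mk D = 0
  rw [Pic0.correspondence_mk]
  have hfinal : (Pic0.mk (SemilinearAut.degZeroSMulHom G (SemilinearAut.degZeroSMulHom G D))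
      - Pic0.mk (Pic0.degZeroCorrespondence (heckeBetaBar Qb N ℓ) (heckeAlphaBar Qb N ℓ) hβ hα hFI
          (SemilinearAut.degZeroSMulHom G D))
      + (ℓ : ℤ) • Pic0.mk D : JZero N)
      = Pic0.mk (SemilinearAut.degZeroSMulHom G (SemilinearAut.degZeroSMulHom G D)
          - Pic0.degZeroCorrespondence (heckeBetaBar Qb N ℓ) (heckeAlphaBar Qb N ℓ) hβ hα hFI
              (SemilinearAut.degZeroSMulHom G D)
          + (ℓ : ℤ) • D) := rfl
  rw [hfinal]
  exact pic0_mk_eq_zero_of_isDivOf _ hy hEy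

end Fermat.Agent.S29.H222

end
end
-- ===== PACK-END S29/H222/ESKFrob.lean

-- ===== PACK-BEGIN S48/H136/ESKG.lean
section
/-
S48 / Tower A1 (helper136) — piece ESK1, part 1: GENERIC raw Eichler–Shimura, definitions,
integral series and the inertia statement.

Port of `S29/H222` (helper222) from the function field of `X₀(N)` to an ARBITRARY subfield
`F₀ ⊆ ℚ((q))` (`F := laurentBaseChange ℚ̄ F₀`, `J := Pic0 ℚ̄ F` with the Prelude's generic
arithmetic Galois action) and an arbitrary "reduction field" `F_k ⊆ k((q))`, `k = A/𝔪`.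

* `IsIntG F₀ A Fk U`   : `U ∈ A((q))` lies in `F`, its reduction lies in `F_k` and is nonzero;
* `CoreG F₀ A Fk m`    : the Kummer core (= `S18.CoreStatement` for `F₀ = F_N`);
* `PGIG F₀ A Fk`       : principal divisors are generated by divisors of integral series;
* `StableG A Fk`       : `F_k` is stable under coefficientwise ring endomorphisms of `k`;
* `eskG_inertia`       : `CoreG + PGIG + StableG ⟹` inertia at `A` acts trivially on `J[m]`.

Everything is independent of the definition of the curve: it applies verbatim to `X₁(M)`,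
`X_H`, `X₀(N)`.
-/


set_option autoImplicit false
set_option linter.style.haveILetI false

noncomputable section

namespace Fermat.Agent.S48.H136

open ModularCurve AlgebraicCurve HahnSeries IsLocalRing
open Fermat.Agent.S18 (Qb)
open Fermat.Agent.S29.H222 (IsDivOf decA decK galA)

/-! ### Definitions -/

section Defs

variable (F₀ : IntermediateField ℚ (LaurentSeries ℚ)) (A : ValuationSubring Qb)
  (Fk : IntermediateField (ResidueField A) (LaurentSeries (ResidueField A)))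

/-- `U ∈ A((q))` lies in `F = ℚ̄ · F₀`, its coefficientwise reduction lies in `F_k` and is
nonzero. -/
def IsIntG (U : LaurentSeries A) : Prop :=
  coeffMap A.subtype U ∈ laurentBaseChange Qb F₀ ∧
    coeffMap (residue A) U ∈ Fk ∧ coeffMap (residue A) U ≠ 0

variable {F₀ A Fk}

/-- The element of `F` given by an integral series. -/
def toFG {U : LaurentSeries A} (hU : IsIntG F₀ A Fk U) : laurentBaseChange Qb F₀ :=
  ⟨coeffMap A.subtype U, hU.1⟩

variable (F₀ A Fk)

/-- The generic Kummer core: two integral series with the same reduction whose quotient has a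
divisor divisible by `m` differ by a constant times an `m`-th power. -/
def CoreG (m : ℕ) : Prop :=
  ∀ (U₁ U₂ : LaurentSeries A) (h₁ : IsIntG F₀ A Fk U₁) (h₂ : IsIntG F₀ A Fk U₂),
    coeffMap (residue A) U₁ = coeffMap (residue A) U₂ →
    (∀ v : Place Qb (laurentBaseChange Qb F₀),
      (m : ℤ) ∣ v.ord (toFG h₁) - v.ord (toFG h₂)) →
    ∃ (c : Qb) (y : laurentBaseChange Qb F₀), c ≠ 0 ∧ y ≠ 0 ∧
      toFG h₁ = algebraMap Qb (laurentBaseChange Qb F₀) c * y ^ m * toFG h₂

/-- Divisors of integral series. -/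
def intPrincipalG : Set (Divisor Qb (laurentBaseChange Qb F₀)) :=
  {D | ∃ (y : LaurentSeries A) (hy : IsIntG F₀ A Fk y), ∀ P, D P = P.ord (toFG hy)}

/-- Principal divisors are generated by the divisors of integral series. -/
def PGIG : Prop :=
  Divisor.principal (K := Qb) (F := laurentBaseChange Qb F₀) ≤
    AddSubgroup.closure (intPrincipalG F₀ A Fk)

/-- The reduction field is stable under coefficientwise ring endomorphisms of `k`. -/
def StableG : Prop :=
  ∀ (φ : ResidueField A →+* ResidueField A) (x : LaurentSeries (ResidueField A)),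
    x ∈ Fk → coeffMap φ x ∈ Fk

end Defs

variable {F₀ : IntermediateField ℚ (LaurentSeries ℚ)} {A : ValuationSubring Qb}
  {Fk : IntermediateField (ResidueField A) (LaurentSeries (ResidueField A))}

/-! ### Algebra of integral series -/

theorem isIntG_one : IsIntG F₀ A Fk (1 : LaurentSeries A) :=
  ⟨by rw [map_one]; exact one_mem _, by rw [map_one]; exact one_mem _,
    by rw [map_one]; exact one_ne_zero⟩

theorem isIntG_mul {U V : LaurentSeries A} (hU : IsIntG F₀ A Fk U) (hV : IsIntG F₀ A Fk V) :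
    IsIntG F₀ A Fk (U * V) :=
  ⟨by rw [map_mul]; exact mul_mem hU.1 hV.1, by rw [map_mul]; exact mul_mem hU.2.1 hV.2.1,
    by rw [map_mul]; exact mul_ne_zero hU.2.2 hV.2.2⟩

theorem isIntG_pow {U : LaurentSeries A} (hU : IsIntG F₀ A Fk U) (n : ℕ) :
    IsIntG F₀ A Fk (U ^ n) :=
  ⟨by rw [map_pow]; exact pow_mem hU.1 n, by rw [map_pow]; exact pow_mem hU.2.1 n,
    by rw [map_pow]; exact pow_ne_zero n hU.2.2⟩

theorem toFG_ne_zero {U : LaurentSeries A} (hU : IsIntG F₀ A Fk U) : toFG hU ≠ 0 := by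
  intro h0
  have h1 : coeffMap A.subtype U = 0 := congrArg Subtype.val h0
  have h2 : U = 0 :=
    Fermat.Agent.S29.H222.esk_coeffMap_subtype_injective (by rw [h1, map_zero])
  exact hU.2.2 (by rw [h2, map_zero])

@[simp] theorem coe_toFG {U : LaurentSeries A} (hU : IsIntG F₀ A Fk U) :
    ((toFG hU : laurentBaseChange Qb F₀) : LaurentSeries Qb) = coeffMap A.subtype U := rfl

theorem toFG_mul {U V : LaurentSeries A} (hU : IsIntG F₀ A Fk U) (hV : IsIntG F₀ A Fk V) :
    toFG (isIntG_mul hU hV) = toFG hU * toFG hV :=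
  Subtype.ext (map_mul _ _ _)

theorem toFG_pow {U : LaurentSeries A} (hU : IsIntG F₀ A Fk U) (n : ℕ) :
    toFG (isIntG_pow hU n) = toFG hU ^ n :=
  Subtype.ext (map_pow _ _ _)

theorem toFG_one : toFG (isIntG_one (F₀ := F₀) (A := A) (Fk := Fk)) = 1 :=
  Subtype.ext (map_one _)

/-- Two integral series with the same image in `F` are equal. -/
theorem eq_of_toFG_eq {U V : LaurentSeries A} (hU : IsIntG F₀ A Fk U) (hV : IsIntG F₀ A Fk V)
    (h : toFG hU = toFG hV) : U = V :=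
  Fermat.Agent.S29.H222.esk_coeffMap_subtype_injective (congrArg Subtype.val h)

/-! ### The decomposition group acts on integral series -/

theorem isIntG_galA (hst : StableG A Fk) (g : A.decompositionSubgroup ℚ) {U : LaurentSeries A}
    (hU : IsIntG F₀ A Fk U) : IsIntG F₀ A Fk (galA g U) := by
  refine ⟨?_, ?_, ?_⟩
  · rw [Fermat.Agent.S29.H222.coeffMap_subtype_galA]
    exact coeffMap_mem_laurentBaseChange (g : Qb ≃ₐ[ℚ] Qb) hU.1
  · rw [Fermat.Agent.S29.H222.coeffMap_residue_galA]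
    exact hst _ _ hU.2.1
  · rw [Fermat.Agent.S29.H222.coeffMap_residue_galA]
    exact Fermat.Agent.S29.H222.coeffMap_ne_zero_of_injective _
      (Fermat.Agent.S29.H222.decK_injective g) hU.2.2

theorem toFG_galA (hst : StableG A Fk) (g : A.decompositionSubgroup ℚ) {U : LaurentSeries A}
    (hU : IsIntG F₀ A Fk U) :
    toFG (isIntG_galA hst g hU) = arithmeticGalois F₀ (g : Qb ≃ₐ[ℚ] Qb) • toFG hU := by
  apply Subtype.ext
  rw [coe_arithmeticGalois_smul]
  exact Fermat.Agent.S29.H222.coeffMap_subtype_galA g U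

/-! ### Divisors of integral series -/

/-- A principal divisor is the difference of the divisors of two integral series. -/
theorem exists_isIntG_of_principal (hpgi : PGIG F₀ A Fk)
    {D : Divisor Qb (laurentBaseChange Qb F₀)}
    (hD : D ∈ Divisor.principal (K := Qb) (F := laurentBaseChange Qb F₀)) :
    ∃ (U₁ U₂ : LaurentSeries A) (h₁ : IsIntG F₀ A Fk U₁) (h₂ : IsIntG F₀ A Fk U₂)
      (D₁ D₂ : Divisor Qb (laurentBaseChange Qb F₀)),
      IsDivOf (toFG h₁) D₁ ∧ IsDivOf (toFG h₂) D₂ ∧ D = D₁ - D₂ := by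
  have hD' := hpgi hD
  clear hD
  induction hD' using AddSubgroup.closure_induction with
  | mem E hE =>
      obtain ⟨y, hy, hEy⟩ := hE
      refine ⟨y, 1, hy, isIntG_one, E, 0, fun v => hEy v, fun v => ?_, by simp⟩
      rw [toFG_one]
      simp
  | zero =>
      refine ⟨1, 1, isIntG_one, isIntG_one, 0, 0, fun v => ?_, fun v => ?_, by simp⟩ <;>
      · rw [toFG_one]
        simp
  | add E E' _ _ hE hE' =>
      obtain ⟨U₁, U₂, h₁, h₂, D₁, D₂, hd₁, hd₂, rfl⟩ := hE
      obtain ⟨U₁', U₂', h₁', h₂', D₁', D₂', hd₁', hd₂', rfl⟩ := hE'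
      refine ⟨U₁ * U₁', U₂ * U₂', isIntG_mul h₁ h₁', isIntG_mul h₂ h₂', D₁ + D₁', D₂ + D₂',
        ?_, ?_, by abel⟩
      · rw [toFG_mul h₁ h₁']
        exact hd₁.mul (toFG_ne_zero h₁) (toFG_ne_zero h₁') hd₁'
      · rw [toFG_mul h₂ h₂']
        exact hd₂.mul (toFG_ne_zero h₂) (toFG_ne_zero h₂') hd₂'
  | neg E _ hE =>
      obtain ⟨U₁, U₂, h₁, h₂, D₁, D₂, hd₁, hd₂, rfl⟩ := hE
      exact ⟨U₂, U₁, h₂, h₁, D₂, D₁, hd₂, hd₁, by abel⟩

/-- `m`-torsion classes: `m • D` is principal. -/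
theorem smul_mem_principal_of_torsionG {m : ℕ}
    (D : Divisor.degZero (K := Qb) (F := laurentBaseChange Qb F₀))
    (hx : (m : ℤ) • (Pic0.mk D : Pic0 Qb (laurentBaseChange Qb F₀)) = 0) :
    (m : ℤ) • (D : Divisor Qb (laurentBaseChange Qb F₀))
      ∈ Divisor.principal (K := Qb) (F := laurentBaseChange Qb F₀) := by
  have hx' : ((m : ℤ) • D : Divisor.degZero (K := Qb) (F := laurentBaseChange Qb F₀)) ∈
      (Divisor.principal (K := Qb) (F := laurentBaseChange Qb F₀)).addSubgroupOf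
        (Divisor.degZero (K := Qb) (F := laurentBaseChange Qb F₀)) := by
    have : Pic0.mk ((m : ℤ) • D) = 0 := hx
    exact (QuotientAddGroup.eq_zero_iff _).mp this
  rw [AddSubgroup.mem_addSubgroupOf] at hx'
  simpa using hx'

/-- Two classes are equal as soon as the difference of the divisors is the divisor of a
function. -/
theorem pic0_mk_eq_of_isDivOfG
    (D D' : Divisor.degZero (K := Qb) (F := laurentBaseChange Qb F₀))
    {y : laurentBaseChange Qb F₀} (hy : y ≠ 0)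
    (h : IsDivOf (K := Qb) y ((D' : Divisor Qb (laurentBaseChange Qb F₀))
      - (D : Divisor Qb (laurentBaseChange Qb F₀)))) :
    (Pic0.mk D' : Pic0 Qb (laurentBaseChange Qb F₀)) = Pic0.mk D := by
  symm
  refine QuotientAddGroup.eq.mpr ?_
  rw [AddSubgroup.mem_addSubgroupOf]
  refine ⟨y, hy, fun v => ?_⟩
  have := h v
  rw [← this]
  simp [sub_eq_neg_add]

/-- A class is zero as soon as its divisor is the divisor of a function. -/
theorem pic0_mk_eq_zero_of_isDivOfG
    (D : Divisor.degZero (K := Qb) (F := laurentBaseChange Qb F₀))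
    {y : laurentBaseChange Qb F₀} (hy : y ≠ 0)
    (h : IsDivOf (K := Qb) y (D : Divisor Qb (laurentBaseChange Qb F₀))) :
    (Pic0.mk D : Pic0 Qb (laurentBaseChange Qb F₀)) = 0 := by
  refine (QuotientAddGroup.eq_zero_iff _).mpr ?_
  rw [AddSubgroup.mem_addSubgroupOf]
  exact ⟨y, hy, h⟩

theorem galois_smul_mkG (σ : Qb ≃ₐ[ℚ] Qb)
    (D : Divisor.degZero (K := Qb) (F := laurentBaseChange Qb F₀)) :
    σ • (Pic0.mk D : Pic0 Qb (laurentBaseChange Qb F₀))
      = Pic0.mk (SemilinearAut.degZeroSMulHom (arithmeticGalois F₀ σ) D) := by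
  rw [galois_smul_pic0_def, SemilinearAut.pic0_smul_mk]

/-! ### ESK-U: inertia acts trivially -/

/-- **Generic ESK-U.**  Inertia at `A` acts trivially on the `m`-torsion of
`Pic0 ℚ̄ (ℚ̄ · F₀)`. -/
theorem eskG_inertia {m : ℕ} (hm : m ≠ 0) (hcore : CoreG F₀ A Fk m) (hpgi : PGIG F₀ A Fk)
    (hst : StableG A Fk) :
    ∀ τ ∈ A.inertiaSubgroupIn ℚ, ∀ x : Pic0 Qb (laurentBaseChange Qb F₀),
      (m : ℤ) • x = 0 → τ • x = x := by
  intro τ hτ x hx
  obtain ⟨g, hg, rfl⟩ := hτ
  obtain ⟨D, rfl⟩ := Pic0.mk_surjective x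
  obtain ⟨U₁, U₂, h₁, h₂, D₁, D₂, hd₁, hd₂, hDD⟩ :=
    exists_isIntG_of_principal hpgi (smul_mem_principal_of_torsionG D hx)
  set G := arithmeticGalois F₀
    (((A.decompositionSubgroup ℚ).subtype g : Qb ≃ₐ[ℚ] Qb)) with hG
  have hV₁ : IsIntG F₀ A Fk (galA g U₁ * U₂) := isIntG_mul (isIntG_galA hst g h₁) h₂
  have hV₂ : IsIntG F₀ A Fk (U₁ * galA g U₂) := isIntG_mul h₁ (isIntG_galA hst g h₂)
  have hred : coeffMap (residue A) (galA g U₁ * U₂) = coeffMap (residue A) (U₁ * galA g U₂) := by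
    rw [map_mul, map_mul, Fermat.Agent.S29.H222.coeffMap_residue_galA,
      Fermat.Agent.S29.H222.coeffMap_residue_galA,
      Fermat.Agent.S29.H222.coeffMap_decK_of_mem_inertia hg,
      Fermat.Agent.S29.H222.coeffMap_decK_of_mem_inertia hg]
  have hgd₁ : IsDivOf (toFG (isIntG_galA hst g h₁)) (G • D₁) := by
    rw [toFG_galA hst]; exact hd₁.smul G
  have hgd₂ : IsDivOf (toFG (isIntG_galA hst g h₂)) (G • D₂) := by
    rw [toFG_galA hst]; exact hd₂.smul G
  have hdV₁ : IsDivOf (toFG hV₁) (G • D₁ + D₂) := by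
    rw [toFG_mul (isIntG_galA hst g h₁) h₂]
    exact hgd₁.mul (toFG_ne_zero _) (toFG_ne_zero _) hd₂
  have hdV₂ : IsDivOf (toFG hV₂) (D₁ + G • D₂) := by
    rw [toFG_mul h₁ (isIntG_galA hst g h₂)]
    exact hd₁.mul (toFG_ne_zero _) (toFG_ne_zero _) hgd₂
  have hkey : ∀ v : Place Qb (laurentBaseChange Qb F₀),
      (m : ℤ) * (G • (D : Divisor Qb (laurentBaseChange Qb F₀)) - D) v
        = v.ord (toFG hV₁) - v.ord (toFG hV₂) := by
    intro v
    rw [← hdV₁ v, ← hdV₂ v]
    have e1 : ((m : ℤ) • (D : Divisor Qb (laurentBaseChange Qb F₀))) v = D₁ v - D₂ v := by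
      rw [hDD, Finsupp.sub_apply]
    have e2 : ((m : ℤ) • (D : Divisor Qb (laurentBaseChange Qb F₀))) (G⁻¹ • v)
        = D₁ (G⁻¹ • v) - D₂ (G⁻¹ • v) := by
      rw [hDD, Finsupp.sub_apply]
    rw [Finsupp.smul_apply, smul_eq_mul] at e1 e2
    simp only [Finsupp.sub_apply, Finsupp.add_apply, SemilinearAut.divisor_smul_apply]
    linear_combination e2 - e1
  have hord : ∀ v : Place Qb (laurentBaseChange Qb F₀),
      (m : ℤ) ∣ v.ord (toFG hV₁) - v.ord (toFG hV₂) := fun v => ⟨_, (hkey v).symm⟩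
  obtain ⟨c, y, hc, hy, hcy⟩ := hcore _ _ hV₁ hV₂ hred hord
  have hE := Fermat.Agent.S29.H222.isDivOf_of_eq_const_mul_pow hm hc hy (toFG_ne_zero hV₂) hcy hkey
  show (((A.decompositionSubgroup ℚ).subtype g : Qb ≃ₐ[ℚ] Qb))
      • (Pic0.mk D : Pic0 Qb (laurentBaseChange Qb F₀)) = Pic0.mk D
  rw [galois_smul_pic0_def, SemilinearAut.pic0_smul_mk]
  exact pic0_mk_eq_of_isDivOfG D _ hy hE

end Fermat.Agent.S48.H136

end
end
-- ===== PACK-END S48/H136/ESKG.lean

-- ===== PACK-BEGIN S48/H136/ESKGFrob.lean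
section
/-
S48 / Tower A1 (helper136) — piece ESK1, part 2: GENERIC raw Eichler–Shimura WITH DIAMOND.

Setting (see `ESKG.lean`): `F = ℚ̄ · F₀ ⊆ ℚ̄((q))`, `F_k ⊆ k((q))`, `A ⊆ ℚ̄` a valuation subring over
`p`.  Hecke data: ANY field `F'` over `ℚ̄` with two embeddings `α β : F → F'` (degeneracy maps)
and the Prelude's `HeckeInputs` (`α`, `β` integral, `α` finite with norm formula, fundamental
identity along `β`); `T := Pic0.correspondence β α`.  Diamond: `δ : F ≃ₐ[ℚ̄] F` commuting with the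
coefficientwise Galois action and preserving integral series.

NORM-ID with diamond (`NormIdG`):  `Nm_α (β y) = V_p y · det (secMat p (δ y))`
(for `X₁(M)`, `β = (q ↦ q^p)`: the conjugates of `y(pτ)` over `F₁(M)` are `y(pτ)` and
`(⟨p⟩⁻¹ y)((τ + b)/p)`, so `δ = ⟨p⟩⁻¹`; for `X₀(N)`: `δ = 1`).

`eskG_frob` :  `CoreG + PGIG + StableG + HeckeInputs + DiamondG + NormIdG ⟹` for every Frobenius
element `σ` at `A` and every `x ∈ Pic0 ℚ̄ F` with `m x = 0`:

      `σ² (δ x) - T (σ x) + p x = 0`.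

`eskG_frob'` : the same relation in the form `σ² x - T (δ⁻¹ σ x) + p δ⁻¹ x = 0`, i.e.
`σ² - T_p σ + p ⟨p⟩ = 0` with `T_p := T ∘ δ⁻¹`, `⟨p⟩ := δ⁻¹`.
-/


set_option autoImplicit false
set_option linter.style.haveILetI false

noncomputable section

namespace Fermat.Agent.S48.H136

open ModularCurve AlgebraicCurve HahnSeries IsLocalRing
open Fermat.Agent.S18 (Qb)
open Fermat.Agent.S29.H222 (IsDivOf decA decK galA)
open Fermat.Agent.S37.H400 (secMat)

/-! ### The two-argument formal Kronecker norm -/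

section Kron2

variable {R : Type*} [CommRing R]

/-- `kron2 p f g = V_p f · det (secMat p g)`; `kron2 p f f = kronNorm p f`. -/
def kron2 (p : ℕ) [NeZero p] (f g : LaurentSeries R) : LaurentSeries R :=
  qExpand R p f * (secMat p g).det

theorem kron2_self (p : ℕ) [NeZero p] (f : LaurentSeries R) :
    kron2 p f f = Fermat.Agent.S37.H400.kronNorm p f := rfl

theorem coeffMap_kron2 {S : Type*} [CommRing S] (φ : R →+* S) (p : ℕ) [NeZero p]
    (f g : LaurentSeries R) :
    coeffMap φ (kron2 p f g) = kron2 p (coeffMap φ f) (coeffMap φ g) := by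
  rw [kron2, kron2, map_mul, Fermat.Agent.S37.H400.coeffMap_qExpand_h400, RingHom.map_det,
    RingHom.mapMatrix_apply, Fermat.Agent.S37.H400.secMat_coeffMap]

theorem kron2_char [IsDomain R] (p : ℕ) [Fact p.Prime] [CharP R p] (f g : LaurentSeries R) :
    haveI : NeZero p := ⟨(Fact.out : p.Prime).ne_zero⟩
    kron2 p f g = qExpand R p f * coeffMap (frobenius R p) g := by
  haveI : NeZero p := ⟨(Fact.out : p.Prime).ne_zero⟩
  show kron2 p f g = _
  rw [kron2, Fermat.Agent.S37.H400.det_secMat_char]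

end Kron2

/-! ### Divisors and algebra automorphisms -/

section AlgEquivDiv

variable {K F : Type*} [Field K] [Field F] [Algebra K F]

theorem isDivOf_algEquiv (δ : F ≃ₐ[K] F) {f : F} {D : Divisor K F} (hf : IsDivOf f D) :
    IsDivOf (δ f) (δ • D) := fun w => by
  rw [Divisor.smul_apply, hf (δ⁻¹ • w)]
  have h := Place.ord_smul δ (δ⁻¹ • w) f
  rw [smul_inv_smul] at h
  exact h.symm

end AlgEquivDiv

variable {F₀ : IntermediateField ℚ (LaurentSeries ℚ)} {A : ValuationSubring Qb}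
  {Fk : IntermediateField (ResidueField A) (LaurentSeries (ResidueField A))}

/-! ### The Hecke correspondence on divisors of functions -/

section Hecke

variable {F' : Type*} [Field F'] [Algebra Qb F']
  (α β : laurentBaseChange Qb F₀ →ₐ[Qb] F')

/-- The norm along `α` of `β y`: the function whose divisor is `T (div y)`. -/
def normG (y : laurentBaseChange Qb F₀) : laurentBaseChange Qb F₀ :=
  letI := algebraAlong α
  Algebra.norm (laurentBaseChange Qb F₀) (β y)

variable {α β}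

/-- `β^* (div y) = div (β y)`. -/
theorem isDivOf_pullbackAlongG [HasPrincipalDivisors Qb F'] (hβ : β.toRingHom.IsIntegral)
    {y : laurentBaseChange Qb F₀} {E : Divisor Qb (laurentBaseChange Qb F₀)}
    (hE : IsDivOf y E) :
    IsDivOf (K := Qb) (β y) (Divisor.pullbackAlong β hβ E) := by
  intro w
  letI := algebraAlong β
  haveI := isScalarTower_along β
  haveI := isIntegral_along β hβ
  exact Divisor.pullback_apply_eq_ord hE w

/-- `α_* (div z) = div (Nm_α z)`. -/
theorem isDivOf_pushforwardAlongG (hα : α.toRingHom.IsIntegral) (hfin : FiniteAlong Qb α)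
    (hN : NormFormulaAlong Qb α hfin) {z : F'} (hz : z ≠ 0) {E : Divisor Qb F'}
    (hE : IsDivOf z E) :
    IsDivOf (K := Qb)
      (letI := algebraAlong α
       Algebra.norm (laurentBaseChange Qb F₀) z)
      (Divisor.pushforwardAlong α hα E) := by
  intro v
  letI := algebraAlong α
  haveI := isScalarTower_along α
  haveI := isIntegral_along α hα
  haveI : Module.Finite (laurentBaseChange Qb F₀) F' := hfin
  exact hN z hz E hE v

/-- `T (div y) = div (Nm_α (β y))` on divisors. -/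
theorem isDivOf_correspondenceG [HasPrincipalDivisors Qb F'] (hα : α.toRingHom.IsIntegral)
    (hβ : β.toRingHom.IsIntegral) (hfin : FiniteAlong Qb α) (hN : NormFormulaAlong Qb α hfin)
    {y : laurentBaseChange Qb F₀} (hy : y ≠ 0) {E : Divisor Qb (laurentBaseChange Qb F₀)}
    (hE : IsDivOf y E) :
    IsDivOf (K := Qb) (normG α β y) (Divisor.correspondence β α hβ hα E) := by
  have hβy : β y ≠ 0 := by
    intro h
    exact hy (β.toRingHom.injective (by simpa using h))
  exact isDivOf_pushforwardAlongG hα hfin hN hβy (isDivOf_pullbackAlongG hβ hE)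

end Hecke

/-! ### Diamond data and NORM-ID -/

/-- A "diamond" automorphism of `F = ℚ̄ · F₀`: it commutes with the coefficientwise Galois action
and preserves integral series. -/
structure DiamondG (F₀ : IntermediateField ℚ (LaurentSeries ℚ)) (A : ValuationSubring Qb)
    (Fk : IntermediateField (ResidueField A) (LaurentSeries (ResidueField A)))
    (δ : laurentBaseChange Qb F₀ ≃ₐ[Qb] laurentBaseChange Qb F₀) : Prop where
  galois : ∀ (σ : Qb ≃ₐ[ℚ] Qb) (y : laurentBaseChange Qb F₀),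
    δ (arithmeticGalois F₀ σ • y) = arithmeticGalois F₀ σ • δ y
  integral : ∀ (U : LaurentSeries A) (hU : IsIntG F₀ A Fk U),
    ∃ (W : LaurentSeries A) (hW : IsIntG F₀ A Fk W), toFG hW = δ (toFG hU)

/-- The trivial diamond (`X₀(N)`). -/
theorem diamondG_refl (F₀ : IntermediateField ℚ (LaurentSeries ℚ)) (A : ValuationSubring Qb)
    (Fk : IntermediateField (ResidueField A) (LaurentSeries (ResidueField A))) :
    DiamondG F₀ A Fk AlgEquiv.refl :=
  ⟨fun _ _ => rfl, fun U hU => ⟨U, hU, rfl⟩⟩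

/-- **NORM-ID with diamond**: the norm along `α` of `β y` has `q`-expansion
`V_p y · det (secMat p (δ y))`. -/
def NormIdG {F' : Type*} [Field F'] [Algebra Qb F']
    (α β : laurentBaseChange Qb F₀ →ₐ[Qb] F') (p : ℕ) [NeZero p]
    (δ : laurentBaseChange Qb F₀ ≃ₐ[Qb] laurentBaseChange Qb F₀) : Prop :=
  ∀ y : laurentBaseChange Qb F₀,
    ((normG α β y : laurentBaseChange Qb F₀) : LaurentSeries Qb)
      = kron2 p (y : LaurentSeries Qb) ((δ y : laurentBaseChange Qb F₀) : LaurentSeries Qb)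

/-! ### The integral Kronecker norm -/

section Kron

variable {p : ℕ} [Fact p.Prime] [NeZero p] [CharP (ResidueField A) p]

/-- Reduction of `kron2 (σU) (σW)` for a Frobenius element `σ`. -/
theorem coeffMap_residue_kron2_galA {g : A.decompositionSubgroup ℚ}
    (hgk : decK g = frobenius (ResidueField A) p) (U W : LaurentSeries A) :
    coeffMap (residue A) (kron2 p (galA g U) (galA g W))
      = coeffMap (residue A) U ^ p
        * coeffMap (decK g) (coeffMap (decK g) (coeffMap (residue A) W)) := by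
  have h1 := kron2_char p (coeffMap (residue A) (galA g U)) (coeffMap (residue A) (galA g W))
  have h2 := Fermat.Agent.S37.H400.laurent_pow_char p (coeffMap (residue A) U)
  rw [Fermat.Agent.S29.H222.coeffMap_residue_galA,
    Fermat.Agent.S29.H222.coeffMap_residue_galA, ← hgk] at h1
  rw [← hgk] at h2
  rw [coeffMap_kron2, Fermat.Agent.S29.H222.coeffMap_residue_galA,
    Fermat.Agent.S29.H222.coeffMap_residue_galA, h1, h2]

variable {F' : Type*} [Field F'] [Algebra Qb F']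
  {α β : laurentBaseChange Qb F₀ →ₐ[Qb] F'}
  {δ : laurentBaseChange Qb F₀ ≃ₐ[Qb] laurentBaseChange Qb F₀}

/-- `δ (σ U) = σ W` when `δ U = W`. -/
theorem toFG_galA_diamond (hst : StableG A Fk) (hδ : DiamondG F₀ A Fk δ)
    (g : A.decompositionSubgroup ℚ) {U W : LaurentSeries A}
    (hU : IsIntG F₀ A Fk U) (hW : IsIntG F₀ A Fk W) (hUW : toFG hW = δ (toFG hU)) :
    toFG (isIntG_galA hst g hW) = δ (toFG (isIntG_galA hst g hU)) := by
  rw [toFG_galA hst g hW, toFG_galA hst g hU, hδ.galois, hUW]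

/-- The integral Kronecker norm `K(U) = kron2 p (σU) (σW)`, `W = δ U`. -/
theorem isIntG_kron2_galA (hst : StableG A Fk) (hδ : DiamondG F₀ A Fk δ)
    (hnid : NormIdG α β p δ) {g : A.decompositionSubgroup ℚ}
    (hgk : decK g = frobenius (ResidueField A) p) {U W : LaurentSeries A}
    (hU : IsIntG F₀ A Fk U) (hW : IsIntG F₀ A Fk W) (hUW : toFG hW = δ (toFG hU)) :
    IsIntG F₀ A Fk (kron2 p (galA g U) (galA g W)) := by
  refine ⟨?_, ?_, ?_⟩
  · rw [coeffMap_kron2]
    have h := hnid (toFG (isIntG_galA hst g hU))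
    rw [← toFG_galA_diamond hst hδ g hU hW hUW, coe_toFG, coe_toFG] at h
    rw [← h]
    exact (normG α β (toFG (isIntG_galA hst g hU))).2
  · rw [coeffMap_residue_kron2_galA hgk]
    exact mul_mem (pow_mem hU.2.1 p) (hst _ _ (hst _ _ hW.2.1))
  · rw [coeffMap_residue_kron2_galA hgk]
    exact mul_ne_zero (pow_ne_zero p hU.2.2)
      (Fermat.Agent.S29.H222.coeffMap_ne_zero_of_injective _
        (Fermat.Agent.S29.H222.decK_injective g)
        (Fermat.Agent.S29.H222.coeffMap_ne_zero_of_injective _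
          (Fermat.Agent.S29.H222.decK_injective g) hW.2.2))

theorem toFG_kron2_galA (hst : StableG A Fk) (hδ : DiamondG F₀ A Fk δ)
    (hnid : NormIdG α β p δ) {g : A.decompositionSubgroup ℚ}
    (hgk : decK g = frobenius (ResidueField A) p) {U W : LaurentSeries A}
    (hU : IsIntG F₀ A Fk U) (hW : IsIntG F₀ A Fk W) (hUW : toFG hW = δ (toFG hU)) :
    toFG (isIntG_kron2_galA hst hδ hnid hgk hU hW hUW)
      = normG α β (toFG (isIntG_galA hst g hU)) := by
  apply Subtype.ext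
  have h := hnid (toFG (isIntG_galA hst g hU))
  rw [← toFG_galA_diamond hst hδ g hU hW hUW, coe_toFG, coe_toFG] at h
  rw [coe_toFG, coeffMap_kron2, h]

end Kron

/-! ### ESK-F with diamond -/

/-- **Generic ESK-F with diamond.**  Every Frobenius element `σ` at `A` satisfies
`σ² (δ x) - T (σ x) + p x = 0` on the `m`-torsion of `Pic0 ℚ̄ (ℚ̄ · F₀)`. -/
theorem eskG_frob {p : ℕ} (hp : p.Prime) {m : ℕ} (hm : m ≠ 0) (hA : A.LiesOverPrime p)
    (hcore : CoreG F₀ A Fk m) (hpgi : PGIG F₀ A Fk) (hst : StableG A Fk)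
    {F' : Type*} [Field F'] [Algebra Qb F'] [HasPrincipalDivisors Qb F']
    (α β : laurentBaseChange Qb F₀ →ₐ[Qb] F')
    (hα : α.toRingHom.IsIntegral) (hβ : β.toRingHom.IsIntegral)
    (hFI : FundamentalIdentityAlong Qb β hβ) (hfin : FiniteAlong Qb α)
    (hN : NormFormulaAlong Qb α hfin)
    (δ : laurentBaseChange Qb F₀ ≃ₐ[Qb] laurentBaseChange Qb F₀) (hδ : DiamondG F₀ A Fk δ)
    (hnid : haveI : NeZero p := ⟨hp.ne_zero⟩; NormIdG α β p δ) :
    ∀ σ : Qb ≃ₐ[ℚ] Qb, A.IsFrobeniusAt σ p →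
      ∀ x : Pic0 Qb (laurentBaseChange Qb F₀), (m : ℤ) • x = 0 →
        σ • σ • (δ • x) - Pic0.correspondence β α hβ hα hFI hfin hN (σ • x) + (p : ℤ) • x = 0 := by
  intro σ hσ x hx
  haveI : NeZero p := ⟨hp.ne_zero⟩
  haveI : Fact p.Prime := ⟨hp⟩
  haveI : CharP (ResidueField A) p :=
    Fermat.Agent.S29.H222.charP_residueField_of_liesOver hp hA
  obtain ⟨hdec, hfrob⟩ := hσ
  set g : A.decompositionSubgroup ℚ := ⟨σ, hdec⟩ with hg
  have hgk : decK g = frobenius (ResidueField A) p := RingHom.ext fun x => hfrob x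
  obtain ⟨D, rfl⟩ := Pic0.mk_surjective x
  obtain ⟨U₁, U₂, h₁, h₂, D₁, D₂, hd₁, hd₂, hDD⟩ :=
    exists_isIntG_of_principal hpgi (smul_mem_principal_of_torsionG D hx)
  obtain ⟨W₁, hW₁, hUW₁⟩ := hδ.integral U₁ h₁
  obtain ⟨W₂, hW₂, hUW₂⟩ := hδ.integral U₂ h₂
  set G := arithmeticGalois F₀ σ with hG
  -- the integral series
  have hg₁ := isIntG_galA hst g h₁
  have hg₂ := isIntG_galA hst g h₂
  have hgW₁ := isIntG_galA hst g hW₁
  have hgW₂ := isIntG_galA hst g hW₂
  have hggW₁ := isIntG_galA hst g hgW₁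
  have hggW₂ := isIntG_galA hst g hgW₂
  have hK₁ := isIntG_kron2_galA hst hδ hnid hgk h₁ hW₁ hUW₁
  have hK₂ := isIntG_kron2_galA hst hδ hnid hgk h₂ hW₂ hUW₂
  have hV₁ : IsIntG F₀ A Fk
      (galA g (galA g W₁) * U₁ ^ p * kron2 p (galA g U₂) (galA g W₂)) :=
    isIntG_mul (isIntG_mul hggW₁ (isIntG_pow h₁ p)) hK₂
  have hV₂ : IsIntG F₀ A Fk
      (galA g (galA g W₂) * U₂ ^ p * kron2 p (galA g U₁) (galA g W₁)) :=
    isIntG_mul (isIntG_mul hggW₂ (isIntG_pow h₂ p)) hK₁
  -- equal reductions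
  have hred : coeffMap (residue A)
        (galA g (galA g W₁) * U₁ ^ p * kron2 p (galA g U₂) (galA g W₂))
      = coeffMap (residue A)
        (galA g (galA g W₂) * U₂ ^ p * kron2 p (galA g U₁) (galA g W₁)) := by
    simp only [map_mul, map_pow, Fermat.Agent.S29.H222.coeffMap_residue_galA,
      coeffMap_residue_kron2_galA hgk]
    ring
  -- divisors
  have hδ₁ : IsDivOf (toFG hW₁) (δ • D₁) := by rw [hUW₁]; exact isDivOf_algEquiv δ hd₁
  have hδ₂ : IsDivOf (toFG hW₂) (δ • D₂) := by rw [hUW₂]; exact isDivOf_algEquiv δ hd₂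
  have hσ₁ : IsDivOf (toFG hg₁) (G • D₁) := by rw [toFG_galA hst]; exact hd₁.smul G
  have hσ₂ : IsDivOf (toFG hg₂) (G • D₂) := by rw [toFG_galA hst]; exact hd₂.smul G
  have hσW₁ : IsDivOf (toFG hgW₁) (G • δ • D₁) := by rw [toFG_galA hst]; exact hδ₁.smul G
  have hσW₂ : IsDivOf (toFG hgW₂) (G • δ • D₂) := by rw [toFG_galA hst]; exact hδ₂.smul G
  have hσσ₁ : IsDivOf (toFG hggW₁) (G • G • δ • D₁) := by
    rw [toFG_galA hst]; exact hσW₁.smul G
  have hσσ₂ : IsDivOf (toFG hggW₂) (G • G • δ • D₂) := by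
    rw [toFG_galA hst]; exact hσW₂.smul G
  have hp₁ : IsDivOf (toFG (isIntG_pow h₁ p)) ((p : ℤ) • D₁) := by
    rw [toFG_pow]; exact hd₁.pow p
  have hp₂ : IsDivOf (toFG (isIntG_pow h₂ p)) ((p : ℤ) • D₂) := by
    rw [toFG_pow]; exact hd₂.pow p
  have hT₁ : IsDivOf (toFG hK₁) (Divisor.correspondence β α hβ hα (G • D₁)) := by
    rw [toFG_kron2_galA hst hδ hnid hgk h₁ hW₁ hUW₁]
    exact isDivOf_correspondenceG hα hβ hfin hN (toFG_ne_zero hg₁) hσ₁
  have hT₂ : IsDivOf (toFG hK₂) (Divisor.correspondence β α hβ hα (G • D₂)) := by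
    rw [toFG_kron2_galA hst hδ hnid hgk h₂ hW₂ hUW₂]
    exact isDivOf_correspondenceG hα hβ hfin hN (toFG_ne_zero hg₂) hσ₂
  have hdV₁ : IsDivOf (toFG hV₁)
      (G • G • δ • D₁ + (p : ℤ) • D₁ + Divisor.correspondence β α hβ hα (G • D₂)) := by
    rw [toFG_mul (isIntG_mul hggW₁ (isIntG_pow h₁ p)) hK₂, toFG_mul hggW₁ (isIntG_pow h₁ p)]
    exact ((hσσ₁.mul (toFG_ne_zero _) (toFG_ne_zero _) hp₁).mul
      (mul_ne_zero (toFG_ne_zero _) (toFG_ne_zero _)) (toFG_ne_zero _) hT₂)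
  have hdV₂ : IsDivOf (toFG hV₂)
      (G • G • δ • D₂ + (p : ℤ) • D₂ + Divisor.correspondence β α hβ hα (G • D₁)) := by
    rw [toFG_mul (isIntG_mul hggW₂ (isIntG_pow h₂ p)) hK₁, toFG_mul hggW₂ (isIntG_pow h₂ p)]
    exact ((hσσ₂.mul (toFG_ne_zero _) (toFG_ne_zero _) hp₂).mul
      (mul_ne_zero (toFG_ne_zero _) (toFG_ne_zero _)) (toFG_ne_zero _) hT₁)
  -- the divisor of the relation
  set Dv : Divisor Qb (laurentBaseChange Qb F₀) := (D : Divisor Qb (laurentBaseChange Qb F₀))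
    with hDv
  set E : Divisor Qb (laurentBaseChange Qb F₀) :=
    G • G • δ • Dv - Divisor.correspondence β α hβ hα (G • Dv) + (p : ℤ) • Dv with hE
  have hGz : ∀ X : Divisor Qb (laurentBaseChange Qb F₀),
      G • ((m : ℤ) • X) = (m : ℤ) • (G • X) :=
    fun X => map_zsmul (DistribSMul.toAddMonoidHom (Divisor Qb (laurentBaseChange Qb F₀)) G) m X
  have hδz : ∀ X : Divisor Qb (laurentBaseChange Qb F₀),
      δ • ((m : ℤ) • X) = (m : ℤ) • (δ • X) :=
    fun X => map_zsmul (DistribSMul.toAddMonoidHom (Divisor Qb (laurentBaseChange Qb F₀)) δ) m X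
  have hmE : (m : ℤ) • E
      = (G • G • δ • D₁ + (p : ℤ) • D₁ + Divisor.correspondence β α hβ hα (G • D₂))
        - (G • G • δ • D₂ + (p : ℤ) • D₂ + Divisor.correspondence β α hβ hα (G • D₁)) := by
    have e1 : (m : ℤ) • E = G • G • δ • ((m : ℤ) • Dv)
        - Divisor.correspondence β α hβ hα (G • ((m : ℤ) • Dv))
        + (p : ℤ) • ((m : ℤ) • Dv) := by
      rw [hE, smul_add, smul_sub, hδz, hGz, hGz, hGz, map_zsmul, smul_comm (m : ℤ) (p : ℤ) Dv]
    rw [e1, hDD]
    simp only [smul_sub, map_sub]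
    abel
  have hkey : ∀ v : Place Qb (laurentBaseChange Qb F₀),
      (m : ℤ) * E v = v.ord (toFG hV₁) - v.ord (toFG hV₂) := by
    intro v
    rw [← hdV₁ v, ← hdV₂ v, ← Finsupp.sub_apply, ← hmE, Finsupp.smul_apply, smul_eq_mul]
  have hord : ∀ v : Place Qb (laurentBaseChange Qb F₀),
      (m : ℤ) ∣ v.ord (toFG hV₁) - v.ord (toFG hV₂) := fun v => ⟨_, (hkey v).symm⟩
  obtain ⟨c, y, hc, hy, hcy⟩ := hcore _ _ hV₁ hV₂ hred hord
  have hEy : IsDivOf y E :=
    Fermat.Agent.S29.H222.isDivOf_of_eq_const_mul_pow hm hc hy (toFG_ne_zero hV₂) hcy hkey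
  -- conclusion in `Pic0`
  rw [Pic0.smul_mk, galois_smul_mkG, galois_smul_mkG, galois_smul_mkG, Pic0.correspondence_mk]
  have hfinal : (Pic0.mk (SemilinearAut.degZeroSMulHom G
        (SemilinearAut.degZeroSMulHom G (Pic0.degZeroSMulHom δ D)))
      - Pic0.mk (Pic0.degZeroCorrespondence β α hβ hα hFI (SemilinearAut.degZeroSMulHom G D))
      + (p : ℤ) • Pic0.mk D : Pic0 Qb (laurentBaseChange Qb F₀))
      = Pic0.mk (SemilinearAut.degZeroSMulHom G
          (SemilinearAut.degZeroSMulHom G (Pic0.degZeroSMulHom δ D))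
          - Pic0.degZeroCorrespondence β α hβ hα hFI (SemilinearAut.degZeroSMulHom G D)
          + (p : ℤ) • D) := rfl
  rw [hfinal]
  exact pic0_mk_eq_zero_of_isDivOfG _ hy hEy

/-! ### The diamond commutes with the Galois action on `Pic0` -/

section Comm

variable {K F : Type*} [Field K] [Field F] [Algebra K F]

/-- If `δ` and `g` commute on `F`, so do their inverses. -/
theorem algEquiv_inv_comm (δ : F ≃ₐ[K] F) (g : SemilinearAut K F)
    (h : ∀ y : F, δ (g • y) = g • δ y) (y : F) : δ⁻¹ (g⁻¹ • y) = g⁻¹ • δ⁻¹ y := by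
  have h1 : δ (g • (δ⁻¹ (g⁻¹ • y))) = y := by
    rw [h]
    show g • δ (δ.symm (g⁻¹ • y)) = y
    rw [AlgEquiv.apply_symm_apply, smul_inv_smul]
  have h2 : δ (g • (g⁻¹ • δ⁻¹ y)) = y := by
    rw [smul_inv_smul]
    exact δ.apply_symm_apply y
  have h3 : g • (δ⁻¹ (g⁻¹ • y)) = g • (g⁻¹ • δ⁻¹ y) := δ.injective (h1.trans h2.symm)
  exact MulAction.injective g h3

theorem place_smul_comm (δ : F ≃ₐ[K] F) (g : SemilinearAut K F)
    (h : ∀ y : F, δ (g • y) = g • δ y) (v : Place K F) : δ • (g • v) = g • (δ • v) := by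
  apply Place.ext
  ext x
  rw [Place.smul_toValuationSubring, SemilinearAut.smul_toValuationSubring,
    SemilinearAut.smul_toValuationSubring, Place.smul_toValuationSubring,
    ValuationSubring.mem_pointwise_smul_iff_inv_smul_mem,
    ValuationSubring.mem_pointwise_smul_iff_inv_smul_mem,
    ValuationSubring.mem_pointwise_smul_iff_inv_smul_mem,
    ValuationSubring.mem_pointwise_smul_iff_inv_smul_mem]
  have e : g⁻¹ • δ⁻¹ • x = δ⁻¹ • g⁻¹ • x := (algEquiv_inv_comm δ g h x).symm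
  rw [e]

theorem divisor_smul_comm (δ : F ≃ₐ[K] F) (g : SemilinearAut K F)
    (h : ∀ y : F, δ (g • y) = g • δ y) (D : Divisor K F) : δ • (g • D) = g • (δ • D) := by
  ext w
  rw [Divisor.smul_apply, SemilinearAut.divisor_smul_apply, SemilinearAut.divisor_smul_apply,
    Divisor.smul_apply]
  congr 1
  exact (place_smul_comm δ⁻¹ g⁻¹ (algEquiv_inv_comm δ g h) w).symm

theorem pic0_smul_comm (δ : F ≃ₐ[K] F) (g : SemilinearAut K F)
    (h : ∀ y : F, δ (g • y) = g • δ y) (x : Pic0 K F) : δ • (g • x) = g • (δ • x) := by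
  obtain ⟨D, rfl⟩ := Pic0.mk_surjective x
  rw [SemilinearAut.pic0_smul_mk, Pic0.smul_mk, Pic0.smul_mk, SemilinearAut.pic0_smul_mk]
  exact congrArg Pic0.mk (Subtype.ext (divisor_smul_comm δ g h D))

end Comm

/-- A diamond commutes with the Galois action on `Pic0`. -/
theorem DiamondG.smul_comm {δ : laurentBaseChange Qb F₀ ≃ₐ[Qb] laurentBaseChange Qb F₀}
    (hδ : DiamondG F₀ A Fk δ) (σ : Qb ≃ₐ[ℚ] Qb) (x : Pic0 Qb (laurentBaseChange Qb F₀)) :
    δ • (σ • x) = σ • (δ • x) := by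
  rw [galois_smul_pic0_def, galois_smul_pic0_def]
  exact pic0_smul_comm δ (arithmeticGalois F₀ σ) (fun y => hδ.galois σ y) x

/-- The inverse of a diamond commutes with the Galois action on `Pic0`. -/
theorem DiamondG.inv_smul_comm {δ : laurentBaseChange Qb F₀ ≃ₐ[Qb] laurentBaseChange Qb F₀}
    (hδ : DiamondG F₀ A Fk δ) (σ : Qb ≃ₐ[ℚ] Qb) (x : Pic0 Qb (laurentBaseChange Qb F₀)) :
    δ⁻¹ • (σ • x) = σ • (δ⁻¹ • x) := by
  have h := hδ.smul_comm σ (δ⁻¹ • x)
  rw [smul_inv_smul] at h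
  rw [← h, inv_smul_smul]

/-- **Generic ESK-F with diamond, second form**: `σ² x - T_p (σ x) + p ⟨p⟩ x = 0` with
`T_p := T ∘ δ⁻¹` and `⟨p⟩ := δ⁻¹`. -/
theorem eskG_frob' {p : ℕ} (hp : p.Prime) {m : ℕ} (hm : m ≠ 0) (hA : A.LiesOverPrime p)
    (hcore : CoreG F₀ A Fk m) (hpgi : PGIG F₀ A Fk) (hst : StableG A Fk)
    {F' : Type*} [Field F'] [Algebra Qb F'] [HasPrincipalDivisors Qb F']
    (α β : laurentBaseChange Qb F₀ →ₐ[Qb] F')
    (hα : α.toRingHom.IsIntegral) (hβ : β.toRingHom.IsIntegral)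
    (hFI : FundamentalIdentityAlong Qb β hβ) (hfin : FiniteAlong Qb α)
    (hN : NormFormulaAlong Qb α hfin)
    (δ : laurentBaseChange Qb F₀ ≃ₐ[Qb] laurentBaseChange Qb F₀) (hδ : DiamondG F₀ A Fk δ)
    (hnid : haveI : NeZero p := ⟨hp.ne_zero⟩; NormIdG α β p δ) :
    ∀ σ : Qb ≃ₐ[ℚ] Qb, A.IsFrobeniusAt σ p →
      ∀ x : Pic0 Qb (laurentBaseChange Qb F₀), (m : ℤ) • x = 0 →
        σ • σ • x - Pic0.correspondence β α hβ hα hFI hfin hN (δ⁻¹ • (σ • x))
          + (p : ℤ) • (δ⁻¹ • x) = 0 := by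
  intro σ hσ x hx
  have hx' : (m : ℤ) • (δ⁻¹ • x) = 0 := by
    have h1 : δ⁻¹ • ((m : ℤ) • x) = (m : ℤ) • (δ⁻¹ • x) :=
      map_zsmul (DistribSMul.toAddMonoidHom (Pic0 Qb (laurentBaseChange Qb F₀)) δ⁻¹) m x
    rw [← h1, hx]
    exact map_zero (DistribSMul.toAddMonoidHom (Pic0 Qb (laurentBaseChange Qb F₀)) δ⁻¹)
  have h := eskG_frob hp hm hA hcore hpgi hst α β hα hβ hFI hfin hN δ hδ hnid σ hσ
    (δ⁻¹ • x) hx'
  rw [smul_inv_smul, ← hδ.inv_smul_comm σ x] at h
  exact h

end Fermat.Agent.S48.H136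

end
end
-- ===== PACK-END S48/H136/ESKGFrob.lean

-- ===== PACK-BEGIN S48/H136/ESKV.lean
section
/-
S48 / Tower A1 (helper136) — piece ESK1, part 4: GENERIC raw Eichler–Shimura with diamond,
VERSION 2 (no integrality hypothesis on the diamond).

Why a second version.  `DiamondG.integral` of `ESKGFrob.lean` asks that the diamond automorphism
map series with integral `q`-expansion (at `∞`) to series with integral `q`-expansion.  For
`X₁(M)` this is FALSE as soon as `d ≠ ±1`: `δ_d` moves the cusp `∞`, and a function with integral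
expansion at `∞` may have a pole through the reduction of the cusp `δ_d ∞` (`u = 1/(p + t)`,
`t` a local parameter at `δ_d ∞`).  What is TRUE (and is exactly what the Gauss-lemma proof of PGI
constructs, cf. `S37/H700/GaussMain.lean`, `pgi`) is

  `ValG F₀ A Fk` : every `f ≠ 0` in `F = ℚ̄ · F₀` is `c · u₁ / u₂`, `c ∈ ℚ̄ˣ`, `u₁ u₂` integral series
                   (elements of `A((q))` lying in `F` with nonzero reduction in `F_k`).

`eskV_inertia` : `CoreG + ValG + StableG ⟹` inertia at `A` acts trivially on `J[m]`;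
`eskV_frob`    : `CoreG + ValG + StableG + HeckeInputs + NormIdG + (δ commutes with Galois) ⟹`
                 `σ² (δ x) - T (σ x) + p x = 0` on `J[m]` for every Frobenius element `σ` at `A`.
`eskV_frob'`   : the same in the form `σ² x - T (δ⁻¹ σ x) + p δ⁻¹ x = 0`.

Proof of `eskV_frob`: `m D = div f`, `f = c u₁/u₂`, `δ f = c' w₁/w₂` (`ValG` twice);
`R := σ²(δ f) · f^p / Nm_α(β σ f)` has divisor `m E`, `E` the divisor of the relation; `ValG` for
`R`: `R = c₃ v₁/v₂`.  NORM-ID and the multiplicativity of `V_p`, `det secMat` give the identity of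
`q`-series `R · k₁ · X₂ = k₂ · X₁` with constants `k₁ k₂` and
`X₁ = σ²W₁ · U₁^p · kron2 (σU₂) (σW₂)`, `X₂ = σ²W₂ · U₂^p · kron2 (σU₁) (σW₁)` in `A((q))`, which
have the SAME reduction.  Hence `v₁/v₂` is a unit constant times a series with reduction `1`, and
the Kummer core `CoreG` applies to `(a v₁, v₂)`.
-/


set_option autoImplicit false
set_option linter.style.haveILetI false

noncomputable section

namespace Fermat.Agent.S48.H136

open ModularCurve AlgebraicCurve HahnSeries IsLocalRing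
open Fermat.Agent.S18 (Qb)
open Fermat.Agent.S29.H222 (IsDivOf decA decK galA)
open Fermat.Agent.S37.H400 (secMat)

/-! ### Constants and the formal Kronecker norm -/

section Const

variable {R : Type*} [CommRing R]

theorem single_zero_pow (c : R) (n : ℕ) :
    (HahnSeries.single (0 : ℤ) c : LaurentSeries R) ^ n = HahnSeries.single 0 (c ^ n) :=
  (map_pow (HahnSeries.C : R →+* LaurentSeries R) c n).symm

theorem single_zero_mul_single_zero (c d : R) :
    (HahnSeries.single (0 : ℤ) c : LaurentSeries R) * HahnSeries.single 0 d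
      = HahnSeries.single 0 (c * d) :=
  (map_mul (HahnSeries.C : R →+* LaurentSeries R) c d).symm

theorem single_zero_one : (HahnSeries.single (0 : ℤ) (1 : R) : LaurentSeries R) = 1 := rfl

theorem det_secMat_single_zero (p : ℕ) [NeZero p] (c : R) :
    (secMat p (HahnSeries.single (0 : ℤ) c : LaurentSeries R)).det
      = HahnSeries.single 0 (c ^ p) := by
  have h := Fermat.Agent.S37.H400.secMat_qExpand p (HahnSeries.single (0 : ℤ) c : LaurentSeries R)
  rw [qExpand_single, mul_zero] at h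
  rw [h, Matrix.scalar_apply, Matrix.det_diagonal, Finset.prod_const, Finset.card_univ,
    Fintype.card_fin, single_zero_pow]

theorem kron2_mul (p : ℕ) [NeZero p] (f f' g g' : LaurentSeries R) :
    kron2 p (f * f') (g * g') = kron2 p f g * kron2 p f' g' := by
  rw [kron2, kron2, kron2, map_mul, Fermat.Agent.S37.H400.secMat_mul, Matrix.det_mul]
  ring

theorem kron2_single_zero (p : ℕ) [NeZero p] (c c' : R) :
    kron2 p (HahnSeries.single (0 : ℤ) c : LaurentSeries R) (HahnSeries.single 0 c')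
      = HahnSeries.single 0 (c * c' ^ p) := by
  rw [kron2, qExpand_single, mul_zero, det_secMat_single_zero, single_zero_mul_single_zero]

end Const

/-! ### Two algebraic identities -/

section Identities

variable {L : Type*} [Field L]

/-- `x = C y₁/y₂`, `y₁ = C₁ a₁/b₁`, `y₂ = C₂ a₂/b₂` ⟹ `x = (C C₁/C₂) (a₁ b₂)/(a₂ b₁)`. -/
theorem eskV_quot {x y₁ y₂ a₁ b₁ a₂ b₂ C C₁ C₂ C' : L} (hC₂ : C₂ ≠ 0) (hy₂ : y₂ ≠ 0)
    (E0 : C' * C₂ = C * C₁) (E1 : x * y₂ = C * y₁) (E2 : y₁ * b₁ = C₁ * a₁)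
    (E3 : y₂ * b₂ = C₂ * a₂) : x * (a₂ * b₁) = C' * (a₁ * b₂) := by
  apply mul_right_cancel₀ (mul_ne_zero hC₂ hy₂)
  linear_combination (-(x * y₂ * b₁)) * E3 + (b₁ * y₂ * b₂) * E1 + (C * y₂ * b₂) * E2
    - (a₁ * b₂ * y₂) * E0

/-- The identity of `q`-series behind `eskV_frob`. -/
theorem eskV_key {r P Q S T Vu₁ Vu₂ Vc Nw₁ Nw₂ Nc gw₁ gw₂ gc u₁p u₂p cp : L}
    (e5 : r * (P * Q) = S * T) (e8 : P * Vu₂ = Vc * Vu₁) (e7 : Q * Nw₂ = Nc * Nw₁)
    (e6 : S * gw₂ = gc * gw₁) (e9 : T * u₂p = cp * u₁p) :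
    r * (Vc * Nc) * (gw₂ * u₂p * (Vu₁ * Nw₁)) = (gc * cp) * (gw₁ * u₁p * (Vu₂ * Nw₂)) := by
  linear_combination (-(r * (Nc * Nw₁) * gw₂ * u₂p)) * e8 - (r * P * Vu₂ * gw₂ * u₂p) * e7
    + (Vu₂ * Nw₂ * gw₂ * u₂p) * e5 + (T * Vu₂ * Nw₂ * u₂p) * e6 + (gc * gw₁ * Vu₂ * Nw₂) * e9

end Identities

variable {F₀ : IntermediateField ℚ (LaurentSeries ℚ)} {A : ValuationSubring Qb}
  {Fk : IntermediateField (ResidueField A) (LaurentSeries (ResidueField A))}

/-! ### Unit constants -/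

/-- If `κ · P = Q` with `P, Q ∈ A((q))` of nonzero reduction, then `κ` is a unit of `A`. -/
theorem exists_unit_of_const_mul_eq {P Q : LaurentSeries A}
    (hP : coeffMap (residue A) P ≠ 0) (hQ : coeffMap (residue A) Q ≠ 0) {κ : Qb}
    (h : HahnSeries.single (0 : ℤ) κ * coeffMap A.subtype P = coeffMap A.subtype Q) :
    ∃ a : A, IsUnit a ∧ (a : Qb) = κ := by
  have hκ0 : κ ≠ 0 := by
    rintro rfl
    rw [HahnSeries.single_eq_zero, zero_mul] at h
    have hQ0 : Q = 0 :=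
      Fermat.Agent.S29.H222.esk_coeffMap_subtype_injective (by rw [← h, map_zero])
    exact hQ (by rw [hQ0, map_zero])
  have hunit : ∀ (a : A) (P' Q' : LaurentSeries A), coeffMap (residue A) Q' ≠ 0 →
      HahnSeries.single (0 : ℤ) (a : Qb) * coeffMap A.subtype P' = coeffMap A.subtype Q' →
      IsUnit a := by
    intro a P' Q' hQ' h'
    have e : HahnSeries.single (0 : ℤ) a * P' = Q' := by
      apply Fermat.Agent.S29.H222.esk_coeffMap_subtype_injective
      rw [map_mul, coeffMap_single]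
      exact h'
    by_contra hna
    have hres : residue A a = 0 := (IsLocalRing.residue_eq_zero_iff a).mpr hna
    apply hQ'
    rw [← e, map_mul, coeffMap_single, hres, HahnSeries.single_eq_zero, zero_mul]
  rcases A.mem_or_inv_mem κ with hκ | hκ
  · exact ⟨⟨κ, hκ⟩, hunit ⟨κ, hκ⟩ P Q hQ h, rfl⟩
  · have h' : HahnSeries.single (0 : ℤ) ((⟨κ⁻¹, hκ⟩ : A) : Qb) * coeffMap A.subtype Q
        = coeffMap A.subtype P := by
      show HahnSeries.single (0 : ℤ) κ⁻¹ * coeffMap A.subtype Q = coeffMap A.subtype P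
      rw [← h, ← mul_assoc, single_zero_mul_single_zero, inv_mul_cancel₀ hκ0, single_zero_one,
        one_mul]
    have hu := hunit ⟨κ⁻¹, hκ⟩ Q P hP h'
    refine ⟨((hu.unit⁻¹ : Aˣ) : A), Units.isUnit _, ?_⟩
    have h1 : ((hu.unit⁻¹ : Aˣ) : A) * (⟨κ⁻¹, hκ⟩ : A) = 1 := by
      have := hu.unit.inv_mul
      simpa using this
    have h2 : (((hu.unit⁻¹ : Aˣ) : A) : Qb) * κ⁻¹ = 1 := congrArg Subtype.val h1
    exact (eq_inv_of_mul_eq_one_left h2).trans (inv_inv κ)

/-- Multiplying an integral series by a unit constant. -/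
theorem isIntG_const_mul {a : A} (ha : IsUnit a) {U : LaurentSeries A}
    (hU : IsIntG F₀ A Fk U) : IsIntG F₀ A Fk (HahnSeries.single (0 : ℤ) a * U) := by
  refine ⟨?_, ?_, ?_⟩
  · rw [map_mul, coeffMap_single, ← algebraMap_laurentSeries_eq_single]
    exact mul_mem ((laurentBaseChange Qb F₀).algebraMap_mem _) hU.1
  · rw [map_mul, coeffMap_single, ← algebraMap_laurentSeries_eq_single]
    exact mul_mem (Fk.algebraMap_mem _) hU.2.1
  · rw [map_mul, coeffMap_single]
    refine mul_ne_zero ?_ hU.2.2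
    rw [Ne, HahnSeries.single_eq_zero_iff]
    intro h0
    exact ((IsLocalRing.residue_eq_zero_iff a).mp h0) ha

theorem toFG_const_mul {a : A} (ha : IsUnit a) {U : LaurentSeries A}
    (hU : IsIntG F₀ A Fk U) :
    toFG (isIntG_const_mul ha hU)
      = algebraMap Qb (laurentBaseChange Qb F₀) (a : Qb) * toFG hU := by
  apply Subtype.ext
  show coeffMap A.subtype (HahnSeries.single (0 : ℤ) a * U)
    = algebraMap Qb (LaurentSeries Qb) (a : Qb) * coeffMap A.subtype U
  rw [map_mul, coeffMap_single, algebraMap_laurentSeries_eq_single]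
  rfl

/-! ### The hypothesis `ValG` -/

section Val

variable (F₀ A Fk)

/-- **VAL**: every nonzero element of `F = ℚ̄ · F₀` is a nonzero constant times the quotient of
two integral series. -/
def ValG : Prop :=
  ∀ f : laurentBaseChange Qb F₀, f ≠ 0 →
    ∃ (c : Qb) (U₁ U₂ : LaurentSeries A) (h₁ : IsIntG F₀ A Fk U₁) (h₂ : IsIntG F₀ A Fk U₂),
      c ≠ 0 ∧ f * toFG h₂ = algebraMap Qb (laurentBaseChange Qb F₀) c * toFG h₁

end Val

/-- `ValG` for a function and its image under an automorphism, simultaneously. -/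
theorem ValG.pair (hval : ValG F₀ A Fk)
    (δ : laurentBaseChange Qb F₀ ≃ₐ[Qb] laurentBaseChange Qb F₀)
    (f : laurentBaseChange Qb F₀) (hf : f ≠ 0) :
    ∃ (c c' : Qb) (U₁ U₂ W₁ W₂ : LaurentSeries A) (h₁ : IsIntG F₀ A Fk U₁)
      (h₂ : IsIntG F₀ A Fk U₂) (hW₁ : IsIntG F₀ A Fk W₁) (hW₂ : IsIntG F₀ A Fk W₂),
      c ≠ 0 ∧ c' ≠ 0 ∧
      f * toFG h₂ = algebraMap Qb (laurentBaseChange Qb F₀) c * toFG h₁ ∧
      δ f * toFG hW₂ = algebraMap Qb (laurentBaseChange Qb F₀) c' * toFG hW₁ := by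
  obtain ⟨c, U₁, U₂, h₁, h₂, hc, hfu⟩ := hval f hf
  have hδ₁ : δ (toFG h₁) ≠ 0 := (map_ne_zero δ).mpr (toFG_ne_zero h₁)
  have hδ₂ : δ (toFG h₂) ≠ 0 := (map_ne_zero δ).mpr (toFG_ne_zero h₂)
  obtain ⟨c₁, A₁, B₁, hA₁, hB₁, hc₁, hu₁⟩ := hval _ hδ₁
  obtain ⟨c₂, A₂, B₂, hA₂, hB₂, hc₂, hu₂⟩ := hval _ hδ₂
  refine ⟨c, c * c₁ / c₂, U₁, U₂, A₁ * B₂, A₂ * B₁, h₁, h₂, isIntG_mul hA₁ hB₂,
    isIntG_mul hA₂ hB₁, hc, div_ne_zero (mul_ne_zero hc hc₁) hc₂, hfu, ?_⟩
  rw [toFG_mul hA₂ hB₁, toFG_mul hA₁ hB₂]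
  have E1 : δ f * δ (toFG h₂) = algebraMap Qb (laurentBaseChange Qb F₀) c * δ (toFG h₁) := by
    rw [← map_mul, hfu, map_mul, AlgEquiv.commutes]
  have E0 : algebraMap Qb (laurentBaseChange Qb F₀) (c * c₁ / c₂)
      * algebraMap Qb (laurentBaseChange Qb F₀) c₂
      = algebraMap Qb (laurentBaseChange Qb F₀) c
        * algebraMap Qb (laurentBaseChange Qb F₀) c₁ := by
    rw [← map_mul, ← map_mul, div_mul_cancel₀ _ hc₂]
  exact eskV_quot ((map_ne_zero _).mpr hc₂) hδ₂ E0 E1 hu₁ hu₂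

/-! ### Coercions -/

theorem coe_algebraMap_lbc (c : Qb) :
    ((algebraMap Qb (laurentBaseChange Qb F₀) c : laurentBaseChange Qb F₀) : LaurentSeries Qb)
      = HahnSeries.single 0 c := by
  rw [← algebraMap_laurentSeries_eq_single]
  rfl

/-! ### ESK-U from `ValG` -/

/-- **Generic ESK-U, version 2.**  Inertia at `A` acts trivially on the `m`-torsion of
`Pic0 ℚ̄ (ℚ̄ · F₀)`. -/
theorem eskV_inertia {m : ℕ} (hm : m ≠ 0) (hcore : CoreG F₀ A Fk m) (hval : ValG F₀ A Fk)
    (hst : StableG A Fk) :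
    ∀ τ ∈ A.inertiaSubgroupIn ℚ, ∀ x : Pic0 Qb (laurentBaseChange Qb F₀),
      (m : ℤ) • x = 0 → τ • x = x := by
  intro τ hτ x hx
  obtain ⟨g, hg, rfl⟩ := hτ
  obtain ⟨D, rfl⟩ := Pic0.mk_surjective x
  obtain ⟨f, hf0, hfD⟩ := smul_mem_principal_of_torsionG D hx
  obtain ⟨c, U₁, U₂, h₁, h₂, hc, hfu⟩ := hval f hf0
  set G := arithmeticGalois F₀
    (((A.decompositionSubgroup ℚ).subtype g : Qb ≃ₐ[ℚ] Qb)) with hG
  have hV₁ : IsIntG F₀ A Fk (galA g U₁ * U₂) := isIntG_mul (isIntG_galA hst g h₁) h₂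
  have hV₂ : IsIntG F₀ A Fk (U₁ * galA g U₂) := isIntG_mul h₁ (isIntG_galA hst g h₂)
  have hred : coeffMap (residue A) (galA g U₁ * U₂) = coeffMap (residue A) (U₁ * galA g U₂) := by
    rw [map_mul, map_mul, Fermat.Agent.S29.H222.coeffMap_residue_galA,
      Fermat.Agent.S29.H222.coeffMap_residue_galA,
      Fermat.Agent.S29.H222.coeffMap_decK_of_mem_inertia hg,
      Fermat.Agent.S29.H222.coeffMap_decK_of_mem_inertia hg]
  -- orders
  have hu₁0 := toFG_ne_zero h₁
  have hu₂0 := toFG_ne_zero h₂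
  have hcF : algebraMap Qb (laurentBaseChange Qb F₀) c ≠ 0 := (map_ne_zero _).mpr hc
  have hordf : ∀ v : Place Qb (laurentBaseChange Qb F₀),
      v.ord f = v.ord (toFG h₁) - v.ord (toFG h₂) := by
    intro v
    have h := congrArg v.ord hfu
    rw [v.ord_mul hf0 hu₂0, v.ord_mul hcF hu₁0,
      Fermat.Agent.S29.H222.esk_ord_algebraMap v hc] at h
    linarith
  have hordG : ∀ (y : laurentBaseChange Qb F₀) (v : Place Qb (laurentBaseChange Qb F₀)),
      v.ord (G • y) = (G⁻¹ • v).ord y := by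
    intro y v
    have h := SemilinearAut.ord_smul G (G⁻¹ • v) y
    rw [smul_inv_smul] at h
    exact h
  have hkey : ∀ v : Place Qb (laurentBaseChange Qb F₀),
      (m : ℤ) * (G • (D : Divisor Qb (laurentBaseChange Qb F₀)) - D) v
        = v.ord (toFG hV₁) - v.ord (toFG hV₂) := by
    intro v
    have e1 := hfD v
    have e2 := hfD (G⁻¹ • v)
    rw [Finsupp.smul_apply, smul_eq_mul] at e1 e2
    have hg₁ : toFG (isIntG_galA hst g h₁) = G • toFG h₁ := toFG_galA hst g h₁
    have hg₂ : toFG (isIntG_galA hst g h₂) = G • toFG h₂ := toFG_galA hst g h₂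
    rw [toFG_mul (isIntG_galA hst g h₁) h₂, toFG_mul h₁ (isIntG_galA hst g h₂),
      v.ord_mul (toFG_ne_zero _) hu₂0, v.ord_mul hu₁0 (toFG_ne_zero _),
      hg₁, hg₂, hordG, hordG]
    have e3 := hordf v
    have e4 := hordf (G⁻¹ • v)
    simp only [Finsupp.sub_apply, SemilinearAut.divisor_smul_apply]
    linear_combination e2 - e1 + e4 - e3
  have hord : ∀ v : Place Qb (laurentBaseChange Qb F₀),
      (m : ℤ) ∣ v.ord (toFG hV₁) - v.ord (toFG hV₂) := fun v => ⟨_, (hkey v).symm⟩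
  obtain ⟨c', y, hc', hy, hcy⟩ := hcore _ _ hV₁ hV₂ hred hord
  have hE := Fermat.Agent.S29.H222.isDivOf_of_eq_const_mul_pow hm hc' hy (toFG_ne_zero hV₂) hcy
    hkey
  show (((A.decompositionSubgroup ℚ).subtype g : Qb ≃ₐ[ℚ] Qb))
      • (Pic0.mk D : Pic0 Qb (laurentBaseChange Qb F₀)) = Pic0.mk D
  rw [galois_smul_pic0_def, SemilinearAut.pic0_smul_mk]
  exact pic0_mk_eq_of_isDivOfG D _ hy hE

/-! ### ESK-F from `ValG` -/

section FrobAux

theorem kron2_ne_zero {K : Type*} [Field K] (p : ℕ) [NeZero p] {f g : LaurentSeries K}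
    (hf : f ≠ 0) (hg : g ≠ 0) : kron2 p f g ≠ 0 := by
  have h := kron2_mul p f f⁻¹ g g⁻¹
  rw [mul_inv_cancel₀ hf, mul_inv_cancel₀ hg] at h
  have h1 : kron2 p (1 : LaurentSeries K) 1 = 1 := by
    rw [kron2, map_one, Fermat.Agent.S37.H400.secMat_one, Matrix.det_one, mul_one]
  rw [h1] at h
  intro h0
  rw [h0, zero_mul] at h
  exact one_ne_zero h

variable {p : ℕ} [Fact p.Prime] [NeZero p] [CharP (ResidueField A) p]

/-- The two series `X₁`, `X₂` have the same reduction. -/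
theorem coeffMap_residue_eskX {g : A.decompositionSubgroup ℚ}
    (hgk : decK g = frobenius (ResidueField A) p) (U₁ U₂ W₁ W₂ : LaurentSeries A) :
    coeffMap (residue A) (galA g (galA g W₁) * U₁ ^ p * kron2 p (galA g U₂) (galA g W₂))
      = coeffMap (residue A)
          (galA g (galA g W₂) * U₂ ^ p * kron2 p (galA g U₁) (galA g W₁)) := by
  simp only [map_mul, map_pow, Fermat.Agent.S29.H222.coeffMap_residue_galA,
    coeffMap_residue_kron2_galA hgk]
  ring

theorem coeffMap_residue_eskX_ne_zero {g : A.decompositionSubgroup ℚ}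
    (hgk : decK g = frobenius (ResidueField A) p) {U₁ U₂ W₁ W₂ : LaurentSeries A}
    (hU₁ : coeffMap (residue A) U₁ ≠ 0) (hU₂ : coeffMap (residue A) U₂ ≠ 0)
    (hW₁ : coeffMap (residue A) W₁ ≠ 0) (hW₂ : coeffMap (residue A) W₂ ≠ 0) :
    coeffMap (residue A) (galA g (galA g W₁) * U₁ ^ p * kron2 p (galA g U₂) (galA g W₂))
      ≠ 0 := by
  have hinj : ∀ {x : LaurentSeries (ResidueField A)}, x ≠ 0 → coeffMap (decK g) x ≠ 0 :=
    fun hx => Fermat.Agent.S29.H222.coeffMap_ne_zero_of_injective _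
      (Fermat.Agent.S29.H222.decK_injective g) hx
  rw [map_mul, map_mul, map_pow, Fermat.Agent.S29.H222.coeffMap_residue_galA,
    Fermat.Agent.S29.H222.coeffMap_residue_galA, coeffMap_residue_kron2_galA hgk]
  exact mul_ne_zero (mul_ne_zero (hinj (hinj hW₁)) (pow_ne_zero p hU₁))
    (mul_ne_zero (pow_ne_zero p hU₂) (hinj (hinj hW₂)))

omit [Fact p.Prime] [CharP (ResidueField A) p] in
/-- The image of `X₁` in `ℚ̄((q))`. -/
theorem coeffMap_subtype_eskX (g : A.decompositionSubgroup ℚ) (U₁ U₂ W₁ W₂ : LaurentSeries A) :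
    coeffMap A.subtype (galA g (galA g W₁) * U₁ ^ p * kron2 p (galA g U₂) (galA g W₂))
      = coeffMap (((g : Qb ≃ₐ[ℚ] Qb)) : Qb →+* Qb)
            (coeffMap (((g : Qb ≃ₐ[ℚ] Qb)) : Qb →+* Qb) (coeffMap A.subtype W₁))
          * coeffMap A.subtype U₁ ^ p
          * (qExpand Qb p (coeffMap (((g : Qb ≃ₐ[ℚ] Qb)) : Qb →+* Qb) (coeffMap A.subtype U₂))
            * (secMat p
                (coeffMap (((g : Qb ≃ₐ[ℚ] Qb)) : Qb →+* Qb) (coeffMap A.subtype W₂))).det) := by
  rw [map_mul, map_mul, map_pow, coeffMap_kron2,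
    Fermat.Agent.S29.H222.coeffMap_subtype_galA, Fermat.Agent.S29.H222.coeffMap_subtype_galA,
    Fermat.Agent.S29.H222.coeffMap_subtype_galA, Fermat.Agent.S29.H222.coeffMap_subtype_galA]
  rfl

end FrobAux

/-- **Generic ESK-F with diamond, version 2.**  Every Frobenius element `σ` at `A` satisfies
`σ² (δ x) - T (σ x) + p x = 0` on the `m`-torsion of `Pic0 ℚ̄ (ℚ̄ · F₀)`.  No integrality
hypothesis on `δ`. -/
theorem eskV_frob {p : ℕ} (hp : p.Prime) {m : ℕ} (hm : m ≠ 0) (hA : A.LiesOverPrime p)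
    (hcore : CoreG F₀ A Fk m) (hval : ValG F₀ A Fk) (hst : StableG A Fk)
    {F' : Type*} [Field F'] [Algebra Qb F'] [HasPrincipalDivisors Qb F']
    (α β : laurentBaseChange Qb F₀ →ₐ[Qb] F')
    (hα : α.toRingHom.IsIntegral) (hβ : β.toRingHom.IsIntegral)
    (hFI : FundamentalIdentityAlong Qb β hβ) (hfin : FiniteAlong Qb α)
    (hN : NormFormulaAlong Qb α hfin)
    (δ : laurentBaseChange Qb F₀ ≃ₐ[Qb] laurentBaseChange Qb F₀)
    (hgal : ∀ (σ : Qb ≃ₐ[ℚ] Qb) (y : laurentBaseChange Qb F₀),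
      δ (arithmeticGalois F₀ σ • y) = arithmeticGalois F₀ σ • δ y)
    (hnid : haveI : NeZero p := ⟨hp.ne_zero⟩; NormIdG α β p δ) :
    ∀ σ : Qb ≃ₐ[ℚ] Qb, A.IsFrobeniusAt σ p →
      ∀ x : Pic0 Qb (laurentBaseChange Qb F₀), (m : ℤ) • x = 0 →
        σ • σ • (δ • x) - Pic0.correspondence β α hβ hα hFI hfin hN (σ • x) + (p : ℤ) • x = 0 := by
  intro σ hσ x hx
  haveI : NeZero p := ⟨hp.ne_zero⟩
  haveI : Fact p.Prime := ⟨hp⟩
  haveI : CharP (ResidueField A) p :=
    Fermat.Agent.S29.H222.charP_residueField_of_liesOver hp hA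
  obtain ⟨hdec, hfrob⟩ := hσ
  set g : A.decompositionSubgroup ℚ := ⟨σ, hdec⟩ with hg
  have hgk : decK g = frobenius (ResidueField A) p := RingHom.ext fun x => hfrob x
  obtain ⟨D, rfl⟩ := Pic0.mk_surjective x
  obtain ⟨f, hf0, hfD⟩ := smul_mem_principal_of_torsionG D hx
  obtain ⟨c, c', U₁, U₂, W₁, W₂, h₁, h₂, hW₁, hW₂, hc, hc', hfu, hδw⟩ := hval.pair δ f hf0
  set G := arithmeticGalois F₀ σ with hG
  -- nonvanishing
  have hδf0 : δ f ≠ 0 := (map_ne_zero δ).mpr hf0
  have hGf0 : G • f ≠ 0 := (smul_ne_zero_iff_ne G).mpr hf0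
  have hGGδ0 : G • G • δ f ≠ 0 := (smul_ne_zero_iff_ne G).mpr ((smul_ne_zero_iff_ne G).mpr hδf0)
  have hcoe0 : ∀ {y : laurentBaseChange Qb F₀}, y ≠ 0 → (y : LaurentSeries Qb) ≠ 0 :=
    fun hy h => hy (Subtype.ext h)
  -- the norm
  have hNmL : ((normG α β (G • f) : laurentBaseChange Qb F₀) : LaurentSeries Qb)
      = kron2 p ((G • f : laurentBaseChange Qb F₀) : LaurentSeries Qb)
          ((G • δ f : laurentBaseChange Qb F₀) : LaurentSeries Qb) := by
    have h := hnid (G • f)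
    rw [hgal σ f] at h
    exact h
  have hNm0 : normG α β (G • f) ≠ 0 := by
    intro h0
    have h1 : ((normG α β (G • f) : laurentBaseChange Qb F₀) : LaurentSeries Qb) = 0 := by
      rw [h0]; rfl
    rw [hNmL] at h1
    exact kron2_ne_zero p (hcoe0 hGf0) (hcoe0 ((smul_ne_zero_iff_ne G).mpr hδf0)) h1
  -- the function of the relation
  set R : laurentBaseChange Qb F₀ := G • G • δ f * f ^ p * (normG α β (G • f))⁻¹ with hR
  have hR0 : R ≠ 0 := mul_ne_zero (mul_ne_zero hGGδ0 (pow_ne_zero p hf0)) (inv_ne_zero hNm0)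
  have hRNm : R * normG α β (G • f) = G • G • δ f * f ^ p := by
    rw [hR, mul_assoc, inv_mul_cancel₀ hNm0, mul_one]
  -- the divisor of the relation
  set Dv : Divisor Qb (laurentBaseChange Qb F₀) := (D : Divisor Qb (laurentBaseChange Qb F₀))
    with hDv
  set E : Divisor Qb (laurentBaseChange Qb F₀) :=
    G • G • δ • Dv - Divisor.correspondence β α hβ hα (G • Dv) + (p : ℤ) • Dv with hE
  have hGz : ∀ X : Divisor Qb (laurentBaseChange Qb F₀),
      G • ((m : ℤ) • X) = (m : ℤ) • (G • X) :=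
    fun X => map_zsmul (DistribSMul.toAddMonoidHom (Divisor Qb (laurentBaseChange Qb F₀)) G) m X
  have hδz : ∀ X : Divisor Qb (laurentBaseChange Qb F₀),
      δ • ((m : ℤ) • X) = (m : ℤ) • (δ • X) :=
    fun X => map_zsmul (DistribSMul.toAddMonoidHom (Divisor Qb (laurentBaseChange Qb F₀)) δ) m X
  have hmE : (m : ℤ) • E = G • G • δ • ((m : ℤ) • Dv)
      - Divisor.correspondence β α hβ hα (G • ((m : ℤ) • Dv))
      + (p : ℤ) • ((m : ℤ) • Dv) := by
    rw [hE, smul_add, smul_sub, hδz, hGz, hGz, hGz, map_zsmul, smul_comm (m : ℤ) (p : ℤ) Dv]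
  have hfDiv : IsDivOf f ((m : ℤ) • Dv) := hfD
  have hdGGδ : IsDivOf (G • G • δ f) (G • G • δ • ((m : ℤ) • Dv)) :=
    ((isDivOf_algEquiv δ hfDiv).smul G).smul G
  have hdfp : IsDivOf (f ^ p) ((p : ℤ) • ((m : ℤ) • Dv)) := hfDiv.pow p
  have hdT : IsDivOf (normG α β (G • f))
      (Divisor.correspondence β α hβ hα (G • ((m : ℤ) • Dv))) :=
    isDivOf_correspondenceG hα hβ hfin hN hGf0 (hfDiv.smul G)
  have hdR : ∀ v : Place Qb (laurentBaseChange Qb F₀), (m : ℤ) * E v = v.ord R := by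
    intro v
    have h := congrArg v.ord hRNm
    rw [v.ord_mul hR0 hNm0, v.ord_mul hGGδ0 (pow_ne_zero p hf0), ← hdGGδ v, ← hdfp v,
      ← hdT v] at h
    have h2 := congrArg (fun X : Divisor Qb (laurentBaseChange Qb F₀) => X v) hmE
    simp only [Finsupp.add_apply, Finsupp.sub_apply] at h2
    rw [Finsupp.smul_apply, smul_eq_mul] at h2
    linarith
  -- `ValG` for `R`
  obtain ⟨c₃, V₁, V₂, hV₁, hV₂, hc₃, hRV⟩ := hval R hR0
  -- the identity of `q`-series
  set gσ : LaurentSeries Qb →+* LaurentSeries Qb := coeffMap (σ : Qb →+* Qb) with hgσ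
  have r1 : (f : LaurentSeries Qb) * coeffMap A.subtype U₂
      = HahnSeries.single 0 c * coeffMap A.subtype U₁ := by
    have h := congrArg (Subtype.val) hfu
    rw [← coe_algebraMap_lbc (F₀ := F₀) c]
    exact h
  have r2 : ((δ f : laurentBaseChange Qb F₀) : LaurentSeries Qb) * coeffMap A.subtype W₂
      = HahnSeries.single 0 c' * coeffMap A.subtype W₁ := by
    have h := congrArg (Subtype.val) hδw
    rw [← coe_algebraMap_lbc (F₀ := F₀) c']
    exact h
  have r3 : (R : LaurentSeries Qb) * coeffMap A.subtype V₂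
      = HahnSeries.single 0 c₃ * coeffMap A.subtype V₁ := by
    have h := congrArg (Subtype.val) hRV
    rw [← coe_algebraMap_lbc (F₀ := F₀) c₃]
    exact h
  have e5 : (R : LaurentSeries Qb)
      * (qExpand Qb p (gσ (f : LaurentSeries Qb))
          * (secMat p (gσ ((δ f : laurentBaseChange Qb F₀) : LaurentSeries Qb))).det)
      = gσ (gσ ((δ f : laurentBaseChange Qb F₀) : LaurentSeries Qb))
          * (f : LaurentSeries Qb) ^ p := by
    have h := congrArg (Subtype.val) hRNm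
    have h' : (R : LaurentSeries Qb)
        * ((normG α β (G • f) : laurentBaseChange Qb F₀) : LaurentSeries Qb)
        = ((G • G • δ f : laurentBaseChange Qb F₀) : LaurentSeries Qb)
          * (f : LaurentSeries Qb) ^ p := h
    rw [hNmL] at h'
    exact h'
  have e8 : qExpand Qb p (gσ (f : LaurentSeries Qb))
        * qExpand Qb p (gσ (coeffMap A.subtype U₂))
      = qExpand Qb p (gσ (HahnSeries.single 0 c))
        * qExpand Qb p (gσ (coeffMap A.subtype U₁)) := by
    rw [← map_mul, ← map_mul, ← map_mul, ← map_mul, r1]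
  have e7 : (secMat p (gσ ((δ f : laurentBaseChange Qb F₀) : LaurentSeries Qb))).det
        * (secMat p (gσ (coeffMap A.subtype W₂))).det
      = (secMat p (gσ (HahnSeries.single 0 c'))).det
        * (secMat p (gσ (coeffMap A.subtype W₁))).det := by
    rw [← Matrix.det_mul, ← Matrix.det_mul, ← Fermat.Agent.S37.H400.secMat_mul,
      ← Fermat.Agent.S37.H400.secMat_mul, ← map_mul, ← map_mul, r2]
  have e6 : gσ (gσ ((δ f : laurentBaseChange Qb F₀) : LaurentSeries Qb))
        * gσ (gσ (coeffMap A.subtype W₂))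
      = gσ (gσ (HahnSeries.single 0 c')) * gσ (gσ (coeffMap A.subtype W₁)) := by
    rw [← map_mul, ← map_mul, ← map_mul, ← map_mul, r2]
  have e9 : (f : LaurentSeries Qb) ^ p * coeffMap A.subtype U₂ ^ p
      = (HahnSeries.single 0 c : LaurentSeries Qb) ^ p * coeffMap A.subtype U₁ ^ p := by
    rw [← mul_pow, ← mul_pow, r1]
  have hkeyL := eskV_key e5 e8 e7 e6 e9
  -- constants
  have hk₁ : qExpand Qb p (gσ (HahnSeries.single 0 c))
        * (secMat p (gσ (HahnSeries.single 0 c'))).det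
      = HahnSeries.single 0 (σ c * σ c' ^ p) := by
    rw [hgσ, coeffMap_single, coeffMap_single, qExpand_single, mul_zero,
      det_secMat_single_zero, single_zero_mul_single_zero]
    rfl
  have hk₂ : gσ (gσ (HahnSeries.single 0 c')) * (HahnSeries.single 0 c : LaurentSeries Qb) ^ p
      = HahnSeries.single 0 (σ (σ c') * c ^ p) := by
    rw [hgσ, coeffMap_single, coeffMap_single, single_zero_pow, single_zero_mul_single_zero]
    rfl
  have hκ₁ : σ c * σ c' ^ p ≠ 0 :=
    mul_ne_zero ((map_ne_zero σ).mpr hc) (pow_ne_zero p ((map_ne_zero σ).mpr hc'))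
  have hκ₂ : σ (σ c') * c ^ p ≠ 0 :=
    mul_ne_zero ((map_ne_zero σ).mpr ((map_ne_zero σ).mpr hc')) (pow_ne_zero p hc)
  set X₁ : LaurentSeries A :=
    galA g (galA g W₁) * U₁ ^ p * kron2 p (galA g U₂) (galA g W₂) with hX₁
  set X₂ : LaurentSeries A :=
    galA g (galA g W₂) * U₂ ^ p * kron2 p (galA g U₁) (galA g W₁) with hX₂
  have hser : (R : LaurentSeries Qb) * HahnSeries.single 0 (σ c * σ c' ^ p)
        * coeffMap A.subtype X₂
      = HahnSeries.single 0 (σ (σ c') * c ^ p) * coeffMap A.subtype X₁ := by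
    rw [hX₁, hX₂, coeffMap_subtype_eskX, coeffMap_subtype_eskX, ← hk₁, ← hk₂]
    exact hkeyL
  -- the unit constant
  have hredX : coeffMap (residue A) X₁ = coeffMap (residue A) X₂ :=
    coeffMap_residue_eskX hgk U₁ U₂ W₁ W₂
  have hX₁0 : coeffMap (residue A) X₁ ≠ 0 :=
    coeffMap_residue_eskX_ne_zero hgk h₁.2.2 h₂.2.2 hW₁.2.2 hW₂.2.2
  have hX₂0 : coeffMap (residue A) X₂ ≠ 0 := hredX ▸ hX₁0
  have hκeq : HahnSeries.single (0 : ℤ) (c₃ * (σ c * σ c' ^ p) / (σ (σ c') * c ^ p))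
        * coeffMap A.subtype (V₁ * X₂)
      = coeffMap A.subtype (X₁ * V₂) := by
    have hκ : (HahnSeries.single (0 : ℤ) (σ (σ c') * c ^ p) : LaurentSeries Qb)
          * HahnSeries.single 0 (c₃ * (σ c * σ c' ^ p) / (σ (σ c') * c ^ p))
        = HahnSeries.single 0 c₃ * HahnSeries.single 0 (σ c * σ c' ^ p) := by
      rw [single_zero_mul_single_zero, single_zero_mul_single_zero, mul_div_cancel₀ _ hκ₂]
    have hK₂0 : (HahnSeries.single (0 : ℤ) (σ (σ c') * c ^ p) : LaurentSeries Qb) ≠ 0 := by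
      rw [Ne, HahnSeries.single_eq_zero_iff]
      exact hκ₂
    apply mul_left_cancel₀ hK₂0
    rw [map_mul (coeffMap A.subtype) V₁ X₂, map_mul (coeffMap A.subtype) X₁ V₂]
    linear_combination (coeffMap A.subtype V₁ * coeffMap A.subtype X₂) * hκ
      - (HahnSeries.single 0 (σ c * σ c' ^ p) * coeffMap A.subtype X₂) * r3
      + (coeffMap A.subtype V₂) * hser
  obtain ⟨a, ha, haκ⟩ := exists_unit_of_const_mul_eq
    (by rw [map_mul]; exact mul_ne_zero hV₁.2.2 hX₂0)
    (by rw [map_mul]; exact mul_ne_zero hX₁0 hV₂.2.2) hκeq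
  have hV₁' : IsIntG F₀ A Fk (HahnSeries.single (0 : ℤ) a * V₁) := isIntG_const_mul ha hV₁
  have hredV : coeffMap (residue A) (HahnSeries.single (0 : ℤ) a * V₁)
      = coeffMap (residue A) V₂ := by
    have e : HahnSeries.single (0 : ℤ) a * V₁ * X₂ = X₁ * V₂ := by
      apply Fermat.Agent.S29.H222.esk_coeffMap_subtype_injective
      rw [← hκeq, ← haκ, mul_assoc,
        map_mul (coeffMap A.subtype) (HahnSeries.single (0 : ℤ) a) (V₁ * X₂), coeffMap_single]
      rfl
    have e' := congrArg (coeffMap (residue A)) e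
    rw [map_mul, map_mul (coeffMap (residue A)) X₁ V₂, hredX, mul_comm] at e'
    exact mul_left_cancel₀ hX₂0 e'
  -- orders
  have hkey : ∀ v : Place Qb (laurentBaseChange Qb F₀),
      (m : ℤ) * E v = v.ord (toFG hV₁') - v.ord (toFG hV₂) := by
    intro v
    have h := congrArg v.ord hRV
    have ha0 : (a : Qb) ≠ 0 := by
      intro h0
      exact ha.ne_zero (Subtype.ext h0)
    rw [v.ord_mul hR0 (toFG_ne_zero hV₂),
      v.ord_mul ((map_ne_zero _).mpr hc₃) (toFG_ne_zero hV₁),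
      Fermat.Agent.S29.H222.esk_ord_algebraMap v hc₃] at h
    rw [toFG_const_mul ha hV₁, v.ord_mul ((map_ne_zero _).mpr ha0) (toFG_ne_zero hV₁),
      Fermat.Agent.S29.H222.esk_ord_algebraMap v ha0, hdR v]
    linarith
  have hord : ∀ v : Place Qb (laurentBaseChange Qb F₀),
      (m : ℤ) ∣ v.ord (toFG hV₁') - v.ord (toFG hV₂) := fun v => ⟨_, (hkey v).symm⟩
  obtain ⟨c₄, y, hc₄, hy, hcy⟩ := hcore _ _ hV₁' hV₂ hredV hord
  have hEy : IsDivOf y E :=
    Fermat.Agent.S29.H222.isDivOf_of_eq_const_mul_pow hm hc₄ hy (toFG_ne_zero hV₂) hcy hkey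
  -- conclusion in `Pic0`
  rw [Pic0.smul_mk, galois_smul_mkG, galois_smul_mkG, galois_smul_mkG, Pic0.correspondence_mk]
  have hfinal : (Pic0.mk (SemilinearAut.degZeroSMulHom G
        (SemilinearAut.degZeroSMulHom G (Pic0.degZeroSMulHom δ D)))
      - Pic0.mk (Pic0.degZeroCorrespondence β α hβ hα hFI (SemilinearAut.degZeroSMulHom G D))
      + (p : ℤ) • Pic0.mk D : Pic0 Qb (laurentBaseChange Qb F₀))
      = Pic0.mk (SemilinearAut.degZeroSMulHom G
          (SemilinearAut.degZeroSMulHom G (Pic0.degZeroSMulHom δ D))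
          - Pic0.degZeroCorrespondence β α hβ hα hFI (SemilinearAut.degZeroSMulHom G D)
          + (p : ℤ) • D) := rfl
  rw [hfinal]
  exact pic0_mk_eq_zero_of_isDivOfG _ hy hEy

/-- **Generic ESK-F with diamond, version 2, second form**:
`σ² x - T (δ⁻¹ σ x) + p δ⁻¹ x = 0`. -/
theorem eskV_frob' {p : ℕ} (hp : p.Prime) {m : ℕ} (hm : m ≠ 0) (hA : A.LiesOverPrime p)
    (hcore : CoreG F₀ A Fk m) (hval : ValG F₀ A Fk) (hst : StableG A Fk)
    {F' : Type*} [Field F'] [Algebra Qb F'] [HasPrincipalDivisors Qb F']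
    (α β : laurentBaseChange Qb F₀ →ₐ[Qb] F')
    (hα : α.toRingHom.IsIntegral) (hβ : β.toRingHom.IsIntegral)
    (hFI : FundamentalIdentityAlong Qb β hβ) (hfin : FiniteAlong Qb α)
    (hN : NormFormulaAlong Qb α hfin)
    (δ : laurentBaseChange Qb F₀ ≃ₐ[Qb] laurentBaseChange Qb F₀)
    (hgal : ∀ (σ : Qb ≃ₐ[ℚ] Qb) (y : laurentBaseChange Qb F₀),
      δ (arithmeticGalois F₀ σ • y) = arithmeticGalois F₀ σ • δ y)
    (hnid : haveI : NeZero p := ⟨hp.ne_zero⟩; NormIdG α β p δ) :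
    ∀ σ : Qb ≃ₐ[ℚ] Qb, A.IsFrobeniusAt σ p →
      ∀ x : Pic0 Qb (laurentBaseChange Qb F₀), (m : ℤ) • x = 0 →
        σ • σ • x - Pic0.correspondence β α hβ hα hFI hfin hN (δ⁻¹ • (σ • x))
          + (p : ℤ) • (δ⁻¹ • x) = 0 := by
  intro σ hσ x hx
  have hx' : (m : ℤ) • (δ⁻¹ • x) = 0 := by
    have h1 : δ⁻¹ • ((m : ℤ) • x) = (m : ℤ) • (δ⁻¹ • x) :=
      map_zsmul (DistribSMul.toAddMonoidHom (Pic0 Qb (laurentBaseChange Qb F₀)) δ⁻¹) m x
    rw [← h1, hx]
    exact map_zero (DistribSMul.toAddMonoidHom (Pic0 Qb (laurentBaseChange Qb F₀)) δ⁻¹)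
  have hcomm : δ⁻¹ • (σ • x) = σ • (δ⁻¹ • x) := by
    have h : δ • (σ • (δ⁻¹ • x)) = σ • (δ • (δ⁻¹ • x)) := by
      rw [galois_smul_pic0_def, galois_smul_pic0_def]
      exact pic0_smul_comm δ (arithmeticGalois F₀ σ) (fun y => hgal σ y) (δ⁻¹ • x)
    rw [smul_inv_smul] at h
    rw [← h, inv_smul_smul]
  have h := eskV_frob hp hm hA hcore hval hst α β hα hβ hFI hfin hN δ hgal hnid σ hσ
    (δ⁻¹ • x) hx'
  rw [smul_inv_smul, ← hcomm] at h
  exact h

end Fermat.Agent.S48.H136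

end
end
-- ===== PACK-END S48/H136/ESKV.lean

-- ===== PACK-BEGIN S48/H136/RawES1.lean
section
/-
S48 / Tower A1 (helper136) — piece ESK1, part 3: the ADAPTER

    `rawES1_of_inputs : Core1Statement → PGI1Statement → HI1Statement → DiamondInt1Statement →
        NormId1Statement → Res.RawES1Statement true`

from the generic engine (`ESKG.lean`, `ESKGFrob.lean`) to the frozen shape of
`Fermat/Agent/S48/Res/Parts.lean`, for
`(F₀, F', F_k, δ) = (F1 M, ℚ̄·F1p M p, F1C k M, diamondAut (unitOf M p))`.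

The five inputs (all for primes `p ∤ M` and valuation subrings `A ⊆ ℚ̄` above `p`, `k = A/𝔪`):

* `Core1Statement`       : the Kummer core `CoreG (F1 M) A (F1C k M) ℓ`, `ℓ ≠ p` prime
                           (IGUSA1 / GoodModel for `F1C` + S18 Alg);
* `PGI1Statement`        : principal divisors of `ℚ̄·F1 M` are generated by divisors of integral series
                           (port of S37 PGI);
* `HI1Statement`         : `CorrInputs (beta1) (alpha1)` (FF-ALG + generic HI);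
* `DiamondInt1Statement` : the diamond automorphism `diamondAut (unitOf M p)` preserves integral
                           series (FF-DIA + uniqueness of the Gauss valuation);
* `NormId1Statement`     : `Nm_α (β y) = V_p y · det (secMat p (δ_p y))` (NORMID1).

PROVED here without hypotheses: `stableG_F1C` (`F1C k M` is stable under coefficientwise ring
endomorphisms), `diamondG_diamondAut_of_integral` (Galois-compatibility of the diamond).
-/



set_option autoImplicit false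
set_option linter.style.haveILetI false

noncomputable section

namespace Fermat.Agent.S48.H136

open ModularCurve AlgebraicCurve HahnSeries IsLocalRing
open Fermat.Agent.S18 (Qb)
open Fermat.Agent.S48.F1 Fermat.Agent.S48.Res

/-! ### The action of an algebra automorphism on `Pic0`, two incarnations -/

section OfAlgAut

variable {K F : Type*} [Field K] [Field F] [Algebra K F]

theorem place_ofAlgAut_smul (δ : F ≃ₐ[K] F) (v : Place K F) :
    SemilinearAut.ofAlgAut δ • v = δ • v := by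
  apply Place.ext
  ext x
  rw [SemilinearAut.smul_toValuationSubring, Place.smul_toValuationSubring,
    ValuationSubring.mem_pointwise_smul_iff_inv_smul_mem,
    ValuationSubring.mem_pointwise_smul_iff_inv_smul_mem]
  exact Iff.rfl

theorem divisor_ofAlgAut_smul (δ : F ≃ₐ[K] F) (D : Divisor K F) :
    SemilinearAut.ofAlgAut δ • D = δ • D := by
  ext w
  rw [SemilinearAut.divisor_smul_apply, Divisor.smul_apply]
  have h := place_ofAlgAut_smul δ⁻¹ w
  rw [map_inv] at h
  rw [h]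

theorem pic0_ofAlgAut_smul (δ : F ≃ₐ[K] F) (x : Pic0 K F) :
    SemilinearAut.ofAlgAut δ • x = δ • x := by
  obtain ⟨D, rfl⟩ := Pic0.mk_surjective x
  rw [SemilinearAut.pic0_smul_mk, Pic0.smul_mk]
  exact congrArg Pic0.mk (Subtype.ext (divisor_ofAlgAut_smul δ D))

end OfAlgAut

/-! ### `F1C k M` is stable under coefficientwise endomorphisms -/

theorem coeffMap_mem_F1C {k : Type*} [Field k] (M : ℕ) (φ : k →+* k) {x : LaurentSeries k}
    (hx : x ∈ F1C k M) : coeffMap φ x ∈ F1C k M := by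
  unfold F1C at hx
  induction hx using IntermediateField.adjoin_induction with
  | mem y hy =>
      rcases hy with hy | hy
      · obtain ⟨d, hne, hd, rfl⟩ := hy
        haveI := hne
        rw [Fermat.Agent.S37.H400.coeffMap_qExpand_h400, coeffMap_jqModC]
        exact IntermediateField.subset_adjoin k _ (Or.inl (mem_divisorExpansionsC k M hd))
      · obtain ⟨a, ha, rfl⟩ := hy
        rw [coeffMap_divGenC]
        exact divGenC_mem_F1C k M ha
  | algebraMap c =>
      rw [coeffMap_algebraMap]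
      exact (F1C k M).algebraMap_mem _
  | add y z _ _ hy hz => rw [map_add]; exact add_mem hy hz
  | inv y _ hy => rw [map_inv₀]; exact inv_mem hy
  | mul y z _ _ hy hz => rw [map_mul]; exact mul_mem hy hz

theorem stableG_F1C (A : ValuationSubring Qb) (M : ℕ) :
    StableG A (F1C (ResidueField A) M) :=
  fun φ _ hx => coeffMap_mem_F1C M φ hx

/-! ### The inputs -/

/-- **CORE1**: the Kummer core for `F1 M` at every place `A` above `p ∤ M ℓ`, modulus `ℓ`. -/
def Core1Statement : Prop :=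
  ∀ (M ℓ p : ℕ), M ≠ 0 → ℓ.Prime → p.Prime → ¬ p ∣ M * ℓ →
    ∀ A : ValuationSubring Qb, A.LiesOverPrime p →
      CoreG (F1 M) A (F1C (ResidueField A) M) ℓ

/-- **PGI1**: principal divisors of `ℚ̄ · F1 M` are generated by divisors of integral series. -/
def PGI1Statement : Prop :=
  ∀ (M p : ℕ), M ≠ 0 → p.Prime → ¬ p ∣ M →
    ∀ A : ValuationSubring Qb, A.LiesOverPrime p → PGIG (F1 M) A (F1C (ResidueField A) M)

/-- **HI1**: the Hecke inputs for `α = alpha1`, `β = beta1` at level `(M; p)`. -/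
def HI1Statement : Prop :=
  ∀ (M p : ℕ) [NeZero p], M ≠ 0 → p.Prime → ¬ p ∣ M →
    CorrInputs (beta1 Qb M p) (alpha1 Qb M p)

/-- **DIA-INT**: the diamond automorphism `δ_p` preserves integral series. -/
def DiamondInt1Statement : Prop :=
  ∀ (M p : ℕ), M ≠ 0 → p.Prime → ¬ p ∣ M →
    ∀ A : ValuationSubring Qb, A.LiesOverPrime p →
      ∀ (U : LaurentSeries A) (hU : IsIntG (F1 M) A (F1C (ResidueField A) M) U),
        ∃ (W : LaurentSeries A) (hW : IsIntG (F1 M) A (F1C (ResidueField A) M) W),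
          toFG hW = diamondAut Qb M (unitOf M p) (toFG hU)

/-- **NORMID1**: `Nm_α (β y) = V_p y · det (secMat p (δ_p y))`. -/
def NormId1Statement : Prop :=
  ∀ (M p : ℕ) [NeZero p], M ≠ 0 → p.Prime → ¬ p ∣ M →
    NormIdG (alpha1 Qb M p) (beta1 Qb M p) p (diamondAut Qb M (unitOf M p))

/-! ### The diamond datum -/

/-- The diamond automorphism commutes with the coefficientwise Galois action. -/
theorem diamondAut_galois (M : ℕ) (d : (ZMod M)ˣ) (σ : Qb ≃ₐ[ℚ] Qb) (y : F1Bar M) :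
    diamondAut Qb M d (arithmeticGalois (F1 M) σ • y)
      = arithmeticGalois (F1 M) σ • diamondAut Qb M d y := by
  have h := congrArg (fun g : SemilinearAut Qb (F1Bar M) => g • y)
    (arithmeticGalois_mul_diamond M d σ)
  simp only [mul_smul, SemilinearAut.ofAlgAut_smul] at h
  exact h.symm

theorem diamondG_diamondAut_of_integral (M : ℕ) (d : (ZMod M)ˣ) (A : ValuationSubring Qb)
    (hint : ∀ (U : LaurentSeries A) (hU : IsIntG (F1 M) A (F1C (ResidueField A) M) U),
      ∃ (W : LaurentSeries A) (hW : IsIntG (F1 M) A (F1C (ResidueField A) M) W),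
        toFG hW = diamondAut Qb M d (toFG hU)) :
    DiamondG (F1 M) A (F1C (ResidueField A) M) (diamondAut Qb M d) :=
  ⟨fun σ y => diamondAut_galois M d σ y, hint⟩

/-! ### The adapter -/

/-- **RawES1 from its five inputs** (exact shape of `Res/Parts.lean`, orientation `s = true`). -/
theorem rawES1_of_inputs (hcore : Core1Statement) (hpgi : PGI1Statement) (hHI : HI1Statement)
    (hdia : DiamondInt1Statement) (hnid : NormId1Statement) : RawES1Statement true := by
  intro M ℓ p hM hℓ hp hpMℓ A hA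
  have hpM : ¬ p ∣ M := fun h => hpMℓ (Dvd.dvd.mul_right h ℓ)
  haveI : NeZero p := ⟨hp.ne_zero⟩
  have hC := hcore M ℓ p hM hℓ hp hpMℓ A hA
  have hP := hpgi M p hM hp hpM A hA
  have hst := stableG_F1C A M
  refine ⟨eskG_inertia hℓ.ne_zero hC hP hst, ?_⟩
  intro σ hσ x hx
  obtain ⟨hβ, hα, hPD, hfin, hFI, hN⟩ := hHI M p hM hp hpM
  haveI := hPD
  have hδ := diamondG_diamondAut_of_integral M (unitOf M p) A (hdia M p hM hp hpM A hA)
  have h := eskG_frob hp hℓ.ne_zero hA hC hP hst (alpha1 Qb M p) (beta1 Qb M p) hα hβ hFI hfin hN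
    (diamondAut Qb M (unitOf M p)) hδ (hnid M p hM hp hpM) σ hσ x hx
  have hT : hecke1 M p = (Pic0.correspondence (beta1 Qb M p) (alpha1 Qb M p) hβ hα hFI hfin
      hN).toIntLinearMap := by
    rw [hecke1_eq, heckeL, corrOp_eq (beta1 Qb M p) (alpha1 Qb M p) hβ hα hFI hfin hN]
  have hD : diamondS true M p (σ • σ • x)
      = σ • σ • (diamondAut Qb M (unitOf M p) • x) := by
    show diamond1 M (unitOf M p) (σ • σ • x) = _
    rw [galois_smul_diamond1, galois_smul_diamond1, diamond1_apply, pic0_ofAlgAut_smul]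
  rw [hD, hT]
  exact h

end Fermat.Agent.S48.H136

end
end
-- ===== PACK-END S48/H136/RawES1.lean

-- ===== PACK-BEGIN S48/H136/RawES1V.lean
section
/-
S48 / Tower A1 (helper136) — node A1-ES: the ADAPTER, version 2

    `rawES1_of_val : Core1Statement → Val1Statement → HI1Statement → NormId1Statement →
        Res.RawES1Statement true`

from the generic engine `ESKV.lean` to the frozen shape of `Fermat/Agent/S48/Res/Parts.lean`, for
`(F₀, F', F_k, δ) = (F1 M, ℚ̄·F1p M p, F1C k M, diamondAut (unitOf M p))`.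

The FOUR inputs (all for primes `p ∤ M` and valuation subrings `A ⊆ ℚ̄` above `p`, `k = A/𝔪`):

* `Core1Statement`   : the Kummer core `CoreG (F1 M) A (F1C k M) ℓ`, `ℓ ≠ p` prime   [A1-RED];
* `Val1Statement`    : `ValG (F1 M) A (F1C k M)`: every `f ≠ 0` in `ℚ̄·F1 M` is `c · u₁/u₂` with
                       `u₁ u₂` integral series (Gauss lemma; port of `S37/H700` `pgi`)  [A1-RED];
* `HI1Statement`     : `CorrInputs (beta1) (alpha1)`                                   [A1-FF];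
* `NormId1Statement` : `Nm_α (β y) = V_p y · det (secMat p (δ_p y))`                   [A1-NORM].

This REPLACES `rawES1_of_inputs` of `RawES1.lean`, whose input `DiamondInt1Statement` (the diamond
preserves series with integral `q`-expansion) is false for `p ≢ ±1` mod `M`; `PGI1Statement` is no
longer needed.
-/



set_option autoImplicit false
set_option linter.style.haveILetI false

noncomputable section

namespace Fermat.Agent.S48.H136

open ModularCurve AlgebraicCurve HahnSeries IsLocalRing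
open Fermat.Agent.S18 (Qb)
open Fermat.Agent.S48.F1 Fermat.Agent.S48.Res

/-- **VAL1**: every nonzero element of `ℚ̄ · F1 M` is a constant times a quotient of two integral
series, at every place `A` above a prime `p ∤ M`. -/
def Val1Statement : Prop :=
  ∀ (M p : ℕ), M ≠ 0 → p.Prime → ¬ p ∣ M →
    ∀ A : ValuationSubring Qb, A.LiesOverPrime p → ValG (F1 M) A (F1C (ResidueField A) M)

/-- **RawES1 from its four inputs** (exact shape of `Res/Parts.lean`, orientation `s = true`). -/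
theorem rawES1_of_val (hcore : Core1Statement) (hval : Val1Statement) (hHI : HI1Statement)
    (hnid : NormId1Statement) : RawES1Statement true := by
  intro M ℓ p hM hℓ hp hpMℓ A hA
  have hpM : ¬ p ∣ M := fun h => hpMℓ (Dvd.dvd.mul_right h ℓ)
  haveI : NeZero p := ⟨hp.ne_zero⟩
  have hC := hcore M ℓ p hM hℓ hp hpMℓ A hA
  have hV := hval M p hM hp hpM A hA
  have hst := stableG_F1C A M
  refine ⟨eskV_inertia hℓ.ne_zero hC hV hst, ?_⟩
  intro σ hσ x hx
  obtain ⟨hβ, hα, hPD, hfin, hFI, hN⟩ := hHI M p hM hp hpM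
  haveI := hPD
  have h := eskV_frob hp hℓ.ne_zero hA hC hV hst (alpha1 Qb M p) (beta1 Qb M p) hα hβ hFI hfin hN
    (diamondAut Qb M (unitOf M p)) (fun τ y => diamondAut_galois M (unitOf M p) τ y)
    (hnid M p hM hp hpM) σ hσ x hx
  have hT : hecke1 M p = (Pic0.correspondence (beta1 Qb M p) (alpha1 Qb M p) hβ hα hFI hfin
      hN).toIntLinearMap := by
    rw [hecke1_eq, heckeL, corrOp_eq (beta1 Qb M p) (alpha1 Qb M p) hβ hα hFI hfin hN]
  have hD : diamondS true M p (σ • σ • x)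
      = σ • σ • (diamondAut Qb M (unitOf M p) • x) := by
    show diamond1 M (unitOf M p) (σ • σ • x) = _
    rw [galois_smul_diamond1, galois_smul_diamond1, diamond1_apply, pic0_ofAlgAut_smul]
  rw [hD, hT]
  exact h

end Fermat.Agent.S48.H136

end
end
-- ===== PACK-END S48/H136/RawES1V.lean

-- ===== PACK-BEGIN S48/H556/RawES1Top.lean
section


/-!
# S48 / Tower A1 — RawES1 WITHOUT any reduction field (row-lead helper556)

helper136's generic engine `H136.eskG_inertia` / `H136.eskG_frob` is generic in the "reduction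
field" `F_k ⊆ k((q))`.  Instantiating it with `F_k := ⊤` (all of `k((q))`) removes every statement
about the special fibre from the inputs of RawES1:

* `IsIntG (F1 M) A ⊤ U`  ⟺  `U ∈ A((q))` lies in `ℚ̄ · F1 M` and has nonzero reduction;
* `StableG A ⊤` is trivial;
* `PGI1Top` is the Gauss normalisation `f = c · U₁ / U₂` (elementary: `F1 M` has generators with
  integral coefficients; NO CoreData, NO "degree does not drop", NO reduction membership);
* `Core1Top` is S18 GLUE verbatim (GoodFamily + `S18.H438.algMain`; the Gauss ring `VcSet` never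
  mentions `F_k`);
* `DiamondInt1Top` = the diamond automorphism preserves the Gauss valuation (IGUSA1 `stable`).

`rawES1_of_inputs_top : Core1Top → PGI1Top → HI1Statement → DiamondInt1Top → NormId1Statement →
    Res.RawES1Statement true`.

The statements with `F_k = F1C k M` of `H136/RawES1.lean` are NOT needed.
-/

set_option autoImplicit false
set_option linter.style.haveILetI false

noncomputable section

namespace Fermat.Agent.S48.H556

open ModularCurve AlgebraicCurve HahnSeries IsLocalRing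
open Fermat.Agent.S18 (Qb)
open Fermat.Agent.S48.F1 Fermat.Agent.S48.Res Fermat.Agent.S48.H136

/-- The trivial reduction field: all of `k((q))`. -/
abbrev topK (A : ValuationSubring Qb) :
    IntermediateField (ResidueField A) (LaurentSeries (ResidueField A)) := ⊤

theorem stableG_top (A : ValuationSubring Qb) : StableG A (topK A) :=
  fun _ _ _ => IntermediateField.mem_top

/-- An `A`-integral series lying in `ℚ̄ · F₀` with nonzero reduction is integral for `F_k = ⊤`. -/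
theorem isIntG_top_iff {F₀ : IntermediateField ℚ (LaurentSeries ℚ)} {A : ValuationSubring Qb}
    {U : LaurentSeries A} :
    IsIntG F₀ A (topK A) U ↔
      coeffMap A.subtype U ∈ laurentBaseChange Qb F₀ ∧ coeffMap (residue A) U ≠ 0 :=
  ⟨fun h => ⟨h.1, h.2.2⟩, fun h => ⟨h.1, IntermediateField.mem_top, h.2⟩⟩

/-- **CORE1 (top form)**: the Kummer core for `F1 M` at every place `A` above `p ∤ M ℓ`,
modulus `ℓ`, for ALL integral series with nonzero reduction. -/
def Core1Top : Prop :=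
  ∀ (M ℓ p : ℕ), M ≠ 0 → ℓ.Prime → p.Prime → ¬ p ∣ M * ℓ →
    ∀ A : ValuationSubring Qb, A.LiesOverPrime p → CoreG (F1 M) A (topK A) ℓ

/-- **PGI1 (top form)**: every principal divisor of `ℚ̄ · F1 M` is generated by divisors of
`A`-integral series with nonzero reduction (Gauss normalisation). -/
def PGI1Top : Prop :=
  ∀ (M p : ℕ), M ≠ 0 → p.Prime → ¬ p ∣ M →
    ∀ A : ValuationSubring Qb, A.LiesOverPrime p → PGIG (F1 M) A (topK A)

/-- **DIA-INT (top form)**: the diamond automorphism `δ_p` maps `A`-integral series with nonzero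
reduction to `A`-integral series with nonzero reduction. -/
def DiamondInt1Top : Prop :=
  ∀ (M p : ℕ), M ≠ 0 → p.Prime → ¬ p ∣ M →
    ∀ A : ValuationSubring Qb, A.LiesOverPrime p →
      ∀ (U : LaurentSeries A) (hU : IsIntG (F1 M) A (topK A) U),
        ∃ (W : LaurentSeries A) (hW : IsIntG (F1 M) A (topK A) W),
          toFG hW = diamondAut Qb M (unitOf M p) (toFG hU)

/-- **RawES1 from its five inputs, top form** (exact shape of `Res/Parts.lean`, `s = true`). -/
theorem rawES1_of_inputs_top (hcore : Core1Top) (hpgi : PGI1Top) (hHI : HI1Statement)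
    (hdia : DiamondInt1Top) (hnid : NormId1Statement) : RawES1Statement true := by
  intro M ℓ p hM hℓ hp hpMℓ A hA
  have hpM : ¬ p ∣ M := fun h => hpMℓ (Dvd.dvd.mul_right h ℓ)
  haveI : NeZero p := ⟨hp.ne_zero⟩
  have hC := hcore M ℓ p hM hℓ hp hpMℓ A hA
  have hP := hpgi M p hM hp hpM A hA
  have hst := stableG_top A
  refine ⟨eskG_inertia hℓ.ne_zero hC hP hst, ?_⟩
  intro σ hσ x hx
  obtain ⟨hβ, hα, hPD, hfin, hFI, hN⟩ := hHI M p hM hp hpM
  haveI := hPD
  have hδ : DiamondG (F1 M) A (topK A) (diamondAut Qb M (unitOf M p)) :=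
    ⟨fun σ y => diamondAut_galois M (unitOf M p) σ y, hdia M p hM hp hpM A hA⟩
  have h := eskG_frob hp hℓ.ne_zero hA hC hP hst (alpha1 Qb M p) (beta1 Qb M p) hα hβ hFI hfin hN
    (diamondAut Qb M (unitOf M p)) hδ (hnid M p hM hp hpM) σ hσ x hx
  have hT : hecke1 M p = (Pic0.correspondence (beta1 Qb M p) (alpha1 Qb M p) hβ hα hFI hfin
      hN).toIntLinearMap := by
    rw [hecke1_eq, heckeL, corrOp_eq (beta1 Qb M p) (alpha1 Qb M p) hβ hα hFI hfin hN]
  have hD : diamondS true M p (σ • σ • x)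
      = σ • σ • (diamondAut Qb M (unitOf M p) • x) := by
    show diamond1 M (unitOf M p) (σ • σ • x) = _
    rw [galois_smul_diamond1, galois_smul_diamond1, diamond1_apply, pic0_ofAlgAut_smul]
  rw [hD, hT]
  exact h

/-- The `F1C`-forms of helper136 follow from the top forms (so both adapters are usable). -/
theorem core1Statement_of_top (h : Core1Top) : Core1Statement := by
  intro M ℓ p hM hℓ hp hpMℓ A hA U₁ U₂ h₁ h₂ hred hdiv
  have h₁' : IsIntG (F1 M) A (topK A) U₁ := isIntG_top_iff.2 ⟨h₁.1, h₁.2.2⟩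
  have h₂' : IsIntG (F1 M) A (topK A) U₂ := isIntG_top_iff.2 ⟨h₂.1, h₂.2.2⟩
  exact h M ℓ p hM hℓ hp hpMℓ A hA U₁ U₂ h₁' h₂' hred hdiv

end Fermat.Agent.S48.H556

end
end
-- ===== PACK-END S48/H556/RawES1Top.lean

-- ===== PACK-BEGIN S48/H68/RawES1Val.lean
section
/-
S48 / Tower A1 (helper68) — leaf VAL1 (= PGI1 in function form) CLOSED, and RawES1 from THREE inputs.

* `valG_top`  : for `F₀ = ℚ(S)`, `S` a set of series with integral coefficients, and every valuation
  subring `A ⊆ ℚ̄` over a prime: `H136.ValG F₀ A ⊤` (Gauss normalisation, `GaussNormal.lean`);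
* `val1Top`   : `H136.ValG (F1 M) A ⊤` for EVERY `M`, every prime `p` and every `A` over `p`
  (unconditional; no hypothesis `p ∤ M`);
* `rawES1_of_three : H556.Core1Top → H136.HI1Statement → H136.NormId1Statement →
    Res.RawES1Statement true`
  (helper136's engine v2 `eskV_inertia` / `eskV_frob` with reduction field `F_k := ⊤`).

So RawES1 needs ONLY: CORE1 (top form), HI1 (= `CorrInputs beta1 alpha1`), NORMID1.
No PGI / PGID / VAL / DIA-INT / reduction-field statement is left.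
-/




set_option autoImplicit false
set_option linter.style.haveILetI false

noncomputable section

namespace Fermat.Agent.S48.H68

open ModularCurve AlgebraicCurve HahnSeries IsLocalRing
open Fermat.Agent.S18 (Qb)
open Fermat.Agent.S48.F1 Fermat.Agent.S48.Res Fermat.Agent.S48.H136 Fermat.Agent.S48.H556

/-- **VAL (top form), generic**: Gauss normalisation in the vocabulary of helper136's engine. -/
theorem valG_top {S : Set (LaurentSeries ℚ)} (hS : IntegralGens S) (A : ValuationSubring Qb)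
    {ℓ : ℕ} (hℓ : ℓ ≠ 0) (hA : A.LiesOverPrime ℓ) :
    ValG (IntermediateField.adjoin ℚ S) A (topK A) := by
  intro f hf
  have hf0 : (f : LaurentSeries Qb) ≠ 0 := fun h => hf (Subtype.ext h)
  obtain ⟨c, U₁, U₂, hc, hm₁, hr₁, hm₂, hr₂, hrel⟩ := exists_gauss_normal hS A hℓ hA f.2 hf0
  refine ⟨c, U₁, U₂, isIntG_top_iff.2 ⟨hm₁, hr₁⟩, isIntG_top_iff.2 ⟨hm₂, hr₂⟩, hc, ?_⟩
  apply Subtype.ext
  show (f : LaurentSeries Qb) * coeffMap A.subtype U₂
    = algebraMap Qb (LaurentSeries Qb) c * coeffMap A.subtype U₁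
  rw [algebraMap_eq_C]
  exact hrel

/-- The generators `j(q^d)`, `P_a` of `F1 M` have integral coefficients. -/
theorem integralGens_F1 (M : ℕ) : IntegralGens (divisorExpansions M ∪ divGens M) := by
  rintro s (hs | hs)
  · obtain ⟨d, hd, -, rfl⟩ := hs
    haveI := hd
    refine ⟨qExpand ℤ d (jqModC ℤ), ?_⟩
    rw [Fermat.Agent.S37.H400.coeffMap_qExpand_h400, coeffMap_jqModC, jqModC_rat]
  · obtain ⟨a, -, rfl⟩ := hs
    exact ⟨divGenC ℤ M a, (coeffMap_divGenC (Int.castRingHom ℚ) M a).symm⟩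

/-- **VAL1 (top form), UNCONDITIONAL**: every nonzero element of `ℚ̄ · F1 M` is a constant times a
quotient of two `A`-integral series of `ℚ̄ · F1 M` with nonzero reduction. -/
theorem val1Top (M : ℕ) {p : ℕ} (hp : p.Prime) (A : ValuationSubring Qb)
    (hA : A.LiesOverPrime p) : ValG (F1 M) A (topK A) :=
  valG_top (integralGens_F1 M) A hp.ne_zero hA

/-- **RawES1 from THREE inputs**: CORE1 (top form), HI1 and NORMID1. -/
theorem rawES1_of_three (hcore : Core1Top) (hHI : HI1Statement) (hnid : NormId1Statement) :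
    RawES1Statement true := by
  intro M ℓ p hM hℓ hp hpMℓ A hA
  have hpM : ¬ p ∣ M := fun h => hpMℓ (Dvd.dvd.mul_right h ℓ)
  haveI : NeZero p := ⟨hp.ne_zero⟩
  have hC := hcore M ℓ p hM hℓ hp hpMℓ A hA
  have hV := val1Top M hp A hA
  have hst := stableG_top A
  refine ⟨eskV_inertia hℓ.ne_zero hC hV hst, ?_⟩
  intro σ hσ x hx
  obtain ⟨hβ, hα, hPD, hfin, hFI, hN⟩ := hHI M p hM hp hpM
  haveI := hPD
  have h := eskV_frob hp hℓ.ne_zero hA hC hV hst (alpha1 Qb M p) (beta1 Qb M p) hα hβ hFI hfin hN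
    (diamondAut Qb M (unitOf M p)) (fun τ y => diamondAut_galois M (unitOf M p) τ y)
    (hnid M p hM hp hpM) σ hσ x hx
  have hT : hecke1 M p = (Pic0.correspondence (beta1 Qb M p) (alpha1 Qb M p) hβ hα hFI hfin
      hN).toIntLinearMap := by
    rw [hecke1_eq, heckeL, corrOp_eq (beta1 Qb M p) (alpha1 Qb M p) hβ hα hFI hfin hN]
  have hD : diamondS true M p (σ • σ • x)
      = σ • σ • (diamondAut Qb M (unitOf M p) • x) := by
    show diamond1 M (unitOf M p) (σ • σ • x) = _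
    rw [galois_smul_diamond1, galois_smul_diamond1, diamond1_apply, pic0_ofAlgAut_smul]
  rw [hD, hT]
  exact h

end Fermat.Agent.S48.H68

end
end
-- ===== PACK-END S48/H68/RawES1Val.lean

-- ===== PACK-BEGIN S48/H828/IActRing.lean
section


/-!
# S48 / Tower A1 / IGUSA1, piece I-ACT (helper828), part 1: the ring of level-`M` modular
functions which are holomorphic on `ℍ` and `E`-rational at every cusp

Generator-free set-up on top of the S24 analytic layer (`InfExp`, `compSL`).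

* `E` is any field with a ring hom `ι : E →+* ℂ` (think of a number field containing `ζ_M`).
* `iactRing ι M` : the subring of functions `f : ℍ → ℂ` which are holomorphic, invariant under
  `Γ(M)`, and such that EVERY `SL(2,ℤ)`-translate `f ∘ γ` has a convergent Laurent expansion in
  `X = exp(2πiτ/M)` with coefficients in `ι(E)`.
* `iactExp ι M : iactRing ι M →+* LaurentSeries E` : the (injective) `X`-expansion at `∞`.
* `SL(2,ℤ)` acts on `iactRing ι M` by `(γ • f) τ = f (γ⁻¹ • τ)`; `Γ(M)` acts trivially.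
* `T` acts on expansions by the substitution `X ↦ ζ⁻¹ X`.

Any concrete generator (division values, Eisenstein quotients, `j(dτ)`) lies in `iactRing` as soon
as the three defining properties are checked.
-/

set_option autoImplicit false
set_option linter.unusedSectionVars false

noncomputable section

open ModularCurve HahnSeries UpperHalfPlane
open scoped MatrixGroups Manifold

namespace Fermat.Agent.S48.H828

open Fermat.Agent.S24 Fermat.Agent.S24.H997 Fermat.Agent.S24.H624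

variable {E : Type*} [Field E] (ι : E →+* ℂ) (M : ℕ)

/-- `f` has a convergent expansion at `∞` in `X = exp(2πiτ/M)` with coefficients in `ι(E)`. -/
def IActRat (f : ℍ → ℂ) : Prop := ∃ φ : LaurentSeries E, InfExp M f (coeffMap ι φ)

variable {ι M}

theorem iact_coeffMap_C (c : E) : coeffMap ι (HahnSeries.C c) = HahnSeries.C (ι c) := by
  show coeffMap ι (HahnSeries.single 0 c) = HahnSeries.single 0 (ι c)
  exact coeffMap_single ι 0 c

theorem IActRat.const (c : E) : IActRat ι M (fun _ => ι c) :=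
  ⟨HahnSeries.C c, by rw [iact_coeffMap_C]; exact InfExp.const (ι c)⟩

theorem IActRat.zero : IActRat ι M (fun _ => 0) :=
  ⟨0, by rw [map_zero]; exact InfExp.zero⟩

theorem IActRat.one : IActRat ι M (fun _ => 1) :=
  ⟨1, by rw [map_one]; exact InfExp.one⟩

theorem IActRat.add {f g : ℍ → ℂ} (hf : IActRat ι M f) (hg : IActRat ι M g) :
    IActRat ι M (f + g) := by
  obtain ⟨φ, hφ⟩ := hf
  obtain ⟨ψ, hψ⟩ := hg
  exact ⟨φ + ψ, by rw [map_add]; exact hφ.add hψ⟩

theorem IActRat.neg {f : ℍ → ℂ} (hf : IActRat ι M f) : IActRat ι M (-f) := by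
  obtain ⟨φ, hφ⟩ := hf
  exact ⟨-φ, by rw [map_neg]; exact hφ.neg⟩

theorem IActRat.mul {f g : ℍ → ℂ} (hf : IActRat ι M f) (hg : IActRat ι M g) :
    IActRat ι M (f * g) := by
  obtain ⟨φ, hφ⟩ := hf
  obtain ⟨ψ, hψ⟩ := hg
  exact ⟨φ * ψ, by rw [map_mul]; exact hφ.mul hψ⟩

variable (ι M)

/-- The ring of holomorphic level-`M` modular functions, `E`-rational at every cusp. -/
def iactRing : Subring (ℍ → ℂ) where
  carrier := {f | MDiff f ∧ (∀ γ ∈ CongruenceSubgroup.Gamma M, compSL γ f = f) ∧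
    ∀ γ : SL(2, ℤ), IActRat ι M (compSL γ f)}
  mul_mem' := by
    rintro f g ⟨hf, hf1, hf2⟩ ⟨hg, hg1, hg2⟩
    refine ⟨hf.mul hg, fun γ hγ => ?_, fun γ => ?_⟩
    · show compSL γ f * compSL γ g = f * g
      rw [hf1 γ hγ, hg1 γ hγ]
    · exact (hf2 γ).mul (hg2 γ)
  one_mem' := ⟨mdifferentiable_const, fun _ _ => rfl, fun _ => IActRat.one⟩
  add_mem' := by
    rintro f g ⟨hf, hf1, hf2⟩ ⟨hg, hg1, hg2⟩
    refine ⟨hf.add hg, fun γ hγ => ?_, fun γ => ?_⟩
    · show compSL γ f + compSL γ g = f + g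
      rw [hf1 γ hγ, hg1 γ hγ]
    · exact (hf2 γ).add (hg2 γ)
  zero_mem' := ⟨mdifferentiable_const, fun _ _ => rfl, fun _ => IActRat.zero⟩
  neg_mem' := by
    rintro f ⟨hf, hf1, hf2⟩
    refine ⟨hf.neg, fun γ hγ => ?_, fun γ => ?_⟩
    · show -compSL γ f = -f
      rw [hf1 γ hγ]
    · exact (hf2 γ).neg

variable {ι M}

theorem mem_iactRing {f : ℍ → ℂ} :
    f ∈ iactRing ι M ↔ MDiff f ∧ (∀ γ ∈ CongruenceSubgroup.Gamma M, compSL γ f = f) ∧
      ∀ γ : SL(2, ℤ), IActRat ι M (compSL γ f) := Iff.rfl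

theorem const_mem_iactRing (c : E) : (fun _ : ℍ => ι c) ∈ iactRing ι M :=
  ⟨mdifferentiable_const, fun _ _ => rfl, fun _ => IActRat.const c⟩

/-- `iactRing` is stable under precomposition with `SL(2,ℤ)`. -/
theorem compSL_mem_iactRing (g : SL(2, ℤ)) {f : ℍ → ℂ} (hf : f ∈ iactRing ι M) :
    compSL g f ∈ iactRing ι M := by
  obtain ⟨h0, h1, h2⟩ := hf
  refine ⟨(precompSL g ⟨f, h0⟩).2, fun δ hδ => ?_, fun γ => ?_⟩
  · have hn : g * δ * g⁻¹ ∈ CongruenceSubgroup.Gamma M :=
      (CongruenceSubgroup.Gamma_normal M).conj_mem δ hδ g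
    have e : g * δ = (g * δ * g⁻¹) * g := by group
    rw [← compSL_mul, e, compSL_mul, h1 _ hn]
  · rw [← compSL_mul]
    exact h2 _

theorem iactRat_self (f : iactRing ι M) : IActRat ι M (f : ℍ → ℂ) := by
  have := f.2.2.2 1
  rwa [compSL_one] at this

variable [NeZero M]

theorem iact_unique {f : ℍ → ℂ} {φ ψ : LaurentSeries E} (hφ : InfExp M f (coeffMap ι φ))
    (hψ : InfExp M f (coeffMap ι ψ)) : φ = ψ :=
  inf_coeffMap_injective ι.injective (hφ.unique hψ)

variable (ι M)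

/-- The `X`-expansion at `∞` of an element of `iactRing`, as a Laurent series over `E`. -/
def iactExpFun (f : iactRing ι M) : LaurentSeries E := Classical.choose (iactRat_self f)

variable {ι M}

theorem iactExpFun_spec (f : iactRing ι M) :
    InfExp M (f : ℍ → ℂ) (coeffMap ι (iactExpFun ι M f)) :=
  Classical.choose_spec (iactRat_self f)

theorem iactExpFun_eq {f : iactRing ι M} {φ : LaurentSeries E}
    (h : InfExp M (f : ℍ → ℂ) (coeffMap ι φ)) : iactExpFun ι M f = φ :=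
  iact_unique (iactExpFun_spec f) h

variable (ι M)

/-- The `X`-expansion at `∞` as a ring homomorphism `iactRing ι M →+* LaurentSeries E`. -/
def iactExp : iactRing ι M →+* LaurentSeries E where
  toFun := iactExpFun ι M
  map_one' := iactExpFun_eq (by rw [map_one]; exact InfExp.one)
  map_mul' f g := iactExpFun_eq (by
    rw [map_mul]; exact (iactExpFun_spec f).mul (iactExpFun_spec g))
  map_zero' := iactExpFun_eq (by rw [map_zero]; exact InfExp.zero)
  map_add' f g := iactExpFun_eq (by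
    rw [map_add]; exact (iactExpFun_spec f).add (iactExpFun_spec g))

variable {ι M}

theorem iactExp_spec (f : iactRing ι M) :
    InfExp M (f : ℍ → ℂ) (coeffMap ι (iactExp ι M f)) := iactExpFun_spec f

theorem iactExp_eq {f : iactRing ι M} {φ : LaurentSeries E}
    (h : InfExp M (f : ℍ → ℂ) (coeffMap ι φ)) : iactExp ι M f = φ := iactExpFun_eq h

theorem iactExp_injective : Function.Injective (iactExp ι M) := by
  intro f g h
  apply Subtype.ext
  have hf := iactExp_spec f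
  rw [h] at hf
  exact hf.fun_unique (iactExp_spec g)

/-- The constant function `ι c` as an element of `iactRing`. -/
def iactConst (c : E) : iactRing ι M := ⟨fun _ => ι c, const_mem_iactRing c⟩

theorem iactExp_const (c : E) : iactExp ι M (iactConst c) = HahnSeries.C c :=
  iactExp_eq (by rw [iact_coeffMap_C]; exact InfExp.const (ι c))

instance iactRing_isDomain : IsDomain (iactRing ι M) :=
  (iactExp_injective (ι := ι) (M := M)).isDomain _

/-! ### the action of `SL(2,ℤ)` -/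

variable (ι M)

/-- Precomposition with `g` as a ring endomorphism of `iactRing`. -/
def iactComp (g : SL(2, ℤ)) : iactRing ι M →+* iactRing ι M where
  toFun f := ⟨compSL g f, compSL_mem_iactRing g f.2⟩
  map_one' := rfl
  map_mul' _ _ := rfl
  map_zero' := rfl
  map_add' _ _ := rfl

variable {ι M}

@[simp] theorem iactComp_apply (g : SL(2, ℤ)) (f : iactRing ι M) (τ : ℍ) :
    (iactComp ι M g f : ℍ → ℂ) τ = (f : ℍ → ℂ) (g • τ) := rfl

theorem iactComp_one (f : iactRing ι M) : iactComp ι M 1 f = f := by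
  apply Subtype.ext; funext τ; simp

theorem iactComp_mul (g h : SL(2, ℤ)) (f : iactRing ι M) :
    iactComp ι M (g * h) f = iactComp ι M h (iactComp ι M g f) := by
  apply Subtype.ext; funext τ; simp [mul_smul]

theorem iactComp_of_mem_Gamma {g : SL(2, ℤ)} (hg : g ∈ CongruenceSubgroup.Gamma M)
    (f : iactRing ι M) : iactComp ι M g f = f :=
  Subtype.ext (f.2.2.1 g hg)

/-- Left action of `SL(2,ℤ)` on `iactRing`: `(γ • f) τ = f (γ⁻¹ • τ)`. -/
instance iactMulSemiringAction : MulSemiringAction SL(2, ℤ) (iactRing ι M) where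
  smul γ f := iactComp ι M γ⁻¹ f
  one_smul f := by
    show iactComp ι M (1 : SL(2, ℤ))⁻¹ f = f
    rw [inv_one, iactComp_one]
  mul_smul γ δ f := by
    show iactComp ι M (γ * δ)⁻¹ f = iactComp ι M γ⁻¹ (iactComp ι M δ⁻¹ f)
    rw [mul_inv_rev, iactComp_mul]
  smul_zero γ := map_zero _
  smul_add γ f g := map_add _ f g
  smul_one γ := map_one _
  smul_mul γ f g := map_mul _ f g

theorem iact_smul_def (γ : SL(2, ℤ)) (f : iactRing ι M) : γ • f = iactComp ι M γ⁻¹ f := rfl

theorem iact_smul_apply (γ : SL(2, ℤ)) (f : iactRing ι M) (τ : ℍ) :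
    ((γ • f : iactRing ι M) : ℍ → ℂ) τ = (f : ℍ → ℂ) (γ⁻¹ • τ) := rfl

theorem iact_smul_of_mem_Gamma {γ : SL(2, ℤ)} (hγ : γ ∈ CongruenceSubgroup.Gamma M)
    (f : iactRing ι M) : γ • f = f :=
  iactComp_of_mem_Gamma (inv_mem hγ) f

theorem iact_smul_const (γ : SL(2, ℤ)) (c : E) :
    γ • (iactConst c : iactRing ι M) = iactConst c := rfl

end Fermat.Agent.S48.H828

end
end
-- ===== PACK-END S48/H828/IActRing.lean

-- ===== PACK-BEGIN S48/H828/IActInv.lean
section




/-!
# S48 / Tower A1 / IGUSA1, piece I-ACT (helper828), part 2: `SL(2,ℤ)`-invariants are `E[j]`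

* `iactJ : iactRing ι M` is the `j`-function, with expansion `jq(X^M)` (`iactExp_J`).
* `iact_coeff_eq_zero_of_T` : a `T`-invariant function has only exponents divisible by `M`.
* `iact_exists_poly` : an `SL(2,ℤ)`-invariant holomorphic function with an `E`-rational expansion
  is a polynomial in `j` with coefficients in `E` (function level and series level).
* `iact_invariant_eq_eval₂` : the invariants of `iactRing ι M` are `E[j]`.
-/

set_option autoImplicit false
set_option linter.unusedSectionVars false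

noncomputable section

open ModularCurve HahnSeries UpperHalfPlane
open scoped MatrixGroups Manifold

namespace Fermat.Agent.S48.H828

open Fermat.Agent.S24 Fermat.Agent.S24.H997 Fermat.Agent.S24.H624 Fermat.Agent.S20.L1

variable {E : Type*} [Field E] [CharZero E] {ι : E →+* ℂ} {M : ℕ} [NeZero M]

/-! ### the `j`-function -/

theorem iact_coeffMap_coeffEmb (x : LaurentSeries ℚ) :
    coeffMap ι (coeffEmb E x) = coeffEmb ℂ x := by
  rw [coeffEmb, coeffMap_coeffMap]
  exact coeffMap_congr (RingHom.ext fun c => by simp) x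

variable (E M) in
/-- The expansion `jq(X^M)` of `j` in the variable `X = q^{1/M}`, over `E`. -/
def iactJX : LaurentSeries E := qExpand E M (coeffEmb E jq)

theorem iact_coeffMap_JX : coeffMap ι (iactJX E M) = qExpand ℂ M infJq := by
  rw [iactJX, coeffMap_qExpand, iact_coeffMap_coeffEmb]
  rfl

theorem iact_infExp_jFun : InfExp M jFun (qExpand ℂ M infJq) := by
  have hM : 0 < M := Nat.pos_of_ne_zero (NeZero.ne M)
  have h := (infExp_jFun).comp_infAff (M := 1) (N := M) (a := 1) (d := 1) (e := M) 0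
    one_pos one_pos one_pos hM (by ring)
  rw [infRoot_zero, infTwist_one] at h
  refine h.congr fun τ => ?_
  rw [infAff_one_zero_one]

theorem iactRat_jFun : IActRat ι M jFun :=
  ⟨iactJX E M, by rw [iact_coeffMap_JX]; exact iact_infExp_jFun⟩

theorem compSL_jFun (γ : SL(2, ℤ)) : compSL γ jFun = jFun := by
  funext τ
  exact jFun_smul' γ τ

theorem jFun_mem_iactRing : jFun ∈ iactRing ι M :=
  ⟨mdiff_jFun, fun γ _ => compSL_jFun γ, fun γ => by rw [compSL_jFun]; exact iactRat_jFun⟩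

variable (ι M) in
/-- The `j`-function as an element of `iactRing`. -/
def iactJ : iactRing ι M := ⟨jFun, jFun_mem_iactRing⟩

theorem iactExp_J : iactExp ι M (iactJ ι M) = iactJX E M :=
  iactExp_eq (by rw [iact_coeffMap_JX]; exact iact_infExp_jFun)

theorem iact_smul_J (γ : SL(2, ℤ)) : γ • iactJ ι M = iactJ ι M :=
  Subtype.ext (compSL_jFun γ⁻¹)

/-! ### `T`-invariance and the support of the expansion -/

theorem iact_T_smul (τ : ℍ) : ModularGroup.T • τ = infAff 1 1 1 τ := by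
  apply UpperHalfPlane.ext
  rw [infAff_coe one_pos one_pos, UpperHalfPlane.modular_T_smul, UpperHalfPlane.coe_vadd]
  push_cast
  ring

theorem iact_infRoot_one_zpow (n : ℤ) : infRoot 1 M ^ n = infRoot n M := by
  apply Units.ext
  rw [infRoot_zpow_coe, infRoot_coe, ← Complex.exp_int_mul]
  congr 1
  push_cast
  ring

/-- A `T`-invariant function has no exponents prime to the width. -/
theorem iact_coeff_eq_zero_of_T {f : ℍ → ℂ} {Φ : LaurentSeries ℂ} (h : InfExp M f Φ)
    (hT : ∀ τ, f (ModularGroup.T • τ) = f τ) {n : ℤ} (hn : ¬ (M : ℤ) ∣ n) : Φ.coeff n = 0 := by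
  have hM : 0 < M := Nat.pos_of_ne_zero (NeZero.ne M)
  have h1 : InfExp M f (infTwist (infRoot 1 M) Φ) := by
    refine (h.comp_translate 1).congr fun τ => ?_
    rw [← iact_T_smul, hT]
  have h2 := congrArg (fun x : LaurentSeries ℂ => x.coeff n) (h1.unique h)
  simp only [infTwist_coeff] at h2
  by_contra hne
  have h3 : (((infRoot 1 M) ^ n : ℂˣ) : ℂ) = 1 := by
    have := mul_left_cancel₀ hne (h2.trans (mul_one _).symm)
    exact this
  have h4 : infRoot n M = infRoot 0 M := by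
    rw [infRoot_zero, ← iact_infRoot_one_zpow]
    exact Units.ext h3
  rw [infRoot_eq_iff hM, sub_zero] at h4
  exact hn h4

/-! ### the constant case -/

theorem iact_const_of_invariant {f : ℍ → ℂ} {Φ : LaurentSeries ℂ} (hol : MDiff f)
    (hinv : ∀ (γ : SL(2, ℤ)) (τ : ℍ), f (γ • τ) = f τ) (h : InfExp M f Φ)
    (hΦ : ∀ n : ℤ, n < 0 → Φ.coeff n = 0) : ∀ τ, f τ = Φ.coeff 0 := by
  have hM : (0 : ℝ) < M := by exact_mod_cast Nat.pos_of_ne_zero (NeZero.ne M)
  obtain ⟨A, rfl⟩ := Fermat.Agent.S28.H685.exists_ofPowerSeries_eq Φ hΦ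
  have hL : Fermat.Agent.S28.H685.HasQLaurent (M : ℝ) f (HahnSeries.ofPowerSeries ℤ ℂ A) := h
  have hA := hL.hasQExp_of_ofPowerSeries
  obtain ⟨c, hc⟩ := Fermat.Agent.S28.H685.exists_const_of_invariant f hol
    (hA.isBoundedAtImInfty hM) (hinv _) (hinv _)
  have h1 : InfExp M f (HahnSeries.C c) := (InfExp.const c).congr fun τ => (hc τ).symm
  have h2 := h.unique h1
  intro τ
  rw [h2, hc τ]
  simp

/-! ### structure of the powers of `jq(X^M)` -/

theorem iact_leadingCoeff_pow {R : Type*} [CommRing R] [IsDomain R] (x : LaurentSeries R)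
    (n : ℕ) : (x ^ n).leadingCoeff = x.leadingCoeff ^ n := by
  induction n with
  | zero => simp
  | succ n ih => rw [pow_succ, HahnSeries.leadingCoeff_mul, ih, pow_succ]

theorem iact_JXC_order : (qExpand ℂ M infJq).order = -(M : ℤ) := by
  rw [inf_qExpand_order, infJq_order]
  ring

theorem iact_JXC_pow_order (n : ℕ) : ((qExpand ℂ M infJq) ^ n).order = -((M * n : ℕ) : ℤ) := by
  rw [HahnSeries.order_pow, iact_JXC_order]
  push_cast
  simp only [nsmul_eq_mul]
  ring

theorem iact_JXC_pow_coeff (n : ℕ) :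
    ((qExpand ℂ M infJq) ^ n).coeff (-((M * n : ℕ) : ℤ)) = 1 := by
  rw [← iact_JXC_pow_order n, ← HahnSeries.leadingCoeff_eq, iact_leadingCoeff_pow,
    inf_qExpand_leadingCoeff, infJq_leadingCoeff, one_pow]

theorem iact_JXC_pow_coeff_of_lt (n : ℕ) {k : ℤ} (hk : k < -((M * n : ℕ) : ℤ)) :
    ((qExpand ℂ M infJq) ^ n).coeff k = 0 :=
  HahnSeries.coeff_eq_zero_of_lt_order (by rw [iact_JXC_pow_order]; exact hk)

theorem iact_infExp_pow {f : ℍ → ℂ} {Φ : LaurentSeries ℂ} (h : InfExp M f Φ) (n : ℕ) :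
    InfExp M (fun τ => f τ ^ n) (Φ ^ n) := by
  have hL : Fermat.Agent.S28.H685.HasQLaurent (M : ℝ) f Φ := h
  exact hL.pow n

/-! ### the polynomial principle over `E` -/

theorem iact_exists_poly_aux :
    ∀ (n : ℕ) (f : ℍ → ℂ) (φ : LaurentSeries E), MDiff f →
      (∀ (γ : SL(2, ℤ)) (τ : ℍ), f (γ • τ) = f τ) → InfExp M f (coeffMap ι φ) →
      (∀ k : ℤ, k < -((M * n : ℕ) : ℤ) → φ.coeff k = 0) →
      ∃ P : Polynomial E, P.natDegree ≤ n ∧ φ = Polynomial.aeval (iactJX E M) P ∧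
        ∀ τ, f τ = (P.map ι).eval (jFun τ) := by
  intro n
  induction n with
  | zero =>
    intro f φ hol hinv h hφ
    have hφ' : ∀ k : ℤ, k < 0 → (coeffMap ι φ).coeff k = 0 := by
      intro k hk
      rw [coeffMap_coeff, hφ k (by simpa using hk), map_zero]
    have hc := iact_const_of_invariant hol hinv h hφ'
    rw [coeffMap_coeff] at hc
    have h1 : InfExp M f (coeffMap ι (HahnSeries.C (φ.coeff 0))) := by
      rw [iact_coeffMap_C]
      exact (InfExp.const _).congr fun τ => (hc τ).symm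
    have h2 : φ = HahnSeries.C (φ.coeff 0) := iact_unique h h1
    refine ⟨Polynomial.C (φ.coeff 0), by simp, ?_, fun τ => by simpa using hc τ⟩
    rw [Polynomial.aeval_C]
    rw [show algebraMap E (LaurentSeries E) (φ.coeff 0) = HahnSeries.C (φ.coeff 0) from by
      rw [algebraMap_laurentSeries_eq_single]; rfl]
    exact h2
  | succ n ih =>
    intro f φ hol hinv h hφ
    set c := φ.coeff (-((M * (n + 1) : ℕ) : ℤ)) with hc
    set g : ℍ → ℂ := fun τ => f τ - ι c * jFun τ ^ (n + 1) with hg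
    set ψ : LaurentSeries E := φ - HahnSeries.C c * (iactJX E M) ^ (n + 1) with hψ
    have hmap : coeffMap ι ψ =
        coeffMap ι φ - HahnSeries.C (ι c) * (qExpand ℂ M infJq) ^ (n + 1) := by
      rw [hψ, map_sub, map_mul, map_pow, iact_coeffMap_C, iact_coeffMap_JX]
    have hgexp : InfExp M g (coeffMap ι ψ) := by
      rw [hmap]
      exact h.sub ((InfExp.const (ι c)).mul (iact_infExp_pow iact_infExp_jFun (n + 1)))
    have hgol : MDiff g := by
      have h1 : MDiff (fun τ : ℍ => ι c * jFun τ ^ (n + 1)) :=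
        (mdifferentiable_const (c := ι c)).mul (mdiff_jFun.pow (n + 1))
      exact hol.sub h1
    have hginv : ∀ (γ : SL(2, ℤ)) (τ : ℍ), g (γ • τ) = g τ := by
      intro γ τ
      simp only [hg, hinv γ τ, jFun_smul' γ τ]
    have hψ0 : ∀ k : ℤ, k < -((M * n : ℕ) : ℤ) → ψ.coeff k = 0 := by
      intro k hk
      apply ι.injective
      rw [map_zero, ← coeffMap_coeff, hmap]
      by_cases hdvd : (M : ℤ) ∣ k
      · obtain ⟨m, rfl⟩ := hdvd
        have hM : (0 : ℤ) < M := by exact_mod_cast Nat.pos_of_ne_zero (NeZero.ne M)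
        have hm : m < -(n : ℤ) := by
          push_cast at hk
          have : (M : ℤ) * m < (M : ℤ) * (-(n : ℤ)) := by linarith
          exact lt_of_mul_lt_mul_left this hM.le
        rw [HahnSeries.coeff_sub, HahnSeries.C_mul_eq_smul, HahnSeries.coeff_smul, smul_eq_mul,
          coeffMap_coeff]
        rcases lt_or_eq_of_le (show m ≤ -((n : ℤ) + 1) by omega) with h1 | h1
        · have hk' : (M : ℤ) * m < -((M * (n + 1) : ℕ) : ℤ) := by
            push_cast
            nlinarith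
          rw [hφ _ hk', iact_JXC_pow_coeff_of_lt (n + 1) hk', map_zero, mul_zero, sub_zero]
        · have hk' : (M : ℤ) * m = -((M * (n + 1) : ℕ) : ℤ) := by
            rw [h1]; push_cast; ring
          rw [hk', iact_JXC_pow_coeff, mul_one, ← hc, sub_self]
      · rw [← hmap]
        exact iact_coeff_eq_zero_of_T hgexp (hginv _) hdvd
    obtain ⟨P, hPdeg, hPφ, hPf⟩ := ih g ψ hgol hginv hgexp hψ0
    refine ⟨P + Polynomial.C c * Polynomial.X ^ (n + 1), ?_, ?_, ?_⟩
    · refine (Polynomial.natDegree_add_le _ _).trans (max_le (hPdeg.trans (Nat.le_succ n)) ?_)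
      exact Polynomial.natDegree_C_mul_X_pow_le c (n + 1)
    · rw [map_add, ← hPφ, map_mul, map_pow, Polynomial.aeval_X, Polynomial.aeval_C]
      rw [show algebraMap E (LaurentSeries E) c = HahnSeries.C c from by
        rw [algebraMap_laurentSeries_eq_single]; rfl]
      rw [hψ]
      ring
    · intro τ
      have := hPf τ
      simp only [Polynomial.map_add, Polynomial.map_mul, Polynomial.map_pow, Polynomial.map_C,
        Polynomial.map_X, Polynomial.eval_add, Polynomial.eval_mul, Polynomial.eval_C,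
        Polynomial.eval_pow, Polynomial.eval_X]
      rw [← this]
      simp only [hg]
      ring

/-- **Polynomial principle over `E`.** A holomorphic `SL(2,ℤ)`-invariant function with an
`E`-rational expansion in `X = q^{1/M}` is a polynomial in `j` with coefficients in `E`. -/
theorem iact_exists_poly {f : ℍ → ℂ} {φ : LaurentSeries E} (hol : MDiff f)
    (hinv : ∀ (γ : SL(2, ℤ)) (τ : ℍ), f (γ • τ) = f τ) (h : InfExp M f (coeffMap ι φ)) :
    ∃ P : Polynomial E, φ = Polynomial.aeval (iactJX E M) P ∧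
      ∀ τ, f τ = (P.map ι).eval (jFun τ) := by
  obtain ⟨n, hn⟩ : ∃ n : ℕ, ∀ k : ℤ, k < -((M * n : ℕ) : ℤ) → φ.coeff k = 0 := by
    refine ⟨(-φ.order).toNat, fun k hk => HahnSeries.coeff_eq_zero_of_lt_order ?_⟩
    have hM : (1 : ℤ) ≤ M := by exact_mod_cast Nat.one_le_iff_ne_zero.mpr (NeZero.ne M)
    have h1 : -φ.order ≤ ((-φ.order).toNat : ℤ) := Int.self_le_toNat _
    have h2 : (0 : ℤ) ≤ ((-φ.order).toNat : ℤ) := Int.natCast_nonneg _
    push_cast at hk
    nlinarith
  obtain ⟨P, -, h1, h2⟩ := iact_exists_poly_aux n f φ hol hinv h hn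
  exact ⟨P, h1, h2⟩

/-! ### invariants of `iactRing` -/

variable (ι M) in
/-- Constants, as a ring homomorphism `E →+* iactRing ι M`. -/
def iactC : E →+* iactRing ι M where
  toFun c := iactConst c
  map_one' := Subtype.ext (by funext τ; simp [iactConst])
  map_mul' a b := Subtype.ext (by funext τ; simp [iactConst])
  map_zero' := Subtype.ext (by funext τ; simp [iactConst])
  map_add' a b := Subtype.ext (by funext τ; simp [iactConst])

theorem iactC_apply (c : E) (τ : ℍ) : ((iactC ι M c : iactRing ι M) : ℍ → ℂ) τ = ι c := rfl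

theorem iactExp_C (c : E) : iactExp ι M (iactC ι M c) = HahnSeries.C c := iactExp_const c

theorem iact_smul_C (γ : SL(2, ℤ)) (c : E) : γ • iactC ι M c = iactC ι M c := rfl

theorem iact_eval₂_apply (P : Polynomial E) (τ : ℍ) :
    ((Polynomial.eval₂ (iactC ι M) (iactJ ι M) P : iactRing ι M) : ℍ → ℂ) τ
      = (P.map ι).eval (jFun τ) := by
  induction P using Polynomial.induction_on' with
  | add p q hp hq =>
    rw [Polynomial.eval₂_add, Polynomial.map_add, Polynomial.eval_add, ← hp, ← hq]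
    rfl
  | monomial n a =>
    rw [Polynomial.eval₂_monomial, Polynomial.map_monomial, Polynomial.eval_monomial]
    rfl

theorem iact_smul_eval₂ (γ : SL(2, ℤ)) (P : Polynomial E) :
    γ • Polynomial.eval₂ (iactC ι M) (iactJ ι M) P = Polynomial.eval₂ (iactC ι M) (iactJ ι M) P := by
  apply Subtype.ext
  funext τ
  rw [iact_smul_apply, iact_eval₂_apply, iact_eval₂_apply, jFun_smul']

/-- **Invariants.** The `SL(2,ℤ)`-invariant elements of `iactRing ι M` are exactly the
polynomials in `j` with coefficients in `E`. -/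
theorem iact_invariant_eq_eval₂ (f : iactRing ι M) (hinv : ∀ γ : SL(2, ℤ), γ • f = f) :
    ∃ P : Polynomial E, f = Polynomial.eval₂ (iactC ι M) (iactJ ι M) P := by
  have hinv' : ∀ (γ : SL(2, ℤ)) (τ : ℍ), (f : ℍ → ℂ) (γ • τ) = (f : ℍ → ℂ) τ := by
    intro γ τ
    have := congrArg (fun g : iactRing ι M => (g : ℍ → ℂ) τ) (hinv γ⁻¹)
    simpa [iact_smul_apply] using this
  obtain ⟨P, -, hP⟩ := iact_exists_poly (f := (f : ℍ → ℂ)) f.2.1 hinv' (iactExp_spec f)
  refine ⟨P, Subtype.ext ?_⟩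
  funext τ
  rw [hP τ, iact_eval₂_apply]

end Fermat.Agent.S48.H828

end
end
-- ===== PACK-END S48/H828/IActInv.lean

-- ===== PACK-BEGIN S48/H828/IActField.lean
section


/-!
# S48 / Tower A1 / IGUSA1, piece I-ACT (helper828), part 3: the field of level-`M` modular
functions `E`-rational at all cusps, with its Galois action

`IActField ι M := Frac (iactRing ι M)`.

* `iactFieldExp ι M : IActField ι M →+* LaurentSeries E` : the `X`-expansion (`X = q^{1/M}`),
  injective; its range is the field called `Ffull` in the IGUSA1 memo.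
* `SL(2,ℤ)` acts (`MulSemiringAction`), `Γ(M)` acts trivially (`iact_field_smul_of_mem_Gamma`),
  so the action factors through the FINITE group `SL(2,ℤ) ⧸ Γ(M)` (`iactQuotAction`).
* `iact_fixed_iff` : the fixed field is `E(j)`.
* `iactFieldExp_T_smul` : `T` acts on expansions by the substitution `X ↦ ζ⁻¹ X`.
-/

set_option autoImplicit false
set_option linter.unusedSectionVars false
set_option warn.classDefReducibility false

noncomputable section

open ModularCurve HahnSeries UpperHalfPlane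
open scoped MatrixGroups Manifold

namespace Fermat.Agent.S48.H828

open Fermat.Agent.S24 Fermat.Agent.S24.H997 Fermat.Agent.S24.H624 Fermat.Agent.S20.L1

/-! ### a generic norm lemma -/

/-- If a finite-index subgroup `Γ` of `G` fixes `b ≠ 0` (in a domain with `G`-action), then some
multiple `b * c ≠ 0` is fixed by all of `G`. -/
theorem iact_exists_invariant_multiple {G R : Type*} [Group G] [CommRing R] [IsDomain R]
    [MulSemiringAction G R] (Γ : Subgroup G) [Finite (G ⧸ Γ)] (b : R)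
    (hΓ : ∀ γ ∈ Γ, γ • b = b) (hb : b ≠ 0) :
    ∃ c : R, b * c ≠ 0 ∧ ∀ g : G, g • (b * c) = b * c := by
  classical
  let _ : Fintype (G ⧸ Γ) := Fintype.ofFinite _
  have hterm : ∀ (g : G) (x : G ⧸ Γ),
      g • ((Quotient.out x : G) • b) = (Quotient.out (g • x) : G) • b := by
    intro g x
    have h1 : ((Quotient.out (g • x) : G) : G ⧸ Γ) = ((g * Quotient.out x : G) : G ⧸ Γ) := by
      rw [QuotientGroup.out_eq']
      conv_lhs => rw [← QuotientGroup.out_eq' x]
      rfl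
    have h2 : (Quotient.out (g • x) : G)⁻¹ * (g * Quotient.out x) ∈ Γ := QuotientGroup.eq.mp h1
    have h3 : g * Quotient.out x
        = (Quotient.out (g • x) : G) * ((Quotient.out (g • x) : G)⁻¹ * (g * Quotient.out x)) := by
      group
    rw [← mul_smul, h3, mul_smul, hΓ _ h2]
  set N : R := ∏ x : G ⧸ Γ, (Quotient.out x : G) • b with hN
  have hinv : ∀ g : G, g • N = N := by
    intro g
    rw [hN, Finset.smul_prod']
    simp only [hterm]
    exact Equiv.prod_comp (MulAction.toPerm g) (fun y : G ⧸ Γ => (Quotient.out y : G) • b)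
  have hN0 : N ≠ 0 := by
    rw [hN, Finset.prod_ne_zero_iff]
    intro x _
    exact (smul_ne_zero_iff_ne _).mpr hb
  have hdvd : b ∣ N := by
    have h0 : (Quotient.out ((1 : G) : G ⧸ Γ) : G) • b = b := by
      apply hΓ
      have h1 : ((Quotient.out ((1 : G) : G ⧸ Γ) : G) : G ⧸ Γ) = ((1 : G) : G ⧸ Γ) :=
        QuotientGroup.out_eq' _
      have := QuotientGroup.eq.mp h1.symm
      simpa using this
    have := Finset.dvd_prod_of_mem (fun x : G ⧸ Γ => (Quotient.out x : G) • b)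
      (Finset.mem_univ ((1 : G) : G ⧸ Γ))
    rwa [h0] at this
  obtain ⟨c, hc⟩ := hdvd
  exact ⟨c, hc ▸ hN0, fun g => hc ▸ hinv g⟩

variable {E : Type*} [Field E] [CharZero E] (ι : E →+* ℂ) (M : ℕ) [NeZero M]

/-- The field of level-`M` modular functions, `E`-rational at all cusps. -/
abbrev IActField : Type := FractionRing (iactRing ι M)

/-- The action of `SL(2,ℤ)` on `IActField`, extending `(γ • f) τ = f (γ⁻¹ • τ)`. -/
instance iactFieldAction : MulSemiringAction SL(2, ℤ) (IActField ι M) :=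
  IsFractionRing.mulSemiringAction SL(2, ℤ) (iactRing ι M) (IActField ι M)

variable {ι M}

theorem iact_smul_algebraMap (γ : SL(2, ℤ)) (f : iactRing ι M) :
    γ • algebraMap (iactRing ι M) (IActField ι M) f
      = algebraMap (iactRing ι M) (IActField ι M) (γ • f) :=
  IsFractionRing.ringEquivOfRingEquiv_algebraMap
    (MulSemiringAction.toRingEquiv SL(2, ℤ) (iactRing ι M) γ) f

variable (ι M)

/-- The `X`-expansion on the field. -/
def iactFieldExp : IActField ι M →+* LaurentSeries E :=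
  IsFractionRing.lift (iactExp_injective (ι := ι) (M := M))

/-- Constants `E → IActField`. -/
def iactFC : E →+* IActField ι M :=
  (algebraMap (iactRing ι M) (IActField ι M)).comp (iactC ι M)

/-- The `j`-function in `IActField`. -/
def iactFJ : IActField ι M := algebraMap (iactRing ι M) (IActField ι M) (iactJ ι M)

variable {ι M}

@[simp] theorem iactFieldExp_algebraMap (f : iactRing ι M) :
    iactFieldExp ι M (algebraMap (iactRing ι M) (IActField ι M) f) = iactExp ι M f :=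
  IsFractionRing.lift_algebraMap (iactExp_injective (ι := ι) (M := M)) f

theorem iactFieldExp_injective : Function.Injective (iactFieldExp ι M) :=
  (iactFieldExp ι M).injective

theorem iactFieldExp_C (c : E) : iactFieldExp ι M (iactFC ι M c) = HahnSeries.C c := by
  rw [iactFC, RingHom.comp_apply, iactFieldExp_algebraMap, iactExp_C]

theorem iactFieldExp_J : iactFieldExp ι M (iactFJ ι M) = iactJX E M := by
  rw [iactFJ, iactFieldExp_algebraMap, iactExp_J]

theorem iact_eval₂_field (P : Polynomial E) :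
    Polynomial.eval₂ (iactFC ι M) (iactFJ ι M) P
      = algebraMap (iactRing ι M) (IActField ι M)
          (Polynomial.eval₂ (iactC ι M) (iactJ ι M) P) := by
  rw [Polynomial.hom_eval₂]
  rfl

theorem iact_field_smul_eval₂ (γ : SL(2, ℤ)) (P : Polynomial E) :
    γ • Polynomial.eval₂ (iactFC ι M) (iactFJ ι M) P
      = Polynomial.eval₂ (iactFC ι M) (iactFJ ι M) P := by
  rw [iact_eval₂_field, iact_smul_algebraMap, iact_smul_eval₂]

/-- `Γ(M)` acts trivially on `IActField`. -/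
theorem iact_field_smul_of_mem_Gamma {γ : SL(2, ℤ)} (hγ : γ ∈ CongruenceSubgroup.Gamma M)
    (x : IActField ι M) : γ • x = x := by
  obtain ⟨a, b, hb, rfl⟩ := IsFractionRing.div_surjective (A := iactRing ι M) x
  rw [smul_div₀', iact_smul_algebraMap, iact_smul_algebraMap, iact_smul_of_mem_Gamma hγ,
    iact_smul_of_mem_Gamma hγ]

/-- **Fixed field.** An element of `IActField` is `SL(2,ℤ)`-invariant iff it is a rational
function of `j` with coefficients in `E`. -/
theorem iact_fixed_iff (x : IActField ι M) :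
    (∀ γ : SL(2, ℤ), γ • x = x) ↔
      ∃ P Q : Polynomial E, Polynomial.eval₂ (iactFC ι M) (iactFJ ι M) Q ≠ 0 ∧
        x = Polynomial.eval₂ (iactFC ι M) (iactFJ ι M) P
          / Polynomial.eval₂ (iactFC ι M) (iactFJ ι M) Q := by
  constructor
  · intro hx
    obtain ⟨a, b, hb, rfl⟩ := IsFractionRing.div_surjective (A := iactRing ι M) x
    have hb0 : b ≠ 0 := nonZeroDivisors.ne_zero hb
    obtain ⟨c, hc0, hcinv⟩ := iact_exists_invariant_multiple (G := SL(2, ℤ))
      (CongruenceSubgroup.Gamma M) b (fun γ hγ => iact_smul_of_mem_Gamma hγ b) hb0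
    have hinj : Function.Injective (algebraMap (iactRing ι M) (IActField ι M)) :=
      IsFractionRing.injective _ _
    have hbc : algebraMap (iactRing ι M) (IActField ι M) (b * c) ≠ 0 := by
      rw [Ne, map_eq_zero_iff _ hinj]
      exact hc0
    have hb' : algebraMap (iactRing ι M) (IActField ι M) b ≠ 0 := by
      rw [Ne, map_eq_zero_iff _ hinj]
      exact hb0
    have hx' : algebraMap (iactRing ι M) (IActField ι M) a
        / algebraMap (iactRing ι M) (IActField ι M) b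
        = algebraMap (iactRing ι M) (IActField ι M) (a * c)
          / algebraMap (iactRing ι M) (IActField ι M) (b * c) := by
      rw [map_mul, map_mul]
      have hc' : algebraMap (iactRing ι M) (IActField ι M) c ≠ 0 := by
        intro h
        apply hbc
        rw [map_mul, h, mul_zero]
      field_simp
    have hacinv : ∀ γ : SL(2, ℤ), γ • (a * c) = a * c := by
      intro γ
      apply hinj
      have h1 : algebraMap (iactRing ι M) (IActField ι M) (a * c)
          = (algebraMap (iactRing ι M) (IActField ι M) a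
              / algebraMap (iactRing ι M) (IActField ι M) b)
            * algebraMap (iactRing ι M) (IActField ι M) (b * c) := by
        rw [hx']
        field_simp
      rw [← iact_smul_algebraMap, h1, smul_mul', hx γ, iact_smul_algebraMap, hcinv γ]
    obtain ⟨P, hP⟩ := iact_invariant_eq_eval₂ (a * c) hacinv
    obtain ⟨Q, hQ⟩ := iact_invariant_eq_eval₂ (b * c) hcinv
    refine ⟨P, Q, ?_, ?_⟩
    · rw [iact_eval₂_field, ← hQ]
      exact hbc
    · rw [iact_eval₂_field, iact_eval₂_field, ← hP, ← hQ]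
      exact hx'
  · rintro ⟨P, Q, -, rfl⟩ γ
    rw [smul_div₀', iact_field_smul_eval₂, iact_field_smul_eval₂]

/-! ### the action of `T` on expansions -/

theorem iact_T_inv_smul (τ : ℍ) : (ModularGroup.T)⁻¹ • τ = infAff 1 (-1) 1 τ := by
  rw [inv_smul_eq_iff, iact_T_smul]
  apply UpperHalfPlane.ext
  rw [infAff_coe one_pos one_pos, infAff_coe one_pos one_pos]
  push_cast
  ring

theorem iact_coeffMap_infTwist (u : Eˣ) (φ : LaurentSeries E) :
    coeffMap ι (infTwist u φ) = infTwist (Units.map (ι : E →* ℂ) u) (coeffMap ι φ) := by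
  ext n
  rw [coeffMap_coeff, infTwist_coeff, infTwist_coeff, coeffMap_coeff, map_mul, ← map_zpow]
  rfl

/-- `T` acts on the `X`-expansion by `X ↦ ζ⁻¹ X`, where `ζ ∈ E` maps to `exp(2πi/M)`. -/
theorem iactExp_T_smul (ζ : Eˣ) (hζ : Units.map (ι : E →* ℂ) ζ = infRoot 1 M)
    (f : iactRing ι M) :
    iactExp ι M (ModularGroup.T • f) = infTwist ζ⁻¹ (iactExp ι M f) := by
  apply iactExp_eq
  rw [iact_coeffMap_infTwist, map_inv, hζ]
  have h1 : (infRoot 1 M)⁻¹ = infRoot (-1) M := by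
    rw [← iact_infRoot_one_zpow (M := M) (-1), zpow_neg_one]
  rw [h1]
  refine ((iactExp_spec f).comp_translate (-1)).congr fun τ => ?_
  rw [iact_smul_apply, iact_T_inv_smul]

/-- `T` acts on the `X`-expansion of field elements by `X ↦ ζ⁻¹ X`. -/
theorem iactFieldExp_T_smul (ζ : Eˣ) (hζ : Units.map (ι : E →* ℂ) ζ = infRoot 1 M)
    (x : IActField ι M) :
    iactFieldExp ι M (ModularGroup.T • x) = infTwist ζ⁻¹ (iactFieldExp ι M x) := by
  obtain ⟨a, b, hb, rfl⟩ := IsFractionRing.div_surjective (A := iactRing ι M) x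
  rw [smul_div₀', iact_smul_algebraMap, iact_smul_algebraMap, map_div₀, map_div₀, map_div₀,
    iactFieldExp_algebraMap, iactFieldExp_algebraMap, iactFieldExp_algebraMap,
    iactFieldExp_algebraMap, iactExp_T_smul ζ hζ, iactExp_T_smul ζ hζ]

/-! ### the finite quotient `SL(2,ℤ) ⧸ Γ(M)` -/

instance iact_Gamma_normal (N : ℕ) : (CongruenceSubgroup.Gamma N).Normal :=
  CongruenceSubgroup.Gamma_normal N

variable (ι M)

/-- The action as a homomorphism from the finite group `SL(2,ℤ) ⧸ Γ(M)`. -/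
def iactQuotHom : (SL(2, ℤ) ⧸ CongruenceSubgroup.Gamma M) →* RingAut (IActField ι M) :=
  QuotientGroup.lift (CongruenceSubgroup.Gamma M)
    (MulSemiringAction.toRingAut SL(2, ℤ) (IActField ι M))
    (fun γ hγ => RingEquiv.ext fun x => iact_field_smul_of_mem_Gamma hγ x)

/-- The action of the finite group `SL(2,ℤ) ⧸ Γ(M)` on `IActField` (a `def`, not an instance). -/
def iactQuotAction :
    MulSemiringAction (SL(2, ℤ) ⧸ CongruenceSubgroup.Gamma M) (IActField ι M) :=
  MulSemiringAction.compHom (IActField ι M) (iactQuotHom ι M)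

variable {ι M}

theorem iactQuotHom_mk (g : SL(2, ℤ)) (x : IActField ι M) :
    iactQuotHom ι M (g : SL(2, ℤ) ⧸ CongruenceSubgroup.Gamma M) x = g • x := rfl

theorem iactQuotAction_mk_smul (g : SL(2, ℤ)) (x : IActField ι M) :
    letI := iactQuotAction ι M
    ((g : SL(2, ℤ) ⧸ CongruenceSubgroup.Gamma M) • x : IActField ι M) = g • x := rfl

instance iact_finite_quot : Finite (SL(2, ℤ) ⧸ CongruenceSubgroup.Gamma M) :=
  Subgroup.finite_quotient_of_finiteIndex

/-- Fixed field of the finite group action. -/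
theorem iactQuot_fixed_iff (x : IActField ι M) :
    (∀ q : SL(2, ℤ) ⧸ CongruenceSubgroup.Gamma M, iactQuotHom ι M q x = x) ↔
      ∃ P Q : Polynomial E, Polynomial.eval₂ (iactFC ι M) (iactFJ ι M) Q ≠ 0 ∧
        x = Polynomial.eval₂ (iactFC ι M) (iactFJ ι M) P
          / Polynomial.eval₂ (iactFC ι M) (iactFJ ι M) Q := by
  rw [← iact_fixed_iff]
  constructor
  · intro h γ
    exact h (γ : SL(2, ℤ) ⧸ CongruenceSubgroup.Gamma M)
  · intro h q
    obtain ⟨g, rfl⟩ := QuotientGroup.mk_surjective q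
    exact h g

end Fermat.Agent.S48.H828

end
end
-- ===== PACK-END S48/H828/IActField.lean

-- ===== PACK-BEGIN S48/H150/AlgGen.lean
section



/-!
# S48 / Tower A1 / A1-FF, leaf FF-ALG (helper150), part 1: the generic algebraicity statement

Every element `f` of helper828's ring `iactRing ι M` (holomorphic level-`M` modular functions,
`E`-rational at every cusp) is a root of a MONIC polynomial with coefficients in `E[j]`:
the characteristic polynomial `∏_{g ∈ SL₂(ℤ)/Γ(M)} (T - g • f)` has `SL₂(ℤ)`-invariant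
coefficients, and the invariants of `iactRing ι M` are `E[j]` (`H828.iact_invariant_eq_eval₂`).

Passing to expansions, undoing `q ↦ X^M`, and descending along `ℚ → ℂ` (S24 `Deg457`):

* `algRel_of_infExp` : if `x ∈ ℚ((q))` is the `q`-expansion at `∞` of a holomorphic
  `Γ(M)`-invariant function all of whose `SL₂(ℤ)`-translates have a convergent Laurent expansion in
  `q^{1/M}`, then `x` is a root of a nonzero polynomial over `ℚ[j]`, and `coeffEmb K x` is a root
  of a nonzero polynomial over `K[j]`, for every field `K ⊇ ℚ`.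
-/

set_option autoImplicit false
set_option linter.unusedSectionVars false
set_option linter.style.haveILetI false

noncomputable section

open Polynomial ModularCurve UpperHalfPlane
open scoped MatrixGroups

namespace Fermat.Agent.S48.H150

open Fermat.Agent.S24 Fermat.Agent.S24.H997 Fermat.Agent.S24.H624 Fermat.Agent.S24.Deg457
open Fermat.Agent.S48.H828

/-- `x` is a root of a nonzero polynomial with coefficients in `K[J]`. -/
def AlgRel (K : Type*) [Field K] (J x : LaurentSeries K) : Prop :=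
  ∃ Q : K[X][X], Q ≠ 0 ∧ Q.eval₂ (evJ J) x = 0

section Formal

variable {K L : Type*} [Field K] [Field L]

theorem evJ_comp_eq (φ : LaurentSeries K →+* LaurentSeries L) (ι : K →+* L)
    (hφ : ∀ c : K, φ (algebraMap K (LaurentSeries K) c) = algebraMap L (LaurentSeries L) (ι c))
    (J : LaurentSeries K) :
    φ.comp (evJ J) = (evJ (φ J)).comp (Polynomial.mapRingHom ι) := by
  refine Polynomial.ringHom_ext ?_ ?_
  · intro c
    simp [evJ, hφ]
  · simp [evJ]

/-- transport of a relation along a ring homomorphism of Laurent series fields which is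
semilinear over `ι` on constants. -/
theorem eval₂_evJ_map (φ : LaurentSeries K →+* LaurentSeries L) (ι : K →+* L)
    (hφ : ∀ c : K, φ (algebraMap K (LaurentSeries K) c) = algebraMap L (LaurentSeries L) (ι c))
    (J x : LaurentSeries K) (Q : K[X][X]) :
    (Q.map (Polynomial.mapRingHom ι)).eval₂ (evJ (φ J)) (φ x) = φ (Q.eval₂ (evJ J) x) := by
  rw [Polynomial.eval₂_map, ← evJ_comp_eq φ ι hφ J, Polynomial.hom_eval₂]

theorem AlgRel.map (φ : LaurentSeries K →+* LaurentSeries L) (ι : K →+* L)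
    (hφ : ∀ c : K, φ (algebraMap K (LaurentSeries K) c) = algebraMap L (LaurentSeries L) (ι c))
    {J x : LaurentSeries K} (h : AlgRel K J x) : AlgRel L (φ J) (φ x) := by
  obtain ⟨Q, hQ0, hQ⟩ := h
  refine ⟨Q.map (Polynomial.mapRingHom ι), ?_, ?_⟩
  · rw [Ne, Polynomial.map_eq_zero_iff
      (Polynomial.map_injective ι ι.injective)]
    exact hQ0
  · rw [eval₂_evJ_map φ ι hφ, hQ, map_zero]

theorem qExpand_algebraMap (M : ℕ) [NeZero M] (c : K) :
    qExpand K M (algebraMap K (LaurentSeries K) c) = algebraMap K (LaurentSeries K) c := by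
  rw [algebraMap_laurentSeries_eq_single, qExpand_single, mul_zero]

/-- undoing `q ↦ q^M`. -/
theorem eval₂_evJ_qExpand (M : ℕ) [NeZero M] (J x : LaurentSeries K) (Q : K[X][X]) :
    Q.eval₂ (evJ (qExpand K M J)) (qExpand K M x) = qExpand K M (Q.eval₂ (evJ J) x) := by
  have h := eval₂_evJ_map (qExpand K M) (RingHom.id K) (fun c => qExpand_algebraMap M c) J x Q
  have hid : Polynomial.mapRingHom (RingHom.id K) = RingHom.id K[X] :=
    RingHom.ext fun p => Polynomial.map_id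
  rwa [hid, Polynomial.map_id] at h

theorem AlgRel.coeffMap (ι : K →+* L) {J x : LaurentSeries K} (h : AlgRel K J x) :
    AlgRel L (coeffMap ι J) (coeffMap ι x) :=
  h.map (ModularCurve.coeffMap ι) ι (fun c => coeffMap_algebraMap' ι c)

end Formal

section Ring

variable {E : Type*} [Field E] [CharZero E] (ι : E →+* ℂ) (M : ℕ) [NeZero M]

/-- The action of `SL₂(ℤ)` on `iactRing` factors through the finite quotient by `Γ(M)`. -/
def algQuotHom : (SL(2, ℤ) ⧸ CongruenceSubgroup.Gamma M) →* RingAut (iactRing ι M) :=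
  QuotientGroup.lift (CongruenceSubgroup.Gamma M)
    (MulSemiringAction.toRingAut SL(2, ℤ) (iactRing ι M))
    (fun _ hγ => RingEquiv.ext fun f => iact_smul_of_mem_Gamma hγ f)

/-- The action of the finite group `SL₂(ℤ) ⧸ Γ(M)` on `iactRing` (a `def`, not an instance). -/
@[instance_reducible]
def algQuotAction :
    MulSemiringAction (SL(2, ℤ) ⧸ CongruenceSubgroup.Gamma M) (iactRing ι M) :=
  MulSemiringAction.compHom (iactRing ι M) (algQuotHom ι M)

variable {ι M}

theorem algQuotAction_mk_smul (g : SL(2, ℤ)) (f : iactRing ι M) :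
    letI := algQuotAction ι M
    ((g : SL(2, ℤ) ⧸ CongruenceSubgroup.Gamma M) • f : iactRing ι M) = g • f := rfl

/-- the evaluation `E[j] → iactRing`. -/
def algEvJ (ι : E →+* ℂ) (M : ℕ) [NeZero M] : E[X] →+* iactRing ι M :=
  Polynomial.eval₂RingHom (iactC ι M) (iactJ ι M)

theorem iactExp_comp_algEvJ : (iactExp ι M).comp (algEvJ ι M) = evJ (iactJX E M) := by
  refine Polynomial.ringHom_ext ?_ ?_
  · intro c
    simp only [algEvJ, RingHom.comp_apply, Polynomial.coe_eval₂RingHom, Polynomial.eval₂_C,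
      iactExp_C, evJ, AlgHom.toRingHom_eq_coe, RingHom.coe_coe, Polynomial.aeval_C,
      algebraMap_laurentSeries_eq_single]
    rfl
  · simp only [algEvJ, RingHom.comp_apply, Polynomial.coe_eval₂RingHom, Polynomial.eval₂_X,
      iactExp_J, evJ, AlgHom.toRingHom_eq_coe, RingHom.coe_coe, Polynomial.aeval_X]

/-- **Integrality over `E[j]`.**  Every element of `iactRing ι M` is a root of a monic
polynomial with coefficients in `E[j]`; on expansions. -/
theorem exists_monic_rel (f : iactRing ι M) :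
    ∃ P : E[X][X], P.Monic ∧ P.eval₂ (evJ (iactJX E M)) (iactExp ι M f) = 0 := by
  classical
  letI : MulSemiringAction (SL(2, ℤ) ⧸ CongruenceSubgroup.Gamma M) (iactRing ι M) :=
    algQuotAction ι M
  haveI : Finite (SL(2, ℤ) ⧸ CongruenceSubgroup.Gamma M) := iact_finite_quot
  letI : Fintype (SL(2, ℤ) ⧸ CongruenceSubgroup.Gamma M) := Fintype.ofFinite _
  set G := SL(2, ℤ) ⧸ CongruenceSubgroup.Gamma M
  have hlift : MulSemiringAction.charpoly G f ∈ Polynomial.lifts (algEvJ ι M) := by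
    rw [Polynomial.lifts_iff_coeff_lifts]
    intro n
    have hinv : ∀ γ : SL(2, ℤ), γ • (MulSemiringAction.charpoly G f).coeff n
        = (MulSemiringAction.charpoly G f).coeff n := fun γ =>
      MulSemiringAction.smul_coeff_charpoly f n (γ : G)
    obtain ⟨P, hP⟩ := iact_invariant_eq_eval₂ _ hinv
    exact ⟨P, hP.symm⟩
  obtain ⟨P, hP1, -, hP3⟩ := Polynomial.lifts_and_natDegree_eq_and_monic hlift
    (MulSemiringAction.monic_charpoly G f)
  refine ⟨P, hP3, ?_⟩
  have h0 : (P.map (algEvJ ι M)).eval f = 0 := by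
    rw [hP1]
    exact MulSemiringAction.eval_charpoly G f
  rw [Polynomial.eval_map] at h0
  have h1 := congrArg (iactExp ι M) h0
  rwa [Polynomial.hom_eval₂, map_zero, iactExp_comp_algEvJ] at h1

end Ring

/-! ### from an analytic avatar to an algebraic relation -/

section Avatar

variable {M : ℕ} [NeZero M]

/-- `holN M` + `Γ(M)`-invariance = `iactRing` over `ℂ`. -/
theorem mem_iactRing_of_holN {f : ℍ → ℂ} (hf : f ∈ holN M)
    (hinv : ∀ γ ∈ CongruenceSubgroup.Gamma M, compSL γ f = f) :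
    f ∈ iactRing (RingHom.id ℂ) M := by
  refine ⟨hf.1, hinv, fun γ => ?_⟩
  obtain ⟨φ, hφ⟩ := hf.2 γ
  exact ⟨φ, by rwa [coeffMap_id]⟩

/-- an expansion in `q` is an expansion in `X = q^{1/M}`. -/
theorem infExp_qExpand {f : ℍ → ℂ} {φ : LaurentSeries ℂ} (h : InfExp 1 f φ) :
    InfExp M f (qExpand ℂ M φ) := by
  have hM : 0 < M := Nat.pos_of_ne_zero (NeZero.ne M)
  have h1 := h.comp_infAff (M := 1) (N := M) (a := 1) (d := 1) (e := M) 0
    one_pos one_pos one_pos hM (by ring)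
  rw [infRoot_zero, infTwist_one] at h1
  refine h1.congr fun τ => ?_
  rw [infAff_one_zero_one]

/-- **FF-ALG, generic form over `ℂ`.**  The `q`-expansion at `∞` of an element of
`iactRing (id) M` is a root of a monic polynomial over `ℂ[j]`. -/
theorem exists_monic_rel_of_infExp {f : ℍ → ℂ} (hf : f ∈ iactRing (RingHom.id ℂ) M)
    {φ : LaurentSeries ℂ} (hφ : InfExp 1 f φ) :
    ∃ P : ℂ[X][X], P.Monic ∧ P.eval₂ (evJ infJq) φ = 0 := by
  obtain ⟨P, hP, h0⟩ := exists_monic_rel (ι := RingHom.id ℂ) (M := M) ⟨f, hf⟩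
  refine ⟨P, hP, ?_⟩
  have h1 : iactExp (RingHom.id ℂ) M ⟨f, hf⟩ = qExpand ℂ M φ :=
    iactExp_eq (by rw [coeffMap_id]; exact infExp_qExpand hφ)
  have h2 : iactJX ℂ M = qExpand ℂ M infJq := by
    have := iact_coeffMap_JX (ι := RingHom.id ℂ) (M := M)
    rwa [coeffMap_id] at this
  rw [h1, h2, eval₂_evJ_qExpand] at h0
  exact (inf_qExpand_eq_zero_iff (e := M) _).mp h0

/-- **FF-ALG, generic form.**  Let `x ∈ K((q))` (`K ⊆ ℂ` via `ι`) be the `q`-expansion at `∞` of
a holomorphic `Γ(M)`-invariant function all of whose `SL₂(ℤ)`-translates have an expansion in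
`q^{1/M}`.  Then `x` is a root of a nonzero polynomial with coefficients in `K[j]`. -/
theorem algRel_of_infExp {K : Type*} [Field K] [Algebra ℚ K] (ι : K →+* ℂ) {f : ℍ → ℂ}
    (hf : f ∈ iactRing (RingHom.id ℂ) M) {x : LaurentSeries K}
    (hx : InfExp 1 f (coeffMap ι x)) : AlgRel K (JK K) x := by
  obtain ⟨P, hP, h0⟩ := exists_monic_rel_of_infExp hf hx
  have hJ : infJq = coeffMap ι (JK K) := (coeffMap_JK ι).symm
  rw [hJ] at h0
  obtain ⟨Q, hQ0, -, hQ⟩ := exists_relation_of_coeffMap_monic ι (JK K) x _ P hP rfl h0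
  exact ⟨Q, hQ0, hQ⟩

/-- the same for a rational `q`-expansion. -/
theorem algRel_rat_of_infExp {f : ℍ → ℂ} (hf : f ∈ iactRing (RingHom.id ℂ) M)
    {x : LaurentSeries ℚ} (hx : InfExp 1 f (coeffEmb ℂ x)) : AlgRel ℚ jq x := by
  have h := algRel_of_infExp (K := ℚ) (algebraMap ℚ ℂ) hf (x := x) hx
  have hJ : JK ℚ = jq := by
    rw [JK, coeffEmb]
    exact coeffMap_id jq
  rwa [hJ] at h

end Avatar

end Fermat.Agent.S48.H150

end
end
-- ===== PACK-END S48/H150/AlgGen.lean

-- ===== PACK-BEGIN S29/H812/IntBasis.lean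
section


/-!
# S29 / H812 — a local integral basis at a place `v` of `F` for a finite extension `F'/F`

`InFib v x` : `x ∈ F'` is integral at every place above `v`.  We construct a basis `b` of `F'/F`
consisting of such elements, such that the coordinates of every such element lie in the valuation
ring of `v`.
-/

set_option autoImplicit false

noncomputable section

open AlgebraicCurve IntermediateField

namespace Fermat.Agent.S29.H812

open Fermat.Agent.S24

variable {K F F' : Type*} [Field K] [Field F] [Field F']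
  [Algebra K F] [Algebra K F'] [Algebra F F'] [IsScalarTower K F F']
  [Algebra.IsIntegral F F'] [HasPrincipalDivisors K F']

/-- `x` is integral at all places of `F'` above `v`. -/
def InFib (v : Place K F) (x : F') : Prop := ∀ w ∈ v.fiber F', x ∈ w.toValuationSubring

theorem inFib_zero (v : Place K F) : InFib v (0 : F') := fun _ _ => zero_mem _

theorem inFib_one (v : Place K F) : InFib v (1 : F') := fun _ _ => one_mem _

theorem InFib.add {v : Place K F} {x y : F'} (hx : InFib v x) (hy : InFib v y) :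
    InFib v (x + y) := fun w hw => add_mem (hx w hw) (hy w hw)

theorem InFib.mul {v : Place K F} {x y : F'} (hx : InFib v x) (hy : InFib v y) :
    InFib v (x * y) := fun w hw => mul_mem (hx w hw) (hy w hw)

theorem inFib_sum {v : Place K F} {ι : Type*} (s : Finset ι) (f : ι → F')
    (h : ∀ i ∈ s, InFib v (f i)) : InFib v (∑ i ∈ s, f i) :=
  fun w hw => sum_mem fun i hi => h i hi w hw

theorem inFib_algebraMap {v : Place K F} {c : F} (hc : c ∈ v.toValuationSubring) :
    InFib v (algebraMap F F' c) := by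
  intro w hw
  have h := Place.mem_fiber.mp hw
  rw [← h] at hc
  exact (Place.mem_restrict_iff w).mp hc

theorem InFib.smul {v : Place K F} {c : F} (hc : c ∈ v.toValuationSubring) {x : F'}
    (hx : InFib v x) : InFib v (c • x) := by
  rw [Algebra.smul_def]
  exact (inFib_algebraMap hc).mul hx

theorem inFib_iff_ord {v : Place K F} {x : F'} :
    InFib v x ↔ ∀ w ∈ v.fiber F', 0 ≤ w.ord x :=
  forall₂_congr fun w _ => H117.mem_iff_ord_nonneg w

section Basis

variable [IsAlgClosed K] [CharZero K] [Module.Finite F F']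

/-- **Local integral basis.** -/
theorem exists_integral_basis
    (hF : ∃ x : F, Transcendental K x ∧ FiniteDimensional K⟮x⟯ F) (v : Place K F) :
    ∃ b : Module.Basis (FibIdx F' v) F F',
      (∀ i, InFib v (b i)) ∧
      (∀ x : F', InFib v x → ∀ i, b.repr x i ∈ v.toValuationSubring) := by
  classical
  obtain ⟨u, hu0, hu1, hu2⟩ := exists_family (F' := F') v
  have hli := family_linearIndependent v u hu0 hu1 hu2
  have hcard : Fintype.card (FibIdx F' v) = Module.finrank F F' := by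
    rw [card_fibIdx, sum_ramificationIndex_eq_finrank hF v]
  set b : Module.Basis (FibIdx F' v) F F' := basisOfLinearIndependentOfCardEqFinrank' u hli hcard
    with hb
  have hbu : ∀ i, b i = u i := fun i => by
    rw [hb, coe_basisOfLinearIndependentOfCardEqFinrank']
  refine ⟨b, ?_, ?_⟩
  · intro a
    rw [hbu, inFib_iff_ord]
    intro w hw
    by_cases h : w = a.1.1
    · rw [h, hu1]; exact Int.natCast_nonneg _
    · have hpos : 0 < w.ramificationIndex F := w.ramificationIndex_pos (F := F)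
      have := hu2 a ⟨⟨w, hw⟩, ⟨0, hpos⟩⟩ h
      have h0 : (0 : ℤ) ≤ ((w.ramificationIndex F : ℕ) : ℤ) := Int.natCast_nonneg _
      exact h0.trans this
  · intro x hx a
    by_cases hall : ∀ a, b.repr x a = 0
    · rw [hall a]; exact zero_mem _
    push Not at hall
    obtain ⟨a₀, hc₀, hmin, -, hord⟩ := family_coord v u hu0 hu1 hu2 (fun a => b.repr x a) hall
    have hsum : ∑ a, b.repr x a • u a = x := by
      have := b.sum_repr x
      simpa [hbu] using this
    rw [hsum] at hord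
    have h0 : 0 ≤ a₀.1.1.ord x := H117.ord_nonneg_of_mem _ (hx a₀.1.1 a₀.1.2)
    have hi : ((a₀.2 : ℕ) : ℤ) < (a₀.1.1.ramificationIndex F : ℤ) := by exact_mod_cast a₀.2.2
    have hm : 0 ≤ v.ord (b.repr x a₀) := by
      by_contra hneg
      push Not at hneg
      have he : (0 : ℤ) < (a₀.1.1.ramificationIndex F : ℤ) := by
        exact_mod_cast a₀.1.1.ramificationIndex_pos (F := F)
      nlinarith
    by_cases ha : b.repr x a = 0
    · rw [ha]; exact zero_mem _
    · exact H117.mem_of_ord_nonneg v (hm.trans (hmin a ha))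

end Basis

end Fermat.Agent.S29.H812

end
end
-- ===== PACK-END S29/H812/IntBasis.lean

-- ===== PACK-BEGIN S29/H812/Norm.lean
section


/-!
# S29 / H812 — the norm formula `ord_v (N_{F'/F} f) = ∑_{w | v} ord_w f` for a finite extension
of function fields of one variable over an algebraically closed field of characteristic zero.
-/

set_option autoImplicit false

noncomputable section

open AlgebraicCurve IntermediateField

namespace Fermat.Agent.S29.H812

open Fermat.Agent.S24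

section Single

variable {K F : Type*} [Field K] [Field F] [Algebra K F]

theorem ord_prod (w : Place K F) {ι : Type*} (s : Finset ι) (g : ι → F)
    (hg : ∀ i ∈ s, g i ≠ 0) : w.ord (∏ i ∈ s, g i) = ∑ i ∈ s, w.ord (g i) := by
  classical
  induction s using Finset.induction_on with
  | empty => simp
  | insert a s ha ih =>
    rw [Finset.prod_insert ha, Finset.sum_insert ha,
      w.ord_mul (hg a (Finset.mem_insert_self _ _))
        (Finset.prod_ne_zero_iff.mpr fun i hi => hg i (Finset.mem_insert_of_mem hi)),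
      ih fun i hi => hg i (Finset.mem_insert_of_mem hi)]

theorem isUnit_of_ord_eq_zero (v : Place K F) (a : v.toValuationSubring) (ha : (a : F) ≠ 0)
    (h : v.ord (a : F) = 0) : IsUnit a := by
  rw [← v.adicValuation_coe_eq_one_iff, H504.adicValuation_eq_exp_neg_ord v ha, h]
  simp

end Single

variable {K F F' : Type*} [Field K] [Field F] [Field F']
  [Algebra K F] [Algebra K F'] [Algebra F F'] [IsScalarTower K F F']
  [Algebra.IsIntegral F F'] [HasPrincipalDivisors K F']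
  [IsAlgClosed K] [CharZero K] [Module.Finite F F']

/-- The matrix of multiplication by an integral element in a local integral basis, over the
valuation ring. -/
theorem exists_matrix (v : Place K F) [DecidableEq (FibIdx F' v)]
    (b : Module.Basis (FibIdx F' v) F F')
    (hb : ∀ i, InFib v (b i))
    (hrepr : ∀ x : F', InFib v x → ∀ i, b.repr x i ∈ v.toValuationSubring)
    {x : F'} (hx : InFib v x) :
    ∃ A : Matrix (FibIdx F' v) (FibIdx F' v) v.toValuationSubring,
      Algebra.leftMulMatrix b x = A.map v.toValuationSubring.subtype := by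
  refine ⟨fun i j => ⟨Algebra.leftMulMatrix b x i j, ?_⟩, ?_⟩
  · rw [Algebra.leftMulMatrix_eq_repr_mul]
    exact hrepr _ (hx.mul (hb j)) i
  · ext i j
    rfl

/-- The norm of an element integral above `v` is integral at `v`. -/
theorem norm_mem_of_inFib (hF : ∃ x : F, Transcendental K x ∧ FiniteDimensional K⟮x⟯ F)
    (v : Place K F) {x : F'} (hx : InFib v x) : Algebra.norm F x ∈ v.toValuationSubring := by
  classical
  obtain ⟨b, hb, hrepr⟩ := exists_integral_basis (F' := F') hF v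
  obtain ⟨A, hA⟩ := exists_matrix v b hb hrepr hx
  rw [Algebra.norm_eq_matrix_det b x, hA, ← RingHom.mapMatrix_apply, ← RingHom.map_det]
  exact (A.det).2

/-- If the norm of an integral element is a unit at `v`, the inverse is integral above `v`. -/
theorem inFib_inv_of_ord_norm_eq_zero
    (hF : ∃ x : F, Transcendental K x ∧ FiniteDimensional K⟮x⟯ F)
    (v : Place K F) {x : F'} (hx0 : x ≠ 0) (hx : InFib v x)
    (hN : v.ord (Algebra.norm F x) = 0) : InFib v x⁻¹ := by
  classical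
  obtain ⟨b, hb, hrepr⟩ := exists_integral_basis (F' := F') hF v
  obtain ⟨A, hA⟩ := exists_matrix v b hb hrepr hx
  have hdet : ((A.det : v.toValuationSubring) : F) = Algebra.norm F x := by
    rw [Algebra.norm_eq_matrix_det b x, hA, ← RingHom.mapMatrix_apply, ← RingHom.map_det]
    rfl
  have hNne : Algebra.norm F x ≠ 0 := Algebra.norm_ne_zero_iff.mpr hx0
  have hunit : IsUnit A.det :=
    isUnit_of_ord_eq_zero v A.det (by rw [hdet]; exact hNne) (by rw [hdet]; exact hN)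
  -- the inverse matrix
  have h1 : A⁻¹ * A = 1 := Matrix.nonsing_inv_mul A hunit
  have h2 : (A⁻¹).map v.toValuationSubring.subtype * Algebra.leftMulMatrix b x = 1 := by
    rw [hA, ← Matrix.map_mul, h1]
    exact Matrix.map_one _ (map_zero _) (map_one _)
  have h3 : Algebra.leftMulMatrix b x * Algebra.leftMulMatrix b x⁻¹ = 1 := by
    rw [← map_mul, mul_inv_cancel₀ hx0, map_one]
  have h4 : Algebra.leftMulMatrix b x⁻¹ = (A⁻¹).map v.toValuationSubring.subtype := by
    calc Algebra.leftMulMatrix b x⁻¹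
        = ((A⁻¹).map v.toValuationSubring.subtype * Algebra.leftMulMatrix b x)
            * Algebra.leftMulMatrix b x⁻¹ := by rw [h2, one_mul]
      _ = (A⁻¹).map v.toValuationSubring.subtype := by rw [mul_assoc, h3, mul_one]
  -- coordinates of `x⁻¹`
  have hcoord : ∀ i, b.repr x⁻¹ i ∈ v.toValuationSubring := by
    intro i
    have h5 := congrFun (Algebra.leftMulMatrix_mulVec_repr b x⁻¹ 1) i
    rw [mul_one] at h5
    rw [← h5, Matrix.mulVec, dotProduct]
    refine sum_mem fun j _ => mul_mem ?_ (hrepr 1 (inFib_one v) j)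
    rw [h4]
    exact (A⁻¹ i j).2
  rw [← b.sum_repr x⁻¹]
  exact inFib_sum _ _ fun i _ => (hb i).smul (hcoord i)

variable (hF : ∃ x : F, Transcendental K x ∧ FiniteDimensional K⟮x⟯ F)

include hF in
/-- Units above `v` have unit norm. -/
theorem ord_norm_eq_zero_of_unit (v : Place K F) {x : F'} (hx0 : x ≠ 0)
    (hx : ∀ w ∈ v.fiber F', w.ord x = 0) : v.ord (Algebra.norm F x) = 0 := by
  have h1 : InFib v x := inFib_iff_ord.mpr fun w hw => (hx w hw).ge
  have h2 : InFib v x⁻¹ := inFib_iff_ord.mpr fun w hw => by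
    rw [w.ord_inv, hx w hw]; rfl
  have h3 := H117.ord_nonneg_of_mem v (norm_mem_of_inFib hF v h1)
  have h4 := H117.ord_nonneg_of_mem v (norm_mem_of_inFib hF v h2)
  have h5 : Algebra.norm F x * Algebra.norm F x⁻¹ = 1 := by
    rw [← map_mul, mul_inv_cancel₀ hx0, map_one]
  have h6 : v.ord (Algebra.norm F x) + v.ord (Algebra.norm F x⁻¹) = 0 := by
    rw [← v.ord_mul (Algebra.norm_ne_zero_iff.mpr hx0)
      (Algebra.norm_ne_zero_iff.mpr (inv_ne_zero hx0)), h5, v.ord_one]
  omega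

include hF in
/-- Non-units above `v` have non-unit norm. -/
theorem ord_norm_pos_of_ord_pos (v : Place K F) {x : F'} (hx0 : x ≠ 0) (hx : InFib v x)
    {w₀ : Place K F'} (hw₀ : w₀ ∈ v.fiber F') (hpos : 0 < w₀.ord x) :
    0 < v.ord (Algebra.norm F x) := by
  have h3 := H117.ord_nonneg_of_mem v (norm_mem_of_inFib hF v hx)
  rcases eq_or_lt_of_le h3 with h0 | hlt
  · exfalso
    have h := inFib_inv_of_ord_norm_eq_zero hF v hx0 hx h0.symm
    have := H117.ord_nonneg_of_mem w₀ (h w₀ hw₀)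
    rw [w₀.ord_inv] at this
    omega
  · exact hlt

include hF in
/-- Elements with the same orders above `v` have norms of the same order at `v`. -/
theorem ord_norm_congr (v : Place K F) {g h : F'} (hg : g ≠ 0) (hh : h ≠ 0)
    (hgh : ∀ w ∈ v.fiber F', w.ord g = w.ord h) :
    v.ord (Algebra.norm F g) = v.ord (Algebra.norm F h) := by
  have hu0 : g * h⁻¹ ≠ 0 := mul_ne_zero hg (inv_ne_zero hh)
  have hu : v.ord (Algebra.norm F (g * h⁻¹)) = 0 :=
    ord_norm_eq_zero_of_unit hF v hu0 fun w hw => by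
      rw [w.ord_mul hg (inv_ne_zero hh), w.ord_inv, hgh w hw]; ring
  have h1 : g = (g * h⁻¹) * h := by field_simp
  have h2 : Algebra.norm F g = Algebra.norm F (g * h⁻¹) * Algebra.norm F h := by
    rw [← map_mul, ← h1]
  rw [h2, v.ord_mul (Algebra.norm_ne_zero_iff.mpr hu0) (Algebra.norm_ne_zero_iff.mpr hh), hu,
    zero_add]

end Fermat.Agent.S29.H812

end
end
-- ===== PACK-END S29/H812/Norm.lean

-- ===== PACK-BEGIN S29/H812/NormFormula.lean
section


/-!
# S29 / H812 — the norm formula and the Prelude classes `SumRamificationInertia`,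
`FundamentalIdentity`, `PushforwardNormFormula` for finite extensions of function fields over an
algebraically closed field of characteristic zero.
-/

set_option autoImplicit false

noncomputable section

open AlgebraicCurve IntermediateField

namespace Fermat.Agent.S29.H812

open Fermat.Agent.S24

variable {K F F' : Type*} [Field K] [Field F] [Field F']
  [Algebra K F] [Algebra K F'] [Algebra F F'] [IsScalarTower K F F']
  [Algebra.IsIntegral F F'] [HasPrincipalDivisors K F']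
  [IsAlgClosed K] [CharZero K] [Module.Finite F F']

variable (hF : ∃ x : F, Transcendental K x ∧ FiniteDimensional K⟮x⟯ F)

include hF in
omit [HasPrincipalDivisors K F'] [CharZero K] in
theorem inertiaDeg_eq_one (w : Place K F') : w.inertiaDeg F = 1 := by
  obtain ⟨x, hx, hxfin⟩ := hF
  haveI := finiteDimensional_adjoin_algebraMap (K := K) (F' := F') x
  have h := w.deg_restrict_mul_inertiaDeg (F := F)
  rw [FF.deg_eq_one (w.restrict F) hx,
    FF.deg_eq_one w (transcendental_algebraMap_of (F' := F') hx), one_mul] at h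
  exact h

include hF in
/-- **Norm formula**: `ord_v (N f) = ∑_{w | v} ord_w f`. -/
theorem ord_norm_eq_sum (v : Place K F) {f : F'} (hf : f ≠ 0) :
    v.ord (Algebra.norm F f) = ∑ w ∈ v.fiber F', w.ord f := by
  classical
  have hϖ : ∀ w : Place K F', ∃ ϖ : F', ϖ ≠ 0 ∧ w.ord ϖ = 1 ∧
      ∀ w' ∈ (v.fiber F').erase w, w'.ord ϖ = 0 := fun w =>
    exists_ord_eq_one_and_zero w _ (Finset.notMem_erase _ _)
  choose ϖ hϖ0 hϖ1 hϖ2 using hϖ
  set c : Place K F' → ℤ := fun w => v.ord (Algebra.norm F (ϖ w)) with hc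
  have hpne : ∀ k : Place K F' → ℕ, ∏ w ∈ v.fiber F', ϖ w ^ k w ≠ 0 := fun k =>
    Finset.prod_ne_zero_iff.mpr fun w _ => pow_ne_zero _ (hϖ0 w)
  have hprod : ∀ (k : Place K F' → ℕ), ∀ w' ∈ v.fiber F',
      w'.ord (∏ w ∈ v.fiber F', ϖ w ^ k w) = k w' := by
    intro k w' hw'
    rw [ord_prod w' _ _ fun w _ => pow_ne_zero _ (hϖ0 w)]
    simp_rw [H117.ord_pow]
    rw [Finset.sum_eq_single w']
    · rw [hϖ1 w']; ring
    · intro w _ hne
      rw [hϖ2 w w' (Finset.mem_erase.mpr ⟨fun h => hne h.symm, hw'⟩)]; ring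
    · intro h; exact absurd hw' h
  have hnorm : ∀ k : Place K F' → ℕ,
      v.ord (Algebra.norm F (∏ w ∈ v.fiber F', ϖ w ^ k w)) = ∑ w ∈ v.fiber F', (k w : ℤ) * c w := by
    intro k
    rw [map_prod, ord_prod v _ _ fun w _ =>
      Algebra.norm_ne_zero_iff.mpr (pow_ne_zero _ (hϖ0 w))]
    refine Finset.sum_congr rfl fun w _ => ?_
    rw [map_pow, H117.ord_pow]
  have hstar : ∀ f : F', f ≠ 0 →
      v.ord (Algebra.norm F f) = ∑ w ∈ v.fiber F', w.ord f * c w := by
    intro f hf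
    set p : Place K F' → ℕ := fun w => (w.ord f).toNat with hp
    set n : Place K F' → ℕ := fun w => (-(w.ord f)).toNat with hn
    have hpn : ∀ w : Place K F', w.ord f = (p w : ℤ) - (n w : ℤ) := by
      intro w
      simp only [hp, hn]
      omega
    have hcong := ord_norm_congr hF v (g := f * ∏ w ∈ v.fiber F', ϖ w ^ n w)
      (h := ∏ w ∈ v.fiber F', ϖ w ^ p w) (mul_ne_zero hf (hpne n)) (hpne p) (by
        intro w' hw'
        rw [w'.ord_mul hf (hpne n), hprod n w' hw', hprod p w' hw', hpn w']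
        ring)
    rw [map_mul, v.ord_mul (Algebra.norm_ne_zero_iff.mpr hf)
      (Algebra.norm_ne_zero_iff.mpr (hpne n)), hnorm, hnorm] at hcong
    have : ∑ w ∈ v.fiber F', w.ord f * c w
        = ∑ w ∈ v.fiber F', (p w : ℤ) * c w - ∑ w ∈ v.fiber F', (n w : ℤ) * c w := by
      rw [← Finset.sum_sub_distrib]
      refine Finset.sum_congr rfl fun w _ => ?_
      rw [hpn w]; ring
    rw [this]
    linarith
  -- the constants `c w` are all `1`
  obtain ⟨π, hπ0, hπ1⟩ := H117.exists_ord_eq_one v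
  have hπ' : algebraMap F F' π ≠ 0 := by simpa using hπ0
  have h1 := hstar (algebraMap F F' π) hπ'
  rw [Algebra.norm_algebraMap, H117.ord_pow, hπ1, mul_one] at h1
  have h2 : ∀ w ∈ v.fiber F', w.ord (algebraMap F F' π) = (w.ramificationIndex F : ℤ) := by
    intro w hw
    rw [w.ord_restrict, Place.mem_fiber.mp hw, hπ1, mul_one]
  have h3 : ((∑ w ∈ v.fiber F', w.ramificationIndex F : ℕ) : ℤ) = (Module.finrank F F' : ℤ) := by
    exact_mod_cast sum_ramificationIndex_eq_finrank hF v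
  have hcpos : ∀ w ∈ v.fiber F', 1 ≤ c w := by
    intro w hw
    have hin : InFib v (ϖ w) := inFib_iff_ord.mpr fun w' hw' => by
      by_cases h : w' = w
      · rw [h, hϖ1]; norm_num
      · rw [hϖ2 w w' (Finset.mem_erase.mpr ⟨h, hw'⟩)]
    have := ord_norm_pos_of_ord_pos hF v (hϖ0 w) hin hw (by rw [hϖ1]; norm_num)
    exact this
  have h4 : ∑ w ∈ v.fiber F', (w.ramificationIndex F : ℤ) * (c w - 1) = 0 := by
    have : ∑ w ∈ v.fiber F', (w.ramificationIndex F : ℤ) * (c w - 1)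
        = ∑ w ∈ v.fiber F', w.ord (algebraMap F F' π) * c w
          - ∑ w ∈ v.fiber F', (w.ramificationIndex F : ℤ) := by
      rw [← Finset.sum_sub_distrib]
      refine Finset.sum_congr rfl fun w hw => ?_
      rw [h2 w hw]; ring
    rw [this, ← h1]
    push_cast at h3
    rw [h3]; ring
  have h5 := (Finset.sum_eq_zero_iff_of_nonneg (fun w hw => by
    have he : (0 : ℤ) ≤ (w.ramificationIndex F : ℤ) := Int.natCast_nonneg _
    have := hcpos w hw
    exact mul_nonneg he (by omega))).mp h4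
  have hc1 : ∀ w ∈ v.fiber F', c w = 1 := by
    intro w hw
    have h6 := h5 w hw
    have he : (0 : ℤ) < (w.ramificationIndex F : ℤ) := by
      exact_mod_cast w.ramificationIndex_pos (F := F)
    rcases mul_eq_zero.mp h6 with h7 | h7
    · omega
    · omega
  rw [hstar f hf]
  refine Finset.sum_congr rfl fun w hw => ?_
  rw [hc1 w hw, mul_one]

include hF in
/-- The Prelude's `PushforwardNormFormula`. -/
theorem pushforwardNormFormula : Divisor.PushforwardNormFormula K F F' := by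
  classical
  intro f hf D hD v
  rw [Divisor.pushforward_apply, ord_norm_eq_sum hF v hf]
  have h1 : ∀ w ∈ D.support,
      (if w.restrict F = v then D w * (w.inertiaDeg F : ℤ) else 0)
        = if w.restrict F = v then w.ord f else 0 := by
    intro w _
    rw [inertiaDeg_eq_one hF w, hD w]
    simp
  rw [Finset.sum_congr rfl h1, ← Finset.sum_filter]
  refine Finset.sum_subset ?_ ?_
  · intro w hw
    exact Place.mem_fiber.mpr (Finset.mem_filter.mp hw).2
  · intro w hw hnot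
    have : w ∉ D.support := fun h => hnot (Finset.mem_filter.mpr ⟨h, Place.mem_fiber.mp hw⟩)
    rw [Finsupp.notMem_support_iff] at this
    rw [← hD w, this]

include hF in
/-- The Prelude's `SumRamificationInertia`. -/
theorem sumRamificationInertia : SumRamificationInertia K F F' where
  sum_ramificationIndex_mul_inertiaDeg v := by
    have h := sum_ramificationIndex_eq_finrank (F' := F') hF v
    rw [← h]
    push_cast
    refine Finset.sum_congr rfl fun w _ => ?_
    rw [inertiaDeg_eq_one hF w]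
    simp

include hF in
/-- The Prelude's `FundamentalIdentity`. -/
theorem fundamentalIdentity : FundamentalIdentity K F F' :=
  haveI := sumRamificationInertia (F' := F') hF
  inferInstance

end Fermat.Agent.S29.H812

end
end
-- ===== PACK-END S29/H812/NormFormula.lean

-- ===== PACK-BEGIN S29/H812/Along.lean
section



/-!
# S29 / H812 — the Prelude's `…Along` predicates for an arbitrary `K`-algebra homomorphism between
function fields of one variable over an algebraically closed field of characteristic zero.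
-/

set_option autoImplicit false

noncomputable section

open AlgebraicCurve IntermediateField

namespace Fermat.Agent.S29.H812

open Fermat.Agent.S24

variable {K F F' : Type*} [Field K] [Field F] [Field F'] [Algebra K F] [Algebra K F']
  [IsAlgClosed K] [CharZero K]

/-- A `K`-algebra homomorphism of function fields of one variable is finite. -/
theorem finiteAlong (hF : ∃ x : F, Transcendental K x ∧ FiniteDimensional K⟮x⟯ F)
    (hF' : ∃ x : F', Transcendental K x ∧ FiniteDimensional K⟮x⟯ F') (φ : F →ₐ[K] F') :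
    FiniteAlong K φ := by
  letI := algebraAlong φ
  haveI := isScalarTower_along φ
  obtain ⟨x, hx, -⟩ := hF
  obtain ⟨x', hx', hx'fin⟩ := hF'
  have hφx : Transcendental K (algebraMap F F' x) := transcendental_algebraMap_of hx
  haveI : FiniteDimensional K⟮algebraMap F F' x⟯ F' :=
    FF.finiteDimensional_adjoin_of_transcendental hx' hφx
  exact finite_of_finite_adjoin_algebraMap (K := K) x

theorem isIntegral_of_finiteAlong {φ : F →ₐ[K] F'} (h : FiniteAlong K φ) :
    φ.toRingHom.IsIntegral := by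
  letI := algebraAlong φ
  haveI : Module.Finite F F' := h
  exact (Algebra.IsIntegral.of_finite F F').isIntegral

theorem fundamentalIdentityAlong (hF : ∃ x : F, Transcendental K x ∧ FiniteDimensional K⟮x⟯ F)
    [HasPrincipalDivisors K F'] (φ : F →ₐ[K] F') (hfin : FiniteAlong K φ)
    (hφ : φ.toRingHom.IsIntegral) : FundamentalIdentityAlong K φ hφ := by
  letI := algebraAlong φ
  haveI := isScalarTower_along φ
  haveI := isIntegral_along φ hφ
  haveI : Module.Finite F F' := hfin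
  exact fundamentalIdentity (F' := F') hF

theorem normFormulaAlong (hF : ∃ x : F, Transcendental K x ∧ FiniteDimensional K⟮x⟯ F)
    [HasPrincipalDivisors K F'] (φ : F →ₐ[K] F') (hfin : FiniteAlong K φ) :
    NormFormulaAlong K φ hfin := by
  letI := algebraAlong φ
  haveI := isScalarTower_along φ
  haveI : Module.Finite F F' := hfin
  exact pushforwardNormFormula (F' := F') hF

end Fermat.Agent.S29.H812

end
end
-- ===== PACK-END S29/H812/Along.lean

-- ===== PACK-BEGIN S48/H150/F1Fin.lean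
section







/-!
# S48 / Tower A1 / A1-FF, leaf FF-ALG + HI1 (helper150), part 2: finiteness and `CorrInputs`

Input (`DivRel M`): every division value `P_a = F1.divGen M a` (`a ≠ 0`) is a root of a nonzero
polynomial over `ℚ[j]` (proved in `HI1.lean` from the analytic avatar).

Output, for every field `L ⊇ ℚ` and all `M, p ≠ 0`:
* `exists_coord_F1L`  : `L·F1(M)` is finite over `L(j)`, `j` transcendental;
* `exists_coord_F1pL` : `L·F1(M; p)` is finite over `L(j)`;
* `corrInputs_of_coord` : for `K` algebraically closed of characteristic `0`, ANY pair of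
  `K`-algebra homomorphisms between two function fields of one variable satisfies `F1.CorrInputs`
  (generic engine `S29.H812`);
* `corrInputs_beta_alpha`, `corrInputs_alpha_beta` : `F1.CorrInputs` for `(beta1, alpha1)` and
  for `(alpha1, beta1)` over `ℚ̄`.
-/

set_option autoImplicit false
set_option linter.unusedSectionVars false
set_option linter.style.haveILetI false

noncomputable section

open Polynomial ModularCurve IntermediateField AlgebraicCurve

namespace Fermat.Agent.S48.H150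

open Fermat.Agent.S24 Fermat.Agent.S24.Deg457 Fermat.Agent.S48.F1

/-! ### generic field theory -/

section Generic

variable {K : Type*} [Field K]

/-- relation ⇒ integrality, inside an intermediate field `F ∋ J`. -/
theorem isIntegral_of_algRel (F : IntermediateField K (LaurentSeries K)) {J : LaurentSeries K}
    (hJF : J ∈ F) (hJ : ∀ t : K[X], t ≠ 0 → aeval J t ≠ 0) (y : F)
    (hy : AlgRel K J (y : LaurentSeries K)) :
    IsIntegral K⟮(⟨J, hJF⟩ : F)⟯ y := by
  obtain ⟨Q, hQ0, hQ⟩ := hy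
  have hinc : Function.Injective (algebraMap F (LaurentSeries K)) :=
    (algebraMap F (LaurentSeries K)).injective
  refine (isIntegral_and_natDegree_le_of_relation (K := K)
    (AdjoinSimple.gen K (⟨J, hJF⟩ : F)) ?_ y Q hQ0 Q.natDegree le_rfl ?_).1
  · intro t ht h0
    apply hJ t ht
    have h1 := congrArg (algebraMap ↥(K⟮(⟨J, hJF⟩ : F)⟯) F) h0
    rw [← aeval_algebraMap_apply, map_zero, AdjoinSimple.algebraMap_gen] at h1
    have h2 := congrArg (algebraMap F (LaurentSeries K)) h1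
    rw [← aeval_algebraMap_apply, map_zero] at h2
    exact h2
  · apply hinc
    rw [map_zero, Polynomial.hom_eval₂, AdjoinSimple.algebraMap_gen]
    have hcomp : (algebraMap F (LaurentSeries K)).comp
        ((aeval (⟨J, hJF⟩ : F) : K[X] →ₐ[K] F).toRingHom) = evJ J := by
      refine Polynomial.ringHom_ext ?_ ?_
      · intro c
        simp [evJ, ← IsScalarTower.algebraMap_apply]
      · simp [evJ]
    rw [hcomp]
    exact hQ

/-- transitivity: `J'` algebraic over `K(J)` and `y` algebraic over `K(J')`. -/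
theorem isIntegral_of_algRel_trans (F : IntermediateField K (LaurentSeries K))
    {J J' : LaurentSeries K} (hJF : J ∈ F) (hJ : ∀ t : K[X], t ≠ 0 → aeval J t ≠ 0)
    (hJ'F : J' ∈ F) (hJ' : ∀ t : K[X], t ≠ 0 → aeval J' t ≠ 0) (hJJ' : AlgRel K J J') (y : F)
    (hy : AlgRel K J' (y : LaurentSeries K)) :
    IsIntegral K⟮(⟨J, hJF⟩ : F)⟯ y := by
  set k : IntermediateField K F := K⟮(⟨J, hJF⟩ : F)⟯
  set j' : F := ⟨J', hJ'F⟩
  have h1 : IsIntegral k j' := isIntegral_of_algRel F hJF hJ j' hJJ'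
  have h2 : IsIntegral K⟮j'⟯ y := isIntegral_of_algRel F hJ'F hJ' y hy
  -- the finite extension `E = k(j')` of `k`
  set E : IntermediateField k F := IntermediateField.adjoin k {j'}
  haveI : FiniteDimensional k E := IntermediateField.adjoin.finiteDimensional h1
  have hle : K⟮j'⟯ ≤ E.restrictScalars K := by
    rw [IntermediateField.adjoin_le_iff]
    rintro x hx
    rw [Set.mem_singleton_iff] at hx
    subst hx
    exact IntermediateField.mem_adjoin_simple_self k j'
  have h3 : IsIntegral E y := by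
    let φ : K⟮j'⟯ →+* E := (IntermediateField.inclusion hle).toRingHom
    have := IsIntegral.map_of_comp_eq (R := K⟮j'⟯) (S := F) (T := E) (U := F) φ
      (RingHom.id F) (RingHom.ext fun x => rfl) h2
    simpa using this
  exact isIntegral_trans y h3

/-- a field generated over `K` by finitely many elements integral over a subfield `k ⊇ K` is
finite over `k`. -/
theorem finiteDimensional_of_adjoin_eq_top {F : Type*} [Field F] [Algebra K F]
    (k : IntermediateField K F) (T : Set F) (hT : T.Finite)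
    (htop : IntermediateField.adjoin K T = ⊤) (hint : ∀ t ∈ T, IsIntegral k t) :
    FiniteDimensional k F := by
  haveI : Finite T := hT.to_subtype
  have hfd : FiniteDimensional k (IntermediateField.adjoin k T) :=
    IntermediateField.finiteDimensional_adjoin hint
  have h1 : IntermediateField.adjoin k T = ⊤ := by
    rw [← IntermediateField.restrictScalars_eq_top_iff (K := K)]
    refine top_unique ?_
    rw [← htop, IntermediateField.adjoin_le_iff]
    exact fun t ht => IntermediateField.subset_adjoin k T ht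
  rw [h1] at hfd
  exact (IntermediateField.topEquiv (F := k) (E := F)).toLinearEquiv.finiteDimensional

/-- the generators generate. -/
theorem adjoin_preimage_eq_top (T : Set (LaurentSeries K)) :
    IntermediateField.adjoin K
      ((fun x : ↥(IntermediateField.adjoin K T) => (x : LaurentSeries K)) ⁻¹' T) = ⊤ := by
  apply IntermediateField.lift_injective
  rw [IntermediateField.lift_adjoin, IntermediateField.lift_top]
  congr 1
  ext x
  constructor
  · rintro ⟨y, hy, rfl⟩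
    exact hy
  · intro hx
    exact ⟨⟨x, IntermediateField.subset_adjoin K T hx⟩, hx, rfl⟩

theorem transcendental_of_aeval_ne_zero (F : IntermediateField K (LaurentSeries K))
    {J : LaurentSeries K} (hJF : J ∈ F) (hJ : ∀ t : K[X], t ≠ 0 → aeval J t ≠ 0) :
    Transcendental K (⟨J, hJF⟩ : F) := by
  rw [transcendental_iff]
  intro t ht
  by_contra h0
  apply hJ t h0
  have h2 := congrArg (algebraMap F (LaurentSeries K)) ht
  rw [← aeval_algebraMap_apply, map_zero] at h2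
  exact h2

/-- **Finiteness criterion.**  A subfield of `K((q))` generated over `K` by a finite set `T` is
finite over `K(J)` as soon as every generator is algebraic over `K(J)`, directly or through an
intermediate `J'`. -/
theorem exists_coord_of_gens {J J' : LaurentSeries K} (T : Set (LaurentSeries K))
    (hT : T.Finite) (hJT : J ∈ IntermediateField.adjoin K T)
    (hJ'T : J' ∈ IntermediateField.adjoin K T)
    (hJ : ∀ t : K[X], t ≠ 0 → aeval J t ≠ 0) (hJ' : ∀ t : K[X], t ≠ 0 → aeval J' t ≠ 0)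
    (hJJ' : AlgRel K J J') (halg : ∀ t ∈ T, AlgRel K J t ∨ AlgRel K J' t) :
    ∃ x : IntermediateField.adjoin K T, Transcendental K x ∧
      FiniteDimensional K⟮x⟯ (IntermediateField.adjoin K T) := by
  refine ⟨⟨J, hJT⟩, transcendental_of_aeval_ne_zero _ hJT hJ, ?_⟩
  have htop := adjoin_preimage_eq_top T
  have hfin : ((fun x : ↥(IntermediateField.adjoin K T) => (x : LaurentSeries K)) ⁻¹' T).Finite :=
    hT.preimage (Subtype.val_injective.injOn)
  refine finiteDimensional_of_adjoin_eq_top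
    (K⟮(⟨J, hJT⟩ : ↥(IntermediateField.adjoin K T))⟯) _ hfin htop ?_
  intro t ht
  rcases halg (t : LaurentSeries K) ht with h | h
  · exact isIntegral_of_algRel _ hJT hJ t h
  · exact isIntegral_of_algRel_trans _ hJT hJ hJ'T hJ' hJJ' t h

end Generic

/-! ### generic Hecke inputs -/

section HI

variable {K F F' : Type*} [Field K] [Field F] [Field F'] [Algebra K F] [Algebra K F']
  [IsAlgClosed K] [CharZero K]

/-- **Generic HI.**  Over an algebraically closed field of characteristic zero, any two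
`K`-algebra homomorphisms between function fields of one variable satisfy `F1.CorrInputs`. -/
theorem corrInputs_of_coord (hF : ∃ x : F, Transcendental K x ∧ FiniteDimensional K⟮x⟯ F)
    (hF' : ∃ x : F', Transcendental K x ∧ FiniteDimensional K⟮x⟯ F') (φ ψ : F →ₐ[K] F') :
    CorrInputs φ ψ := by
  obtain ⟨x', hx', hfin'⟩ := hF'
  haveI : FiniteDimensional K⟮x'⟯ F' := hfin'
  haveI hP : HasPrincipalDivisors K F' := Fermat.Agent.Lib.RR.H864.hasPrincipalDivisors x' hx'
  have hfinφ := Fermat.Agent.S29.H812.finiteAlong hF ⟨x', hx', hfin'⟩ φ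
  have hfinψ := Fermat.Agent.S29.H812.finiteAlong hF ⟨x', hx', hfin'⟩ ψ
  have hφ := Fermat.Agent.S29.H812.isIntegral_of_finiteAlong hfinφ
  have hψ := Fermat.Agent.S29.H812.isIntegral_of_finiteAlong hfinψ
  exact ⟨hφ, hψ, hP, hfinψ, Fermat.Agent.S29.H812.fundamentalIdentityAlong hF φ hfinφ hφ,
    Fermat.Agent.S29.H812.normFormulaAlong hF ψ hfinψ⟩

end HI

/-! ### the fields `F1 M` and `F1p M p` -/

/-- every division value is algebraic over `ℚ(j)`. -/
def DivRel (M : ℕ) : Prop := ∀ a : ZMod M, a ≠ 0 → AlgRel ℚ jq (divGen M a)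

section F1

variable (L : Type*) [Field L] [Algebra ℚ L]

theorem JK_rat : JK ℚ = jq := by
  rw [JK, coeffEmb]
  exact coeffMap_id jq

/-- `j(q^d)` is algebraic over `ℚ(j)` (S24). -/
theorem algRel_jqd (d : ℕ) [NeZero d] : AlgRel ℚ jq (qExpand ℚ d jq) := by
  have hmem : qExpand ℚ d jq ∈ AK ℚ d := by
    refine Algebra.subset_adjoin ⟨qExpand ℚ d jq, mem_divisorExpansions d dvd_rfl, ?_⟩
    rw [coeffEmb]
    exact coeffMap_id _
  obtain ⟨Q, hQ0, -, hQ⟩ := algDeg_of_mem_AK (algebraMap ℚ ℂ) (hyp_complex_card d) hmem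
  rw [JK_rat] at hQ
  exact ⟨Q, hQ0, hQ⟩

theorem algRel_coeffEmb {J x : LaurentSeries ℚ} (h : AlgRel ℚ J x) :
    AlgRel L (coeffEmb L J) (coeffEmb L x) :=
  h.coeffMap (algebraMap ℚ L)

theorem algRel_qExpand {K : Type*} [Field K] (p : ℕ) [NeZero p] {J x : LaurentSeries K}
    (h : AlgRel K J x) : AlgRel K (qExpand K p J) (qExpand K p x) := by
  obtain ⟨Q, hQ0, hQ⟩ := h
  exact ⟨Q, hQ0, by rw [eval₂_evJ_qExpand, hQ, map_zero]⟩

theorem aeval_coeffEmb_jq_ne_zero {t : L[X]} (ht : t ≠ 0) : aeval (coeffEmb L jq) t ≠ 0 :=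
  aeval_JK_ne_zero L ht

theorem aeval_qExpand_ne_zero {K : Type*} [Field K] (p : ℕ) [NeZero p] {J : LaurentSeries K}
    (hJ : ∀ t : K[X], t ≠ 0 → aeval J t ≠ 0) {t : K[X]} (ht : t ≠ 0) :
    aeval (qExpand K p J) t ≠ 0 := by
  have h := Polynomial.aeval_algHom_apply (qExpandAlgHomC K p) J t
  rw [qExpandAlgHomC_apply, qExpandAlgHomC_apply] at h
  rw [h, Ne, inf_qExpand_eq_zero_iff]
  exact hJ t ht

/-- the generators of `F1 M`. -/
def gensF1 (M : ℕ) : Set (LaurentSeries ℚ) := divisorExpansions M ∪ divGens M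

theorem finite_divisorExpansions (M : ℕ) [NeZero M] : (divisorExpansions M).Finite := by
  classical
  refine ((M.divisors : Set ℕ).toFinite.image
    (fun d => if h : d = 0 then (0 : LaurentSeries ℚ) else
      haveI : NeZero d := ⟨h⟩
      qExpand ℚ d jq)).subset ?_
  rintro x ⟨d, hne, hd, rfl⟩
  refine ⟨d, ?_, ?_⟩
  · exact Finset.mem_coe.mpr (Nat.mem_divisors.mpr ⟨hd, NeZero.ne M⟩)
  · simp only
    rw [dif_neg (NeZero.ne d)]

theorem finite_divGens (M : ℕ) [NeZero M] : (divGens M).Finite := by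
  refine ((Set.finite_univ (α := ZMod M)).image (fun a => divGen M a)).subset ?_
  rintro x ⟨a, -, rfl⟩
  exact ⟨a, Set.mem_univ _, rfl⟩

theorem finite_gensF1 (M : ℕ) [NeZero M] : (gensF1 M).Finite :=
  (finite_divisorExpansions M).union (finite_divGens M)

theorem F1_eq_adjoin (M : ℕ) : F1 M = IntermediateField.adjoin ℚ (gensF1 M) := rfl

theorem F1p_eq_adjoin (M p : ℕ) [NeZero p] :
    F1p M p = IntermediateField.adjoin ℚ (gensF1 M ∪ ⇑(qExpandₐ p) '' gensF1 M) := by
  rw [F1p, _root_.Fermat.Agent.S48.H150.F1_eq_adjoin, IntermediateField.adjoin_map, IntermediateField.adjoin_union]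

theorem F1L_eq_adjoin (M : ℕ) :
    F1L L M = IntermediateField.adjoin L (⇑(coeffEmb L) '' gensF1 M) := by
  rw [F1L, _root_.Fermat.Agent.S48.H150.F1_eq_adjoin]
  exact H368.laurentBaseChange_adjoin L _

theorem F1pL_eq_adjoin (M p : ℕ) [NeZero p] :
    F1pL L M p = IntermediateField.adjoin L
      (⇑(coeffEmb L) '' (gensF1 M ∪ ⇑(qExpandₐ p) '' gensF1 M)) := by
  rw [F1pL, _root_.Fermat.Agent.S48.H150.F1p_eq_adjoin]
  exact H368.laurentBaseChange_adjoin L _

variable {L}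

theorem algRel_gensF1 {M : ℕ} (hP : DivRel M) {s : LaurentSeries ℚ} (hs : s ∈ gensF1 M) :
    AlgRel ℚ jq s := by
  rcases hs with ⟨d, hne, -, rfl⟩ | ⟨a, ha, rfl⟩
  · haveI := hne
    exact algRel_jqd d
  · exact hP a ha

variable (L)

/-- **`L·F1(M)` is a function field of one variable**: finite over `L(j)`. -/
theorem exists_coord_F1L (M : ℕ) [NeZero M] (hP : DivRel M) :
    ∃ x : F1L L M, Transcendental L x ∧ FiniteDimensional L⟮x⟯ (F1L L M) := by
  rw [F1L_eq_adjoin]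
  have hJ : ∀ t : L[X], t ≠ 0 → aeval (coeffEmb L jq) t ≠ 0 := fun t ht =>
    aeval_coeffEmb_jq_ne_zero L ht
  have hjmem : jq ∈ gensF1 M := by
    have h := mem_divisorExpansions M (one_dvd M)
    rw [qExpand_one_apply] at h
    exact Or.inl h
  have hJT : coeffEmb L jq ∈ IntermediateField.adjoin L (⇑(coeffEmb L) '' gensF1 M) :=
    IntermediateField.subset_adjoin L _ ⟨jq, hjmem, rfl⟩
  refine exists_coord_of_gens (J := coeffEmb L jq) (J' := coeffEmb L jq) _
    ((finite_gensF1 M).image _) hJT hJT hJ hJ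
    (algRel_coeffEmb L (algRel_gensF1 hP hjmem)) ?_
  rintro _ ⟨s, hs, rfl⟩
  exact Or.inl (algRel_coeffEmb L (algRel_gensF1 hP hs))

/-- **`L·F1(M; p)` is a function field of one variable**: finite over `L(j)`. -/
theorem exists_coord_F1pL (M p : ℕ) [NeZero M] [NeZero p] (hP : DivRel M) :
    ∃ x : F1pL L M p, Transcendental L x ∧ FiniteDimensional L⟮x⟯ (F1pL L M p) := by
  rw [F1pL_eq_adjoin]
  have hJ : ∀ t : L[X], t ≠ 0 → aeval (coeffEmb L jq) t ≠ 0 := fun t ht =>
    aeval_coeffEmb_jq_ne_zero L ht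
  have hJ' : ∀ t : L[X], t ≠ 0 → aeval (coeffEmb L (qExpand ℚ p jq)) t ≠ 0 := by
    intro t ht
    rw [← qExpand_coeffEmb]
    exact aeval_qExpand_ne_zero p hJ ht
  have hjmem : jq ∈ gensF1 M := by
    have h := mem_divisorExpansions M (one_dvd M)
    rw [qExpand_one_apply] at h
    exact Or.inl h
  have hJT : coeffEmb L jq ∈ IntermediateField.adjoin L
      (⇑(coeffEmb L) '' (gensF1 M ∪ ⇑(qExpandₐ p) '' gensF1 M)) :=
    IntermediateField.subset_adjoin L _ ⟨jq, Or.inl hjmem, rfl⟩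
  have hJ'T : coeffEmb L (qExpand ℚ p jq) ∈ IntermediateField.adjoin L
      (⇑(coeffEmb L) '' (gensF1 M ∪ ⇑(qExpandₐ p) '' gensF1 M)) :=
    IntermediateField.subset_adjoin L _ ⟨qExpand ℚ p jq, Or.inr ⟨jq, hjmem, rfl⟩, rfl⟩
  refine exists_coord_of_gens (J := coeffEmb L jq) (J' := coeffEmb L (qExpand ℚ p jq)) _
    (((finite_gensF1 M).union ((finite_gensF1 M).image _)).image _) hJT hJ'T hJ hJ'
    (algRel_coeffEmb L (algRel_jqd p)) ?_
  rintro _ ⟨s, hs | ⟨s', hs', rfl⟩, rfl⟩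
  · exact Or.inl (algRel_coeffEmb L (algRel_gensF1 hP hs))
  · exact Or.inr (algRel_coeffEmb L (algRel_qExpand p (algRel_gensF1 hP hs')))

end F1

/-! ### `CorrInputs` for the degeneracy maps -/

section Corr

variable (L : Type*) [Field L] [Algebra ℚ L] [IsAlgClosed L] [CharZero L]

/-- **HI1** for `T_p = α_* β^*` (any `M, p ≠ 0`), from `DivRel M`. -/
theorem corrInputs_beta_alpha (M p : ℕ) [NeZero M] [NeZero p] (hP : DivRel M) :
    CorrInputs (beta1 L M p) (alpha1 L M p) :=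
  corrInputs_of_coord (_root_.Fermat.Agent.S48.H150.exists_coord_F1L L M hP) (_root_.Fermat.Agent.S48.H150.exists_coord_F1pL L M p hP) _ _

/-- **HI1** for the transposed correspondence `β_* α^*`. -/
theorem corrInputs_alpha_beta (M p : ℕ) [NeZero M] [NeZero p] (hP : DivRel M) :
    CorrInputs (alpha1 L M p) (beta1 L M p) :=
  corrInputs_of_coord (_root_.Fermat.Agent.S48.H150.exists_coord_F1L L M hP) (_root_.Fermat.Agent.S48.H150.exists_coord_F1pL L M p hP) _ _

end Corr

end Fermat.Agent.S48.H150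

end
end
-- ===== PACK-END S48/H150/F1Fin.lean

-- ===== PACK-BEGIN S48/H76/Avatar.lean
section





/-!
# S48 / Tower A1, piece A1-FF (helper76): analytic avatars of the generators of `F1 M`

* `yW M w = G_w / Δ` (`G_w` the level-`M` Eisenstein series of weight `12` with periodic weight `w`):
  holomorphic on `ℍ`, `yW ∘ γ = yW (γ · w)` for all `γ ∈ SL(2,ℤ)`, expansion in `X = e^{2πiτ/M}`
  with explicit coefficients (`infExp_yW`, `coefX_mem`); hence `yW M w ∈ S24.H997.holN M`.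
* `pFun M a = C₁₂⁻¹ · G_{[v₀ = a]} / Δ` is the analytic avatar of the generator
  `P_a = F1.divGenC ℂ M a` of the function field `F1 M` of `X₁(M)`:
  `infExp_pFun : InfExp 1 (pFun M a) (F1.divGenC ℂ M a)` (`a ≠ 0`),
  `compSL_pFun : compSL γ (pFun M a) = pFun M (a * γ 0 0)` for `γ ∈ Γ₀(M)`,
  `pFun_smul_Gamma1`, `pFun_neg`, `pFun_mem_holN`, `mdiff_pFun`,
  `hasSum_typeI`, `qExpansion_typeI` (any weight `k + 1 ≥ 3`).
-/

set_option autoImplicit false

open UpperHalfPlane EisensteinSeries ModularForm Filter Topology Complex CongruenceSubgroup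
open HahnSeries ModularCurve
open scoped Matrix MatrixGroups Manifold Real

noncomputable section

namespace Fermat.Agent.S48.H76

open Fermat.Agent.S29 Fermat.Agent.S24 Fermat.Agent.S24.H997 Fermat.Agent.S24.H624
open Fermat.Agent.S28 Fermat.Agent.S28.H748

local notation "𝕢" => Function.Periodic.qParam
local notation "Δ" => ModularForm.discriminant

/-- The expansion of `G_w` in `X = e^{2πiτ/M}` as a power series. -/
def coefXSeries (M : ℕ) (w : ZMod M → ZMod M → ℂ) (k : ℕ) : PowerSeries ℂ :=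
  PowerSeries.mk (coefX M w k)

theorem infPExp_wEis (M : ℕ) [NeZero M] {k : ℕ} (hk : 2 ≤ k) (w : ZMod M → ZMod M → ℂ) :
    InfPExp M (H332.wEis (perWeight M w) ((k + 1 : ℕ) : ℤ)) (coefXSeries M w k) := by
  intro τ
  have H := hasSum_wEis_periodic M hk w τ
  simpa [coefXSeries, infZ, smul_eq_mul] using H

/-- The weight-zero function `G_w / Δ` (`G_w` of weight `12`). -/
def yW (M : ℕ) (w : ZMod M → ZMod M → ℂ) (τ : ℍ) : ℂ :=
  H332.wEis (perWeight M w) ((11 + 1 : ℕ) : ℤ) τ * (Δ τ)⁻¹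

/-- The expansion of `yW M w` in `X`. -/
def yWSeries (M : ℕ) [NeZero M] (w : ZMod M → ZMod M → ℂ) : LaurentSeries ℂ :=
  ofPowerSeries ℤ ℂ (coefXSeries M w 11) * qExpand ℂ M H565.deltaInvSeriesC

theorem infExp_yW (M : ℕ) [NeZero M] (w : ZMod M → ZMod M → ℂ) :
    InfExp M (yW M w) (yWSeries M w) := by
  have h1 := (infPExp_wEis M (k := 11) (by norm_num) w).infExp 0
  have h2 : InfExp M (H332.wEis (perWeight M w) ((11 + 1 : ℕ) : ℤ))
      (ofPowerSeries ℤ ℂ (coefXSeries M w 11)) := by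
    have e : (single (0 : ℤ) (1 : ℂ) * ofPowerSeries ℤ ℂ (coefXSeries M w 11)) =
        ofPowerSeries ℤ ℂ (coefXSeries M w 11) := by
      rw [show (single (0 : ℤ) (1 : ℂ)) = 1 from rfl, one_mul]
    rw [e] at h1
    refine h1.congr fun τ => ?_
    simp
  exact h2.mul (infExp_level (N := M) infExp_one_deltaInv)

theorem mdiff_yW (M : ℕ) [NeZero M] (w : ZMod M → ZMod M → ℂ) : MDiff (yW M w) :=
  Fermat.Agent.S28.H748.InfExp.mdiff748 (infExp_yW M w)

/-- **Translates**: `yW w ∘ γ = yW (γ · w)` for every `γ ∈ SL(2,ℤ)`. -/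
theorem compSL_yW (M : ℕ) (w : ZMod M → ZMod M → ℂ) (γ : SL(2, ℤ)) :
    compSL γ (yW M w) = yW M (actW M γ w) := by
  funext τ
  have h := congrFun (perWeight_slash M w ((11 + 1 : ℕ) : ℤ) γ) τ
  rw [SL_slash_apply] at h
  simp only [compSL_apply, yW]
  rw [← h, Fermat.Agent.S24.JFun.discriminant_smul]
  have hd : denom γ τ ≠ 0 := denom_ne_zero γ τ
  have hΔ : Δ τ ≠ 0 := discriminant_ne_zero τ
  have e12 : (((11 + 1 : ℕ) : ℤ)) = (12 : ℤ) := by norm_num
  rw [e12, zpow_neg]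
  field_simp

theorem yW_mem_holN (M : ℕ) [NeZero M] (w : ZMod M → ZMod M → ℂ) : yW M w ∈ holN M := by
  refine ⟨mdiff_yW M w, fun γ => ?_⟩
  rw [compSL_yW]
  exact (infExp_yW M (actW M γ w)).mem_expRing

/-! ### Rationality of the expansions -/

/-- Fourier inversion on `ℤ/M`. -/
theorem fourier_inversion (M : ℕ) [NeZero M] (g : ZMod M → ℂ) (b : ZMod M) :
    g b = (M : ℂ)⁻¹ * ∑ c ∈ Finset.range M, hatG M g (c : ℤ) * gZ M (c : ℤ) b := by
  have hM : (M : ℂ) ≠ 0 := Nat.cast_ne_zero.mpr (NeZero.ne M)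
  have hb : b.val ∈ Finset.range M := Finset.mem_range.mpr (ZMod.val_lt b)
  have h1 : ∀ c ∈ Finset.range M, hatG M g (c : ℤ) * gZ M (c : ℤ) b =
      ∑ b' ∈ Finset.range M, g (b' : ZMod M) * zetaPow M ((c : ℤ) * ((b' : ℤ) - (b.val : ℤ))) := by
    intro c _
    unfold hatG gZ
    rw [Finset.sum_mul]
    refine Finset.sum_congr rfl fun b' _ => ?_
    rw [mul_assoc, ← zetaPow_add]
    congr 2
    ring
  rw [Finset.sum_congr rfl h1, Finset.sum_comm]
  have h2 : ∀ b' ∈ Finset.range M,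
      ∑ c ∈ Finset.range M, g (b' : ZMod M) * zetaPow M ((c : ℤ) * ((b' : ℤ) - (b.val : ℤ))) =
        if b' = b.val then (M : ℂ) * g b else 0 := by
    intro b' hb'
    rw [← Finset.mul_sum, sum_range_zetaPow]
    have hb'M := Finset.mem_range.mp hb'
    have hbM := ZMod.val_lt b
    by_cases h : b' = b.val
    · rw [if_pos h, h, sub_self, if_pos (dvd_zero _), ZMod.natCast_zmod_val, mul_comm]
    · rw [if_neg h, if_neg, mul_zero]
      intro hdvd
      apply h
      have h3 : |(b' : ℤ) - (b.val : ℤ)| < (M : ℤ) := by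
        rw [abs_lt]
        constructor <;> omega
      have h4 := Int.eq_zero_of_abs_lt_dvd hdvd h3
      omega
  rw [Finset.sum_congr rfl h2, Finset.sum_ite_eq' _ _ _, if_pos hb, ← mul_assoc,
    inv_mul_cancel₀ hM, one_mul]

/-- The normalised constant term `κ_w = M⁻¹ ∑_c ŵ₀(c) κ_c`. -/
def kappaW (M : ℕ) (w : ZMod M → ZMod M → ℂ) (k : ℕ) : ℂ :=
  (M : ℂ)⁻¹ * ∑ c ∈ Finset.range M, hatG M (w 0) (c : ℤ) * ((kappaQ M (c : ℤ) k : ℚ) : ℂ)

theorem constTerm_typeII (M : ℕ) (g : ZMod M → ℂ) (k : ℕ) :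
    constTerm M (typeII M g) k = ∑' d : ℤ, g ((d : ℤ) : ZMod M) * (1 / ((0 : ℂ) + d) ^ (k + 1)) := by
  unfold constTerm
  refine tsum_congr fun d => ?_
  simp [typeII]

/-- **The constant term of a level-`M` Eisenstein series** in terms of Bernoulli polynomials. -/
theorem constTerm_eq (M : ℕ) [NeZero M] {k : ℕ} (hk : 1 ≤ k) (w : ZMod M → ZMod M → ℂ) :
    constTerm M w k = normC M k * kappaW M w k := by
  have h1 : constTerm M w k =
      ∑' d : ℤ, ∑ c ∈ Finset.range M, ((M : ℂ)⁻¹ * hatG M (w 0) (c : ℤ)) *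
        (gZ M (c : ℤ) ((d : ℤ) : ZMod M) * (1 / ((0 : ℂ) + d) ^ (k + 1))) := by
    unfold constTerm
    refine tsum_congr fun d => ?_
    rw [fourier_inversion M (w 0) ((d : ℤ) : ZMod M), Finset.mul_sum, Finset.sum_mul]
    refine Finset.sum_congr rfl fun c _ => ?_
    simp only [zero_add, one_div]
    ring
  rw [h1, Summable.tsum_finsetSum]
  · unfold kappaW
    rw [Finset.mul_sum, Finset.mul_sum]
    refine Finset.sum_congr rfl fun c _ => ?_
    rw [tsum_mul_left, ← constTerm_typeII, constTerm_gZ M (c : ℤ) hk]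
    unfold normC
    ring
  · intro c _
    exact (summable_row M hk (gZ M (c : ℤ)) 0).mul_left _

/-- The coefficients of the `X`-expansion of `G_w`, divided by the normalising constant, lie in
every subring containing `ζ_M`, `1/M`, the Bernoulli constants `κ_c` and the values of `w`. -/
theorem coefX_mem (M : ℕ) [NeZero M] {k : ℕ} (hk : 1 ≤ k) (w : ZMod M → ZMod M → ℂ)
    (S : Subring ℂ) (hζ : ∀ a : ℤ, zetaPow M a ∈ S) (hM : (M : ℂ)⁻¹ ∈ S)
    (hκ : ∀ c : ℕ, ((kappaQ M (c : ℤ) k : ℚ) : ℂ) ∈ S) (hw : ∀ x y, w x y ∈ S) (n : ℕ) :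
    (normC M k)⁻¹ * coefX M w k n ∈ S := by
  have hhat : ∀ (g : ZMod M → ℂ), (∀ b, g b ∈ S) → ∀ m : ℤ, hatG M g m ∈ S := by
    intro g hg m
    unfold hatG
    exact S.sum_mem fun b _ => S.mul_mem (hg _) (hζ _)
  unfold coefX
  by_cases hn : n = 0
  · rw [if_pos hn, constTerm_eq M hk, ← mul_assoc, inv_mul_cancel₀ (normC_ne_zero M k), one_mul]
    unfold kappaW
    exact S.mul_mem hM (S.sum_mem fun c _ => S.mul_mem (hhat _ (hw 0) _) (hκ c))
  · rw [if_neg hn]
    have hMne : (M : ℂ) ≠ 0 := Nat.cast_ne_zero.mpr (NeZero.ne M)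
    have e : (normC M k)⁻¹ * (lipConst M k * coefA M w k n) = (M : ℂ)⁻¹ * coefA M w k n := by
      have h0 := normC_ne_zero M k
      unfold normC at h0 ⊢
      have hl : lipConst M k ≠ 0 := left_ne_zero_of_mul h0
      field_simp
    rw [e]
    refine S.mul_mem hM ?_
    unfold coefA sigma2
    refine S.sum_mem fun x _ => S.mul_mem (S.pow_mem (natCast_mem S _) _) (hhat _ ?_ _)
    intro b
    unfold symW
    exact S.add_mem (hw _ _) (S.mul_mem (S.pow_mem (S.neg_mem S.one_mem) _) (hw _ _))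

/-! ### Type I: the division values -/

/-- The weight of type I: `w(x, y) = [x = a]`. -/
def typeI (M : ℕ) (a : ZMod M) : ZMod M → ZMod M → ℂ := fun x _ => if x = a then 1 else 0

/-- `C_{k+1} = (-2πi)^{k+1} / k!`. -/
def divC (k : ℕ) : ℂ := (-2 * π * Complex.I) ^ (k + 1) / (k.factorial : ℂ)

theorem divC_ne_zero (k : ℕ) : divC k ≠ 0 := by
  unfold divC
  have h1 : (-2 * (π : ℂ) * Complex.I) ≠ 0 := by
    simp [Real.pi_ne_zero, Complex.I_ne_zero]
  exact div_ne_zero (pow_ne_zero _ h1) (Nat.cast_ne_zero.mpr (Nat.factorial_ne_zero k))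

theorem lipConst_mul_pow (M : ℕ) [NeZero M] (k : ℕ) :
    lipConst M k * (M : ℂ) ^ (k + 1) = divC k := by
  have hM : (M : ℂ) ≠ 0 := Nat.cast_ne_zero.mpr (NeZero.ne M)
  unfold lipConst divC
  field_simp

theorem constTerm_typeI (M : ℕ) {a : ZMod M} (ha : a ≠ 0) (k : ℕ) :
    constTerm M (typeI M a) k = 0 := by
  unfold constTerm
  have : ∀ d : ℤ, typeI M a 0 ((d : ℤ) : ZMod M) * ((d : ℂ) ^ (k + 1))⁻¹ = 0 := by
    intro d
    simp [typeI, Ne.symm ha]
  simp_rw [this]
  exact tsum_zero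

/-- the symmetrised indicator -/
def symI (M : ℕ) (a : ZMod M) (k c : ℕ) : ℂ :=
  (if (c : ZMod M) = a then 1 else 0) + (-1) ^ (k + 1) * (if (c : ZMod M) = -a then 1 else 0)

theorem symW_typeI (M : ℕ) (a : ZMod M) (k c : ℕ) :
    symW M (typeI M a) k c = fun _ => symI M a k c := by
  funext b
  unfold symW typeI symI
  simp only [neg_eq_iff_eq_neg]

theorem hatG_const (M : ℕ) [NeZero M] (v : ℂ) (m : ℤ) :
    hatG M (fun _ => v) m = if (M : ℤ) ∣ m then v * M else 0 := by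
  unfold hatG
  rw [← Finset.mul_sum, sum_range_zetaPow]
  split_ifs <;> simp

theorem coefA_typeI_of_not_dvd (M : ℕ) [NeZero M] (a : ZMod M) (k : ℕ) {n : ℕ} (hn : ¬ M ∣ n) :
    coefA M (typeI M a) k n = 0 := by
  unfold coefA sigma2
  refine Finset.sum_eq_zero fun x hx => ?_
  have hx' := Nat.mem_divisorsAntidiagonal.mp hx
  have hm : ¬ (M : ℤ) ∣ ((x.2 : ℕ) : ℤ) := by
    intro h0
    rw [Int.natCast_dvd_natCast] at h0
    exact hn (h0.trans ⟨x.1, by rw [mul_comm]; exact hx'.1.symm⟩)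
  beta_reduce
  rw [symW_typeI, hatG_const, if_neg hm, mul_zero]

/-- the divisor sum `∑_{c m = n} m^k ([c = a] + (-1)^{k+1} [c = -a])` -/
def sigmaI (M : ℕ) (a : ZMod M) (k n : ℕ) : ℂ :=
  ∑ x ∈ n.divisorsAntidiagonal, (x.2 : ℂ) ^ k * symI M a k x.1

theorem sigmaI_zero (M : ℕ) (a : ZMod M) (k : ℕ) : sigmaI M a k 0 = 0 := by
  simp [sigmaI]

theorem coefA_typeI_mul (M : ℕ) [NeZero M] (a : ZMod M) (k n : ℕ) :
    coefA M (typeI M a) k (M * n) = (M : ℂ) ^ (k + 1) * sigmaI M a k n := by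
  have hM : M ≠ 0 := NeZero.ne M
  unfold coefA sigma2 sigmaI
  by_cases hn : n = 0
  · subst hn
    simp
  rw [Finset.mul_sum]
  symm
  refine Finset.sum_bij_ne_zero (fun x _ _ => (x.1, M * x.2)) ?_ ?_ ?_ ?_
  · intro x hx _
    have hx' := Nat.mem_divisorsAntidiagonal.mp hx
    rw [Nat.mem_divisorsAntidiagonal]
    refine ⟨?_, Nat.mul_ne_zero hM hn⟩
    show x.1 * (M * x.2) = M * n
    rw [← hx'.1]
    ring
  · intro x hx _ y hy _ hxy
    have h1 : x.1 = y.1 := (Prod.mk.inj hxy).1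
    have h2 : M * x.2 = M * y.2 := (Prod.mk.inj hxy).2
    exact Prod.ext h1 (Nat.eq_of_mul_eq_mul_left (Nat.pos_of_ne_zero hM) h2)
  · intro y hy hne
    have hy' := Nat.mem_divisorsAntidiagonal.mp hy
    have hm : (M : ℤ) ∣ ((y.2 : ℕ) : ℤ) := by
      by_contra hm
      apply hne
      beta_reduce
      rw [symW_typeI, hatG_const, if_neg hm, mul_zero]
    rw [Int.natCast_dvd_natCast] at hm
    obtain ⟨m', hm'⟩ := hm
    refine ⟨(y.1, m'), ?_, ?_, ?_⟩
    · rw [Nat.mem_divisorsAntidiagonal]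
      refine ⟨?_, hn⟩
      have h1 : M * (y.1 * m') = M * n := by
        rw [← hy'.1, hm']
        ring
      exact Nat.eq_of_mul_eq_mul_left (Nat.pos_of_ne_zero hM) h1
    · intro h0
      apply hne
      beta_reduce
      rw [symW_typeI, hatG_const, if_pos (by rw [Int.natCast_dvd_natCast]; exact ⟨m', hm'⟩)]
      have h0' : (M : ℂ) ^ (k + 1) * ((m' : ℂ) ^ k * symI M a k y.1) = 0 := h0
      have hMC : (M : ℂ) ^ (k + 1) ≠ 0 := pow_ne_zero _ (Nat.cast_ne_zero.mpr hM)
      rcases mul_eq_zero.mp ((mul_eq_zero.mp h0').resolve_left hMC) with h | h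
      · have : m' = 0 := by
          by_contra hne'
          exact (pow_ne_zero k (Nat.cast_ne_zero.mpr hne')) h
        subst this
        simp [hm'] at hy'
        omega
      · rw [h]
        simp
    · exact Prod.ext rfl hm'.symm
  · intro x hx _
    have hd : (M : ℤ) ∣ (((M * x.2 : ℕ)) : ℤ) := by
      rw [Int.natCast_dvd_natCast]
      exact ⟨x.2, rfl⟩
    show (M : ℂ) ^ (k + 1) * ((x.2 : ℂ) ^ k * symI M a k x.1) =
      (((M * x.2 : ℕ)) : ℂ) ^ k * hatG M (symW M (typeI M a) k x.1) ((M * x.2 : ℕ) : ℤ)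
    rw [symW_typeI, hatG_const, if_pos hd]
    push_cast
    ring

theorem sigmaI_eq_divCoeff (M : ℕ) (a : ZMod M) (k n : ℕ) :
    sigmaI M a k n = ((F1.divCoeff M a (k + 1) n : ℤ) : ℂ) := by
  unfold sigmaI F1.divCoeff symI
  rw [Nat.sum_divisorsAntidiagonal (f := fun c m => (m : ℂ) ^ k *
    ((if (c : ZMod M) = a then 1 else 0) + (-1) ^ (k + 1) * (if (c : ZMod M) = -a then 1 else 0)))]
  rw [Int.cast_sum]
  refine Finset.sum_congr rfl fun m _ => ?_
  have e : (((((n / m : ℕ) : ℤ)) : ℤ) : ℂ) = ((n / m : ℕ) : ℂ) := Int.cast_natCast _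
  simp only [Nat.add_sub_cancel]
  rw [← e]
  generalize (((n / m : ℕ) : ℤ)) = t
  split_ifs <;> simp <;> ring

theorem coefX_typeI_mul (M : ℕ) [NeZero M] {a : ZMod M} (ha : a ≠ 0) (k n : ℕ) :
    coefX M (typeI M a) k (M * n) = divC k * ((F1.divCoeff M a (k + 1) n : ℤ) : ℂ) := by
  unfold coefX
  by_cases hn : n = 0
  · subst hn
    simp [constTerm_typeI M ha]
  · rw [if_neg (Nat.mul_ne_zero (NeZero.ne M) hn), coefA_typeI_mul, ← mul_assoc,
      lipConst_mul_pow, sigmaI_eq_divCoeff]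

theorem coefX_typeI_of_not_dvd (M : ℕ) [NeZero M] (a : ZMod M) (k : ℕ) {n : ℕ}
    (hn : ¬ M ∣ n) : coefX M (typeI M a) k n = 0 := by
  unfold coefX
  have h0 : n ≠ 0 := fun h => hn (h ▸ dvd_zero M)
  rw [if_neg h0, coefA_typeI_of_not_dvd M a k hn, mul_zero]

/-- **Expansion in `q`** of the Eisenstein series of type I on `Γ₁(M)` (weight `k + 1 ≥ 3`):
`G_{[v₀ = a]} = C_{k+1} ∑ c_{a,k+1}(n) qⁿ`. -/
theorem hasSum_typeI (M : ℕ) [NeZero M] {k : ℕ} (hk : 2 ≤ k) {a : ZMod M} (ha : a ≠ 0) (z : ℍ) :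
    HasSum (fun n : ℕ => (divC k * ((F1.divCoeff M a (k + 1) n : ℤ) : ℂ)) • 𝕢 1 (z : ℂ) ^ n)
      (H332.wEis (perWeight M (typeI M a)) ((k + 1 : ℕ) : ℤ) z) := by
  have H := hasSum_wEis_periodic M hk (typeI M a) z
  have hinj : Function.Injective (fun n : ℕ => M * n) := fun a b hab =>
    Nat.eq_of_mul_eq_mul_left (Nat.pos_of_ne_zero (NeZero.ne M)) hab
  rw [← hinj.hasSum_iff] at H
  · convert H using 1
    funext n
    simp only [Function.comp_apply]
    rw [coefX_typeI_mul M ha, qParam_M_pow]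
  · intro n hn
    have hnd : ¬ M ∣ n := by
      rintro ⟨m, rfl⟩
      exact hn ⟨m, rfl⟩
    rw [coefX_typeI_of_not_dvd M a k hnd, zero_smul]

/-- **`q`-expansion coefficients** of the Eisenstein series of type I on `Γ₁(M)`. -/
theorem qExpansion_typeI (M : ℕ) [NeZero M] {k : ℕ} (hk : 2 ≤ k) {a : ZMod M} (ha : a ≠ 0)
    (n : ℕ) :
    (qExpansion 1 (H332.wEis (perWeight M (typeI M a)) ((k + 1 : ℕ) : ℤ))).coeff n =
      divC k * ((F1.divCoeff M a (k + 1) n : ℤ) : ℂ) := by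
  have hk3 : (3 : ℤ) ≤ ((k + 1 : ℕ) : ℤ) := by
    push_cast
    omega
  exact Fermat.Agent.S22T.qExpansion_coeff_of_hasSum one_pos (hasSum_typeI M hk ha)
    (perWeight_mdiff M (typeI M a) hk3) n

/-! ### The avatar of `P_a` -/

/-- **The analytic avatar of the division value `P_a`**: `C₁₂⁻¹ · G_{[v₀ = a]} / Δ`. -/
def pFun (M : ℕ) (a : ZMod M) (τ : ℍ) : ℂ := (divC 11)⁻¹ * yW M (typeI M a) τ

theorem pFun_eq (M : ℕ) (a : ZMod M) :
    pFun M a = (fun _ => (divC 11)⁻¹) * yW M (typeI M a) := rfl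

theorem infPExp_typeI (M : ℕ) [NeZero M] {k : ℕ} (hk : 2 ≤ k) {a : ZMod M} (ha : a ≠ 0) :
    InfPExp 1 (fun τ => (divC k)⁻¹ * H332.wEis (perWeight M (typeI M a)) ((k + 1 : ℕ) : ℤ) τ)
      ((F1.divSeries M a (k + 1)).map (Int.castRingHom ℂ)) := by
  intro τ
  have H := (hasSum_typeI M hk ha τ).mul_left (divC k)⁻¹
  have e : (fun n : ℕ => PowerSeries.coeff n
        ((F1.divSeries M a (k + 1)).map (Int.castRingHom ℂ)) * infZ 1 τ ^ n) =
      fun n : ℕ => (divC k)⁻¹ *
        ((divC k * ((F1.divCoeff M a (k + 1) n : ℤ) : ℂ)) • 𝕢 1 (τ : ℂ) ^ n) := by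
    funext n
    have hC := divC_ne_zero k
    simp only [PowerSeries.coeff_map, F1.coeff_divSeries, infZ, smul_eq_mul, eq_intCast,
      Nat.cast_one]
    field_simp
  rw [e]
  exact H

/-- **The `q`-expansion of the avatar `pFun M a` is the division value `P_a`.** -/
theorem infExp_pFun (M : ℕ) [NeZero M] {a : ZMod M} (ha : a ≠ 0) :
    InfExp 1 (pFun M a) (F1.divGenC ℂ M a) := by
  have h1 := (infPExp_typeI M (k := 11) (by norm_num) ha).infExp 0
  have h2 := h1.mul infExp_one_deltaInv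
  have e : F1.divGenC ℂ M a =
      (single (0 : ℤ) (1 : ℂ) *
        ofPowerSeries ℤ ℂ ((F1.divSeries M a (11 + 1)).map (Int.castRingHom ℂ))) *
      H565.deltaInvSeriesC := by
    have hΔ : H565.deltaInvSeriesC = single (-1 : ℤ) (1 : ℂ) *
        ofPowerSeries ℤ ℂ (ModularCurve.dedekindEtaUnitInv.map (Int.castRingHom ℂ)) := rfl
    rw [show (single (0 : ℤ) (1 : ℂ)) = 1 from rfl, one_mul, hΔ,
      F1.divGenC, F1.divNum, map_mul, map_mul]
    ring
  rw [e]
  refine h2.congr fun τ => ?_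
  simp only [zpow_zero, one_mul, pFun, yW]
  ring

theorem mdiff_pFun (M : ℕ) [NeZero M] (a : ZMod M) : MDiff (pFun M a) := by
  have h := mdiff_yW M (typeI M a)
  exact (mdifferentiable_const (c := (divC 11)⁻¹)).mul h

theorem pFun_mem_holN (M : ℕ) [NeZero M] (a : ZMod M) : pFun M a ∈ holN M := by
  rw [pFun_eq]
  exact (holN M).mul_mem (const_mem_holN M _) (yW_mem_holN M (typeI M a))

/-- The action of `Γ₀(M)` on the weights of type I. -/
theorem actW_typeI_Gamma0 (M : ℕ) [NeZero M] (a : ZMod M) (γ : SL(2, ℤ)) (hγ : γ ∈ Gamma0 M) :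
    actW M γ (typeI M a) = typeI M (a * ((γ 0 0 : ℤ) : ZMod M)) := by
  have h10 : (((γ 1 0 : ℤ)) : ZMod M) = 0 := by
    rw [Gamma0_mem] at hγ
    exact hγ
  have hdet : ((γ 0 0 : ℤ) : ZMod M) * ((γ 1 1 : ℤ) : ZMod M) = 1 := by
    have h := Matrix.SpecialLinearGroup.det_coe γ
    rw [Matrix.det_fin_two] at h
    have h' := congrArg (fun z : ℤ => (z : ZMod M)) h
    simp only [Int.cast_sub, Int.cast_mul, Int.cast_one] at h'
    rw [h10, mul_zero, sub_zero] at h'
    exact h'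
  funext x y
  unfold actW typeI
  have e00 : ((γ⁻¹ : SL(2, ℤ)) 0 0 : ℤ) = γ 1 1 := by
    rw [Matrix.SpecialLinearGroup.SL2_inv_expl]; rfl
  have e10 : ((γ⁻¹ : SL(2, ℤ)) 1 0 : ℤ) = -γ 1 0 := by
    rw [Matrix.SpecialLinearGroup.SL2_inv_expl]; rfl
  rw [e00, e10]
  simp only [Int.cast_neg, h10, neg_zero, mul_zero, add_zero]
  congr 1
  apply propext
  constructor
  · intro h
    rw [← h, mul_assoc, mul_comm ((γ 1 1 : ℤ) : ZMod M), hdet, mul_one]
  · intro h
    rw [h, mul_assoc, hdet, mul_one]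

/-- **Diamond law**: `P_a ∘ γ = P_{a γ₀₀}` for `γ ∈ Γ₀(M)`. -/
theorem compSL_pFun (M : ℕ) [NeZero M] (a : ZMod M) (γ : SL(2, ℤ)) (hγ : γ ∈ Gamma0 M) :
    compSL γ (pFun M a) = pFun M (a * ((γ 0 0 : ℤ) : ZMod M)) := by
  funext τ
  have h := congrFun (compSL_yW M (typeI M a) γ) τ
  rw [actW_typeI_Gamma0 M a γ hγ] at h
  simp only [compSL_apply] at h
  simp only [compSL_apply, pFun, h]

/-- `pFun M a` is invariant under `Γ₁(M)`. -/
theorem pFun_smul_Gamma1 (M : ℕ) [NeZero M] (a : ZMod M) (γ : SL(2, ℤ)) (hγ : γ ∈ Gamma1 M)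
    (τ : ℍ) : pFun M a (γ • τ) = pFun M a τ := by
  have h0 : γ ∈ Gamma0 M := Gamma1_in_Gamma0 M hγ
  have h := congrFun (compSL_pFun M a γ h0) τ
  rw [compSL_apply] at h
  rw [h]
  have h00 : ((γ 0 0 : ℤ) : ZMod M) = 1 := ((Gamma1_mem M γ).mp hγ).1
  rw [h00, mul_one]

/-- `P_{-a} = P_a`. -/
theorem pFun_neg (M : ℕ) [NeZero M] (a : ZMod M) : pFun M (-a) = pFun M a := by
  have hmem : (-1 : SL(2, ℤ)) ∈ Gamma0 M := by
    rw [Gamma0_mem]
    simp
  have h := compSL_pFun M a (-1) hmem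
  have e : compSL (-1 : SL(2, ℤ)) (pFun M a) = pFun M a := by
    funext τ
    simp only [compSL_apply]
    congr 1
    exact UpperHalfPlane.ext (by simp)
  rw [e] at h
  rw [h]
  congr 1
  simp

end Fermat.Agent.S48.H76

end
end
-- ===== PACK-END S48/H76/Avatar.lean

-- ===== PACK-BEGIN S48/H150/HI1.lean
section




/-!
# S48 / Tower A1 / A1-FF, leaves FF-ALG + HI1 (helper150), part 3: the unconditional statements

From helper76's analytic avatar `H76.pFun M a` of the division value `P_a`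
(`infExp_pFun`, `pFun_mem_holN`, `pFun_smul_Gamma1`):

* `divRel M`            : every `P_a` is a root of a nonzero polynomial over `ℚ[j]`       (FF-ALG);
* `exists_coord_F1`, `exists_coord_F1p` : `L·F1(M)` and `L·F1(M; p)` are finite over `L(j)`,
  for EVERY field `L ⊇ ℚ`;  `ff1_F1`, `ff1_F1p` : they are `FF1` (RR library) over `L = L̄`;
* `corrInputs_hecke`    : `F1.CorrInputs (beta1 L M p) (alpha1 L M p)`, all `M, p ≠ 0`;
* `corrInputs_heckeT`   : `F1.CorrInputs (alpha1 L M p) (beta1 L M p)`;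
* `hi1 : H136.HI1Statement`                                                                (HI1);
* `heckeL_eq`, `heckeTL_eq` : `F1.heckeL`, `F1.heckeTL` ARE the Prelude correspondences.
-/

set_option autoImplicit false
set_option linter.style.haveILetI false

noncomputable section

open Polynomial ModularCurve UpperHalfPlane CongruenceSubgroup AlgebraicCurve IntermediateField
open scoped MatrixGroups

namespace Fermat.Agent.S48.H150

open Fermat.Agent.S24 Fermat.Agent.S24.H997 Fermat.Agent.S48.H828 Fermat.Agent.S48.F1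

theorem gamma_le_gamma1 {M : ℕ} {γ : SL(2, ℤ)} (hγ : γ ∈ Gamma M) : γ ∈ Gamma1 M := by
  rw [Gamma_mem] at hγ
  rw [Gamma1_mem]
  exact ⟨hγ.1, hγ.2.2.2, hγ.2.2.1⟩

/-- the avatar of `P_a` lies in `iactRing` over `ℂ`. -/
theorem pFun_mem_iactRing_C (M : ℕ) [NeZero M] (a : ZMod M) :
    H76.pFun M a ∈ iactRing (RingHom.id ℂ) M :=
  mem_iactRing_of_holN (H76.pFun_mem_holN M a) fun γ hγ =>
    funext fun τ => H76.pFun_smul_Gamma1 M a γ (gamma_le_gamma1 hγ) τ

/-- **FF-ALG.**  Every division value `P_a` is a root of a nonzero polynomial over `ℚ[j]`. -/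
theorem divRel (M : ℕ) [NeZero M] : DivRel M := fun a ha => by
  refine algRel_rat_of_infExp (pFun_mem_iactRing_C M a) ?_
  have h := H76.infExp_pFun M ha
  rwa [← coeffMap_divGenC (algebraMap ℚ ℂ), divGenC_rat] at h

section Field

variable (L : Type*) [Field L] [Algebra ℚ L]

/-- `L·F1(M)` is finite over `L(j)`. -/
theorem exists_coord_F1 (M : ℕ) [NeZero M] :
    ∃ x : F1L L M, Transcendental L x ∧ FiniteDimensional L⟮x⟯ (F1L L M) :=
  _root_.Fermat.Agent.S48.H150.exists_coord_F1L L M (divRel M)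

/-- `L·F1(M; p)` is finite over `L(j)`. -/
theorem exists_coord_F1p (M p : ℕ) [NeZero M] [NeZero p] :
    ∃ x : F1pL L M p, Transcendental L x ∧ FiniteDimensional L⟮x⟯ (F1pL L M p) :=
  _root_.Fermat.Agent.S48.H150.exists_coord_F1pL L M p (divRel M)

variable [IsAlgClosed L] [CharZero L]

/-- `L·F1(M)` is a function field of one variable in the sense of the RR library. -/
theorem ff1_F1 (M : ℕ) [NeZero M] : Fermat.Agent.Lib.RR.FF1 L (F1L L M) := by
  obtain ⟨x, hx, hfin⟩ := exists_coord_F1 L M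
  haveI := hfin
  exact Fermat.Agent.Lib.RR.H864.ff1 x hx

/-- `L·F1(M; p)` is a function field of one variable in the sense of the RR library. -/
theorem ff1_F1p (M p : ℕ) [NeZero M] [NeZero p] : Fermat.Agent.Lib.RR.FF1 L (F1pL L M p) := by
  obtain ⟨x, hx, hfin⟩ := exists_coord_F1p L M p
  haveI := hfin
  exact Fermat.Agent.Lib.RR.H864.ff1 x hx

/-- **HI1** for `T_p = α_* β^*`, every `M, p ≠ 0`. -/
theorem corrInputs_hecke (M p : ℕ) [NeZero M] [NeZero p] :
    CorrInputs (beta1 L M p) (alpha1 L M p) :=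
  corrInputs_beta_alpha L M p (divRel M)

/-- **HI1** for the transposed correspondence `β_* α^*`. -/
theorem corrInputs_heckeT (M p : ℕ) [NeZero M] [NeZero p] :
    CorrInputs (alpha1 L M p) (beta1 L M p) :=
  corrInputs_alpha_beta L M p (divRel M)

/-- `F1.heckeL` is the Prelude correspondence `α_* β^*`. -/
theorem heckeL_eq (M p : ℕ) [NeZero M] [NeZero p] :
    ∃ (hβ : (beta1 L M p).toRingHom.IsIntegral) (hα : (alpha1 L M p).toRingHom.IsIntegral)
      (_ : HasPrincipalDivisors L (F1pL L M p)) (hfin : FiniteAlong L (alpha1 L M p))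
      (hFI : FundamentalIdentityAlong L (beta1 L M p) hβ)
      (hN : NormFormulaAlong L (alpha1 L M p) hfin),
      heckeL L M p = Pic0.correspondence (beta1 L M p) (alpha1 L M p) hβ hα hFI hfin hN := by
  obtain ⟨hβ, hα, hP, hfin, hFI, hN⟩ := corrInputs_hecke L M p
  exact ⟨hβ, hα, hP, hfin, hFI, hN, corrOp_eq _ _ hβ hα hFI hfin hN⟩

/-- `F1.heckeTL` is the Prelude correspondence `β_* α^*`. -/
theorem heckeTL_eq (M p : ℕ) [NeZero M] [NeZero p] :
    ∃ (hα : (alpha1 L M p).toRingHom.IsIntegral) (hβ : (beta1 L M p).toRingHom.IsIntegral)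
      (_ : HasPrincipalDivisors L (F1pL L M p)) (hfin : FiniteAlong L (beta1 L M p))
      (hFI : FundamentalIdentityAlong L (alpha1 L M p) hα)
      (hN : NormFormulaAlong L (beta1 L M p) hfin),
      heckeTL L M p = Pic0.correspondence (alpha1 L M p) (beta1 L M p) hα hβ hFI hfin hN := by
  obtain ⟨hα, hβ, hP, hfin, hFI, hN⟩ := corrInputs_heckeT L M p
  exact ⟨hα, hβ, hP, hfin, hFI, hN, corrOp_eq _ _ hα hβ hFI hfin hN⟩

end Field

/-- **HI1** (helper136's shape `H136.HI1Statement`). -/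
theorem hi1 : H136.HI1Statement := fun M p _ hM _ _ => by
  haveI : NeZero M := ⟨hM⟩
  exact corrInputs_hecke Fermat.Agent.S18.Qb M p

end Fermat.Agent.S48.H150

end
end
-- ===== PACK-END S48/H150/HI1.lean

-- ===== PACK-BEGIN S29/H332/KummerFun.lean
section




/-!
# S29 / M4b / K1 — the Kummer function `h = E^χ₁₂ / (2Δ)`

For a character `χ : Γ₀(N) →* ℂˣ`, unitary and trivial on all elements of trace `±2`, the function
`kummerFun N χ = E^χ₁₂ / (2Δ)` is holomorphic on `ℍ`, satisfies `h(γτ) = χ(γ) h(τ)`, belongs to the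
S24 ring `holN N` (expansions in `exp(2πiτ/N)` at all cusps) and has a simple pole with leading
coefficient `1` at `i∞` (in `q = exp(2πiτ)`).

The first part is abstract: any holomorphic function with a parabolic character and moderate growth
belongs to `holN N`.
-/

set_option autoImplicit false

noncomputable section

open UpperHalfPlane EisensteinSeries ModularForm Filter Topology HahnSeries ModularCurve
open scoped Matrix MatrixGroups Manifold

namespace Fermat.Agent.S29.H332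

open Fermat.Agent.S24 Fermat.Agent.S24.H997 Fermat.Agent.S24.H624

local notation "Δ" => ModularForm.discriminant

/-! ### Conjugates of translations -/

/-- `g T^w g⁻¹` has trace `2`. -/
theorem trace_conj_T_zpow (g : SL(2, ℤ)) (w : ℤ) :
    (g * ModularGroup.T ^ w * g⁻¹ : SL(2, ℤ)).1.trace = 2 := by
  rw [Matrix.SpecialLinearGroup.coe_mul, Matrix.SpecialLinearGroup.coe_mul, Matrix.trace_mul_comm,
    ← Matrix.mul_assoc, ← Matrix.SpecialLinearGroup.coe_mul, inv_mul_cancel,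
    Matrix.SpecialLinearGroup.coe_one, Matrix.one_mul, ModularGroup.coe_T_zpow]
  simp [Matrix.trace_fin_two]

/-- `g T^N g⁻¹ ∈ Γ₀(N)` for every `g ∈ SL(2,ℤ)`. -/
theorem conj_T_zpow_mem_Gamma0 (N : ℕ) (g : SL(2, ℤ)) (m : ℤ) :
    g * ModularGroup.T ^ ((N : ℤ) * m) * g⁻¹ ∈ CongruenceSubgroup.Gamma0 N := by
  rw [CongruenceSubgroup.Gamma0_mem]
  have h : (g * ModularGroup.T ^ ((N : ℤ) * m) * g⁻¹ : SL(2, ℤ)).1 1 0
      = -((N : ℤ) * m * (g.1 1 0) ^ 2) := by
    rw [Matrix.SpecialLinearGroup.coe_mul, Matrix.SpecialLinearGroup.coe_mul,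
      ModularGroup.coe_T_zpow, Matrix.SpecialLinearGroup.coe_inv, Matrix.adjugate_fin_two]
    simp [Matrix.mul_apply, Fin.sum_univ_two]
    ring
  rw [h]
  push_cast
  simp

/-! ### The discriminant -/

theorem mdiff_delta : MDiff Δ := CuspForm.discriminant.holo'

theorem mdiff_delta_pow (m : ℕ) : MDiff (fun τ : ℍ => Δ τ ^ m) := by
  induction m with
  | zero => simpa using (mdifferentiable_const : MDiff (fun _ : ℍ => (1 : ℂ)))
  | succ m ih =>
    have := ih.mul mdiff_delta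
    have e : (fun τ : ℍ => Δ τ ^ (m + 1)) = (fun τ => Δ τ ^ m) * Δ := by
      funext τ
      simp [pow_succ]
    rw [e]
    exact this

theorem delta_slash (γ : SL(2, ℤ)) : Δ ∣[(12 : ℤ)] γ = Δ := by
  have := SlashInvariantFormClass.slash_action_eq CuspForm.discriminant
    (Matrix.SpecialLinearGroup.mapGL ℝ γ) ⟨γ, rfl⟩
  rw [CuspForm.coe_discriminant] at this
  rw [ModularForm.SL_slash]
  exact this

theorem delta_smul (γ : SL(2, ℤ)) (τ : ℍ) : Δ (γ • τ) = denom γ τ ^ (12 : ℤ) * Δ τ := by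
  have h := congrFun (delta_slash γ) τ
  rw [SL_slash_apply] at h
  have hd : denom γ τ ≠ 0 := denom_ne_zero γ τ
  rw [← h, mul_comm, mul_assoc, ← zpow_add₀ hd]
  simp

theorem delta_vadd (n : ℤ) (τ : ℍ) : Δ ((n : ℝ) +ᵥ τ) = Δ τ := by
  have h := delta_smul (ModularGroup.T ^ n) τ
  rw [denom_T_zpow, one_zpow, one_mul, UpperHalfPlane.modular_T_zpow_smul] at h
  exact h

/-- A function on `ℍ` invariant under `τ ↦ τ + N` gives an `N`-periodic function on `ℂ`. -/
theorem periodic_comp_ofComplex_of_vadd {f : ℍ → ℂ} {N : ℕ}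
    (h : ∀ τ : ℍ, f (((N : ℤ) : ℝ) +ᵥ τ) = f τ) :
    Function.Periodic (f ∘ ofComplex) (N : ℝ) := by
  intro z
  simp only [Function.comp_apply]
  by_cases hz : 0 < z.im
  · have hz' : 0 < (z + (N : ℝ)).im := by simpa using hz
    rw [ofComplex_apply_of_im_pos hz, ofComplex_apply_of_im_pos hz']
    rw [← h ⟨z, hz⟩]
    congr 1
    apply UpperHalfPlane.ext
    simp [add_comm]
  · have hz' : ¬ 0 < (z + (N : ℝ)).im := by simpa using hz
    rw [ofComplex_apply_eq_of_im_nonpos (not_lt.mp hz') (not_lt.mp hz)]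

theorem infExp_deltaInv (N : ℕ) [NeZero N] :
    InfExp N (fun τ : ℍ => (Δ τ)⁻¹) (qExpand ℂ N Fermat.Agent.S28.H568.dInvS) := by
  have hN : 0 < N := Nat.pos_of_ne_zero (NeZero.ne N)
  have h := Fermat.Agent.S28.H568.infExp_delta_inv_aff (N := N) (e := N) 0 one_pos one_pos hN
    (by ring)
  rw [infRoot_zero, infTwist_one] at h
  exact h.congr fun τ => by rw [infAff_one_zero_one]

/-! ### Functions with a parabolic character -/

section Character

variable {N : ℕ} [NeZero N]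

/-- `χ` is trivial on all elements of `Γ₀(N)` of trace `±2` (cusp stabilisers and `-1`). -/
def ParTrivial (χ : CongruenceSubgroup.Gamma0 N →* ℂˣ) : Prop :=
  ∀ γ : CongruenceSubgroup.Gamma0 N,
    ((γ : SL(2, ℤ)).1.trace = 2 ∨ (γ : SL(2, ℤ)).1.trace = -2) → χ γ = 1

/-- `h(γ τ) = χ(γ) h(τ)` for all `γ ∈ Γ₀(N)`. -/
def HasCharacter (χ : CongruenceSubgroup.Gamma0 N →* ℂˣ) (h : ℍ → ℂ) : Prop :=
  ∀ (γ : CongruenceSubgroup.Gamma0 N) (τ : ℍ), h ((γ : SL(2, ℤ)) • τ) = (χ γ : ℂ) * h τ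

variable {χ : CongruenceSubgroup.Gamma0 N →* ℂˣ} {h : ℍ → ℂ}

omit [NeZero N] in
/-- If `g T^w g⁻¹ ∈ Γ₀(N)`, then `h ∘ g` is invariant under `τ ↦ τ + w` (local parameter of width
`w` at the cusp `g∞`). -/
theorem HasCharacter.compSL_T_zpow (hh : HasCharacter χ h) (hχ : ParTrivial χ) (g : SL(2, ℤ))
    (w : ℤ) (hw : g * ModularGroup.T ^ w * g⁻¹ ∈ CongruenceSubgroup.Gamma0 N) (τ : ℍ) :
    compSL g h (ModularGroup.T ^ w • τ) = compSL g h τ := by
  have h1 : g • (ModularGroup.T ^ w • τ) = (g * ModularGroup.T ^ w * g⁻¹) • (g • τ) := by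
    rw [← mul_smul, ← mul_smul, mul_assoc, mul_assoc, inv_mul_cancel, mul_one]
  have h2 := hh ⟨_, hw⟩ (g • τ)
  rw [hχ ⟨_, hw⟩ (Or.inl (trace_conj_T_zpow g w))] at h2
  simp only [compSL_apply]
  rw [h1, h2, Units.val_one, one_mul]

omit [NeZero N] in
/-- `h ∘ g` is `w`-periodic if `g T^w g⁻¹ ∈ Γ₀(N)`. -/
theorem HasCharacter.compSL_vadd (hh : HasCharacter χ h) (hχ : ParTrivial χ) (g : SL(2, ℤ))
    (w : ℕ) (hw : g * ModularGroup.T ^ (w : ℤ) * g⁻¹ ∈ CongruenceSubgroup.Gamma0 N)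
    (τ : ℍ) : compSL g h (((w : ℤ) : ℝ) +ᵥ τ) = compSL g h τ := by
  have := hh.compSL_T_zpow hχ g (w : ℤ) hw τ
  rwa [UpperHalfPlane.modular_T_zpow_smul] at this

omit [NeZero N] in
theorem HasCharacter.periodic (hh : HasCharacter χ h) (hχ : ParTrivial χ) (g : SL(2, ℤ))
    (w : ℕ) (hw : g * ModularGroup.T ^ (w : ℤ) * g⁻¹ ∈ CongruenceSubgroup.Gamma0 N) :
    Function.Periodic (compSL g h ∘ ofComplex) (w : ℝ) :=
  periodic_comp_ofComplex_of_vadd (hh.compSL_vadd hχ g w hw)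

/-- The expansion of `h ∘ g` in the local parameter of width `w`, as an explicit Laurent series
(`m` = a bound for the pole order in units of `Δ⁻¹`). -/
def cuspExp (h : ℍ → ℂ) (m : ℕ) (g : SL(2, ℤ)) (w : ℕ) [NeZero w] : LaurentSeries ℂ :=
  qExpand ℂ w Fermat.Agent.S28.H568.dInvS ^ m *
    HahnSeries.ofPowerSeries ℤ ℂ
      (UpperHalfPlane.qExpansion (w : ℝ) (fun τ => Δ τ ^ m * compSL g h τ))

omit [NeZero N] in
/-- Expansion at the cusp `g∞` in the local parameter of width `w` (any `w` with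
`g T^w g⁻¹ ∈ Γ₀(N)`): a holomorphic function with a parabolic character such that
`Δ^m · (h ∘ g)` is bounded at `i∞` has a Laurent expansion in `exp(2πiτ/w)`. -/
theorem HasCharacter.infExp_cuspExp (hh : HasCharacter χ h) (hχ : ParTrivial χ)
    (hhol : MDiff h) (m : ℕ) (g : SL(2, ℤ)) (w : ℕ) [NeZero w]
    (hw : g * ModularGroup.T ^ (w : ℤ) * g⁻¹ ∈ CongruenceSubgroup.Gamma0 N)
    (hbd : IsBoundedAtImInfty (fun τ => Δ τ ^ m * compSL g h τ)) :
    InfExp w (compSL g h) (cuspExp h m g w) := by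
  have hN : (0 : ℝ) < w := by exact_mod_cast Nat.pos_of_ne_zero (NeZero.ne w)
  set F : ℍ → ℂ := fun τ => Δ τ ^ m * compSL g h τ with hF
  have hcomp : MDiff (compSL g h) := (precompSL g ⟨h, hhol⟩).2
  have hFhol : MDiff F := (mdiff_delta_pow m).mul hcomp
  have hFper : Function.Periodic (F ∘ ofComplex) (w : ℝ) := by
    intro z
    have h1 := hh.periodic hχ g w hw z
    have h2 := periodic_comp_ofComplex_of_vadd (f := Δ) (N := w) (fun τ => delta_vadd w τ) z
    simp only [Function.comp_apply, hF] at h1 h2 ⊢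
    rw [h1, h2]
  have hsum := fun τ => UpperHalfPlane.hasSum_qExpansion hN hFper hFhol hbd τ
  have hP : InfPExp w F (UpperHalfPlane.qExpansion (w : ℝ) F) := by
    intro τ
    simpa [infZ, smul_eq_mul] using hsum τ
  have hE : InfExp w F (HahnSeries.ofPowerSeries ℤ ℂ (UpperHalfPlane.qExpansion (w : ℝ) F)) := by
    have := hP.infExp 0
    simp only [zpow_zero, one_mul] at this
    have e : (HahnSeries.single (0 : ℤ) (1 : ℂ)) = 1 := rfl
    rwa [e, one_mul] at this
  have hDinv : InfExp w (fun τ => (Δ τ)⁻¹ ^ m)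
      (qExpand ℂ w Fermat.Agent.S28.H568.dInvS ^ m) :=
    Fermat.Agent.S28.H568.InfExp.pow' (infExp_deltaInv w) m
  have : compSL g h = fun τ => (Δ τ)⁻¹ ^ m * F τ := by
    funext τ
    simp only [hF]
    have hΔ : Δ τ ≠ 0 := ModularForm.discriminant_ne_zero τ
    rw [← mul_assoc, ← mul_pow, inv_mul_cancel₀ hΔ, one_pow, one_mul]
  rw [this]
  exact hDinv.mul hE

/-- Abstract membership criterion at one cusp. -/
theorem HasCharacter.compSL_mem_expRing (hh : HasCharacter χ h) (hχ : ParTrivial χ)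
    (hhol : MDiff h) (m : ℕ) (g : SL(2, ℤ))
    (hbd : IsBoundedAtImInfty (fun τ => Δ τ ^ m * compSL g h τ)) :
    compSL g h ∈ expRing N :=
  (hh.infExp_cuspExp hχ hhol m g N (by simpa using conj_T_zpow_mem_Gamma0 N g 1) hbd).mem_expRing

/-- Abstract membership criterion: a holomorphic function with a parabolic character such that
`Δ^m · (h ∘ g)` is bounded at `i∞` for every `g ∈ SL(2,ℤ)` lies in the S24 ring `holN N`. -/
theorem HasCharacter.mem_holN (hh : HasCharacter χ h) (hχ : ParTrivial χ)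
    (hhol : MDiff h) (m : ℕ)
    (hbd : ∀ g : SL(2, ℤ), IsBoundedAtImInfty (fun τ => Δ τ ^ m * compSL g h τ)) :
    h ∈ holN N :=
  ⟨hhol, fun g => hh.compSL_mem_expRing hχ hhol m g (hbd g)⟩

omit [NeZero N] in
/-- Powers: `h ^ p` has character `χ ^ p`; in particular it is `Γ₀(N)`-invariant if `χ ^ p = 1`. -/
theorem HasCharacter.pow_invariant (hh : HasCharacter χ h) {p : ℕ}
    (hp : ∀ γ, χ γ ^ p = 1) (γ : CongruenceSubgroup.Gamma0 N) (τ : ℍ) :
    h ((γ : SL(2, ℤ)) • τ) ^ p = h τ ^ p := by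
  rw [hh γ τ, mul_pow, ← Units.val_pow_eq_pow_val, hp γ, Units.val_one, one_mul]

end Character

/-! ### The Kummer function -/

section Kummer

variable (N : ℕ) [NeZero N] (χ : CongruenceSubgroup.Gamma0 N →* ℂˣ)

/-- The Kummer function `E^χ₁₂ / (2Δ)`. -/
def kummerFun : ℍ → ℂ :=
  fun τ => twistedEis (CongruenceSubgroup.Gamma0 N) χ 12 τ / (2 * Δ τ)

variable {N χ}

omit [NeZero N] in
theorem ParTrivial.trivialOnUnipotent (hχ : ParTrivial χ) : TrivialOnUnipotent χ := by
  intro γ hγ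
  apply hχ γ
  left
  have h10 : (γ : SL(2, ℤ)).1 1 0 = 0 := by
    have := congrFun hγ 0
    simpa [botRow] using this
  have h11 : (γ : SL(2, ℤ)).1 1 1 = 1 := by
    have := congrFun hγ 1
    simpa [botRow] using this
  have hdet := (γ : SL(2, ℤ)).det_coe
  rw [Matrix.det_fin_two, h10, h11, mul_zero, sub_zero, mul_one] at hdet
  rw [Matrix.trace_fin_two, hdet, h11]
  rfl

omit [NeZero N] in
theorem ParTrivial.neg_one (hχ : ParTrivial χ)
    (hneg : (-1 : SL(2, ℤ)) ∈ CongruenceSubgroup.Gamma0 N) : χ ⟨-1, hneg⟩ = 1 := by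
  apply hχ
  right
  simp [Matrix.trace_fin_two]

omit [NeZero N] in
theorem neg_one_mem_Gamma0 : (-1 : SL(2, ℤ)) ∈ CongruenceSubgroup.Gamma0 N := by
  rw [CongruenceSubgroup.Gamma0_mem]
  simp

omit [NeZero N] in
theorem compSL_kummerFun (g : SL(2, ℤ)) :
    compSL g (kummerFun N χ)
      = fun τ => (twistedEis (CongruenceSubgroup.Gamma0 N) χ 12 ∣[(12 : ℤ)] g) τ / (2 * Δ τ) := by
  funext τ
  have hd : denom g τ ≠ 0 := denom_ne_zero g τ
  have hΔ : Δ τ ≠ 0 := ModularForm.discriminant_ne_zero τ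
  simp only [compSL_apply, kummerFun]
  rw [SL_slash_apply, delta_smul, zpow_neg]
  field_simp

omit [NeZero N] in
theorem hasCharacter_kummerFun (hχ : ParTrivial χ) : HasCharacter χ (kummerFun N χ) := by
  intro γ τ
  have h := congrFun (compSL_kummerFun (N := N) (χ := χ) (γ : SL(2, ℤ))) τ
  rw [compSL_apply] at h
  rw [h, twistedEis_slash hχ.trivialOnUnipotent]
  simp only [Pi.smul_apply, smul_eq_mul, kummerFun]
  ring

omit [NeZero N] in
theorem mdiff_kummerFun (hχ : ParTrivial χ) (hnorm : ∀ γ, ‖(χ γ : ℂ)‖ = 1) :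
    MDiff (kummerFun N χ) := by
  have hE : MDiff (twistedEis (CongruenceSubgroup.Gamma0 N) χ 12) :=
    twistedEis_mdifferentiable hχ.trivialOnUnipotent hnorm (by norm_num)
  rw [UpperHalfPlane.mdifferentiable_iff] at hE ⊢
  have hΔ := UpperHalfPlane.mdifferentiable_iff.mp mdiff_delta
  have h2 : DifferentiableOn ℂ (fun z => 2 * (Δ ∘ ofComplex) z) {z : ℂ | 0 < z.im} :=
    hΔ.const_mul 2
  refine (hE.div h2 ?_).congr ?_
  · intro z hz
    exact mul_ne_zero two_ne_zero (ModularForm.discriminant_ne_zero _)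
  · intro z hz
    simp [kummerFun]

omit [NeZero N] in
theorem isBoundedAtImInfty_delta_mul_kummerFun (hχ : ParTrivial χ)
    (hnorm : ∀ γ, ‖(χ γ : ℂ)‖ = 1) (g : SL(2, ℤ)) :
    IsBoundedAtImInfty (fun τ => Δ τ ^ 1 * compSL g (kummerFun N χ) τ) := by
  have hE := twistedEis_slash_isBoundedAtImInfty hχ.trivialOnUnipotent hnorm
    (k := 12) (by norm_num) g
  have : (fun τ => Δ τ ^ 1 * compSL g (kummerFun N χ) τ)
      = (fun _ : ℍ => (1 / 2 : ℂ)) * (twistedEis (CongruenceSubgroup.Gamma0 N) χ 12 ∣[(12 : ℤ)] g) := by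
    funext τ
    have hΔ : Δ τ ≠ 0 := ModularForm.discriminant_ne_zero τ
    rw [compSL_kummerFun]
    simp only [Pi.mul_apply, pow_one]
    field_simp
  rw [this]
  exact (Filter.const_boundedAtFilter _ _).mul hE

/-- **K1**: the Kummer function lies in the S24 ring `holN N`. -/
theorem kummerFun_mem_holN (hχ : ParTrivial χ) (hnorm : ∀ γ, ‖(χ γ : ℂ)‖ = 1) :
    kummerFun N χ ∈ holN N :=
  (hasCharacter_kummerFun hχ).mem_holN hχ (mdiff_kummerFun hχ hnorm) 1
    (isBoundedAtImInfty_delta_mul_kummerFun hχ hnorm)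

/-! ### The expansion of the Kummer function at `i∞` -/

omit [NeZero N] in
theorem T_mem_Gamma0 :
    (1 : SL(2, ℤ)) * ModularGroup.T ^ ((1 : ℕ) : ℤ) * (1 : SL(2, ℤ))⁻¹
      ∈ CongruenceSubgroup.Gamma0 N := by
  rw [CongruenceSubgroup.Gamma0_mem]
  simp [ModularGroup.T]

omit [NeZero N] in
theorem delta_mul_kummerFun (τ : ℍ) :
    Δ τ ^ 1 * compSL 1 (kummerFun N χ) τ
      = twistedEis (CongruenceSubgroup.Gamma0 N) χ 12 τ / 2 := by
  have hΔ : Δ τ ≠ 0 := ModularForm.discriminant_ne_zero τ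
  rw [compSL_one]
  simp only [kummerFun, pow_one]
  field_simp

omit [NeZero N] in
theorem tendsto_delta_mul_kummerFun (hχ : ParTrivial χ) (hnorm : ∀ γ, ‖(χ γ : ℂ)‖ = 1) :
    Tendsto (fun τ => Δ τ ^ 1 * compSL 1 (kummerFun N χ) τ) atImInfty (𝓝 1) := by
  have h := tendsto_twistedEis_two hχ.trivialOnUnipotent hnorm (k := 12) (by norm_num)
    (by decide) neg_one_mem_Gamma0 (hχ.neg_one _)
  have h2 := h.div_const 2
  rw [div_self (two_ne_zero)] at h2
  refine h2.congr fun τ => ?_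
  rw [delta_mul_kummerFun]

variable (N χ) in
/-- The expansion of the Kummer function at `i∞` in `q = exp(2πiτ)`. -/
def kummerExp : LaurentSeries ℂ := cuspExp (kummerFun N χ) 1 1 1

omit [NeZero N] in
theorem infExp_kummerFun (hχ : ParTrivial χ) (hnorm : ∀ γ, ‖(χ γ : ℂ)‖ = 1) :
    InfExp 1 (kummerFun N χ) (kummerExp N χ) := by
  have h := (hasCharacter_kummerFun hχ).infExp_cuspExp hχ (mdiff_kummerFun hχ hnorm) 1 1 1
    T_mem_Gamma0 (isBoundedAtImInfty_delta_mul_kummerFun hχ hnorm 1)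
  rwa [compSL_one] at h

omit [NeZero N] in
theorem coeff_zero_qExpansion_kummer (hχ : ParTrivial χ) (hnorm : ∀ γ, ‖(χ γ : ℂ)‖ = 1) :
    (UpperHalfPlane.qExpansion ((1 : ℕ) : ℝ)
      (fun τ => Δ τ ^ 1 * compSL 1 (kummerFun N χ) τ)).coeff 0 = 1 := by
  have hper : Function.Periodic ((fun τ => Δ τ ^ 1 * compSL 1 (kummerFun N χ) τ) ∘ ofComplex)
      ((1 : ℕ) : ℝ) := by
    intro z
    have h1 := (hasCharacter_kummerFun hχ).periodic hχ 1 1 T_mem_Gamma0 z
    have h2 := periodic_comp_ofComplex_of_vadd (f := Δ) (N := 1) (fun τ => delta_vadd (1 : ℕ) τ) z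
    simp only [Function.comp_apply] at h1 h2 ⊢
    rw [h1, h2]
  have hhol : MDiff (fun τ => Δ τ ^ 1 * compSL 1 (kummerFun N χ) τ) :=
    (mdiff_delta_pow 1).mul (precompSL 1 ⟨_, mdiff_kummerFun hχ hnorm⟩).2
  have han := UpperHalfPlane.analyticAt_cuspFunction_zero (h := ((1 : ℕ) : ℝ)) (by norm_num)
    hper hhol (isBoundedAtImInfty_delta_mul_kummerFun hχ hnorm 1)
  rw [UpperHalfPlane.qExpansion_coeff_zero (by norm_num) han hper]
  exact (tendsto_delta_mul_kummerFun hχ hnorm).limUnder_eq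

omit [NeZero N] in
theorem kummerExp_eq (hχ : ParTrivial χ) (hnorm : ∀ γ, ‖(χ γ : ℂ)‖ = 1) :
    (kummerExp N χ).order = -1 ∧ (kummerExp N χ).leadingCoeff = 1 := by
  set ψ := UpperHalfPlane.qExpansion ((1 : ℕ) : ℝ)
      (fun τ => Δ τ ^ 1 * compSL 1 (kummerFun N χ) τ) with hψ
  have hc : PowerSeries.coeff 0 ψ = 1 := coeff_zero_qExpansion_kummer hχ hnorm
  have hord : ψ.order = ((0 : ℕ) : ℕ∞) := by
    rw [PowerSeries.order_eq_nat]
    exact ⟨by rw [hc]; exact one_ne_zero, fun i hi => absurd hi (Nat.not_lt_zero i)⟩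
  have h1 : (HahnSeries.ofPowerSeries ℤ ℂ ψ).order = 0 := by
    simpa using order_ofPowerSeries hord
  have h2 : (HahnSeries.ofPowerSeries ℤ ℂ ψ).leadingCoeff = 1 := by
    rw [leadingCoeff_ofPowerSeries hord, hc]
  have h3 : (qExpand ℂ 1 Fermat.Agent.S28.H568.dInvS ^ 1).order = -1 := by
    rw [pow_one, inf_qExpand_order, Fermat.Agent.S28.H568.dInvS_order]
    simp
  have h4 : (qExpand ℂ 1 Fermat.Agent.S28.H568.dInvS ^ 1).leadingCoeff = 1 := by
    rw [pow_one, inf_qExpand_leadingCoeff, Fermat.Agent.S28.H568.dInvS_leadingCoeff]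
  have hx : (qExpand ℂ 1 Fermat.Agent.S28.H568.dInvS ^ 1) ≠ 0 := by
    intro h0
    rw [h0] at h4
    simp at h4
  have hy : (HahnSeries.ofPowerSeries ℤ ℂ ψ) ≠ 0 := by
    intro h0
    rw [h0] at h2
    simp at h2
  refine ⟨?_, ?_⟩
  · show (_ * _ : LaurentSeries ℂ).order = -1
    rw [HahnSeries.order_mul hx hy, h3, h1, add_zero]
  · show (_ * _ : LaurentSeries ℂ).leadingCoeff = 1
    rw [HahnSeries.leadingCoeff_mul, h4, h2, one_mul]

omit [NeZero N] in
theorem kummerExp_ne_zero (hχ : ParTrivial χ) (hnorm : ∀ γ, ‖(χ γ : ℂ)‖ = 1) :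
    kummerExp N χ ≠ 0 := by
  intro h0
  have := (kummerExp_eq hχ hnorm).2
  rw [h0] at this
  simp at this

omit [NeZero N] in
theorem kummerFun_ne_zero (hχ : ParTrivial χ) (hnorm : ∀ γ, ‖(χ γ : ℂ)‖ = 1) :
    kummerFun N χ ≠ 0 := by
  intro h0
  have h := infExp_kummerFun hχ hnorm
  rw [h0] at h
  exact kummerExp_ne_zero hχ hnorm (InfExp.eq_zero h)

/-- The expansion in `exp(2πiτ/N)` (the S24 `qexp`). -/
theorem infExp_kummerFun_level (hχ : ParTrivial χ) (hnorm : ∀ γ, ‖(χ γ : ℂ)‖ = 1) :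
    InfExp N (kummerFun N χ) (qExpand ℂ N (kummerExp N χ)) := by
  have hN : (N : ℂ) ≠ 0 := by exact_mod_cast NeZero.ne N
  have h := (infExp_kummerFun hχ hnorm).subst (N := N) (fun τ => τ) 1 N (fun τ => by
    rw [infZ_def, infZ_def, Units.val_one, one_mul, ← Complex.exp_nat_mul]
    congr 1
    push_cast
    field_simp)
  rwa [infTwist_one] at h

theorem expInf_kummerFun (hχ : ParTrivial χ) (hnorm : ∀ γ, ‖(χ γ : ℂ)‖ = 1) :
    expInf N (holToExp N ⟨kummerFun N χ, kummerFun_mem_holN hχ hnorm⟩)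
      = qExpand ℂ N (kummerExp N χ) :=
  (infExp_kummerFun_level hχ hnorm).expInf_eq

end Kummer


end Fermat.Agent.S29.H332

end
end
-- ===== PACK-END S29/H332/KummerFun.lean

-- ===== PACK-BEGIN S29/H332/Growth.lean
section




/-!
# S29 / M4b / K1 → K2 bridge: `holN N` ⊆ exponential growth, and `h ^ p ∈ goodRing N`

* `expGrowth_of_infExp` : a convergent Laurent expansion in `exp(2πiτ/N)` gives the S24 `ExpGrowth`
  bound on all of `im τ ≥ 1`;
* `mem_goodRing_of_mem_holN` : a `Γ₀(N)`-invariant element of the S24 ring `holN N` lies in the S24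
  ring `goodRing N` (the input of helper882's MERO);
* `kummerFun_pow_mem_goodRing`, `hasQExp_kummerFun_pow`.
-/

set_option autoImplicit false

noncomputable section

open UpperHalfPlane HahnSeries ModularCurve Complex
open scoped Real MatrixGroups Manifold

namespace Fermat.Agent.S29.H332

open Fermat.Agent.S24 Fermat.Agent.S24.H997 Fermat.Agent.S24.H624 Fermat.Agent.S24.H648

variable {N : ℕ} [NeZero N]

omit [NeZero N] in
theorem norm_infZ_eq (τ : ℍ) : ‖infZ N τ‖ = Real.exp (-2 * π * τ.im / N) := by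
  rw [infZ, Function.Periodic.norm_qParam]
  rfl

/-- A convergent power series in `z = exp (2πiτ/N)` is bounded on `‖z‖ ≤ r` for every `r < 1`. -/
theorem exists_bound_of_infPExp_of_lt {g : ℍ → ℂ} {ψ : PowerSeries ℂ} (h : InfPExp N g ψ)
    {r : ℝ} (hr0 : 0 < r) (hr1 : r < 1) :
    ∃ C : ℝ, ∀ τ : ℍ, ‖infZ N τ‖ ≤ r → ‖g τ‖ ≤ C := by
  obtain ⟨ρ, hrρ, hρ1⟩ : ∃ ρ, r < ρ ∧ ρ < 1 := exists_between hr1
  have hρ0 : 0 < ρ := hr0.trans hrρ
  obtain ⟨τ₀, hτ₀⟩ := exists_infZ_eq N (z := ((ρ : ℝ) : ℂ))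
    (by exact_mod_cast hρ0.ne')
    (by rw [Complex.norm_real, Real.norm_eq_abs, abs_of_pos hρ0]; exact hρ1)
  have h0 := h τ₀
  rw [hτ₀] at h0
  have hterm := h0.summable.tendsto_atTop_zero
  obtain ⟨B, hB⟩ := (Metric.isBounded_range_of_tendsto _ hterm).exists_norm_le
  have hB' : ∀ n : ℕ, ‖PowerSeries.coeff n ψ‖ * ρ ^ n ≤ B := by
    intro n
    have := hB _ ⟨n, rfl⟩
    rwa [norm_mul, norm_pow, Complex.norm_real, Real.norm_eq_abs, abs_of_pos hρ0] at this
  have hB0 : 0 ≤ B := le_trans (by positivity) (hB' 0)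
  have hq0 : 0 ≤ r / ρ := by positivity
  have hq1 : r / ρ < 1 := (div_lt_one hρ0).mpr hrρ
  refine ⟨B * (1 - r / ρ)⁻¹, fun τ hτ => ?_⟩
  have hgeo : HasSum (fun n : ℕ => B * (r / ρ) ^ n) (B * (1 - r / ρ)⁻¹) :=
    (hasSum_geometric_of_lt_one hq0 hq1).mul_left B
  rw [← (h τ).tsum_eq]
  refine tsum_of_norm_bounded hgeo fun n => ?_
  rw [norm_mul, norm_pow]
  have h1 : ‖infZ N τ‖ ^ n ≤ r ^ n := pow_le_pow_left₀ (norm_nonneg _) hτ n
  calc ‖PowerSeries.coeff n ψ‖ * ‖infZ N τ‖ ^ n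
      ≤ ‖PowerSeries.coeff n ψ‖ * r ^ n :=
        mul_le_mul_of_nonneg_left h1 (norm_nonneg _)
    _ = (‖PowerSeries.coeff n ψ‖ * ρ ^ n) * (r / ρ) ^ n := by
        have e : ρ * (r / ρ) = r := by field_simp
        rw [mul_assoc, ← mul_pow, e]
    _ ≤ B * (r / ρ) ^ n := mul_le_mul_of_nonneg_right (hB' n) (by positivity)

/-- A function with a convergent Laurent expansion in `exp (2πiτ/N)` satisfies the S24
`ExpGrowth` bound (on all of `im τ ≥ 1`). -/
theorem expGrowth_of_infExp {f : ℍ → ℂ} {φ : LaurentSeries ℂ} (h : InfExp N f φ) :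
    ExpGrowth f := by
  have hN : (0 : ℝ) < N := by exact_mod_cast Nat.pos_of_ne_zero (NeZero.ne N)
  have hN1 : (1 : ℝ) ≤ N := by exact_mod_cast Nat.one_le_iff_ne_zero.mpr (NeZero.ne N)
  set r : ℝ := Real.exp (-2 * π / N) with hr
  have hr0 : 0 < r := Real.exp_pos _
  have hr1 : r < 1 := by
    rw [hr, Real.exp_lt_one_iff]
    have : 0 < 2 * π / N := by positivity
    have e : -2 * π / N = -(2 * π / N) := by ring
    rw [e]
    linarith
  obtain ⟨C, hC⟩ := exists_bound_of_infPExp_of_lt h.powerSeriesPart hr0 hr1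
  refine ⟨C, (-φ.order).toNat, fun τ hτ => ?_⟩
  have hz0 : infZ N τ ≠ 0 := infZ_ne_zero N τ
  have hzpos : 0 < ‖infZ N τ‖ := norm_pos_iff.mpr hz0
  have hzle : ‖infZ N τ‖ ≤ r := by
    rw [norm_infZ_eq, hr]
    apply Real.exp_le_exp.mpr
    have hpi := Real.pi_pos
    rw [div_le_div_iff_of_pos_right hN]
    nlinarith
  have hg := hC τ hzle
  rw [norm_mul, norm_zpow] at hg
  have hf : ‖f τ‖ = ‖infZ N τ‖ ^ φ.order * (‖infZ N τ‖ ^ (-φ.order) * ‖f τ‖) := by
    rw [← mul_assoc, ← zpow_add₀ hzpos.ne', add_neg_cancel, zpow_zero, one_mul]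
  have hC0 : 0 ≤ C := le_trans (by positivity) hg
  have hpow : ‖infZ N τ‖ ^ φ.order ≤ Real.exp (2 * π * ((-φ.order).toNat : ℕ) * τ.im) := by
    have hz1 : ‖infZ N τ‖ ≤ 1 := hzle.trans hr1.le
    have hle : -(((-φ.order).toNat : ℕ) : ℤ) ≤ φ.order := by
      have := Int.self_le_toNat (-φ.order)
      omega
    have h1 : ‖infZ N τ‖ ^ φ.order ≤ ‖infZ N τ‖ ^ (-(((-φ.order).toNat : ℕ) : ℤ)) :=
      zpow_le_zpow_right_of_le_one₀ hzpos hz1 hle
    refine h1.trans ?_
    rw [zpow_neg, zpow_natCast, ← inv_pow, norm_infZ_eq, ← Real.exp_neg, ← Real.exp_nat_mul]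
    apply Real.exp_le_exp.mpr
    have him : 0 < τ.im := τ.im_pos
    have hm0 : (0 : ℝ) ≤ ((-φ.order).toNat : ℕ) := Nat.cast_nonneg _
    have hq : 2 * π * τ.im / N ≤ 2 * π * τ.im := by
      rw [div_le_iff₀ hN]
      have : 0 < 2 * π * τ.im := by positivity
      nlinarith
    have : -(-2 * π * τ.im / N) = 2 * π * τ.im / N := by ring
    rw [this]
    calc (((-φ.order).toNat : ℕ) : ℝ) * (2 * π * τ.im / N)
        ≤ (((-φ.order).toNat : ℕ) : ℝ) * (2 * π * τ.im) :=
          mul_le_mul_of_nonneg_left hq hm0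
      _ = 2 * π * ((-φ.order).toNat : ℕ) * τ.im := by ring
  rw [hf]
  calc ‖infZ N τ‖ ^ φ.order * (‖infZ N τ‖ ^ (-φ.order) * ‖f τ‖)
      ≤ Real.exp (2 * π * ((-φ.order).toNat : ℕ) * τ.im) * C :=
        mul_le_mul hpow hg (by positivity) (Real.exp_pos _).le
    _ = C * Real.exp (2 * π * ((-φ.order).toNat : ℕ) * τ.im) := mul_comm _ _

/-- A `Γ₀(N)`-invariant element of `holN N` lies in `goodRing N`. -/
theorem mem_goodRing_of_mem_holN {f : ℍ → ℂ} (hf : f ∈ holN N)
    (hinv : ∀ γ ∈ CongruenceSubgroup.Gamma0 N, ∀ τ : ℍ, f (γ • τ) = f τ) :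
    f ∈ goodRing N := by
  refine ⟨hf.1, hinv, fun g => ?_⟩
  obtain ⟨φ, hφ⟩ := hf.2 g
  exact expGrowth_of_infExp hφ

/-- **K1 → MERO**: the `p`-th power of the Kummer function is a good function of level `N`. -/
theorem kummerFun_pow_mem_goodRing {χ : CongruenceSubgroup.Gamma0 N →* ℂˣ} (hχ : ParTrivial χ)
    (hnorm : ∀ γ, ‖(χ γ : ℂ)‖ = 1) {p : ℕ} (hp : ∀ γ, χ γ ^ p = 1) :
    kummerFun N χ ^ p ∈ goodRing N := by
  refine mem_goodRing_of_mem_holN (pow_mem (kummerFun_mem_holN hχ hnorm) p) ?_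
  intro γ hγ τ
  exact (hasCharacter_kummerFun hχ).pow_invariant hp ⟨γ, hγ⟩ τ

/-- `InfExp` (S24 `Inf`) implies `HasQExp` (S24 `H708`) for holomorphic functions. -/
theorem hasQExp_of_infExp {f : ℍ → ℂ} {φ : LaurentSeries ℂ} (hol : MDiff f)
    (h : InfExp N f φ) : Fermat.Agent.S24.H708.HasQExp N f φ :=
  Fermat.Agent.S24.H708.HasQExp.of_hasSum hol h

omit [NeZero N] in
/-- The `q`-expansion of the Kummer function (S24 `H708` form). -/
theorem hasQExp_kummerFun {χ : CongruenceSubgroup.Gamma0 N →* ℂˣ} (hχ : ParTrivial χ)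
    (hnorm : ∀ γ, ‖(χ γ : ℂ)‖ = 1) :
    Fermat.Agent.S24.H708.HasQExp 1 (kummerFun N χ) (kummerExp N χ) :=
  hasQExp_of_infExp (mdiff_kummerFun hχ hnorm) (infExp_kummerFun hχ hnorm)

omit [NeZero N] in
/-- The `q`-expansion of the `p`-th power of the Kummer function. -/
theorem hasQExp_kummerFun_pow {χ : CongruenceSubgroup.Gamma0 N →* ℂˣ} (hχ : ParTrivial χ)
    (hnorm : ∀ γ, ‖(χ γ : ℂ)‖ = 1) (p : ℕ) :
    Fermat.Agent.S24.H708.HasQExp 1 (kummerFun N χ ^ p) (kummerExp N χ ^ p) :=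
  (hasQExp_kummerFun hχ hnorm).pow p

end Fermat.Agent.S29.H332

end
end
-- ===== PACK-END S29/H332/Growth.lean

-- ===== PACK-BEGIN S48/H332/KumGen.lean
section


/-!
# Tower A1 / A1-KUM / K1 — Kummer functions for ANY subgroup `Γ ≤ SL(2,ℤ)` of level `M`

Generic version of `Fermat.Agent.S29.H332.KummerFun` (which is for `Γ₀(N)`): `Γ` is any subgroup of
`SL(2,ℤ)` containing all conjugates of `T ^ M` (e.g. `Γ(M) ≤ Γ`: `Γ₁(M)`, `Γ₀(M)`, `Γ_H`), and
`χ : Γ →* ℂˣ` is a unitary character which is trivial on all elements of trace `±2`.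

* `HasLevel Γ M`, `hasLevel_of_Gamma_le`, `hasLevel_Gamma1`, `hasLevel_Gamma0`;
* `GParTriv χ`, `GHasChar χ h`; `GHasChar.mem_holN` : a holomorphic function with character `χ`
  and moderate growth lies in the S24 ring `holN M` (expansions in `exp(2πiτ/M)` at all cusps);
* `gkfun Γ χ = E^χ₁₂ / (c Δ)` (`c = kumConst Γ χ ∈ {1, 2}`): holomorphic, character `χ`,
  in `holN M`, `Δ · gkfun → 1` at `i∞`, not identically zero, all translates of exponential
  growth; if `T ∈ Γ` the expansion at `i∞` in `q = exp(2πiτ)` has order `-1` and leading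
  coefficient `1`;
* `IsGoodFor Γ f` (holomorphic, `Γ`-invariant, all `SL(2,ℤ)`-translates of exponential growth —
  the analogue of `S24.H648.goodRing N` for `Γ`), `gkfun_pow_isGoodFor`.
-/

set_option autoImplicit false
set_option linter.unusedSectionVars false

noncomputable section

open UpperHalfPlane EisensteinSeries ModularForm Filter Topology HahnSeries ModularCurve
open scoped Matrix MatrixGroups Manifold

namespace Fermat.Agent.S48.H332

open Fermat.Agent.S24 Fermat.Agent.S24.H997 Fermat.Agent.S24.H624 Fermat.Agent.S24.H648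
open Fermat.Agent.S29.H332

local notation "Δ" => ModularForm.discriminant

/-! ### Subgroups of level `M` -/

/-- `Γ` contains all conjugates of the powers of `T ^ M` (true if `Γ(M) ≤ Γ`). -/
def HasLevel (Γ : Subgroup SL(2, ℤ)) (M : ℕ) : Prop :=
  ∀ (g : SL(2, ℤ)) (m : ℤ), g * ModularGroup.T ^ ((M : ℤ) * m) * g⁻¹ ∈ Γ

theorem hasLevel_of_Gamma_le {Γ : Subgroup SL(2, ℤ)} {M : ℕ}
    (h : CongruenceSubgroup.Gamma M ≤ Γ) : HasLevel Γ M := by
  intro g m
  apply h
  have hT : ModularGroup.T ^ ((M : ℤ) * m) ∈ CongruenceSubgroup.Gamma M := by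
    have := CongruenceSubgroup.ModularGroup_T_pow_mem_Gamma (M : ℤ) ((M : ℤ) * m)
      (dvd_mul_right _ _)
    simpa using this
  exact (CongruenceSubgroup.Gamma_normal M).conj_mem _ hT g

theorem gamma_le_Gamma1 (M : ℕ) : CongruenceSubgroup.Gamma M ≤ CongruenceSubgroup.Gamma1 M := by
  intro A hA
  rw [CongruenceSubgroup.Gamma_mem] at hA
  rw [CongruenceSubgroup.Gamma1_mem]
  exact ⟨hA.1, hA.2.2.2, hA.2.2.1⟩

theorem hasLevel_Gamma1 (M : ℕ) : HasLevel (CongruenceSubgroup.Gamma1 M) M :=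
  hasLevel_of_Gamma_le (gamma_le_Gamma1 M)

theorem hasLevel_Gamma0 (M : ℕ) : HasLevel (CongruenceSubgroup.Gamma0 M) M :=
  hasLevel_of_Gamma_le ((gamma_le_Gamma1 M).trans (CongruenceSubgroup.Gamma1_in_Gamma0 M))

theorem HasLevel.mono {Γ Γ' : Subgroup SL(2, ℤ)} {M : ℕ} (h : HasLevel Γ M) (hle : Γ ≤ Γ') :
    HasLevel Γ' M := fun g m => hle (h g m)

theorem HasLevel.conj_T_pow {Γ : Subgroup SL(2, ℤ)} {M : ℕ} (h : HasLevel Γ M) (g : SL(2, ℤ)) :
    g * ModularGroup.T ^ ((M : ℕ) : ℤ) * g⁻¹ ∈ Γ := by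
  simpa using h g 1

/-! ### Functions with a parabolic character -/

section Character

variable {Γ : Subgroup SL(2, ℤ)}

/-- `χ` is trivial on all elements of `Γ` of trace `±2` (cusp stabilisers and `-1`). -/
def GParTriv (χ : Γ →* ℂˣ) : Prop :=
  ∀ γ : Γ, ((γ : SL(2, ℤ)).1.trace = 2 ∨ (γ : SL(2, ℤ)).1.trace = -2) → χ γ = 1

/-- `h(γ τ) = χ(γ) h(τ)` for all `γ ∈ Γ`. -/
def GHasChar (χ : Γ →* ℂˣ) (h : ℍ → ℂ) : Prop :=
  ∀ (γ : Γ) (τ : ℍ), h ((γ : SL(2, ℤ)) • τ) = (χ γ : ℂ) * h τ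

variable {χ : Γ →* ℂˣ} {h : ℍ → ℂ}

/-- If `g T^w g⁻¹ ∈ Γ`, then `h ∘ g` is invariant under `τ ↦ τ + w`. -/
theorem GHasChar.compSL_T_zpow (hh : GHasChar χ h) (hχ : GParTriv χ) (g : SL(2, ℤ))
    (w : ℤ) (hw : g * ModularGroup.T ^ w * g⁻¹ ∈ Γ) (τ : ℍ) :
    compSL g h (ModularGroup.T ^ w • τ) = compSL g h τ := by
  have h1 : g • (ModularGroup.T ^ w • τ) = (g * ModularGroup.T ^ w * g⁻¹) • (g • τ) := by
    rw [← mul_smul, ← mul_smul, mul_assoc, mul_assoc, inv_mul_cancel, mul_one]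
  have h2 := hh ⟨_, hw⟩ (g • τ)
  rw [hχ ⟨_, hw⟩ (Or.inl (trace_conj_T_zpow g w))] at h2
  simp only [compSL_apply]
  rw [h1, h2, Units.val_one, one_mul]

/-- `h ∘ g` is `w`-periodic if `g T^w g⁻¹ ∈ Γ`. -/
theorem GHasChar.compSL_vadd (hh : GHasChar χ h) (hχ : GParTriv χ) (g : SL(2, ℤ))
    (w : ℕ) (hw : g * ModularGroup.T ^ (w : ℤ) * g⁻¹ ∈ Γ)
    (τ : ℍ) : compSL g h (((w : ℤ) : ℝ) +ᵥ τ) = compSL g h τ := by
  have := hh.compSL_T_zpow hχ g (w : ℤ) hw τ
  rwa [UpperHalfPlane.modular_T_zpow_smul] at this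

theorem GHasChar.periodic (hh : GHasChar χ h) (hχ : GParTriv χ) (g : SL(2, ℤ))
    (w : ℕ) (hw : g * ModularGroup.T ^ (w : ℤ) * g⁻¹ ∈ Γ) :
    Function.Periodic (compSL g h ∘ ofComplex) (w : ℝ) :=
  periodic_comp_ofComplex_of_vadd (hh.compSL_vadd hχ g w hw)

/-- Expansion at the cusp `g∞` in the local parameter of width `w` (any `w` with
`g T^w g⁻¹ ∈ Γ`): a holomorphic function with a parabolic character such that
`Δ^m · (h ∘ g)` is bounded at `i∞` has a Laurent expansion in `exp(2πiτ/w)`. -/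
theorem GHasChar.infExp_cuspExp (hh : GHasChar χ h) (hχ : GParTriv χ)
    (hhol : MDiff h) (m : ℕ) (g : SL(2, ℤ)) (w : ℕ) [NeZero w]
    (hw : g * ModularGroup.T ^ (w : ℤ) * g⁻¹ ∈ Γ)
    (hbd : IsBoundedAtImInfty (fun τ => Δ τ ^ m * compSL g h τ)) :
    InfExp w (compSL g h) (cuspExp h m g w) := by
  have hN : (0 : ℝ) < w := by exact_mod_cast Nat.pos_of_ne_zero (NeZero.ne w)
  set F : ℍ → ℂ := fun τ => Δ τ ^ m * compSL g h τ with hF
  have hcomp : MDiff (compSL g h) := (precompSL g ⟨h, hhol⟩).2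
  have hFhol : MDiff F := (mdiff_delta_pow m).mul hcomp
  have hFper : Function.Periodic (F ∘ ofComplex) (w : ℝ) := by
    intro z
    have h1 := hh.periodic hχ g w hw z
    have h2 := periodic_comp_ofComplex_of_vadd (f := Δ) (N := w) (fun τ => delta_vadd w τ) z
    simp only [Function.comp_apply, hF] at h1 h2 ⊢
    rw [h1, h2]
  have hsum := fun τ => UpperHalfPlane.hasSum_qExpansion hN hFper hFhol hbd τ
  have hP : InfPExp w F (UpperHalfPlane.qExpansion (w : ℝ) F) := by
    intro τ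
    simpa [infZ, smul_eq_mul] using hsum τ
  have hE : InfExp w F (HahnSeries.ofPowerSeries ℤ ℂ (UpperHalfPlane.qExpansion (w : ℝ) F)) := by
    have := hP.infExp 0
    simp only [zpow_zero, one_mul] at this
    have e : (HahnSeries.single (0 : ℤ) (1 : ℂ)) = 1 := rfl
    rwa [e, one_mul] at this
  have hDinv : InfExp w (fun τ => (Δ τ)⁻¹ ^ m)
      (qExpand ℂ w Fermat.Agent.S28.H568.dInvS ^ m) :=
    Fermat.Agent.S28.H568.InfExp.pow' (infExp_deltaInv w) m
  have : compSL g h = fun τ => (Δ τ)⁻¹ ^ m * F τ := by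
    funext τ
    simp only [hF]
    have hΔ : Δ τ ≠ 0 := ModularForm.discriminant_ne_zero τ
    rw [← mul_assoc, ← mul_pow, inv_mul_cancel₀ hΔ, one_pow, one_mul]
  rw [this]
  exact hDinv.mul hE

/-- Abstract membership criterion at one cusp. -/
theorem GHasChar.compSL_mem_expRing {M : ℕ} [NeZero M] (hΓ : HasLevel Γ M)
    (hh : GHasChar χ h) (hχ : GParTriv χ)
    (hhol : MDiff h) (m : ℕ) (g : SL(2, ℤ))
    (hbd : IsBoundedAtImInfty (fun τ => Δ τ ^ m * compSL g h τ)) :
    compSL g h ∈ expRing M :=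
  (hh.infExp_cuspExp hχ hhol m g M (hΓ.conj_T_pow g) hbd).mem_expRing

/-- Abstract membership criterion: a holomorphic function with a parabolic character of a group
of level `M` such that `Δ^m · (h ∘ g)` is bounded at `i∞` for every `g ∈ SL(2,ℤ)` lies in the S24
ring `holN M`. -/
theorem GHasChar.mem_holN {M : ℕ} [NeZero M] (hΓ : HasLevel Γ M)
    (hh : GHasChar χ h) (hχ : GParTriv χ)
    (hhol : MDiff h) (m : ℕ)
    (hbd : ∀ g : SL(2, ℤ), IsBoundedAtImInfty (fun τ => Δ τ ^ m * compSL g h τ)) :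
    h ∈ holN M :=
  ⟨hhol, fun g => hh.compSL_mem_expRing hΓ hχ hhol m g (hbd g)⟩

/-- Powers: `h ^ p` is `Γ`-invariant if `χ ^ p = 1`. -/
theorem GHasChar.pow_invariant (hh : GHasChar χ h) {p : ℕ}
    (hp : ∀ γ, χ γ ^ p = 1) (γ : Γ) (τ : ℍ) :
    h ((γ : SL(2, ℤ)) • τ) ^ p = h τ ^ p := by
  rw [hh γ τ, mul_pow, ← Units.val_pow_eq_pow_val, hp γ, Units.val_one, one_mul]

/-- `h ∘ g` is invariant under `δ` if `g δ g⁻¹ ∈ Γ` and `χ (g δ g⁻¹) = 1`. -/
theorem GHasChar.compSL_compSL (hh : GHasChar χ h) (g δ : SL(2, ℤ))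
    (hδ : g * δ * g⁻¹ ∈ Γ) (hχ : χ ⟨_, hδ⟩ = 1) :
    compSL δ (compSL g h) = compSL g h := by
  funext τ
  simp only [compSL_apply]
  have h1 : g • (δ • τ) = (g * δ * g⁻¹) • (g • τ) := by
    rw [← mul_smul, ← mul_smul, mul_assoc, mul_assoc, inv_mul_cancel, mul_one]
  have h2 := hh ⟨_, hδ⟩ (g • τ)
  rw [hχ, Units.val_one, one_mul] at h2
  rw [h1, h2]

/-- `χ` is trivial on the elements of finite order. -/
def GEllTriv (χ : Γ →* ℂˣ) : Prop :=
  ∀ (γ : Γ) (n : ℕ), 0 < n → γ ^ n = 1 → χ γ = 1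

/-- Conjugates of elements of finite order have finite order. -/
theorem GEllTriv.conj (hχ : GEllTriv χ) {ε : SL(2, ℤ)} {n : ℕ} (hn : 0 < n) (hε : ε ^ n = 1)
    (g : SL(2, ℤ)) (k : ℕ) (hk : g * ε ^ k * g⁻¹ ∈ Γ) :
    χ ⟨_, hk⟩ = 1 := by
  refine hχ _ n hn ?_
  apply Subtype.ext
  rw [SubgroupClass.coe_pow, Subgroup.coe_mk, OneMemClass.coe_one]
  have : (g * ε ^ k * g⁻¹) ^ n = g * (ε ^ k) ^ n * g⁻¹ := conj_pow
  rw [this, ← pow_mul, mul_comm, pow_mul, hε, one_pow, mul_one, mul_inv_cancel]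

/-- Conjugates of powers of `T` are parabolic. -/
theorem GParTriv.conj_T (hχ : GParTriv χ) (g : SL(2, ℤ)) (k : ℕ)
    (hk : g * ModularGroup.T ^ k * g⁻¹ ∈ Γ) :
    χ ⟨_, hk⟩ = 1 := by
  apply hχ
  left
  have := trace_conj_T_zpow g (k : ℤ)
  rwa [zpow_natCast] at this

end Character

/-! ### Good functions for `Γ` -/

/-- The analogue of `S24.H648.goodRing N` for a subgroup `Γ`: holomorphic, `Γ`-invariant, all
`SL(2,ℤ)`-translates of at most exponential growth at `i∞`. -/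
def IsGoodFor (Γ : Subgroup SL(2, ℤ)) (f : ℍ → ℂ) : Prop :=
  MDiff f ∧ (∀ γ ∈ Γ, ∀ τ : ℍ, f (γ • τ) = f τ) ∧
    ∀ g : SL(2, ℤ), ExpGrowth (fun τ => f (g • τ))

theorem isGoodFor_Gamma0_iff {N : ℕ} {f : ℍ → ℂ} :
    IsGoodFor (CongruenceSubgroup.Gamma0 N) f ↔ f ∈ goodRing N := Iff.rfl

theorem IsGoodFor.mono {Γ Γ' : Subgroup SL(2, ℤ)} {f : ℍ → ℂ} (h : IsGoodFor Γ' f)
    (hle : Γ ≤ Γ') : IsGoodFor Γ f :=
  ⟨h.1, fun γ hγ τ => h.2.1 γ (hle hγ) τ, h.2.2⟩

/-- A `Γ`-invariant element of `holN M` is good for `Γ`. -/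
theorem isGoodFor_of_mem_holN {Γ : Subgroup SL(2, ℤ)} {M : ℕ} [NeZero M] {f : ℍ → ℂ}
    (hf : f ∈ holN M) (hinv : ∀ γ ∈ Γ, ∀ τ : ℍ, f (γ • τ) = f τ) : IsGoodFor Γ f := by
  refine ⟨hf.1, hinv, fun g => ?_⟩
  obtain ⟨φ, hφ⟩ := hf.2 g
  exact expGrowth_of_infExp hφ

/-- Every element of `holN M` has all its translates of exponential growth. -/
theorem expGrowth_of_mem_holN {M : ℕ} [NeZero M] {f : ℍ → ℂ} (hf : f ∈ holN M)
    (g : SL(2, ℤ)) : ExpGrowth (fun τ => f (g • τ)) := by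
  obtain ⟨φ, hφ⟩ := hf.2 g
  exact expGrowth_of_infExp hφ

/-! ### The Kummer function -/

section Kummer

variable (Γ : Subgroup SL(2, ℤ)) (χ : Γ →* ℂˣ)

/-- The value at `i∞` of the twisted Eisenstein series of even weight: `1` or `2`. -/
def kumConst : ℂ := 1 + twistWeight Γ χ ![0, -1]

/-- The Kummer function `E^χ₁₂ / (c Δ)`. -/
def gkfun : ℍ → ℂ :=
  fun τ => twistedEis Γ χ 12 τ / (kumConst Γ χ * Δ τ)

variable {Γ χ}

theorem GParTriv.trivialOnUnipotent (hχ : GParTriv χ) : TrivialOnUnipotent χ := by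
  intro γ hγ
  apply hχ γ
  left
  have h10 : (γ : SL(2, ℤ)).1 1 0 = 0 := by
    have := congrFun hγ 0
    simpa [botRow] using this
  have h11 : (γ : SL(2, ℤ)).1 1 1 = 1 := by
    have := congrFun hγ 1
    simpa [botRow] using this
  have hdet := (γ : SL(2, ℤ)).det_coe
  rw [Matrix.det_fin_two, h10, h11, mul_zero, sub_zero, mul_one] at hdet
  rw [Matrix.trace_fin_two, hdet, h11]
  rfl

theorem twistWeight_neg_eq (hχ : GParTriv χ) :
    twistWeight Γ χ ![0, -1] = 0 ∨ twistWeight Γ χ ![0, -1] = 1 := by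
  by_cases h : ∃ γ : Γ, botRow (γ : SL(2, ℤ)) = ![0, -1]
  · right
    obtain ⟨γ, hγ⟩ := h
    have h1 := twistWeight_botRow hχ.trivialOnUnipotent γ
    rw [hγ] at h1
    have h10 : (γ : SL(2, ℤ)).1 1 0 = 0 := by
      have := congrFun hγ 0
      simpa [botRow] using this
    have h11 : (γ : SL(2, ℤ)).1 1 1 = -1 := by
      have := congrFun hγ 1
      simpa [botRow] using this
    have hdet := (γ : SL(2, ℤ)).det_coe
    rw [Matrix.det_fin_two, h10, h11, mul_zero, sub_zero] at hdet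
    have htr : (γ : SL(2, ℤ)).1.trace = -2 := by
      rw [Matrix.trace_fin_two, h11]
      linarith
    rw [h1, hχ γ (Or.inr htr), inv_one, Units.val_one]
  · left
    exact twistWeight_of_not _ h

theorem kumConst_ne_zero (hχ : GParTriv χ) : kumConst Γ χ ≠ 0 := by
  unfold kumConst
  rcases twistWeight_neg_eq hχ with h | h <;> rw [h] <;> norm_num

theorem compSL_gkfun (g : SL(2, ℤ)) :
    compSL g (gkfun Γ χ)
      = fun τ => (twistedEis Γ χ 12 ∣[(12 : ℤ)] g) τ / (kumConst Γ χ * Δ τ) := by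
  funext τ
  have hd : denom g τ ≠ 0 := denom_ne_zero g τ
  have hΔ : Δ τ ≠ 0 := ModularForm.discriminant_ne_zero τ
  simp only [compSL_apply, gkfun]
  rw [SL_slash_apply, delta_smul, zpow_neg]
  by_cases hc : kumConst Γ χ = 0
  · simp [hc]
  · field_simp

theorem gHasChar_gkfun (hχ : GParTriv χ) : GHasChar χ (gkfun Γ χ) := by
  intro γ τ
  have h := congrFun (compSL_gkfun (Γ := Γ) (χ := χ) (γ : SL(2, ℤ))) τ
  rw [compSL_apply] at h
  rw [h, twistedEis_slash hχ.trivialOnUnipotent]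
  simp only [Pi.smul_apply, smul_eq_mul, gkfun]
  ring

theorem mdiff_gkfun (hχ : GParTriv χ) (hnorm : ∀ γ, ‖(χ γ : ℂ)‖ = 1) :
    MDiff (gkfun Γ χ) := by
  have hE : MDiff (twistedEis Γ χ 12) :=
    twistedEis_mdifferentiable hχ.trivialOnUnipotent hnorm (by norm_num)
  rw [UpperHalfPlane.mdifferentiable_iff] at hE ⊢
  have hΔ := UpperHalfPlane.mdifferentiable_iff.mp mdiff_delta
  have h2 : DifferentiableOn ℂ (fun z => kumConst Γ χ * (Δ ∘ ofComplex) z) {z : ℂ | 0 < z.im} :=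
    hΔ.const_mul _
  refine (hE.div h2 ?_).congr ?_
  · intro z hz
    exact mul_ne_zero (kumConst_ne_zero hχ) (ModularForm.discriminant_ne_zero _)
  · intro z hz
    simp [gkfun]

theorem isBoundedAtImInfty_delta_mul_gkfun (hχ : GParTriv χ)
    (hnorm : ∀ γ, ‖(χ γ : ℂ)‖ = 1) (g : SL(2, ℤ)) :
    IsBoundedAtImInfty (fun τ => Δ τ ^ 1 * compSL g (gkfun Γ χ) τ) := by
  have hE := twistedEis_slash_isBoundedAtImInfty hχ.trivialOnUnipotent hnorm
    (k := 12) (by norm_num) g
  have : (fun τ => Δ τ ^ 1 * compSL g (gkfun Γ χ) τ)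
      = (fun _ : ℍ => (kumConst Γ χ)⁻¹) * (twistedEis Γ χ 12 ∣[(12 : ℤ)] g) := by
    funext τ
    have hΔ : Δ τ ≠ 0 := ModularForm.discriminant_ne_zero τ
    have hc := kumConst_ne_zero hχ
    rw [compSL_gkfun]
    simp only [Pi.mul_apply, pow_one]
    field_simp
  rw [this]
  exact (Filter.const_boundedAtFilter _ _).mul hE

/-- **K1 (generic)**: the Kummer function lies in the S24 ring `holN M`. -/
theorem gkfun_mem_holN {M : ℕ} [NeZero M] (hΓ : HasLevel Γ M) (hχ : GParTriv χ)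
    (hnorm : ∀ γ, ‖(χ γ : ℂ)‖ = 1) :
    gkfun Γ χ ∈ holN M :=
  (gHasChar_gkfun hχ).mem_holN hΓ hχ (mdiff_gkfun hχ hnorm) 1
    (isBoundedAtImInfty_delta_mul_gkfun hχ hnorm)

theorem delta_mul_gkfun (hχ : GParTriv χ) (τ : ℍ) :
    Δ τ ^ 1 * compSL 1 (gkfun Γ χ) τ = twistedEis Γ χ 12 τ / kumConst Γ χ := by
  have hΔ : Δ τ ≠ 0 := ModularForm.discriminant_ne_zero τ
  have hc := kumConst_ne_zero hχ
  rw [compSL_one]
  simp only [gkfun, pow_one]
  field_simp

theorem tendsto_delta_mul_gkfun (hχ : GParTriv χ) (hnorm : ∀ γ, ‖(χ γ : ℂ)‖ = 1) :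
    Tendsto (fun τ => Δ τ ^ 1 * compSL 1 (gkfun Γ χ) τ) atImInfty (𝓝 1) := by
  have h := tendsto_twistedEis hχ.trivialOnUnipotent hnorm (k := 12) (by norm_num)
  have e : (1 : ℂ) + (-1) ^ (12 : ℤ) * twistWeight Γ χ ![0, -1] = kumConst Γ χ := by
    unfold kumConst
    norm_num
  rw [e] at h
  have h2 := h.div_const (kumConst Γ χ)
  rw [div_self (kumConst_ne_zero hχ)] at h2
  refine h2.congr fun τ => ?_
  rw [delta_mul_gkfun hχ]

/-- The Kummer function is not identically zero. -/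
theorem gkfun_ne_zero (hχ : GParTriv χ) (hnorm : ∀ γ, ‖(χ γ : ℂ)‖ = 1) :
    gkfun Γ χ ≠ 0 := by
  intro h0
  have h := tendsto_delta_mul_gkfun hχ hnorm
  have h' : (fun τ : ℍ => Δ τ ^ 1 * compSL 1 (gkfun Γ χ) τ) = fun _ => (0 : ℂ) := by
    funext τ
    rw [h0, compSL_one]
    simp
  rw [h'] at h
  have := tendsto_nhds_unique h tendsto_const_nhds
  exact one_ne_zero this

theorem exists_gkfun_ne_zero (hχ : GParTriv χ) (hnorm : ∀ γ, ‖(χ γ : ℂ)‖ = 1) :
    ∃ τ : ℍ, gkfun Γ χ τ ≠ 0 := by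
  by_contra hne
  exact gkfun_ne_zero hχ hnorm (funext fun τ => by_contra fun h => hne ⟨τ, h⟩)

/-- All translates of the Kummer function have exponential growth. -/
theorem expGrowth_gkfun {M : ℕ} [NeZero M] (hΓ : HasLevel Γ M) (hχ : GParTriv χ)
    (hnorm : ∀ γ, ‖(χ γ : ℂ)‖ = 1) (g : SL(2, ℤ)) :
    ExpGrowth (fun τ => gkfun Γ χ (g • τ)) :=
  expGrowth_of_mem_holN (gkfun_mem_holN hΓ hχ hnorm) g

/-- **K1 → MERO (generic)**: the `p`-th power of the Kummer function is good for `Γ`. -/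
theorem gkfun_pow_isGoodFor {M : ℕ} [NeZero M] (hΓ : HasLevel Γ M) (hχ : GParTriv χ)
    (hnorm : ∀ γ, ‖(χ γ : ℂ)‖ = 1) {p : ℕ} (hp : ∀ γ, χ γ ^ p = 1) :
    IsGoodFor Γ (gkfun Γ χ ^ p) := by
  refine isGoodFor_of_mem_holN (pow_mem (gkfun_mem_holN hΓ hχ hnorm) p) ?_
  intro γ hγ τ
  exact (gHasChar_gkfun hχ).pow_invariant hp ⟨γ, hγ⟩ τ

/-! ### The expansion at `i∞` when `T ∈ Γ` -/

variable (Γ χ) in
/-- The expansion of the Kummer function at `i∞` in `q = exp(2πiτ)` (meaningful if `T ∈ Γ`). -/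
def gkexp : LaurentSeries ℂ := cuspExp (gkfun Γ χ) 1 1 1

theorem T_conj_mem (hT : ModularGroup.T ∈ Γ) :
    (1 : SL(2, ℤ)) * ModularGroup.T ^ ((1 : ℕ) : ℤ) * (1 : SL(2, ℤ))⁻¹ ∈ Γ := by
  simpa using hT

theorem infExp_gkfun (hT : ModularGroup.T ∈ Γ) (hχ : GParTriv χ)
    (hnorm : ∀ γ, ‖(χ γ : ℂ)‖ = 1) :
    InfExp 1 (gkfun Γ χ) (gkexp Γ χ) := by
  have h := (gHasChar_gkfun hχ).infExp_cuspExp hχ (mdiff_gkfun hχ hnorm) 1 1 1
    (T_conj_mem hT) (isBoundedAtImInfty_delta_mul_gkfun hχ hnorm 1)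
  rwa [compSL_one] at h

theorem coeff_zero_qExpansion_gkfun (hT : ModularGroup.T ∈ Γ) (hχ : GParTriv χ)
    (hnorm : ∀ γ, ‖(χ γ : ℂ)‖ = 1) :
    (UpperHalfPlane.qExpansion ((1 : ℕ) : ℝ)
      (fun τ => Δ τ ^ 1 * compSL 1 (gkfun Γ χ) τ)).coeff 0 = 1 := by
  have hper : Function.Periodic ((fun τ => Δ τ ^ 1 * compSL 1 (gkfun Γ χ) τ) ∘ ofComplex)
      ((1 : ℕ) : ℝ) := by
    intro z
    have h1 := (gHasChar_gkfun hχ).periodic hχ 1 1 (T_conj_mem hT) z
    have h2 := periodic_comp_ofComplex_of_vadd (f := Δ) (N := 1) (fun τ => delta_vadd (1 : ℕ) τ) z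
    simp only [Function.comp_apply] at h1 h2 ⊢
    rw [h1, h2]
  have hhol : MDiff (fun τ => Δ τ ^ 1 * compSL 1 (gkfun Γ χ) τ) :=
    (mdiff_delta_pow 1).mul (precompSL 1 ⟨_, mdiff_gkfun hχ hnorm⟩).2
  have han := UpperHalfPlane.analyticAt_cuspFunction_zero (h := ((1 : ℕ) : ℝ)) (by norm_num)
    hper hhol (isBoundedAtImInfty_delta_mul_gkfun hχ hnorm 1)
  rw [UpperHalfPlane.qExpansion_coeff_zero (by norm_num) han hper]
  exact (tendsto_delta_mul_gkfun hχ hnorm).limUnder_eq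

theorem gkexp_eq (hT : ModularGroup.T ∈ Γ) (hχ : GParTriv χ)
    (hnorm : ∀ γ, ‖(χ γ : ℂ)‖ = 1) :
    (gkexp Γ χ).order = -1 ∧ (gkexp Γ χ).leadingCoeff = 1 := by
  set ψ := UpperHalfPlane.qExpansion ((1 : ℕ) : ℝ)
      (fun τ => Δ τ ^ 1 * compSL 1 (gkfun Γ χ) τ) with hψ
  have hc : PowerSeries.coeff 0 ψ = 1 := coeff_zero_qExpansion_gkfun hT hχ hnorm
  have hord : ψ.order = ((0 : ℕ) : ℕ∞) := by
    rw [PowerSeries.order_eq_nat]
    exact ⟨by rw [hc]; exact one_ne_zero, fun i hi => absurd hi (Nat.not_lt_zero i)⟩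
  have h1 : (HahnSeries.ofPowerSeries ℤ ℂ ψ).order = 0 := by
    simpa using order_ofPowerSeries hord
  have h2 : (HahnSeries.ofPowerSeries ℤ ℂ ψ).leadingCoeff = 1 := by
    rw [leadingCoeff_ofPowerSeries hord, hc]
  have h3 : (qExpand ℂ 1 Fermat.Agent.S28.H568.dInvS ^ 1).order = -1 := by
    rw [pow_one, inf_qExpand_order, Fermat.Agent.S28.H568.dInvS_order]
    simp
  have h4 : (qExpand ℂ 1 Fermat.Agent.S28.H568.dInvS ^ 1).leadingCoeff = 1 := by
    rw [pow_one, inf_qExpand_leadingCoeff, Fermat.Agent.S28.H568.dInvS_leadingCoeff]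
  have hx : (qExpand ℂ 1 Fermat.Agent.S28.H568.dInvS ^ 1) ≠ 0 := by
    intro h0
    rw [h0] at h4
    simp at h4
  have hy : (HahnSeries.ofPowerSeries ℤ ℂ ψ) ≠ 0 := by
    intro h0
    rw [h0] at h2
    simp at h2
  refine ⟨?_, ?_⟩
  · show (_ * _ : LaurentSeries ℂ).order = -1
    rw [HahnSeries.order_mul hx hy, h3, h1, add_zero]
  · show (_ * _ : LaurentSeries ℂ).leadingCoeff = 1
    rw [HahnSeries.leadingCoeff_mul, h4, h2, one_mul]

theorem gkexp_ne_zero (hT : ModularGroup.T ∈ Γ) (hχ : GParTriv χ)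
    (hnorm : ∀ γ, ‖(χ γ : ℂ)‖ = 1) :
    gkexp Γ χ ≠ 0 := by
  intro h0
  have := (gkexp_eq hT hχ hnorm).2
  rw [h0] at this
  simp at this

/-- The `q`-expansion of the Kummer function (S24 `H708` form). -/
theorem hasQExp_gkfun (hT : ModularGroup.T ∈ Γ) (hχ : GParTriv χ)
    (hnorm : ∀ γ, ‖(χ γ : ℂ)‖ = 1) :
    Fermat.Agent.S24.H708.HasQExp 1 (gkfun Γ χ) (gkexp Γ χ) :=
  hasQExp_of_infExp (mdiff_gkfun hχ hnorm) (infExp_gkfun hT hχ hnorm)

/-- The `q`-expansion of the `p`-th power of the Kummer function. -/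
theorem hasQExp_gkfun_pow (hT : ModularGroup.T ∈ Γ) (hχ : GParTriv χ)
    (hnorm : ∀ γ, ‖(χ γ : ℂ)‖ = 1) (p : ℕ) :
    Fermat.Agent.S24.H708.HasQExp 1 (gkfun Γ χ ^ p) (gkexp Γ χ ^ p) :=
  (hasQExp_gkfun hT hχ hnorm).pow p

theorem T_mem_Gamma1 (M : ℕ) : ModularGroup.T ∈ CongruenceSubgroup.Gamma1 M := by
  rw [CongruenceSubgroup.Gamma1_mem]
  simp [ModularGroup.T]

end Kummer

end Fermat.Agent.S48.H332

end
end
-- ===== PACK-END S48/H332/KumGen.lean

-- ===== PACK-BEGIN S48/H332/KumGenChar.lean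
section


/-!
# Tower A1 / A1-KUM / K1 — twisted functions for additive characters `Γ → ℤ/m`, generic `Γ`

For ANY subgroup `Γ ≤ SL(2,ℤ)` of level `M` (`HasLevel Γ M`, e.g. `Γ(M) ≤ Γ`) and any additive map
`c : Γ → ZMod m` (`m ≥ 1`) vanishing on all elements of trace `±2`:

* `GIsParAdd.char` : the character `γ ↦ exp(2πi c(γ)/m)`;
* `GIsParAdd.tfun` : the twisted function `U_c = E^{χ_c}₁₂ / (cΔ)`;
* **`exists_twisted`** (generic piece K1): there is `U : ℍ → ℂ`, holomorphic, not identically zero,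
  `U(γτ) = ζ_m ^ c(γ) · U(τ)` (`ζ_m = exp(2πi/m)`), `U ∈ holN M`, every `SL(2,ℤ)`-translate of
  `U` of exponential growth, and `U ^ m` good for `Γ`.
* `exists_twisted_Gamma1` : the same for `Γ₁(M)`, with the `q`-expansion at `i∞` (simple pole,
  leading coefficient `1`).
-/

set_option autoImplicit false
set_option linter.unusedSectionVars false

noncomputable section

open UpperHalfPlane HahnSeries ModularCurve Complex
open scoped Real MatrixGroups Manifold

namespace Fermat.Agent.S48.H332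

open Fermat.Agent.S24 Fermat.Agent.S24.H997 Fermat.Agent.S24.H624 Fermat.Agent.S24.H648
open Fermat.Agent.S29.H332

variable {Γ : Subgroup SL(2, ℤ)} {m : ℕ} [NeZero m]

/-- An additive character `Γ → ℤ/m` vanishing on the elements of trace `±2`. -/
structure GIsParAdd (c : Γ → ZMod m) : Prop where
  map_mul : ∀ γ γ' : Γ, c (γ * γ') = c γ + c γ'
  parabolic : ∀ γ : Γ,
    ((γ : SL(2, ℤ)).1.trace = 2 ∨ (γ : SL(2, ℤ)).1.trace = -2) → c γ = 0

namespace GIsParAdd

variable {c c' : Γ → ZMod m}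

theorem map_one (hc : GIsParAdd c) : c 1 = 0 := by
  have h := hc.map_mul 1 1
  rw [mul_one] at h
  exact left_eq_add.mp h

/-- The multiplicative character `γ ↦ exp(2πi c(γ)/m)`. -/
def char (hc : GIsParAdd c) : Γ →* ℂˣ :=
  MonoidHom.toHomUnits
    { toFun := fun γ => ZMod.stdAddChar (c γ)
      map_one' := by rw [hc.map_one, AddChar.map_zero_eq_one]
      map_mul' := fun γ γ' => by rw [hc.map_mul, AddChar.map_add_eq_mul] }

@[simp]
theorem char_apply (hc : GIsParAdd c) (γ : Γ) :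
    (hc.char γ : ℂ) = ZMod.stdAddChar (c γ) := rfl

theorem norm_char (hc : GIsParAdd c) (γ : Γ) : ‖(hc.char γ : ℂ)‖ = 1 := by
  rw [char_apply, ZMod.stdAddChar_apply]
  exact Circle.norm_coe _

theorem char_pow (hc : GIsParAdd c) (γ : Γ) : hc.char γ ^ m = 1 := by
  apply Units.ext
  rw [Units.val_pow_eq_pow_val, char_apply, ← AddChar.map_nsmul_eq_pow, Units.val_one]
  have : m • c γ = 0 := by
    rw [nsmul_eq_mul]
    simp
  rw [this, AddChar.map_zero_eq_one]

theorem char_eq_one_iff (hc : GIsParAdd c) (γ : Γ) : hc.char γ = 1 ↔ c γ = 0 := by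
  constructor
  · intro h
    have h1 : (hc.char γ : ℂ) = 1 := by rw [h, Units.val_one]
    rw [char_apply, ← AddChar.map_zero_eq_one (ZMod.stdAddChar (N := m))] at h1
    exact ZMod.injective_stdAddChar h1
  · intro h
    apply Units.ext
    rw [char_apply, h, AddChar.map_zero_eq_one, Units.val_one]

theorem gParTriv (hc : GIsParAdd c) : GParTriv hc.char := by
  intro γ hγ
  rw [char_eq_one_iff]
  exact hc.parabolic γ hγ

theorem gEllTriv (hc : GIsParAdd c)
    (hell : ∀ (γ : Γ) (n : ℕ), 0 < n → γ ^ n = 1 → c γ = 0) :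
    GEllTriv hc.char := by
  intro γ n hn hγ
  rw [char_eq_one_iff]
  exact hell γ n hn hγ

/-- Additive characters to `ℤ/m` kill the elements of finite order prime to `m`. -/
theorem eq_zero_of_pow_eq_one (hc : GIsParAdd c) (γ : Γ) (n : ℕ) (hn : Nat.Coprime n m)
    (hγ : γ ^ n = 1) : c γ = 0 := by
  have hpow : ∀ k : ℕ, c (γ ^ k) = k • c γ := by
    intro k
    induction k with
    | zero => simpa using hc.map_one
    | succ k ih => rw [pow_succ, hc.map_mul, ih, succ_nsmul]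
  have h1 : n • c γ = 0 := by rw [← hpow, hγ, hc.map_one]
  have h2 : m • c γ = 0 := by
    rw [nsmul_eq_mul]
    simp
  obtain ⟨a, b, hab⟩ : ∃ a b : ℤ, a * n + b * m = 1 := by
    have := Int.gcd_eq_gcd_ab (n : ℤ) (m : ℤ)
    have hg : Int.gcd (n : ℤ) (m : ℤ) = 1 := by
      rw [Int.gcd_natCast_natCast]
      exact hn
    rw [hg] at this
    exact ⟨Int.gcdA n m, Int.gcdB n m, by push_cast at this; linarith⟩
  have : c γ = (a * n + b * m) • c γ := by rw [hab, one_smul]
  rw [this, add_smul, mul_smul, mul_smul, natCast_zsmul, natCast_zsmul, h1, h2]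
  simp

theorem add (hc : GIsParAdd c) (hc' : GIsParAdd c') : GIsParAdd (c + c') where
  map_mul γ γ' := by
    simp only [Pi.add_apply, hc.map_mul, hc'.map_mul]
    abel
  parabolic γ hγ := by
    simp only [Pi.add_apply, hc.parabolic γ hγ, hc'.parabolic γ hγ, add_zero]

theorem char_add (hc : GIsParAdd c) (hc' : GIsParAdd c') :
    (hc.add hc').char = hc.char * hc'.char := by
  ext γ
  simp [AddChar.map_add_eq_mul]

/-- The twisted function of an additive parabolic character. -/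
def tfun (hc : GIsParAdd c) : ℍ → ℂ := gkfun Γ hc.char

/-- Its `q`-expansion at `i∞` (meaningful if `T ∈ Γ`). -/
def texp (hc : GIsParAdd c) : LaurentSeries ℂ := gkexp Γ hc.char

theorem mdiff_tfun (hc : GIsParAdd c) : MDiff hc.tfun :=
  mdiff_gkfun hc.gParTriv hc.norm_char

theorem tfun_mem_holN {M : ℕ} [NeZero M] (hΓ : HasLevel Γ M) (hc : GIsParAdd c) :
    hc.tfun ∈ holN M :=
  gkfun_mem_holN hΓ hc.gParTriv hc.norm_char

theorem tfun_smul (hc : GIsParAdd c) (γ : Γ) (τ : ℍ) :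
    hc.tfun ((γ : SL(2, ℤ)) • τ) = ZMod.stdAddChar (c γ) * hc.tfun τ :=
  gHasChar_gkfun hc.gParTriv γ τ

theorem gHasChar_tfun (hc : GIsParAdd c) : GHasChar hc.char hc.tfun :=
  gHasChar_gkfun hc.gParTriv

theorem tfun_ne_zero (hc : GIsParAdd c) : hc.tfun ≠ 0 :=
  gkfun_ne_zero hc.gParTriv hc.norm_char

theorem exists_tfun_ne_zero (hc : GIsParAdd c) : ∃ τ : ℍ, hc.tfun τ ≠ 0 :=
  exists_gkfun_ne_zero hc.gParTriv hc.norm_char

theorem expGrowth_tfun {M : ℕ} [NeZero M] (hΓ : HasLevel Γ M) (hc : GIsParAdd c)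
    (g : SL(2, ℤ)) : ExpGrowth (fun τ => hc.tfun (g • τ)) :=
  expGrowth_gkfun hΓ hc.gParTriv hc.norm_char g

theorem tfun_pow_isGoodFor {M : ℕ} [NeZero M] (hΓ : HasLevel Γ M) (hc : GIsParAdd c) :
    IsGoodFor Γ (hc.tfun ^ m) :=
  gkfun_pow_isGoodFor hΓ hc.gParTriv hc.norm_char hc.char_pow

theorem hasQExp_tfun (hT : ModularGroup.T ∈ Γ) (hc : GIsParAdd c) :
    Fermat.Agent.S24.H708.HasQExp 1 hc.tfun hc.texp :=
  hasQExp_gkfun hT hc.gParTriv hc.norm_char

theorem infExp_tfun (hT : ModularGroup.T ∈ Γ) (hc : GIsParAdd c) :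
    InfExp 1 hc.tfun hc.texp :=
  infExp_gkfun hT hc.gParTriv hc.norm_char

theorem texp_order (hT : ModularGroup.T ∈ Γ) (hc : GIsParAdd c) : hc.texp.order = -1 :=
  (gkexp_eq hT hc.gParTriv hc.norm_char).1

theorem texp_leadingCoeff (hT : ModularGroup.T ∈ Γ) (hc : GIsParAdd c) :
    hc.texp.leadingCoeff = 1 :=
  (gkexp_eq hT hc.gParTriv hc.norm_char).2

theorem texp_ne_zero (hT : ModularGroup.T ∈ Γ) (hc : GIsParAdd c) : hc.texp ≠ 0 :=
  gkexp_ne_zero hT hc.gParTriv hc.norm_char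

end GIsParAdd

/-- `exp(2πi/m) ^ (a.val) = stdAddChar a`. -/
theorem exp_pow_val_eq_stdAddChar (a : ZMod m) :
    Complex.exp (2 * Real.pi * Complex.I / m) ^ a.val = ZMod.stdAddChar a := by
  have h := ZMod.stdAddChar_coe (N := m) (a.val : ℤ)
  rw [Int.cast_natCast, ZMod.natCast_zmod_val] at h
  rw [h, ← Complex.exp_nat_mul]
  congr 1
  push_cast
  ring

/-- **Generic piece K1.**  `Γ` any subgroup of `SL(2,ℤ)` of level `M`, `c : Γ → ℤ/m` additive and
zero on the elements of trace `±2`.  Then there is a twisted function of character `c`. -/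
theorem exists_twisted {M : ℕ} [NeZero M] (hΓ : HasLevel Γ M) {c : Γ → ZMod m}
    (hmul : ∀ γ γ' : Γ, c (γ * γ') = c γ + c γ')
    (hpar : ∀ γ : Γ,
      ((γ : SL(2, ℤ)).1.trace = 2 ∨ (γ : SL(2, ℤ)).1.trace = -2) → c γ = 0) :
    ∃ U : ℍ → ℂ, MDiff U ∧ (∃ τ : ℍ, U τ ≠ 0) ∧
      (∀ (γ : Γ) (τ : ℍ), U ((γ : SL(2, ℤ)) • τ)
        = Complex.exp (2 * Real.pi * Complex.I / m) ^ (c γ).val * U τ) ∧
      U ∈ holN M ∧ (∀ g : SL(2, ℤ), ExpGrowth (fun τ => U (g • τ))) ∧
      IsGoodFor Γ (fun τ => U τ ^ m) := by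
  have hc : GIsParAdd c := ⟨hmul, hpar⟩
  refine ⟨hc.tfun, hc.mdiff_tfun, hc.exists_tfun_ne_zero, fun γ τ => ?_, hc.tfun_mem_holN hΓ,
    hc.expGrowth_tfun hΓ, hc.tfun_pow_isGoodFor hΓ⟩
  rw [exp_pow_val_eq_stdAddChar]
  exact hc.tfun_smul γ τ

/-- **Generic piece K1 with `q`-expansion** (`T ∈ Γ`): moreover `U` has a `q`-expansion at `i∞`
(in `q = exp(2πiτ)`) with a simple pole and leading coefficient `1`. -/
theorem exists_twisted_qexp {M : ℕ} [NeZero M] (hΓ : HasLevel Γ M) (hT : ModularGroup.T ∈ Γ)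
    {c : Γ → ZMod m}
    (hmul : ∀ γ γ' : Γ, c (γ * γ') = c γ + c γ')
    (hpar : ∀ γ : Γ,
      ((γ : SL(2, ℤ)).1.trace = 2 ∨ (γ : SL(2, ℤ)).1.trace = -2) → c γ = 0) :
    ∃ (U : ℍ → ℂ) (φ : LaurentSeries ℂ), MDiff U ∧ (∃ τ : ℍ, U τ ≠ 0) ∧
      (∀ (γ : Γ) (τ : ℍ), U ((γ : SL(2, ℤ)) • τ)
        = Complex.exp (2 * Real.pi * Complex.I / m) ^ (c γ).val * U τ) ∧
      U ∈ holN M ∧ (∀ g : SL(2, ℤ), ExpGrowth (fun τ => U (g • τ))) ∧
      IsGoodFor Γ (fun τ => U τ ^ m) ∧
      Fermat.Agent.S24.H708.HasQExp 1 U φ ∧ φ.order = -1 ∧ φ.leadingCoeff = 1 := by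
  have hc : GIsParAdd c := ⟨hmul, hpar⟩
  refine ⟨hc.tfun, hc.texp, hc.mdiff_tfun, hc.exists_tfun_ne_zero, fun γ τ => ?_,
    hc.tfun_mem_holN hΓ, hc.expGrowth_tfun hΓ, hc.tfun_pow_isGoodFor hΓ, hc.hasQExp_tfun hT,
    hc.texp_order hT, hc.texp_leadingCoeff hT⟩
  rw [exp_pow_val_eq_stdAddChar]
  exact hc.tfun_smul γ τ

/-- **Piece K1 for `Γ₁(M)`.** -/
theorem exists_twisted_Gamma1 (M : ℕ) [NeZero M] {c : CongruenceSubgroup.Gamma1 M → ZMod m}
    (hmul : ∀ γ γ' : CongruenceSubgroup.Gamma1 M, c (γ * γ') = c γ + c γ')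
    (hpar : ∀ γ : CongruenceSubgroup.Gamma1 M,
      ((γ : SL(2, ℤ)).1.trace = 2 ∨ (γ : SL(2, ℤ)).1.trace = -2) → c γ = 0) :
    ∃ (U : ℍ → ℂ) (φ : LaurentSeries ℂ), MDiff U ∧ (∃ τ : ℍ, U τ ≠ 0) ∧
      (∀ (γ : CongruenceSubgroup.Gamma1 M) (τ : ℍ), U ((γ : SL(2, ℤ)) • τ)
        = Complex.exp (2 * Real.pi * Complex.I / m) ^ (c γ).val * U τ) ∧
      U ∈ holN M ∧ (∀ g : SL(2, ℤ), ExpGrowth (fun τ => U (g • τ))) ∧
      IsGoodFor (CongruenceSubgroup.Gamma1 M) (fun τ => U τ ^ m) ∧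
      Fermat.Agent.S24.H708.HasQExp 1 U φ ∧ φ.order = -1 ∧ φ.leadingCoeff = 1 :=
  exists_twisted_qexp (hasLevel_Gamma1 M) (T_mem_Gamma1 M) hmul hpar

end Fermat.Agent.S48.H332

end
end
-- ===== PACK-END S48/H332/KumGenChar.lean

-- ===== PACK-BEGIN S48/H332/LeafK1.lean
section



/-!
# Tower A1 / A1-KUM — LEAF `k1` (helper332)

`leafK1 : ∀ (M : ℕ) [NeZero M] (ℓ : ℕ), ℓ.Prime → Kum.PieceK1 (Gamma1 M) ℓ`
= field `k1` of `Kum.Leaves` (`Fermat/Agent/S48/Kum/M4b1.lean`) VERBATIM, and the generic form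
`pieceK1_of_hasLevel` for any subgroup `Γ` of level `M` and any modulus `p ≠ 0`.
-/

set_option autoImplicit false

noncomputable section

open ModularCurve AlgebraicCurve UpperHalfPlane CongruenceSubgroup
open scoped MatrixGroups Manifold

namespace Fermat.Agent.S48.H332

open Fermat.Agent.S24 Fermat.Agent.S29 Fermat.Agent.S48.Kum

/-- **Piece K1, generic**: `Γ` any subgroup of level `M` (all conjugates of `T ^ M` in `Γ`,
e.g. `Γ(M) ≤ Γ`), `p ≠ 0`. -/
theorem pieceK1_of_hasLevel {Γ : Subgroup SL(2, ℤ)} {M : ℕ} [NeZero M] (hΓ : HasLevel Γ M)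
    (p : ℕ) [NeZero p] : PieceK1 Γ p := by
  intro c hc
  obtain ⟨U, hm, hne, hchar, -, -, hgood⟩ := exists_twisted hΓ hc.map_mul hc.parabolic
  exact ⟨U, ⟨hm, hne, fun γ τ => hchar γ τ, hgood⟩⟩

/-- **LEAF `k1`** of `Kum.Leaves`, verbatim. -/
theorem leafK1 (M : ℕ) [NeZero M] (ℓ : ℕ) (hℓ : ℓ.Prime) : PieceK1 (Gamma1 M) ℓ :=
  haveI : NeZero ℓ := ⟨hℓ.ne_zero⟩
  pieceK1_of_hasLevel (hasLevel_Gamma1 M) ℓ

end Fermat.Agent.S48.H332

end
end
-- ===== PACK-END S48/H332/LeafK1.lean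

-- ===== PACK-BEGIN S48/H332/PkgFrac.lean
section


/-!
# Tower A1 / A1-FF, piece PKG-GEN (helper332) — generic function fields `ℚ̄(S) ⊆ ℚ̄((q))`

GENERIC port of `S24/Mod/H997Frac.lean`.  A `GenField` is a set `S` of Laurent series over `ℚ̄`
containing `j`, together with a field `F = ℚ̄(S)` (given up to a propositional equality, so that
`F` may be `laurentBaseChange ℚ̄ F₀` for `F₀ = ℚ(S₀)`, see `laurentBaseChange_adjoin`).

* `GenField.RG`     : the `ℚ̄`-subalgebra generated by `S`;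
* `GenField.inclRG` : the inclusion `RG → F`;
* `GenField.liftF`  : every injective ring hom `RG →+* L` into a field extends to `F →+* L`.
-/

set_option autoImplicit false

noncomputable section

open ModularCurve HahnSeries IntermediateField

namespace Fermat.Agent.S48.H332

open Fermat.Agent.S24 Fermat.Agent.S24.H997

/-- The base change to `ℚ̄` of the field generated over `ℚ` by a set `S₀` of rational Laurent
series is generated over `ℚ̄` by the image of `S₀`. -/
theorem laurentBaseChange_adjoin (S₀ : Set (LaurentSeries ℚ)) :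
    laurentBaseChange Kbar (IntermediateField.adjoin ℚ S₀)
      = IntermediateField.adjoin Kbar (⇑(coeffEmb Kbar) '' S₀) := by
  apply le_antisymm
  · rw [laurentBaseChange, IntermediateField.adjoin_le_iff]
    rintro _ ⟨x, hx, rfl⟩
    have hx' : x ∈ IntermediateField.adjoin ℚ S₀ := hx
    induction hx' using IntermediateField.adjoin_induction with
    | mem y hy => exact IntermediateField.subset_adjoin Kbar _ ⟨y, hy, rfl⟩
    | algebraMap c =>
        have h : coeffEmb Kbar (algebraMap ℚ (LaurentSeries ℚ) c)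
            = algebraMap Kbar (LaurentSeries Kbar) (algebraMap ℚ Kbar c) := by
          rw [algebraMap_apply_eq_single, algebraMap_laurentSeries_eq_single, coeffEmb,
            coeffMap_single]
        show coeffEmb Kbar (algebraMap ℚ (LaurentSeries ℚ) c) ∈ _
        rw [h]
        exact IntermediateField.algebraMap_mem _ _
    | add y z _ _ hy hz =>
        show coeffEmb Kbar (y + z) ∈ _
        rw [map_add]
        exact add_mem (hy (by assumption)) (hz (by assumption))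
    | inv y _ hy =>
        show coeffEmb Kbar (y⁻¹) ∈ _
        rw [map_inv₀]
        exact inv_mem (hy (by assumption))
    | mul y z _ _ hy hz =>
        show coeffEmb Kbar (y * z) ∈ _
        rw [map_mul]
        exact mul_mem (hy (by assumption)) (hz (by assumption))
  · rw [laurentBaseChange]
    exact IntermediateField.adjoin.mono _ _ _
      (Set.image_mono (IntermediateField.subset_adjoin ℚ _))

/-- The series `j ∈ ℚ̄((q))`. -/
def jBar : LaurentSeries Kbar := coeffEmb Kbar jq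

/-- A field `F = ℚ̄(S) ⊆ ℚ̄((q))` generated by a set `S` of Laurent series containing `j`. -/
structure GenField where
  /-- the generators -/
  S : Set (LaurentSeries Kbar)
  /-- the field -/
  F : IntermediateField Kbar (LaurentSeries Kbar)
  hF : F = IntermediateField.adjoin Kbar S
  hj : jBar ∈ S

/-- The generic field attached to a set `S₀` of RATIONAL series containing `jq`:
`F = laurentBaseChange ℚ̄ (ℚ(S₀))`. -/
def GenField.ofRat (S₀ : Set (LaurentSeries ℚ)) (hj : jq ∈ S₀) : GenField where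
  S := ⇑(coeffEmb Kbar) '' S₀
  F := laurentBaseChange Kbar (IntermediateField.adjoin ℚ S₀)
  hF := laurentBaseChange_adjoin S₀
  hj := ⟨jq, hj, rfl⟩

namespace GenField

variable (P : GenField)

/-- The polynomial ring `ℚ̄[S] ⊆ ℚ̄((q))`. -/
def RG : Subalgebra Kbar (LaurentSeries Kbar) := Algebra.adjoin Kbar P.S

theorem subset_F : P.S ⊆ (P.F : Set (LaurentSeries Kbar)) := by
  rw [P.hF]
  exact IntermediateField.subset_adjoin Kbar P.S

theorem RG_le : P.RG ≤ P.F.toSubalgebra := by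
  rw [P.hF]
  exact IntermediateField.algebra_adjoin_le_adjoin Kbar P.S

/-- The inclusion `ℚ̄[S] → F`. -/
def inclRG : P.RG →ₐ[Kbar] P.F := Subalgebra.inclusion P.RG_le

@[simp] theorem coe_inclRG (r : P.RG) : ((P.inclRG r : P.F) : LaurentSeries Kbar) = r := rfl

theorem inclRG_injective : Function.Injective P.inclRG :=
  Subalgebra.inclusion_injective P.RG_le

theorem exists_div_inclRG (f : P.F) :
    ∃ r t : P.RG, t ≠ 0 ∧ f = P.inclRG r / P.inclRG t := by
  have hf : (f : LaurentSeries Kbar) ∈ IntermediateField.adjoin Kbar P.S := by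
    rw [← P.hF]; exact f.2
  obtain ⟨r, hr, s, hs, h⟩ := IntermediateField.mem_adjoin_iff_div.mp hf
  by_cases hs0 : s = 0
  · refine ⟨0, 1, one_ne_zero, ?_⟩
    apply Subtype.ext
    rw [h, hs0, div_zero]
    simp
  · refine ⟨⟨r, hr⟩, ⟨s, hs⟩, fun h0 => hs0 (congrArg Subtype.val h0), ?_⟩
    apply Subtype.ext
    rw [h]
    simp

/-- A generator as an element of `ℚ̄[S]`. -/
def genR {s : LaurentSeries Kbar} (hs : s ∈ P.S) : P.RG := ⟨s, Algebra.subset_adjoin hs⟩

/-- A generator as an element of `F`. -/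
def genF {s : LaurentSeries Kbar} (hs : s ∈ P.S) : P.F := ⟨s, P.subset_F hs⟩

@[simp] theorem inclRG_genR {s : LaurentSeries Kbar} (hs : s ∈ P.S) :
    P.inclRG (P.genR hs) = P.genF hs := rfl

/-- The `j`-function as an element of `F`. -/
def jF : P.F := P.genF P.hj

@[simp] theorem coe_jF : ((P.jF : P.F) : LaurentSeries Kbar) = jBar := rfl

theorem inclRG_genR_j : P.inclRG (P.genR P.hj) = P.jF := rfl

section Lift

variable {P}
variable {L : Type*} [Field L]

/-- Extension of an injective ring hom `ℚ̄[S] →+* L` to the fraction field `F`. -/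
def liftF (s : P.RG →+* L) (hs : Function.Injective s) : P.F →+* L :=
  letI : Algebra P.RG P.F := P.inclRG.toRingHom.toAlgebra
  haveI : FaithfulSMul P.RG P.F :=
    (faithfulSMul_iff_algebraMap_injective _ _).mpr P.inclRG_injective
  haveI : IsFractionRing P.RG P.F :=
    IsFractionRing.of_field _ _ fun z => by
      obtain ⟨r, t, -, h⟩ := P.exists_div_inclRG z
      exact ⟨r, t, h⟩
  IsFractionRing.lift hs

theorem liftF_inclRG (s : P.RG →+* L) (hs : Function.Injective s) (r : P.RG) :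
    _root_.Fermat.Agent.S48.H332.GenField.liftF s hs (P.inclRG r) = s r := by
  let _ : Algebra P.RG P.F := P.inclRG.toRingHom.toAlgebra
  have : FaithfulSMul P.RG P.F :=
    (faithfulSMul_iff_algebraMap_injective _ _).mpr P.inclRG_injective
  have : IsFractionRing P.RG P.F :=
    IsFractionRing.of_field _ _ fun z => by
      obtain ⟨r, t, -, h⟩ := P.exists_div_inclRG z
      exact ⟨r, t, h⟩
  exact IsFractionRing.lift_algebraMap hs r

theorem liftF_div (s : P.RG →+* L) (hs : Function.Injective s) (r t : P.RG) :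
    _root_.Fermat.Agent.S48.H332.GenField.liftF s hs (P.inclRG r / P.inclRG t) = s r / s t := by
  rw [map_div₀, liftF_inclRG, liftF_inclRG]

theorem liftF_algebraMap (s : P.RG →+* L) (hs : Function.Injective s) (c : Kbar) :
    _root_.Fermat.Agent.S48.H332.GenField.liftF s hs (algebraMap Kbar P.F c) = s (algebraMap Kbar P.RG c) := by
  rw [← liftF_inclRG s hs]
  congr 1

end Lift

end GenField

end Fermat.Agent.S48.H332

end
end
-- ===== PACK-END S48/H332/PkgFrac.lean

-- ===== PACK-BEGIN S48/H332/PkgBridge.lean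
section


/-!
# Tower A1 / A1-FF, piece PKG-GEN (helper332) — generic analytic interface and the bridge

GENERIC port of `S24/Mod/H997Bridge.lean`.  `GenBase M Γ P` packages a ring `Hol` of functions
`ℍ → ℂ`, stable under `SL(2,ℤ)`, containing for every generator `s ∈ P.S` an *avatar* `G s`,
invariant under `Γ`, such that the avatars jointly distinguish the cosets of `Γ`, together with ONE
injective expansion ring hom `qexp : Hol →+* ℂ((z))` (expansion at `i∞` in `z = q^{1/M}`) with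
`qexp (G s) = s(z^M)` (coefficients embedded by `ιK`).

From this we construct the *bridge* `e : ℚ̄[S] →+* Hol` (injective, `e s = G s`).
-/

set_option autoImplicit false

noncomputable section

open ModularCurve HahnSeries UpperHalfPlane
open scoped MatrixGroups

namespace Fermat.Agent.S48.H332

open Fermat.Agent.S24 Fermat.Agent.S24.H997

/-- Generic analytic interface: level of the expansion variable `M`, invariance group `Γ`
(necessarily containing `-1`), generated field `P`. -/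
structure GenBase (M : ℕ) [NeZero M] (Γ : Subgroup SL(2, ℤ)) (P : GenField) where
  /-- the ring of nice functions on `ℍ` -/
  Hol : Subring (ℍ → ℂ)
  const_mem : ∀ c : ℂ, (fun _ : ℍ => c) ∈ Hol
  comp_mem : ∀ (g : SL(2, ℤ)) (f : ℍ → ℂ), f ∈ Hol → compSL g f ∈ Hol
  /-- the avatar of a generator -/
  G : LaurentSeries Kbar → ℍ → ℂ
  G_mem : ∀ s, s ∈ P.S → G s ∈ Hol
  G_j_inv : ∀ (g : SL(2, ℤ)) (τ : ℍ), G jBar (g • τ) = G jBar τ
  G_inv : ∀ s, s ∈ P.S → ∀ g ∈ Γ, ∀ τ : ℍ, G s (g • τ) = G s τ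
  G_distinct : ∀ g : SL(2, ℤ), (∀ s, s ∈ P.S → ∀ τ : ℍ, G s (g • τ) = G s τ) → g ∈ Γ
  /-- expansion at `i∞` in the variable `z = q^{1/M}` -/
  qexp : Hol →+* LaurentSeries ℂ
  qexp_injective : Function.Injective qexp
  qexp_const : ∀ c : ℂ, qexp ⟨_, const_mem c⟩ = HahnSeries.C c
  qexp_G : ∀ (s : LaurentSeries Kbar) (hs : s ∈ P.S), qexp ⟨G s, G_mem s hs⟩ = HolBase.Φ M s

namespace GenBase

variable {M : ℕ} [NeZero M] {Γ : Subgroup SL(2, ℤ)} {P : GenField} (B : GenBase M Γ P)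

/-- constant functions as elements of `Hol` -/
def constH (c : ℂ) : B.Hol := ⟨_, B.const_mem c⟩

/-- the avatar of a generator as an element of `Hol` -/
def GH {s : LaurentSeries Kbar} (hs : s ∈ P.S) : B.Hol := ⟨B.G s, B.G_mem s hs⟩

/-- the `j`-function as an element of `Hol` -/
def JH : B.Hol := B.GH P.hj

/-- precomposition with `g ∈ SL(2,ℤ)` as a ring endomorphism of `Hol` -/
def compH (g : SL(2, ℤ)) : B.Hol →+* B.Hol where
  toFun h := ⟨compSL g h.1, B.comp_mem g h.1 h.2⟩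
  map_one' := rfl
  map_mul' _ _ := rfl
  map_zero' := rfl
  map_add' _ _ := rfl

@[simp] theorem compH_apply (g : SL(2, ℤ)) (h : B.Hol) (τ : ℍ) :
    (B.compH g h : ℍ → ℂ) τ = (h : ℍ → ℂ) (g • τ) := rfl

theorem compH_one (h : B.Hol) : B.compH 1 h = h := by
  apply Subtype.ext; funext τ; simp

theorem compH_mul (g g' : SL(2, ℤ)) (h : B.Hol) :
    B.compH (g * g') h = B.compH g' (B.compH g h) := by
  apply Subtype.ext; funext τ; simp [mul_smul]

theorem compH_injective (g : SL(2, ℤ)) : Function.Injective (B.compH g) := by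
  intro h h' hh
  have := congrArg (B.compH g⁻¹) hh
  rwa [← compH_mul, ← compH_mul, mul_inv_cancel, compH_one, compH_one] at this

theorem compH_constH (g : SL(2, ℤ)) (c : ℂ) : B.compH g (B.constH c) = B.constH c := rfl

theorem compH_JH (g : SL(2, ℤ)) : B.compH g B.JH = B.JH := by
  apply Subtype.ext; funext τ; exact B.G_j_inv g τ

theorem compH_GH_of_mem {s : LaurentSeries Kbar} (hs : s ∈ P.S) {g : SL(2, ℤ)}
    (hg : g ∈ Γ) : B.compH g (B.GH hs) = B.GH hs := by
  apply Subtype.ext; funext τ; exact B.G_inv s hs g hg τ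

include B in
/-- `-1 ∈ Γ` (it acts trivially on `ℍ`). -/
theorem neg_one_mem : (-1 : SL(2, ℤ)) ∈ Γ := by
  apply B.G_distinct
  intro s _ τ
  rw [ModularGroup.SL_neg_smul, one_smul]

theorem qexp_GH {s : LaurentSeries Kbar} (hs : s ∈ P.S) :
    B.qexp (B.GH hs) = HolBase.Φ M s := B.qexp_G s hs

theorem Φ_mem_range {r : LaurentSeries Kbar} (hr : r ∈ P.RG) :
    HolBase.Φ M r ∈ B.qexp.range := by
  induction hr using Algebra.adjoin_induction with
  | mem x hx => exact ⟨B.GH hx, B.qexp_GH hx⟩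
  | algebraMap c =>
      exact ⟨B.constH (ιK c), by rw [HolBase.Φ_algebraMap]; exact B.qexp_const _⟩
  | add _ _ _ _ hx hy => rw [map_add]; exact add_mem hx hy
  | mul _ _ _ _ hx hy => rw [map_mul]; exact mul_mem hx hy

/-- `Hol ≃ range qexp`. -/
def qexpEquiv : B.Hol ≃+* B.qexp.range :=
  RingEquiv.ofBijective B.qexp.rangeRestrict
    ⟨fun x y h => B.qexp_injective (congrArg Subtype.val h), B.qexp.rangeRestrict_surjective⟩

/-- The bridge `e : ℚ̄[S] →+* Hol`. -/
def bridge : P.RG →+* B.Hol :=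
  (B.qexpEquiv.symm : B.qexp.range →+* B.Hol).comp
    (((HolBase.Φ M).comp P.RG.val.toRingHom).codRestrict B.qexp.range
      fun r => B.Φ_mem_range r.2)

theorem qexp_bridge (r : P.RG) : B.qexp (B.bridge r) = HolBase.Φ M (r : LaurentSeries Kbar) := by
  have h := B.qexpEquiv.apply_symm_apply
    ((((HolBase.Φ M).comp P.RG.val.toRingHom).codRestrict B.qexp.range
      fun r => B.Φ_mem_range r.2) r)
  exact congrArg Subtype.val h

theorem bridge_injective : Function.Injective B.bridge := by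
  intro r r' h
  apply Subtype.ext
  apply HolBase.Φ_injective (N := M)
  rw [← qexp_bridge, ← qexp_bridge, h]

theorem bridge_algebraMap (c : Kbar) : B.bridge (algebraMap Kbar P.RG c) = B.constH (ιK c) := by
  apply B.qexp_injective
  rw [qexp_bridge]
  show HolBase.Φ M (algebraMap Kbar (LaurentSeries Kbar) c) = _
  rw [HolBase.Φ_algebraMap]
  exact (B.qexp_const _).symm

theorem bridge_genR {s : LaurentSeries Kbar} (hs : s ∈ P.S) :
    B.bridge (P.genR hs) = B.GH hs := by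
  apply B.qexp_injective
  rw [qexp_bridge, qexp_GH]
  rfl

theorem bridge_genR_j : B.bridge (P.genR P.hj) = B.JH := B.bridge_genR P.hj

/-- Every `e r` is `Γ`-invariant. -/
theorem compH_bridge_of_mem {g : SL(2, ℤ)} (hg : g ∈ Γ) (r : P.RG) :
    B.compH g (B.bridge r) = B.bridge r := by
  obtain ⟨r, hr⟩ := r
  induction hr using Algebra.adjoin_induction with
  | mem x hx =>
      have : (⟨x, Algebra.subset_adjoin hx⟩ : P.RG) = P.genR hx := rfl
      rw [this, bridge_genR]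
      exact B.compH_GH_of_mem hx hg
  | algebraMap c =>
      have : (⟨algebraMap Kbar (LaurentSeries Kbar) c, Subalgebra.algebraMap_mem _ c⟩ : P.RG)
          = algebraMap Kbar P.RG c := rfl
      rw [this, bridge_algebraMap]
      rfl
  | add x y hx hy ihx ihy =>
      have : (⟨x + y, add_mem hx hy⟩ : P.RG) = ⟨x, hx⟩ + ⟨y, hy⟩ := rfl
      rw [this, map_add, map_add, ihx, ihy]
  | mul x y hx hy ihx ihy =>
      have : (⟨x * y, mul_mem hx hy⟩ : P.RG) = ⟨x, hx⟩ * ⟨y, hy⟩ := rfl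
      rw [this, map_mul, map_mul, ihx, ihy]

/-- The value of `e r` at a point, for `r` with a known avatar: the bridge is determined by
`qexp`.  If `h ∈ Hol` has `qexp h = Φ r` then `e r = h`. -/
theorem bridge_eq_of_qexp {r : P.RG} {h : B.Hol}
    (hh : B.qexp h = HolBase.Φ M (r : LaurentSeries Kbar)) : B.bridge r = h := by
  apply B.qexp_injective
  rw [qexp_bridge, hh]

end GenBase

end Fermat.Agent.S48.H332

end
end
-- ===== PACK-END S48/H332/PkgBridge.lean

-- ===== PACK-BEGIN S48/H332/PkgLocal.lean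
section


/-!
# Tower A1 / A1-FF, piece PKG-GEN (helper332) — `LocalData` from an expansion with rotation data

GENERIC port of `S24/Mod/H997Local.lean` (the relation `RotRel` is reused from there).
The index set of the embeddings is the coset space `SL(2,ℤ) ⧸ Γ`.
-/

set_option autoImplicit false

noncomputable section

open ModularCurve HahnSeries UpperHalfPlane
open scoped MatrixGroups

namespace Fermat.Agent.S48.H332

open Fermat.Agent.S24 Fermat.Agent.S24.H997

/-- The coset space `SL₂(ℤ) / Γ`. -/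
abbrev XG (Γ : Subgroup SL(2, ℤ)) : Type := SL(2, ℤ) ⧸ Γ

/-- The permutation of `SL₂(ℤ) / Γ` induced by left multiplication by `g`. -/
def permG (Γ : Subgroup SL(2, ℤ)) (g : SL(2, ℤ)) : Equiv.Perm (XG Γ) := MulAction.toPerm g

theorem permG_inv (Γ : Subgroup SL(2, ℤ)) (g : SL(2, ℤ)) : permG Γ g⁻¹ = (permG Γ g)⁻¹ := by
  ext x
  simp [permG]

theorem permG_one (Γ : Subgroup SL(2, ℤ)) : permG Γ 1 = 1 := by
  ext x
  simp [permG]

theorem permG_mk (Γ : Subgroup SL(2, ℤ)) (g h : SL(2, ℤ)) :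
    permG Γ g (h : XG Γ) = ((g * h : SL(2, ℤ)) : XG Γ) := rfl

variable {M : ℕ} [NeZero M] {Γ : Subgroup SL(2, ℤ)} {P : GenField}

/-- An abstract injective expansion ring hom on `Hol`. -/
structure GenExpansion (B : GenBase M Γ P) where
  E : B.Hol →+* LaurentSeries ℂ
  inj : Function.Injective E
  const : ∀ c : ℂ, E (B.constH c) = HahnSeries.C c

/-- Rotation data for an expansion: precomposition with `ε` rotates the local coordinate
by the primitive `m`-th root of unity `ζ` (to first order). -/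
structure GenRotData (B : GenBase M Γ P) (X : GenExpansion B) (ε : SL(2, ℤ)) where
  m : ℕ
  m_pos : 0 < m
  ζ : ℂ
  hζ : IsPrimitiveRoot ζ m
  rot : ∀ h : B.Hol, RotRel ζ (X.E h) (X.E (B.compH ε h))

namespace GenBase

variable (B : GenBase M Γ P) (X : GenExpansion B)

/-- the ring hom `ℚ̄[S] → ℂ((z))`, `r ↦ E (e r ∘ g⁻¹)` -/
def sG (g : SL(2, ℤ)) : P.RG →+* LaurentSeries ℂ :=
  X.E.comp ((B.compH g⁻¹).comp B.bridge)

theorem sG_apply (g : SL(2, ℤ)) (r : P.RG) :
    B.sG X g r = X.E (B.compH g⁻¹ (B.bridge r)) := rfl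

theorem sG_injective (g : SL(2, ℤ)) : Function.Injective (B.sG X g) :=
  X.inj.comp ((B.compH_injective g⁻¹).comp B.bridge_injective)

/-- the embedding `F → ℂ((z))` attached to `g` -/
def sigmaG (g : SL(2, ℤ)) : P.F →+* LaurentSeries ℂ :=
  GenField.liftF (B.sG X g) (B.sG_injective X g)

theorem sigmaG_inclRG (g : SL(2, ℤ)) (r : P.RG) :
    B.sigmaG X g (P.inclRG r) = X.E (B.compH g⁻¹ (B.bridge r)) :=
  GenField.liftF_inclRG _ _ r

theorem sigmaG_algebraMap (g : SL(2, ℤ)) (c : Kbar) :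
    B.sigmaG X g (algebraMap Kbar P.F c) = HahnSeries.C (ιK c) := by
  rw [sigmaG, GenField.liftF_algebraMap, sG_apply, bridge_algebraMap, compH_constH, X.const]

theorem sigmaG_genF (g : SL(2, ℤ)) {s : LaurentSeries Kbar} (hs : s ∈ P.S) :
    B.sigmaG X g (P.genF hs) = X.E (B.compH g⁻¹ (B.GH hs)) := by
  rw [← GenField.inclRG_genR, sigmaG_inclRG, bridge_genR]

theorem sigmaG_jF (g : SL(2, ℤ)) :
    B.sigmaG X g P.jF = X.E B.JH := by
  rw [← GenField.inclRG_genR_j, sigmaG_inclRG, bridge_genR_j, compH_JH]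

theorem sG_mul_of_mem (g : SL(2, ℤ)) {δ : SL(2, ℤ)} (hδ : δ ∈ Γ) :
    B.sG X (g * δ) = B.sG X g := by
  ext1 r
  rw [sG_apply, sG_apply, mul_inv_rev, compH_mul,
    B.compH_bridge_of_mem (inv_mem hδ)]

theorem sigmaG_mul_of_mem (g : SL(2, ℤ)) {δ : SL(2, ℤ)}
    (hδ : δ ∈ Γ) : B.sigmaG X (g * δ) = B.sigmaG X g := by
  unfold sigmaG
  congr 1
  exact B.sG_mul_of_mem X g hδ

theorem sigmaG_eq_of_mk_eq {g g' : SL(2, ℤ)}
    (h : (g : XG Γ) = (g' : XG Γ)) : B.sigmaG X g = B.sigmaG X g' := by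
  have hmem : g⁻¹ * g' ∈ Γ := QuotientGroup.eq.mp h
  have := B.sigmaG_mul_of_mem X g hmem
  rw [mul_inv_cancel_left] at this
  exact this.symm

/-- the embedding attached to a coset -/
def sigmaX (x : XG Γ) : P.F →+* LaurentSeries ℂ := B.sigmaG X (Quotient.out x)

theorem sigmaX_mk (g : SL(2, ℤ)) : B.sigmaX X (g : XG Γ) = B.sigmaG X g :=
  B.sigmaG_eq_of_mk_eq X (QuotientGroup.out_eq' _)

theorem sigmaX_injective : Function.Injective (B.sigmaX X) := by
  intro x y hxy
  obtain ⟨g, rfl⟩ := QuotientGroup.mk_surjective x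
  obtain ⟨g', rfl⟩ := QuotientGroup.mk_surjective y
  rw [sigmaX_mk, sigmaX_mk] at hxy
  apply QuotientGroup.eq.mpr
  apply B.G_distinct
  intro s hs τ
  have h1 := congrArg (fun σ => σ (P.genF hs)) hxy
  simp only [sigmaG_genF] at h1
  have h2 := X.inj h1
  have h3 := congrArg (fun h : B.Hol => (h : ℍ → ℂ) (g' • τ)) h2
  simp only [compH_apply] at h3
  rw [← mul_smul, ← mul_smul, inv_mul_cancel, one_smul] at h3
  exact h3

theorem rotRel_sigmaG (ε : SL(2, ℤ)) (R : GenRotData B X ε) (g : SL(2, ℤ)) (f : P.F) :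
    RotRel R.ζ (B.sigmaG X g f) (B.sigmaG X (ε⁻¹ * g) f) := by
  have hζ : R.ζ ≠ 0 := R.hζ.ne_zero R.m_pos.ne'
  obtain ⟨r, t, -, rfl⟩ := P.exists_div_inclRG f
  rw [map_div₀, map_div₀]
  have key : ∀ r : P.RG, RotRel R.ζ (B.sigmaG X g (P.inclRG r))
      (B.sigmaG X (ε⁻¹ * g) (P.inclRG r)) := by
    intro r
    rw [sigmaG_inclRG, sigmaG_inclRG, mul_inv_rev, inv_inv, compH_mul]
    exact R.rot _
  exact (key r).div hζ (key t)

/-- `LocalData` from an expansion with rotation data. -/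
def mkLocalData (ε : SL(2, ℤ)) (R : GenRotData B X ε) (t : P.F) (u : LaurentSeries ℂ)
    (ht : ∀ g : SL(2, ℤ), B.sigmaG X g t = u) (hu : u.order = (R.m : ℤ)) :
    LocalData Kbar P.F ℂ (XG Γ) t where
  m := R.m
  m_pos := R.m_pos
  ζ := R.ζ
  hζ := R.hζ
  ι := ιK
  perm := permG Γ ε⁻¹
  σ := B.sigmaX X
  σ_inj := B.sigmaX_injective X
  σ_const x c := B.sigmaG_algebraMap X _ c
  σ_t_eq x y := by
    show B.sigmaG X _ t = B.sigmaG X _ t
    rw [ht, ht]
  σ_t_order x := by
    show (B.sigmaG X _ t).order = _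
    rw [ht, hu]
  σ_perm_order x f := by
    obtain ⟨g, rfl⟩ := QuotientGroup.mk_surjective x
    have h : permG Γ ε⁻¹ (g : XG Γ) = ((ε⁻¹ * g : SL(2, ℤ)) : XG Γ) := rfl
    rw [h, sigmaX_mk, sigmaX_mk]
    exact (B.rotRel_sigmaG X ε R g f).1
  σ_perm_leadingCoeff x f := by
    obtain ⟨g, rfl⟩ := QuotientGroup.mk_surjective x
    have h : permG Γ ε⁻¹ (g : XG Γ) = ((ε⁻¹ * g : SL(2, ℤ)) : XG Γ) := rfl
    rw [h, sigmaX_mk, sigmaX_mk]
    exact (B.rotRel_sigmaG X ε R g f).2

@[simp] theorem mkLocalData_perm (ε : SL(2, ℤ)) (R : GenRotData B X ε) (t : P.F)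
    (u : LaurentSeries ℂ) (ht : ∀ g : SL(2, ℤ), B.sigmaG X g t = u)
    (hu : u.order = (R.m : ℤ)) :
    (B.mkLocalData X ε R t u ht hu).perm = permG Γ ε⁻¹ := rfl

@[simp] theorem mkLocalData_σ (ε : SL(2, ℤ)) (R : GenRotData B X ε) (t : P.F)
    (u : LaurentSeries ℂ) (ht : ∀ g : SL(2, ℤ), B.sigmaG X g t = u)
    (hu : u.order = (R.m : ℤ)) :
    (B.mkLocalData X ε R t u ht hu).σ = B.sigmaX X := rfl

@[simp] theorem mkLocalData_m (ε : SL(2, ℤ)) (R : GenRotData B X ε) (t : P.F)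
    (u : LaurentSeries ℂ) (ht : ∀ g : SL(2, ℤ), B.sigmaG X g t = u)
    (hu : u.order = (R.m : ℤ)) :
    (B.mkLocalData X ε R t u ht hu).m = R.m := rfl

end GenBase

end Fermat.Agent.S48.H332

end
end
-- ===== PACK-END S48/H332/PkgLocal.lean

-- ===== PACK-BEGIN S48/H332/PkgCore.lean
section


/-!
# Tower A1 / A1-FF, piece PKG-GEN (helper332) — the generic analytic core and the package

GENERIC port of `S24/Mod/H997Core.lean`: `GenCore M Γ P` is the complete list of analytic facts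
needed (besides the degree bound `[F : ℚ̄(j)] ≤ |SL₂(ℤ)/Γ|`) to produce all the `LocalData` of the
generic modular package `GenPackage Γ P`.
-/

set_option autoImplicit false
set_option linter.style.haveILetI false
set_option linter.unusedVariables false

noncomputable section

open ModularCurve HahnSeries UpperHalfPlane
open scoped MatrixGroups

namespace Fermat.Agent.S48.H332

open Fermat.Agent.S24 Fermat.Agent.S24.H997

variable {M : ℕ} [NeZero M] {Γ : Subgroup SL(2, ℤ)} {P : GenField}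

/-- Local data at a point of `ℍ` lying over `a = j(τ₀)`: an expansion (Taylor expansion at `τ₀`),
rotation data for the stabilising element `ε`, and the order of vanishing of `j - a`. -/
structure GenPointData (B : GenBase M Γ P) (a : ℂ) (ε : SL(2, ℤ)) where
  X : GenExpansion B
  R : GenRotData B X ε
  order_J : (X.E (B.JH - B.constH a)).order = (R.m : ℤ)

/-- Change of the value `a` along an equality. -/
def GenPointData.castVal {B : GenBase M Γ P} {a a' : ℂ} {ε : SL(2, ℤ)} (h : a = a')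
    (Q : GenPointData B a ε) : GenPointData B a' ε where
  X := Q.X
  R := Q.R
  order_J := by rw [← h]; exact Q.order_J

/-- **The generic analytic interface.** -/
structure GenCore (M : ℕ) [NeZero M] (Γ : Subgroup SL(2, ℤ)) (P : GenField)
    extends GenBase M Γ P where
  /-- generic points: `j - a` has a simple zero at some `τ₀` -/
  generic : ∀ a : ℂ, a ≠ 0 → a ≠ 1728 → GenPointData toGenBase a 1
  /-- the point `i` over `1728`, rotation by `S` -/
  at1728 : GenPointData toGenBase 1728 ModularGroup.S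
  /-- the point `ρ` over `0`, rotation by `S * T` -/
  at0 : GenPointData toGenBase 0 (ModularGroup.S * ModularGroup.T)
  /-- the cusp `∞`: `qexp (h ∘ T)` is `qexp h` with `z` replaced by `ζ z` -/
  infζ : ℂ
  inf_hζ : IsPrimitiveRoot infζ M
  inf_shift : ∀ (h : Hol) (n : ℤ),
    (qexp (toGenBase.compH ModularGroup.T h)).coeff n = infζ ^ n * (qexp h).coeff n
  generic_m : ∀ (a : ℂ) (h0 : a ≠ 0) (h1 : a ≠ 1728), (generic a h0 h1).R.m = 1
  at1728_m : at1728.R.m = 2
  at0_m : at0.R.m = 3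

namespace GenBase

variable (B : GenBase M Γ P)

/-- the expansion at `∞` -/
def qexpExpansion : GenExpansion B := ⟨B.qexp, B.qexp_injective, B.qexp_const⟩

theorem qexp_JH_coeff (k : ℤ) :
    (B.qexp B.JH).coeff k
      = if (M : ℤ) ∣ k then ((jq.coeff (k / (M : ℤ)) : ℚ) : ℂ) else 0 := by
  rw [JH, qexp_GH, HolBase.Φ_coeff]
  split_ifs with h
  · rw [jBar, coeffEmb_coeff, ιK_algebraMap]
  · rfl

theorem qexp_JH_ne_zero : B.qexp B.JH ≠ 0 := by
  apply ne_zero_of_coeff_ne_zero (g := -(M : ℤ))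
  rw [qexp_JH_coeff, if_pos (dvd_neg.mpr dvd_rfl)]
  have hN : (M : ℤ) ≠ 0 := by exact_mod_cast NeZero.ne M
  rw [Int.neg_ediv_of_dvd dvd_rfl, Int.ediv_self hN, coeff_jq_neg_one]
  simp

theorem order_qexp_JH : (B.qexp B.JH).order = -(M : ℤ) := by
  have hN : (M : ℤ) ≠ 0 := by exact_mod_cast NeZero.ne M
  have hNpos : (0 : ℤ) < M := by exact_mod_cast Nat.pos_of_ne_zero (NeZero.ne M)
  apply le_antisymm
  · apply order_le_of_coeff_ne_zero
    rw [qexp_JH_coeff, if_pos (dvd_neg.mpr dvd_rfl)]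
    rw [Int.neg_ediv_of_dvd dvd_rfl, Int.ediv_self hN, coeff_jq_neg_one]
    simp
  · by_contra hlt
    replace hlt := lt_of_not_ge hlt
    have h0 := coeff_order_eq_zero.not.mpr B.qexp_JH_ne_zero
    apply h0
    rw [qexp_JH_coeff]
    split_ifs with hdvd
    · obtain ⟨m, hm⟩ := hdvd
      rw [hm, Int.mul_ediv_cancel_left _ hN]
      have : m < -1 := by
        rw [hm] at hlt
        by_contra hge
        replace hge := le_of_not_gt hge
        have : (M : ℤ) * m ≥ M * (-1) := mul_le_mul_of_nonneg_left hge hNpos.le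
        linarith
      rw [coeff_jq_of_lt this]
      simp
    · rfl

end GenBase

/-- Rotation data from a coefficientwise statement `coeff_n (E (h ∘ ε)) = ζ^n coeff_n (E h)`. -/
def GenRotData.ofCoeff (B : GenBase M Γ P) (X : GenExpansion B) (ε : SL(2, ℤ)) (m : ℕ)
    (m_pos : 0 < m) (ζ : ℂ) (hζ : IsPrimitiveRoot ζ m)
    (h : ∀ (f : B.Hol) (n : ℤ), (X.E (B.compH ε f)).coeff n = ζ ^ n * (X.E f).coeff n) :
    GenRotData B X ε where
  m := m
  m_pos := m_pos
  ζ := ζ
  hζ := hζ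
  rot f := by
    have hζ0 : ζ ≠ 0 := hζ.ne_zero m_pos.ne'
    by_cases hf : X.E f = 0
    · have : X.E (B.compH ε f) = 0 := by
        ext n; rw [h, hf]; simp
      rw [hf, this]; exact RotRel.zero
    · have hf' : X.E (B.compH ε f) ≠ 0 := by
        intro h0
        apply hf
        ext n
        have := congrArg (fun s => s.coeff n) h0
        simp only [h, coeff_zero, mul_eq_zero, zpow_ne_zero n hζ0, false_or] at this
        simpa using this
      have hord : (X.E (B.compH ε f)).order = (X.E f).order := by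
        apply le_antisymm
        · apply order_le_of_coeff_ne_zero
          rw [h]
          exact mul_ne_zero (zpow_ne_zero _ hζ0) (coeff_order_eq_zero.not.mpr hf)
        · apply order_le_of_coeff_ne_zero
          have := coeff_order_eq_zero.not.mpr hf'
          rw [h] at this
          exact right_ne_zero_of_mul this
      refine ⟨hord, ?_⟩
      rw [leadingCoeff_eq, leadingCoeff_eq, hord, h]

namespace GenCore

variable (A : GenCore M Γ P)

/-- rotation data at the cusp -/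
def infRot : GenRotData A.toGenBase A.toGenBase.qexpExpansion ModularGroup.T :=
  GenRotData.ofCoeff A.toGenBase A.toGenBase.qexpExpansion ModularGroup.T M
    (Nat.pos_of_ne_zero (NeZero.ne M)) A.infζ A.inf_hζ A.inf_shift

/-- the local data at `∞` -/
def dataInf : LocalData Kbar P.F ℂ (XG Γ) (P.jF)⁻¹ :=
  A.toGenBase.mkLocalData A.toGenBase.qexpExpansion ModularGroup.T A.infRot (P.jF)⁻¹
    (A.qexp A.toGenBase.JH)⁻¹
    (fun g => by rw [map_inv₀, GenBase.sigmaG_jF]; rfl)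
    (by
      rw [RotRel.order_inv' A.toGenBase.qexp_JH_ne_zero, A.toGenBase.order_qexp_JH, neg_neg]
      rfl)

theorem sigmaG_sub {a : Kbar} {ε : SL(2, ℤ)} (Q : GenPointData A.toGenBase (ιK a) ε)
    (g : SL(2, ℤ)) :
    A.toGenBase.sigmaG Q.X g (P.jF - algebraMap Kbar P.F a)
      = Q.X.E (A.toGenBase.JH - A.toGenBase.constH (ιK a)) := by
  rw [map_sub, GenBase.sigmaG_jF, GenBase.sigmaG_algebraMap, map_sub, Q.X.const]

/-- the local data attached to point data over `a` -/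
def dataOfPoint {a : Kbar} {ε : SL(2, ℤ)} (Q : GenPointData A.toGenBase (ιK a) ε) :
    LocalData Kbar P.F ℂ (XG Γ) (P.jF - algebraMap Kbar P.F a) :=
  A.toGenBase.mkLocalData Q.X ε Q.R _ _ (fun g => A.sigmaG_sub Q g) Q.order_J

/-- all the embeddings `σ_x` agree on `ℚ̄(j)` -/
theorem sigmaX_eq_on_adjoin (X : GenExpansion A.toGenBase) (x y : XG Γ) {f : P.F}
    (hf : f ∈ IntermediateField.adjoin Kbar {P.jF}) :
    A.toGenBase.sigmaX X x f = A.toGenBase.sigmaX X y f := by
  induction hf using IntermediateField.adjoin_induction with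
  | mem z hz =>
      rw [Set.mem_singleton_iff] at hz
      subst hz
      show A.toGenBase.sigmaG X _ P.jF = A.toGenBase.sigmaG X _ P.jF
      rw [GenBase.sigmaG_jF, GenBase.sigmaG_jF]
  | algebraMap c =>
      show A.toGenBase.sigmaG X _ _ = A.toGenBase.sigmaG X _ _
      rw [GenBase.sigmaG_algebraMap, GenBase.sigmaG_algebraMap]
  | add z w _ _ hz hw => rw [map_add, map_add, hz, hw]
  | inv z _ hz => rw [map_inv₀, map_inv₀, hz]
  | mul z w _ _ hz hw => rw [map_mul, map_mul, hz, hw]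

/-- lower bound for the degree: `|SL₂(ℤ)/Γ| ≤ [F : ℚ̄(j)]`. -/
theorem card_le_finrank (A : GenCore M Γ P)
    [FiniteDimensional ↥(IntermediateField.adjoin Kbar {P.jF}) P.F] :
    Nat.card (XG Γ) ≤ Module.finrank ↥(IntermediateField.adjoin Kbar {P.jF}) P.F := by
  classical
  set E := IntermediateField.adjoin Kbar {P.jF} with hE
  let X := A.toGenBase.qexpExpansion
  let x0 : XG Γ := ((1 : SL(2, ℤ)) : XG Γ)
  let ψ : ↥E →+* LaurentSeries ℂ := (A.toGenBase.sigmaX X x0).comp (algebraMap ↥E P.F)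
  letI : Algebra ↥E (LaurentSeries ℂ) := ψ.toAlgebra
  let a : XG Γ → (P.F →ₐ[↥E] LaurentSeries ℂ) := fun x =>
    { A.toGenBase.sigmaX X x with
      commutes' := fun y => A.sigmaX_eq_on_adjoin X x x0 y.2 }
  have ha : Function.Injective a := by
    intro x y hxy
    apply A.toGenBase.sigmaX_injective X
    refine RingHom.ext fun f => ?_
    exact congrArg (fun φ : P.F →ₐ[↥E] LaurentSeries ℂ => φ f) hxy
  haveI : Module.Free ↥E P.F := Module.Free.of_divisionRing ↥E P.F
  haveI : Module.Finite ↥E P.F := ‹FiniteDimensional ↥E P.F›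
  haveI : Finite (P.F →ₐ[↥E] LaurentSeries ℂ) := Finite.algHom ↥E P.F (LaurentSeries ℂ)
  calc Nat.card (XG Γ) ≤ Nat.card (P.F →ₐ[↥E] LaurentSeries ℂ) :=
        Nat.card_le_card_of_injective a ha
    _ ≤ Module.finrank ↥E P.F := card_algHom_le_finrank ↥E P.F (LaurentSeries ℂ)

/-- the index of `Γ` is finite as soon as `F / ℚ̄(j)` is finite -/
theorem finite_XG (A : GenCore M Γ P)
    [FiniteDimensional ↥(IntermediateField.adjoin Kbar {P.jF}) P.F] : Finite (XG Γ) := by
  classical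
  set E := IntermediateField.adjoin Kbar {P.jF} with hE
  let X := A.toGenBase.qexpExpansion
  let x0 : XG Γ := ((1 : SL(2, ℤ)) : XG Γ)
  let ψ : ↥E →+* LaurentSeries ℂ := (A.toGenBase.sigmaX X x0).comp (algebraMap ↥E P.F)
  letI : Algebra ↥E (LaurentSeries ℂ) := ψ.toAlgebra
  let a : XG Γ → (P.F →ₐ[↥E] LaurentSeries ℂ) := fun x =>
    { A.toGenBase.sigmaX X x with
      commutes' := fun y => A.sigmaX_eq_on_adjoin X x x0 y.2 }
  have ha : Function.Injective a := by
    intro x y hxy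
    apply A.toGenBase.sigmaX_injective X
    refine RingHom.ext fun f => ?_
    exact congrArg (fun φ : P.F →ₐ[↥E] LaurentSeries ℂ => φ f) hxy
  haveI : Module.Free ↥E P.F := Module.Free.of_divisionRing ↥E P.F
  haveI : Module.Finite ↥E P.F := ‹FiniteDimensional ↥E P.F›
  haveI : Finite (P.F →ₐ[↥E] LaurentSeries ℂ) := Finite.algHom ↥E P.F (LaurentSeries ℂ)
  exact Finite.of_injective a ha

/-- the local data over a finite point `a : ℚ̄` -/
def dataFin (a : Kbar) : LocalData Kbar P.F ℂ (XG Γ) (P.jF - algebraMap Kbar P.F a) :=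
  letI := Classical.propDecidable
  if h0 : a = 0 then
    A.dataOfPoint (a := a) (ε := ModularGroup.S * ModularGroup.T)
      (A.at0.castVal (by rw [h0, map_zero]))
  else if h1 : a = 1728 then
    A.dataOfPoint (a := a) (ε := ModularGroup.S)
      (A.at1728.castVal (by rw [h1]; exact (map_ofNat ιK 1728).symm))
  else
    A.dataOfPoint (a := a) (ε := 1)
      (A.generic (ιK a)
        (fun h => h0 (ιK_injective (by rw [h, map_zero])))
        (fun h => h1 (ιK_injective (by rw [h]; exact (map_ofNat ιK 1728).symm))))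

theorem dataFin_perm_generic (a : Kbar) (h0 : a ≠ 0) (h1 : a ≠ 1728) :
    (A.dataFin a).perm = 1 := by
  unfold dataFin
  rw [dif_neg h0, dif_neg h1]
  show permG Γ 1⁻¹ = 1
  rw [inv_one, permG_one]

theorem dataFin_zero_perm :
    (A.dataFin 0).perm = permG Γ (ModularGroup.S * ModularGroup.T)⁻¹ := by
  unfold dataFin
  rw [dif_pos rfl]
  rfl

theorem dataFin_1728_perm :
    (A.dataFin 1728).perm = permG Γ ModularGroup.S⁻¹ := by
  have h0 : (1728 : Kbar) ≠ 0 := by norm_num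
  unfold dataFin
  rw [dif_neg h0, dif_pos rfl]
  rfl

theorem dataInf_perm : A.dataInf.perm = permG Γ ModularGroup.T⁻¹ := rfl

theorem dataFin_zero_numOrbits :
    numOrbits (A.dataFin 0).perm = numOrbits (permG Γ (ModularGroup.S * ModularGroup.T)) := by
  rw [dataFin_zero_perm, permG_inv, numOrbits_inv]

theorem dataFin_1728_numOrbits :
    numOrbits (A.dataFin 1728).perm = numOrbits (permG Γ ModularGroup.S) := by
  rw [dataFin_1728_perm, permG_inv, numOrbits_inv]

theorem dataInf_numOrbits :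
    numOrbits A.dataInf.perm = numOrbits (permG Γ ModularGroup.T) := by
  rw [dataInf_perm, permG_inv, numOrbits_inv]

end GenCore

/-- **The generic modular package**: everything the algebraic side (`S24/Alg`, generic in the
function field) needs to know about `F = ℚ̄(S)`, a field of modular functions for `Γ`. -/
structure GenPackage (M : ℕ) (Γ : Subgroup SL(2, ℤ)) (P : GenField) where
  finiteDimensional :
    FiniteDimensional ↥(IntermediateField.adjoin Kbar {P.jF}) P.F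
  finrank_eq :
    Module.finrank ↥(IntermediateField.adjoin Kbar {P.jF}) P.F = Nat.card (XG Γ)
  dataFin : ∀ a : Kbar, LocalData Kbar P.F ℂ (XG Γ) (P.jF - algebraMap Kbar P.F a)
  dataInf : LocalData Kbar P.F ℂ (XG Γ) (P.jF)⁻¹
  perm_generic : ∀ a : Kbar, a ≠ 0 → a ≠ 1728 → (dataFin a).perm = 1
  perm_zero : (dataFin 0).perm = permG Γ (ModularGroup.S * ModularGroup.T)⁻¹
  perm_1728 : (dataFin 1728).perm = permG Γ ModularGroup.S⁻¹
  perm_inf : dataInf.perm = permG Γ ModularGroup.T⁻¹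
  m_generic : ∀ a : Kbar, a ≠ 0 → a ≠ 1728 → (dataFin a).m = 1
  m_zero : (dataFin 0).m = 3
  m_1728 : (dataFin 1728).m = 2
  m_inf : dataInf.m = M

namespace GenPackage

theorem orbits_zero (Q : GenPackage M Γ P) :
    numOrbits (Q.dataFin 0).perm = numOrbits (permG Γ (ModularGroup.S * ModularGroup.T)) := by
  rw [Q.perm_zero, permG_inv, numOrbits_inv]

theorem orbits_1728 (Q : GenPackage M Γ P) :
    numOrbits (Q.dataFin 1728).perm = numOrbits (permG Γ ModularGroup.S) := by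
  rw [Q.perm_1728, permG_inv, numOrbits_inv]

theorem orbits_inf (Q : GenPackage M Γ P) :
    numOrbits Q.dataInf.perm = numOrbits (permG Γ ModularGroup.T) := by
  rw [Q.perm_inf, permG_inv, numOrbits_inv]

end GenPackage

namespace GenCore

theorem dataFin_m_generic (A : GenCore M Γ P) (a : Kbar) (h0 : a ≠ 0) (h1 : a ≠ 1728) :
    (A.dataFin a).m = 1 := by
  unfold dataFin
  rw [dif_neg h0, dif_neg h1]
  exact A.generic_m _ _ _

theorem dataFin_m_zero (A : GenCore M Γ P) : (A.dataFin 0).m = 3 := by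
  unfold dataFin
  rw [dif_pos rfl]
  exact A.at0_m

theorem dataFin_m_1728 (A : GenCore M Γ P) : (A.dataFin 1728).m = 2 := by
  have h0 : (1728 : Kbar) ≠ 0 := by norm_num
  unfold dataFin
  rw [dif_neg h0, dif_pos rfl]
  exact A.at1728_m

/-- **Assembly.**  The generic modular package from the analytic core and the degree bound. -/
def toPackage (A : GenCore M Γ P)
    (hfd : FiniteDimensional ↥(IntermediateField.adjoin Kbar {P.jF}) P.F)
    (hle : Module.finrank ↥(IntermediateField.adjoin Kbar {P.jF}) P.F ≤ Nat.card (XG Γ)) :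
    GenPackage M Γ P where
  finiteDimensional := hfd
  finrank_eq := le_antisymm hle A.card_le_finrank
  dataFin := A.dataFin
  dataInf := A.dataInf
  perm_generic := A.dataFin_perm_generic
  perm_zero := A.dataFin_zero_perm
  perm_1728 := A.dataFin_1728_perm
  perm_inf := A.dataInf_perm
  m_generic := A.dataFin_m_generic
  m_zero := A.dataFin_m_zero
  m_1728 := A.dataFin_m_1728
  m_inf := rfl

end GenCore

end Fermat.Agent.S48.H332

end
end
-- ===== PACK-END S48/H332/PkgCore.lean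

-- ===== PACK-BEGIN S48/H332/PkgTaylor.lean
section


/-!
# Tower A1 / A1-FF, piece PKG-GEN (helper332) — finite-point data from Taylor expansions

GENERIC port of `S24/Mod/H997Taylor.lean`: for a `GenBase` whose ring `Hol` consists of
holomorphic functions and whose avatar of `j` is the `j`-function, the three point-data fields of
`GenCore` are constructed from helper624's Taylor/rotation package (`S24.H624`) and helper47's
local orders of `j` (`S24.M7.H47`).
-/

set_option autoImplicit false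
set_option linter.style.haveILetI false
set_option linter.unusedVariables false

noncomputable section

open ModularCurve HahnSeries UpperHalfPlane ModularForm EisensteinSeries
open scoped MatrixGroups Manifold

namespace Fermat.Agent.S48.H332

open Fermat.Agent.S24 Fermat.Agent.S24.H997
open Fermat.Agent.S24.H624 Fermat.Agent.S20.L1 Fermat.Agent.S24.M7.H47

variable {M : ℕ} [NeZero M] {Γ : Subgroup SL(2, ℤ)} {P : GenField}

/-- `Hol` consists of holomorphic functions and the avatar of `j` is the `j`-function. -/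
structure GenBase.IsHolo (B : GenBase M Γ P) : Prop where
  mdiff : ∀ f ∈ B.Hol, f ∈ holoRing
  G_j : B.G jBar = jFun

namespace GenBase

variable (B : GenBase M Γ P) (hB : B.IsHolo)

/-- the inclusion `Hol → holoRing` -/
def toHolo : B.Hol →+* holoRing where
  toFun h := ⟨h.1, hB.mdiff h.1 h.2⟩
  map_one' := rfl
  map_mul' _ _ := rfl
  map_zero' := rfl
  map_add' _ _ := rfl

theorem toHolo_injective : Function.Injective (B.toHolo hB) := by
  intro x y h
  exact Subtype.ext (congrArg (fun f : holoRing => (f : ℍ → ℂ)) h)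

theorem toHolo_compH (ε : SL(2, ℤ)) (h : B.Hol) :
    B.toHolo hB (B.compH ε h) = ε⁻¹ • B.toHolo hB h := by
  apply Subtype.ext
  funext τ
  rw [smul_holoRing_apply, inv_inv]
  rfl

/-- the Taylor expansion at `τ₀` as a `GenExpansion` -/
def taylorExpansion (τ₀ : ℍ) : GenExpansion B where
  E := (taylorLaurent τ₀).comp (B.toHolo hB)
  inj := (taylorLaurent_injective τ₀).comp (B.toHolo_injective hB)
  const c := by
    show HahnSeries.ofPowerSeries ℤ ℂ (taylorAt τ₀ (B.toHolo hB (B.constH c))) = HahnSeries.C c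
    have : B.toHolo hB (B.constH c) = algebraMap ℂ holoRing c := rfl
    rw [this, AlgHom.commutes, PowerSeries.algebraMap_apply, Algebra.algebraMap_self,
      RingHom.id_apply, HahnSeries.ofPowerSeries_C]

theorem taylorExpansion_E (τ₀ : ℍ) (h : B.Hol) :
    (B.taylorExpansion hB τ₀).E h
      = laurentAt τ₀ (algebraMap holoRing MerH (B.toHolo hB h)) :=
  (laurentAt_algebraMap τ₀ _).symm

/-- rotation data at a fixed point -/
def taylorRot {τ₀ : ℍ} {ε : SL(2, ℤ)} (hε : ε • τ₀ = τ₀) (m : ℕ) (hm : 0 < m)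
    (hζ : IsPrimitiveRoot (rotFactor ε⁻¹ τ₀) m) :
    GenRotData B (B.taylorExpansion hB τ₀) ε where
  m := m
  m_pos := hm
  ζ := rotFactor ε⁻¹ τ₀
  hζ := hζ
  rot h := by
    have hfix : ε⁻¹ • τ₀ = τ₀ := inv_smul_of_fixed hε
    rw [taylorExpansion_E, taylorExpansion_E, toHolo_compH, ← smul_algebraMap_MerH]
    exact laurentAt_smul_fixed_rotFactor hfix _

/-- trivial rotation data -/
def trivialRot (X : GenExpansion B) : GenRotData B X 1 where
  m := 1
  m_pos := one_pos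
  ζ := 1
  hζ := IsPrimitiveRoot.one
  rot h := by
    rw [B.compH_one]
    exact ⟨rfl, by simp⟩

theorem taylor_order_J (τ₀ : ℍ) (a : ℂ) (ha : jFun τ₀ = a) (m : ℕ)
    (hord : analyticOrderAt (fun w : ℂ => jFun (ofComplex w) - jFun τ₀) (τ₀ : ℂ) = m) :
    ((B.taylorExpansion hB τ₀).E (B.JH - B.constH a)).order = (m : ℤ) := by
  show (HahnSeries.ofPowerSeries ℤ ℂ (taylorAt τ₀ (B.toHolo hB _))).order = _
  apply order_ofPowerSeries
  rw [order_taylorAt, ordAt_def, ← hord]
  congr 1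
  funext w
  show B.G jBar (ofComplex w) - a = _
  rw [hB.G_j, ha]

/-- the point data over a generic value -/
def genericPoint (a : ℂ) (h0 : a ≠ 0) (h1 : a ≠ 1728) : GenPointData B a 1 :=
  let τ₀ : ℍ := (jFun_surjective a).choose
  have hτ₀ : jFun τ₀ = a := (jFun_surjective a).choose_spec
  { X := B.taylorExpansion hB τ₀
    R := B.trivialRot _
    order_J := by
      have h4 : E₄ τ₀ ≠ 0 := fun h => h0 (hτ₀ ▸ (jFun_eq_zero_iff τ₀).mpr h)
      have h6 : E₆ τ₀ ≠ 0 := fun h => h1 (hτ₀ ▸ (jFun_eq_1728_iff τ₀).mpr h)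
      have := B.taylor_order_J hB τ₀ a hτ₀ 1
        (by exact_mod_cast analyticOrderAt_jFun_sub_generic h4 h6)
      exact this }

/-- the base point of the generic point data over `a` -/
def genericBase (a : ℂ) : ℍ := (jFun_surjective a).choose

theorem jFun_genericBase (a : ℂ) : jFun (genericBase a) = a := (jFun_surjective a).choose_spec

theorem genericPoint_X (a : ℂ) (h0 : a ≠ 0) (h1 : a ≠ 1728) :
    (B.genericPoint hB a h0 h1).X = B.taylorExpansion hB (genericBase a) := rfl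

/-- the point data over `1728` (at `i`, rotation by `S`) -/
def point1728 : GenPointData B 1728 ModularGroup.S where
  X := B.taylorExpansion hB UpperHalfPlane.I
  R := B.taylorRot hB (τ₀ := UpperHalfPlane.I) (ε := ModularGroup.S)
    Fermat.Agent.S24.H624.S_smul_I 2 two_pos
    (isPrimitiveRoot_rotFactor_two (inv_smul_of_fixed Fermat.Agent.S24.H624.S_smul_I)
      (by rw [trace_inv_SL]; exact trace_S))
  order_J := by
    have := B.taylor_order_J hB UpperHalfPlane.I 1728 jFun_I 2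
      (by exact_mod_cast analyticOrderAt_jFun_sub_of_E₆ E₆_I)
    exact this

/-- the point data over `0` (at `ρ`, rotation by `S * T`) -/
def point0 : GenPointData B 0 (ModularGroup.S * ModularGroup.T) where
  X := B.taylorExpansion hB rho
  R := B.taylorRot hB (τ₀ := rho) (ε := ModularGroup.S * ModularGroup.T)
    ST_smul_rho 3 (by norm_num)
    (isPrimitiveRoot_rotFactor_three (inv_smul_of_fixed ST_smul_rho)
      (by rw [trace_inv_SL]; exact Or.inl trace_ST))
  order_J := by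
    have := B.taylor_order_J hB rho 0 jFun_rho 3
      (by exact_mod_cast analyticOrderAt_jFun_sub_of_E₄ E₄_rho)
    exact this

/-- **`GenCore` from a holomorphic `GenBase` with `T`-shift.** -/
def toGenCore (ζ : ℂ) (hζ : IsPrimitiveRoot ζ M)
    (hshift : ∀ (h : B.Hol) (n : ℤ),
      (B.qexp (B.compH ModularGroup.T h)).coeff n = ζ ^ n * (B.qexp h).coeff n) :
    GenCore M Γ P where
  toGenBase := B
  generic := B.genericPoint hB
  at1728 := B.point1728 hB
  at0 := B.point0 hB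
  infζ := ζ
  inf_hζ := hζ
  inf_shift := hshift
  generic_m _ _ _ := rfl
  at1728_m := rfl
  at0_m := rfl

end GenBase

end Fermat.Agent.S48.H332

end
end
-- ===== PACK-END S48/H332/PkgTaylor.lean

-- ===== PACK-BEGIN S48/H332/PkgMain.lean
section


/-!
# Tower A1 / A1-FF, piece PKG-GEN (helper332) — the concrete generic package

`GenData M Γ P` = the analytic INPUT for a field `P.F = ℚ̄(S)` of modular functions for `Γ`:
for every generator `s ∈ S` an avatar `G s ∈ S24.holN M` (holomorphic on `ℍ`, every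
`SL₂(ℤ)`-translate has an expansion in `exp(2πiτ/M)`), `Γ`-invariant, with expansion `s(z^M)` at
`i∞`, the avatar of `j` being the `j`-function, and the avatars jointly distinguishing the cosets
of `Γ`.

OUTPUT: `GenData.core : GenCore M Γ P` (the generic analytic core, with `Hol = holN M`), hence
`GenData.package hfd hle : GenPackage M Γ P` from the degree bound
`[F : ℚ̄(j)] ≤ |SL₂(ℤ)/Γ|`, and `card_le_finrank` unconditionally.
-/

set_option autoImplicit false
set_option linter.style.haveILetI false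
set_option linter.unusedVariables false
set_option linter.unusedSectionVars false

noncomputable section

open ModularCurve HahnSeries UpperHalfPlane ModularForm EisensteinSeries
open scoped MatrixGroups Manifold Real

namespace Fermat.Agent.S48.H332

open Fermat.Agent.S24 Fermat.Agent.S24.H997
open Fermat.Agent.S24.H624 Fermat.Agent.S20.L1

/-- From the `q`-expansion (`q = exp(2πiτ)`) to the expansion in `z = exp(2πiτ/M)`. -/
theorem infExp_level {f : ℍ → ℂ} {φ : LaurentSeries ℂ} (hf : InfExp 1 f φ) (M : ℕ) [NeZero M] :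
    InfExp M f (qExpand ℂ M φ) := by
  have hM : 0 < M := Nat.pos_of_ne_zero (NeZero.ne M)
  have h := hf.comp_infAff (M := 1) (N := M) (a := 1) (d := 1) (e := M) 0 one_pos one_pos
    one_pos hM (by ring)
  rw [infRoot_zero, infTwist_one] at h
  refine h.congr fun τ => ?_
  congr 1
  apply UpperHalfPlane.ext
  rw [infAff_coe one_pos one_pos]
  simp

/-- From the `q`-expansion with coefficients in `ℚ̄` to the expansion `Φ M s`. -/
theorem infExp_Φ {f : ℍ → ℂ} {s : LaurentSeries Kbar} (hf : InfExp 1 f (coeffMap ιK s))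
    (M : ℕ) [NeZero M] : InfExp M f (HolBase.Φ M s) :=
  infExp_level hf M

/-- **Analytic input** for a field of modular functions for `Γ` generated by `P.S`. -/
structure GenData (M : ℕ) [NeZero M] (Γ : Subgroup SL(2, ℤ)) (P : GenField) where
  /-- the avatar of a generator -/
  G : LaurentSeries Kbar → ℍ → ℂ
  G_mem : ∀ s, s ∈ P.S → G s ∈ holN M
  G_j : G jBar = jFun
  G_inv : ∀ s, s ∈ P.S → ∀ g ∈ Γ, ∀ τ : ℍ, G s (g • τ) = G s τ
  G_distinct : ∀ g : SL(2, ℤ), (∀ s, s ∈ P.S → ∀ τ : ℍ, G s (g • τ) = G s τ) → g ∈ Γ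
  G_exp : ∀ s, s ∈ P.S → InfExp M (G s) (HolBase.Φ M s)

namespace GenData

variable {M : ℕ} [NeZero M] {Γ : Subgroup SL(2, ℤ)} {P : GenField} (D : GenData M Γ P)

/-- **The concrete `GenBase`**, with `Hol = holN M`. -/
def base : GenBase M Γ P where
  Hol := holN M
  const_mem := const_mem_holN M
  comp_mem := comp_mem_holN M
  G := D.G
  G_mem := D.G_mem
  G_j_inv g τ := by rw [D.G_j]; exact jFun_smul' g τ
  G_inv := D.G_inv
  G_distinct := D.G_distinct
  qexp := (expInf M).comp (holToExp M)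
  qexp_injective := expInf_injective.comp (holToExp_injective M)
  qexp_const c := (InfExp.const c).expInf_eq
  qexp_G s hs := (D.G_exp s hs).expInf_eq

@[simp] theorem base_Hol : D.base.Hol = holN M := rfl

theorem base_qexp_spec (h : D.base.Hol) : InfExp M (h : ℍ → ℂ) (D.base.qexp h) :=
  expInf_spec (holToExp M h)

theorem base_isHolo : D.base.IsHolo where
  mdiff f hf := hf.1
  G_j := D.G_j

theorem base_shift (h : D.base.Hol) (n : ℤ) :
    (D.base.qexp (D.base.compH ModularGroup.T h)).coeff n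
      = ((infRoot 1 M : ℂˣ) : ℂ) ^ n * (D.base.qexp h).coeff n := by
  have hf : InfExp M (h : ℍ → ℂ) (D.base.qexp h) := expInf_spec (holToExp M h)
  have hT := hf.comp_translate 1
  have hT' : InfExp M ((D.base.compH ModularGroup.T h : D.base.Hol) : ℍ → ℂ)
      (infTwist (infRoot 1 M) (D.base.qexp h)) := by
    refine hT.congr fun τ => ?_
    show (h : ℍ → ℂ) (infAff 1 1 1 τ) = (h : ℍ → ℂ) (ModularGroup.T • τ)
    rw [T_smul_eq_infAff]
  have heq : D.base.qexp (D.base.compH ModularGroup.T h)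
      = infTwist (infRoot 1 M) (D.base.qexp h) :=
    (expInf_spec (holToExp M (D.base.compH ModularGroup.T h))).unique hT'
  rw [heq, infTwist_coeff, Units.val_zpow_eq_zpow_val, mul_comm]

/-- **The generic analytic core exists.** -/
def core : GenCore M Γ P :=
  D.base.toGenCore D.base_isHolo _ (isPrimitiveRoot_infRoot M) D.base_shift

@[simp] theorem core_toGenBase : D.core.toGenBase = D.base := rfl

/-- `|SL₂(ℤ)/Γ| ≤ [F : ℚ̄(j)]`. -/
theorem card_le_finrank (D : GenData M Γ P)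
    [FiniteDimensional ↥(IntermediateField.adjoin Kbar {P.jF}) P.F] :
    Nat.card (XG Γ) ≤ Module.finrank ↥(IntermediateField.adjoin Kbar {P.jF}) P.F :=
  GenCore.card_le_finrank D.core

/-- **The generic modular package** from the analytic input and the degree bound. -/
def package (hfd : FiniteDimensional ↥(IntermediateField.adjoin Kbar {P.jF}) P.F)
    (hle : Module.finrank ↥(IntermediateField.adjoin Kbar {P.jF}) P.F ≤ Nat.card (XG Γ)) :
    GenPackage M Γ P :=
  D.core.toPackage hfd hle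

/-! ### The embeddings of the package, analytically -/

/-- the bridge sends `r ∈ ℚ̄[S]` to THE function in `holN M` with expansion `Φ r` at `i∞` -/
theorem infExp_bridge (r : P.RG) :
    InfExp M (D.base.bridge r : ℍ → ℂ) (HolBase.Φ M (r : LaurentSeries Kbar)) := by
  have h := D.base_qexp_spec (D.base.bridge r)
  rwa [D.base.qexp_bridge] at h

/-- the expansion at `i∞` of the `g`-th conjugate: `σ_g (r) = qexp (e r ∘ g⁻¹)` -/
theorem infExp_sigmaG (g : SL(2, ℤ)) (r : P.RG) :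
    InfExp M (compSL g⁻¹ (D.base.bridge r : ℍ → ℂ))
      (D.base.sigmaG D.base.qexpExpansion g (P.inclRG r)) := by
  rw [GenBase.sigmaG_inclRG]
  exact D.base_qexp_spec _

end GenData

end Fermat.Agent.S48.H332

end
end
-- ===== PACK-END S48/H332/PkgMain.lean

-- ===== PACK-BEGIN S48/H332/PkgConj.lean
section




/-!
# Tower A1 / A1-FF, piece DEG-GEN (helper332) — function-level conjugate product, generic `Γ`

GENERIC port of `S24/Deg/H648Conj.lean`: for a subgroup `Γ ≤ SL₂(ℤ)` of finite index and a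
function `f` good for `Γ` (`IsGoodFor Γ f`: holomorphic, `Γ`-invariant, all `SL₂(ℤ)`-translates of
at most exponential growth), the polynomial `∏ₓ (Y - f ∘ gₓ⁻¹)` (product over `x ∈ SL₂(ℤ)/Γ`) has
coefficients in `ℂ[j]`:

`exists_gcharPoly_eval_eq_zero` : `∃ P ∈ ℂ[X][Y]` monic of degree `|SL₂(ℤ)/Γ|` with
`P(j(τ), f(τ)) = 0` for all `τ`.
-/

set_option autoImplicit false
set_option linter.unusedSectionVars false

noncomputable section

open UpperHalfPlane ModularGroup CongruenceSubgroup Polynomial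
open scoped MatrixGroups Manifold Modular Real

namespace Fermat.Agent.S48.H332

open Fermat.Agent.S24.H648

variable (Γ : Subgroup SL(2, ℤ))

/-- The conjugate `f ∘ gₓ⁻¹` of `f` attached to the coset `x = gₓ Γ`. -/
def gconj (f : ℍ → ℂ) (x : SL(2, ℤ) ⧸ Γ) : ℍ → ℂ :=
  fun τ => f ((Quotient.out x)⁻¹ • τ)

variable {Γ}

lemma gconj_mk {f : ℍ → ℂ} (hf : ∀ γ ∈ Γ, ∀ τ : ℍ, f (γ • τ) = f τ) (g : SL(2, ℤ))
    (τ : ℍ) : gconj Γ f (g : SL(2, ℤ) ⧸ Γ) τ = f (g⁻¹ • τ) := by
  obtain ⟨h, hh⟩ := QuotientGroup.mk_out_eq_mul Γ g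
  unfold gconj
  rw [hh, mul_inv_rev, mul_smul]
  exact hf _ (inv_mem h.2) _

lemma gconj_smul {f : ℍ → ℂ} (hf : ∀ γ ∈ Γ, ∀ τ : ℍ, f (γ • τ) = f τ) (γ : SL(2, ℤ))
    (x : SL(2, ℤ) ⧸ Γ) (τ : ℍ) : gconj Γ f x (γ • τ) = gconj Γ f (γ⁻¹ • x) τ := by
  induction x using QuotientGroup.induction_on with
  | H g =>
    rw [gconj_mk hf, MulAction.Quotient.smul_mk, gconj_mk hf, smul_eq_mul, mul_inv_rev, inv_inv,
      mul_smul]

lemma gconj_one_coset {f : ℍ → ℂ} (hf : ∀ γ ∈ Γ, ∀ τ : ℍ, f (γ • τ) = f τ) (τ : ℍ) :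
    gconj Γ f ((1 : SL(2, ℤ)) : SL(2, ℤ) ⧸ Γ) τ = f τ := by
  rw [gconj_mk hf]; simp

lemma gconj_mem_niceRing {f : ℍ → ℂ} (hf : IsGoodFor Γ f) (x : SL(2, ℤ) ⧸ Γ) :
    gconj Γ f x ∈ niceRing :=
  ⟨mdifferentiable_comp_smul hf.1 _, hf.2.2 _⟩

variable (Γ) in
/-- The "characteristic polynomial" `∏ₓ (Y - f ∘ gₓ⁻¹)` evaluated at `τ`. -/
def gcharPolyAt [Fintype (SL(2, ℤ) ⧸ Γ)] (f : ℍ → ℂ) (τ : ℍ) : ℂ[X] :=
  ∏ x : SL(2, ℤ) ⧸ Γ, (X - C (gconj Γ f x τ))

section charPoly

variable [Fintype (SL(2, ℤ) ⧸ Γ)]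

lemma gcharPolyAt_monic (f : ℍ → ℂ) (τ : ℍ) : (gcharPolyAt Γ f τ).Monic :=
  Polynomial.monic_prod_of_monic _ _ fun _ _ => Polynomial.monic_X_sub_C _

lemma gcharPolyAt_natDegree (f : ℍ → ℂ) (τ : ℍ) :
    (gcharPolyAt Γ f τ).natDegree = Fintype.card (SL(2, ℤ) ⧸ Γ) := by
  unfold gcharPolyAt
  rw [Polynomial.natDegree_prod_of_monic _ _ fun _ _ => Polynomial.monic_X_sub_C _]
  simp

lemma gcharPolyAt_smul {f : ℍ → ℂ} (hf : ∀ γ ∈ Γ, ∀ τ : ℍ, f (γ • τ) = f τ)
    (γ : SL(2, ℤ)) (τ : ℍ) : gcharPolyAt Γ f (γ • τ) = gcharPolyAt Γ f τ := by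
  unfold gcharPolyAt
  refine Fintype.prod_equiv (MulAction.toPerm γ⁻¹) _ _ fun x => ?_
  rw [gconj_smul hf]
  rfl

lemma gcharPolyAt_eval_self {f : ℍ → ℂ} (hf : ∀ γ ∈ Γ, ∀ τ : ℍ, f (γ • τ) = f τ)
    (τ : ℍ) : (gcharPolyAt Γ f τ).eval (f τ) = 0 := by
  unfold gcharPolyAt
  rw [Polynomial.eval_prod]
  refine Finset.prod_eq_zero (Finset.mem_univ ((1 : SL(2, ℤ)) : SL(2, ℤ) ⧸ Γ)) ?_
  rw [gconj_one_coset hf]
  simp

lemma gcharPolyAt_eval_gconj (f : ℍ → ℂ) (x : SL(2, ℤ) ⧸ Γ)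
    (τ : ℍ) : (gcharPolyAt Γ f τ).eval (gconj Γ f x τ) = 0 := by
  unfold gcharPolyAt
  rw [Polynomial.eval_prod]
  refine Finset.prod_eq_zero (Finset.mem_univ x) ?_
  simp

lemma coeff_gcharPolyAt_mem_niceRing {f : ℍ → ℂ} (hf : IsGoodFor Γ f) (k : ℕ) :
    (fun τ => (gcharPolyAt Γ f τ).coeff k) ∈ niceRing :=
  coeff_prod_mem_niceRing (gconj Γ f) (gconj_mem_niceRing hf) Finset.univ k

/-- **Conjugate product, generic `Γ`.**  The conjugate product `∏ₓ (Y - f ∘ gₓ⁻¹)` of a good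
function `f` has coefficients in `ℂ[j]`. -/
theorem exists_gcharPoly {f : ℍ → ℂ} (hf : IsGoodFor Γ f) :
    ∃ P : (ℂ[X])[X], P.Monic ∧ P.natDegree = Fintype.card (SL(2, ℤ) ⧸ Γ) ∧
      ∀ τ : ℍ, P.map (Polynomial.evalRingHom (jFun τ)) = gcharPolyAt Γ f τ := by
  classical
  set n := Fintype.card (SL(2, ℤ) ⧸ Γ) with hn
  have key : ∀ k : ℕ, ∃ p : ℂ[X], ∀ τ, (gcharPolyAt Γ f τ).coeff k = p.eval (jFun τ) := by
    intro k
    have h := coeff_gcharPolyAt_mem_niceRing hf k
    exact exists_polynomial_of_expGrowth _ h.1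
      (fun γ τ => by rw [gcharPolyAt_smul hf.2.1]) h.2
  choose p hp using key
  set Q : (ℂ[X])[X] := ∑ i ∈ Finset.range n, C (p i) * X ^ i with hQ
  have hQdeg : Q.degree < n := by
    rw [Polynomial.degree_lt_iff_coeff_zero]
    intro m hm
    rw [hQ, Polynomial.finsetSum_coeff]
    refine Finset.sum_eq_zero fun i hi => ?_
    rw [Polynomial.coeff_C_mul_X_pow, if_neg]
    have := Finset.mem_range.mp hi
    omega
  refine ⟨X ^ n + Q, Polynomial.monic_X_pow_add hQdeg, ?_, fun τ => ?_⟩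
  · rw [Polynomial.natDegree_add_eq_left_of_degree_lt (by rwa [Polynomial.degree_X_pow]),
      Polynomial.natDegree_X_pow]
  · have h1 := (gcharPolyAt_monic (Γ := Γ) f τ).as_sum
    rw [gcharPolyAt_natDegree] at h1
    rw [h1, Polynomial.map_add, Polynomial.map_pow, Polynomial.map_X, hQ, Polynomial.map_sum]
    congr 1
    refine Finset.sum_congr rfl fun i _ => ?_
    rw [Polynomial.map_mul, Polynomial.map_pow, Polynomial.map_X, Polynomial.map_C,
      Polynomial.coe_evalRingHom, ← hp i τ]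

/-- Corollary: every good function for `Γ` is a root of a monic polynomial of degree
`|SL₂(ℤ)/Γ|` over `ℂ[j]`. -/
theorem exists_gcharPoly_eval_eq_zero {f : ℍ → ℂ} (hf : IsGoodFor Γ f) :
    ∃ P : (ℂ[X])[X], P.Monic ∧ P.natDegree = Fintype.card (SL(2, ℤ) ⧸ Γ) ∧
      ∀ τ : ℍ, (P.map (Polynomial.evalRingHom (jFun τ))).eval (f τ) = 0 := by
  obtain ⟨P, h1, h2, h3⟩ := exists_gcharPoly hf
  exact ⟨P, h1, h2, fun τ => by rw [h3, gcharPolyAt_eval_self hf.2.1]⟩

/-- All conjugates are roots of the same polynomial. -/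
theorem exists_gcharPoly_eval_gconj {f : ℍ → ℂ} (hf : IsGoodFor Γ f) :
    ∃ P : (ℂ[X])[X], P.Monic ∧ P.natDegree = Fintype.card (SL(2, ℤ) ⧸ Γ) ∧
      ∀ (x : SL(2, ℤ) ⧸ Γ) (τ : ℍ),
        (P.map (Polynomial.evalRingHom (jFun τ))).eval (gconj Γ f x τ) = 0 := by
  obtain ⟨P, h1, h2, h3⟩ := exists_gcharPoly hf
  exact ⟨P, h1, h2, fun x τ => by rw [h3, gcharPolyAt_eval_gconj]⟩

end charPoly

end Fermat.Agent.S48.H332

end
end
-- ===== PACK-END S48/H332/PkgConj.lean

-- ===== PACK-BEGIN S48/H332/PkgDeg.lean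
section




/-!
# Tower A1 / A1-FF, piece DEG-GEN (helper332) — the degree of `ℚ̄(S)` over `ℚ̄(j)`, unconditionally

For analytic input `D : GenData M Γ P` with `Γ` of finite index:

* `GenData.hypG`          : every element of `ℂ[S]` is a root of a monic polynomial of degree
                            `|SL₂(ℤ)/Γ|` over `ℂ[j]` (conjugate product, inside the ring `holN M`);
* `GenData.degree_fields` : `F/ℚ̄(j)` is finite of degree `≤ |SL₂(ℤ)/Γ|`;
* `GenData.finrank_eq`    : `[F : ℚ̄(j)] = |SL₂(ℤ)/Γ|`;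
* `GenData.pkg`           : the generic modular package `GenPackage M Γ P`, UNCONDITIONALLY.
-/

set_option autoImplicit false
set_option linter.style.haveILetI false
set_option linter.unusedVariables false
set_option linter.unusedSectionVars false

noncomputable section

open ModularCurve HahnSeries UpperHalfPlane Polynomial
open scoped MatrixGroups Manifold Real

namespace Fermat.Agent.S48.H332

open Fermat.Agent.S24 Fermat.Agent.S24.H997 Fermat.Agent.S24.Deg457
open Fermat.Agent.S24.H624 Fermat.Agent.S20.L1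

namespace GenData

variable {M : ℕ} [NeZero M] {Γ : Subgroup SL(2, ℤ)} {P : GenField} (D : GenData M Γ P)

/-- the generators over `ℂ` -/
def SC (P : GenField) : Set (LaurentSeries ℂ) := ⇑(coeffMap ιK) '' P.S

theorem JK_mem_SC : JK ℂ ∈ SC P :=
  ⟨jBar, P.hj, coeffMap_JK ιK⟩

theorem jBar_eq_JK : jBar = JK Kbar := rfl

/-- constants as a ring hom `ℂ →+* Hol` -/
def constHom : ℂ →+* D.base.Hol where
  toFun c := D.base.constH c
  map_one' := rfl
  map_mul' _ _ := rfl
  map_zero' := rfl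
  map_add' _ _ := rfl

/-- evaluation at a point as a ring hom `Hol →+* ℂ` -/
def evalHom (τ : ℍ) : D.base.Hol →+* ℂ where
  toFun h := (h : ℍ → ℂ) τ
  map_one' := rfl
  map_mul' _ _ := rfl
  map_zero' := rfl
  map_add' _ _ := rfl

theorem qExpand_algebraMap (c : ℂ) :
    qExpand ℂ M (algebraMap ℂ (LaurentSeries ℂ) c) = HahnSeries.C c := by
  rw [algebraMap_laurentSeries_eq_single, qExpand_single, mul_zero]
  rfl

/-- every element of `ℂ[S]` is the expansion of a `Γ`-invariant element of `holN M` -/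
theorem exists_hol_of_mem_adjoin {b : LaurentSeries ℂ} (hb : b ∈ Algebra.adjoin ℂ (SC P)) :
    ∃ h : D.base.Hol, (∀ γ ∈ Γ, ∀ τ : ℍ, (h : ℍ → ℂ) (γ • τ) = (h : ℍ → ℂ) τ) ∧
      D.base.qexp h = qExpand ℂ M b := by
  induction hb using Algebra.adjoin_induction with
  | mem x hx =>
    obtain ⟨s, hs, rfl⟩ := hx
    exact ⟨D.base.GH hs, fun γ hγ τ => D.G_inv s hs γ hγ τ, D.base.qexp_GH hs⟩
  | algebraMap c =>
    refine ⟨D.base.constH c, fun _ _ _ => rfl, ?_⟩
    rw [qExpand_algebraMap]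
    exact D.base.qexp_const c
  | add x y _ _ hx hy =>
    obtain ⟨f, hf, hfx⟩ := hx
    obtain ⟨g, hg, hgy⟩ := hy
    refine ⟨f + g, fun γ hγ τ => ?_, by rw [map_add, map_add, hfx, hgy]⟩
    show (f : ℍ → ℂ) (γ • τ) + (g : ℍ → ℂ) (γ • τ) = (f : ℍ → ℂ) τ + (g : ℍ → ℂ) τ
    rw [hf γ hγ τ, hg γ hγ τ]
  | mul x y _ _ hx hy =>
    obtain ⟨f, hf, hfx⟩ := hx
    obtain ⟨g, hg, hgy⟩ := hy
    refine ⟨f * g, fun γ hγ τ => ?_, by rw [map_mul, map_mul, hfx, hgy]⟩
    show (f : ℍ → ℂ) (γ • τ) * (g : ℍ → ℂ) (γ • τ) = (f : ℍ → ℂ) τ * (g : ℍ → ℂ) τ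
    rw [hf γ hγ τ, hg γ hγ τ]

theorem qexp_JH : D.base.qexp D.base.JH = qExpand ℂ M (JK ℂ) := by
  rw [GenBase.JH, GenBase.qexp_GH, ← coeffMap_JK ιK]
  rfl

theorem coe_JH : ((D.base.JH : D.base.Hol) : ℍ → ℂ) = jFun := D.G_j

/-- the two ring homs `ℂ[X] → ℂ((z))` agree -/
theorem qexp_comp_eval₂ :
    (D.base.qexp).comp (Polynomial.eval₂RingHom D.constHom D.base.JH)
      = (qExpand ℂ M).comp (evJ (JK ℂ)) := by
  refine Polynomial.ringHom_ext ?_ ?_
  · intro c
    simp only [RingHom.coe_comp, Function.comp_apply, Polynomial.coe_eval₂RingHom,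
      Polynomial.eval₂_C, evJ_apply, Polynomial.aeval_C]
    rw [qExpand_algebraMap]
    exact D.base.qexp_const c
  · simp only [RingHom.coe_comp, Function.comp_apply, Polynomial.coe_eval₂RingHom,
      Polynomial.eval₂_X, evJ_apply, Polynomial.aeval_X]
    exact D.qexp_JH

theorem evalHom_comp_eval₂ (τ : ℍ) :
    (D.evalHom τ).comp (Polynomial.eval₂RingHom D.constHom D.base.JH)
      = Polynomial.evalRingHom (jFun τ) := by
  refine Polynomial.ringHom_ext ?_ ?_
  · intro c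
    simp only [RingHom.coe_comp, Function.comp_apply, Polynomial.coe_eval₂RingHom,
      Polynomial.eval₂_C, Polynomial.coe_evalRingHom, Polynomial.eval_C]
    rfl
  · simp only [RingHom.coe_comp, Function.comp_apply, Polynomial.coe_eval₂RingHom,
      Polynomial.eval₂_X, Polynomial.coe_evalRingHom, Polynomial.eval_X]
    show ((D.base.JH : D.base.Hol) : ℍ → ℂ) τ = jFun τ
    rw [D.coe_JH]

include D in
/-- **The interface hypothesis over `ℂ`**, unconditionally. -/
theorem hypG [Finite (XG Γ)] : HypG ℂ (SC P) (Nat.card (XG Γ)) := by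
  intro b hb
  obtain ⟨h, hinv, hq⟩ := D.exists_hol_of_mem_adjoin hb
  letI : Fintype (SL(2, ℤ) ⧸ Γ) := Fintype.ofFinite _
  have hgood : IsGoodFor Γ (h : ℍ → ℂ) := isGoodFor_of_mem_holN (M := M) h.2 hinv
  obtain ⟨Q, hQm, hQn, hQ⟩ := exists_gcharPoly_eval_eq_zero hgood
  refine ⟨Q, hQm, ?_, ?_⟩
  · rw [hQn, Nat.card_eq_fintype_card]
  · apply qExpand_injective (R := ℂ) M
    rw [map_zero, Polynomial.hom_eval₂, ← D.qexp_comp_eval₂, ← hq, ← Polynomial.hom_eval₂]
    have hz : Q.eval₂ (Polynomial.eval₂RingHom D.constHom D.base.JH) h = 0 := by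
      apply Subtype.ext
      funext τ
      show D.evalHom τ (Q.eval₂ (Polynomial.eval₂RingHom D.constHom D.base.JH) h) = 0
      rw [Polynomial.hom_eval₂, D.evalHom_comp_eval₂, ← Polynomial.eval_map]
      exact hQ τ
    rw [hz, map_zero]

include D in
/-- **The degree bound**: `F/ℚ̄(j)` is finite of degree `≤ |SL₂(ℤ)/Γ|`. -/
theorem degree_fields [Finite (XG Γ)] :
    FiniteDimensional ↥(IntermediateField.adjoin Kbar {P.jF}) P.F ∧
      Module.finrank ↥(IntermediateField.adjoin Kbar {P.jF}) P.F ≤ Nat.card (XG Γ) :=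
  finiteDimensional_and_finrank_le_G ιK (S := P.S) P.hj P.F P.hF P.jF rfl _ D.hypG

include D in
theorem finiteDimensional [Finite (XG Γ)] :
    FiniteDimensional ↥(IntermediateField.adjoin Kbar {P.jF}) P.F :=
  D.degree_fields.1

include D in
/-- **The degree**: `[F : ℚ̄(j)] = |SL₂(ℤ)/Γ|`. -/
theorem finrank_eq [Finite (XG Γ)] :
    Module.finrank ↥(IntermediateField.adjoin Kbar {P.jF}) P.F = Nat.card (XG Γ) :=
  haveI := D.finiteDimensional
  le_antisymm D.degree_fields.2 (GenCore.card_le_finrank D.core)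

/-- **The generic modular package, unconditionally.** -/
def pkg [Finite (XG Γ)] : GenPackage M Γ P :=
  D.package D.degree_fields.1 D.degree_fields.2

end GenData

end Fermat.Agent.S48.H332

end
end
-- ===== PACK-END S48/H332/PkgDeg.lean

-- ===== PACK-BEGIN S29/H389/Dict.lean
section





/-!
# S29 / layer M / BR — piece DICT (helper389)

Places dictionary for the function field `FF N = ℚ̄(j(q^d) : d ∣ N)` of `X₀(N)`, on top of the
landed S24 library (`H997.analyticCore`, `H117` local theorem).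

Main result `dvd_ord_of_analytic_pow` : let `r, t ∈ R_N = ℚ̄[j(q^d)]`, and let `h₁, h₂` be
functions in the S24 ring `Hol` with `e(r) · h₂ ^ p = c · h₁ ^ p · e(t)` (`e` the bridge
`R_N → Hol`), such that the quotient `h₁ / h₂` is invariant under every `δ ∈ Γ₀(N)` which has
finite order or trace `2`.  Then `p ∣ ord_v (r / t)` for EVERY place `v` of `FF N`.

(Intended use: `h₁/h₂ = h·u` with `h` a twisted Eisenstein quotient of character `χ`, `χ` trivial
on elliptic and parabolic elements, and `u` a modular function; `r / t` the Kummer generator.)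
-/

set_option autoImplicit false
set_option linter.style.haveILetI false

noncomputable section

open AlgebraicCurve HahnSeries ModularCurve
open scoped MatrixGroups

namespace Fermat.Agent.S29.H389

open Fermat.Agent.S24 Fermat.Agent.S24.H997

variable {N : ℕ} [NeZero N]

/-- Iterating the rotation data: precomposition with `ε ^ n`. -/
theorem rot_iter (B : HolBase N) (X : Expansion B) (ε : SL(2, ℤ)) (R : RotData B X ε)
    (n : ℕ) (h : B.Hol) :
    (X.E (B.compH (ε ^ n) h)).order = (X.E h).order ∧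
      (X.E (B.compH (ε ^ n) h)).leadingCoeff
        = (R.ζ ^ (X.E h).order) ^ n * (X.E h).leadingCoeff := by
  induction n with
  | zero => simp [B.compH_one]
  | succ n ih =>
    have hstep : B.compH (ε ^ (n + 1)) h = B.compH ε (B.compH (ε ^ n) h) := by
      rw [pow_succ, B.compH_mul]
    have hr := R.rot (B.compH (ε ^ n) h)
    rw [hstep]
    refine ⟨by rw [hr.1, ih.1], ?_⟩
    rw [hr.2, ih.1, ih.2, pow_succ]
    ring


/-! ### Small facts on Laurent series over `ℂ` -/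

theorem ls_order_mul {a b : LaurentSeries ℂ} (ha : a ≠ 0) (hb : b ≠ 0) :
    (a * b).order = a.order + b.order :=
  order_mul_of_ne_zero
    (mul_ne_zero (leadingCoeff_ne_zero.mpr ha) (leadingCoeff_ne_zero.mpr hb))

theorem ls_order_pow {a : LaurentSeries ℂ} (ha : a ≠ 0) (n : ℕ) :
    (a ^ n).order = n * a.order := by
  induction n with
  | zero => simp
  | succ n ih =>
    rw [pow_succ, ls_order_mul (pow_ne_zero n ha) ha, ih]
    push_cast
    ring

theorem ls_order_C {c : ℂ} : (HahnSeries.C c : LaurentSeries ℂ).order = 0 := order_C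

/-! ### "Nice" elements: finite order or trace `2` -/

/-- An element of `SL(2,ℤ)` of finite order, or of trace `2`. -/
def Nice (δ : SL(2, ℤ)) : Prop :=
  IsOfFinOrder δ ∨ (δ : Matrix (Fin 2) (Fin 2) ℤ).trace = 2

theorem Nice.conj {δ : SL(2, ℤ)} (h : Nice δ) (g : SL(2, ℤ)) : Nice (g⁻¹ * δ * g) := by
  rcases h with h | h
  · left
    rw [isOfFinOrder_iff_pow_eq_one] at h ⊢
    obtain ⟨n, hn, hδ⟩ := h
    refine ⟨n, hn, ?_⟩
    have : (g⁻¹ * δ * g) ^ n = g⁻¹ * δ ^ n * g := by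
      have := conj_pow (a := g⁻¹) (b := δ) (i := n)
      simpa using this
    rw [this, hδ]
    simp
  · right
    have h1 : ((g⁻¹ * δ * g : SL(2, ℤ)) : Matrix (Fin 2) (Fin 2) ℤ)
        = (g⁻¹ : SL(2, ℤ)).1 * δ.1 * g.1 := by
      simp
    rw [h1, Matrix.trace_mul_comm, ← mul_assoc]
    have h2 : g.1 * (g⁻¹ : SL(2, ℤ)).1 = 1 := by
      rw [← Matrix.SpecialLinearGroup.coe_mul, mul_inv_cancel,
        Matrix.SpecialLinearGroup.coe_one]
    rw [h2, one_mul]
    exact h

/-! ### The local statement -/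

/-- **DICT, local form.**  For the local data built from an expansion with rotation data,
an analytic `p`-th power relation whose root is invariant under nice elements of `Γ₀(N)`
forces `p ∣ ord_v` at every place over `t = 0`. -/
theorem dvd_ord_mkLocalData (B : HolBase N) (X : Expansion B) (ε : SL(2, ℤ))
    (R : RotData B X ε) (t : FF N) (u : LaurentSeries ℂ)
    (ht : ∀ g : SL(2, ℤ), B.sigmaG X g t = u) (hu : u.order = (R.m : ℤ))
    [FiniteDimensional ↥(IntermediateField.adjoin Kbar {t}) (FF N)]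
    (hrank : Module.finrank ↥(IntermediateField.adjoin Kbar {t}) (FF N) = Nat.card (XX N))
    (hε : ∀ n : ℕ, Nice (ε ^ n))
    (p : ℕ) (r s : RN N) (hr : r ≠ 0) (hs : s ≠ 0) (h₁ h₂ : B.Hol) (hh₁ : h₁ ≠ 0)
    (hh₂ : h₂ ≠ 0) (c : ℂ) (hc : c ≠ 0)
    (hrel : B.bridge r * h₂ ^ p = B.constH c * h₁ ^ p * B.bridge s)
    (hinv : ∀ δ : SL(2, ℤ), δ ∈ CongruenceSubgroup.Gamma0 N → Nice δ →
      B.compH δ h₁ * h₂ = h₁ * B.compH δ h₂)
    (v : Place Kbar (FF N)) (hv : 0 < v.ord t) :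
    (p : ℤ) ∣ v.ord (inclRN N r / inclRN N s) := by
  classical
  set L := B.mkLocalData X ε R t u ht hu with hL
  obtain ⟨x, hx⟩ :=
    H117.exists_placeOf_eq L (IntermediateField.adjoin Kbar {t}) le_rfl hrank v hv
  obtain ⟨g, rfl⟩ := QuotientGroup.mk_surjective x
  have hσ : L.σ (g : XX N) = B.sigmaG X g := B.sigmaX_mk X g
  -- translated functions
  set h₁' := B.compH g⁻¹ h₁ with hh₁'
  set h₂' := B.compH g⁻¹ h₂ with hh₂'
  have hE₁ : X.E h₁' ≠ 0 := by
    intro h0
    apply hh₁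
    apply B.compH_injective g⁻¹
    apply X.inj
    rw [h0, map_zero, map_zero]
  have hE₂ : X.E h₂' ≠ 0 := by
    intro h0
    apply hh₂
    apply B.compH_injective g⁻¹
    apply X.inj
    rw [h0, map_zero, map_zero]
  set k₁ := (X.E h₁').order with hk₁
  set k₂ := (X.E h₂').order with hk₂
  -- the relation, expanded
  have hrel' : B.sigmaG X g (inclRN N r) * (X.E h₂') ^ p
      = HahnSeries.C c * (X.E h₁') ^ p * B.sigmaG X g (inclRN N s) := by
    rw [B.sigmaG_inclRN, B.sigmaG_inclRN]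
    have := congrArg (fun z => X.E (B.compH g⁻¹ z)) hrel
    simp only [map_mul, map_pow, B.compH_constH, X.const] at this
    exact this
  have hr' : inclRN N r ≠ 0 := fun h => hr (inclRN_injective N (by rw [h, map_zero]))
  have hs' : inclRN N s ≠ 0 := fun h => hs (inclRN_injective N (by rw [h, map_zero]))
  have hσr : B.sigmaG X g (inclRN N r) ≠ 0 := (map_ne_zero _).mpr hr'
  have hσs : B.sigmaG X g (inclRN N s) ≠ 0 := (map_ne_zero _).mpr hs'
  have hC : (HahnSeries.C c : LaurentSeries ℂ) ≠ 0 := by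
    intro h0
    apply hc
    have := congrArg (fun z : LaurentSeries ℂ => z.coeff 0) h0
    simpa using this
  have hord : (B.sigmaG X g (inclRN N r / inclRN N s)).order = (p : ℤ) * (k₁ - k₂) := by
    have h1 := congrArg HahnSeries.order hrel'
    rw [ls_order_mul hσr (pow_ne_zero p hE₂), ls_order_pow hE₂,
      ls_order_mul (mul_ne_zero hC (pow_ne_zero p hE₁)) hσs,
      ls_order_mul hC (pow_ne_zero p hE₁), ls_order_pow hE₁, ls_order_C] at h1
    rw [map_div₀, div_eq_mul_inv, ls_order_mul hσr (inv_ne_zero hσs),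
      RotRel.order_inv' hσs]
    linarith
  -- multiplicity
  have hmult := H117.order_eq L (g : XX N) (inclRN N r / inclRN N s)
  rw [hσ, hord, hx] at hmult
  -- orbit length
  have hfin := H117.finite_places_over L (IntermediateField.adjoin Kbar {t}) le_rfl hrank
  have hS : ∀ w : Place Kbar (FF N), w ∈ hfin.toFinset ↔ 0 < w.ord t := fun w => by
    simp
  have hsum := H144.loc_fundamental_inequality L hfin.toFinset hS
  obtain ⟨-, horb, -⟩ :=
    H117.localThm L (IntermediateField.adjoin Kbar {t}) le_rfl hrank hfin.toFinset hS hsum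
  have hn := horb (g : XX N)
  rw [hx] at hn
  set n := Nat.card (MulAction.orbit (Subgroup.zpowers L.perm) (g : XX N)) with hn_def
  have hnpos : 0 < n := by
    have : (0 : ℤ) < n := by rw [hn]; exact hv
    exact_mod_cast this
  -- `perm ^ n` fixes `x`
  have hper : (L.perm ^ n) (g : XX N) = (g : XX N) := by
    letI : Fintype (MulAction.orbit (Subgroup.zpowers L.perm) (g : XX N)) :=
      Fintype.ofFinite _
    have h1 : Function.minimalPeriod (L.perm • ·) (g : XX N) = n := by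
      rw [MulAction.minimalPeriod_eq_card, hn_def, Nat.card_eq_fintype_card]
    have h2 := Function.isPeriodicPt_minimalPeriod (L.perm • ·) (g : XX N)
    rw [h1] at h2
    have h3 : ((L.perm • ·) : XX N → XX N) = ⇑L.perm := rfl
    rw [h3] at h2
    have h4 : (⇑L.perm)^[n] (g : XX N) = (g : XX N) := h2
    rw [Equiv.Perm.iterate_eq_pow] at h4
    exact h4
  -- the element `δ = g⁻¹ ε ^ n g` of `Γ₀(N)`
  have hperm_pow : (L.perm ^ n) (g : XX N) = (((ε⁻¹) ^ n * g : SL(2, ℤ)) : XX N) := by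
    have h1 : L.perm = permOf N ε⁻¹ := rfl
    rw [h1]
    have h2 : (permOf N ε⁻¹) ^ n = permOf N ((ε⁻¹) ^ n) := by
      unfold permOf
      exact (map_pow (MulAction.toPermHom SL(2, ℤ) (XX N)) ε⁻¹ n).symm
    rw [h2]
    rfl
  have hδmem : g⁻¹ * ε ^ n * g ∈ CongruenceSubgroup.Gamma0 N := by
    have h1 := hper
    rw [hperm_pow] at h1
    have h2 := QuotientGroup.eq.mp h1
    have h3 : ((ε⁻¹) ^ n * g)⁻¹ * g = g⁻¹ * ε ^ n * g := by
      rw [mul_inv_rev, inv_pow, inv_inv]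
    rwa [h3] at h2
  have hδnice : Nice (g⁻¹ * ε ^ n * g) := (hε n).conj g
  have hinv' := hinv _ hδmem hδnice
  -- transport by `g⁻¹`
  have hcomp : ∀ h : B.Hol, B.compH g⁻¹ (B.compH (g⁻¹ * ε ^ n * g) h)
      = B.compH (ε ^ n) (B.compH g⁻¹ h) := by
    intro h
    rw [← B.compH_mul, ← B.compH_mul]
    congr 1
    group
  have hrot : B.compH (ε ^ n) h₁' * h₂' = h₁' * B.compH (ε ^ n) h₂' := by
    have := congrArg (B.compH g⁻¹) hinv'
    rw [map_mul, map_mul, hcomp, hcomp] at this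
    exact this
  have hlc := congrArg (fun z => (X.E z).leadingCoeff) hrot
  simp only [map_mul, leadingCoeff_mul] at hlc
  rw [(rot_iter B X ε R n h₁').2, (rot_iter B X ε R n h₂').2] at hlc
  have hl₁ : (X.E h₁').leadingCoeff ≠ 0 := leadingCoeff_ne_zero.mpr hE₁
  have hl₂ : (X.E h₂').leadingCoeff ≠ 0 := leadingCoeff_ne_zero.mpr hE₂
  have hζ0 : R.ζ ≠ 0 := R.hζ.ne_zero R.m_pos.ne'
  have hζeq : (R.ζ ^ k₁) ^ n = (R.ζ ^ k₂) ^ n := by
    have h1 : (R.ζ ^ k₁) ^ n * ((X.E h₁').leadingCoeff * (X.E h₂').leadingCoeff)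
        = (R.ζ ^ k₂) ^ n * ((X.E h₁').leadingCoeff * (X.E h₂').leadingCoeff) := by
      linear_combination hlc
    exact mul_right_cancel₀ (mul_ne_zero hl₁ hl₂) h1
  have hζ1 : R.ζ ^ ((n : ℤ) * (k₁ - k₂)) = 1 := by
    have h1 : R.ζ ^ ((n : ℤ) * k₁) = R.ζ ^ ((n : ℤ) * k₂) := by
      rw [mul_comm (n : ℤ) k₁, mul_comm (n : ℤ) k₂, zpow_mul, zpow_mul, zpow_natCast,
        zpow_natCast]
      exact hζeq
    rw [mul_sub, zpow_sub₀ hζ0, h1]
    exact div_self (zpow_ne_zero _ hζ0)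
  have hdvd : ((R.m : ℕ) : ℤ) ∣ (n : ℤ) * (k₁ - k₂) := (R.hζ.zpow_eq_one_iff_dvd _).mp hζ1
  have hmm := H117.mult_mul_ord_t L (g : XX N)
  rw [hx, ← hn] at hmm
  have hLm : L.m = R.m := rfl
  rw [hLm] at hmm
  rw [← hmm] at hdvd
  have hn0 : (n : ℤ) ≠ 0 := by exact_mod_cast hnpos.ne'
  have hdvd' : (H117.mult L (g : XX N) : ℤ) ∣ (k₁ - k₂) := by
    rw [mul_comm] at hdvd
    exact (mul_dvd_mul_iff_left hn0).mp hdvd
  obtain ⟨q, hq⟩ := hdvd'
  refine ⟨q, ?_⟩
  have hm0 : (H117.mult L (g : XX N) : ℤ) ≠ 0 := by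
    exact_mod_cast (H117.mult_pos L (g : XX N)).ne'
  rw [hq] at hmult
  have : (H117.mult L (g : XX N) : ℤ) * ((p : ℤ) * q)
      = (H117.mult L (g : XX N) : ℤ) * v.ord (inclRN N r / inclRN N s) := by
    rw [← hmult]; ring
  exact (mul_left_cancel₀ hm0 this).symm


/-! ### Nice powers of the four rotation elements -/

theorem nice_pow_one (n : ℕ) : Nice ((1 : SL(2, ℤ)) ^ n) := by
  left
  rw [one_pow]
  exact IsOfFinOrder.one

theorem S_pow_four : ModularGroup.S ^ 4 = 1 := by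
  apply Subtype.ext
  simp only [Matrix.SpecialLinearGroup.coe_pow, Matrix.SpecialLinearGroup.coe_one,
    ModularGroup.coe_S]
  ext i j
  fin_cases i <;> fin_cases j <;> simp [pow_succ, Matrix.mul_apply, Fin.sum_univ_two]

theorem ST_pow_six : (ModularGroup.S * ModularGroup.T) ^ 6 = 1 := by
  apply Subtype.ext
  simp only [Matrix.SpecialLinearGroup.coe_pow, Matrix.SpecialLinearGroup.coe_mul,
    Matrix.SpecialLinearGroup.coe_one, ModularGroup.coe_S, ModularGroup.coe_T]
  ext i j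
  fin_cases i <;> fin_cases j <;> simp [pow_succ, Matrix.mul_apply, Fin.sum_univ_two]

theorem nice_pow_S (n : ℕ) : Nice (ModularGroup.S ^ n) := by
  left
  exact (isOfFinOrder_iff_pow_eq_one.mpr ⟨4, by norm_num, S_pow_four⟩).pow

theorem nice_pow_ST (n : ℕ) : Nice ((ModularGroup.S * ModularGroup.T) ^ n) := by
  left
  exact (isOfFinOrder_iff_pow_eq_one.mpr ⟨6, by norm_num, ST_pow_six⟩).pow

theorem nice_pow_T (n : ℕ) : Nice (ModularGroup.T ^ n) := by
  right
  have h := ModularGroup.coe_T_zpow (n : ℤ)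
  rw [zpow_natCast] at h
  show (ModularGroup.T ^ n).1.trace = 2
  rw [h]
  simp [Matrix.trace_fin_two]

/-! ### The global statement -/

/-- **DICT.**  Let `A` be an analytic core for level `N` (e.g. `S24.H997.analyticCore N`), let
`r, s ∈ R_N` be nonzero and `h₁, h₂ ∈ Hol` nonzero with `e(r) · h₂ ^ p = c · h₁ ^ p · e(s)`,
`c ≠ 0`, and suppose `h₁ / h₂` is invariant under every element of `Γ₀(N)` of finite order or of
trace `2`.  Then `p` divides the order of `r / s` at EVERY place of the function field `FF N`. -/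
theorem dvd_ord_of_analytic_pow (A : AnalyticCore N) (p : ℕ) (r s : RN N) (hr : r ≠ 0)
    (hs : s ≠ 0) (h₁ h₂ : A.toHolBase.Hol) (hh₁ : h₁ ≠ 0) (hh₂ : h₂ ≠ 0) (c : ℂ) (hc : c ≠ 0)
    (hrel : A.toHolBase.bridge r * h₂ ^ p
      = A.toHolBase.constH c * h₁ ^ p * A.toHolBase.bridge s)
    (hinv : ∀ δ : SL(2, ℤ), δ ∈ CongruenceSubgroup.Gamma0 N → Nice δ →
      A.toHolBase.compH δ h₁ * h₂ = h₁ * A.toHolBase.compH δ h₂)
    (v : Place Kbar (FF N)) :
    (p : ℤ) ∣ v.ord (inclRN N r / inclRN N s) := by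
  classical
  obtain ⟨hfd, hle⟩ := Deg457.degree_fields N
  haveI := hfd
  have hrank : Module.finrank ↥(IntermediateField.adjoin Kbar {jF N}) (FF N)
      = Nat.card (XX N) := le_antisymm hle A.card_le_finrank
  by_cases hj : 0 ≤ v.ord (jF N)
  · haveI : Algebra.IsAlgebraic ↥(IntermediateField.adjoin Kbar {jF N}) (FF N) :=
      Algebra.IsAlgebraic.of_finite _ _
    obtain ⟨a, ha⟩ := FF.exists_ord_sub_pos v (jF N) hj
    obtain ⟨hfd', hfr⟩ :=
      finiteDimensional_and_finrank_of_eq (adjoin_sub_algebraMap Kbar (jF N) a)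
    haveI := hfd'
    have hr' := hfr.trans hrank
    have key : ∀ (ε : SL(2, ℤ)) (P : PointData A.toHolBase (ιK a) ε),
        (∀ n : ℕ, Nice (ε ^ n)) → (p : ℤ) ∣ v.ord (inclRN N r / inclRN N s) := fun ε P hε =>
      dvd_ord_mkLocalData A.toHolBase P.X ε P.R _ _ (fun g => A.sigmaG_sub P g) P.order_J hr'
        hε p r s hr hs h₁ h₂ hh₁ hh₂ c hc hrel hinv v ha
    by_cases h0 : a = 0
    · exact key (ModularGroup.S * ModularGroup.T) (by rw [h0, map_zero]; exact A.at0)
        nice_pow_ST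
    · by_cases h1 : a = 1728
      · refine key ModularGroup.S ?_ nice_pow_S
        have : ιK a = 1728 := by rw [h1]; exact map_ofNat ιK 1728
        rw [this]; exact A.at1728
      · exact key 1 (A.generic (ιK a)
          (fun h => h0 (ιK_injective (by rw [h, map_zero])))
          (fun h => h1 (ιK_injective (by rw [h]; exact (map_ofNat ιK 1728).symm))))
          nice_pow_one
  · have hjinv : 0 < v.ord (jF N)⁻¹ := by
      rw [Place.ord_inv]
      omega
    obtain ⟨hfd', hfr⟩ := finiteDimensional_and_finrank_of_eq (adjoin_inv Kbar (jF N))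
    haveI := hfd'
    have hr' := hfr.trans hrank
    exact dvd_ord_mkLocalData A.toHolBase A.toHolBase.qexpExpansion ModularGroup.T A.infRot
      (jF N)⁻¹ (A.qexp (A.toHolBase.JH 1 (one_dvd N)))⁻¹
      (fun g => by rw [map_inv₀, HolBase.sigmaG_jF]; rfl)
      (by
        rw [RotRel.order_inv' A.toHolBase.qexp_J_one_ne_zero, A.toHolBase.order_qexp_J_one,
          neg_neg]
        rfl)
      hr' nice_pow_T p r s hr hs h₁ h₂ hh₁ hh₂ c hc hrel hinv v hjinv

end Fermat.Agent.S29.H389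

end
end
-- ===== PACK-END S29/H389/Dict.lean

-- ===== PACK-BEGIN S48/H642/DictGen.lean
section



/-!
# Tower A1 / A1-KUM, leaf `k2` — piece DICT, generic form (helper642)

GENERIC port of `S29/H389/Dict.lean` (helper389) to helper332's generic package
(`S48/H332/Pkg*.lean`): places dictionary for ANY field `P.F = ℚ̄(S)` of modular functions for ANY
group `Γ` carrying a generic analytic core `A : GenCore M Γ P` and the degree bound
`[F : ℚ̄(j)] ≤ |SL₂(ℤ)/Γ|`.

Main result `dvd_ord_of_analytic_pow_gen` : let `r, s ∈ ℚ̄[S]` be nonzero and let `h₁, h₂ ≠ 0` be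
functions in the ring `Hol` of the core with `e(r) · h₂ ^ p = c · h₁ ^ p · e(s)` (`e` the bridge
`ℚ̄[S] → Hol`), such that the quotient `h₁ / h₂` is invariant under every `δ ∈ Γ` which has finite
order or trace `2`.  Then `p ∣ ord_v (r / s)` for EVERY place `v` of `P.F`.
-/

set_option autoImplicit false
set_option linter.style.haveILetI false
set_option linter.unusedSectionVars false

noncomputable section

open AlgebraicCurve HahnSeries ModularCurve
open scoped MatrixGroups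

namespace Fermat.Agent.S48.H642

open Fermat.Agent.S24 Fermat.Agent.S24.H997 Fermat.Agent.S48.H332 Fermat.Agent.S29.H389

variable {M : ℕ} [NeZero M] {Γ : Subgroup SL(2, ℤ)} {P : GenField}

/-- Iterating the rotation data: precomposition with `ε ^ n`. -/
theorem rot_iter_gen (B : GenBase M Γ P) (X : GenExpansion B) (ε : SL(2, ℤ))
    (R : GenRotData B X ε) (n : ℕ) (h : B.Hol) :
    (X.E (B.compH (ε ^ n) h)).order = (X.E h).order ∧
      (X.E (B.compH (ε ^ n) h)).leadingCoeff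
        = (R.ζ ^ (X.E h).order) ^ n * (X.E h).leadingCoeff := by
  induction n with
  | zero => simp [B.compH_one]
  | succ n ih =>
    have hstep : B.compH (ε ^ (n + 1)) h = B.compH ε (B.compH (ε ^ n) h) := by
      rw [pow_succ, B.compH_mul]
    have hr := R.rot (B.compH (ε ^ n) h)
    rw [hstep]
    refine ⟨by rw [hr.1, ih.1], ?_⟩
    rw [hr.2, ih.1, ih.2, pow_succ]
    ring

/-! ### The local statement -/

/-- **DICT, local form (generic).**  For the local data built from an expansion with rotation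
data, an analytic `p`-th power relation whose root is invariant under nice elements of `Γ`
forces `p ∣ ord_v` at every place over `t = 0`. -/
theorem dvd_ord_mkLocalData_gen (B : GenBase M Γ P) (X : GenExpansion B) (ε : SL(2, ℤ))
    (R : GenRotData B X ε) (t : P.F) (u : LaurentSeries ℂ)
    (ht : ∀ g : SL(2, ℤ), B.sigmaG X g t = u) (hu : u.order = (R.m : ℤ))
    [Finite (XG Γ)] [FiniteDimensional ↥(IntermediateField.adjoin Kbar {t}) P.F]
    (hrank : Module.finrank ↥(IntermediateField.adjoin Kbar {t}) P.F = Nat.card (XG Γ))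
    (hε : ∀ n : ℕ, Nice (ε ^ n))
    (p : ℕ) (r s : P.RG) (hr : r ≠ 0) (hs : s ≠ 0) (h₁ h₂ : B.Hol) (hh₁ : h₁ ≠ 0)
    (hh₂ : h₂ ≠ 0) (c : ℂ) (hc : c ≠ 0)
    (hrel : B.bridge r * h₂ ^ p = B.constH c * h₁ ^ p * B.bridge s)
    (hinv : ∀ δ : SL(2, ℤ), δ ∈ Γ → Nice δ →
      B.compH δ h₁ * h₂ = h₁ * B.compH δ h₂)
    (v : Place Kbar P.F) (hv : 0 < v.ord t) :
    (p : ℤ) ∣ v.ord (P.inclRG r / P.inclRG s) := by
  classical
  set L := B.mkLocalData X ε R t u ht hu with hL
  obtain ⟨x, hx⟩ :=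
    H117.exists_placeOf_eq L (IntermediateField.adjoin Kbar {t}) le_rfl hrank v hv
  obtain ⟨g, rfl⟩ := QuotientGroup.mk_surjective x
  have hσ : L.σ (g : XG Γ) = B.sigmaG X g := B.sigmaX_mk X g
  -- translated functions
  set h₁' := B.compH g⁻¹ h₁ with hh₁'
  set h₂' := B.compH g⁻¹ h₂ with hh₂'
  have hE₁ : X.E h₁' ≠ 0 := by
    intro h0
    apply hh₁
    apply B.compH_injective g⁻¹
    apply X.inj
    rw [h0, map_zero, map_zero]
  have hE₂ : X.E h₂' ≠ 0 := by
    intro h0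
    apply hh₂
    apply B.compH_injective g⁻¹
    apply X.inj
    rw [h0, map_zero, map_zero]
  set k₁ := (X.E h₁').order with hk₁
  set k₂ := (X.E h₂').order with hk₂
  -- the relation, expanded
  have hrel' : B.sigmaG X g (P.inclRG r) * (X.E h₂') ^ p
      = HahnSeries.C c * (X.E h₁') ^ p * B.sigmaG X g (P.inclRG s) := by
    rw [B.sigmaG_inclRG, B.sigmaG_inclRG]
    have := congrArg (fun z => X.E (B.compH g⁻¹ z)) hrel
    simp only [map_mul, map_pow, B.compH_constH, X.const] at this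
    exact this
  have hr' : P.inclRG r ≠ 0 := fun h => hr (P.inclRG_injective (by rw [h, map_zero]))
  have hs' : P.inclRG s ≠ 0 := fun h => hs (P.inclRG_injective (by rw [h, map_zero]))
  have hσr : B.sigmaG X g (P.inclRG r) ≠ 0 := (map_ne_zero _).mpr hr'
  have hσs : B.sigmaG X g (P.inclRG s) ≠ 0 := (map_ne_zero _).mpr hs'
  have hC : (HahnSeries.C c : LaurentSeries ℂ) ≠ 0 := by
    intro h0
    apply hc
    have := congrArg (fun z : LaurentSeries ℂ => z.coeff 0) h0
    simpa using this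
  have hord : (B.sigmaG X g (P.inclRG r / P.inclRG s)).order = (p : ℤ) * (k₁ - k₂) := by
    have h1 := congrArg HahnSeries.order hrel'
    rw [ls_order_mul hσr (pow_ne_zero p hE₂), ls_order_pow hE₂,
      ls_order_mul (mul_ne_zero hC (pow_ne_zero p hE₁)) hσs,
      ls_order_mul hC (pow_ne_zero p hE₁), ls_order_pow hE₁, ls_order_C] at h1
    rw [map_div₀, div_eq_mul_inv, ls_order_mul hσr (inv_ne_zero hσs),
      RotRel.order_inv' hσs]
    linarith
  -- multiplicity
  have hmult := H117.order_eq L (g : XG Γ) (P.inclRG r / P.inclRG s)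
  rw [hσ, hord, hx] at hmult
  -- orbit length
  have hfin := H117.finite_places_over L (IntermediateField.adjoin Kbar {t}) le_rfl hrank
  have hS : ∀ w : Place Kbar P.F, w ∈ hfin.toFinset ↔ 0 < w.ord t := fun w => by
    simp
  have hsum := H144.loc_fundamental_inequality L hfin.toFinset hS
  obtain ⟨-, horb, -⟩ :=
    H117.localThm L (IntermediateField.adjoin Kbar {t}) le_rfl hrank hfin.toFinset hS hsum
  have hn := horb (g : XG Γ)
  rw [hx] at hn
  set n := Nat.card (MulAction.orbit (Subgroup.zpowers L.perm) (g : XG Γ)) with hn_def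
  have hnpos : 0 < n := by
    have : (0 : ℤ) < n := by rw [hn]; exact hv
    exact_mod_cast this
  -- `perm ^ n` fixes `x`
  have hper : (L.perm ^ n) (g : XG Γ) = (g : XG Γ) := by
    letI : Fintype (MulAction.orbit (Subgroup.zpowers L.perm) (g : XG Γ)) :=
      Fintype.ofFinite _
    have h1 : Function.minimalPeriod (L.perm • ·) (g : XG Γ) = n := by
      rw [MulAction.minimalPeriod_eq_card, hn_def, Nat.card_eq_fintype_card]
    have h2 := Function.isPeriodicPt_minimalPeriod (L.perm • ·) (g : XG Γ)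
    rw [h1] at h2
    have h3 : ((L.perm • ·) : XG Γ → XG Γ) = ⇑L.perm := rfl
    rw [h3] at h2
    have h4 : (⇑L.perm)^[n] (g : XG Γ) = (g : XG Γ) := h2
    rw [Equiv.Perm.iterate_eq_pow] at h4
    exact h4
  -- the element `δ = g⁻¹ ε ^ n g` of `Γ`
  have hperm_pow : (L.perm ^ n) (g : XG Γ) = (((ε⁻¹) ^ n * g : SL(2, ℤ)) : XG Γ) := by
    have h1 : L.perm = permG Γ ε⁻¹ := rfl
    rw [h1]
    have h2 : (permG Γ ε⁻¹) ^ n = permG Γ ((ε⁻¹) ^ n) := by
      unfold permG
      exact (map_pow (MulAction.toPermHom SL(2, ℤ) (XG Γ)) ε⁻¹ n).symm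
    rw [h2]
    rfl
  have hδmem : g⁻¹ * ε ^ n * g ∈ Γ := by
    have h1 := hper
    rw [hperm_pow] at h1
    have h2 := QuotientGroup.eq.mp h1
    have h3 : ((ε⁻¹) ^ n * g)⁻¹ * g = g⁻¹ * ε ^ n * g := by
      rw [mul_inv_rev, inv_pow, inv_inv]
    rwa [h3] at h2
  have hδnice : Nice (g⁻¹ * ε ^ n * g) := (hε n).conj g
  have hinv' := hinv _ hδmem hδnice
  -- transport by `g⁻¹`
  have hcomp : ∀ h : B.Hol, B.compH g⁻¹ (B.compH (g⁻¹ * ε ^ n * g) h)
      = B.compH (ε ^ n) (B.compH g⁻¹ h) := by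
    intro h
    rw [← B.compH_mul, ← B.compH_mul]
    congr 1
    group
  have hrot : B.compH (ε ^ n) h₁' * h₂' = h₁' * B.compH (ε ^ n) h₂' := by
    have := congrArg (B.compH g⁻¹) hinv'
    rw [map_mul, map_mul, hcomp, hcomp] at this
    exact this
  have hlc := congrArg (fun z => (X.E z).leadingCoeff) hrot
  simp only [map_mul, leadingCoeff_mul] at hlc
  rw [(rot_iter_gen B X ε R n h₁').2, (rot_iter_gen B X ε R n h₂').2] at hlc
  have hl₁ : (X.E h₁').leadingCoeff ≠ 0 := leadingCoeff_ne_zero.mpr hE₁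
  have hl₂ : (X.E h₂').leadingCoeff ≠ 0 := leadingCoeff_ne_zero.mpr hE₂
  have hζ0 : R.ζ ≠ 0 := R.hζ.ne_zero R.m_pos.ne'
  have hζeq : (R.ζ ^ k₁) ^ n = (R.ζ ^ k₂) ^ n := by
    have h1 : (R.ζ ^ k₁) ^ n * ((X.E h₁').leadingCoeff * (X.E h₂').leadingCoeff)
        = (R.ζ ^ k₂) ^ n * ((X.E h₁').leadingCoeff * (X.E h₂').leadingCoeff) := by
      linear_combination hlc
    exact mul_right_cancel₀ (mul_ne_zero hl₁ hl₂) h1
  have hζ1 : R.ζ ^ ((n : ℤ) * (k₁ - k₂)) = 1 := by
    have h1 : R.ζ ^ ((n : ℤ) * k₁) = R.ζ ^ ((n : ℤ) * k₂) := by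
      rw [mul_comm (n : ℤ) k₁, mul_comm (n : ℤ) k₂, zpow_mul, zpow_mul, zpow_natCast,
        zpow_natCast]
      exact hζeq
    rw [mul_sub, zpow_sub₀ hζ0, h1]
    exact div_self (zpow_ne_zero _ hζ0)
  have hdvd : ((R.m : ℕ) : ℤ) ∣ (n : ℤ) * (k₁ - k₂) := (R.hζ.zpow_eq_one_iff_dvd _).mp hζ1
  have hmm := H117.mult_mul_ord_t L (g : XG Γ)
  rw [hx, ← hn] at hmm
  have hLm : L.m = R.m := rfl
  rw [hLm] at hmm
  rw [← hmm] at hdvd
  have hn0 : (n : ℤ) ≠ 0 := by exact_mod_cast hnpos.ne'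
  have hdvd' : (H117.mult L (g : XG Γ) : ℤ) ∣ (k₁ - k₂) := by
    rw [mul_comm] at hdvd
    exact (mul_dvd_mul_iff_left hn0).mp hdvd
  obtain ⟨q, hq⟩ := hdvd'
  refine ⟨q, ?_⟩
  have hm0 : (H117.mult L (g : XG Γ) : ℤ) ≠ 0 := by
    exact_mod_cast (H117.mult_pos L (g : XG Γ)).ne'
  rw [hq] at hmult
  have : (H117.mult L (g : XG Γ) : ℤ) * ((p : ℤ) * q)
      = (H117.mult L (g : XG Γ) : ℤ) * v.ord (P.inclRG r / P.inclRG s) := by
    rw [← hmult]; ring
  exact (mul_left_cancel₀ hm0 this).symm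

/-! ### The global statement -/

/-- **DICT (generic).**  Let `A` be a generic analytic core for `(M, Γ, P)` and assume the degree
bound `[F : ℚ̄(j)] ≤ |SL₂(ℤ)/Γ|`; let `r, s ∈ ℚ̄[S]` be nonzero and `h₁, h₂ ∈ Hol` nonzero with
`e(r) · h₂ ^ p = c · h₁ ^ p · e(s)`, `c ≠ 0`, and suppose `h₁ / h₂` is invariant under every
element of `Γ` of finite order or of trace `2`.  Then `p` divides the order of `r / s` at EVERY
place of the function field `P.F`. -/
theorem dvd_ord_of_analytic_pow_gen (A : GenCore M Γ P)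
    (hfd : FiniteDimensional ↥(IntermediateField.adjoin Kbar {P.jF}) P.F)
    (hle : Module.finrank ↥(IntermediateField.adjoin Kbar {P.jF}) P.F ≤ Nat.card (XG Γ))
    (p : ℕ) (r s : P.RG) (hr : r ≠ 0)
    (hs : s ≠ 0) (h₁ h₂ : A.toGenBase.Hol) (hh₁ : h₁ ≠ 0) (hh₂ : h₂ ≠ 0) (c : ℂ) (hc : c ≠ 0)
    (hrel : A.toGenBase.bridge r * h₂ ^ p
      = A.toGenBase.constH c * h₁ ^ p * A.toGenBase.bridge s)
    (hinv : ∀ δ : SL(2, ℤ), δ ∈ Γ → Nice δ →
      A.toGenBase.compH δ h₁ * h₂ = h₁ * A.toGenBase.compH δ h₂)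
    (v : Place Kbar P.F) :
    (p : ℤ) ∣ v.ord (P.inclRG r / P.inclRG s) := by
  classical
  haveI := hfd
  haveI : Finite (XG Γ) := A.finite_XG
  have hrank : Module.finrank ↥(IntermediateField.adjoin Kbar {P.jF}) P.F
      = Nat.card (XG Γ) := le_antisymm hle A.card_le_finrank
  by_cases hj : 0 ≤ v.ord P.jF
  · haveI : Algebra.IsAlgebraic ↥(IntermediateField.adjoin Kbar {P.jF}) P.F :=
      Algebra.IsAlgebraic.of_finite _ _
    obtain ⟨a, ha⟩ := FF.exists_ord_sub_pos v P.jF hj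
    obtain ⟨hfd', hfr⟩ :=
      finiteDimensional_and_finrank_of_eq (adjoin_sub_algebraMap Kbar P.jF a)
    haveI := hfd'
    have hr' := hfr.trans hrank
    have key : ∀ (ε : SL(2, ℤ)) (Q : GenPointData A.toGenBase (ιK a) ε),
        (∀ n : ℕ, Nice (ε ^ n)) → (p : ℤ) ∣ v.ord (P.inclRG r / P.inclRG s) := fun ε Q hε =>
      dvd_ord_mkLocalData_gen A.toGenBase Q.X ε Q.R _ _ (fun g => A.sigmaG_sub Q g) Q.order_J
        hr' hε p r s hr hs h₁ h₂ hh₁ hh₂ c hc hrel hinv v ha
    by_cases h0 : a = 0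
    · exact key (ModularGroup.S * ModularGroup.T) (by rw [h0, map_zero]; exact A.at0)
        nice_pow_ST
    · by_cases h1 : a = 1728
      · refine key ModularGroup.S ?_ nice_pow_S
        have : ιK a = 1728 := by rw [h1]; exact map_ofNat ιK 1728
        rw [this]; exact A.at1728
      · exact key 1 (A.generic (ιK a)
          (fun h => h0 (ιK_injective (by rw [h, map_zero])))
          (fun h => h1 (ιK_injective (by rw [h]; exact (map_ofNat ιK 1728).symm))))
          nice_pow_one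
  · have hjinv : 0 < v.ord (P.jF)⁻¹ := by
      rw [Place.ord_inv]
      omega
    obtain ⟨hfd', hfr⟩ := finiteDimensional_and_finrank_of_eq (adjoin_inv Kbar P.jF)
    haveI := hfd'
    have hr' := hfr.trans hrank
    exact dvd_ord_mkLocalData_gen A.toGenBase A.toGenBase.qexpExpansion ModularGroup.T A.infRot
      (P.jF)⁻¹ (A.qexp A.toGenBase.JH)⁻¹
      (fun g => by rw [map_inv₀, GenBase.sigmaG_jF]; rfl)
      (by
        rw [RotRel.order_inv' A.toGenBase.qexp_JH_ne_zero, A.toGenBase.order_qexp_JH,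
          neg_neg]
        rfl)
      hr' nice_pow_T p r s hr hs h₁ h₂ hh₁ hh₂ c hc hrel hinv v hjinv

end Fermat.Agent.S48.H642

end
end
-- ===== PACK-END S48/H642/DictGen.lean

-- ===== PACK-BEGIN Lib/RR/H864/FF1Modular.lean
section



/-!
# RR library, bridge: `FF1` for the function field of `X₀(N)` over `ℚ̄`
-/

set_option autoImplicit false

noncomputable section

open AlgebraicCurve ModularCurve IntermediateField

namespace Fermat.Agent.Lib.RR.H864

open Fermat.Agent.S24 in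
theorem jF_not_mem_range (N : ℕ) [NeZero N] :
    jF N ∉ (algebraMap Kbar (FF N)).range := by
  rintro ⟨c, hc⟩
  have h1 : ((algebraMap Kbar (FF N) c : FF N) : LaurentSeries Kbar).coeff (-1)
      = ((jF N : FF N) : LaurentSeries Kbar).coeff (-1) := by rw [hc]
  have h2 : ((algebraMap Kbar (FF N) c : FF N) : LaurentSeries Kbar)
      = algebraMap Kbar (LaurentSeries Kbar) c := rfl
  rw [h2, algebraMap_laurentSeries_eq_single] at h1
  have h3 : ((jF N : FF N) : LaurentSeries Kbar) = coeffEmb Kbar jq := rfl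
  rw [h3, coeffEmb_coeff, coeff_jq_neg_one, map_one,
    HahnSeries.coeff_single_of_ne (by norm_num)] at h1
  exact zero_ne_one h1

open Fermat.Agent.S24 in
theorem transcendental_jF (N : ℕ) [NeZero N] : Transcendental Kbar (jF N) :=
  FF.transcendental_of_not_mem_range (jF_not_mem_range N)

open Fermat.Agent.S24 in
/-- **`FF1` for the modular function field** `ℚ̄(j(q^d) : d ∣ N)`. -/
theorem ff1_modularFunctionFieldBar (N : ℕ) [NeZero N] :
    FF1 (AlgebraicClosure ℚ) ↥(modularFunctionFieldBar N) := by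
  obtain ⟨P⟩ := nonempty_modularPackage N
  haveI := P.finiteDimensional
  exact ff1 (jF N) (transcendental_jF N)

/-- The modular function field has principal divisors. -/
theorem hasPrincipalDivisors_modularFunctionFieldBar (N : ℕ) [NeZero N] :
    HasPrincipalDivisors (AlgebraicClosure ℚ) ↥(modularFunctionFieldBar N) :=
  (ff1_modularFunctionFieldBar N).hpd

end Fermat.Agent.Lib.RR.H864

end
end
-- ===== PACK-END Lib/RR/H864/FF1Modular.lean

-- ===== PACK-BEGIN S29/H389/DictKummer.lean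
section




/-!
# S29 / layer M / BR — DICT, Kummer-class form (helper389)

`exists_isKummerClass_of_analytic_pow` : in the situation of `dvd_ord_of_analytic_pow`
(`e(r) · h₂ ^ p = c · h₁ ^ p · e(s)`, `h₁ / h₂` invariant under the elliptic and parabolic elements
of `Γ₀(N)`), the function `f = r / s ∈ FF N` has a `p`-Kummer class in `J₀(N)(ℚ̄) = Pic⁰(FF N)`:
there is a degree-zero divisor `D` with `p • D = div f` (landed predicate `H455.IsKummerClass`).
-/

set_option autoImplicit false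
set_option linter.style.haveILetI false

noncomputable section

open AlgebraicCurve HahnSeries ModularCurve
open scoped MatrixGroups

namespace Fermat.Agent.S29.H389

open Fermat.Agent.S24 Fermat.Agent.S24.H997

variable {N : ℕ} [NeZero N]

/-- A divisor all of whose coefficients are divisible by `p ≠ 0` is `p` times a divisor, of
degree zero if the original one is. -/
theorem exists_divisor_div {K F : Type*} [Field K] [Field F] [Algebra K F]
    (p : ℕ) (hp : p ≠ 0) (D₀ : Divisor K F) (hdvd : ∀ v, (p : ℤ) ∣ D₀ v)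
    (hdeg : Divisor.degree D₀ = 0) :
    ∃ D : Divisor K F, Divisor.degree D = 0 ∧ ∀ v, (p : ℤ) * D v = D₀ v := by
  classical
  have hp' : (p : ℤ) ≠ 0 := by exact_mod_cast hp
  let D : Divisor K F := D₀.mapRange (fun n : ℤ => n / (p : ℤ)) (by simp)
  have hD : ∀ v, (p : ℤ) * D v = D₀ v := by
    intro v
    show (p : ℤ) * (D₀.mapRange (fun n : ℤ => n / (p : ℤ)) (by simp)) v = D₀ v
    rw [Finsupp.mapRange_apply]
    exact Int.mul_ediv_cancel' (hdvd v)
  have hsmul : (p : ℤ) • D = D₀ := by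
    ext v
    rw [Finsupp.smul_apply, smul_eq_mul, hD]
  refine ⟨D, ?_, hD⟩
  have h1 : (p : ℤ) * Divisor.degree D = 0 := by
    rw [← smul_eq_mul, ← map_zsmul, hsmul, hdeg]
  rcases mul_eq_zero.1 h1 with h | h
  · exact absurd h hp'
  · exact h

/-- **DICT, Kummer form.** -/
theorem exists_isKummerClass_of_analytic_pow (A : AnalyticCore N) (p : ℕ) (hp : p ≠ 0)
    (r s : RN N) (hr : r ≠ 0) (hs : s ≠ 0) (h₁ h₂ : A.toHolBase.Hol) (hh₁ : h₁ ≠ 0)
    (hh₂ : h₂ ≠ 0) (c : ℂ) (hc : c ≠ 0)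
    (hrel : A.toHolBase.bridge r * h₂ ^ p
      = A.toHolBase.constH c * h₁ ^ p * A.toHolBase.bridge s)
    (hinv : ∀ δ : SL(2, ℤ), δ ∈ CongruenceSubgroup.Gamma0 N → Nice δ →
      A.toHolBase.compH δ h₁ * h₂ = h₁ * A.toHolBase.compH δ h₂) :
    ∃ x : JZero N, H455.IsKummerClass (p : ℤ) (inclRN N r / inclRN N s) x := by
  have hr' : inclRN N r ≠ 0 := fun h => hr (inclRN_injective N (by rw [h, map_zero]))
  have hs' : inclRN N s ≠ 0 := fun h => hs (inclRN_injective N (by rw [h, map_zero]))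
  have hf : inclRN N r / inclRN N s ≠ 0 := div_ne_zero hr' hs'
  haveI := Fermat.Agent.Lib.RR.H864.hasPrincipalDivisors_modularFunctionFieldBar N
  obtain ⟨D₀, hD₀, hdeg₀⟩ :=
    HasPrincipalDivisors.exists_divisor (K := AlgebraicClosure ℚ) (inclRN N r / inclRN N s) hf
  obtain ⟨D, hdeg, hD⟩ := exists_divisor_div p hp D₀
    (fun v => by
      rw [hD₀ v]
      exact dvd_ord_of_analytic_pow A p r s hr hs h₁ h₂ hh₁ hh₂ c hc hrel hinv v)
    hdeg₀
  refine ⟨Pic0.mk ⟨D, hdeg⟩, hf, ⟨D, hdeg⟩, rfl, fun v => ?_⟩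
  rw [hD v, hD₀ v]

end Fermat.Agent.S29.H389

end
end
-- ===== PACK-END S29/H389/DictKummer.lean

-- ===== PACK-BEGIN S48/H642/DictKum.lean
section



/-!
# Tower A1 / A1-KUM, leaf `k2` — DICT, Kummer-class form, generic (helper642)

GENERIC port of `S29/H389/DictKummer.lean`:

* `hasPrincipalDivisors_gen` : a generic field `P.F = ℚ̄(S)`, finite over `ℚ̄(j)`, has principal
  divisors (`j` is transcendental: its `q`-expansion has a pole);
* `exists_isKummerClass_of_analytic_pow_gen` : in the situation of `dvd_ord_of_analytic_pow_gen`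
  the function `f = r / s ∈ P.F` has a `p`-Kummer class in `Pic⁰(P.F)`.
-/

set_option autoImplicit false
set_option linter.style.haveILetI false
set_option linter.unusedSectionVars false

noncomputable section

open AlgebraicCurve HahnSeries ModularCurve
open scoped MatrixGroups

namespace Fermat.Agent.S48.H642

open Fermat.Agent.S24 Fermat.Agent.S24.H997 Fermat.Agent.S48.H332 Fermat.Agent.S29
  Fermat.Agent.S29.H389

variable {M : ℕ} [NeZero M] {Γ : Subgroup SL(2, ℤ)} {P : GenField}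

/-- `j` is not a constant. -/
theorem jF_not_mem_range_gen (P : GenField) : P.jF ∉ (algebraMap Kbar P.F).range := by
  rintro ⟨c, hc⟩
  have h1 : ((algebraMap Kbar P.F c : P.F) : LaurentSeries Kbar).coeff (-1)
      = ((P.jF : P.F) : LaurentSeries Kbar).coeff (-1) := by rw [hc]
  have h2 : ((algebraMap Kbar P.F c : P.F) : LaurentSeries Kbar)
      = algebraMap Kbar (LaurentSeries Kbar) c := rfl
  rw [h2, algebraMap_laurentSeries_eq_single] at h1
  have h3 : ((P.jF : P.F) : LaurentSeries Kbar) = coeffEmb Kbar jq := rfl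
  rw [h3, coeffEmb_coeff, coeff_jq_neg_one, map_one,
    HahnSeries.coeff_single_of_ne (by norm_num)] at h1
  exact zero_ne_one h1

/-- `j` is transcendental over `ℚ̄`. -/
theorem transcendental_jF_gen (P : GenField) : Transcendental Kbar P.jF :=
  FF.transcendental_of_not_mem_range (jF_not_mem_range_gen P)

/-- A generic field of modular functions, finite over `ℚ̄(j)`, has principal divisors. -/
theorem hasPrincipalDivisors_gen (P : GenField)
    [FiniteDimensional ↥(IntermediateField.adjoin Kbar {P.jF}) P.F] :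
    HasPrincipalDivisors Kbar P.F :=
  Fermat.Agent.Lib.RR.H864.hasPrincipalDivisors P.jF (transcendental_jF_gen P)

/-- **DICT, Kummer form (generic).** -/
theorem exists_isKummerClass_of_analytic_pow_gen (A : GenCore M Γ P)
    (hfd : FiniteDimensional ↥(IntermediateField.adjoin Kbar {P.jF}) P.F)
    (hle : Module.finrank ↥(IntermediateField.adjoin Kbar {P.jF}) P.F ≤ Nat.card (XG Γ))
    (p : ℕ) (hp : p ≠ 0)
    (r s : P.RG) (hr : r ≠ 0) (hs : s ≠ 0) (h₁ h₂ : A.toGenBase.Hol) (hh₁ : h₁ ≠ 0)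
    (hh₂ : h₂ ≠ 0) (c : ℂ) (hc : c ≠ 0)
    (hrel : A.toGenBase.bridge r * h₂ ^ p
      = A.toGenBase.constH c * h₁ ^ p * A.toGenBase.bridge s)
    (hinv : ∀ δ : SL(2, ℤ), δ ∈ Γ → Nice δ →
      A.toGenBase.compH δ h₁ * h₂ = h₁ * A.toGenBase.compH δ h₂) :
    ∃ x : Pic0 Kbar P.F, H455.IsKummerClass (p : ℤ) (P.inclRG r / P.inclRG s) x := by
  have hr' : P.inclRG r ≠ 0 := fun h => hr (P.inclRG_injective (by rw [h, map_zero]))
  have hs' : P.inclRG s ≠ 0 := fun h => hs (P.inclRG_injective (by rw [h, map_zero]))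
  have hf : P.inclRG r / P.inclRG s ≠ 0 := div_ne_zero hr' hs'
  haveI := hfd
  haveI := hasPrincipalDivisors_gen P
  obtain ⟨D₀, hD₀, hdeg₀⟩ :=
    HasPrincipalDivisors.exists_divisor (K := AlgebraicClosure ℚ) (P.inclRG r / P.inclRG s) hf
  obtain ⟨D, hdeg, hD⟩ := exists_divisor_div p hp D₀
    (fun v => by
      rw [hD₀ v]
      exact dvd_ord_of_analytic_pow_gen A hfd hle p r s hr hs h₁ h₂ hh₁ hh₂ c hc hrel hinv v)
    hdeg₀
  refine ⟨Pic0.mk ⟨D, hdeg⟩, hf, ⟨D, hdeg⟩, rfl, fun v => ?_⟩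
  rw [hD v, hD₀ v]

end Fermat.Agent.S48.H642

end
end
-- ===== PACK-END S48/H642/DictKum.lean

-- ===== PACK-BEGIN S29/H332/Rot.lean
section



/-!
# S29 / M4b / K2 (analytic part): local orders of a function with character

In the S24 framework (`HolBase`, `Expansion`, `RotData`): if `f ∈ Hol` is invariant under `ε ^ k`
then `R.m ∣ k * ord (X.E f)`.  For a function `h` with a character `χ` of `Γ₀(N)` and the coset
`x = g Γ₀(N)`, `h ∘ g⁻¹` is invariant under `ε ^ k` as soon as `ε ^ k x = x` and `χ` is trivial on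
`g⁻¹ ε ^ k g` (automatic if `χ` kills parabolic and finite-order elements).  Hence the order of
the expansion `σ_x` of `h ^ p` is divisible by `p * (m / k)`: the divisor of `h ^ p` is divisible
by `p` at every place.
-/

set_option autoImplicit false
set_option linter.unusedSectionVars false

noncomputable section

open UpperHalfPlane HahnSeries ModularCurve
open scoped MatrixGroups

namespace Fermat.Agent.S29.H332

open Fermat.Agent.S24 Fermat.Agent.S24.H997

variable {N : ℕ} [NeZero N]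

section Abstract

variable (B : HolBase N) (X : Expansion B) {ε : SL(2, ℤ)} (R : RotData B X ε)

/-- Iterating the rotation relation. -/
theorem rotRel_pow (k : ℕ) (f : B.Hol) :
    RotRel (R.ζ ^ k) (X.E f) (X.E (B.compH (ε ^ k) f)) := by
  induction k with
  | zero =>
    rw [pow_zero, pow_zero, HolBase.compH_one]
    exact ⟨rfl, by simp⟩
  | succ k ih =>
    have h1 := R.rot (B.compH (ε ^ k) f)
    rw [← HolBase.compH_mul, ← pow_succ] at h1
    refine ⟨h1.1.trans ih.1, ?_⟩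
    rw [h1.2, ih.1, ih.2, ← mul_assoc, pow_succ, mul_zpow, mul_comm (R.ζ ^ (X.E f).order)]

/-- If `f ≠ 0` is invariant under `ε ^ k`, then `m ∣ k * ord (E f)`. -/
theorem dvd_mul_order_of_compH_pow_eq (k : ℕ) {f : B.Hol} (hf : f ≠ 0)
    (hinv : B.compH (ε ^ k) f = f) : (R.m : ℤ) ∣ (k : ℤ) * (X.E f).order := by
  have h := rotRel_pow B X R k f
  rw [hinv] at h
  have hE : X.E f ≠ 0 := fun h0 => hf (X.inj (by rw [h0, map_zero]))
  have hlc : (X.E f).leadingCoeff ≠ 0 := leadingCoeff_ne_zero.mpr hE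
  have h2 := h.2
  have h3 : (R.ζ ^ k) ^ (X.E f).order = 1 := by
    have : (R.ζ ^ k) ^ (X.E f).order * (X.E f).leadingCoeff = 1 * (X.E f).leadingCoeff := by
      rw [one_mul]
      exact h2.symm
    exact mul_right_cancel₀ hlc this
  rw [← zpow_natCast, ← zpow_mul] at h3
  exact (R.hζ.zpow_eq_one_iff_dvd _).mp h3

end Abstract

section Character

variable {χ : CongruenceSubgroup.Gamma0 N →* ℂˣ} {h : ℍ → ℂ}

omit [NeZero N] in
/-- `h ∘ g` is invariant under `δ` if `g δ g⁻¹ ∈ Γ₀(N)` and `χ (g δ g⁻¹) = 1`. -/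
theorem HasCharacter.compSL_compSL (hh : HasCharacter χ h) (g δ : SL(2, ℤ))
    (hδ : g * δ * g⁻¹ ∈ CongruenceSubgroup.Gamma0 N) (hχ : χ ⟨_, hδ⟩ = 1) :
    compSL δ (compSL g h) = compSL g h := by
  funext τ
  simp only [compSL_apply]
  have h1 : g • (δ • τ) = (g * δ * g⁻¹) • (g • τ) := by
    rw [← mul_smul, ← mul_smul, mul_assoc, mul_assoc, inv_mul_cancel, mul_one]
  have h2 := hh ⟨_, hδ⟩ (g • τ)
  rw [hχ, Units.val_one, one_mul] at h2
  rw [h1, h2]

/-- `χ` is trivial on the elements of finite order. -/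
def EllTrivial (χ : CongruenceSubgroup.Gamma0 N →* ℂˣ) : Prop :=
  ∀ (γ : CongruenceSubgroup.Gamma0 N) (n : ℕ), 0 < n → γ ^ n = 1 → χ γ = 1

/-- **Local divisibility.**  Let `h ∈ holN N` be nonzero with character `χ`, `X` an expansion with
rotation data for `ε`, `g ∈ SL(2,ℤ)` and `k` with `g ε^k g⁻¹ ∈ Γ₀(N)`, `χ(g ε^k g⁻¹) = 1`.  Then
`m ∣ k * ord (E (h ∘ g))`. -/
theorem HasCharacter.dvd_mul_order (hh : HasCharacter χ h) (hmem : h ∈ holN N) (h0 : h ≠ 0)
    (X : Expansion (holBase N)) {ε : SL(2, ℤ)} (R : RotData (holBase N) X ε)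
    (g : SL(2, ℤ)) (k : ℕ) (hk : g * ε ^ k * g⁻¹ ∈ CongruenceSubgroup.Gamma0 N)
    (hχ : χ ⟨_, hk⟩ = 1) :
    (R.m : ℤ) ∣ (k : ℤ) * (X.E ((holBase N).compH g ⟨h, hmem⟩)).order := by
  refine dvd_mul_order_of_compH_pow_eq (holBase N) X R k ?_ ?_
  · intro hz
    apply h0
    have := (holBase N).compH_injective g (hz.trans (map_zero _).symm)
    exact congrArg Subtype.val this
  · apply Subtype.ext
    exact hh.compSL_compSL g (ε ^ k) hk hχ

omit [NeZero N] in
/-- Conjugates of elements of finite order have finite order. -/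
theorem EllTrivial.conj (hχ : EllTrivial χ) {ε : SL(2, ℤ)} {n : ℕ} (hn : 0 < n) (hε : ε ^ n = 1)
    (g : SL(2, ℤ)) (k : ℕ) (hk : g * ε ^ k * g⁻¹ ∈ CongruenceSubgroup.Gamma0 N) :
    χ ⟨_, hk⟩ = 1 := by
  refine hχ _ n hn ?_
  apply Subtype.ext
  rw [SubgroupClass.coe_pow, Subgroup.coe_mk, OneMemClass.coe_one]
  have : (g * ε ^ k * g⁻¹) ^ n = g * (ε ^ k) ^ n * g⁻¹ := conj_pow
  rw [this, ← pow_mul, mul_comm, pow_mul, hε, one_pow, mul_one, mul_inv_cancel]

omit [NeZero N] in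
/-- Conjugates of powers of `T` are parabolic. -/
theorem ParTrivial.conj_T (hχ : ParTrivial χ) (g : SL(2, ℤ)) (k : ℕ)
    (hk : g * ModularGroup.T ^ k * g⁻¹ ∈ CongruenceSubgroup.Gamma0 N) :
    χ ⟨_, hk⟩ = 1 := by
  apply hχ
  left
  have := trace_conj_T_zpow g (k : ℤ)
  rwa [zpow_natCast] at this

/-- Local divisibility at a point with finite-order rotation `ε` (elliptic points: `ε = S`,
`ε = S * T`; generic points: `ε = 1`). -/
theorem HasCharacter.dvd_mul_order_of_finite_order (hh : HasCharacter χ h) (hmem : h ∈ holN N)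
    (h0 : h ≠ 0) (hχ : EllTrivial χ)
    (X : Expansion (holBase N)) {ε : SL(2, ℤ)} (R : RotData (holBase N) X ε)
    {n : ℕ} (hn : 0 < n) (hε : ε ^ n = 1)
    (g : SL(2, ℤ)) (k : ℕ) (hk : g * ε ^ k * g⁻¹ ∈ CongruenceSubgroup.Gamma0 N) :
    (R.m : ℤ) ∣ (k : ℤ) * (X.E ((holBase N).compH g ⟨h, hmem⟩)).order :=
  hh.dvd_mul_order hmem h0 X R g k hk (hχ.conj hn hε g k hk)

/-- Local divisibility at the cusps (`ε = T`). -/
theorem HasCharacter.dvd_mul_order_T (hh : HasCharacter χ h) (hmem : h ∈ holN N)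
    (h0 : h ≠ 0) (hχ : ParTrivial χ)
    (X : Expansion (holBase N)) (R : RotData (holBase N) X ModularGroup.T)
    (g : SL(2, ℤ)) (k : ℕ)
    (hk : g * ModularGroup.T ^ k * g⁻¹ ∈ CongruenceSubgroup.Gamma0 N) :
    (R.m : ℤ) ∣ (k : ℤ) * (X.E ((holBase N).compH g ⟨h, hmem⟩)).order :=
  hh.dvd_mul_order hmem h0 X R g k hk (hχ.conj_T g k hk)

end Character

end Fermat.Agent.S29.H332

end
end
-- ===== PACK-END S29/H332/Rot.lean

-- ===== PACK-BEGIN S29/H332/KummerChar.lean
section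




/-!
# S29 / M4b / K1 — Kummer functions of additive characters `Γ₀(N) → ℤ/m`

For an additive map `c : Γ₀(N) → ZMod m` vanishing on all elements of trace `±2` we package the
character `χ_c(γ) = exp(2πi c(γ)/m)` and the Kummer function `h_c = E^{χ_c}₁₂ / (2Δ)`:

* `h_c ∈ holN N`, `h_c(γτ) = χ_c(γ) h_c(τ)`;
* `h_c ^ m ∈ goodRing N` and its `q`-expansion `kummerExp ^ m` lies in the function field
  `laurentBaseChange ℂ (modularFunctionFieldFull N)` (via helper882's MERO);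
* `q`-expansion of `h_c` has order `-1` and leading coefficient `1`.

The modulus `m ≥ 1` is arbitrary (rows S29: `m = p`; S30: `m = p ^ n`).
-/

set_option autoImplicit false
set_option linter.unusedSectionVars false

noncomputable section

open UpperHalfPlane HahnSeries ModularCurve Complex AlgebraicCurve
open scoped Real MatrixGroups Manifold

namespace Fermat.Agent.S29.H332

open Fermat.Agent.S24 Fermat.Agent.S24.H997 Fermat.Agent.S24.H624 Fermat.Agent.S24.H648

variable {N m : ℕ} [NeZero m]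

/-- An additive character `Γ₀(N) → ℤ/m` vanishing on the elements of trace `±2`. -/
structure IsParAdd (c : CongruenceSubgroup.Gamma0 N → ZMod m) : Prop where
  map_mul : ∀ γ γ' : CongruenceSubgroup.Gamma0 N, c (γ * γ') = c γ + c γ'
  parabolic : ∀ γ : CongruenceSubgroup.Gamma0 N,
    ((γ : SL(2, ℤ)).1.trace = 2 ∨ (γ : SL(2, ℤ)).1.trace = -2) → c γ = 0

namespace IsParAdd

variable {c c' : CongruenceSubgroup.Gamma0 N → ZMod m}

theorem map_one (hc : IsParAdd c) : c 1 = 0 := by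
  have h := hc.map_mul 1 1
  rw [mul_one] at h
  exact left_eq_add.mp h

/-- The multiplicative character `γ ↦ exp(2πi c(γ)/m)`. -/
def char (hc : IsParAdd c) : CongruenceSubgroup.Gamma0 N →* ℂˣ :=
  MonoidHom.toHomUnits
    { toFun := fun γ => ZMod.stdAddChar (c γ)
      map_one' := by rw [hc.map_one, AddChar.map_zero_eq_one]
      map_mul' := fun γ γ' => by rw [hc.map_mul, AddChar.map_add_eq_mul] }

@[simp]
theorem char_apply (hc : IsParAdd c) (γ : CongruenceSubgroup.Gamma0 N) :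
    (hc.char γ : ℂ) = ZMod.stdAddChar (c γ) := rfl

theorem norm_char (hc : IsParAdd c) (γ : CongruenceSubgroup.Gamma0 N) :
    ‖(hc.char γ : ℂ)‖ = 1 := by
  rw [char_apply, ZMod.stdAddChar_apply]
  exact Circle.norm_coe _

theorem char_pow (hc : IsParAdd c) (γ : CongruenceSubgroup.Gamma0 N) : hc.char γ ^ m = 1 := by
  apply Units.ext
  rw [Units.val_pow_eq_pow_val, char_apply, ← AddChar.map_nsmul_eq_pow, Units.val_one]
  have : m • c γ = 0 := by
    rw [nsmul_eq_mul]
    simp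
  rw [this, AddChar.map_zero_eq_one]

theorem char_eq_one_iff (hc : IsParAdd c) (γ : CongruenceSubgroup.Gamma0 N) :
    hc.char γ = 1 ↔ c γ = 0 := by
  constructor
  · intro h
    have h1 : (hc.char γ : ℂ) = 1 := by rw [h, Units.val_one]
    rw [char_apply, ← AddChar.map_zero_eq_one (ZMod.stdAddChar (N := m))] at h1
    exact ZMod.injective_stdAddChar h1
  · intro h
    apply Units.ext
    rw [char_apply, h, AddChar.map_zero_eq_one, Units.val_one]

theorem parTrivial (hc : IsParAdd c) : ParTrivial hc.char := by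
  intro γ hγ
  rw [char_eq_one_iff]
  exact hc.parabolic γ hγ

theorem ellTrivial (hc : IsParAdd c)
    (hell : ∀ (γ : CongruenceSubgroup.Gamma0 N) (n : ℕ), 0 < n → γ ^ n = 1 → c γ = 0) :
    EllTrivial hc.char := by
  intro γ n hn hγ
  rw [char_eq_one_iff]
  exact hell γ n hn hγ

theorem add (hc : IsParAdd c) (hc' : IsParAdd c') : IsParAdd (c + c') where
  map_mul γ γ' := by
    simp only [Pi.add_apply, hc.map_mul, hc'.map_mul]
    abel
  parabolic γ hγ := by
    simp only [Pi.add_apply, hc.parabolic γ hγ, hc'.parabolic γ hγ, add_zero]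

theorem char_add (hc : IsParAdd c) (hc' : IsParAdd c') :
    (hc.add hc').char = hc.char * hc'.char := by
  ext γ
  simp [AddChar.map_add_eq_mul]

variable [NeZero N]

variable (N) in
/-- The Kummer function of an additive parabolic character. -/
def kfun (hc : IsParAdd c) : ℍ → ℂ := kummerFun N hc.char

variable (N) in
/-- Its `q`-expansion at `i∞`. -/
def kexp (hc : IsParAdd c) : LaurentSeries ℂ := kummerExp N hc.char

theorem kfun_mem_holN (hc : IsParAdd c) : hc.kfun N ∈ holN N :=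
  kummerFun_mem_holN hc.parTrivial hc.norm_char

theorem kfun_smul (hc : IsParAdd c) (γ : CongruenceSubgroup.Gamma0 N) (τ : ℍ) :
    hc.kfun N ((γ : SL(2, ℤ)) • τ) = ZMod.stdAddChar (c γ) * hc.kfun N τ :=
  hasCharacter_kummerFun hc.parTrivial γ τ

theorem kfun_pow_mem_goodRing (hc : IsParAdd c) : hc.kfun N ^ m ∈ goodRing N :=
  kummerFun_pow_mem_goodRing hc.parTrivial hc.norm_char hc.char_pow

theorem hasQExp_kfun (hc : IsParAdd c) :
    Fermat.Agent.S24.H708.HasQExp 1 (hc.kfun N) (hc.kexp N) :=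
  hasQExp_kummerFun hc.parTrivial hc.norm_char

theorem kexp_order (hc : IsParAdd c) : (hc.kexp N).order = -1 :=
  (kummerExp_eq hc.parTrivial hc.norm_char).1

theorem kexp_leadingCoeff (hc : IsParAdd c) : (hc.kexp N).leadingCoeff = 1 :=
  (kummerExp_eq hc.parTrivial hc.norm_char).2

theorem kexp_ne_zero (hc : IsParAdd c) : hc.kexp N ≠ 0 :=
  kummerExp_ne_zero hc.parTrivial hc.norm_char

theorem kfun_ne_zero (hc : IsParAdd c) : hc.kfun N ≠ 0 :=
  kummerFun_ne_zero hc.parTrivial hc.norm_char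

theorem hasCharacter_kfun (hc : IsParAdd c) : HasCharacter hc.char (hc.kfun N) :=
  hasCharacter_kummerFun hc.parTrivial

/-- **K2 (analytic part)**: local divisibility of the orders of the Kummer function, at a point
with rotation `ε` of finite order (`ε = 1`, `S`, `S * T`), for the coset `g⁻¹ Γ₀(N)` of
`ε`-period `k`. -/
theorem kfun_dvd_mul_order_of_finite_order (hc : IsParAdd c)
    (hell : ∀ (γ : CongruenceSubgroup.Gamma0 N) (n : ℕ), 0 < n → γ ^ n = 1 → c γ = 0)
    (X : Expansion (holBase N)) {ε : SL(2, ℤ)} (R : RotData (holBase N) X ε)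
    {n : ℕ} (hn : 0 < n) (hε : ε ^ n = 1)
    (g : SL(2, ℤ)) (k : ℕ) (hk : g * ε ^ k * g⁻¹ ∈ CongruenceSubgroup.Gamma0 N) :
    (R.m : ℤ) ∣ (k : ℤ) * (X.E ((holBase N).compH g ⟨hc.kfun N, hc.kfun_mem_holN⟩)).order :=
  hc.hasCharacter_kfun.dvd_mul_order_of_finite_order hc.kfun_mem_holN hc.kfun_ne_zero
    (hc.ellTrivial hell) X R hn hε g k hk

/-- **K2 (analytic part)** at the cusps (`ε = T`). -/
theorem kfun_dvd_mul_order_T (hc : IsParAdd c)
    (X : Expansion (holBase N)) (R : RotData (holBase N) X ModularGroup.T)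
    (g : SL(2, ℤ)) (k : ℕ)
    (hk : g * ModularGroup.T ^ k * g⁻¹ ∈ CongruenceSubgroup.Gamma0 N) :
    (R.m : ℤ) ∣ (k : ℤ) * (X.E ((holBase N).compH g ⟨hc.kfun N, hc.kfun_mem_holN⟩)).order :=
  hc.hasCharacter_kfun.dvd_mul_order_T hc.kfun_mem_holN hc.kfun_ne_zero hc.parTrivial X R g k hk

/-- **K1 + MERO**: the `q`-expansion of `h_c ^ m` lies in the function field of `X₀(N)` over `ℂ`. -/
theorem kexp_pow_mem_FC (hc : IsParAdd c) :
    hc.kexp N ^ m ∈ laurentBaseChange ℂ (modularFunctionFieldFull N) :=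
  Fermat.Agent.S29.H882.mem_FC_of_hasQExp hc.kfun_pow_mem_goodRing
    ((hc.hasQExp_kfun).pow m)

end IsParAdd

end Fermat.Agent.S29.H332

end
end
-- ===== PACK-END S29/H332/KummerChar.lean

-- ===== PACK-BEGIN S29/H332/K1.lean
section



/-!
# S29 / M4b — PIECE `K1` (exact skeleton type)

`exists_isTwisted` : for a parabolic character `c : Γ₀(N) → ℤ/p` (any modulus `p ≥ 1`) there is a
twisted function `U` of character `c`; `U = E^χ₁₂ / (2Δ)`, `χ = ζ_p ^ c`.
-/

set_option autoImplicit false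
set_option linter.unusedSectionVars false

noncomputable section

open ModularCurve AlgebraicCurve CongruenceSubgroup UpperHalfPlane
open scoped MatrixGroups Manifold

namespace Fermat.Agent.S29.H332

open Fermat.Agent.S24 Fermat.Agent.S29 Fermat.Agent.S29.M4b

variable {N : ℕ} {p : ℕ} [NeZero p]

/-- `ζ_p ^ (a.val) = stdAddChar a`. -/
theorem zetaP_pow_val (a : ZMod p) : zetaP p ^ a.val = ZMod.stdAddChar a := by
  have h := ZMod.stdAddChar_coe (N := p) (a.val : ℤ)
  rw [Int.cast_natCast, ZMod.natCast_zmod_val] at h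
  rw [h, zetaP, ← Complex.exp_nat_mul]
  congr 1
  push_cast
  ring

/-- A parabolic character in the sense of `DefsM` is one in the sense of `H332`. -/
theorem isParAdd_of_isParHom {c : G0 N → ZMod p} (hc : IsParHom c) : IsParAdd c where
  map_mul := hc.map_mul
  parabolic := hc.parabolic

variable (N p) in
/-- **PIECE `K1`** of the M4b skeleton (exact type). -/
theorem exists_isTwisted [NeZero N] {c : G0 N → ZMod p} (hc : IsParHom c) :
    ∃ U : ℍ → ℂ, IsTwisted N p c U := by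
  have hc' : IsParAdd c := isParAdd_of_isParHom hc
  refine ⟨hc'.kfun N, ?_, ?_, ?_, ?_⟩
  · exact (hc'.kfun_mem_holN).1
  · by_contra hne
    exact hc'.kfun_ne_zero (funext fun τ => by_contra fun h => hne ⟨τ, h⟩)
  · intro γ τ
    rw [zetaP_pow_val]
    exact hc'.kfun_smul γ τ
  · exact hc'.kfun_pow_mem_goodRing

end Fermat.Agent.S29.H332

end
end
-- ===== PACK-END S29/H332/K1.lean

-- ===== PACK-BEGIN S29/H642/K2.lean
section






/-!
# S29 / layer M / M4b — PIECE `K2` (DICT), exact skeleton type (helper642)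

`exists_isKummerClass_of_realised` : if `u ∈ FF N` is realised by `U ^ p`, `U` a twisted function
of a character `c : Γ₀(N) → ℤ/p` killing parabolic and finite-order elements, then `u` has a
`p`-Kummer class in `J₀(N)(ℚ̄)`.

Route (direct, over `ℚ̄`): adapter to helper389's landed `H389.exists_isKummerClass_of_analytic_pow`
for the concrete analytic core `S24.H997.analyticCore N`:

* `K2_mem_holN` : `U ∈ holN N` (all `SL₂(ℤ)`-translates of `U` are `N`-periodic because `c` kills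
  the parabolic elements, and of exponential growth because `U ^ p` is good);
* `K2_qexp_pow` : the expansion at `i∞` (in `q^{1/N}`) of `U ^ p` is `Φ N u`;
* the relation `e(r) = U ^ p · e(s)` in `Hol` for `u = r / s`, and invariance of `U` under the
  elements of `Γ₀(N)` of finite order or trace `2`.
-/

set_option autoImplicit false
set_option linter.unusedSectionVars false
set_option linter.style.haveILetI false

noncomputable section

open ModularCurve AlgebraicCurve CongruenceSubgroup UpperHalfPlane HahnSeries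
open scoped MatrixGroups Manifold Real

namespace Fermat.Agent.S29.H642

open Fermat.Agent.S24 Fermat.Agent.S24.H997 Fermat.Agent.S24.H648 Fermat.Agent.S24.H708
  Fermat.Agent.S29 Fermat.Agent.S29.M4b Fermat.Agent.S29.H332

variable {N : ℕ} [NeZero N] {p : ℕ} [NeZero p]

/-! ### Growth -/

theorem K2_le_one_add_pow {x : ℝ} (hx : 0 ≤ x) {n : ℕ} (hn : n ≠ 0) : x ≤ 1 + x ^ n := by
  rcases le_or_gt x 1 with h | h
  · have : 0 ≤ x ^ n := pow_nonneg hx n
    linarith
  · have h1 : x ^ 1 ≤ x ^ n := pow_le_pow_right₀ h.le (Nat.one_le_iff_ne_zero.mpr hn)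
    rw [pow_one] at h1
    linarith

/-- Exponential growth of a power gives exponential growth of the function. -/
theorem K2_expGrowth_of_pow {f : ℍ → ℂ} {n : ℕ} (hn : n ≠ 0)
    (h : ExpGrowth (fun τ => f τ ^ n)) : ExpGrowth f := by
  obtain ⟨C, m, hC⟩ := h
  refine ⟨1 + |C|, m, fun τ hτ => ?_⟩
  have h1 := hC τ hτ
  rw [norm_pow] at h1
  have h2 := K2_le_one_add_pow (norm_nonneg (f τ)) hn
  have h3 : (1 : ℝ) ≤ Real.exp (2 * π * m * τ.im) := by
    apply Real.one_le_exp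
    have := τ.im_pos
    positivity
  have h4 : C * Real.exp (2 * π * m * τ.im) ≤ |C| * Real.exp (2 * π * m * τ.im) :=
    mul_le_mul_of_nonneg_right (le_abs_self C) (Real.exp_pos _).le
  calc ‖f τ‖ ≤ 1 + ‖f τ‖ ^ n := h2
    _ ≤ 1 + C * Real.exp (2 * π * m * τ.im) := by linarith
    _ ≤ Real.exp (2 * π * m * τ.im) + |C| * Real.exp (2 * π * m * τ.im) := by linarith
    _ = (1 + |C|) * Real.exp (2 * π * m * τ.im) := by ring

/-- Exponential growth gives a pole of finite order at `i∞` in the parameter `exp(2πiτ/N)`. -/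
theorem K2_isBounded_mul_qh_pow {f : ℍ → ℂ} (hf : ExpGrowth f) :
    ∃ M : ℕ, IsBoundedAtImInfty (f * qh N ^ M) := by
  obtain ⟨C, m, h⟩ := hf
  refine ⟨N * m, ?_⟩
  rw [UpperHalfPlane.isBoundedAtImInfty_iff]
  refine ⟨C, 1, fun τ hτ => ?_⟩
  have h1 := h τ hτ
  have hN : (N : ℝ) ≠ 0 := by exact_mod_cast NeZero.ne N
  have hq : ‖qh N τ‖ = Real.exp (-2 * π * τ.im / N) := norm_infZ_eq τ
  rw [Pi.mul_apply, Pi.pow_apply, norm_mul, norm_pow, hq, ← Real.exp_nat_mul]
  calc ‖f τ‖ * Real.exp (((N * m : ℕ) : ℝ) * (-2 * π * τ.im / N))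
      ≤ C * Real.exp (2 * π * m * τ.im) * Real.exp (((N * m : ℕ) : ℝ) * (-2 * π * τ.im / N)) :=
        mul_le_mul_of_nonneg_right h1 (Real.exp_pos _).le
    _ = C := by
        rw [mul_assoc, ← Real.exp_add]
        have : 2 * π * m * τ.im + ((N * m : ℕ) : ℝ) * (-2 * π * τ.im / N) = 0 := by
          push_cast
          field_simp
          ring
        rw [this, Real.exp_zero, mul_one]

/-! ### `U ∈ holN N` -/

theorem K2_hasCharacter {c : G0 N → ZMod p} (hc : IsParHom c) {U : ℍ → ℂ}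
    (hU : IsTwisted N p c U) : HasCharacter (isParAdd_of_isParHom hc).char U := by
  intro γ τ
  rw [IsParAdd.char_apply, ← zetaP_pow_val]
  exact hU.hasChar γ τ

theorem K2_mem_holN {c : G0 N → ZMod p} (hc : IsParHom c) {U : ℍ → ℂ}
    (hU : IsTwisted N p c U) : U ∈ holN N := by
  have hpa : IsParAdd c := isParAdd_of_isParHom hc
  have hchar := K2_hasCharacter hc hU
  refine ⟨hU.mdiff, fun g => ?_⟩
  have hol : MDiff (compSL g U) := mdifferentiable_comp_smul hU.mdiff g
  have hper : Function.Periodic (compSL g U ∘ ofComplex) (N : ℝ) :=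
    hchar.periodic hpa.parTrivial g N (by simpa using conj_T_zpow_mem_Gamma0 N g 1)
  have hgr : ExpGrowth (compSL g U) :=
    K2_expGrowth_of_pow (NeZero.ne p) (hU.pow_mem.2.2 g)
  have hmer : IsMerInf N (compSL g U) := ⟨hol, hper, K2_isBounded_mul_qh_pow hgr⟩
  exact ⟨qexpFun N (compSL g U), fun τ => (HasQExp.of_isMerInf hmer).hasSum τ⟩

/-! ### The expansion of `U ^ p` -/

theorem K2_iotaC_eq : Deg457.iotaC = ιK := rfl

/-- The expansion at `i∞` in `exp(2πiτ/N)` of a good function realising `u` is `Φ N u`. -/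
theorem K2_infExp_of_realises {u : FF N} {G : ℍ → ℂ} (hu : Realises N u G) :
    InfExp N G (HolBase.Φ N ((u : FF N) : LaurentSeries Kbar)) := by
  have h1 : HasQExp 1 G (coeffMap Deg457.iotaC ((u : FF N) : LaurentSeries Kbar)) := by
    have := H882.hasQExp_of_mem_goodRing hu.1
    rwa [hu.2] at this
  have h2 := HasQExp.of_period_mul N h1
  intro τ
  have h3 := HasQExp.hasSum h2 τ
  simp only [one_mul] at h3
  exact h3

/-! ### The piece -/

theorem K2_one_ne_zero : (1 : (holBase N).Hol) ≠ 0 := by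
  intro h
  have := congrArg (fun f : (holBase N).Hol => (f : ℍ → ℂ) UpperHalfPlane.I) h
  simp at this

/-- **PIECE `K2`** of the M4b skeleton (exact type): DICTIONARY over `ℚ̄`, hard direction. -/
theorem exists_isKummerClass_of_realised (N : ℕ) [NeZero N] (p : ℕ) [NeZero p]
    {c : G0 N → ZMod p} (hc : IsParHom c) {U : ℍ → ℂ}
    {u : FF N} (hU : IsTwisted N p c U) (hu : Realises N u (fun τ => U τ ^ p)) :
    ∃ x : JZero N, H455.IsKummerClass (p : ℤ) u x := by
  classical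
  have hp : p ≠ 0 := NeZero.ne p
  let h₁ : (holBase N).Hol := ⟨U, K2_mem_holN hc hU⟩
  have hh₁ : h₁ ≠ 0 := by
    obtain ⟨τ, hτ⟩ := hU.ne_zero
    intro h0
    apply hτ
    exact congrArg (fun f : (holBase N).Hol => (f : ℍ → ℂ) τ) h0
  -- the expansion of `U ^ p`
  have hq : (holBase N).qexp (h₁ ^ p) = HolBase.Φ N ((u : FF N) : LaurentSeries Kbar) := by
    have h1 := K2_infExp_of_realises hu
    have h2 : InfExp N (((holToExp N (h₁ ^ p) : expRing N)) : ℍ → ℂ)
        (expInf N (holToExp N (h₁ ^ p))) := expInf_spec _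
    exact h2.unique' h1 (fun τ => rfl)
  have hqne : (holBase N).qexp (h₁ ^ p) ≠ 0 := by
    rw [map_pow]
    refine pow_ne_zero _ ?_
    intro h0
    exact hh₁ ((holBase N).qexp_injective (h0.trans (map_zero _).symm))
  have hu0 : u ≠ 0 := by
    intro h0
    apply hqne
    rw [hq, h0]
    simp
  -- `u = r / s`
  obtain ⟨r, s, hs, hrs⟩ := exists_div_inclRN N u
  have hs' : inclRN N s ≠ 0 := fun h => hs (inclRN_injective N (by rw [h, map_zero]))
  have hr : r ≠ 0 := by
    intro h0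
    apply hu0
    rw [hrs, h0, map_zero, zero_div]
  have hmul : ((r : RN N) : LaurentSeries Kbar)
      = ((u : FF N) : LaurentSeries Kbar) * ((s : RN N) : LaurentSeries Kbar) := by
    have h1 : (inclRN N r : FF N) = u * inclRN N s := by
      rw [hrs, div_mul_cancel₀ _ hs']
    exact congrArg (fun f : FF N => (f : LaurentSeries Kbar)) h1
  have hrel : (holBase N).bridge r * (1 : (holBase N).Hol) ^ p
      = (holBase N).constH 1 * h₁ ^ p * (holBase N).bridge s := by
    apply (holBase N).qexp_injective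
    have hc1 : (holBase N).qexp ((holBase N).constH 1) = 1 := by
      have := (holBase N).qexp_const 1
      rw [map_one] at this
      exact this
    rw [one_pow, mul_one, map_mul, map_mul, hq, hc1, one_mul, HolBase.qexp_bridge,
      HolBase.qexp_bridge, ← map_mul, hmul]
  have hinv : ∀ δ : SL(2, ℤ), δ ∈ Gamma0 N → H389.Nice δ →
      (holBase N).compH δ h₁ * 1 = h₁ * (holBase N).compH δ 1 := by
    intro δ hδ hnice
    have hcδ : c ⟨δ, hδ⟩ = 0 := by
      rcases hnice with hfin | htr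
      · obtain ⟨n, hn, hδn⟩ := isOfFinOrder_iff_pow_eq_one.1 hfin
        exact hc.elliptic ⟨δ, hδ⟩ n hn (Subtype.ext hδn)
      · exact hc.parabolic ⟨δ, hδ⟩ (Or.inl htr)
    have h1 : (holBase N).compH δ h₁ = h₁ := by
      apply Subtype.ext
      funext τ
      show U (δ • τ) = U τ
      have := hU.hasChar ⟨δ, hδ⟩ τ
      rw [hcδ] at this
      simpa using this
    rw [h1, map_one]
  obtain ⟨x, hx⟩ := H389.exists_isKummerClass_of_analytic_pow (analyticCore N) p hp r s hr hs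
    h₁ 1 hh₁ K2_one_ne_zero 1 one_ne_zero hrel hinv
  exact ⟨x, by rw [hrs]; exact hx⟩

end Fermat.Agent.S29.H642

end
end
-- ===== PACK-END S29/H642/K2.lean

-- ===== PACK-BEGIN S48/H642/K2Gen.lean
section






/-!
# Tower A1 / A1-KUM — leaf `k2` = `Kum.PieceK2`, GENERIC form (helper642)

`pieceK2_of_genData` : let `D : GenData M Γ' P` be analytic input (helper332, `S48/H332/Pkg*`) for
the field `P.F = ℚ̄(S)` of modular functions for a group `Γ'` of finite index, and let `Γ ≤ Γ'` be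
a subgroup of level `M` containing `T` with `Γ' ⊆ ±Γ`.  Then `Kum.PieceK2 Γ P.F p` holds for every
`p ≠ 0`: if `u ∈ P.F` is realised by `U ^ p`, `U` a twisted function of a character
`c : Γ → ℤ/p` killing parabolic and finite-order elements, then `u` has a `p`-Kummer class in
`Pic⁰(P.F)`.

(Tower A1: `Γ = Γ₁(M)`, `Γ' = ±Γ₁(M)`, `P.F = ℚ̄·F₁(M)`.)

Route: adapter to `exists_isKummerClass_of_analytic_pow_gen` (`DictKum.lean`, generic port of
helper389's DICT) for the core `D.core` (`Hol = holN M`), with degree bound `D.degree_fields`.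
-/

set_option autoImplicit false
set_option linter.unusedSectionVars false
set_option linter.unusedVariables false
set_option linter.style.haveILetI false

noncomputable section

open ModularCurve AlgebraicCurve UpperHalfPlane HahnSeries
open scoped MatrixGroups Manifold Real

namespace Fermat.Agent.S48.H642

open Fermat.Agent.S24 Fermat.Agent.S24.H997 Fermat.Agent.S24.H648 Fermat.Agent.S24.H708
  Fermat.Agent.S29 Fermat.Agent.S48.H332 Fermat.Agent.S48.Kum

variable {M : ℕ} [NeZero M] {Γ Γ' : Subgroup SL(2, ℤ)} {P : GenField} {p : ℕ}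

/-! ### Invariance of a twisted function under nice elements -/

/-- A twisted function of a parabolic character is invariant under every `δ ∈ Γ` with
`c δ = 0`. -/
theorem K2g_invariant_of_char_zero {c : Γ → ZMod p} {U : ℍ → ℂ} (hU : HasChar Γ p c U)
    (γ : Γ) (hγ : c γ = 0) (τ : ℍ) : U ((γ : SL(2, ℤ)) • τ) = U τ := by
  have := hU γ τ
  rw [hγ] at this
  simpa using this

/-- The character vanishes on the nice elements of `±Γ`. -/
theorem K2g_invariant_of_nice {c : Γ → ZMod p} (hc : IsParHom Γ c) {U : ℍ → ℂ}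
    (hU : HasChar Γ p c U) {δ : SL(2, ℤ)} (hδ : δ ∈ Γ ∨ -δ ∈ Γ) (hnice : H389.Nice δ)
    (τ : ℍ) : U (δ • τ) = U τ := by
  rcases hδ with hδ | hδ
  · refine K2g_invariant_of_char_zero hU ⟨δ, hδ⟩ ?_ τ
    rcases hnice with hfin | htr
    · obtain ⟨n, hn, hδn⟩ := isOfFinOrder_iff_pow_eq_one.1 hfin
      exact hc.elliptic ⟨δ, hδ⟩ n hn (Subtype.ext hδn)
    · exact hc.parabolic ⟨δ, hδ⟩ (Or.inl htr)
  · have h1 : δ • τ = (-δ) • τ := by rw [ModularGroup.SL_neg_smul]
    rw [h1]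
    refine K2g_invariant_of_char_zero hU ⟨-δ, hδ⟩ ?_ τ
    rcases hnice with hfin | htr
    · obtain ⟨n, hn, hδn⟩ := isOfFinOrder_iff_pow_eq_one.1 hfin
      refine hc.elliptic ⟨-δ, hδ⟩ (2 * n) (by omega) (Subtype.ext ?_)
      show (-δ) ^ (2 * n) = 1
      rw [pow_mul, neg_sq, ← pow_mul, mul_comm, pow_mul, hδn, one_pow]
    · refine hc.parabolic ⟨-δ, hδ⟩ (Or.inr ?_)
      show ((-δ : SL(2, ℤ)) : Matrix (Fin 2) (Fin 2) ℤ).trace = -2
      rw [Matrix.SpecialLinearGroup.coe_neg, Matrix.trace_neg, htr]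

/-! ### `U ∈ holN M` -/

theorem K2g_mem_holN (hp : p ≠ 0)
    (hlev : ∀ g : SL(2, ℤ), g * ModularGroup.T ^ ((M : ℕ) : ℤ) * g⁻¹ ∈ Γ)
    {c : Γ → ZMod p} (hc : IsParHom Γ c) {U : ℍ → ℂ}
    (hU : IsTwisted Γ p c U) : U ∈ holN M := by
  refine ⟨hU.mdiff, fun g => ?_⟩
  have hol : MDiff (compSL g U) := mdifferentiable_comp_smul hU.mdiff g
  have hvadd : ∀ τ : ℍ, compSL g U ((((M : ℕ) : ℤ) : ℝ) +ᵥ τ) = compSL g U τ := by
    intro τ
    rw [← UpperHalfPlane.modular_T_zpow_smul]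
    have h1 : g • (ModularGroup.T ^ ((M : ℕ) : ℤ) • τ)
        = (g * ModularGroup.T ^ ((M : ℕ) : ℤ) * g⁻¹) • (g • τ) := by
      rw [← mul_smul, ← mul_smul, mul_assoc, mul_assoc, inv_mul_cancel, mul_one]
    simp only [compSL_apply]
    rw [h1]
    exact K2g_invariant_of_char_zero hU.hasChar ⟨_, hlev g⟩
      (hc.parabolic ⟨_, hlev g⟩ (Or.inl (H332.trace_conj_T_zpow g _))) (g • τ)
  have hper : Function.Periodic (compSL g U ∘ ofComplex) (M : ℝ) :=
    H332.periodic_comp_ofComplex_of_vadd hvadd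
  have hgr : ExpGrowth (compSL g U) :=
    H642.K2_expGrowth_of_pow hp (hU.pow_good.2.2 g)
  have hmer : IsMerInf M (compSL g U) := ⟨hol, hper, H642.K2_isBounded_mul_qh_pow hgr⟩
  exact ⟨qexpFun M (compSL g U), fun τ => (HasQExp.of_isMerInf hmer).hasSum τ⟩

/-! ### The expansion of a realisation -/

/-- The expansion at `i∞` in `exp(2πiτ/M)` of a good function realising `u` is `Φ M u`. -/
theorem K2g_infExp_of_realises (hT : ModularGroup.T ∈ Γ) {F : KF} {u : F} {G : ℍ → ℂ}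
    (hu : Realises Γ F u G) :
    InfExp M G (HolBase.Φ M ((u : F) : LaurentSeries Kbar)) := by
  have h1 : HasQExp 1 G (coeffMap Deg457.iotaC ((u : F) : LaurentSeries Kbar)) :=
    hu.hasQExp hT
  have h2 := HasQExp.of_period_mul M h1
  intro τ
  have h3 := HasQExp.hasSum h2 τ
  simp only [one_mul] at h3
  exact h3

/-! ### The piece -/

theorem K2g_one_ne_zero (D : GenData M Γ' P) : (1 : D.core.toGenBase.Hol) ≠ 0 := by
  intro h
  have := congrArg (fun f : D.core.toGenBase.Hol => (f : ℍ → ℂ) UpperHalfPlane.I) h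
  simp at this

/-- **Leaf `k2`, generic**: `Kum.PieceK2 Γ P.F p` from analytic input `GenData M Γ' P` for a group
`Γ'` of finite index with `Γ' ⊆ ±Γ`, `Γ` of level `M` containing `T`. -/
theorem pieceK2_of_genData (D : GenData M Γ' P) [Finite (XG Γ')]
    (hΓ' : ∀ δ : SL(2, ℤ), δ ∈ Γ' → δ ∈ Γ ∨ -δ ∈ Γ)
    (hlev : ∀ g : SL(2, ℤ), g * ModularGroup.T ^ ((M : ℕ) : ℤ) * g⁻¹ ∈ Γ)
    (hT : ModularGroup.T ∈ Γ) (hp : p ≠ 0) : PieceK2 Γ P.F p := by
  classical
  intro c hc U u hU hu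
  set B := D.core.toGenBase with hB
  let h₁ : B.Hol := ⟨U, K2g_mem_holN hp hlev hc hU⟩
  have hh₁ : h₁ ≠ 0 := by
    obtain ⟨τ, hτ⟩ := hU.ne_zero
    intro h0
    apply hτ
    exact congrArg (fun f : B.Hol => (f : ℍ → ℂ) τ) h0
  -- the expansion of `U ^ p`
  have hq : B.qexp (h₁ ^ p) = HolBase.Φ M ((u : P.F) : LaurentSeries Kbar) := by
    have h1 : InfExp M (fun τ => U τ ^ p) (HolBase.Φ M ((u : P.F) : LaurentSeries Kbar)) :=
      K2g_infExp_of_realises hT hu
    have h2 : InfExp M (((h₁ ^ p : B.Hol)) : ℍ → ℂ) (B.qexp (h₁ ^ p)) :=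
      D.base_qexp_spec (h₁ ^ p)
    exact h2.unique' h1 (fun τ => rfl)
  have hqne : B.qexp (h₁ ^ p) ≠ 0 := by
    rw [map_pow]
    refine pow_ne_zero _ ?_
    intro h0
    exact hh₁ (B.qexp_injective (h0.trans (map_zero _).symm))
  have hu0 : u ≠ 0 := by
    intro h0
    apply hqne
    rw [hq, h0]
    simp
  -- `u = r / s`
  obtain ⟨r, s, hs, hrs⟩ := P.exists_div_inclRG u
  have hs' : P.inclRG s ≠ 0 := fun h => hs (P.inclRG_injective (by rw [h, map_zero]))
  have hr : r ≠ 0 := by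
    intro h0
    apply hu0
    rw [hrs, h0, map_zero, zero_div]
  have hmul : ((r : P.RG) : LaurentSeries Kbar)
      = ((u : P.F) : LaurentSeries Kbar) * ((s : P.RG) : LaurentSeries Kbar) := by
    have h1 : (P.inclRG r : P.F) = u * P.inclRG s := by
      rw [hrs, div_mul_cancel₀ _ hs']
    exact congrArg (fun f : P.F => (f : LaurentSeries Kbar)) h1
  have hrel : B.bridge r * (1 : B.Hol) ^ p = B.constH 1 * h₁ ^ p * B.bridge s := by
    apply B.qexp_injective
    have hc1 : B.qexp (B.constH 1) = 1 := by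
      have := B.qexp_const 1
      rw [map_one] at this
      exact this
    rw [one_pow, mul_one, map_mul, map_mul, hq, hc1, one_mul, GenBase.qexp_bridge,
      GenBase.qexp_bridge, ← map_mul, hmul]
  have hinv : ∀ δ : SL(2, ℤ), δ ∈ Γ' → H389.Nice δ →
      B.compH δ h₁ * 1 = h₁ * B.compH δ 1 := by
    intro δ hδ hnice
    have h1 : B.compH δ h₁ = h₁ := by
      apply Subtype.ext
      funext τ
      show U (δ • τ) = U τ
      exact K2g_invariant_of_nice hc hU.hasChar (hΓ' δ hδ) hnice τ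
    rw [h1, map_one]
  obtain ⟨x, hx⟩ := exists_isKummerClass_of_analytic_pow_gen D.core D.degree_fields.1
    D.degree_fields.2 p hp r s hr hs h₁ 1 hh₁ (K2g_one_ne_zero D) 1 one_ne_zero hrel hinv
  exact ⟨x, by rw [hrs]; exact hx⟩

end Fermat.Agent.S48.H642

end
end
-- ===== PACK-END S48/H642/K2Gen.lean

-- ===== PACK-BEGIN S48/H332/PkgAvatar.lean
section


/-!
# Tower A1 / A1-FF, piece PKG-GEN (helper332) — `GenData` from avatars

`GenData.ofAvatars`: to build the analytic input `GenData M Γ P` it suffices to give, for every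
generator `s ∈ P.S`, SOME function `f ∈ holN M`, `Γ`-invariant, with expansion `s(z^M)` at `i∞`
(the avatar is then unique: `avatarOf`), and to check that an element of `SL₂(ℤ)` fixing all the
avatars lies in `Γ`.
-/

set_option autoImplicit false
set_option linter.style.haveILetI false
set_option linter.unusedVariables false
set_option linter.unusedSectionVars false

noncomputable section

open ModularCurve HahnSeries UpperHalfPlane
open scoped MatrixGroups Manifold Real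

namespace Fermat.Agent.S48.H332

open Fermat.Agent.S24 Fermat.Agent.S24.H997 Fermat.Agent.S24.Deg457
open Fermat.Agent.S24.H624 Fermat.Agent.S20.L1

/-- `f` is an avatar of the series `s ∈ ℚ̄((q))` at level `M`: `f ∈ holN M` with expansion
`s(z^M)` at `i∞` (`z = exp(2πiτ/M)`, coefficients embedded by `ιK`). -/
def IsAvatar (M : ℕ) [NeZero M] (s : LaurentSeries Kbar) (f : ℍ → ℂ) : Prop :=
  f ∈ holN M ∧ InfExp M f (HolBase.Φ M s)

theorem IsAvatar.unique {M : ℕ} [NeZero M] {s : LaurentSeries Kbar} {f g : ℍ → ℂ}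
    (hf : IsAvatar M s f) (hg : IsAvatar M s g) : f = g :=
  hf.2.fun_unique hg.2

/-- avatars from `q`-expansions -/
theorem IsAvatar.of_infExp_one {M : ℕ} [NeZero M] {s : LaurentSeries Kbar} {f : ℍ → ℂ}
    (hf : f ∈ holN M) (he : InfExp 1 f (coeffMap ιK s)) : IsAvatar M s f :=
  ⟨hf, infExp_Φ he M⟩

open Classical in
/-- THE avatar of a series (`0` if there is none). -/
def avatarOf (M : ℕ) [NeZero M] (s : LaurentSeries Kbar) : ℍ → ℂ :=
  if h : ∃ f, IsAvatar M s f then h.choose else 0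

theorem avatarOf_eq {M : ℕ} [NeZero M] {s : LaurentSeries Kbar} {f : ℍ → ℂ}
    (hf : IsAvatar M s f) : avatarOf M s = f := by
  have h : ∃ f, IsAvatar M s f := ⟨f, hf⟩
  rw [avatarOf, dif_pos h]
  exact h.choose_spec.unique hf

theorem isAvatar_avatarOf {M : ℕ} [NeZero M] {s : LaurentSeries Kbar}
    (h : ∃ f, IsAvatar M s f) : IsAvatar M s (avatarOf M s) := by
  obtain ⟨f, hf⟩ := h
  rw [avatarOf_eq hf]
  exact hf

/-- the `j`-function is the avatar of `j` -/
theorem isAvatar_jFun (M : ℕ) [NeZero M] : IsAvatar M jBar jFun := by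
  have h1 : Jd 1 ∈ holN M := Jd_mem_holN M 1 (one_dvd M)
  rw [Jd_one] at h1
  refine IsAvatar.of_infExp_one h1 ?_
  have h2 : coeffMap ιK jBar = infJq := coeffMap_JK ιK
  rw [h2]
  exact infExp_jFun

/-- the function `τ ↦ j(dτ)` is the avatar of `j(q^d)`, `d ∣ M` -/
theorem isAvatar_Jd (M : ℕ) [NeZero M] (d : ℕ) [NeZero d] (hd : d ∣ M) :
    IsAvatar M (coeffEmb Kbar (qExpand ℚ d jq)) (Jd d) := by
  refine ⟨Jd_mem_holN M d hd, ?_⟩
  rw [(holBase M).Φ_gen d hd]
  exact expInf_spec (holToExp M ((holBase M).JH d hd))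

/-- **`GenData` from avatars.** -/
def GenData.ofAvatars (M : ℕ) [NeZero M] (Γ : Subgroup SL(2, ℤ)) (P : GenField)
    (hav : ∀ s, s ∈ P.S → ∃ f, IsAvatar M s f ∧ ∀ g ∈ Γ, ∀ τ : ℍ, f (g • τ) = f τ)
    (hdist : ∀ g : SL(2, ℤ),
      (∀ s, s ∈ P.S → ∀ f, IsAvatar M s f → ∀ τ : ℍ, f (g • τ) = f τ) → g ∈ Γ) :
    GenData M Γ P where
  G := avatarOf M
  G_mem s hs := by
    obtain ⟨f, hf, -⟩ := hav s hs
    rw [avatarOf_eq hf]
    exact hf.1
  G_j := avatarOf_eq (isAvatar_jFun M)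
  G_inv s hs g hg τ := by
    obtain ⟨f, hf, hinv⟩ := hav s hs
    rw [avatarOf_eq hf]
    exact hinv g hg τ
  G_distinct g h := by
    apply hdist
    intro s hs f hf τ
    have := h s hs τ
    rwa [avatarOf_eq hf] at this
  G_exp s hs := by
    obtain ⟨f, hf, -⟩ := hav s hs
    rw [avatarOf_eq hf]
    exact hf.2

theorem GenData.ofAvatars_G {M : ℕ} [NeZero M] {Γ : Subgroup SL(2, ℤ)} {P : GenField}
    (hav : ∀ s, s ∈ P.S → ∃ f, IsAvatar M s f ∧ ∀ g ∈ Γ, ∀ τ : ℍ, f (g • τ) = f τ)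
    (hdist : ∀ g : SL(2, ℤ),
      (∀ s, s ∈ P.S → ∀ f, IsAvatar M s f → ∀ τ : ℍ, f (g • τ) = f τ) → g ∈ Γ)
    {s : LaurentSeries Kbar} {f : ℍ → ℂ} (hf : IsAvatar M s f) :
    (GenData.ofAvatars M Γ P hav hdist).G s = f :=
  avatarOf_eq hf

end Fermat.Agent.S48.H332

end
end
-- ===== PACK-END S48/H332/PkgAvatar.lean

-- ===== PACK-BEGIN S48/H332/F1Inst.lean
section




/-!
# Tower A1 / A1-FF (helper332) — FF-ALG (degree) + DICT1-LOC for `F1 M`

The function field `ℚ̄·F1(M) = laurentBaseChange ℚ̄ (F1.F1 M)` of `X₁(M)` as an INSTANCE of the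
generic package (`PkgDeg.lean`), with `Γ = ±Γ₁(M)` (`pmGamma1 M`), avatars `S24.H997.Jd d`
(of `j(q^d)`) and `H76.pFun M a` (of the division value `P_a`, helper76):

* `f1Data M : GenData M (pmGamma1 M) (f1Field M)`;
* `f1_finiteDimensional`, `f1_finrank_eq : [ℚ̄·F1(M) : ℚ̄(j)] = [SL₂(ℤ) : ±Γ₁(M)]`;
* `f1Pkg M : GenPackage M (pmGamma1 M) (f1Field M)` — `LocalData` at every `j = a` and at `∞`.
-/

set_option autoImplicit false
set_option linter.style.haveILetI false
set_option linter.unusedVariables false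
set_option linter.unusedSectionVars false

noncomputable section

open ModularCurve HahnSeries UpperHalfPlane CongruenceSubgroup
open scoped MatrixGroups Manifold Real

namespace Fermat.Agent.S48.H332

open Fermat.Agent.S24 Fermat.Agent.S24.H997 Fermat.Agent.S24.Deg457
open Fermat.Agent.S24.H624 Fermat.Agent.S20.L1
open Fermat.Agent.S48.F1 Fermat.Agent.S48.H76

/-! ### The group `±Γ₁(M)` -/

theorem coe_zero_zero_mul_of_mem_Gamma0 {M : ℕ} {g h : SL(2, ℤ)} (hh : h ∈ Gamma0 M) :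
    (((g * h) 0 0 : ℤ) : ZMod M) = ((g 0 0 : ℤ) : ZMod M) * ((h 0 0 : ℤ) : ZMod M) := by
  have h10 : ((h 1 0 : ℤ) : ZMod M) = 0 := Gamma0_mem.mp hh
  have e : (g * h) 0 0 = g 0 0 * h 0 0 + g 0 1 * h 1 0 := by
    rw [Matrix.SpecialLinearGroup.coe_mul, Matrix.mul_apply, Fin.sum_univ_two]
  rw [e]
  push_cast
  rw [h10, mul_zero, add_zero]

theorem coe_mul_coe_eq_one_of_mem_Gamma0 {M : ℕ} {g : SL(2, ℤ)} (hg : g ∈ Gamma0 M) :
    ((g 0 0 : ℤ) : ZMod M) * ((g 1 1 : ℤ) : ZMod M) = 1 := by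
  have h10 : ((g 1 0 : ℤ) : ZMod M) = 0 := Gamma0_mem.mp hg
  have h := Matrix.SpecialLinearGroup.det_coe g
  rw [Matrix.det_fin_two] at h
  have h' := congrArg (fun z : ℤ => (z : ZMod M)) h
  simp only [Int.cast_sub, Int.cast_mul, Int.cast_one] at h'
  rw [h10, mul_zero, sub_zero] at h'
  exact h'

/-- The subgroup `±Γ₁(M) = {γ ∈ Γ₀(M) : γ₀₀ ≡ ±1 mod M}`. -/
def pmGamma1 (M : ℕ) : Subgroup SL(2, ℤ) where
  carrier := {g | g ∈ Gamma0 M ∧
    (((g 0 0 : ℤ) : ZMod M) = 1 ∨ ((g 0 0 : ℤ) : ZMod M) = -1)}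
  mul_mem' := by
    rintro g h ⟨hg, hg1⟩ ⟨hh, hh1⟩
    refine ⟨mul_mem hg hh, ?_⟩
    rw [coe_zero_zero_mul_of_mem_Gamma0 hh]
    rcases hg1 with h1 | h1 <;> rcases hh1 with h2 | h2 <;> rw [h1, h2] <;> simp
  one_mem' := ⟨one_mem _, Or.inl (by simp)⟩
  inv_mem' := by
    rintro g ⟨hg, hg1⟩
    refine ⟨inv_mem hg, ?_⟩
    have e00 : ((g⁻¹ : SL(2, ℤ)) 0 0 : ℤ) = g 1 1 := by
      rw [Matrix.SpecialLinearGroup.SL2_inv_expl]; rfl
    rw [e00]
    have hdet := coe_mul_coe_eq_one_of_mem_Gamma0 hg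
    rcases hg1 with h1 | h1
    · left; rw [h1, one_mul] at hdet; exact hdet
    · right
      rw [h1] at hdet
      have : ((g 1 1 : ℤ) : ZMod M) = -(-1 * ((g 1 1 : ℤ) : ZMod M)) := by ring
      rw [this, hdet]

theorem mem_pmGamma1 {M : ℕ} {g : SL(2, ℤ)} :
    g ∈ pmGamma1 M ↔ g ∈ Gamma0 M ∧
      (((g 0 0 : ℤ) : ZMod M) = 1 ∨ ((g 0 0 : ℤ) : ZMod M) = -1) := Iff.rfl

theorem pmGamma1_le_Gamma0 (M : ℕ) : pmGamma1 M ≤ Gamma0 M := fun _ h => h.1

theorem Gamma1_le_pmGamma1 (M : ℕ) : Gamma1 M ≤ pmGamma1 M := by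
  intro g hg
  exact ⟨Gamma1_in_Gamma0 M hg, Or.inl ((Gamma1_mem M g).mp hg).1⟩

theorem neg_one_mem_pmGamma1 (M : ℕ) : (-1 : SL(2, ℤ)) ∈ pmGamma1 M := by
  refine ⟨by rw [Gamma0_mem]; simp, Or.inr ?_⟩
  simp

/-- `g ∈ ±Γ₁(M)` iff `g ∈ Γ₁(M)` or `-g ∈ Γ₁(M)`. -/
theorem mem_pmGamma1_iff {M : ℕ} {g : SL(2, ℤ)} :
    g ∈ pmGamma1 M ↔ g ∈ Gamma1 M ∨ -g ∈ Gamma1 M := by
  constructor
  · rintro ⟨hg, h1 | h1⟩
    · left
      have hdet := coe_mul_coe_eq_one_of_mem_Gamma0 hg
      rw [h1, one_mul] at hdet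
      exact (Gamma1_mem M g).mpr ⟨h1, hdet, Gamma0_mem.mp hg⟩
    · right
      have hdet := coe_mul_coe_eq_one_of_mem_Gamma0 hg
      rw [h1] at hdet
      have h11 : ((g 1 1 : ℤ) : ZMod M) = -1 := by
        have : ((g 1 1 : ℤ) : ZMod M) = -(-1 * ((g 1 1 : ℤ) : ZMod M)) := by ring
        rw [this, hdet]
      refine (Gamma1_mem M (-g)).mpr ⟨?_, ?_, ?_⟩
      · simp [h1]
      · simp [h11]
      · have := Gamma0_mem.mp hg
        simp [this]
  · rintro (h | h)
    · exact Gamma1_le_pmGamma1 M h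
    · have h2 := (pmGamma1 M).mul_mem (neg_one_mem_pmGamma1 M) (Gamma1_le_pmGamma1 M h)
      have e : (-1 : SL(2, ℤ)) * -g = g := by simp
      rwa [e] at h2

instance finiteIndex_pmGamma1 (M : ℕ) [NeZero M] : (pmGamma1 M).FiniteIndex :=
  Subgroup.finiteIndex_of_le (Gamma1_le_pmGamma1 M)

instance finite_XG_pmGamma1 (M : ℕ) [NeZero M] : Finite (XG (pmGamma1 M)) :=
  Subgroup.finite_quotient_of_finiteIndex

/-! ### The field -/

/-- the rational generators of `F1 M` -/
def f1Gens (M : ℕ) : Set (LaurentSeries ℚ) := divisorExpansions M ∪ divGens M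

theorem jq_mem_f1Gens (M : ℕ) : jq ∈ f1Gens M := by
  have h := mem_divisorExpansions M (d := 1) (one_dvd M)
  rw [qExpand_one_apply] at h
  exact Or.inl h

/-- `ℚ̄·F1(M)` as a generic field. -/
def f1Field (M : ℕ) : GenField := GenField.ofRat (f1Gens M) (jq_mem_f1Gens M)

theorem f1Field_F (M : ℕ) : (f1Field M).F = laurentBaseChange Kbar (F1 M) := rfl

theorem f1Field_S (M : ℕ) : (f1Field M).S = ⇑(coeffEmb Kbar) '' f1Gens M := rfl

/-! ### The avatars -/

theorem coeffMap_coeffEmb_divGen (M : ℕ) (a : ZMod M) :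
    coeffMap ιK (coeffEmb Kbar (divGen M a)) = divGenC ℂ M a := by
  rw [coeffMap_coeffEmb', coeffEmb, ← divGenC_rat, coeffMap_divGenC]

/-- `pFun M a` is the avatar of `P_a`. -/
theorem isAvatar_pFun (M : ℕ) [NeZero M] {a : ZMod M} (ha : a ≠ 0) :
    IsAvatar M (coeffEmb Kbar (divGen M a)) (pFun M a) := by
  refine IsAvatar.of_infExp_one (pFun_mem_holN M a) ?_
  rw [coeffMap_coeffEmb_divGen]
  exact infExp_pFun M ha

theorem pFun_smul_pmGamma1 (M : ℕ) [NeZero M] (a : ZMod M) (g : SL(2, ℤ))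
    (hg : g ∈ pmGamma1 M) (τ : ℍ) : pFun M a (g • τ) = pFun M a τ := by
  have h := congrFun (compSL_pFun M a g hg.1) τ
  rw [compSL_apply] at h
  rw [h]
  rcases hg.2 with h1 | h1
  · rw [h1, mul_one]
  · rw [h1, mul_neg, mul_one, pFun_neg]

/-- every generator has a `±Γ₁(M)`-invariant avatar -/
theorem f1_avatars (M : ℕ) [NeZero M] (s : LaurentSeries Kbar) (hs : s ∈ (f1Field M).S) :
    ∃ f, IsAvatar M s f ∧ ∀ g ∈ pmGamma1 M, ∀ τ : ℍ, f (g • τ) = f τ := by
  obtain ⟨x, hx, rfl⟩ := hs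
  rcases hx with hx | hx
  · obtain ⟨d, hd0, hd, rfl⟩ := hx
    exact ⟨Jd d, isAvatar_Jd M d hd, fun g hg τ => Jd_inv M d hd g hg.1 τ⟩
  · obtain ⟨a, ha, rfl⟩ := hx
    exact ⟨pFun M a, isAvatar_pFun M ha, fun g hg τ => pFun_smul_pmGamma1 M a g hg τ⟩

/-- `P_a = P_b` as functions implies `a = ±b`. -/
theorem eq_or_eq_neg_of_pFun_eq (M : ℕ) [NeZero M] {a b : ZMod M} (ha : a ≠ 0) (hb : b ≠ 0)
    (h : pFun M a = pFun M b) : a = b ∨ a = -b := by
  apply eq_or_eq_neg_of_divGenC_eq ℂ M ha hb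
  exact (infExp_pFun M ha).unique' (infExp_pFun M hb) (fun τ => congrFun h τ)

/-- an element of `SL₂(ℤ)` fixing all the avatars lies in `±Γ₁(M)` -/
theorem f1_distinct (M : ℕ) [NeZero M] (g : SL(2, ℤ))
    (h : ∀ s, s ∈ (f1Field M).S → ∀ f, IsAvatar M s f → ∀ τ : ℍ, f (g • τ) = f τ) :
    g ∈ pmGamma1 M := by
  have hg0 : g ∈ Gamma0 M := by
    apply Jd_distinct M
    have hM : (coeffEmb Kbar (qExpand ℚ M jq)) ∈ (f1Field M).S :=
      ⟨_, Or.inl (mem_divisorExpansions M dvd_rfl), rfl⟩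
    exact h _ hM (Jd M) (isAvatar_Jd M M dvd_rfl)
  refine ⟨hg0, ?_⟩
  by_cases h1 : (1 : ZMod M) = 0
  · -- `M = 1`: `ZMod M` is trivial
    left
    have hsub : ∀ x y : ZMod M, x = y := by
      intro x y
      rw [← mul_one x, ← mul_one y, h1, mul_zero, mul_zero]
    exact hsub _ _
  · set u : ZMod M := ((g 0 0 : ℤ) : ZMod M) with hu
    have hu0 : u ≠ 0 := by
      intro h0
      have hdet := coe_mul_coe_eq_one_of_mem_Gamma0 hg0
      rw [← hu, h0, zero_mul] at hdet
      exact h1 hdet.symm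
    have hP : (coeffEmb Kbar (divGen M 1)) ∈ (f1Field M).S :=
      ⟨_, Or.inr (divGen_mem_divGens M h1), rfl⟩
    have hfix := h _ hP (pFun M 1) (isAvatar_pFun M h1)
    have hcomp := compSL_pFun M 1 g hg0
    rw [one_mul, ← hu] at hcomp
    have heq : pFun M u = pFun M 1 := by
      rw [← hcomp]
      funext τ
      exact hfix τ
    exact eq_or_eq_neg_of_pFun_eq M hu0 h1 heq

/-! ### The instance -/

/-- **The analytic input for `ℚ̄·F1(M)`**, `Γ = ±Γ₁(M)`. -/
def f1Data (M : ℕ) [NeZero M] : GenData M (pmGamma1 M) (f1Field M) :=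
  GenData.ofAvatars M (pmGamma1 M) (f1Field M) (f1_avatars M) (f1_distinct M)

/-- the avatar of `P_a` in `f1Data` is `pFun M a` -/
theorem f1Data_G_divGen (M : ℕ) [NeZero M] {a : ZMod M} (ha : a ≠ 0) :
    (f1Data M).G (coeffEmb Kbar (divGen M a)) = pFun M a :=
  avatarOf_eq (isAvatar_pFun M ha)

/-- the avatar of `j(q^d)` in `f1Data` is `τ ↦ j(dτ)` -/
theorem f1Data_G_Jd (M : ℕ) [NeZero M] (d : ℕ) [NeZero d] (hd : d ∣ M) :
    (f1Data M).G (coeffEmb Kbar (qExpand ℚ d jq)) = Jd d :=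
  avatarOf_eq (isAvatar_Jd M d hd)

/-- **The generic modular package of `ℚ̄·F1(M)`.** -/
def f1Pkg (M : ℕ) [NeZero M] : GenPackage M (pmGamma1 M) (f1Field M) := (f1Data M).pkg

/-- `j` as an element of `ℚ̄·F1(M)`. -/
def f1J (M : ℕ) : ↥(laurentBaseChange Kbar (F1 M)) := (f1Field M).jF

theorem coe_f1J (M : ℕ) : ((f1J M : ↥(laurentBaseChange Kbar (F1 M))) : LaurentSeries Kbar)
    = coeffEmb Kbar jq := rfl

/-- **FF-ALG (finiteness)**: `ℚ̄·F1(M)` is finite over `ℚ̄(j)`. -/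
theorem f1_finiteDimensional (M : ℕ) [NeZero M] :
    FiniteDimensional ↥(IntermediateField.adjoin Kbar {f1J M})
      ↥(laurentBaseChange Kbar (F1 M)) :=
  (f1Data M).finiteDimensional

/-- **FF-ALG (degree)**: `[ℚ̄·F1(M) : ℚ̄(j)] = [SL₂(ℤ) : ±Γ₁(M)]`. -/
theorem f1_finrank_eq (M : ℕ) [NeZero M] :
    Module.finrank ↥(IntermediateField.adjoin Kbar {f1J M}) ↥(laurentBaseChange Kbar (F1 M))
      = Nat.card (SL(2, ℤ) ⧸ pmGamma1 M) :=
  (f1Data M).finrank_eq

/-- **DICT1-LOC (finite points)**: local uniformisation data of `ℚ̄·F1(M)` over `j = a`. -/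
def f1DataFin (M : ℕ) [NeZero M] (a : Kbar) :
    LocalData Kbar ↥(laurentBaseChange Kbar (F1 M)) ℂ (SL(2, ℤ) ⧸ pmGamma1 M)
      (f1J M - algebraMap Kbar ↥(laurentBaseChange Kbar (F1 M)) a) :=
  (f1Pkg M).dataFin a

/-- **DICT1-LOC (cusps)**: local uniformisation data of `ℚ̄·F1(M)` over `j = ∞`. -/
def f1DataInf (M : ℕ) [NeZero M] :
    LocalData Kbar ↥(laurentBaseChange Kbar (F1 M)) ℂ (SL(2, ℤ) ⧸ pmGamma1 M) (f1J M)⁻¹ :=
  (f1Pkg M).dataInf

end Fermat.Agent.S48.H332

end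
end
-- ===== PACK-END S48/H332/F1Inst.lean

-- ===== PACK-BEGIN S48/H642/K2.lean
section




/-!
# Tower A1 / A1-KUM — leaf `k2` of `Kum.Leaves` (helper642)

`k2 : ∀ M ℓ, ℓ.Prime → Kum.PieceK2 (Gamma1 M) (F1.F1Bar M) ℓ`, VERBATIM the field `k2` of
`Fermat.Agent.S48.Kum.Leaves` (`Kum/M4b1.lean`), UNCONDITIONAL:

if `u ∈ ℚ̄·F₁(M)` is realised by `U ^ ℓ`, `U` a twisted function of a character
`c : Γ₁(M) → ℤ/ℓ` killing parabolic and finite-order elements, then `u` has an `ℓ`-Kummer class in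
`J₁(M)(ℚ̄) = Pic⁰(ℚ̄·F₁(M))`.

= `pieceK2_of_genData` (generic DICT, `K2Gen.lean`) for helper332's analytic input
`H332.f1Data M : GenData M (±Γ₁(M)) (f1Field M)`.
-/

set_option autoImplicit false

noncomputable section

open ModularCurve AlgebraicCurve CongruenceSubgroup
open scoped MatrixGroups

namespace Fermat.Agent.S48.H642

open Fermat.Agent.S48.H332 Fermat.Agent.S48.Kum

/-- **Leaf `k2`** of sub-tower A1-KUM (exact type of `Kum.Leaves.k2`). -/
theorem k2 (M : ℕ) [NeZero M] (ℓ : ℕ) (hℓ : ℓ.Prime) :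
    PieceK2 (Gamma1 M) (Fermat.Agent.S48.F1.F1Bar M) ℓ :=
  pieceK2_of_genData (f1Data M) (fun _ hδ => mem_pmGamma1_iff.mp hδ)
    (fun g => (hasLevel_Gamma1 M).conj_T_pow g) (Fermat.Agent.S48.H332.T_mem_Gamma1 M)
    hℓ.ne_zero

end Fermat.Agent.S48.H642

end
end
-- ===== PACK-END S48/H642/K2.lean

-- ===== PACK-BEGIN S48/H828/IActGroup.lean
section



/-!
# S48 / Tower A1 / IGUSA1, piece I-ACT (helper828), part 4: the groups `G`, `B` and `t`

For `Ω := IActField ι M` we define (as subgroups / elements of `Ω ≃+* Ω`, the shape of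
`Fermat.Agent.S48.H856.IgusaData`):

* `iactRho ι M : SL(2,ℤ) →* (Ω ≃+* Ω)` the action;
* `iactG ι M := range`, `iactB ι M := image of Γ₀(M)`, `iactT ι M := image of T`;

and prove the group-theoretic fields of `IgusaData`:
`iactG_finite`, `iactB_le`, `iactT_mem`, `iactT_normal`, `iactT_gen`, `iactG_fix_C`, `iactG_fix_J`,
`iactG_inv` (fixed field `= E(j)`).
-/

set_option autoImplicit false
set_option linter.unusedSectionVars false

noncomputable section

open ModularCurve HahnSeries UpperHalfPlane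
open scoped MatrixGroups Manifold

namespace Fermat.Agent.S48.H828

open Fermat.Agent.S24 Fermat.Agent.S24.H997 Fermat.Agent.S24.H624 Fermat.Agent.S20.L1
open Fermat.Agent.S48.H368

/-! ### matrix computation: `g T g⁻¹ ≡ T^(a²)` modulo `Γ(M)` for `g ∈ Γ₀(M)` -/

theorem iact_T_zpow (n : ℤ) : ModularGroup.T ^ n = upperU (n : ℤ) := by
  rw [modularGroup_T_eq, ← upperU_zsmul]
  simp

theorem iact_conj_matrix (g : SL(2, ℤ)) (n : ℤ) :
    ((upperU n * (g * upperU (1 : ℤ) * g⁻¹) : SL(2, ℤ)) : Matrix (Fin 2) (Fin 2) ℤ)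
      = !![(g 0 0 * g 1 1 - (g 0 0 + g 0 1) * g 1 0)
              + n * (g 1 0 * g 1 1 - (g 1 0 + g 1 1) * g 1 0),
           (-(g 0 0 * g 0 1) + (g 0 0 + g 0 1) * g 0 0)
              + n * (-(g 1 0 * g 0 1) + (g 1 0 + g 1 1) * g 0 0);
           g 1 0 * g 1 1 - (g 1 0 + g 1 1) * g 1 0,
           -(g 1 0 * g 0 1) + (g 1 0 + g 1 1) * g 0 0] := by
  rw [Matrix.SpecialLinearGroup.coe_mul, Matrix.SpecialLinearGroup.coe_mul,
    Matrix.SpecialLinearGroup.coe_mul, coe_upperU, coe_upperU,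
    Matrix.SpecialLinearGroup.coe_inv, Matrix.adjugate_fin_two]
  ext i j
  fin_cases i <;> fin_cases j <;> simp [Matrix.mul_apply, Fin.sum_univ_two] <;> ring

theorem iact_conj_T_mem_Gamma (M : ℕ) {g : SL(2, ℤ)} (hg : g ∈ CongruenceSubgroup.Gamma0 M) :
    (ModularGroup.T ^ (g 0 0 ^ 2 : ℤ))⁻¹ * (g * ModularGroup.T * g⁻¹)
      ∈ CongruenceSubgroup.Gamma M := by
  have hc : ((g 1 0 : ℤ) : ZMod M) = 0 := CongruenceSubgroup.Gamma0_mem.mp hg
  have hdet : g 0 0 * g 1 1 - g 0 1 * g 1 0 = 1 := sl2_det_eq g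
  have hdet' : ((g 0 0 : ℤ) : ZMod M) * ((g 1 1 : ℤ) : ZMod M) = 1 := by
    have := congrArg (fun z : ℤ => (z : ZMod M)) hdet
    simp only [Int.cast_sub, Int.cast_mul, Int.cast_one, hc, mul_zero, sub_zero] at this
    exact this
  rw [iact_T_zpow, ← upperU_neg, modularGroup_T_eq, CongruenceSubgroup.Gamma_mem]
  have hmat := iact_conj_matrix g (-(g 0 0 ^ 2))
  have e00 := congrFun (congrFun hmat 0) 0
  have e01 := congrFun (congrFun hmat 0) 1
  have e10 := congrFun (congrFun hmat 1) 0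
  have e11 := congrFun (congrFun hmat 1) 1
  simp only [Matrix.of_apply, Matrix.cons_val_zero, Matrix.cons_val_one, Matrix.cons_val',
    Matrix.cons_val_fin_one] at e00 e01 e10 e11
  refine ⟨?_, ?_, ?_, ?_⟩
  · rw [e00]
    push_cast
    rw [hc]
    linear_combination hdet'
  · rw [e01]
    push_cast
    rw [hc]
    linear_combination (-(((g 0 0 : ℤ) : ZMod M) ^ 2)) * hdet'
  · rw [e10]
    push_cast
    rw [hc]
    ring
  · rw [e11]
    push_cast
    rw [hc]
    linear_combination hdet'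

variable {E : Type*} [Field E] [CharZero E] (ι : E →+* ℂ) (M : ℕ) [NeZero M]

/-- The action of `SL(2,ℤ)` on `IActField ι M` as a homomorphism to ring automorphisms. -/
def iactRho : SL(2, ℤ) →* (IActField ι M ≃+* IActField ι M) :=
  MulSemiringAction.toRingAut SL(2, ℤ) (IActField ι M)

/-- `G`: the image of `SL(2,ℤ)`. -/
def iactG : Subgroup (IActField ι M ≃+* IActField ι M) := (iactRho ι M).range

/-- `B`: the image of `Γ₀(M)`. -/
def iactB : Subgroup (IActField ι M ≃+* IActField ι M) :=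
  (CongruenceSubgroup.Gamma0 M).map (iactRho ι M)

/-- `t`: the image of `T`. -/
def iactT : IActField ι M ≃+* IActField ι M := iactRho ι M ModularGroup.T

variable {ι M}

@[simp] theorem iactRho_apply (g : SL(2, ℤ)) (x : IActField ι M) : iactRho ι M g x = g • x := rfl

theorem iactRho_of_mem_Gamma {g : SL(2, ℤ)} (hg : g ∈ CongruenceSubgroup.Gamma M) :
    iactRho ι M g = 1 :=
  RingEquiv.ext fun x => iact_field_smul_of_mem_Gamma hg x

theorem iactRho_eq_quot (g : SL(2, ℤ)) :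
    iactRho ι M g = iactQuotHom ι M (g : SL(2, ℤ) ⧸ CongruenceSubgroup.Gamma M) := rfl

theorem iactG_eq_range_quot : iactG ι M = (iactQuotHom ι M).range := by
  ext σ
  constructor
  · rintro ⟨g, rfl⟩
    exact ⟨(g : SL(2, ℤ) ⧸ CongruenceSubgroup.Gamma M), rfl⟩
  · rintro ⟨q, rfl⟩
    obtain ⟨g, rfl⟩ := QuotientGroup.mk_surjective q
    exact ⟨g, rfl⟩

theorem iactG_finite : Finite (iactG ι M) := by
  rw [iactG_eq_range_quot]
  exact Set.finite_range _

theorem iactB_le : iactB ι M ≤ iactG ι M := by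
  rintro σ ⟨g, -, rfl⟩
  exact ⟨g, rfl⟩

theorem iact_T_mem_Gamma0 : ModularGroup.T ∈ CongruenceSubgroup.Gamma0 M := by
  rw [CongruenceSubgroup.Gamma0_mem]
  simp [ModularGroup.T]

theorem iactT_mem : iactT ι M ∈ iactB ι M := ⟨ModularGroup.T, iact_T_mem_Gamma0, rfl⟩

theorem iactT_mem_G : iactT ι M ∈ iactG ι M := iactB_le iactT_mem

/-- `B` normalises `⟨t⟩`. -/
theorem iactT_normal : ∀ b ∈ iactB ι M, b * iactT ι M * b⁻¹ ∈ Subgroup.zpowers (iactT ι M) := by
  rintro b ⟨g, hg, rfl⟩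
  have h := iactRho_of_mem_Gamma (ι := ι) (iact_conj_T_mem_Gamma M hg)
  rw [map_mul, map_inv, map_zpow, inv_mul_eq_one, map_mul, map_mul, map_inv] at h
  refine ⟨(g 0 0 ^ 2 : ℤ), ?_⟩
  exact h

/-- The `G`-conjugates of `t` generate `G`. -/
theorem iactT_gen :
    iactG ι M ≤ Subgroup.closure {s | ∃ g ∈ iactG ι M, s = g * iactT ι M * g⁻¹} := by
  rintro σ ⟨γ, rfl⟩
  have hγ : γ ∈ Subgroup.normalClosure ({ModularGroup.T} : Set SL(2, ℤ)) := by
    rw [normalClosure_T]; trivial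
  unfold Subgroup.normalClosure at hγ
  induction hγ using Subgroup.closure_induction with
  | mem x hx =>
    rw [Group.mem_conjugatesOfSet_iff] at hx
    obtain ⟨a, ha, hax⟩ := hx
    rw [Set.mem_singleton_iff] at ha
    subst ha
    obtain ⟨c, rfl⟩ := isConj_iff.mp hax
    refine Subgroup.subset_closure ⟨iactRho ι M c, ⟨c, rfl⟩, ?_⟩
    rw [map_mul, map_mul, map_inv]
    rfl
  | one => rw [map_one]; exact one_mem _
  | mul x y _ _ hx hy => rw [map_mul]; exact mul_mem hx hy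
  | inv x _ hx => rw [map_inv]; exact inv_mem hx

theorem iactG_fix_C (g : IActField ι M ≃+* IActField ι M) (hg : g ∈ iactG ι M) (c : E) :
    g (iactFC ι M c) = iactFC ι M c := by
  obtain ⟨γ, rfl⟩ := hg
  rw [iactRho_apply, iactFC, RingHom.comp_apply, iact_smul_algebraMap, iact_smul_C]

theorem iactG_fix_J (g : IActField ι M ≃+* IActField ι M) (hg : g ∈ iactG ι M) :
    g (iactFJ ι M) = iactFJ ι M := by
  obtain ⟨γ, rfl⟩ := hg
  rw [iactRho_apply, iactFJ, iact_smul_algebraMap, iact_smul_J]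

/-- **Fixed field of `G`** is `E(j)`. -/
theorem iactG_inv (x : IActField ι M) (hx : ∀ g ∈ iactG ι M, g x = x) :
    ∃ P Q : Polynomial E, Polynomial.eval₂ (iactFC ι M) (iactFJ ι M) Q ≠ 0 ∧
      x = Polynomial.eval₂ (iactFC ι M) (iactFJ ι M) P
        / Polynomial.eval₂ (iactFC ι M) (iactFJ ι M) Q :=
  (iact_fixed_iff x).mp fun γ => hx _ ⟨γ, rfl⟩

end Fermat.Agent.S48.H828

end
end
-- ===== PACK-END S48/H828/IActGroup.lean

-- ===== PACK-BEGIN S48/H828/IActJd.lean
section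


/-!
# S48 / Tower A1 / IGUSA1, pieces I-ACT / I-F0 (helper828), part 5: the functions `j(dτ)`

Assume `ζ ∈ Eˣ` maps to `exp(2πi/M)`.  Then for `d ∣ M`:

* `Jd_mem_iactRing` : `τ ↦ j(dτ)` lies in `iactRing ι M` (all its `SL(2,ℤ)`-translates have
  `E`-rational `X`-expansions);
* `iactExp_Jd` : its `X`-expansion is `jq(X^{dM})`, written `qExpand M (qExpand d jq)`;
* `iact_smul_Jd_of_mem_Gamma0`, `iact_mem_Gamma0_of_smul_JM` : the stabiliser of `j(Mτ)` is `Γ₀(M)`;
* `iactB_inv` (**I-F0**, field `B_inv` of `H856.IgusaData`): every `Γ₀(M)`-invariant element of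
  `IActField ι M` lies in `E(j(dτ) : d ∣ M)`.
-/

set_option autoImplicit false
set_option linter.unusedSectionVars false

noncomputable section

open ModularCurve HahnSeries UpperHalfPlane
open scoped MatrixGroups Manifold

namespace Fermat.Agent.S48.H828

open Fermat.Agent.S24 Fermat.Agent.S24.H997 Fermat.Agent.S24.H624 Fermat.Agent.S20.L1

/-! ### a Galois correspondence lemma (elementwise form) -/

/-- Let a finite group `G` act faithfully on a field `L`, let `F₀` be a subfield containing the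
invariants, and let `B ≤ G` contain every element fixing `F₀` pointwise.  Then every `B`-invariant
element of `L` lies in `F₀`. -/
theorem iact_mem_of_fixed {L : Type*} [Field L] {G : Type*} [Group G] [Finite G]
    [MulSemiringAction G L] [FaithfulSMul G L] (B : Subgroup G) (F₀ : Subfield L)
    (hFG : ∀ x : L, (∀ g : G, g • x = x) → x ∈ F₀)
    (hdist : ∀ g : G, (∀ x ∈ F₀, g • x = x) → g ∈ B)
    (x : L) (hx : ∀ b ∈ B, b • x = x) : x ∈ F₀ := by
  classical
  let F : IntermediateField (FixedPoints.subfield G L) L :=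
    { F₀ with
      algebraMap_mem' := fun r => hFG _ (fun g => r.2 g) }
  have hmem : ∀ y : L, y ∈ F ↔ y ∈ F₀ := fun y => Iff.rfl
  have hfix : fixingSubgroup G (F : Set L) ≤ B := by
    intro g hg
    apply hdist
    intro y hy
    exact (mem_fixingSubgroup_iff G).mp hg y ((hmem y).mpr hy)
  have : IsGaloisGroup G (FixedPoints.subfield G L) L := IsGaloisGroup.fixedPoints G L
  have h1 : (FixedPoints.intermediateField (fixingSubgroup G (F : Set L)) :
      IntermediateField (FixedPoints.subfield G L) L) = F :=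
    IsGaloisGroup.fixedPoints_fixingSubgroup G (FixedPoints.subfield G L) L F
  rw [← hmem, ← h1]
  rintro ⟨g, hg⟩
  exact hx g (hfix hg)

variable {E : Type*} [Field E] [CharZero E] {ι : E →+* ℂ} {M : ℕ} [NeZero M]

/-! ### `j(dτ)` -/

theorem iact_Gamma_le_Gamma0 {γ : SL(2, ℤ)} (hγ : γ ∈ CongruenceSubgroup.Gamma M) :
    γ ∈ CongruenceSubgroup.Gamma0 M := by
  rw [CongruenceSubgroup.Gamma0_mem]
  exact (CongruenceSubgroup.Gamma_mem.mp hγ).2.2.1

theorem iact_infRoot_mul (b : ℤ) {d' c : ℕ} (hd' : 0 < d') (hc : 0 < c) (h : M = d' * c) :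
    infRoot (b * c) M = infRoot b d' := by
  apply Units.ext
  rw [infRoot_coe, infRoot_coe]
  congr 1
  have h1 : (d' : ℂ) ≠ 0 := by exact_mod_cast hd'.ne'
  have h2 : (c : ℂ) ≠ 0 := by exact_mod_cast hc.ne'
  rw [h]
  push_cast
  field_simp

theorem compSL_Jd_rat (ζ : Eˣ) (hζ : Units.map (ι : E →* ℂ) ζ = infRoot 1 M) {d : ℕ}
    (hd : d ∣ M) (γ : SL(2, ℤ)) : IActRat ι M (compSL γ (Jd d)) := by
  have hM : 0 < M := Nat.pos_of_ne_zero (NeZero.ne M)
  have hd0 : 0 < d := Nat.pos_of_dvd_of_pos hd hM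
  obtain ⟨γ', a, d', b, ha, hd', had, h00, h01, h10, h11⟩ := inf_exists_hnf d hd0 γ
  have hd'M : d' ∣ M := (Dvd.intro_left a had).trans hd
  obtain ⟨c, hc⟩ := hd'M
  have hc0 : 0 < c := by
    rcases Nat.eq_zero_or_pos c with h | h
    · rw [h, mul_zero] at hc; omega
    · exact h
  haveI : NeZero (a * c) := ⟨(Nat.mul_pos ha hc0).ne'⟩
  have h := inf_J_infAff_exp infExp_jFun (e := a * c) (N := M) b ha hd' hM (by rw [hc]; ring)
  refine ⟨qExpand E (a * c) (infTwist (ζ ^ (b * c)) (coeffEmb E jq)), ?_⟩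
  have hroot : Units.map (ι : E →* ℂ) (ζ ^ (b * c)) = infRoot b d' := by
    rw [map_zpow, hζ, iact_infRoot_one_zpow, iact_infRoot_mul b hd' hc0 hc]
  have hser : coeffMap ι (qExpand E (a * c) (infTwist (ζ ^ (b * c)) (coeffEmb E jq)))
      = infGenExp (a * c) b d' := by
    rw [coeffMap_qExpand, iact_coeffMap_infTwist, iact_coeffMap_coeffEmb, hroot]
    rfl
  rw [hser]
  refine h.congr fun τ => ?_
  show jFun (infAff a b d' τ) = jFun (infAff d 0 1 (γ • τ))
  rw [inf_aff_smul_eq hd0 ha hd' γ γ' h00 h01 h10 h11 τ, jFun_smul']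

theorem Jd_mem_iactRing (ζ : Eˣ) (hζ : Units.map (ι : E →* ℂ) ζ = infRoot 1 M) {d : ℕ}
    (hd : d ∣ M) : Jd d ∈ iactRing ι M := by
  have hM : 0 < M := Nat.pos_of_ne_zero (NeZero.ne M)
  have hd0 : 0 < d := Nat.pos_of_dvd_of_pos hd hM
  refine ⟨mdiff_Jd hd0, fun γ hγ => ?_, fun γ => compSL_Jd_rat ζ hζ hd γ⟩
  funext τ
  exact Jd_inv M d hd γ (iact_Gamma_le_Gamma0 hγ) τ

/-- `τ ↦ j(dτ)` as an element of `iactRing ι M`. -/
def iactJd (ζ : Eˣ) (hζ : Units.map (ι : E →* ℂ) ζ = infRoot 1 M) (d : ℕ) (hd : d ∣ M) :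
    iactRing ι M := ⟨Jd d, Jd_mem_iactRing ζ hζ hd⟩

/-- `τ ↦ j(dτ)` as an element of `IActField ι M`. -/
def iactFJd (ζ : Eˣ) (hζ : Units.map (ι : E →* ℂ) ζ = infRoot 1 M) (d : ℕ) (hd : d ∣ M) :
    IActField ι M := algebraMap (iactRing ι M) (IActField ι M) (iactJd ζ hζ d hd)

variable (ζ : Eˣ) (hζ : Units.map (ι : E →* ℂ) ζ = infRoot 1 M)

theorem iactJd_one : iactJd ζ hζ 1 (one_dvd M) = iactJ ι M :=
  Subtype.ext Jd_one

theorem iactFJd_one : iactFJd ζ hζ 1 (one_dvd M) = iactFJ ι M := by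
  rw [iactFJd, iactJd_one, iactFJ]

theorem iactExp_Jd (d : ℕ) [NeZero d] (hd : d ∣ M) :
    iactExp ι M (iactJd ζ hζ d hd) = qExpand E M (qExpand E d (coeffEmb E jq)) := by
  have hM : 0 < M := Nat.pos_of_ne_zero (NeZero.ne M)
  have hd0 : 0 < d := Nat.pos_of_ne_zero (NeZero.ne d)
  apply iactExp_eq
  have h := inf_J_mul_exp infExp_jFun hd0 hM
  rw [coeffMap_qExpand, coeffMap_qExpand, iact_coeffMap_coeffEmb, qExpand_qExpand]
  have e : qExpand ℂ (M * d) (coeffEmb ℂ jq) = qExpand ℂ (d * M) infJq :=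
    qExpand_congr (Nat.mul_comm M d) _
  rw [e]
  exact h

theorem iactFieldExp_Jd (d : ℕ) [NeZero d] (hd : d ∣ M) :
    iactFieldExp ι M (iactFJd ζ hζ d hd) = qExpand E M (qExpand E d (coeffEmb E jq)) := by
  rw [iactFJd, iactFieldExp_algebraMap, iactExp_Jd]

theorem iact_smul_Jd_of_mem_Gamma0 {γ : SL(2, ℤ)} (hγ : γ ∈ CongruenceSubgroup.Gamma0 M)
    (d : ℕ) (hd : d ∣ M) : γ • iactJd ζ hζ d hd = iactJd ζ hζ d hd := by
  apply Subtype.ext
  funext τ
  exact Jd_inv M d hd γ⁻¹ (inv_mem hγ) τ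

theorem iact_mem_Gamma0_of_smul_JM {γ : SL(2, ℤ)}
    (h : γ • iactJd ζ hζ M dvd_rfl = iactJd ζ hζ M dvd_rfl) :
    γ ∈ CongruenceSubgroup.Gamma0 M := by
  have h1 : γ⁻¹ ∈ CongruenceSubgroup.Gamma0 M := by
    apply Jd_distinct M γ⁻¹
    intro τ
    exact congrArg (fun f : iactRing ι M => (f : ℍ → ℂ) τ) h
  simpa using inv_mem h1

/-! ### I-F0: the invariants of `Γ₀(M)` -/

/-- The field `E(j(dτ) : d ∣ M)` inside `IActField ι M`. -/
def iactF0 : Subfield (IActField ι M) :=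
  Subfield.closure (Set.range (iactFC ι M) ∪ {y | ∃ (d : ℕ) (hd : d ∣ M), y = iactFJd ζ hζ d hd})

theorem iactFC_mem_F0 (c : E) : iactFC ι M c ∈ iactF0 ζ hζ :=
  Subfield.subset_closure (Or.inl ⟨c, rfl⟩)

theorem iactFJd_mem_F0 (d : ℕ) (hd : d ∣ M) : iactFJd ζ hζ d hd ∈ iactF0 ζ hζ :=
  Subfield.subset_closure (Or.inr ⟨d, hd, rfl⟩)

theorem iactFJ_mem_F0 : iactFJ ι M ∈ iactF0 ζ hζ := by
  rw [← iactFJd_one ζ hζ]
  exact iactFJd_mem_F0 ζ hζ 1 (one_dvd M)

theorem iact_eval₂_mem_F0 (P : Polynomial E) :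
    Polynomial.eval₂ (iactFC ι M) (iactFJ ι M) P ∈ iactF0 ζ hζ := by
  rw [Polynomial.eval₂_eq_sum_range]
  refine sum_mem fun i _ => mul_mem (iactFC_mem_F0 ζ hζ _) (pow_mem (iactFJ_mem_F0 ζ hζ) i)

/-- **I-F0.** Every `Γ₀(M)`-invariant element of `IActField ι M` lies in `E(j(dτ) : d ∣ M)`. -/
theorem iactB_inv (x : IActField ι M) (hx : ∀ b ∈ iactB ι M, b x = x) : x ∈ iactF0 ζ hζ := by
  haveI : Finite (iactG ι M) := iactG_finite
  refine iact_mem_of_fixed (G := iactG ι M) ((iactB ι M).subgroupOf (iactG ι M)) (iactF0 ζ hζ)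
    ?_ ?_ x ?_
  · intro y hy
    obtain ⟨P, Q, -, rfl⟩ := iactG_inv y (fun g hg => hy ⟨g, hg⟩)
    exact div_mem (iact_eval₂_mem_F0 ζ hζ P) (iact_eval₂_mem_F0 ζ hζ Q)
  · rintro ⟨g, γ, rfl⟩ hg
    rw [Subgroup.mem_subgroupOf]
    refine ⟨γ, ?_, rfl⟩
    apply iact_mem_Gamma0_of_smul_JM ζ hζ
    have h1 := hg _ (iactFJd_mem_F0 ζ hζ M dvd_rfl)
    have h2 : γ • iactFJd ζ hζ M dvd_rfl = iactFJd ζ hζ M dvd_rfl := h1
    rw [iactFJd, iact_smul_algebraMap] at h2
    exact IsFractionRing.injective (iactRing ι M) (IActField ι M) h2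
  · rintro ⟨b, hbG⟩ hb
    rw [Subgroup.mem_subgroupOf] at hb
    exact hx b hb

end Fermat.Agent.S48.H828

end
end
-- ===== PACK-END S48/H828/IActJd.lean

-- ===== PACK-BEGIN S48/H496/IF1.lean
section



/-!
# S48 / Tower A1 / A1-FF, piece I-F1 (helper496): the invariants of `Γ₁(M)`

On `Ω := H828.IActField ι M` (level-`M` modular functions, `E`-rational at all cusps, `ζ_M ∈ E`),
let `P : ZMod M → iactRing ι M` be ANY family of avatars of the division values with

* `hcomp` : `compSL g (P a) = P (a * g₀₀)` for `g ∈ Γ₀(M)`, `a ≠ 0`   (helper76 `Avatar`),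
* `hexp`  : `iactExp (P a) = qExpand M (F1.divGenC E M a)` for `a ≠ 0`  (helper668 bridge)
  (only used through `hinj : P a = P 1 → a = ± 1`).

Then

* `iactB1 ι M` := image of `Γ₁(M)` in `Ω ≃+* Ω`;  `iactF1 ζ hζ P := E(j(dτ) (d ∣ M), P_a (a ≠ 0))`;
* `iactB1_inv` (**I-F1**) : every `Γ₁(M)`-invariant element of `Ω` lies in `iactF1`;
* `iactB1_fix` : conversely every element of `iactF1` is `Γ₁(M)`-invariant;
* `iactB1_fixed_iff`, and the same with `hexp` instead of `hinj` (`…_of_exp`).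

Also `iactRho_neg` : `-γ` and `γ` act in the same way.
-/

set_option autoImplicit false
set_option linter.unusedSectionVars false

noncomputable section

open ModularCurve HahnSeries UpperHalfPlane
open scoped MatrixGroups Manifold

namespace Fermat.Agent.S48.H496

open Fermat.Agent.S24 Fermat.Agent.S24.H997 Fermat.Agent.S24.H624 Fermat.Agent.S20.L1
open Fermat.Agent.S48.H828

variable {E : Type*} [Field E] [CharZero E] {ι : E →+* ℂ} {M : ℕ} [NeZero M]

/-! ### `-γ` acts like `γ` -/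

theorem iact_neg_smul_ring (γ : SL(2, ℤ)) (f : iactRing ι M) : (-γ) • f = γ • f := by
  apply Subtype.ext
  funext τ
  rw [iact_smul_apply, iact_smul_apply]
  have h : (-γ)⁻¹ = -γ⁻¹ := by
    rw [eq_comm, eq_inv_iff_mul_eq_one]
    simp
  rw [h, ModularGroup.SL_neg_smul]

theorem iact_neg_smul (γ : SL(2, ℤ)) (x : IActField ι M) : (-γ) • x = γ • x := by
  obtain ⟨a, b, -, rfl⟩ := IsFractionRing.div_surjective (A := iactRing ι M) x
  rw [smul_div₀', smul_div₀', iact_smul_algebraMap, iact_smul_algebraMap, iact_smul_algebraMap,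
    iact_smul_algebraMap, iact_neg_smul_ring, iact_neg_smul_ring]

theorem iactRho_neg (γ : SL(2, ℤ)) : iactRho ι M (-γ) = iactRho ι M γ :=
  RingEquiv.ext fun x => iact_neg_smul γ x

/-! ### the group `B₁` and the field `F₁` -/

variable (ι M) in
/-- `B₁`: the image of `Γ₁(M)`. -/
def iactB1 : Subgroup (IActField ι M ≃+* IActField ι M) :=
  (CongruenceSubgroup.Gamma1 M).map (iactRho ι M)

theorem iact_Gamma1_le_Gamma0 {γ : SL(2, ℤ)} (hγ : γ ∈ CongruenceSubgroup.Gamma1 M) :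
    γ ∈ CongruenceSubgroup.Gamma0 M := by
  rw [CongruenceSubgroup.Gamma0_mem]
  exact (CongruenceSubgroup.Gamma1_mem M γ).mp hγ |>.2.2

theorem iactB1_le_B : iactB1 ι M ≤ iactB ι M := by
  rintro σ ⟨g, hg, rfl⟩
  exact ⟨g, iact_Gamma1_le_Gamma0 hg, rfl⟩

theorem iactB1_le_G : iactB1 ι M ≤ iactG ι M := iactB1_le_B.trans iactB_le

variable (ζ : Eˣ) (hζ : Units.map (ι : E →* ℂ) ζ = infRoot 1 M) (P : ZMod M → iactRing ι M)

/-- The field `E(j(dτ) (d ∣ M), P_a (a ≠ 0))` inside `IActField ι M`. -/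
def iactF1 : Subfield (IActField ι M) :=
  Subfield.closure ((iactF0 ζ hζ : Set (IActField ι M)) ∪
    {y | ∃ a : ZMod M, a ≠ 0 ∧ y = algebraMap (iactRing ι M) (IActField ι M) (P a)})

theorem iactF0_le_F1 : iactF0 ζ hζ ≤ iactF1 ζ hζ P :=
  fun _ hx => Subfield.subset_closure (Or.inl hx)

theorem iactP_mem_F1 {a : ZMod M} (ha : a ≠ 0) :
    algebraMap (iactRing ι M) (IActField ι M) (P a) ∈ iactF1 ζ hζ P :=
  Subfield.subset_closure (Or.inr ⟨a, ha, rfl⟩)

theorem iactFC_mem_F1 (c : E) : iactFC ι M c ∈ iactF1 ζ hζ P :=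
  iactF0_le_F1 ζ hζ P (iactFC_mem_F0 ζ hζ c)

theorem iactFJd_mem_F1 (d : ℕ) (hd : d ∣ M) : iactFJd ζ hζ d hd ∈ iactF1 ζ hζ P :=
  iactF0_le_F1 ζ hζ P (iactFJd_mem_F0 ζ hζ d hd)

/-! ### I-F1 -/

/-- **I-F1**, abstract separation form. -/
theorem iactB1_inv_of_sep
    (hsep : ∀ γ ∈ CongruenceSubgroup.Gamma0 M, (∀ a : ZMod M, a ≠ 0 → γ • P a = P a) →
      γ ∈ CongruenceSubgroup.Gamma1 M ∨ -γ ∈ CongruenceSubgroup.Gamma1 M)
    (x : IActField ι M) (hx : ∀ b ∈ iactB1 ι M, b x = x) : x ∈ iactF1 ζ hζ P := by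
  have : Finite (iactG ι M) := iactG_finite
  refine iact_mem_of_fixed (G := iactG ι M) ((iactB1 ι M).subgroupOf (iactG ι M))
    (iactF1 ζ hζ P) ?_ ?_ x ?_
  · intro y hy
    apply iactF0_le_F1 ζ hζ P
    exact iactB_inv ζ hζ y (fun b hb => hy ⟨b, iactB_le hb⟩)
  · rintro ⟨g, γ, rfl⟩ hg
    rw [Subgroup.mem_subgroupOf]
    have hγ0 : γ ∈ CongruenceSubgroup.Gamma0 M := by
      apply iact_mem_Gamma0_of_smul_JM ζ hζ
      have h1 := hg _ (iactFJd_mem_F1 ζ hζ P M dvd_rfl)
      have h2 : γ • iactFJd ζ hζ M dvd_rfl = iactFJd ζ hζ M dvd_rfl := h1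
      rw [iactFJd, iact_smul_algebraMap] at h2
      exact IsFractionRing.injective (iactRing ι M) (IActField ι M) h2
    have hfix : ∀ a : ZMod M, a ≠ 0 → γ • P a = P a := by
      intro a ha
      have h1 := hg _ (iactP_mem_F1 ζ hζ P ha)
      have h2 : γ • algebraMap (iactRing ι M) (IActField ι M) (P a)
          = algebraMap (iactRing ι M) (IActField ι M) (P a) := h1
      rw [iact_smul_algebraMap] at h2
      exact IsFractionRing.injective (iactRing ι M) (IActField ι M) h2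
    rcases hsep γ hγ0 hfix with h | h
    · exact ⟨γ, h, rfl⟩
    · exact ⟨-γ, h, iactRho_neg γ⟩
  · rintro ⟨b, hbG⟩ hb
    rw [Subgroup.mem_subgroupOf] at hb
    exact hx b hb

/-- the separation hypothesis from the transformation law under `Γ₀(M)` and distinctness. -/
theorem iact_sep_of_comp
    (hcomp : ∀ g ∈ CongruenceSubgroup.Gamma0 M, ∀ a : ZMod M, a ≠ 0 →
      compSL g (P a : ℍ → ℂ) = (P (a * ((g 0 0 : ℤ) : ZMod M)) : ℍ → ℂ))
    (hinj : ∀ a : ZMod M, a ≠ 0 → P a = P 1 → a = 1 ∨ a = -1)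
    (γ : SL(2, ℤ)) (hγ : γ ∈ CongruenceSubgroup.Gamma0 M)
    (hfix : ∀ a : ZMod M, a ≠ 0 → γ • P a = P a) :
    γ ∈ CongruenceSubgroup.Gamma1 M ∨ -γ ∈ CongruenceSubgroup.Gamma1 M := by
  have hc : ((γ 1 0 : ℤ) : ZMod M) = 0 := CongruenceSubgroup.Gamma0_mem.mp hγ
  have hdet : γ 0 0 * γ 1 1 - γ 0 1 * γ 1 0 = 1 := by
    have := γ.det_coe
    rw [Matrix.det_fin_two] at this
    exact this
  have hdet' : ((γ 0 0 : ℤ) : ZMod M) * ((γ 1 1 : ℤ) : ZMod M) = 1 := by
    have := congrArg (fun z : ℤ => (z : ZMod M)) hdet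
    simp only [Int.cast_sub, Int.cast_mul, Int.cast_one, hc, mul_zero, sub_zero] at this
    exact this
  by_cases h1 : (1 : ZMod M) = 0
  · -- `M = 1`: everything is in `Γ₁`
    left
    have hsub : ∀ x y : ZMod M, x = y := by
      intro x y
      rw [← mul_one x, ← mul_one y, h1, mul_zero, mul_zero]
    rw [CongruenceSubgroup.Gamma1_mem]
    exact ⟨hsub _ _, hsub _ _, hsub _ _⟩
  · have hu0 : ((γ 1 1 : ℤ) : ZMod M) ≠ 0 := by
      intro h0
      rw [h0, mul_zero] at hdet'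
      exact h1 hdet'.symm
    have hγinv : γ⁻¹ ∈ CongruenceSubgroup.Gamma0 M := inv_mem hγ
    have h00 : (γ⁻¹ : SL(2, ℤ)) 0 0 = γ 1 1 := by
      rw [Matrix.SpecialLinearGroup.SL2_inv_expl]
      rfl
    have hP : P ((γ 1 1 : ℤ) : ZMod M) = P 1 := by
      have e1 := hfix 1 h1
      have e2 : ((γ • P 1 : iactRing ι M) : ℍ → ℂ) = compSL γ⁻¹ (P 1 : ℍ → ℂ) := rfl
      have e3 := hcomp γ⁻¹ hγinv 1 h1
      rw [h00, one_mul] at e3
      apply Subtype.ext
      rw [← e3, ← e2, e1]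
    rcases hinj _ hu0 hP with h | h
    · left
      rw [CongruenceSubgroup.Gamma1_mem]
      refine ⟨?_, h, hc⟩
      rw [h, mul_one] at hdet'
      exact hdet'
    · right
      rw [CongruenceSubgroup.Gamma1_mem]
      have e00 : ((-γ : SL(2, ℤ)) 0 0 : ℤ) = -(γ 0 0) := rfl
      have e11 : ((-γ : SL(2, ℤ)) 1 1 : ℤ) = -(γ 1 1) := rfl
      have e10 : ((-γ : SL(2, ℤ)) 1 0 : ℤ) = -(γ 1 0) := rfl
      rw [e00, e11, e10]
      push_cast
      rw [h] at hdet' ⊢
      rw [hc]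
      refine ⟨?_, by ring, by ring⟩
      linear_combination hdet'

/-- distinctness from the `X`-expansions. -/
theorem iact_inj_of_exp
    (hexp : ∀ a : ZMod M, a ≠ 0 → iactExp ι M (P a) = qExpand E M (F1.divGenC E M a))
    (a b : ZMod M) (ha : a ≠ 0) (hb : b ≠ 0) (h : P a = P b) : a = b ∨ a = -b := by
  apply divGenC_injective E M a b
  apply qExpand_injective (R := E) M
  rw [← hexp a ha, ← hexp b hb, h]

/-- **I-F1.** Every `Γ₁(M)`-invariant element of `IActField ι M` lies in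
`E(j(dτ) (d ∣ M), P_a (a ≠ 0))`. -/
theorem iactB1_inv
    (hcomp : ∀ g ∈ CongruenceSubgroup.Gamma0 M, ∀ a : ZMod M, a ≠ 0 →
      compSL g (P a : ℍ → ℂ) = (P (a * ((g 0 0 : ℤ) : ZMod M)) : ℍ → ℂ))
    (hinj : ∀ a : ZMod M, a ≠ 0 → P a = P 1 → a = 1 ∨ a = -1)
    (x : IActField ι M) (hx : ∀ b ∈ iactB1 ι M, b x = x) : x ∈ iactF1 ζ hζ P :=
  iactB1_inv_of_sep ζ hζ P (iact_sep_of_comp P hcomp hinj) x hx

/-- **I-F1**, with the `X`-expansions as input. -/
theorem iactB1_inv_of_exp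
    (hcomp : ∀ g ∈ CongruenceSubgroup.Gamma0 M, ∀ a : ZMod M, a ≠ 0 →
      compSL g (P a : ℍ → ℂ) = (P (a * ((g 0 0 : ℤ) : ZMod M)) : ℍ → ℂ))
    (hexp : ∀ a : ZMod M, a ≠ 0 → iactExp ι M (P a) = qExpand E M (F1.divGenC E M a))
    (x : IActField ι M) (hx : ∀ b ∈ iactB1 ι M, b x = x) : x ∈ iactF1 ζ hζ P := by
  refine iactB1_inv ζ hζ P hcomp (fun a ha h => ?_) x hx
  by_cases h1 : (1 : ZMod M) = 0
  · left
    rw [← mul_one a, h1, mul_zero]
  · exact iact_inj_of_exp P hexp a 1 ha h1 h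

/-! ### the converse: `F₁` is fixed by `Γ₁(M)` -/

theorem iact_smul_P_of_mem_Gamma1
    (hcomp : ∀ g ∈ CongruenceSubgroup.Gamma0 M, ∀ a : ZMod M, a ≠ 0 →
      compSL g (P a : ℍ → ℂ) = (P (a * ((g 0 0 : ℤ) : ZMod M)) : ℍ → ℂ))
    {γ : SL(2, ℤ)} (hγ : γ ∈ CongruenceSubgroup.Gamma1 M) {a : ZMod M} (ha : a ≠ 0) :
    γ • P a = P a := by
  have hγinv : γ⁻¹ ∈ CongruenceSubgroup.Gamma1 M := inv_mem hγ
  have e3 := hcomp γ⁻¹ (iact_Gamma1_le_Gamma0 hγinv) a ha
  rw [((CongruenceSubgroup.Gamma1_mem M γ⁻¹).mp hγinv).1, mul_one] at e3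
  exact Subtype.ext e3

theorem iactB_fix_F0 (b : IActField ι M ≃+* IActField ι M) (hb : b ∈ iactB ι M)
    (x : IActField ι M) (hx : x ∈ iactF0 ζ hζ) : b x = x := by
  obtain ⟨γ, hγ, rfl⟩ := hb
  have hle : iactF0 ζ hζ ≤
      RingHom.eqLocusField ((iactRho ι M γ : IActField ι M ≃+* IActField ι M) :
        IActField ι M →+* IActField ι M) (RingHom.id _) := by
    rw [iactF0, Subfield.closure_le]
    rintro y (⟨c, rfl⟩ | ⟨d, hd, rfl⟩)
    · exact iactG_fix_C _ ⟨γ, rfl⟩ c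
    · show γ • iactFJd ζ hζ d hd = iactFJd ζ hζ d hd
      rw [iactFJd, iact_smul_algebraMap, iact_smul_Jd_of_mem_Gamma0 ζ hζ hγ]
  exact hle hx

theorem iactB1_fix
    (hcomp : ∀ g ∈ CongruenceSubgroup.Gamma0 M, ∀ a : ZMod M, a ≠ 0 →
      compSL g (P a : ℍ → ℂ) = (P (a * ((g 0 0 : ℤ) : ZMod M)) : ℍ → ℂ))
    (b : IActField ι M ≃+* IActField ι M) (hb : b ∈ iactB1 ι M)
    (x : IActField ι M) (hx : x ∈ iactF1 ζ hζ P) : b x = x := by
  have hbB : b ∈ iactB ι M := iactB1_le_B hb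
  obtain ⟨γ, hγ, rfl⟩ := hb
  have hle : iactF1 ζ hζ P ≤
      RingHom.eqLocusField ((iactRho ι M γ : IActField ι M ≃+* IActField ι M) :
        IActField ι M →+* IActField ι M) (RingHom.id _) := by
    rw [iactF1, Subfield.closure_le]
    rintro y (hy | ⟨a, ha, rfl⟩)
    · exact iactB_fix_F0 ζ hζ _ hbB y hy
    · show γ • algebraMap (iactRing ι M) (IActField ι M) (P a) = _
      rw [iact_smul_algebraMap, iact_smul_P_of_mem_Gamma1 P hcomp hγ ha]
      rfl
  exact hle hx

/-- **The fixed field of `Γ₁(M)`** in `IActField ι M` is `E(j(dτ), P_a)`. -/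
theorem iactB1_fixed_iff
    (hcomp : ∀ g ∈ CongruenceSubgroup.Gamma0 M, ∀ a : ZMod M, a ≠ 0 →
      compSL g (P a : ℍ → ℂ) = (P (a * ((g 0 0 : ℤ) : ZMod M)) : ℍ → ℂ))
    (hexp : ∀ a : ZMod M, a ≠ 0 → iactExp ι M (P a) = qExpand E M (F1.divGenC E M a))
    (x : IActField ι M) :
    x ∈ iactF1 ζ hζ P ↔ ∀ b ∈ iactB1 ι M, b x = x :=
  ⟨fun hx b hb => iactB1_fix ζ hζ P hcomp b hb x hx,
    fun hx => iactB1_inv_of_exp ζ hζ P hcomp hexp x hx⟩

end Fermat.Agent.S48.H496

end
end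
-- ===== PACK-END S48/H496/IF1.lean

-- ===== PACK-BEGIN S48/H496/F1Exp.lean
section


/-!
# S48 / Tower A1 / A1-FF (helper496): expansions of the `Γ₁(M)`-invariants (DICT1, `E`-rational form)

With the hypotheses of `IF1.lean` (avatars `P a ∈ iactRing ι M` of the division values with
`X`-expansion `qExpand M (F1.divGenC E M a)`):

* `iactFieldExp_mem_of_mem_F1` : the `X`-expansion of every element of `iactF1 = E(j_d, P_a)` is
  `y(X^M)` for some `y ∈ E · F1(M) = laurentBaseChange E (F1 M)`;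
* `dict1` : the same for every `Γ₁(M)`-invariant element of `IActField ι M`.
-/

set_option autoImplicit false
set_option linter.unusedSectionVars false

noncomputable section

open ModularCurve HahnSeries UpperHalfPlane
open scoped MatrixGroups Manifold

namespace Fermat.Agent.S48.H496

open Fermat.Agent.S24 Fermat.Agent.S24.H997 Fermat.Agent.S24.H624 Fermat.Agent.S20.L1
open Fermat.Agent.S48.H828

variable {E : Type*} [Field E] [CharZero E] {ι : E →+* ℂ} {M : ℕ} [NeZero M]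
variable (ζ : Eˣ) (hζ : Units.map (ι : E →* ℂ) ζ = infRoot 1 M) (P : ZMod M → iactRing ι M)

variable (E M) in
/-- The subfield `{y(X^M) : y ∈ E · F1(M)}` of `E((X))`. -/
def f1XField : Subfield (LaurentSeries E) :=
  (laurentBaseChange E (F1.F1 M)).toSubfield.map (qExpand E M)

theorem mem_f1XField {z : LaurentSeries E} :
    z ∈ f1XField E M ↔ ∃ y ∈ laurentBaseChange E (F1.F1 M), qExpand E M y = z := by
  rw [f1XField, Subfield.mem_map]
  rfl

theorem C_mem_f1XField (c : E) : HahnSeries.C c ∈ f1XField E M := by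
  rw [mem_f1XField]
  refine ⟨algebraMap E (LaurentSeries E) c, (laurentBaseChange E (F1.F1 M)).algebraMap_mem c, ?_⟩
  rw [F1.algebraMap_laurent_eq_single]
  exact qExpand_C (R := E) (N := M) c

theorem jd_mem_f1XField (d : ℕ) [NeZero d] (hd : d ∣ M) :
    qExpand E M (qExpand E d (coeffEmb E jq)) ∈ f1XField E M := by
  rw [mem_f1XField]
  refine ⟨qExpand E d (coeffEmb E jq), ?_, rfl⟩
  rw [F1.qExpand_coeffEmb]
  exact coeffEmb_mem_laurentBaseChange E (F1.jqd_mem_F1 M hd)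

theorem divGenC_mem_lbc {a : ZMod M} (ha : a ≠ 0) :
    F1.divGenC E M a ∈ laurentBaseChange E (F1.F1 M) := by
  have h : coeffEmb E (F1.divGen M a) = F1.divGenC E M a := by
    rw [coeffEmb, F1.divGen, F1.coeffMap_divGenC]
  rw [← h]
  exact coeffEmb_mem_laurentBaseChange E (F1.divGen_mem_F1 M ha)

theorem divGenC_mem_f1XField {a : ZMod M} (ha : a ≠ 0) :
    qExpand E M (F1.divGenC E M a) ∈ f1XField E M := by
  rw [mem_f1XField]
  exact ⟨_, divGenC_mem_lbc ha, rfl⟩

theorem iactFieldExp_mem_of_mem_F0 (x : IActField ι M) (hx : x ∈ iactF0 ζ hζ) :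
    iactFieldExp ι M x ∈ f1XField E M := by
  have hM : 0 < M := Nat.pos_of_ne_zero (NeZero.ne M)
  have hle : iactF0 ζ hζ ≤ (f1XField E M).comap (iactFieldExp ι M) := by
    rw [iactF0, Subfield.closure_le]
    rintro y (⟨c, rfl⟩ | ⟨d, hd, rfl⟩)
    · show iactFieldExp ι M (iactFC ι M c) ∈ f1XField E M
      rw [iactFieldExp_C]
      exact C_mem_f1XField c
    · show iactFieldExp ι M (iactFJd ζ hζ d hd) ∈ f1XField E M
      have : NeZero d := ⟨(Nat.pos_of_dvd_of_pos hd hM).ne'⟩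
      rw [iactFieldExp_Jd]
      exact jd_mem_f1XField d hd
  exact hle hx

/-- The `X`-expansion of an element of `E(j_d, P_a)` is `y(X^M)` with `y ∈ E · F1(M)`. -/
theorem iactFieldExp_mem_of_mem_F1
    (hexp : ∀ a : ZMod M, a ≠ 0 → iactExp ι M (P a) = qExpand E M (F1.divGenC E M a))
    (x : IActField ι M) (hx : x ∈ iactF1 ζ hζ P) :
    iactFieldExp ι M x ∈ f1XField E M := by
  have hle : iactF1 ζ hζ P ≤ (f1XField E M).comap (iactFieldExp ι M) := by
    rw [iactF1, Subfield.closure_le]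
    rintro y (hy | ⟨a, ha, rfl⟩)
    · exact iactFieldExp_mem_of_mem_F0 ζ hζ y hy
    · show iactFieldExp ι M (algebraMap (iactRing ι M) (IActField ι M) (P a)) ∈ f1XField E M
      rw [iactFieldExp_algebraMap, hexp a ha]
      exact divGenC_mem_f1XField ha
  exact hle hx

include ζ hζ in
/-- **DICT1, `E`-rational form.** The `X`-expansion of a `Γ₁(M)`-invariant element of
`IActField ι M` is `y(X^M)` for some `y ∈ E · F1(M)`. -/
theorem dict1
    (hcomp : ∀ g ∈ CongruenceSubgroup.Gamma0 M, ∀ a : ZMod M, a ≠ 0 →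
      compSL g (P a : ℍ → ℂ) = (P (a * ((g 0 0 : ℤ) : ZMod M)) : ℍ → ℂ))
    (hexp : ∀ a : ZMod M, a ≠ 0 → iactExp ι M (P a) = qExpand E M (F1.divGenC E M a))
    (x : IActField ι M) (hx : ∀ b ∈ iactB1 ι M, b x = x) :
    ∃ y ∈ laurentBaseChange E (F1.F1 M), qExpand E M y = iactFieldExp ι M x :=
  mem_f1XField.mp
    (iactFieldExp_mem_of_mem_F1 ζ hζ P hexp x (iactB1_inv_of_exp ζ hζ P hcomp hexp x hx))

include ζ hζ in
/-- **DICT1 for holomorphic functions.** If `f ∈ iactRing ι M` is `Γ₁(M)`-invariant and has the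
`q`-expansion `φ(X^M)`, then `φ ∈ E · F1(M)`. -/
theorem dict1_ring
    (hcomp : ∀ g ∈ CongruenceSubgroup.Gamma0 M, ∀ a : ZMod M, a ≠ 0 →
      compSL g (P a : ℍ → ℂ) = (P (a * ((g 0 0 : ℤ) : ZMod M)) : ℍ → ℂ))
    (hexp : ∀ a : ZMod M, a ≠ 0 → iactExp ι M (P a) = qExpand E M (F1.divGenC E M a))
    (f : iactRing ι M) (hf : ∀ γ ∈ CongruenceSubgroup.Gamma1 M, γ • f = f)
    (φ : LaurentSeries E) (hφ : iactExp ι M f = qExpand E M φ) :
    φ ∈ laurentBaseChange E (F1.F1 M) := by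
  obtain ⟨y, hy, hyx⟩ := dict1 ζ hζ P hcomp hexp (algebraMap (iactRing ι M) (IActField ι M) f)
    (by
      rintro b ⟨γ, hγ, rfl⟩
      show γ • algebraMap (iactRing ι M) (IActField ι M) f = _
      rw [iact_smul_algebraMap, hf γ hγ])
  rw [iactFieldExp_algebraMap, hφ] at hyx
  rw [← qExpand_injective (R := E) M hyx]
  exact hy

end Fermat.Agent.S48.H496

end
end
-- ===== PACK-END S48/H496/F1Exp.lean

-- ===== PACK-BEGIN S29/H282/K2Ana.lean
section




/-!
# S29 / M4b-K2 (helper282) — analytic adapter: twisted functions lie in `holN N`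

* `expGrowth_of_pow` : `f ^ p` of exponential growth (`p ≥ 1`) ⟹ `f` of exponential growth;
* `mem_holN_of_isTwisted` : a twisted function (M4b `IsTwisted`) of a parabolic character lies in
  the S24 ring `holN N`;
* `infExp_level_of_hasQExp` : a `q`-expansion (`H708.HasQExp 1`) gives the `q^{1/N}`-expansion.
-/

set_option autoImplicit false

noncomputable section

open ModularCurve AlgebraicCurve CongruenceSubgroup UpperHalfPlane
open scoped MatrixGroups Manifold Real

namespace Fermat.Agent.S29.H282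

open Fermat.Agent.S24 Fermat.Agent.S24.H997 Fermat.Agent.S24.H648 Fermat.Agent.S24.H708
open Fermat.Agent.S24.H624
open Fermat.Agent.S29 Fermat.Agent.S29.M4b Fermat.Agent.S29.H332

/-- root extraction for growth bounds -/
theorem expGrowth_of_pow {f : ℍ → ℂ} {p : ℕ} (hp : p ≠ 0)
    (h : ExpGrowth (fun τ => f τ ^ p)) : ExpGrowth f := by
  obtain ⟨C, m, hb⟩ := h
  refine ⟨1 + |C|, m, fun τ hτ => ?_⟩
  have h1 := hb τ hτ
  rw [norm_pow] at h1
  have hexp : (1 : ℝ) ≤ Real.exp (2 * π * m * τ.im) := by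
    apply Real.one_le_exp
    have := Real.pi_pos
    have := τ.im_pos
    positivity
  have hC : C * Real.exp (2 * π * m * τ.im) ≤ |C| * Real.exp (2 * π * m * τ.im) :=
    mul_le_mul_of_nonneg_right (le_abs_self C) (Real.exp_pos _).le
  rcases le_or_gt ‖f τ‖ 1 with h0 | h0
  · calc ‖f τ‖ ≤ 1 := h0
      _ ≤ Real.exp (2 * π * m * τ.im) := hexp
      _ ≤ (1 + |C|) * Real.exp (2 * π * m * τ.im) := by
        have : 0 ≤ |C| * Real.exp (2 * π * m * τ.im) :=
          mul_nonneg (abs_nonneg C) (Real.exp_pos _).le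
        linarith
  · have h2 : ‖f τ‖ ≤ ‖f τ‖ ^ p := le_self_pow₀ h0.le hp
    calc ‖f τ‖ ≤ ‖f τ‖ ^ p := h2
      _ ≤ C * Real.exp (2 * π * m * τ.im) := h1
      _ ≤ |C| * Real.exp (2 * π * m * τ.im) := hC
      _ ≤ (1 + |C|) * Real.exp (2 * π * m * τ.im) := by
        have : 0 ≤ Real.exp (2 * π * m * τ.im) := (Real.exp_pos _).le
        linarith

theorem qh_one_eq_qh_pow (N : ℕ) [NeZero N] (τ : ℍ) : qh 1 τ = qh N τ ^ N := by
  have hN : (N : ℂ) ≠ 0 := by exact_mod_cast NeZero.ne N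
  rw [qh_apply, qh_apply, Function.Periodic.qParam, Function.Periodic.qParam,
    ← Complex.exp_nat_mul]
  congr 1
  push_cast
  field_simp

/-- exponential growth gives a pole of finite order in the variable `q^{1/N}` -/
theorem isBounded_mul_qh_pow_level (N : ℕ) [NeZero N] {f : ℍ → ℂ} (hf : ExpGrowth f) :
    ∃ M : ℕ, IsBoundedAtImInfty (f * qh N ^ M) := by
  obtain ⟨M, hM⟩ := Fermat.Agent.S29.H882.isBounded_mul_qh_pow_of_expGrowth hf
  refine ⟨N * M, ?_⟩
  have : f * qh N ^ (N * M) = f * qh 1 ^ M := by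
    funext τ
    simp only [Pi.mul_apply, Pi.pow_apply]
    rw [qh_one_eq_qh_pow N τ, ← pow_mul]
  rw [this]
  exact hM

variable {N : ℕ} [NeZero N] {p : ℕ} [NeZero p]

/-- the multiplicative character of a twisted function -/
theorem hasCharacter_of_hasChar {c : G0 N → ZMod p} (hc : IsParHom c) {U : ℍ → ℂ}
    (hU : HasChar N p c U) : HasCharacter (isParAdd_of_isParHom hc).char U := by
  intro γ τ
  rw [hU γ τ, IsParAdd.char_apply, zetaP_pow_val]

/-- **A twisted function of a parabolic character lies in `holN N`.** -/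
theorem mem_holN_of_isTwisted {c : G0 N → ZMod p} (hc : IsParHom c) {U : ℍ → ℂ}
    (hU : IsTwisted N p c U) : U ∈ holN N := by
  have hc' : IsParAdd c := isParAdd_of_isParHom hc
  have hh : HasCharacter hc'.char U := hasCharacter_of_hasChar hc hU.hasChar
  have hχ : ParTrivial hc'.char := hc'.parTrivial
  refine ⟨hU.mdiff, fun g => ?_⟩
  have hhol : MDiff (compSL g U) := (precompSL g ⟨U, hU.mdiff⟩).2
  have hper : Function.Periodic (compSL g U ∘ ofComplex) (N : ℝ) :=
    hh.periodic hχ g N (by simpa using conj_T_zpow_mem_Gamma0 N g 1)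
  have hgr : ExpGrowth (compSL g U) :=
    expGrowth_of_pow (NeZero.ne p) (hU.pow_mem.2.2 g)
  have hmer : IsMerInf N (compSL g U) := ⟨hhol, hper, isBounded_mul_qh_pow_level N hgr⟩
  have hq := HasQExp.of_isMerInf hmer
  have hinf : InfExp N (compSL g U) (qexpFun N (compSL g U)) := fun τ => hq.hasSum τ
  exact hinf.mem_expRing

/-- from the `q`-expansion to the `q^{1/N}`-expansion -/
theorem infExp_level_of_hasQExp {G : ℍ → ℂ} {φ : LaurentSeries ℂ} (h : HasQExp 1 G φ) :
    InfExp N G (qExpand ℂ N φ) := by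
  have hN : (N : ℂ) ≠ 0 := by exact_mod_cast NeZero.ne N
  have h1 : InfExp 1 G φ := fun τ => h.hasSum τ
  have h2 := h1.subst (N := N) (fun τ => τ) 1 N (fun τ => by
    rw [infZ_def, infZ_def, Units.val_one, one_mul, ← Complex.exp_nat_mul]
    congr 1
    push_cast
    field_simp)
  rwa [infTwist_one] at h2

end Fermat.Agent.S29.H282

end
end
-- ===== PACK-END S29/H282/K2Ana.lean

-- ===== PACK-BEGIN S48/H496/Inter1.lean
section










/-!
# S48 / Tower A1 / A1-KUM leaf `inter` (helper496): `DictInter (Γ₁(M)) (ℚ̄·F₁(M))`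

A good function for `Γ₁(M)` (holomorphic, invariant, all translates of exponential growth) whose
`q`-expansion has coefficients in `ℚ̄` has its `q`-expansion in `ℚ̄ · F1(M)`.

Route: over `E = ℂ` (`ι = id`) a good function and the avatars `H76.pFun M a` lie in
`H828.iactRing id M`; by I-F1 (`IF1.lean`, `F1Exp.lean`) a `Γ₁(M)`-invariant element has its
expansion in `ℂ · F1(M)`; descent `ℂ → ℚ̄` is `S29.H882.mem_laurentBaseChange_of_coeffMap_mem`.

* `exists_infExp_of_periodic` : holomorphic + `M`-periodic + exponential growth ⇒ `X`-expansion;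
* `mem_holN_of_isGood` : good functions for `Γ₁(M)` lie in `S24.H997.holN M`;
* `qexp_mem_of_isGood` : the `ℂ`-form of DICT1;
* `dictInter1` : `Kum.DictInter (Gamma1 M) (F1.F1Bar M)` VERBATIM.
-/

set_option autoImplicit false
set_option linter.unusedSectionVars false

noncomputable section

open ModularCurve HahnSeries UpperHalfPlane CongruenceSubgroup
open scoped MatrixGroups Manifold

namespace Fermat.Agent.S48.H496

open Fermat.Agent.S24 Fermat.Agent.S24.H997 Fermat.Agent.S24.H624 Fermat.Agent.S20.L1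
open Fermat.Agent.S48.H828 Fermat.Agent.S29 Fermat.Agent.S48.H76

local notation "Δ" => ModularForm.discriminant

variable {M : ℕ} [NeZero M]

/-! ### expansions from growth -/

/-- A holomorphic function on `ℍ`, periodic of period `M` and of at most exponential growth, has
a Laurent expansion in `X = exp(2πiτ/M)`. -/
theorem exists_infExp_of_periodic {F : ℍ → ℂ} (hol : MDiff F)
    (hper : ∀ τ : ℍ, F (((M : ℤ) : ℝ) +ᵥ τ) = F τ) (hgr : H648.ExpGrowth F) :
    ∃ φ : LaurentSeries ℂ, InfExp M F φ := by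
  obtain ⟨C, m, hC⟩ := hgr
  have hN : (0 : ℝ) < M := by exact_mod_cast Nat.pos_of_ne_zero (NeZero.ne M)
  have hbd0 : IsBoundedAtImInfty (fun τ => F τ * Δ τ ^ m) :=
    H108.isBoundedAtImInfty_mul_discriminant_pow_of_exp_growth ⟨C, 1, hC⟩
  set F' : ℍ → ℂ := fun τ => Δ τ ^ m * F τ with hF'
  have hbd : IsBoundedAtImInfty F' := by
    have e : F' = fun τ => F τ * Δ τ ^ m := by
      funext τ
      simp only [hF']
      ring
    rw [e]
    exact hbd0
  have hFhol : MDiff F' := (H332.mdiff_delta_pow m).mul hol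
  have hFper : Function.Periodic (F' ∘ ofComplex) (M : ℝ) := by
    intro z
    have h1 := H332.periodic_comp_ofComplex_of_vadd (f := F) (N := M) hper z
    have h2 := H332.periodic_comp_ofComplex_of_vadd (f := Δ) (N := M)
      (fun τ => H332.delta_vadd M τ) z
    simp only [Function.comp_apply, hF'] at h1 h2 ⊢
    rw [h1, h2]
  have hsum := fun τ => UpperHalfPlane.hasSum_qExpansion hN hFper hFhol hbd τ
  have hP : InfPExp M F' (UpperHalfPlane.qExpansion (M : ℝ) F') := by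
    intro τ
    simpa [infZ, smul_eq_mul] using hsum τ
  have hE : InfExp M F' (HahnSeries.ofPowerSeries ℤ ℂ (UpperHalfPlane.qExpansion (M : ℝ) F')) := by
    have := hP.infExp 0
    simp only [zpow_zero, one_mul] at this
    have e : (HahnSeries.single (0 : ℤ) (1 : ℂ)) = 1 := rfl
    rwa [e, one_mul] at this
  have hDinv : InfExp M (fun τ => (Δ τ)⁻¹ ^ m)
      (qExpand ℂ M Fermat.Agent.S28.H568.dInvS ^ m) :=
    Fermat.Agent.S28.H568.InfExp.pow' (H332.infExp_deltaInv M) m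
  have e : ∀ τ, (Δ τ)⁻¹ ^ m * F' τ = F τ := by
    intro τ
    simp only [hF']
    have hΔ : Δ τ ≠ 0 := ModularForm.discriminant_ne_zero τ
    rw [← mul_assoc, ← mul_pow, inv_mul_cancel₀ hΔ, one_pow, one_mul]
  have h := hDinv.mul hE
  exact ⟨_, h.congr e⟩

/-! ### good functions for `Γ₁(M)` -/

theorem Gamma_le_Gamma1_496 {γ : SL(2, ℤ)} (hγ : γ ∈ Gamma M) : γ ∈ Gamma1 M := by
  rw [Gamma_mem] at hγ
  rw [Gamma1_mem]
  exact ⟨hγ.1, hγ.2.2.2, hγ.2.2.1⟩

theorem T_zpow_mem_Gamma_496 (M : ℕ) : ModularGroup.T ^ (M : ℤ) ∈ Gamma M := by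
  rw [Gamma_mem, ModularGroup.coe_T_zpow]
  simp

theorem compSL_vadd_of_invariant {G : ℍ → ℂ}
    (hinv : ∀ γ ∈ Gamma1 M, ∀ τ : ℍ, G (γ • τ) = G τ) (g : SL(2, ℤ)) (τ : ℍ) :
    compSL g G (((M : ℤ) : ℝ) +ᵥ τ) = compSL g G τ := by
  have hn : g * ModularGroup.T ^ (M : ℤ) * g⁻¹ ∈ Gamma M :=
    (CongruenceSubgroup.Gamma_normal M).conj_mem _ (T_zpow_mem_Gamma_496 M) g
  have h := hinv _ (Gamma_le_Gamma1_496 hn) (g • τ)
  rw [← UpperHalfPlane.modular_T_zpow_smul]
  show G (g • (ModularGroup.T ^ (M : ℤ) • τ)) = G (g • τ)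
  rw [← h, ← mul_smul, ← mul_smul]
  congr 2
  group

/-- A good function for `Γ₁(M)` lies in the S24 ring `holN M`. -/
theorem mem_holN_of_isGood {G : ℍ → ℂ} (hG : Kum.IsGood (Gamma1 M) G) : G ∈ holN M := by
  refine ⟨hG.1, fun g => ?_⟩
  have hol : MDiff (compSL g G) := (precompSL g ⟨G, hG.1⟩).2
  exact exists_infExp_of_periodic hol (compSL_vadd_of_invariant hG.2.1 g) (hG.2.2 g)

/-! ### the ring `iactRing id M` over `ℂ` -/

theorem mem_iactRing_id {f : ℍ → ℂ} (hf : f ∈ holN M)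
    (hinv : ∀ γ ∈ Gamma1 M, ∀ τ : ℍ, f (γ • τ) = f τ) : f ∈ iactRing (RingHom.id ℂ) M := by
  refine ⟨hf.1, fun γ hγ => ?_, fun γ => ?_⟩
  · funext τ
    exact hinv γ (Gamma_le_Gamma1_496 hγ) τ
  · obtain ⟨φ, hφ⟩ := hf.2 γ
    exact ⟨φ, by rw [coeffMap_id]; exact hφ⟩

variable (M) in
/-- The avatars `P_a` as elements of `iactRing id M`. -/
def pAvC (a : ZMod M) : iactRing (RingHom.id ℂ) M :=
  ⟨pFun M a, mem_iactRing_id (pFun_mem_holN M a) (fun γ hγ τ => pFun_smul_Gamma1 M a γ hγ τ)⟩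

theorem pAvC_comp (g : SL(2, ℤ)) (hg : g ∈ Gamma0 M) (a : ZMod M) (_ : a ≠ 0) :
    compSL g (pAvC M a : ℍ → ℂ) = (pAvC M (a * ((g 0 0 : ℤ) : ZMod M)) : ℍ → ℂ) :=
  compSL_pFun M a g hg

theorem pAvC_exp (a : ZMod M) (ha : a ≠ 0) :
    iactExp (RingHom.id ℂ) M (pAvC M a) = qExpand ℂ M (F1.divGenC ℂ M a) := by
  apply iactExp_eq
  rw [coeffMap_id]
  exact Fermat.Agent.S28.H748.infExp_level (infExp_pFun M ha)

theorem infRoot_id_496 :
    Units.map ((RingHom.id ℂ : ℂ →+* ℂ) : ℂ →* ℂ) (infRoot 1 M) = infRoot 1 M :=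
  Units.ext rfl

/-! ### DICT1 over `ℂ` and over `ℚ̄` -/

/-- **DICT1, `ℂ`-form**: the `q`-expansion of a good function for `Γ₁(M)` lies in `ℂ · F1(M)`. -/
theorem qexp_mem_of_isGood {G : ℍ → ℂ} (hG : Kum.IsGood (Gamma1 M) G) :
    H708.qexpFun 1 G ∈ laurentBaseChange ℂ (F1.F1 M) := by
  have hT : ModularGroup.T ∈ Gamma1 M := by
    rw [Gamma1_mem]
    simp [ModularGroup.T]
  have hq := hG.hasQExp hT
  have hmem : G ∈ iactRing (RingHom.id ℂ) M := mem_iactRing_id (mem_holN_of_isGood hG) hG.2.1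
  refine dict1_ring (ι := RingHom.id ℂ) (infRoot 1 M) infRoot_id_496 (pAvC M) pAvC_comp pAvC_exp
    ⟨G, hmem⟩ ?_ (H708.qexpFun 1 G) ?_
  · intro γ hγ
    apply Subtype.ext
    funext τ
    rw [iact_smul_apply]
    exact hG.2.1 γ⁻¹ (inv_mem hγ) τ
  · apply iactExp_eq
    rw [coeffMap_id]
    exact Fermat.Agent.S29.H282.infExp_level_of_hasQExp hq

/-- **Kum leaf `inter`**, verbatim. -/
theorem dictInter1 (M : ℕ) [NeZero M] : Kum.DictInter (Gamma1 M) (F1.F1Bar M) := by
  intro G s hG hs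
  have h := qexp_mem_of_isGood hG
  rw [hs] at h
  exact Fermat.Agent.S29.H882.mem_laurentBaseChange_of_coeffMap_mem Deg457.iotaC (F1.F1 M) h

end Fermat.Agent.S48.H496

end
end
-- ===== PACK-END S48/H496/Inter1.lean

-- ===== PACK-BEGIN S48/H149/Mero1.lean
section
/-
S48 / Tower A1 (RES) / sub-tower A1-KUM, leaf `mero` (helper149).

  `dictMero1 (M : ℕ) [NeZero M] : Kum.DictMero (Gamma1 M) (F1.F1Bar M)`

Every element `u` of the function field `ℚ̄ · F₁(M) ⊆ ℚ̄((q))` of `X₁(M)` is a quotient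
`u = u₁ / u₂` of two elements which are REALISED by good functions for `Γ₁(M)`.

Proof (port of `S29.M4b.H503.exists_good_div`, done over `ℚ̄` instead of `ℂ`).
`F₁(M) = ℚ(j(q^d) (d ∣ M), P_a (a ≠ 0))`, so `ℚ̄ · F₁(M)` is generated as a FIELD over `ℚ̄` by the
(embedded) generators, hence every element is a quotient of two elements of the `ℚ̄`-ALGEBRA
generated by them.  The realised series form a `ℚ̄`-subalgebra (`realSub M`) containing
* the `j(q^d)`, `d ∣ M`  (good for `Γ₀(M)`: `S29.H882.AK_le_goodQ`), and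
* the division values `P_a`  (avatar `S48.H76.pFun M a`, helper76).
-/






set_option autoImplicit false

noncomputable section

open ModularCurve AlgebraicCurve CongruenceSubgroup UpperHalfPlane IntermediateField
open scoped MatrixGroups Manifold

namespace Fermat.Agent.S48.H149

open Fermat.Agent.S24 Fermat.Agent.S29 Fermat.Agent.S48

/-! ### Generators of the base-changed field -/

section Gens

variable (L : Type*) [Field L] [Algebra ℚ L]

/-- The generators `j(q^d)` (`d ∣ M`) and `P_a` (`a ≠ 0`) of `L · F₁(M)`, as Laurent series over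
`L`. -/
def gens1 (M : ℕ) : Set (LaurentSeries L) :=
  ⇑(coeffEmb L) '' (divisorExpansions M ∪ F1.divGens M)

theorem coeffEmb_mem_adjoin_gens1 (M : ℕ) {y : LaurentSeries ℚ} (hy : y ∈ F1.F1 M) :
    coeffEmb L y ∈ IntermediateField.adjoin L (gens1 L M) := by
  unfold F1.F1 at hy
  refine IntermediateField.adjoin_induction ℚ
    (p := fun y _ => coeffEmb L y ∈ IntermediateField.adjoin L (gens1 L M)) ?_ ?_ ?_ ?_ ?_ hy
  · intro x hx
    exact IntermediateField.subset_adjoin L _ ⟨x, hx, rfl⟩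
  · intro c
    have : coeffEmb L (algebraMap ℚ (LaurentSeries ℚ) c)
        = algebraMap L (LaurentSeries L) (algebraMap ℚ L c) := by
      rw [coeffEmb, Deg457.coeffMap_algebraMap']
    rw [this]
    exact IntermediateField.algebraMap_mem _ _
  · intro x y _ _ hx hy
    rw [map_add]; exact add_mem hx hy
  · intro x _ hx
    rw [map_inv₀]; exact inv_mem hx
  · intro x y _ _ hx hy
    rw [map_mul]; exact mul_mem hx hy

/-- The base-changed function field `L · F₁(M)` is generated over `L` by the generators. -/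
theorem F1L_le_adjoin_gens1 (M : ℕ) :
    F1.F1L L M ≤ IntermediateField.adjoin L (gens1 L M) := by
  rw [F1.F1L, laurentBaseChange, IntermediateField.adjoin_le_iff]
  rintro _ ⟨y, hy, rfl⟩
  exact coeffEmb_mem_adjoin_gens1 L M hy

theorem gens1_subset_F1L (M : ℕ) : gens1 L M ⊆ (F1.F1L L M : Set (LaurentSeries L)) := by
  rintro _ ⟨y, hy, rfl⟩
  exact coeffEmb_mem_laurentBaseChange L (IntermediateField.subset_adjoin ℚ _ hy)

end Gens

/-! ### Good functions for `Γ₁(M)` -/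

theorem T_mem_Gamma1_h149 (M : ℕ) : ModularGroup.T ∈ Gamma1 M := by
  rw [Gamma1_mem]
  simp [ModularGroup.T]

theorem isGood_add_h149 {Γ : Subgroup SL(2, ℤ)} {G H : ℍ → ℂ} (hG : Kum.IsGood Γ G)
    (hH : Kum.IsGood Γ H) : Kum.IsGood Γ (G + H) := by
  obtain ⟨h1, h2, h3⟩ := hG
  obtain ⟨h1', h2', h3'⟩ := hH
  refine ⟨h1.add h1', fun γ hγ τ => ?_, fun g => ?_⟩
  · show G (γ • τ) + H (γ • τ) = G τ + H τ
    rw [h2 γ hγ τ, h2' γ hγ τ]
  · exact (h3 g).add (h3' g)

/-- A good function of level `Γ₀(M)` is good for `Γ₁(M)`. -/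
theorem isGood_Gamma1_of_mem_goodRing {M : ℕ} {f : ℍ → ℂ} (hf : f ∈ H648.goodRing M) :
    Kum.IsGood (Gamma1 M) f :=
  Kum.IsGood.mono (Γ' := Gamma0 M) hf (Gamma1_in_Gamma0 M)

/-- The avatar `pFun M a` of the division value `P_a` is good for `Γ₁(M)`. -/
theorem isGood_pFun (M : ℕ) [NeZero M] (a : ZMod M) : Kum.IsGood (Gamma1 M) (H76.pFun M a) := by
  have hf := H76.pFun_mem_holN M a
  refine ⟨hf.1, fun γ hγ τ => H76.pFun_smul_Gamma1 M a γ hγ τ, fun g => ?_⟩
  obtain ⟨φ, hφ⟩ := hf.2 g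
  exact H332.expGrowth_of_infExp hφ

/-! ### The algebra of realised series -/

/-- The `ℚ̄`-subalgebra of `ℚ̄((q))` of the elements of `ℚ̄ · F₁(M)` which are `q`-expansions of
good functions for `Γ₁(M)`. -/
def realSub (M : ℕ) [NeZero M] : Subalgebra Kbar (LaurentSeries Kbar) where
  carrier := {x | x ∈ F1.F1Bar M ∧
    ∃ G : ℍ → ℂ, Kum.IsGood (Gamma1 M) G ∧ H708.HasQExp 1 G (coeffMap Deg457.iotaC x)}
  mul_mem' := by
    rintro a b ⟨ha, G, hG, hGa⟩ ⟨hb, H, hH, hHb⟩
    refine ⟨mul_mem ha hb, G * H, hG.mul hH, ?_⟩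
    rw [map_mul]
    exact hGa.mul hHb
  add_mem' := by
    rintro a b ⟨ha, G, hG, hGa⟩ ⟨hb, H, hH, hHb⟩
    refine ⟨add_mem ha hb, G + H, isGood_add_h149 hG hH, ?_⟩
    rw [map_add]
    exact hGa.add hHb
  algebraMap_mem' := fun c => by
    refine ⟨(F1.F1Bar M).algebraMap_mem c, fun _ => Deg457.iotaC c,
      Kum.isGood_const _ _, ?_⟩
    have : coeffMap Deg457.iotaC (algebraMap Kbar (LaurentSeries Kbar) c)
        = HahnSeries.C (Deg457.iotaC c) := by
      rw [Deg457.coeffMap_algebraMap', algebraMap_laurentSeries_eq_single]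
      rfl
    rw [this]
    exact H708.HasQExp.const 1 _

theorem mem_realSub {M : ℕ} [NeZero M] {x : LaurentSeries Kbar} :
    x ∈ realSub M ↔ x ∈ F1.F1Bar M ∧
      ∃ G : ℍ → ℂ, Kum.IsGood (Gamma1 M) G ∧ H708.HasQExp 1 G (coeffMap Deg457.iotaC x) :=
  Iff.rfl

/-- The generators are realised. -/
theorem gens1_subset_realSub (M : ℕ) [NeZero M] :
    gens1 Kbar M ⊆ (realSub M : Set (LaurentSeries Kbar)) := by
  rintro _ ⟨y, hy, rfl⟩
  refine ⟨gens1_subset_F1L Kbar M ⟨y, hy, rfl⟩, ?_⟩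
  rw [Deg457.coeffMap_coeffEmb']
  rcases hy with hy | ⟨a, ha, rfl⟩
  · -- `j(q^d)`
    have h1 : coeffEmb ℂ y ∈ Deg457.AK ℂ M := Algebra.subset_adjoin ⟨y, hy, rfl⟩
    obtain ⟨f, hf, hfq⟩ := H882.AK_le_goodQ M h1
    exact ⟨f, isGood_Gamma1_of_mem_goodRing hf, hfq⟩
  · -- `P_a`
    refine ⟨H76.pFun M a, isGood_pFun M a, ?_⟩
    have h := H332.hasQExp_of_infExp (N := 1) (H76.mdiff_pFun M a) (H76.infExp_pFun M ha)
    have e : coeffEmb ℂ (F1.divGen M a) = F1.divGenC ℂ M a := by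
      rw [F1.divGen, coeffEmb, F1.coeffMap_divGenC]
    rw [e]
    exact h

theorem adjoin_gens1_le_realSub (M : ℕ) [NeZero M] :
    Algebra.adjoin Kbar (gens1 Kbar M) ≤ realSub M :=
  Algebra.adjoin_le (gens1_subset_realSub M)

/-! ### The leaf -/

/-- **Leaf `mero` of A1-KUM**: every element of `ℚ̄ · F₁(M)` is a quotient of two realised
elements. -/
theorem dictMero1 (M : ℕ) [NeZero M] : Kum.DictMero (Gamma1 M) (F1.F1Bar M) := by
  intro u
  have h2 := F1L_le_adjoin_gens1 Kbar M u.2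
  rw [IntermediateField.mem_adjoin_iff_div] at h2
  obtain ⟨r, hr, s, hs, hrs⟩ := h2
  obtain ⟨hrF, G₁, hG₁, hq₁⟩ := adjoin_gens1_le_realSub M hr
  obtain ⟨hsF, G₂, hG₂, hq₂⟩ := adjoin_gens1_le_realSub M hs
  by_cases hs0 : s = 0
  · -- then `u = 0`; use `u₁ = 0`, `u₂ = 1`
    have hu0 : u = 0 := by
      apply Subtype.ext
      rw [hrs, hs0, div_zero]
      rfl
    refine ⟨0, 1, 0, 1, one_ne_zero, by rw [hu0, zero_mul], ?_, ?_⟩
    · refine Kum.realises_of_hasQExp ?_ ?_
      · exact Kum.isGood_const _ 0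
      · have := H708.HasQExp.zero 1
        simpa using this
    · refine Kum.realises_of_hasQExp ?_ ?_
      · exact Kum.isGood_const _ 1
      · have := H708.HasQExp.one 1
        simpa using this
  · refine ⟨⟨r, hrF⟩, ⟨s, hsF⟩, G₁, G₂, ?_, ?_, ?_, ?_⟩
    · intro h
      exact hs0 (congrArg Subtype.val h)
    · apply Subtype.ext
      show (u : LaurentSeries Kbar) * s = r
      rw [hrs, div_mul_cancel₀ _ hs0]
    · exact Kum.realises_of_hasQExp hG₁ hq₁
    · exact Kum.realises_of_hasQExp hG₂ hq₂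

end Fermat.Agent.S48.H149

end
end
-- ===== PACK-END S48/H149/Mero1.lean

-- ===== PACK-BEGIN S48/H102/DictConst.lean
section
/-
Tower A1 / A1-KUM (helper102): the leaf `const` of `Kum.Leaves`:
`DictConst (F1Bar M)` — an element of `ℚ̄·F1(M)` without zeros and poles is a constant.

Adapter: `S18.H564.exists_const_of_forall_ord_eq_zero` (generic CONST_F) applied to the coordinate
`j` of `ℚ̄·F1(M)`, with helper332's FF-ALG instance (`H332.f1_finiteDimensional`, `f1DataInf`).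
-/




set_option autoImplicit false

noncomputable section

open ModularCurve AlgebraicCurve IntermediateField
open scoped MatrixGroups

namespace Fermat.Agent.S48.H102

open Fermat.Agent.S24 Fermat.Agent.S29 Fermat.Agent.S48.F1 Fermat.Agent.S48.Kum
open Fermat.Agent.S48.H332

/-- `j` is transcendental over `ℚ̄` in `ℚ̄·F1(M)`. -/
theorem transcendental_f1J (M : ℕ) [NeZero M] : Transcendental Kbar (f1J M) := by
  have : Nonempty (SL(2, ℤ) ⧸ pmGamma1 M) := ⟨((1 : SL(2, ℤ)) : SL(2, ℤ) ⧸ pmGamma1 M)⟩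
  exact Fermat.Agent.S24.transcendental_of_localData_inv (f1J M) (f1DataInf M)

/-- **Leaf `const` of `Kum.Leaves`**: `DictConst (F1Bar M)`. -/
theorem dictConst_F1Bar (M : ℕ) [NeZero M] : DictConst (F1Bar M) := by
  intro u _ hu
  haveI := f1_finiteDimensional M
  exact Fermat.Agent.S18.H564.exists_const_of_forall_ord_eq_zero (f1J M) (transcendental_f1J M) u hu

/-- The field `const` of `Kum.Leaves`, verbatim. -/
theorem leaves_const : ∀ (M : ℕ) [NeZero M], DictConst (F1Bar M) :=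
  fun M _ => dictConst_F1Bar M

end Fermat.Agent.S48.H102

end
end
-- ===== PACK-END S48/H102/DictConst.lean

-- ===== PACK-BEGIN S48/H848/DiaMain.lean
section





/-!
# S48 / RES (Tower A1) — piece FF-DIA, concrete part (helper848)

`exists_isDiamond_of_avatar` : existence of the diamond automorphisms `δ_d` of `L · F1(M)`
(`F1.IsDiamond`), for every field `L ⊆ ℂ`, from an analytic avatar of the division values `P_a`
(interface `PAvatar`: convergent `q`-expansion `divGenC ℂ M a` and the transformation law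
`P_a ∘ γ = P_{a γ₀₀}` under `Γ₀(M)`).
-/

set_option autoImplicit false

noncomputable section

open ModularCurve HahnSeries UpperHalfPlane Fermat.Agent.S24 IntermediateField CongruenceSubgroup
open scoped MatrixGroups

namespace Fermat.Agent.S48.H848

open Fermat.Agent.S48.F1

/-- The interface for the analytic avatar of the division values `P_a`. -/
structure PAvatar (M : ℕ) (pFun : ZMod M → ℍ → ℂ) : Prop where
  infExp : ∀ a : ZMod M, a ≠ 0 → InfExp 1 (pFun a) (divGenC ℂ M a)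
  smul : ∀ g : SL(2, ℤ), g ∈ Gamma0 M → ∀ a : ZMod M, a ≠ 0 → ∀ z : ℍ,
    pFun a (g • z) = pFun (a * ((g 0 0 : ℤ) : ZMod M)) z

/-! ### Base change of an adjoined field -/

section Lbc

variable (L : Type*) [Field L] [Algebra ℚ L]

theorem coeffEmb_mem_adjoin_image (S : Set (LaurentSeries ℚ)) (x : LaurentSeries ℚ)
    (hx : x ∈ IntermediateField.adjoin ℚ S) :
    coeffEmb L x ∈ IntermediateField.adjoin L (⇑(coeffEmb L) '' S) := by
  induction hx using IntermediateField.adjoin_induction with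
  | mem x hx => exact IntermediateField.subset_adjoin L _ ⟨x, hx, rfl⟩
  | algebraMap q =>
      rw [coeffEmb_algebraMap]
      exact IntermediateField.algebraMap_mem _ _
  | add x y hx hy ihx ihy =>
      rw [map_add]
      exact add_mem ihx ihy
  | inv x hx ihx =>
      rw [map_inv₀]
      exact inv_mem ihx
  | mul x y hx hy ihx ihy =>
      rw [map_mul]
      exact mul_mem ihx ihy

theorem lbc_adjoin_eq (S : Set (LaurentSeries ℚ)) :
    laurentBaseChange L (IntermediateField.adjoin ℚ S) =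
      IntermediateField.adjoin L (⇑(coeffEmb L) '' S) := by
  apply le_antisymm
  · unfold laurentBaseChange
    rw [IntermediateField.adjoin_le_iff]
    rintro y ⟨x, hx, rfl⟩
    exact coeffEmb_mem_adjoin_image L S x hx
  · rw [IntermediateField.adjoin_le_iff]
    rintro y ⟨x, hx, rfl⟩
    exact coeffEmb_mem_laurentBaseChange L (IntermediateField.subset_adjoin ℚ S hx)

end Lbc

/-! ### The generators and their avatars -/

section Gens

variable (M : ℕ) [NeZero M]

/-- Index set of the generators of `F1 M`: divisors `d ∣ M` and classes `a ≠ 0`. -/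
abbrev DiaIdx : Type := {d : ℕ // d ∣ M} ⊕ {a : ZMod M // a ≠ 0}

theorem diaIdx_pos (d : {d : ℕ // d ∣ M}) : 0 < d.1 :=
  Nat.pos_of_dvd_of_pos d.2 (Nat.pos_of_ne_zero (NeZero.ne M))

/-- The generators of `F1 M` over `ℚ`. -/
def diaGenQ : DiaIdx M → LaurentSeries ℚ
  | Sum.inl d =>
      haveI : NeZero d.1 := ⟨(diaIdx_pos M d).ne'⟩
      qExpand ℚ d.1 jq
  | Sum.inr a => divGen M a.1

theorem range_diaGenQ : Set.range (diaGenQ M) = divisorExpansions M ∪ divGens M := by
  ext x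
  constructor
  · rintro ⟨i, rfl⟩
    rcases i with d | a
    · exact Or.inl ⟨d.1, ⟨(diaIdx_pos M d).ne'⟩, d.2, rfl⟩
    · exact Or.inr ⟨a.1, a.2, rfl⟩
  · rintro (⟨d, hne, hd, rfl⟩ | ⟨a, ha, rfl⟩)
    · exact ⟨Sum.inl ⟨d, hd⟩, rfl⟩
    · exact ⟨Sum.inr ⟨a, ha⟩, rfl⟩

variable (L : Type*) [Field L] [Algebra ℚ L]

/-- The generators of `L · F1 M` over `L`. -/
def diaGen : DiaIdx M → LaurentSeries L := fun i => coeffEmb L (diaGenQ M i)

theorem range_diaGen : Set.range (diaGen M L) = ⇑(coeffEmb L) '' (divisorExpansions M ∪ divGens M) := by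
  rw [← range_diaGenQ, ← Set.range_comp]
  rfl

/-- `L · F1 M` is generated over `L` by the generators. -/
theorem F1L_eq_adjoin : F1L L M = IntermediateField.adjoin L (Set.range (diaGen M L)) := by
  rw [range_diaGen]
  exact lbc_adjoin_eq L _

/-- The avatars of the generators. -/
def diaAv (pFun : ZMod M → ℍ → ℂ) : DiaIdx M → ℍ → ℂ
  | Sum.inl d => H997.Jd d.1
  | Sum.inr a => pFun a.1

theorem coeffMap_coeffEmb_eq (ι : L →+* ℂ) (x : LaurentSeries ℚ) :
    coeffMap ι (coeffEmb L x) = coeffEmb ℂ x := by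
  rw [coeffEmb, coeffMap_coeffMap]
  exact coeffMap_congr (Subsingleton.elim _ _) x

theorem infExp_diaAv (ι : L →+* ℂ) {pFun : ZMod M → ℍ → ℂ} (hp : PAvatar M pFun)
    (i : DiaIdx M) : InfExp 1 (diaAv M pFun i) (coeffMap ι (diaGen M L i)) := by
  rw [diaGen, coeffMap_coeffEmb_eq]
  rcases i with d | a
  · have hd := diaIdx_pos M d
    have : NeZero d.1 := ⟨hd.ne'⟩
    have h := inf_J_mul_exp H997.infExp_jFun hd one_pos
    have h1 : coeffEmb ℂ (diaGenQ M (Sum.inl d)) = qExpand ℂ (d.1 * 1) infJq := by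
      show coeffEmb ℂ (qExpand ℚ d.1 jq) = _
      rw [← qExpand_coeffEmb]
      exact qExpand_congr (mul_one d.1).symm _
    rw [h1]
    exact h
  · show InfExp 1 (pFun a.1) (coeffEmb ℂ (divGen M a.1))
    have h1 : coeffEmb ℂ (divGen M a.1) = divGenC ℂ M a.1 := by
      rw [← divGenC_rat]
      exact coeffMap_divGenC (algebraMap ℚ ℂ) M a.1
    rw [h1]
    exact hp.infExp a.1 a.2

/-- Multiplication by a unit as a permutation of the nonzero classes. -/
def unitPerm (d : (ZMod M)ˣ) : Equiv.Perm {a : ZMod M // a ≠ 0} where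
  toFun a := ⟨(d : ZMod M) * a.1, unit_mul_ne_zero d a.2⟩
  invFun a := ⟨((d⁻¹ : (ZMod M)ˣ) : ZMod M) * a.1, unit_mul_ne_zero d⁻¹ a.2⟩
  left_inv a := by
    apply Subtype.ext
    show ((d⁻¹ : (ZMod M)ˣ) : ZMod M) * ((d : ZMod M) * a.1) = a.1
    rw [← mul_assoc, ← Units.val_mul, inv_mul_cancel, Units.val_one, one_mul]
  right_inv a := by
    apply Subtype.ext
    show (d : ZMod M) * (((d⁻¹ : (ZMod M)ˣ) : ZMod M) * a.1) = a.1
    rw [← mul_assoc, ← Units.val_mul, mul_inv_cancel, Units.val_one, one_mul]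

/-- The permutation of the generators attached to a unit `d`. -/
def diaPerm (d : (ZMod M)ˣ) : Equiv.Perm (DiaIdx M) :=
  Equiv.sumCongr (Equiv.refl _) (unitPerm M d)

/-- An element of `Γ₀(M)` with upper left entry `≡ d`. -/
theorem exists_Gamma0_of_unit (d : (ZMod M)ˣ) :
    ∃ g : SL(2, ℤ), g ∈ Gamma0 M ∧ ((g 0 0 : ℤ) : ZMod M) = (d : ZMod M) := by
  have hcop : Nat.Coprime (d : ZMod M).val M := ZMod.val_coe_unit_coprime d
  have hcop' : IsCoprime (((d : ZMod M).val : ℕ) : ℤ) (M : ℤ) :=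
    Nat.isCoprime_iff_coprime.mpr hcop
  obtain ⟨u, v, huv⟩ := hcop'
  obtain ⟨g, h00, -, h10, -⟩ := exists_SL2_848 (((d : ZMod M).val : ℕ) : ℤ) (-v) (M : ℤ) u
    (by linear_combination huv)
  refine ⟨g, ?_, ?_⟩
  · rw [Gamma0_mem, h10]
    simp
  · rw [h00]
    simp

theorem diaAv_smul {pFun : ZMod M → ℍ → ℂ} (hp : PAvatar M pFun) (d : (ZMod M)ˣ)
    (g : SL(2, ℤ)) (hg : g ∈ Gamma0 M) (hgd : ((g 0 0 : ℤ) : ZMod M) = (d : ZMod M))
    (i : DiaIdx M) (z : ℍ) :
    diaAv M pFun i (g • z) = diaAv M pFun (diaPerm M d i) z := by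
  rcases i with e | a
  · exact H997.Jd_inv M e.1 e.2 g hg z
  · show pFun a.1 (g • z) = pFun ((d : ZMod M) * a.1) z
    rw [hp.smul g hg a.1 a.2 z, hgd, mul_comm]

end Gens

/-! ### The diamond automorphisms -/

section Main

/-- `exists_algEquiv_of_avatars` for an intermediate field given as `L(g)`. -/
theorem exists_algEquiv_of_avatars_of_eq {L : Type*} [Field L] {I : Type*} (ι : L →+* ℂ)
    (g : I → LaurentSeries L) (A : I → ℍ → ℂ)
    (hA : ∀ i, InfExp 1 (A i) (coeffMap ι (g i))) (π : Equiv.Perm I) (γ : Equiv.Perm ℍ)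
    (hγ : ∀ i z, A i (γ z) = A (π i) z)
    (K : IntermediateField L (LaurentSeries L))
    (hK : K = IntermediateField.adjoin L (Set.range g)) :
    ∃ σ : K ≃ₐ[L] K, ∀ (i : I) (x y : K), (x : LaurentSeries L) = g i →
      (y : LaurentSeries L) = g (π i) → σ x = y := by
  subst hK
  obtain ⟨σ, hσ⟩ := exists_algEquiv_of_avatars ι g A hA π γ hγ
  refine ⟨σ, fun i x y hx hy => ?_⟩
  have h1 : x = genAdj g i := Subtype.ext hx
  have h2 : y = genAdj g (π i) := Subtype.ext hy
  rw [h1, h2, hσ]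

variable (M : ℕ) [NeZero M] (L : Type*) [Field L] [Algebra ℚ L]

omit [NeZero M] in
/-- An automorphism of `L · F1(M)` fixing the generators `j(q^d)` fixes `L · F0(M)`. -/
theorem fixes_full_of_fixes_gens (σ : F1L L M ≃ₐ[L] F1L L M)
    (hσ : ∀ (d : ℕ) [NeZero d], d ∣ M → ∀ x : F1L L M,
      (x : LaurentSeries L) = coeffEmb L (qExpand ℚ d jq) → σ x = x)
    (x : F1L L M)
    (hx : (x : LaurentSeries L) ∈ laurentBaseChange L (modularFunctionFieldFull M)) :
    σ x = x := by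
  have hle : laurentBaseChange L (modularFunctionFieldFull M) ≤ F1L L M :=
    lbc_mono L (full_le_F1 M)
  have key : ((σ : F1L L M ≃ₐ[L] F1L L M) : F1L L M →+* F1L L M).comp
      (IntermediateField.inclusion hle).toRingHom
      = (IntermediateField.inclusion hle).toRingHom := by
    refine lbc_ringHom_ext (S := divisorExpansions M) _ _ ?_ ?_
    · intro a
      show σ ((IntermediateField.inclusion hle) (algebraMap L _ a))
        = (IntermediateField.inclusion hle) (algebraMap L _ a)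
      rw [AlgHom.commutes, σ.commutes]
    · rintro z ⟨dd, hne, hdd, rfl⟩
      exact hσ dd hdd _ (IntermediateField.coe_inclusion hle _)
  have h1 := congrArg (fun f : _ →+* F1L L M => f ⟨(x : LaurentSeries L), hx⟩) key
  have hx' : (IntermediateField.inclusion hle) ⟨(x : LaurentSeries L), hx⟩ = x :=
    Subtype.ext (IntermediateField.coe_inclusion hle _)
  simp only [RingHom.comp_apply] at h1
  have h2 : σ ((IntermediateField.inclusion hle) ⟨(x : LaurentSeries L), hx⟩)
      = (IntermediateField.inclusion hle) ⟨(x : LaurentSeries L), hx⟩ := h1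
  rwa [hx'] at h2

/-- **FF-DIA** from an avatar of the `P_a`: for every unit `d` there is a diamond automorphism
`δ_d` of `L · F1(M)`. -/
theorem exists_isDiamond_of_avatar (ι : L →+* ℂ) {pFun : ZMod M → ℍ → ℂ}
    (hp : PAvatar M pFun) (d : (ZMod M)ˣ) :
    ∃ σ : F1L L M ≃ₐ[L] F1L L M, IsDiamond L M d σ := by
  obtain ⟨g, hg, hgd⟩ := exists_Gamma0_of_unit M d
  obtain ⟨σ, hσ⟩ := exists_algEquiv_of_avatars_of_eq ι (diaGen M L) (diaAv M pFun)
    (infExp_diaAv M L ι hp) (diaPerm M d) (MulAction.toPerm g)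
    (fun i z => diaAv_smul M hp d g hg hgd i z) (F1L L M) (F1L_eq_adjoin M L)
  refine ⟨σ, ?_, ?_⟩
  · refine fixes_full_of_fixes_gens M L σ ?_
    intro dd _ hdd x hx
    exact hσ (Sum.inl ⟨dd, hdd⟩) x x hx hx
  · intro a x y ha hx hy
    exact hσ (Sum.inr ⟨a, ha⟩) x y hx hy

end Main

end Fermat.Agent.S48.H848

end
end
-- ===== PACK-END S48/H848/DiaMain.lean

-- ===== PACK-BEGIN S48/H848/DiaFinal.lean
section



/-!
# S48 / RES (Tower A1) — piece FF-DIA (helper848): the diamond automorphisms exist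

`exists_isDiamond M d : ∃ σ, F1.IsDiamond Qbar M d σ` for every unit `d` mod `M`, hence
`isDiamond_diamondAut_848 : F1.IsDiamond Qbar M d (F1.diamondAut Qbar M d)` unconditionally.
More generally `exists_isDiamond_of_emb` for every field `L` with an embedding into `ℂ`.

Inputs: the generic transport `exists_isDiamond_of_avatar` (`DiaMain`) and the analytic avatar
`H76.pFun` of the division values (`H76.Avatar`: `infExp_pFun`, `compSL_pFun`).
-/

set_option autoImplicit false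

noncomputable section

open ModularCurve UpperHalfPlane Fermat.Agent.S24 CongruenceSubgroup
open scoped MatrixGroups

namespace Fermat.Agent.S48.H848

open Fermat.Agent.S48.F1

/-- The Eisenstein avatar `H76.pFun` satisfies the avatar interface. -/
theorem pAvatar_pFun (M : ℕ) [NeZero M] : PAvatar M (H76.pFun M) where
  infExp _ ha := H76.infExp_pFun M ha
  smul g hg a _ z := by
    have h := congrFun (H76.compSL_pFun M a g hg) z
    rwa [H997.compSL_apply] at h

/-- **FF-DIA** over any field `L` embedded in `ℂ`. -/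
theorem exists_isDiamond_of_emb (M : ℕ) [NeZero M] (L : Type*) [Field L] [Algebra ℚ L]
    (ι : L →+* ℂ) (d : (ZMod M)ˣ) :
    ∃ σ : F1L L M ≃ₐ[L] F1L L M, IsDiamond L M d σ :=
  exists_isDiamond_of_avatar M L ι (pAvatar_pFun M) d

/-- A fixed embedding `Qbar → ℂ`. -/
def qbarEmb848 : AlgebraicClosure ℚ →+* ℂ :=
  letI : Algebra ℚ (AlgebraicClosure ℚ) := AlgebraicClosure.instAlgebra ℚ
  ((IsAlgClosed.lift : AlgebraicClosure ℚ →ₐ[ℚ] ℂ) : AlgebraicClosure ℚ →+* ℂ)

/-- **FF-DIA**: for every unit `d` there is a diamond automorphism `δ_d` of `Qbar · F1(M)`. -/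
theorem exists_isDiamond (M : ℕ) [NeZero M] (d : (ZMod M)ˣ) :
    ∃ σ : F1L (AlgebraicClosure ℚ) M ≃ₐ[AlgebraicClosure ℚ] F1L (AlgebraicClosure ℚ) M,
      IsDiamond (AlgebraicClosure ℚ) M d σ :=
  exists_isDiamond_of_emb M (AlgebraicClosure ℚ) qbarEmb848 d

/-- The chosen `F1.diamondAut` is a diamond automorphism (unconditionally). -/
theorem isDiamond_diamondAut_848 (M : ℕ) [NeZero M] (d : (ZMod M)ˣ) :
    IsDiamond (AlgebraicClosure ℚ) M d (diamondAut (AlgebraicClosure ℚ) M d) :=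
  isDiamond_diamondAut (AlgebraicClosure ℚ) M d (exists_isDiamond M d)

/-- The action of `δ_d` on the generators `P_a`. -/
theorem diamondAut_divGenL (M : ℕ) [NeZero M] (d : (ZMod M)ˣ) (a : ZMod M) (ha : a ≠ 0) :
    diamondAut (AlgebraicClosure ℚ) M d (divGenL (AlgebraicClosure ℚ) M a ha) =
      divGenL (AlgebraicClosure ℚ) M ((d : ZMod M) * a) (unit_mul_ne_zero d ha) :=
  (isDiamond_iff.mp (isDiamond_diamondAut_848 M d)).2 a ha

/-- `δ_d` fixes `Qbar · F0(M)`. -/
theorem diamondAut_fixes_full (M : ℕ) [NeZero M] (d : (ZMod M)ˣ)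
    (x : F1L (AlgebraicClosure ℚ) M)
    (hx : (x : LaurentSeries (AlgebraicClosure ℚ)) ∈
      laurentBaseChange (AlgebraicClosure ℚ) (modularFunctionFieldFull M)) :
    diamondAut (AlgebraicClosure ℚ) M d x = x :=
  (isDiamond_diamondAut_848 M d).1 x hx

end Fermat.Agent.S48.H848

end
end
-- ===== PACK-END S48/H848/DiaFinal.lean

-- ===== PACK-BEGIN S48/H528/DiaAn.lean
section




/-!
# S48 / Tower A1 / A1-KUM, leaf `dia` (helper528): the diamond formula `DiaAn1`

`Kum.DiaAn1 M p hpM`: if `G` realises `u ∈ ℚ̄·F₁(M)` then `G ∘ σ_p⁻¹` realises `diamondAut p • u`.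

* `exists_frac_of_gens`   (algebra, generic): every element of `L·ℚ(S)` is a quotient of two
  elements of any subring-like predicate containing the constants and the generators;
* `diaAn_of_gens`         (generic in `Γ`, `S`, `δ`, `a`): `DiaAn` holds as soon as it holds on the
  generators `S`;
* `diaAn1_of_isDiamond`   : `DiaAn1 M p hpM` from the existence of the diamond automorphism
  (`FF-DIA`, owner helper848), using the avatars `jFun ∘ (d·)` (S24) and `H76.pFun` (helper76);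
* `diaAn1`                : `DiaAn1 M p hpM`, unconditional (with `H848.exists_isDiamond`).
-/

set_option autoImplicit false

noncomputable section

open ModularCurve AlgebraicCurve UpperHalfPlane CongruenceSubgroup
open scoped MatrixGroups Manifold

namespace Fermat.Agent.S48.H528

open Fermat.Agent.S24 Fermat.Agent.S29 Fermat.Agent.S29.M4b Fermat.Agent.S29.M4b.H822
  Fermat.Agent.S48.Kum Fermat.Agent.S48.F1

/-! ### Fractions of generators -/

section Frac

variable {L : Type*} [Field L] [Algebra ℚ L] {S : Set (LaurentSeries ℚ)}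

/-- The subfield of quotients `u₁ / u₂` with `P u₁`, `P u₂`. -/
def fracField (P : laurentBaseChange L (IntermediateField.adjoin ℚ S) → Prop)
    (hC : ∀ a : L, P (algebraMap L _ a))
    (hadd : ∀ u v, P u → P v → P (u + v)) (hmul : ∀ u v, P u → P v → P (u * v)) :
    Subfield (LaurentSeries L) where
  carrier := {x | ∃ u₁ u₂ : laurentBaseChange L (IntermediateField.adjoin ℚ S),
    P u₁ ∧ P u₂ ∧ u₂ ≠ 0 ∧ x * (u₂ : LaurentSeries L) = (u₁ : LaurentSeries L)}
  one_mem' := by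
    have h1 : P 1 := by simpa using hC 1
    exact ⟨1, 1, h1, h1, one_ne_zero, by simp⟩
  zero_mem' := by
    have h1 : P 1 := by simpa using hC 1
    have h0 : P 0 := by simpa using hC 0
    exact ⟨0, 1, h0, h1, one_ne_zero, by simp⟩
  mul_mem' := by
    rintro x y ⟨u₁, u₂, h1, h2, hne, hx⟩ ⟨v₁, v₂, k1, k2, kne, hy⟩
    refine ⟨u₁ * v₁, u₂ * v₂, hmul _ _ h1 k1, hmul _ _ h2 k2, mul_ne_zero hne kne, ?_⟩
    push_cast
    rw [← hx, ← hy]
    ring
  add_mem' := by
    rintro x y ⟨u₁, u₂, h1, h2, hne, hx⟩ ⟨v₁, v₂, k1, k2, kne, hy⟩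
    refine ⟨u₁ * v₂ + v₁ * u₂, u₂ * v₂, hadd _ _ (hmul _ _ h1 k2) (hmul _ _ k1 h2),
      hmul _ _ h2 k2, mul_ne_zero hne kne, ?_⟩
    push_cast
    rw [← hx, ← hy]
    ring
  neg_mem' := by
    rintro x ⟨u₁, u₂, h1, h2, hne, hx⟩
    have hm1 : P (-1) := by simpa using hC (-1)
    refine ⟨-1 * u₁, u₂, hmul _ _ hm1 h1, h2, hne, ?_⟩
    push_cast
    rw [← hx]
    ring
  inv_mem' := by
    rintro x ⟨u₁, u₂, h1, h2, hne, hx⟩
    by_cases hx0 : x = 0
    · have h1' : P 1 := by simpa using hC 1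
      have h0 : P 0 := by simpa using hC 0
      exact ⟨0, 1, h0, h1', one_ne_zero, by simp [hx0]⟩
    · have hu2 : (u₂ : LaurentSeries L) ≠ 0 := fun h => hne (Subtype.ext h)
      have hu1 : u₁ ≠ 0 := by
        intro h
        rw [h] at hx
        exact (mul_ne_zero hx0 hu2) hx
      refine ⟨u₂, u₁, h2, h1, hu1, ?_⟩
      rw [← hx]
      field_simp

theorem coeffEmb_algebraMap_h528 (q : ℚ) :
    coeffEmb L (algebraMap ℚ (LaurentSeries ℚ) q) =
      algebraMap L (LaurentSeries L) (algebraMap ℚ L q) := by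
  rw [algebraMap_laurent_eq_single, algebraMap_laurent_eq_single, coeffEmb, coeffMap_single]

/-- **Fraction induction**: if `P` holds for the constants and the generators and is stable under
`+` and `*`, then every element of `L·ℚ(S)` is a quotient `u₁ / u₂` with `P u₁`, `P u₂`. -/
theorem exists_frac_of_gens (P : laurentBaseChange L (IntermediateField.adjoin ℚ S) → Prop)
    (hC : ∀ a : L, P (algebraMap L _ a))
    (hS : ∀ (z : LaurentSeries ℚ) (hz : z ∈ S),
      P ⟨coeffEmb L z, coeffEmb_mem_laurentBaseChange L (IntermediateField.subset_adjoin ℚ S hz)⟩)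
    (hadd : ∀ u v, P u → P v → P (u + v)) (hmul : ∀ u v, P u → P v → P (u * v))
    (u : laurentBaseChange L (IntermediateField.adjoin ℚ S)) :
    ∃ u₁ u₂ : laurentBaseChange L (IntermediateField.adjoin ℚ S),
      P u₁ ∧ P u₂ ∧ u₂ ≠ 0 ∧ u * u₂ = u₁ := by
  set T := fracField P hC hadd hmul with hT
  have h1 : P 1 := by simpa using hC 1
  have hconst : ∀ a : L, algebraMap L (LaurentSeries L) a ∈ T := fun a =>
    ⟨algebraMap L _ a, 1, hC a, h1, one_ne_zero, by simp⟩
  have key : ∀ z : LaurentSeries ℚ, z ∈ IntermediateField.adjoin ℚ S → coeffEmb L z ∈ T := by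
    intro z hz
    induction hz using IntermediateField.adjoin_induction with
    | mem x hx =>
        exact ⟨⟨coeffEmb L x, coeffEmb_mem_laurentBaseChange L
          (IntermediateField.subset_adjoin ℚ S hx)⟩, 1, hS x hx, h1, one_ne_zero, by simp⟩
    | algebraMap q =>
        rw [coeffEmb_algebraMap_h528]
        exact hconst _
    | add x y _ _ ihx ihy =>
        rw [map_add]
        exact T.add_mem ihx ihy
    | inv x _ ihx =>
        rw [map_inv₀]
        exact T.inv_mem ihx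
    | mul x y _ _ ihx ihy =>
        rw [map_mul]
        exact T.mul_mem ihx ihy
  have hu : (u : LaurentSeries L) ∈ T := by
    have hu' := u.2
    rw [mem_laurentBaseChange_iff] at hu'
    refine (Subfield.closure_le (t := T)).mpr ?_ hu'
    rintro x (⟨a, rfl⟩ | ⟨z, hz, rfl⟩)
    · exact hconst a
    · exact key z hz
  obtain ⟨u₁, u₂, h1, h2, hne, hx⟩ := hu
  exact ⟨u₁, u₂, h1, h2, hne, Subtype.ext hx⟩

end Frac

/-! ### Good functions and realisations: additions to the API of `Kum/Basic.lean` -/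

section Good

variable {Γ : Subgroup SL(2, ℤ)} {F : KF}

theorem isGood_add_h528 {G H : ℍ → ℂ} (hG : IsGood Γ G) (hH : IsGood Γ H) :
    IsGood Γ (G + H) := by
  obtain ⟨h1, h2, h3⟩ := hG
  obtain ⟨h1', h2', h3'⟩ := hH
  refine ⟨h1.add h1', fun γ hγ τ => ?_, fun g => ?_⟩
  · show G (γ • τ) + H (γ • τ) = G τ + H τ
    rw [h2 γ hγ τ, h2' γ hγ τ]
  · exact (h3 g).add (h3' g)

theorem realises_add_h528 (hT : ModularGroup.T ∈ Γ) {u v : F} {G H : ℍ → ℂ}
    (hu : _root_.Fermat.Agent.S48.Kum.Realises Γ F u G) (hv : _root_.Fermat.Agent.S48.Kum.Realises Γ F v H) : _root_.Fermat.Agent.S48.Kum.Realises Γ F (u + v) (G + H) := by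
  refine _root_.Fermat.Agent.S48.Kum.realises_of_hasQExp (isGood_add_h528 hu.1 hv.1) ?_
  have := (hu.hasQExp hT).add (hv.hasQExp hT)
  simpa using this

theorem realises_const_h528 (Γ : Subgroup SL(2, ℤ)) (F : KF) (c : Kbar) :
    _root_.Fermat.Agent.S48.Kum.Realises Γ F (algebraMap Kbar F c) (fun _ => Deg457.iotaC c) := by
  refine _root_.Fermat.Agent.S48.Kum.realises_of_hasQExp (isGood_const Γ _) ?_
  have h := H708.HasQExp.const 1 (Deg457.iotaC c)
  have e : coeffMap Deg457.iotaC ((algebraMap Kbar F c : F) : LaurentSeries Kbar)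
      = HahnSeries.C (Deg457.iotaC c) := by
    have e1 : ((algebraMap Kbar F c : F) : LaurentSeries Kbar)
        = algebraMap Kbar (LaurentSeries Kbar) c := rfl
    rw [e1, algebraMap_laurent_eq_single, coeffMap_single]
    rfl
  rw [e]
  exact h

/-- Composition of a good function with an element normalising `Γ` is good. -/
theorem isGood_comp_h528 {G : ℍ → ℂ} (hG : IsGood Γ G) (a : SL(2, ℤ))
    (ha : ∀ γ ∈ Γ, a * γ * a⁻¹ ∈ Γ) : IsGood Γ (fun τ => G (a • τ)) := by
  obtain ⟨h1, h2, h3⟩ := hG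
  refine ⟨?_, fun γ hγ τ => ?_, fun g => ?_⟩
  · have h : MDifferentiable 𝓘(ℂ) 𝓘(ℂ)
        (fun τ : ℍ => (Matrix.SpecialLinearGroup.mapGL ℝ a) • τ) :=
      UpperHalfPlane.mdifferentiable_smul (by simp)
    exact h1.comp h
  · show G (a • (γ • τ)) = G (a • τ)
    have e : a • (γ • τ) = (a * γ * a⁻¹) • (a • τ) := by
      rw [← mul_smul, ← mul_smul, mul_assoc, mul_assoc, inv_mul_cancel, mul_one]
    rw [e, h2 _ (ha γ hγ)]
  · have e : (fun τ : ℍ => G (a • (g • τ))) = fun τ => G ((a * g) • τ) := by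
      funext τ
      rw [mul_smul]
    show H648.ExpGrowth (fun τ : ℍ => G (a • (g • τ)))
    rw [e]
    exact h3 (a * g)

end Good

/-! ### The generic diamond formula -/

section Generic

variable {Γ : Subgroup SL(2, ℤ)} {S : Set (LaurentSeries ℚ)}

/-- The field `ℚ̄·ℚ(S)`. -/
abbrev FS (S : Set (LaurentSeries ℚ)) : KF :=
  laurentBaseChange Kbar (IntermediateField.adjoin ℚ S)

/-- **DIA-AN from the generators.**  Let `F = ℚ̄·ℚ(S)`, `δ` a `ℚ̄`-automorphism of `F` and
`a ∈ SL₂(ℤ)` normalising `Γ`.  If every generator `z ∈ S` is realised by some `G_z` such that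
`G_z ∘ a` realises `δ z`, then `G ∘ a` realises `δ u` for EVERY realisation `G` of any `u ∈ F`. -/
theorem diaAn_of_gens (hT : ModularGroup.T ∈ Γ)
    (δ : FS S ≃ₐ[Kbar] FS S)
    (a : SL(2, ℤ)) (ha : ∀ γ ∈ Γ, a * γ * a⁻¹ ∈ Γ)
    (hS : ∀ (z : LaurentSeries ℚ) (hz : z ∈ S), ∃ G : ℍ → ℂ,
      _root_.Fermat.Agent.S48.Kum.Realises Γ (FS S)
        ⟨coeffEmb Kbar z,
          coeffEmb_mem_laurentBaseChange Kbar (IntermediateField.subset_adjoin ℚ S hz)⟩ G ∧
      _root_.Fermat.Agent.S48.Kum.Realises Γ (FS S)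
        (δ ⟨coeffEmb Kbar z,
          coeffEmb_mem_laurentBaseChange Kbar (IntermediateField.subset_adjoin ℚ S hz)⟩)
        (fun τ => G (a • τ))) :
    DiaAn Γ (FS S) (SemilinearAut.ofAlgAut δ) a := by
  -- the predicate
  let P : FS S → Prop := fun u => ∃ G : ℍ → ℂ,
    _root_.Fermat.Agent.S48.Kum.Realises Γ (FS S) u G ∧ _root_.Fermat.Agent.S48.Kum.Realises Γ (FS S) (δ u) (fun τ => G (a • τ))
  have hC : ∀ c : Kbar, P (algebraMap Kbar (FS S) c) := by
    intro c
    refine ⟨fun _ => Deg457.iotaC c, realises_const_h528 Γ (FS S) c, ?_⟩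
    rw [AlgEquiv.commutes]
    exact realises_const_h528 Γ (FS S) c
  have hadd : ∀ u v, P u → P v → P (u + v) := by
    rintro u v ⟨G, hG, hG'⟩ ⟨H, hH, hH'⟩
    refine ⟨G + H, realises_add_h528 hT hG hH, ?_⟩
    rw [map_add]
    exact realises_add_h528 hT hG' hH'
  have hmul : ∀ u v, P u → P v → P (u * v) := by
    rintro u v ⟨G, hG, hG'⟩ ⟨H, hH, hH'⟩
    refine ⟨G * H, hG.mul hT hH, ?_⟩
    rw [map_mul]
    exact hG'.mul hT hH'
  intro u G hu
  obtain ⟨u₁, u₂, ⟨G₁, h₁, h₁'⟩, ⟨G₂, h₂, h₂'⟩, hne, hmulu⟩ :=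
    exists_frac_of_gens P hC hS hadd hmul u
  -- `G * G₂ = G₁`
  have e : G * G₂ = G₁ := by
    have h := hu.mul hT h₂
    rw [hmulu] at h
    exact h.unique_right hT h₁
  have hgood : IsGood Γ (fun τ => G (a • τ)) := isGood_comp_h528 hu.1 a ha
  refine ⟨hgood, ?_⟩
  have hq := hgood.hasQExp hT
  have hq2 := h₂'.hasQExp hT
  have hq1 := h₁'.hasQExp hT
  have hprod : (fun τ : ℍ => G (a • τ)) * (fun τ => G₂ (a • τ)) = fun τ => G₁ (a • τ) := by
    funext τ
    have := congrFun e (a • τ)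
    exact this
  have hq12 := hq.mul hq2
  rw [hprod] at hq12
  have heq := hq12.unique hq1
  -- cancel
  have hδ : δ u * δ u₂ = δ u₁ := by rw [← map_mul, hmulu]
  have hδ' : coeffMap Deg457.iotaC ((δ u : FS S) : LaurentSeries Kbar) *
      coeffMap Deg457.iotaC ((δ u₂ : FS S) : LaurentSeries Kbar) =
      coeffMap Deg457.iotaC ((δ u₁ : FS S) : LaurentSeries Kbar) := by
    rw [← map_mul, ← hδ]
    rfl
  have hne' : coeffMap Deg457.iotaC ((δ u₂ : FS S) : LaurentSeries Kbar) ≠ 0 := by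
    intro h0
    have h1 : ((δ u₂ : FS S) : LaurentSeries Kbar) = 0 :=
      coeffMap_iotaC_injective (by rw [h0, map_zero])
    have h2 : δ u₂ = 0 := Subtype.ext h1
    exact hne ((map_eq_zero_iff δ δ.injective).mp h2)
  show H708.qexpFun 1 (fun τ => G (a • τ)) =
    coeffMap Deg457.iotaC (((SemilinearAut.ofAlgAut δ • u : FS S)) : LaurentSeries Kbar)
  rw [SemilinearAut.ofAlgAut_smul]
  exact mul_right_cancel₀ hne' (heq.trans hδ'.symm)

end Generic

/-! ### The generators of `ℚ̄·F₁(M)` and their avatars -/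

section Concrete

open Fermat.Agent.S48.H76 Fermat.Agent.S48.H548

theorem coeffMap_iotaC_coeffEmb_h528 (z : LaurentSeries ℚ) :
    coeffMap Deg457.iotaC (coeffEmb Kbar z) = coeffEmb ℂ z := by
  rw [coeffEmb, coeffMap_coeffMap]
  exact coeffMap_congr (RingHom.ext fun c => by simp) z

variable (M : ℕ) [NeZero M]

omit [NeZero M] in
/-- `τ ↦ j(dτ)` realises `j(q^d)` (`d ∣ M`) for `Γ₁(M)`. -/
theorem realises_jd_h528 {d : ℕ} [NeZero d] (hd : d ∣ M)
    (hmem : coeffEmb Kbar (qExpand ℚ d jq) ∈ F1Bar M) :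
    _root_.Fermat.Agent.S48.Kum.Realises (Gamma1 M) (F1Bar M) ⟨coeffEmb Kbar (qExpand ℚ d jq), hmem⟩
      (fun τ => JFun.jFun (Deg457.scaleH d τ)) := by
  have hgood : IsGood (Gamma0 M) (fun τ => JFun.jFun (Deg457.scaleH d τ)) :=
    H648.jFun_scale_mem_goodRing M d (Nat.pos_of_ne_zero (NeZero.ne d)) hd (Deg457.scaleH d)
      (Deg457.coe_scaleH d)
  refine _root_.Fermat.Agent.S48.Kum.realises_of_hasQExp (hgood.mono (Gamma1_in_Gamma0 M)) ?_
  show H708.HasQExp 1 _ (coeffMap Deg457.iotaC (coeffEmb Kbar (qExpand ℚ d jq)))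
  rw [coeffMap_iotaC_coeffEmb_h528]
  exact Deg457.hasQExp_jFun_scale d

omit [NeZero M] in
theorem jd_comp_Gamma0_h528 {d : ℕ} [NeZero d] (hd : d ∣ M) (a : SL(2, ℤ)) (ha : a ∈ Gamma0 M) :
    (fun τ => JFun.jFun (Deg457.scaleH d (a • τ))) = fun τ => JFun.jFun (Deg457.scaleH d τ) := by
  have hgood : IsGood (Gamma0 M) (fun τ => JFun.jFun (Deg457.scaleH d τ)) :=
    H648.jFun_scale_mem_goodRing M d (Nat.pos_of_ne_zero (NeZero.ne d)) hd (Deg457.scaleH d)
      (Deg457.coe_scaleH d)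
  funext τ
  exact hgood.2.1 a ha τ

/-- `pFun M b` is good for `Γ₁(M)`. -/
theorem isGood_pFun_h528 (b : ZMod M) : IsGood (Gamma1 M) (pFun M b) := by
  refine ⟨mdiff_pFun M b, fun γ hγ τ => pFun_smul_Gamma1 M b γ hγ τ, fun g => ?_⟩
  obtain ⟨φ, hφ⟩ := (pFun_mem_holN M b).2 g
  exact Fermat.Agent.S29.H332.expGrowth_of_infExp hφ

/-- `pFun M b` realises the division value `P_b`. -/
theorem realises_pFun_h528 {b : ZMod M} (hb : b ≠ 0)
    (hmem : coeffEmb Kbar (divGen M b) ∈ F1Bar M) :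
    _root_.Fermat.Agent.S48.Kum.Realises (Gamma1 M) (F1Bar M) ⟨coeffEmb Kbar (divGen M b), hmem⟩ (pFun M b) := by
  refine _root_.Fermat.Agent.S48.Kum.realises_of_hasQExp (isGood_pFun_h528 M b) ?_
  show H708.HasQExp 1 _ (coeffMap Deg457.iotaC (coeffEmb Kbar (divGen M b)))
  rw [coeffMap_iotaC_coeffEmb_h528]
  have e : coeffEmb ℂ (divGen M b) = divGenC ℂ M b := by
    rw [divGen, coeffEmb, coeffMap_divGenC]
  rw [e]
  exact Fermat.Agent.S29.H332.hasQExp_of_infExp (mdiff_pFun M b) (infExp_pFun M hb)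

variable {M} in
theorem sigmaP_inv_mem_h528 {p : ℕ} [Fact p.Prime] (hpM : ¬ p ∣ M) :
    (sigmaP M p hpM)⁻¹ ∈ Gamma0 M :=
  (Gamma0 M).inv_mem (sigmaP_mem hpM)

variable {M} in
theorem sigmaP_inv_upper_h528 {p : ℕ} [Fact p.Prime] (hpM : ¬ p ∣ M) :
    ((((sigmaP M p hpM)⁻¹ : SL(2, ℤ)) 0 0 : ℤ) : ZMod M) = (p : ZMod M) := by
  have e : (((sigmaP M p hpM)⁻¹ : SL(2, ℤ)) 0 0 : ℤ) = (sigmaP M p hpM) 1 1 := by
    rw [Matrix.SpecialLinearGroup.SL2_inv_expl]
    rfl
  rw [e, sigmaP_lower hpM]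

/-- **Leaf `dia` of A1-KUM** from the existence of the diamond automorphism (FF-DIA). -/
theorem diaAn1_of_isDiamond (p : ℕ) [Fact p.Prime] (hpM : ¬ p ∣ M)
    (hdia : ∃ σ : F1L Kbar M ≃ₐ[Kbar] F1L Kbar M, IsDiamond Kbar M (unitOf M p) σ) :
    DiaAn1 M p hpM := by
  have hD := isDiamond_diamondAut Kbar M (unitOf M p) hdia
  have hcop : Nat.Coprime p M := (Nat.Prime.coprime_iff_not_dvd Fact.out).mpr hpM
  have hunit : ((unitOf M p : (ZMod M)ˣ) : ZMod M) = (p : ZMod M) := coe_unitOf M hcop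
  refine diaAn_of_gens (Γ := Gamma1 M) (S := divisorExpansions M ∪ divGens M)
    (T_mem_Gamma1 M) (diamondAut Kbar M (unitOf M p)) (sigmaP M p hpM)⁻¹
    (sigmaP_inv_conj_mem hpM) ?_
  rintro z (⟨d, hd0, hd, rfl⟩ | ⟨b, hb, rfl⟩)
  · -- `j(q^d)`
    have hmem : coeffEmb Kbar (qExpand ℚ d jq) ∈ F1Bar M :=
      coeffEmb_mem_laurentBaseChange Kbar (jqd_mem_F1 M hd)
    refine ⟨fun τ => JFun.jFun (Deg457.scaleH d τ), realises_jd_h528 M hd hmem, ?_⟩
    have hfix : diamondAut Kbar M (unitOf M p) ⟨coeffEmb Kbar (qExpand ℚ d jq), hmem⟩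
        = ⟨coeffEmb Kbar (qExpand ℚ d jq), hmem⟩ :=
      hD.1 _ (coeffEmb_mem_laurentBaseChange Kbar (jqd_mem_full M hd))
    have hcomp := jd_comp_Gamma0_h528 M hd (sigmaP M p hpM)⁻¹ (sigmaP_inv_mem_h528 hpM)
    show _root_.Fermat.Agent.S48.Kum.Realises (Gamma1 M) (F1Bar M)
      (diamondAut Kbar M (unitOf M p) ⟨coeffEmb Kbar (qExpand ℚ d jq), hmem⟩)
      (fun τ => JFun.jFun (Deg457.scaleH d ((sigmaP M p hpM)⁻¹ • τ)))
    rw [hfix, hcomp]
    exact realises_jd_h528 M hd hmem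
  · -- `P_b`
    have hmem : coeffEmb Kbar (divGen M b) ∈ F1Bar M :=
      coeffEmb_mem_laurentBaseChange Kbar (divGen_mem_F1 M hb)
    have hpb : (unitOf M p : ZMod M) * b ≠ 0 := by
      intro h
      exact hb ((Units.mul_right_eq_zero (unitOf M p)).mp h)
    have hmem' : coeffEmb Kbar (divGen M ((unitOf M p : ZMod M) * b)) ∈ F1Bar M :=
      coeffEmb_mem_laurentBaseChange Kbar (divGen_mem_F1 M hpb)
    refine ⟨pFun M b, realises_pFun_h528 M hb hmem, ?_⟩
    have hmove : diamondAut Kbar M (unitOf M p) ⟨coeffEmb Kbar (divGen M b), hmem⟩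
        = ⟨coeffEmb Kbar (divGen M ((unitOf M p : ZMod M) * b)), hmem'⟩ :=
      hD.2 b _ _ hb rfl rfl
    have hcomp : (fun τ => pFun M b ((sigmaP M p hpM)⁻¹ • τ))
        = pFun M ((unitOf M p : ZMod M) * b) := by
      have h := compSL_pFun M b (sigmaP M p hpM)⁻¹ (sigmaP_inv_mem_h528 hpM)
      rw [sigmaP_inv_upper_h528 hpM, ← hunit, mul_comm] at h
      exact h
    show _root_.Fermat.Agent.S48.Kum.Realises (Gamma1 M) (F1Bar M)
      (diamondAut Kbar M (unitOf M p) ⟨coeffEmb Kbar (divGen M b), hmem⟩)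
      (fun τ => pFun M b ((sigmaP M p hpM)⁻¹ • τ))
    rw [hmove, hcomp]
    exact realises_pFun_h528 M hpb hmem'

/-- **Leaf `dia` of sub-tower A1-KUM** (`Kum.Leaves.dia`), unconditional:
if `G` realises `u ∈ ℚ̄·F₁(M)` then `G ∘ σ_p⁻¹` realises `diamondAut p • u`. -/
theorem diaAn1 (p : ℕ) [Fact p.Prime] (hpM : ¬ p ∣ M) : DiaAn1 M p hpM :=
  diaAn1_of_isDiamond M p hpM (Fermat.Agent.S48.H848.exists_isDiamond M (unitOf M p))

end Concrete

end Fermat.Agent.S48.H528

end
end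
-- ===== PACK-END S48/H528/DiaAn.lean

-- ===== PACK-BEGIN S48/Top/ResultOfOpen.lean
section











/-!
# Row S48 (Deligne–Serre): the frozen statement from the FOUR leaves still open (helper948)

State of Tower A1 at 2026-09-27 20:45Z.  Everything else is plugged in from `main`:

* cohomology side            : `H451.eigenclass1`  (inside `Top.result_of_two`);
* A1-ES engine + VAL1 + HI1  : `H68.rawES1_of_three`, `H150.hi1`;
* A1-KUM leaves              : `k1` (`H332.leafK1`), `k2` (`H642.k2`), `inter` (`H496.dictInter1`),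
                               `mero` (`H149.dictMero1`), `const` (`H102.leaves_const`),
                               `corr` (`H150.corrInputs_hecke`), `dia` (`H528.diaAn1`).

OPEN (the four hypotheses of `result_of_open`):

* `H556.Core1Top`            : the Kummer core for `F1 M` (sub-tower A1-RED);
* `H136.NormId1Statement`    : `Nm_α (β y) = V_p y · det (secMat p (δ_p y))`;
* `Kum.PieceK3` for `Γ₁(M)`  : descent `ℂ → ℚ̄` of the Kummer function;
* `Kum.NormAn1`              : the analytic norm formula.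
-/

set_option autoImplicit false

open CongruenceSubgroup

namespace Fermat.Agent.S48.Top

open Fermat.Agent.S48

/-- `Res.M4b1Statement` from the two open leaves of A1-KUM. -/
theorem m4b1_of_open
    (hk3 : ∀ (M : ℕ) [NeZero M] (ℓ : ℕ), ℓ.Prime → Kum.PieceK3 (Gamma1 M) (F1.F1Bar M) ℓ)
    (hnorm : ∀ (M : ℕ) [NeZero M] (p : ℕ) [Fact p.Prime] (hpM : ¬ p ∣ M), Kum.NormAn1 M p hpM) :
    Res.M4b1Statement :=
  Kum.m4b1_of_leaves
    { k1 := fun M _ ℓ hℓ => H332.leafK1 M ℓ hℓ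
      k2 := fun M _ ℓ hℓ => H642.k2 M ℓ hℓ
      k3 := hk3
      inter := fun M _ => H496.dictInter1 M
      mero := fun M _ => H149.dictMero1 M
      const := H102.leaves_const
      corr := fun M _ p _ _ =>
        haveI : NeZero p := ⟨(Fact.out : p.Prime).ne_zero⟩
        H150.corrInputs_hecke _ M p
      norm := hnorm
      dia := fun M _ p _ hpM => H528.diaAn1 M p hpM }

/-- `Res.RawES1Statement true` from the two open leaves of A1-ES. -/
theorem rawES1_of_open (hcore : H556.Core1Top) (hnid : H136.NormId1Statement) :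
    Res.RawES1Statement true :=
  H68.rawES1_of_three hcore H150.hi1 hnid

/-- **Row S48 from the four open leaves.** -/
theorem result_of_open (hcore : H556.Core1Top) (hnid : H136.NormId1Statement)
    (hk3 : ∀ (M : ℕ) [NeZero M] (ℓ : ℕ), ℓ.Prime → Kum.PieceK3 (Gamma1 M) (F1.F1Bar M) ℓ)
    (hnorm : ∀ (M : ℕ) [NeZero M] (p : ℕ) [Fact p.Prime] (hpM : ¬ p ∣ M), Kum.NormAn1 M p hpM) :
    S48Statement :=
  result_of_two (rawES1_of_open hcore hnid) (m4b1_of_open hk3 hnorm)

end Fermat.Agent.S48.Top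

end
-- ===== PACK-END S48/Top/ResultOfOpen.lean

-- ===== PACK-BEGIN S29/H282/FracK.lean
section


/-!
# S29 / M4b-K2 (helper282) — the function field of `X₀(N)` over an arbitrary field `K ⊇ ℚ`

Port of `Fermat/Agent/S24/Mod/H997Frac.lean` from `ℚ̄` to an arbitrary field `K` of
characteristic zero:

* `FFK K N`    : the function field `laurentBaseChange K (modularFunctionFieldFull N)`;
* `RNK K N`    : the `K`-subalgebra of `K((q))` generated by the `j(q^d)`, `d ∣ N`;
* `inclRNK`    : the inclusion `RNK K N → FFK K N`;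
* `liftFK`     : every injective ring hom `RNK K N →+* L` into a field extends to `FFK K N`.
-/

set_option autoImplicit false

noncomputable section

open ModularCurve HahnSeries IntermediateField

namespace Fermat.Agent.S29.H282

open Fermat.Agent.S24 Fermat.Agent.S24.Deg457

variable (K : Type*) [Field K] [Algebra ℚ K] (N : ℕ)

/-- The function field of `X₀(N)` over `K` (as a type). -/
abbrev FFK : Type _ := ↥(laurentBaseChange K (modularFunctionFieldFull N))

/-- The function field of `X₀(N)` over `K` is generated over `K` by the `j(q^d)`, `d ∣ N`. -/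
theorem ffK_eq_adjoin :
    laurentBaseChange K (modularFunctionFieldFull N) = IntermediateField.adjoin K (gens K N) := by
  apply le_antisymm
  · exact laurentBaseChange_full_le N
  · rw [laurentBaseChange]
    exact IntermediateField.adjoin.mono _ _ _
      (Set.image_mono (IntermediateField.subset_adjoin ℚ _))

/-- The polynomial ring `K[j(q^d) : d ∣ N] ⊆ K((q))`. -/
abbrev RNK : Subalgebra K (LaurentSeries K) := AK K N

theorem RNK_le : RNK K N ≤ (laurentBaseChange K (modularFunctionFieldFull N)).toSubalgebra := by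
  rw [ffK_eq_adjoin]
  exact IntermediateField.algebra_adjoin_le_adjoin K (gens K N)

/-- The inclusion `R_N → FFK K N`. -/
def inclRNK : RNK K N →ₐ[K] FFK K N := Subalgebra.inclusion (RNK_le K N)

@[simp] theorem coe_inclRNK (r : RNK K N) :
    ((inclRNK K N r : FFK K N) : LaurentSeries K) = r := rfl

theorem inclRNK_injective : Function.Injective (inclRNK K N) :=
  Subalgebra.inclusion_injective (RNK_le K N)

theorem exists_div_inclRNK (f : FFK K N) :
    ∃ r t : RNK K N, t ≠ 0 ∧ f = inclRNK K N r / inclRNK K N t := by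
  have hf : (f : LaurentSeries K) ∈ IntermediateField.adjoin K (gens K N) := by
    rw [← ffK_eq_adjoin]; exact f.2
  obtain ⟨r, hr, s, hs, h⟩ := IntermediateField.mem_adjoin_iff_div.mp hf
  by_cases hs0 : s = 0
  · refine ⟨0, 1, one_ne_zero, ?_⟩
    apply Subtype.ext
    rw [h, hs0, div_zero]
    simp
  · refine ⟨⟨r, hr⟩, ⟨s, hs⟩, fun h0 => hs0 (congrArg Subtype.val h0), ?_⟩
    apply Subtype.ext
    rw [h]
    simp

/-- The generator `j(q^d)` as an element of `R_N`. -/
def jRK (d : ℕ) [NeZero d] (hd : d ∣ N) : RNK K N :=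
  ⟨coeffEmb K (qExpand ℚ d jq),
    Algebra.subset_adjoin ⟨_, mem_divisorExpansions N hd, rfl⟩⟩

/-- The `j`-function as an element of the function field of `X₀(N)` over `K`. -/
def jFK [NeZero N] : FFK K N :=
  ⟨coeffEmb K jq,
    coeffEmb_mem_laurentBaseChange K (modularFunctionField_le_full N (jq_mem N))⟩

theorem inclRNK_jRK_one [NeZero N] : inclRNK K N (jRK K N 1 (one_dvd N)) = jFK K N := by
  apply Subtype.ext
  simp [jRK, jFK, qExpand_one_apply]

theorem jFK_Kbar [NeZero N] : jFK Kbar N = jF N := rfl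

section Lift

variable {K N}
variable {L : Type*} [Field L]

/-- Extension of an injective ring hom `R_N →+* L` to the fraction field `FFK K N`. -/
def liftFK (s : RNK K N →+* L) (hs : Function.Injective s) : FFK K N →+* L :=
  letI : Algebra (RNK K N) (FFK K N) := (inclRNK K N).toRingHom.toAlgebra
  haveI : FaithfulSMul (RNK K N) (FFK K N) :=
    (faithfulSMul_iff_algebraMap_injective _ _).mpr (inclRNK_injective K N)
  haveI : IsFractionRing (RNK K N) (FFK K N) :=
    IsFractionRing.of_field _ _ fun z => by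
      obtain ⟨r, t, -, h⟩ := exists_div_inclRNK K N z
      exact ⟨r, t, h⟩
  IsFractionRing.lift hs

theorem liftFK_inclRNK (s : RNK K N →+* L) (hs : Function.Injective s) (r : RNK K N) :
    liftFK s hs (inclRNK K N r) = s r := by
  let _ : Algebra (RNK K N) (FFK K N) := (inclRNK K N).toRingHom.toAlgebra
  have : FaithfulSMul (RNK K N) (FFK K N) :=
    (faithfulSMul_iff_algebraMap_injective _ _).mpr (inclRNK_injective K N)
  have : IsFractionRing (RNK K N) (FFK K N) :=
    IsFractionRing.of_field _ _ fun z => by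
      obtain ⟨r, t, -, h⟩ := exists_div_inclRNK K N z
      exact ⟨r, t, h⟩
  exact IsFractionRing.lift_algebraMap hs r

theorem liftFK_div (s : RNK K N →+* L) (hs : Function.Injective s) (r t : RNK K N) :
    liftFK s hs (inclRNK K N r / inclRNK K N t) = s r / s t := by
  rw [map_div₀, liftFK_inclRNK, liftFK_inclRNK]

theorem liftFK_algebraMap (s : RNK K N →+* L) (hs : Function.Injective s) (c : K) :
    liftFK s hs (algebraMap K (FFK K N) c) = s (algebraMap K (RNK K N) c) := by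
  rw [← liftFK_inclRNK s hs]
  congr 1

end Lift

end Fermat.Agent.S29.H282

end
end
-- ===== PACK-END S29/H282/FracK.lean

-- ===== PACK-BEGIN S29/H282/BridgeK.lean
section


/-!
# S29 / M4b-K2 (helper282) — the bridge `R_N(K) → Hol` for an arbitrary coefficient field `K ⊆ ℂ`

Port of the second half of `Fermat/Agent/S24/Mod/H997Bridge.lean` from `(ℚ̄, ιK)` to an arbitrary
field `K` with a ring hom `ι : K →+* ℂ`.
-/

set_option autoImplicit false

noncomputable section

open ModularCurve HahnSeries UpperHalfPlane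
open scoped MatrixGroups

namespace Fermat.Agent.S29.H282

open Fermat.Agent.S24 Fermat.Agent.S24.H997 Fermat.Agent.S24.Deg457

variable {K : Type*} [Field K] [Algebra ℚ K] (ι : K →+* ℂ)
variable {N : ℕ} [NeZero N] (B : HolBase N)

theorem ι_algebraMap (c : ℚ) : ι (algebraMap ℚ K c) = (c : ℂ) := by
  have h : ι.comp (algebraMap ℚ K) = algebraMap ℚ ℂ := Subsingleton.elim _ _
  have := congrArg (fun f : ℚ →+* ℂ => f c) h
  simpa using this

/-- The formal comparison map `K((q)) → ℂ((z))`, `q ↦ z^N`, coefficients via `ι`. -/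
def ΦK (N : ℕ) [NeZero N] : LaurentSeries K →+* LaurentSeries ℂ :=
  (qExpand ℂ N).comp (coeffMap ι)

theorem ΦK_injective : Function.Injective (ΦK ι N) := by
  intro x y h
  have h1 : coeffMap ι x = coeffMap ι y := qExpand_injective N h
  ext k
  apply ι.injective
  have := congrArg (fun s => s.coeff k) h1
  simpa using this

theorem ΦK_coeff (x : LaurentSeries K) (k : ℤ) :
    (ΦK ι N x).coeff k = if (N : ℤ) ∣ k then ι (x.coeff (k / N)) else 0 := by
  split_ifs with h
  · obtain ⟨m, rfl⟩ := h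
    have hN : (N : ℤ) ≠ 0 := by exact_mod_cast NeZero.ne N
    rw [Int.mul_ediv_cancel_left _ hN]
    show (qExpand ℂ N (coeffMap ι x)).coeff (N * m) = _
    rw [qExpand_coeff_mul]; rfl
  · exact qExpand_coeff_of_not_dvd N _ h

theorem ΦK_algebraMap (c : K) :
    ΦK ι N (algebraMap K (LaurentSeries K) c) = HahnSeries.C (ι c) := by
  rw [algebraMap_laurentSeries_eq_single]
  show qExpand ℂ N (coeffMap ι (HahnSeries.single 0 c)) = _
  rw [coeffMap_single, qExpand_single, mul_zero]; rfl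

theorem ΦK_gen (d : ℕ) [NeZero d] (hd : d ∣ N) :
    ΦK ι N (coeffEmb K (qExpand ℚ d jq)) = B.qexp (B.JH d hd) := by
  ext k
  rw [ΦK_coeff]
  show _ = (B.qexp ⟨B.J d, B.J_mem d hd⟩).coeff k
  rw [B.qexp_J d hd k]
  have hN : (N : ℤ) ≠ 0 := by exact_mod_cast NeZero.ne N
  have hd0 : (d : ℤ) ≠ 0 := by exact_mod_cast NeZero.ne d
  by_cases h1 : (N : ℤ) ∣ k
  · obtain ⟨m, rfl⟩ := h1
    rw [if_pos (dvd_mul_right _ _), Int.mul_ediv_cancel_left _ hN, coeffEmb_coeff, ι_algebraMap]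
    by_cases h2 : (d : ℤ) ∣ m
    · obtain ⟨l, rfl⟩ := h2
      have h3 : ((N * d : ℕ) : ℤ) ∣ (N : ℤ) * (d * l) := ⟨l, by push_cast; ring⟩
      rw [if_pos h3, qExpand_coeff_mul]
      have : (N : ℤ) * (d * l) / ((N * d : ℕ) : ℤ) = l := by
        have h4 : (N : ℤ) * (d * l) = ((N * d : ℕ) : ℤ) * l := by push_cast; ring
        rw [h4, Int.mul_ediv_cancel_left]
        exact_mod_cast (Nat.mul_ne_zero (NeZero.ne N) (NeZero.ne d))
      rw [this]
    · have h3 : ¬ ((N * d : ℕ) : ℤ) ∣ (N : ℤ) * m := by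
        rintro ⟨l, hl⟩
        apply h2
        refine ⟨l, ?_⟩
        have : (N : ℤ) * m = N * (d * l) := by rw [hl]; push_cast; ring
        exact mul_left_cancel₀ hN this
      rw [if_neg h3, qExpand_coeff_of_not_dvd d _ h2]
      simp
  · have h3 : ¬ ((N * d : ℕ) : ℤ) ∣ k := by
      intro h; apply h1
      exact dvd_trans ⟨(d : ℤ), by push_cast; ring⟩ h
    rw [if_neg h1, if_neg h3]

theorem ΦK_mem_range {r : LaurentSeries K} (hr : r ∈ RNK K N) : ΦK ι N r ∈ B.qexp.range := by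
  induction hr using Algebra.adjoin_induction with
  | mem x hx =>
      obtain ⟨y, ⟨d, hne, hd, rfl⟩, rfl⟩ := hx
      exact ⟨B.JH d hd, (ΦK_gen ι B d hd).symm⟩
  | algebraMap c =>
      exact ⟨B.constH (ι c), by rw [ΦK_algebraMap]; exact B.qexp_const _⟩
  | add _ _ _ _ hx hy => rw [map_add]; exact add_mem hx hy
  | mul _ _ _ _ hx hy => rw [map_mul]; exact mul_mem hx hy

/-- The bridge `e : R_N(K) →+* Hol`. -/
def bridgeK : RNK K N →+* B.Hol :=
  (B.qexpEquiv.symm : B.qexp.range →+* B.Hol).comp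
    (((ΦK ι N).comp (RNK K N).val.toRingHom).codRestrict B.qexp.range
      fun r => ΦK_mem_range ι B r.2)

theorem qexp_bridgeK (r : RNK K N) :
    B.qexp (bridgeK ι B r) = ΦK ι N (r : LaurentSeries K) := by
  have h := B.qexpEquiv.apply_symm_apply
    ((((ΦK ι N).comp (RNK K N).val.toRingHom).codRestrict B.qexp.range
      fun r => ΦK_mem_range ι B r.2) r)
  exact congrArg Subtype.val h

theorem bridgeK_injective : Function.Injective (bridgeK ι B) := by
  intro r r' h
  apply Subtype.ext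
  apply ΦK_injective ι (N := N)
  rw [← qexp_bridgeK, ← qexp_bridgeK, h]

theorem bridgeK_algebraMap (c : K) :
    bridgeK ι B (algebraMap K (RNK K N) c) = B.constH (ι c) := by
  apply B.qexp_injective
  rw [qexp_bridgeK]
  show ΦK ι N (algebraMap K (LaurentSeries K) c) = _
  rw [ΦK_algebraMap]
  exact (B.qexp_const _).symm

theorem bridgeK_jRK (d : ℕ) [NeZero d] (hd : d ∣ N) :
    bridgeK ι B (jRK K N d hd) = B.JH d hd := by
  apply B.qexp_injective
  rw [qexp_bridgeK]
  exact ΦK_gen ι B d hd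

/-- Every `e r` is `Γ₀(N)`-invariant. -/
theorem compH_bridgeK_of_mem {g : SL(2, ℤ)} (hg : g ∈ CongruenceSubgroup.Gamma0 N)
    (r : RNK K N) : B.compH g (bridgeK ι B r) = bridgeK ι B r := by
  obtain ⟨r, hr⟩ := r
  induction hr using Algebra.adjoin_induction with
  | mem x hx =>
      obtain ⟨y, ⟨d, hne, hd, rfl⟩, rfl⟩ := hx
      have : (⟨coeffEmb K (qExpand ℚ d jq), Algebra.subset_adjoin
          ⟨_, ⟨d, hne, hd, rfl⟩, rfl⟩⟩ : RNK K N) = jRK K N d hd := rfl
      rw [this, bridgeK_jRK]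
      exact B.compH_JH_of_mem d hd hg
  | algebraMap c =>
      have : (⟨algebraMap K (LaurentSeries K) c, Subalgebra.algebraMap_mem _ c⟩ : RNK K N)
          = algebraMap K (RNK K N) c := rfl
      rw [this, bridgeK_algebraMap]
      rfl
  | add x y hx hy ihx ihy =>
      have : (⟨x + y, add_mem hx hy⟩ : RNK K N) = ⟨x, hx⟩ + ⟨y, hy⟩ := rfl
      rw [this, map_add, map_add, ihx, ihy]
  | mul x y hx hy ihx ihy =>
      have : (⟨x * y, mul_mem hx hy⟩ : RNK K N) = ⟨x, hx⟩ * ⟨y, hy⟩ := rfl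
      rw [this, map_mul, map_mul, ihx, ihy]

end Fermat.Agent.S29.H282

end
end
-- ===== PACK-END S29/H282/BridgeK.lean

-- ===== PACK-BEGIN S29/H282/LocalK.lean
section


/-!
# S29 / M4b-K2 (helper282) — `LocalData` for the function field over `K` from an expansion

Port of `Fermat/Agent/S24/Mod/H997Local.lean` (namespace `HolBase`) and of the first half of
`H997Core.lean` from `(ℚ̄, ιK)` to an arbitrary field `K` with `ι : K →+* ℂ`.
-/

set_option autoImplicit false

noncomputable section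

open ModularCurve HahnSeries UpperHalfPlane
open scoped MatrixGroups

namespace Fermat.Agent.S29.H282

open Fermat.Agent.S24 Fermat.Agent.S24.H997 Fermat.Agent.S24.Deg457

variable {K : Type*} [Field K] [Algebra ℚ K] (ι : K →+* ℂ)
variable {N : ℕ} [NeZero N] (B : HolBase N) (X : Expansion B)

/-- the ring hom `R_N(K) → ℂ((z))`, `r ↦ E (e r ∘ g⁻¹)` -/
def sGK (g : SL(2, ℤ)) : RNK K N →+* LaurentSeries ℂ :=
  X.E.comp ((B.compH g⁻¹).comp (bridgeK ι B))

theorem sGK_apply (g : SL(2, ℤ)) (r : RNK K N) :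
    sGK ι B X g r = X.E (B.compH g⁻¹ (bridgeK ι B r)) := rfl

theorem sGK_injective (g : SL(2, ℤ)) : Function.Injective (sGK ι B X g) :=
  X.inj.comp ((B.compH_injective g⁻¹).comp (bridgeK_injective ι B))

/-- the embedding `FFK K N → ℂ((z))` attached to `g` -/
def sigmaGK (g : SL(2, ℤ)) : FFK K N →+* LaurentSeries ℂ :=
  liftFK (sGK ι B X g) (sGK_injective ι B X g)

theorem sigmaGK_inclRNK (g : SL(2, ℤ)) (r : RNK K N) :
    sigmaGK ι B X g (inclRNK K N r) = X.E (B.compH g⁻¹ (bridgeK ι B r)) :=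
  liftFK_inclRNK _ _ r

theorem sigmaGK_algebraMap (g : SL(2, ℤ)) (c : K) :
    sigmaGK ι B X g (algebraMap K (FFK K N) c) = HahnSeries.C (ι c) := by
  rw [sigmaGK, liftFK_algebraMap, sGK_apply, bridgeK_algebraMap, HolBase.compH_constH, X.const]

theorem sigmaGK_jFK (g : SL(2, ℤ)) :
    sigmaGK ι B X g (jFK K N) = X.E (B.JH 1 (one_dvd N)) := by
  rw [← inclRNK_jRK_one, sigmaGK_inclRNK, bridgeK_jRK, HolBase.compH_JH_one]

theorem sGK_mul_of_mem (g : SL(2, ℤ)) {δ : SL(2, ℤ)} (hδ : δ ∈ CongruenceSubgroup.Gamma0 N) :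
    sGK ι B X (g * δ) = sGK ι B X g := by
  ext1 r
  rw [sGK_apply, sGK_apply, mul_inv_rev, HolBase.compH_mul,
    compH_bridgeK_of_mem ι B (inv_mem hδ)]

theorem sigmaGK_mul_of_mem (g : SL(2, ℤ)) {δ : SL(2, ℤ)}
    (hδ : δ ∈ CongruenceSubgroup.Gamma0 N) : sigmaGK ι B X (g * δ) = sigmaGK ι B X g := by
  unfold sigmaGK
  congr 1
  exact sGK_mul_of_mem ι B X g hδ

theorem sigmaGK_eq_of_mk_eq {g g' : SL(2, ℤ)}
    (h : (g : XX N) = (g' : XX N)) : sigmaGK ι B X g = sigmaGK ι B X g' := by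
  have hmem : g⁻¹ * g' ∈ CongruenceSubgroup.Gamma0 N := QuotientGroup.eq.mp h
  have := sigmaGK_mul_of_mem ι B X g hmem
  rw [mul_inv_cancel_left] at this
  exact this.symm

/-- the embedding attached to a coset -/
def sigmaXK (x : XX N) : FFK K N →+* LaurentSeries ℂ := sigmaGK ι B X (Quotient.out x)

theorem sigmaXK_mk (g : SL(2, ℤ)) : sigmaXK ι B X (g : XX N) = sigmaGK ι B X g :=
  sigmaGK_eq_of_mk_eq ι B X (QuotientGroup.out_eq' _)

theorem sigmaXK_injective : Function.Injective (sigmaXK (K := K) ι B X) := by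
  intro x y hxy
  obtain ⟨g, rfl⟩ := QuotientGroup.mk_surjective x
  obtain ⟨g', rfl⟩ := QuotientGroup.mk_surjective y
  rw [sigmaXK_mk, sigmaXK_mk] at hxy
  have h1 := congrArg (fun s => s (inclRNK K N (jRK K N N dvd_rfl))) hxy
  simp only [sigmaGK_inclRNK, bridgeK_jRK] at h1
  have h2 := X.inj h1
  apply QuotientGroup.eq.mpr
  apply B.J_distinct
  intro τ
  have h3 := congrArg (fun h : B.Hol => (h : ℍ → ℂ) (g' • τ)) h2
  simp only [HolBase.compH_apply] at h3
  rw [← mul_smul, ← mul_smul, inv_mul_cancel, one_smul] at h3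
  exact h3

theorem rotRel_sigmaGK (ε : SL(2, ℤ)) (R : RotData B X ε) (g : SL(2, ℤ)) (f : FFK K N) :
    RotRel R.ζ (sigmaGK ι B X g f) (sigmaGK ι B X (ε⁻¹ * g) f) := by
  have hζ : R.ζ ≠ 0 := R.hζ.ne_zero R.m_pos.ne'
  obtain ⟨r, t, -, rfl⟩ := exists_div_inclRNK K N f
  rw [map_div₀, map_div₀]
  have key : ∀ r : RNK K N, RotRel R.ζ (sigmaGK ι B X g (inclRNK K N r))
      (sigmaGK ι B X (ε⁻¹ * g) (inclRNK K N r)) := by
    intro r
    rw [sigmaGK_inclRNK, sigmaGK_inclRNK, mul_inv_rev, inv_inv, HolBase.compH_mul]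
    exact R.rot _
  exact (key r).div hζ (key t)

/-- `LocalData` from an expansion with rotation data. -/
def mkLocalDataK (ε : SL(2, ℤ)) (R : RotData B X ε) (t : FFK K N) (u : LaurentSeries ℂ)
    (ht : ∀ g : SL(2, ℤ), sigmaGK ι B X g t = u) (hu : u.order = (R.m : ℤ)) :
    LocalData K (FFK K N) ℂ (XX N) t where
  m := R.m
  m_pos := R.m_pos
  ζ := R.ζ
  hζ := R.hζ
  ι := ι
  perm := permOf N ε⁻¹
  σ := sigmaXK ι B X
  σ_inj := sigmaXK_injective ι B X
  σ_const x c := sigmaGK_algebraMap ι B X _ c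
  σ_t_eq x y := by
    show sigmaGK ι B X _ t = sigmaGK ι B X _ t
    rw [ht, ht]
  σ_t_order x := by
    show (sigmaGK ι B X _ t).order = _
    rw [ht, hu]
  σ_perm_order x f := by
    obtain ⟨g, rfl⟩ := QuotientGroup.mk_surjective x
    have h : permOf N ε⁻¹ (g : XX N) = ((ε⁻¹ * g : SL(2, ℤ)) : XX N) := rfl
    rw [h, sigmaXK_mk, sigmaXK_mk]
    exact (rotRel_sigmaGK ι B X ε R g f).1
  σ_perm_leadingCoeff x f := by
    obtain ⟨g, rfl⟩ := QuotientGroup.mk_surjective x
    have h : permOf N ε⁻¹ (g : XX N) = ((ε⁻¹ * g : SL(2, ℤ)) : XX N) := rfl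
    rw [h, sigmaXK_mk, sigmaXK_mk]
    exact (rotRel_sigmaGK ι B X ε R g f).2

@[simp] theorem mkLocalDataK_perm (ε : SL(2, ℤ)) (R : RotData B X ε) (t : FFK K N)
    (u : LaurentSeries ℂ) (ht : ∀ g : SL(2, ℤ), sigmaGK ι B X g t = u)
    (hu : u.order = (R.m : ℤ)) :
    (mkLocalDataK ι B X ε R t u ht hu).perm = permOf N ε⁻¹ := rfl

@[simp] theorem mkLocalDataK_σ (ε : SL(2, ℤ)) (R : RotData B X ε) (t : FFK K N)
    (u : LaurentSeries ℂ) (ht : ∀ g : SL(2, ℤ), sigmaGK ι B X g t = u)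
    (hu : u.order = (R.m : ℤ)) :
    (mkLocalDataK ι B X ε R t u ht hu).σ = sigmaXK ι B X := rfl

@[simp] theorem mkLocalDataK_m (ε : SL(2, ℤ)) (R : RotData B X ε) (t : FFK K N)
    (u : LaurentSeries ℂ) (ht : ∀ g : SL(2, ℤ), sigmaGK ι B X g t = u)
    (hu : u.order = (R.m : ℤ)) :
    (mkLocalDataK ι B X ε R t u ht hu).m = R.m := rfl

@[simp] theorem mkLocalDataK_ζ (ε : SL(2, ℤ)) (R : RotData B X ε) (t : FFK K N)
    (u : LaurentSeries ℂ) (ht : ∀ g : SL(2, ℤ), sigmaGK ι B X g t = u)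
    (hu : u.order = (R.m : ℤ)) :
    (mkLocalDataK ι B X ε R t u ht hu).ζ = R.ζ := rfl

end Fermat.Agent.S29.H282

end
end
-- ===== PACK-END S29/H282/LocalK.lean

-- ===== PACK-BEGIN S29/H282/CoreK.lean
section


/-!
# S29 / M4b-K2 (helper282) — the local data of the function field over `K` at every point

Port of the second half of `Fermat/Agent/S24/Mod/H997Core.lean` from `(ℚ̄, ιK)` to an arbitrary
field `K` with `ι : K →+* ℂ`.
-/

set_option autoImplicit false

noncomputable section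

open ModularCurve HahnSeries UpperHalfPlane
open scoped MatrixGroups

namespace Fermat.Agent.S29.H282

open Fermat.Agent.S24 Fermat.Agent.S24.H997 Fermat.Agent.S24.Deg457

variable {K : Type*} [Field K] [Algebra ℚ K] (ι : K →+* ℂ)
variable {N : ℕ} [NeZero N] (A : AnalyticCore N)

/-- the local data at `∞` -/
def dataInfK : LocalData K (FFK K N) ℂ (XX N) (jFK K N)⁻¹ :=
  mkLocalDataK ι A.toHolBase A.toHolBase.qexpExpansion ModularGroup.T A.infRot (jFK K N)⁻¹
    (A.qexp (A.toHolBase.JH 1 (one_dvd N)))⁻¹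
    (fun g => by rw [map_inv₀, sigmaGK_jFK]; rfl)
    (by
      rw [RotRel.order_inv' A.toHolBase.qexp_J_one_ne_zero, A.toHolBase.order_qexp_J_one, neg_neg]
      rfl)

theorem sigmaGK_sub {a : K} {ε : SL(2, ℤ)} (P : PointData A.toHolBase (ι a) ε)
    (g : SL(2, ℤ)) :
    sigmaGK ι A.toHolBase P.X g (jFK K N - algebraMap K (FFK K N) a)
      = P.X.E (A.toHolBase.JH 1 (one_dvd N) - A.toHolBase.constH (ι a)) := by
  rw [map_sub, sigmaGK_jFK, sigmaGK_algebraMap, map_sub, P.X.const]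

/-- the local data attached to point data over `a` -/
def dataOfPointK {a : K} {ε : SL(2, ℤ)} (P : PointData A.toHolBase (ι a) ε) :
    LocalData K (FFK K N) ℂ (XX N) (jFK K N - algebraMap K (FFK K N) a) :=
  mkLocalDataK ι A.toHolBase P.X ε P.R _ _ (fun g => sigmaGK_sub ι A P g) P.order_J

/-- all the embeddings `σ_x` agree on `K(j)` -/
theorem sigmaXK_eq_on_adjoin (X : Expansion A.toHolBase) (x y : XX N) {f : FFK K N}
    (hf : f ∈ IntermediateField.adjoin K {jFK K N}) :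
    sigmaXK ι A.toHolBase X x f = sigmaXK ι A.toHolBase X y f := by
  induction hf using IntermediateField.adjoin_induction with
  | mem z hz =>
      rw [Set.mem_singleton_iff] at hz
      subst hz
      show sigmaGK ι A.toHolBase X _ (jFK K N) = sigmaGK ι A.toHolBase X _ (jFK K N)
      rw [sigmaGK_jFK, sigmaGK_jFK]
  | algebraMap c =>
      show sigmaGK ι A.toHolBase X _ _ = sigmaGK ι A.toHolBase X _ _
      rw [sigmaGK_algebraMap, sigmaGK_algebraMap]
  | add z w _ _ hz hw => rw [map_add, map_add, hz, hw]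
  | inv z _ hz => rw [map_inv₀, map_inv₀, hz]
  | mul z w _ _ hz hw => rw [map_mul, map_mul, hz, hw]

include ι A in
/-- lower bound for the degree: `|SL₂(ℤ)/Γ₀(N)| ≤ [FFK K N : K(j)]`. -/
theorem card_le_finrankK
    [FiniteDimensional ↥(IntermediateField.adjoin K {jFK K N}) (FFK K N)] :
    Nat.card (XX N) ≤ Module.finrank ↥(IntermediateField.adjoin K {jFK K N}) (FFK K N) := by
  classical
  set E := IntermediateField.adjoin K {jFK K N} with hE
  let X := A.toHolBase.qexpExpansion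
  let x0 : XX N := ((1 : SL(2, ℤ)) : XX N)
  let ψ : ↥E →+* LaurentSeries ℂ := (sigmaXK ι A.toHolBase X x0).comp (algebraMap ↥E (FFK K N))
  letI : Algebra ↥E (LaurentSeries ℂ) := ψ.toAlgebra
  let a : XX N → (FFK K N →ₐ[↥E] LaurentSeries ℂ) := fun x =>
    { sigmaXK ι A.toHolBase X x with
      commutes' := fun y => sigmaXK_eq_on_adjoin ι A X x x0 y.2 }
  have ha : Function.Injective a := by
    intro x y hxy
    apply sigmaXK_injective ι A.toHolBase X
    refine RingHom.ext fun f => ?_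
    exact congrArg (fun φ : FFK K N →ₐ[↥E] LaurentSeries ℂ => φ f) hxy
  haveI : Module.Free ↥E (FFK K N) := Module.Free.of_divisionRing ↥E (FFK K N)
  haveI : Module.Finite ↥E (FFK K N) := ‹FiniteDimensional ↥E (FFK K N)›
  haveI : Finite (FFK K N →ₐ[↥E] LaurentSeries ℂ) :=
    Finite.algHom ↥E (FFK K N) (LaurentSeries ℂ)
  calc Nat.card (XX N) ≤ Nat.card (FFK K N →ₐ[↥E] LaurentSeries ℂ) :=
        Nat.card_le_card_of_injective a ha
    _ ≤ Module.finrank ↥E (FFK K N) := card_algHom_le_finrank ↥E (FFK K N) (LaurentSeries ℂ)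

/-- the stabiliser generator used over the point `a` -/
def epsAt (a : K) : SL(2, ℤ) :=
  letI := Classical.propDecidable
  if ι a = 0 then ModularGroup.S * ModularGroup.T
  else if ι a = 1728 then ModularGroup.S else 1

/-- the point data over the point `a` -/
def pointAt (a : K) : PointData A.toHolBase (ι a) (epsAt ι a) :=
  letI := Classical.propDecidable
  if h0 : ι a = 0 then by
    rw [epsAt, if_pos h0, h0]; exact A.at0
  else if h1 : ι a = 1728 then by
    rw [epsAt, if_neg h0, if_pos h1, h1]; exact A.at1728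
  else by
    rw [epsAt, if_neg h0, if_neg h1]; exact A.generic (ι a) h0 h1

/-- the local data over a finite point `a : K` -/
def dataFinK (a : K) : LocalData K (FFK K N) ℂ (XX N) (jFK K N - algebraMap K (FFK K N) a) :=
  dataOfPointK ι A (pointAt ι A a)

theorem dataFinK_perm (a : K) : (dataFinK ι A a).perm = permOf N (epsAt ι a)⁻¹ := rfl

theorem dataFinK_σ (a : K) :
    (dataFinK ι A a).σ = sigmaXK ι A.toHolBase (pointAt ι A a).X := rfl

theorem dataFinK_m (a : K) : (dataFinK ι A a).m = (pointAt ι A a).R.m := rfl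

theorem dataFinK_ζ (a : K) : (dataFinK ι A a).ζ = (pointAt ι A a).R.ζ := rfl

theorem dataInfK_perm : (dataInfK (K := K) ι A).perm = permOf N ModularGroup.T⁻¹ := rfl

theorem dataInfK_σ :
    (dataInfK (K := K) ι A).σ = sigmaXK ι A.toHolBase A.toHolBase.qexpExpansion := rfl

theorem dataInfK_m : (dataInfK (K := K) ι A).m = N := rfl

end Fermat.Agent.S29.H282

end
end
-- ===== PACK-END S29/H282/CoreK.lean

-- ===== PACK-BEGIN S48/H282/PkgK.lean
section



/-!
# Tower A1 / A1-KUM, K3 inputs (helper282) — the generic package over ANY coefficient field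

helper332's PKG-GEN (`S48/H332/Pkg*.lean`) attaches to analytic input
`D : GenData M Γ (GenField.ofRat S₀ hj)` (avatars in `holN M` of a set `S₀ ∋ j` of RATIONAL Laurent
series, invariant under `Γ`, separating the cosets of `Γ`) the `LocalData` of the field
`ℚ̄·ℚ(S₀)` over `ℚ̄`.  Here the SAME analytic input is used to produce the `LocalData` of

  `FGK K S₀ = laurentBaseChange K (ℚ(S₀))`

over ANY field `K` with an embedding `ι : K →+* ℂ` (the case needed for K3 is `K = ℂ`), exactly as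
`S29/H282/{FracK,BridgeK,LocalK,CoreK,DegK}` did for `Γ₀(N)`:

* `RGK`, `inclRGK`, `liftGK`                    : the polynomial ring `K[S₀]` and its fraction field;
* `bridgeGK`                                    : `K[S₀] →+* Hol`, `qexp (e r) = ΦK ι M r`;
* `sigmaGG`, `sigmaXG`, `mkLocalDataG`          : the embeddings and `LocalData` from an expansion;
* `dataInfG`, `dataFinG`                        : the local data at `∞` and over every `a : K`;
* `finiteDimensional_adjoin_jGK`, `finrank_adjoin_jGK` : `[FGK : K(j)] = [SL₂(ℤ) : Γ]`.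
-/

set_option autoImplicit false
set_option linter.style.haveILetI false
set_option linter.unusedVariables false
set_option linter.unusedSectionVars false

noncomputable section

open ModularCurve HahnSeries UpperHalfPlane IntermediateField
open scoped MatrixGroups

namespace Fermat.Agent.S48.H282

open Fermat.Agent.S24 Fermat.Agent.S24.H997 Fermat.Agent.S24.Deg457
open Fermat.Agent.S48.H332
open Fermat.Agent.S29.H282 (ΦK ΦK_injective ΦK_coeff ΦK_algebraMap ι_algebraMap epsAt)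

/-! ### The field and its polynomial ring -/

section Frac

variable (K : Type*) [Field K] [Algebra ℚ K] (S₀ : Set (LaurentSeries ℚ))

/-- The generators `S₀`, with coefficients in `K`. -/
def gensK : Set (LaurentSeries K) := ⇑(coeffEmb K) '' S₀

/-- The field `K·ℚ(S₀) ⊆ K((q))` (as a type). -/
abbrev FGK : Type _ := ↥(laurentBaseChange K (IntermediateField.adjoin ℚ S₀))

/-- `K·ℚ(S₀)` is generated over `K` by `S₀`. -/
theorem fgK_eq_adjoin :
    laurentBaseChange K (IntermediateField.adjoin ℚ S₀)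
      = IntermediateField.adjoin K (gensK K S₀) := by
  apply le_antisymm
  · rw [laurentBaseChange, IntermediateField.adjoin_le_iff]
    rintro _ ⟨x, hx, rfl⟩
    have hx' : x ∈ IntermediateField.adjoin ℚ S₀ := hx
    induction hx' using IntermediateField.adjoin_induction with
    | mem y hy => exact IntermediateField.subset_adjoin K _ ⟨y, hy, rfl⟩
    | algebraMap c =>
        have h : coeffEmb K (algebraMap ℚ (LaurentSeries ℚ) c)
            = algebraMap K (LaurentSeries K) (algebraMap ℚ K c) := by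
          rw [coeffEmb, coeffMap_algebraMap']
        show coeffEmb K (algebraMap ℚ (LaurentSeries ℚ) c) ∈ _
        rw [h]
        exact IntermediateField.algebraMap_mem _ _
    | add y z _ _ hy hz =>
        show coeffEmb K (y + z) ∈ _
        rw [map_add]
        exact add_mem (hy (by assumption)) (hz (by assumption))
    | inv y _ hy =>
        show coeffEmb K (y⁻¹) ∈ _
        rw [map_inv₀]
        exact inv_mem (hy (by assumption))
    | mul y z _ _ hy hz =>
        show coeffEmb K (y * z) ∈ _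
        rw [map_mul]
        exact mul_mem (hy (by assumption)) (hz (by assumption))
  · rw [laurentBaseChange]
    exact IntermediateField.adjoin.mono _ _ _
      (Set.image_mono (IntermediateField.subset_adjoin ℚ _))

/-- The polynomial ring `K[S₀] ⊆ K((q))`. -/
abbrev RGK : Subalgebra K (LaurentSeries K) := Algebra.adjoin K (gensK K S₀)

theorem RGK_le :
    RGK K S₀ ≤ (laurentBaseChange K (IntermediateField.adjoin ℚ S₀)).toSubalgebra := by
  rw [fgK_eq_adjoin]
  exact IntermediateField.algebra_adjoin_le_adjoin K (gensK K S₀)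

/-- The inclusion `K[S₀] → K·ℚ(S₀)`. -/
def inclRGK : RGK K S₀ →ₐ[K] FGK K S₀ := Subalgebra.inclusion (RGK_le K S₀)

@[simp] theorem coe_inclRGK (r : RGK K S₀) :
    ((inclRGK K S₀ r : FGK K S₀) : LaurentSeries K) = r := rfl

theorem inclRGK_injective : Function.Injective (inclRGK K S₀) :=
  Subalgebra.inclusion_injective (RGK_le K S₀)

theorem exists_div_inclRGK (f : FGK K S₀) :
    ∃ r t : RGK K S₀, t ≠ 0 ∧ f = inclRGK K S₀ r / inclRGK K S₀ t := by
  have hf : (f : LaurentSeries K) ∈ IntermediateField.adjoin K (gensK K S₀) := by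
    rw [← fgK_eq_adjoin]; exact f.2
  obtain ⟨r, hr, s, hs, h⟩ := IntermediateField.mem_adjoin_iff_div.mp hf
  by_cases hs0 : s = 0
  · refine ⟨0, 1, one_ne_zero, ?_⟩
    apply Subtype.ext
    rw [h, hs0, div_zero]
    simp
  · refine ⟨⟨r, hr⟩, ⟨s, hs⟩, fun h0 => hs0 (congrArg Subtype.val h0), ?_⟩
    apply Subtype.ext
    rw [h]
    simp

variable {S₀}

/-- A generator as an element of `K[S₀]`. -/
def genRK {s : LaurentSeries ℚ} (hs : s ∈ S₀) : RGK K S₀ :=
  ⟨coeffEmb K s, Algebra.subset_adjoin ⟨s, hs, rfl⟩⟩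

/-- The `j`-function as an element of `K·ℚ(S₀)`. -/
def jGK (hj : jq ∈ S₀) : FGK K S₀ :=
  ⟨coeffEmb K jq, coeffEmb_mem_laurentBaseChange K (IntermediateField.subset_adjoin ℚ S₀ hj)⟩

theorem inclRGK_genRK_j (hj : jq ∈ S₀) : inclRGK K S₀ (genRK K hj) = jGK K hj := rfl

theorem coe_jGK (hj : jq ∈ S₀) : ((jGK K hj : FGK K S₀) : LaurentSeries K) = JK K := rfl

section Lift

variable {K}
variable {L : Type*} [Field L]

/-- Extension of an injective ring hom `K[S₀] →+* L` to the fraction field `K·ℚ(S₀)`. -/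
def liftGK (s : RGK K S₀ →+* L) (hs : Function.Injective s) : FGK K S₀ →+* L :=
  letI : Algebra (RGK K S₀) (FGK K S₀) := (inclRGK K S₀).toRingHom.toAlgebra
  haveI : FaithfulSMul (RGK K S₀) (FGK K S₀) :=
    (faithfulSMul_iff_algebraMap_injective _ _).mpr (inclRGK_injective K S₀)
  haveI : IsFractionRing (RGK K S₀) (FGK K S₀) :=
    IsFractionRing.of_field _ _ fun z => by
      obtain ⟨r, t, -, h⟩ := exists_div_inclRGK K S₀ z
      exact ⟨r, t, h⟩
  IsFractionRing.lift hs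

theorem liftGK_inclRGK (s : RGK K S₀ →+* L) (hs : Function.Injective s) (r : RGK K S₀) :
    liftGK s hs (inclRGK K S₀ r) = s r := by
  let _ : Algebra (RGK K S₀) (FGK K S₀) := (inclRGK K S₀).toRingHom.toAlgebra
  have : FaithfulSMul (RGK K S₀) (FGK K S₀) :=
    (faithfulSMul_iff_algebraMap_injective _ _).mpr (inclRGK_injective K S₀)
  have : IsFractionRing (RGK K S₀) (FGK K S₀) :=
    IsFractionRing.of_field _ _ fun z => by
      obtain ⟨r, t, -, h⟩ := exists_div_inclRGK K S₀ z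
      exact ⟨r, t, h⟩
  exact IsFractionRing.lift_algebraMap hs r

theorem liftGK_div (s : RGK K S₀ →+* L) (hs : Function.Injective s) (r t : RGK K S₀) :
    liftGK s hs (inclRGK K S₀ r / inclRGK K S₀ t) = s r / s t := by
  rw [map_div₀, liftGK_inclRGK, liftGK_inclRGK]

theorem liftGK_algebraMap (s : RGK K S₀ →+* L) (hs : Function.Injective s) (c : K) :
    liftGK s hs (algebraMap K (FGK K S₀) c) = s (algebraMap K (RGK K S₀) c) := by
  rw [← liftGK_inclRGK s hs]
  congr 1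

end Lift

end Frac

/-! ### The bridge -/

section Bridge

variable {K : Type*} [Field K] [Algebra ℚ K] (ι : K →+* ℂ)
variable {S₀ : Set (LaurentSeries ℚ)} {hj : jq ∈ S₀}
variable {M : ℕ} [NeZero M] {Γ : Subgroup SL(2, ℤ)} (B : GenBase M Γ (GenField.ofRat S₀ hj))

/-- membership of a rational generator in the generating set of `GenField.ofRat` -/
theorem mem_ofRat_S {s : LaurentSeries ℚ} (hs : s ∈ S₀) :
    coeffEmb Kbar s ∈ (GenField.ofRat S₀ hj).S := ⟨s, hs, rfl⟩

/-- the avatar of a rational generator as an element of `Hol` -/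
def GHQ {s : LaurentSeries ℚ} (hs : s ∈ S₀) : B.Hol := B.GH (mem_ofRat_S (hj := hj) hs)

theorem compH_GHQ_of_mem {s : LaurentSeries ℚ} (hs : s ∈ S₀) {g : SL(2, ℤ)} (hg : g ∈ Γ) :
    B.compH g (GHQ B hs) = GHQ B hs :=
  B.compH_GH_of_mem _ hg

theorem GHQ_j : GHQ B hj = B.JH := rfl

theorem ΦK_genG {s : LaurentSeries ℚ} (hs : s ∈ S₀) :
    ΦK ι M (coeffEmb K s) = B.qexp (GHQ B hs) := by
  rw [GHQ, B.qexp_GH]
  show qExpand ℂ M (coeffMap ι (coeffEmb K s)) = qExpand ℂ M (coeffMap ιK (coeffEmb Kbar s))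
  rw [coeffMap_coeffEmb', coeffMap_coeffEmb']

theorem ΦK_mem_rangeG {r : LaurentSeries K} (hr : r ∈ RGK K S₀) : ΦK ι M r ∈ B.qexp.range := by
  induction hr using Algebra.adjoin_induction with
  | mem x hx =>
      obtain ⟨y, hy, rfl⟩ := hx
      exact ⟨GHQ B hy, (ΦK_genG ι B hy).symm⟩
  | algebraMap c =>
      exact ⟨B.constH (ι c), by rw [ΦK_algebraMap]; exact B.qexp_const _⟩
  | add _ _ _ _ hx hy => rw [map_add]; exact add_mem hx hy
  | mul _ _ _ _ hx hy => rw [map_mul]; exact mul_mem hx hy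

/-- The bridge `e : K[S₀] →+* Hol`. -/
def bridgeGK : RGK K S₀ →+* B.Hol :=
  (B.qexpEquiv.symm : B.qexp.range →+* B.Hol).comp
    (((ΦK ι M).comp (RGK K S₀).val.toRingHom).codRestrict B.qexp.range
      fun r => ΦK_mem_rangeG ι B r.2)

theorem qexp_bridgeGK (r : RGK K S₀) :
    B.qexp (bridgeGK ι B r) = ΦK ι M (r : LaurentSeries K) := by
  have h := B.qexpEquiv.apply_symm_apply
    ((((ΦK ι M).comp (RGK K S₀).val.toRingHom).codRestrict B.qexp.range
      fun r => ΦK_mem_rangeG ι B r.2) r)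
  exact congrArg Subtype.val h

theorem bridgeGK_injective : Function.Injective (bridgeGK ι B) := by
  intro r r' h
  apply Subtype.ext
  apply ΦK_injective ι (N := M)
  rw [← qexp_bridgeGK, ← qexp_bridgeGK, h]

theorem bridgeGK_algebraMap (c : K) :
    bridgeGK ι B (algebraMap K (RGK K S₀) c) = B.constH (ι c) := by
  apply B.qexp_injective
  rw [qexp_bridgeGK]
  show ΦK ι M (algebraMap K (LaurentSeries K) c) = _
  rw [ΦK_algebraMap]
  exact (B.qexp_const _).symm

theorem bridgeGK_genRK {s : LaurentSeries ℚ} (hs : s ∈ S₀) :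
    bridgeGK ι B (genRK K hs) = GHQ B hs := by
  apply B.qexp_injective
  rw [qexp_bridgeGK]
  exact ΦK_genG ι B hs

theorem bridgeGK_genRK_j : bridgeGK ι B (genRK K hj) = B.JH := bridgeGK_genRK ι B hj

/-- Every `e r` is `Γ`-invariant. -/
theorem compH_bridgeGK_of_mem {g : SL(2, ℤ)} (hg : g ∈ Γ) (r : RGK K S₀) :
    B.compH g (bridgeGK ι B r) = bridgeGK ι B r := by
  obtain ⟨r, hr⟩ := r
  induction hr using Algebra.adjoin_induction with
  | mem x hx =>
      obtain ⟨y, hy, rfl⟩ := hx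
      have : (⟨coeffEmb K y, Algebra.subset_adjoin ⟨y, hy, rfl⟩⟩ : RGK K S₀) = genRK K hy := rfl
      rw [this, bridgeGK_genRK]
      exact compH_GHQ_of_mem B hy hg
  | algebraMap c =>
      have : (⟨algebraMap K (LaurentSeries K) c, Subalgebra.algebraMap_mem _ c⟩ : RGK K S₀)
          = algebraMap K (RGK K S₀) c := rfl
      rw [this, bridgeGK_algebraMap]
      rfl
  | add x y hx hy ihx ihy =>
      have : (⟨x + y, add_mem hx hy⟩ : RGK K S₀) = ⟨x, hx⟩ + ⟨y, hy⟩ := rfl
      rw [this, RingHom.map_add, RingHom.map_add, ihx, ihy]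
  | mul x y hx hy ihx ihy =>
      have : (⟨x * y, mul_mem hx hy⟩ : RGK K S₀) = ⟨x, hx⟩ * ⟨y, hy⟩ := rfl
      rw [this, RingHom.map_mul, RingHom.map_mul, ihx, ihy]

end Bridge

/-! ### `LocalData` from an expansion with rotation data -/

section Local

variable {K : Type*} [Field K] [Algebra ℚ K] (ι : K →+* ℂ)
variable {S₀ : Set (LaurentSeries ℚ)} {hj : jq ∈ S₀}
variable {M : ℕ} [NeZero M] {Γ : Subgroup SL(2, ℤ)} (B : GenBase M Γ (GenField.ofRat S₀ hj))
variable (X : GenExpansion B)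

/-- the ring hom `K[S₀] → ℂ((z))`, `r ↦ E (e r ∘ g⁻¹)` -/
def sGG (g : SL(2, ℤ)) : RGK K S₀ →+* LaurentSeries ℂ :=
  X.E.comp ((B.compH g⁻¹).comp (bridgeGK ι B))

theorem sGG_apply (g : SL(2, ℤ)) (r : RGK K S₀) :
    sGG ι B X g r = X.E (B.compH g⁻¹ (bridgeGK ι B r)) := rfl

theorem sGG_injective (g : SL(2, ℤ)) : Function.Injective (sGG ι B X g) :=
  X.inj.comp ((B.compH_injective g⁻¹).comp (bridgeGK_injective ι B))

/-- the embedding `K·ℚ(S₀) → ℂ((z))` attached to `g` -/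
def sigmaGG (g : SL(2, ℤ)) : FGK K S₀ →+* LaurentSeries ℂ :=
  liftGK (sGG ι B X g) (sGG_injective ι B X g)

theorem sigmaGG_inclRGK (g : SL(2, ℤ)) (r : RGK K S₀) :
    sigmaGG ι B X g (inclRGK K S₀ r) = X.E (B.compH g⁻¹ (bridgeGK ι B r)) :=
  liftGK_inclRGK _ _ r

theorem sigmaGG_algebraMap (g : SL(2, ℤ)) (c : K) :
    sigmaGG ι B X g (algebraMap K (FGK K S₀) c) = HahnSeries.C (ι c) := by
  rw [sigmaGG, liftGK_algebraMap, sGG_apply, bridgeGK_algebraMap, GenBase.compH_constH, X.const]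

theorem sigmaGG_jGK (g : SL(2, ℤ)) :
    sigmaGG ι B X g (jGK K hj) = X.E B.JH := by
  rw [← inclRGK_genRK_j, sigmaGG_inclRGK, bridgeGK_genRK_j, GenBase.compH_JH]

theorem sGG_mul_of_mem (g : SL(2, ℤ)) {δ : SL(2, ℤ)} (hδ : δ ∈ Γ) :
    sGG ι B X (g * δ) = sGG ι B X g := by
  ext1 r
  rw [sGG_apply, sGG_apply, mul_inv_rev, GenBase.compH_mul,
    compH_bridgeGK_of_mem ι B (inv_mem hδ)]

theorem sigmaGG_mul_of_mem (g : SL(2, ℤ)) {δ : SL(2, ℤ)}
    (hδ : δ ∈ Γ) : sigmaGG ι B X (g * δ) = sigmaGG ι B X g := by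
  unfold sigmaGG
  congr 1
  exact sGG_mul_of_mem ι B X g hδ

theorem sigmaGG_eq_of_mk_eq {g g' : SL(2, ℤ)}
    (h : (g : XG Γ) = (g' : XG Γ)) : sigmaGG ι B X g = sigmaGG ι B X g' := by
  have hmem : g⁻¹ * g' ∈ Γ := QuotientGroup.eq.mp h
  have := sigmaGG_mul_of_mem ι B X g hmem
  rw [mul_inv_cancel_left] at this
  exact this.symm

/-- the embedding attached to a coset -/
def sigmaXG (x : XG Γ) : FGK K S₀ →+* LaurentSeries ℂ := sigmaGG ι B X (Quotient.out x)

theorem sigmaXG_mk (g : SL(2, ℤ)) : sigmaXG ι B X (g : XG Γ) = sigmaGG ι B X g :=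
  sigmaGG_eq_of_mk_eq ι B X (QuotientGroup.out_eq' _)

theorem sigmaXG_injective : Function.Injective (sigmaXG (K := K) ι B X) := by
  intro x y hxy
  obtain ⟨g, rfl⟩ := QuotientGroup.mk_surjective x
  obtain ⟨g', rfl⟩ := QuotientGroup.mk_surjective y
  rw [sigmaXG_mk, sigmaXG_mk] at hxy
  apply QuotientGroup.eq.mpr
  apply B.G_distinct
  rintro _ ⟨s, hs, rfl⟩ τ
  have h1 := congrArg (fun σ => σ (inclRGK K S₀ (genRK K hs))) hxy
  simp only [sigmaGG_inclRGK, bridgeGK_genRK] at h1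
  have h2 := X.inj h1
  have h3 := congrArg (fun h : B.Hol => (h : ℍ → ℂ) (g' • τ)) h2
  simp only [GenBase.compH_apply] at h3
  rw [← mul_smul, ← mul_smul, inv_mul_cancel, one_smul] at h3
  exact h3

theorem rotRel_sigmaGG (ε : SL(2, ℤ)) (R : GenRotData B X ε) (g : SL(2, ℤ)) (f : FGK K S₀) :
    RotRel R.ζ (sigmaGG ι B X g f) (sigmaGG ι B X (ε⁻¹ * g) f) := by
  have hζ : R.ζ ≠ 0 := R.hζ.ne_zero R.m_pos.ne'
  obtain ⟨r, t, -, rfl⟩ := exists_div_inclRGK K S₀ f
  rw [map_div₀, map_div₀]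
  have key : ∀ r : RGK K S₀, RotRel R.ζ (sigmaGG ι B X g (inclRGK K S₀ r))
      (sigmaGG ι B X (ε⁻¹ * g) (inclRGK K S₀ r)) := by
    intro r
    rw [sigmaGG_inclRGK, sigmaGG_inclRGK, mul_inv_rev, inv_inv, GenBase.compH_mul]
    exact R.rot _
  exact (key r).div hζ (key t)

/-- `LocalData` from an expansion with rotation data. -/
def mkLocalDataG (ε : SL(2, ℤ)) (R : GenRotData B X ε) (t : FGK K S₀) (u : LaurentSeries ℂ)
    (ht : ∀ g : SL(2, ℤ), sigmaGG ι B X g t = u) (hu : u.order = (R.m : ℤ)) :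
    LocalData K (FGK K S₀) ℂ (XG Γ) t where
  m := R.m
  m_pos := R.m_pos
  ζ := R.ζ
  hζ := R.hζ
  ι := ι
  perm := permG Γ ε⁻¹
  σ := sigmaXG ι B X
  σ_inj := sigmaXG_injective ι B X
  σ_const x c := sigmaGG_algebraMap ι B X _ c
  σ_t_eq x y := by
    show sigmaGG ι B X _ t = sigmaGG ι B X _ t
    rw [ht, ht]
  σ_t_order x := by
    show (sigmaGG ι B X _ t).order = _
    rw [ht, hu]
  σ_perm_order x f := by
    obtain ⟨g, rfl⟩ := QuotientGroup.mk_surjective x
    have h : permG Γ ε⁻¹ (g : XG Γ) = ((ε⁻¹ * g : SL(2, ℤ)) : XG Γ) := rfl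
    rw [h, sigmaXG_mk, sigmaXG_mk]
    exact (rotRel_sigmaGG ι B X ε R g f).1
  σ_perm_leadingCoeff x f := by
    obtain ⟨g, rfl⟩ := QuotientGroup.mk_surjective x
    have h : permG Γ ε⁻¹ (g : XG Γ) = ((ε⁻¹ * g : SL(2, ℤ)) : XG Γ) := rfl
    rw [h, sigmaXG_mk, sigmaXG_mk]
    exact (rotRel_sigmaGG ι B X ε R g f).2

@[simp] theorem mkLocalDataG_perm (ε : SL(2, ℤ)) (R : GenRotData B X ε) (t : FGK K S₀)
    (u : LaurentSeries ℂ) (ht : ∀ g : SL(2, ℤ), sigmaGG ι B X g t = u)
    (hu : u.order = (R.m : ℤ)) :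
    (mkLocalDataG ι B X ε R t u ht hu).perm = permG Γ ε⁻¹ := rfl

@[simp] theorem mkLocalDataG_σ (ε : SL(2, ℤ)) (R : GenRotData B X ε) (t : FGK K S₀)
    (u : LaurentSeries ℂ) (ht : ∀ g : SL(2, ℤ), sigmaGG ι B X g t = u)
    (hu : u.order = (R.m : ℤ)) :
    (mkLocalDataG ι B X ε R t u ht hu).σ = sigmaXG ι B X := rfl

@[simp] theorem mkLocalDataG_m (ε : SL(2, ℤ)) (R : GenRotData B X ε) (t : FGK K S₀)
    (u : LaurentSeries ℂ) (ht : ∀ g : SL(2, ℤ), sigmaGG ι B X g t = u)
    (hu : u.order = (R.m : ℤ)) :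
    (mkLocalDataG ι B X ε R t u ht hu).m = R.m := rfl

end Local

/-! ### The local data at every point -/

section Core

variable {K : Type*} [Field K] [Algebra ℚ K] (ι : K →+* ℂ)
variable {S₀ : Set (LaurentSeries ℚ)} {hj : jq ∈ S₀}
variable {M : ℕ} [NeZero M] {Γ : Subgroup SL(2, ℤ)} (A : GenCore M Γ (GenField.ofRat S₀ hj))

/-- the local data at `∞` -/
def dataInfG : LocalData K (FGK K S₀) ℂ (XG Γ) (jGK K hj)⁻¹ :=
  mkLocalDataG ι A.toGenBase A.toGenBase.qexpExpansion ModularGroup.T A.infRot (jGK K hj)⁻¹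
    (A.qexp A.toGenBase.JH)⁻¹
    (fun g => by rw [map_inv₀, sigmaGG_jGK]; rfl)
    (by
      rw [RotRel.order_inv' A.toGenBase.qexp_JH_ne_zero, A.toGenBase.order_qexp_JH, neg_neg]
      rfl)

theorem sigmaGG_sub {a : K} {ε : SL(2, ℤ)} (Q : GenPointData A.toGenBase (ι a) ε)
    (g : SL(2, ℤ)) :
    sigmaGG ι A.toGenBase Q.X g (jGK K hj - algebraMap K (FGK K S₀) a)
      = Q.X.E (A.toGenBase.JH - A.toGenBase.constH (ι a)) := by
  rw [map_sub, sigmaGG_jGK, sigmaGG_algebraMap, map_sub, Q.X.const]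

/-- the local data attached to point data over `a` -/
def dataOfPointG {a : K} {ε : SL(2, ℤ)} (Q : GenPointData A.toGenBase (ι a) ε) :
    LocalData K (FGK K S₀) ℂ (XG Γ) (jGK K hj - algebraMap K (FGK K S₀) a) :=
  mkLocalDataG ι A.toGenBase Q.X ε Q.R _ _ (fun g => sigmaGG_sub ι A Q g) Q.order_J

/-- all the embeddings `σ_x` agree on `K(j)` -/
theorem sigmaXG_eq_on_adjoin (X : GenExpansion A.toGenBase) (x y : XG Γ) {f : FGK K S₀}
    (hf : f ∈ IntermediateField.adjoin K {jGK K hj}) :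
    sigmaXG ι A.toGenBase X x f = sigmaXG ι A.toGenBase X y f := by
  induction hf using IntermediateField.adjoin_induction with
  | mem z hz =>
      rw [Set.mem_singleton_iff] at hz
      subst hz
      show sigmaGG ι A.toGenBase X _ (jGK K hj) = sigmaGG ι A.toGenBase X _ (jGK K hj)
      rw [sigmaGG_jGK, sigmaGG_jGK]
  | algebraMap c =>
      show sigmaGG ι A.toGenBase X _ _ = sigmaGG ι A.toGenBase X _ _
      rw [sigmaGG_algebraMap, sigmaGG_algebraMap]
  | add z w _ _ hz hw => rw [map_add, map_add, hz, hw]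
  | inv z _ hz => rw [map_inv₀, map_inv₀, hz]
  | mul z w _ _ hz hw => rw [map_mul, map_mul, hz, hw]

include ι A in
/-- lower bound for the degree: `|SL₂(ℤ)/Γ| ≤ [K·ℚ(S₀) : K(j)]`. -/
theorem card_le_finrankG
    [FiniteDimensional ↥(IntermediateField.adjoin K {jGK K hj}) (FGK K S₀)] :
    Nat.card (XG Γ) ≤ Module.finrank ↥(IntermediateField.adjoin K {jGK K hj}) (FGK K S₀) := by
  classical
  set E := IntermediateField.adjoin K {jGK K hj} with hE
  let X := A.toGenBase.qexpExpansion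
  let x0 : XG Γ := ((1 : SL(2, ℤ)) : XG Γ)
  let ψ : ↥E →+* LaurentSeries ℂ :=
    (sigmaXG ι A.toGenBase X x0).comp (algebraMap ↥E (FGK K S₀))
  letI : Algebra ↥E (LaurentSeries ℂ) := ψ.toAlgebra
  let a : XG Γ → (FGK K S₀ →ₐ[↥E] LaurentSeries ℂ) := fun x =>
    { sigmaXG ι A.toGenBase X x with
      commutes' := fun y => sigmaXG_eq_on_adjoin ι A X x x0 y.2 }
  have ha : Function.Injective a := by
    intro x y hxy
    apply sigmaXG_injective ι A.toGenBase X
    refine RingHom.ext fun f => ?_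
    exact congrArg (fun φ : FGK K S₀ →ₐ[↥E] LaurentSeries ℂ => φ f) hxy
  haveI : Module.Free ↥E (FGK K S₀) := Module.Free.of_divisionRing ↥E (FGK K S₀)
  haveI : Module.Finite ↥E (FGK K S₀) := ‹FiniteDimensional ↥E (FGK K S₀)›
  haveI : Finite (FGK K S₀ →ₐ[↥E] LaurentSeries ℂ) :=
    Finite.algHom ↥E (FGK K S₀) (LaurentSeries ℂ)
  calc Nat.card (XG Γ) ≤ Nat.card (FGK K S₀ →ₐ[↥E] LaurentSeries ℂ) :=
        Nat.card_le_card_of_injective a ha
    _ ≤ Module.finrank ↥E (FGK K S₀) := card_algHom_le_finrank ↥E (FGK K S₀) (LaurentSeries ℂ)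

/-- the point data over the point `a` -/
def pointAtG (a : K) : GenPointData A.toGenBase (ι a) (epsAt ι a) :=
  letI := Classical.propDecidable
  if h0 : ι a = 0 then by
    rw [epsAt, if_pos h0, h0]; exact A.at0
  else if h1 : ι a = 1728 then by
    rw [epsAt, if_neg h0, if_pos h1, h1]; exact A.at1728
  else by
    rw [epsAt, if_neg h0, if_neg h1]; exact A.generic (ι a) h0 h1

/-- the local data over a finite point `a : K` -/
def dataFinG (a : K) :
    LocalData K (FGK K S₀) ℂ (XG Γ) (jGK K hj - algebraMap K (FGK K S₀) a) :=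
  dataOfPointG ι A (pointAtG ι A a)

theorem dataFinG_perm (a : K) : (dataFinG ι A a).perm = permG Γ (epsAt ι a)⁻¹ := rfl

theorem dataFinG_σ (a : K) :
    (dataFinG ι A a).σ = sigmaXG ι A.toGenBase (pointAtG ι A a).X := rfl

theorem dataFinG_m (a : K) : (dataFinG ι A a).m = (pointAtG ι A a).R.m := rfl

theorem dataInfG_perm : (dataInfG (K := K) ι A).perm = permG Γ ModularGroup.T⁻¹ := rfl

theorem dataInfG_σ :
    (dataInfG (K := K) ι A).σ = sigmaXG ι A.toGenBase A.toGenBase.qexpExpansion := rfl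

theorem dataInfG_m : (dataInfG (K := K) ι A).m = M := rfl

end Core

/-! ### The degree -/

section Deg

variable {K : Type*} [Field K] [Algebra ℚ K] (ι : K →+* ℂ)
variable {S₀ : Set (LaurentSeries ℚ)} {hj : jq ∈ S₀}
variable {M : ℕ} [NeZero M] {Γ : Subgroup SL(2, ℤ)} (D : GenData M Γ (GenField.ofRat S₀ hj))

theorem coeffMap_image_gensK :
    ⇑(coeffMap ι) '' gensK K S₀ = GenData.SC (GenField.ofRat S₀ hj) := by
  ext x
  constructor
  · rintro ⟨_, ⟨s, hs, rfl⟩, rfl⟩
    refine ⟨coeffEmb Kbar s, ⟨s, hs, rfl⟩, ?_⟩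
    rw [coeffMap_coeffEmb', coeffMap_coeffEmb']
  · rintro ⟨_, ⟨s, hs, rfl⟩, rfl⟩
    refine ⟨coeffEmb K s, ⟨s, hs, rfl⟩, ?_⟩
    rw [coeffMap_coeffEmb', coeffMap_coeffEmb']

include ι D in
/-- **Degree bound**: `[K·ℚ(S₀) : K(j)] ≤ [SL₂(ℤ) : Γ]`. -/
theorem finiteDimensional_and_finrank_leG [Finite (XG Γ)] :
    FiniteDimensional ↥(IntermediateField.adjoin K {jGK K hj}) (FGK K S₀) ∧
      Module.finrank ↥(IntermediateField.adjoin K {jGK K hj}) (FGK K S₀) ≤ Nat.card (XG Γ) := by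
  haveI : CharZero K := algebraRat.charZero K
  have hyp : HypG ℂ (⇑(coeffMap ι) '' gensK K S₀) (Nat.card (XG Γ)) := by
    rw [coeffMap_image_gensK ι (hj := hj)]
    exact D.hypG
  exact finiteDimensional_and_finrank_le_G ι (S := gensK K S₀) ⟨jq, hj, rfl⟩
    (laurentBaseChange K (IntermediateField.adjoin ℚ S₀)) (fgK_eq_adjoin K S₀) (jGK K hj) rfl
    _ hyp

include ι D in
theorem finiteDimensional_adjoin_jGK [Finite (XG Γ)] :
    FiniteDimensional ↥(IntermediateField.adjoin K {jGK K hj}) (FGK K S₀) :=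
  (finiteDimensional_and_finrank_leG ι D).1

include ι D in
/-- **The degree**: `[K·ℚ(S₀) : K(j)] = [SL₂(ℤ) : Γ]`. -/
theorem finrank_adjoin_jGK [Finite (XG Γ)] :
    Module.finrank ↥(IntermediateField.adjoin K {jGK K hj}) (FGK K S₀) = Nat.card (XG Γ) := by
  haveI := finiteDimensional_adjoin_jGK ι D
  exact le_antisymm (finiteDimensional_and_finrank_leG ι D).2 (card_le_finrankG ι D.core)

end Deg

end Fermat.Agent.S48.H282

end
end
-- ===== PACK-END S48/H282/PkgK.lean

-- ===== PACK-BEGIN S29/H282/DegK.lean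
section


/-!
# S29 / M4b-K2 (helper282) — the degree of the function field over `K`

For every field `K` with an embedding `ι : K →+* ℂ`:
`[FFK K N : K(j)] = [SL₂(ℤ) : Γ₀(N)]`.
Port of `Fermat/Agent/S24/Deg/H457_Main.lean` (upper bound) and `H997Core` (lower bound).
-/

set_option autoImplicit false

noncomputable section

open Polynomial ModularCurve IntermediateField

namespace Fermat.Agent.S29.H282

open Fermat.Agent.S24 Fermat.Agent.S24.H997 Fermat.Agent.S24.Deg457

variable {K : Type*} [Field K] [Algebra ℚ K] (ι : K →+* ℂ)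
variable (N : ℕ) [NeZero N]

theorem coe_jFK : ((jFK K N : FFK K N) : LaurentSeries K) = JK K := rfl

include ι in
/-- **Degree bound**: `[FFK K N : K(j)] ≤ [SL₂(ℤ) : Γ₀(N)]`. -/
theorem finiteDimensional_and_finrank_leK :
    FiniteDimensional ↥(IntermediateField.adjoin K {jFK K N}) (FFK K N) ∧
      Module.finrank ↥(IntermediateField.adjoin K {jFK K N}) (FFK K N) ≤ Nat.card (XX N) := by
  haveI : CharZero K := algebraRat.charZero K
  refine finiteDimensional_and_finrank_le_of_forall_natDegree_minpoly_le _ fun x => ?_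
  obtain ⟨Q, hQ0, hQn, hQ⟩ := algDeg_of_mem_field ι (hyp_complex_card N) x.2
  have hinc : Function.Injective (algebraMap (FFK K N) (LaurentSeries K)) :=
    (algebraMap (FFK K N) (LaurentSeries K)).injective
  refine isIntegral_and_natDegree_le_of_relation (K := K)
    (AdjoinSimple.gen K (jFK K N)) ?_ x Q hQ0 _ hQn ?_
  · intro t ht h0
    apply aeval_JK_ne_zero K ht
    have h1 := congrArg (algebraMap ↥(IntermediateField.adjoin K {jFK K N}) (FFK K N)) h0
    rw [← aeval_algebraMap_apply, map_zero, AdjoinSimple.algebraMap_gen] at h1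
    have h2 := congrArg (algebraMap (FFK K N) (LaurentSeries K)) h1
    rw [← aeval_algebraMap_apply, map_zero] at h2
    exact h2
  · apply hinc
    rw [map_zero, Polynomial.hom_eval₂, AdjoinSimple.algebraMap_gen]
    have hcomp : (algebraMap (FFK K N) (LaurentSeries K)).comp
        ((aeval (jFK K N) : K[X] →ₐ[K] FFK K N).toRingHom) = evJ (JK K) := by
      refine Polynomial.ringHom_ext ?_ ?_
      · intro c
        simp [evJ, ← IsScalarTower.algebraMap_apply]
      · simp [evJ]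
        rfl
    rw [hcomp]
    exact hQ

include ι in
theorem finiteDimensional_adjoin_jFK :
    FiniteDimensional ↥(IntermediateField.adjoin K {jFK K N}) (FFK K N) :=
  (finiteDimensional_and_finrank_leK ι N).1

include ι in
/-- **The degree**: `[FFK K N : K(j)] = [SL₂(ℤ) : Γ₀(N)]`. -/
theorem finrank_adjoin_jFK :
    Module.finrank ↥(IntermediateField.adjoin K {jFK K N}) (FFK K N) = Nat.card (XX N) := by
  haveI := finiteDimensional_adjoin_jFK ι N
  exact le_antisymm (finiteDimensional_and_finrank_leK ι N).2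
    (card_le_finrankK ι (analyticCore N))

end Fermat.Agent.S29.H282

end
end
-- ===== PACK-END S29/H282/DegK.lean

-- ===== PACK-BEGIN S29/H282/Rot.lean
section


/-!
# S29 / M4b-K2 (helper282) — iterating the rotation relation

For an expansion `X` with rotation data `R` for `ε` (a primitive `m`-th root of unity `ζ`):
if `H ∘ ε ^ e = H` then `m ∣ e * ord (E H)`.
-/

set_option autoImplicit false

noncomputable section

open ModularCurve HahnSeries UpperHalfPlane
open scoped MatrixGroups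

namespace Fermat.Agent.S29.H282

open Fermat.Agent.S24 Fermat.Agent.S24.H997

variable {N : ℕ} [NeZero N] (B : HolBase N) (X : Expansion B)

theorem compH_pow_succ (ε : SL(2, ℤ)) (i : ℕ) (H : B.Hol) :
    B.compH (ε ^ (i + 1)) H = B.compH ε (B.compH (ε ^ i) H) := by
  rw [pow_succ, HolBase.compH_mul]

/-- iterating the rotation relation -/
theorem rot_iterate (ε : SL(2, ℤ)) (R : RotData B X ε) (H : B.Hol) (i : ℕ) :
    (X.E (B.compH (ε ^ i) H)).order = (X.E H).order ∧
      (X.E (B.compH (ε ^ i) H)).leadingCoeff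
        = (R.ζ ^ (X.E H).order) ^ i * (X.E H).leadingCoeff := by
  induction i with
  | zero => simp [HolBase.compH_one]
  | succ n ih =>
    have h := R.rot (B.compH (ε ^ n) H)
    rw [compH_pow_succ]
    refine ⟨by rw [h.1, ih.1], ?_⟩
    rw [h.2, ih.1, ih.2, pow_succ]
    ring

/-- **Key divisibility.**  If `H` is invariant under `ε ^ e`, then the order `m` of the rotation
divides `e * ord (E H)`. -/
theorem rot_dvd_of_compH_pow_eq (ε : SL(2, ℤ)) (R : RotData B X ε) (H : B.Hol) (e : ℕ)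
    (hH : B.compH (ε ^ e) H = H) : (R.m : ℤ) ∣ (e : ℤ) * (X.E H).order := by
  by_cases h0 : X.E H = 0
  · rw [h0, order_zero, mul_zero]
    exact dvd_zero _
  · have hlc : (X.E H).leadingCoeff ≠ 0 := leadingCoeff_ne_zero.mpr h0
    have h := (rot_iterate B X ε R H e).2
    rw [hH] at h
    have h1 : (R.ζ ^ (X.E H).order) ^ e = 1 := by
      have : (R.ζ ^ (X.E H).order) ^ e * (X.E H).leadingCoeff = 1 * (X.E H).leadingCoeff := by
        rw [one_mul]; exact h.symm
      exact mul_right_cancel₀ hlc this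
    have h2 : R.ζ ^ ((X.E H).order * (e : ℤ)) = 1 := by
      rw [zpow_mul, zpow_natCast]
      exact h1
    have h3 := (R.hζ.zpow_eq_one_iff_dvd _).mp h2
    rwa [mul_comm] at h3

end Fermat.Agent.S29.H282

end
end
-- ===== PACK-END S29/H282/Rot.lean

-- ===== PACK-BEGIN S29/H282/Dict.lean
section





/-!
# S29 / M4b-K2 (helper282) — the places dictionary (DICT-hard)

`K` algebraically closed with an embedding `ι : K →+* ℂ` (main cases: `K = ℂ`, `K = ℚ̄`).

* `exists_placeOf_eqK` : every place of `FFK K N / K` is induced by one of the embeddings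
  `σ_x` of the local data `dataInfK` (cusps) or `dataFinK a` (points over `j = a`);
* `IsAvatar`           : `h : Hol` is an analytic avatar of `f : FFK K N`
  (`qexp h = ΦK ι N f`, i.e. the expansion of `h` at `i∞` is the Laurent series `f`);
* `IsAvatar.sigmaGK_eq`: then `σ_g f = E (h ∘ g⁻¹)` for every expansion;
* `dvd_ord_of_isAvatar_pow` (**DICT-hard**): if `f` has the avatar `h ^ M` and `h` is invariant
  under the special elements (finite order or trace `2`) of `Γ₀(N)`, then `M ∣ w.ord f` for every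
  place `w` of `FFK K N / K`.
-/

set_option autoImplicit false

noncomputable section

open ModularCurve HahnSeries UpperHalfPlane AlgebraicCurve IntermediateField
open scoped MatrixGroups

namespace Fermat.Agent.S29.H282

open Fermat.Agent.S24 Fermat.Agent.S24.H997 Fermat.Agent.S24.Deg457

/-! ### Generic: the orbit of `x` under `perm` has `ord_v t` elements -/

section Generic

variable {K F : Type*} [Field K] [Field F] [Algebra K F] [IsAlgClosed K] [CharZero K]
variable {C : Type*} [Field C] [CharZero C] {X : Type*} [Finite X]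
variable {t : F} (L : LocalData K F C X t)
variable (E : IntermediateField K F) (hE : E ≤ K⟮t⟯) [FiniteDimensional E F]
  (hrank : Module.finrank E F = Nat.card X)

include hE hrank in
/-- the cardinality of the `perm`-orbit of `x` is the ramification index `ord_v t` -/
theorem card_orbit_eq_ord_t (x : X) :
    (Nat.card (MulAction.orbit (Subgroup.zpowers L.perm) x) : ℤ) = (H117.placeOf L x).ord t := by
  classical
  haveI := H504.isAlgebraic_adjoin_of_le (t := t) E hE
  have hfin : {v : Place K F | 0 < v.ord t}.Finite := H117.finite_places_over L E hE hrank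
  have hs : ∀ v : Place K F, v ∈ hfin.toFinset ↔ 0 < v.ord t := fun v => by simp
  exact (H117.localThm L E hE hrank hfin.toFinset hs
    (H504.LocalData.card_le_sum_ord L hfin.toFinset hs)).2.1 x

include hE hrank in
/-- `perm ^ e` fixes `x`, where `e = ord_v t` is the ramification index of the place of `x` -/
theorem perm_pow_ord_t_apply (x : X) :
    (L.perm ^ ((H117.placeOf L x).ord t).toNat) x = x := by
  classical
  have h := card_orbit_eq_ord_t L E hE hrank x
  haveI : Fintype (MulAction.orbit (Subgroup.zpowers L.perm) x) := Fintype.ofFinite _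
  have h1 : Function.minimalPeriod (L.perm • ·) x
      = Nat.card (MulAction.orbit (Subgroup.zpowers L.perm) x) := by
    rw [MulAction.minimalPeriod_eq_card, Nat.card_eq_fintype_card]
  have h2 : ((H117.placeOf L x).ord t).toNat
      = Nat.card (MulAction.orbit (Subgroup.zpowers L.perm) x) := by
    rw [← h]; simp
  have h3 : (L.perm ^ ((H117.placeOf L x).ord t).toNat) • x = x := by
    rw [MulAction.pow_smul_eq_iff_minimalPeriod_dvd, h1, h2]
  exact h3

end Generic

/-! ### Avatars -/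

section Avatar

variable {K : Type*} [Field K] [Algebra ℚ K] (ι : K →+* ℂ)
variable {N : ℕ} [NeZero N] (B : HolBase N)

/-- `h : Hol` is an analytic avatar of `f : FFK K N`: the expansion of `h` at `i∞` (in the
variable `q^{1/N}`) is the Laurent series `f` (coefficients mapped by `ι`). -/
def IsAvatar (f : FFK K N) (h : B.Hol) : Prop := B.qexp h = ΦK ι N (f : LaurentSeries K)

variable {ι B}

theorem isAvatar_inclRNK (r : RNK K N) : IsAvatar ι B (inclRNK K N r) (bridgeK ι B r) :=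
  qexp_bridgeK ι B r

theorem IsAvatar.unique {f : FFK K N} {h h' : B.Hol} (hav : IsAvatar ι B f h)
    (hav' : IsAvatar ι B f h') : h = h' :=
  B.qexp_injective (hav.trans hav'.symm)

theorem IsAvatar.injective {f f' : FFK K N} {h : B.Hol} (hav : IsAvatar ι B f h)
    (hav' : IsAvatar ι B f' h) : f = f' :=
  Subtype.ext (ΦK_injective ι (hav.symm.trans hav'))

theorem isAvatar_zero : IsAvatar ι B (0 : FFK K N) 0 := by
  show B.qexp 0 = ΦK ι N ((0 : FFK K N) : LaurentSeries K)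
  simp

theorem isAvatar_one : IsAvatar ι B (1 : FFK K N) 1 := by
  show B.qexp 1 = ΦK ι N ((1 : FFK K N) : LaurentSeries K)
  simp

theorem IsAvatar.mul {f f' : FFK K N} {h h' : B.Hol} (hav : IsAvatar ι B f h)
    (hav' : IsAvatar ι B f' h') : IsAvatar ι B (f * f') (h * h') := by
  show B.qexp (h * h') = ΦK ι N ((f * f' : FFK K N) : LaurentSeries K)
  rw [map_mul, hav, hav', ← map_mul]
  rfl

theorem IsAvatar.add {f f' : FFK K N} {h h' : B.Hol} (hav : IsAvatar ι B f h)
    (hav' : IsAvatar ι B f' h') : IsAvatar ι B (f + f') (h + h') := by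
  show B.qexp (h + h') = ΦK ι N ((f + f' : FFK K N) : LaurentSeries K)
  rw [map_add, hav, hav', ← map_add]
  rfl

theorem IsAvatar.pow {f : FFK K N} {h : B.Hol} (hav : IsAvatar ι B f h) (n : ℕ) :
    IsAvatar ι B (f ^ n) (h ^ n) := by
  induction n with
  | zero => simpa using isAvatar_one
  | succ n ih => rw [pow_succ, pow_succ]; exact ih.mul hav

theorem IsAvatar.eq_zero_iff {f : FFK K N} {h : B.Hol} (hav : IsAvatar ι B f h) :
    h = 0 ↔ f = 0 :=
  ⟨fun h0 => hav.injective (h0 ▸ isAvatar_zero), fun f0 => hav.unique (f0 ▸ isAvatar_zero)⟩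

/-- clearing denominators: `h * e(t) = e(r)` when `f = r / t` -/
theorem IsAvatar.mul_bridgeK {f : FFK K N} {h : B.Hol} (hav : IsAvatar ι B f h)
    {r t : RNK K N} (ht : t ≠ 0) (hf : f = inclRNK K N r / inclRNK K N t) :
    h * bridgeK ι B t = bridgeK ι B r := by
  have ht' : inclRNK K N t ≠ 0 := fun h0 =>
    ht (inclRNK_injective K N (h0.trans (map_zero _).symm))
  have h1 : f * inclRNK K N t = inclRNK K N r := by
    rw [hf, div_mul_cancel₀ _ ht']
  exact (hav.mul (isAvatar_inclRNK t)).unique (h1 ▸ isAvatar_inclRNK r)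

/-- **The embeddings in terms of the avatar**: `σ_g f = E (h ∘ g⁻¹)`. -/
theorem IsAvatar.sigmaGK_eq {f : FFK K N} {h : B.Hol} (hav : IsAvatar ι B f h)
    (X : Expansion B) (g : SL(2, ℤ)) : sigmaGK ι B X g f = X.E (B.compH g⁻¹ h) := by
  obtain ⟨r, t, ht, hf⟩ := exists_div_inclRNK K N f
  have hmul := hav.mul_bridgeK ht hf
  have ht' : X.E (B.compH g⁻¹ (bridgeK ι B t)) ≠ 0 := by
    intro h0
    apply ht
    apply sGK_injective ι B X g
    rw [sGK_apply, h0, map_zero]
  rw [hf, map_div₀, sigmaGK_inclRNK, sigmaGK_inclRNK, ← hmul, map_mul, map_mul,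
    mul_div_assoc, div_self ht', mul_one]

theorem IsAvatar.sigmaXK_mk_eq {f : FFK K N} {h : B.Hol} (hav : IsAvatar ι B f h)
    (X : Expansion B) (g : SL(2, ℤ)) :
    sigmaXK ι B X (g : XX N) f = X.E (B.compH g⁻¹ h) := by
  rw [sigmaXK_mk]
  exact hav.sigmaGK_eq X g

end Avatar

/-! ### The dictionary -/

section Dict

variable {K : Type*} [Field K] [Algebra ℚ K] (ι : K →+* ℂ)
variable {N : ℕ} [NeZero N]

omit [NeZero N] in
theorem permOf_pow_apply (γ : SL(2, ℤ)) (e : ℕ) (g : SL(2, ℤ)) :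
    (permOf N γ ^ e) (g : XX N) = ((γ ^ e * g : SL(2, ℤ)) : XX N) := by
  induction e with
  | zero => simp
  | succ n ih =>
    rw [pow_succ', Equiv.Perm.mul_apply, ih, pow_succ', mul_assoc]
    rfl

omit [NeZero N] in
/-- if `perm_{ε⁻¹} ^ e` fixes the coset of `g` then `g⁻¹ ε ^ e g ∈ Γ₀(N)` -/
theorem conj_mem_of_permOf_pow_apply_eq {ε g : SL(2, ℤ)} {e : ℕ}
    (h : (permOf N ε⁻¹ ^ e) (g : XX N) = (g : XX N)) :
    g⁻¹ * ε ^ e * g ∈ CongruenceSubgroup.Gamma0 N := by
  rw [permOf_pow_apply] at h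
  have h1 := QuotientGroup.eq.mp h
  have h2 : ((ε⁻¹) ^ e * g)⁻¹ * g = g⁻¹ * ε ^ e * g := by
    rw [mul_inv_rev, inv_pow, inv_inv]
  rwa [h2] at h1

variable (B : HolBase N)

/-- `h` is invariant under the special elements of `Γ₀(N)` -/
def IsUnramified (h : B.Hol) : Prop :=
  ∀ γ : SL(2, ℤ), γ ∈ CongruenceSubgroup.Gamma0 N → IsSpecialElt γ → B.compH γ h = h

variable {B}

theorem IsUnramified.compH_pow_eq {h : B.Hol} (hinv : IsUnramified B h) {ε g : SL(2, ℤ)} {e : ℕ}
    (hε : IsSpecialElt (ε ^ e)) (hmem : g⁻¹ * ε ^ e * g ∈ CongruenceSubgroup.Gamma0 N) :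
    B.compH (ε ^ e) (B.compH g⁻¹ h) = B.compH g⁻¹ h := by
  have h1 := hinv _ hmem (hε.conj g)
  rw [← HolBase.compH_mul]
  have h2 : g⁻¹ * ε ^ e = (g⁻¹ * ε ^ e * g) * g⁻¹ := by group
  rw [h2, HolBase.compH_mul, h1]

variable [IsAlgClosed K]

/-- **DICT-hard, local form**: for local data constructed from an expansion with rotation data for
`ε` (all of whose powers are special), the order at every place `placeOf x` of a function with
avatar `h ^ M`, `h` unramified, is divisible by `M`. -/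
theorem dvd_ord_placeOf_mkLocalDataK (X : Expansion B) (ε : SL(2, ℤ)) (R : RotData B X ε)
    (t : FFK K N) (u : LaurentSeries ℂ) (ht : ∀ g : SL(2, ℤ), sigmaGK ι B X g t = u)
    (hu : u.order = (R.m : ℤ))
    (E : IntermediateField K (FFK K N)) (hE : E ≤ K⟮t⟯) [FiniteDimensional E (FFK K N)]
    (hrank : Module.finrank E (FFK K N) = Nat.card (XX N))
    (hε : ∀ e : ℕ, IsSpecialElt (ε ^ e))
    {h : B.Hol} (hinv : IsUnramified B h) {f : FFK K N} {M : ℕ}
    (hav : IsAvatar ι B f (h ^ M)) (x : XX N) :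
    (M : ℤ) ∣ (H117.placeOf (mkLocalDataK ι B X ε R t u ht hu) x).ord f := by
  haveI : CharZero K := algebraRat.charZero K
  set L := mkLocalDataK ι B X ε R t u ht hu with hL
  obtain ⟨g, rfl⟩ := QuotientGroup.mk_surjective x
  set w := H117.placeOf L (g : XX N) with hw
  set e : ℕ := (w.ord t).toNat with he
  have hpos : 0 < w.ord t := H117.ord_t_pos L _
  have hecast : (e : ℤ) = w.ord t := Int.toNat_of_nonneg hpos.le
  have he0 : (e : ℤ) ≠ 0 := by rw [hecast]; exact hpos.ne'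
  -- the orbit
  have hfix : (permOf N ε⁻¹ ^ e) (g : XX N) = (g : XX N) :=
    perm_pow_ord_t_apply L E hE hrank (g : XX N)
  have hmem := conj_mem_of_permOf_pow_apply_eq hfix
  -- the rotation
  set H : B.Hol := B.compH g⁻¹ h with hH
  have hHinv : B.compH (ε ^ e) H = H := hinv.compH_pow_eq (hε e) hmem
  have hdvd : (R.m : ℤ) ∣ (e : ℤ) * (X.E H).order := rot_dvd_of_compH_pow_eq B X ε R H e hHinv
  -- the multiplicity
  have hmult : (H117.mult L (g : XX N) : ℤ) * w.ord t = (R.m : ℤ) := H117.mult_mul_ord_t L _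
  have hk0 : (H117.mult L (g : XX N) : ℤ) ≠ 0 := by
    exact_mod_cast (H117.mult_pos L (g : XX N)).ne'
  have hdvd2 : (H117.mult L (g : XX N) : ℤ) ∣ (X.E H).order := by
    rw [← hmult, ← hecast, mul_comm] at hdvd
    exact (mul_dvd_mul_iff_left he0).mp hdvd
  obtain ⟨k, hk⟩ := hdvd2
  -- the order of `f`
  have hσ : L.σ (g : XX N) f = X.E H ^ M := by
    show sigmaXK ι B X (g : XX N) f = _
    rw [hav.sigmaXK_mk_eq X g, map_pow, map_pow]
  have hord : (L.σ (g : XX N) f).order = (M : ℤ) * (X.E H).order := by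
    rw [hσ, HahnSeries.order_pow, nsmul_eq_mul]
  have h1 := H117.order_eq L (g : XX N) f
  rw [hord, hk] at h1
  refine ⟨k, ?_⟩
  have h2 : (H117.mult L (g : XX N) : ℤ) * w.ord f = (H117.mult L (g : XX N) : ℤ) * (M * k) := by
    rw [← h1]; ring
  exact mul_left_cancel₀ hk0 h2

omit [IsAlgClosed K] in
theorem adjoin_jFK_le_sub (a : K) :
    K⟮jFK K N⟯ ≤ K⟮jFK K N - algebraMap K (FFK K N) a⟯ := by
  rw [IntermediateField.adjoin_le_iff, Set.singleton_subset_iff]
  have h := add_mem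
    (IntermediateField.mem_adjoin_simple_self K (jFK K N - algebraMap K (FFK K N) a))
    (IntermediateField.algebraMap_mem K⟮jFK K N - algebraMap K (FFK K N) a⟯ a)
  rwa [sub_add_cancel] at h

omit [IsAlgClosed K] in
theorem adjoin_jFK_le_inv : K⟮jFK K N⟯ ≤ K⟮(jFK K N)⁻¹⟯ := by
  rw [IntermediateField.adjoin_le_iff, Set.singleton_subset_iff]
  have h := inv_mem (IntermediateField.mem_adjoin_simple_self K (jFK K N)⁻¹)
  rwa [inv_inv] at h

variable (A : AnalyticCore N)

/-- **Every place of `FFK K N / K` is analytic**: it is induced by an embedding `σ_x` of the local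
data at `∞` or over a finite point `a`. -/
theorem exists_placeOf_eqK (w : Place K (FFK K N)) :
    (∃ x : XX N, H117.placeOf (dataInfK ι A) x = w) ∨
      ∃ (a : K) (x : XX N), H117.placeOf (dataFinK ι A a) x = w := by
  haveI : CharZero K := algebraRat.charZero K
  haveI := finiteDimensional_adjoin_jFK ι N
  have hrank := finrank_adjoin_jFK ι N
  rcases sub_exists_point (jFK K N) w with h | ⟨a, ha⟩
  · left
    have h' : 0 < w.ord (jFK K N)⁻¹ := by
      rw [Place.ord_inv]; omega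
    exact H117.exists_placeOf_eq (dataInfK ι A) K⟮jFK K N⟯ adjoin_jFK_le_inv hrank w h'
  · right
    exact ⟨a, H117.exists_placeOf_eq (dataFinK ι A a) K⟮jFK K N⟯ (adjoin_jFK_le_sub a) hrank w ha⟩

omit [Algebra ℚ K] [IsAlgClosed K] in
theorem isSpecialElt_epsAt_pow (a : K) (e : ℕ) : IsSpecialElt (epsAt ι a ^ e) := by
  classical
  unfold epsAt
  split_ifs
  · exact isSpecialElt_ST_pow e
  · exact isSpecialElt_S_pow e
  · exact isSpecialElt_one_pow e

variable {ι A}

/-- **DICT-hard.**  Let `f` be an element of the function field of `X₀(N)` over `K` whose analytic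
avatar is `h ^ M`, where `h : Hol` is invariant under all special elements (finite order or
trace `2`) of `Γ₀(N)`.  Then `M ∣ ord_w f` for every place `w` of the function field. -/
theorem dvd_ord_of_isAvatar_pow {h : A.Hol} (hinv : IsUnramified A.toHolBase h)
    {f : FFK K N} {M : ℕ} (hav : IsAvatar ι A.toHolBase f (h ^ M))
    (w : Place K (FFK K N)) : (M : ℤ) ∣ w.ord f := by
  haveI := finiteDimensional_adjoin_jFK ι N
  have hrank := finrank_adjoin_jFK ι N
  rcases exists_placeOf_eqK ι A w with ⟨x, rfl⟩ | ⟨a, x, rfl⟩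
  · exact dvd_ord_placeOf_mkLocalDataK ι A.toHolBase.qexpExpansion ModularGroup.T A.infRot
      (jFK K N)⁻¹ (A.qexp (A.toHolBase.JH 1 (one_dvd N)))⁻¹
      (fun g => by rw [map_inv₀, sigmaGK_jFK]; rfl)
      (by
        rw [RotRel.order_inv' A.toHolBase.qexp_J_one_ne_zero, A.toHolBase.order_qexp_J_one,
          neg_neg]
        rfl)
      K⟮jFK K N⟯ adjoin_jFK_le_inv hrank isSpecialElt_T_pow hinv hav x
  · exact dvd_ord_placeOf_mkLocalDataK ι (pointAt ι A a).X (epsAt ι a) (pointAt ι A a).R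
      (jFK K N - algebraMap K (FFK K N) a) _
      (fun g => sigmaGK_sub ι A (pointAt ι A a) g) (pointAt ι A a).order_J
      K⟮jFK K N⟯ (adjoin_jFK_le_sub a) hrank (isSpecialElt_epsAt_pow ι a) hinv hav x

end Dict

end Fermat.Agent.S29.H282

end
end
-- ===== PACK-END S29/H282/Dict.lean

-- ===== PACK-BEGIN S29/H282/DictEasy.lean
section


/-!
# S29 / M4b-K2 (helper282) — the places dictionary, easy direction (DICT-easy)

For every `τ ∈ ℍ` with `j(τ) ∈ ι(K)` the Taylor expansion at `τ` of the avatar defines a place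
`placeAtTau` of `FFK K N / K`, and `ord_τ (avatar of f) = k · ord_w f` with `k > 0`.
Hence: if `m ∣ ord_w f` for every place `w`, then `m ∣ ord_τ h` for the avatar `h` of `f`, at
every such `τ` (for `K = ℂ`: at every `τ ∈ ℍ`).
-/

set_option autoImplicit false

noncomputable section

open ModularCurve HahnSeries UpperHalfPlane AlgebraicCurve IntermediateField
open scoped MatrixGroups Manifold

namespace Fermat.Agent.S29.H282

open Fermat.Agent.S24 Fermat.Agent.S24.H997 Fermat.Agent.S24.Deg457 Fermat.Agent.S24.H624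

variable {K : Type*} [Field K] [Algebra ℚ K] (ι : K →+* ℂ)
variable {N : ℕ} [NeZero N] (B : HolBase N) (hB : B.IsHolo)

/-- the embedding "Taylor expansion at `τ` of the avatar" -/
def sigmaTau (τ : ℍ) : FFK K N →+* LaurentSeries ℂ :=
  sigmaGK ι B (B.taylorExpansion hB τ) 1

variable {ι B}

theorem IsAvatar.sigmaTau_eq {f : FFK K N} {h : B.Hol} (hav : IsAvatar ι B f h) (τ : ℍ) :
    sigmaTau ι B hB τ f = (B.taylorExpansion hB τ).E h := by
  rw [sigmaTau, hav.sigmaGK_eq, inv_one, B.compH_one]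

theorem order_taylorExpansion {h : B.Hol} (hh : h ≠ 0) (τ : ℍ) :
    ((B.taylorExpansion hB τ).E h).order = ((ordAt τ (h : ℍ → ℂ)).toNat : ℤ) := by
  have h0 : B.toHolo hB h ≠ 0 := fun h1 =>
    hh (B.toHolo_injective hB (h1.trans (map_zero _).symm))
  rw [HolBase.taylorExpansion_E, order_laurentAt_algebraMap τ h0]
  rfl

theorem IsAvatar.order_sigmaTau {f : FFK K N} {h : B.Hol} (hav : IsAvatar ι B f h)
    (hh : h ≠ 0) (τ : ℍ) :
    (sigmaTau ι B hB τ f).order = ((ordAt τ (h : ℍ → ℂ)).toNat : ℤ) := by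
  rw [hav.sigmaTau_eq hB τ, order_taylorExpansion hB hh τ]

variable (ι B)

theorem eord_sigmaTau_const (τ : ℍ) (c : K) :
    0 ≤ H117.eord (sigmaTau ι B hB τ) (algebraMap K (FFK K N) c) := by
  show 0 ≤ (sigmaGK ι B (B.taylorExpansion hB τ) 1 (algebraMap K (FFK K N) c)).order
  rw [sigmaGK_algebraMap, HahnSeries.order_C]

theorem JH_one_sub_constH_ne_zero (c : ℂ) : B.JH 1 (one_dvd N) - B.constH c ≠ 0 := by
  intro h0
  have h1 : B.JH 1 (one_dvd N) = B.constH c := sub_eq_zero.mp h0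
  have h2 := B.order_qexp_J_one
  rw [h1] at h2
  have h3 : (B.qexp (B.constH c)).order = 0 := by
    show (B.qexp ⟨_, B.const_mem c⟩).order = 0
    rw [B.qexp_const, HahnSeries.order_C]
  rw [h3] at h2
  have hN : (0 : ℤ) < N := by exact_mod_cast Nat.pos_of_ne_zero (NeZero.ne N)
  omega

theorem sigmaTau_jFK_sub (τ : ℍ) (a : K) :
    sigmaTau ι B hB τ (jFK K N - algebraMap K (FFK K N) a)
      = (B.taylorExpansion hB τ).E (B.JH 1 (one_dvd N) - B.constH (ι a)) := by
  rw [sigmaTau, map_sub, sigmaGK_jFK, sigmaGK_algebraMap, map_sub, (B.taylorExpansion hB τ).const]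

theorem exists_eord_sigmaTau_ne_zero (τ : ℍ) (a : K) (ha : ι a = B.J 1 τ) :
    ∃ t : FFK K N, H117.eord (sigmaTau ι B hB τ) t ≠ 0 := by
  refine ⟨jFK K N - algebraMap K (FFK K N) a, ?_⟩
  show (sigmaTau ι B hB τ (jFK K N - algebraMap K (FFK K N) a)).order ≠ 0
  rw [sigmaTau_jFK_sub, order_taylorExpansion hB (JH_one_sub_constH_ne_zero B (ι a)) τ]
  have hne := JH_one_sub_constH_ne_zero B (ι a)
  set g : B.Hol := B.JH 1 (one_dvd N) - B.constH (ι a) with hg
  have hmd : MDiff (g : ℍ → ℂ) := hB.mdiff _ g.2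
  have hg0 : (g : ℍ → ℂ) ≠ 0 := fun h => hne (Subtype.ext h)
  have htop : ordAt τ (g : ℍ → ℂ) ≠ ⊤ := ordAt_ne_top hmd hg0 τ
  have hval : (g : ℍ → ℂ) τ = 0 := by
    show B.J 1 τ - ι a = 0
    rw [ha, sub_self]
  have hz : ordAt τ (g : ℍ → ℂ) ≠ 0 := fun h => (ordAt_eq_zero_iff hmd τ).mp h hval
  intro h0
  have h1 : (ordAt τ (g : ℍ → ℂ)).toNat = 0 := by exact_mod_cast h0
  rcases (ENat.toNat_eq_zero).mp h1 with h | h
  · exact hz h
  · exact htop h

/-- **The place of `FFK K N / K` at a point `τ ∈ ℍ`** with `j(τ) = ι a`. -/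
def placeAtTau (τ : ℍ) (a : K) (ha : ι a = B.J 1 τ) : Place K (FFK K N) :=
  H117.placeOfEmb (sigmaTau ι B hB τ) (eord_sigmaTau_const ι B hB τ)
    (exists_eord_sigmaTau_ne_zero ι B hB τ a ha)

theorem exists_mult_placeAtTau (τ : ℍ) (a : K) (ha : ι a = B.J 1 τ) :
    ∃ k : ℕ, 0 < k ∧ ∀ f : FFK K N,
      (sigmaTau ι B hB τ f).order = k * (placeAtTau ι B hB τ a ha).ord f :=
  H117.exists_mult (sigmaTau ι B hB τ) _ _

variable {ι B}

/-- `ord_τ h = k · ord_w f` for the avatar `h` of `f`. -/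
theorem IsAvatar.exists_ordAt_eq {f : FFK K N} {h : B.Hol} (hav : IsAvatar ι B f h)
    (hh : h ≠ 0) (τ : ℍ) (a : K) (ha : ι a = B.J 1 τ) :
    ∃ k : ℕ, 0 < k ∧
      ((ordAt τ (h : ℍ → ℂ)).toNat : ℤ) = k * (placeAtTau ι B hB τ a ha).ord f := by
  obtain ⟨k, hk, hkf⟩ := exists_mult_placeAtTau ι B hB τ a ha
  exact ⟨k, hk, by rw [← hkf f, hav.order_sigmaTau hB hh τ]⟩

include hB in
/-- **DICT-easy.**  If `m ∣ ord_w f` at every place `w` of `FFK K N / K`, then `m` divides the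
order of vanishing of the avatar `h` of `f` at every `τ ∈ ℍ` with `j(τ) ∈ ι(K)`. -/
theorem IsAvatar.exists_ordAt_eq_mul {f : FFK K N} {h : B.Hol} (hav : IsAvatar ι B f h)
    (hh : h ≠ 0) {m : ℕ} (hdvd : ∀ w : Place K (FFK K N), (m : ℤ) ∣ w.ord f)
    (τ : ℍ) (a : K) (ha : ι a = B.J 1 τ) :
    ∃ k : ℕ, ordAt τ (h : ℍ → ℂ) = ((m * k : ℕ) : ℕ∞) := by
  obtain ⟨k, -, hk⟩ := hav.exists_ordAt_eq hB hh τ a ha
  have hmd : MDiff (h : ℍ → ℂ) := hB.mdiff _ h.2
  have hh0 : (h : ℍ → ℂ) ≠ 0 := fun h0 => hh (Subtype.ext h0)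
  have htop : ordAt τ (h : ℍ → ℂ) ≠ ⊤ := ordAt_ne_top hmd hh0 τ
  have h1 : (m : ℤ) ∣ ((ordAt τ (h : ℍ → ℂ)).toNat : ℤ) := by
    rw [hk]
    exact Dvd.dvd.mul_left (hdvd _) _
  obtain ⟨l, hl⟩ := Int.natCast_dvd_natCast.mp h1
  refine ⟨l, ?_⟩
  rw [← hl, ENat.natCast_toNat htop]

end Fermat.Agent.S29.H282

end
end
-- ===== PACK-END S29/H282/DictEasy.lean

-- ===== PACK-BEGIN S48/H282/DictK.lean
section



/-!
# Tower A1 / A1-KUM, K3 inputs (helper282) — the places dictionary of `K·ℚ(S₀)`, generic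

Generic port (ANY `Γ`, ANY set `S₀ ∋ j` of rational generators with analytic input
`D : GenData M Γ (GenField.ofRat S₀ hj)`, ANY algebraically closed `K` with `ι : K →+* ℂ`) of
`S29/H282/{Rot,Dict,DictEasy}`:

* `IsAvatarG`                : `h : Hol` is an analytic avatar of `f : FGK K S₀`;
* `exists_placeOf_eqG`       : every place of `K·ℚ(S₀) / K` is induced by one of the embeddings of
                               `dataInfG` or `dataFinG a`;
* `dvd_ord_of_isAvatar_powG` : (**DICT-hard**) `f` with avatar `h ^ m`, `h` invariant under the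
                               special elements of `Γ` ⟹ `m ∣ ord_w f` at every place `w`;
* `IsAvatarG.exists_ordAt_eq_mul` : (**DICT-easy**) `m ∣ ord_w f` at every place ⟹
                               `m ∣ ord_τ h` at every `τ` with `j(τ) ∈ ι(K)`.
-/

set_option autoImplicit false
set_option linter.style.haveILetI false
set_option linter.unusedVariables false
set_option linter.unusedSectionVars false

noncomputable section

open ModularCurve HahnSeries UpperHalfPlane AlgebraicCurve IntermediateField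
open scoped MatrixGroups Manifold

namespace Fermat.Agent.S48.H282

open Fermat.Agent.S24 Fermat.Agent.S24.H997 Fermat.Agent.S24.Deg457 Fermat.Agent.S24.H624
open Fermat.Agent.S20.L1
open Fermat.Agent.S48.H332
open Fermat.Agent.S29.H282 (ΦK ΦK_injective ΦK_coeff ΦK_algebraMap ι_algebraMap epsAt
  IsSpecialElt isSpecialElt_T_pow isSpecialElt_epsAt_pow card_orbit_eq_ord_t perm_pow_ord_t_apply)

/-! ### Iterating the rotation relation -/

section Rot

variable {M : ℕ} [NeZero M] {Γ : Subgroup SL(2, ℤ)} {P : GenField}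
variable (B : GenBase M Γ P) (X : GenExpansion B)

theorem compH_pow_succG (ε : SL(2, ℤ)) (i : ℕ) (H : B.Hol) :
    B.compH (ε ^ (i + 1)) H = B.compH ε (B.compH (ε ^ i) H) := by
  rw [pow_succ, GenBase.compH_mul]

/-- iterating the rotation relation -/
theorem rot_iterateG (ε : SL(2, ℤ)) (R : GenRotData B X ε) (H : B.Hol) (i : ℕ) :
    (X.E (B.compH (ε ^ i) H)).order = (X.E H).order ∧
      (X.E (B.compH (ε ^ i) H)).leadingCoeff
        = (R.ζ ^ (X.E H).order) ^ i * (X.E H).leadingCoeff := by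
  induction i with
  | zero => simp [GenBase.compH_one]
  | succ n ih =>
    have h := R.rot (B.compH (ε ^ n) H)
    rw [compH_pow_succG]
    refine ⟨by rw [h.1, ih.1], ?_⟩
    rw [h.2, ih.1, ih.2, pow_succ]
    ring

/-- **Key divisibility.**  If `H` is invariant under `ε ^ e`, then the order `m` of the rotation
divides `e * ord (E H)`. -/
theorem rot_dvd_of_compH_pow_eqG (ε : SL(2, ℤ)) (R : GenRotData B X ε) (H : B.Hol) (e : ℕ)
    (hH : B.compH (ε ^ e) H = H) : (R.m : ℤ) ∣ (e : ℤ) * (X.E H).order := by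
  by_cases h0 : X.E H = 0
  · rw [h0, order_zero, mul_zero]
    exact dvd_zero _
  · have hlc : (X.E H).leadingCoeff ≠ 0 := leadingCoeff_ne_zero.mpr h0
    have h := (rot_iterateG B X ε R H e).2
    rw [hH] at h
    have h1 : (R.ζ ^ (X.E H).order) ^ e = 1 := by
      have : (R.ζ ^ (X.E H).order) ^ e * (X.E H).leadingCoeff = 1 * (X.E H).leadingCoeff := by
        rw [one_mul]; exact h.symm
      exact mul_right_cancel₀ hlc this
    have h2 : R.ζ ^ ((X.E H).order * (e : ℤ)) = 1 := by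
      rw [zpow_mul, zpow_natCast]
      exact h1
    have h3 := (R.hζ.zpow_eq_one_iff_dvd _).mp h2
    rwa [mul_comm] at h3

end Rot

/-! ### Avatars -/

section Avatar

variable {K : Type*} [Field K] [Algebra ℚ K] (ι : K →+* ℂ)
variable {S₀ : Set (LaurentSeries ℚ)} {hj : jq ∈ S₀}
variable {M : ℕ} [NeZero M] {Γ : Subgroup SL(2, ℤ)} (B : GenBase M Γ (GenField.ofRat S₀ hj))

/-- `h : Hol` is an analytic avatar of `f : FGK K S₀`: the expansion of `h` at `i∞` (in the
variable `q^{1/M}`) is the Laurent series `f` (coefficients mapped by `ι`). -/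
def IsAvatarG (f : FGK K S₀) (h : B.Hol) : Prop := B.qexp h = ΦK ι M (f : LaurentSeries K)

variable {ι B}

theorem isAvatarG_inclRGK (r : RGK K S₀) : IsAvatarG ι B (inclRGK K S₀ r) (bridgeGK ι B r) :=
  qexp_bridgeGK ι B r

theorem IsAvatarG.unique {f : FGK K S₀} {h h' : B.Hol} (hav : IsAvatarG ι B f h)
    (hav' : IsAvatarG ι B f h') : h = h' :=
  B.qexp_injective (hav.trans hav'.symm)

theorem IsAvatarG.injective {f f' : FGK K S₀} {h : B.Hol} (hav : IsAvatarG ι B f h)
    (hav' : IsAvatarG ι B f' h) : f = f' :=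
  Subtype.ext (ΦK_injective ι (hav.symm.trans hav'))

theorem isAvatarG_zero : IsAvatarG ι B (0 : FGK K S₀) 0 := by
  show B.qexp 0 = ΦK ι M ((0 : FGK K S₀) : LaurentSeries K)
  simp

theorem isAvatarG_one : IsAvatarG ι B (1 : FGK K S₀) 1 := by
  show B.qexp 1 = ΦK ι M ((1 : FGK K S₀) : LaurentSeries K)
  simp

theorem IsAvatarG.mul {f f' : FGK K S₀} {h h' : B.Hol} (hav : IsAvatarG ι B f h)
    (hav' : IsAvatarG ι B f' h') : IsAvatarG ι B (f * f') (h * h') := by
  show B.qexp (h * h') = ΦK ι M ((f * f' : FGK K S₀) : LaurentSeries K)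
  rw [map_mul, hav, hav', ← map_mul]
  rfl

theorem IsAvatarG.add {f f' : FGK K S₀} {h h' : B.Hol} (hav : IsAvatarG ι B f h)
    (hav' : IsAvatarG ι B f' h') : IsAvatarG ι B (f + f') (h + h') := by
  show B.qexp (h + h') = ΦK ι M ((f + f' : FGK K S₀) : LaurentSeries K)
  rw [map_add, hav, hav', ← map_add]
  rfl

theorem IsAvatarG.pow {f : FGK K S₀} {h : B.Hol} (hav : IsAvatarG ι B f h) (n : ℕ) :
    IsAvatarG ι B (f ^ n) (h ^ n) := by
  induction n with
  | zero => simpa using isAvatarG_one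
  | succ n ih => rw [pow_succ, pow_succ]; exact ih.mul hav

theorem IsAvatarG.eq_zero_iff {f : FGK K S₀} {h : B.Hol} (hav : IsAvatarG ι B f h) :
    h = 0 ↔ f = 0 :=
  ⟨fun h0 => hav.injective (h0 ▸ isAvatarG_zero), fun f0 => hav.unique (f0 ▸ isAvatarG_zero)⟩

/-- clearing denominators: `h * e(t) = e(r)` when `f = r / t` -/
theorem IsAvatarG.mul_bridgeGK {f : FGK K S₀} {h : B.Hol} (hav : IsAvatarG ι B f h)
    {r t : RGK K S₀} (ht : t ≠ 0) (hf : f = inclRGK K S₀ r / inclRGK K S₀ t) :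
    h * bridgeGK ι B t = bridgeGK ι B r := by
  have ht' : inclRGK K S₀ t ≠ 0 := fun h0 =>
    ht (inclRGK_injective K S₀ (h0.trans (map_zero _).symm))
  have h1 : f * inclRGK K S₀ t = inclRGK K S₀ r := by
    rw [hf, div_mul_cancel₀ _ ht']
  exact (hav.mul (isAvatarG_inclRGK t)).unique (h1 ▸ isAvatarG_inclRGK r)

/-- **The embeddings in terms of the avatar**: `σ_g f = E (h ∘ g⁻¹)`. -/
theorem IsAvatarG.sigmaGG_eq {f : FGK K S₀} {h : B.Hol} (hav : IsAvatarG ι B f h)
    (X : GenExpansion B) (g : SL(2, ℤ)) : sigmaGG ι B X g f = X.E (B.compH g⁻¹ h) := by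
  obtain ⟨r, t, ht, hf⟩ := exists_div_inclRGK K S₀ f
  have hmul := hav.mul_bridgeGK ht hf
  have ht' : X.E (B.compH g⁻¹ (bridgeGK ι B t)) ≠ 0 := by
    intro h0
    apply ht
    apply sGG_injective ι B X g
    rw [sGG_apply, h0, map_zero]
  rw [hf, map_div₀, sigmaGG_inclRGK, sigmaGG_inclRGK, ← hmul, map_mul, map_mul,
    mul_div_assoc, div_self ht', mul_one]

theorem IsAvatarG.sigmaXG_mk_eq {f : FGK K S₀} {h : B.Hol} (hav : IsAvatarG ι B f h)
    (X : GenExpansion B) (g : SL(2, ℤ)) :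
    sigmaXG ι B X (g : XG Γ) f = X.E (B.compH g⁻¹ h) := by
  rw [sigmaXG_mk]
  exact hav.sigmaGG_eq X g

end Avatar

/-! ### The dictionary, hard direction -/

section Dict

variable {K : Type*} [Field K] [Algebra ℚ K] (ι : K →+* ℂ)
variable {S₀ : Set (LaurentSeries ℚ)} {hj : jq ∈ S₀}
variable {M : ℕ} [NeZero M] {Γ : Subgroup SL(2, ℤ)}

theorem permG_pow_apply (γ : SL(2, ℤ)) (e : ℕ) (g : SL(2, ℤ)) :
    (permG Γ γ ^ e) (g : XG Γ) = ((γ ^ e * g : SL(2, ℤ)) : XG Γ) := by
  induction e with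
  | zero => simp
  | succ n ih =>
    rw [pow_succ', Equiv.Perm.mul_apply, ih, pow_succ', mul_assoc]
    rfl

/-- if `perm_{ε⁻¹} ^ e` fixes the coset of `g` then `g⁻¹ ε ^ e g ∈ Γ` -/
theorem conj_mem_of_permG_pow_apply_eq {ε g : SL(2, ℤ)} {e : ℕ}
    (h : (permG Γ ε⁻¹ ^ e) (g : XG Γ) = (g : XG Γ)) :
    g⁻¹ * ε ^ e * g ∈ Γ := by
  rw [permG_pow_apply] at h
  have h1 := QuotientGroup.eq.mp h
  have h2 : ((ε⁻¹) ^ e * g)⁻¹ * g = g⁻¹ * ε ^ e * g := by
    rw [mul_inv_rev, inv_pow, inv_inv]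
  rwa [h2] at h1

variable (B : GenBase M Γ (GenField.ofRat S₀ hj))

/-- `h` is invariant under the special elements (finite order or trace `2`) of `Γ` -/
def IsUnramifiedG (h : B.Hol) : Prop :=
  ∀ γ : SL(2, ℤ), γ ∈ Γ → IsSpecialElt γ → B.compH γ h = h

variable {B}

theorem IsUnramifiedG.compH_pow_eq {h : B.Hol} (hinv : IsUnramifiedG B h) {ε g : SL(2, ℤ)}
    {e : ℕ} (hε : IsSpecialElt (ε ^ e)) (hmem : g⁻¹ * ε ^ e * g ∈ Γ) :
    B.compH (ε ^ e) (B.compH g⁻¹ h) = B.compH g⁻¹ h := by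
  have h1 := hinv _ hmem (hε.conj g)
  rw [← GenBase.compH_mul]
  have h2 : g⁻¹ * ε ^ e = (g⁻¹ * ε ^ e * g) * g⁻¹ := by group
  rw [h2, GenBase.compH_mul, h1]

variable [IsAlgClosed K] [Finite (XG Γ)]

/-- **DICT-hard, local form**: for local data constructed from an expansion with rotation data for
`ε` (all of whose powers are special), the order at every place `placeOf x` of a function with
avatar `h ^ m`, `h` unramified, is divisible by `m`. -/
theorem dvd_ord_placeOf_mkLocalDataG (X : GenExpansion B) (ε : SL(2, ℤ)) (R : GenRotData B X ε)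
    (t : FGK K S₀) (u : LaurentSeries ℂ) (ht : ∀ g : SL(2, ℤ), sigmaGG ι B X g t = u)
    (hu : u.order = (R.m : ℤ))
    (E : IntermediateField K (FGK K S₀)) (hE : E ≤ K⟮t⟯) [FiniteDimensional E (FGK K S₀)]
    (hrank : Module.finrank E (FGK K S₀) = Nat.card (XG Γ))
    (hε : ∀ e : ℕ, IsSpecialElt (ε ^ e))
    {h : B.Hol} (hinv : IsUnramifiedG B h) {f : FGK K S₀} {m : ℕ}
    (hav : IsAvatarG ι B f (h ^ m)) (x : XG Γ) :
    (m : ℤ) ∣ (H117.placeOf (mkLocalDataG ι B X ε R t u ht hu) x).ord f := by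
  haveI : CharZero K := algebraRat.charZero K
  set L := mkLocalDataG ι B X ε R t u ht hu with hL
  obtain ⟨g, rfl⟩ := QuotientGroup.mk_surjective x
  set w := H117.placeOf L (g : XG Γ) with hw
  set e : ℕ := (w.ord t).toNat with he
  have hpos : 0 < w.ord t := H117.ord_t_pos L _
  have hecast : (e : ℤ) = w.ord t := Int.toNat_of_nonneg hpos.le
  have he0 : (e : ℤ) ≠ 0 := by rw [hecast]; exact hpos.ne'
  -- the orbit
  have hfix : (permG Γ ε⁻¹ ^ e) (g : XG Γ) = (g : XG Γ) :=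
    perm_pow_ord_t_apply L E hE hrank (g : XG Γ)
  have hmem := conj_mem_of_permG_pow_apply_eq hfix
  -- the rotation
  set H : B.Hol := B.compH g⁻¹ h with hH
  have hHinv : B.compH (ε ^ e) H = H := hinv.compH_pow_eq (hε e) hmem
  have hdvd : (R.m : ℤ) ∣ (e : ℤ) * (X.E H).order := rot_dvd_of_compH_pow_eqG B X ε R H e hHinv
  -- the multiplicity
  have hmult : (H117.mult L (g : XG Γ) : ℤ) * w.ord t = (R.m : ℤ) := H117.mult_mul_ord_t L _
  have hk0 : (H117.mult L (g : XG Γ) : ℤ) ≠ 0 := by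
    exact_mod_cast (H117.mult_pos L (g : XG Γ)).ne'
  have hdvd2 : (H117.mult L (g : XG Γ) : ℤ) ∣ (X.E H).order := by
    rw [← hmult, ← hecast, mul_comm] at hdvd
    exact (mul_dvd_mul_iff_left he0).mp hdvd
  obtain ⟨k, hk⟩ := hdvd2
  -- the order of `f`
  have hσ : L.σ (g : XG Γ) f = X.E H ^ m := by
    show sigmaXG ι B X (g : XG Γ) f = _
    rw [hav.sigmaXG_mk_eq X g, map_pow, map_pow]
  have hord : (L.σ (g : XG Γ) f).order = (m : ℤ) * (X.E H).order := by
    rw [hσ, HahnSeries.order_pow, nsmul_eq_mul]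
  have h1 := H117.order_eq L (g : XG Γ) f
  rw [hord, hk] at h1
  refine ⟨k, ?_⟩
  have h2 : (H117.mult L (g : XG Γ) : ℤ) * w.ord f = (H117.mult L (g : XG Γ) : ℤ) * (m * k) := by
    rw [← h1]; ring
  exact mul_left_cancel₀ hk0 h2

omit [IsAlgClosed K] [Finite (XG Γ)] in
theorem adjoin_jGK_le_sub (a : K) :
    K⟮jGK K hj⟯ ≤ K⟮jGK K hj - algebraMap K (FGK K S₀) a⟯ := by
  rw [IntermediateField.adjoin_le_iff, Set.singleton_subset_iff]
  have h := add_mem
    (IntermediateField.mem_adjoin_simple_self K (jGK K hj - algebraMap K (FGK K S₀) a))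
    (IntermediateField.algebraMap_mem K⟮jGK K hj - algebraMap K (FGK K S₀) a⟯ a)
  rwa [sub_add_cancel] at h

omit [IsAlgClosed K] [Finite (XG Γ)] in
theorem adjoin_jGK_le_inv : K⟮jGK K hj⟯ ≤ K⟮(jGK K hj)⁻¹⟯ := by
  rw [IntermediateField.adjoin_le_iff, Set.singleton_subset_iff]
  have h := inv_mem (IntermediateField.mem_adjoin_simple_self K (jGK K hj)⁻¹)
  rwa [inv_inv] at h

variable (D : GenData M Γ (GenField.ofRat S₀ hj))

/-- **Every place of `K·ℚ(S₀) / K` is analytic**: it is induced by an embedding `σ_x` of the local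
data at `∞` or over a finite point `a`. -/
theorem exists_placeOf_eqG (w : Place K (FGK K S₀)) :
    (∃ x : XG Γ, H117.placeOf (dataInfG ι D.core) x = w) ∨
      ∃ (a : K) (x : XG Γ), H117.placeOf (dataFinG ι D.core a) x = w := by
  haveI : CharZero K := algebraRat.charZero K
  haveI := finiteDimensional_adjoin_jGK ι D
  have hrank := finrank_adjoin_jGK ι D
  rcases sub_exists_point (jGK K hj) w with h | ⟨a, ha⟩
  · left
    have h' : 0 < w.ord (jGK K hj)⁻¹ := by
      rw [Place.ord_inv]; omega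
    exact H117.exists_placeOf_eq (dataInfG ι D.core) K⟮jGK K hj⟯ adjoin_jGK_le_inv hrank w h'
  · right
    exact ⟨a, H117.exists_placeOf_eq (dataFinG ι D.core a) K⟮jGK K hj⟯ (adjoin_jGK_le_sub a)
      hrank w ha⟩

variable {ι D}

/-- **DICT-hard.**  Let `f` be an element of `K·ℚ(S₀)` whose analytic avatar is `h ^ m`, where
`h : Hol` is invariant under all special elements (finite order or trace `2`) of `Γ`.  Then
`m ∣ ord_w f` for every place `w` of `K·ℚ(S₀) / K`. -/
theorem dvd_ord_of_isAvatar_powG {h : D.base.Hol} (hinv : IsUnramifiedG D.base h)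
    {f : FGK K S₀} {m : ℕ} (hav : IsAvatarG ι D.base f (h ^ m))
    (w : Place K (FGK K S₀)) : (m : ℤ) ∣ w.ord f := by
  haveI := finiteDimensional_adjoin_jGK ι D
  have hrank := finrank_adjoin_jGK ι D
  rcases exists_placeOf_eqG ι D w with ⟨x, rfl⟩ | ⟨a, x, rfl⟩
  · exact dvd_ord_placeOf_mkLocalDataG ι D.base.qexpExpansion ModularGroup.T D.core.infRot
      (jGK K hj)⁻¹ (D.base.qexp D.base.JH)⁻¹
      (fun g => by rw [map_inv₀, sigmaGG_jGK]; rfl)
      (by
        rw [RotRel.order_inv' D.base.qexp_JH_ne_zero, D.base.order_qexp_JH, neg_neg]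
        rfl)
      K⟮jGK K hj⟯ adjoin_jGK_le_inv hrank isSpecialElt_T_pow hinv hav x
  · exact dvd_ord_placeOf_mkLocalDataG ι (pointAtG ι D.core a).X (epsAt ι a)
      (pointAtG ι D.core a).R
      (jGK K hj - algebraMap K (FGK K S₀) a) _
      (fun g => sigmaGG_sub ι D.core (pointAtG ι D.core a) g) (pointAtG ι D.core a).order_J
      K⟮jGK K hj⟯ (adjoin_jGK_le_sub a) hrank (isSpecialElt_epsAt_pow ι a) hinv hav x

end Dict

/-! ### The dictionary, easy direction -/

section Easy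

variable {K : Type*} [Field K] [Algebra ℚ K] (ι : K →+* ℂ)
variable {S₀ : Set (LaurentSeries ℚ)} {hj : jq ∈ S₀}
variable {M : ℕ} [NeZero M] {Γ : Subgroup SL(2, ℤ)} (B : GenBase M Γ (GenField.ofRat S₀ hj))
variable (hB : B.IsHolo)

/-- the embedding "Taylor expansion at `τ` of the avatar" -/
def sigmaTauG (τ : ℍ) : FGK K S₀ →+* LaurentSeries ℂ :=
  sigmaGG ι B (B.taylorExpansion hB τ) 1

variable {ι B}

theorem IsAvatarG.sigmaTauG_eq {f : FGK K S₀} {h : B.Hol} (hav : IsAvatarG ι B f h) (τ : ℍ) :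
    sigmaTauG ι B hB τ f = (B.taylorExpansion hB τ).E h := by
  rw [sigmaTauG, hav.sigmaGG_eq, inv_one, B.compH_one]

theorem order_taylorExpansionG {h : B.Hol} (hh : h ≠ 0) (τ : ℍ) :
    ((B.taylorExpansion hB τ).E h).order = ((ordAt τ (h : ℍ → ℂ)).toNat : ℤ) := by
  have h0 : B.toHolo hB h ≠ 0 := fun h1 =>
    hh (B.toHolo_injective hB (h1.trans (map_zero _).symm))
  rw [GenBase.taylorExpansion_E, order_laurentAt_algebraMap τ h0]
  rfl

theorem IsAvatarG.order_sigmaTauG {f : FGK K S₀} {h : B.Hol} (hav : IsAvatarG ι B f h)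
    (hh : h ≠ 0) (τ : ℍ) :
    (sigmaTauG ι B hB τ f).order = ((ordAt τ (h : ℍ → ℂ)).toNat : ℤ) := by
  rw [hav.sigmaTauG_eq hB τ, order_taylorExpansionG hB hh τ]

variable (ι B)

theorem eord_sigmaTauG_const (τ : ℍ) (c : K) :
    0 ≤ H117.eord (sigmaTauG ι B hB τ) (algebraMap K (FGK K S₀) c) := by
  show 0 ≤ (sigmaGG ι B (B.taylorExpansion hB τ) 1 (algebraMap K (FGK K S₀) c)).order
  rw [sigmaGG_algebraMap, HahnSeries.order_C]

theorem JH_sub_constH_ne_zero (c : ℂ) : B.JH - B.constH c ≠ 0 := by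
  intro h0
  have h1 : B.JH = B.constH c := sub_eq_zero.mp h0
  have h2 := B.order_qexp_JH
  rw [h1] at h2
  have h3 : (B.qexp (B.constH c)).order = 0 := by
    show (B.qexp ⟨_, B.const_mem c⟩).order = 0
    rw [B.qexp_const, HahnSeries.order_C]
  rw [h3] at h2
  have hN : (0 : ℤ) < M := by exact_mod_cast Nat.pos_of_ne_zero (NeZero.ne M)
  omega

theorem sigmaTauG_jGK_sub (τ : ℍ) (a : K) :
    sigmaTauG ι B hB τ (jGK K hj - algebraMap K (FGK K S₀) a)
      = (B.taylorExpansion hB τ).E (B.JH - B.constH (ι a)) := by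
  rw [sigmaTauG, map_sub, sigmaGG_jGK, sigmaGG_algebraMap, map_sub,
    (B.taylorExpansion hB τ).const]

theorem exists_eord_sigmaTauG_ne_zero (τ : ℍ) (a : K) (ha : ι a = jFun τ) :
    ∃ t : FGK K S₀, H117.eord (sigmaTauG ι B hB τ) t ≠ 0 := by
  refine ⟨jGK K hj - algebraMap K (FGK K S₀) a, ?_⟩
  show (sigmaTauG ι B hB τ (jGK K hj - algebraMap K (FGK K S₀) a)).order ≠ 0
  rw [sigmaTauG_jGK_sub, order_taylorExpansionG hB (JH_sub_constH_ne_zero B (ι a)) τ]
  have hne := JH_sub_constH_ne_zero B (ι a)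
  set g : B.Hol := B.JH - B.constH (ι a) with hg
  have hmd : MDiff (g : ℍ → ℂ) := hB.mdiff _ g.2
  have hg0 : (g : ℍ → ℂ) ≠ 0 := fun h => hne (Subtype.ext h)
  have htop : ordAt τ (g : ℍ → ℂ) ≠ ⊤ := ordAt_ne_top hmd hg0 τ
  have hval : (g : ℍ → ℂ) τ = 0 := by
    show B.G jBar τ - ι a = 0
    rw [hB.G_j, ha, sub_self]
  have hz : ordAt τ (g : ℍ → ℂ) ≠ 0 := fun h => (ordAt_eq_zero_iff hmd τ).mp h hval
  intro h0
  have h1 : (ordAt τ (g : ℍ → ℂ)).toNat = 0 := by exact_mod_cast h0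
  rcases (ENat.toNat_eq_zero).mp h1 with h | h
  · exact hz h
  · exact htop h

/-- **The place of `K·ℚ(S₀) / K` at a point `τ ∈ ℍ`** with `j(τ) = ι a`. -/
def placeAtTauG (τ : ℍ) (a : K) (ha : ι a = jFun τ) : Place K (FGK K S₀) :=
  H117.placeOfEmb (sigmaTauG ι B hB τ) (eord_sigmaTauG_const ι B hB τ)
    (exists_eord_sigmaTauG_ne_zero ι B hB τ a ha)

theorem exists_mult_placeAtTauG (τ : ℍ) (a : K) (ha : ι a = jFun τ) :
    ∃ k : ℕ, 0 < k ∧ ∀ f : FGK K S₀,
      (sigmaTauG ι B hB τ f).order = k * (placeAtTauG ι B hB τ a ha).ord f :=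
  H117.exists_mult (sigmaTauG ι B hB τ) _ _

variable {ι B}

/-- `ord_τ h = k · ord_w f` for the avatar `h` of `f`. -/
theorem IsAvatarG.exists_ordAt_eq {f : FGK K S₀} {h : B.Hol} (hav : IsAvatarG ι B f h)
    (hh : h ≠ 0) (τ : ℍ) (a : K) (ha : ι a = jFun τ) :
    ∃ k : ℕ, 0 < k ∧
      ((ordAt τ (h : ℍ → ℂ)).toNat : ℤ) = k * (placeAtTauG ι B hB τ a ha).ord f := by
  obtain ⟨k, hk, hkf⟩ := exists_mult_placeAtTauG ι B hB τ a ha
  exact ⟨k, hk, by rw [← hkf f, hav.order_sigmaTauG hB hh τ]⟩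

include hB in
/-- **DICT-easy.**  If `m ∣ ord_w f` at every place `w` of `K·ℚ(S₀) / K`, then `m` divides the
order of vanishing of the avatar `h` of `f` at every `τ ∈ ℍ` with `j(τ) ∈ ι(K)`. -/
theorem IsAvatarG.exists_ordAt_eq_mul {f : FGK K S₀} {h : B.Hol} (hav : IsAvatarG ι B f h)
    (hh : h ≠ 0) {m : ℕ} (hdvd : ∀ w : Place K (FGK K S₀), (m : ℤ) ∣ w.ord f)
    (τ : ℍ) (a : K) (ha : ι a = jFun τ) :
    ∃ k : ℕ, ordAt τ (h : ℍ → ℂ) = ((m * k : ℕ) : ℕ∞) := by
  obtain ⟨k, -, hk⟩ := hav.exists_ordAt_eq hB hh τ a ha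
  have hmd : MDiff (h : ℍ → ℂ) := hB.mdiff _ h.2
  have hh0 : (h : ℍ → ℂ) ≠ 0 := fun h0 => hh (Subtype.ext h0)
  have htop : ordAt τ (h : ℍ → ℂ) ≠ ⊤ := ordAt_ne_top hmd hh0 τ
  have h1 : (m : ℤ) ∣ ((ordAt τ (h : ℍ → ℂ)).toNat : ℤ) := by
    rw [hk]
    exact Dvd.dvd.mul_left (hdvd _) _
  obtain ⟨l, hl⟩ := Int.natCast_dvd_natCast.mp h1
  refine ⟨l, ?_⟩
  rw [← hl, ENat.natCast_toNat htop]

end Easy

end Fermat.Agent.S48.H282

end
end
-- ===== PACK-END S48/H282/DictK.lean

-- ===== PACK-BEGIN S48/H882/GenField.lean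
section


/-!
# Tower A1 / A1-KUM (helper882): function fields `K·F₀` generated by realised series — GEN + DEG

Generic version (ANY subgroup `Γ ≤ SL(2,ℤ)`, ANY field `F₀ ⊆ ℚ((q))` generated by a set `S` of
series) of the landed `Γ₀(N)` files `S24/Deg/H457_Alg` (`gens`, `AK`, `laurentBaseChange_full_le`)
and `S29/M4b/K3/{Basic,Deg}` (`exists_div_AK`, `exists_div_goodQ`, `degStatement`).

* `gensG K S`, `AKG K S` : the generators over `K` and the `K`-algebra they generate;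
* `GenData Γ F₀ S` : `F₀ = ℚ(S)` and every `s ∈ S` is the `q`-expansion at `i∞` of a good
  function for `Γ` (for `F₀ = F1 M`, `Γ = Γ₁(M)`: `S = {j(q^d)} ∪ {P_a}`, avatars `j(dτ)`,
  `pFun M a`);
* `exists_div_AKG`, `GenData.exists_div_goodQG` : quotient presentations;
* `GenData.algDeg`, `GenData.degStatement` : **DEG** — every element of `ℂ·F₀` is integral of
  degree `≤ [SL(2,ℤ) : Γ]` over `ℂ(j)` (exactly the hypothesis `hdeg` of `S29.H152.desc_main`).
-/

set_option autoImplicit false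

noncomputable section

open UpperHalfPlane ModularGroup CongruenceSubgroup Polynomial ModularCurve
open scoped MatrixGroups Manifold Modular Real

namespace Fermat.Agent.S48.H882

open Fermat.Agent.S24 Fermat.Agent.S24.H648 Fermat.Agent.S24.H708 Fermat.Agent.S24.Deg457

section Alg

variable (K : Type*) [Field K] [Algebra ℚ K] (S : Set (LaurentSeries ℚ))

/-- The generators `S`, with coefficients in `K`. -/
def gensG : Set (LaurentSeries K) := ⇑(coeffEmb K) '' S

/-- The `K`-algebra generated by `S`. -/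
def AKG : Subalgebra K (LaurentSeries K) := Algebra.adjoin K (gensG K S)

variable {K S}

theorem coeffEmb_mem_AKG {s : LaurentSeries ℚ} (hs : s ∈ S) : coeffEmb K s ∈ AKG K S :=
  Algebra.subset_adjoin ⟨s, hs, rfl⟩

theorem coeffMap_mem_AKG {L : Type*} [Field L] [Algebra ℚ L] (ι : K →+* L)
    {a : LaurentSeries K} (ha : a ∈ AKG K S) : coeffMap ι a ∈ AKG L S := by
  unfold AKG at ha
  induction ha using Algebra.adjoin_induction with
  | mem x hx =>
    obtain ⟨y, hy, rfl⟩ := hx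
    rw [coeffMap_coeffEmb']
    exact Algebra.subset_adjoin ⟨y, hy, rfl⟩
  | algebraMap r =>
    rw [coeffMap_algebraMap']
    exact Subalgebra.algebraMap_mem _ _
  | add x y _ _ hx hy =>
    rw [map_add]; exact Subalgebra.add_mem _ hx hy
  | mul x y _ _ hx hy =>
    rw [map_mul]; exact Subalgebra.mul_mem _ hx hy

theorem coeffEmb_mem_adjoin_gensG {y : LaurentSeries ℚ}
    (hy : y ∈ IntermediateField.adjoin ℚ S) :
    coeffEmb K y ∈ IntermediateField.adjoin K (gensG K S) := by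
  refine IntermediateField.adjoin_induction ℚ
    (p := fun y _ => coeffEmb K y ∈ IntermediateField.adjoin K (gensG K S)) ?_ ?_ ?_ ?_ ?_ hy
  · intro x hx
    exact IntermediateField.subset_adjoin K _ ⟨x, hx, rfl⟩
  · intro c
    have : coeffEmb K (algebraMap ℚ (LaurentSeries ℚ) c)
        = algebraMap K (LaurentSeries K) (algebraMap ℚ K c) := by
      rw [coeffEmb, coeffMap_algebraMap']
    rw [this]
    exact IntermediateField.algebraMap_mem _ _
  · intro x y _ _ hx hy
    rw [map_add]; exact add_mem hx hy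
  · intro x _ hx
    rw [map_inv₀]; exact inv_mem hx
  · intro x y _ _ hx hy
    rw [map_mul]; exact mul_mem hx hy

variable (K) in
/-- The base-changed field `K·F₀` is generated over `K` by `S` if `F₀ ⊆ ℚ(S)`. -/
theorem laurentBaseChange_le_adjoin_gensG {F₀ : IntermediateField ℚ (LaurentSeries ℚ)}
    (hS : F₀ ≤ IntermediateField.adjoin ℚ S) :
    laurentBaseChange K F₀ ≤ IntermediateField.adjoin K (gensG K S) := by
  rw [laurentBaseChange, IntermediateField.adjoin_le_iff]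
  rintro _ ⟨y, hy, rfl⟩
  exact coeffEmb_mem_adjoin_gensG (hS hy)

variable (K) in
/-- The polynomials in the generators lie in `K·F₀` if `S ⊆ F₀`. -/
theorem AKG_le_laurentBaseChange {F₀ : IntermediateField ℚ (LaurentSeries ℚ)}
    (hS : S ⊆ F₀) : AKG K S ≤ (laurentBaseChange K F₀).toSubalgebra := by
  refine Algebra.adjoin_le ?_
  rintro _ ⟨y, hy, rfl⟩
  exact coeffEmb_mem_laurentBaseChange K (hS hy)

variable (K) in
/-- Every element of `K·F₀` is a quotient of two polynomials in the generators. -/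
theorem exists_div_AKG {F₀ : IntermediateField ℚ (LaurentSeries ℚ)}
    (hS : F₀ ≤ IntermediateField.adjoin ℚ S) {x : LaurentSeries K}
    (hx : x ∈ laurentBaseChange K F₀) :
    ∃ r ∈ AKG K S, ∃ s ∈ AKG K S, s ≠ 0 ∧ x = r / s := by
  have h := laurentBaseChange_le_adjoin_gensG K hS hx
  rw [IntermediateField.mem_adjoin_iff_div] at h
  obtain ⟨r, hr, s, hs, rfl⟩ := h
  by_cases hs0 : s = 0
  · refine ⟨0, zero_mem _, 1, one_mem _, one_ne_zero, ?_⟩
    rw [hs0, div_zero, zero_div]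
  · exact ⟨r, hr, s, hs, hs0, rfl⟩

end Alg

/-! ### GEN: generators realised by good functions -/

/-- **GEN** for `(Γ, F₀)`: `F₀ = ℚ(S)` and every generator `s ∈ S` is the `q`-expansion at `i∞`
of a good function for `Γ`. -/
structure GenData (Γ : Subgroup SL(2, ℤ)) (F₀ : IntermediateField ℚ (LaurentSeries ℚ))
    (S : Set (LaurentSeries ℚ)) : Prop where
  subset : S ⊆ F₀
  le_adjoin : F₀ ≤ IntermediateField.adjoin ℚ S
  real : ∀ s ∈ S, coeffEmb ℂ s ∈ goodQG Γ

/-- **MERO** for `(Γ, F₀)`: the `q`-expansion of every good function for `Γ` lies in `ℂ·F₀`. -/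
def MeroG (Γ : Subgroup SL(2, ℤ)) (F₀ : IntermediateField ℚ (LaurentSeries ℚ)) : Prop :=
  ∀ G : ℍ → ℂ, GoodG Γ G → qexpFun 1 G ∈ laurentBaseChange ℂ F₀

namespace GenData

variable {Γ : Subgroup SL(2, ℤ)} {F₀ : IntermediateField ℚ (LaurentSeries ℚ)}
  {S : Set (LaurentSeries ℚ)}

/-- GEN passes to subgroups. -/
theorem mono (h : GenData Γ F₀ S) {Γ' : Subgroup SL(2, ℤ)} (hle : Γ' ≤ Γ) : GenData Γ' F₀ S :=
  ⟨h.subset, h.le_adjoin, fun s hs => by
    obtain ⟨f, hf, hq⟩ := h.real s hs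
    exact ⟨f, hf.mono hle, hq⟩⟩

theorem AKG_le_goodQG (h : GenData Γ F₀ S) : AKG ℂ S ≤ goodQG Γ := by
  refine Algebra.adjoin_le ?_
  rintro _ ⟨s, hs, rfl⟩
  exact h.real s hs

/-- Polynomials in the generators over any `K ⊆ ℂ` are realised by good functions. -/
theorem coeffMap_mem_goodQG (h : GenData Γ F₀ S) {K : Type*} [Field K] [Algebra ℚ K]
    (ι : K →+* ℂ) {a : LaurentSeries K} (ha : a ∈ AKG K S) : coeffMap ι a ∈ goodQG Γ :=
  h.AKG_le_goodQG (coeffMap_mem_AKG ι ha)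

/-- Every element of `ℂ·F₀` is a quotient of `q`-expansions of good functions. -/
theorem exists_div_goodQG (h : GenData Γ F₀ S) {x : LaurentSeries ℂ}
    (hx : x ∈ laurentBaseChange ℂ F₀) :
    ∃ a ∈ goodQG Γ, ∃ b ∈ goodQG Γ, b ≠ 0 ∧ x = a / b := by
  obtain ⟨r, hr, s, hs, hs0, hrs⟩ := exists_div_AKG ℂ h.le_adjoin hx
  exact ⟨r, h.AKG_le_goodQG hr, s, h.AKG_le_goodQG hs, hs0, hrs⟩

theorem laurentBaseChange_le_adjoin_goodQG (h : GenData Γ F₀ S) :
    laurentBaseChange ℂ F₀ ≤ IntermediateField.adjoin ℂ (goodQG Γ : Set (LaurentSeries ℂ)) := by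
  refine (laurentBaseChange_le_adjoin_gensG ℂ h.le_adjoin).trans ?_
  refine IntermediateField.adjoin.mono ℂ _ _ ?_
  rintro _ ⟨s, hs, rfl⟩
  exact h.real s hs

/-- Every element of `ℂ·F₀` is a root of a nonzero polynomial of degree `≤ [SL(2,ℤ) : Γ]` over
`ℂ[j]`. -/
theorem algDeg (h : GenData Γ F₀ S) [Finite (SL(2, ℤ) ⧸ Γ)] {x : LaurentSeries ℂ}
    (hx : x ∈ laurentBaseChange ℂ F₀) : AlgDeg ℂ (Nat.card (SL(2, ℤ) ⧸ Γ)) x :=
  algDeg_of_mem_adjoin_goodQG (h.laurentBaseChange_le_adjoin_goodQG hx)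

/-- **DEG**: `ℂ·F₀` has bounded degree over `ℂ(j)` (hypothesis `hdeg` of `H152.desc_main`). -/
theorem degStatement (h : GenData Γ F₀ S) [Finite (SL(2, ℤ) ⧸ Γ)] :
    ∀ u ∈ laurentBaseChange ℂ F₀,
      IsIntegral (IntermediateField.adjoin ℂ {coeffEmb ℂ jq}) u ∧
        (minpoly (IntermediateField.adjoin ℂ {coeffEmb ℂ jq}) u).natDegree
          ≤ Nat.card (SL(2, ℤ) ⧸ Γ) := by
  intro u hu
  obtain ⟨Q, hQ0, hQn, hQ⟩ := h.algDeg hu
  have hj : ∀ t : ℂ[X], t ≠ 0 →
      aeval (IntermediateField.AdjoinSimple.gen ℂ (coeffEmb ℂ jq)) t ≠ 0 := by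
    intro t ht h0
    apply aeval_JK_ne_zero ℂ ht
    have h1 := congrArg (algebraMap ↥(IntermediateField.adjoin ℂ {coeffEmb ℂ jq})
      (LaurentSeries ℂ)) h0
    rw [← aeval_algebraMap_apply, map_zero, IntermediateField.AdjoinSimple.algebraMap_gen] at h1
    exact h1
  refine isIntegral_and_natDegree_le_of_relation (K := ℂ)
    (IntermediateField.AdjoinSimple.gen ℂ (coeffEmb ℂ jq)) hj u Q hQ0 _ hQn ?_
  rw [IntermediateField.AdjoinSimple.algebraMap_gen]
  exact hQ

end GenData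

end Fermat.Agent.S48.H882

end
end
-- ===== PACK-END S48/H882/GenField.lean

-- ===== PACK-BEGIN S48/H882/K3Gen.lean
section





/-!
# Tower A1 / A1-KUM, piece K3 (descent `ℂ → ℚ̄`), GENERIC in `(Γ, F₀)` — TOP (helper882)

Generic port of the landed `S29/M4b/K3/{Basic,Top}.lean` (helper42) from `(Γ₀(N), F₀(N))` to ANY
subgroup `Γ ≤ SL(2,ℤ)` of finite index containing `T` and ANY field `F₀ ⊆ ℚ((q))` with `jq ∈ F₀`.

Interface (all `Prop`s about `q`-expansions at `i∞`; characters are `χ : Γ →* ℂˣ`, as in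
`S48.H332.GHasChar` and `S29.H942.exists_kummerChar`):

* `HasCharG Γ χ U`      : `U (γ τ) = χ γ * U τ`;
* `IsTwistedG Γ p χ U`  : `U` holomorphic, `≠ 0`, of character `χ`, `U ^ p` good for `Γ`;
* `RealisesG Γ F₀ u G`  : `G` good for `Γ`, `qexp G = ι u`, `u ∈ ℚ̄·F₀`;
* `MeroG Γ F₀`          : **MERO** (file `GenField.lean`; proved in `MeroG.lean` from the degree);
* `GenData Γ F₀ S`      : **GEN** (file `GenField.lean`);
* `FinG F₀ p U`         : **FIN** — finiteness of the `Aut(ℂ/ℚ̄)`-orbit of the class of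
  `qexp (U ^ p)` modulo `p`-th powers (proved in `K3Fin.lean` from DTO + DFROM + MERO).

Main result `exists_realised_isTwistedG` : MERO + GEN + FIN ⟹ for a twisted function `U` of a
character `χ` with `χ T = 1` there are `U'` twisted of the SAME character and `u ∈ ℚ̄·F₀` with
`U' ^ p` realising `u`.
-/

set_option autoImplicit false
set_option linter.style.haveILetI false

noncomputable section

open UpperHalfPlane ModularGroup CongruenceSubgroup Polynomial ModularCurve AlgebraicCurve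
open scoped MatrixGroups Manifold Modular Real

namespace Fermat.Agent.S48.H882

open Fermat.Agent.S24 Fermat.Agent.S24.H648 Fermat.Agent.S24.H708 Fermat.Agent.S24.Deg457
open Fermat.Agent.S24.H624

/-! ### Interface definitions -/

section Defs

variable (Γ : Subgroup SL(2, ℤ)) (F₀ : IntermediateField ℚ (LaurentSeries ℚ))

/-- `U` transforms under `Γ` by the character `χ`. -/
def HasCharG (χ : Γ →* ℂˣ) (U : ℍ → ℂ) : Prop :=
  ∀ (γ : Γ) (τ : ℍ), U ((γ : SL(2, ℤ)) • τ) = ((χ γ : ℂˣ) : ℂ) * U τ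

/-- `U` is a twisted function of character `χ` and exponent `p`: holomorphic on `ℍ`, not
identically zero, of character `χ`, with `U ^ p` good for `Γ`. -/
structure IsTwistedG (p : ℕ) (χ : Γ →* ℂˣ) (U : ℍ → ℂ) : Prop where
  mdiff : MDifferentiable 𝓘(ℂ) 𝓘(ℂ) U
  ne_zero : ∃ τ : ℍ, U τ ≠ 0
  hasChar : HasCharG Γ χ U
  pow_good : GoodG Γ (fun τ => U τ ^ p)

/-- `G` realises `u ∈ ℚ̄·F₀`: `G` is good for `Γ` and its `q`-expansion at `i∞` is `u` (with
coefficients embedded by `Deg457.iotaC`). -/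
def RealisesG (u : laurentBaseChange Kbar F₀) (G : ℍ → ℂ) : Prop :=
  GoodG Γ G ∧ qexpFun 1 G = coeffMap iotaC ((u : laurentBaseChange Kbar F₀) : LaurentSeries Kbar)

/-- **FIN** for the function `U`: the `Aut(ℂ/ℚ̄)`-orbit of the class of `qexp (U ^ p)` in
`(ℂ·F₀)ˣ / (ℂ·F₀)ˣ ^ p` is finite (hypothesis `horb` of `S29.H152.desc_main`). -/
def FinG (p : ℕ) (U : ℍ → ℂ) : Prop :=
  letI : Algebra Kbar ℂ := iotaC.toAlgebra
  ∃ T : Set (LaurentSeries ℂ), T.Finite ∧ ∀ σ : ℂ ≃ₐ[Kbar] ℂ, ∃ t ∈ T,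
    ∃ u ∈ laurentBaseChange ℂ F₀, u ≠ 0 ∧
      coeffMap (σ : ℂ →+* ℂ) (qexpFun 1 (fun τ => U τ ^ p)) = t * u ^ p

end Defs

/-! ### Basic lemmas -/

section Basic

variable {Γ : Subgroup SL(2, ℤ)} {p : ℕ}

theorem order_jq_eq : jq.order = -1 := by
  have hne : jq ≠ 0 := by
    intro h
    have h1 := coeff_jq_neg_one
    rw [h, HahnSeries.coeff_zero] at h1
    exact zero_ne_one h1
  refine le_antisymm (HahnSeries.order_le_of_coeff_ne_zero ?_) ?_
  · rw [coeff_jq_neg_one]
    exact one_ne_zero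
  · by_contra hlt
    rw [not_le] at hlt
    refine HahnSeries.coeff_order_eq_zero.not.mpr hne ?_
    exact coeff_jq_of_lt hlt

/-- A function of a character trivial on `T` is `1`-periodic. -/
theorem periodic_of_hasCharG (hT : ModularGroup.T ∈ Γ) {χ : Γ →* ℂˣ}
    (hχT : χ ⟨ModularGroup.T, hT⟩ = 1) {U : ℍ → ℂ} (hU : HasCharG Γ χ U) :
    Function.Periodic (U ∘ ofComplex) (1 : ℝ) := by
  have hTτ : ∀ τ : ℍ, U (ModularGroup.T • τ) = U τ := by
    intro τ
    have h := hU ⟨ModularGroup.T, hT⟩ τ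
    rw [hχT, Units.val_one, one_mul] at h
    exact h
  intro w
  by_cases hw : 0 < Complex.im w
  · have hw' : 0 < Complex.im (w + ((1 : ℝ) : ℂ)) := by simpa using hw
    simp only [Function.comp_apply, ofComplex_apply_of_im_pos hw', ofComplex_apply_of_im_pos hw]
    rw [← hTτ ⟨w, hw⟩]
    congr 1
    apply UpperHalfPlane.ext
    rw [UpperHalfPlane.modular_T_smul, UpperHalfPlane.coe_vadd]
    simp [add_comm]
  · have hw0 : Complex.im w ≤ 0 := not_lt.mp hw
    have hw' : Complex.im (w + ((1 : ℝ) : ℂ)) ≤ 0 := by simpa using hw0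
    simp only [Function.comp_apply]
    rw [ofComplex_apply_of_im_nonpos hw', ofComplex_apply_of_im_nonpos hw0]

/-- If `U ^ p` (`p ≠ 0`) has at most exponential growth, so has `U`. -/
theorem expGrowth_of_pow_expGrowth (hp : p ≠ 0) {U : ℍ → ℂ}
    (h : ExpGrowth (fun τ => U τ ^ p)) : ExpGrowth U := by
  obtain ⟨C, m, hC⟩ := h
  refine ⟨1 + |C|, m, fun τ hτ => ?_⟩
  have h1 := hC τ hτ
  rw [norm_pow] at h1
  have hexp : (1 : ℝ) ≤ Real.exp (2 * Real.pi * m * τ.im) := by
    apply Real.one_le_exp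
    have := Real.pi_pos
    have := τ.im_pos
    positivity
  by_cases hle : ‖U τ‖ ≤ 1
  · calc ‖U τ‖ ≤ 1 := hle
      _ ≤ (1 + |C|) * 1 := by have := abs_nonneg C; linarith
      _ ≤ (1 + |C|) * Real.exp (2 * Real.pi * m * τ.im) := by
          apply mul_le_mul_of_nonneg_left hexp
          have := abs_nonneg C; linarith
  · have hgt : 1 ≤ ‖U τ‖ := (not_le.mp hle).le
    have h2 : ‖U τ‖ ≤ ‖U τ‖ ^ p := le_self_pow₀ hgt hp
    calc ‖U τ‖ ≤ ‖U τ‖ ^ p := h2
      _ ≤ C * Real.exp (2 * Real.pi * m * τ.im) := h1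
      _ ≤ (1 + |C|) * Real.exp (2 * Real.pi * m * τ.im) := by
          apply mul_le_mul_of_nonneg_right _ (Real.exp_pos _).le
          have := le_abs_self C; linarith

/-- A holomorphic `Γ`-invariant function one of whose powers is good is good. -/
theorem goodG_of_pow_goodG (hp : p ≠ 0) {W : ℍ → ℂ} (hW : MDifferentiable 𝓘(ℂ) 𝓘(ℂ) W)
    (hinv : ∀ γ ∈ Γ, ∀ τ : ℍ, W (γ • τ) = W τ) (hpow : GoodG Γ (fun τ => W τ ^ p)) :
    GoodG Γ W :=
  ⟨hW, hinv, fun g => expGrowth_of_pow_expGrowth hp (hpow.2.2 g)⟩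

/-- **K3a**: a twisted function of a character trivial on `T` is meromorphic at `i∞` in `q`. -/
theorem isMerInf_of_isTwistedG (hp : p ≠ 0) (hT : ModularGroup.T ∈ Γ) {χ : Γ →* ℂˣ}
    (hχT : χ ⟨ModularGroup.T, hT⟩ = 1) {U : ℍ → ℂ} (hU : IsTwistedG Γ p χ U) :
    IsMerInf 1 U := by
  refine ⟨hU.mdiff, ?_, ?_⟩
  · have := periodic_of_hasCharG hT hχT hU.hasChar
    simpa using this
  · obtain ⟨-, -, h3⟩ := hU.pow_good
    have h := h3 1
    simp only [one_smul] at h
    exact Fermat.Agent.S29.H882.isBounded_mul_qh_pow_of_expGrowth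
      (expGrowth_of_pow_expGrowth hp h)

theorem IsTwistedG.fun_ne_zero {χ : Γ →* ℂˣ} {U : ℍ → ℂ} (hU : IsTwistedG Γ p χ U) : U ≠ 0 := by
  obtain ⟨τ, hτ⟩ := hU.ne_zero
  intro h0
  exact hτ (by rw [h0]; rfl)

theorem IsTwistedG.pow_ne_zero {χ : Γ →* ℂˣ} {U : ℍ → ℂ} (hU : IsTwistedG Γ p χ U) :
    (fun τ => U τ ^ p) ≠ 0 := by
  obtain ⟨τ, hτ⟩ := hU.ne_zero
  intro h0
  exact _root_.pow_ne_zero p hτ (congrFun h0 τ)

/-- The `q`-expansion of the `p`-th power of a twisted function is nonzero. -/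
theorem IsTwistedG.qexpFun_pow_ne_zero (hT : ModularGroup.T ∈ Γ) {χ : Γ →* ℂˣ} {U : ℍ → ℂ}
    (hU : IsTwistedG Γ p χ U) : qexpFun 1 (fun τ => U τ ^ p) ≠ 0 := by
  intro h0
  exact hU.pow_ne_zero ((qexpFun_eq_zero_iff (isMerInf_of_goodG hT hU.pow_good)).mp h0)

/-- The character of a twisted function has exponent `p`. -/
theorem IsTwistedG.char_pow {χ : Γ →* ℂˣ} {U : ℍ → ℂ} (hU : IsTwistedG Γ p χ U) (γ : Γ) :
    χ γ ^ p = 1 := by
  obtain ⟨τ, hτ⟩ := hU.ne_zero
  have h1 := hU.pow_good.2.1 γ γ.2 τ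
  simp only at h1
  rw [hU.hasChar γ τ, mul_pow] at h1
  have h2 : (((χ γ : ℂˣ) : ℂ) ^ p - 1) * U τ ^ p = 0 := by
    rw [sub_mul, one_mul, h1, sub_self]
  rcases mul_eq_zero.mp h2 with h | h
  · apply Units.ext
    rw [Units.val_pow_eq_pow_val, Units.val_one]
    exact sub_eq_zero.mp h
  · exact absurd h (_root_.pow_ne_zero p hτ)

/-- Transport of the character along `U' * B = ζ * (U * A)` with `A`, `B` invariant. -/
theorem hasCharG_of_mul_eq {χ : Γ →* ℂˣ} {U U' A B : ℍ → ℂ} (ζ : ℂ)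
    (hU' : MDifferentiable 𝓘(ℂ) 𝓘(ℂ) U') (hB : MDifferentiable 𝓘(ℂ) 𝓘(ℂ) B) (hB0 : B ≠ 0)
    (hAinv : ∀ γ ∈ Γ, ∀ τ : ℍ, A (γ • τ) = A τ)
    (hBinv : ∀ γ ∈ Γ, ∀ τ : ℍ, B (γ • τ) = B τ)
    (hU : HasCharG Γ χ U) (h : ∀ τ, U' τ * B τ = ζ * (U τ * A τ)) : HasCharG Γ χ U' := by
  intro γ τ₀
  set c : ℂ := ((χ γ : ℂˣ) : ℂ) with hc
  set D : ℍ → ℂ := fun τ => U' ((γ : SL(2, ℤ)) • τ) - c * U' τ with hD
  have hDm : MDifferentiable 𝓘(ℂ) 𝓘(ℂ) D := by
    have h1 : MDifferentiable 𝓘(ℂ) 𝓘(ℂ) (fun τ : ℍ => U' ((γ : SL(2, ℤ)) • τ)) :=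
      (precompSL (γ : SL(2, ℤ)) ⟨U', hU'⟩).2
    have h2 : MDifferentiable 𝓘(ℂ) 𝓘(ℂ) (fun τ : ℍ => c * U' τ) :=
      (mdifferentiable_const (c := c)).mul hU'
    exact h1.sub h2
  have hDB : D * B = 0 := by
    funext τ
    simp only [Pi.mul_apply, Pi.zero_apply, hD]
    have e1 := h ((γ : SL(2, ℤ)) • τ)
    rw [hBinv _ γ.2 τ, hAinv _ γ.2 τ, hU γ τ] at e1
    have e2 := h τ
    calc (U' ((γ : SL(2, ℤ)) • τ) - c * U' τ) * B τ
        = U' ((γ : SL(2, ℤ)) • τ) * B τ - c * (U' τ * B τ) := by ring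
      _ = ζ * (c * U τ * A τ) - c * (ζ * (U τ * A τ)) := by rw [e1, e2]
      _ = 0 := by ring
  rcases mul_eq_zero_of_mdiff hDm hB hDB with h0 | h0
  · have := congrFun h0 τ₀
    simp only [hD, Pi.zero_apply] at this
    exact sub_eq_zero.mp this
  · exact absurd h0 hB0

/-- ROOT with divisibility read off from an identity `G * B ^ p = V ^ p`. -/
theorem exists_root_of_mul_pow_eq' (hp : p ≠ 0) {G B V : ℍ → ℂ}
    (hG : MDifferentiable 𝓘(ℂ) 𝓘(ℂ) G) (hB : MDifferentiable 𝓘(ℂ) 𝓘(ℂ) B)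
    (hV : MDifferentiable 𝓘(ℂ) 𝓘(ℂ) V) (hB0 : B ≠ 0) (hV0 : V ≠ 0)
    (h : ∀ τ, G τ * B τ ^ p = V τ ^ p) :
    ∃ U' : ℍ → ℂ, MDifferentiable 𝓘(ℂ) 𝓘(ℂ) U' ∧ ∀ τ : ℍ, U' τ ^ p = G τ := by
  refine Fermat.Agent.S29.H751.exists_pow_eq_UHP hG p hp fun τ => ?_
  have hfun : G * B ^ p = V ^ p := funext h
  have h1 : ordAt τ (G * B ^ p) = ordAt τ G + p • ordAt τ B := by
    rw [ordAt_mul hG (hB.pow p)]
    congr 1
    rw [ordAt_def, ordAt_def]
    have : (B ^ p) ∘ ofComplex = (B ∘ ofComplex) ^ p := rfl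
    rw [this, analyticOrderAt_pow (analyticAt_of_mdiff hB τ)]
  have h2 : ordAt τ (V ^ p) = p • ordAt τ V := by
    rw [ordAt_def, ordAt_def]
    have : (V ^ p) ∘ ofComplex = (V ∘ ofComplex) ^ p := rfl
    rw [this, analyticOrderAt_pow (analyticAt_of_mdiff hV τ)]
  rw [hfun, h2] at h1
  obtain ⟨b, hb⟩ := ENat.ne_top_iff_exists.mp (ordAt_ne_top hB hB0 τ)
  obtain ⟨v, hv⟩ := ENat.ne_top_iff_exists.mp (ordAt_ne_top hV hV0 τ)
  have hGne : ordAt τ G ≠ ⊤ := by
    intro htop
    rw [htop, top_add, ← hv] at h1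
    have h4 : ((p * v : ℕ) : ℕ∞) = ⊤ := by
      rw [← h1]; push_cast; simp [nsmul_eq_mul]
    exact ENat.natCast_ne_top _ h4
  obtain ⟨g, hg⟩ := ENat.ne_top_iff_exists.mp hGne
  rw [← hb, ← hv, ← hg] at h1
  have h3 : p * v = g + p * b := by
    have : ((p * v : ℕ) : ℕ∞) = ((g + p * b : ℕ) : ℕ∞) := by
      push_cast
      simpa [nsmul_eq_mul] using h1
    exact_mod_cast this
  refine ⟨v - b, ?_⟩
  rw [← ordAt_def, ← hg]
  have hbv : b ≤ v := by
    by_contra hlt
    rw [not_le] at hlt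
    have : p * v < p * b := Nat.mul_lt_mul_of_pos_left hlt (Nat.pos_of_ne_zero hp)
    omega
  have : g = p * (v - b) := by
    rw [Nat.mul_sub]
    omega
  rw [this]

end Basic

/-! ### The top assembly -/

/-- **PIECE K3, generic** (from MERO, GEN and FIN).  For a twisted function `U` of a character
`χ` trivial on `T` there are a twisted function `U'` of the same character and `u ∈ ℚ̄·F₀` such
that `U' ^ p` realises `u`. -/
theorem exists_realised_isTwistedG (Γ : Subgroup SL(2, ℤ)) [Finite (SL(2, ℤ) ⧸ Γ)]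
    (hT : ModularGroup.T ∈ Γ) (F₀ : IntermediateField ℚ (LaurentSeries ℚ)) (hj : jq ∈ F₀)
    {S : Set (LaurentSeries ℚ)} (hgen : GenData Γ F₀ S) (hmero : MeroG Γ F₀)
    (p : ℕ) [NeZero p] {χ : Γ →* ℂˣ} (hχT : χ ⟨ModularGroup.T, hT⟩ = 1) {U : ℍ → ℂ}
    (hU : IsTwistedG Γ p χ U) (hfin : FinG F₀ p U) :
    ∃ (U' : ℍ → ℂ) (u : laurentBaseChange Kbar F₀),
      IsTwistedG Γ p χ U' ∧ RealisesG Γ F₀ u (fun τ => U' τ ^ p) := by
  classical
  letI : Algebra Kbar ℂ := iotaC.toAlgebra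
  have hp : p ≠ 0 := NeZero.ne p
  -- `q`-expansions of `U` and `U ^ p`
  have hqU : HasQExp 1 U (qexpFun 1 U) :=
    HasQExp.of_isMerInf (isMerInf_of_isTwistedG hp hT hχT hU)
  have hqG : HasQExp 1 (fun τ => U τ ^ p) (qexpFun 1 U ^ p) := hqU.pow p
  have hfFC : qexpFun 1 (fun τ => U τ ^ p) ∈ laurentBaseChange ℂ F₀ := hmero _ hU.pow_good
  have hUne : U ≠ 0 := hU.fun_ne_zero
  have hGne : (fun τ => U τ ^ p) ≠ 0 := hU.pow_ne_zero
  have hf0 : qexpFun 1 (fun τ => U τ ^ p) ≠ 0 := by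
    rw [hqG.qexpFun_eq]
    exact fun h0 => hGne (hqG.eq_zero_iff.mp h0)
  -- descent
  obtain ⟨T, hTfin, horb⟩ := hfin
  obtain ⟨g, hgF, hg0, -, -, -, f', hf', hfg⟩ :=
    Fermat.Agent.S29.H152.desc_main (K := Kbar) (Ω := ℂ) F₀ jq hj order_jq_eq
      (Nat.card (SL(2, ℤ) ⧸ Γ)) hgen.degStatement
      p (Nat.pos_of_ne_zero hp) (qexpFun 1 (fun τ => U τ ^ p)) (qexpFun 1 U) hfFC hf0
      hqG.qexpFun_eq.symm T hTfin horb
  -- clear the denominator of `f'` by a `p`-th power
  obtain ⟨r, hr, s, hs, hs0, hrs⟩ := exists_div_AKG Kbar hgen.le_adjoin hf'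
  have hιinj : Function.Injective (coeffMap iotaC) := by
    intro x y hxy
    ext k
    have := congrArg (fun z : LaurentSeries ℂ => z.coeff k) hxy
    simp only [coeffMap_coeff] at this
    exact iotaC.injective this
  have hιs0 : coeffMap iotaC s ≠ 0 := fun h0 => hs0 (hιinj (by rw [h0, map_zero]))
  set u₀ : LaurentSeries Kbar := r * s ^ (p - 1) with hu₀
  have hu₀AK : u₀ ∈ AKG Kbar S := mul_mem hr (pow_mem hs _)
  have hu₀F : u₀ ∈ laurentBaseChange Kbar F₀ := AKG_le_laurentBaseChange Kbar hgen.subset hu₀AK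
  have hu₀eq : u₀ = f' * s ^ p := by
    rw [hu₀, hrs]
    have : s ^ p = s ^ (p - 1) * s := by
      rw [← pow_succ, Nat.sub_add_cancel (Nat.pos_of_ne_zero hp)]
    rw [this]
    field_simp
  -- `ι u₀ = f * φ ^ p` with `φ = g * ι s ∈ F_ℂ`
  set φ : LaurentSeries ℂ := g * coeffMap iotaC s with hφ
  have hφF : φ ∈ laurentBaseChange ℂ F₀ :=
    mul_mem hgF (AKG_le_laurentBaseChange ℂ hgen.subset (coeffMap_mem_AKG iotaC hs))
  have hφ0 : φ ≠ 0 := mul_ne_zero hg0 hιs0
  have hιu : coeffMap iotaC u₀ = qexpFun 1 (fun τ => U τ ^ p) * φ ^ p := by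
    rw [hu₀eq, map_mul, map_pow, hφ, mul_pow, ← mul_assoc, hfg]
    rfl
  -- the good function realising `u₀`
  obtain ⟨G', hG'good, hG'q⟩ := hgen.coeffMap_mem_goodQG iotaC hu₀AK
  -- `φ = a / b`, quotient of `q`-expansions of good functions
  obtain ⟨a, ⟨A, hAgood, hAq⟩, b, ⟨B, hBgood, hBq⟩, hb0, hab⟩ := hgen.exists_div_goodQG hφF
  have ha0 : a ≠ 0 := by
    rintro rfl
    rw [zero_div] at hab
    exact hφ0 hab
  have hA0 : A ≠ 0 := fun h0 => ha0 (hAq.eq_zero_iff.mpr h0)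
  have hB0 : B ≠ 0 := fun h0 => hb0 (hBq.eq_zero_iff.mpr h0)
  -- `G' * B ^ p = (U * A) ^ p`
  have hser : coeffMap iotaC u₀ * b ^ p = (qexpFun 1 U * a) ^ p := by
    rw [hιu, hab, mul_pow, hqG.qexpFun_eq, mul_assoc, div_pow,
      div_mul_cancel₀ _ (_root_.pow_ne_zero p hb0)]
  have hfunc : G' * B ^ p = (U * A) ^ p :=
    HasQExp.eq_of_eq (hser ▸ hG'q.mul (hBq.pow p)) ((hqU.mul hAq).pow p)
  have hpt : ∀ τ, G' τ * B τ ^ p = (U * A) τ ^ p := fun τ => congrFun hfunc τ
  have hG'm : MDifferentiable 𝓘(ℂ) 𝓘(ℂ) G' := hG'good.1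
  have hAm : MDifferentiable 𝓘(ℂ) 𝓘(ℂ) A := hAgood.1
  have hBm : MDifferentiable 𝓘(ℂ) 𝓘(ℂ) B := hBgood.1
  have hUAm : MDifferentiable 𝓘(ℂ) 𝓘(ℂ) (U * A) := hU.mdiff.mul hAm
  have hUA0 : U * A ≠ 0 := by
    intro h0
    rcases mul_eq_zero_of_mdiff hU.mdiff hAm h0 with h1 | h1
    · exact hUne h1
    · exact hA0 h1
  -- the root
  obtain ⟨U', hU'm, hU'p⟩ := exists_root_of_mul_pow_eq' hp hG'm hBm hUAm hB0 hUA0 hpt
  -- `U' * B = ζ * (U * A)`
  obtain ⟨τ₀, hτ₀⟩ : ∃ τ₀, (U * A) τ₀ ≠ 0 := by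
    by_contra hcon
    simp only [not_exists, not_not] at hcon
    exact hUA0 (funext hcon)
  have hpow : ∀ τ, (U' τ * B τ) ^ p = (U * A) τ ^ p := fun τ => by
    rw [mul_pow, hU'p, hpt]
  set ζ : ℂ := U' τ₀ * B τ₀ / (U * A) τ₀ with hζ
  have hζp : ζ ^ p = 1 := by
    rw [hζ, div_pow, hpow, div_self (_root_.pow_ne_zero p hτ₀)]
  have hmul : (fun τ => U' τ * B τ) = fun τ => ζ * (U * A) τ := by
    refine Fermat.Agent.S29.H751.eq_of_pow_eq_UHP (hU'm.mul hBm)
      ((mdifferentiable_const (c := ζ)).mul hUAm) hp (fun τ => ?_) (τ₀ := τ₀) ?_ ?_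
    · rw [hpow, mul_pow, hζp, one_mul]
    · rw [hζ]
      field_simp
    · intro h0
      have h1 := hpow τ₀
      rw [h0, zero_pow hp] at h1
      exact _root_.pow_ne_zero p hτ₀ h1.symm
  have hchar : HasCharG Γ χ U' :=
    hasCharG_of_mul_eq ζ hU'm hBm hB0 hAgood.2.1 hBgood.2.1 hU.hasChar
      (fun τ => congrFun hmul τ)
  have hG'eq : (fun τ => U' τ ^ p) = G' := funext hU'p
  have hG'0 : G' ≠ 0 := by
    intro h0
    have := hpt τ₀
    rw [h0] at this
    simp only [Pi.zero_apply, zero_mul] at this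
    exact _root_.pow_ne_zero p hτ₀ this.symm
  refine ⟨U', ⟨u₀, hu₀F⟩, ⟨hU'm, ?_, hchar, ?_⟩, ?_, ?_⟩
  · by_contra hcon
    simp only [not_exists, not_not] at hcon
    apply hG'0
    funext τ
    rw [← hU'p, hcon, zero_pow hp]
    rfl
  · rw [hG'eq]; exact hG'good
  · rw [hG'eq]; exact hG'good
  · rw [hG'eq]; exact hG'q.qexpFun_eq

end Fermat.Agent.S48.H882

end
end
-- ===== PACK-END S48/H882/K3Gen.lean

-- ===== PACK-BEGIN S48/H882/K3Fin.lean
section





/-!
# Tower A1 / A1-KUM, piece K3, GENERIC in `(Γ, F₀)` — FIN and the final form (helper882)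

Generic port of the landed `S29/M4b/K3/{Fin,Main,Final}.lean` (helper42).

* `DToG F₀ p U`   : **DTO** (K2 over `ℂ`, "easy half" of the dictionary) for the function `U`:
    `p ∣ ord_w (qexp (U ^ p))` at EVERY place `w` of `ℂ·F₀ / ℂ`;
* `DFromG Γ F₀ p` : **DFROM** ("hard half" + ROOT over `ℂ`): every `f ∈ (ℂ·F₀)ˣ` all of whose
    orders are divisible by `p` is, up to a `p`-th power of `(ℂ·F₀)ˣ`, the `q`-expansion of
    `V ^ p`, `V` holomorphic on `ℍ` with `V ^ p` good for `Γ`;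
* `finG_of_dfrom`  : MERO + DTO + DFROM ⟹ FIN;
* `pieceK3G`       : **K3 generic** — MERO + GEN + DFROM + (DTO for `U`) ⟹ the twisted function
    `U` can be replaced by a twisted function `U'` of the same character whose `p`-th power
    realises an element of `ℚ̄·F₀`.

For `(Γ, F₀) = (Γ₀(N), modularFunctionFieldFull N)` these are the landed S29 statements
(`GoodG (Gamma0 N) = goodRing N` by `Iff.rfl`); the instance needed by Tower A1 is
`(Γ₁(M), S48.F1.F1 M)`.
-/

set_option autoImplicit false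
set_option linter.style.haveILetI false

noncomputable section

open UpperHalfPlane ModularGroup CongruenceSubgroup Polynomial ModularCurve AlgebraicCurve
open scoped MatrixGroups Manifold Modular Real

namespace Fermat.Agent.S48.H882

open Fermat.Agent.S24 Fermat.Agent.S24.H648 Fermat.Agent.S24.H708 Fermat.Agent.S24.Deg457
open Fermat.Agent.S24.H624

section Defs

variable (Γ : Subgroup SL(2, ℤ)) (F₀ : IntermediateField ℚ (LaurentSeries ℚ))

/-- **DTO** for the function `U`: `p ∣ ord_w (qexp (U ^ p))` at every place `w` of `ℂ·F₀`. -/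
def DToG (p : ℕ) (U : ℍ → ℂ) : Prop :=
  ∀ f : laurentBaseChange ℂ F₀, (f : LaurentSeries ℂ) = qexpFun 1 (fun τ => U τ ^ p) →
    ∀ w : Place ℂ (laurentBaseChange ℂ F₀), (p : ℤ) ∣ w.ord f

/-- **DFROM** for `(Γ, F₀)`: an element `f ≠ 0` of `ℂ·F₀` all of whose orders are divisible by
`p` is, up to the `p`-th power of a nonzero element `s` of `ℂ·F₀`, the `q`-expansion of `V ^ p`
for a holomorphic `V : ℍ → ℂ` with `V ^ p` good for `Γ`. -/
def DFromG (p : ℕ) : Prop :=
  ∀ f : laurentBaseChange ℂ F₀, f ≠ 0 →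
    (∀ w : Place ℂ (laurentBaseChange ℂ F₀), (p : ℤ) ∣ w.ord f) →
    ∃ s : LaurentSeries ℂ, s ∈ laurentBaseChange ℂ F₀ ∧ s ≠ 0 ∧ ∃ V : ℍ → ℂ,
      MDifferentiable 𝓘(ℂ) 𝓘(ℂ) V ∧ GoodG Γ (fun τ => V τ ^ p) ∧
      qexpFun 1 (fun τ => V τ ^ p) = (f : LaurentSeries ℂ) * s ^ p

end Defs

variable {Γ : Subgroup SL(2, ℤ)} {F₀ : IntermediateField ℚ (LaurentSeries ℚ)} {p : ℕ}

/-- There are finitely many characters of exponent `p` of a subgroup of finite index. -/
theorem finite_pCharG (Γ : Subgroup SL(2, ℤ)) [Finite (SL(2, ℤ) ⧸ Γ)] (p : ℕ) [NeZero p] :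
    Finite {κ : Γ →* ℂˣ // ∀ γ, κ γ ^ p = 1} := by
  classical
  haveI : Group.FG SL(2, ℤ) := Group.fg_iff.mpr ⟨{ModularGroup.S, ModularGroup.T},
    SpecialLinearGroup.SL2Z_generators, by simp⟩
  haveI : Γ.FiniteIndex := Subgroup.finiteIndex_of_finite_quotient
  haveI : Group.FG Γ := inferInstance
  obtain ⟨S, hS, hSfin⟩ := Group.fg_iff.mp (inferInstance : Group.FG Γ)
  haveI : Finite S := hSfin
  let Φ : {κ : Γ →* ℂˣ // ∀ γ, κ γ ^ p = 1} → (S → rootsOfUnity p ℂ) :=
    fun κ s => ⟨κ.1 s, (mem_rootsOfUnity p _).mpr (κ.2 s)⟩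
  refine Finite.of_injective Φ ?_
  intro κ₁ κ₂ h
  apply Subtype.ext
  apply MonoidHom.eq_of_eqOn_dense hS
  intro x hx
  have := congrFun h ⟨x, hx⟩
  exact congrArg Subtype.val this

/-- `qexpFun` commutes with powers of functions meromorphic at `i∞`. -/
theorem qexpFun_pow_eq {f : ℍ → ℂ} (hf : IsMerInf 1 f) (n : ℕ) :
    qexpFun 1 (f ^ n) = qexpFun 1 f ^ n := by
  induction n with
  | zero =>
      rw [pow_zero, pow_zero]
      have h1 : (1 : ℍ → ℂ) = fun _ => (1 : ℂ) := rfl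
      rw [h1, qexpFun_const]
      simp
  | succ n ih => rw [pow_succ, qexpFun_mul (hf.pow n) hf, ih, pow_succ]

/-- Two holomorphic functions with good `p`-th powers and the SAME character have `p`-th powers
whose `q`-expansions differ by a `p`-th power of `ℂ·F₀`. -/
theorem exists_pow_mul_eq_of_sameCharG (hp : p ≠ 0) (hT : ModularGroup.T ∈ Γ)
    (hmero : MeroG Γ F₀) {V₁ V₂ : ℍ → ℂ} (κ : Γ →* ℂˣ) (hκ : ∀ γ, κ γ ^ p = 1)
    (h1m : MDifferentiable 𝓘(ℂ) 𝓘(ℂ) V₁) (h2m : MDifferentiable 𝓘(ℂ) 𝓘(ℂ) V₂)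
    (h1 : HasCharG Γ κ V₁) (h2 : HasCharG Γ κ V₂)
    (h1g : GoodG Γ (fun τ => V₁ τ ^ p)) (h2g : GoodG Γ (fun τ => V₂ τ ^ p))
    (h1ne : qexpFun 1 (fun τ => V₁ τ ^ p) ≠ 0) (h2ne : qexpFun 1 (fun τ => V₂ τ ^ p) ≠ 0) :
    ∃ g : LaurentSeries ℂ, g ∈ laurentBaseChange ℂ F₀ ∧ g ≠ 0 ∧
      qexpFun 1 (fun τ => V₁ τ ^ p) = g ^ p * qexpFun 1 (fun τ => V₂ τ ^ p) := by
  have hp1 : p - 1 + 1 = p := Nat.sub_add_cancel (Nat.one_le_iff_ne_zero.mpr hp)
  set W : ℍ → ℂ := fun τ => V₁ τ * V₂ τ ^ (p - 1) with hWdef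
  have hfun : (fun τ => W τ ^ p) = (fun τ => V₁ τ ^ p) * (fun τ => V₂ τ ^ p) ^ (p - 1) := by
    funext τ
    simp only [hWdef, Pi.mul_apply, Pi.pow_apply]
    rw [mul_pow, ← pow_mul, ← pow_mul, mul_comm (p - 1) p]
  have hWinv : ∀ γ ∈ Γ, ∀ τ : ℍ, W (γ • τ) = W τ := by
    intro γ hγ τ
    have e1 := h1 ⟨γ, hγ⟩ τ
    have e2 := h2 ⟨γ, hγ⟩ τ
    simp only at e1 e2
    simp only [hWdef]
    rw [e1, e2, mul_pow]
    have hk : ((κ ⟨γ, hγ⟩ : ℂˣ) : ℂ) * ((κ ⟨γ, hγ⟩ : ℂˣ) : ℂ) ^ (p - 1) = 1 := by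
      rw [← pow_succ', hp1]
      have h3 := congrArg (fun u : ℂˣ => (u : ℂ)) (hκ ⟨γ, hγ⟩)
      simpa using h3
    calc ((κ ⟨γ, hγ⟩ : ℂˣ) : ℂ) * V₁ τ * (((κ ⟨γ, hγ⟩ : ℂˣ) : ℂ) ^ (p - 1) * V₂ τ ^ (p - 1))
        = (((κ ⟨γ, hγ⟩ : ℂˣ) : ℂ) * ((κ ⟨γ, hγ⟩ : ℂˣ) : ℂ) ^ (p - 1)) *
            (V₁ τ * V₂ τ ^ (p - 1)) := by ring
      _ = V₁ τ * V₂ τ ^ (p - 1) := by rw [hk, one_mul]
  have hW : GoodG Γ W := by
    refine goodG_of_pow_goodG hp (h1m.mul (h2m.pow (p - 1))) hWinv ?_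
    rw [hfun]
    exact h1g.mul (h2g.pow _)
  have hWm := isMerInf_of_goodG hT hW
  have h1M := isMerInf_of_goodG hT h1g
  have h2M := isMerInf_of_goodG hT h2g
  set w := qexpFun 1 W with hw
  set a := qexpFun 1 (fun τ => V₁ τ ^ p) with ha
  set b := qexpFun 1 (fun τ => V₂ τ ^ p) with hb
  have hwFC : w ∈ laurentBaseChange ℂ F₀ := hmero _ hW
  have hbFC : b ∈ laurentBaseChange ℂ F₀ := hmero _ h2g
  have hwp : w ^ p = a * b ^ (p - 1) := by
    have hfun' : W ^ p = (fun τ => V₁ τ ^ p) * (fun τ => V₂ τ ^ p) ^ (p - 1) := hfun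
    rw [hw, ← qexpFun_pow_eq hWm p, hfun', qexpFun_mul h1M (h2M.pow (p - 1)),
      qexpFun_pow_eq h2M (p - 1)]
  refine ⟨w * b⁻¹, mul_mem hwFC (inv_mem hbFC), ?_, ?_⟩
  · refine mul_ne_zero ?_ (inv_ne_zero h2ne)
    intro h0
    rw [h0, zero_pow hp] at hwp
    exact mul_ne_zero h1ne (pow_ne_zero _ h2ne) hwp.symm
  · rw [mul_pow, hwp, inv_pow]
    have hbp : b ^ p = b ^ (p - 1) * b := by rw [← pow_succ, hp1]
    rw [hbp, mul_inv]
    field_simp

/-- Representatives of the fibres of a map to a finite type. -/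
theorem exists_finset_fibre_rep' {G X : Type*} [Finite X] (χ : G → X) :
    ∃ s : Finset G, ∀ g : G, ∃ h ∈ s, χ g = χ h := by
  classical
  haveI : Fintype (Set.range χ) := Fintype.ofFinite _
  let r : Set.range χ → G := fun x => x.2.choose
  have hr : ∀ x : Set.range χ, χ (r x) = x := fun x => x.2.choose_spec
  refine ⟨Finset.univ.image r, fun g => ⟨r ⟨χ g, g, rfl⟩, ?_, ?_⟩⟩
  · exact Finset.mem_image_of_mem _ (Finset.mem_univ _)
  · exact (hr ⟨χ g, g, rfl⟩).symm

/-- **K3-FIN, generic**: from MERO, DFROM and DTO for `U`. -/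
theorem finG_of_dfrom (Γ : Subgroup SL(2, ℤ)) [Finite (SL(2, ℤ) ⧸ Γ)]
    (hT : ModularGroup.T ∈ Γ) (F₀ : IntermediateField ℚ (LaurentSeries ℚ))
    (hmero : MeroG Γ F₀) (p : ℕ) [NeZero p] (hd : DFromG Γ F₀ p)
    {χ : Γ →* ℂˣ} {U : ℍ → ℂ} (hU : IsTwistedG Γ p χ U) (hdto : DToG F₀ p U) :
    FinG F₀ p U := by
  letI : Algebra Kbar ℂ := iotaC.toAlgebra
  classical
  have hp : p ≠ 0 := NeZero.ne p
  set a : LaurentSeries ℂ := qexpFun 1 (fun τ => U τ ^ p) with ha
  have haFC : a ∈ laurentBaseChange ℂ F₀ := hmero _ hU.pow_good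
  have ha0 : a ≠ 0 := hU.qexpFun_pow_ne_zero hT
  set f₀ : laurentBaseChange ℂ F₀ := ⟨a, haFC⟩ with hf₀def
  have hf₀ : f₀ ≠ 0 := fun h => ha0 (congrArg Subtype.val h)
  have hdvd : ∀ w : Place ℂ (laurentBaseChange ℂ F₀), (p : ℤ) ∣ w.ord f₀ :=
    fun w => hdto f₀ rfl w
  -- the data attached to each `σ`
  have key : ∀ σ : ℂ ≃ₐ[Kbar] ℂ, ∃ (s : LaurentSeries ℂ) (V : ℍ → ℂ)
      (κ : {κ : Γ →* ℂˣ // ∀ γ, κ γ ^ p = 1}), s ∈ laurentBaseChange ℂ F₀ ∧ s ≠ 0 ∧
      MDifferentiable 𝓘(ℂ) 𝓘(ℂ) V ∧ GoodG Γ (fun τ => V τ ^ p) ∧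
      HasCharG Γ κ.1 V ∧
      qexpFun 1 (fun τ => V τ ^ p) ≠ 0 ∧
      qexpFun 1 (fun τ => V τ ^ p) = coeffMap (σ : ℂ →+* ℂ) a * s ^ p := by
    intro σ
    set g : SemilinearAut ℂ (laurentBaseChange ℂ F₀) :=
      arithmeticGalois F₀ (σ.toRingEquiv.toRatAlgEquiv) with hg
    have hcoe : ((g • f₀ : laurentBaseChange ℂ F₀) : LaurentSeries ℂ)
        = coeffMap (σ : ℂ →+* ℂ) a := rfl
    have hne : g • f₀ ≠ 0 := (smul_ne_zero_iff_ne g).mpr hf₀
    have hdvd' : ∀ w : Place ℂ (laurentBaseChange ℂ F₀), (p : ℤ) ∣ w.ord (g • f₀) := by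
      intro w
      have h := SemilinearAut.ord_smul g (g⁻¹ • w) f₀
      rw [smul_inv_smul] at h
      rw [h]
      exact hdvd _
    obtain ⟨s, hs, hs0, V, hVm, hVg, hq⟩ := hd (g • f₀) hne hdvd'
    rw [hcoe] at hq
    have hqne : qexpFun 1 (fun τ => V τ ^ p) ≠ 0 := by
      rw [hq]
      refine mul_ne_zero ?_ (pow_ne_zero _ hs0)
      rw [← hcoe]
      exact fun h => hne (Subtype.ext h)
    have hV0 : V ≠ 0 := by
      intro h0
      apply hqne
      have : (fun τ => V τ ^ p) = 0 := by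
        funext τ
        rw [h0]
        simp [hp]
      rw [this]
      exact (qexpFun_eq_zero_iff (isMerInf_of_goodG hT
        (by rw [← this]; exact hVg))).mpr rfl
    obtain ⟨κ, hκ, hVκ⟩ := Fermat.Agent.S29.H942.exists_kummerChar Γ hVm hV0 hp
      (fun γ hγ z => hVg.2.1 γ hγ z)
    exact ⟨s, V, ⟨κ, hκ⟩, hs, hs0, hVm, hVg, hVκ, hqne, hq⟩
  choose s V κ hs hs0 hVm hVg hVκ hqne hq using key
  haveI := finite_pCharG Γ p
  obtain ⟨R, hR⟩ := exists_finset_fibre_rep' κ
  refine ⟨(fun σ : ℂ ≃ₐ[Kbar] ℂ => coeffMap (σ : ℂ →+* ℂ) a) '' (R : Set (ℂ ≃ₐ[Kbar] ℂ)),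
    R.finite_toSet.image _, fun σ => ?_⟩
  obtain ⟨h, hhR, hκeq⟩ := hR σ
  refine ⟨coeffMap (h : ℂ →+* ℂ) a, ⟨h, hhR, rfl⟩, ?_⟩
  have h2 := hVκ h
  rw [← hκeq] at h2
  obtain ⟨g, hg, hg0, hgeq⟩ := exists_pow_mul_eq_of_sameCharG hp hT hmero (κ σ).1 (κ σ).2
    (hVm σ) (hVm h) (hVκ σ) h2 (hVg σ) (hVg h) (hqne σ) (hqne h)
  rw [hq σ, hq h] at hgeq
  refine ⟨g * s h * (s σ)⁻¹, mul_mem (mul_mem hg (hs h)) (inv_mem (hs σ)),
    mul_ne_zero (mul_ne_zero hg0 (hs0 h)) (inv_ne_zero (hs0 σ)), ?_⟩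
  have hsp : s σ ^ p ≠ 0 := pow_ne_zero _ (hs0 σ)
  rw [mul_pow, mul_pow, inv_pow]
  field_simp
  rw [hgeq]
  ring

/-- **PIECE K3, GENERIC in `(Γ, F₀)`**: from GEN, MERO, DFROM, and DTO for the given `U`. -/
theorem pieceK3G (Γ : Subgroup SL(2, ℤ)) [Finite (SL(2, ℤ) ⧸ Γ)]
    (hT : ModularGroup.T ∈ Γ) (F₀ : IntermediateField ℚ (LaurentSeries ℚ)) (hj : jq ∈ F₀)
    {S : Set (LaurentSeries ℚ)} (hgen : GenData Γ F₀ S) (hmero : MeroG Γ F₀)
    (p : ℕ) [NeZero p] (hd : DFromG Γ F₀ p)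
    {χ : Γ →* ℂˣ} (hχT : χ ⟨ModularGroup.T, hT⟩ = 1) {U : ℍ → ℂ}
    (hU : IsTwistedG Γ p χ U) (hdto : DToG F₀ p U) :
    ∃ (U' : ℍ → ℂ) (u : laurentBaseChange Kbar F₀),
      IsTwistedG Γ p χ U' ∧ RealisesG Γ F₀ u (fun τ => U' τ ^ p) :=
  exists_realised_isTwistedG Γ hT F₀ hj hgen hmero p hχT hU
    (finG_of_dfrom Γ hT F₀ hmero p hd hU hdto)

end Fermat.Agent.S48.H882

end
end
-- ===== PACK-END S48/H882/K3Fin.lean

-- ===== PACK-BEGIN S29/H282/DictC.lean
section




/-!
# S29 / M4b / K3 (helper282) — the dictionary over `ℂ` (and any alg. closed `K ⊆ ℂ`), K3 language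

Sub-pieces (F1) and (F4) of helper42's K3 sub-skeleton (`coord/S29-K3.md`):

* `mem_holN_of_mem_goodRing`       : a good function lies in the S24 ring `holN N`;
* `isAvatar_of_hasQExp`            : `G ∈ holN N` with `q`-expansion `coeffMap ι f` is an avatar of `f`;
* `dvd_ord_of_isTwisted` (**F1**, generic `K`) and `dvd_ord_of_isTwisted_complex` (**F1**, `K = ℂ`):
  `U` twisted of a parabolic+elliptic-trivial character, `f = qexp (U ^ p) ∈ F_K`
  ⟹ `p ∣ ord_w f` at EVERY place `w` of `F_K / K`;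
* `exists_ordAt_eq_mul_of_forall_dvd_ord` (**DICT-easy**, `K = ℂ`) and
  `exists_pow_eq_of_forall_dvd_ord` (**F4** = DICT-easy + ROOT): `G` good, `G ≢ 0`,
  `m ∣ ord_w (qexp G)` at every place `w` of `F_ℂ / ℂ` ⟹ `G = V ^ m`, `V` holomorphic on `ℍ`.
-/

set_option autoImplicit false

noncomputable section

open ModularCurve AlgebraicCurve CongruenceSubgroup UpperHalfPlane
open scoped MatrixGroups Manifold Real

namespace Fermat.Agent.S29.H282

open Fermat.Agent.S24 Fermat.Agent.S24.H997 Fermat.Agent.S24.H648 Fermat.Agent.S24.H708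
open Fermat.Agent.S24.H624
open Fermat.Agent.S29 Fermat.Agent.S29.M4b Fermat.Agent.S29.H332

variable {N : ℕ} [NeZero N]

/-- the translates of a `Γ₀(N)`-invariant function are `N`-periodic -/
theorem periodic_compSL_of_invariant {G : ℍ → ℂ}
    (hinv : ∀ γ ∈ Gamma0 N, ∀ τ : ℍ, G (γ • τ) = G τ) (g : SL(2, ℤ)) :
    Function.Periodic (compSL g G ∘ ofComplex) (N : ℝ) := by
  have hh : HasCharacter (1 : CongruenceSubgroup.Gamma0 N →* ℂˣ) G := by
    intro γ τ
    rw [hinv γ γ.2 τ]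
    simp
  have hχ : ParTrivial (1 : CongruenceSubgroup.Gamma0 N →* ℂˣ) := fun _ _ => rfl
  exact hh.periodic hχ g N (by simpa using conj_T_zpow_mem_Gamma0 N g 1)

/-- **A good function lies in `holN N`.** -/
theorem mem_holN_of_mem_goodRing {G : ℍ → ℂ} (hG : G ∈ goodRing N) : G ∈ holN N := by
  obtain ⟨hmd, hinv, hgr⟩ := hG
  refine ⟨hmd, fun g => ?_⟩
  have hhol : MDiff (compSL g G) := (precompSL g ⟨G, hmd⟩).2
  have hmer : IsMerInf N (compSL g G) :=
    ⟨hhol, periodic_compSL_of_invariant hinv g, isBounded_mul_qh_pow_level N (hgr g)⟩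
  have hq := HasQExp.of_isMerInf hmer
  have hinf : InfExp N (compSL g G) (qexpFun N (compSL g G)) := fun τ => hq.hasSum τ
  exact hinf.mem_expRing

section Generic

variable {K : Type*} [Field K] [Algebra ℚ K] (ι : K →+* ℂ)

/-- a function of `holN N` whose `q`-expansion is `coeffMap ι f` is an avatar of `f` -/
theorem isAvatar_of_hasQExp {G : ℍ → ℂ} (hG : G ∈ holN N) {f : FFK K N}
    (hq : HasQExp 1 G (coeffMap ι (f : LaurentSeries K))) :
    IsAvatar ι (analyticCore N).toHolBase f (⟨G, hG⟩ : (analyticCore N).Hol) := by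
  have hinf : InfExp N G (qExpand ℂ N (coeffMap ι (f : LaurentSeries K))) :=
    infExp_level_of_hasQExp hq
  exact (expInf_spec (holToExp N (⟨G, hG⟩ : holN N))).unique hinf

theorem isAvatar_of_mem_goodRing {G : ℍ → ℂ} (hG : G ∈ goodRing N) {f : FFK K N}
    (hq : qexpFun 1 G = coeffMap ι (f : LaurentSeries K)) :
    IsAvatar ι (analyticCore N).toHolBase f
      (⟨G, mem_holN_of_mem_goodRing hG⟩ : (analyticCore N).Hol) :=
  isAvatar_of_hasQExp ι _ (hq ▸ Fermat.Agent.S29.H882.hasQExp_of_mem_goodRing hG)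

variable {p : ℕ} [NeZero p]

/-- **(F1), generic `K`**: DICT-hard for twisted functions. -/
theorem dvd_ord_of_isTwisted [IsAlgClosed K] {c : G0 N → ZMod p} (hc : IsParHom c)
    {U : ℍ → ℂ} (hU : IsTwisted N p c U) {f : FFK K N}
    (hq : qexpFun 1 (fun τ => U τ ^ p) = coeffMap ι (f : LaurentSeries K))
    (w : Place K (FFK K N)) : (p : ℤ) ∣ w.ord f := by
  have hav : IsAvatar ι (analyticCore N).toHolBase f
      ((⟨U, mem_holN_of_isTwisted hc hU⟩ : (analyticCore N).Hol) ^ p) :=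
    isAvatar_of_hasQExp ι (G := fun τ => U τ ^ p)
      (pow_mem (mem_holN_of_isTwisted hc hU) p)
      (hq ▸ Fermat.Agent.S29.H882.hasQExp_of_mem_goodRing hU.pow_mem)
  have hinv : IsUnramified (analyticCore N).toHolBase
      (⟨U, mem_holN_of_isTwisted hc hU⟩ : (analyticCore N).Hol) := by
    intro γ hγ hsp
    apply Subtype.ext
    funext τ
    show U (γ • τ) = U τ
    have h := hU.hasChar ⟨γ, hγ⟩ τ
    have h0 : c ⟨γ, hγ⟩ = 0 := by
      rcases hsp with ⟨n, hn, h⟩ | h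
      · exact hc.elliptic ⟨γ, hγ⟩ n hn (Subtype.ext (by simpa using h))
      · exact hc.parabolic ⟨γ, hγ⟩ (Or.inl h)
    rw [h0] at h
    simpa using h
  exact dvd_ord_of_isAvatar_pow hinv hav w

/-- **DICT-easy, generic `K`**, for good functions: at every `τ` with `j(τ) ∈ ι(K)`. -/
theorem exists_ordAt_eq_mul_of_forall_dvd_ord_at {G : ℍ → ℂ} (hG : G ∈ goodRing N)
    (hG0 : G ≠ 0) {f : FFK K N} (hq : qexpFun 1 G = coeffMap ι (f : LaurentSeries K))
    {m : ℕ} (hdvd : ∀ w : Place K (FFK K N), (m : ℤ) ∣ w.ord f)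
    (τ : ℍ) (a : K) (ha : ι a = JFun.jFun τ) :
    ∃ k : ℕ, analyticOrderAt (G ∘ ofComplex) (τ : ℂ) = ((m * k : ℕ) : ℕ∞) := by
  have hav := isAvatar_of_mem_goodRing ι hG hq
  have hh : (⟨G, mem_holN_of_mem_goodRing hG⟩ : (analyticCore N).Hol) ≠ 0 := fun h0 =>
    hG0 (congrArg Subtype.val h0)
  have ha' : ι a = (analyticCore N).toHolBase.J 1 τ := by
    rw [ha]
    show JFun.jFun τ = Jd 1 τ
    rw [Jd_one]
    rfl
  exact hav.exists_ordAt_eq_mul (holBase_isHolo N) hh hdvd τ a ha'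

end Generic

/-! ### `K = ℂ` -/

section Complex

variable {p : ℕ} [NeZero p]

/-- **(F1)**: DICT-hard over `ℂ`.  `f = qexp (U ^ p)` as an element of `F_ℂ`. -/
theorem dvd_ord_of_isTwisted_complex {c : G0 N → ZMod p} (hc : IsParHom c)
    {U : ℍ → ℂ} (hU : IsTwisted N p c U)
    (hf : qexpFun 1 (fun τ => U τ ^ p) ∈ laurentBaseChange ℂ (modularFunctionFieldFull N))
    (w : Place ℂ ↥(laurentBaseChange ℂ (modularFunctionFieldFull N))) :
    (p : ℤ) ∣ w.ord ⟨qexpFun 1 (fun τ => U τ ^ p), hf⟩ :=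
  dvd_ord_of_isTwisted (K := ℂ) (RingHom.id ℂ) hc hU
    (f := ⟨qexpFun 1 (fun τ => U τ ^ p), hf⟩) (coeffMap_id _).symm w

/-- **DICT-easy over `ℂ`**: `G` good, `m ∣ ord_w (qexp G)` at every place of `F_ℂ/ℂ` ⟹
`m ∣ ord_τ G` at every `τ ∈ ℍ` (the exact hypothesis of `H751.exists_pow_eq_UHP`). -/
theorem exists_ordAt_eq_mul_of_forall_dvd_ord {G : ℍ → ℂ} (hG : G ∈ goodRing N) (hG0 : G ≠ 0)
    (hf : qexpFun 1 G ∈ laurentBaseChange ℂ (modularFunctionFieldFull N)) {m : ℕ}
    (hdvd : ∀ w : Place ℂ ↥(laurentBaseChange ℂ (modularFunctionFieldFull N)),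
      (m : ℤ) ∣ w.ord ⟨qexpFun 1 G, hf⟩) (τ : ℍ) :
    ∃ k : ℕ, analyticOrderAt (G ∘ ofComplex) (τ : ℂ) = ((m * k : ℕ) : ℕ∞) :=
  exists_ordAt_eq_mul_of_forall_dvd_ord_at (K := ℂ) (RingHom.id ℂ) hG hG0
    (f := ⟨qexpFun 1 G, hf⟩) (coeffMap_id _).symm hdvd τ (JFun.jFun τ) rfl

/-- **(F4)** = DICT-easy + ROOT: a good function all of whose orders at the places of `F_ℂ/ℂ`
are divisible by `m` is the `m`-th power of a holomorphic function on `ℍ`. -/
theorem exists_pow_eq_of_forall_dvd_ord {G : ℍ → ℂ} (hG : G ∈ goodRing N) (hG0 : G ≠ 0)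
    (hf : qexpFun 1 G ∈ laurentBaseChange ℂ (modularFunctionFieldFull N)) {m : ℕ} (hm : m ≠ 0)
    (hdvd : ∀ w : Place ℂ ↥(laurentBaseChange ℂ (modularFunctionFieldFull N)),
      (m : ℤ) ∣ w.ord ⟨qexpFun 1 G, hf⟩) :
    ∃ V : ℍ → ℂ, MDifferentiable 𝓘(ℂ) 𝓘(ℂ) V ∧ ∀ τ : ℍ, V τ ^ m = G τ :=
  Fermat.Agent.S29.H751.exists_pow_eq_UHP hG.1 m hm
    (fun τ => exists_ordAt_eq_mul_of_forall_dvd_ord hG hG0 hf hdvd τ)

end Complex

end Fermat.Agent.S29.H282

end
end
-- ===== PACK-END S29/H282/DictC.lean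

-- ===== PACK-BEGIN S48/H282/K3In.lean
section





/-!
# Tower A1 / A1-KUM, piece K3 — the two inputs DTO and DFROM of `H882.pieceK3G` (helper282)

GENERIC (any analytic input `D : H332.GenData M Γ (GenField.ofRat S₀ hj)`, `Γ` of finite index,
`F₀ = ℚ(S₀)`; the good functions are taken for a subgroup `Γ' ≤ Γ` of level `M` containing `T`):

* `mem_holN_of_goodG`  : a good function for a group of level `M` lies in `holN M`;
* `dtoG_of_genData`    : **DTO** — `U ∈ holN M` invariant under the special elements (finite order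
                         or trace `2`) of `Γ`, `U ^ p` with a `q`-expansion ⟹ `H882.DToG F₀ p U`;
* `dfromG_of_genData`  : **DFROM** — `H882.DFromG Γ' F₀ p`.

INSTANCE `(Γ₁(M), F1 M)` (package group `Γ = ±Γ₁(M)`, helper332's `f1Data M`):

* `dfromG_Gamma1 M p : H882.DFromG (Gamma1 M) (F1 M) p`;
* `dtoG_Gamma1 M p hpar hell hU : H882.DToG (F1 M) p U` for `U` twisted (`H882.IsTwistedG`) of a
  character trivial on the parabolic (trace `±2`) and elliptic (finite order) elements.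
-/

set_option autoImplicit false
set_option linter.style.haveILetI false
set_option linter.unusedVariables false
set_option linter.unusedSectionVars false

noncomputable section

open ModularCurve HahnSeries UpperHalfPlane AlgebraicCurve IntermediateField CongruenceSubgroup
open scoped MatrixGroups Manifold

namespace Fermat.Agent.S48.H282

open Fermat.Agent.S24 Fermat.Agent.S24.H997 Fermat.Agent.S24.Deg457 Fermat.Agent.S24.H624
open Fermat.Agent.S24.H648 Fermat.Agent.S24.H708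
open Fermat.Agent.S20.L1
open Fermat.Agent.S48.H332
open Fermat.Agent.S48.H882 (GoodG DToG DFromG IsTwistedG HasCharG hasQExp_of_goodG
  isMerInf_of_goodG)
open Fermat.Agent.S29.H282 (ΦK IsSpecialElt expGrowth_of_pow isBounded_mul_qh_pow_level
  infExp_level_of_hasQExp)

/-! ### Functions with a parabolic character lie in `holN M` -/

section Hol

variable {M : ℕ} [NeZero M] {Γ' : Subgroup SL(2, ℤ)}

/-- A holomorphic function with a character trivial on the parabolic elements of a group of level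
`M`, all of whose translates have at most exponential growth, lies in `holN M`. -/
theorem mem_holN_of_gHasChar (hΓ : HasLevel Γ' M) {χ : Γ' →* ℂˣ} (hχ : GParTriv χ)
    {U : ℍ → ℂ} (hmd : MDifferentiable 𝓘(ℂ) 𝓘(ℂ) U) (hh : GHasChar χ U)
    (hgr : ∀ g : SL(2, ℤ), ExpGrowth (fun τ => U (g • τ))) : U ∈ holN M := by
  refine ⟨hmd, fun g => ?_⟩
  have hhol : MDiff (compSL g U) := (precompSL g ⟨U, hmd⟩).2
  have hper : Function.Periodic (compSL g U ∘ ofComplex) (M : ℝ) :=
    hh.periodic hχ g M (hΓ.conj_T_pow g)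
  have hmer : IsMerInf M (compSL g U) := ⟨hhol, hper, isBounded_mul_qh_pow_level M (hgr g)⟩
  have hq := HasQExp.of_isMerInf hmer
  have hinf : InfExp M (compSL g U) (qexpFun M (compSL g U)) := fun τ => hq.hasSum τ
  exact hinf.mem_expRing

/-- **A good function for a group of level `M` lies in `holN M`.** -/
theorem mem_holN_of_goodG (hΓ : HasLevel Γ' M) {G : ℍ → ℂ} (hG : GoodG Γ' G) : G ∈ holN M := by
  obtain ⟨hmd, hinv, hgr⟩ := hG
  have hh : GHasChar (1 : Γ' →* ℂˣ) G := by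
    intro γ τ
    rw [hinv γ γ.2 τ]
    simp
  exact mem_holN_of_gHasChar hΓ (χ := 1) (fun _ _ => rfl) hmd hh hgr

end Hol

/-! ### Avatars from `q`-expansions -/

section Avatars

variable {S₀ : Set (LaurentSeries ℚ)} {hj : jq ∈ S₀}
variable {M : ℕ} [NeZero M] {Γ : Subgroup SL(2, ℤ)} (D : _root_.Fermat.Agent.S48.H332.GenData M Γ (GenField.ofRat S₀ hj))

/-- a function of `holN M` whose `q`-expansion is `f` is an avatar of `f` -/
theorem isAvatarG_of_hasQExp {G : ℍ → ℂ} (hG : G ∈ holN M) {f : FGK ℂ S₀}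
    (hq : HasQExp 1 G (f : LaurentSeries ℂ)) :
    IsAvatarG (RingHom.id ℂ) D.base f (⟨G, hG⟩ : D.base.Hol) := by
  have hinf : InfExp M G (qExpand ℂ M (f : LaurentSeries ℂ)) := infExp_level_of_hasQExp hq
  have h1 : D.base.qexp (⟨G, hG⟩ : D.base.Hol) = qExpand ℂ M (f : LaurentSeries ℂ) :=
    (D.base_qexp_spec (⟨G, hG⟩ : D.base.Hol)).unique hinf
  show D.base.qexp (⟨G, hG⟩ : D.base.Hol) = ΦK (RingHom.id ℂ) M (f : LaurentSeries ℂ)
  rw [h1]
  show _ = qExpand ℂ M (coeffMap (RingHom.id ℂ) (f : LaurentSeries ℂ))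
  rw [coeffMap_id]

/-- the `q`-expansion of an avatar -/
theorem hasQExp_of_isAvatarG {h : D.base.Hol} {f : FGK ℂ S₀}
    (hav : IsAvatarG (RingHom.id ℂ) D.base f h)
    (hq : HasQExp 1 (h : ℍ → ℂ) (qexpFun 1 (h : ℍ → ℂ))) :
    qexpFun 1 (h : ℍ → ℂ) = (f : LaurentSeries ℂ) := by
  have hinf : InfExp M (h : ℍ → ℂ) (qExpand ℂ M (qexpFun 1 (h : ℍ → ℂ))) :=
    infExp_level_of_hasQExp hq
  have h1 : D.base.qexp h = qExpand ℂ M (qexpFun 1 (h : ℍ → ℂ)) :=
    (D.base_qexp_spec h).unique hinf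
  have h2 : D.base.qexp h = qExpand ℂ M (coeffMap (RingHom.id ℂ) (f : LaurentSeries ℂ)) := hav
  rw [coeffMap_id] at h2
  exact qExpand_injective M (h1.symm.trans h2)

end Avatars

/-! ### DTO and DFROM, generic -/

section Generic

variable {S₀ : Set (LaurentSeries ℚ)} {hj : jq ∈ S₀}
variable {M : ℕ} [NeZero M] {Γ : Subgroup SL(2, ℤ)} [Finite (XG Γ)]
variable (D : _root_.Fermat.Agent.S48.H332.GenData M Γ (GenField.ofRat S₀ hj))
variable {F₀ : IntermediateField ℚ (LaurentSeries ℚ)}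

include D in
/-- **DTO, generic.**  `U ∈ holN M` invariant under the special elements of `Γ`, and `U ^ p` has a
`q`-expansion at `i∞`: then `p ∣ ord_w (qexp (U ^ p))` at every place `w` of `ℂ·F₀ / ℂ`. -/
theorem dtoG_of_genData (hF₀ : F₀ = IntermediateField.adjoin ℚ S₀) {p : ℕ} {U : ℍ → ℂ}
    (hU : U ∈ holN M)
    (hq : HasQExp 1 (fun τ => U τ ^ p) (qexpFun 1 (fun τ => U τ ^ p)))
    (hinv : ∀ γ ∈ Γ, IsSpecialElt γ → ∀ τ : ℍ, U (γ • τ) = U τ) : DToG F₀ p U := by
  subst hF₀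
  intro f hf w
  have hUp : (fun τ => U τ ^ p) ∈ holN M := pow_mem hU p
  have hav0 : IsAvatarG (RingHom.id ℂ) D.base f (⟨fun τ => U τ ^ p, hUp⟩ : D.base.Hol) :=
    isAvatarG_of_hasQExp D hUp (hf ▸ hq)
  have hav : IsAvatarG (RingHom.id ℂ) D.base f ((⟨U, hU⟩ : D.base.Hol) ^ p) := hav0
  have hunr : IsUnramifiedG D.base (⟨U, hU⟩ : D.base.Hol) := by
    intro γ hγ hsp
    apply Subtype.ext
    funext τ
    exact hinv γ hγ hsp τ
  exact dvd_ord_of_isAvatar_powG (ι := RingHom.id ℂ) (D := D) hunr hav w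

include D in
/-- **DFROM, generic.**  An element `f ≠ 0` of `ℂ·F₀` all of whose orders are divisible by `p`
is, up to the `p`-th power of a nonzero element of `ℂ·F₀`, the `q`-expansion of `V ^ p`, `V`
holomorphic on `ℍ`, `V ^ p` good for `Γ'` (any subgroup `Γ' ≤ Γ` containing `T`). -/
theorem dfromG_of_genData (hF₀ : F₀ = IntermediateField.adjoin ℚ S₀)
    {Γ' : Subgroup SL(2, ℤ)} (hle : Γ' ≤ Γ) (hT : ModularGroup.T ∈ Γ') (p : ℕ) [NeZero p] :
    DFromG Γ' F₀ p := by
  subst hF₀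
  intro f hf0 hdvd
  have hp : p ≠ 0 := NeZero.ne p
  -- write `f = r / t` with `r, t` polynomials in the generators
  obtain ⟨r, t, ht, hfrt⟩ := exists_div_inclRGK ℂ S₀ f
  have ht' : inclRGK ℂ S₀ t ≠ 0 := fun h0 =>
    ht (inclRGK_injective ℂ S₀ (h0.trans (map_zero _).symm))
  have hts : ((t : RGK ℂ S₀) : LaurentSeries ℂ) ≠ 0 := fun h0 => ht (Subtype.ext h0)
  -- the function with `q`-expansion `r * t ^ (p - 1) = f * t ^ p`
  set e : RGK ℂ S₀ := r * t ^ (p - 1) with he
  set h : D.base.Hol := bridgeGK (RingHom.id ℂ) D.base e with hh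
  have hgF : f * inclRGK ℂ S₀ t ^ p = inclRGK ℂ S₀ e := by
    rw [he, hfrt, map_mul, map_pow]
    have : p = (p - 1) + 1 := (Nat.succ_pred_eq_of_ne_zero hp).symm
    conv_lhs => rw [this, pow_succ]
    field_simp
  have hav : IsAvatarG (RingHom.id ℂ) D.base (f * inclRGK ℂ S₀ t ^ p) h := by
    rw [hgF]
    exact isAvatarG_inclRGK e
  have hFne : f * inclRGK ℂ S₀ t ^ p ≠ 0 := mul_ne_zero hf0 (pow_ne_zero p ht')
  have hh0 : h ≠ 0 := fun h0 => hFne (hav.eq_zero_iff.mp h0)
  -- `h` is good for `Γ'`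
  have hgood : GoodG Γ' (h : ℍ → ℂ) := by
    refine ⟨h.2.1, fun γ hγ τ => ?_, fun g => expGrowth_of_mem_holN h.2 g⟩
    have := compH_bridgeGK_of_mem (RingHom.id ℂ) D.base (hle hγ) e
    exact congrFun (congrArg Subtype.val this) τ
  have hqh : HasQExp 1 (h : ℍ → ℂ) (qexpFun 1 (h : ℍ → ℂ)) := hasQExp_of_goodG hT hgood
  have hqf : qexpFun 1 (h : ℍ → ℂ)
      = (f : LaurentSeries ℂ) * ((t : RGK ℂ S₀) : LaurentSeries ℂ) ^ p := by
    rw [hasQExp_of_isAvatarG D hav hqh]
    rfl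
  -- divisibility of the orders of `f * t ^ p`
  have hdvd' : ∀ w : Place ℂ (FGK ℂ S₀), (p : ℤ) ∣ w.ord (f * inclRGK ℂ S₀ t ^ p) := by
    intro w
    rw [w.ord_mul hf0 (pow_ne_zero p ht'), H117.ord_pow]
    exact dvd_add (hdvd w) (dvd_mul_right _ _)
  -- the root
  have hord : ∀ τ : ℍ, ∃ k : ℕ,
      analyticOrderAt ((h : ℍ → ℂ) ∘ ofComplex) (τ : ℂ) = ((p * k : ℕ) : ℕ∞) :=
    fun τ => hav.exists_ordAt_eq_mul D.base_isHolo hh0 hdvd' τ (Fermat.Agent.S20.L1.jFun τ) rfl
  obtain ⟨V, hVmd, hVp⟩ := Fermat.Agent.S29.H751.exists_pow_eq_UHP h.2.1 p hp hord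
  have hVG : (fun τ => V τ ^ p) = (h : ℍ → ℂ) := funext hVp
  refine ⟨((t : RGK ℂ S₀) : LaurentSeries ℂ), (inclRGK ℂ S₀ t).2, hts, V, hVmd, ?_, ?_⟩
  · rw [hVG]; exact hgood
  · rw [hVG]; exact hqf

end Generic

/-! ### The instance `(Γ₁(M), F1 M)` -/

section Instance

open Fermat.Agent.S48.F1

variable (M : ℕ) [NeZero M] (p : ℕ) [NeZero p]

/-- **DFROM for `(Γ₁(M), F1 M)`.** -/
theorem dfromG_Gamma1 : DFromG (Gamma1 M) (F1 M) p :=
  dfromG_of_genData (f1Data M) rfl (Gamma1_le_pmGamma1 M) (T_mem_Gamma1 M) p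

variable {M p}

theorem isSpecialElt_neg_or {γ : SL(2, ℤ)} (h : IsSpecialElt γ) :
    (∃ n : ℕ, 0 < n ∧ (-γ) ^ n = 1) ∨ ((-γ : SL(2, ℤ)) : Matrix (Fin 2) (Fin 2) ℤ).trace = -2 := by
  rcases h with ⟨n, hn, h⟩ | h
  · left
    refine ⟨2 * n, by omega, ?_⟩
    rw [pow_mul, neg_sq, ← pow_mul, mul_comm, pow_mul, h, one_pow]
  · right
    rw [Matrix.SpecialLinearGroup.coe_neg, Matrix.trace_neg, h]

/-- A function with a character of `Γ₁(M)` trivial on the parabolic and elliptic elements is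
invariant under the special elements of `±Γ₁(M)`. -/
theorem invariant_special_pmGamma1 {χ : Gamma1 M →* ℂˣ} (hpar : GParTriv χ)
    (hell : GEllTriv χ) {U : ℍ → ℂ} (hU : GHasChar χ U) (γ : SL(2, ℤ))
    (hγ : γ ∈ pmGamma1 M) (hsp : IsSpecialElt γ) (τ : ℍ) : U (γ • τ) = U τ := by
  rcases mem_pmGamma1_iff.mp hγ with h1 | h1
  · have h := hU ⟨γ, h1⟩ τ
    have hχ : χ ⟨γ, h1⟩ = 1 := by
      rcases hsp with ⟨n, hn, h⟩ | h
      · exact hell ⟨γ, h1⟩ n hn (Subtype.ext (by simpa using h))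
      · exact hpar ⟨γ, h1⟩ (Or.inl h)
    rw [hχ] at h
    simpa using h
  · have h := hU ⟨-γ, h1⟩ τ
    have hχ : χ ⟨-γ, h1⟩ = 1 := by
      rcases isSpecialElt_neg_or hsp with ⟨n, hn, h⟩ | h
      · exact hell ⟨-γ, h1⟩ n hn (Subtype.ext (by simpa using h))
      · exact hpar ⟨-γ, h1⟩ (Or.inr h)
    rw [hχ] at h
    have hsm : (-γ) • τ = γ • τ := ModularGroup.SL_neg_smul γ τ
    simp only [hsm] at h
    simpa using h

/-- **DTO for `(Γ₁(M), F1 M)`**: for `U` twisted of a character trivial on the parabolic and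
elliptic elements of `Γ₁(M)`. -/
theorem dtoG_Gamma1 {χ : Gamma1 M →* ℂˣ} (hpar : GParTriv χ) (hell : GEllTriv χ)
    {U : ℍ → ℂ} (hU : IsTwistedG (Gamma1 M) p χ U) : DToG (F1 M) p U := by
  have hp : p ≠ 0 := NeZero.ne p
  have hUh : U ∈ holN M :=
    mem_holN_of_gHasChar (hasLevel_Gamma1 M) hpar hU.mdiff hU.hasChar
      (fun g => expGrowth_of_pow hp (hU.pow_good.2.2 g))
  exact dtoG_of_genData (f1Data M) rfl hUh (hasQExp_of_goodG (T_mem_Gamma1 M) hU.pow_good)
    (fun γ hγ hsp τ => invariant_special_pmGamma1 hpar hell hU.hasChar γ hγ hsp τ)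

end Instance

end Fermat.Agent.S48.H282

end
end
-- ===== PACK-END S48/H282/K3In.lean

-- ===== PACK-BEGIN S48/H882/MeroG.lean
section


/-!
# Tower A1 / DICT1, piece MERO, GENERIC in `(Γ, F₀)` (helper882)

Generic port of the landed `S29/H882/{MeroMain,MeroPrim}.lean` from `(Γ₀(N), F₀(N))` to ANY
subgroup `Γ` of finite index and ANY field `F₀ = ℚ(S) ⊆ ℚ((q))` generated by realised series
(`GenData Γ F₀ S`).

**Main result** `meroG_of_card_le_finrank`:
if `[SL(2,ℤ) : Γ] ≤ [ℚ̄·F₀ : ℚ̄(j)]` (the lower bound of the degree, e.g. helper332's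
`S48.H332.GenData.finrank_eq` for `Γ ∋ -1`), then the `q`-expansion at `i∞` of EVERY good function
for `Γ` (holomorphic, `Γ`-invariant, all translates of at most exponential growth) lies in `ℂ·F₀`.

`of_pm` versions: a subgroup `Γ` not containing `-1` (e.g. `Γ₁(M)`, `M ≥ 3`) may be replaced by
any `Γ'` with `Γ' ⊆ Γ ∪ -Γ` (e.g. `Γ' = ±Γ₁(M)`), since `-1` acts trivially on `ℍ`.

Proof: the field `MCG Γ` generated by the `q`-expansions of good functions has degree
`≤ [SL(2,ℤ) : Γ]` over `ℂ(j)` (conjugate product, `GoodG.lean`) and contains `ℂ·F₀` (GEN); a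
primitive element `θ` of `ℚ̄·F₀ / ℚ̄(j)` keeps its degree over `ℂ(j)` (descent of relations), so it
generates `MCG Γ` over `ℂ(j)`.
-/

set_option autoImplicit false
set_option linter.style.haveILetI false
set_option linter.unusedSectionVars false

noncomputable section

open UpperHalfPlane ModularGroup CongruenceSubgroup Polynomial ModularCurve IntermediateField
open scoped MatrixGroups Manifold Modular Real

namespace Fermat.Agent.S48.H882

open Fermat.Agent.S24 Fermat.Agent.S24.H648 Fermat.Agent.S24.H708 Fermat.Agent.S24.Deg457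
open Fermat.Agent.S29.H882 (exists_relation_of_coeffMap_ne_zero exists_clear_denominators)

/-! ### `±Γ` -/

section Pm

variable {Γ Γ' : Subgroup SL(2, ℤ)}

/-- Good functions for `Γ` are good for every `Γ' ⊆ Γ ∪ -Γ`. -/
theorem GoodG.of_pm (hpm : ∀ g ∈ Γ', g ∈ Γ ∨ -g ∈ Γ) {f : ℍ → ℂ} (hf : GoodG Γ f) :
    GoodG Γ' f := by
  refine ⟨hf.1, fun g hg τ => ?_, hf.2.2⟩
  rcases hpm g hg with h | h
  · exact hf.2.1 g h τ
  · have := hf.2.1 (-g) h τ
    rwa [ModularGroup.SL_neg_smul] at this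

theorem goodQG_le_of_pm (hpm : ∀ g ∈ Γ', g ∈ Γ ∨ -g ∈ Γ) : goodQG Γ ≤ goodQG Γ' := by
  rintro b ⟨f, hf, hq⟩
  exact ⟨f, hf.of_pm hpm, hq⟩

theorem GenData.of_pm {F₀ : IntermediateField ℚ (LaurentSeries ℚ)} {S : Set (LaurentSeries ℚ)}
    (h : GenData Γ F₀ S) (hpm : ∀ g ∈ Γ', g ∈ Γ ∨ -g ∈ Γ) : GenData Γ' F₀ S :=
  ⟨h.subset, h.le_adjoin, fun s hs => goodQG_le_of_pm hpm (h.real s hs)⟩

end Pm

/-! ### Base change of the function field -/

section BaseChange

variable {K L : Type*} [Field K] [Algebra ℚ K] [Field L] [Algebra ℚ L]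

/-- `coeffMap ι` maps `K·F₀` into `L·F₀`. -/
theorem coeffMap_mem_laurentBaseChange' (ι : K →+* L)
    (F₀ : IntermediateField ℚ (LaurentSeries ℚ)) {x : LaurentSeries K}
    (hx : x ∈ laurentBaseChange K F₀) : coeffMap ι x ∈ laurentBaseChange L F₀ := by
  rw [mem_laurentBaseChange_iff] at hx
  induction hx using Subfield.closure_induction with
  | mem y hy =>
      rcases hy with ⟨a, rfl⟩ | ⟨z, hz, rfl⟩
      · rw [coeffMap_algebraMap']
        exact (laurentBaseChange L F₀).algebraMap_mem _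
      · rw [coeffMap_coeffEmb']
        exact coeffEmb_mem_laurentBaseChange L hz
  | one => simp
  | add x y _ _ hx hy => simpa using add_mem hx hy
  | neg x _ hx => simpa using neg_mem hx
  | inv x _ hx => simpa using inv_mem hx
  | mul x y _ _ hx hy => simpa using mul_mem hx hy

end BaseChange

/-! ### The field generated by the good functions -/

section MC

variable (Γ : Subgroup SL(2, ℤ))

/-- The field generated by the `q`-expansions of good functions for `Γ`. -/
def MCG : IntermediateField ℂ (LaurentSeries ℂ) :=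
  IntermediateField.adjoin ℂ (goodQG Γ : Set (LaurentSeries ℂ))

theorem goodQG_le_MCG {b : LaurentSeries ℂ} (hb : b ∈ goodQG Γ) : b ∈ MCG Γ :=
  IntermediateField.subset_adjoin ℂ _ hb

/-- `j` as an element of `MCG Γ`. -/
def jMG : MCG Γ := ⟨JK ℂ, goodQG_le_MCG Γ (JK_mem_goodQG Γ)⟩

theorem aeval_jMG_ne_zero {t : ℂ[X]} (ht : t ≠ 0) :
    aeval (AdjoinSimple.gen ℂ (jMG Γ)) t ≠ 0 := by
  intro h0
  apply aeval_JK_ne_zero ℂ ht
  have h1 := congrArg (algebraMap ↥(IntermediateField.adjoin ℂ {jMG Γ}) (MCG Γ)) h0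
  rw [← aeval_algebraMap_apply, map_zero, AdjoinSimple.algebraMap_gen] at h1
  have h2 := congrArg (algebraMap (MCG Γ) (LaurentSeries ℂ)) h1
  rw [← aeval_algebraMap_apply, map_zero] at h2
  exact h2

theorem algebraMap_comp_aeval_jMG :
    (algebraMap (MCG Γ) (LaurentSeries ℂ)).comp
      ((aeval (jMG Γ) : ℂ[X] →ₐ[ℂ] MCG Γ).toRingHom) = evJ (JK ℂ) := by
  refine Polynomial.ringHom_ext ?_ ?_
  · intro c
    simp [evJ, ← IsScalarTower.algebraMap_apply]
  · simp [evJ]
    rfl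

/-- **Degree bound**: `[MCG Γ : ℂ(j)] ≤ [SL(2,ℤ) : Γ]`. -/
theorem finiteDimensional_and_finrank_le_MCG [Finite (SL(2, ℤ) ⧸ Γ)] :
    FiniteDimensional ↥(IntermediateField.adjoin ℂ {jMG Γ}) (MCG Γ) ∧
      Module.finrank ↥(IntermediateField.adjoin ℂ {jMG Γ}) (MCG Γ)
        ≤ Nat.card (SL(2, ℤ) ⧸ Γ) := by
  refine finiteDimensional_and_finrank_le_of_forall_natDegree_minpoly_le _ fun x => ?_
  obtain ⟨Q, hQ0, hQn, hQ⟩ := algDeg_of_mem_adjoin_goodQG (Γ := Γ) x.2
  have hinc : Function.Injective (algebraMap (MCG Γ) (LaurentSeries ℂ)) :=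
    (algebraMap (MCG Γ) (LaurentSeries ℂ)).injective
  refine isIntegral_and_natDegree_le_of_relation (K := ℂ)
    (AdjoinSimple.gen ℂ (jMG Γ)) (fun t ht => aeval_jMG_ne_zero Γ ht) x Q hQ0 _ hQn ?_
  apply hinc
  rw [map_zero, Polynomial.hom_eval₂, AdjoinSimple.algebraMap_gen, algebraMap_comp_aeval_jMG]
  exact hQ

end MC

/-! ### The primitive element -/

section Prim

variable {Γ : Subgroup SL(2, ℤ)} [Finite (SL(2, ℤ) ⧸ Γ)]
  {F₀ : IntermediateField ℚ (LaurentSeries ℚ)} {S : Set (LaurentSeries ℚ)}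
  (hgen : GenData Γ F₀ S)
  (jF : ↥(laurentBaseChange Kbar F₀)) (hjF : (jF : LaurentSeries Kbar) = JK Kbar)

include hgen in
theorem GenData.le_MCG : laurentBaseChange ℂ F₀ ≤ MCG Γ :=
  hgen.laurentBaseChange_le_adjoin_goodQG

/-- The base change of an element of `ℚ̄·F₀`, as a Laurent series over `ℂ`. -/
def thetaL (θ : ↥(laurentBaseChange Kbar F₀)) : LaurentSeries ℂ :=
  coeffMap iotaC (θ : LaurentSeries Kbar)

theorem thetaL_mem (θ : ↥(laurentBaseChange Kbar F₀)) : thetaL θ ∈ laurentBaseChange ℂ F₀ :=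
  coeffMap_mem_laurentBaseChange' iotaC _ θ.2

/-- The same element in `MCG Γ`. -/
def thetaM (θ : ↥(laurentBaseChange Kbar F₀)) : MCG Γ := ⟨thetaL θ, hgen.le_MCG (thetaL_mem θ)⟩

include hjF in
theorem aeval_jF_ne_zero' {t : Kbar[X]} (ht : t ≠ 0) :
    aeval (AdjoinSimple.gen Kbar jF) t ≠ 0 := by
  intro h0
  apply aeval_JK_ne_zero Kbar ht
  have h1 := congrArg (algebraMap ↥(IntermediateField.adjoin Kbar {jF})
    ↥(laurentBaseChange Kbar F₀)) h0
  rw [← aeval_algebraMap_apply, map_zero, AdjoinSimple.algebraMap_gen] at h1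
  have h2 := congrArg (algebraMap ↥(laurentBaseChange Kbar F₀) (LaurentSeries Kbar)) h1
  rw [← aeval_algebraMap_apply, map_zero] at h2
  rw [← hjF]
  exact h2

include hjF in
theorem algebraMap_comp_aeval_jF' :
    (algebraMap ↥(laurentBaseChange Kbar F₀) (LaurentSeries Kbar)).comp
      ((aeval jF : Kbar[X] →ₐ[Kbar] ↥(laurentBaseChange Kbar F₀)).toRingHom)
      = evJ (JK Kbar) := by
  refine Polynomial.ringHom_ext ?_ ?_
  · intro c
    simp [evJ, ← IsScalarTower.algebraMap_apply]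
  · simp [evJ]
    exact hjF

include hjF in
/-- The degree of `θ` over `ℚ̄(j)` is at most the degree of its base change over `ℂ(j)`. -/
theorem natDegree_minpoly_le_thetaM (θ : ↥(laurentBaseChange Kbar F₀)) :
    (minpoly ↥(IntermediateField.adjoin Kbar {jF}) θ).natDegree
      ≤ (minpoly ↥(IntermediateField.adjoin ℂ {jMG Γ}) (thetaM hgen θ)).natDegree := by
  haveI := (finiteDimensional_and_finrank_le_MCG Γ).1
  have hint : IsIntegral ↥(IntermediateField.adjoin ℂ {jMG Γ}) (thetaM hgen θ) :=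
    IsIntegral.of_finite _ _
  have hp0 : minpoly ↥(IntermediateField.adjoin ℂ {jMG Γ}) (thetaM hgen θ) ≠ 0 :=
    minpoly.ne_zero hint
  obtain ⟨t, Q, ht, hQ⟩ := exists_clear_denominators (K := ℂ) (jMG Γ)
    (minpoly ↥(IntermediateField.adjoin ℂ {jMG Γ}) (thetaM hgen θ))
  have hφinj : Function.Injective
      ((aeval (AdjoinSimple.gen ℂ (jMG Γ)) : ℂ[X] →ₐ[ℂ] ℂ⟮jMG Γ⟯).toRingHom) := by
    rw [injective_iff_map_eq_zero]
    intro t ht0
    by_contra h
    exact aeval_jMG_ne_zero Γ h ht0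
  have hQ0 : Q ≠ 0 := by
    intro h
    rw [h, Polynomial.map_zero] at hQ
    exact (mul_ne_zero (C_ne_zero.mpr ht) hp0) hQ.symm
  have hQd : Q.natDegree ≤
      (minpoly ↥(IntermediateField.adjoin ℂ {jMG Γ}) (thetaM hgen θ)).natDegree := by
    rw [← Polynomial.natDegree_map_eq_of_injective hφinj Q, hQ, natDegree_C_mul ht]
  have hroot : Q.eval₂ (evJ (JK ℂ)) (thetaL θ) = 0 := by
    have h1 : aeval (thetaM hgen θ)
        (Q.map ((aeval (AdjoinSimple.gen ℂ (jMG Γ)) : ℂ[X] →ₐ[ℂ] ℂ⟮jMG Γ⟯).toRingHom)) = 0 := by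
      rw [hQ, map_mul, minpoly.aeval, mul_zero]
    have h2 := congrArg (algebraMap (MCG Γ) (LaurentSeries ℂ)) h1
    rw [map_zero, aeval_def, eval₂_map, Polynomial.hom_eval₂] at h2
    have hcomp : (algebraMap (MCG Γ) (LaurentSeries ℂ)).comp
        ((algebraMap ↥(IntermediateField.adjoin ℂ {jMG Γ}) (MCG Γ)).comp
          ((aeval (AdjoinSimple.gen ℂ (jMG Γ)) : ℂ[X] →ₐ[ℂ] ℂ⟮jMG Γ⟯).toRingHom))
        = evJ (JK ℂ) := by
      refine Polynomial.ringHom_ext ?_ ?_
      · intro c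
        simp [evJ, ← IsScalarTower.algebraMap_apply]
      · simp [evJ]
        rfl
    rw [hcomp] at h2
    exact h2
  obtain ⟨Q', hQ'0, hQ'd, hQ'⟩ := exists_relation_of_coeffMap_ne_zero iotaC (JK Kbar)
    (θ : LaurentSeries Kbar) _ Q hQ0 hQd (by rw [coeffMap_JK]; exact hroot)
  have hinc : Function.Injective
      (algebraMap ↥(laurentBaseChange Kbar F₀) (LaurentSeries Kbar)) :=
    (algebraMap ↥(laurentBaseChange Kbar F₀) (LaurentSeries Kbar)).injective
  have key := isIntegral_and_natDegree_le_of_relation (K := Kbar)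
    (AdjoinSimple.gen Kbar jF) (fun t ht => aeval_jF_ne_zero' jF hjF ht) θ Q' hQ'0 _ hQ'd (by
      apply hinc
      rw [map_zero, Polynomial.hom_eval₂, AdjoinSimple.algebraMap_gen,
        algebraMap_comp_aeval_jF' jF hjF]
      exact hQ')
  exact key.2

include hgen in
theorem coe_mem_of_mem_adjoin_jMG (hj : jq ∈ F₀) (e : ↥(IntermediateField.adjoin ℂ {jMG Γ})) :
    (((e : MCG Γ)) : LaurentSeries ℂ) ∈ laurentBaseChange ℂ F₀ := by
  have hJ : JK ℂ ∈ laurentBaseChange ℂ F₀ := coeffEmb_mem_laurentBaseChange ℂ hj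
  obtain ⟨r, s, hrs⟩ := (IntermediateField.mem_adjoin_simple_iff ℂ (e : MCG Γ)).mp e.2
  have hr : ((aeval (jMG Γ) r : MCG Γ) : LaurentSeries ℂ) = aeval (JK ℂ) r := by
    have := (aeval_algebraMap_apply (LaurentSeries ℂ) (jMG Γ) r).symm
    exact this
  have hs : ((aeval (jMG Γ) s : MCG Γ) : LaurentSeries ℂ) = aeval (JK ℂ) s := by
    have := (aeval_algebraMap_apply (LaurentSeries ℂ) (jMG Γ) s).symm
    exact this
  have hmem : ∀ t : ℂ[X], aeval (JK ℂ) t ∈ laurentBaseChange ℂ F₀ := by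
    intro t
    have := (aeval_algebraMap_apply (LaurentSeries ℂ)
      (⟨JK ℂ, hJ⟩ : ↥(laurentBaseChange ℂ F₀)) t)
    have h2 : (algebraMap ↥(laurentBaseChange ℂ F₀) (LaurentSeries ℂ))
        (⟨JK ℂ, hJ⟩ : ↥(laurentBaseChange ℂ F₀)) = JK ℂ := rfl
    rw [h2] at this
    rw [this]
    exact (aeval (⟨JK ℂ, hJ⟩ : ↥(laurentBaseChange ℂ F₀)) t).2
  rw [hrs]
  have : (((aeval (jMG Γ) r / aeval (jMG Γ) s : MCG Γ)) : LaurentSeries ℂ)
      = aeval (JK ℂ) r / aeval (JK ℂ) s := by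
    rw [← hr, ← hs]
    rfl
  rw [this]
  exact div_mem (hmem r) (hmem s)

include hgen hjF in
/-- **`MCG Γ ≤ ℂ·F₀`** from the lower bound of the degree over `ℚ̄`. -/
theorem MCG_le_of_card_le_finrank (hj : jq ∈ F₀)
    [FiniteDimensional ↥(IntermediateField.adjoin Kbar {jF}) ↥(laurentBaseChange Kbar F₀)]
    (hdeg : Nat.card (SL(2, ℤ) ⧸ Γ)
      ≤ Module.finrank ↥(IntermediateField.adjoin Kbar {jF}) ↥(laurentBaseChange Kbar F₀)) :
    MCG Γ ≤ laurentBaseChange ℂ F₀ := by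
  obtain ⟨θ, hθ⟩ := Field.exists_primitive_element ↥(IntermediateField.adjoin Kbar {jF})
    ↥(laurentBaseChange Kbar F₀)
  have hθd := (Field.primitive_element_iff_minpoly_natDegree_eq _ θ).mp hθ
  haveI := (finiteDimensional_and_finrank_le_MCG Γ).1
  have htop : IntermediateField.adjoin ↥(IntermediateField.adjoin ℂ {jMG Γ})
      {thetaM hgen θ} = ⊤ := by
    rw [Field.primitive_element_iff_minpoly_natDegree_eq]
    have h1 := natDegree_minpoly_le_thetaM hgen jF hjF θ
    have h2 := (finiteDimensional_and_finrank_le_MCG Γ).2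
    have h3 : (minpoly ↥(IntermediateField.adjoin ℂ {jMG Γ}) (thetaM hgen θ)).natDegree ≤
        Module.finrank ↥(IntermediateField.adjoin ℂ {jMG Γ}) (MCG Γ) := minpoly.natDegree_le _
    omega
  intro y hy
  have hy' : (⟨y, hy⟩ : MCG Γ) ∈
      IntermediateField.adjoin ↥(IntermediateField.adjoin ℂ {jMG Γ}) {thetaM hgen θ} := by
    rw [htop]; exact IntermediateField.mem_top
  have key : ∀ z : MCG Γ,
      z ∈ IntermediateField.adjoin ↥(IntermediateField.adjoin ℂ {jMG Γ}) {thetaM hgen θ} →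
      (z : LaurentSeries ℂ) ∈ laurentBaseChange ℂ F₀ := by
    intro z hz
    refine IntermediateField.adjoin_induction ↥(IntermediateField.adjoin ℂ {jMG Γ})
      (p := fun (z : MCG Γ) _ => ((z : MCG Γ) : LaurentSeries ℂ) ∈ laurentBaseChange ℂ F₀)
      ?_ ?_ ?_ ?_ ?_ hz
    · intro x hx
      rw [Set.mem_singleton_iff] at hx
      subst hx
      exact thetaL_mem θ
    · intro e
      exact coe_mem_of_mem_adjoin_jMG hgen hj e
    · intro x y _ _ hx hy
      exact add_mem hx hy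
    · intro x _ hx
      exact inv_mem hx
    · intro x y _ _ hx hy
      exact mul_mem hx hy
  exact key ⟨y, hy⟩ hy'

end Prim

/-! ### MERO -/

/-- **MERO, generic**: if `[SL(2,ℤ) : Γ] ≤ [ℚ̄·F₀ : ℚ̄(j)]`, the `q`-expansion of every good
function for `Γ` lies in `ℂ·F₀`. -/
theorem mem_of_mem_goodQG_of_card_le_finrank {Γ : Subgroup SL(2, ℤ)} [Finite (SL(2, ℤ) ⧸ Γ)]
    {F₀ : IntermediateField ℚ (LaurentSeries ℚ)} {S : Set (LaurentSeries ℚ)}
    (hgen : GenData Γ F₀ S) (hj : jq ∈ F₀)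
    (jF : ↥(laurentBaseChange Kbar F₀)) (hjF : (jF : LaurentSeries Kbar) = JK Kbar)
    [FiniteDimensional ↥(IntermediateField.adjoin Kbar {jF}) ↥(laurentBaseChange Kbar F₀)]
    (hdeg : Nat.card (SL(2, ℤ) ⧸ Γ)
      ≤ Module.finrank ↥(IntermediateField.adjoin Kbar {jF}) ↥(laurentBaseChange Kbar F₀))
    {b : LaurentSeries ℂ} (hb : b ∈ goodQG Γ) : b ∈ laurentBaseChange ℂ F₀ :=
  MCG_le_of_card_le_finrank hgen jF hjF hj hdeg (goodQG_le_MCG Γ hb)

/-- **MERO, generic, `±Γ` form**: `Γ'` is any subgroup of finite index with `Γ' ⊆ Γ ∪ -Γ` and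
`[SL(2,ℤ) : Γ'] ≤ [ℚ̄·F₀ : ℚ̄(j)]`; `T ∈ Γ`. -/
theorem mem_of_goodG_of_pm {Γ Γ' : Subgroup SL(2, ℤ)} [Finite (SL(2, ℤ) ⧸ Γ')]
    (hpm : ∀ g ∈ Γ', g ∈ Γ ∨ -g ∈ Γ) (hT : ModularGroup.T ∈ Γ)
    {F₀ : IntermediateField ℚ (LaurentSeries ℚ)} {S : Set (LaurentSeries ℚ)}
    (hgen : GenData Γ F₀ S) (hj : jq ∈ F₀)
    (jF : ↥(laurentBaseChange Kbar F₀)) (hjF : (jF : LaurentSeries Kbar) = JK Kbar)
    [FiniteDimensional ↥(IntermediateField.adjoin Kbar {jF}) ↥(laurentBaseChange Kbar F₀)]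
    (hdeg : Nat.card (SL(2, ℤ) ⧸ Γ')
      ≤ Module.finrank ↥(IntermediateField.adjoin Kbar {jF}) ↥(laurentBaseChange Kbar F₀))
    {G : ℍ → ℂ} (hG : GoodG Γ G) : qexpFun 1 G ∈ laurentBaseChange ℂ F₀ :=
  mem_of_mem_goodQG_of_card_le_finrank (hgen.of_pm hpm) hj jF hjF hdeg
    ((goodQG_le_of_pm hpm) (qexpFun_mem_goodQG hT hG))

/-- **MERO, generic**, in the `Prop` form `MeroG Γ F₀` used by piece K3. -/
theorem meroG_of_pm {Γ Γ' : Subgroup SL(2, ℤ)} [Finite (SL(2, ℤ) ⧸ Γ')]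
    (hpm : ∀ g ∈ Γ', g ∈ Γ ∨ -g ∈ Γ) (hT : ModularGroup.T ∈ Γ)
    {F₀ : IntermediateField ℚ (LaurentSeries ℚ)} {S : Set (LaurentSeries ℚ)}
    (hgen : GenData Γ F₀ S) (hj : jq ∈ F₀)
    (jF : ↥(laurentBaseChange Kbar F₀)) (hjF : (jF : LaurentSeries Kbar) = JK Kbar)
    [FiniteDimensional ↥(IntermediateField.adjoin Kbar {jF}) ↥(laurentBaseChange Kbar F₀)]
    (hdeg : Nat.card (SL(2, ℤ) ⧸ Γ')
      ≤ Module.finrank ↥(IntermediateField.adjoin Kbar {jF}) ↥(laurentBaseChange Kbar F₀)) :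
    MeroG Γ F₀ :=
  fun _ hG => mem_of_goodG_of_pm hpm hT hgen hj jF hjF hdeg hG

/-- **MERO, generic**, for `Γ ∋ -1` (take `Γ' = Γ`). -/
theorem meroG_of_card_le_finrank {Γ : Subgroup SL(2, ℤ)} [Finite (SL(2, ℤ) ⧸ Γ)]
    (hT : ModularGroup.T ∈ Γ)
    {F₀ : IntermediateField ℚ (LaurentSeries ℚ)} {S : Set (LaurentSeries ℚ)}
    (hgen : GenData Γ F₀ S) (hj : jq ∈ F₀)
    (jF : ↥(laurentBaseChange Kbar F₀)) (hjF : (jF : LaurentSeries Kbar) = JK Kbar)
    [FiniteDimensional ↥(IntermediateField.adjoin Kbar {jF}) ↥(laurentBaseChange Kbar F₀)]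
    (hdeg : Nat.card (SL(2, ℤ) ⧸ Γ)
      ≤ Module.finrank ↥(IntermediateField.adjoin Kbar {jF}) ↥(laurentBaseChange Kbar F₀)) :
    MeroG Γ F₀ :=
  meroG_of_pm (fun _ hg => Or.inl hg) hT hgen hj jF hjF hdeg

end Fermat.Agent.S48.H882

end
end
-- ===== PACK-END S48/H882/MeroG.lean

-- ===== PACK-BEGIN S48/H882/K3Leaf.lean
section






/-!
# Tower A1 / A1-KUM — leaf `k3` for `(Γ₁(M), F1Bar M)` from DFROM + DTO (helper882)

* GENERIC adapter `kum_pieceK3_of` : `H882.pieceK3G` in the frozen shape `Kum.PieceK3 Γ F p`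
  (characters `c : Γ → ZMod p`, `ζ_p ^ c(γ)`), from GEN, MERO, DFROM, DTO.
* INSTANCE `(Γ₁(M), F1 M)`:
  - `genData_f1 M  : GenData (Gamma1 M) (F1 M) (f1Gens M)`   (avatars `j(dτ)`, `H76.pFun M a`);
  - `meroG_f1 M    : MeroG (Gamma1 M) (F1 M)`                (from `H332.f1_finrank_eq`);
  - `dictInter_f1 M : Kum.DictInter (Gamma1 M) (F1Bar M)`    (= leaf `inter`, UNCONDITIONAL);
  - `dictMero_f1 M  : Kum.DictMero (Gamma1 M) (F1Bar M)`     (= leaf `mero`, UNCONDITIONAL);
  - `pieceK3_f1_of` : DFROM + DTO for `(Γ₁(M), F1 M)` ⟹ `Kum.PieceK3 (Gamma1 M) (F1Bar M) ℓ`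
    (= leaf `k3`; the two inputs are owned by helper282).
-/

set_option autoImplicit false
set_option linter.style.haveILetI false
set_option linter.unusedSectionVars false

noncomputable section

open UpperHalfPlane ModularGroup CongruenceSubgroup Polynomial ModularCurve AlgebraicCurve
open scoped MatrixGroups Manifold Modular Real

namespace Fermat.Agent.S48.H882

open Fermat.Agent.S24 Fermat.Agent.S24.H648 Fermat.Agent.S24.H708 Fermat.Agent.S24.Deg457
open Fermat.Agent.S29 Fermat.Agent.S48.F1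

/-! ### The generic adapter to the frozen `Kum` shapes -/

section Adapter

variable {Γ : Subgroup SL(2, ℤ)} {p : ℕ} [NeZero p]

theorem zetaP_pow_self_eq (p : ℕ) [NeZero p] : M4b.zetaP p ^ p = 1 := by
  unfold M4b.zetaP
  rw [← Complex.exp_nat_mul]
  have hp : (p : ℂ) ≠ 0 := Nat.cast_ne_zero.mpr (NeZero.ne p)
  rw [mul_div_cancel₀ _ hp]
  exact Complex.exp_two_pi_mul_I

theorem zetaP_ne_zero' (p : ℕ) : M4b.zetaP p ≠ 0 := by
  unfold M4b.zetaP
  exact Complex.exp_ne_zero _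

theorem zetaP_pow_val_add (a b : ZMod p) :
    M4b.zetaP p ^ (a + b).val = M4b.zetaP p ^ a.val * M4b.zetaP p ^ b.val := by
  rw [ZMod.val_add, ← pow_eq_pow_mod _ (zetaP_pow_self_eq p), pow_add]

/-- The multiplicative character `γ ↦ ζ_p ^ c(γ)` of an additive character `c`. -/
def charOf (c : Γ → ZMod p) (hc : ∀ γ γ' : Γ, c (γ * γ') = c γ + c γ') : Γ →* ℂˣ :=
  MonoidHom.toHomUnits
    { toFun := fun γ => M4b.zetaP p ^ (c γ).val
      map_one' := by
        have h1 : c 1 = 0 := by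
          have h := hc 1 1
          rw [mul_one] at h
          exact left_eq_add.mp h
        rw [h1, ZMod.val_zero, pow_zero]
      map_mul' := fun γ γ' => by rw [hc, zetaP_pow_val_add] }

theorem charOf_apply (c : Γ → ZMod p) (hc : ∀ γ γ' : Γ, c (γ * γ') = c γ + c γ') (γ : Γ) :
    ((charOf c hc γ : ℂˣ) : ℂ) = M4b.zetaP p ^ (c γ).val := rfl

theorem goodG_iff_isGood {G : ℍ → ℂ} : GoodG Γ G ↔ Kum.IsGood Γ G := Iff.rfl

theorem isTwistedG_of_kum {c : Γ → ZMod p} (hc : ∀ γ γ' : Γ, c (γ * γ') = c γ + c γ')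
    {U : ℍ → ℂ} (hU : Kum.IsTwisted Γ p c U) : IsTwistedG Γ p (charOf c hc) U :=
  ⟨hU.mdiff, hU.ne_zero, fun γ τ => by rw [charOf_apply]; exact hU.hasChar γ τ, hU.pow_good⟩

theorem kum_isTwisted_of {c : Γ → ZMod p} (hc : ∀ γ γ' : Γ, c (γ * γ') = c γ + c γ')
    {U : ℍ → ℂ} (hU : IsTwistedG Γ p (charOf c hc) U) : Kum.IsTwisted Γ p c U :=
  ⟨hU.mdiff, hU.ne_zero, fun γ τ => by rw [← charOf_apply c hc]; exact hU.hasChar γ τ,
    hU.pow_good⟩

omit [NeZero p] in
theorem trace_T_eq_two : (ModularGroup.T : SL(2, ℤ)).1.trace = 2 := by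
  simp [ModularGroup.T]

/-- **PIECE K3 in the frozen shape `Kum.PieceK3`, GENERIC in `(Γ, F₀)`**, from GEN, MERO, DFROM
and DTO (for all twisted functions of parabolic characters). -/
theorem kum_pieceK3_of (Γ : Subgroup SL(2, ℤ)) [Finite (SL(2, ℤ) ⧸ Γ)]
    (hT : ModularGroup.T ∈ Γ) (F₀ : IntermediateField ℚ (LaurentSeries ℚ)) (hj : jq ∈ F₀)
    {S : Set (LaurentSeries ℚ)} (hgen : GenData Γ F₀ S) (hmero : MeroG Γ F₀)
    (p : ℕ) [NeZero p] (hd : DFromG Γ F₀ p)
    (hdto : ∀ {c : Γ → ZMod p}, Kum.IsParHom Γ c → ∀ {U : ℍ → ℂ}, Kum.IsTwisted Γ p c U →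
      DToG F₀ p U) :
    Kum.PieceK3 Γ (laurentBaseChange Kbar F₀) p := by
  intro c hc U hU
  have hχT : charOf c hc.map_mul ⟨ModularGroup.T, hT⟩ = 1 := by
    apply Units.ext
    rw [charOf_apply, Units.val_one, hc.parabolic ⟨ModularGroup.T, hT⟩ (Or.inl trace_T_eq_two),
      ZMod.val_zero, pow_zero]
  obtain ⟨U', u, hU', hu⟩ := pieceK3G Γ hT F₀ hj hgen hmero p hd hχT
    (isTwistedG_of_kum hc.map_mul hU) (hdto hc hU)
  exact ⟨U', u, kum_isTwisted_of hc.map_mul hU', hu⟩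

/-- **DICT-INTER, generic**: from MERO and the landed `S29.H882.mem_laurentBaseChange_of_coeffMap_mem`. -/
theorem kum_dictInter_of {Γ : Subgroup SL(2, ℤ)} {F₀ : IntermediateField ℚ (LaurentSeries ℚ)}
    (hmero : MeroG Γ F₀) : Kum.DictInter Γ (laurentBaseChange Kbar F₀) := by
  intro G s hG hq
  have h := hmero G hG
  rw [hq] at h
  exact Fermat.Agent.S29.H882.mem_laurentBaseChange_of_coeffMap_mem iotaC F₀ h

/-- **DICT-MERO, generic**: from GEN. -/
theorem kum_dictMero_of {Γ : Subgroup SL(2, ℤ)} {F₀ : IntermediateField ℚ (LaurentSeries ℚ)}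
    {S : Set (LaurentSeries ℚ)} (hgen : GenData Γ F₀ S) :
    Kum.DictMero Γ (laurentBaseChange Kbar F₀) := by
  intro u
  obtain ⟨r, hr, s, hs, hs0, hrs⟩ := exists_div_AKG Kbar hgen.le_adjoin u.2
  obtain ⟨G₁, hG₁, hq₁⟩ := hgen.coeffMap_mem_goodQG iotaC hr
  obtain ⟨G₂, hG₂, hq₂⟩ := hgen.coeffMap_mem_goodQG iotaC hs
  refine ⟨⟨r, AKG_le_laurentBaseChange Kbar hgen.subset hr⟩,
    ⟨s, AKG_le_laurentBaseChange Kbar hgen.subset hs⟩, G₁, G₂, ?_, ?_,
    ⟨hG₁, hq₁.qexpFun_eq⟩, ⟨hG₂, hq₂.qexpFun_eq⟩⟩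
  · exact fun h => hs0 (congrArg Subtype.val h)
  · apply Subtype.ext
    show (u : LaurentSeries Kbar) * s = r
    rw [hrs, div_mul_cancel₀ _ hs0]

end Adapter

/-! ### The instance `(Γ₁(M), F1 M)` -/

section F1

open Fermat.Agent.S48.H332 Fermat.Agent.S48.H76

variable (M : ℕ) [NeZero M]

theorem finite_quot_Gamma1 : Finite (SL(2, ℤ) ⧸ Gamma1 M) :=
  Subgroup.finite_quotient_of_finiteIndex

theorem T_mem_Gamma1' : ModularGroup.T ∈ Gamma1 M := by
  rw [Gamma1_mem]
  simp [ModularGroup.T]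

theorem coeffEmb_divGen_eq (a : ZMod M) : coeffEmb ℂ (divGen M a) = divGenC ℂ M a := by
  rw [coeffEmb, ← divGenC_rat, coeffMap_divGenC]

/-- **GEN** for `(Γ₁(M), F1 M)`. -/
theorem genData_f1 : _root_.Fermat.Agent.S48.H882.GenData (Gamma1 M) (F1 M) (f1Gens M) where
  subset := fun s hs => IntermediateField.subset_adjoin ℚ _ hs
  le_adjoin := le_refl _
  real := by
    rintro s (hs | hs)
    · -- `j(q^d)`: good for `Γ₀(M)`
      have h1 : coeffEmb ℂ s ∈ AK ℂ M := Algebra.subset_adjoin ⟨s, hs, rfl⟩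
      obtain ⟨f, hf, hq⟩ := Fermat.Agent.S29.H882.AK_le_goodQ M h1
      exact ⟨f, GoodG.mono (Γ' := Gamma0 M) hf (Gamma1_in_Gamma0 M), hq⟩
    · -- `P_a`: the avatar `pFun M a`
      obtain ⟨a, ha, rfl⟩ := hs
      refine ⟨pFun M a, isGoodFor_of_mem_holN (pFun_mem_holN M a)
        (fun γ hγ τ => pFun_smul_Gamma1 M a γ hγ τ), ?_⟩
      rw [coeffEmb_divGen_eq]
      exact Fermat.Agent.S29.H332.hasQExp_of_infExp (mdiff_pFun M a) (infExp_pFun M ha)

theorem pm_Gamma1 : ∀ g ∈ pmGamma1 M, g ∈ Gamma1 M ∨ -g ∈ Gamma1 M := by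
  intro g hg
  exact mem_pmGamma1_iff.mp hg

/-- **MERO** for `(Γ₁(M), F1 M)`: the `q`-expansion of every good function for `Γ₁(M)` lies in
`ℂ·F1(M)`. -/
theorem meroG_f1 : MeroG (Gamma1 M) (F1 M) := by
  haveI := f1_finiteDimensional M
  exact meroG_of_pm (Γ' := pmGamma1 M) (pm_Gamma1 M) (T_mem_Gamma1' M) (genData_f1 M)
    (jq_mem_F1 M) (f1J M) (coe_f1J M) (f1_finrank_eq M).ge

/-- **Leaf `inter`** of `Kum.Leaves`. -/
theorem dictInter_f1 : Kum.DictInter (Gamma1 M) (F1Bar M) :=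
  kum_dictInter_of (meroG_f1 M)

/-- **Leaf `mero`** of `Kum.Leaves`. -/
theorem dictMero_f1 : Kum.DictMero (Gamma1 M) (F1Bar M) :=
  kum_dictMero_of (genData_f1 M)

/-- **Leaf `k3`** of `Kum.Leaves`, from DFROM and DTO for `(Γ₁(M), F1 M)`. -/
theorem pieceK3_f1_of (ℓ : ℕ) (hℓ : ℓ.Prime) (hd : DFromG (Gamma1 M) (F1 M) ℓ)
    (hdto : ∀ {c : Gamma1 M → ZMod ℓ}, Kum.IsParHom (Gamma1 M) c → ∀ {U : ℍ → ℂ},
      Kum.IsTwisted (Gamma1 M) ℓ c U → DToG (F1 M) ℓ U) :
    Kum.PieceK3 (Gamma1 M) (F1Bar M) ℓ :=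
  haveI : NeZero ℓ := ⟨hℓ.ne_zero⟩
  haveI := finite_quot_Gamma1 M
  kum_pieceK3_of (Gamma1 M) (T_mem_Gamma1' M) (F1 M) (jq_mem_F1 M) (genData_f1 M) (meroG_f1 M) ℓ
    hd hdto

end F1

end Fermat.Agent.S48.H882

end
end
-- ===== PACK-END S48/H882/K3Leaf.lean

-- ===== PACK-BEGIN S48/H282/K3.lean
section



/-!
# Tower A1 / A1-KUM — leaf `k3` CLOSED: `Kum.PieceK3 (Gamma1 M) (F1Bar M) ℓ` (helper282)

`pieceK3_Gamma1 M ℓ hℓ : Kum.PieceK3 (Gamma1 M) (F1.F1Bar M) ℓ`, UNCONDITIONAL: helper882's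
`H882.pieceK3_f1_of` (GEN + MERO + the descent `ℂ → ℚ̄`) fed with the two inputs
`H282.dfromG_Gamma1` (DFROM) and `H282.dtoG_Gamma1` (DTO) of `K3In.lean`.
-/

set_option autoImplicit false

noncomputable section

open ModularCurve UpperHalfPlane AlgebraicCurve CongruenceSubgroup
open scoped MatrixGroups Manifold

namespace Fermat.Agent.S48.H282

open Fermat.Agent.S24 Fermat.Agent.S48.H332
open Fermat.Agent.S48.H882 (charOf charOf_apply isTwistedG_of_kum pieceK3_f1_of)

variable {Γ : Subgroup SL(2, ℤ)} {p : ℕ} [NeZero p]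

theorem charOf_eq_one_of_eq_zero {c : Γ → ZMod p} (hc : ∀ γ γ' : Γ, c (γ * γ') = c γ + c γ')
    {γ : Γ} (h0 : c γ = 0) : charOf c hc γ = 1 := by
  apply Units.ext
  rw [charOf_apply, Units.val_one, h0, ZMod.val_zero, pow_zero]

/-- the multiplicative character of a parabolic additive character is trivial on the parabolic
elements -/
theorem gParTriv_charOf {c : Γ → ZMod p} (hc : Kum.IsParHom Γ c) :
    GParTriv (charOf c hc.map_mul) :=
  fun γ hγ => charOf_eq_one_of_eq_zero hc.map_mul (hc.parabolic γ hγ)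

/-- the multiplicative character of a parabolic additive character is trivial on the elements of
finite order -/
theorem gEllTriv_charOf {c : Γ → ZMod p} (hc : Kum.IsParHom Γ c) :
    GEllTriv (charOf c hc.map_mul) :=
  fun γ n hn hγ => charOf_eq_one_of_eq_zero hc.map_mul (hc.elliptic γ n hn hγ)

/-- **DTO for `(Γ₁(M), F1 M)`**, in the shape used by `H882.pieceK3_f1_of`. -/
theorem dtoG_Gamma1_kum (M : ℕ) [NeZero M] {c : Gamma1 M → ZMod p}
    (hc : Kum.IsParHom (Gamma1 M) c) {U : ℍ → ℂ} (hU : Kum.IsTwisted (Gamma1 M) p c U) :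
    Fermat.Agent.S48.H882.DToG (Fermat.Agent.S48.F1.F1 M) p U :=
  dtoG_Gamma1 (gParTriv_charOf hc) (gEllTriv_charOf hc) (isTwistedG_of_kum hc.map_mul hU)

/-- **Leaf `k3` of `Kum.Leaves`** (descent `ℂ → ℚ̄` of the Kummer functions), UNCONDITIONAL. -/
theorem pieceK3_Gamma1 (M : ℕ) [NeZero M] (ℓ : ℕ) (hℓ : ℓ.Prime) :
    Kum.PieceK3 (Gamma1 M) (Fermat.Agent.S48.F1.F1Bar M) ℓ :=
  haveI : NeZero ℓ := ⟨hℓ.ne_zero⟩
  pieceK3_f1_of M ℓ hℓ (dfromG_Gamma1 M ℓ) (fun hc _ hU => dtoG_Gamma1_kum M hc hU)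

end Fermat.Agent.S48.H282

end
end
-- ===== PACK-END S48/H282/K3.lean

-- ===== PACK-BEGIN S48/Kum/An.lean
section
/-
Tower A1 / A1-KUM (helper822): the ANALYTIC REALISATION `an : F →+* MerH`, GENERIC in `(Γ, F)`,
constructed from the dictionary axiom `DictMero Γ F` (every element of `F` is a quotient of two
realised elements).  `MerH = Frac (holomorphic functions on ℍ)` (S24).

* `an hT hmero : F →+* MerH`;
* `an_eq_of_realises`  : `Realises Γ F u G → an u = [G]`;
* `realises_of_an_eq`  : `IsGood Γ G → an u = [G] → Realises Γ F u G`.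
(Generic version of `S29.H452.an` + `S29.M4b.H822.{an_eq_of_realises, realises_of_an_eq}`.)
-/




set_option autoImplicit false

noncomputable section

open ModularCurve AlgebraicCurve UpperHalfPlane
open scoped MatrixGroups Manifold

namespace Fermat.Agent.S48.Kum

open Fermat.Agent.S24 Fermat.Agent.S24.H624 Fermat.Agent.S29 Fermat.Agent.S29.M4b
  Fermat.Agent.S29.M4b.H822

variable {Γ : Subgroup SL(2, ℤ)} {F : KF}

/-! ### More on good functions and realisations -/

theorem IsGood.add {G H : ℍ → ℂ} (hG : IsGood Γ G) (hH : IsGood Γ H) : IsGood Γ (G + H) := by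
  obtain ⟨h1, h2, h3⟩ := hG
  obtain ⟨h1', h2', h3'⟩ := hH
  refine ⟨h1.add h1', fun γ hγ τ => ?_, fun g => ?_⟩
  · show G (γ • τ) + H (γ • τ) = G τ + H τ
    rw [h2 γ hγ τ, h2' γ hγ τ]
  · exact (h3 g).add (h3' g)

theorem Realises.add (hT : ModularGroup.T ∈ Γ) {u v : F} {G H : ℍ → ℂ}
    (hu : _root_.Fermat.Agent.S48.Kum.Realises Γ F u G) (hv : _root_.Fermat.Agent.S48.Kum.Realises Γ F v H) : _root_.Fermat.Agent.S48.Kum.Realises Γ F (u + v) (G + H) := by
  refine realises_of_hasQExp (hu.1.add hv.1) ?_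
  have := (hu.hasQExp hT).add (hv.hasQExp hT)
  simpa using this

theorem coeffMap_iotaC_algebraMap (c : Kbar) :
    coeffMap Deg457.iotaC (algebraMap Kbar (LaurentSeries Kbar) c) = HahnSeries.C (Deg457.iotaC c) := by
  rw [algebraMap_laurentSeries_eq_single, coeffMap_single]
  rfl

/-- Constants are realised by constant functions. -/
theorem realises_algebraMap (Γ : Subgroup SL(2, ℤ)) (F : KF) (c : Kbar) :
    _root_.Fermat.Agent.S48.Kum.Realises Γ F (algebraMap Kbar F c) (fun _ => Deg457.iotaC c) := by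
  refine realises_of_hasQExp (isGood_const Γ _) ?_
  have h := H708.HasQExp.const 1 (Deg457.iotaC c)
  have e : (((algebraMap Kbar F c : F)) : LaurentSeries Kbar)
      = algebraMap Kbar (LaurentSeries Kbar) c := rfl
  rw [e, coeffMap_iotaC_algebraMap]
  exact h

theorem realises_one (Γ : Subgroup SL(2, ℤ)) (F : KF) : _root_.Fermat.Agent.S48.Kum.Realises Γ F (1 : F) (fun _ => (1 : ℂ)) := by
  have h := realises_algebraMap Γ F 1
  simpa using h

theorem realises_zero (Γ : Subgroup SL(2, ℤ)) (F : KF) : _root_.Fermat.Agent.S48.Kum.Realises Γ F (0 : F) (fun _ => (0 : ℂ)) := by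
  have h := realises_algebraMap Γ F 0
  simpa using h

/-! ### The class of a good function in `MerH` -/

/-- The class in `MerH` of a holomorphic function. -/
def merOf (G : ℍ → ℂ) (hG : MDifferentiable 𝓘(ℂ) 𝓘(ℂ) G) : MerH :=
  algebraMap holoRing MerH ⟨G, hG⟩

theorem merOf_injective {G H : ℍ → ℂ} {hG : MDifferentiable 𝓘(ℂ) 𝓘(ℂ) G}
    {hH : MDifferentiable 𝓘(ℂ) 𝓘(ℂ) H} (h : merOf G hG = merOf H hH) : G = H := by
  have := IsFractionRing.injective holoRing MerH h
  exact congrArg Subtype.val this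

theorem merOf_mul {G H : ℍ → ℂ} (hG : MDifferentiable 𝓘(ℂ) 𝓘(ℂ) G)
    (hH : MDifferentiable 𝓘(ℂ) 𝓘(ℂ) H) :
    merOf (G * H) (hG.mul hH) = merOf G hG * merOf H hH := by
  unfold merOf
  rw [← map_mul]
  rfl

theorem merOf_add {G H : ℍ → ℂ} (hG : MDifferentiable 𝓘(ℂ) 𝓘(ℂ) G)
    (hH : MDifferentiable 𝓘(ℂ) 𝓘(ℂ) H) :
    merOf (G + H) (hG.add hH) = merOf G hG + merOf H hH := by
  unfold merOf
  rw [← map_add]
  rfl

theorem merOf_ne_zero {G : ℍ → ℂ} (hG : MDifferentiable 𝓘(ℂ) 𝓘(ℂ) G) (h : G ≠ 0) :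
    merOf G hG ≠ 0 := by
  intro h0
  apply h
  have h1 : merOf G hG = merOf (0 : ℍ → ℂ) (mdifferentiable_const (c := (0 : ℂ))) := by
    rw [h0]
    unfold merOf
    have : (⟨(0 : ℍ → ℂ), mdifferentiable_const (c := (0 : ℂ))⟩ : holoRing) = 0 := rfl
    rw [this, map_zero]
  exact merOf_injective h1

theorem merOf_congr {G H : ℍ → ℂ} (hG : MDifferentiable 𝓘(ℂ) 𝓘(ℂ) G) (e : G = H) :
    merOf G hG = merOf H (e ▸ hG) := by
  subst e
  rfl

/-! ### The analytic realisation -/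

section An

variable (hT : ModularGroup.T ∈ Γ) (hmero : DictMero Γ F)

theorem exists_pair (hmero : DictMero Γ F) (u : F) :
    ∃ p : (ℍ → ℂ) × (ℍ → ℂ), ∃ u₁ u₂ : F, u₂ ≠ 0 ∧ u * u₂ = u₁ ∧
      _root_.Fermat.Agent.S48.Kum.Realises Γ F u₁ p.1 ∧ _root_.Fermat.Agent.S48.Kum.Realises Γ F u₂ p.2 := by
  obtain ⟨u₁, u₂, G₁, G₂, h2, h, hr1, hr2⟩ := hmero u
  exact ⟨(G₁, G₂), u₁, u₂, h2, h, hr1, hr2⟩

/-- The underlying function of `an`. -/
def anFun (hmero : DictMero Γ F) (u : F) : MerH :=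
  merOf (exists_pair hmero u).choose.1
      (exists_pair hmero u).choose_spec.choose_spec.choose_spec.2.2.1.1.1 /
    merOf (exists_pair hmero u).choose.2
      (exists_pair hmero u).choose_spec.choose_spec.choose_spec.2.2.2.1.1

include hT in
/-- The defining property of `anFun`: `an u · [G₂] = [G₁]` for EVERY presentation `u = u₁/u₂`
with `u_i` realised by `G_i`. -/
theorem anFun_spec {u u₁ u₂ : F} {G₁ G₂ : ℍ → ℂ} (h2 : u₂ ≠ 0) (h : u * u₂ = u₁)
    (hr1 : _root_.Fermat.Agent.S48.Kum.Realises Γ F u₁ G₁) (hr2 : _root_.Fermat.Agent.S48.Kum.Realises Γ F u₂ G₂) :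
    anFun hmero u * merOf G₂ hr2.1.1 = merOf G₁ hr1.1.1 := by
  obtain ⟨v₁, v₂, hv2, hv, hs1, hs2⟩ := (exists_pair hmero u).choose_spec
  set H₁ := (exists_pair hmero u).choose.1
  set H₂ := (exists_pair hmero u).choose.2
  have hH2 : merOf H₂ hs2.1.1 ≠ 0 := merOf_ne_zero _ (hs2.ne_zero hT hv2)
  -- `u₁ v₂ = v₁ u₂`
  have e : u₁ * v₂ = v₁ * u₂ := by rw [← h, ← hv]; ring
  have hfun : G₁ * H₂ = H₁ * G₂ := by
    have r1 := hr1.mul hT hs2
    have r2 := hs1.mul hT hr2
    rw [e] at r1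
    exact r1.unique_right hT r2
  have hmer : merOf G₁ hr1.1.1 * merOf H₂ hs2.1.1 = merOf H₁ hs1.1.1 * merOf G₂ hr2.1.1 := by
    rw [← merOf_mul, ← merOf_mul]
    exact merOf_congr _ hfun
  show merOf H₁ _ / merOf H₂ _ * merOf G₂ hr2.1.1 = merOf G₁ hr1.1.1
  rw [div_mul_eq_mul_div, div_eq_iff hH2, ← hmer]

include hT in
theorem anFun_mul (u v : F) : anFun hmero (u * v) = anFun hmero u * anFun hmero v := by
  obtain ⟨u₁, u₂, G₁, G₂, hu2, hu, hr1, hr2⟩ := hmero u
  obtain ⟨v₁, v₂, H₁, H₂, hv2, hv, hs1, hs2⟩ := hmero v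
  have h1 := anFun_spec hT hmero hu2 hu hr1 hr2
  have h2 := anFun_spec hT hmero hv2 hv hs1 hs2
  have e : u * v * (u₂ * v₂) = u₁ * v₁ := by rw [← hu, ← hv]; ring
  have h3 := anFun_spec hT hmero (mul_ne_zero hu2 hv2) e (hr1.mul hT hs1) (hr2.mul hT hs2)
  have hG2 : merOf G₂ hr2.1.1 ≠ 0 := merOf_ne_zero _ (hr2.ne_zero hT hu2)
  have hH2 : merOf H₂ hs2.1.1 ≠ 0 := merOf_ne_zero _ (hs2.ne_zero hT hv2)
  have h3' : anFun hmero (u * v) * (merOf G₂ hr2.1.1 * merOf H₂ hs2.1.1)
      = merOf G₁ hr1.1.1 * merOf H₁ hs1.1.1 := by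
    rw [← merOf_mul, ← merOf_mul]
    exact h3
  apply mul_right_cancel₀ (mul_ne_zero hG2 hH2)
  rw [h3', ← h1, ← h2]
  ring

include hT in
theorem anFun_add (u v : F) : anFun hmero (u + v) = anFun hmero u + anFun hmero v := by
  obtain ⟨u₁, u₂, G₁, G₂, hu2, hu, hr1, hr2⟩ := hmero u
  obtain ⟨v₁, v₂, H₁, H₂, hv2, hv, hs1, hs2⟩ := hmero v
  have h1 := anFun_spec hT hmero hu2 hu hr1 hr2
  have h2 := anFun_spec hT hmero hv2 hv hs1 hs2
  have e : (u + v) * (u₂ * v₂) = u₁ * v₂ + v₁ * u₂ := by rw [← hu, ← hv]; ring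
  have h3 := anFun_spec hT hmero (mul_ne_zero hu2 hv2) e
    ((hr1.mul hT hs2).add hT (hs1.mul hT hr2)) (hr2.mul hT hs2)
  have hG2 : merOf G₂ hr2.1.1 ≠ 0 := merOf_ne_zero _ (hr2.ne_zero hT hu2)
  have hH2 : merOf H₂ hs2.1.1 ≠ 0 := merOf_ne_zero _ (hs2.ne_zero hT hv2)
  have h3' : anFun hmero (u + v) * (merOf G₂ hr2.1.1 * merOf H₂ hs2.1.1)
      = merOf G₁ hr1.1.1 * merOf H₂ hs2.1.1 + merOf H₁ hs1.1.1 * merOf G₂ hr2.1.1 := by
    rw [← merOf_mul, ← merOf_mul, ← merOf_mul, ← merOf_add]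
    exact h3
  apply mul_right_cancel₀ (mul_ne_zero hG2 hH2)
  rw [h3', ← h1, ← h2]
  ring

include hT in
theorem anFun_of_realises {u : F} {G : ℍ → ℂ} (hu : _root_.Fermat.Agent.S48.Kum.Realises Γ F u G) :
    anFun hmero u = merOf G hu.1.1 := by
  have h := anFun_spec hT hmero (one_ne_zero) (mul_one u) hu (realises_one Γ F)
  have h1 : merOf (fun _ : ℍ => (1 : ℂ)) (realises_one Γ F).1.1 = 1 := by
    unfold merOf
    have : (⟨fun _ : ℍ => (1 : ℂ), (realises_one Γ F).1.1⟩ : holoRing) = 1 := rfl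
    rw [this, map_one]
  rwa [h1, mul_one] at h

/-- **The analytic realisation** `F →+* MerH`. -/
def an : F →+* MerH where
  toFun := anFun hmero
  map_one' := by
    rw [anFun_of_realises hT hmero (realises_one Γ F)]
    unfold merOf
    have : (⟨fun _ : ℍ => (1 : ℂ), (realises_one Γ F).1.1⟩ : holoRing) = 1 := rfl
    rw [this, map_one]
  map_mul' := anFun_mul hT hmero
  map_zero' := by
    rw [anFun_of_realises hT hmero (realises_zero Γ F)]
    unfold merOf
    have : (⟨fun _ : ℍ => (0 : ℂ), (realises_zero Γ F).1.1⟩ : holoRing) = 0 := rfl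
    rw [this, map_zero]
  map_add' := anFun_add hT hmero

theorem an_injective : Function.Injective (an hT hmero) := (an hT hmero).injective

/-- **Realised ⟹ analytic.** -/
theorem an_eq_of_realises {u : F} {G : ℍ → ℂ} (hu : _root_.Fermat.Agent.S48.Kum.Realises Γ F u G) :
    an hT hmero u = merOf G hu.1.1 :=
  anFun_of_realises hT hmero hu

/-- **Analytic ⟹ realised.** -/
theorem realises_of_an_eq {u : F} {G : ℍ → ℂ} (hG : IsGood Γ G)
    (h : an hT hmero u = merOf G hG.1) : _root_.Fermat.Agent.S48.Kum.Realises Γ F u G := by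
  obtain ⟨u₁, u₂, G₁, G₂, hu2, hu, hr1, hr2⟩ := hmero u
  have h1 : an hT hmero u * merOf G₂ hr2.1.1 = merOf G₁ hr1.1.1 :=
    anFun_spec hT hmero hu2 hu hr1 hr2
  rw [h, ← merOf_mul] at h1
  have hfun : G * G₂ = G₁ := merOf_injective h1
  -- compare `q`-expansions
  have hQ := hG.hasQExp hT
  have hQ2 := hr2.hasQExp hT
  have hQ1 := hr1.hasQExp hT
  have hprod := hQ.mul hQ2
  rw [hfun] at hprod
  have e1 := hprod.unique hQ1
  have hι2 : coeffMap Deg457.iotaC ((u₂ : F) : LaurentSeries Kbar) ≠ 0 := by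
    intro h0
    apply hu2
    apply Subtype.ext
    exact coeffMap_iotaC_injective (h0.trans (map_zero _).symm)
  refine ⟨hG, ?_⟩
  apply mul_right_cancel₀ hι2
  rw [e1, ← map_mul]
  congr 1
  exact (congrArg (fun f : F => (f : LaurentSeries Kbar)) hu).symm

end An

end Fermat.Agent.S48.Kum

end
end
-- ===== PACK-END S48/Kum/An.lean

-- ===== PACK-BEGIN S48/Kum/Mero.lean
section
/-
Tower A1 / A1-KUM (helper822): `DictMero` is a FIELD-CLOSURE property, GENERIC.

`IsMero Γ F u` : `u ∈ F` is a quotient of two realised elements.  The `IsMero` elements form an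
intermediate field `meroField hT ≤ F`; hence `DictMero Γ F` holds as soon as `F` is generated
(as a field, over `ℚ̄`) by `IsMero` elements (`dictMero_of_le`, `dictMero_of_adjoin`).
-/


set_option autoImplicit false

noncomputable section

open ModularCurve AlgebraicCurve UpperHalfPlane
open scoped MatrixGroups Manifold

namespace Fermat.Agent.S48.Kum

open Fermat.Agent.S24 Fermat.Agent.S29

variable {Γ : Subgroup SL(2, ℤ)} {F : KF}

/-- `u ∈ F` is a quotient of two realised elements. -/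
def IsMero (Γ : Subgroup SL(2, ℤ)) (F : KF) (u : F) : Prop :=
  ∃ (u₁ u₂ : F) (G₁ G₂ : ℍ → ℂ), u₂ ≠ 0 ∧ u * u₂ = u₁ ∧
    Realises Γ F u₁ G₁ ∧ Realises Γ F u₂ G₂

theorem dictMero_iff : DictMero Γ F ↔ ∀ u : F, IsMero Γ F u := Iff.rfl

theorem IsMero.of_realises {u : F} {G : ℍ → ℂ} (h : Realises Γ F u G) : IsMero Γ F u :=
  ⟨u, 1, G, fun _ => 1, one_ne_zero, mul_one u, h, realises_one Γ F⟩

theorem isMero_algebraMap (Γ : Subgroup SL(2, ℤ)) (F : KF) (c : Kbar) :
    IsMero Γ F (algebraMap Kbar F c) :=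
  IsMero.of_realises (realises_algebraMap Γ F c)

theorem IsMero.mul (hT : ModularGroup.T ∈ Γ) {u v : F} (hu : IsMero Γ F u)
    (hv : IsMero Γ F v) : IsMero Γ F (u * v) := by
  obtain ⟨u₁, u₂, G₁, G₂, h2, h, r1, r2⟩ := hu
  obtain ⟨v₁, v₂, H₁, H₂, k2, k, s1, s2⟩ := hv
  refine ⟨u₁ * v₁, u₂ * v₂, _, _, mul_ne_zero h2 k2, ?_, r1.mul hT s1, r2.mul hT s2⟩
  rw [← h, ← k]
  ring

theorem IsMero.add (hT : ModularGroup.T ∈ Γ) {u v : F} (hu : IsMero Γ F u)
    (hv : IsMero Γ F v) : IsMero Γ F (u + v) := by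
  obtain ⟨u₁, u₂, G₁, G₂, h2, h, r1, r2⟩ := hu
  obtain ⟨v₁, v₂, H₁, H₂, k2, k, s1, s2⟩ := hv
  refine ⟨u₁ * v₂ + v₁ * u₂, u₂ * v₂, _, _, mul_ne_zero h2 k2, ?_,
    (r1.mul hT s2).add hT (s1.mul hT r2), r2.mul hT s2⟩
  rw [← h, ← k]
  ring

theorem IsMero.neg (hT : ModularGroup.T ∈ Γ) {u : F} (hu : IsMero Γ F u) :
    IsMero Γ F (-u) := by
  have h := (isMero_algebraMap Γ F (-1)).mul hT hu
  rwa [map_neg, map_one, neg_one_mul] at h

theorem IsMero.inv {u : F} (hu : IsMero Γ F u) : IsMero Γ F u⁻¹ := by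
  obtain ⟨u₁, u₂, G₁, G₂, h2, h, r1, r2⟩ := hu
  by_cases h0 : u = 0
  · rw [h0, inv_zero]
    exact IsMero.of_realises (realises_zero Γ F)
  · have h1 : u₁ ≠ 0 := by
      rw [← h]
      exact mul_ne_zero h0 h2
    refine ⟨u₂, u₁, G₂, G₁, h1, ?_, r2, r1⟩
    rw [← h]
    field_simp

/-- `IsMero` only depends on the underlying Laurent series. -/
theorem IsMero.congr {u v : F} (hu : IsMero Γ F u) (e : (u : LaurentSeries Kbar) = v) :
    IsMero Γ F v := by
  have : u = v := Subtype.ext e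
  rwa [← this]

/-- The field of `IsMero` elements. -/
def meroField (hT : ModularGroup.T ∈ Γ) (F : KF) : KF where
  carrier := {x | ∃ h : x ∈ F, IsMero Γ F ⟨x, h⟩}
  mul_mem' := by
    rintro x y ⟨hx, mx⟩ ⟨hy, my⟩
    exact ⟨mul_mem hx hy, (mx.mul hT my).congr rfl⟩
  one_mem' := ⟨one_mem F, (IsMero.of_realises (realises_one Γ F)).congr rfl⟩
  add_mem' := by
    rintro x y ⟨hx, mx⟩ ⟨hy, my⟩
    exact ⟨add_mem hx hy, (mx.add hT my).congr rfl⟩
  zero_mem' := ⟨zero_mem F, (IsMero.of_realises (realises_zero Γ F)).congr rfl⟩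
  algebraMap_mem' c := ⟨F.algebraMap_mem c, (isMero_algebraMap Γ F c).congr rfl⟩
  inv_mem' := by
    rintro x ⟨hx, mx⟩
    exact ⟨inv_mem hx, mx.inv.congr rfl⟩

theorem mem_meroField (hT : ModularGroup.T ∈ Γ) {x : LaurentSeries Kbar} :
    x ∈ meroField hT F ↔ ∃ h : x ∈ F, IsMero Γ F ⟨x, h⟩ := Iff.rfl

theorem meroField_le (hT : ModularGroup.T ∈ Γ) : meroField hT F ≤ F := fun _ hx => hx.1

/-- `DictMero` from `F ≤ meroField`. -/
theorem dictMero_of_le (hT : ModularGroup.T ∈ Γ) (h : F ≤ meroField hT F) : DictMero Γ F := by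
  intro u
  obtain ⟨_, hu⟩ := h u.2
  exact hu

theorem le_meroField_of_dictMero (hT : ModularGroup.T ∈ Γ) (h : DictMero Γ F) :
    F ≤ meroField hT F := fun x hx => ⟨hx, h ⟨x, hx⟩⟩

/-- A realised Laurent series of `F` lies in `meroField`. -/
theorem mem_meroField_of_realises (hT : ModularGroup.T ∈ Γ) {u : F} {G : ℍ → ℂ}
    (h : Realises Γ F u G) : (u : LaurentSeries Kbar) ∈ meroField hT F :=
  ⟨u.2, IsMero.of_realises h⟩

/-- Transport of realisations along an inclusion of groups and a map of fields which is the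
identity on Laurent series. -/
theorem Realises.transport {Γ' : Subgroup SL(2, ℤ)} {F' : KF} (hle : Γ' ≤ Γ) {u : F} {G : ℍ → ℂ}
    (h : Realises Γ F u G) (u' : F') (e : (u' : LaurentSeries Kbar) = u) :
    Realises Γ' F' u' G :=
  ⟨h.1.mono hle, by rw [e]; exact h.2⟩

end Fermat.Agent.S48.Kum

end
end
-- ===== PACK-END S48/Kum/Mero.lean

-- ===== PACK-BEGIN S48/Kum/Norm.lean
section
/-
Tower A1 / A1-KUM (helper822): the ANALYTIC NORM FORMULA, GENERIC.

`normAn_of_embeddings`: let `Γ' ≤ Γ`, `F`, `F'` function fields with `DictMero`, `ψ φ : F → F'`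
(`ψ` "the inclusion", `φ` "`q ↦ q^p`") compatible with realisations (`ψ u` realised by `G`, `φ u` by
`G ∘ B`), `γ x ∈ Γ` (`x : I`) coset representatives with `|I| = [F' : F]` which are separated by
one realised element of `F'`, and `A x` matrices with `G ∘ (B γ_x) = G ∘ A x` for good `G`.
Then  `G realises u  ⟹  ∏ₓ G ∘ A x realises Norm_ψ (φ u)`   (provided the product is good).

(Generic version of `S29.H452.an_normAlong_beta` + `S29.M4b.H822.realises_heckeNorm`.)
-/



set_option autoImplicit false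
set_option linter.style.haveILetI false

noncomputable section

open ModularCurve AlgebraicCurve UpperHalfPlane
open scoped MatrixGroups Manifold

namespace Fermat.Agent.S48.Kum

open Fermat.Agent.S24 Fermat.Agent.S24.H624 Fermat.Agent.S29 Fermat.Agent.S29.M4b
  Fermat.Agent.S29.M4b.H822 Fermat.Agent.S29.H452 Matrix.SpecialLinearGroup

variable {Γ Γ' : Subgroup SL(2, ℤ)} {F F' : KF}

/-- Two ring homs out of `F` into a field which agree on realised elements are equal. -/
theorem ringHom_ext_of_realised (hT : ModularGroup.T ∈ Γ) (hmero : DictMero Γ F)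
    {L : Type*} [Field L] (f g : F →+* L)
    (h : ∀ (u : F) (G : ℍ → ℂ), _root_.Fermat.Agent.S48.Kum.Realises Γ F u G → f u = g u) : f = g := by
  ext u
  obtain ⟨u₁, u₂, G₁, G₂, hu2, hu, hr1, hr2⟩ := hmero u
  have h1 := h u₁ G₁ hr1
  have h2 := h u₂ G₂ hr2
  have hf2 : f u₂ ≠ 0 := (map_ne_zero f).mpr hu2
  apply mul_right_cancel₀ hf2
  rw [← map_mul, hu, h1, h2, ← map_mul, hu]

theorem merGL_merOf (g : GL (Fin 2) ℝ) (hg : 0 < g.det.val) (G : ℍ → ℂ)
    (hG : MDifferentiable 𝓘(ℂ) 𝓘(ℂ) G) :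
    merGL g hg (merOf G hG) = merOf (fun τ => G (g • τ)) (hG.comp (mdifferentiable_smul hg)) := by
  unfold merOf
  rw [merGL_algebraMap]
  rfl

theorem merOf_prod {I : Type*} [Fintype I] (G : I → ℍ → ℂ)
    (hG : ∀ i, MDifferentiable 𝓘(ℂ) 𝓘(ℂ) (G i))
    (hP : MDifferentiable 𝓘(ℂ) 𝓘(ℂ) (fun τ => ∏ i, G i τ)) :
    merOf (fun τ => ∏ i, G i τ) hP = ∏ i, merOf (G i) (hG i) := by
  unfold merOf
  rw [← map_prod]
  congr 1
  apply Subtype.ext
  funext τ
  rw [SubmonoidClass.coe_finset_prod, Finset.prod_apply]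

instance charZero_KF (F : KF) : CharZero F :=
  charZero_of_injective_algebraMap (algebraMap Kbar F).injective

/-- **The analytic norm formula (generic).** -/
theorem normAn_of_embeddings (hT' : ModularGroup.T ∈ Γ') (hle : Γ' ≤ Γ)
    (hmero : DictMero Γ F) (hmero' : DictMero Γ' F')
    (φ ψ : F →ₐ[Kbar] F')
    (hψ : ∀ (u : F) (G : ℍ → ℂ), _root_.Fermat.Agent.S48.Kum.Realises Γ F u G → _root_.Fermat.Agent.S48.Kum.Realises Γ' F' (ψ u) G)
    (B : GL (Fin 2) ℝ) (hB : 0 < B.det.val)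
    (hφ : ∀ (u : F) (G : ℍ → ℂ), _root_.Fermat.Agent.S48.Kum.Realises Γ F u G →
      _root_.Fermat.Agent.S48.Kum.Realises Γ' F' (φ u) (fun τ => G (B • τ)))
    {I : Type*} [Fintype I] [Nonempty I] (γ : I → SL(2, ℤ)) (hγ : ∀ x, γ x ∈ Γ)
    (A : I → GL (Fin 2) ℝ)
    (hA : ∀ (x : I) (G : ℍ → ℂ), IsGood Γ G → ∀ τ : ℍ, G (B • (γ x • τ)) = G (A x • τ))
    (hcard : Fintype.card I = (letI := algebraAlong ψ; Module.finrank F F'))
    (hdist : ∃ (w : F') (W : ℍ → ℂ), _root_.Fermat.Agent.S48.Kum.Realises Γ' F' w W ∧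
      ∀ x y : I, (∀ τ : ℍ, W (γ x • τ) = W (γ y • τ)) → x = y)
    (hgood : ∀ G : ℍ → ℂ, IsGood Γ G → IsGood Γ (fun τ => ∏ x, G (A x • τ)))
    (u : F) (G : ℍ → ℂ) (hu : _root_.Fermat.Agent.S48.Kum.Realises Γ F u G) :
    _root_.Fermat.Agent.S48.Kum.Realises Γ F (H455.normAlong ψ (φ u)) (fun τ => ∏ x, G (A x • τ)) := by
  classical
  have hT : ModularGroup.T ∈ Γ := hle hT'
  letI := algebraAlong ψ
  have hdetγ : ∀ x, 0 < (mapGL ℝ (γ x) : GL (Fin 2) ℝ).det.val := fun x => det_coe_SL_pos (γ x)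
  -- the embeddings
  let τ : I → (F' →+* MerH) := fun x =>
    ((merGL (mapGL ℝ (γ x)) (hdetγ x) : MerH ≃+* MerH) : MerH →+* MerH).comp (an hT' hmero')
  have hτ_real : ∀ (x : I) (w : F') (W : ℍ → ℂ) (hw : _root_.Fermat.Agent.S48.Kum.Realises Γ' F' w W),
      τ x w = merOf (fun t => W (γ x • t))
        (hw.1.1.comp (mdifferentiable_smul (hdetγ x))) := by
    intro x w W hw
    show merGL _ _ (an hT' hmero' w) = _
    rw [an_eq_of_realises hT' hmero' hw, merGL_merOf]
    rfl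
  have hτ : ∀ x, (τ x).comp (algebraMap F F') = an hT hmero := by
    intro x
    apply ringHom_ext_of_realised hT hmero
    intro v V hv
    show τ x (ψ v) = _
    rw [hτ_real x (ψ v) V (hψ v V hv), an_eq_of_realises hT hmero hv]
    apply merOf_congr
    funext t
    exact hv.1.2.1 _ (hγ x) t
  have hinj : Function.Injective τ := by
    intro x y hxy
    obtain ⟨w, W, hw, hsep⟩ := hdist
    apply hsep
    have h1 := RingHom.congr_fun hxy w
    rw [hτ_real x w W hw, hτ_real y w W hw] at h1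
    exact fun t => congrFun (merOf_injective h1) t
  have hfd : FiniteDimensional F F' := by
    apply Module.finite_of_finrank_pos
    rw [← hcard]
    exact Fintype.card_pos
  have hsep : Algebra.IsSeparable F F' := Algebra.IsSeparable.of_integral F F'
  have key := H455.norm_eq_prod_of_injective (an hT hmero) τ hτ hinj hcard (φ u)
  have hP := hgood G hu.1
  have hmd : ∀ x : I, MDifferentiable 𝓘(ℂ) 𝓘(ℂ) (fun t : ℍ => G (A x • t)) := by
    intro x
    have h1 : MDifferentiable 𝓘(ℂ) 𝓘(ℂ) (fun t : ℍ => G (B • (γ x • t))) :=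
      (hu.1.1.comp (mdifferentiable_smul hB)).comp (mdifferentiable_smul (hdetγ x))
    have e : (fun t : ℍ => G (A x • t)) = fun t : ℍ => G (B • (γ x • t)) :=
      funext fun t => (hA x G hu.1 t).symm
    rw [e]
    exact h1
  refine realises_of_an_eq hT hmero hP ?_
  show an hT hmero (Algebra.norm F (φ u)) = _
  rw [key, merOf_prod (fun x t => G (A x • t)) hmd hP.1]
  refine Finset.prod_congr rfl fun x _ => ?_
  rw [hτ_real x (φ u) _ (hφ u G hu)]
  apply merOf_congr
  funext t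
  exact hA x G hu.1 t

end Fermat.Agent.S48.Kum

end
end
-- ===== PACK-END S48/Kum/Norm.lean

-- ===== PACK-BEGIN S29/M4b/H822/HeckeAct.lean
section
/-
S29 / M4b / K4-HECKE (helper822): the Möbius maps of the Hecke representatives
`heckeRep ℓ i` (`DefsM`) on `ℍ`, and the action identity coming from a Hecke factorisation
`heckeRep ℓ i * γ = δ * heckeRep ℓ j`.
-/



set_option autoImplicit false

noncomputable section

open ModularCurve AlgebraicCurve CongruenceSubgroup UpperHalfPlane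
open scoped MatrixGroups Manifold

namespace Fermat.Agent.S29.M4b.H822

open Fermat.Agent.S24 Fermat.Agent.S29 Fermat.Agent.S29.M4b

/-- The matrix identity `[[a,b],[0,d]]·γ = γ'·[[a',b'],[0,d']]` on the level of `ℍ`. -/
theorem infAff_smul_eq_gen {a d a' d' : ℕ} {b b' : ℤ} (ha : 0 < a) (hd : 0 < d) (ha' : 0 < a')
    (hd' : 0 < d') (γ γ' : SL(2, ℤ))
    (h00 : (a : ℤ) * γ 0 0 + b * γ 1 0 = γ' 0 0 * a')
    (h01 : (a : ℤ) * γ 0 1 + b * γ 1 1 = γ' 0 0 * b' + γ' 0 1 * d')
    (h10 : (d : ℤ) * γ 1 0 = γ' 1 0 * a')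
    (h11 : (d : ℤ) * γ 1 1 = γ' 1 0 * b' + γ' 1 1 * d') (τ : ℍ) :
    infAff a b d (γ • τ) = γ' • infAff a' b' d' τ := by
  apply UpperHalfPlane.ext
  rw [infAff_coe ha hd, inf_sl_smul_coe γ' (infAff a' b' d' τ), infAff_coe ha' hd',
    inf_sl_smul_coe γ τ]
  have hden := inf_sl_denom_ne_zero γ τ
  have hden' := inf_sl_denom_ne_zero γ' (infAff a' b' d' τ)
  rw [infAff_coe ha' hd'] at hden'
  have hd0 : (d : ℂ) ≠ 0 := by exact_mod_cast hd.ne'
  have hd'0 : (d' : ℂ) ≠ 0 := by exact_mod_cast hd'.ne'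
  have e00 : (a : ℂ) * ((γ 0 0 : ℤ) : ℂ) + (b : ℂ) * ((γ 1 0 : ℤ) : ℂ)
      = ((γ' 0 0 : ℤ) : ℂ) * a' := by exact_mod_cast h00
  have e01 : (a : ℂ) * ((γ 0 1 : ℤ) : ℂ) + (b : ℂ) * ((γ 1 1 : ℤ) : ℂ)
      = ((γ' 0 0 : ℤ) : ℂ) * b' + ((γ' 0 1 : ℤ) : ℂ) * d' := by exact_mod_cast h01
  have e10 : (d : ℂ) * ((γ 1 0 : ℤ) : ℂ) = ((γ' 1 0 : ℤ) : ℂ) * a' := by exact_mod_cast h10
  have e11 : (d : ℂ) * ((γ 1 1 : ℤ) : ℂ) = ((γ' 1 0 : ℤ) : ℂ) * b' + ((γ' 1 1 : ℤ) : ℂ) * d' := by
    exact_mod_cast h11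
  have hden'' : ((γ' 1 0 : ℤ) : ℂ) * (((a' : ℂ) * τ + b') / d') + ((γ' 1 1 : ℤ) : ℂ) =
      ((d : ℂ) * (((γ 1 0 : ℤ) : ℂ) * τ + ((γ 1 1 : ℤ) : ℂ))) / d' := by
    rw [mul_add, ← mul_assoc, e10, e11]
    field_simp
    ring
  have hnum : ((γ' 0 0 : ℤ) : ℂ) * (((a' : ℂ) * τ + b') / d') + ((γ' 0 1 : ℤ) : ℂ) =
      ((a : ℂ) * (((γ 0 0 : ℤ) : ℂ) * τ + ((γ 0 1 : ℤ) : ℂ))
        + (b : ℂ) * (((γ 1 0 : ℤ) : ℂ) * τ + ((γ 1 1 : ℤ) : ℂ))) / d' := by
    have : (a : ℂ) * (((γ 0 0 : ℤ) : ℂ) * τ + ((γ 0 1 : ℤ) : ℂ))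
        + (b : ℂ) * (((γ 1 0 : ℤ) : ℂ) * τ + ((γ 1 1 : ℤ) : ℂ))
        = ((a : ℂ) * ((γ 0 0 : ℤ) : ℂ) + (b : ℂ) * ((γ 1 0 : ℤ) : ℂ)) * τ
          + ((a : ℂ) * ((γ 0 1 : ℤ) : ℂ) + (b : ℂ) * ((γ 1 1 : ℤ) : ℂ)) := by ring
    rw [this, e00, e01]
    field_simp
    ring
  rw [hnum, hden'']
  generalize ((γ 0 0 : ℤ) : ℂ) * τ + ((γ 0 1 : ℤ) : ℂ) = X
  generalize ((γ 1 0 : ℤ) : ℂ) * τ + ((γ 1 1 : ℤ) : ℂ) = Y at hden
  field_simp

/-- The Möbius map of the Hecke representative `heckeRep ℓ i`: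
`none ↦ (τ ↦ ℓ τ)`, `some b ↦ (τ ↦ (τ + b) / ℓ)`. -/
def hAct (ℓ : ℕ) : Option (Fin ℓ) → ℍ → ℍ
  | none => infAff ℓ 0 1
  | some b => infAff 1 ((b : ℕ) : ℤ) ℓ

/-- The entries of `heckeRep ℓ i` as an upper triangular matrix `[[a, b], [0, d]]`. -/
def hA (ℓ : ℕ) : Option (Fin ℓ) → ℕ
  | none => ℓ
  | some _ => 1

def hB (ℓ : ℕ) : Option (Fin ℓ) → ℤ
  | none => 0
  | some b => ((b : ℕ) : ℤ)

def hD (ℓ : ℕ) : Option (Fin ℓ) → ℕ
  | none => 1
  | some _ => ℓ

theorem hAct_eq (ℓ : ℕ) (i : Option (Fin ℓ)) : hAct ℓ i = infAff (hA ℓ i) (hB ℓ i) (hD ℓ i) := by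
  cases i <;> rfl

theorem heckeRep_eq (ℓ : ℕ) (i : Option (Fin ℓ)) :
    heckeRep ℓ i = !![(hA ℓ i : ℤ), hB ℓ i; 0, (hD ℓ i : ℤ)] := by
  cases i <;> simp [heckeRep, hA, hB, hD]

theorem hA_pos {ℓ : ℕ} (hℓ : 0 < ℓ) (i : Option (Fin ℓ)) : 0 < hA ℓ i := by
  cases i <;> simp [hA, hℓ]

theorem hD_pos {ℓ : ℕ} (hℓ : 0 < ℓ) (i : Option (Fin ℓ)) : 0 < hD ℓ i := by
  cases i <;> simp [hD, hℓ]

theorem hA_mul_hD (ℓ : ℕ) (i : Option (Fin ℓ)) : hA ℓ i * hD ℓ i = ℓ := by
  cases i <;> simp [hA, hD]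

/-- **Action identity**: a Hecke factorisation `heckeRep ℓ i * γ = δ * heckeRep ℓ j` gives
`α_i (γ τ) = δ (α_j τ)` on `ℍ`. -/
theorem hAct_smul_of_factor {N ℓ : ℕ} (hℓ : 0 < ℓ) {γ : G0 N} {i j : Option (Fin ℓ)} {δ : G0 N}
    (h : IsHeckeFactor ℓ γ i (j, δ)) (τ : ℍ) :
    hAct ℓ i ((γ : SL(2, ℤ)) • τ) = (δ : SL(2, ℤ)) • hAct ℓ j τ := by
  rw [hAct_eq, hAct_eq]
  unfold IsHeckeFactor at h
  rw [heckeRep_eq, heckeRep_eq] at h
  simp only [G0.mat] at h
  have e00 := congrFun (congrFun h 0) 0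
  have e01 := congrFun (congrFun h 0) 1
  have e10 := congrFun (congrFun h 1) 0
  have e11 := congrFun (congrFun h 1) 1
  simp only [Matrix.mul_apply, Fin.sum_univ_two, Matrix.of_apply, Matrix.cons_val_zero,
    Matrix.cons_val_one, Matrix.cons_val', Matrix.cons_val_fin_one, zero_mul, mul_zero,
    zero_add, add_zero] at e00 e01 e10 e11
  exact infAff_smul_eq_gen (hA_pos hℓ i) (hD_pos hℓ i) (hA_pos hℓ j) (hD_pos hℓ j) _ _
    e00 e01 e10 e11 τ

end Fermat.Agent.S29.M4b.H822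

end
end
-- ===== PACK-END S29/M4b/H822/HeckeAct.lean

-- ===== PACK-BEGIN S29/M4b/H822/HeckeProd.lean
section
/-
S29 / M4b / K4-HECKE (helper822): the Hecke product `∏ᵢ G ∘ αᵢ` of a function on `ℍ`
(`αᵢ` = the Möbius maps of the Hecke representatives): holomorphy, character, invariance,
growth at all cusps (S24 `Inf` toolkit: Hermite normal form + affine substitution).
-/





set_option autoImplicit false
set_option linter.unusedSectionVars false

noncomputable section

open ModularCurve AlgebraicCurve CongruenceSubgroup UpperHalfPlane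
open scoped MatrixGroups Manifold

namespace Fermat.Agent.S29.M4b.H822

open Fermat.Agent.S24 Fermat.Agent.S24.H997 Fermat.Agent.S24.H648 Fermat.Agent.S29
  Fermat.Agent.S29.M4b

/-- The Hecke product `τ ↦ ∏ᵢ G (αᵢ τ)`. -/
def heckeProd (ℓ : ℕ) (G : ℍ → ℂ) : ℍ → ℂ := fun τ => ∏ i : Option (Fin ℓ), G (hAct ℓ i τ)

theorem heckeProd_apply (ℓ : ℕ) (G : ℍ → ℂ) (τ : ℍ) :
    heckeProd ℓ G τ = ∏ i : Option (Fin ℓ), G (hAct ℓ i τ) := rfl

theorem heckeProd_pow (ℓ : ℕ) (G : ℍ → ℂ) (n : ℕ) :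
    heckeProd ℓ (fun τ => G τ ^ n) = fun τ => heckeProd ℓ G τ ^ n := by
  funext τ
  simp only [heckeProd_apply]
  rw [Finset.prod_pow]

theorem mdiff_comp_hAct {ℓ : ℕ} (hℓ : 0 < ℓ) {G : ℍ → ℂ} (hG : MDifferentiable 𝓘(ℂ) 𝓘(ℂ) G)
    (i : Option (Fin ℓ)) : MDifferentiable 𝓘(ℂ) 𝓘(ℂ) (fun τ => G (hAct ℓ i τ)) := by
  rw [hAct_eq]
  exact H564.mdiff_comp_infAff hG (hA_pos hℓ i) (hD_pos hℓ i) _

theorem mdiff_heckeProd {ℓ : ℕ} (hℓ : 0 < ℓ) {G : ℍ → ℂ} (hG : MDifferentiable 𝓘(ℂ) 𝓘(ℂ) G) :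
    MDifferentiable 𝓘(ℂ) 𝓘(ℂ) (heckeProd ℓ G) := by
  have h : heckeProd ℓ G = ∏ i : Option (Fin ℓ), (fun τ => G (hAct ℓ i τ)) := by
    funext τ
    rw [heckeProd_apply, Finset.prod_apply]
  rw [h]
  exact MDifferentiable.prod fun i _ => mdiff_comp_hAct hℓ hG i

/-! ### Characters -/

theorem zetaP_pow_val_sum (p : ℕ) [NeZero p] {ι : Type*} (s : Finset ι) (a : ι → ZMod p) :
    zetaP p ^ (∑ i ∈ s, a i).val = ∏ i ∈ s, zetaP p ^ (a i).val := by
  classical
  induction s using Finset.induction_on with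
  | empty => simp
  | insert x s hx ih => rw [Finset.sum_insert hx, Finset.prod_insert hx, zetaP_pow_val_add, ih]

/-- **Character of the Hecke product**: if `U` has character `c` and `αᵢ γ = δᵢ α_{π i}` with
`π` a permutation, then `(∏ᵢ U ∘ αᵢ)(γ τ) = ζ ^ (∑ᵢ c δᵢ) · (∏ᵢ U ∘ αᵢ)(τ)`. -/
theorem heckeProd_smul {N p ℓ : ℕ} [NeZero p] (hℓ : 0 < ℓ) {c : G0 N → ZMod p} {U : ℍ → ℂ}
    (hU : HasChar N p c U) (γ : G0 N) (π : Equiv.Perm (Option (Fin ℓ)))
    (δ : Option (Fin ℓ) → G0 N) (hfac : ∀ i, IsHeckeFactor ℓ γ i (π i, δ i)) (τ : ℍ) :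
    heckeProd ℓ U ((γ : SL(2, ℤ)) • τ) = zetaP p ^ (∑ i, c (δ i)).val * heckeProd ℓ U τ := by
  rw [heckeProd_apply, heckeProd_apply, zetaP_pow_val_sum]
  have h1 : ∀ i : Option (Fin ℓ), U (hAct ℓ i ((γ : SL(2, ℤ)) • τ))
      = zetaP p ^ (c (δ i)).val * U (hAct ℓ (π i) τ) := by
    intro i
    rw [hAct_smul_of_factor hℓ (hfac i) τ]
    exact hU (δ i) _
  rw [Finset.prod_congr rfl fun i _ => h1 i, Finset.prod_mul_distrib]
  congr 1
  exact Equiv.prod_comp π fun j => U (hAct ℓ j τ)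

theorem hasChar_heckeProd {N p ℓ : ℕ} [NeZero p] (hℓ : 0 < ℓ) {c c' : G0 N → ZMod p} {U : ℍ → ℂ}
    (hU : HasChar N p c U)
    (hfac : ∀ γ : G0 N, ∃ (π : Equiv.Perm (Option (Fin ℓ))) (δ : Option (Fin ℓ) → G0 N),
      ∀ i, IsHeckeFactor ℓ γ i (π i, δ i))
    (hcc' : IsTransfer N ℓ c c') : HasChar N p c' (heckeProd ℓ U) := by
  intro γ τ
  obtain ⟨π, δ, h⟩ := hfac γ
  rw [heckeProd_smul hℓ hU γ π δ h τ, hcc' γ π δ h]

/-- Invariance of the Hecke product of a `Γ₀(N)`-invariant function. -/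
theorem heckeProd_invariant {N ℓ : ℕ} (hℓ : 0 < ℓ) {G : ℍ → ℂ}
    (hG : ∀ γ ∈ Gamma0 N, ∀ τ : ℍ, G (γ • τ) = G τ)
    (hfac : ∀ γ : G0 N, ∃ (π : Equiv.Perm (Option (Fin ℓ))) (δ : Option (Fin ℓ) → G0 N),
      ∀ i, IsHeckeFactor ℓ γ i (π i, δ i)) :
    ∀ γ ∈ Gamma0 N, ∀ τ : ℍ, heckeProd ℓ G (γ • τ) = heckeProd ℓ G τ := by
  intro γ hγ τ
  obtain ⟨π, δ, h⟩ := hfac ⟨γ, hγ⟩
  rw [heckeProd_apply, heckeProd_apply]
  have h1 : ∀ i : Option (Fin ℓ), G (hAct ℓ i (γ • τ)) = G (hAct ℓ (π i) τ) := by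
    intro i
    have := hAct_smul_of_factor hℓ (h i) τ
    rw [show (((⟨γ, hγ⟩ : G0 N) : SL(2, ℤ))) = γ from rfl] at this
    rw [this]
    exact hG _ (δ i).2 _
  rw [Finset.prod_congr rfl fun i _ => h1 i]
  exact Equiv.prod_comp π fun j => G (hAct ℓ j τ)

/-! ### Growth at all cusps -/

section Growth

variable {N : ℕ} [NeZero N]

/-- A good function lies in S24's ring `holN N`. -/
theorem mem_holN_of_mem_goodRing {G : ℍ → ℂ} (hG : G ∈ goodRing N) : G ∈ holN N := by
  by_cases h0 : ∃ τ : ℍ, G τ ≠ 0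
  · have hc : IsParHom (0 : G0 N → ZMod 1) :=
      ⟨fun _ _ => by simp, fun _ _ => rfl, fun _ _ _ _ => rfl⟩
    have hU : IsTwisted N 1 (0 : G0 N → ZMod 1) G := by
      refine ⟨hG.1, h0, fun γ τ => ?_, ?_⟩
      · have := hG.2.1 (γ : SL(2, ℤ)) γ.2 τ
        simpa using this
      · simpa using hG
    exact H642.K2_mem_holN hc hU
  · push_neg at h0
    have : G = 0 := funext h0
    rw [this]
    exact (holN N).zero_mem

/-- An element of `holN M` (any `M`) which is `Γ₀(N)`-invariant lies in `goodRing N`. -/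
theorem mem_goodRing_of_mem_holN' {M : ℕ} [NeZero M] {H : ℍ → ℂ} (hH : H ∈ holN M)
    (hinv : ∀ γ ∈ Gamma0 N, ∀ τ : ℍ, H (γ • τ) = H τ) : H ∈ goodRing N := by
  refine ⟨hH.1, hinv, fun g => ?_⟩
  obtain ⟨φ, hφ⟩ := hH.2 g
  exact H332.expGrowth_of_infExp hφ

/-- `f ∈ holN N ⟹ (τ ↦ f (ℓ τ)) ∈ holN (N ℓ)`. -/
theorem comp_infAff_mem_holN {ℓ : ℕ} [NeZero ℓ] [NeZero (N * ℓ)] {f : ℍ → ℂ} (hf : f ∈ holN N) :
    (fun τ => f (infAff ℓ 0 1 τ)) ∈ holN (N * ℓ) := by
  have hℓ : 0 < ℓ := Nat.pos_of_ne_zero (NeZero.ne ℓ)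
  have hN : 0 < N := Nat.pos_of_ne_zero (NeZero.ne N)
  refine ⟨H564.mdiff_comp_infAff hf.1 hℓ one_pos 0, fun g => ?_⟩
  obtain ⟨γ', a, d', b, ha, hd', had, h00, h01, h10, h11⟩ := inf_exists_hnf ℓ hℓ g
  obtain ⟨φ, hφ⟩ := hf.2 γ'
  haveI : NeZero (a * a) := ⟨(Nat.mul_pos ha ha).ne'⟩
  have he : a * a * (d' * N) = a * (N * ℓ) := by
    rw [← had]; ring
  have h := hφ.comp_infAff (e := a * a) b ha hd' hN (Nat.mul_pos hN hℓ) he
  have h2 : compSL g (fun τ => f (infAff ℓ 0 1 τ))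
      = fun τ => compSL γ' f (infAff a b d' τ) := by
    funext τ
    show f (infAff ℓ 0 1 (g • τ)) = f (γ' • infAff a b d' τ)
    rw [inf_aff_smul_eq hℓ ha hd' g γ' h00 h01 h10 h11 τ]
  rw [h2]
  exact h.mem_expRing

/-- `f ∈ holN N ⟹ (τ ↦ f ((τ + b) / ℓ)) ∈ holN (N ℓ)`. -/
theorem comp_infAff_mem_holN' {ℓ : ℕ} [NeZero ℓ] [NeZero (N * ℓ)] {f : ℍ → ℂ} (hf : f ∈ holN N)
    (b : ℤ) : (fun τ => f (infAff 1 b ℓ τ)) ∈ holN (N * ℓ) := by
  have hℓ : 0 < ℓ := Nat.pos_of_ne_zero (NeZero.ne ℓ)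
  let γ : SL(2, ℤ) := ⟨!![0, 1; -1, -b], by rw [Matrix.det_fin_two_of]; ring⟩
  let γ' : SL(2, ℤ) := ⟨!![0, 1; -1, 0], by rw [Matrix.det_fin_two_of]; ring⟩
  have key : ∀ τ : ℍ, infAff ℓ 0 1 (γ • τ) = γ' • infAff 1 b ℓ τ := by
    intro τ
    refine infAff_smul_eq_gen hℓ one_pos one_pos hℓ γ γ' ?_ ?_ ?_ ?_ τ
    · simp [γ, γ']
    · simp [γ, γ']
    · simp [γ, γ']
    · simp [γ, γ']
  have h1 : compSL γ'⁻¹ f ∈ holN N := comp_mem_holN N γ'⁻¹ f hf
  have h2 := comp_infAff_mem_holN (ℓ := ℓ) h1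
  have h3 := comp_mem_holN (N * ℓ) γ _ h2
  have e : (fun τ => f (infAff 1 b ℓ τ))
      = compSL γ (fun τ => compSL γ'⁻¹ f (infAff ℓ 0 1 τ)) := by
    funext τ
    show f (infAff 1 b ℓ τ) = f (γ'⁻¹ • infAff ℓ 0 1 (γ • τ))
    rw [key τ, inv_smul_smul]
  rw [e]
  exact h3

theorem comp_hAct_mem_holN {ℓ : ℕ} [NeZero ℓ] [NeZero (N * ℓ)] {f : ℍ → ℂ} (hf : f ∈ holN N)
    (i : Option (Fin ℓ)) : (fun τ => f (hAct ℓ i τ)) ∈ holN (N * ℓ) := by
  cases i with
  | none => exact comp_infAff_mem_holN hf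
  | some b => exact comp_infAff_mem_holN' hf _

theorem heckeProd_mem_holN {ℓ : ℕ} [NeZero ℓ] [NeZero (N * ℓ)] {f : ℍ → ℂ} (hf : f ∈ holN N) :
    heckeProd ℓ f ∈ holN (N * ℓ) := by
  have h : heckeProd ℓ f = ∏ i : Option (Fin ℓ), (fun τ => f (hAct ℓ i τ)) := by
    funext τ
    rw [heckeProd_apply, Finset.prod_apply]
  rw [h]
  exact prod_mem fun i _ => comp_hAct_mem_holN hf i

/-- **Growth step of K4-HECKE**: the Hecke product of a good function is good. -/
theorem heckeProd_mem_goodRing {ℓ : ℕ} [NeZero ℓ] {G : ℍ → ℂ} (hG : G ∈ goodRing N)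
    (hfac : ∀ γ : G0 N, ∃ (π : Equiv.Perm (Option (Fin ℓ))) (δ : Option (Fin ℓ) → G0 N),
      ∀ i, IsHeckeFactor ℓ γ i (π i, δ i)) :
    heckeProd ℓ G ∈ goodRing N := by
  haveI : NeZero (N * ℓ) := ⟨Nat.mul_ne_zero (NeZero.ne N) (NeZero.ne ℓ)⟩
  exact mem_goodRing_of_mem_holN' (heckeProd_mem_holN (mem_holN_of_mem_goodRing hG))
    (heckeProd_invariant (Nat.pos_of_ne_zero (NeZero.ne ℓ)) hG.2.1 hfac)

end Growth

end Fermat.Agent.S29.M4b.H822

end
end
-- ===== PACK-END S29/M4b/H822/HeckeProd.lean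

-- ===== PACK-BEGIN S48/H548/KumHP.lean
section




/-!
# S48 / RES, Kum1 (helper548): analytic core of K4-HECKE / K4-DIAMOND on `Γ₁(M)`

For a function `U : ℍ → ℂ` with a character `χ` on `Γ₁(M)` (`U (γ τ) = χ(γ) U(τ)`):

* `heckeProd1 hpM U = ∏ₓ U ∘ heckeRep1 x` has character `trfChar1 hpM χ = (γ ↦ ∏ₓ χ(trf1 γ x))`
  (`heckeProd1_smul`); for `χ = ζ ^ c`, `c : Γ₁(M) → ℤ/m`, this is `ζ ^ (heckeHom1 c)`
  (`heckeProd1_smul_zmod`);
* `U ∘ a`, `a ∈ Γ₀(M)`, has character `χ ∘ conj1 a` (`compSL_smul_conj1`), i.e. `ζ ^ (diaHom1 a c)`;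
* holomorphy (`mdiff_heckeProd1`), growth at all cusps (`heckeProd1_mem_holN`: `holN M → holN (M p)`),
  non-vanishing (`heckeProd1_ne_zero`), invariance (`heckeProd1_invariant`).
-/

set_option autoImplicit false
set_option linter.unusedSectionVars false
set_option linter.deprecated false

noncomputable section

namespace Fermat.Agent.S48.H548

open CongruenceSubgroup ModularCurve UpperHalfPlane Matrix.SpecialLinearGroup ModularForm
open Fermat.Agent.S24 Fermat.Agent.S24.H997 Fermat.Agent.S24.H624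
open scoped Manifold MatrixGroups OnePoint

variable {M : ℕ} [NeZero M] {p : ℕ} [Fact p.Prime]

/-! ### The action identity -/

/-- `α_x (γ τ) = t_x (α_{γ x} τ)`. -/
theorem heckeRep1_smul_smul (hpM : ¬ p ∣ M) (γ : Gamma1 M) (x : OnePoint (ZMod p)) (τ : ℍ) :
    heckeRep1 hpM x • ((γ : SL(2, ℤ)) • τ)
      = ((trf1 hpM γ x : Gamma1 M) : SL(2, ℤ)) • (heckeRep1 hpM (permOf1 γ x) • τ) := by
  rw [SL_smul_eq_mapGL_smul548, SL_smul_eq_mapGL_smul548, ← mul_smul, ← mul_smul,
    trf1_spec hpM γ x]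
  rfl

/-! ### The transfer of a character -/

/-- The (multiplicative) transfer of a character of `Γ₁(M)`: `γ ↦ ∏ₓ χ (trf1 γ x)`. -/
def trfChar1 (hpM : ¬ p ∣ M) {A : Type*} [CommGroup A] (χ : Gamma1 M →* A) : Gamma1 M →* A where
  toFun γ := ∏ x : OnePoint (ZMod p), χ (trf1 hpM γ x)
  map_one' := by simp [trf1_one]
  map_mul' γ γ' := by
    simp only [trf1_mul, map_mul, Finset.prod_mul_distrib]
    congr 1
    exact Equiv.prod_comp (permOf1 γ) (fun y ↦ χ (trf1 hpM γ' y))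

theorem trfChar1_apply (hpM : ¬ p ∣ M) {A : Type*} [CommGroup A] (χ : Gamma1 M →* A)
    (γ : Gamma1 M) : trfChar1 hpM χ γ = ∏ x : OnePoint (ZMod p), χ (trf1 hpM γ x) := rfl

/-! ### The Hecke product -/

/-- The Hecke product `τ ↦ ∏ₓ U (α_x τ)`, `α_x = heckeRep1 x`. -/
def heckeProd1 (hpM : ¬ p ∣ M) (U : ℍ → ℂ) : ℍ → ℂ :=
  fun τ ↦ ∏ x : OnePoint (ZMod p), U (heckeRep1 hpM x • τ)

theorem heckeProd1_apply (hpM : ¬ p ∣ M) (U : ℍ → ℂ) (τ : ℍ) :
    heckeProd1 hpM U τ = ∏ x : OnePoint (ZMod p), U (heckeRep1 hpM x • τ) := rfl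

theorem heckeProd1_pow (hpM : ¬ p ∣ M) (U : ℍ → ℂ) (n : ℕ) :
    heckeProd1 hpM (fun τ ↦ U τ ^ n) = fun τ ↦ heckeProd1 hpM U τ ^ n := by
  funext τ
  simp only [heckeProd1_apply]
  rw [Finset.prod_pow]

theorem heckeProd1_mul (hpM : ¬ p ∣ M) (U V : ℍ → ℂ) :
    heckeProd1 hpM (fun τ ↦ U τ * V τ) = fun τ ↦ heckeProd1 hpM U τ * heckeProd1 hpM V τ := by
  funext τ
  simp only [heckeProd1_apply]
  rw [Finset.prod_mul_distrib]

theorem heckeProd1_one (hpM : ¬ p ∣ M) : heckeProd1 (M := M) hpM (fun _ ↦ (1 : ℂ)) = fun _ ↦ 1 := by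
  funext τ
  simp [heckeProd1_apply]

/-- **Character of the Hecke product** (general character `χ : Γ₁(M) → ℂˣ`). -/
theorem heckeProd1_smul (hpM : ¬ p ∣ M) (χ : Gamma1 M →* ℂˣ) {U : ℍ → ℂ}
    (hU : ∀ (γ : Gamma1 M) (τ : ℍ), U ((γ : SL(2, ℤ)) • τ) = (χ γ : ℂ) * U τ)
    (γ : Gamma1 M) (τ : ℍ) :
    heckeProd1 hpM U ((γ : SL(2, ℤ)) • τ) = (trfChar1 hpM χ γ : ℂ) * heckeProd1 hpM U τ := by
  rw [heckeProd1_apply, heckeProd1_apply, trfChar1_apply, Units.coe_prod]
  have h1 : ∀ x : OnePoint (ZMod p), U (heckeRep1 hpM x • ((γ : SL(2, ℤ)) • τ))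
      = (χ (trf1 hpM γ x) : ℂ) * U (heckeRep1 hpM (permOf1 γ x) • τ) := by
    intro x
    rw [heckeRep1_smul_smul hpM γ x τ]
    exact hU _ _
  rw [Finset.prod_congr rfl fun x _ ↦ h1 x, Finset.prod_mul_distrib]
  congr 1
  exact Equiv.prod_comp (permOf1 γ) (fun y ↦ U (heckeRep1 hpM y • τ))

/-- Invariance of the Hecke product of a `Γ₁(M)`-invariant function. -/
theorem heckeProd1_invariant (hpM : ¬ p ∣ M) {G : ℍ → ℂ}
    (hG : ∀ (γ : Gamma1 M) (τ : ℍ), G ((γ : SL(2, ℤ)) • τ) = G τ)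
    (γ : Gamma1 M) (τ : ℍ) :
    heckeProd1 hpM G ((γ : SL(2, ℤ)) • τ) = heckeProd1 hpM G τ := by
  have h := heckeProd1_smul hpM (1 : Gamma1 M →* ℂˣ) (U := G)
    (fun γ τ ↦ by rw [hG γ τ]; simp) γ τ
  rw [h, trfChar1_apply]
  simp

/-! ### Characters `ζ ^ c`, `c : Γ₁(M) → ℤ/m` -/

theorem pow_val_add548 {m : ℕ} [NeZero m] {ζ : ℂ} (hζ : ζ ^ m = 1) (a b : ZMod m) :
    ζ ^ (a + b).val = ζ ^ a.val * ζ ^ b.val := by
  have key : ∀ n : ℕ, ζ ^ (n % m) = ζ ^ n := fun n ↦ by
    conv_rhs => rw [← Nat.mod_add_div n m, pow_add, pow_mul, hζ, one_pow, mul_one]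
  rw [ZMod.val_add, key, pow_add]

theorem pow_val_sum548 {m : ℕ} [NeZero m] {ζ : ℂ} (hζ : ζ ^ m = 1) {ι : Type*} (s : Finset ι)
    (a : ι → ZMod m) : ζ ^ (∑ i ∈ s, a i).val = ∏ i ∈ s, ζ ^ (a i).val := by
  classical
  induction s using Finset.induction_on with
  | empty => simp
  | insert x s hx ih => rw [Finset.sum_insert hx, Finset.prod_insert hx, pow_val_add548 hζ, ih]

/-- **Character of the Hecke product**, characters `ζ ^ c`: if `U` has character `ζ ^ c` then
the Hecke product has character `ζ ^ (T_p c)`, `T_p = heckeHom1`. -/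
theorem heckeProd1_smul_zmod (hpM : ¬ p ∣ M) {m : ℕ} [NeZero m] {ζ : ℂ} (hζ : ζ ^ m = 1)
    (c : Additive (Gamma1 M) →+ ZMod m) {U : ℍ → ℂ}
    (hU : ∀ (γ : Gamma1 M) (τ : ℍ),
      U ((γ : SL(2, ℤ)) • τ) = ζ ^ (c (Additive.ofMul γ)).val * U τ)
    (γ : Gamma1 M) (τ : ℍ) :
    heckeProd1 hpM U ((γ : SL(2, ℤ)) • τ)
      = ζ ^ (heckeHom1 p hpM (ZMod m) c (Additive.ofMul γ)).val * heckeProd1 hpM U τ := by
  rw [heckeProd1_apply, heckeProd1_apply, heckeHom1_apply, pow_val_sum548 hζ]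
  have h1 : ∀ x : OnePoint (ZMod p), U (heckeRep1 hpM x • ((γ : SL(2, ℤ)) • τ))
      = ζ ^ (c (Additive.ofMul (trf1 hpM γ x))).val * U (heckeRep1 hpM (permOf1 γ x) • τ) := by
    intro x
    rw [heckeRep1_smul_smul hpM γ x τ]
    exact hU _ _
  rw [Finset.prod_congr rfl fun x _ ↦ h1 x, Finset.prod_mul_distrib]
  congr 1
  exact Equiv.prod_comp (permOf1 γ) (fun y ↦ U (heckeRep1 hpM y • τ))

/-! ### Diamond twists -/

/-- **Character of a diamond twist** (general character). -/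
theorem compSL_smul_conj1 (a : SL(2, ℤ)) (ha : a ∈ Gamma0 M) {A : Type*} (χ : Gamma1 M → A)
    (mulA : A → ℂ → ℂ) {U : ℍ → ℂ}
    (hU : ∀ (γ : Gamma1 M) (τ : ℍ), U ((γ : SL(2, ℤ)) • τ) = mulA (χ γ) (U τ))
    (γ : Gamma1 M) (τ : ℍ) :
    compSL a U ((γ : SL(2, ℤ)) • τ) = mulA (χ (conj1 a ha γ)) (compSL a U τ) := by
  show U (a • ((γ : SL(2, ℤ)) • τ)) = mulA (χ (conj1 a ha γ)) (U (a • τ))
  rw [← hU (conj1 a ha γ) (a • τ), coe_conj1, ← mul_smul, ← mul_smul]
  congr 2
  group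

/-- **Character of a diamond twist**, characters `ζ ^ c`: `U ∘ a` has character
`ζ ^ (⟨a⟩ c)`, `⟨a⟩ = diaHom1 a`. -/
theorem compSL_smul_zmod (a : SL(2, ℤ)) (ha : a ∈ Gamma0 M) {m : ℕ} {ζ : ℂ}
    (c : Additive (Gamma1 M) →+ ZMod m) {U : ℍ → ℂ}
    (hU : ∀ (γ : Gamma1 M) (τ : ℍ),
      U ((γ : SL(2, ℤ)) • τ) = ζ ^ (c (Additive.ofMul γ)).val * U τ)
    (γ : Gamma1 M) (τ : ℍ) :
    compSL a U ((γ : SL(2, ℤ)) • τ)
      = ζ ^ (diaHom1 a ha (ZMod m) c (Additive.ofMul γ)).val * compSL a U τ := by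
  rw [diaHom1_apply]
  exact compSL_smul_conj1 a ha (fun γ ↦ c (Additive.ofMul γ)) (fun z w ↦ ζ ^ z.val * w) hU γ τ

/-! ### Holomorphy and growth -/

/-- The Möbius map of `heckeRep p x` as an affine substitution. -/
theorem heckeRep_smul_eq_infAff (x : OnePoint (ZMod p)) :
    ∃ (a : ℕ) (b : ℤ) (d : ℕ), 0 < a ∧ 0 < d ∧ ((a = p ∧ b = 0 ∧ d = 1) ∨ (a = 1 ∧ d = p)) ∧
      ∀ τ : ℍ, heckeRep p x • τ = infAff a b d τ := by
  have hp : 0 < p := (Fact.out : p.Prime).pos
  have hp0 : p ≠ 0 := hp.ne'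
  induction x using OnePoint.rec with
  | infty =>
    refine ⟨p, 0, 1, hp, one_pos, Or.inl ⟨rfl, rfl, rfl⟩, fun τ ↦ ?_⟩
    apply UpperHalfPlane.ext
    show ((ModularForm.heckeDiagMatrix p • τ : ℍ) : ℂ) = ((infAff p 0 1 τ : ℍ) : ℂ)
    rw [ModularForm.coe_heckeDiagMatrix_smul hp0, infAff_coe hp one_pos]
    simp
  | coe j =>
    refine ⟨1, (j.val : ℤ), p, one_pos, hp, Or.inr ⟨rfl, rfl⟩, fun τ ↦ ?_⟩
    apply UpperHalfPlane.ext
    show ((ModularForm.heckeMatrix p j.val • τ : ℍ) : ℂ) = ((infAff 1 (j.val : ℤ) p τ : ℍ) : ℂ)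
    rw [ModularForm.coe_heckeMatrix_smul hp0, infAff_coe one_pos hp]
    simp

theorem heckeRep1_smul (hpM : ¬ p ∣ M) (x : OnePoint (ZMod p)) (τ : ℍ) :
    heckeRep1 hpM x • τ = sigTw hpM x • (heckeRep p x • τ) := by
  unfold heckeRep1
  rw [mul_smul]
  rfl

theorem mdiff_comp_heckeRep1 (hpM : ¬ p ∣ M) {U : ℍ → ℂ} (hU : MDifferentiable 𝓘(ℂ) 𝓘(ℂ) U)
    (x : OnePoint (ZMod p)) :
    MDifferentiable 𝓘(ℂ) 𝓘(ℂ) (fun τ ↦ U (heckeRep1 hpM x • τ)) := by
  obtain ⟨a, b, d, ha, hd, -, h⟩ := heckeRep_smul_eq_infAff (p := p) x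
  have h1 : MDifferentiable 𝓘(ℂ) 𝓘(ℂ) (compSL (sigTw hpM x) U) := (precompSL _ ⟨U, hU⟩).2
  have h2 : (fun τ ↦ U (heckeRep1 hpM x • τ)) = fun τ ↦ compSL (sigTw hpM x) U (infAff a b d τ) := by
    funext τ
    rw [heckeRep1_smul, h τ]
    rfl
  rw [h2]
  exact H564.mdiff_comp_infAff h1 ha hd b

theorem mdiff_heckeProd1 (hpM : ¬ p ∣ M) {U : ℍ → ℂ} (hU : MDifferentiable 𝓘(ℂ) 𝓘(ℂ) U) :
    MDifferentiable 𝓘(ℂ) 𝓘(ℂ) (heckeProd1 hpM U) := by
  have h : heckeProd1 hpM U = ∏ x : OnePoint (ZMod p), (fun τ ↦ U (heckeRep1 hpM x • τ)) := by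
    funext τ
    rw [heckeProd1_apply, Finset.prod_apply]
  rw [h]
  exact MDifferentiable.prod fun x _ ↦ mdiff_comp_heckeRep1 hpM hU x

theorem comp_heckeRep1_mem_holN (hpM : ¬ p ∣ M) [NeZero (M * p)] {U : ℍ → ℂ} (hU : U ∈ holN M)
    (x : OnePoint (ZMod p)) : (fun τ ↦ U (heckeRep1 hpM x • τ)) ∈ holN (M * p) := by
  have : NeZero p := ⟨(Fact.out : p.Prime).ne_zero⟩
  obtain ⟨a, b, d, ha, hd, hcase, h⟩ := heckeRep_smul_eq_infAff (p := p) x
  have h1 : compSL (sigTw hpM x) U ∈ holN M := comp_mem_holN M _ U hU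
  have h2 : (fun τ ↦ U (heckeRep1 hpM x • τ)) = fun τ ↦ compSL (sigTw hpM x) U (infAff a b d τ) := by
    funext τ
    rw [heckeRep1_smul, h τ]
    rfl
  rw [h2]
  rcases hcase with ⟨rfl, rfl, rfl⟩ | ⟨rfl, rfl⟩
  · exact Fermat.Agent.S29.M4b.H822.comp_infAff_mem_holN h1
  · exact Fermat.Agent.S29.M4b.H822.comp_infAff_mem_holN' h1 b

/-- **Growth of the Hecke product**: `holN M → holN (M p)`. -/
theorem heckeProd1_mem_holN (hpM : ¬ p ∣ M) [NeZero (M * p)] {U : ℍ → ℂ} (hU : U ∈ holN M) :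
    heckeProd1 hpM U ∈ holN (M * p) := by
  have h : heckeProd1 hpM U = ∏ x : OnePoint (ZMod p), (fun τ ↦ U (heckeRep1 hpM x • τ)) := by
    funext τ
    rw [heckeProd1_apply, Finset.prod_apply]
  rw [h]
  exact prod_mem fun x _ ↦ comp_heckeRep1_mem_holN hpM hU x

/-- All `SL₂(ℤ)`-translates of the Hecke product of an element of `holN M` have at most
exponential growth. -/
theorem heckeProd1_expGrowth (hpM : ¬ p ∣ M) {U : ℍ → ℂ} (hU : U ∈ holN M) (g : SL(2, ℤ)) :
    Fermat.Agent.S24.H648.ExpGrowth (fun τ ↦ heckeProd1 hpM U (g • τ)) := by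
  have : NeZero (M * p) := ⟨Nat.mul_ne_zero (NeZero.ne M) (Fact.out : p.Prime).ne_zero⟩
  obtain ⟨φ, hφ⟩ := (heckeProd1_mem_holN hpM hU).2 g
  exact Fermat.Agent.S29.H332.expGrowth_of_infExp hφ

/-! ### Non-vanishing -/

theorem heckeProd1_ne_zero (hpM : ¬ p ∣ M) {U : ℍ → ℂ} (hU : MDifferentiable 𝓘(ℂ) 𝓘(ℂ) U)
    (h0 : ∃ τ : ℍ, U τ ≠ 0) : ∃ τ : ℍ, heckeProd1 hpM U τ ≠ 0 := by
  by_contra hcon
  simp only [not_exists, not_not] at hcon
  let f : OnePoint (ZMod p) → holoRing := fun x ↦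
    ⟨fun τ ↦ U (heckeRep1 hpM x • τ), mdiff_comp_heckeRep1 hpM hU x⟩
  have hprod : ∏ x : OnePoint (ZMod p), f x = 0 := by
    apply Subtype.ext
    funext τ
    rw [SubmonoidClass.coe_finset_prod, Finset.prod_apply]
    exact hcon τ
  obtain ⟨x, -, hx⟩ := Finset.prod_eq_zero_iff.mp hprod
  obtain ⟨τ, hτ⟩ := h0
  apply hτ
  have h1 : ∀ τ' : ℍ, U (heckeRep1 hpM x • τ') = 0 := fun τ' ↦
    congrFun (congrArg Subtype.val hx) τ'
  have h2 := h1 ((heckeRep1 hpM x)⁻¹ • τ)
  rwa [smul_inv_smul] at h2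

end Fermat.Agent.S48.H548

end
end
-- ===== PACK-END S48/H548/KumHP.lean

-- ===== PACK-BEGIN S48/H548/NormGood.lean
section





/-!
# S48 / RES, Kum leaf `norm` (helper548): the GOODNESS half of `NormAn1`

* `mem_holN_of_isGood` : a good function for a group `Γ` of level `M` (`H332.HasLevel Γ M`, e.g.
  `Γ₁(M)`) lies in the S24 ring `holN M` (expansions in `exp(2πiτ/M)` at ALL cusps);
* `prod_repA_eq_heckeProd1` : `∏ₓ G ∘ repA x = heckeProd1 (G ∘ σ_p⁻¹)`;
* `isGood_prod_repA` : if `G` is good for `Γ₁(M)` then so is `τ ↦ ∏ₓ G (repA x • τ)`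
  (`repA x = σ_p⁻¹ · heckeRep1 x` the representatives of `Kum/M4b1.lean`);
* `realises_prod_repA_of_qexp` : hence `NormAn1` is reduced to the equality of `q`-expansions.
-/

set_option autoImplicit false
set_option linter.unusedSectionVars false

noncomputable section

namespace Fermat.Agent.S48.H548

open CongruenceSubgroup ModularCurve UpperHalfPlane Matrix.SpecialLinearGroup
open Fermat.Agent.S24 Fermat.Agent.S24.H997 Fermat.Agent.S24.H624 Fermat.Agent.S24.H648
  Fermat.Agent.S24.H708 Fermat.Agent.S48.Kum Fermat.Agent.S48.F1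
open scoped Manifold MatrixGroups OnePoint

/-- A good function for a group of level `M` lies in `holN M`. -/
theorem mem_holN_of_isGood {Γ : Subgroup SL(2, ℤ)} {M : ℕ} [NeZero M]
    (hΓ : Fermat.Agent.S48.H332.HasLevel Γ M) {G : ℍ → ℂ} (hG : IsGood Γ G) : G ∈ holN M := by
  have hchar : Fermat.Agent.S48.H332.GHasChar (1 : Γ →* ℂˣ) G := by
    intro γ τ
    rw [hG.2.1 γ γ.2 τ]
    simp
  have hpar : Fermat.Agent.S48.H332.GParTriv (1 : Γ →* ℂˣ) := fun _ _ => rfl
  refine ⟨hG.1, fun g => ?_⟩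
  have hol : MDifferentiable 𝓘(ℂ) 𝓘(ℂ) (compSL g G) := mdifferentiable_comp_smul hG.1 g
  have hper : Function.Periodic (compSL g G ∘ ofComplex) (M : ℝ) :=
    hchar.periodic hpar g M (hΓ.conj_T_pow g)
  have hgr : ExpGrowth (compSL g G) := hG.2.2 g
  have hmer : IsMerInf M (compSL g G) :=
    ⟨hol, hper, Fermat.Agent.S29.H642.K2_isBounded_mul_qh_pow hgr⟩
  exact ⟨qexpFun M (compSL g G), fun τ => (HasQExp.of_isMerInf hmer).hasSum τ⟩

variable {M : ℕ} [NeZero M] {p : ℕ} [Fact p.Prime]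

theorem repA_smul (hpM : ¬ p ∣ M) (x : OnePoint (ZMod p)) (τ : ℍ) :
    repA hpM x • τ = (sigmaP M p hpM)⁻¹ • (heckeRep1 hpM x • τ) := by
  unfold repA
  rw [mul_smul]
  rfl

/-- `∏ₓ G ∘ repA x = heckeProd1 (G ∘ σ_p⁻¹)`. -/
theorem prod_repA_eq_heckeProd1 (hpM : ¬ p ∣ M) (G : ℍ → ℂ) :
    (fun τ => ∏ x, G (repA hpM x • τ)) = heckeProd1 hpM (compSL (sigmaP M p hpM)⁻¹ G) := by
  funext τ
  rw [heckeProd1_apply]
  exact Finset.prod_congr rfl fun x _ => by rw [repA_smul]; rfl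

/-- Composition with an element of `Γ₀(M)` preserves goodness for `Γ₁(M)`. -/
theorem isGood_compSL (a : SL(2, ℤ)) (ha : a ∈ Gamma0 M) {G : ℍ → ℂ}
    (hG : IsGood (Gamma1 M) G) : IsGood (Gamma1 M) (compSL a G) := by
  refine ⟨mdifferentiable_comp_smul hG.1 a, fun γ hγ τ => ?_, fun g => ?_⟩
  · show G (a • (γ • τ)) = G (a • τ)
    have h1 : a • (γ • τ) = (a * γ * a⁻¹) • (a • τ) := by
      rw [← mul_smul, ← mul_smul]
      congr 1
      group
    rw [h1]
    exact hG.2.1 _ (conj_mem_Gamma1 a ha ⟨γ, hγ⟩) _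
  · have h := hG.2.2 (a * g)
    refine (funext fun τ => ?_ : (fun τ => compSL a G (g • τ)) = fun τ => G ((a * g) • τ)) ▸ h
    show G (a • (g • τ)) = G ((a * g) • τ)
    rw [mul_smul]

/-- **Goodness half of `NormAn1`.** -/
theorem isGood_prod_repA (hpM : ¬ p ∣ M) {G : ℍ → ℂ} (hG : IsGood (Gamma1 M) G) :
    IsGood (Gamma1 M) (fun τ => ∏ x, G (repA hpM x • τ)) := by
  rw [prod_repA_eq_heckeProd1]
  have hs : (sigmaP M p hpM)⁻¹ ∈ Gamma0 M := (Gamma0 M).inv_mem (sigmaP_mem hpM)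
  have hG' : IsGood (Gamma1 M) (compSL (sigmaP M p hpM)⁻¹ G) := isGood_compSL _ hs hG
  have hmem : compSL (sigmaP M p hpM)⁻¹ G ∈ holN M :=
    mem_holN_of_isGood (Fermat.Agent.S48.H332.hasLevel_Gamma1 M) hG'
  refine ⟨mdiff_heckeProd1 hpM hG'.1, fun γ hγ τ => ?_, fun g => ?_⟩
  · exact heckeProd1_invariant hpM (fun γ τ => hG'.2.1 γ γ.2 τ) ⟨γ, hγ⟩ τ
  · exact heckeProd1_expGrowth hpM hmem g

/-- `NormAn1` reduced to the equality of `q`-expansions. -/
theorem realises_prod_repA_of_qexp (hpM : ¬ p ∣ M) {G : ℍ → ℂ} (hG : IsGood (Gamma1 M) G)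
    (v : F1Bar M)
    (hq : qexpFun 1 (fun τ => ∏ x, G (repA hpM x • τ))
      = coeffMap Deg457.iotaC ((v : F1Bar M) : LaurentSeries Kbar)) :
    Realises (Gamma1 M) (F1Bar M) v (fun τ => ∏ x, G (repA hpM x • τ)) :=
  ⟨isGood_prod_repA hpM hG, hq⟩

end Fermat.Agent.S48.H548

end
end
-- ===== PACK-END S48/H548/NormGood.lean

-- ===== PACK-BEGIN S48/Kum/Norm1.lean
section
/-
Tower A1 / A1-KUM (helper822): the leaf `norm` (`NormAn1 M p`) REDUCED to three inputs.

  `normAn1_of_inputs : DictMero (Γ₁(M)) (F1Bar M) → BetaAn1 M p → DegAlpha1 M p → Cosets1 M p hpM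
      → NormAn1 M p hpM`

* `BetaAn1 M p`  (N2): `β = (q ↦ q^p)` is composition with `diag(p,1)` on realisations
                 (goodness for `Γ₁(M) ∩ Γ₀(p)` + `q`-expansion of `G(pτ)`);
* `DegAlpha1 M p` (N3): `[ℚ̄·F₁(M;p) : ℚ̄·F₁(M)] = p + 1` along `α`;
* `Cosets1 M p`  (N4): representatives `γ_x ∈ Γ₁(M)` (`x ∈ ℙ¹(𝔽_p)`) of
                 `(Γ₁(M) ∩ Γ₀(p)) \ Γ₁(M)` with `diag(p,1) γ_x ∈ Γ₁(M) · repA x`.

Proved here: `DictMero` for `(Γ₁(M) ∩ Γ₀(p), ℚ̄·F₁(M;p))` (`dictMero1p`, from `DictMero` for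
`Γ₁(M)` and `BetaAn1`), the realisation of `j(q^p)` by `τ ↦ j(pτ)` and the separation of the
cosets by it, and the assembly through `Kum.normAn_of_embeddings`.
-/





set_option autoImplicit false

noncomputable section

open CongruenceSubgroup ModularCurve AlgebraicCurve UpperHalfPlane ModularForm
open scoped MatrixGroups Manifold OnePoint

namespace Fermat.Agent.S48.Kum

open Fermat.Agent.S24 Fermat.Agent.S29 Fermat.Agent.S48.F1 Fermat.Agent.S48.H548
  Matrix.SpecialLinearGroup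

local notation "Qbar" => AlgebraicClosure ℚ

/-- The group `Γ₁(M) ∩ Γ₀(p)`. -/
abbrev Gamma1p (M p : ℕ) : Subgroup SL(2, ℤ) := Gamma1 M ⊓ Gamma0 p

theorem T_mem_Gamma1p (M p : ℕ) : ModularGroup.T ∈ Gamma1p M p := by
  refine Subgroup.mem_inf.mpr ⟨T_mem_Gamma1 M, ?_⟩
  rw [Gamma0_mem]
  simp [ModularGroup.T]

/-! ### The inputs -/

/-- (N2) `β = (q ↦ q^p)` is composition with `diag(p,1)` on realisations. -/
def BetaAn1 (M : ℕ) [NeZero M] (p : ℕ) [NeZero p] : Prop :=
  ∀ (u : F1Bar M) (G : ℍ → ℂ), Realises (Gamma1 M) (F1Bar M) u G →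
    Realises (Gamma1p M p) (F1pL Qbar M p) (beta1 Qbar M p u)
      (fun τ => G (heckeDiagMatrix p • τ))

/-- (N3) The degree of `α`. -/
def DegAlpha1 (M : ℕ) [NeZero M] (p : ℕ) [NeZero p] : Prop :=
  letI := algebraAlong (alpha1 Qbar M p)
  Module.finrank (F1Bar M) (F1pL Qbar M p) = p + 1

/-- (N4) Coset representatives of `(Γ₁(M) ∩ Γ₀(p)) \ Γ₁(M)` adapted to `repA`. -/
def Cosets1 (M : ℕ) [NeZero M] (p : ℕ) [Fact p.Prime] (hpM : ¬ p ∣ M) : Prop :=
  ∃ gam : OnePoint (ZMod p) → SL(2, ℤ), (∀ x, gam x ∈ Gamma1 M) ∧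
    (∀ x, ∃ d ∈ Gamma1 M, heckeDiagMatrix p * mapGL ℝ (gam x) = mapGL ℝ d * repA hpM x) ∧
    ∀ x y, gam x * (gam y)⁻¹ ∈ Gamma0 p → x = y

/-! ### `DictMero` for `Γ₁(M) ∩ Γ₀(p)` -/

section Mero1p

variable {M : ℕ} [NeZero M] {p : ℕ} [NeZero p]

theorem alpha_realises {u : F1Bar M} {G : ℍ → ℂ} (h : Realises (Gamma1 M) (F1Bar M) u G) :
    Realises (Gamma1p M p) (F1pL Qbar M p) (alpha1 Qbar M p u) G :=
  h.transport inf_le_left _ (coe_alpha1 Qbar M p u)

theorem isMero_alpha (hmero : DictMero (Gamma1 M) (F1Bar M)) (u : F1Bar M) :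
    IsMero (Gamma1p M p) (F1pL Qbar M p) (alpha1 Qbar M p u) := by
  obtain ⟨u₁, u₂, G₁, G₂, h2, h, r1, r2⟩ := hmero u
  refine ⟨alpha1 Qbar M p u₁, alpha1 Qbar M p u₂, G₁, G₂, ?_, ?_, alpha_realises r1,
    alpha_realises r2⟩
  · exact (map_ne_zero (alpha1 Qbar M p)).mpr h2
  · rw [← map_mul, h]

theorem isMero_beta (hmero : DictMero (Gamma1 M) (F1Bar M)) (hbeta : BetaAn1 M p)
    (u : F1Bar M) : IsMero (Gamma1p M p) (F1pL Qbar M p) (beta1 Qbar M p u) := by
  obtain ⟨u₁, u₂, G₁, G₂, h2, h, r1, r2⟩ := hmero u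
  refine ⟨beta1 Qbar M p u₁, beta1 Qbar M p u₂, _, _, ?_, ?_, hbeta u₁ G₁ r1, hbeta u₂ G₂ r2⟩
  · exact (map_ne_zero (beta1 Qbar M p)).mpr h2
  · rw [← map_mul, h]

/-- **`DictMero` for `(Γ₁(M) ∩ Γ₀(p), ℚ̄·F₁(M;p))`**. -/
theorem dictMero1p (hmero : DictMero (Gamma1 M) (F1Bar M)) (hbeta : BetaAn1 M p) :
    DictMero (Gamma1p M p) (F1pL Qbar M p) := by
  have hT := T_mem_Gamma1p M p
  apply dictMero_of_le hT
  -- the field of `y ∈ ℚ((q))` with `coeffEmb y` mero
  let K₀ : IntermediateField ℚ (LaurentSeries ℚ) :=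
    { Subfield.comap (coeffEmb Qbar)
        (meroField hT (F1pL Qbar M p)).toSubfield with
      algebraMap_mem' := fun r => by
        show coeffEmb Qbar (algebraMap ℚ (LaurentSeries ℚ) r) ∈ meroField hT (F1pL Qbar M p)
        have : coeffEmb Qbar (algebraMap ℚ (LaurentSeries ℚ) r)
            = algebraMap Qbar (LaurentSeries Qbar) (algebraMap ℚ Qbar r) := by
          rw [algebraMap_apply_eq_single, coeffEmb, coeffMap_single,
            algebraMap_laurent_eq_single]
        rw [this]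
        exact (meroField hT (F1pL Qbar M p)).algebraMap_mem _ }
  have hK₀ : ∀ y : LaurentSeries ℚ, y ∈ K₀ ↔
      coeffEmb Qbar y ∈ meroField hT (F1pL Qbar M p) := fun y => Iff.rfl
  have h1 : F1 M ≤ K₀ := by
    intro y hy
    rw [hK₀]
    have hm := isMero_alpha (p := p) hmero ⟨coeffEmb Qbar y, coeffEmb_mem_laurentBaseChange Qbar hy⟩
    exact ⟨_, hm⟩
  have h2 : (F1 M).map (qExpandₐ p) ≤ K₀ := by
    rintro _ ⟨y, hy, rfl⟩
    rw [hK₀]
    have hm := isMero_beta hmero hbeta ⟨coeffEmb Qbar y, coeffEmb_mem_laurentBaseChange Qbar hy⟩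
    have e : coeffEmb Qbar (qExpand ℚ p y)
        = ((beta1 Qbar M p ⟨coeffEmb Qbar y, coeffEmb_mem_laurentBaseChange Qbar hy⟩ :
            F1pL Qbar M p) : LaurentSeries Qbar) := by
      rw [coe_beta1]
      exact (qExpand_coeffEmb Qbar p y).symm
    show coeffEmb Qbar (qExpand ℚ p y) ∈ _
    rw [e]
    exact ⟨_, hm⟩
  have h3 : F1p M p ≤ K₀ := sup_le h1 h2
  show laurentBaseChange Qbar (F1p M p) ≤ _
  rw [laurentBaseChange, IntermediateField.adjoin_le_iff]
  rintro _ ⟨y, hy, rfl⟩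
  exact (hK₀ y).mp (h3 hy)

end Mero1p

/-! ### `j(q^p)` and the separation of the cosets -/

section Sep

variable (M : ℕ) [NeZero M] (p : ℕ) [NeZero p]

/-- `j(q^p) ∈ ℚ̄·F₁(M;p)`. -/
def jpElt : F1pL Qbar M p :=
  ⟨coeffEmb Qbar (qExpand ℚ p jq),
    coeffEmb_mem_laurentBaseChange Qbar (qExpand_mem_F1p M p (jq_mem_F1 M))⟩

theorem iotaC_comp_algebraMap :
    (Deg457.iotaC).comp (algebraMap ℚ Kbar) = algebraMap ℚ ℂ :=
  Subsingleton.elim _ _

theorem coeffMap_iotaC_coeffEmb (x : LaurentSeries ℚ) :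
    coeffMap Deg457.iotaC (coeffEmb Kbar x) = coeffEmb ℂ x := by
  rw [coeffEmb, coeffMap_coeffMap, iotaC_comp_algebraMap]
  rfl

theorem Jd_eq_scale : H997.Jd p = fun τ => JFun.jFun (Deg457.scaleH p τ) := by
  funext τ
  show Fermat.Agent.S20.L1.jFun (infAff p 0 1 τ) = Fermat.Agent.S20.L1.jFun (Deg457.scaleH p τ)
  congr 1
  apply UpperHalfPlane.ext
  rw [infAff_coe (Nat.pos_of_ne_zero (NeZero.ne p)) one_pos, Deg457.coe_scaleH]
  simp

theorem isGood_Jd : IsGood (Gamma1p M p) (H997.Jd p) :=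
  Fermat.Agent.S48.H332.isGoodFor_of_mem_holN (H997.Jd_mem_holN p p dvd_rfl)
    (fun γ hγ τ => H997.Jd_inv p p dvd_rfl γ (Subgroup.mem_inf.mp hγ).2 τ)

/-- `τ ↦ j(pτ)` realises `j(q^p)`. -/
theorem realises_jpElt : Realises (Gamma1p M p) (F1pL Qbar M p) (jpElt M p) (H997.Jd p) := by
  refine realises_of_hasQExp (isGood_Jd M p) ?_
  show H708.HasQExp 1 (H997.Jd p) (coeffMap Deg457.iotaC (coeffEmb Kbar (qExpand ℚ p jq)))
  rw [coeffMap_iotaC_coeffEmb, Jd_eq_scale]
  exact Deg457.hasQExp_jFun_scale p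

/-- The translates of `τ ↦ j(pτ)` separate the cosets of `Γ₀(p)`. -/
theorem sep_Jd {g h : SL(2, ℤ)} (e : ∀ τ : ℍ, H997.Jd p (g • τ) = H997.Jd p (h • τ)) :
    g * h⁻¹ ∈ Gamma0 p := by
  apply H997.Jd_distinct p
  intro τ
  rw [mul_smul, e, smul_inv_smul]

end Sep

/-! ### The assembly -/

section Main

variable {M : ℕ} [NeZero M] {p : ℕ} [Fact p.Prime]

theorem card_onePoint_zmod : Fintype.card (OnePoint (ZMod p)) = p + 1 := by
  haveI : NeZero p := ⟨(Fact.out : p.Prime).ne_zero⟩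
  show Fintype.card (Option (ZMod p)) = p + 1
  rw [Fintype.card_option, ZMod.card]

/-- **The leaf `norm` from its inputs.** -/
theorem normAn1_of_inputs (hpM : ¬ p ∣ M) (hmero : DictMero (Gamma1 M) (F1Bar M))
    (hbeta : haveI : NeZero p := ⟨(Fact.out : p.Prime).ne_zero⟩; BetaAn1 M p)
    (hdeg : haveI : NeZero p := ⟨(Fact.out : p.Prime).ne_zero⟩; DegAlpha1 M p)
    (hcos : Cosets1 M p hpM) : NormAn1 M p hpM := by
  haveI : NeZero p := ⟨(Fact.out : p.Prime).ne_zero⟩
  obtain ⟨gam, hgam, hfac, hinj⟩ := hcos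
  intro u G hu
  have hB : 0 < (heckeDiagMatrix p).det.val := by
    show 0 < ((heckeDiagMatrix p).det : ℝ)
    rw [det_heckeDiagMatrix (NeZero.ne p)]
    exact_mod_cast Nat.pos_of_ne_zero (NeZero.ne p)
  refine normAn_of_embeddings (T_mem_Gamma1p M p) inf_le_left hmero (dictMero1p hmero hbeta)
    (beta1 Qbar M p) (alpha1 Qbar M p) (fun v V hv => alpha_realises hv)
    (heckeDiagMatrix p) hB hbeta gam hgam (repA hpM) ?_ ?_ ?_
    (fun V hV => isGood_prod_repA hpM hV) u G hu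
  · -- the coset identity
    intro x V hV τ
    obtain ⟨d, hd, hfx⟩ := hfac x
    have h1 : heckeDiagMatrix p • (gam x • τ) = d • (repA hpM x • τ) := by
      have h2 : heckeDiagMatrix p • (gam x • τ)
          = (heckeDiagMatrix p * mapGL ℝ (gam x)) • τ := by
        rw [mul_smul]
        rfl
      rw [h2, hfx, mul_smul]
      rfl
    rw [h1]
    exact hV.2.1 d hd _
  · -- the degree
    rw [_root_.Fermat.Agent.S48.Kum.card_onePoint_zmod]
    exact hdeg.symm
  · -- the separation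
    refine ⟨jpElt M p, H997.Jd p, realises_jpElt M p, fun x y e => ?_⟩
    exact hinj x y (sep_Jd p e)

end Main

end Fermat.Agent.S48.Kum

end
end
-- ===== PACK-END S48/Kum/Norm1.lean

-- ===== PACK-BEGIN S48/H548/NormCoset1.lean
section


/-!
# S48 / RES, Kum leaf `norm` (helper548): coset representatives of `(Γ₁(M) ∩ Γ₀(p)) \ Γ₁(M)`
adapted to `repA`  (port of `S29/H452/NormCoset.lean` to `Γ₁(M)`)

For a prime `p ∤ M` and `x : OnePoint (ZMod p)` we construct `γ_x, δ_x ∈ Γ₁(M)` with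

  `diag(p, 1) · γ_x = δ_x · repA x`      (`repA x = σ_p⁻¹ · heckeRep1 x`, `Kum/M4b1.lean`)

such that `γ_x γ_y⁻¹ ∈ Γ₀(p)` only for `x = y`.  (So `g ↦ (an g) ∘ γ_x` are the `p + 1` embeddings
of the function field of `Γ₁(M) ∩ Γ₀(p)` over that of `Γ₁(M)`, and
`(an (β f)) ∘ γ_x = (an f) ∘ repA x`.)
-/

set_option autoImplicit false
set_option linter.unusedSectionVars false

noncomputable section

namespace Fermat.Agent.S48.H548

open CongruenceSubgroup ModularCurve UpperHalfPlane Matrix.SpecialLinearGroup ModularForm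
open Fermat.Agent.S48.Kum
open scoped MatrixGroups OnePoint

variable {M : ℕ} [NeZero M] {p : ℕ} [Fact p.Prime]

/-- An inverse of `p` modulo `M`. -/
theorem exists_inv_mod (hpM : ¬ p ∣ M) : ∃ e : ℤ, (((p : ℤ) * e : ℤ) : ZMod M) = 1 := by
  have hcop : IsCoprime (p : ℤ) (M : ℤ) :=
    Nat.isCoprime_iff_coprime.mpr ((Nat.Prime.coprime_iff_not_dvd Fact.out).mpr hpM)
  obtain ⟨a, b, hab⟩ := hcop
  refine ⟨a, ?_⟩
  have h := congrArg (Int.cast : ℤ → ZMod M) hab
  push_cast at h ⊢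
  rw [ZMod.natCast_self, mul_zero, add_zero] at h
  rw [mul_comm]
  exact h

/-- The chosen inverse of `p` modulo `M`. -/
def invMod (M p : ℕ) [NeZero M] [Fact p.Prime] (hpM : ¬ p ∣ M) : ℤ :=
  (exists_inv_mod (M := M) hpM).choose

theorem invMod_spec (hpM : ¬ p ∣ M) : (((p : ℤ) * invMod M p hpM : ℤ) : ZMod M) = 1 :=
  (exists_inv_mod (M := M) hpM).choose_spec

/-- The bottom row `(c, d)` of the representative `γ_x`. -/
def rep1Row (hpM : ¬ p ∣ M) (x : OnePoint (ZMod p)) : ℤ × ℤ :=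
  x.elim (0, 1) (fun b ↦ ((M : ℤ), (M : ℤ) * (b.val : ℤ) + (p : ℤ) * invMod M p hpM))

@[simp] theorem rep1Row_infty (hpM : ¬ p ∣ M) : rep1Row hpM (∞ : OnePoint (ZMod p)) = (0, 1) :=
  rfl

@[simp] theorem rep1Row_coe (hpM : ¬ p ∣ M) (b : ZMod p) :
    rep1Row hpM (b : OnePoint (ZMod p))
      = ((M : ℤ), (M : ℤ) * (b.val : ℤ) + (p : ℤ) * invMod M p hpM) := rfl

theorem repA_infty (hpM : ¬ p ∣ M) : repA hpM (∞ : OnePoint (ZMod p)) = heckeDiagMatrix p := by
  unfold repA heckeRep1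
  rw [sigTw_infty, heckeRep_infty, ← mul_assoc, ← map_mul, inv_mul_cancel, map_one, one_mul]

theorem repA_coe (hpM : ¬ p ∣ M) (b : ZMod p) :
    repA hpM (b : OnePoint (ZMod p)) = mapGL ℝ (sigmaP M p hpM)⁻¹ * heckeMatrix p b.val := by
  unfold repA heckeRep1
  rw [sigTw_coe, map_one, one_mul, heckeRep_coe]

theorem exists_rep1 (hpM : ¬ p ∣ M) (x : OnePoint (ZMod p)) :
    ∃ γ δ : SL(2, ℤ), γ 1 0 = (rep1Row hpM x).1 ∧ γ 1 1 = (rep1Row hpM x).2 ∧
      γ ∈ Gamma1 M ∧ δ ∈ Gamma1 M ∧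
      heckeDiagMatrix p * mapGL ℝ γ = mapGL ℝ δ * repA hpM x := by
  induction x using OnePoint.rec with
  | infty =>
    refine ⟨1, 1, by simp, by simp, one_mem _, one_mem _, ?_⟩
    rw [repA_infty, map_one, mul_one, one_mul]
  | coe b =>
    have he := invMod_spec (M := M) hpM
    set e := invMod M p hpM with hedef
    -- `gcd(M, M b + p e) = 1`
    have hc : IsCoprime (M : ℤ) ((M : ℤ) * (b.val : ℤ) + (p : ℤ) * e) := by
      have h1 : IsCoprime (M : ℤ) ((p : ℤ) * e) := by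
        obtain ⟨k, hk⟩ : (M : ℤ) ∣ (p : ℤ) * e - 1 := by
          rw [← ZMod.intCast_zmod_eq_zero_iff_dvd]
          push_cast at he ⊢
          rw [he, sub_self]
        refine ⟨-k, 1, ?_⟩
        linear_combination hk
      have := h1.add_mul_left_right (b.val : ℤ)
      rwa [add_comm] at this
    obtain ⟨s, t, hst⟩ := hc
    let γ : SL(2, ℤ) := ⟨!![t, -s; (M : ℤ), (M : ℤ) * (b.val : ℤ) + (p : ℤ) * e], by
      rw [Matrix.det_fin_two_of]; linear_combination hst⟩
    have hγ10 : γ 1 0 = (M : ℤ) := rfl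
    have hγ11 : γ 1 1 = (M : ℤ) * (b.val : ℤ) + (p : ℤ) * e := rfl
    obtain ⟨δ', hδ10, hδ11, hmul⟩ := heckeDiagMatrix_mul_of_eq (Fact.out : p.Prime).ne_zero γ b.val e (by
      rw [hγ10, hγ11])
    have hγmem : γ ∈ Gamma1 M := by
      apply mem_Gamma1_of_lower
      · rw [hγ10]; simp
      · rw [hγ11]
        push_cast at he ⊢
        rw [ZMod.natCast_self, zero_mul, zero_add, he]
    have hδ'0 : δ' ∈ Gamma0 M := by
      rw [Gamma0_mem, hδ10, hγ10]; simp
    have hδmem : δ' * sigmaP M p hpM ∈ Gamma1 M := by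
      apply mem_Gamma1_of_lower
      · exact Gamma0_mem.mp ((Gamma0 M).mul_mem hδ'0 (sigmaP_mem hpM))
      · rw [lower_right_mul _ _ hδ'0, hδ11, sigmaP_lower hpM]
        push_cast at he
        rw [mul_comm]
        exact he
    refine ⟨γ, δ' * sigmaP M p hpM, hγ10, hγ11, hγmem, hδmem, ?_⟩
    rw [repA_coe, hmul, map_mul, map_inv]
    group

/-- The chosen representatives `γ_x ∈ Γ₁(M)`. -/
def rep1γ (hpM : ¬ p ∣ M) (x : OnePoint (ZMod p)) : SL(2, ℤ) :=
  (exists_rep1 hpM x).choose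

/-- The chosen `δ_x ∈ Γ₁(M)` with `diag(p,1) γ_x = δ_x · repA x`. -/
def rep1δ (hpM : ¬ p ∣ M) (x : OnePoint (ZMod p)) : SL(2, ℤ) :=
  (exists_rep1 hpM x).choose_spec.choose

theorem rep1γ_spec (hpM : ¬ p ∣ M) (x : OnePoint (ZMod p)) :
    (rep1γ hpM x) 1 0 = (rep1Row hpM x).1 ∧ (rep1γ hpM x) 1 1 = (rep1Row hpM x).2 ∧
      rep1γ hpM x ∈ Gamma1 M ∧ rep1δ hpM x ∈ Gamma1 M ∧
      heckeDiagMatrix p * mapGL ℝ (rep1γ hpM x) = mapGL ℝ (rep1δ hpM x) * repA hpM x :=
  (exists_rep1 hpM x).choose_spec.choose_spec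

theorem rep1γ_mem (hpM : ¬ p ∣ M) (x : OnePoint (ZMod p)) : rep1γ hpM x ∈ Gamma1 M :=
  (rep1γ_spec hpM x).2.2.1

theorem rep1δ_mem (hpM : ¬ p ∣ M) (x : OnePoint (ZMod p)) : rep1δ hpM x ∈ Gamma1 M :=
  (rep1γ_spec hpM x).2.2.2.1

/-- `diag(p,1) · γ_x = δ_x · repA x`. -/
theorem rep1γ_mul (hpM : ¬ p ∣ M) (x : OnePoint (ZMod p)) :
    heckeDiagMatrix p * mapGL ℝ (rep1γ hpM x) = mapGL ℝ (rep1δ hpM x) * repA hpM x :=
  (rep1γ_spec hpM x).2.2.2.2

/-- On `ℍ`: `p · (γ_x τ) = δ_x (repA x • τ)`. -/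
theorem heckeDiag_smul_rep1γ (hpM : ¬ p ∣ M) (x : OnePoint (ZMod p)) (τ : ℍ) :
    heckeDiagMatrix p • (rep1γ hpM x • τ) = rep1δ hpM x • (repA hpM x • τ) := by
  have h := congrArg (fun g : GL (Fin 2) ℝ => g • τ) (rep1γ_mul hpM x)
  simp only [mul_smul] at h
  exact h

theorem mul_inv_apply_one_zero548 (γ γ' : SL(2, ℤ)) :
    (γ * γ'⁻¹) 1 0 = γ 1 0 * γ' 1 1 - γ 1 1 * γ' 1 0 := by
  rw [Matrix.SpecialLinearGroup.coe_mul, Matrix.mul_apply, Fin.sum_univ_two,
    Matrix.SpecialLinearGroup.SL2_inv_expl]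
  simp
  ring

/-- The representatives are pairwise inequivalent modulo `Γ₀(p)`. -/
theorem rep1γ_injective (hpM : ¬ p ∣ M) {x y : OnePoint (ZMod p)}
    (h : rep1γ hpM x * (rep1γ hpM y)⁻¹ ∈ Gamma0 p) : x = y := by
  have hp : p.Prime := Fact.out
  have hdvd : ((p : ℕ) : ℤ) ∣ (rep1γ hpM x * (rep1γ hpM y)⁻¹) 1 0 :=
    (ZMod.intCast_zmod_eq_zero_iff_dvd _ _).mp (Gamma0_mem.mp h)
  rw [mul_inv_apply_one_zero548, (rep1γ_spec hpM x).1, (rep1γ_spec hpM x).2.1,
    (rep1γ_spec hpM y).1, (rep1γ_spec hpM y).2.1] at hdvd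
  have hpM' : ¬ (p : ℤ) ∣ (M : ℤ) := fun h1 => hpM (Int.natCast_dvd_natCast.mp h1)
  have hprime : Prime (p : ℤ) := Nat.prime_iff_prime_int.mp hp
  induction x using OnePoint.rec with
  | infty =>
    induction y using OnePoint.rec with
    | infty => rfl
    | coe b =>
      exfalso
      simp only [rep1Row_infty, rep1Row_coe] at hdvd
      have h2 : (p : ℤ) ∣ (M : ℤ) := by
        have : (0 : ℤ) * ((M : ℤ) * (b.val : ℤ) + (p : ℤ) * invMod M p hpM) - 1 * (M : ℤ)
            = -(M : ℤ) := by ring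
        rw [this] at hdvd
        exact (dvd_neg.mp hdvd)
      exact hpM' h2
  | coe a =>
    induction y using OnePoint.rec with
    | infty =>
      exfalso
      simp only [rep1Row_infty, rep1Row_coe] at hdvd
      have h2 : (p : ℤ) ∣ (M : ℤ) := by
        have : (M : ℤ) * 1 - ((M : ℤ) * (a.val : ℤ) + (p : ℤ) * invMod M p hpM) * 0
            = (M : ℤ) := by ring
        rw [this] at hdvd
        exact hdvd
      exact hpM' h2
    | coe b =>
      simp only [rep1Row_coe] at hdvd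
      have h2 : (p : ℤ) ∣ (M : ℤ) * ((M : ℤ) * ((b.val : ℤ) - (a.val : ℤ))) := by
        have : (M : ℤ) * ((M : ℤ) * (b.val : ℤ) + (p : ℤ) * invMod M p hpM)
            - ((M : ℤ) * (a.val : ℤ) + (p : ℤ) * invMod M p hpM) * (M : ℤ)
            = (M : ℤ) * ((M : ℤ) * ((b.val : ℤ) - (a.val : ℤ))) := by ring
        rw [this] at hdvd
        exact hdvd
      have h3 : (p : ℤ) ∣ (b.val : ℤ) - (a.val : ℤ) := by
        rcases hprime.dvd_or_dvd h2 with h | h
        · exact absurd h hpM'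
        · rcases hprime.dvd_or_dvd h with h | h
          · exact absurd h hpM'
          · exact h
      have h5 : (((b.val : ℤ) - (a.val : ℤ) : ℤ) : ZMod p) = 0 :=
        (ZMod.intCast_zmod_eq_zero_iff_dvd _ _).mpr h3
      have : NeZero p := ⟨hp.ne_zero⟩
      push_cast at h5
      rw [ZMod.natCast_zmod_val, ZMod.natCast_zmod_val] at h5
      have : b = a := sub_eq_zero.mp h5
      rw [this]

end Fermat.Agent.S48.H548

end
end
-- ===== PACK-END S48/H548/NormCoset1.lean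

-- ===== PACK-BEGIN S48/Kum/Norm1In.lean
section
/-
Tower A1 / A1-KUM (helper822): the inputs `Cosets1` (adapter to `H548.NormCoset1`) and `BetaAn1`
of `Kum.normAn1_of_inputs`, hence

  `normAn1_of_deg : DictMero (Γ₁(M)) (F1Bar M) → DegAlpha1 M p → NormAn1 M p hpM`.

`BetaAn1`: if `G` realises `u` for `Γ₁(M)` then `τ ↦ G(pτ)` realises `β u = u(q^p)` for
`Γ₁(M) ∩ Γ₀(p)`:
* holomorphy, invariance (`diag(p,1) γ = γ' diag(p,1)`, `γ' ∈ Γ₁(M)`),
* growth of all translates (through `holN`: `S29.M4b.H822.comp_infAff_mem_holN`),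
* `q`-expansion (`hasQExp_comp_diag`: substitution `q ↦ q^p`).
-/



set_option autoImplicit false

noncomputable section

open CongruenceSubgroup ModularCurve AlgebraicCurve UpperHalfPlane ModularForm
open scoped MatrixGroups Manifold OnePoint

namespace Fermat.Agent.S48.Kum

open Fermat.Agent.S24 Fermat.Agent.S29 Fermat.Agent.S48.F1 Fermat.Agent.S48.H548
  Matrix.SpecialLinearGroup

local notation "Qbar" => AlgebraicClosure ℚ

/-! ### `Cosets1` -/

theorem cosets1 {M : ℕ} [NeZero M] {p : ℕ} [Fact p.Prime] (hpM : ¬ p ∣ M) : Cosets1 M p hpM :=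
  ⟨rep1γ hpM, rep1γ_mem hpM, fun x => ⟨rep1δ hpM x, rep1δ_mem hpM x, rep1γ_mul hpM x⟩,
    fun _ _ h => rep1γ_injective hpM h⟩

/-! ### Substitution `τ ↦ pτ` -/

section Diag

variable {p : ℕ} [NeZero p]

theorem diag_smul_eq_infAff (τ : ℍ) : heckeDiagMatrix p • τ = infAff p 0 1 τ := by
  apply UpperHalfPlane.ext
  rw [coe_heckeDiagMatrix_smul (NeZero.ne p),
    infAff_coe (Nat.pos_of_ne_zero (NeZero.ne p)) one_pos]
  simp

theorem coeffMap_qExpand_h822 {R S : Type*} [CommRing R] [CommRing S] (f : R →+* S)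
    (x : LaurentSeries R) : coeffMap f (qExpand R p x) = qExpand S p (coeffMap f x) := by
  ext k
  by_cases hk : (p : ℤ) ∣ k
  · obtain ⟨m, rfl⟩ := hk
    rw [coeffMap_coeff, qExpand_coeff_mul, qExpand_coeff_mul, coeffMap_coeff]
  · rw [coeffMap_coeff, qExpand_coeff_of_not_dvd p _ hk, qExpand_coeff_of_not_dvd p _ hk,
      map_zero]

/-- The `q`-expansion of `τ ↦ G(pτ)` is `φ(q^p)`. -/
theorem hasQExp_comp_diag {G : ℍ → ℂ} {φ : LaurentSeries ℂ} (h : H708.HasQExp 1 G φ) :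
    H708.HasQExp 1 (fun τ => G (heckeDiagMatrix p • τ)) (qExpand ℂ p φ) := by
  have hp : 0 < p := Nat.pos_of_ne_zero (NeZero.ne p)
  have hol : MDifferentiable 𝓘(ℂ) 𝓘(ℂ) (fun τ => G (heckeDiagMatrix p • τ)) := by
    have e : (fun τ => G (heckeDiagMatrix p • τ)) = fun τ => G (infAff p 0 1 τ) :=
      funext fun τ => by rw [diag_smul_eq_infAff]
    rw [e]
    exact H564.mdiff_comp_infAff h.mdiff hp one_pos 0
  refine H708.HasQExp.of_hasSum hol ?_
  intro τ
  have hs := h.hasSum (heckeDiagMatrix p • τ)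
  have hinj : Function.Injective (fun n : ℤ => (p : ℤ) * n) := by
    intro a b hab
    have hp' : (p : ℤ) ≠ 0 := by exact_mod_cast hp.ne'
    exact mul_left_cancel₀ hp' hab
  have hsupp : ∀ m : ℤ, m ∉ Set.range (fun n : ℤ => (p : ℤ) * n) →
      (qExpand ℂ p φ).coeff m * H708.qh 1 τ ^ m = 0 := by
    intro m hm
    have hndvd : ¬ (p : ℤ) ∣ m := by
      rintro ⟨k, rfl⟩
      exact hm ⟨k, rfl⟩
    rw [qExpand_coeff_of_not_dvd p φ hndvd, zero_mul]
  rw [← hinj.hasSum_iff hsupp]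
  have hq : H708.qh 1 (heckeDiagMatrix p • τ) = H708.qh 1 τ ^ p := by
    rw [H708.qh_apply, H708.qh_apply, coe_heckeDiagMatrix_smul (NeZero.ne p)]
    simp only [Function.Periodic.qParam, Nat.cast_one, Complex.ofReal_one, div_one]
    rw [← Complex.exp_nat_mul]
    congr 1
    ring
  have hfun : ((fun m : ℤ => (qExpand ℂ p φ).coeff m * H708.qh 1 τ ^ m) ∘
      fun n : ℤ => (p : ℤ) * n)
      = fun n : ℤ => φ.coeff n * H708.qh 1 (heckeDiagMatrix p • τ) ^ n := by
    funext n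
    simp only [Function.comp_apply]
    rw [qExpand_coeff_mul, hq, ← zpow_natCast, ← zpow_mul]
  rw [hfun]
  exact hs

end Diag

/-! ### `BetaAn1` -/

section Beta

variable {M : ℕ} [NeZero M] {p : ℕ} [Fact p.Prime]

/-- `diag(p,1) γ = γ' diag(p,1)` with `γ' ∈ Γ₁(M)`, for `γ ∈ Γ₁(M) ∩ Γ₀(p)`, `p ∤ M`. -/
theorem exists_conj_diag (hpM : ¬ p ∣ M) {γ : SL(2, ℤ)} (hγ : γ ∈ Gamma1p M p) :
    ∃ γ' ∈ Gamma1 M, ∀ τ : ℍ, infAff p 0 1 (γ • τ) = γ' • infAff p 0 1 τ := by
  have hp : p.Prime := Fact.out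
  obtain ⟨h1, h0⟩ := Subgroup.mem_inf.mp hγ
  rw [Gamma1_mem] at h1
  rw [Gamma0_mem] at h0
  obtain ⟨c, hc⟩ : (p : ℤ) ∣ γ 1 0 := (ZMod.intCast_zmod_eq_zero_iff_dvd _ _).mp h0
  have hdet := inf_sl_det γ
  let γ' : SL(2, ℤ) := ⟨!![γ 0 0, p * γ 0 1; c, γ 1 1], by
    rw [Matrix.det_fin_two_of]
    rw [hc] at hdet
    linear_combination hdet⟩
  have hMc : (M : ℤ) ∣ c := by
    have hM : (M : ℤ) ∣ γ 1 0 := (ZMod.intCast_zmod_eq_zero_iff_dvd _ _).mp h1.2.2
    rw [hc] at hM
    have hcop : IsCoprime (M : ℤ) (p : ℤ) :=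
      Nat.isCoprime_iff_coprime.mpr ((Nat.Prime.coprime_iff_not_dvd hp).mpr hpM).symm
    exact hcop.dvd_of_dvd_mul_left hM
  refine ⟨γ', ?_, fun τ => ?_⟩
  · rw [Gamma1_mem]
    refine ⟨h1.1, h1.2.1, ?_⟩
    show ((c : ℤ) : ZMod M) = 0
    exact (ZMod.intCast_zmod_eq_zero_iff_dvd _ _).mpr hMc
  · exact inf_aff_smul_eq (d := p) (a := p) (d' := 1) (b := 0) hp.pos hp.pos one_pos γ γ'
      (by simp [γ']; ring) (by simp [γ']) (by simp [γ', hc]; ring) (by simp [γ']) τ

theorem isGood_comp_diag (hpM : ¬ p ∣ M) {G : ℍ → ℂ} (hG : IsGood (Gamma1 M) G) :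
    IsGood (Gamma1p M p) (fun τ => G (heckeDiagMatrix p • τ)) := by
  haveI : NeZero p := ⟨(Fact.out : p.Prime).ne_zero⟩
  haveI : NeZero (M * p) := ⟨Nat.mul_ne_zero (NeZero.ne M) (NeZero.ne p)⟩
  have e : (fun τ => G (heckeDiagMatrix p • τ)) = fun τ => G (infAff p 0 1 τ) :=
    funext fun τ => by rw [diag_smul_eq_infAff]
  rw [e]
  have hmem : G ∈ H997.holN M :=
    mem_holN_of_isGood (Fermat.Agent.S48.H332.hasLevel_Gamma1 M) hG
  have hmem' : (fun τ => G (infAff p 0 1 τ)) ∈ H997.holN (M * p) :=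
    Fermat.Agent.S29.M4b.H822.comp_infAff_mem_holN hmem
  refine Fermat.Agent.S48.H332.isGoodFor_of_mem_holN hmem' ?_
  intro γ hγ τ
  obtain ⟨γ', hγ', h⟩ := exists_conj_diag hpM hγ
  show G (infAff p 0 1 (γ • τ)) = G (infAff p 0 1 τ)
  rw [h τ]
  exact hG.2.1 γ' hγ' _

/-- **(N2)** `β` is composition with `diag(p,1)` on realisations. -/
theorem betaAn1 (hpM : ¬ p ∣ M) :
    haveI : NeZero p := ⟨(Fact.out : p.Prime).ne_zero⟩
    BetaAn1 M p := by
  haveI : NeZero p := ⟨(Fact.out : p.Prime).ne_zero⟩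
  intro u G hu
  refine realises_of_hasQExp (isGood_comp_diag hpM hu.1) ?_
  have h := hasQExp_comp_diag (p := p) (hu.hasQExp (T_mem_Gamma1 M))
  rw [coe_beta1, coeffMap_qExpand_h822]
  exact h

/-- **The leaf `norm`, reduced to the degree of `α`.** -/
theorem normAn1_of_deg (hpM : ¬ p ∣ M) (hmero : DictMero (Gamma1 M) (F1Bar M))
    (hdeg : haveI : NeZero p := ⟨(Fact.out : p.Prime).ne_zero⟩; DegAlpha1 M p) :
    NormAn1 M p hpM :=
  normAn1_of_inputs hpM hmero (betaAn1 hpM) hdeg (cosets1 hpM)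

end Beta

end Fermat.Agent.S48.Kum

end
end
-- ===== PACK-END S48/Kum/Norm1In.lean

-- ===== PACK-BEGIN S48/F1/Raise.lean
section




/-!
# S48 / Tower A1, node A1-FF (helper168) — RAISING THE LEVEL of a generic analytic datum

`D : GenData M Γ P` (helper332's generic analytic input for the field `P.F = ℚ̄(S)` of modular
functions for `Γ`, avatars in `S24.holN M`).  For `p ≥ 1`:

* `raiseS P p = S ∪ {s(q^p) : s ∈ S}`, the generators of the field of level `(Γ; p)`;
* `raiseData D p F' hF' hconj : GenData (M * p) (Γ ⊓ Γ₀(p)) (raiseField P p F' hF')`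
  with avatars `G s` (`s ∈ S`) and `τ ↦ G s (p τ)`.

The only hypothesis `hconj` says that `Γ ∩ Γ₀(p)` is carried into `Γ` by conjugation with
`diag(p, 1)`; it holds for `Γ = ±Γ₁(M)` (`p ∤ M` is not even needed for that).

Consequently (generic engine, `H332.GenData.finrank_eq`, `.pkg`) the field `ℚ̄(S, S(q^p))` has
degree `[SL₂(ℤ) : Γ ∩ Γ₀(p)]` over `ℚ̄(j)` and carries the whole local dictionary: NO second
analytic instance is needed for `F1p M p`.
-/

set_option autoImplicit false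
set_option linter.style.haveILetI false
set_option linter.unusedSectionVars false

noncomputable section

open ModularCurve HahnSeries UpperHalfPlane
open scoped MatrixGroups Manifold Real

namespace Fermat.Agent.S48.F1

open Fermat.Agent.S24 Fermat.Agent.S24.H997 Fermat.Agent.S48.H332

/-! ### `holN` and change of level -/

section HolN

variable {N : ℕ} [NeZero N]

/-- An expansion in `exp(2πiτ/N)` is an expansion in `exp(2πiτ/(Nℓ))`. -/
theorem infExp_raise {f : ℍ → ℂ} {φ : LaurentSeries ℂ} (hf : InfExp N f φ) (ℓ : ℕ) [NeZero ℓ] :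
    InfExp (N * ℓ) f (qExpand ℂ ℓ φ) := by
  have hN : 0 < N := Nat.pos_of_ne_zero (NeZero.ne N)
  have hℓ : 0 < ℓ := Nat.pos_of_ne_zero (NeZero.ne ℓ)
  have h := hf.comp_infAff (N := N * ℓ) (a := 1) (d := 1) (e := ℓ) 0 one_pos one_pos hN
    (Nat.mul_pos hN hℓ) (by ring)
  rw [infRoot_zero, infTwist_one] at h
  refine h.congr fun τ => ?_
  rw [infAff_one_zero_one]

/-- `holN N ⊆ holN (N ℓ)`. -/
theorem mem_holN_raise {f : ℍ → ℂ} (hf : f ∈ holN N) (ℓ : ℕ) [NeZero ℓ] [NeZero (N * ℓ)] :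
    f ∈ holN (N * ℓ) := by
  refine ⟨hf.1, fun g => ?_⟩
  obtain ⟨φ, hφ⟩ := hf.2 g
  exact (infExp_raise hφ ℓ).mem_expRing

/-- `f ∈ holN N ⟹ (τ ↦ f (ℓ τ)) ∈ holN (N ℓ)`. -/
theorem comp_scale_mem_holN {f : ℍ → ℂ} (hf : f ∈ holN N) (ℓ : ℕ) [NeZero ℓ] [NeZero (N * ℓ)] :
    (fun τ => f (infAff ℓ 0 1 τ)) ∈ holN (N * ℓ) := by
  have hℓ : 0 < ℓ := Nat.pos_of_ne_zero (NeZero.ne ℓ)
  have hN : 0 < N := Nat.pos_of_ne_zero (NeZero.ne N)
  refine ⟨H564.mdiff_comp_infAff hf.1 hℓ one_pos 0, fun g => ?_⟩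
  obtain ⟨γ', a, d', b, ha, hd', had, h00, h01, h10, h11⟩ := inf_exists_hnf ℓ hℓ g
  obtain ⟨φ, hφ⟩ := hf.2 γ'
  haveI : NeZero (a * a) := ⟨(Nat.mul_pos ha ha).ne'⟩
  have he : a * a * (d' * N) = a * (N * ℓ) := by
    rw [← had]; ring
  have h := hφ.comp_infAff (e := a * a) b ha hd' hN (Nat.mul_pos hN hℓ) he
  have h2 : compSL g (fun τ => f (infAff ℓ 0 1 τ))
      = fun τ => compSL γ' f (infAff a b d' τ) := by
    funext τ
    show f (infAff ℓ 0 1 (g • τ)) = f (γ' • infAff a b d' τ)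
    rw [inf_aff_smul_eq hℓ ha hd' g γ' h00 h01 h10 h11 τ]
  rw [h2]
  exact h.mem_expRing

/-- The expansion of `τ ↦ f (ℓ τ)`. -/
theorem infExp_comp_scale {f : ℍ → ℂ} {φ : LaurentSeries ℂ} (hf : InfExp N f φ) (ℓ : ℕ)
    [NeZero ℓ] : InfExp (N * ℓ) (fun τ => f (infAff ℓ 0 1 τ)) (qExpand ℂ (ℓ * ℓ) φ) := by
  have hN : 0 < N := Nat.pos_of_ne_zero (NeZero.ne N)
  have hℓ : 0 < ℓ := Nat.pos_of_ne_zero (NeZero.ne ℓ)
  haveI : NeZero (ℓ * ℓ) := ⟨(Nat.mul_pos hℓ hℓ).ne'⟩
  have h := hf.comp_infAff (N := N * ℓ) (a := ℓ) (d := 1) (e := ℓ * ℓ) 0 hℓ one_pos hN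
    (Nat.mul_pos hN hℓ) (by ring)
  rw [infRoot_zero, infTwist_one] at h
  exact h

/-- An element of `holN N` is determined by its expansion at `i∞`. -/
theorem eq_of_infExp_holN {f g : ℍ → ℂ} {φ : LaurentSeries ℂ} (hf : f ∈ holN N)
    (hg : g ∈ holN N) (h1 : InfExp N f φ) (h2 : InfExp N g φ) : f = g := by
  have hinj : Function.Injective ((expInf N).comp (holToExp N)) :=
    expInf_injective.comp (holToExp_injective N)
  have e1 : (expInf N).comp (holToExp N) ⟨f, hf⟩ = φ := h1.expInf_eq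
  have e2 : (expInf N).comp (holToExp N) ⟨g, hg⟩ = φ := h2.expInf_eq
  exact congrArg Subtype.val (hinj (e1.trans e2.symm))

end HolN

/-! ### Coefficient maps and `q ↦ q^p` -/

theorem coeffMap_qExpand_raise {R S : Type*} [CommRing R] [CommRing S] (f : R →+* S) (n : ℕ)
    [NeZero n] (x : LaurentSeries R) :
    coeffMap f (qExpand R n x) = qExpand S n (coeffMap f x) := by
  ext k
  by_cases hk : (n : ℤ) ∣ k
  · obtain ⟨m, rfl⟩ := hk
    rw [coeffMap_coeff, qExpand_coeff_mul, qExpand_coeff_mul, coeffMap_coeff]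
  · rw [coeffMap_coeff, qExpand_coeff_of_not_dvd n _ hk, qExpand_coeff_of_not_dvd n _ hk,
      map_zero]

/-- `Φ_{Mp}(s) = (Φ_M s)(z^p)`. -/
theorem Φ_raise (M p : ℕ) [NeZero M] [NeZero p] [NeZero (M * p)] (s : LaurentSeries Kbar) :
    HolBase.Φ (M * p) s = qExpand ℂ p (HolBase.Φ M s) := by
  show qExpand ℂ (M * p) (coeffMap ιK s) = qExpand ℂ p (qExpand ℂ M (coeffMap ιK s))
  rw [qExpand_qExpand]
  exact qExpand_congr (mul_comm M p) _

/-- `Φ_{Mp}(s(q^p)) = (Φ_M s)(z^{p²})`. -/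
theorem Φ_raise_qExpand (M p : ℕ) [NeZero M] [NeZero p] [NeZero (M * p)] [NeZero (p * p)]
    (s : LaurentSeries Kbar) :
    HolBase.Φ (M * p) (qExpand Kbar p s) = qExpand ℂ (p * p) (HolBase.Φ M s) := by
  show qExpand ℂ (M * p) (coeffMap ιK (qExpand Kbar p s))
    = qExpand ℂ (p * p) (qExpand ℂ M (coeffMap ιK s))
  haveI : NeZero (M * p * p) := ⟨Nat.mul_ne_zero (NeZero.ne (M * p)) (NeZero.ne p)⟩
  haveI : NeZero (p * p * M) := ⟨Nat.mul_ne_zero (NeZero.ne (p * p)) (NeZero.ne M)⟩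
  rw [coeffMap_qExpand_raise, qExpand_qExpand, qExpand_qExpand]
  exact qExpand_congr (by ring) _

/-! ### The raised datum -/

section Raise

variable {M : ℕ} [NeZero M] {Γ : Subgroup SL(2, ℤ)} {P : GenField}

/-- The generators of the field of level `(Γ; p)`: `S ∪ S(q^p)`. -/
def raiseS (P : GenField) (p : ℕ) [NeZero p] : Set (LaurentSeries Kbar) :=
  P.S ∪ (⇑(qExpand Kbar p) '' P.S)

/-- The field of level `(Γ; p)`, presented as a `GenField`. -/
def raiseField (P : GenField) (p : ℕ) [NeZero p]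
    (F' : IntermediateField Kbar (LaurentSeries Kbar))
    (hF' : F' = IntermediateField.adjoin Kbar (raiseS P p)) : GenField where
  S := raiseS P p
  F := F'
  hF := hF'
  hj := Or.inl P.hj

open Classical in
/-- The avatars of the raised datum: `G s` for `s ∈ S`, `τ ↦ G s₀ (p τ)` for `s = s₀(q^p)`. -/
def raiseG (D : GenData M Γ P) (p : ℕ) [NeZero p] (s : LaurentSeries Kbar) : ℍ → ℂ :=
  if s ∈ P.S then D.G s
  else fun τ => D.G (Function.invFun (⇑(qExpand Kbar p)) s) (infAff p 0 1 τ)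

variable (D : GenData M Γ P) (p : ℕ) [NeZero p]

theorem raiseG_of_mem {s : LaurentSeries Kbar} (hs : s ∈ P.S) : raiseG D p s = D.G s := by
  rw [raiseG, if_pos hs]

theorem raiseG_qExpand [NeZero (M * p)] {s₀ : LaurentSeries Kbar} (hs₀ : s₀ ∈ P.S) :
    raiseG D p (qExpand Kbar p s₀) = fun τ => D.G s₀ (infAff p 0 1 τ) := by
  have hp : 0 < p := Nat.pos_of_ne_zero (NeZero.ne p)
  haveI : NeZero (p * p) := ⟨(Nat.mul_pos hp hp).ne'⟩
  by_cases hs : qExpand Kbar p s₀ ∈ P.S
  · rw [raiseG_of_mem D p hs]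
    refine eq_of_infExp_holN (N := M * p) (mem_holN_raise (D.G_mem _ hs) p)
      (comp_scale_mem_holN (D.G_mem _ hs₀) p) (φ := HolBase.Φ (M * p) (qExpand Kbar p s₀)) ?_ ?_
    · rw [Φ_raise]
      exact infExp_raise (D.G_exp _ hs) p
    · rw [Φ_raise_qExpand]
      exact infExp_comp_scale (D.G_exp _ hs₀) p
  · rw [raiseG, if_neg hs]
    have hinv : Function.invFun (⇑(qExpand Kbar p)) (qExpand Kbar p s₀) = s₀ :=
      Function.leftInverse_invFun (qExpand_injective (R := Kbar) p) s₀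
    rw [hinv]

/-- **Raising the level** of a generic analytic datum. -/
def raiseData [NeZero (M * p)] (F' : IntermediateField Kbar (LaurentSeries Kbar))
    (hF' : F' = IntermediateField.adjoin Kbar (raiseS P p))
    (hconj : ∀ g ∈ Γ, g ∈ CongruenceSubgroup.Gamma0 p →
      ∃ g' ∈ Γ, ∀ τ : ℍ, infAff p 0 1 (g • τ) = g' • infAff p 0 1 τ) :
    GenData (M * p) (Γ ⊓ CongruenceSubgroup.Gamma0 p) (raiseField P p F' hF') where
  G := raiseG D p
  G_mem := by
    rintro s (hs | ⟨s₀, hs₀, rfl⟩)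
    · rw [raiseG_of_mem D p hs]
      exact mem_holN_raise (D.G_mem _ hs) p
    · rw [raiseG_qExpand D p hs₀]
      exact comp_scale_mem_holN (D.G_mem _ hs₀) p
  G_j := by
    rw [raiseG_of_mem D p P.hj]
    exact D.G_j
  G_inv := by
    rintro s (hs | ⟨s₀, hs₀, rfl⟩) g hg τ
    · rw [raiseG_of_mem D p hs]
      exact D.G_inv s hs g hg.1 τ
    · rw [raiseG_qExpand D p hs₀]
      obtain ⟨g', hg', h⟩ := hconj g hg.1 hg.2
      show D.G s₀ (infAff p 0 1 (g • τ)) = D.G s₀ (infAff p 0 1 τ)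
      rw [h τ]
      exact D.G_inv s₀ hs₀ g' hg' _
  G_distinct := by
    intro g hg
    refine ⟨D.G_distinct g fun s hs τ => ?_, ?_⟩
    · have := hg s (Or.inl hs) τ
      rwa [raiseG_of_mem D p hs] at this
    · apply Jd_distinct p g
      intro τ
      have := hg (qExpand Kbar p jBar) (Or.inr ⟨jBar, P.hj, rfl⟩) τ
      rw [raiseG_qExpand D p P.hj] at this
      simp only [D.G_j] at this
      exact this
  G_exp := by
    have hp : 0 < p := Nat.pos_of_ne_zero (NeZero.ne p)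
    haveI : NeZero (p * p) := ⟨(Nat.mul_pos hp hp).ne'⟩
    rintro s (hs | ⟨s₀, hs₀, rfl⟩)
    · rw [raiseG_of_mem D p hs, Φ_raise]
      exact infExp_raise (D.G_exp _ hs) p
    · rw [raiseG_qExpand D p hs₀, Φ_raise_qExpand]
      exact infExp_comp_scale (D.G_exp _ hs₀) p

end Raise

end Fermat.Agent.S48.F1

end
end
-- ===== PACK-END S48/F1/Raise.lean

-- ===== PACK-BEGIN S48/F1/RaiseF1.lean
section






/-!
# S48 / Tower A1, node A1-FF (helper168) — the fields `F1 M`, `F1p M p` as generic fields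

On top of helper332's instance `H332.f1Data M : GenData M (pmGamma1 M) (f1Field M)`:

* `f1pField M p : GenField` — `ℚ̄ · F1p M p` with generators `S₀ ∪ S₀(q^p)`;
* `f1pData M p hpM : GenData (M p) (±Γ₁(M) ⊓ Γ₀(p)) (f1pField M p)` (`p` prime to `M`), hence
  `f1pPkg` (the whole local dictionary of `F1p M p`), `finrank_F1pL`;
* `finiteDimensional_F1L`, `finiteDimensional_F1pL`, `exists_coord_F1L`, `exists_coord_F1pL`;
* **`hi1`** : `CorrInputs (beta1 ℚ̄ M p) (alpha1 ℚ̄ M p)` for `p ∤ M` prime (= `H136.HI1Statement`);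
* **`finrankAlong_alpha1_le`** : `[ℚ̄·F1p : α(ℚ̄·F1)] ≤ p + 1` (`hdeg` of A1-NORM).
-/

set_option autoImplicit false
set_option linter.style.haveILetI false
set_option linter.unusedSectionVars false

noncomputable section

open ModularCurve HahnSeries UpperHalfPlane AlgebraicCurve IntermediateField
open scoped MatrixGroups Manifold Real

namespace Fermat.Agent.S48.F1

open Fermat.Agent.S24 Fermat.Agent.S24.H997 Fermat.Agent.S48.H332

/-! ### The generic fields -/

theorem F1_eq_adjoin (M : ℕ) : F1 M = IntermediateField.adjoin ℚ (f1Gens M) := rfl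

theorem F1p_eq_adjoin (M p : ℕ) [NeZero p] :
    F1p M p = IntermediateField.adjoin ℚ (f1Gens M ∪ ⇑(qExpand ℚ p) '' f1Gens M) := by
  rw [F1p, F1_eq_adjoin, IntermediateField.adjoin_map, ← IntermediateField.adjoin_union]
  rfl

theorem F1pL_eq (M p : ℕ) [NeZero p] :
    F1pL Kbar M p = IntermediateField.adjoin Kbar (raiseS (f1Field M) p) := by
  show laurentBaseChange Kbar (F1p M p) = _
  rw [F1p_eq_adjoin, laurentBaseChange_adjoin]
  congr 1
  rw [raiseS, f1Field_S, Set.image_union, Set.image_image, Set.image_image]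
  congr 1
  exact Set.image_congr fun x _ => (qExpand_coeffEmb (L := Kbar) p x).symm

/-- `ℚ̄ · F1p M p` as a generic field. -/
def f1pField (M p : ℕ) [NeZero p] : GenField :=
  raiseField (f1Field M) p (F1pL Kbar M p) (F1pL_eq M p)

theorem f1pField_F (M p : ℕ) [NeZero p] : (f1pField M p).F = F1pL Kbar M p := rfl


/-! ### Conjugation by `diag(p, 1)` -/

/-- For `g ∈ Γ₀(p)` the matrix `g' = diag(p,1) g diag(p,1)⁻¹` is integral, has the same diagonal
as `g`, lower left entry `g₁₀ / p`, and `p · (g τ) = g' (p τ)`. -/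
theorem exists_conj_scale (p : ℕ) [NeZero p] (g : SL(2, ℤ))
    (hg : g ∈ CongruenceSubgroup.Gamma0 p) :
    ∃ g' : SL(2, ℤ), g' 0 0 = g 0 0 ∧ g' 1 1 = g 1 1 ∧ (p : ℤ) * g' 1 0 = g 1 0 ∧
      g' 0 1 = p * g 0 1 ∧ ∀ τ : ℍ, infAff p 0 1 (g • τ) = g' • infAff p 0 1 τ := by
  have hp : 0 < p := Nat.pos_of_ne_zero (NeZero.ne p)
  have hpg : (p : ℤ) ∣ g 1 0 := by
    rw [CongruenceSubgroup.Gamma0_mem] at hg
    exact (ZMod.intCast_zmod_eq_zero_iff_dvd _ _).mp hg
  obtain ⟨c, hc⟩ := hpg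
  have hdet := inf_sl_det g
  let g' : SL(2, ℤ) := ⟨!![g 0 0, p * g 0 1; c, g 1 1], by
    rw [Matrix.det_fin_two_of]
    rw [hc] at hdet
    linear_combination hdet⟩
  refine ⟨g', by simp [g'], by simp [g'], by simp [g', hc], by simp [g'], fun τ => ?_⟩
  exact inf_aff_smul_eq (d := p) (a := p) (d' := 1) (b := 0) hp hp one_pos g g'
    (by simp [g']; ring) (by simp [g']) (by simp [g', hc]; ring) (by simp [g']) τ

/-- `±Γ₁(M) ∩ Γ₀(p)` is carried into `±Γ₁(M)` by conjugation with `diag(p, 1)`, `p` prime to `M`. -/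
theorem conj_pmGamma1 {M p : ℕ} [NeZero p] (hpM : Nat.Coprime p M) (g : SL(2, ℤ))
    (hg : g ∈ pmGamma1 M) (hgp : g ∈ CongruenceSubgroup.Gamma0 p) :
    ∃ g' ∈ pmGamma1 M, ∀ τ : ℍ, infAff p 0 1 (g • τ) = g' • infAff p 0 1 τ := by
  obtain ⟨g', h00, -, h10, -, h⟩ := exists_conj_scale p g hgp
  refine ⟨g', ?_, h⟩
  rw [mem_pmGamma1] at hg ⊢
  refine ⟨?_, by rw [h00]; exact hg.2⟩
  rw [CongruenceSubgroup.Gamma0_mem]
  have hM : (M : ℤ) ∣ g 1 0 :=
    (ZMod.intCast_zmod_eq_zero_iff_dvd _ _).mp (CongruenceSubgroup.Gamma0_mem.mp hg.1)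
  rw [← h10] at hM
  have hcop : IsCoprime (M : ℤ) (p : ℤ) := by
    rw [Int.isCoprime_iff_gcd_eq_one, Int.gcd_natCast_natCast]
    exact hpM.symm
  exact (ZMod.intCast_zmod_eq_zero_iff_dvd _ _).mpr (hcop.dvd_of_dvd_mul_left hM)

/-- **The analytic datum of `F1p M p`**, `Γ = ±Γ₁(M) ∩ Γ₀(p)`, `p` prime to `M`. -/
def f1pData (M : ℕ) [NeZero M] (p : ℕ) [NeZero p] [NeZero (M * p)] (hpM : Nat.Coprime p M) :
    GenData (M * p) (pmGamma1 M ⊓ CongruenceSubgroup.Gamma0 p) (f1pField M p) :=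
  raiseData (f1Data M) p (F1pL Kbar M p) (F1pL_eq M p) (conj_pmGamma1 hpM)

/-! ### Finite index -/

theorem finite_XG_Gamma0 (p : ℕ) [NeZero p] : Finite (XG (CongruenceSubgroup.Gamma0 p)) := by
  have h : Nat.card (XX p) = dedekindPsi p := card_XX p
  have hpos : 0 < dedekindPsi p := by
    rw [dedekindPsi]
    apply Finset.sum_pos'
    · intro d _; exact Nat.zero_le _
    · refine ⟨1, ?_, ?_⟩
      · rw [Finset.mem_filter]
        exact ⟨Nat.one_mem_divisors.mpr (NeZero.ne p), squarefree_one⟩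
      · simpa using Nat.pos_of_ne_zero (NeZero.ne p)
  exact Nat.finite_of_card_ne_zero (by rw [show XG (CongruenceSubgroup.Gamma0 p) = XX p from rfl, h]; exact hpos.ne')

theorem finite_XG_inf (Γ : Subgroup SL(2, ℤ)) [Finite (XG Γ)] (p : ℕ) [NeZero p] :
    Finite (XG (Γ ⊓ CongruenceSubgroup.Gamma0 p)) := by
  haveI := finite_XG_Gamma0 p
  haveI h1 : Γ.FiniteIndex := Subgroup.finiteIndex_of_finite_quotient
  haveI h2 : (CongruenceSubgroup.Gamma0 p).FiniteIndex := Subgroup.finiteIndex_of_finite_quotient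
  haveI : (Γ ⊓ CongruenceSubgroup.Gamma0 p).FiniteIndex := inferInstance
  exact Subgroup.finite_quotient_of_finiteIndex

theorem card_XG_inf_le (Γ : Subgroup SL(2, ℤ)) (p : ℕ) [NeZero p] :
    Nat.card (XG (Γ ⊓ CongruenceSubgroup.Gamma0 p)) ≤ Nat.card (XG Γ) * dedekindPsi p := by
  have h : Nat.card (XX p) = dedekindPsi p := card_XX p
  rw [← h]
  exact Subgroup.index_inf_le

theorem dedekindPsi_prime_raise {p : ℕ} (hp : p.Prime) : dedekindPsi p = p + 1 := by
  rw [dedekindPsi, hp.divisors, Finset.filter_true_of_mem, Finset.sum_pair hp.one_lt.ne]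
  · rw [Nat.div_one, Nat.div_self hp.pos]
  · intro d hd
    rw [Finset.mem_insert, Finset.mem_singleton] at hd
    rcases hd with rfl | rfl
    · exact squarefree_one
    · exact hp.squarefree

/-! ### Consequences for `F1 M` and `F1p M p` -/

/-- `j` as an element of `ℚ̄ · F1 M`. -/
def jL (M : ℕ) : F1L Kbar M := (f1Field M).jF

/-- `j` as an element of `ℚ̄ · F1p M p`. -/
def jpL (M p : ℕ) [NeZero p] : F1pL Kbar M p := (f1pField M p).jF

theorem coe_jL (M : ℕ) : ((jL M : F1L Kbar M) : LaurentSeries Kbar) = coeffEmb Kbar jq := rfl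

theorem coe_jpL (M p : ℕ) [NeZero p] :
    ((jpL M p : F1pL Kbar M p) : LaurentSeries Kbar) = coeffEmb Kbar jq := rfl

theorem alpha1_jL (M p : ℕ) [NeZero p] : alpha1 Kbar M p (jL M) = jpL M p :=
  Subtype.ext (by rw [coe_alpha1, coe_jL, coe_jpL])

/-- A non-constant element of a subfield of `ℚ̄((q))` with a pole is transcendental. -/
theorem transcendental_of_coe_eq_jq {F : IntermediateField Kbar (LaurentSeries Kbar)} (x : F)
    (hx : (x : LaurentSeries Kbar) = coeffEmb Kbar jq) : Transcendental Kbar x := by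
  apply Fermat.Agent.S24.FF.transcendental_of_not_mem_range
  rintro ⟨c, hc⟩
  have h1 : ((algebraMap Kbar F c : F) : LaurentSeries Kbar).coeff (-1)
      = ((x : F) : LaurentSeries Kbar).coeff (-1) := by rw [hc]
  have h2 : ((algebraMap Kbar F c : F) : LaurentSeries Kbar)
      = algebraMap Kbar (LaurentSeries Kbar) c := rfl
  rw [h2, algebraMap_laurentSeries_eq_single, hx, coeffEmb_coeff, coeff_jq_neg_one, map_one,
    HahnSeries.coeff_single_of_ne (by norm_num)] at h1
  exact zero_ne_one h1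

theorem transcendental_jL (M : ℕ) : Transcendental Kbar (jL M) :=
  transcendental_of_coe_eq_jq _ (coe_jL M)

theorem transcendental_jpL (M p : ℕ) [NeZero p] : Transcendental Kbar (jpL M p) :=
  transcendental_of_coe_eq_jq _ (coe_jpL M p)

section Consequences

variable (M : ℕ) [NeZero M] (p : ℕ) [NeZero p] [NeZero (M * p)] (hpM : Nat.Coprime p M)

/-- **The generic modular package of `ℚ̄·F1p(M, p)`** (local dictionary at every `j = a`, `∞`). -/
def f1pPkg : GenPackage (M * p) (pmGamma1 M ⊓ CongruenceSubgroup.Gamma0 p) (f1pField M p) :=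
  haveI := finite_XG_inf (pmGamma1 M) p
  (f1pData M p hpM).pkg

theorem finiteDimensional_F1L : FiniteDimensional Kbar⟮jL M⟯ (F1L Kbar M) :=
  (f1Data M).finiteDimensional

theorem finrank_F1L : Module.finrank Kbar⟮jL M⟯ (F1L Kbar M) = Nat.card (XG (pmGamma1 M)) :=
  (f1Data M).finrank_eq

include hpM in
theorem finiteDimensional_F1pL : FiniteDimensional Kbar⟮jpL M p⟯ (F1pL Kbar M p) :=
  haveI := finite_XG_inf (pmGamma1 M) p
  (f1pData M p hpM).finiteDimensional

include hpM in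
theorem finrank_F1pL : Module.finrank Kbar⟮jpL M p⟯ (F1pL Kbar M p)
    = Nat.card (XG (pmGamma1 M ⊓ CongruenceSubgroup.Gamma0 p)) :=
  haveI := finite_XG_inf (pmGamma1 M) p
  (f1pData M p hpM).finrank_eq

theorem exists_coord_F1L :
    ∃ x : F1L Kbar M, Transcendental Kbar x ∧ FiniteDimensional Kbar⟮x⟯ (F1L Kbar M) :=
  ⟨jL M, transcendental_jL M, finiteDimensional_F1L M⟩

include hpM in
theorem exists_coord_F1pL :
    ∃ x : F1pL Kbar M p, Transcendental Kbar x ∧ FiniteDimensional Kbar⟮x⟯ (F1pL Kbar M p) :=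
  ⟨jpL M p, transcendental_jpL M p, finiteDimensional_F1pL M p hpM⟩

include hpM in
/-- `CorrInputs` for the Hecke correspondence `α_* β^*` of level `(M; p)`, `p` prime to `M`. -/
theorem corrInputs_of_coprime : CorrInputs (beta1 Kbar M p) (alpha1 Kbar M p) := by
  have hF := exists_coord_F1L M
  have hF' := exists_coord_F1pL M p hpM
  haveI := finiteDimensional_F1pL M p hpM
  haveI hP : HasPrincipalDivisors Kbar (F1pL Kbar M p) :=
    Fermat.Agent.Lib.RR.H864.hasPrincipalDivisors (jpL M p) (transcendental_jpL M p)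
  have hfinα := Fermat.Agent.S29.H812.finiteAlong hF hF' (alpha1 Kbar M p)
  have hfinβ := Fermat.Agent.S29.H812.finiteAlong hF hF' (beta1 Kbar M p)
  exact ⟨Fermat.Agent.S29.H812.isIntegral_of_finiteAlong hfinβ,
    Fermat.Agent.S29.H812.isIntegral_of_finiteAlong hfinα, hP, hfinα,
    Fermat.Agent.S29.H812.fundamentalIdentityAlong hF _ hfinβ _,
    Fermat.Agent.S29.H812.normFormulaAlong hF _ hfinα⟩

include hpM in
/-- the same for the transposed correspondence `β_* α^*` -/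
theorem corrInputs_of_coprime' : CorrInputs (alpha1 Kbar M p) (beta1 Kbar M p) := by
  have hF := exists_coord_F1L M
  have hF' := exists_coord_F1pL M p hpM
  haveI := finiteDimensional_F1pL M p hpM
  haveI hP : HasPrincipalDivisors Kbar (F1pL Kbar M p) :=
    Fermat.Agent.Lib.RR.H864.hasPrincipalDivisors (jpL M p) (transcendental_jpL M p)
  have hfinα := Fermat.Agent.S29.H812.finiteAlong hF hF' (alpha1 Kbar M p)
  have hfinβ := Fermat.Agent.S29.H812.finiteAlong hF hF' (beta1 Kbar M p)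
  exact ⟨Fermat.Agent.S29.H812.isIntegral_of_finiteAlong hfinα,
    Fermat.Agent.S29.H812.isIntegral_of_finiteAlong hfinβ, hP, hfinβ,
    Fermat.Agent.S29.H812.fundamentalIdentityAlong hF _ hfinα _,
    Fermat.Agent.S29.H812.normFormulaAlong hF _ hfinβ⟩

include hpM in
/-- **DEG**: `[ℚ̄·F1p M p : α(ℚ̄·F1 M)] ≤ p + 1`. -/
theorem finrankAlong_alpha1_le_of_coprime (hp : p.Prime) :
    finrankAlong Kbar (alpha1 Kbar M p) ≤ p + 1 := by
  letI := algebraAlong (alpha1 Kbar M p)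
  haveI := isScalarTower_along (alpha1 Kbar M p)
  have h1 := Fermat.Agent.S29.H812.finrank_adjoin_algebraMap (K := Kbar) (F := F1L Kbar M)
    (F' := F1pL Kbar M p) (jL M)
  have h2 : algebraMap (F1L Kbar M) (F1pL Kbar M p) (jL M) = jpL M p := alpha1_jL M p
  rw [h2, finrank_F1pL M p hpM, finrank_F1L M] at h1
  have h3 := card_XG_inf_le (pmGamma1 M) p
  rw [dedekindPsi_prime_raise hp, h1] at h3
  have hpos : 0 < Nat.card (XG (pmGamma1 M)) := Nat.card_pos
  exact Nat.le_of_mul_le_mul_left h3 hpos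

end Consequences

/-! ### The node statements, in the shape of the consumers -/

/-- **HI1** (`= H136.HI1Statement`, verbatim). -/
theorem hi1 : ∀ (M p : ℕ) [NeZero p], M ≠ 0 → p.Prime → ¬ p ∣ M →
    CorrInputs (beta1 (AlgebraicClosure ℚ) M p) (alpha1 (AlgebraicClosure ℚ) M p) := by
  intro M p _ hM hp hpM
  haveI : NeZero M := ⟨hM⟩
  haveI : NeZero (M * p) := ⟨Nat.mul_ne_zero hM hp.ne_zero⟩
  exact corrInputs_of_coprime M p ((Nat.Prime.coprime_iff_not_dvd hp).mpr hpM)

/-- **HI1ᵀ**: the inputs of the transposed correspondence. -/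
theorem hi1T : ∀ (M p : ℕ) [NeZero p], M ≠ 0 → p.Prime → ¬ p ∣ M →
    CorrInputs (alpha1 (AlgebraicClosure ℚ) M p) (beta1 (AlgebraicClosure ℚ) M p) := by
  intro M p _ hM hp hpM
  haveI : NeZero M := ⟨hM⟩
  haveI : NeZero (M * p) := ⟨Nat.mul_ne_zero hM hp.ne_zero⟩
  exact corrInputs_of_coprime' M p ((Nat.Prime.coprime_iff_not_dvd hp).mpr hpM)

/-- **DEG** (`hdeg` of `H428.normIdG_of_embeddings_jq`). -/
theorem finrankAlong_alpha1_le : ∀ (M p : ℕ) [NeZero p], M ≠ 0 → p.Prime → ¬ p ∣ M →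
    finrankAlong (AlgebraicClosure ℚ) (alpha1 (AlgebraicClosure ℚ) M p) ≤ p + 1 := by
  intro M p _ hM hp hpM
  haveI : NeZero M := ⟨hM⟩
  haveI : NeZero (M * p) := ⟨Nat.mul_ne_zero hM hp.ne_zero⟩
  exact finrankAlong_alpha1_le_of_coprime M p ((Nat.Prime.coprime_iff_not_dvd hp).mpr hpM) hp

/-- **FIN**: `FiniteAlong` for `α` and `β`. -/
theorem finiteAlong_alpha1_beta1 : ∀ (M p : ℕ) [NeZero p], M ≠ 0 → p.Prime → ¬ p ∣ M →
    FiniteAlong (AlgebraicClosure ℚ) (alpha1 (AlgebraicClosure ℚ) M p) ∧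
      FiniteAlong (AlgebraicClosure ℚ) (beta1 (AlgebraicClosure ℚ) M p) := by
  intro M p _ hM hp hpM
  haveI : NeZero M := ⟨hM⟩
  haveI : NeZero (M * p) := ⟨Nat.mul_ne_zero hM hp.ne_zero⟩
  have hc := (Nat.Prime.coprime_iff_not_dvd hp).mpr hpM
  exact ⟨Fermat.Agent.S29.H812.finiteAlong (exists_coord_F1L M) (exists_coord_F1pL M p hc) _,
    Fermat.Agent.S29.H812.finiteAlong (exists_coord_F1L M) (exists_coord_F1pL M p hc) _⟩

end Fermat.Agent.S48.F1

end
end
-- ===== PACK-END S48/F1/RaiseF1.lean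

-- ===== PACK-BEGIN S48/F1/DegAlpha.lean
section




/-!
# S48 / Tower A1, node A1-FF (helper168) — the degree of `α` is EXACTLY `p + 1`

`degAlpha1 : Kum.DegAlpha1 M p` (N3 of `Kum/Norm1.lean`, VERBATIM) for every prime `p ∤ M`:

* `≤ p + 1` : `F1.finrankAlong_alpha1_le_of_coprime` (tower law for the two generic packages and
  `[SL₂(ℤ) : Γ₀(p)] = p + 1`);
* `≥ p + 1` : the `p + 1` elements `rep1γ x ∈ Γ₁(M)` (helper548) are pairwise inequivalent modulo
  `Γ₀(p)`, so `[±Γ₁(M) : ±Γ₁(M) ∩ Γ₀(p)] ≥ p + 1`.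
-/

set_option autoImplicit false
set_option linter.style.haveILetI false
set_option linter.unusedSectionVars false

noncomputable section

open ModularCurve HahnSeries UpperHalfPlane AlgebraicCurve IntermediateField CongruenceSubgroup
open scoped MatrixGroups

namespace Fermat.Agent.S48.F1

open Fermat.Agent.S24 Fermat.Agent.S24.H997 Fermat.Agent.S48.H332

/-- `p + 1 ≤ [Γ : Γ ∩ Γ₀(p)]` as soon as `Γ` contains `p + 1` elements which are pairwise
inequivalent modulo `Γ₀(p)`. -/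
theorem le_relIndex_of_reps {Γ Γ' : Subgroup SL(2, ℤ)} [Γ'.FiniteIndex] {ι : Type*} [Finite ι]
    (gam : ι → SL(2, ℤ)) (hmem : ∀ x, gam x ∈ Γ)
    (hinj : ∀ x y, gam x * (gam y)⁻¹ ∈ Γ' → x = y) :
    Nat.card ι ≤ Γ'.relIndex Γ := by
  haveI : (Γ'.subgroupOf Γ).FiniteIndex := inferInstance
  haveI : Finite (Γ ⧸ Γ'.subgroupOf Γ) := Subgroup.finite_quotient_of_finiteIndex
  refine Nat.card_le_card_of_injective
    (fun x => ((⟨(gam x)⁻¹, Γ.inv_mem (hmem x)⟩ : Γ) : Γ ⧸ Γ'.subgroupOf Γ)) ?_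
  intro x y hxy
  rw [QuotientGroup.eq] at hxy
  apply hinj x y
  have h : ((⟨(gam x)⁻¹, Γ.inv_mem (hmem x)⟩ : Γ)⁻¹ * ⟨(gam y)⁻¹, Γ.inv_mem (hmem y)⟩ : Γ)
      ∈ Γ'.subgroupOf Γ := hxy
  rw [Subgroup.mem_subgroupOf] at h
  simpa using h

section

variable (M : ℕ) [NeZero M] (p : ℕ) [Fact p.Prime]

theorem card_onePoint_zmod : Nat.card (OnePoint (ZMod p)) = p + 1 := by
  haveI : NeZero p := ⟨(Fact.out : p.Prime).ne_zero⟩
  show Nat.card (Option (ZMod p)) = p + 1
  rw [Nat.card_eq_fintype_card, Fintype.card_option, ZMod.card]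

/-- `[±Γ₁(M) : ±Γ₁(M) ∩ Γ₀(p)] ≥ p + 1`. -/
theorem le_relIndex_pmGamma1 (hpM : ¬ p ∣ M) :
    p + 1 ≤ (Gamma0 p).relIndex (pmGamma1 M) := by
  haveI : NeZero p := ⟨(Fact.out : p.Prime).ne_zero⟩
  haveI := finite_XG_Gamma0 p
  haveI : (Gamma0 p).FiniteIndex := Subgroup.finiteIndex_of_finite_quotient
  have h := le_relIndex_of_reps (Γ := pmGamma1 M) (Γ' := Gamma0 p)
    (fun x : OnePoint (ZMod p) => Fermat.Agent.S48.H548.rep1γ hpM x)
    (fun x => Gamma1_le_pmGamma1 M (Fermat.Agent.S48.H548.rep1γ_mem hpM x))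
    (fun x y hxy => Fermat.Agent.S48.H548.rep1γ_injective hpM hxy)
  rwa [card_onePoint_zmod] at h

/-- **N3 = `Kum.DegAlpha1`, VERBATIM**: `[ℚ̄·F₁(M;p) : ℚ̄·F₁(M)] = p + 1` along `α`. -/
theorem degAlpha1 (hpM : ¬ p ∣ M) :
    haveI : NeZero p := ⟨(Fact.out : p.Prime).ne_zero⟩
    Fermat.Agent.S48.Kum.DegAlpha1 M p := by
  haveI : NeZero p := ⟨(Fact.out : p.Prime).ne_zero⟩
  have hp : p.Prime := Fact.out
  haveI : NeZero (M * p) := ⟨Nat.mul_ne_zero (NeZero.ne M) hp.ne_zero⟩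
  have hc : Nat.Coprime p M := (Nat.Prime.coprime_iff_not_dvd hp).mpr hpM
  have hle := finrankAlong_alpha1_le_of_coprime M p hc hp
  show (letI := algebraAlong (alpha1 (AlgebraicClosure ℚ) M p);
    Module.finrank (F1Bar M) (F1pL (AlgebraicClosure ℚ) M p)) = p + 1
  refine le_antisymm hle ?_
  -- the lower bound
  letI := algebraAlong (alpha1 Kbar M p)
  haveI := isScalarTower_along (alpha1 Kbar M p)
  have h1 := Fermat.Agent.S29.H812.finrank_adjoin_algebraMap (K := Kbar) (F := F1L Kbar M)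
    (F' := F1pL Kbar M p) (jL M)
  have h2 : algebraMap (F1L Kbar M) (F1pL Kbar M p) (jL M) = jpL M p := alpha1_jL M p
  rw [h2, finrank_F1pL M p hc, finrank_F1L M] at h1
  -- `card (XG (Γ ⊓ Γ₀)) = relIndex * card (XG Γ)`
  have h3 : (pmGamma1 M ⊓ Gamma0 p).relIndex (pmGamma1 M) * (pmGamma1 M).index
      = (pmGamma1 M ⊓ Gamma0 p).index := Subgroup.relIndex_mul_index inf_le_left
  rw [Subgroup.inf_relIndex_left] at h3
  have h4 : Nat.card (XG (pmGamma1 M ⊓ Gamma0 p)) = (pmGamma1 M ⊓ Gamma0 p).index := rfl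
  have h5 : Nat.card (XG (pmGamma1 M)) = (pmGamma1 M).index := rfl
  rw [h4, h5, ← h3, mul_comm] at h1
  have hpos : 0 < (pmGamma1 M).index := by
    rw [← h5]; exact Nat.card_pos
  have h6 := Nat.eq_of_mul_eq_mul_left hpos h1
  show p + 1 ≤ Module.finrank (F1L Kbar M) (F1pL Kbar M p)
  rw [← h6]
  exact le_relIndex_pmGamma1 M p hpM

end

end Fermat.Agent.S48.F1

end
end
-- ===== PACK-END S48/F1/DegAlpha.lean

-- ===== PACK-BEGIN S48/H428/HolFrame.lean
section


/-!
# S48 / RES (Tower A1) — NORMID1, part 1: the analytic frame (helper428)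

A generator-free frame for "`q`-series over `ℚ̄` with a meromorphic avatar of level `L`", on top of
the S24 analytic layer (`holN L`, `InfExp`, `compSL`):

* `HolField L = Frac (holN L)` with the expansion `holExp L : HolField L →+* ℂ((z))`
  (`z = exp(2πiτ/L)`) and the translation `holAct L g` (`f ↦ f ∘ g`, `g ∈ SL(2,ℤ)`);
* `avatarFieldC L : Subfield ℚ̄((q))` : the `q`-series `f` such that `Φ_L f = f(z^L)` (coefficients
  through `ιK : ℚ̄ → ℂ`) is the expansion of an element of `HolField L`;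
* `sigC L g : avatarFieldC L →+* ℂ((z))` : `f ↦` expansion of `(avatar of f) ∘ g`;
* `mem_avatarFieldC_of_hol`, `sigC_of_hol` : membership and the value of `sigC` from a holomorphic
  avatar; `sigC_one` : `sigC L 1 = Φ_L`.
-/

set_option autoImplicit false
set_option linter.unusedSectionVars false
set_option linter.style.haveILetI false

noncomputable section

open ModularCurve HahnSeries UpperHalfPlane
open scoped MatrixGroups

namespace Fermat.Agent.S48.H428

open Fermat.Agent.S24 Fermat.Agent.S24.H997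

variable (L : ℕ) [NeZero L]

/-! ### The ring `holN L` -/

/-- The expansion at `∞` (variable `z = exp(2πiτ/L)`) on `holN L`. -/
def holExp0 : holN L →+* LaurentSeries ℂ := (expInf L).comp (holToExp L)

theorem holExp0_injective : Function.Injective (holExp0 L) :=
  expInf_injective.comp (holToExp_injective L)

theorem holExp0_spec (f : holN L) : InfExp L (f : ℍ → ℂ) (holExp0 L f) :=
  expInf_spec (holToExp L f)

variable {L} in
theorem holExp0_eq {f : holN L} {φ : LaurentSeries ℂ} (h : InfExp L (f : ℍ → ℂ) φ) :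
    holExp0 L f = φ :=
  (holExp0_spec L f).unique h

instance holN_isDomain : IsDomain (holN L) :=
  Function.Injective.isDomain (holExp0 L) (holExp0_injective L)

/-- Precomposition with `g ∈ SL(2,ℤ)` on `holN L`. -/
def holComp (g : SL(2, ℤ)) : holN L →+* holN L where
  toFun f := ⟨compSL g f.1, comp_mem_holN L g f.1 f.2⟩
  map_one' := rfl
  map_mul' _ _ := rfl
  map_zero' := rfl
  map_add' _ _ := rfl

variable {L} in
@[simp] theorem holComp_coe (g : SL(2, ℤ)) (f : holN L) :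
    ((holComp L g f : holN L) : ℍ → ℂ) = compSL g (f : ℍ → ℂ) := rfl

theorem holComp_injective (g : SL(2, ℤ)) : Function.Injective (holComp L g) := by
  intro f f' h
  apply Subtype.ext
  have h1 : compSL g (f : ℍ → ℂ) = compSL g (f' : ℍ → ℂ) := congrArg Subtype.val h
  have h2 := congrArg (compSL g⁻¹) h1
  rwa [← compSL_mul, ← compSL_mul, mul_inv_cancel, compSL_one, compSL_one] at h2

/-! ### The field `HolField L` -/

/-- The field of meromorphic functions of level `L`: fractions of elements of `holN L`. -/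
abbrev HolField : Type := FractionRing (holN L)

/-- The expansion at `∞` on `HolField L`. -/
def holExp : HolField L →+* LaurentSeries ℂ :=
  IsFractionRing.lift (holExp0_injective L)

variable {L} in
@[simp] theorem holExp_algebraMap (f : holN L) :
    holExp L (algebraMap (holN L) (HolField L) f) = holExp0 L f :=
  IsFractionRing.lift_algebraMap (holExp0_injective L) f

theorem holExp_injective : Function.Injective (holExp L) := (holExp L).injective

/-- Translation by `g ∈ SL(2,ℤ)` on `HolField L`: `f ↦ f ∘ g`. -/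
def holAct (g : SL(2, ℤ)) : HolField L →+* HolField L :=
  IsFractionRing.lift (g := (algebraMap (holN L) (HolField L)).comp (holComp L g))
    ((IsFractionRing.injective (holN L) (HolField L)).comp (holComp_injective L g))

variable {L} in
@[simp] theorem holAct_algebraMap (g : SL(2, ℤ)) (f : holN L) :
    holAct L g (algebraMap (holN L) (HolField L) f)
      = algebraMap (holN L) (HolField L) (holComp L g f) :=
  IsFractionRing.lift_algebraMap _ f

/-- The expansion at `∞` of the translate by `g`. -/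
def sigH (g : SL(2, ℤ)) : HolField L →+* LaurentSeries ℂ := (holExp L).comp (holAct L g)

variable {L} in
theorem sigH_algebraMap (g : SL(2, ℤ)) (f : holN L) :
    sigH L g (algebraMap (holN L) (HolField L) f) = holExp0 L (holComp L g f) := by
  rw [sigH, RingHom.comp_apply, holAct_algebraMap, holExp_algebraMap]

/-! ### `q`-series with an avatar -/

/-- The `q`-series over `ℚ̄` with a (meromorphic) avatar of level `L`. -/
def avatarFieldC : Subfield (LaurentSeries Kbar) :=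
  (holExp L).fieldRange.comap (HolBase.Φ L)

variable {L} in
theorem mem_avatarFieldC {f : LaurentSeries Kbar} :
    f ∈ avatarFieldC L ↔ ∃ y : HolField L, holExp L y = HolBase.Φ L f := Iff.rfl

variable {L} in
/-- A holomorphic avatar suffices. -/
theorem mem_avatarFieldC_of_hol {f : LaurentSeries Kbar} {A : ℍ → ℂ} (hA : A ∈ holN L)
    (hexp : InfExp L A (HolBase.Φ L f)) : f ∈ avatarFieldC L :=
  ⟨algebraMap (holN L) (HolField L) ⟨A, hA⟩, by
    rw [holExp_algebraMap]
    exact holExp0_eq (f := ⟨A, hA⟩) hexp⟩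

/-- The avatar of a `q`-series. -/
def avatarEmbC : avatarFieldC L →+* HolField L where
  toFun f := Classical.choose (mem_avatarFieldC.1 f.2)
  map_one' := by
    apply holExp_injective L
    rw [Classical.choose_spec (mem_avatarFieldC.1 (1 : avatarFieldC L).2), RingHom.map_one]
    exact RingHom.map_one _
  map_mul' f g := by
    apply holExp_injective L
    rw [RingHom.map_mul, Classical.choose_spec (mem_avatarFieldC.1 (f * g).2),
      Classical.choose_spec (mem_avatarFieldC.1 f.2),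
      Classical.choose_spec (mem_avatarFieldC.1 g.2)]
    exact RingHom.map_mul _ _ _
  map_zero' := by
    apply holExp_injective L
    rw [Classical.choose_spec (mem_avatarFieldC.1 (0 : avatarFieldC L).2), RingHom.map_zero]
    exact RingHom.map_zero _
  map_add' f g := by
    apply holExp_injective L
    rw [RingHom.map_add, Classical.choose_spec (mem_avatarFieldC.1 (f + g).2),
      Classical.choose_spec (mem_avatarFieldC.1 f.2),
      Classical.choose_spec (mem_avatarFieldC.1 g.2)]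
    exact RingHom.map_add _ _ _

variable {L} in
theorem holExp_avatarEmbC (f : avatarFieldC L) :
    holExp L (avatarEmbC L f) = HolBase.Φ L (f : LaurentSeries Kbar) :=
  Classical.choose_spec (mem_avatarFieldC.1 f.2)

variable {L} in
theorem avatarEmbC_eq_iff (f : avatarFieldC L) (y : HolField L) :
    avatarEmbC L f = y ↔ holExp L y = HolBase.Φ L (f : LaurentSeries Kbar) := by
  constructor
  · rintro rfl
    exact holExp_avatarEmbC f
  · intro h
    apply holExp_injective L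
    rw [h, holExp_avatarEmbC]

variable {L} in
theorem avatarEmbC_of_hol {f : LaurentSeries Kbar} (hf : f ∈ avatarFieldC L) {A : ℍ → ℂ}
    (hA : A ∈ holN L) (hexp : InfExp L A (HolBase.Φ L f)) :
    avatarEmbC L ⟨f, hf⟩ = algebraMap (holN L) (HolField L) ⟨A, hA⟩ := by
  rw [avatarEmbC_eq_iff, holExp_algebraMap]
  exact holExp0_eq (f := ⟨A, hA⟩) hexp

/-- `f ↦` the expansion at `∞` of `(avatar of f) ∘ g`. -/
def sigC (g : SL(2, ℤ)) : avatarFieldC L →+* LaurentSeries ℂ :=
  (sigH L g).comp (avatarEmbC L)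

variable {L} in
/-- The value of `sigC` from a holomorphic avatar. -/
theorem sigC_of_hol {f : LaurentSeries Kbar} (hf : f ∈ avatarFieldC L) {A : ℍ → ℂ}
    (hA : A ∈ holN L) (hexp : InfExp L A (HolBase.Φ L f)) (g : SL(2, ℤ))
    {ψ : LaurentSeries ℂ} (hψ : InfExp L (compSL g A) ψ) :
    sigC L g ⟨f, hf⟩ = ψ := by
  rw [sigC, RingHom.comp_apply, avatarEmbC_of_hol hf hA hexp, sigH_algebraMap]
  exact holExp0_eq (f := holComp L g ⟨A, hA⟩) hψ

variable {L} in
theorem holAct_one (y : HolField L) : holAct L 1 y = y := by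
  have h : holAct L 1 = RingHom.id (HolField L) := by
    apply IsLocalization.ringHom_ext (nonZeroDivisors (holN L))
    ext f
    rw [RingHom.comp_apply, holAct_algebraMap, RingHom.comp_apply, RingHom.id_apply]
    congr 1
    apply Subtype.ext
    rw [holComp_coe, compSL_one]
  rw [h, RingHom.id_apply]

variable {L} in
theorem sigC_one (f : avatarFieldC L) : sigC L 1 f = HolBase.Φ L (f : LaurentSeries Kbar) := by
  rw [sigC, RingHom.comp_apply, sigH, RingHom.comp_apply, holAct_one, holExp_avatarEmbC]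

end Fermat.Agent.S48.H428

end
end
-- ===== PACK-END S48/H428/HolFrame.lean

-- ===== PACK-BEGIN S48/H428/HolLevel.lean
section




/-!
# S48 / RES (Tower A1) — NORMID1, part 2: change of level for avatars (helper428)

`f : ℍ → ℂ` with an expansion `φ` in `q = exp(2πiτ)` (`InfExp 1 f φ`):
* `infExp_level`    : `f` has the expansion `φ(z^L)` in `z = exp(2πiτ/L)`;
* `infExp_comp_mul` : `τ ↦ f(pτ)` has the expansion `φ(z^{Lp})`;
* `infExp_comp_div` : `τ ↦ f((τ+b)/p)` has the expansion `φ(ζ_p^b z^M)` in `z = exp(2πiτ/(Mp))`;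
* `holN_mul_right`  : `holN M ≤ holN (M p)`;
* `comp_mul_mem_holN` : `f ∈ holN M ⟹ f(p ·) ∈ holN (M p)`.
-/

set_option autoImplicit false
set_option linter.unusedSectionVars false
set_option linter.style.haveILetI false

noncomputable section

open ModularCurve HahnSeries UpperHalfPlane
open scoped MatrixGroups

namespace Fermat.Agent.S48.H428

open Fermat.Agent.S24 Fermat.Agent.S24.H997

theorem coeffMap_ιK_coeffEmb_g (x : LaurentSeries ℚ) :
    coeffMap ιK (coeffEmb Kbar x) = coeffEmb ℂ x := by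
  rw [coeffEmb, coeffMap_coeffMap, coeffEmb]
  refine coeffMap_congr (RingHom.ext fun c => ?_) x
  rw [RingHom.comp_apply, ιK_algebraMap]
  simp

/-- `Φ_L` on rational series. -/
theorem Φ_coeffEmb (L : ℕ) [NeZero L] (x : LaurentSeries ℚ) :
    HolBase.Φ L (coeffEmb Kbar x) = qExpand ℂ L (coeffEmb ℂ x) := by
  show qExpand ℂ L (coeffMap ιK (coeffEmb Kbar x)) = _
  rw [coeffMap_ιK_coeffEmb_g]

/-- `Φ_M ∘ V_p = Φ_{M p}`. -/
theorem Φ_qExpand_g (M p : ℕ) [NeZero M] [NeZero p] [NeZero (M * p)] (x : LaurentSeries Kbar) :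
    HolBase.Φ M (qExpand Kbar p x) = HolBase.Φ (M * p) x := by
  show qExpand ℂ M (coeffMap ιK (qExpand Kbar p x)) = qExpand ℂ (M * p) (coeffMap ιK x)
  rw [coeffMap_qExpand, qExpand_qExpand]

section Exp

variable {f : ℍ → ℂ} {φ : LaurentSeries ℂ}

theorem infExp_level (h : InfExp 1 f φ) (L : ℕ) [NeZero L] : InfExp L f (qExpand ℂ L φ) := by
  have hL : 0 < L := Nat.pos_of_ne_zero (NeZero.ne L)
  have h1 := h.comp_infAff (e := L) (a := 1) (d := 1) (N := L) 0 one_pos one_pos one_pos hL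
    (by ring)
  rw [infRoot_zero, infTwist_one] at h1
  exact h1.congr fun τ => by rw [infAff_one_zero_one]

theorem infExp_comp_mul (h : InfExp 1 f φ) (L p : ℕ) [NeZero L] [NeZero p] [NeZero (L * p)] :
    InfExp L (fun τ => f (infAff p 0 1 τ)) (qExpand ℂ (L * p) φ) := by
  have hL : 0 < L := Nat.pos_of_ne_zero (NeZero.ne L)
  have hp : 0 < p := Nat.pos_of_ne_zero (NeZero.ne p)
  have h1 := h.comp_infAff (e := L * p) (a := p) (d := 1) (N := L) 0 hp one_pos one_pos hL
    (by ring)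
  rw [infRoot_zero, infTwist_one] at h1
  exact h1

theorem infExp_comp_div (h : InfExp 1 f φ) (M p : ℕ) [NeZero M] [NeZero p] [NeZero (M * p)]
    (b : ℤ) :
    InfExp (M * p) (fun τ => f (infAff 1 b p τ)) (qExpand ℂ M (infTwist (infRoot b p) φ)) := by
  have hM : 0 < M := Nat.pos_of_ne_zero (NeZero.ne M)
  have hp : 0 < p := Nat.pos_of_ne_zero (NeZero.ne p)
  have h1 := h.comp_infAff (e := M) (a := 1) (d := p) (N := M * p) b one_pos hp one_pos
    (Nat.mul_pos hM hp) (by ring)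
  rw [mul_one] at h1
  exact h1

end Exp

section Hol

variable {M : ℕ} [NeZero M]

/-- `holN M ≤ holN (M p)`. -/
theorem holN_mul_right (p : ℕ) [NeZero p] [NeZero (M * p)] {f : ℍ → ℂ} (hf : f ∈ holN M) :
    f ∈ holN (M * p) := by
  have hM : 0 < M := Nat.pos_of_ne_zero (NeZero.ne M)
  have hp : 0 < p := Nat.pos_of_ne_zero (NeZero.ne p)
  refine ⟨hf.1, fun γ => ?_⟩
  obtain ⟨φ, hφ⟩ := hf.2 γ
  have h1 := hφ.comp_infAff (e := p) (a := 1) (d := 1) (N := M * p) 0 one_pos one_pos hM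
    (Nat.mul_pos hM hp) (by ring)
  have h2 : InfExp (M * p) (compSL γ f) (qExpand ℂ p (infTwist (infRoot 0 (1 * M)) φ)) :=
    h1.congr fun τ => by rw [infAff_one_zero_one]
  exact h2.mem_expRing

/-- `f ∈ holN M ⟹ (τ ↦ f (p τ)) ∈ holN (M p)`. -/
theorem comp_mul_mem_holN (p : ℕ) [NeZero p] [NeZero (M * p)] {f : ℍ → ℂ} (hf : f ∈ holN M) :
    (fun τ => f (infAff p 0 1 τ)) ∈ holN (M * p) := by
  have hp : 0 < p := Nat.pos_of_ne_zero (NeZero.ne p)
  have hM : 0 < M := Nat.pos_of_ne_zero (NeZero.ne M)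
  refine ⟨H564.mdiff_comp_infAff hf.1 hp one_pos 0, fun g => ?_⟩
  obtain ⟨γ', a, d', b, ha, hd', had, h00, h01, h10, h11⟩ := inf_exists_hnf p hp g
  obtain ⟨φ, hφ⟩ := hf.2 γ'
  haveI : NeZero (a * a) := ⟨(Nat.mul_pos ha ha).ne'⟩
  have he : a * a * (d' * M) = a * (M * p) := by
    rw [← had]; ring
  have h := hφ.comp_infAff (e := a * a) b ha hd' hM (Nat.mul_pos hM hp) he
  have h2 : compSL g (fun τ => f (infAff p 0 1 τ))
      = fun τ => compSL γ' f (infAff a b d' τ) := by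
    funext τ
    show f (infAff p 0 1 (g • τ)) = f (γ' • infAff a b d' τ)
    rw [inf_aff_smul_eq hp ha hd' g γ' h00 h01 h10 h11 τ]
  rw [h2]
  exact h.mem_expRing

end Hol

end Fermat.Agent.S48.H428

end
end
-- ===== PACK-END S48/H428/HolLevel.lean

-- ===== PACK-BEGIN S48/H428/NormAv.lean
section



/-!
# S48 / RES (Tower A1) — NORMID1, part 3: avatars of the generators of `F1(M; p)` (helper428)

`IsAv M x A` : the rational `q`-series `x` has the holomorphic avatar `A ∈ holN M`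
(`InfExp 1 A x`).  For a prime-to-`M` level raising `L = M p`:

* `IsAv.mem`      : `x ∈ avatarFieldC (M p)`;
* `IsAv.mem_V`    : `V_p x = x(q^p) ∈ avatarFieldC (M p)` (avatar `A(p τ)`);
* `IsAv.sig_fix`  : `sigC g x = Φ x` when `A ∘ g = A`;
* `IsAv.sig_V`    : `sigC h (V_p x) = Φ_M (x'(ζ_p^b u))` when `diag(p,1) h = δ [[1,b],[0,p]]` and
  `A ∘ δ` is the avatar of `x'`;
* `isAv_jd`, `isAv_divGen` : the avatars `j(dτ)` (S24) and `pFun M a` (helper76) of the generators
  of `F1 M`.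
-/

set_option autoImplicit false
set_option linter.unusedSectionVars false
set_option linter.style.haveILetI false

noncomputable section

open ModularCurve HahnSeries UpperHalfPlane
open scoped MatrixGroups

namespace Fermat.Agent.S48.H428

open Fermat.Agent.S24 Fermat.Agent.S24.H997 Fermat.Agent.S48.F1

/-- `x ∈ ℚ((q))` has the holomorphic avatar `A` of level `M`. -/
structure IsAv (M : ℕ) (x : LaurentSeries ℚ) (A : ℍ → ℂ) : Prop where
  hol : A ∈ holN M
  exp : InfExp 1 A (coeffEmb ℂ x)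

section Generic

variable {M : ℕ} [NeZero M] {p : ℕ} [NeZero p] [NeZero (M * p)]
variable {x x' : LaurentSeries ℚ} {A A' : ℍ → ℂ}

theorem IsAv.exp_level (h : IsAv M x A) :
    InfExp (M * p) A (HolBase.Φ (M * p) (coeffEmb Kbar x)) := by
  rw [Φ_coeffEmb]
  exact infExp_level h.exp (M * p)

theorem IsAv.mem (h : IsAv M x A) : coeffEmb Kbar x ∈ avatarFieldC (M * p) :=
  mem_avatarFieldC_of_hol (holN_mul_right p h.hol) h.exp_level

theorem coeffEmb_qExpand_g (L : Type*) [Field L] [Algebra ℚ L] (n : ℕ) [NeZero n]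
    (y : LaurentSeries ℚ) : coeffEmb L (qExpand ℚ n y) = qExpand L n (coeffEmb L y) :=
  coeffMap_qExpand _ n y

theorem IsAv.exp_V (h : IsAv M x A) :
    InfExp (M * p) (fun τ => A (infAff p 0 1 τ))
      (HolBase.Φ (M * p) (coeffEmb Kbar (qExpand ℚ p x))) := by
  haveI : NeZero (M * p * p) := ⟨Nat.mul_ne_zero (NeZero.ne (M * p)) (NeZero.ne p)⟩
  rw [Φ_coeffEmb, coeffEmb_qExpand_g, qExpand_qExpand]
  exact infExp_comp_mul h.exp (M * p) p

theorem IsAv.mem_V (h : IsAv M x A) :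
    coeffEmb Kbar (qExpand ℚ p x) ∈ avatarFieldC (M * p) :=
  mem_avatarFieldC_of_hol (comp_mul_mem_holN p h.hol) h.exp_V

/-- `sigC g` fixes a series whose avatar is `g`-invariant. -/
theorem IsAv.sig_fix (h : IsAv M x A) (g : SL(2, ℤ)) (hg : compSL g A = A)
    (hx : coeffEmb Kbar x ∈ avatarFieldC (M * p)) :
    sigC (M * p) g ⟨coeffEmb Kbar x, hx⟩ = HolBase.Φ (M * p) (coeffEmb Kbar x) :=
  sigC_of_hol hx (holN_mul_right p h.hol) h.exp_level g (by rw [hg]; exact h.exp_level)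

/-- `sigC h (V_p x)` when `diag(p,1) h = δ [[1,b],[0,p]]` and `A ∘ δ = A'` is the avatar of
`x'`. -/
theorem IsAv.sig_V (h : IsAv M x A) (h' : IsAv M x' A') (g δ : SL(2, ℤ)) (b : ℤ)
    (h00 : (p : ℤ) * g 0 0 = δ 0 0 * (1 : ℕ))
    (h01 : (p : ℤ) * g 0 1 = δ 0 0 * b + δ 0 1 * p)
    (h10 : g 1 0 = δ 1 0 * (1 : ℕ)) (h11 : g 1 1 = δ 1 0 * b + δ 1 1 * p)
    (hδ : compSL δ A = A')
    (hx : coeffEmb Kbar (qExpand ℚ p x) ∈ avatarFieldC (M * p)) :
    sigC (M * p) g ⟨coeffEmb Kbar (qExpand ℚ p x), hx⟩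
      = qExpand ℂ M (infTwist (infRoot b p) (coeffEmb ℂ x')) := by
  have hp : 0 < p := Nat.pos_of_ne_zero (NeZero.ne p)
  refine sigC_of_hol hx (comp_mul_mem_holN p h.hol) h.exp_V g ?_
  have e : compSL g (fun τ => A (infAff p 0 1 τ)) = fun τ => A' (infAff 1 b p τ) := by
    funext τ
    show A (infAff p 0 1 (g • τ)) = A' (infAff 1 b p τ)
    rw [inf_aff_smul_eq hp one_pos hp g δ h00 h01 h10 h11 τ, ← hδ]
    rfl
  rw [e]
  exact infExp_comp_div h'.exp M p b

end Generic

/-! ### The avatars of the generators of `F1 M` -/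

section Gens

variable (M : ℕ) [NeZero M]

theorem isAv_jd {d : ℕ} [NeZero d] (hd : d ∣ M) : IsAv M (qExpand ℚ d jq) (Jd d) := by
  refine ⟨Jd_mem_holN M d hd, ?_⟩
  have hd0 : 0 < d := Nat.pos_of_ne_zero (NeZero.ne d)
  have h := inf_J_mul_exp infExp_jFun hd0 one_pos
  rw [coeffEmb_qExpand_g]
  have e : qExpand ℂ d (coeffEmb ℂ jq) = qExpand ℂ (d * 1) infJq :=
    qExpand_congr (mul_one d).symm _
  rw [e]
  exact h

theorem isAv_divGen {a : ZMod M} (ha : a ≠ 0) : IsAv M (divGen M a) (H76.pFun M a) := by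
  refine ⟨H76.pFun_mem_holN M a, ?_⟩
  have h := H76.infExp_pFun M ha
  have e : coeffEmb ℂ (divGen M a) = divGenC ℂ M a := by
    rw [divGen, coeffEmb, coeffMap_divGenC]
  rw [e]
  exact h

end Gens

end Fermat.Agent.S48.H428

end
end
-- ===== PACK-END S48/H428/NormAv.lean

-- ===== PACK-BEGIN S48/H428/NormSigma.lean
section




/-!
# S48 / RES (Tower A1) — NORMID1, part 5: the embeddings `σ_g` of `ℚ̄ · F1(M; p)` (helper428)

* `F1pL_le_avatarFieldC` : every element of `ℚ̄ · F1p M p` has an avatar of level `M p`;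
* `sigF M p g : ℚ̄ · F1p M p →+* ℂ((z))` : expansion of `(avatar) ∘ g`, `z = exp(2πiτ/(Mp))`;
* `sigF_alpha` : for `g ∈ Γ₁(M)`, `sigF g ∘ α = Φ_{Mp}`;
* `sigF_beta`  : for `diag(p,1) g = δ [[1,b],[0,p]]`, `g ∈ Γ₁(M)`, and a diamond automorphism
  `dia` for the unit `p`:  `sigF g (β y) = Φ_M ((dia y)(ζ_p^b u))`.
-/

set_option autoImplicit false
set_option linter.unusedSectionVars false
set_option linter.style.haveILetI false

noncomputable section

open ModularCurve HahnSeries UpperHalfPlane AlgebraicCurve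
open scoped MatrixGroups

namespace Fermat.Agent.S48.H428

open Fermat.Agent.S24 Fermat.Agent.S24.H997 Fermat.Agent.S48.F1 CongruenceSubgroup

variable (M p : ℕ) [NeZero M] [NeZero p] [NeZero (M * p)]

/-! ### Constants -/

theorem const_mem_avatarFieldC (L : ℕ) [NeZero L] (c : Kbar) :
    algebraMap Kbar (LaurentSeries Kbar) c ∈ avatarFieldC L :=
  mem_avatarFieldC_of_hol (A := fun _ => ιK c) (const_mem_holN L (ιK c))
    (by rw [HolBase.Φ_algebraMap]; exact InfExp.const (ιK c))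

theorem sigC_const (L : ℕ) [NeZero L] (g : SL(2, ℤ)) (c : Kbar)
    (h : algebraMap Kbar (LaurentSeries Kbar) c ∈ avatarFieldC L) :
    sigC L g ⟨_, h⟩ = HahnSeries.C (ιK c) :=
  sigC_of_hol h (A := fun _ => ιK c) (const_mem_holN L (ιK c))
    (by rw [HolBase.Φ_algebraMap]; exact InfExp.const (ιK c)) g
    (by
      have e : compSL g (fun _ : ℍ => ιK c) = fun _ => ιK c := rfl
      rw [e]
      exact InfExp.const (ιK c))

/-! ### Membership -/

/-- The rational `q`-series whose base change to `ℚ̄` has an avatar of level `M p`. -/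
def avQ : IntermediateField ℚ (LaurentSeries ℚ) :=
  ((avatarFieldC (M * p)).comap (coeffEmb Kbar)).toIntermediateField fun q => by
    show coeffEmb Kbar (algebraMap ℚ (LaurentSeries ℚ) q) ∈ avatarFieldC (M * p)
    rw [coeffEmb_algebraMap]
    exact const_mem_avatarFieldC (M * p) _

variable {M p} in
theorem mem_avQ {x : LaurentSeries ℚ} : x ∈ avQ M p ↔ coeffEmb Kbar x ∈ avatarFieldC (M * p) :=
  Iff.rfl

theorem F1_le_avQ : F1 M ≤ avQ M p := by
  rw [F1, IntermediateField.adjoin_le_iff]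
  rintro x (hx | hx)
  · obtain ⟨d, hne, hd, rfl⟩ := hx
    haveI := hne
    exact (isAv_jd M hd).mem
  · obtain ⟨a, ha, rfl⟩ := hx
    exact (isAv_divGen M ha).mem

theorem F1_map_le_avQ : (F1 M).map (qExpandₐ p) ≤ avQ M p := by
  rw [IntermediateField.map_le_iff_le_comap, F1, IntermediateField.adjoin_le_iff]
  rintro x (hx | hx)
  · obtain ⟨d, hne, hd, rfl⟩ := hx
    haveI := hne
    exact (isAv_jd M hd).mem_V
  · obtain ⟨a, ha, rfl⟩ := hx
    exact (isAv_divGen M ha).mem_V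

theorem F1p_le_avQ : F1p M p ≤ avQ M p :=
  sup_le (F1_le_avQ M p) (F1_map_le_avQ M p)

theorem F1pL_le_avatarFieldC :
    (laurentBaseChange Kbar (F1p M p)).toSubfield ≤ avatarFieldC (M * p) := by
  intro f hf
  have hf' : f ∈ Subfield.closure (Set.range (algebraMap Kbar (LaurentSeries Kbar)) ∪
      (⇑(coeffEmb Kbar) '' ((F1p M p : IntermediateField ℚ (LaurentSeries ℚ)) :
        Set (LaurentSeries ℚ)))) := hf
  revert hf'
  apply (Subfield.closure_le (t := avatarFieldC (M * p))).2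
  rintro y (⟨c, rfl⟩ | ⟨x, hx, rfl⟩)
  · exact const_mem_avatarFieldC (M * p) c
  · exact F1p_le_avQ M p hx

/-- The inclusion of `ℚ̄ · F1p M p` into the field of `q`-series with avatars. -/
def incAv : ↥(F1pL Kbar M p) →+* ↥(avatarFieldC (M * p)) :=
  Subfield.inclusion (F1pL_le_avatarFieldC M p)

variable {M p} in
@[simp] theorem coe_incAv (f : ↥(F1pL Kbar M p)) :
    ((incAv M p f : avatarFieldC (M * p)) : LaurentSeries Kbar) = (f : LaurentSeries Kbar) := rfl

/-- The embedding `σ_g` of `ℚ̄ · F1p M p`: the expansion of `(avatar) ∘ g`. -/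
def sigF (g : SL(2, ℤ)) : ↥(F1pL Kbar M p) →+* LaurentSeries ℂ :=
  (sigC (M * p) g).comp (incAv M p)

variable {M p} in
theorem sigF_eq (g : SL(2, ℤ)) (f : ↥(F1pL Kbar M p))
    (hf : (f : LaurentSeries Kbar) ∈ avatarFieldC (M * p)) :
    sigF M p g f = sigC (M * p) g ⟨(f : LaurentSeries Kbar), hf⟩ := rfl

variable {M p} in
theorem sigF_one (f : ↥(F1pL Kbar M p)) :
    sigF M p 1 f = HolBase.Φ (M * p) (f : LaurentSeries Kbar) := by
  rw [sigF, RingHom.comp_apply, sigC_one, coe_incAv]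

/-! ### Generators -/

variable {M p} in
theorem sigF_alpha_of_isAv {z : LaurentSeries ℚ} {A : ℍ → ℂ} (h : IsAv M z A) (g : SL(2, ℤ))
    (hg : compSL g A = A) (x0 : ↥(F1L Kbar M))
    (hx0 : (x0 : LaurentSeries Kbar) = coeffEmb Kbar z) :
    sigF M p g (alpha1 Kbar M p x0) = HolBase.Φ (M * p) (x0 : LaurentSeries Kbar) := by
  have hmem : coeffEmb Kbar z ∈ avatarFieldC (M * p) := h.mem
  have e : incAv M p (alpha1 Kbar M p x0) = ⟨coeffEmb Kbar z, hmem⟩ :=
    Subtype.ext (by rw [coe_incAv, coe_alpha1, hx0])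
  rw [sigF, RingHom.comp_apply, e, hx0]
  exact h.sig_fix g hg hmem

variable {M p} in
theorem sigF_beta_of_isAv {z z' : LaurentSeries ℚ} {A A' : ℍ → ℂ} (h : IsAv M z A)
    (h' : IsAv M z' A') (g δ : SL(2, ℤ)) (b : ℤ)
    (h00 : (p : ℤ) * g 0 0 = δ 0 0 * (1 : ℕ))
    (h01 : (p : ℤ) * g 0 1 = δ 0 0 * b + δ 0 1 * p)
    (h10 : g 1 0 = δ 1 0 * (1 : ℕ)) (h11 : g 1 1 = δ 1 0 * b + δ 1 1 * p)
    (hδ : compSL δ A = A') (x0 : ↥(F1L Kbar M))
    (hx0 : (x0 : LaurentSeries Kbar) = coeffEmb Kbar z) :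
    sigF M p g (beta1 Kbar M p x0)
      = qExpand ℂ M (infTwist (infRoot b p) (coeffEmb ℂ z')) := by
  have hmem : coeffEmb Kbar (qExpand ℚ p z) ∈ avatarFieldC (M * p) := h.mem_V
  have e : incAv M p (beta1 Kbar M p x0) = ⟨coeffEmb Kbar (qExpand ℚ p z), hmem⟩ :=
    Subtype.ext (by rw [coe_incAv, coe_beta1, hx0, qExpand_coeffEmb])
  rw [sigF, RingHom.comp_apply, e]
  exact h.sig_V h' g δ b h00 h01 h10 h11 hδ hmem

variable {M p} in
theorem sigF_algebraMap (g : SL(2, ℤ)) (c : Kbar) :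
    sigF M p g (algebraMap Kbar ↥(F1pL Kbar M p) c) = HahnSeries.C (ιK c) := by
  have hmem := const_mem_avatarFieldC (M * p) c
  have e : incAv M p (algebraMap Kbar ↥(F1pL Kbar M p) c)
      = ⟨algebraMap Kbar (LaurentSeries Kbar) c, hmem⟩ := Subtype.ext rfl
  rw [sigF, RingHom.comp_apply, e]
  exact sigC_const (M * p) g c hmem

/-- Ring homomorphisms out of `ℚ̄ · F1 M` agreeing on constants and on the generators agree. -/
theorem F1L_ringHom_ext {R : Type*} [DivisionRing R] (f g : ↥(F1L Kbar M) →+* R)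
    (hL : ∀ c : Kbar, f (algebraMap Kbar ↥(F1L Kbar M) c) = g (algebraMap Kbar ↥(F1L Kbar M) c))
    (hS : ∀ (x0 : ↥(F1L Kbar M)) (z : LaurentSeries ℚ), z ∈ divisorExpansions M ∪ divGens M →
      (x0 : LaurentSeries Kbar) = coeffEmb Kbar z → f x0 = g x0) :
    f = g :=
  lbc_ringHom_ext (L := Kbar) (S := divisorExpansions M ∪ divGens M) f g hL
    (fun z hz => hS _ z hz rfl)

/-! ### `σ_g ∘ α` -/

variable {M p} in
/-- For `g ∈ Γ₁(M)`, `σ_g` restricted to `α (ℚ̄ · F1 M)` is `Φ_{M p}`. -/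
theorem sigF_alpha {g : SL(2, ℤ)} (hg : g ∈ Gamma1 M) (y : ↥(F1L Kbar M)) :
    sigF M p g (alpha1 Kbar M p y) = HolBase.Φ (M * p) (y : LaurentSeries Kbar) := by
  have hg0 : g ∈ Gamma0 M := Gamma1_in_Gamma0 M hg
  have key := F1L_ringHom_ext M
    ((sigF M p g).comp (alpha1 Kbar M p).toRingHom)
    ((HolBase.Φ (M * p)).comp (F1L Kbar M).val.toRingHom) ?_ ?_
  · exact RingHom.congr_fun key y
  · intro c
    have e1 : ((sigF M p g).comp (alpha1 Kbar M p).toRingHom) (algebraMap Kbar _ c)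
        = sigF M p g (algebraMap Kbar ↥(F1pL Kbar M p) c) :=
      congrArg (sigF M p g) ((alpha1 Kbar M p).commutes c)
    have e2 : ((HolBase.Φ (M * p)).comp (F1L Kbar M).val.toRingHom) (algebraMap Kbar _ c)
        = HolBase.Φ (M * p) (algebraMap Kbar (LaurentSeries Kbar) c) := rfl
    rw [e1, e2, HolBase.Φ_algebraMap, sigF_algebraMap]
  · intro x0 z hz hx0
    have e1 : ((sigF M p g).comp (alpha1 Kbar M p).toRingHom) x0
        = sigF M p g (alpha1 Kbar M p x0) := rfl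
    have e2 : ((HolBase.Φ (M * p)).comp (F1L Kbar M).val.toRingHom) x0
        = HolBase.Φ (M * p) (x0 : LaurentSeries Kbar) := rfl
    rw [e1, e2]
    rcases hz with hz | hz
    · obtain ⟨d, hne, hd, rfl⟩ := hz
      haveI := hne
      have hJ : compSL g (Jd d) = Jd d := by
        funext τ
        exact Jd_inv M d hd g hg0 τ
      exact sigF_alpha_of_isAv (isAv_jd M hd) g hJ x0 hx0
    · obtain ⟨a, ha, rfl⟩ := hz
      have hP : compSL g (H76.pFun M a) = H76.pFun M a := by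
        funext τ
        exact H76.pFun_smul_Gamma1 M a g hg τ
      exact sigF_alpha_of_isAv (isAv_divGen M ha) g hP x0 hx0

/-! ### `σ_g ∘ β` -/

variable {M p} in
/-- For `g ∈ Γ₁(M)` with `diag(p,1) g = δ [[1,b],[0,p]]` and a diamond automorphism `dia` for the
unit `u ≡ p`: `σ_g (β y) = Φ_M ((dia y)(ζ_p^b u))`. -/
theorem sigF_beta {g δ : SL(2, ℤ)} {b : ℤ} (hδ0 : δ ∈ Gamma0 M)
    (hδp : ((δ 0 0 : ℤ) : ZMod M) = (p : ZMod M))
    (h00 : (p : ℤ) * g 0 0 = δ 0 0 * (1 : ℕ))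
    (h01 : (p : ℤ) * g 0 1 = δ 0 0 * b + δ 0 1 * p)
    (h10 : g 1 0 = δ 1 0 * (1 : ℕ)) (h11 : g 1 1 = δ 1 0 * b + δ 1 1 * p)
    {u : (ZMod M)ˣ} (hu : (u : ZMod M) = (p : ZMod M))
    {dia : ↥(F1L Kbar M) ≃ₐ[Kbar] ↥(F1L Kbar M)} (hdia : IsDiamond Kbar M u dia)
    (y : ↥(F1L Kbar M)) :
    sigF M p g (beta1 Kbar M p y)
      = qExpand ℂ M (infTwist (infRoot b p)
          (coeffMap ιK ((dia y : ↥(F1L Kbar M)) : LaurentSeries Kbar))) := by
  have key := F1L_ringHom_ext M
    ((sigF M p g).comp (beta1 Kbar M p).toRingHom)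
    ((qExpand ℂ M).comp ((infTwist (infRoot b p)).comp ((coeffMap ιK).comp
      ((F1L Kbar M).val.toRingHom.comp (dia : ↥(F1L Kbar M) →+* ↥(F1L Kbar M)))))) ?_ ?_
  · exact RingHom.congr_fun key y
  · intro c
    have e1 : ((sigF M p g).comp (beta1 Kbar M p).toRingHom) (algebraMap Kbar _ c)
        = sigF M p g (algebraMap Kbar ↥(F1pL Kbar M p) c) :=
      congrArg (sigF M p g) ((beta1 Kbar M p).commutes c)
    have e3 : ((algebraMap Kbar ↥(F1L Kbar M) c : ↥(F1L Kbar M)) : LaurentSeries Kbar)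
        = HahnSeries.C c := by
      show algebraMap Kbar (LaurentSeries Kbar) c = _
      rw [algebraMap_laurentSeries_eq_single]
      rfl
    have e4 : coeffMap ιK (HahnSeries.C c) = HahnSeries.C (ιK c) := by
      show coeffMap ιK (HahnSeries.single 0 c) = HahnSeries.single 0 (ιK c)
      exact coeffMap_single ιK 0 c
    have e2 : ((qExpand ℂ M).comp ((infTwist (infRoot b p)).comp ((coeffMap ιK).comp
        ((F1L Kbar M).val.toRingHom.comp (dia : ↥(F1L Kbar M) →+* ↥(F1L Kbar M))))))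
          (algebraMap Kbar _ c) = HahnSeries.C (ιK c) := by
      show qExpand ℂ M (infTwist (infRoot b p) (coeffMap ιK
        ((dia (algebraMap Kbar ↥(F1L Kbar M) c) : ↥(F1L Kbar M)) : LaurentSeries Kbar))) = _
      rw [AlgEquiv.commutes, e3, e4, infTwist_C, qExpand_C]
    rw [e1, e2, sigF_algebraMap]
  · intro x0 z hz hx0c
    show sigF M p g (beta1 Kbar M p x0) = qExpand ℂ M (infTwist (infRoot b p)
      (coeffMap ιK ((dia x0 : ↥(F1L Kbar M)) : LaurentSeries Kbar)))
    rcases hz with hz | hz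
    · obtain ⟨d, hne, hd, rfl⟩ := hz
      haveI := hne
      -- the diamond fixes `j(q^d)`
      have hfix : dia x0 = x0 :=
        hdia.1 x0 (by
          rw [hx0c]
          exact coeffEmb_mem_laurentBaseChange Kbar
            (IntermediateField.subset_adjoin ℚ _ (mem_divisorExpansions M hd)))
      rw [hfix, hx0c, coeffMap_ιK_coeffEmb_g]
      exact sigF_beta_of_isAv (isAv_jd M hd) (isAv_jd M hd) g δ b h00 h01 h10 h11
        (by funext τ; exact Jd_inv M d hd δ hδ0 τ) x0 hx0c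
    · obtain ⟨a, ha, rfl⟩ := hz
      -- the diamond maps `P_a` to `P_{p a}`
      have hpa : (u : ZMod M) * a ≠ 0 := by
        intro h0
        exact ha (by simpa using congrArg (fun t => ((u⁻¹ : (ZMod M)ˣ) : ZMod M) * t) h0)
      have hmap : ((dia x0 : ↥(F1L Kbar M)) : LaurentSeries Kbar)
          = coeffEmb Kbar (divGen M ((u : ZMod M) * a)) := by
        have h := hdia.2 a x0 ⟨coeffEmb Kbar (divGen M ((u : ZMod M) * a)),
              coeffEmb_mem_laurentBaseChange Kbar (divGen_mem_F1 M hpa)⟩ ha hx0c rfl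
        rw [h]
      rw [hmap, coeffMap_ιK_coeffEmb_g]
      exact sigF_beta_of_isAv (isAv_divGen M ha) (isAv_divGen M hpa) g δ b h00 h01 h10 h11
        (by rw [H76.compSL_pFun M a δ hδ0, hδp, hu, mul_comm]) x0 hx0c

end Fermat.Agent.S48.H428

end
end
-- ===== PACK-END S48/H428/NormSigma.lean

-- ===== PACK-BEGIN S48/H428/NormGenG.lean
section



/-!
# S48 / RES (Tower A1) — node A1-NORM, generic part in the shape of `H136.NormIdG` (helper428)

`normIdG_of_embeddings` : the hypothesis `NormIdG α β p δ` of helper136's generic raw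
Eichler–Shimura engine (`H136.eskG_frob`), for ANY `F₀ ⊆ ℚ((q))`, ANY field `F'` with a
`q`-expansion `cF' : F' →+* ℚ̄((q))`, `α` = inclusion and `β = V_p` on `q`-expansions, from

* the degree bound `[F' : α F] ≤ p + 1`,
* `p` embeddings `σ b : F' →+* Ω` over `Ψ ∘ V_p` with `σ b (β y) = Ψ ((δ y)(ζ^b u))`,
* one `y₀` such that `δ y₀` has a nonzero coefficient at an index prime to `p`.

`normIdG_of_embeddings_jq` : the last hypothesis is automatic when `j ∈ F₀` and `δ` fixes `j`.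
-/

set_option autoImplicit false
set_option linter.style.haveILetI false

noncomputable section

open ModularCurve AlgebraicCurve

namespace Fermat.Agent.S48.H428

open Fermat.Agent.S18 (Qb)
open Fermat.Agent.S48.H136 (NormIdG normG kron2)
open Fermat.Agent.S37

variable {F₀ : IntermediateField ℚ (LaurentSeries ℚ)} {F' : Type*} [Field F'] [Algebra Qb F']

/-- **A1-NORM, generic, `NormIdG` shape.** -/
theorem normIdG_of_embeddings (α β : laurentBaseChange Qb F₀ →ₐ[Qb] F') {p : ℕ} [NeZero p]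
    (hp : p.Prime) (δ : laurentBaseChange Qb F₀ ≃ₐ[Qb] laurentBaseChange Qb F₀)
    (cF' : F' →+* LaurentSeries Qb)
    (hα : ∀ y, cF' (α y) = (y : LaurentSeries Qb))
    (hβ : ∀ y, cF' (β y) = qExpand Qb p (y : LaurentSeries Qb))
    (hfin : FiniteAlong Qb α) (hdeg : finrankAlong Qb α ≤ p + 1)
    {ζ : Qb} (hζ : IsPrimitiveRoot ζ p)
    {Ω : Type*} [Field Ω] (Ψ : LaurentSeries Qb →+* Ω) (σ : Fin p → F' →+* Ω)
    (hσα : ∀ b y, σ b (α y) = Ψ (qExpand Qb p (y : LaurentSeries Qb)))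
    (hσβ : ∀ b y, σ b (β y)
      = Ψ (H340.tw p (ζ ^ (b : ℕ)) ((δ y : laurentBaseChange Qb F₀) : LaurentSeries Qb)))
    (hdist : ∃ y₀ : laurentBaseChange Qb F₀, ∃ n : ℤ, ¬ (p : ℤ) ∣ n ∧
      ((δ y₀ : laurentBaseChange Qb F₀) : LaurentSeries Qb).coeff n ≠ 0) :
    NormIdG α β p δ := by
  intro y
  exact normId_of_embeddings (K := Qb) p hp
    (cF := (laurentBaseChange Qb F₀).val.toRingHom) (cF' := cF')
    α.toRingHom β.toRingHom hα hβ hfin hdeg (fun y => δ y) hζ Ψ σ hσα hσβ hdist y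

/-- The distinctness hypothesis of `normIdG_of_embeddings` holds as soon as `j ∈ F₀` and `δ`
fixes `j`. -/
theorem hdist_of_jq {p : ℕ} (hp : p.Prime)
    (δ : laurentBaseChange Qb F₀ ≃ₐ[Qb] laurentBaseChange Qb F₀) (hj : jq ∈ F₀)
    (hδj : ∀ y : laurentBaseChange Qb F₀, (y : LaurentSeries Qb) = coeffEmb Qb jq → δ y = y) :
    ∃ y₀ : laurentBaseChange Qb F₀, ∃ n : ℤ, ¬ (p : ℤ) ∣ n ∧
      ((δ y₀ : laurentBaseChange Qb F₀) : LaurentSeries Qb).coeff n ≠ 0 := by
  refine ⟨⟨coeffEmb Qb jq, coeffEmb_mem_laurentBaseChange Qb hj⟩, -1, ?_, ?_⟩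
  · intro h
    have h1 : (p : ℤ) ∣ 1 := (dvd_neg.mp h)
    have h2 : p ∣ 1 := by exact_mod_cast h1
    exact hp.one_lt.ne' (Nat.dvd_one.mp h2)
  · rw [hδj _ rfl]
    show (coeffEmb Qb jq).coeff (-1) ≠ 0
    rw [coeffEmb_coeff, coeff_jq_neg_one, map_one]
    exact one_ne_zero

/-- **A1-NORM, generic, `NormIdG` shape**, for a diamond fixing `j ∈ F₀`. -/
theorem normIdG_of_embeddings_jq (α β : laurentBaseChange Qb F₀ →ₐ[Qb] F') {p : ℕ} [NeZero p]
    (hp : p.Prime) (δ : laurentBaseChange Qb F₀ ≃ₐ[Qb] laurentBaseChange Qb F₀)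
    (cF' : F' →+* LaurentSeries Qb)
    (hα : ∀ y, cF' (α y) = (y : LaurentSeries Qb))
    (hβ : ∀ y, cF' (β y) = qExpand Qb p (y : LaurentSeries Qb))
    (hfin : FiniteAlong Qb α) (hdeg : finrankAlong Qb α ≤ p + 1)
    {ζ : Qb} (hζ : IsPrimitiveRoot ζ p)
    {Ω : Type*} [Field Ω] (Ψ : LaurentSeries Qb →+* Ω) (σ : Fin p → F' →+* Ω)
    (hσα : ∀ b y, σ b (α y) = Ψ (qExpand Qb p (y : LaurentSeries Qb)))
    (hσβ : ∀ b y, σ b (β y)
      = Ψ (H340.tw p (ζ ^ (b : ℕ)) ((δ y : laurentBaseChange Qb F₀) : LaurentSeries Qb)))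
    (hj : jq ∈ F₀)
    (hδj : ∀ y : laurentBaseChange Qb F₀, (y : LaurentSeries Qb) = coeffEmb Qb jq → δ y = y) :
    NormIdG α β p δ :=
  normIdG_of_embeddings α β hp δ cF' hα hβ hfin hdeg hζ Ψ σ hσα hσβ (hdist_of_jq hp δ hj hδj)

end Fermat.Agent.S48.H428

end
end
-- ===== PACK-END S48/H428/NormGenG.lean

-- ===== PACK-BEGIN S48/H428/NormId1.lean
section





/-!
# S48 / RES (Tower A1) — NORMID1 (helper428): the norm identity for `F1(M; p) / α F1(M)`

`normId1_of_deg : DegAlpha1Statement → H136.NormId1Statement`, where the only remaining input is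
the degree bound `[ℚ̄·F1(M; p) : α(ℚ̄·F1(M))] ≤ p + 1`.

The `p` embeddings are `σ_b = (expansion of (avatar) ∘ h_b)`, `h_b ∈ Γ₁(M)` with
`diag(p,1) h_b = δ_b [[1,b],[0,p]]`, `δ_b ∈ Γ₀(M)`, `(δ_b)₀₀ ≡ p`; the remaining one is `V_p`
(handled inside `normIdG_of_embeddings_jq`).
-/

set_option autoImplicit false
set_option linter.unusedSectionVars false
set_option linter.style.haveILetI false

noncomputable section

open ModularCurve HahnSeries UpperHalfPlane AlgebraicCurve
open scoped MatrixGroups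

namespace Fermat.Agent.S48.H428

open Fermat.Agent.S24 Fermat.Agent.S24.H997 Fermat.Agent.S48.F1 CongruenceSubgroup
open Fermat.Agent.S37

/-! ### The root of unity -/

/-- `ζ ∈ ℚ̄` with `ιK ζ = exp(2πi/p)`. -/
theorem exists_zeta_p (p : ℕ) [NeZero p] :
    ∃ ζ : Kbar, IsPrimitiveRoot ζ p ∧ ιK ζ = ((infRoot 1 p : ℂˣ) : ℂ) := by
  have hp0 : p ≠ 0 := NeZero.ne p
  obtain ⟨ξ, hξ⟩ := HasEnoughRootsOfUnity.exists_primitiveRoot Kbar p
  have hξ' : IsPrimitiveRoot (ιK ξ) p := hξ.map_of_injective ιK_injective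
  have hprim : IsPrimitiveRoot (Complex.exp (2 * Real.pi * Complex.I / p)) p :=
    Complex.isPrimitiveRoot_exp p hp0
  obtain ⟨i, -, hi⟩ := hξ'.eq_pow_of_pow_eq_one hprim.pow_eq_one
  refine ⟨ξ ^ i, ?_, ?_⟩
  · have h2 : IsPrimitiveRoot (ιK (ξ ^ i)) p := by
      rw [map_pow, hi]
      exact hprim
    exact IsPrimitiveRoot.of_map_of_injective h2 ιK_injective
  · rw [map_pow, hi, infRoot_coe]
    congr 1
    push_cast
    ring

theorem infRoot_pow_g (b : ℤ) (n d : ℕ) : (infRoot b n) ^ d = infRoot ((d : ℤ) * b) n := by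
  apply Units.ext
  rw [Units.val_pow_eq_pow_val, infRoot_coe, infRoot_coe, ← Complex.exp_nat_mul]
  congr 1
  push_cast
  ring

theorem infRoot_pow_self (b : ℤ) (n : ℕ) [NeZero n] : ((infRoot b n : ℂˣ) : ℂ) ^ n = 1 := by
  rw [infRoot_coe, ← Complex.exp_nat_mul]
  have hn : (n : ℂ) ≠ 0 := by exact_mod_cast NeZero.ne n
  have e : (n : ℂ) * (2 * Real.pi * Complex.I * b / n) = (b : ℂ) * (2 * Real.pi * Complex.I) := by
    field_simp
  rw [e]
  exact Complex.exp_int_mul_two_pi_mul_I b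

theorem tw_eq_infTwist_g {R : Type*} [CommRing R] (ℓ : ℕ) [NeZero ℓ] (u : Rˣ)
    (hu : (u : R) ^ ℓ = 1) (f : LaurentSeries R) :
    H340.tw ℓ (u : R) f = infTwist u f := by
  ext n
  rw [H340.tw_coeff, infTwist_coeff, mul_comm]
  congr 1
  have hℓ : (ℓ : ℤ) ≠ 0 := by exact_mod_cast NeZero.ne ℓ
  have hu' : u ^ ℓ = 1 := Units.ext (by rw [Units.val_pow_eq_pow_val, hu, Units.val_one])
  unfold H340.zpw
  have h1 : n = n % (ℓ : ℤ) + (ℓ : ℤ) * (n / (ℓ : ℤ)) := (Int.emod_add_mul_ediv n ℓ).symm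
  have h0 : 0 ≤ n % (ℓ : ℤ) := Int.emod_nonneg n hℓ
  have h2 : ((n % (ℓ : ℤ)).toNat : ℤ) = n % (ℓ : ℤ) := Int.toNat_of_nonneg h0
  have h3 : u ^ n = u ^ (n % (ℓ : ℤ)).toNat := by
    conv_lhs => rw [h1, zpow_add, zpow_mul, zpow_natCast, hu', one_zpow, mul_one, ← h2,
      zpow_natCast]
  rw [← Units.val_pow_eq_pow_val, ← h3]

theorem coeffMap_tw_g {R S : Type*} [CommRing R] [CommRing S] (φ : R →+* S) (ℓ : ℕ) [NeZero ℓ]
    (ζ : R) (w : LaurentSeries R) :
    coeffMap φ (H340.tw ℓ ζ w) = H340.tw ℓ (φ ζ) (coeffMap φ w) := by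
  ext n
  rw [coeffMap_coeff, H340.tw_coeff, H340.tw_coeff, coeffMap_coeff, map_mul]
  congr 1
  unfold H340.zpw
  rw [map_pow]

theorem coeffMap_tw_zeta {p : ℕ} [NeZero p] {ζ : Kbar}
    (hζ : ιK ζ = ((infRoot 1 p : ℂˣ) : ℂ)) (b : ℕ) (w : LaurentSeries Kbar) :
    coeffMap ιK (H340.tw p (ζ ^ b) w) = infTwist (infRoot (b : ℤ) p) (coeffMap ιK w) := by
  rw [coeffMap_tw_g, map_pow, hζ]
  have e : ((infRoot 1 p : ℂˣ) : ℂ) ^ b = ((infRoot (b : ℤ) p : ℂˣ) : ℂ) := by
    rw [← Units.val_pow_eq_pow_val, infRoot_pow_g, mul_one]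
  rw [e]
  exact tw_eq_infTwist_g p (infRoot (b : ℤ) p) (infRoot_pow_self _ p) _

/-! ### The statement -/

/-- **DEG**: `[ℚ̄·F1(M; p) : α (ℚ̄·F1(M))] ≤ p + 1`. -/
def DegAlpha1Statement : Prop :=
  ∀ (M p : ℕ) [NeZero p], M ≠ 0 → p.Prime → ¬ p ∣ M →
    finrankAlong Kbar (alpha1 Kbar M p) ≤ p + 1

section Pieces

variable (M p : ℕ) [NeZero M] [NeZero p] [NeZero (M * p)]

variable {M p} in
theorem sigF_alpha_V {g : SL(2, ℤ)} (hg : g ∈ Gamma1 M) (y : ↥(F1L Kbar M)) :
    sigF M p g (alpha1 Kbar M p y) = HolBase.Φ M (qExpand Kbar p (y : LaurentSeries Kbar)) := by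
  rw [sigF_alpha hg y, Φ_qExpand_g]

variable {M p} in
theorem sigF_beta_tw {g δ : SL(2, ℤ)} {b : ℕ} (hδ0 : δ ∈ Gamma0 M)
    (hδp : ((δ 0 0 : ℤ) : ZMod M) = (p : ZMod M))
    (h00 : (p : ℤ) * g 0 0 = δ 0 0 * (1 : ℕ))
    (h01 : (p : ℤ) * g 0 1 = δ 0 0 * ((b : ℕ) : ℤ) + δ 0 1 * p)
    (h10 : g 1 0 = δ 1 0 * (1 : ℕ)) (h11 : g 1 1 = δ 1 0 * ((b : ℕ) : ℤ) + δ 1 1 * p)
    {u : (ZMod M)ˣ} (hu : (u : ZMod M) = (p : ZMod M))
    {dia : ↥(F1L Kbar M) ≃ₐ[Kbar] ↥(F1L Kbar M)} (hdia : IsDiamond Kbar M u dia)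
    {ζ : Kbar} (hζ : ιK ζ = ((infRoot 1 p : ℂˣ) : ℂ))
    (y : ↥(F1L Kbar M)) :
    sigF M p g (beta1 Kbar M p y)
      = HolBase.Φ M (H340.tw p (ζ ^ b) ((dia y : ↥(F1L Kbar M)) : LaurentSeries Kbar)) := by
  rw [sigF_beta hδ0 hδp h00 h01 h10 h11 hu hdia y]
  have e : HolBase.Φ M (H340.tw p (ζ ^ b) ((dia y : ↥(F1L Kbar M)) : LaurentSeries Kbar))
      = qExpand ℂ M (coeffMap ιK
          (H340.tw p (ζ ^ b) ((dia y : ↥(F1L Kbar M)) : LaurentSeries Kbar))) := rfl
  rw [e, coeffMap_tw_zeta hζ]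

theorem diamond_fix_jq {u : (ZMod M)ˣ}
    {dia : ↥(F1L Kbar M) ≃ₐ[Kbar] ↥(F1L Kbar M)} (hdia : IsDiamond Kbar M u dia)
    (y : ↥(F1L Kbar M)) (hy : (y : LaurentSeries Kbar) = coeffEmb Kbar jq) : dia y = y := by
  refine hdia.1 y ?_
  rw [hy]
  refine coeffEmb_mem_laurentBaseChange Kbar ?_
  have h1 := jqd_mem_full (N := M) (one_dvd M)
  rwa [qExpand_one_apply] at h1

end Pieces

/-- **NORMID1 at `(M; p)`** from the degree bound. -/
theorem normIdG_alpha1_of_deg (M p : ℕ) [NeZero p] (hM : M ≠ 0) (hp : p.Prime) (hpM : ¬ p ∣ M)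
    (hfin : FiniteAlong Kbar (alpha1 Kbar M p))
    (hdeg : finrankAlong Kbar (alpha1 Kbar M p) ≤ p + 1) :
    H136.NormIdG (alpha1 Kbar M p) (beta1 Kbar M p) p (diamondAut Kbar M (unitOf M p)) := by
  haveI : NeZero M := ⟨hM⟩
  haveI : NeZero (M * p) := ⟨Nat.mul_ne_zero hM hp.ne_zero⟩
  have hcop : Nat.Coprime M p := ((Nat.Prime.coprime_iff_not_dvd hp).mpr hpM).symm
  have hdia : IsDiamond Kbar M (unitOf M p) (diamondAut Kbar M (unitOf M p)) :=
    H848.isDiamond_diamondAut_848 M (unitOf M p)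
  have hu : ((unitOf M p : (ZMod M)ˣ) : ZMod M) = (p : ZMod M) := coe_unitOf M hcop.symm
  obtain ⟨ζ, hζ, hζι⟩ := exists_zeta_p p
  choose h δ hh hδ0 hδp h00 h01 h10 h11 using fun b : Fin p => exists_rep1 hcop ((b : ℕ) : ℤ)
  have hα : ∀ y : ↥(F1L Kbar M), (F1pL Kbar M p).val.toRingHom (alpha1 Kbar M p y)
      = (y : LaurentSeries Kbar) := fun y => coe_alpha1 Kbar M p y
  have hβ : ∀ y : ↥(F1L Kbar M), (F1pL Kbar M p).val.toRingHom (beta1 Kbar M p y)
      = qExpand Kbar p (y : LaurentSeries Kbar) := fun y => coe_beta1 Kbar M p y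
  have hσα : ∀ (b : Fin p) (y : ↥(F1L Kbar M)), sigF M p (h b) (alpha1 Kbar M p y)
      = HolBase.Φ M (qExpand Kbar p (y : LaurentSeries Kbar)) :=
    fun b y => sigF_alpha_V (hh b) y
  have hσβ : ∀ (b : Fin p) (y : ↥(F1L Kbar M)), sigF M p (h b) (beta1 Kbar M p y)
      = HolBase.Φ M (H340.tw p (ζ ^ (b : ℕ))
          ((diamondAut Kbar M (unitOf M p) y : ↥(F1L Kbar M)) : LaurentSeries Kbar)) :=
    fun b y => sigF_beta_tw (hδ0 b) (hδp b) (h00 b) (h01 b) (h10 b) (h11 b) hu hdia hζι y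
  exact normIdG_of_embeddings_jq (alpha1 Kbar M p) (beta1 Kbar M p) hp
    (diamondAut Kbar M (unitOf M p)) (F1pL Kbar M p).val.toRingHom hα hβ hfin hdeg hζ
    (HolBase.Φ M) (fun b => sigF M p (h b)) hσα hσβ (jq_mem_F1 M) (diamond_fix_jq M hdia)

/-- **NORMID1** from the degree bound (finiteness: helper150's `hi1`). -/
theorem normId1_of_deg (hdeg : DegAlpha1Statement) : H136.NormId1Statement := by
  intro M p _ hM hp hpM
  have hfin : FiniteAlong Kbar (alpha1 Kbar M p) := by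
    obtain ⟨_, _, _, hfin, _⟩ := H150.hi1 M p hM hp hpM
    exact hfin
  exact normIdG_alpha1_of_deg M p hM hp hpM hfin (hdeg M p hM hp hpM)

end Fermat.Agent.S48.H428

end
end
-- ===== PACK-END S48/H428/NormId1.lean

-- ===== PACK-BEGIN S48/Top/ResultOfCore.lean
section







/-!
# Row S48 (Deligne–Serre): the frozen statement from `Core1Top` ALONE (helper948)

State of Tower A1 at 2026-09-27 21:00Z: the sub-tower A1-KUM is CLOSED (`m4b1_closed`), and on
the Eichler–Shimura side only the Kummer core `H556.Core1Top` (sub-tower A1-RED) is open.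

* `normId1_closed : H136.NormId1Statement`   (`H428.normId1_of_deg` + `F1.finrankAlong_alpha1_le`);
* `m4b1_closed    : Res.M4b1Statement`       (`k3` = `H282.pieceK3_Gamma1`,
                                              `norm` = `Kum.normAn1_of_deg` + `F1.degAlpha1`);
* `rawES1_of_core : H556.Core1Top → Res.RawES1Statement true`;
* `result_of_core : H556.Core1Top → S48Statement`.
-/

set_option autoImplicit false

open CongruenceSubgroup

namespace Fermat.Agent.S48.Top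

open Fermat.Agent.S48

/-- **NORMID1**, unconditional. -/
theorem normId1_closed : H136.NormId1Statement :=
  H428.normId1_of_deg F1.finrankAlong_alpha1_le

/-- **Sub-tower A1-KUM**, unconditional: the Kummer map of `Γ₁(M)`. -/
theorem m4b1_closed : Res.M4b1Statement :=
  m4b1_of_open (fun M _ ℓ hℓ => H282.pieceK3_Gamma1 M ℓ hℓ)
    (fun M _ _ _ hpM => Kum.normAn1_of_deg hpM (H149.dictMero1 M) (F1.degAlpha1 M _ hpM))

/-- Raw Eichler–Shimura on `J₁(M)[ℓ]` from the Kummer core. -/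
theorem rawES1_of_core (hcore : H556.Core1Top) : Res.RawES1Statement true :=
  rawES1_of_open hcore normId1_closed

/-- **Row S48 from `Core1Top`.** -/
theorem result_of_core (hcore : H556.Core1Top) : S48Statement :=
  result_of_two (rawES1_of_core hcore) m4b1_closed

end Fermat.Agent.S48.Top

end
-- ===== PACK-END S48/Top/ResultOfCore.lean

-- ===== PACK-BEGIN S18/H965/GlueLemmas.lean
section





/-!
# S18 / GLUE (helper965): lemmas for `node_glue`

Interface-independent lemmas about the concrete objects of `Mod/Defs.lean`: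

* `coeff_mem_of_mem_Fc`      : elements of `Fc M E` have `q`-expansion coefficients in `E`;
* `exists_finset_mem_Fc`     : every `f ∈ Ω = F_M` lies in `Fc M E` as soon as `E` contains a
                               finite set `T` of constants (descent to a number field);
* `natCast_inv_mem_Rc`       : `ℓ ∤ m` ⟹ `m⁻¹ ∈ Rc M A E`;
* `exists_unit_twist`        : the divisor hypothesis of `CoreStatement` in the valuation-subring
                               form required by `Alg.AlgMainStatement`;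
* `sub_one_mul_inv_mem_VcSet`: `u = U₁/U₂`, `Ū₁ = Ū₂` ⟹ `(u - 1)/w ∈ VcSet M A E`.
-/

set_option autoImplicit false

noncomputable section

namespace Fermat.Agent.S18.H965

open ModularCurve AlgebraicCurve HahnSeries Fermat.Agent.S18 Fermat.Agent.S18.Mod

variable (M : ℕ) (E : IntermediateField ℚ Qb)

/-- The subfield of `Ω = F_M` of series all of whose coefficients lie in `E`. -/
def coeffField : Subfield (Om M) :=
  ((coeffMap (algebraMap (↥E) Qb)).fieldRange).comap
    (algebraMap (Om M) (LaurentSeries Qb))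

variable {M E}

theorem coeff_mem_of_mem_coeffField {f : Om M} (hf : f ∈ coeffField M E) (n : ℤ) :
    ((f : LaurentSeries Qb)).coeff n ∈ E := by
  obtain ⟨y, hy⟩ := hf
  have h : (f : LaurentSeries Qb) = coeffMap (algebraMap (↥E) Qb) y := hy.symm
  rw [h, coeffMap_coeff]
  exact (y.coeff n).2

theorem Ec_le_coeffField : Ec M E ≤ coeffField M E := by
  rintro y ⟨a, ha, rfl⟩
  refine ⟨HahnSeries.single 0 ⟨a, ha⟩, ?_⟩
  rw [coeffMap_single]
  change _ = algebraMap Qb (LaurentSeries Qb) a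
  rw [algebraMap_laurentSeries_eq_single]
  rfl

theorem gens_subset_coeffField : gens M ⊆ (coeffField M E : Set (Om M)) := by
  rintro y ⟨d, hd, hdM, rfl⟩
  refine ⟨coeffMap (algebraMap ℚ (↥E)) (qExpand ℚ d jq), ?_⟩
  rw [coeffMap_coeffMap]
  change _ = coeffEmb Qb (qExpand ℚ d jq)
  unfold coeffEmb
  exact coeffMap_congr (RingHom.ext fun c => rfl) _

theorem Fc_le_coeffField : Fc M E ≤ coeffField M E := by
  unfold Fc
  rw [Subfield.closure_le]
  rintro y (hy | hy)
  · exact Ec_le_coeffField hy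
  · exact gens_subset_coeffField hy

/-- Elements of `Fc M E` have all their `q`-expansion coefficients in `E`. -/
theorem coeff_mem_of_mem_Fc {f : Om M} (hf : f ∈ Fc M E) (n : ℤ) :
    ((f : LaurentSeries Qb)).coeff n ∈ E :=
  coeff_mem_of_mem_coeffField (Fc_le_coeffField hf) n


/-! ### Descent to a number field -/

theorem Ec_le_Fc : Ec M E ≤ Fc M E := fun _ hy =>
  Subfield.subset_closure (Or.inl hy)

theorem algebraMap_mem_Ec {a : Qb} (ha : a ∈ E) : algebraMap Qb (Om M) a ∈ Ec M E :=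
  ⟨a, ha, rfl⟩

theorem algebraMap_mem_Fc {a : Qb} (ha : a ∈ E) : algebraMap Qb (Om M) a ∈ Fc M E :=
  Ec_le_Fc (algebraMap_mem_Ec ha)

/-- The image of `ℚ(j_d : d ∣ M)` lies in `Fc M E` for every `E`. -/
theorem exists_mem_Fc_of_mem_full {z : LaurentSeries ℚ} (hz : z ∈ modularFunctionFieldFull M) :
    ∃ f ∈ Fc M E, (f : LaurentSeries Qb) = coeffEmb Qb z := by
  unfold modularFunctionFieldFull at hz
  induction hz using IntermediateField.adjoin_induction with
  | mem y hy =>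
      obtain ⟨d, hd, hdM, rfl⟩ := hy
      exact ⟨jd M d hdM, Subfield.subset_closure (Or.inr ⟨d, hd, hdM, rfl⟩), rfl⟩
  | algebraMap r =>
      refine ⟨algebraMap Qb (Om M) (algebraMap ℚ Qb r),
        algebraMap_mem_Fc (E.algebraMap_mem r), ?_⟩
      change algebraMap Qb (LaurentSeries Qb) (algebraMap ℚ Qb r) = _
      rw [algebraMap_laurentSeries_eq_single, algebraMap_laurentSeries_eq_single]
      unfold coeffEmb
      rw [coeffMap_single]
  | add x y _ _ hx hy =>
      obtain ⟨f, hf, hfx⟩ := hx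
      obtain ⟨g, hg, hgy⟩ := hy
      exact ⟨f + g, add_mem hf hg, by rw [map_add, ← hfx, ← hgy]; rfl⟩
  | inv x _ hx =>
      obtain ⟨f, hf, hfx⟩ := hx
      exact ⟨f⁻¹, inv_mem hf, by rw [map_inv₀, ← hfx]; rfl⟩
  | mul x y _ _ hx hy =>
      obtain ⟨f, hf, hfx⟩ := hx
      obtain ⟨g, hg, hgy⟩ := hy
      exact ⟨f * g, mul_mem hf hg, by rw [map_mul, ← hfx, ← hgy]; rfl⟩

variable (M) in
/-- **Descent.**  Every element of `Ω = F_M` lies in `Fc M E` as soon as the number field `E`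
contains a certain finite set of constants. -/
theorem exists_finset_series (x : LaurentSeries Qb) (hx : x ∈ modularFunctionFieldBar M) :
    ∃ T : Finset Qb, ∀ E : IntermediateField ℚ Qb, (∀ a ∈ T, a ∈ E) →
      ∃ f ∈ Fc M E, (f : LaurentSeries Qb) = x := by
  classical
  rw [mem_laurentBaseChange_iff] at hx
  induction hx using Subfield.closure_induction with
  | mem y hy =>
      rcases hy with ⟨a, rfl⟩ | ⟨z, hz, rfl⟩
      · refine ⟨{a}, fun E hE => ⟨algebraMap Qb (Om M) a, algebraMap_mem_Fc (hE a (by simp)), rfl⟩⟩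
      · exact ⟨∅, fun E _ => exists_mem_Fc_of_mem_full hz⟩
  | one => exact ⟨∅, fun E _ => ⟨1, one_mem _, rfl⟩⟩
  | add x y _ _ hx hy =>
      obtain ⟨T₁, h₁⟩ := hx
      obtain ⟨T₂, h₂⟩ := hy
      refine ⟨T₁ ∪ T₂, fun E hE => ?_⟩
      obtain ⟨f, hf, hfx⟩ := h₁ E (fun a ha => hE a (Finset.mem_union_left _ ha))
      obtain ⟨g, hg, hgy⟩ := h₂ E (fun a ha => hE a (Finset.mem_union_right _ ha))
      exact ⟨f + g, add_mem hf hg, by rw [← hfx, ← hgy]; rfl⟩
  | neg x _ hx =>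
      obtain ⟨T₁, h₁⟩ := hx
      refine ⟨T₁, fun E hE => ?_⟩
      obtain ⟨f, hf, hfx⟩ := h₁ E hE
      exact ⟨-f, neg_mem hf, by rw [← hfx]; rfl⟩
  | inv x _ hx =>
      obtain ⟨T₁, h₁⟩ := hx
      refine ⟨T₁, fun E hE => ?_⟩
      obtain ⟨f, hf, hfx⟩ := h₁ E hE
      exact ⟨f⁻¹, inv_mem hf, by rw [← hfx]; rfl⟩
  | mul x y _ _ hx hy =>
      obtain ⟨T₁, h₁⟩ := hx
      obtain ⟨T₂, h₂⟩ := hy
      refine ⟨T₁ ∪ T₂, fun E hE => ?_⟩
      obtain ⟨f, hf, hfx⟩ := h₁ E (fun a ha => hE a (Finset.mem_union_left _ ha))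
      obtain ⟨g, hg, hgy⟩ := h₂ E (fun a ha => hE a (Finset.mem_union_right _ ha))
      exact ⟨f * g, mul_mem hf hg, by rw [← hfx, ← hgy]; rfl⟩

variable (M) in
/-- **Descent**, elementwise form. -/
theorem exists_finset_mem_Fc (f : Om M) :
    ∃ T : Finset Qb, ∀ E : IntermediateField ℚ Qb, (∀ a ∈ T, a ∈ E) → f ∈ Fc M E := by
  obtain ⟨T, hT⟩ := exists_finset_series M (f : LaurentSeries Qb) f.2
  refine ⟨T, fun E hE => ?_⟩
  obtain ⟨g, hg, hgf⟩ := hT E hE
  have : g = f := Subtype.ext hgf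
  exact this ▸ hg


/-! ### `m` is a unit of `A ∩ E` -/

theorem natCast_inv_mem_valuationSubring {ℓ : ℕ} (hℓ : ℓ.Prime) (A : ValuationSubring Qb)
    (hA : A.LiesOverPrime ℓ) {m : ℕ} (hm : ¬ ℓ ∣ m) : ((m : Qb))⁻¹ ∈ A := by
  have hcop : IsCoprime (ℓ : ℤ) (m : ℤ) :=
    Nat.isCoprime_iff_coprime.mpr ((Nat.Prime.coprime_iff_not_dvd hℓ).mpr hm)
  obtain ⟨a, b, hab⟩ := hcop
  have habQ : (a : Qb) * (ℓ : Qb) + (b : Qb) * (m : Qb) = 1 := by exact_mod_cast hab
  have hℓv : A.valuation (ℓ : Qb) < 1 := (A.mem_nonunits_iff).mp hA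
  have hint : ∀ c : ℤ, A.valuation (c : Qb) ≤ 1 := fun c =>
    (A.valuation_le_one_iff _).mpr (intCast_mem A c)
  have hmle : A.valuation (m : Qb) ≤ 1 := (A.valuation_le_one_iff _).mpr (natCast_mem A m)
  have hmge : ¬ A.valuation (m : Qb) < 1 := by
    intro hlt
    have h1 : A.valuation ((a : Qb) * (ℓ : Qb)) < 1 := by
      rw [map_mul]
      calc A.valuation (a : Qb) * A.valuation (ℓ : Qb) ≤ 1 * A.valuation (ℓ : Qb) :=
            mul_le_mul' (hint a) le_rfl
        _ = A.valuation (ℓ : Qb) := one_mul _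
        _ < 1 := hℓv
    have h2 : A.valuation ((b : Qb) * (m : Qb)) < 1 := by
      rw [map_mul]
      calc A.valuation (b : Qb) * A.valuation (m : Qb) ≤ 1 * A.valuation (m : Qb) :=
            mul_le_mul' (hint b) le_rfl
        _ = A.valuation (m : Qb) := one_mul _
        _ < 1 := hlt
    have h3 : A.valuation ((a : Qb) * (ℓ : Qb) + (b : Qb) * (m : Qb)) < 1 :=
      Valuation.map_add_lt _ h1 h2
    rw [habQ, map_one] at h3
    exact lt_irrefl _ h3
  have hm1 : A.valuation (m : Qb) = 1 := le_antisymm hmle (not_lt.mp hmge)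
  rw [← A.valuation_le_one_iff, map_inv₀, hm1, inv_one]

theorem mem_Rc_iff {A : ValuationSubring Qb} {y : Om M} :
    y ∈ Rc M A E ↔ ∃ a : Qb, a ∈ A ∧ a ∈ E ∧ algebraMap Qb (Om M) a = y := by
  constructor
  · rintro ⟨a, ⟨haA, haE⟩, rfl⟩
    exact ⟨a, haA, haE, rfl⟩
  · rintro ⟨a, haA, haE, rfl⟩
    exact ⟨a, ⟨haA, haE⟩, rfl⟩

theorem natCast_inv_mem_Rc {ℓ : ℕ} (hℓ : ℓ.Prime) (A : ValuationSubring Qb)
    (hA : A.LiesOverPrime ℓ) {m : ℕ} (hm : ¬ ℓ ∣ m) : ((m : Om M))⁻¹ ∈ Rc M A E := by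
  rw [mem_Rc_iff]
  refine ⟨((m : Qb))⁻¹, natCast_inv_mem_valuationSubring hℓ A hA hm,
    inv_mem (natCast_mem E m), ?_⟩
  rw [map_inv₀, map_natCast]

theorem Rc_le_Ec {A : ValuationSubring Qb} {y : Om M} (hy : y ∈ Rc M A E) : y ∈ Ec M E := by
  obtain ⟨a, -, haE, rfl⟩ := mem_Rc_iff.mp hy
  exact algebraMap_mem_Ec haE

/-! ### The divisor hypothesis in valuation-subring form -/

theorem exists_unit_twist [NeZero M] {m : ℕ} {f g : Om M} (hf : f ≠ 0) (hg : g ≠ 0)
    (hdiv : ∀ v : Place Qb (modularFunctionFieldBar M), (m : ℤ) ∣ v.ord f - v.ord g)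
    (O : ValuationSubring (Om M)) (hO : ∀ a ∈ Lc M, a ∈ O) :
    ∃ t : Om M, t ≠ 0 ∧ (f / g) * t ^ m ∈ O ∧ ((f / g) * t ^ m)⁻¹ ∈ O := by
  by_cases hO' : O = ⊤
  · subst hO'
    exact ⟨1, one_ne_zero, ValuationSubring.mem_top _, ValuationSubring.mem_top _⟩
  obtain ⟨P⟩ := Fermat.Agent.S24.nonempty_modularPackage M
  have := P.finiteDimensional
  obtain ⟨v, hv⟩ := Fermat.Agent.Lib.RR.H443.exists_place_eq O
    (fun a => hO _ ⟨a, rfl⟩) hO' (Fermat.Agent.Lib.RR.H864.transcendental_jF M)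
  obtain ⟨k, hk⟩ := hdiv v
  obtain ⟨π, hπ⟩ := Fermat.Agent.Lib.RR.exists_ord_eq_one v
  have hπ0 : π ≠ 0 := Fermat.Agent.Lib.RR.ne_zero_of_ord_ne_zero v (by rw [hπ]; exact one_ne_zero)
  have ht0 : π ^ (-k) ≠ 0 := zpow_ne_zero _ hπ0
  have hfg : f / g ≠ 0 := div_ne_zero hf hg
  have hord : v.ord ((f / g) * (π ^ (-k)) ^ m) = 0 := by
    rw [v.ord_mul hfg (pow_ne_zero _ ht0), div_eq_mul_inv, v.ord_mul hf (inv_ne_zero hg),
      v.ord_inv, Fermat.Agent.Lib.RR.ord_pow, v.ord_zpow, hπ]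
    have : v.ord f = v.ord g + m * k := by linarith
    rw [this]
    ring
  refine ⟨π ^ (-k), ht0, ?_, ?_⟩
  · rw [← hv]
    exact Fermat.Agent.Lib.RR.mem_of_ord_nonneg v (by rw [hord])
  · rw [← hv]
    exact Fermat.Agent.Lib.RR.mem_of_ord_nonneg v (by rw [v.ord_inv, hord, neg_zero])


/-! ### `u ≡ 1` modulo the uniformiser -/

/-- A series over `Q̄` with coefficients in `A` comes from a series over `A`. -/
theorem exists_series_of_coeff_mem (A : ValuationSubring Qb) (x : LaurentSeries Qb)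
    (hx : ∀ n, x.coeff n ∈ A) : ∃ U : LaurentSeries A, coeffMap A.subtype U = x := by
  refine ⟨⟨fun n => ⟨x.coeff n, hx n⟩, x.isPWO_support.mono ?_⟩, ?_⟩
  · intro n hn
    rw [HahnSeries.mem_support]
    intro h0
    exact hn (Subtype.ext h0)
  · ext n
    rfl

theorem toF_ne_zero {A : ValuationSubring Qb} {U : LaurentSeries A} (hU : IsInt A M U) :
    toF hU ≠ 0 := by
  intro h0
  apply hU.2.2
  have h1 : coeffMap A.subtype U = 0 := congrArg Subtype.val h0
  have h2 : U = 0 := by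
    ext n
    have := congrArg (fun x => x.coeff n) h1
    simpa using this
  rw [h2, map_zero]

theorem coe_toF {A : ValuationSubring Qb} {U : LaurentSeries A} (hU : IsInt A M U) :
    ((toF hU : Om M) : LaurentSeries Qb) = coeffMap A.subtype U := rfl

/-- **`u ≡ 1 mod w`.**  If `U₁, U₂` are integral with the same reduction and `toF U_i ∈ Fc M E`,
then `(U₁/U₂ - 1)/w` lies in the Gauss valuation ring `VcSet M A E`, for any `w` generating the
maximal ideal of `Rc M A E`. -/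
theorem sub_one_mul_inv_mem_VcSet (A : ValuationSubring Qb) {U₁ U₂ : LaurentSeries A}
    (h₁ : IsInt A M U₁) (h₂ : IsInt A M U₂)
    (hred : coeffMap (IsLocalRing.residue A) U₁ = coeffMap (IsLocalRing.residue A) U₂)
    (hf₁ : toF h₁ ∈ Fc M E) (hf₂ : toF h₂ ∈ Fc M E)
    {w : Om M} (hw : w ∈ Rc M A E)
    (hgen : ∀ r ∈ Rc M A E, r⁻¹ ∉ Rc M A E → r * w⁻¹ ∈ Rc M A E) :
    (toF h₁ / toF h₂ - 1) * w⁻¹ ∈ VcSet M A E := by
  obtain ⟨w', hw'A, hw'E, rfl⟩ := mem_Rc_iff.mp hw
  have hg0 : toF h₂ ≠ 0 := toF_ne_zero h₂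
  have hwF : algebraMap Qb (Om M) w' ∈ Fc M E := algebraMap_mem_Fc hw'E
  set f : Om M := (toF h₁ - toF h₂) * (algebraMap Qb (Om M) w')⁻¹ with hf
  have hfF : f ∈ Fc M E := mul_mem (sub_mem hf₁ hf₂) (inv_mem hwF)
  have huF : (toF h₁ / toF h₂ - 1) * (algebraMap Qb (Om M) w')⁻¹ ∈ Fc M E :=
    mul_mem (sub_mem (div_mem hf₁ hf₂) (one_mem _)) (inv_mem hwF)
  -- coefficients of `f`
  have hcoeff : ∀ n : ℤ, (f : LaurentSeries Qb).coeff n
      = ((U₁.coeff n : Qb) - (U₂.coeff n : Qb)) * w'⁻¹ := by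
    intro n
    have e1 : (f : LaurentSeries Qb) = (coeffMap A.subtype U₁ - coeffMap A.subtype U₂)
        * (algebraMap Qb (LaurentSeries Qb) w')⁻¹ := rfl
    rw [e1, ← map_inv₀, algebraMap_laurentSeries_eq_single, HahnSeries.coeff_mul_single_zero,
      HahnSeries.coeff_sub, coeffMap_coeff, coeffMap_coeff]
    rfl
  have hcoeffE : ∀ (U : LaurentSeries A) (hU : IsInt A M U), toF hU ∈ Fc M E →
      ∀ n : ℤ, ((U.coeff n : A) : Qb) ∈ E := by
    intro U hU hUF n
    have := coeff_mem_of_mem_Fc hUF n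
    rwa [coe_toF, coeffMap_coeff] at this
  have hcoeffA : ∀ n : ℤ, (f : LaurentSeries Qb).coeff n ∈ A := by
    intro n
    rw [hcoeff]
    set d : A := U₁.coeff n - U₂.coeff n with hd
    have hdval : ((U₁.coeff n : Qb) - (U₂.coeff n : Qb)) = (d : Qb) := rfl
    rw [hdval]
    have hdE : (d : Qb) ∈ E := sub_mem (hcoeffE U₁ h₁ hf₁ n) (hcoeffE U₂ h₂ hf₂ n)
    have hres : IsLocalRing.residue A d = 0 := by
      have := congrArg (fun x => x.coeff n) hred
      simp only [coeffMap_coeff] at this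
      rw [hd, map_sub, this, sub_self]
    have hnu : ¬ IsUnit d := by
      rw [IsLocalRing.residue_eq_zero_iff] at hres
      exact (IsLocalRing.mem_maximalIdeal _).mp hres
    by_cases hd0 : (d : Qb) = 0
    · rw [hd0, zero_mul]
      exact A.zero_mem
    have hr : algebraMap Qb (Om M) (d : Qb) ∈ Rc M A E := mem_Rc_iff.mpr ⟨d, d.2, hdE, rfl⟩
    have hr' : (algebraMap Qb (Om M) (d : Qb))⁻¹ ∉ Rc M A E := by
      intro hmem
      obtain ⟨b, hbA, -, hb⟩ := mem_Rc_iff.mp hmem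
      rw [← map_inv₀] at hb
      have hb' : b = (d : Qb)⁻¹ := (algebraMap Qb (Om M)).injective hb
      apply hnu
      refine IsUnit.of_mul_eq_one (⟨b, hbA⟩ : A) (Subtype.ext ?_)
      change (d : Qb) * b = 1
      rw [hb', mul_inv_cancel₀ hd0]
    obtain ⟨c, hcA, -, hc⟩ := mem_Rc_iff.mp (hgen _ hr hr')
    rw [← map_inv₀, ← map_mul] at hc
    have hc' : c = (d : Qb) * w'⁻¹ := (algebraMap Qb (Om M)).injective hc
    rw [← hc']
    exact hcA
  obtain ⟨W₁, hW₁⟩ := exists_series_of_coeff_mem A (f : LaurentSeries Qb) hcoeffA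
  refine ⟨huF, W₁, U₂, ⟨?_, f, hfF, hW₁.symm⟩, ⟨hcoeffE U₂ h₂ hf₂, toF h₂, hf₂, rfl⟩,
    h₂.2.2, ?_⟩
  · intro n
    have := coeff_mem_of_mem_Fc hfF n
    rwa [← hW₁, coeffMap_coeff] at this
  · rw [hW₁, ← coe_toF h₂]
    have : (toF h₁ / toF h₂ - 1) * (algebraMap Qb (Om M) w')⁻¹ * toF h₂ = f := by
      rw [hf]
      field_simp
    rw [← this]
    rfl

end Fermat.Agent.S18.H965

end
end
-- ===== PACK-END S18/H965/GlueLemmas.lean

-- ===== PACK-BEGIN S48/Red1/GlueGen.lean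
section


/-!
# S48 / RES (Tower A1), sub-tower A1-RED: GENERIC glue `GoodFamily + ALG ⟹ CORE` (helper588)

Port of `S18/H965/Glue.lean` (`node_glue`) to an ARBITRARY field `F₀ ⊆ ℚ((q))`
(`F₀ = F1 M` of `S48/F1/Defs.lean`, `F₀ = F1p M p`, …).

* `OmG F₀ := ↥(laurentBaseChange Q̄ F₀)`, `LcG F₀` its constants;
* `CoreGen F₀ A m` : the Kummer-type core of S18 (`S18.CoreStatement`) for `F₀`, WITHOUT any
  condition on where the reductions live (so it implies every variant with a residue field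
  `F_k ⊆ k((q))` in the hypotheses);
* `ConcreteFamily F₀ A 𝓕` : what the glue needs to know about the members of a family of models
  on `OmG F₀` (they are "concrete": `R = A ∩ Ec`, coefficients of `Fc` in `Ec`, integral series
  of `Fc` lie in `V`, every pair of elements of `Ω` lies in some member);
* `coreGen_of_family` : `GoodFamily` + `ConcreteFamily` + `AlgMainStatement` ⟹ `CoreGen`
  for every PRIME `m ≠ ℓ`.
-/

set_option autoImplicit false

noncomputable section

namespace Fermat.Agent.S48.Red1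

open ModularCurve AlgebraicCurve HahnSeries Fermat.Agent.S18

variable (F₀ : IntermediateField ℚ (LaurentSeries ℚ))

/-- The function field `Q̄ · F₀ ⊆ Q̄((q))`, as a type. -/
abbrev OmG : Type := ↥(laurentBaseChange Qb F₀)

/-- The constants `Q̄ ⊆ OmG F₀`. -/
def LcG : Subfield (OmG F₀) := (algebraMap Qb (OmG F₀)).fieldRange

/-- **CORE** for `F₀`: two `A`-integral series of `Q̄·F₀` with the same nonzero reduction whose
quotient has a divisor divisible by `m` differ by a constant times an `m`-th power. -/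
def CoreGen (A : ValuationSubring Qb) (m : ℕ) : Prop :=
  ∀ (U₁ U₂ : LaurentSeries A) (h₁ : coeffMap A.subtype U₁ ∈ laurentBaseChange Qb F₀)
    (h₂ : coeffMap A.subtype U₂ ∈ laurentBaseChange Qb F₀),
    coeffMap (IsLocalRing.residue A) U₂ ≠ 0 →
    coeffMap (IsLocalRing.residue A) U₁ = coeffMap (IsLocalRing.residue A) U₂ →
    (∀ v : Place Qb (OmG F₀),
      (m : ℤ) ∣ v.ord (⟨_, h₁⟩ : OmG F₀) - v.ord (⟨_, h₂⟩ : OmG F₀)) →
    ∃ (c : Qb) (y : OmG F₀), c ≠ 0 ∧ y ≠ 0 ∧
      (⟨_, h₁⟩ : OmG F₀) = algebraMap Qb (OmG F₀) c * y ^ m * (⟨_, h₂⟩ : OmG F₀)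

/-- What the glue needs to know about a family of models on `OmG F₀` (see the module docstring).
For a model `p = (Ec, Fc, R, V, w)`: `p.1 = Ec`, `p.2.1 = Fc`, `p.2.2.1 = R`, `p.2.2.2.1 = V`. -/
structure ConcreteFamily (A : ValuationSubring Qb) (𝓕 : Set (Alg.Model (OmG F₀))) : Prop where
  /-- descent: every pair of elements of `Ω` lies in the function field of some member -/
  exists_member : ∀ f g : OmG F₀, ∃ p ∈ 𝓕, f ∈ p.2.1 ∧ g ∈ p.2.1
  /-- `Ec` consists of constants -/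
  E_const : ∀ p ∈ 𝓕, ∀ e ∈ p.1, ∃ a : Qb, algebraMap Qb (OmG F₀) a = e
  /-- `R = A ∩ Ec` -/
  R_iff : ∀ p ∈ 𝓕, ∀ a : Qb,
    algebraMap Qb (OmG F₀) a ∈ p.2.2.1 ↔ a ∈ A ∧ algebraMap Qb (OmG F₀) a ∈ p.1
  /-- the `q`-expansion coefficients of the elements of `Fc` lie in `Ec` -/
  coeff_mem : ∀ p ∈ 𝓕, ∀ f ∈ p.2.1, ∀ n : ℤ,
    algebraMap Qb (OmG F₀) ((f : LaurentSeries Qb).coeff n) ∈ p.1
  /-- `A`-integral elements of `Fc` lie in `V` -/
  int_mem_V : ∀ p ∈ 𝓕, ∀ f ∈ p.2.1, (∀ n : ℤ, (f : LaurentSeries Qb).coeff n ∈ A) →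
    f ∈ p.2.2.2.1
  /-- `A`-integral elements of `Fc` with nonzero reduction are units of `V` -/
  unit_V : ∀ p ∈ 𝓕, ∀ f ∈ p.2.1, ∀ U : LaurentSeries A,
    (f : LaurentSeries Qb) = coeffMap A.subtype U → coeffMap (IsLocalRing.residue A) U ≠ 0 →
    f⁻¹ ∈ p.2.2.2.1

variable {F₀}

theorem coeffMap_subtype_injective (A : ValuationSubring Qb) :
    Function.Injective (coeffMap (A.subtype : A →+* Qb)) := by
  intro U V h
  ext n
  have := congrArg (fun x => x.coeff n) h
  simpa using this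

theorem series_ne_zero_of_red_ne_zero {A : ValuationSubring Qb} {U : LaurentSeries A}
    (hU : coeffMap (IsLocalRing.residue A) U ≠ 0) : coeffMap A.subtype U ≠ 0 := by
  intro h0
  apply hU
  have h2 : U = 0 := coeffMap_subtype_injective A (by rw [h0, map_zero])
  rw [h2, map_zero]

/-- The divisor hypothesis of `CoreGen` in the valuation-subring form of `AlgMainStatement`. -/
theorem exists_unit_twistG {x₀ : OmG F₀} (hx₀ : Transcendental Qb x₀)
    [FiniteDimensional (IntermediateField.adjoin Qb {x₀}) (OmG F₀)]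
    {m : ℕ} {f g : OmG F₀} (hf : f ≠ 0) (hg : g ≠ 0)
    (hdiv : ∀ v : Place Qb (OmG F₀), (m : ℤ) ∣ v.ord f - v.ord g)
    (O : ValuationSubring (OmG F₀)) (hO : ∀ a ∈ LcG F₀, a ∈ O) :
    ∃ t : OmG F₀, t ≠ 0 ∧ (f / g) * t ^ m ∈ O ∧ ((f / g) * t ^ m)⁻¹ ∈ O := by
  by_cases hO' : O = ⊤
  · subst hO'
    exact ⟨1, one_ne_zero, ValuationSubring.mem_top _, ValuationSubring.mem_top _⟩
  obtain ⟨v, hv⟩ := Fermat.Agent.Lib.RR.H443.exists_place_eq O
    (fun a => hO _ ⟨a, rfl⟩) hO' hx₀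
  obtain ⟨k, hk⟩ := hdiv v
  obtain ⟨π, hπ⟩ := Fermat.Agent.Lib.RR.exists_ord_eq_one v
  have hπ0 : π ≠ 0 := Fermat.Agent.Lib.RR.ne_zero_of_ord_ne_zero v (by rw [hπ]; exact one_ne_zero)
  have ht0 : π ^ (-k) ≠ 0 := zpow_ne_zero _ hπ0
  have hfg : f / g ≠ 0 := div_ne_zero hf hg
  have hord : v.ord ((f / g) * (π ^ (-k)) ^ m) = 0 := by
    rw [v.ord_mul hfg (pow_ne_zero _ ht0), div_eq_mul_inv, v.ord_mul hf (inv_ne_zero hg),
      v.ord_inv, Fermat.Agent.Lib.RR.ord_pow, v.ord_zpow, hπ]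
    have : v.ord f = v.ord g + m * k := by linarith
    rw [this]
    ring
  refine ⟨π ^ (-k), ht0, ?_, ?_⟩
  · rw [← hv]
    exact Fermat.Agent.Lib.RR.mem_of_ord_nonneg v (by rw [hord])
  · rw [← hv]
    exact Fermat.Agent.Lib.RR.mem_of_ord_nonneg v (by rw [v.ord_inv, hord, neg_zero])

/-- **`u ≡ 1 mod w`** in a concrete family. -/
theorem sub_one_mul_inv_mem_V {A : ValuationSubring Qb} {𝓕 : Set (Alg.Model (OmG F₀))}
    (hc : ConcreteFamily F₀ A 𝓕) {p : Alg.Model (OmG F₀)} (hp : p ∈ 𝓕)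
    (hw : p.2.2.2.2 ∈ p.2.2.1) (hw0 : p.2.2.2.2 ≠ 0)
    (hRE : ∀ r ∈ p.2.2.1, r ∈ p.1) (hEF : p.1 ≤ p.2.1)
    (hgen : ∀ r ∈ p.2.2.1, r⁻¹ ∉ p.2.2.1 → r * (p.2.2.2.2)⁻¹ ∈ p.2.2.1)
    {U₁ U₂ : LaurentSeries A} (h₁ : coeffMap A.subtype U₁ ∈ laurentBaseChange Qb F₀)
    (h₂ : coeffMap A.subtype U₂ ∈ laurentBaseChange Qb F₀)
    (hU₂ : coeffMap (IsLocalRing.residue A) U₂ ≠ 0)
    (hred : coeffMap (IsLocalRing.residue A) U₁ = coeffMap (IsLocalRing.residue A) U₂)
    (hf₁ : (⟨_, h₁⟩ : OmG F₀) ∈ p.2.1) (hf₂ : (⟨_, h₂⟩ : OmG F₀) ∈ p.2.1) :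
    ((⟨_, h₁⟩ : OmG F₀) / (⟨_, h₂⟩ : OmG F₀) - 1) * (p.2.2.2.2)⁻¹ ∈ p.2.2.2.1 := by
  obtain ⟨Ec, Fc, R, V, w⟩ := p
  simp only at hw hw0 hRE hEF hgen hf₁ hf₂ ⊢
  set f₁ : OmG F₀ := ⟨_, h₁⟩ with hf₁def
  set f₂ : OmG F₀ := ⟨_, h₂⟩ with hf₂def
  have hf₂0 : f₂ ≠ 0 := by
    intro h0
    exact series_ne_zero_of_red_ne_zero hU₂ (congrArg Subtype.val h0)
  obtain ⟨w', hw'⟩ := hc.E_const _ hp w (hRE w hw)
  have hw'0 : w' ≠ 0 := by
    rintro rfl
    exact hw0 (by rw [← hw', map_zero])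
  have hwF : w ∈ Fc := hEF (hRE w hw)
  set f : OmG F₀ := (f₁ - f₂) * w⁻¹ with hf
  have hfF : f ∈ Fc := mul_mem (sub_mem hf₁ hf₂) (inv_mem hwF)
  -- coefficients of `f`
  have hcoeff : ∀ n : ℤ, (f : LaurentSeries Qb).coeff n
      = ((U₁.coeff n : Qb) - (U₂.coeff n : Qb)) * w'⁻¹ := by
    intro n
    have e1 : (f : LaurentSeries Qb) = (coeffMap A.subtype U₁ - coeffMap A.subtype U₂)
        * (algebraMap Qb (LaurentSeries Qb) w')⁻¹ := by
      rw [hf, ← hw']
      rfl
    rw [e1, ← map_inv₀, algebraMap_laurentSeries_eq_single, HahnSeries.coeff_mul_single_zero,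
      HahnSeries.coeff_sub, coeffMap_coeff, coeffMap_coeff]
    rfl
  have hcoeffA : ∀ n : ℤ, (f : LaurentSeries Qb).coeff n ∈ A := by
    intro n
    rw [hcoeff]
    set d : A := U₁.coeff n - U₂.coeff n with hd
    have hdval : ((U₁.coeff n : Qb) - (U₂.coeff n : Qb)) = (d : Qb) := rfl
    rw [hdval]
    have hdE : algebraMap Qb (OmG F₀) (d : Qb) ∈ Ec := by
      have h := hc.coeff_mem _ hp (f₁ - f₂) (sub_mem hf₁ hf₂) n
      have e2 : ((f₁ - f₂ : OmG F₀) : LaurentSeries Qb).coeff n = (d : Qb) := by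
        show (coeffMap A.subtype U₁ - coeffMap A.subtype U₂).coeff n = _
        rw [HahnSeries.coeff_sub, coeffMap_coeff, coeffMap_coeff]
        rfl
      rwa [e2] at h
    have hres : IsLocalRing.residue A d = 0 := by
      have := congrArg (fun x => x.coeff n) hred
      simp only [coeffMap_coeff] at this
      rw [hd, map_sub, this, sub_self]
    have hnu : ¬ IsUnit d := by
      rw [IsLocalRing.residue_eq_zero_iff] at hres
      exact (IsLocalRing.mem_maximalIdeal _).mp hres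
    by_cases hd0 : (d : Qb) = 0
    · rw [hd0, zero_mul]
      exact A.zero_mem
    have hr : algebraMap Qb (OmG F₀) (d : Qb) ∈ R := (hc.R_iff _ hp _).mpr ⟨d.2, hdE⟩
    have hr' : (algebraMap Qb (OmG F₀) (d : Qb))⁻¹ ∉ R := by
      intro hmem
      rw [← map_inv₀] at hmem
      have hbA : (d : Qb)⁻¹ ∈ A := ((hc.R_iff _ hp _).mp hmem).1
      apply hnu
      refine IsUnit.of_mul_eq_one (⟨(d : Qb)⁻¹, hbA⟩ : A) (Subtype.ext ?_)
      change (d : Qb) * (d : Qb)⁻¹ = 1
      rw [mul_inv_cancel₀ hd0]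
    have h3 := hgen _ hr hr'
    rw [← hw', ← map_inv₀, ← map_mul] at h3
    exact ((hc.R_iff _ hp _).mp h3).1
  have hfV : f ∈ V := hc.int_mem_V _ hp f hfF hcoeffA
  have hf₂V : f₂⁻¹ ∈ V := hc.unit_V _ hp f₂ hf₂ U₂ rfl hU₂
  have : (f₁ / f₂ - 1) * w⁻¹ = f * f₂⁻¹ := by
    rw [hf]
    field_simp
  rw [this]
  exact V.mul_mem hfV hf₂V

/-- **GENERIC GLUE.**  `GoodFamily` + `ConcreteFamily` + ALG ⟹ CORE, for every prime `m ≠ ℓ`. -/
theorem coreGen_of_family {ℓ : ℕ} (hℓ : ℓ.Prime) (A : ValuationSubring Qb)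
    (hA : A.LiesOverPrime ℓ) {x : OmG F₀} {S : Finset (OmG F₀)}
    {𝓕 : Set (Alg.Model (OmG F₀))}
    [FiniteDimensional (IntermediateField.adjoin Qb {x}) (OmG F₀)]
    (hfam : Alg.GoodFamily (LcG F₀) x S 𝓕) (hc : ConcreteFamily F₀ A 𝓕)
    (halg : Alg.AlgMainStatement (LcG F₀) x S 𝓕)
    (m : ℕ) (hmp : m.Prime) (hm : ¬ ℓ ∣ m) : CoreGen F₀ A m := by
  classical
  intro U₁ U₂ h₁ h₂ hU₂ hred hdiv
  set f₁ : OmG F₀ := ⟨_, h₁⟩ with hf₁def
  set f₂ : OmG F₀ := ⟨_, h₂⟩ with hf₂def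
  have hU₁ : coeffMap (IsLocalRing.residue A) U₁ ≠ 0 := by rw [hred]; exact hU₂
  have hf₁0 : f₁ ≠ 0 := fun h0 =>
    series_ne_zero_of_red_ne_zero hU₁ (congrArg Subtype.val h0)
  have hf₂0 : f₂ ≠ 0 := fun h0 =>
    series_ne_zero_of_red_ne_zero hU₂ (congrArg Subtype.val h0)
  obtain ⟨p, hp, hf₁, hf₂⟩ := hc.exists_member f₁ f₂
  have hgood := hfam.good p hp
  have hxtr : Transcendental Qb x := by
    intro halgx
    apply hgood.x_transcendental
    obtain ⟨P, hP0, hP⟩ := halgx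
    let e : Qb →+* (LcG F₀) := (algebraMap Qb (OmG F₀)).rangeRestrictField
    refine ⟨P.map e, ?_, ?_⟩
    · exact (Polynomial.map_ne_zero_iff e.injective).mpr hP0
    · rw [Polynomial.aeval_def, Polynomial.eval₂_map]
      rw [Polynomial.aeval_def] at hP
      exact hP
  have hm0 : m ≠ 0 := hmp.ne_zero
  have hu0 : f₁ / f₂ ≠ 0 := div_ne_zero hf₁0 hf₂0
  have huV : (f₁ / f₂ - 1) * (p.2.2.2.2)⁻¹ ∈ p.2.2.2.1 :=
    sub_one_mul_inv_mem_V hc hp hgood.w_mem hgood.w_ne_zero (fun r hr => hgood.R_le hr)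
      hgood.E_le_F hgood.w_gen h₁ h₂ hU₂ hred hf₁ hf₂
  have hmR : ((m : OmG F₀))⁻¹ ∈ p.2.2.1 := by
    have h1 : ((m : Qb))⁻¹ ∈ A :=
      Fermat.Agent.S18.H965.natCast_inv_mem_valuationSubring hℓ A hA hm
    have h2 : algebraMap Qb (OmG F₀) ((m : Qb))⁻¹ = ((m : OmG F₀))⁻¹ := by
      rw [map_inv₀, map_natCast]
    rw [← h2]
    refine (hc.R_iff _ hp _).mpr ⟨h1, ?_⟩
    rw [h2]
    exact inv_mem (natCast_mem _ m)
  obtain ⟨y, c, hcL, hc0, huy⟩ := halg hfam p hp m hmp hmR (f₁ / f₂) (div_mem hf₁ hf₂) hu0 huV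
    (exists_unit_twistG hxtr hf₁0 hf₂0 hdiv)
  obtain ⟨c', rfl⟩ := hcL
  refine ⟨c', y, ?_, ?_, ?_⟩
  · rintro rfl
    exact hc0 (map_zero _)
  · rintro rfl
    rw [zero_pow hm0, mul_zero] at huy
    exact hu0 huy
  · rw [← huy, div_mul_cancel₀ _ hf₂0]

end Fermat.Agent.S48.Red1

end
end
-- ===== PACK-END S48/Red1/GlueGen.lean

-- ===== PACK-BEGIN S48/Red1/Objects.lean
section





/-!
# S48 / RES (Tower A1), sub-tower A1-RED: the concrete models on `Ω' = Q̄ · F₀` (helper588)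

GENERIC in the field `F₀ ⊆ ℚ((q))` (`F₀ = F1 M`, `F1p M 2`, `F1p M 3`, …).  For a subfield `E` of
`Q̄` (a number field in the application) and a valuation subring `A` of `Q̄`:

* `cstG`, `exG`     : constants and `q`-expansion of `OmG F₀`;
* `embG`            : `F₀ → OmG F₀`;
* `FcT F₀ E`        : `E · F₀` (generated by the constants of `E` and the image of `F₀`);
* `VcT F₀ A E`      : the Gauss valuation ring of `FcT F₀ E` (`H248.VRing`);
* `IntGen F₀`       : `F₀` is generated over `ℚ` by series with INTEGER coefficients.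

Results: coefficients of elements of `FcT F₀ E` lie in `E`; every element of `FcT F₀ E` is a
quotient of integral series (`IntGen`); `E` is algebraically closed in `FcT F₀ E`;
`FcT F₀ E · Q̄ = Ω'`; monotonicity in `E`.
-/

set_option autoImplicit false

noncomputable section

namespace Fermat.Agent.S48.Red1

open ModularCurve AlgebraicCurve HahnSeries Fermat.Agent.S18 Fermat.Agent.S18.Alg
open Fermat.Agent.S48.H248

variable (F₀ : IntermediateField ℚ (LaurentSeries ℚ))

/-- The constants `Q̄ → Ω'`. -/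
def cstG : Qb →+* OmG F₀ := algebraMap Qb (OmG F₀)

/-- The `q`-expansion `Ω' → Q̄((q))`. -/
def exG : OmG F₀ →+* LaurentSeries Qb := algebraMap (OmG F₀) (LaurentSeries Qb)

@[simp] theorem exG_apply (f : OmG F₀) : exG F₀ f = (f : LaurentSeries Qb) := rfl

theorem exG_cstG (c : Qb) : exG F₀ (cstG F₀ c) = HahnSeries.C c := by
  show algebraMap Qb (LaurentSeries Qb) c = HahnSeries.C c
  rw [algebraMap_laurentSeries_eq_single]
  rfl

theorem cstG_eq (c : Qb) : cstG F₀ c = algebraMap Qb (OmG F₀) c := rfl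

/-- `F₀ → Ω'`. -/
def embG : F₀ →+* OmG F₀ where
  toFun g := ⟨coeffEmb Qb (g : LaurentSeries ℚ), coeffEmb_mem_laurentBaseChange Qb g.2⟩
  map_one' := Subtype.ext (map_one (coeffEmb Qb))
  map_mul' _ _ := Subtype.ext (map_mul (coeffEmb Qb) _ _)
  map_zero' := Subtype.ext (map_zero (coeffEmb Qb))
  map_add' _ _ := Subtype.ext (map_add (coeffEmb Qb) _ _)

@[simp] theorem coe_embG (g : F₀) :
    ((embG F₀ g : OmG F₀) : LaurentSeries Qb) = coeffEmb Qb (g : LaurentSeries ℚ) := rfl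

/-- `E · F₀` inside `Ω'`. -/
def FcT (E : Subfield Qb) : Subfield (OmG F₀) :=
  Subfield.closure ((EcG E (cstG F₀) : Set (OmG F₀)) ∪ Set.range (embG F₀))

/-- The Gauss valuation ring of `E · F₀`. -/
def VcT (A : ValuationSubring Qb) (E : Subfield Qb) : Subring (OmG F₀) :=
  VRing A E (exG F₀) (FcT F₀ E)

/-- `F₀` is generated over `ℚ` by series with integer coefficients. -/
def IntGen : Prop :=
  ∃ G₀ : Set (LaurentSeries ℤ),
    F₀ = IntermediateField.adjoin ℚ (⇑(coeffMap (Int.castRingHom ℚ)) '' G₀)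

variable {F₀}

theorem EcG_le_FcT (E : Subfield Qb) : EcG E (cstG F₀) ≤ FcT F₀ E :=
  fun _ hy => Subfield.subset_closure (Or.inl hy)

theorem cstG_mem_FcT {E : Subfield Qb} {c : Qb} (hc : c ∈ E) : cstG F₀ c ∈ FcT F₀ E :=
  EcG_le_FcT E ((mem_EcG_iff _).mpr ⟨c, hc, rfl⟩)

theorem embG_mem_FcT (E : Subfield Qb) (g : F₀) : embG F₀ g ∈ FcT F₀ E :=
  Subfield.subset_closure (Or.inr ⟨g, rfl⟩)

theorem FcT_mono {E E' : Subfield Qb} (h : E ≤ E') : FcT F₀ E ≤ FcT F₀ E' := by
  unfold FcT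
  rw [Subfield.closure_le]
  rintro y (hy | hy)
  · obtain ⟨c, hc, rfl⟩ := (mem_EcG_iff _).mp hy
    exact cstG_mem_FcT (h hc)
  · exact Subfield.subset_closure (Or.inr hy)

theorem isInt_mono {A : ValuationSubring Qb} {E E' : Subfield Qb} (h : E ≤ E')
    {F F' : Subfield (OmG F₀)} (hF : F ≤ F') {U : LaurentSeries A}
    (hU : _root_.Fermat.Agent.S48.H248.IsInt A E (exG F₀) F U) : _root_.Fermat.Agent.S48.H248.IsInt A E' (exG F₀) F' U :=
  ⟨fun n => h (hU.1 n), let ⟨f, hf, hfU⟩ := hU.2; ⟨f, hF hf, hfU⟩⟩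

theorem VcT_mono (A : ValuationSubring Qb) {E E' : Subfield Qb} (h : E ≤ E') :
    VcT F₀ A E ≤ VcT F₀ A E' := by
  rintro f ⟨hf, U₁, U₂, h₁, h₂, hr, hfU⟩
  exact ⟨FcT_mono h hf, U₁, U₂, isInt_mono h (FcT_mono h) h₁, isInt_mono h (FcT_mono h) h₂,
    hr, hfU⟩

/-! ### Coefficients -/

/-- The subfield of `Ω'` of series all of whose coefficients lie in `E`. -/
def coeffFieldG (F₀ : IntermediateField ℚ (LaurentSeries ℚ)) (E : Subfield Qb) :
    Subfield (OmG F₀) :=
  ((coeffMap (E.subtype)).fieldRange).comap (exG F₀)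

theorem coeff_mem_of_mem_coeffFieldG {E : Subfield Qb} {f : OmG F₀}
    (hf : f ∈ coeffFieldG F₀ E) (n : ℤ) : ((f : LaurentSeries Qb)).coeff n ∈ E := by
  obtain ⟨y, hy⟩ := hf
  have h : (f : LaurentSeries Qb) = coeffMap (E.subtype) y := hy.symm
  rw [h, coeffMap_coeff]
  exact (y.coeff n).2

theorem FcT_le_coeffFieldG (E : Subfield Qb) : FcT F₀ E ≤ coeffFieldG F₀ E := by
  unfold FcT
  rw [Subfield.closure_le]
  rintro y (hy | ⟨g, rfl⟩)
  · obtain ⟨c, hc, rfl⟩ := (mem_EcG_iff _).mp hy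
    refine ⟨HahnSeries.single 0 ⟨c, hc⟩, ?_⟩
    rw [coeffMap_single]
    show _ = exG F₀ (cstG F₀ c)
    rw [exG_cstG]
    rfl
  · refine ⟨coeffMap (algebraMap ℚ (↥E)) (g : LaurentSeries ℚ), ?_⟩
    rw [coeffMap_coeffMap]
    show _ = coeffEmb Qb (g : LaurentSeries ℚ)
    unfold coeffEmb
    exact coeffMap_congr (RingHom.ext fun c => rfl) _

/-- The `q`-expansion coefficients of the elements of `E · F₀` lie in `E`. -/
theorem coeff_mem_of_mem_FcT {E : Subfield Qb} {f : OmG F₀} (hf : f ∈ FcT F₀ E) (n : ℤ) :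
    ((f : LaurentSeries Qb)).coeff n ∈ E :=
  coeff_mem_of_mem_coeffFieldG (FcT_le_coeffFieldG E hf) n

/-! ### Quotients of integral series -/

theorem intCast_mem_valuationSubring (A : ValuationSubring Qb) (n : ℤ) : (n : Qb) ∈ A :=
  intCast_mem A n

/-- The image in `Ω'` of a series with integer coefficients is an integral series. -/
theorem isInt_of_intSeries (A : ValuationSubring Qb) (E : Subfield Qb) (X : LaurentSeries ℤ)
    (g : F₀) (hg : (g : LaurentSeries ℚ) = coeffMap (Int.castRingHom ℚ) X) :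
    _root_.Fermat.Agent.S48.H248.IsInt A E (exG F₀) (FcT F₀ E) (coeffMap (Int.castRingHom A) X) ∧
      exG F₀ (embG F₀ g) = ivInc A (coeffMap (Int.castRingHom A) X) := by
  have hval : exG F₀ (embG F₀ g) = ivInc A (coeffMap (Int.castRingHom A) X) := by
    show coeffEmb Qb (g : LaurentSeries ℚ) = _
    rw [hg]
    unfold coeffEmb ivInc
    rw [coeffMap_coeffMap, coeffMap_coeffMap]
    exact coeffMap_congr (RingHom.ext_int _ _) _
  refine ⟨⟨fun n => ?_, embG F₀ g, embG_mem_FcT E g, hval⟩, hval⟩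
  rw [coeffMap_coeff]
  show (((Int.castRingHom A) (X.coeff n) : A) : Qb) ∈ E
  have : (((Int.castRingHom A) (X.coeff n) : A) : Qb) = ((X.coeff n : ℤ) : Qb) := by
    simp
  rw [this]
  exact intCast_mem E _

/-- Every element of `E · F₀` is a quotient of integral series, if `F₀` is generated by series
with integer coefficients. -/
theorem isRatio_of_mem_FcT (hF₀ : IntGen F₀) (A : ValuationSubring Qb) (E : Subfield Qb)
    {f : OmG F₀} (hf : f ∈ FcT F₀ E) : IsRatio A E (exG F₀) (FcT F₀ E) f := by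
  obtain ⟨G₀, hG₀⟩ := hF₀
  have hEF : ∀ c ∈ E, cstG F₀ c ∈ FcT F₀ E := fun c hc => cstG_mem_FcT hc
  refine isRatio_of_mem_closure (cstG F₀) (exG_cstG F₀) hEF (Set.range (embG F₀)) ?_ hf
  rintro _ ⟨g, rfl⟩
  -- induction on `g ∈ F₀ = ℚ(G₀)`
  have key : ∀ z : LaurentSeries ℚ, ∀ hz : z ∈ F₀,
      IsRatio A E (exG F₀) (FcT F₀ E) (embG F₀ ⟨z, hz⟩) := by
    intro z hz
    have hz' : z ∈ IntermediateField.adjoin ℚ (⇑(coeffMap (Int.castRingHom ℚ)) '' G₀) := by
      rw [← hG₀]; exact hz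
    induction hz' using IntermediateField.adjoin_induction with
    | mem y hy =>
      obtain ⟨X, -, rfl⟩ := hy
      obtain ⟨h1, h2⟩ := isInt_of_intSeries A E X ⟨_, hz⟩ rfl
      exact isRatio_of_isInt h1 h2
    | algebraMap c =>
      have : embG F₀ ⟨algebraMap ℚ (LaurentSeries ℚ) c, hz⟩ = cstG F₀ (algebraMap ℚ Qb c) := by
        apply Subtype.ext
        show coeffEmb Qb (algebraMap ℚ (LaurentSeries ℚ) c) = algebraMap Qb (LaurentSeries Qb) _
        rw [algebraMap_laurentSeries_eq_single, algebraMap_laurentSeries_eq_single]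
        unfold coeffEmb
        rw [coeffMap_single]
      rw [this]
      refine isRatio_cst (cstG F₀) (exG_cstG F₀) hEF ?_
      rw [eq_ratCast]
      exact SubfieldClass.ratCast_mem E c
    | add y y' hy hy' ihy ihy' =>
      have hyF : y ∈ F₀ := by rw [hG₀]; exact hy
      have hyF' : y' ∈ F₀ := by rw [hG₀]; exact hy'
      have : embG F₀ ⟨y + y', hz⟩ = embG F₀ ⟨y, hyF⟩ + embG F₀ ⟨y', hyF'⟩ := by
        rw [← map_add]; rfl
      rw [this]
      exact (ihy hyF).add (ihy' hyF')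
    | inv y hy ihy =>
      have hyF : y ∈ F₀ := by rw [hG₀]; exact hy
      have : embG F₀ ⟨y⁻¹, hz⟩ = (embG F₀ ⟨y, hyF⟩)⁻¹ := by
        rw [← map_inv₀]; rfl
      rw [this]
      exact (ihy hyF).inv
    | mul y y' hy hy' ihy ihy' =>
      have hyF : y ∈ F₀ := by rw [hG₀]; exact hy
      have hyF' : y' ∈ F₀ := by rw [hG₀]; exact hy'
      have : embG F₀ ⟨y * y', hz⟩ = embG F₀ ⟨y, hyF⟩ * embG F₀ ⟨y', hyF'⟩ := by
        rw [← map_mul]; rfl
      rw [this]
      exact (ihy hyF).mul (ihy' hyF')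
  exact key g.1 g.2

/-! ### The compositum -/

theorem closure_FcT_union_LcG (E : Subfield Qb) :
    Subfield.closure ((FcT F₀ E : Set (OmG F₀)) ∪ (LcG F₀ : Set (OmG F₀))) = ⊤ := by
  rw [eq_top_iff]
  intro y _
  set C := Subfield.closure ((FcT F₀ E : Set (OmG F₀)) ∪ (LcG F₀ : Set (OmG F₀))) with hC
  have hle : (laurentBaseChange Qb F₀).toSubfield ≤ C.map (exG F₀) := by
    show Subfield.closure (Set.range (algebraMap Qb (LaurentSeries Qb)) ∪
      (⇑(coeffEmb Qb) '' (F₀ : Set (LaurentSeries ℚ)))) ≤ _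
    rw [Subfield.closure_le]
    rintro z (⟨c, rfl⟩ | ⟨g, hg, rfl⟩)
    · exact ⟨algebraMap Qb (OmG F₀) c, Subfield.subset_closure (Or.inr ⟨c, rfl⟩), rfl⟩
    · exact ⟨embG F₀ ⟨g, hg⟩, Subfield.subset_closure (Or.inl (embG_mem_FcT E _)), rfl⟩
  obtain ⟨y', hy', hyy⟩ := hle y.2
  have : y' = y := Subtype.ext hyy
  rw [← this]
  exact hy'

/-! ### `E` is algebraically closed in `E · F₀` -/

/-- An element of `Ω'` algebraic over the constants is a constant. -/
theorem exists_cst_of_isAlgebraic {f : OmG F₀} (hf : IsAlgebraic Qb f) :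
    ∃ c : Qb, cstG F₀ c = f := by
  have hint : IsIntegral Qb f := hf.isIntegral
  have hdeg : (minpoly Qb f).degree = 1 :=
    IsAlgClosed.degree_eq_one_of_irreducible Qb (minpoly.irreducible hint)
  have hmem := minpoly.mem_range_of_degree_eq_one Qb f hdeg
  obtain ⟨c, hc⟩ := hmem
  exact ⟨c, hc⟩

theorem isAlgebraic_Qb_of_isAlgebraic_EcG {E : Subfield Qb} {f : OmG F₀}
    (hf : IsAlgebraic (EcG E (cstG F₀)) f) : IsAlgebraic Qb f := by
  obtain ⟨P, hP0, hP⟩ := hf
  let e := H588.subfieldMapEquiv (cstG F₀) E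
  let ψ : ↥(EcG E (cstG F₀)) →+* Qb := E.subtype.comp (e.symm : ↥(E.map (cstG F₀)) →+* ↥E)
  have hψ : ∀ y, algebraMap Qb (OmG F₀) (ψ y) = (y : OmG F₀) := by
    intro y
    obtain ⟨c, rfl⟩ := e.surjective y
    show cstG F₀ (E.subtype (e.symm (e c))) = _
    rw [RingEquiv.symm_apply_apply]
    rfl
  refine ⟨P.map ψ, (Polynomial.map_ne_zero_iff ψ.injective).mpr hP0, ?_⟩
  rw [Polynomial.aeval_def, Polynomial.eval₂_map]
  rw [Polynomial.aeval_def] at hP
  have hcomp : (algebraMap Qb (OmG F₀)).comp ψ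
      = algebraMap (↥(EcG E (cstG F₀))) (OmG F₀) := RingHom.ext hψ
  rw [hcomp]
  exact hP

/-- **`E` is algebraically closed in `E · F₀`** (field `E_closed_in_F` of `GoodModel`). -/
theorem E_closed_FcT (E : Subfield Qb) :
    ∀ f ∈ FcT F₀ E, IsAlgebraic (EcG E (cstG F₀)) f → f ∈ EcG E (cstG F₀) := by
  intro f hf halg
  obtain ⟨c, rfl⟩ := exists_cst_of_isAlgebraic (isAlgebraic_Qb_of_isAlgebraic_EcG halg)
  refine (mem_EcG_iff _).mpr ⟨c, ?_, rfl⟩
  have h := coeff_mem_of_mem_FcT hf 0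
  have h2 : ((cstG F₀ c : OmG F₀) : LaurentSeries Qb) = HahnSeries.C c := exG_cstG F₀ c
  rw [h2, HahnSeries.C_apply, HahnSeries.coeff_single_same] at h
  exact h

end Fermat.Agent.S48.Red1

end
end
-- ===== PACK-END S48/Red1/Objects.lean

-- ===== PACK-BEGIN S18/Mod/H216/IntegJ.lean
section


/-!
# S18 / MOD (helper216): integrality of the S28 monomials over `Rc[j]`, and G-V, G-QEP for `x = j`

* `isIntegral_jd` : `j(q^d)` is integral over `Rc[j]` (from `CoreData.integral`).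
* `isIntegral_toOm_yInt` : the monomials `yᵢ ∈ ℤ[j_d : d ∣ M]` are integral over `Rc[j]`.
* `partV_j`, `partQep_j` : `PartV`, `PartQep` for `(Fc M E, Rc M A E, Vc M A E, w, jOm M)` from
  `CoreData M κ`, `κ` the residue field of `A`.
-/

set_option autoImplicit false
set_option linter.unusedSectionVars false

noncomputable section

namespace Fermat.Agent.S18.Mod.H216

open ModularCurve AlgebraicCurve HahnSeries Polynomial Fermat.Agent.S18 Fermat.Agent.S18.Mod
open Fermat.Agent.S28 Fermat.Agent.S18.Alg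

variable {M : ℕ} [NeZero M] (A : ValuationSubring Qb) (E : IntermediateField ℚ Qb)

/-- `ℤ((q)) → Q̄((q))`. -/
abbrev phiZ : LaurentSeries ℤ →+* LaurentSeries Qb := coeffMap (Int.castRingHom Qb)

theorem coe_jd_eq_phiZ (d : ℕ) [NeZero d] (hd : d ∣ M) :
    ((jd M d hd : Om M) : LaurentSeries Qb) = phiZ (qExpand ℤ d (jqModC ℤ)) := by
  rw [coe_jd, coeffEmb, coeffMap_qExpand, coeffMap_qExpand, ← jqModC_rat, coeffMap_jqModC,
    coeffMap_jqModC]

theorem intCast_mem_Rc (k : ℤ) : (k : Om M) ∈ Rc M A E := intCast_mem _ k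

theorem aeval_jOm_mem_polyRing (g : Polynomial ℤ) :
    Polynomial.aeval (jOm M) g ∈ polyRing (Rc M A E) (jOm M) := by
  rw [Polynomial.aeval_eq_sum_range]
  refine sum_mem fun i _ => ?_
  rw [zsmul_eq_mul]
  exact mul_mem (le_polyRing _ _ (intCast_mem_Rc A E _)) (pow_mem (self_mem_polyRing _ _) i)

/-- `ℤ[X] → Rc[j]`. -/
def psiZ : Polynomial ℤ →+* ↥(polyRing (Rc M A E) (jOm M)) :=
  (Polynomial.aeval (R := ℤ) (jOm M)).toRingHom.codRestrict (polyRing (Rc M A E) (jOm M))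
    (aeval_jOm_mem_polyRing A E)

theorem omVal_comp_aeval :
    (omVal M).comp (Polynomial.aeval (R := ℤ) (jOm M)).toRingHom =
      phiZ.comp (evalAt (jqModC ℤ)) := by
  apply Polynomial.ringHom_ext
  · intro k
    simp
  · simp only [RingHom.comp_apply, AlgHom.toRingHom_eq_coe, RingHom.coe_coe, Polynomial.aeval_X,
      omVal_apply]
    rw [coe_jOm, coeffMap_jqModC]

theorem isIntegral_jd
    (hint : ∀ (d : ℕ) [NeZero d], d ∣ M → ∃ P : Polynomial (Polynomial ℤ), P.Monic ∧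
      P.eval₂ (evalAt (jqModC ℤ)) (qExpand ℤ d (jqModC ℤ)) = 0)
    (d : ℕ) [NeZero d] (hd : d ∣ M) :
    IsIntegral (polyRing (Rc M A E) (jOm M)) (jd M d hd) := by
  obtain ⟨P, hmonic, hroot⟩ := hint d hd
  refine ⟨P.map (psiZ A E), hmonic.map _, ?_⟩
  rw [Polynomial.eval₂_map]
  have hcomp : (algebraMap ↥(polyRing (Rc M A E) (jOm M)) (Om M)).comp (psiZ A E) =
      (Polynomial.aeval (R := ℤ) (jOm M)).toRingHom := rfl
  rw [hcomp]
  apply omVal_injective M
  rw [map_zero, Polynomial.hom_eval₂, omVal_comp_aeval, omVal_apply, coe_jd_eq_phiZ,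
    ← Polynomial.hom_eval₂, hroot, map_zero]

variable {n : ℕ} {y : Fin n → LaurentSeries ℤ}

theorem isIntegral_toOm_yInt (hS : H516.SpansQ M y)
    (hint : ∀ (d : ℕ) [NeZero d], d ∣ M → ∃ P : Polynomial (Polynomial ℤ), P.Monic ∧
      P.eval₂ (evalAt (jqModC ℤ)) (qExpand ℤ d (jqModC ℤ)) = 0)
    (i : Fin n) :
    IsIntegral (polyRing (Rc M A E) (jOm M)) (toOm M A E (yInt A E hS i)) := by
  have hle : Subring.closure (intDivisorExpansions M) ≤
      Subring.comap phiZ
        ((integralClosure ↥(polyRing (Rc M A E) (jOm M)) (Om M)).toSubring.map (omVal M)) := by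
    rw [Subring.closure_le]
    rintro z ⟨d, hd, hdM, rfl⟩
    haveI := hd
    exact ⟨jd M d hdM, isIntegral_jd A E hint d hdM, coe_jd_eq_phiZ d hdM⟩
  obtain ⟨f, hf, hfy⟩ := hle (hS.1 i)
  have : f = toOm M A E (yInt A E hS i) := by
    apply Subtype.ext
    rw [coe_toOm_yInt]
    exact hfy
  rw [← this]
  exact hf

/-! ### G-V and G-QEP for `x = j` -/

/-- **G-V** for the coordinate `j`. -/
theorem partV_j (core : CoreData M (IsLocalRing.ResidueField ↥A)) {w : Om M}
    (hR : PartR (Ec M E) (Rc M A E) w) :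
    PartV (Fc M E) (Rc M A E) (Vc M A E) w (jOm M) := by
  obtain ⟨n, y, hy, hspan, hli⟩ := core.exists_basis
  have hS : H516.SpansQ M y := ⟨hy, hspan⟩
  exact
    { V_le := Vc_le_Fc M A E
      V_total := V_total_j A E hS hli
      R_le_V := R_le_V M A E
      w_inv_not_mem_V := w_inv_not_mem_V M A E hR
      V_gen := V_gen M A E hR
      x_mem_V := jOm_mem_Vc M A E
      gauss := gauss_j M A E }

/-- **G-QEP** for the coordinate `j`. -/
theorem partQep_j (core : CoreData M (IsLocalRing.ResidueField ↥A)) {w : Om M}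
    (hR : PartR (Ec M E) (Rc M A E) w) :
    PartQep (Fc M E) (Rc M A E) (Vc M A E) w (jOm M) := by
  obtain ⟨n, y, hy, hspan, hli⟩ := core.exists_basis
  have hS : H516.SpansQ M y := ⟨hy, hspan⟩
  exact partQep_of_den hR (partV_j A E core hR) (Ec_le_Fc M E) (jOm_mem_Vc M A E)
    (injective_evR_j A E)
    (denAt_j A E hR hS hli (isIntegral_toOm_yInt A E hS (fun d _ hd => core.integral d hd)))

end Fermat.Agent.S18.Mod.H216

end
end
-- ===== PACK-END S18/Mod/H216/IntegJ.lean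

-- ===== PACK-BEGIN S28/H807/Analytic.lean
section
/-
S28 / helper807 — UNCONDITIONAL prime-level analytic inputs `[A-Φ]`, `[A-W]` of the captain
skeleton: `Nonempty (ModPolyData p)` and `Nonempty (UnitPolyData p)` for every prime `p`.

Bridge facts used (already on main): helper565 (`q`-expansions of `j`, `Δ`, `Δ⁻¹`,
`SL(2,ℤ)`-invariance of `j`) and helper685 (level-one polynomial principle, `S`-invariant form).
-/





set_option autoImplicit false
set_option maxHeartbeats 400000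

noncomputable section

open ModularCurve Polynomial Matrix UpperHalfPlane
open scoped MatrixGroups

namespace Fermat.Agent.S28.H807

open Fermat.Agent.S28

theorem hasQExp_iff_hasTExp (c : LaurentSeries ℂ) (F : ℍ → ℂ) :
    HasQExp c F ↔ H565.HasTExp 1 F c := by
  rw [hasQExp_iff]
  rfl

theorem hasQExp_iff_hasQLaurent (c : LaurentSeries ℂ) (F : ℍ → ℂ) :
    HasQExp c F ↔ H685.HasQLaurent 1 F c := by
  rw [hasQExp_iff]
  rfl

theorem evalJ_eq_aeval (P : Polynomial ℂ) :
    evalJ ℂ P = Polynomial.aeval (jqModC ℂ) P := by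
  unfold evalJ
  rw [Polynomial.aeval_def]
  congr 1
  ext c : 1
  exact (H685.algebraMap_eq_C c).symm

/-- The polynomial principle holds (helper685). -/
theorem polyPrinciple : PolyPrinciple := by
  intro c F hF hS
  obtain ⟨P, hP, -⟩ := H685.exists_polynomial_of_S_invariant' F c
    ((hasQExp_iff_hasQLaurent c F).mp hF) hS
  exact ⟨P, by rw [evalJ_eq_aeval]; exact hP⟩

theorem hasQExp_jFun : HasQExp (jqModC ℂ) H565.jFun :=
  (hasQExp_iff_hasTExp _ _).mpr H565.hasTExp_jFun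

theorem coeffMap_deltaL : coeffMap (Int.castRingHom ℂ) (deltaL ℤ) = H565.deltaSeriesC := by
  unfold deltaL H565.deltaSeriesC
  rw [map_mul, coeffMap_single, coeffMap_ofPowerSeries, map_one]
  congr 2
  rw [← H565.map_dedekindEtaUnit]
  ext n
  simp

theorem coeffMap_deltaInvL :
    coeffMap (Int.castRingHom ℂ) (deltaInvL ℤ) = H565.deltaInvSeriesC := by
  unfold deltaInvL H565.deltaInvSeriesC H565.etaInvC
  rw [map_mul, coeffMap_single, coeffMap_ofPowerSeries, map_one]
  congr 2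

theorem discriminant_smul_denom (γ : SL(2, ℤ)) (τ : ℍ) :
    ModularForm.discriminant (γ • τ) = (denom γ τ) ^ 12 * ModularForm.discriminant τ := by
  rw [H565.discriminant_smul, ModularGroup.denom_apply]
  norm_cast

variable (p : ℕ) [NeZero p]

/-- **[A-Φ]** (captain stub `nonempty_modPolyData`): the modular polynomial of prime level. -/
theorem nonempty_modPolyData (hp : p.Prime) : Nonempty (ModPolyData p) :=
  nonempty_modPolyData_of p hp polyPrinciple H565.jFun H565.jFun_smul hasQExp_jFun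

/-- **[A-W]** (captain stub `nonempty_unitPolyData`): `p¹² Δ(q^p)/Δ(q)` is integral over
`ℤ[j]`. -/
theorem nonempty_unitPolyData (hp : p.Prime) : Nonempty (UnitPolyData p) :=
  nonempty_unitPolyData_of p hp polyPrinciple ModularForm.discriminant
    ModularForm.discriminant_ne_zero discriminant_smul_denom
    (by rw [coeffMap_deltaL]; exact (hasQExp_iff_hasTExp _ _).mpr H565.hasTExp_discriminant)
    (by rw [coeffMap_deltaInvL]; exact (hasQExp_iff_hasTExp _ _).mpr H565.hasTExp_discriminant_inv)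

end Fermat.Agent.S28.H807

end

end
-- ===== PACK-END S28/H807/Analytic.lean

-- ===== PACK-BEGIN S18/Mod/H216/NodeJ.lean
section






/-!
# S18 / MOD (helper216): G-V and G-QEP for the coordinate `j` — UNCONDITIONAL

For `ℓ ∤ M` and `A` over `ℓ`:
* `coreData_residue` : S28 `CoreData M κ` for the residue field `κ` of `A`;
* `partVStatement_j`   : `PartVStatement M A (jOm M)`;
* `partQepStatement_j` : `PartQepStatement M A (jOm M)`.
-/

set_option autoImplicit false
set_option linter.unusedSectionVars false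

noncomputable section

namespace Fermat.Agent.S18.Mod.H216

open ModularCurve AlgebraicCurve HahnSeries Polynomial Fermat.Agent.S18 Fermat.Agent.S18.Mod
open Fermat.Agent.S28 Fermat.Agent.S18.Alg

variable {M : ℕ} [NeZero M] {ℓ : ℕ} [Fact ℓ.Prime] (A : ValuationSubring Qb)

theorem charP_residue (hA : A.LiesOverPrime ℓ) : CharP (IsLocalRing.ResidueField ↥A) ℓ := by
  have hp : ℓ.Prime := Fact.out
  rw [CharP.charP_iff_prime_eq_zero hp]
  obtain ⟨ha, hmem⟩ := (ValuationSubring.mem_nonunits_iff_exists_mem_maximalIdeal).mp hA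
  have h1 : IsLocalRing.residue ↥A ⟨(ℓ : Qb), ha⟩ = 0 :=
    (IsLocalRing.residue_eq_zero_iff _).mpr hmem
  have h2 : (⟨(ℓ : Qb), ha⟩ : ↥A) = ((ℓ : ℕ) : ↥A) := Subtype.ext (by simp)
  rw [h2, map_natCast] at h1
  exact h1

/-- S28 `CoreData` over the residue field of `A`. -/
theorem coreData_residue (hℓM : ¬ ℓ ∣ M) (hA : A.LiesOverPrime ℓ) :
    CoreData M (IsLocalRing.ResidueField ↥A) := by
  haveI := charP_residue A hA
  exact H867.coreData_of_inputs M ℓ hℓM (IsLocalRing.ResidueField ↥A)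
    (fun p hp _ _ => H807.nonempty_modPolyData p hp)
    (fun p hp _ _ => H807.nonempty_unitPolyData p hp)
    H25.theta_identity

/-- **G-V for `x = j`** (exact target `PartVStatement M A (jOm M)`). -/
theorem partVStatement_j (hℓM : ¬ ℓ ∣ M) (hA : A.LiesOverPrime ℓ) :
    PartVStatement M A (jOm M) :=
  fun E _ _ hR => partV_j A E (coreData_residue A hℓM hA) hR

/-- **G-QEP for `x = j`** (exact target `PartQepStatement M A (jOm M)`). -/
theorem partQepStatement_j (hℓM : ¬ ℓ ∣ M) (hA : A.LiesOverPrime ℓ) :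
    PartQepStatement M A (jOm M) :=
  fun E _ _ hR => partQep_j A E (coreData_residue A hℓM hA) hR

end Fermat.Agent.S18.Mod.H216

end
end
-- ===== PACK-END S18/Mod/H216/NodeJ.lean

-- ===== PACK-BEGIN S18/H24/GaussFields.lean
section


/-!
# S18 / node_mod, part G-V (helper24) — HAND-IN

All `V`-fields of `Alg.GoodModel` (v4 on main) for the concrete objects of `S18/Mod/Defs.lean`:

`gv_fields` : for every subring `V` with underlying set `VcSet M A E`, every `w` satisfying the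
`w`-fields of G-R (`w_mem, w_ne_zero, w_inv_not_mem, w_gen, w_discrete` for `Rc M A E`), and every
coordinate `x` with an integral expansion `q⁻¹ + …` (`H456.HasIntExp`, e.g. from `IsCoordinate`):

    V_le ∧ V_total ∧ R_le_V ∧ x_mem_V ∧ w_inv_not_mem_V ∧ V_gen ∧ gauss

in exactly the field types of `Alg.GoodModel (Lc M) (Ec M E) (Fc M E) (Rc M A E) V w x S`.
No hypothesis on `ℓ`, `M`, or finiteness of `E` is needed here (they enter through G-R).
-/

set_option autoImplicit false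

noncomputable section

namespace Fermat.Agent.S18.H24

open ModularCurve AlgebraicCurve HahnSeries Fermat.Agent.S18 Fermat.Agent.S18.Mod
open Fermat.Agent.S18.H456

variable {M : ℕ} {A : ValuationSubring Qb} {E : IntermediateField ℚ Qb}

/-- The `w`-fields of G-R give a uniformiser in the sense of `IsUnif`. -/
theorem exists_isUnif {w : Om M} (hwR : w ∈ Rc M A E) (hw0 : w ≠ 0) (hwinv : w⁻¹ ∉ Rc M A E)
    (hgen : ∀ r ∈ Rc M A E, r⁻¹ ∉ Rc M A E → r * w⁻¹ ∈ Rc M A E)
    (hdisc : ∀ r ∈ Rc M A E, r ≠ 0 →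
      ∃ n : ℕ, r * (w⁻¹) ^ n ∈ Rc M A E ∧ (r * (w⁻¹) ^ n)⁻¹ ∈ Rc M A E) :
    ∃ w₀ : Qb, w = cst M w₀ ∧ _root_.Fermat.Agent.S18.H24.IsUnif A E w₀ := by
  obtain ⟨w₀, hw₀A, hw₀E, rfl⟩ := (mem_Rc_iff M A E).mp hwR
  have hw₀0 : w₀ ≠ 0 := by
    rintro rfl
    exact hw0 (map_zero _)
  have hninv : w₀⁻¹ ∉ A := by
    intro h
    apply hwinv
    rw [← map_inv₀]
    exact cst_mem_Rc M A E h (inv_mem hw₀E)
  refine ⟨w₀, rfl, hw₀A, hw₀E, hw₀0, hninv, ?_, ?_⟩
  · intro c hcA hcE hcinv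
    have h1 : (cst M c)⁻¹ ∉ Rc M A E := by
      intro h
      rw [← map_inv₀] at h
      exact hcinv ((cst_mem_Rc_iff M A E).mp h).1
    have h2 := hgen _ (cst_mem_Rc M A E hcA hcE) h1
    rw [← map_inv₀, ← map_mul] at h2
    exact ((cst_mem_Rc_iff M A E).mp h2).1
  · intro c hcA hcE hc0
    have h1 : cst M c ≠ 0 := fun h => hc0 (cst_injective M (by rw [h]; exact (map_zero _).symm))
    obtain ⟨n, hn1, hn2⟩ := hdisc _ (cst_mem_Rc M A E hcA hcE) h1
    refine ⟨n, ?_, ?_⟩
    · rw [← map_inv₀, ← map_pow, ← map_mul] at hn1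
      exact ((cst_mem_Rc_iff M A E).mp hn1).1
    · rw [← map_inv₀, ← map_pow, ← map_mul, ← map_inv₀] at hn2
      exact ((cst_mem_Rc_iff M A E).mp hn2).1

/-- **G-V hand-in**: all `V`-fields of `GoodModel` for the concrete Gauss valuation ring. -/
theorem gv_fields [NeZero M] (V : Subring (Om M)) (hV : (V : Set (Om M)) = VcSet M A E)
    {w : Om M} (hwR : w ∈ Rc M A E) (hw0 : w ≠ 0) (hwinv : w⁻¹ ∉ Rc M A E)
    (hgen : ∀ r ∈ Rc M A E, r⁻¹ ∉ Rc M A E → r * w⁻¹ ∈ Rc M A E)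
    (hdisc : ∀ r ∈ Rc M A E, r ≠ 0 →
      ∃ n : ℕ, r * (w⁻¹) ^ n ∈ Rc M A E ∧ (r * (w⁻¹) ^ n)⁻¹ ∈ Rc M A E)
    {x : Om M} (hx : HasIntExp M x) :
    ((V : Set (Om M)) ⊆ Fc M E) ∧
    (∀ f ∈ Fc M E, f ∈ V ∨ f⁻¹ ∈ V) ∧
    (Rc M A E ≤ V) ∧
    (x ∈ V) ∧
    (w⁻¹ ∉ V) ∧
    (∀ f ∈ V, f⁻¹ ∉ V → f * w⁻¹ ∈ V) ∧
    (∀ P : Polynomial (Om M), (∀ i, P.coeff i ∈ Rc M A E) →
      (∃ i, P.coeff i ≠ 0 ∧ (P.coeff i)⁻¹ ∈ Rc M A E) → (P.eval x)⁻¹ ∈ V) := by
  have hVeq : V = Vc M A E := SetLike.coe_injective (by rw [hV, coe_Vc])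
  subst hVeq
  obtain ⟨w₀, rfl, hw⟩ := _root_.Fermat.Agent.S18.H24.exists_isUnif hwR hw0 hwinv hgen hdisc
  exact ⟨field_V_le M A E, field_V_total M hw, field_R_le_V M A E, coord_mem_Vc hx,
    field_w_inv_not_mem_V hw.ne_zero hw.inv_not_mem, field_V_gen M hw, field_gauss hx⟩

/-- The same for a coordinate in the sense of `Mod.IsCoordinate`. -/
theorem gv_fields_of_isCoordinate [NeZero M] (V : Subring (Om M))
    (hV : (V : Set (Om M)) = VcSet M A E)
    {w : Om M} (hwR : w ∈ Rc M A E) (hw0 : w ≠ 0) (hwinv : w⁻¹ ∉ Rc M A E)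
    (hgen : ∀ r ∈ Rc M A E, r⁻¹ ∉ Rc M A E → r * w⁻¹ ∈ Rc M A E)
    (hdisc : ∀ r ∈ Rc M A E, r ≠ 0 →
      ∃ n : ℕ, r * (w⁻¹) ^ n ∈ Rc M A E ∧ (r * (w⁻¹) ^ n)⁻¹ ∈ Rc M A E)
    {ℓ : ℕ} {x : Om M} {S : Finset (Om M)} (hx : IsCoordinate M ℓ x S) :
    ((V : Set (Om M)) ⊆ Fc M E) ∧
    (∀ f ∈ Fc M E, f ∈ V ∨ f⁻¹ ∈ V) ∧
    (Rc M A E ≤ V) ∧
    (x ∈ V) ∧
    (w⁻¹ ∉ V) ∧
    (∀ f ∈ V, f⁻¹ ∉ V → f * w⁻¹ ∈ V) ∧
    (∀ P : Polynomial (Om M), (∀ i, P.coeff i ∈ Rc M A E) →
      (∃ i, P.coeff i ≠ 0 ∧ (P.coeff i)⁻¹ ∈ Rc M A E) → (P.eval x)⁻¹ ∈ V) :=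
  gv_fields V hV hwR hw0 hwinv hgen hdisc (hasIntExp_of_isCoordinate M hx)

end Fermat.Agent.S18.H24

end
end
-- ===== PACK-END S18/H24/GaussFields.lean

-- ===== PACK-BEGIN S18/H24/Finite.lean
section




/-!
# S18 / node_mod, part G-FLD (helper24) — the field `finite` for `x = j`

`field_finite_j` : for every intermediate field `E` of `Q̄/ℚ` and every level `M ≥ 1`,

    ∃ s : Finset (Om M), ↑s ⊆ Fc M E ∧ ∀ f ∈ Fc M E, f ∈ Submodule.span (ratField (Ec M E) (jOm M)) ↑s

(exact type of the field `finite` of `Alg.GoodModel` at the concrete objects, `x = jOm M`).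

Proof: `Fc = Ec(j)(j_d : d ∣ M)`, finitely many generators, each integral over `ℤ[j]`
(modular polynomials, S28 `H867.coreData_integral` + `H807.nonempty_modPolyData`).
`field_finite_of_mem` : the same for any coordinate `x ∈ Fc` with `j ∈ Ec(x)` (e.g. `t₂`, `t₃`).
-/

set_option autoImplicit false

noncomputable section

namespace Fermat.Agent.S18.H24

open ModularCurve AlgebraicCurve HahnSeries Fermat.Agent.S18 Fermat.Agent.S18.Mod
open Fermat.Agent.S18.Alg Fermat.Agent.S18.H456 Fermat.Agent.S28 Polynomial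

variable (M : ℕ) [NeZero M] (E : IntermediateField ℚ Qb)

/-- `ℤ[Y] → Ω`, `Y ↦ j`. -/
def evJOm : Polynomial ℤ →+* Om M := (Polynomial.aeval (R := ℤ) (jOm M)).toRingHom

/-- The subtype map `Ω → Q̄((q))` as a ring hom. -/
abbrev valHom : Om M →+* LaurentSeries Qb := (modularFunctionFieldBar M).val.toRingHom

theorem valHom_injective : Function.Injective (valHom M) := Subtype.val_injective

theorem val_jd' (d : ℕ) [NeZero d] (hd : d ∣ M) :
    valHom M (jd M d hd) = coeffMap (Int.castRingHom Qb) (qExpand ℤ d (jqModC ℤ)) := by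
  show coeffEmb Qb (qExpand ℚ d jq) = _
  have h1 : coeffEmb Qb (qExpand ℚ d jq) = jqNModC Qb d := coeffMap_jqNModC (algebraMap ℚ Qb) d
  have h2 : coeffMap (Int.castRingHom Qb) (jqNModC ℤ d) = jqNModC Qb d :=
    coeffMap_jqNModC (Int.castRingHom Qb) d
  exact h1.trans h2.symm

theorem val_jOm' : valHom M (jOm M) = coeffMap (Int.castRingHom Qb) (jqModC ℤ) := by
  show ((jOm M : Om M) : LaurentSeries Qb) = _
  rw [val_jOm, coeffMap_jqModC]

/-- compatibility of the two evaluations `ℤ[Y] → Q̄((q))`. -/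
theorem valHom_comp_evJOm :
    (valHom M).comp (evJOm M) =
      (coeffMap (Int.castRingHom Qb)).comp (evalAt (jqModC ℤ)) := by
  apply Polynomial.ringHom_ext
  · intro a
    simp [evJOm, evalAt]
  · show valHom M (Polynomial.aeval (jOm M) (X : Polynomial ℤ)) =
      coeffMap (Int.castRingHom Qb) (Polynomial.aeval (jqModC ℤ) (X : Polynomial ℤ))
    rw [Polynomial.aeval_X, Polynomial.aeval_X]
    exact val_jOm' M

/-- `j_d` is a root of a monic polynomial with coefficients in `ℤ[j] ⊆ Ω`. -/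
theorem exists_monic_root_jd (d : ℕ) [NeZero d] (hd : d ∣ M) :
    ∃ P : Polynomial (Polynomial ℤ), P.Monic ∧ (P.map (evJOm M)).eval (jd M d hd) = 0 := by
  obtain ⟨P, hP, hPe⟩ := H867.coreData_integral M
    (fun p hp _ _ => H807.nonempty_modPolyData p hp) d hd
  refine ⟨P, hP, ?_⟩
  apply valHom_injective M
  rw [map_zero, Polynomial.eval_map, Polynomial.hom_eval₂, valHom_comp_evJOm, val_jd',
    ← Polynomial.hom_eval₂, hPe, map_zero]

theorem jOm_mem_ratField : jOm M ∈ ratField (Ec M E) (jOm M) :=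
  Subfield.subset_closure (Or.inr rfl)

theorem Ec_le_ratField (x : Om M) : Ec M E ≤ ratField (Ec M E) x :=
  fun _ h => Subfield.subset_closure (Or.inl h)

theorem evJOm_mem_ratField (p : Polynomial ℤ) : evJOm M p ∈ ratField (Ec M E) (jOm M) := by
  show Polynomial.aeval (jOm M) p ∈ _
  rw [Polynomial.aeval_def, Polynomial.eval₂_eq_sum_range]
  refine Subfield.sum_mem _ fun i _ => ?_
  refine mul_mem ?_ (pow_mem (jOm_mem_ratField M E) i)
  rw [eq_intCast]
  exact intCast_mem _ _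

/-- `j_d` is integral over `Ec(j)`. -/
theorem isIntegral_jd (d : ℕ) [NeZero d] (hd : d ∣ M) :
    IsIntegral (ratField (Ec M E) (jOm M)) (jd M d hd) := by
  obtain ⟨P, hP, hroot⟩ := exists_monic_root_jd M d hd
  have hl : P.map (evJOm M) ∈ Polynomial.lifts (ratField (Ec M E) (jOm M)).subtype := by
    rw [Polynomial.lifts_iff_coeff_lifts]
    intro i
    rw [Polynomial.coeff_map]
    exact ⟨⟨_, evJOm_mem_ratField M E (P.coeff i)⟩, rfl⟩
  obtain ⟨q, hq, -, hqm⟩ := Polynomial.lifts_and_natDegree_eq_and_monic hl (hP.map _)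
  refine ⟨q, hqm, ?_⟩
  have : eval₂ (ratField (Ec M E) (jOm M)).subtype (jd M d hd) q =
      eval (jd M d hd) (q.map (ratField (Ec M E) (jOm M)).subtype) := (eval_map _ _).symm
  rw [show (algebraMap (ratField (Ec M E) (jOm M)) (Om M)) =
    (ratField (Ec M E) (jOm M)).subtype from rfl, this, hq, hroot]

theorem gens_finite : (gens M).Finite := by
  classical
  have : gens M ⊆ Set.range (fun d : {d : ℕ // d ∣ M ∧ d ≠ 0} =>
      haveI : NeZero d.1 := ⟨d.2.2⟩
      jd M d.1 d.2.1) := by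
    rintro y ⟨d, hd, hdM, rfl⟩
    exact ⟨⟨d, hdM, hd.out⟩, rfl⟩
  refine Set.Finite.subset ?_ this
  have hfin : Finite {d : ℕ // d ∣ M ∧ d ≠ 0} := by
    have : {d : ℕ | d ∣ M ∧ d ≠ 0} ⊆ (M.divisors : Set ℕ) := by
      intro d hd
      exact Nat.mem_divisors.mpr ⟨hd.1, NeZero.ne M⟩
    exact Set.Finite.subset (Finset.finite_toSet _) this
  exact Set.finite_range _

/-- `Fc` as an intermediate field over `Ec(j)`. -/
theorem Fc_eq_adjoin :
    (Fc M E : Set (Om M)) =
      (IntermediateField.adjoin (ratField (Ec M E) (jOm M)) (gens M) : Set (Om M)) := by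
  have hjF : jOm M ∈ Fc M E :=
    Subfield.subset_closure (Or.inr ⟨1, inferInstance, one_dvd M, rfl⟩)
  have hK : ratField (Ec M E) (jOm M) ≤ Fc M E := by
    refine Subfield.closure_le.mpr ?_
    rintro y (hy | hy)
    · exact field_E_le_F M E hy
    · rw [Set.mem_singleton_iff] at hy
      rw [hy]; exact hjF
  apply Set.Subset.antisymm
  · -- `Fc ⊆ adjoin`
    have : Fc M E ≤ (IntermediateField.adjoin (ratField (Ec M E) (jOm M)) (gens M)).toSubfield := by
      refine Subfield.closure_le.mpr ?_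
      rintro y (hy | hy)
      · exact IntermediateField.algebraMap_mem
          (IntermediateField.adjoin (ratField (Ec M E) (jOm M)) (gens M))
          (⟨y, Ec_le_ratField M E _ hy⟩ : ratField (Ec M E) (jOm M))
      · exact IntermediateField.subset_adjoin _ _ hy
    exact this
  · -- `adjoin ⊆ Fc`
    intro y hy
    have h : IntermediateField.adjoin (ratField (Ec M E) (jOm M)) (gens M) ≤
        Subfield.toIntermediateField (Fc M E) (fun x => hK x.2) := by
      rw [IntermediateField.adjoin_le_iff]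
      intro z hz
      exact Subfield.subset_closure (Or.inr hz)
    exact h hy

/-- **field `finite` for `x = j`.** -/
theorem field_finite_j :
    ∃ s : Finset (Om M), (s : Set (Om M)) ⊆ Fc M E ∧
      ∀ f ∈ Fc M E, f ∈ Submodule.span (ratField (Ec M E) (jOm M)) (s : Set (Om M)) := by
  classical
  set K := ratField (Ec M E) (jOm M) with hKdef
  set L := IntermediateField.adjoin K (gens M) with hLdef
  have hint : ∀ y ∈ gens M, IsIntegral K y := by
    rintro y ⟨d, hd, hdM, rfl⟩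
    exact isIntegral_jd M E d hdM
  haveI : Finite (gens M) := (gens_finite M).to_subtype
  haveI hfd : FiniteDimensional K L := IntermediateField.finiteDimensional_adjoin hint
  -- a finite spanning set of `L` over `K`
  obtain ⟨s, hs⟩ := (Module.finite_def (R := K) (M := L)).mp hfd
  refine ⟨s.image (fun y : L => (y : Om M)), ?_, ?_⟩
  · intro y hy
    rw [Finset.coe_image] at hy
    obtain ⟨z, -, rfl⟩ := hy
    have h0 : (z : Om M) ∈
        (IntermediateField.adjoin (ratField (Ec M E) (jOm M)) (gens M) : Set (Om M)) := z.2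
    rw [← Fc_eq_adjoin M E] at h0
    exact h0
  · intro f hf
    have hfL : f ∈ L := by
      have h0 : f ∈
          (IntermediateField.adjoin (ratField (Ec M E) (jOm M)) (gens M) : Set (Om M)) := by
        rw [← Fc_eq_adjoin M E]; exact hf
      exact h0
    have h1 : (⟨f, hfL⟩ : L) ∈ Submodule.span K (s : Set L) := by
      rw [hs]; exact Submodule.mem_top
    have h2 := Submodule.mem_map_of_mem (f := (L.val.toLinearMap : L →ₗ[K] Om M)) h1
    rw [Submodule.map_span] at h2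
    rw [Finset.coe_image]
    exact h2

omit [NeZero M] in
theorem span_mono_subfield {K₁ K₂ : Subfield (Om M)} (h : K₁ ≤ K₂) (s : Set (Om M)) {f : Om M}
    (hf : f ∈ Submodule.span K₁ s) : f ∈ Submodule.span K₂ s := by
  induction hf using Submodule.span_induction with
  | mem x hx => exact Submodule.subset_span hx
  | zero => exact Submodule.zero_mem _
  | add x y _ _ hx hy => exact Submodule.add_mem _ hx hy
  | smul c x _ hx =>
    have : c • x = (⟨(c : Om M), h c.2⟩ : K₂) • x := rfl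
    rw [this]
    exact Submodule.smul_mem _ _ hx

/-- **field `finite`** for every admissible coordinate. -/
theorem field_finite {ℓ : ℕ} {x : Om M} {S : Finset (Om M)} (hx : IsCoordinate M ℓ x S) :
    ∃ s : Finset (Om M), (s : Set (Om M)) ⊆ Fc M E ∧
      ∀ f ∈ Fc M E, f ∈ Submodule.span (ratField (Ec M E) x) (s : Set (Om M)) := by
  have hx0 : x ≠ 0 := by
    rintro rfl
    exact field_x_transcendental M hx isAlgebraic_zero
  have hxK : x ∈ ratField (Ec M E) x := Subfield.subset_closure (Or.inr rfl)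
  have hnat : ∀ n : ℕ, (n : Om M) ∈ ratField (Ec M E) x := fun n => natCast_mem _ n
  -- `j ∈ Ec(x)`
  have hj : jOm M ∈ ratField (Ec M E) x := by
    rcases hx with ⟨-, rfl, -⟩ | ⟨h | h, -⟩
    · exact hxK
    · obtain ⟨-, hid, -⟩ := h
      have : jOm M = (x + 256) ^ 3 * (x ^ 2)⁻¹ := by
        rw [← hid]; field_simp
      rw [this]
      exact mul_mem (pow_mem (add_mem hxK (by exact_mod_cast hnat 256)) 3)
        (inv_mem (pow_mem hxK 2))
    · obtain ⟨-, hid, -⟩ := h
      have : jOm M = (x + 27) * (x + 243) ^ 3 * (x ^ 3)⁻¹ := by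
        rw [← hid]; field_simp
      rw [this]
      exact mul_mem (mul_mem (add_mem hxK (by exact_mod_cast hnat 27))
        (pow_mem (add_mem hxK (by exact_mod_cast hnat 243)) 3)) (inv_mem (pow_mem hxK 3))
  have hle : ratField (Ec M E) (jOm M) ≤ ratField (Ec M E) x := by
    refine Subfield.closure_le.mpr ?_
    rintro y (hy | hy)
    · exact Ec_le_ratField M E x hy
    · rw [Set.mem_singleton_iff] at hy
      rw [hy]; exact hj
  obtain ⟨s, hs, hspan⟩ := field_finite_j M E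
  exact ⟨s, hs, fun f hf => span_mono_subfield M hle _ (hspan f hf)⟩

end Fermat.Agent.S18.H24

end
end
-- ===== PACK-END S18/H24/Finite.lean

-- ===== PACK-BEGIN S18/H456/ModRes.lean
section


/-!
# S18 / MOD assembly (helper456): `residue_perfect` for `R = Rc M A E`
-/

set_option autoImplicit false

noncomputable section

namespace Fermat.Agent.S18.H456

open ModularCurve AlgebraicCurve HahnSeries Fermat.Agent.S18 Fermat.Agent.S18.Mod
open IsDedekindDomain
open scoped NumberField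

variable (A : ValuationSubring Qb) (E : IntermediateField ℚ Qb)

section NF

variable [NumberField E]

/-- `𝓞 E → κ_E`. -/
def toRes : 𝓞 E →+* IsLocalRing.ResidueField (H602.RE A E) :=
  (IsLocalRing.residue (H602.RE A E)).comp (H602.ofInt A E)

omit [NumberField E] in
theorem toRes_eq_zero_iff (a : 𝓞 E) : toRes A E a = 0 ↔ a ∈ H602.primeBelow A E := by
  unfold toRes
  rw [RingHom.comp_apply, IsLocalRing.residue_eq_zero_iff]
  rfl

theorem toRes_surjective {ℓ : ℕ} (hℓ : ℓ ≠ 0) (hA : (ℓ : Qb) ∈ A.nonunits) :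
    Function.Surjective (toRes A E) := by
  intro x
  obtain ⟨r, rfl⟩ := IsLocalRing.residue_surjective x
  have hr : (r : E) ∈ (H602.primeSpec A E hℓ hA).valuationSubringAtPrime E := by
    rw [H602.RE_eq_valuationSubringAtPrime A E hℓ hA]
    exact r.2
  obtain ⟨a, s, hs, hrs⟩ := hr
  -- `s` is invertible modulo the maximal ideal `P`
  have hPmax : (H602.primeBelow A E).IsMaximal :=
    Ideal.IsPrime.isMaximal inferInstance (H602.primeBelow_ne_bot A E hℓ hA)
  have hs' : s ∉ H602.primeBelow A E := hs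
  obtain ⟨t, ht⟩ := Ideal.IsMaximal.exists_inv hPmax hs'
  obtain ⟨u, hu, hstu⟩ := ht
  -- `s * t + u = 1`, hence `φ s * φ t = 1`
  have h1 : toRes A E s * toRes A E t = 1 := by
    have := congrArg (toRes A E) hstu
    rw [map_add, map_mul, (toRes_eq_zero_iff A E u).2 hu, add_zero, map_one] at this
    rwa [mul_comm] at this
  refine ⟨a * t, ?_⟩
  -- `r * s = a` in `R_E`
  have h2 : r * H602.ofInt A E s = H602.ofInt A E a := by
    apply Subtype.ext
    show (r : E) * algebraMap (𝓞 E) E s = algebraMap (𝓞 E) E a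
    rw [hrs]
    have hs0 : algebraMap (𝓞 E) E s ≠ 0 := by
      intro h0
      have : s = 0 := by
        apply FaithfulSMul.algebraMap_injective (𝓞 E) E
        rw [h0, map_zero]
      exact hs' (this ▸ Ideal.zero_mem _)
    rw [mul_assoc, inv_mul_cancel₀ hs0, mul_one]
  have h3 : IsLocalRing.residue (H602.RE A E) r * toRes A E s = toRes A E a := by
    have := congrArg (IsLocalRing.residue (H602.RE A E)) h2
    rwa [map_mul] at this
  rw [map_mul, ← h3, mul_assoc, h1, mul_one]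

theorem finite_residueField {ℓ : ℕ} (hℓ : ℓ ≠ 0) (hA : (ℓ : Qb) ∈ A.nonunits) :
    Finite (IsLocalRing.ResidueField (H602.RE A E)) := by
  have hP : H602.primeBelow A E ≠ ⊥ := H602.primeBelow_ne_bot A E hℓ hA
  have : Finite (𝓞 E ⧸ H602.primeBelow A E) := Ideal.finiteQuotientOfFreeOfNeBot _ hP
  let ψ : 𝓞 E ⧸ H602.primeBelow A E →+* IsLocalRing.ResidueField (H602.RE A E) :=
    Ideal.Quotient.lift _ (toRes A E) (fun a ha => (toRes_eq_zero_iff A E a).2 ha)
  have hψ : Function.Surjective ψ := by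
    intro x
    obtain ⟨a, rfl⟩ := toRes_surjective A E hℓ hA x
    exact ⟨Ideal.Quotient.mk _ a, rfl⟩
  exact Finite.of_surjective ψ hψ

end NF

/-- Frobenius is surjective on the residue field of `R_E` (`E/ℚ` finite). -/
theorem exists_pow_sub_mem_maximalIdeal [FiniteDimensional ℚ E] {ℓ : ℕ} (hℓ : ℓ.Prime)
    (hA : A.LiesOverPrime ℓ) (r : H602.RE A E) :
    ∃ s : H602.RE A E, r - s ^ ℓ ∈ IsLocalRing.maximalIdeal (H602.RE A E) := by
  have := H602.numberField_of_finiteDimensional E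
  have : Finite (IsLocalRing.ResidueField (H602.RE A E)) :=
    finite_residueField A E hℓ.ne_zero hA
  have hℓ0 : ((ℓ : ℕ) : IsLocalRing.ResidueField (H602.RE A E)) = 0 := by
    rw [← map_natCast (IsLocalRing.residue (H602.RE A E)), IsLocalRing.residue_eq_zero_iff,
      IsLocalRing.mem_maximalIdeal, mem_nonunits_iff]
    exact H602.natCast_not_isUnit_RE A E hA
  have : Fact ℓ.Prime := ⟨hℓ⟩
  have : CharP (IsLocalRing.ResidueField (H602.RE A E)) ℓ :=
    (CharP.charP_iff_prime_eq_zero hℓ).2 hℓ0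
  have : PerfectRing (IsLocalRing.ResidueField (H602.RE A E)) ℓ :=
    PerfectRing.ofFiniteOfIsReduced ℓ _
  obtain ⟨y, hy⟩ := surjective_frobenius (IsLocalRing.ResidueField (H602.RE A E)) ℓ
    (IsLocalRing.residue _ r)
  obtain ⟨s, rfl⟩ := IsLocalRing.residue_surjective y
  refine ⟨s, ?_⟩
  rw [← IsLocalRing.residue_eq_zero_iff, map_sub, map_pow, sub_eq_zero]
  exact hy.symm

variable (M : ℕ)

/-- **`residue_perfect`** for `R = Rc M A E`. -/
theorem field_residue_perfect [FiniteDimensional ℚ E] {ℓ : ℕ} (hℓ : ℓ.Prime)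
    (hA : A.LiesOverPrime ℓ) {w : Om M} (hw : IsUnif M A E w) :
    ∃ p : ℕ, p.Prime ∧ (p : Om M) * w⁻¹ ∈ Rc M A E ∧
      ∀ r ∈ Rc M A E, ∃ s ∈ Rc M A E, (r - s ^ p) * w⁻¹ ∈ Rc M A E := by
  have : IsDiscreteValuationRing (H602.RE A E) :=
    H602.isDiscreteValuationRing_RE A E hℓ.ne_zero hA
  refine ⟨ℓ, hℓ, ?_, ?_⟩
  · rw [← cstR_natCast M A E, hw.mul_inv_mem_iff, IsLocalRing.mem_maximalIdeal, mem_nonunits_iff]
    exact H602.natCast_not_isUnit_RE A E hA
  · intro r hr
    obtain ⟨r₀, rfl⟩ := (mem_Rc_iff_cstR M A E).1 hr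
    obtain ⟨s, hs⟩ := exists_pow_sub_mem_maximalIdeal A E hℓ hA r₀
    refine ⟨cstR M A E s, cstR_mem_Rc M A E s, ?_⟩
    rw [← cstR_pow, ← cstR_sub, hw.mul_inv_mem_iff]
    exact hs

end Fermat.Agent.S18.H456

end
end
-- ===== PACK-END S18/H456/ModRes.lean

-- ===== PACK-BEGIN S18/H516/CoreRes.lean
section







/-!
# S18 / MOD (helper516): the S28 core data for the residue field of a place over `ℓ`

`coreData_residue` : for `A ⊆ L` a valuation subring with `(ℓ : L) ∈ 𝔪_A` (`A.LiesOverPrime ℓ`),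
`ℓ ∤ N`: `CoreData N (IsLocalRing.ResidueField A)` (S28 H867 + H326 + H25, all on main).
`coreData_of_charP` : the same for any field `k : Type` of characteristic `ℓ`.
-/

set_option autoImplicit false

noncomputable section

namespace Fermat.Agent.S18.H516

open ModularCurve Fermat.Agent.S28

/-- S28 core data for every field of characteristic `ℓ ∤ N`. -/
theorem coreData_of_charP (N : ℕ) [NeZero N] (ℓ : ℕ) [Fact ℓ.Prime] (hℓN : ¬ ℓ ∣ N)
    (k : Type) [Field k] [CharP k ℓ] : CoreData N k :=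
  H867.coreData_of_inputs N ℓ hℓN k
    (fun p hp _ _ => H326.nonempty_modPolyData p hp)
    (fun p hp _ _ => H326.nonempty_unitPolyData p hp)
    H25.theta_identity

theorem charP_residue {L : Type*} [Field L] (A : ValuationSubring L) {ℓ : ℕ} [Fact ℓ.Prime]
    (hA : A.LiesOverPrime ℓ) : CharP (IsLocalRing.ResidueField A) ℓ := by
  have hℓ : ℓ.Prime := Fact.out
  have h0 : ((ℓ : ℕ) : IsLocalRing.ResidueField A) = 0 := by
    have h1 : IsLocalRing.residue A ((ℓ : ℕ) : ↥A) = 0 := by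
      rw [IsLocalRing.residue_eq_zero_iff, IsLocalRing.mem_maximalIdeal, mem_nonunits_iff]
      intro hu
      have h2 : (ℓ : L) ∈ A.nonunits := hA
      rw [ValuationSubring.mem_nonunits_iff] at h2
      have h3 : A.valuation (ℓ : L) = 1 := by
        have := (A.valuation_eq_one_iff ((ℓ : ℕ) : ↥A)).mp hu
        simpa using this
      exact absurd h3 h2.ne
    simpa using h1
  exact (CharP.charP_iff_prime_eq_zero hℓ).mpr h0

/-- **S28 core data for the residue field of a place over `ℓ ∤ N`.** -/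
theorem coreData_residue (N : ℕ) [NeZero N] {ℓ : ℕ} [Fact ℓ.Prime] (hℓN : ¬ ℓ ∣ N)
    (A : ValuationSubring (AlgebraicClosure ℚ)) (hA : A.LiesOverPrime ℓ) :
    CoreData N (IsLocalRing.ResidueField A) := by
  have := charP_residue A hA
  exact coreData_of_charP N ℓ hℓN _

end Fermat.Agent.S18.H516

end
end
-- ===== PACK-END S18/H516/CoreRes.lean

-- ===== PACK-BEGIN S18/MOD/H516/GaussSep.lean
section










/-!
# S18 / MOD piece G-SEP (helper516): the field `separable` of `Alg.GoodModel`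

The concrete reduction map `red : V → κ((q))`, `κ` the residue field of `A ∩ E`, and the
hypotheses of helper264's `H264.goodModel_separable_of_red`.

HAND-IN: `sep_field_of_isCoordinate`.
-/

set_option autoImplicit false
set_option linter.unusedSectionVars false

noncomputable section

namespace Fermat.Agent.S18.H516

open ModularCurve IntermediateField Fermat.Agent.S28 Fermat.Agent.S18 Fermat.Agent.S18.Mod

section Congr

variable {L : Type*} [Field L] [Algebra ℚ L] (A : ValuationSubring L)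
variable {k k' : Type} [Field k] [Field k'] (π : A →+* k) (π' : A →+* k') (N : ℕ) [NeZero N]

theorem coeffMap_ne_zero_iff {R S : Type*} [CommRing R] [CommRing S] (φ : R →+* S)
    (U : LaurentSeries R) : coeffMap φ U ≠ 0 ↔ ∃ n : ℤ, φ (U.coeff n) ≠ 0 := by
  constructor
  · intro h
    by_contra hcon
    push Not at hcon
    apply h
    ext n
    exact hcon n
  · rintro ⟨n, hn⟩ h
    apply hn
    have := congrArg (fun z : LaurentSeries S => z.coeff n) h
    exact this

/-- The Gauss ring only depends on the kernel of the residue map. -/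
theorem gaussSet_congr (h : ∀ a : A, π a = 0 ↔ π' a = 0) :
    gaussSet A π N = gaussSet A π' N := by
  ext f
  constructor
  · rintro ⟨hf, U₁, U₂, h₁, h₂, hk, heq⟩
    refine ⟨hf, U₁, U₂, h₁, h₂, ?_, heq⟩
    rw [coeffMap_ne_zero_iff] at hk ⊢
    obtain ⟨n, hn⟩ := hk
    exact ⟨n, fun h0 => hn ((h _).mpr h0)⟩
  · rintro ⟨hf, U₁, U₂, h₁, h₂, hk, heq⟩
    refine ⟨hf, U₁, U₂, h₁, h₂, ?_, heq⟩
    rw [coeffMap_ne_zero_iff] at hk ⊢
    obtain ⟨n, hn⟩ := hk
    exact ⟨n, fun h0 => hn ((h _).mp h0)⟩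

end Congr

section Kappa

variable (M : ℕ) [NeZero M] (A : ValuationSubring Qb) (E : IntermediateField ℚ Qb)

/-- The residue field of `A ∩ E`. -/
abbrev KapE : Type := IsLocalRing.ResidueField ↥(AE A E)

/-- The residue map of `A ∩ E`. -/
abbrev resE : ↥(AE A E) →+* KapE A E := IsLocalRing.residue ↥(AE A E)

theorem isUnit_iotaA_iff (a : ↥(AE A E)) : IsUnit (iotaA A E a) ↔ IsUnit a := by
  constructor
  · rintro ⟨u, hu⟩
    have hval : ((u : ↥A) : Qb) = ((a : ↥E) : Qb) := congrArg Subtype.val hu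
    have hinv : ((a : ↥E) : Qb) * (((u⁻¹ : (↥A)ˣ) : ↥A) : Qb) = 1 := by
      rw [← hval]
      exact congrArg Subtype.val u.mul_inv
    have hmem : (((a : ↥E)⁻¹ : ↥E) : Qb) ∈ A := by
      have : (((a : ↥E)⁻¹ : ↥E) : Qb) = (((u⁻¹ : (↥A)ˣ) : ↥A) : Qb) := by
        rw [show (((a : ↥E)⁻¹ : ↥E) : Qb) = ((a : ↥E) : Qb)⁻¹ from rfl]
        exact inv_eq_of_mul_eq_one_right hinv
      rw [this]
      exact (((u⁻¹ : (↥A)ˣ) : ↥A)).2
    have ha0 : (a : ↥E) ≠ 0 := by
      intro h0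
      rw [h0] at hinv
      simp at hinv
    refine IsUnit.of_mul_eq_one (⟨(a : ↥E)⁻¹, hmem⟩ : ↥(AE A E)) ?_
    apply Subtype.ext
    show (a : ↥E) * (a : ↥E)⁻¹ = 1
    exact mul_inv_cancel₀ ha0
  · intro h
    exact h.map (iotaA A E)

theorem piE_eq_zero_iff (a : ↥(AE A E)) : piE A E a = 0 ↔ resE A E a = 0 := by
  show IsLocalRing.residue A (iotaA A E a) = 0 ↔ IsLocalRing.residue ↥(AE A E) a = 0
  rw [IsLocalRing.residue_eq_zero_iff, IsLocalRing.residue_eq_zero_iff,
    IsLocalRing.mem_maximalIdeal, IsLocalRing.mem_maximalIdeal, mem_nonunits_iff,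
    mem_nonunits_iff, isUnit_iotaA_iff]

theorem gaussSet_piE_eq : gaussSet (AE A E) (piE A E) M = gaussSet (AE A E) (resE A E) M :=
  gaussSet_congr (AE A E) (piE A E) (resE A E) M (piE_eq_zero_iff A E)

end Kappa

section Red

variable (M : ℕ) [NeZero M] (A : ValuationSubring Qb) (E : IntermediateField ℚ Qb)

/-- `A ∩ E → Rc`, `a ↦` the constant `a`. -/
def toRc : ↥(AE A E) →+* ↥(Rc M A E) where
  toFun a := ⟨algebraMap Qb (Om M) ((a : ↥E) : Qb), mem_Rc_of a.2 (a : ↥E).2⟩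
  map_one' := Subtype.ext (map_one (algebraMap Qb (Om M)))
  map_mul' _ _ := Subtype.ext (map_mul (algebraMap Qb (Om M)) _ _)
  map_zero' := Subtype.ext (map_zero (algebraMap Qb (Om M)))
  map_add' _ _ := Subtype.ext (map_add (algebraMap Qb (Om M)) _ _)

theorem toRc_bijective : Function.Bijective (toRc M A E) := by
  constructor
  · intro a b hab
    have h1 : algebraMap Qb (Om M) ((a : ↥E) : Qb) = algebraMap Qb (Om M) ((b : ↥E) : Qb) :=
      congrArg Subtype.val hab
    exact Subtype.ext (Subtype.ext (algebraMap_Om_injective h1))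
  · rintro ⟨r, hr⟩
    obtain ⟨a, haA, haE, rfl⟩ := exists_of_mem_Rc hr
    exact ⟨⟨⟨a, haE⟩, haA⟩, rfl⟩

/-- `Rc ≃ A ∩ E`. -/
def rcEquiv : ↥(AE A E) ≃+* ↥(Rc M A E) :=
  RingEquiv.ofBijective (toRc M A E) (toRc_bijective M A E)

/-- The residue map of `Rc`. -/
def rhoE : ↥(Rc M A E) →+* KapE A E :=
  (resE A E).comp (rcEquiv M A E).symm.toRingHom

theorem rhoE_toRc (a : ↥(AE A E)) : rhoE M A E (toRc M A E a) = resE A E a := by
  show resE A E ((rcEquiv M A E).symm (rcEquiv M A E a)) = _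
  rw [RingEquiv.symm_apply_apply]

theorem rhoE_surjective : Function.Surjective (rhoE M A E) := by
  intro c
  obtain ⟨a, rfl⟩ := IsLocalRing.residue_surjective c
  exact ⟨toRc M A E a, rhoE_toRc M A E a⟩

theorem PhiE_mem_VcRing (g : ↥(gaussRing (AE A E) (resE A E) M)) :
    ∃ h : PhiE E (g : LaurentSeries ↥E) ∈ modularFunctionFieldBar M,
      (⟨PhiE E (g : LaurentSeries ↥E), h⟩ : Om M) ∈ VcRing M A E := by
  obtain ⟨h, -⟩ := PhiE_mem_Fc M E g.2.1
  refine ⟨h, (mem_VcSet_iff M A E).mpr ⟨g.1, ?_, rfl⟩⟩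
  rw [gaussSet_piE_eq]
  exact g.2

/-- The generic Gauss ring of `(E, A ∩ E)` maps isomorphically onto `VcRing M A E`. -/
def ofGauss : ↥(gaussRing (AE A E) (resE A E) M) →+* ↥(VcRing M A E) where
  toFun g := ⟨⟨PhiE E (g : LaurentSeries ↥E), (PhiE_mem_VcRing M A E g).fst⟩,
    (PhiE_mem_VcRing M A E g).snd⟩
  map_one' := Subtype.ext (Subtype.ext (map_one (PhiE E)))
  map_mul' _ _ := Subtype.ext (Subtype.ext (map_mul (PhiE E) _ _))
  map_zero' := Subtype.ext (Subtype.ext (map_zero (PhiE E)))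
  map_add' _ _ := Subtype.ext (Subtype.ext (map_add (PhiE E) _ _))

theorem coe_ofGauss (g : ↥(gaussRing (AE A E) (resE A E) M)) :
    (((ofGauss M A E g : ↥(VcRing M A E)) : Om M) : LaurentSeries Qb) =
      PhiE E (g : LaurentSeries ↥E) := rfl

theorem ofGauss_bijective : Function.Bijective (ofGauss M A E) := by
  constructor
  · intro a b hab
    have h1 : PhiE E (a : LaurentSeries ↥E) = PhiE E (b : LaurentSeries ↥E) :=
      congrArg (fun z : ↥(VcRing M A E) => ((z : Om M) : LaurentSeries Qb)) hab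
    exact Subtype.ext (PhiE_injective E h1)
  · rintro ⟨f, hf⟩
    obtain ⟨g, hg, hgf⟩ := (mem_VcSet_iff M A E).mp hf
    rw [gaussSet_piE_eq] at hg
    exact ⟨⟨g, hg⟩, Subtype.ext (Subtype.ext hgf)⟩

/-- `gaussRing ≃ VcRing`. -/
def gaussEquiv : ↥(gaussRing (AE A E) (resE A E) M) ≃+* ↥(VcRing M A E) :=
  RingEquiv.ofBijective (ofGauss M A E) (ofGauss_bijective M A E)

/-- **The reduction map** `V → κ((q))`. -/
def redV : ↥(VcRing M A E) →+* LaurentSeries (KapE A E) :=
  (gaussRes (AE A E) (resE A E) M).comp (gaussEquiv M A E).symm.toRingHom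

theorem redV_ofGauss (g : ↥(gaussRing (AE A E) (resE A E) M)) :
    redV M A E (ofGauss M A E g) = gaussRes (AE A E) (resE A E) M g := by
  show gaussRes (AE A E) (resE A E) M ((gaussEquiv M A E).symm (gaussEquiv M A E g)) = _
  rw [RingEquiv.symm_apply_apply]

theorem exists_ofGauss_eq (f : ↥(VcRing M A E)) :
    ∃ g : ↥(gaussRing (AE A E) (resE A E) M), ofGauss M A E g = f :=
  (ofGauss_bijective M A E).2 f

/-- `red` on constants (`hcompat`). -/
theorem redV_compat (r : ↥(Rc M A E)) :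
    redV M A E ⟨r, Rc_le_VcRing r.2⟩ =
      algebraMap (KapE A E) (LaurentSeries (KapE A E)) (rhoE M A E r) := by
  obtain ⟨a, rfl⟩ := (toRc_bijective M A E).2 r
  rw [rhoE_toRc, algebraMap_eq_C]
  have h1 : (⟨(toRc M A E a : Om M), Rc_le_VcRing (toRc M A E a).2⟩ : ↥(VcRing M A E)) =
      ofGauss M A E ⟨HahnSeries.C (Γ := ℤ) ((a : ↥E)), C_mem_gaussSet a⟩ := by
    apply Subtype.ext
    apply Subtype.ext
    rw [coe_ofGauss]
    show ((algebraMap Qb (Om M) ((a : ↥E) : Qb) : Om M) : LaurentSeries Qb) = _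
    rw [coe_algebraMap_Om, PhiE_C]
  rw [h1, redV_ofGauss, gaussRes_C]

/-- `hunit`. -/
theorem redV_unit (f : ↥(VcRing M A E)) (hf : redV M A E f ≠ 0) :
    (f : Om M)⁻¹ ∈ VcRing M A E := by
  obtain ⟨g, rfl⟩ := exists_ofGauss_eq M A E f
  rw [redV_ofGauss] at hf
  have h := inv_mem_of_gaussRes_ne_zero g hf
  refine (mem_VcSet_iff M A E).mpr ⟨(g : LaurentSeries ↥E)⁻¹, ?_, ?_⟩
  · rw [gaussSet_piE_eq]
    exact h
  · rw [map_inv₀]
    rfl

/-- `hker`, from `V_gen`. -/
theorem redV_ker (core : CoreData M (IsLocalRing.ResidueField A)) {w : Om M}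
    (hgen : ∀ r ∈ Rc M A E, r⁻¹ ∉ Rc M A E → r * w⁻¹ ∈ Rc M A E)
    (f : ↥(VcRing M A E)) (hf : redV M A E f = 0) : (f : Om M) * w⁻¹ ∈ VcRing M A E := by
  by_cases hf0 : (f : Om M) = 0
  · rw [hf0, zero_mul]
    exact zero_mem _
  · refine VcRing_gen core hgen f f.2 ?_
    intro hinv
    have h1 : f * ⟨(f : Om M)⁻¹, hinv⟩ = 1 := Subtype.ext (mul_inv_cancel₀ hf0)
    have h2 := congrArg (redV M A E) h1
    rw [map_mul, hf, zero_mul, map_one] at h2
    exact zero_ne_one h2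

/-- `red` of a coordinate with integral model `X`. -/
theorem redV_intModel {x : Om M} {X : LaurentSeries ℤ}
    (hxX : (x : LaurentSeries Qb) = coeffMap (Int.castRingHom Qb) X)
    (hXF : coeffMap (Int.castRingHom ℚ) X ∈ modularFunctionFieldFull M)
    (hx : x ∈ VcRing M A E) :
    redV M A E ⟨x, hx⟩ = coeffMap (Int.castRingHom (KapE A E)) X := by
  have hGI : IsGI (AE A E) M (coeffMap (Int.castRingHom ↥(AE A E)) X) := by
    unfold IsGI
    rw [coeffMap_coeffMap,
      show ((AE A E).subtype.comp (Int.castRingHom ↥(AE A E))) = Int.castRingHom ↥E from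
        RingHom.ext_int _ _, coeffMap_intCast_eq_coeffEmb]
    exact coeffEmb_mem_laurentBaseChange ↥E hXF
  have h1 : (⟨x, hx⟩ : ↥(VcRing M A E)) =
      ofGauss M A E ⟨_, incl_mem_gaussSet (π := resE A E) hGI⟩ := by
    apply Subtype.ext
    apply Subtype.ext
    rw [coe_ofGauss]
    show (x : LaurentSeries Qb) = _
    rw [hxX, PhiE, coeffMap_coeffMap, coeffMap_coeffMap]
    exact coeffMap_congr (RingHom.ext_int _ _) X
  rw [h1, redV_ofGauss, gaussRes_incl hGI, coeffMap_coeffMap]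
  exact coeffMap_congr (RingHom.ext_int _ _) X

theorem redV_jOm (hj : jOm M ∈ VcRing M A E) :
    redV M A E ⟨jOm M, hj⟩ = jqModC (KapE A E) := by
  obtain ⟨X, h1, h2, hxX, hXF⟩ := hasIntModel_jOm (M := M)
  have hX : X = jqModC ℤ := by
    have h3 : coeffMap (Int.castRingHom Qb) X = coeffMap (Int.castRingHom Qb) (jqModC ℤ) := by
      rw [← hxX]
      show ((jd M 1 (one_dvd M) : Om M) : LaurentSeries Qb) = _
      rw [coe_jd, coeffMap_jqModC, qExpand_one_apply]
    ext n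
    have h4 := congrArg (fun z : LaurentSeries Qb => z.coeff n) h3
    exact Int.cast_injective (α := Qb) h4
  rw [redV_intModel M A E hxX hXF hj, hX, coeffMap_jqModC]

/-- `ord_q (red x) = -1`. -/
theorem order_redV {x : Om M} (hx : HasIntModel M x) (hxV : x ∈ VcRing M A E) :
    (redV M A E ⟨x, hxV⟩).order = -1 := by
  obtain ⟨X, h1, h2, hxX, hXF⟩ := hx
  rw [redV_intModel M A E hxX hXF hxV]
  apply order_of_coeff_neg_one
  · show Int.castRingHom (KapE A E) (X.coeff (-1)) = 1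
    rw [h1, map_one]
  · intro n hn
    show Int.castRingHom (KapE A E) (X.coeff n) = 0
    rw [h2 n hn, map_zero]

end Red

section Alg

/-- Algebraicity passes to a larger base field. -/
theorem isAlgebraic_of_le {F L : Type*} [Field F] [Field L] [Algebra F L]
    {K K' : IntermediateField F L} (h : K ≤ K') {y : L} (hy : IsAlgebraic K y) :
    IsAlgebraic K' y := by
  obtain ⟨p, hp0, hp⟩ := hy
  refine ⟨p.map (IntermediateField.inclusion h).toRingHom, ?_, ?_⟩
  · exact (Polynomial.map_ne_zero_iff (IntermediateField.inclusion h).toRingHom.injective).mpr hp0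
  · rw [Polynomial.aeval_def, Polynomial.eval₂_map]
    rw [Polynomial.aeval_def] at hp
    exact hp

variable (κ : Type) [Field κ] (N : ℕ) [NeZero N]

/-- Every element of `F_κ` is algebraic over `κ(j̄)`. -/
theorem isAlgebraic_jField_of_mem_fullC (core : CoreData N κ) {y : LaurentSeries κ}
    (hy : y ∈ modularFunctionFieldFullC κ N) : IsAlgebraic (jField κ) y := by
  have hint : ∀ z ∈ divisorExpansionsC κ N, IsIntegral (jField κ) z := by
    rintro z ⟨d, hd, hdN, rfl⟩
    exact H325.isIntegral_jField_of_monic κ d (core.integral d hdN)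
  have h1 : y ∈ IntermediateField.adjoin (jField κ) (divisorExpansionsC κ N) := by
    have h2 : modularFunctionFieldFullC κ N ≤
        (IntermediateField.adjoin (jField κ) (divisorExpansionsC κ N)).restrictScalars κ := by
      rw [modularFunctionFieldFullC, IntermediateField.adjoin_le_iff]
      intro z hz
      exact IntermediateField.subset_adjoin (jField κ) _ hz
    exact h2 hy
  have h3 : Algebra.IsAlgebraic (jField κ)
      (IntermediateField.adjoin (jField κ) (divisorExpansionsC κ N)) :=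
    IntermediateField.isAlgebraic_adjoin hint
  have h4 := h3.isAlgebraic ⟨y, h1⟩
  exact h4.algebraMap (A := LaurentSeries κ)

end Alg

section Main

variable {M : ℕ} [NeZero M] {A : ValuationSubring Qb} {E : IntermediateField ℚ Qb}

theorem liesOverPrime_AE {ℓ : ℕ} (hA : A.LiesOverPrime ℓ) : (AE A E).LiesOverPrime ℓ := by
  have h1 : (ℓ : Qb) ∈ A.nonunits := hA
  show (ℓ : ↥E) ∈ (AE A E).nonunits
  rw [ValuationSubring.mem_nonunits_iff_exists_mem_maximalIdeal] at h1 ⊢
  obtain ⟨hm, hmax⟩ := h1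
  have hm' : (ℓ : ↥E) ∈ AE A E := by
    show algebraMap ↥E Qb (ℓ : ↥E) ∈ A
    rw [map_natCast]
    exact hm
  refine ⟨hm', ?_⟩
  rw [IsLocalRing.mem_maximalIdeal, mem_nonunits_iff] at hmax ⊢
  intro hu
  apply hmax
  have h2 := (isUnit_iotaA_iff A E ⟨(ℓ : ↥E), hm'⟩).mpr hu
  have h3 : iotaA A E ⟨(ℓ : ↥E), hm'⟩ = ⟨(ℓ : Qb), hm⟩ :=
    Subtype.ext (map_natCast (algebraMap ↥E Qb) ℓ)
  rw [← h3]
  exact h2

/-- `j̄ ∈ κ(x̄)` for an admissible coordinate. -/
theorem jqModC_mem_adjoin_redV {ℓ : ℕ} {x : Om M} {S : Finset (Om M)}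
    (hx : IsCoordinate M ℓ x S) (hxV : x ∈ VcRing M A E) :
    jqModC (KapE A E) ∈ IntermediateField.adjoin (KapE A E) {redV M A E ⟨x, hxV⟩} := by
  have hjV : jOm M ∈ VcRing M A E := mem_VcRing_of_hasIntModel hasIntModel_jOm
  have hxbar : redV M A E ⟨x, hxV⟩ ∈
      IntermediateField.adjoin (KapE A E) {redV M A E ⟨x, hxV⟩} :=
    IntermediateField.mem_adjoin_simple_self _ _
  have hne : redV M A E ⟨x, hxV⟩ ≠ 0 := by
    intro h0
    have := order_redV M A E (Fermat.Agent.S18.H516.IsCoordinate.hasIntModel hx) hxV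
    rw [h0, HahnSeries.order_zero] at this
    omega
  rcases hx with ⟨-, rfl, -⟩ | ⟨h | h, -⟩
  · rw [← redV_jOm M A E hxV]
    exact hxbar
  · obtain ⟨-, hrel, -⟩ := h
    have h1 : (⟨jOm M, hjV⟩ : ↥(VcRing M A E)) * ⟨x, hxV⟩ ^ 2 = (⟨x, hxV⟩ + 256) ^ 3 :=
      Subtype.ext hrel
    have h2 := congrArg (redV M A E) h1
    rw [map_mul, map_pow, map_pow, map_add, redV_jOm, map_ofNat] at h2
    have h3 : jqModC (KapE A E) =
        (redV M A E ⟨x, hxV⟩ + 256) ^ 3 * ((redV M A E ⟨x, hxV⟩) ^ 2)⁻¹ := by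
      rw [← h2, mul_assoc, mul_inv_cancel₀ (pow_ne_zero _ hne), mul_one]
    rw [h3]
    exact mul_mem (pow_mem (add_mem hxbar (ofNat_mem _ 256)) _) (inv_mem (pow_mem hxbar _))
  · obtain ⟨-, hrel, -⟩ := h
    have h1 : (⟨jOm M, hjV⟩ : ↥(VcRing M A E)) * ⟨x, hxV⟩ ^ 3 =
        (⟨x, hxV⟩ + 27) * (⟨x, hxV⟩ + 243) ^ 3 :=
      Subtype.ext hrel
    have h2 := congrArg (redV M A E) h1
    rw [map_mul, map_pow, map_mul, map_pow, map_add, map_add, redV_jOm, map_ofNat,
      map_ofNat] at h2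
    have h3 : jqModC (KapE A E) =
        (redV M A E ⟨x, hxV⟩ + 27) * (redV M A E ⟨x, hxV⟩ + 243) ^ 3 *
          ((redV M A E ⟨x, hxV⟩) ^ 3)⁻¹ := by
      rw [← h2, mul_assoc, mul_inv_cancel₀ (pow_ne_zero _ hne), mul_one]
    rw [h3]
    exact mul_mem (mul_mem (add_mem hxbar (ofNat_mem _ 27))
      (pow_mem (add_mem hxbar (ofNat_mem _ 243)) _)) (inv_mem (pow_mem hxbar _))

/-- `halg`. -/
theorem redV_algebraic (core : CoreData M (KapE A E)) {ℓ : ℕ} {x : Om M} {S : Finset (Om M)}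
    (hx : IsCoordinate M ℓ x S) (hxV : x ∈ VcRing M A E) (f : ↥(VcRing M A E)) :
    IsAlgebraic (IntermediateField.adjoin (KapE A E) {redV M A E ⟨x, hxV⟩}) (redV M A E f) := by
  have h1 : redV M A E f ∈ modularFunctionFieldFullC (KapE A E) M :=
    gaussRes_mem core _
  have h2 := isAlgebraic_jField_of_mem_fullC (KapE A E) M core h1
  refine isAlgebraic_of_le ?_ h2
  rw [jField, IntermediateField.adjoin_le_iff]
  rintro y rfl
  exact jqModC_mem_adjoin_redV hx hxV

/-- **G-SEP for `VcRing`.** -/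
theorem sep_field_VcRing {ℓ : ℕ} (hℓ : ℓ.Prime) (hℓM : ¬ ℓ ∣ M) (hA : A.LiesOverPrime ℓ)
    [FiniteDimensional ℚ E] {w : Om M}
    (hgen : ∀ r ∈ Rc M A E, r⁻¹ ∉ Rc M A E → r * w⁻¹ ∈ Rc M A E)
    {x : Om M} {S : Finset (Om M)} (hx : IsCoordinate M ℓ x S) :
    ∀ f ∈ VcRing M A E, ∃ P : Polynomial (Om M),
      (∀ i, P.coeff i ∈ Alg.polyRing (Rc M A E) x) ∧
      P.eval f * w⁻¹ ∈ VcRing M A E ∧ (Polynomial.derivative P).eval f ≠ 0 ∧
      ((Polynomial.derivative P).eval f)⁻¹ ∈ VcRing M A E := by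
  have : Fact ℓ.Prime := ⟨hℓ⟩
  have : NumberField ↥E := H602.numberField_of_finiteDimensional E
  have : Finite (KapE A E) := H456.finite_residueField A E hℓ.ne_zero hA
  have : CharP (KapE A E) ℓ := charP_residue (AE A E) (liesOverPrime_AE hA)
  have : PerfectField (KapE A E) := PerfectField.ofFinite
  have coreA : CoreData M (IsLocalRing.ResidueField A) := coreData_residue M hℓM A hA
  have coreκ : CoreData M (KapE A E) := coreData_of_charP M ℓ hℓM _
  have hxV : x ∈ VcRing M A E :=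
    mem_VcRing_of_hasIntModel (Fermat.Agent.S18.H516.IsCoordinate.hasIntModel hx)
  refine H264.goodModel_separable_of_red ℓ (Rc M A E) (VcRing M A E) x w Rc_le_VcRing hxV
    (rhoE M A E) (rhoE_surjective M A E) (redV M A E) (redV_compat M A E)
    (redV_ker M A E coreA hgen) (redV_unit M A E) ?_ (redV_algebraic coreκ hx hxV)
  rw [order_redV M A E (Fermat.Agent.S18.H516.IsCoordinate.hasIntModel hx) hxV]
  exact H264.not_prime_dvd_neg_one ℓ hℓ

/-- **G-SEP hand-in**: the field `separable` of `Alg.GoodModel` for every subring `V` with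
underlying set `VcSet M A E` (`E/ℚ` finite), every `w` with `w_gen`, every admissible
coordinate `x`. -/
theorem sep_field_of_isCoordinate {ℓ : ℕ} (hℓ : ℓ.Prime) (hℓM : ¬ ℓ ∣ M)
    (hA : A.LiesOverPrime ℓ) [FiniteDimensional ℚ E]
    (V : Subring (Om M)) (hV : (V : Set (Om M)) = VcSet M A E) {w : Om M}
    (hgen : ∀ r ∈ Rc M A E, r⁻¹ ∉ Rc M A E → r * w⁻¹ ∈ Rc M A E)
    {x : Om M} {S : Finset (Om M)} (hx : IsCoordinate M ℓ x S) :
    ∀ f ∈ V, ∃ P : Polynomial (Om M),
      (∀ i, P.coeff i ∈ Alg.polyRing (Rc M A E) x) ∧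
      P.eval f * w⁻¹ ∈ V ∧ (Polynomial.derivative P).eval f ≠ 0 ∧
      ((Polynomial.derivative P).eval f)⁻¹ ∈ V := by
  have hVeq : V = VcRing M A E := SetLike.coe_injective (by rw [hV, coe_VcRing])
  subst hVeq
  exact sep_field_VcRing hℓ hℓM hA hgen hx

end Main

end Fermat.Agent.S18.H516

end
end
-- ===== PACK-END S18/MOD/H516/GaussSep.lean

-- ===== PACK-BEGIN S18/H576/Sep.lean
section








/-!
# S18 / node_mod, part G-SEP (helper576): the field `separable` of `Alg.GoodModel` for the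
concrete objects of `Mod/Defs.lean`, coordinate `x = j`

    theorem field_separable (M) [NeZero M] (hℓ : ℓ.Prime) (hℓM : ¬ ℓ ∣ M) (hA : A.LiesOverPrime ℓ)
        (E) [FiniteDimensional ℚ E] {w} (hwm : w ∈ Rc M A E)
        (hwg : ∀ r ∈ Rc M A E, r⁻¹ ∉ Rc M A E → r * w⁻¹ ∈ Rc M A E) :
        ∀ f ∈ VcSet M A E, ∃ P : Polynomial (Om M),
          (∀ i, P.coeff i ∈ Alg.polyRing (Rc M A E) (jOm M)) ∧ P.eval f * w⁻¹ ∈ VcSet M A E ∧
          (Polynomial.derivative P).eval f ≠ 0 ∧ ((Polynomial.derivative P).eval f)⁻¹ ∈ VcSet M A E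

Proof: `f = φ V₁ / φ V₂` (Transport), `f̄ := ρ V₁ / ρ V₂ ∈ F_κ` (H516 `red_mem_of_incl_mem`, S28
`CoreData` over `κ = κ_E`), `F_κ` is algebraic over `κ(j̄)` (S28 H867 `isIntegral_jd`), so there is
`P̄ ∈ κ[X][Y]` with `P̄(j̄, f̄) = 0`, `∂P̄/∂Y (j̄, f̄) ≠ 0` (helper264, `κ` perfect); lift `P̄` to
`R_E[X][Y]`, homogenise in `(V₁, V₂)`.
-/

set_option autoImplicit false

noncomputable section

namespace Fermat.Agent.S18.H576

open ModularCurve AlgebraicCurve HahnSeries Fermat.Agent.S18 Fermat.Agent.S18.Mod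
open Fermat.Agent.S18.H602 (RE mem_RE toA)

section Homog

variable {S T : Type*} [CommRing S] [CommRing T]

/-- Homogenisation `∑_{i ≤ d} P_i a^i b^{d-i}`. -/
def homog (d : ℕ) (P : Polynomial S) (a b : S) : S :=
  ∑ i ∈ Finset.range (d + 1), P.coeff i * a ^ i * b ^ (d - i)

theorem map_homog (ψ : S →+* T) (d : ℕ) (P : Polynomial S) (a b : S) :
    ψ (homog d P a b) = homog d (P.map ψ) (ψ a) (ψ b) := by
  simp only [homog, map_sum, map_mul, map_pow, Polynomial.coeff_map]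

theorem homog_eq (d : ℕ) (P : Polynomial S) {g a b : S} (h : g * b = a)
    (hd : P.natDegree ≤ d) : homog d P a b = b ^ d * P.eval g := by
  rw [Polynomial.eval_eq_sum_range' (Nat.lt_succ_of_le hd), Finset.mul_sum]
  refine Finset.sum_congr rfl fun i hi => ?_
  have hi' : i ≤ d := Nat.lt_succ_iff.mp (Finset.mem_range.mp hi)
  have hb : b ^ d = b ^ i * b ^ (d - i) := by rw [← _root_.pow_add, Nat.add_sub_cancel' hi']
  rw [← h, hb, mul_pow]
  ring

end Homog

section Residue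

variable {A : ValuationSubring Qb} {E : IntermediateField ℚ Qb}

theorem charP_residue_RE {ℓ : ℕ} (hℓ : ℓ.Prime) (hA : A.LiesOverPrime ℓ) :
    CharP (IsLocalRing.ResidueField (RE A E)) ℓ :=
  (CharP.charP_iff_prime_eq_zero hℓ).mpr (natCast_residue_RE_eq_zero hA)

theorem perfectField_residue_RE {ℓ : ℕ} (hℓ : ℓ.Prime) (hA : A.LiesOverPrime ℓ) :
    PerfectField (IsLocalRing.ResidueField (RE A E)) := by
  haveI : Fact ℓ.Prime := ⟨hℓ⟩
  haveI : CharP (IsLocalRing.ResidueField (RE A E)) ℓ := charP_residue_RE hℓ hA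
  letI : Algebra (ZMod ℓ) (IsLocalRing.ResidueField (RE A E)) := ZMod.algebra _ ℓ
  haveI : Algebra.IsAlgebraic (ZMod ℓ) (IsLocalRing.ResidueField (RE A E)) := by
    refine ⟨fun x => ?_⟩
    obtain ⟨r', rfl⟩ := IsLocalRing.residue_surjective x
    obtain ⟨P, hP0, hP⟩ := exists_polynomial_residue r' hℓ
    refine ⟨P.map (Int.castRingHom (ZMod ℓ)), hP0, ?_⟩
    rw [Polynomial.aeval_def, Polynomial.eval₂_map]
    have h1 : (algebraMap (ZMod ℓ) (IsLocalRing.ResidueField (RE A E))).comp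
        (Int.castRingHom (ZMod ℓ)) =
        (IsLocalRing.residue (RE A E)).comp (Int.castRingHom (RE A E)) := RingHom.ext_int _ _
    rw [h1, ← Polynomial.hom_eval₂, hP, map_zero]
  exact Algebra.IsAlgebraic.perfectField (ZMod ℓ)

end Residue

section Algebraic

/-- Every element of `F_κ = κ(j(q^d) : d ∣ N)` is algebraic over `κ(j)` (any field `κ`). -/
theorem isAlgebraic_adjoin_jqModC_of_mem_fullC (κ : Type*) [Field κ] (N : ℕ)
    {y : LaurentSeries κ} (hy : y ∈ modularFunctionFieldFullC κ N) :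
    IsAlgebraic (IntermediateField.adjoin κ {jqModC κ}) y := by
  have hle : modularFunctionFieldFullC κ N ≤
      (algebraicClosure (S28.jField κ) (LaurentSeries κ)).restrictScalars κ := by
    rw [modularFunctionFieldFullC, IntermediateField.adjoin_le_iff]
    rintro x ⟨d, hd, -, rfl⟩
    show _ ∈ algebraicClosure (S28.jField κ) (LaurentSeries κ)
    rw [mem_algebraicClosure_iff']
    have := S28.H867.isIntegral_jd κ d (NeZero.ne d)
      (fun p hp _ _ => S28.H807.nonempty_modPolyData p hp)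
    rwa [S28.H867.jd_eq] at this
  have h := hle hy
  exact mem_algebraicClosure_iff.mp h

end Algebraic

section Main

variable {M : ℕ} {A : ValuationSubring Qb} {E : IntermediateField ℚ Qb}

theorem jqModC_mem_OE : jqModC (RE A E) ∈ OE M A E := by
  rw [mem_OE, coeffMap_jqModC, H602.laurentBaseChange_full_eq]
  exact jqModC_mem_full E M

/-- `j` as an integral series. -/
def JE (M : ℕ) (A : ValuationSubring Qb) (E : IntermediateField ℚ Qb) : OE M A E :=
  ⟨jqModC (RE A E), jqModC_mem_OE⟩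

theorem phi_JE : phi M A E (JE M A E) = jOm M := by
  apply Subtype.ext
  show incQ A E (jqModC (RE A E)) = coeffEmb Qb (qExpand ℚ 1 jq)
  rw [incQ_apply, coeffMap_jqModC, coeffMap_jqModC, H602.coeffEmb_qExpand_jq, qExpand_one_apply]

theorem rho_JE : rho M A E (JE M A E) = jqModC (IsLocalRing.ResidueField (RE A E)) := by
  rw [rho_apply]
  exact coeffMap_jqModC _

theorem C_mem_OE (r : RE A E) : HahnSeries.C (Γ := ℤ) r ∈ OE M A E := by
  rw [mem_OE, H516.coeffMap_C]
  exact C_mem_FE M _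

/-- Constants as integral series. -/
def CE (M : ℕ) (A : ValuationSubring Qb) (E : IntermediateField ℚ Qb) : RE A E →+* OE M A E :=
  (HahnSeries.C (Γ := ℤ) (R := RE A E)).codRestrict (OE M A E) C_mem_OE

theorem phi_CE (r : RE A E) : phi M A E (CE M A E r) = iotaR M A E r := by
  apply Subtype.ext
  show incQ A E (HahnSeries.C r) = _
  rw [incQ_apply, H516.coeffMap_C, H516.coeffMap_C, iotaR_apply, coe_iota_single,
    HahnSeries.C_apply]
  rfl

theorem rho_CE (r : RE A E) :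
    rho M A E (CE M A E r) = HahnSeries.C (IsLocalRing.residue (RE A E) r) := by
  rw [rho_apply]
  exact H516.coeffMap_C _ r

/-- Evaluation `R_E[X] → O_E`, `X ↦ j`. -/
def evE (M : ℕ) (A : ValuationSubring Qb) (E : IntermediateField ℚ Qb) :
    Polynomial (RE A E) →+* OE M A E :=
  Polynomial.eval₂RingHom (CE M A E) (JE M A E)

theorem phi_comp_evE :
    (phi M A E).comp (evE M A E) = Polynomial.eval₂RingHom (iotaR M A E) (jOm M) := by
  refine Polynomial.ringHom_ext (fun r => ?_) ?_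
  · simp only [RingHom.comp_apply, evE, Polynomial.coe_eval₂RingHom, Polynomial.eval₂_C]
    exact phi_CE r
  · simp only [RingHom.comp_apply, evE, Polynomial.coe_eval₂RingHom, Polynomial.eval₂_X]
    exact phi_JE

theorem rho_comp_evE :
    (rho M A E).comp (evE M A E) =
      ((Polynomial.aeval (jqModC (IsLocalRing.ResidueField (RE A E))) :
          Polynomial (IsLocalRing.ResidueField (RE A E)) →ₐ[IsLocalRing.ResidueField (RE A E)]
            LaurentSeries (IsLocalRing.ResidueField (RE A E))).toRingHom).comp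
        (Polynomial.mapRingHom (IsLocalRing.residue (RE A E))) := by
  refine Polynomial.ringHom_ext (fun r => ?_) ?_
  · simp only [RingHom.comp_apply, evE, Polynomial.coe_eval₂RingHom, Polynomial.eval₂_C,
      Polynomial.coe_mapRingHom, Polynomial.map_C, AlgHom.toRingHom_eq_coe, RingHom.coe_coe,
      Polynomial.aeval_C]
    rw [rho_CE, algebraMap_laurentSeries_eq_single, HahnSeries.C_apply]
  · simp only [RingHom.comp_apply, evE, Polynomial.coe_eval₂RingHom, Polynomial.eval₂_X,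
      Polynomial.coe_mapRingHom, Polynomial.map_X, AlgHom.toRingHom_eq_coe, RingHom.coe_coe,
      Polynomial.aeval_X]
    exact rho_JE

theorem eval₂_iotaR_mem_polyRing (g : Polynomial (RE A E)) :
    Polynomial.eval₂ (iotaR M A E) (jOm M) g ∈ Alg.polyRing (Rc M A E) (jOm M) := by
  rw [Polynomial.eval₂_eq_sum_range]
  refine sum_mem fun i _ => ?_
  have h1 : iotaR M A E (g.coeff i) ∈ Alg.polyRing (Rc M A E) (jOm M) :=
    Subring.subset_closure (Set.mem_union_left _ (iotaR_mem_Rc _))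
  have h2 : jOm M ∈ Alg.polyRing (Rc M A E) (jOm M) :=
    Subring.subset_closure (Set.mem_union_right _ (Set.mem_singleton _))
  exact mul_mem h1 (pow_mem h2 _)

/-- **G-SEP** for the concrete objects, coordinate `j`. -/
theorem field_separable (M : ℕ) [NeZero M] {ℓ : ℕ} (hℓ : ℓ.Prime) (hℓM : ¬ ℓ ∣ M)
    {A : ValuationSubring Qb} (hA : A.LiesOverPrime ℓ) (E : IntermediateField ℚ Qb)
    {w : Om M} (hwm : w ∈ Rc M A E)
    (hwg : ∀ r ∈ Rc M A E, r⁻¹ ∉ Rc M A E → r * w⁻¹ ∈ Rc M A E) :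
    ∀ f ∈ VcSet M A E, ∃ P : Polynomial (Om M),
      (∀ i, P.coeff i ∈ Alg.polyRing (Rc M A E) (jOm M)) ∧ P.eval f * w⁻¹ ∈ VcSet M A E ∧
      (Polynomial.derivative P).eval f ≠ 0 ∧
      ((Polynomial.derivative P).eval f)⁻¹ ∈ VcSet M A E := by
  intro f hf
  haveI : Fact ℓ.Prime := ⟨hℓ⟩
  haveI : CharP (IsLocalRing.ResidueField (RE A E)) ℓ := charP_residue_RE hℓ hA
  haveI : PerfectField (IsLocalRing.ResidueField (RE A E)) := perfectField_residue_RE hℓ hA
  have core : S28.CoreData M (IsLocalRing.ResidueField (RE A E)) :=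
    S28.H867.coreData_of_inputs M ℓ hℓM (IsLocalRing.ResidueField (RE A E))
      (fun p hp _ _ => S28.H807.nonempty_modPolyData p hp)
      (fun p hp _ _ => S28.H807.nonempty_unitPolyData p hp)
      S28.H25.theta_identity
  obtain ⟨V₁, V₂, h2, h12⟩ := exists_rep_of_mem_VcSet hf
  set fbar : LaurentSeries (IsLocalRing.ResidueField (RE A E)) :=
    rho M A E V₁ * (rho M A E V₂)⁻¹ with hfbar
  have hfb : fbar * rho M A E V₂ = rho M A E V₁ := by
    rw [hfbar, mul_assoc, inv_mul_cancel₀ h2, mul_one]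
  have hmemF : ∀ V : OE M A E,
      rho M A E V ∈ modularFunctionFieldFullC (IsLocalRing.ResidueField (RE A E)) M := fun V =>
    H516.red_mem_of_incl_mem (RE A E) (IsLocalRing.residue (RE A E)) M core V.2
  have hfbarF : fbar ∈ modularFunctionFieldFullC (IsLocalRing.ResidueField (RE A E)) M :=
    mul_mem (hmemF V₁) (inv_mem (hmemF V₂))
  have halg := isAlgebraic_adjoin_jqModC_of_mem_fullC _ M hfbarF
  obtain ⟨Pbar, hP0, hP1⟩ :=
    H264.exists_bivariate_simple_root_jqModC (IsLocalRing.ResidueField (RE A E)) ℓ fbar halg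
  obtain ⟨Pt, hPt⟩ := Polynomial.map_surjective
    (Polynomial.mapRingHom (IsLocalRing.residue (RE A E)))
    (Polynomial.map_surjective _ IsLocalRing.residue_surjective) Pbar
  obtain ⟨PO, hPO⟩ : ∃ PO : Polynomial (OE M A E), PO = Pt.map (evE M A E) := ⟨_, rfl⟩
  obtain ⟨d, hd⟩ : ∃ d : ℕ, d = PO.natDegree := ⟨_, rfl⟩
  -- the two reductions of `PO`
  have hPOphi : PO.map (phi M A E) = Pt.map (Polynomial.eval₂RingHom (iotaR M A E) (jOm M)) := by
    rw [hPO, Polynomial.map_map, phi_comp_evE]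
  have hPOrho : PO.map (rho M A E) =
      Pbar.map ((Polynomial.aeval (jqModC (IsLocalRing.ResidueField (RE A E))) :
          Polynomial (IsLocalRing.ResidueField (RE A E)) →ₐ[IsLocalRing.ResidueField (RE A E)]
            LaurentSeries (IsLocalRing.ResidueField (RE A E))).toRingHom) := by
    rw [hPO, Polynomial.map_map, rho_comp_evE, ← Polynomial.map_map, hPt]
  have hdeg1 : ∀ {T : Type} [CommRing T] (ψ : OE M A E →+* T), (PO.map ψ).natDegree ≤ d :=
    fun ψ => hd ▸ Polynomial.natDegree_map_le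
  have hdeg2 : ∀ {T : Type} [CommRing T] (ψ : OE M A E →+* T),
      ((Polynomial.derivative PO).map ψ).natDegree ≤ d := fun ψ =>
    hd ▸ (Polynomial.natDegree_map_le).trans
      ((Polynomial.natDegree_derivative_le PO).trans (Nat.sub_le _ _))
  have hderrho : (Polynomial.derivative PO).map (rho M A E) =
      (Polynomial.derivative Pbar).map
        ((Polynomial.aeval (jqModC (IsLocalRing.ResidueField (RE A E))) :
          Polynomial (IsLocalRing.ResidueField (RE A E)) →ₐ[IsLocalRing.ResidueField (RE A E)]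
            LaurentSeries (IsLocalRing.ResidueField (RE A E))).toRingHom) := by
    rw [← Polynomial.derivative_map, hPOrho, Polynomial.derivative_map]
  -- the homogenised values
  obtain ⟨W, hW⟩ : ∃ W : OE M A E, W = homog d PO V₁ V₂ := ⟨_, rfl⟩
  obtain ⟨Z, hZ⟩ : ∃ Z : OE M A E, Z = homog d (Polynomial.derivative PO) V₁ V₂ := ⟨_, rfl⟩
  have hWphi : phi M A E W = (phi M A E V₂) ^ d * (PO.map (phi M A E)).eval f := by
    rw [hW, map_homog, homog_eq d _ h12 (hdeg1 _)]
  have hWrho : rho M A E W = 0 := by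
    rw [hW, map_homog, homog_eq d _ hfb (hdeg1 _), hPOrho,
      Polynomial.eval_map, hP0, mul_zero]
  have hZphi : phi M A E Z =
      (phi M A E V₂) ^ d * ((Polynomial.derivative PO).map (phi M A E)).eval f := by
    rw [hZ, map_homog, homog_eq d _ h12 (hdeg2 _)]
  have hZrho : rho M A E Z ≠ 0 := by
    rw [hZ, map_homog, homog_eq d _ hfb (hdeg2 _), hderrho, Polynomial.eval_map]
    exact mul_ne_zero (pow_ne_zero _ h2) hP1
  have hV₂d : rho M A E (V₂ ^ d) ≠ 0 := by
    rw [map_pow]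
    exact pow_ne_zero _ h2
  obtain ⟨W', hW'⟩ := exists_div_of_rho_eq_zero hwm hwg W hWrho
  have hZ0 : phi M A E Z ≠ 0 := by
    intro h0
    apply hZrho
    have : Z = 0 := phi_injective (by rw [h0, map_zero])
    rw [this, map_zero]
  have hder0 : ((Polynomial.derivative PO).map (phi M A E)).eval f ≠ 0 := by
    intro h0
    apply hZ0
    rw [hZphi, h0, mul_zero]
  refine ⟨PO.map (phi M A E), ?_, ?_, ?_, ?_⟩
  · intro i
    rw [hPOphi, Polynomial.coeff_map]
    exact eval₂_iotaR_mem_polyRing _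
  · refine mem_VcSet_of_rep W' (V₂ ^ d) hV₂d ?_
    rw [hW', hWphi, map_pow]
    ring
  · rw [Polynomial.derivative_map]
    exact hder0
  · rw [Polynomial.derivative_map]
    refine mem_VcSet_of_rep (V₂ ^ d) Z hZrho ?_
    rw [hZphi, map_pow]
    field_simp

/-- **G-SEP**, in the exact shape of the field `Alg.GoodModel.separable`, for any subring `V`
with underlying set `VcSet M A E`. -/
theorem field_separable_subring (M : ℕ) [NeZero M] {ℓ : ℕ} (hℓ : ℓ.Prime) (hℓM : ¬ ℓ ∣ M)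
    {A : ValuationSubring Qb} (hA : A.LiesOverPrime ℓ) (E : IntermediateField ℚ Qb)
    (V : Subring (Om M)) (hV : (V : Set (Om M)) = VcSet M A E)
    {w : Om M} (hwm : w ∈ Rc M A E)
    (hwg : ∀ r ∈ Rc M A E, r⁻¹ ∉ Rc M A E → r * w⁻¹ ∈ Rc M A E) :
    ∀ f ∈ V, ∃ P : Polynomial (Om M),
      (∀ i, P.coeff i ∈ Alg.polyRing (Rc M A E) (jOm M)) ∧ P.eval f * w⁻¹ ∈ V ∧
      (Polynomial.derivative P).eval f ≠ 0 ∧ ((Polynomial.derivative P).eval f)⁻¹ ∈ V := by
  have hmem : ∀ g : Om M, g ∈ V ↔ g ∈ VcSet M A E := fun g => by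
    rw [← hV]
    rfl
  intro f hf
  obtain ⟨P, h1, h2, h3, h4⟩ := field_separable M hℓ hℓM hA E hwm hwg f ((hmem f).mp hf)
  exact ⟨P, h1, (hmem _).mpr h2, h3, (hmem _).mpr h4⟩

end Main

end Fermat.Agent.S18.H576

end
end
-- ===== PACK-END S18/H576/Sep.lean

-- ===== PACK-BEGIN Lib/X0Branch/H997Branch.lean
section






/-!
# Branch data of `X₀(N) → X(1)` in the Prelude's place language (helper997)

`F = FF N = modularFunctionFieldBar N`, `K = Kbar = ℚ̄`, `j = jF N`.

* `ord_sub_eq_one`      : `F / K(j)` is unramified over every `a ∉ {0, 1728}`;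
* `ord_dvd_three`       : ramification indices over `j = 0` divide `3`;
* `ord_sub_dvd_two`     : ramification indices over `j = 1728` divide `2`;
* `ord_inv_dvd_level`   : ramification indices over `j = ∞` divide `N`;
* `card_places_sub`, `card_places_zero`, `card_places_1728`, `card_places_inf` : the number of
  places over each point (`ψ(N)`, resp. the number of cycles of `ST`, `S`, `T` on
  `SL₂(ℤ)/Γ₀(N)`), with the closed formulas of `Fermat.Agent.S24.Count`;
* `sum_ord_sub`, `sum_ord_inv` : `∑ e_v = ψ(N)`.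
-/

set_option autoImplicit false
set_option linter.style.haveILetI false
set_option linter.unusedSectionVars false

noncomputable section

open AlgebraicCurve ModularCurve IntermediateField
open scoped MatrixGroups

namespace Fermat.Agent.Lib.X0Branch

open Fermat.Agent.S24

/-! ### Generalities on `LocalData` -/

section General

variable {K F : Type*} [Field K] [Field F] [Algebra K F] [CharZero K]
variable {C : Type*} [Field C] {X : Type*} [Finite X]
variable {t : F} (L : LocalData K F C X t)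

/-- If `perm ^ k = 1` then every ramification index over `t = 0` divides `k`. -/
theorem ord_dvd_of_perm_pow (E : IntermediateField K F) (hE : E ≤ K⟮t⟯) [FiniteDimensional E F]
    (hrank : Module.finrank E F = Nat.card X) (k : ℕ) (hk : L.perm ^ k = 1)
    (v : Place K F) (hv : 0 < v.ord t) : v.ord t ∣ (k : ℤ) := by
  obtain ⟨x, rfl⟩ := H117.exists_placeOf_eq L E hE hrank v hv
  exact H117.ord_t_dvd_of_pow_apply_eq L x k (by rw [hk]; rfl)

end General

/-! ### The modular function field -/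

variable (N : ℕ) [NeZero N]

instance finiteDimensional_FF : FiniteDimensional ↥Kbar⟮jF N⟯ (FF N) :=
  (Deg457.degree_fields N).1

theorem finrank_FF : Module.finrank ↥Kbar⟮jF N⟯ (FF N) = Nat.card (XX N) :=
  le_antisymm (Deg457.degree_fields N).2 (H997.analyticCore N).card_le_finrank

theorem finrank_FF_eq_psi : Module.finrank ↥Kbar⟮jF N⟯ (FF N) = dedekindPsi N := by
  rw [finrank_FF, card_XX]

/-- the local data over a finite point -/
def dataFin (a : Kbar) : LocalData Kbar (FF N) ℂ (XX N) (jF N - algebraMap Kbar (FF N) a) :=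
  (H997.analyticCore N).dataFin a

/-- the local data over `∞` -/
def dataInf : LocalData Kbar (FF N) ℂ (XX N) (jF N)⁻¹ :=
  (H997.analyticCore N).dataInf

theorem dataFin_perm_generic (a : Kbar) (h0 : a ≠ 0) (h1 : a ≠ 1728) :
    (dataFin N a).perm = 1 :=
  (H997.analyticCore N).dataFin_perm_generic a h0 h1

theorem dataFin_perm_zero :
    (dataFin N 0).perm = permOf N (ModularGroup.S * ModularGroup.T)⁻¹ := by
  unfold dataFin H997.AnalyticCore.dataFin
  rw [dif_pos rfl]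
  rfl

theorem dataFin_perm_1728 : (dataFin N 1728).perm = permOf N ModularGroup.S⁻¹ := by
  have h0 : (1728 : Kbar) ≠ 0 := by norm_num
  unfold dataFin H997.AnalyticCore.dataFin
  rw [dif_neg h0, dif_pos rfl]
  rfl

theorem dataInf_perm : (dataInf N).perm = permOf N ModularGroup.T⁻¹ := rfl

/-! ### Group theory in `SL₂(ℤ)` -/

theorem permOf_mul (g h : SL(2, ℤ)) : permOf N (g * h) = permOf N g * permOf N h := by
  ext x
  simp [permOf, mul_smul]

theorem permOf_pow (g : SL(2, ℤ)) (k : ℕ) : permOf N (g ^ k) = permOf N g ^ k := by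
  induction k with
  | zero => rw [pow_zero, pow_zero]; exact H997.permOf_one N
  | succ n ih => rw [pow_succ, pow_succ, permOf_mul, ih]

theorem permOf_eq_one_of_normal {g : SL(2, ℤ)}
    (hg : ∀ h : SL(2, ℤ), h⁻¹ * g * h ∈ CongruenceSubgroup.Gamma0 N) : permOf N g = 1 := by
  ext x
  obtain ⟨h, rfl⟩ := QuotientGroup.mk_surjective x
  show ((g * h : SL(2, ℤ)) : XX N) = (h : XX N)
  rw [QuotientGroup.eq]
  have := (CongruenceSubgroup.Gamma0 N).inv_mem (hg h)
  simpa [mul_assoc] using this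

theorem neg_one_mem_Gamma0 : (-1 : SL(2, ℤ)) ∈ CongruenceSubgroup.Gamma0 N := by
  rw [CongruenceSubgroup.Gamma0_mem]
  simp

theorem permOf_neg_one : permOf N (-1) = 1 := by
  apply permOf_eq_one_of_normal
  intro h
  have : h⁻¹ * (-1) * h = -1 := by
    rw [mul_neg, mul_one, neg_mul, inv_mul_cancel]
  rw [this]
  exact neg_one_mem_Gamma0 N

theorem S_sq : ModularGroup.S ^ 2 = (-1 : SL(2, ℤ)) := by
  apply Subtype.ext
  rw [Matrix.SpecialLinearGroup.coe_pow, ModularGroup.coe_S, Matrix.SpecialLinearGroup.coe_neg,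
    Matrix.SpecialLinearGroup.coe_one]
  ext i j
  fin_cases i <;> fin_cases j <;> simp [pow_two, Matrix.mul_apply, Fin.sum_univ_two]

theorem ST_cube : (ModularGroup.S * ModularGroup.T) ^ 3 = (-1 : SL(2, ℤ)) := by
  apply Subtype.ext
  rw [Matrix.SpecialLinearGroup.coe_pow, Matrix.SpecialLinearGroup.coe_mul, ModularGroup.coe_S,
    ModularGroup.coe_T, Matrix.SpecialLinearGroup.coe_neg, Matrix.SpecialLinearGroup.coe_one]
  ext i j
  fin_cases i <;> fin_cases j <;> simp [pow_succ, Matrix.mul_apply, Fin.sum_univ_two]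

theorem conj_T_pow_mem_Gamma0 (h : SL(2, ℤ)) :
    h⁻¹ * ModularGroup.T ^ N * h ∈ CongruenceSubgroup.Gamma0 N := by
  rw [CongruenceSubgroup.Gamma0_mem]
  have hT : ((ModularGroup.T ^ N : SL(2, ℤ)) : Matrix (Fin 2) (Fin 2) ℤ) = !![1, (N : ℤ); 0, 1] := by
    have := ModularGroup.coe_T_zpow (N : ℤ)
    rwa [zpow_natCast] at this
  have key : ((h⁻¹ * ModularGroup.T ^ N * h : SL(2, ℤ)) : Matrix (Fin 2) (Fin 2) ℤ) 1 0
      = -(N : ℤ) * (h.1 1 0) ^ 2 := by
    rw [Matrix.SpecialLinearGroup.coe_mul, Matrix.SpecialLinearGroup.coe_mul, hT,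
      Matrix.SpecialLinearGroup.coe_inv, Matrix.adjugate_fin_two]
    simp [Matrix.mul_apply, Fin.sum_univ_two]
    ring
  rw [key]
  push_cast
  simp

theorem permOf_T_pow : permOf N ModularGroup.T ^ N = 1 := by
  rw [← permOf_pow]
  exact permOf_eq_one_of_normal N (conj_T_pow_mem_Gamma0 N)

theorem permOf_S_sq : permOf N ModularGroup.S ^ 2 = 1 := by
  rw [← permOf_pow, S_sq, permOf_neg_one]

theorem permOf_ST_cube : permOf N (ModularGroup.S * ModularGroup.T) ^ 3 = 1 := by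
  rw [← permOf_pow, ST_cube, permOf_neg_one]

/-! ### Ramification indices -/

theorem le_adjoin_sub (a : Kbar) : Kbar⟮jF N⟯ ≤ Kbar⟮jF N - algebraMap Kbar (FF N) a⟯ :=
  (FF.adjoin_sub_const_eq (jF N) a).ge

theorem le_adjoin_inv : Kbar⟮jF N⟯ ≤ Kbar⟮(jF N)⁻¹⟯ :=
  (FF.adjoin_inv_eq (jF N)).ge

/-- **Unramified outside `{0, 1728, ∞}`.** -/
theorem ord_sub_eq_one (a : Kbar) (h0 : a ≠ 0) (h1 : a ≠ 1728) (v : Place Kbar (FF N))
    (hv : 0 < v.ord (jF N - algebraMap Kbar (FF N) a)) :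
    v.ord (jF N - algebraMap Kbar (FF N) a) = 1 := by
  have h := ord_dvd_of_perm_pow (dataFin N a) Kbar⟮jF N⟯ (le_adjoin_sub N a) (finrank_FF N) 1
    (by rw [dataFin_perm_generic N a h0 h1, one_pow]) v hv
  have h' : v.ord (jF N - algebraMap Kbar (FF N) a) ∣ 1 := by simpa using h
  exact Int.eq_one_of_dvd_one hv.le h'

/-- The ramification indices over `j = 0` divide `3`. -/
theorem ord_dvd_three (v : Place Kbar (FF N)) (hv : 0 < v.ord (jF N)) : v.ord (jF N) ∣ 3 := by
  have hv' : 0 < v.ord (jF N - algebraMap Kbar (FF N) 0) := by rwa [map_zero, sub_zero]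
  have h := ord_dvd_of_perm_pow (dataFin N 0) Kbar⟮jF N⟯ (le_adjoin_sub N 0) (finrank_FF N) 3
    (by rw [dataFin_perm_zero, H997.permOf_inv, inv_pow, permOf_ST_cube, inv_one]) v hv'
  rw [map_zero, sub_zero] at h
  exact_mod_cast h

/-- The ramification indices over `j = 1728` divide `2`. -/
theorem ord_sub_dvd_two (v : Place Kbar (FF N))
    (hv : 0 < v.ord (jF N - algebraMap Kbar (FF N) 1728)) :
    v.ord (jF N - algebraMap Kbar (FF N) 1728) ∣ 2 := by
  have h := ord_dvd_of_perm_pow (dataFin N 1728) Kbar⟮jF N⟯ (le_adjoin_sub N 1728) (finrank_FF N) 2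
    (by rw [dataFin_perm_1728, H997.permOf_inv, inv_pow, permOf_S_sq, inv_one]) v hv
  exact_mod_cast h

/-- The ramification indices over `j = ∞` divide the level `N`. -/
theorem ord_inv_dvd_level (v : Place Kbar (FF N)) (hv : 0 < v.ord (jF N)⁻¹) :
    v.ord (jF N)⁻¹ ∣ (N : ℤ) :=
  ord_dvd_of_perm_pow (dataInf N) Kbar⟮jF N⟯ (le_adjoin_inv N) (finrank_FF N) N
    (by rw [dataInf_perm, H997.permOf_inv, inv_pow, permOf_T_pow, inv_one]) v hv

/-! ### Counting places -/

instance finiteDimensional_sub (a : Kbar) :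
    FiniteDimensional ↥Kbar⟮jF N - algebraMap Kbar (FF N) a⟯ (FF N) :=
  FF.finiteDimensional_adjoin_sub_const (jF N) a

instance finiteDimensional_inv : FiniteDimensional ↥Kbar⟮(jF N)⁻¹⟯ (FF N) :=
  FF.finiteDimensional_adjoin_inv (jF N)

theorem finrank_sub (a : Kbar) :
    Module.finrank ↥Kbar⟮jF N - algebraMap Kbar (FF N) a⟯ (FF N) = Nat.card (XX N) := by
  rw [FF.finrank_adjoin_sub_const, finrank_FF]

theorem finrank_inv : Module.finrank ↥Kbar⟮(jF N)⁻¹⟯ (FF N) = Nat.card (XX N) := by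
  rw [FF.finrank_adjoin_inv, finrank_FF]

/-- The places over `j = a`: finitely many, as many as the cycles of the local monodromy, and
`∑ e_v = ψ(N)`. -/
theorem places_sub (a : Kbar) :
    {v : Place Kbar (FF N) | 0 < v.ord (jF N - algebraMap Kbar (FF N) a)}.Finite ∧
      Nat.card ↥{v : Place Kbar (FF N) | 0 < v.ord (jF N - algebraMap Kbar (FF N) a)}
        = numOrbits (dataFin N a).perm ∧
      ∑ᶠ v ∈ {v : Place Kbar (FF N) | 0 < v.ord (jF N - algebraMap Kbar (FF N) a)},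
        v.ord (jF N - algebraMap Kbar (FF N) a) = (dedekindPsi N : ℤ) := by
  have h := H324.local_count (dataFin N a) (finrank_sub N a)
  rw [card_XX] at h
  exact h

theorem places_inv :
    {v : Place Kbar (FF N) | 0 < v.ord (jF N)⁻¹}.Finite ∧
      Nat.card ↥{v : Place Kbar (FF N) | 0 < v.ord (jF N)⁻¹} = cuspCount N ∧
      ∑ᶠ v ∈ {v : Place Kbar (FF N) | 0 < v.ord (jF N)⁻¹}, v.ord (jF N)⁻¹
        = (dedekindPsi N : ℤ) := by
  have h := H324.local_count (dataInf N) (finrank_inv N)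
  have hp : numOrbits (dataInf N).perm = cuspCount N := by
    rw [← numOrbits_T]
    exact (H997.analyticCore N).dataInf_perm
  rw [card_XX, hp] at h
  exact h

/-- Over `a ∉ {0, 1728}` there are exactly `ψ(N) = [F : K(j)]` places. -/
theorem card_places_sub (a : Kbar) (h0 : a ≠ 0) (h1 : a ≠ 1728) :
    Nat.card ↥{v : Place Kbar (FF N) | 0 < v.ord (jF N - algebraMap Kbar (FF N) a)}
      = dedekindPsi N := by
  classical
  obtain ⟨hfin, -, hsum⟩ := places_sub N a
  rw [finsum_mem_eq_finite_toFinset_sum _ hfin] at hsum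
  have h1' : ∀ v ∈ hfin.toFinset, v.ord (jF N - algebraMap Kbar (FF N) a) = 1 := by
    intro v hv
    exact ord_sub_eq_one N a h0 h1 v ((Set.Finite.mem_toFinset hfin).mp hv)
  rw [Finset.sum_congr rfl h1', Finset.sum_const, nsmul_eq_mul, mul_one] at hsum
  rw [Nat.card_eq_card_finite_toFinset hfin]
  exact_mod_cast hsum

/-- `3 · #{places over j = 0} = ψ(N) + 2 ν₃(N)`. -/
theorem card_places_zero :
    3 * Nat.card ↥{v : Place Kbar (FF N) | 0 < v.ord (jF N)} = dedekindPsi N + 2 * nuThree N := by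
  have h := (places_sub N 0).2.1
  simp only [map_zero, sub_zero] at h
  rw [h]
  have := (H997.analyticCore N).dataFin_zero_perm
  rw [show (dataFin N 0).perm = ((H997.analyticCore N).dataFin 0).perm from rfl, this,
    three_mul_numOrbits_ST]

/-- `2 · #{places over j = 1728} = ψ(N) + ν₂(N)`. -/
theorem card_places_1728 :
    2 * Nat.card ↥{v : Place Kbar (FF N) | 0 < v.ord (jF N - algebraMap Kbar (FF N) 1728)}
      = dedekindPsi N + nuTwo N := by
  rw [(places_sub N 1728).2.1,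
    show (dataFin N 1728).perm = ((H997.analyticCore N).dataFin 1728).perm from rfl,
    (H997.analyticCore N).dataFin_1728_perm, two_mul_numOrbits_S]

end Fermat.Agent.Lib.X0Branch

end
end
-- ===== PACK-END Lib/X0Branch/H997Branch.lean

-- ===== PACK-BEGIN S18/H558/BranchJ.lean
section



/-!
# S18 / MOD M2 (part 1): char-0 ramification of `F_M / ℚ̄(j)` in Prelude `Place` language

From the landed S24 analytic core (`H997.analyticCore`, `H117` local theorem), for every level `N`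
(`FF N = modularFunctionFieldBar N`, `jF N` the `j`-function, `Kbar = ℚ̄`):

* `ord_j_sub_eq_one`   : `a ≠ 0`, `a ≠ 1728`, `0 < v.ord (j - a)` ⟹ `v.ord (j - a) = 1`;
* `ord_j_dvd_three`    : `0 < v.ord j` ⟹ `v.ord j ∣ 3`;
* `ord_j_sub_1728_dvd_two` : `0 < v.ord (j - 1728)` ⟹ `v.ord (j - 1728) ∣ 2`;
* `finrank_jF`         : `[FF N : ℚ̄(j)] = #(SL₂(ℤ)/Γ₀(N))`.
-/

set_option autoImplicit false

noncomputable section

open AlgebraicCurve ModularCurve
open scoped MatrixGroups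

namespace Fermat.Agent.S18.H558

open Fermat.Agent.S24

variable (N : ℕ) [NeZero N]

/-- `-1` acts trivially on `SL₂(ℤ) / Γ₀(N)`. -/
theorem permOf_neg_one : permOf N (-1 : SL(2, ℤ)) = 1 := by
  ext x
  obtain ⟨g, rfl⟩ := QuotientGroup.mk_surjective x
  show ((-1 : SL(2, ℤ)) • (g : XX N)) = (g : XX N)
  rw [MulAction.Quotient.smul_mk, smul_eq_mul]
  apply QuotientGroup.eq.mpr
  have hinv : ((-1 : SL(2, ℤ)))⁻¹ = -1 := by
    rw [inv_eq_iff_eq_inv, eq_comm, inv_eq_iff_mul_eq_one, neg_mul_neg, one_mul]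
  have h : (-1 * g)⁻¹ * g = (-1 : SL(2, ℤ)) := by
    rw [neg_one_mul, ← mul_neg_one, mul_inv_rev, mul_assoc, inv_mul_cancel, mul_one, hinv]
  rw [h, CongruenceSubgroup.Gamma0_mem]
  simp

omit [NeZero N] in
theorem permOf_mul (g h : SL(2, ℤ)) : permOf N (g * h) = permOf N g * permOf N h := by
  ext x
  simp [permOf, mul_smul]

theorem permOf_pow (g : SL(2, ℤ)) (n : ℕ) : permOf N (g ^ n) = permOf N g ^ n := by
  induction n with
  | zero => simp [H997.permOf_one]
  | succ n ih => rw [pow_succ, pow_succ, permOf_mul, ih]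

theorem S_sq : ModularGroup.S ^ 2 = (-1 : SL(2, ℤ)) := by
  apply Subtype.ext
  rw [pow_two, Matrix.SpecialLinearGroup.coe_mul, ModularGroup.coe_S,
    Matrix.SpecialLinearGroup.coe_neg, Matrix.SpecialLinearGroup.coe_one]
  ext i j
  fin_cases i <;> fin_cases j <;> simp [Matrix.mul_apply, Fin.sum_univ_two]

theorem ST_cube : (ModularGroup.S * ModularGroup.T) ^ 3 = (-1 : SL(2, ℤ)) := by
  apply Subtype.ext
  rw [pow_succ, pow_two, Matrix.SpecialLinearGroup.coe_mul, Matrix.SpecialLinearGroup.coe_mul,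
    Matrix.SpecialLinearGroup.coe_mul, ModularGroup.coe_S, ModularGroup.coe_T,
    Matrix.SpecialLinearGroup.coe_neg, Matrix.SpecialLinearGroup.coe_one]
  ext i j
  fin_cases i <;> fin_cases j <;> simp [Matrix.mul_apply, Fin.sum_univ_two]

theorem permOf_inv_pow_eq_one (g : SL(2, ℤ)) (n : ℕ) (hg : g ^ n = -1) :
    (permOf N g⁻¹) ^ n = 1 := by
  rw [H997.permOf_inv, inv_pow, ← permOf_pow, hg, permOf_neg_one, inv_one]

/-- The degree of `F_N` over `ℚ̄(j)`. -/
theorem finrank_jF :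
    FiniteDimensional ↥(IntermediateField.adjoin Kbar {jF N}) (FF N) ∧
      Module.finrank ↥(IntermediateField.adjoin Kbar {jF N}) (FF N) = Nat.card (XX N) := by
  obtain ⟨hfd, hle⟩ := Deg457.degree_fields N
  exact ⟨hfd, le_antisymm hle (H997.analyticCore N).card_le_finrank⟩

/-- Generic values of `j` are unramified. -/
theorem ord_j_sub_eq_one (a : Kbar) (h0 : a ≠ 0) (h1 : a ≠ 1728) (v : Place Kbar (FF N))
    (hv : 0 < v.ord (jF N - algebraMap Kbar (FF N) a)) :
    v.ord (jF N - algebraMap Kbar (FF N) a) = 1 := by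
  obtain ⟨hfd, hrank⟩ := finrank_jF N
  obtain ⟨Z, -, -, -, h⟩ := local_fin (jF N) hrank a ((H997.analyticCore N).dataFin a)
  exact h ((H997.analyticCore N).dataFin_perm_generic a h0 h1) v hv

/-- General divisibility: if the `n`-th power of the monodromy at `a` is trivial, every zero of
`j - a` has order dividing `n`. -/
theorem ord_j_sub_dvd (a : Kbar) (n : ℕ)
    (hperm : ((H997.analyticCore N).dataFin a).perm ^ n = 1) (v : Place Kbar (FF N))
    (hv : 0 < v.ord (jF N - algebraMap Kbar (FF N) a)) :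
    v.ord (jF N - algebraMap Kbar (FF N) a) ∣ (n : ℤ) := by
  obtain ⟨hfd, hrank⟩ := finrank_jF N
  set L := (H997.analyticCore N).dataFin a with hL
  have hE : IntermediateField.adjoin Kbar {jF N} ≤
      IntermediateField.adjoin Kbar {jF N - algebraMap Kbar (FF N) a} :=
    (adjoin_sub_algebraMap Kbar (jF N) a).ge
  obtain ⟨x, rfl⟩ := H117.exists_placeOf_eq L _ hE hrank v hv
  exact H117.ord_t_dvd_of_pow_apply_eq L x n (by rw [hperm]; rfl)

theorem dataFin_zero_perm_eq :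
    ((H997.analyticCore N).dataFin 0).perm = permOf N (ModularGroup.S * ModularGroup.T)⁻¹ := by
  unfold H997.AnalyticCore.dataFin
  rw [dif_pos rfl]
  rfl

theorem dataFin_1728_perm_eq :
    ((H997.analyticCore N).dataFin 1728).perm = permOf N (ModularGroup.S)⁻¹ := by
  have h0 : (1728 : Kbar) ≠ 0 := by norm_num
  unfold H997.AnalyticCore.dataFin
  rw [dif_neg h0, dif_pos rfl]
  rfl

/-- Zeros of `j` have order `1` or `3`. -/
theorem ord_j_dvd_three (v : Place Kbar (FF N)) (hv : 0 < v.ord (jF N)) :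
    v.ord (jF N) ∣ 3 := by
  have h := ord_j_sub_dvd N 0 3
    (by rw [dataFin_zero_perm_eq]; exact permOf_inv_pow_eq_one N _ 3 ST_cube) v
    (by rwa [map_zero, sub_zero])
  rw [map_zero, sub_zero] at h
  exact_mod_cast h

/-- Zeros of `j - 1728` have order `1` or `2`. -/
theorem ord_j_sub_1728_dvd_two (v : Place Kbar (FF N))
    (hv : 0 < v.ord (jF N - algebraMap Kbar (FF N) 1728)) :
    v.ord (jF N - algebraMap Kbar (FF N) 1728) ∣ 2 := by
  have h := ord_j_sub_dvd N 1728 2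
    (by rw [dataFin_1728_perm_eq]; exact permOf_inv_pow_eq_one N _ 2 S_sq) v hv
  exact_mod_cast h

end Fermat.Agent.S18.H558

end
end
-- ===== PACK-END S18/H558/BranchJ.lean

-- ===== PACK-BEGIN S18/H558/BranchT2.lean
section


/-!
# S18 / MOD M2 (part 2): ramification of `F_M / ℚ̄(t)` for the Hauptmodul `t = t₂` of `X₀(2)`

Hypothesis (proved elsewhere, piece c3-i): `t ∈ FF M` with `j * t ^ 2 = (t + 256) ^ 3`.
Then `F_M / ℚ̄(t)` is unramified outside `t ∈ {0, -64, ∞}`:

* `ord_t2_sub_eq_one` : `c ≠ 0`, `c ≠ -64`, `0 < v.ord (t - c)` ⟹ `v.ord (t - c) = 1`;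
* `ord_t2_add_64_dvd_two` : `0 < v.ord (t + 64)` ⟹ `v.ord (t + 64) ∣ 2`;
* `ord_t2_inv_sub_eq_one` : the same in the coordinate `1/t` (chart at infinity).
-/

set_option autoImplicit false

noncomputable section

open AlgebraicCurve ModularCurve

namespace Fermat.Agent.S18.H558

open Fermat.Agent.S24

section Generic

variable {K F : Type*} [Field K] [Field F] [Algebra K F] (v : Place K F)

/-- A nonzero constant plus an element of positive order has order `0`. -/
theorem ord_const_add {g : K} (hg : g ≠ 0) {z : F} (hz : 0 < v.ord z) :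
    v.ord (algebraMap K F g + z) = 0 := by
  have hg' : algebraMap K F g ≠ 0 := (map_ne_zero _).2 hg
  have h0 : v.ord (algebraMap K F g) = 0 := H117.ord_algebraMap v g
  rw [H117.ord_add_eq_of_lt v (by rw [h0]; exact hz) hg', h0]

/-- A nonzero constant plus `T * y` with `0 < ord T`, `y` integral, has order `0`. -/
theorem ord_const_add_mul {g : K} (hg : g ≠ 0) {T y : F} (hT : 0 < v.ord T)
    (hy : y ∈ v.toValuationSubring) : v.ord (algebraMap K F g + T * y) = 0 := by
  rcases eq_or_ne y 0 with rfl | hy0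
  · rw [mul_zero, add_zero]; exact H117.ord_algebraMap v g
  · have hT0 : T ≠ 0 := H117.ne_zero_of_ord_ne_zero v hT.ne'
    refine ord_const_add v hg ?_
    rw [v.ord_mul hT0 hy0]
    have := H117.ord_nonneg_of_mem v hy
    omega

/-- If `0 < ord (t - c)` then `t` is integral at `v`. -/
theorem mem_of_ord_sub_pos {t : F} {c : K} (h : 0 < v.ord (t - algebraMap K F c)) :
    t ∈ v.toValuationSubring := by
  have h1 : t - algebraMap K F c ∈ v.toValuationSubring := H117.mem_of_ord_nonneg v h.le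
  have h2 : algebraMap K F c ∈ v.toValuationSubring := v.algebraMap_mem' c
  have := add_mem h1 h2
  rwa [sub_add_cancel] at this

/-- If `0 < ord (t - c)` and `c ≠ 0` then `ord t = 0`. -/
theorem ord_eq_zero_of_ord_sub_pos {t : F} {c : K} (hc : c ≠ 0)
    (h : 0 < v.ord (t - algebraMap K F c)) : v.ord t = 0 := by
  have := ord_const_add v hc h
  rwa [add_sub_cancel] at this

/-- Nonvanishing version of `ord_const_add_mul`. -/
theorem const_add_mul_ne_zero {g : K} (hg : g ≠ 0) {T y : F} (hT : 0 < v.ord T)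
    (hy : y ∈ v.toValuationSubring) : algebraMap K F g + T * y ≠ 0 := by
  intro h
  rcases eq_or_ne y 0 with rfl | hy0
  · rw [mul_zero, add_zero] at h
    exact hg ((map_eq_zero _).1 h)
  · have hT0 : T ≠ 0 := H117.ne_zero_of_ord_ne_zero v hT.ne'
    have h1 : T * y = algebraMap K F (-g) := by
      rw [map_neg, eq_neg_iff_add_eq_zero, add_comm]; exact h
    have h2 := congrArg v.ord h1
    rw [v.ord_mul hT0 hy0, H117.ord_algebraMap] at h2
    have := H117.ord_nonneg_of_mem v hy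
    omega

/-- **Tower lemma.**  If `J * D = T ^ k * U` with `D`, `U` units at `v`, then
`ord J = k * ord T`. -/
theorem ord_eq_of_key {J D T U : F} (k : ℕ) (hkey : J * D = T ^ k * U)
    (hD0 : D ≠ 0) (hD : v.ord D = 0) (hU0 : U ≠ 0) (hU : v.ord U = 0) (hT0 : T ≠ 0) :
    J ≠ 0 ∧ v.ord J = k * v.ord T := by
  have hJ0 : J ≠ 0 := by
    intro h
    rw [h, zero_mul] at hkey
    exact (mul_ne_zero (pow_ne_zero k hT0) hU0) hkey.symm
  refine ⟨hJ0, ?_⟩
  have h1 := congrArg v.ord hkey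
  rw [v.ord_mul hJ0 hD0, v.ord_mul (pow_ne_zero k hT0) hU0, H117.ord_pow, hD, hU] at h1
  simpa using h1

/-- A positive integer `e` with `k * e ∣ k` (`k > 0`) is `1`. -/
theorem eq_one_of_mul_dvd {k : ℕ} (hk : 0 < k) {e : ℤ} (he : 0 < e) (h : (k : ℤ) * e ∣ (k : ℤ)) :
    e = 1 := by
  have hk' : (k : ℤ) ≠ 0 := by exact_mod_cast hk.ne'
  have h1 : (k : ℤ) * e ∣ (k : ℤ) * 1 := by rwa [mul_one]
  have h2 : e ∣ 1 := (mul_dvd_mul_iff_left hk').mp h1
  exact Int.eq_one_of_dvd_one he.le h2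

end Generic

section T2

variable (M : ℕ) [NeZero M] (t : FF M) (hid : jF M * t ^ 2 = (t + 256) ^ 3)

include hid

theorem t2_ne_zero : t ≠ 0 := by
  rintro rfl
  norm_num at hid

/-- Places over `t = -64`: ramification index `1` or `2`. -/
theorem ord_t2_add_64_dvd_two (v : Place Kbar (FF M))
    (hv : 0 < v.ord (t - algebraMap Kbar (FF M) (-64))) :
    v.ord (t - algebraMap Kbar (FF M) (-64)) ∣ 2 := by
  set T := t - algebraMap Kbar (FF M) (-64) with hT
  have ht0 : t ≠ 0 := t2_ne_zero M t hid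
  have hT0 : T ≠ 0 := H117.ne_zero_of_ord_ne_zero v hv.ne'
  have htv : v.ord t = 0 := ord_eq_zero_of_ord_sub_pos v (by norm_num) hv
  have htmem : t ∈ v.toValuationSubring := mem_of_ord_sub_pos v hv
  have hTmem : T ∈ v.toValuationSubring := H117.mem_of_ord_nonneg v hv.le
  -- (j - 1728) t^2 = (t + 64) (t - 512)^2
  have key : (jF M - algebraMap Kbar (FF M) 1728) * t ^ 2
      = T * (algebraMap Kbar (FF M) (-576) + T * 1) ^ 2 := by
    have e1 : algebraMap Kbar (FF M) (-64) = -64 := by rw [map_neg, map_ofNat]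
    have e2 : algebraMap Kbar (FF M) 1728 = 1728 := map_ofNat _ _
    have e3 : algebraMap Kbar (FF M) (-576) = -576 := by rw [map_neg, map_ofNat]
    rw [hT, e1, e2, e3]
    linear_combination hid
  have hU : v.ord (algebraMap Kbar (FF M) (-576) + T * 1) = 0 :=
    ord_const_add_mul v (by norm_num) hv (one_mem _)
  have hU0 : algebraMap Kbar (FF M) (-576) + T * 1 ≠ 0 := by
    intro h
    have h2 : t ^ 2 ≠ 0 := pow_ne_zero 2 ht0
    rw [h] at key
    simp only [ne_eq, OfNat.ofNat_ne_zero, not_false_eq_true, zero_pow, mul_zero, mul_eq_zero,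
      h2, or_false] at key
    -- j = 1728, so `j` would be constant; contradiction with hid? use orders instead
    have hj : jF M = algebraMap Kbar (FF M) 1728 := sub_eq_zero.mp key
    have ht512 : t = algebraMap Kbar (FF M) 512 := by
      have : t = algebraMap Kbar (FF M) (-64) + T := by rw [hT]; ring
      have hT' : T = algebraMap Kbar (FF M) 576 := by
        have : T * 1 = -algebraMap Kbar (FF M) (-576) := by
          rw [eq_neg_iff_add_eq_zero, add_comm]; exact h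
        rw [mul_one] at this
        rw [this, ← map_neg]; norm_num
      rw [this, hT', ← map_add]; norm_num
    have : v.ord T = 0 := by
      have hT' : T = algebraMap Kbar (FF M) 576 := by
        rw [hT, ht512, ← map_sub]; norm_num
      rw [hT']; exact H117.ord_algebraMap v _
    omega
  have hj0 : jF M - algebraMap Kbar (FF M) 1728 ≠ 0 := by
    intro h
    rw [h, zero_mul] at key
    have := mul_ne_zero hT0 (pow_ne_zero 2 hU0)
    exact this key.symm
  have hord : v.ord (jF M - algebraMap Kbar (FF M) 1728) = v.ord T := by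
    have h1 := congrArg v.ord key
    rw [v.ord_mul hj0 (pow_ne_zero 2 ht0), v.ord_mul hT0 (pow_ne_zero 2 hU0),
      H117.ord_pow, H117.ord_pow, htv, hU] at h1
    simpa using h1
  have hpos : 0 < v.ord (jF M - algebraMap Kbar (FF M) 1728) := by rw [hord]; exact hv
  have := ord_j_sub_1728_dvd_two M v hpos
  rwa [hord] at this

end T2

end Fermat.Agent.S18.H558

namespace Fermat.Agent.S18.H558

open Fermat.Agent.S24

section T2main

variable (M : ℕ) [NeZero M] (t : FF M) (hid : jF M * t ^ 2 = (t + 256) ^ 3)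

include hid

/-- **`F_M / ℚ̄(t₂)` is unramified outside `t₂ ∈ {0, -64, ∞}`.** -/
theorem ord_t2_sub_eq_one (c : Kbar) (hc0 : c ≠ 0) (hc64 : c ≠ -64) (v : Place Kbar (FF M))
    (hv : 0 < v.ord (t - algebraMap Kbar (FF M) c)) :
    v.ord (t - algebraMap Kbar (FF M) c) = 1 := by
  set C : FF M := algebraMap Kbar (FF M) c with hC
  set T := t - C with hT
  have ht0 : t ≠ 0 := t2_ne_zero M t hid
  have hT0 : T ≠ 0 := H117.ne_zero_of_ord_ne_zero v hv.ne'
  have htv : v.ord t = 0 := ord_eq_zero_of_ord_sub_pos v hc0 hv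
  have htmem : t ∈ v.toValuationSubring := mem_of_ord_sub_pos v hv
  have hCmem : C ∈ v.toValuationSubring := v.algebraMap_mem' c
  have hC0 : C ≠ 0 := (map_ne_zero _).2 hc0
  have hCv : v.ord C = 0 := H117.ord_algebraMap v c
  have ht2 : v.ord (t ^ 2) = 0 := by rw [H117.ord_pow, htv]; simp
  by_cases h256 : c = -256
  · -- `j t² = (t + 256)³`
    have hCe : C = -256 := by rw [hC, h256, map_neg, map_ofNat]
    have key : jF M * t ^ 2 = T ^ 3 * 1 := by
      rw [hT, hCe]; linear_combination hid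
    obtain ⟨hJ0, hJ⟩ := ord_eq_of_key v 3 key (pow_ne_zero 2 ht0) ht2 one_ne_zero v.ord_one hT0
    have hpos : 0 < v.ord (jF M) := by rw [hJ]; positivity
    have h3 := ord_j_dvd_three M v hpos
    rw [hJ] at h3
    exact eq_one_of_mul_dvd (k := 3) (by norm_num) hv (by exact_mod_cast h3)
  by_cases h512 : c = 512
  · -- `(j - 1728) t² = (t - 512)² (t + 64)`
    have hCe : C = 512 := by rw [hC, h512, map_ofNat]
    have e2 : algebraMap Kbar (FF M) 1728 = 1728 := map_ofNat _ _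
    have e3 : algebraMap Kbar (FF M) 576 = 576 := map_ofNat _ _
    have key : (jF M - algebraMap Kbar (FF M) 1728) * t ^ 2
        = T ^ 2 * (algebraMap Kbar (FF M) 576 + T * 1) := by
      rw [hT, hCe, e2, e3]; linear_combination hid
    obtain ⟨hJ0, hJ⟩ := ord_eq_of_key v 2 key (pow_ne_zero 2 ht0) ht2
      (const_add_mul_ne_zero v (by norm_num) hv (one_mem _))
      (ord_const_add_mul v (by norm_num) hv (one_mem _)) hT0
    have hpos : 0 < v.ord (jF M - algebraMap Kbar (FF M) 1728) := by rw [hJ]; positivity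
    have h2 := ord_j_sub_1728_dvd_two M v hpos
    rw [hJ] at h2
    exact eq_one_of_mul_dvd (k := 2) (by norm_num) hv (by exact_mod_cast h2)
  · -- generic case
    set a : Kbar := (c + 256) ^ 3 / c ^ 2 with ha
    have hc2 : c ^ 2 ≠ 0 := pow_ne_zero 2 hc0
    have hac : a * c ^ 2 = (c + 256) ^ 3 := by rw [ha]; field_simp
    have ha0 : a ≠ 0 := by
      rw [ha]
      refine div_ne_zero (pow_ne_zero 3 ?_) hc2
      intro h
      exact h256 (eq_neg_of_add_eq_zero_left h)
    have ha1728 : a ≠ 1728 := by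
      intro h
      rw [h] at hac
      have : (c + 64) * (c - 512) ^ 2 = 0 := by linear_combination -hac
      rcases mul_eq_zero.mp this with h1 | h1
      · exact hc64 (eq_neg_of_add_eq_zero_left h1)
      · exact h512 (sub_eq_zero.mp (pow_eq_zero_iff (by norm_num) |>.mp h1))
    set q : Kbar := c * (c + 256) ^ 2 * (c - 512) with hq
    have hq0 : q ≠ 0 := by
      rw [hq]
      refine mul_ne_zero (mul_ne_zero hc0 (pow_ne_zero 2 ?_)) (sub_ne_zero.mpr h512)
      intro h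
      exact h256 (eq_neg_of_add_eq_zero_left h)
    have hA : algebraMap Kbar (FF M) a * C ^ 2 = (C + 256) ^ 3 := by
      have := congrArg (algebraMap Kbar (FF M)) hac
      simpa [map_mul, map_pow, map_add, map_ofNat] using this
    have hQ : algebraMap Kbar (FF M) q = C * (C + 256) ^ 2 * (C - 512) := by
      rw [hq]; simp [map_mul, map_pow, map_add, map_sub, map_ofNat, hC]
    set W : FF M := t * C ^ 2 + C ^ 3 - 196608 * C - 16777216 with hW
    have hWmem : W ∈ v.toValuationSubring := by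
      have h1 : (196608 : FF M) ∈ v.toValuationSubring := by
        have := v.algebraMap_mem' (196608 : Kbar); rwa [map_ofNat] at this
      have h2 : (16777216 : FF M) ∈ v.toValuationSubring := by
        have := v.algebraMap_mem' (16777216 : Kbar); rwa [map_ofNat] at this
      exact sub_mem (sub_mem (add_mem (mul_mem htmem (pow_mem hCmem 2)) (pow_mem hCmem 3))
        (mul_mem h1 hCmem)) h2
    have key : (jF M - algebraMap Kbar (FF M) a) * (t ^ 2 * C ^ 2)
        = T ^ 1 * (algebraMap Kbar (FF M) q + T * W) := by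
      rw [hQ, hW, hT]
      linear_combination C ^ 2 * hid - t ^ 2 * hA
    have hD0 : t ^ 2 * C ^ 2 ≠ 0 := mul_ne_zero (pow_ne_zero 2 ht0) (pow_ne_zero 2 hC0)
    have hD : v.ord (t ^ 2 * C ^ 2) = 0 := by
      rw [v.ord_mul (pow_ne_zero 2 ht0) (pow_ne_zero 2 hC0), ht2, H117.ord_pow, hCv]; simp
    obtain ⟨hJ0, hJ⟩ := ord_eq_of_key v 1 key hD0 hD
      (const_add_mul_ne_zero v hq0 hv hWmem) (ord_const_add_mul v hq0 hv hWmem) hT0
    have hJ' : v.ord (jF M - algebraMap Kbar (FF M) a) = v.ord T := by simpa using hJ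
    have hpos : 0 < v.ord (jF M - algebraMap Kbar (FF M) a) := by rw [hJ']; exact hv
    rw [← hJ']
    exact ord_j_sub_eq_one M a ha0 ha1728 v hpos

/-- The same statement in the coordinate `s = 1/t` (chart at infinity): unramified outside
`s ∈ {0, -1/64}`. -/
theorem ord_t2_inv_sub_eq_one (s : Kbar) (hs0 : s ≠ 0) (hs64 : s ≠ -(1 / 64))
    (v : Place Kbar (FF M)) (hv : 0 < v.ord (t⁻¹ - algebraMap Kbar (FF M) s)) :
    v.ord (t⁻¹ - algebraMap Kbar (FF M) s) = 1 := by
  have ht0 : t ≠ 0 := t2_ne_zero M t hid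
  have hti : v.ord t⁻¹ = 0 := ord_eq_zero_of_ord_sub_pos v hs0 hv
  have htv : v.ord t = 0 := by rw [v.ord_inv] at hti; omega
  set S : FF M := algebraMap Kbar (FF M) s with hS
  have hS0 : S ≠ 0 := (map_ne_zero _).2 hs0
  have hSv : v.ord S = 0 := H117.ord_algebraMap v s
  -- `t⁻¹ - s = -(s / t) (t - 1/s)`
  have hrel : t⁻¹ - S = (-(S * t⁻¹)) * (t - algebraMap Kbar (FF M) s⁻¹) := by
    rw [map_inv₀, ← hS]
    have h1 : S * S⁻¹ = 1 := mul_inv_cancel₀ hS0
    have h2 : t * t⁻¹ = 1 := mul_inv_cancel₀ ht0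
    linear_combination (-t⁻¹) * h1 + S * h2
  have hne1 : -(S * t⁻¹) ≠ 0 := neg_ne_zero.mpr (mul_ne_zero hS0 (inv_ne_zero ht0))
  have hord1 : v.ord (-(S * t⁻¹)) = 0 := by
    rw [H117.ord_neg, v.ord_mul hS0 (inv_ne_zero ht0), hSv, hti]; rfl
  have hne2 : t - algebraMap Kbar (FF M) s⁻¹ ≠ 0 := by
    intro h
    rw [h, mul_zero] at hrel
    rw [hrel, v.ord_zero] at hv
    exact lt_irrefl _ hv
  have hord : v.ord (t⁻¹ - S) = v.ord (t - algebraMap Kbar (FF M) s⁻¹) := by
    rw [hrel, v.ord_mul hne1 hne2, hord1, zero_add]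
  rw [hord] at hv ⊢
  refine ord_t2_sub_eq_one M t hid s⁻¹ (inv_ne_zero hs0) ?_ v hv
  intro h
  apply hs64
  have : s = (s⁻¹)⁻¹ := (inv_inv s).symm
  rw [this, h]
  norm_num

end T2main

end Fermat.Agent.S18.H558

namespace Fermat.Agent.S18.H558

open Fermat.Agent.S24

/-- `j`-line, chart at infinity: in the coordinate `s = 1/j`, `F_N / ℚ̄(j)` is unramified outside
`s ∈ {0, 1/1728}`. -/
theorem ord_j_inv_sub_eq_one (N : ℕ) [NeZero N] (s : Kbar) (hs0 : s ≠ 0) (hs : s ≠ 1 / 1728)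
    (v : Place Kbar (FF N)) (hv : 0 < v.ord ((jF N)⁻¹ - algebraMap Kbar (FF N) s)) :
    v.ord ((jF N)⁻¹ - algebraMap Kbar (FF N) s) = 1 := by
  have hti : v.ord (jF N)⁻¹ = 0 := ord_eq_zero_of_ord_sub_pos v hs0 hv
  have ht0 : jF N ≠ 0 := by
    intro h
    rw [h, inv_zero, zero_sub, H117.ord_neg, H117.ord_algebraMap] at hv
    exact lt_irrefl _ hv
  set S : FF N := algebraMap Kbar (FF N) s with hS
  have hS0 : S ≠ 0 := (map_ne_zero _).2 hs0
  have hSv : v.ord S = 0 := H117.ord_algebraMap v s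
  have hrel : (jF N)⁻¹ - S = (-(S * (jF N)⁻¹)) * (jF N - algebraMap Kbar (FF N) s⁻¹) := by
    rw [map_inv₀, ← hS]
    have h1 : S * S⁻¹ = 1 := mul_inv_cancel₀ hS0
    have h2 : jF N * (jF N)⁻¹ = 1 := mul_inv_cancel₀ ht0
    linear_combination (-(jF N)⁻¹) * h1 + S * h2
  have hne1 : -(S * (jF N)⁻¹) ≠ 0 := neg_ne_zero.mpr (mul_ne_zero hS0 (inv_ne_zero ht0))
  have hord1 : v.ord (-(S * (jF N)⁻¹)) = 0 := by
    rw [H117.ord_neg, v.ord_mul hS0 (inv_ne_zero ht0), hSv, hti]; rfl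
  have hne2 : jF N - algebraMap Kbar (FF N) s⁻¹ ≠ 0 := by
    intro h
    rw [h, mul_zero] at hrel
    rw [hrel, v.ord_zero] at hv
    exact lt_irrefl _ hv
  have hord : v.ord ((jF N)⁻¹ - S) = v.ord (jF N - algebraMap Kbar (FF N) s⁻¹) := by
    rw [hrel, v.ord_mul hne1 hne2, hord1, zero_add]
  rw [hord] at hv ⊢
  refine ord_j_sub_eq_one N s⁻¹ (inv_ne_zero hs0) ?_ v hv
  intro h
  apply hs
  have : s = (s⁻¹)⁻¹ := (inv_inv s).symm
  rw [this, h]
  norm_num

end Fermat.Agent.S18.H558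

end
end
-- ===== PACK-END S18/H558/BranchT2.lean

-- ===== PACK-BEGIN S18/H558/BranchT3.lean
section


/-!
# S18 / MOD M2 (part 3): ramification of `F_M / ℚ̄(t)` for the Hauptmodul `t = t₃` of `X₀(3)`

Hypothesis (proved elsewhere, piece c3-i): `t ∈ FF M` with `j * t ^ 3 = (t + 27) * (t + 243) ^ 3`.
Then `F_M / ℚ̄(t)` is unramified outside `t ∈ {0, -27, ∞}`:

* `ord_t3_sub_eq_one` : `c ≠ 0`, `c ≠ -27`, `0 < v.ord (t - c)` ⟹ `v.ord (t - c) = 1`;
* `ord_t3_add_27_dvd_three` : `0 < v.ord (t + 27)` ⟹ `v.ord (t + 27) ∣ 3`;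
* `ord_t3_inv_sub_eq_one` : the same in the coordinate `1/t` (chart at infinity).
-/

set_option autoImplicit false

noncomputable section

open AlgebraicCurve ModularCurve

namespace Fermat.Agent.S18.H558

open Fermat.Agent.S24

section T3

variable (M : ℕ) [NeZero M] (t : FF M) (hid : jF M * t ^ 3 = (t + 27) * (t + 243) ^ 3)

include hid

theorem t3_ne_zero : t ≠ 0 := by
  rintro rfl
  norm_num at hid

/-- Places over `t = -27`: ramification index `1` or `3`. -/
theorem ord_t3_add_27_dvd_three (v : Place Kbar (FF M))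
    (hv : 0 < v.ord (t - algebraMap Kbar (FF M) (-27))) :
    v.ord (t - algebraMap Kbar (FF M) (-27)) ∣ 3 := by
  set T := t - algebraMap Kbar (FF M) (-27) with hT
  have ht0 : t ≠ 0 := t3_ne_zero M t hid
  have hT0 : T ≠ 0 := H117.ne_zero_of_ord_ne_zero v hv.ne'
  have htv : v.ord t = 0 := ord_eq_zero_of_ord_sub_pos v (by norm_num) hv
  have ht3 : v.ord (t ^ 3) = 0 := by rw [H117.ord_pow, htv]; simp
  have e1 : algebraMap Kbar (FF M) (-27) = -27 := by rw [map_neg, map_ofNat]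
  have e3 : algebraMap Kbar (FF M) 216 = 216 := map_ofNat _ _
  have key : jF M * t ^ 3 = T ^ 1 * (algebraMap Kbar (FF M) 216 + T * 1) ^ 3 := by
    rw [hT, e1, e3]; linear_combination hid
  have hU0 := const_add_mul_ne_zero v (g := (216 : Kbar)) (by norm_num) hv (one_mem _)
  have hU := ord_const_add_mul v (g := (216 : Kbar)) (by norm_num) hv (one_mem _)
  obtain ⟨hJ0, hJ⟩ := ord_eq_of_key v 1 key (pow_ne_zero 3 ht0) ht3 (pow_ne_zero 3 hU0)
    (by rw [H117.ord_pow, hU]; simp) hT0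
  have hJ' : v.ord (jF M) = v.ord T := by simpa using hJ
  have hpos : 0 < v.ord (jF M) := by rw [hJ']; exact hv
  have := ord_j_dvd_three M v hpos
  rwa [hJ'] at this

/-- **`F_M / ℚ̄(t₃)` is unramified outside `t₃ ∈ {0, -27, ∞}`.** -/
theorem ord_t3_sub_eq_one (c : Kbar) (hc0 : c ≠ 0) (hc27 : c ≠ -27) (v : Place Kbar (FF M))
    (hv : 0 < v.ord (t - algebraMap Kbar (FF M) c)) :
    v.ord (t - algebraMap Kbar (FF M) c) = 1 := by
  set C : FF M := algebraMap Kbar (FF M) c with hC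
  set T := t - C with hT
  have ht0 : t ≠ 0 := t3_ne_zero M t hid
  have hT0 : T ≠ 0 := H117.ne_zero_of_ord_ne_zero v hv.ne'
  have htv : v.ord t = 0 := ord_eq_zero_of_ord_sub_pos v hc0 hv
  have htmem : t ∈ v.toValuationSubring := mem_of_ord_sub_pos v hv
  have hCmem : C ∈ v.toValuationSubring := v.algebraMap_mem' c
  have hC0 : C ≠ 0 := (map_ne_zero _).2 hc0
  have hCv : v.ord C = 0 := H117.ord_algebraMap v c
  have ht3 : v.ord (t ^ 3) = 0 := by rw [H117.ord_pow, htv]; simp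
  by_cases h243 : c = -243
  · -- `j t³ = (t + 243)³ (t + 27)`
    have hCe : C = -243 := by rw [hC, h243, map_neg, map_ofNat]
    have e3 : algebraMap Kbar (FF M) (-216) = -216 := by rw [map_neg, map_ofNat]
    have key : jF M * t ^ 3 = T ^ 3 * (algebraMap Kbar (FF M) (-216) + T * 1) := by
      rw [hT, hCe, e3]; linear_combination hid
    obtain ⟨hJ0, hJ⟩ := ord_eq_of_key v 3 key (pow_ne_zero 3 ht0) ht3
      (const_add_mul_ne_zero v (by norm_num) hv (one_mem _))
      (ord_const_add_mul v (by norm_num) hv (one_mem _)) hT0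
    have hpos : 0 < v.ord (jF M) := by rw [hJ]; positivity
    have h3 := ord_j_dvd_three M v hpos
    rw [hJ] at h3
    exact eq_one_of_mul_dvd (k := 3) (by norm_num) hv (by exact_mod_cast h3)
  by_cases hquad : c ^ 2 - 486 * c - 19683 = 0
  · -- `(j - 1728) t³ = (t² - 486 t - 19683)² = (t - c)² (t - c')²`
    have e2 : algebraMap Kbar (FF M) 1728 = 1728 := map_ofNat _ _
    have hg : (2 * c - 486 : Kbar) ≠ 0 := by
      intro h
      have hc : c = 243 := by linear_combination h / 2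
      rw [hc] at hquad
      norm_num at hquad
    have hG : algebraMap Kbar (FF M) (2 * c - 486) = 2 * C - 486 := by
      simp [map_sub, map_mul, map_ofNat, hC]
    have hquad' : C ^ 2 - 486 * C - 19683 = 0 := by
      have := congrArg (algebraMap Kbar (FF M)) hquad
      simpa [map_sub, map_mul, map_pow, map_ofNat, hC] using this
    have key : (jF M - algebraMap Kbar (FF M) 1728) * t ^ 3
        = T ^ 2 * (algebraMap Kbar (FF M) (2 * c - 486) + T * 1) ^ 2 := by
      rw [hG, hT, e2]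
      linear_combination hid + (2 * t ^ 2 - 972 * t - 39366 - (C ^ 2 - 486 * C - 19683)) * hquad'
    have hU0 := const_add_mul_ne_zero v hg hv (one_mem _)
    have hU := ord_const_add_mul v hg hv (one_mem _)
    obtain ⟨hJ0, hJ⟩ := ord_eq_of_key v 2 key (pow_ne_zero 3 ht0) ht3 (pow_ne_zero 2 hU0)
      (by rw [H117.ord_pow, hU]; simp) hT0
    have hpos : 0 < v.ord (jF M - algebraMap Kbar (FF M) 1728) := by rw [hJ]; positivity
    have h2 := ord_j_sub_1728_dvd_two M v hpos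
    rw [hJ] at h2
    exact eq_one_of_mul_dvd (k := 2) (by norm_num) hv (by exact_mod_cast h2)
  · -- generic case
    set a : Kbar := (c + 27) * (c + 243) ^ 3 / c ^ 3 with ha
    have hc3 : c ^ 3 ≠ 0 := pow_ne_zero 3 hc0
    have h27' : c + 27 ≠ 0 := fun h => hc27 (eq_neg_of_add_eq_zero_left h)
    have h243' : c + 243 ≠ 0 := fun h => h243 (eq_neg_of_add_eq_zero_left h)
    have hac : a * c ^ 3 = (c + 27) * (c + 243) ^ 3 := by rw [ha]; field_simp
    have ha0 : a ≠ 0 := by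
      rw [ha]
      exact div_ne_zero (mul_ne_zero h27' (pow_ne_zero 3 h243')) hc3
    have ha1728 : a ≠ 1728 := by
      intro h
      rw [h] at hac
      have : (c ^ 2 - 486 * c - 19683) ^ 2 = 0 := by linear_combination -hac
      exact hquad (pow_eq_zero_iff (by norm_num) |>.mp this)
    set q : Kbar := c ^ 2 * (c + 243) ^ 2 * (c ^ 2 - 486 * c - 19683) with hq
    have hq0 : q ≠ 0 := by
      rw [hq]
      exact mul_ne_zero (mul_ne_zero (pow_ne_zero 2 hc0) (pow_ne_zero 2 h243')) hquad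
    have hA : algebraMap Kbar (FF M) a * C ^ 3 = (C + 27) * (C + 243) ^ 3 := by
      have := congrArg (algebraMap Kbar (FF M)) hac
      simpa [map_mul, map_pow, map_add, map_ofNat] using this
    have hQ : algebraMap Kbar (FF M) q = C ^ 2 * (C + 243) ^ 2 * (C ^ 2 - 486 * C - 19683) := by
      rw [hq]; simp [map_mul, map_pow, map_add, map_sub, map_ofNat, hC]
    set W : FF M := t ^ 2 * C ^ 3 + t * C ^ 4 - 196830 * (t * C ^ 2) - 19131876 * (t * C)
      - 387420489 * t + C ^ 5 - 196830 * C ^ 3 - 38263752 * C ^ 2 - 774840978 * C with hW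
    have hnum : ∀ n : ℕ, (n : FF M) ∈ v.toValuationSubring := fun n => natCast_mem _ n
    have hWmem : W ∈ v.toValuationSubring := by
      have h1 : (196830 : FF M) ∈ v.toValuationSubring := by exact_mod_cast hnum 196830
      have h2 : (19131876 : FF M) ∈ v.toValuationSubring := by exact_mod_cast hnum 19131876
      have h3 : (387420489 : FF M) ∈ v.toValuationSubring := by exact_mod_cast hnum 387420489
      have h4 : (38263752 : FF M) ∈ v.toValuationSubring := by exact_mod_cast hnum 38263752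
      have h5 : (774840978 : FF M) ∈ v.toValuationSubring := by exact_mod_cast hnum 774840978
      refine sub_mem (sub_mem (sub_mem (add_mem (sub_mem (sub_mem (sub_mem (add_mem ?_ ?_) ?_) ?_)
        ?_) ?_) ?_) ?_) ?_
      · exact mul_mem (pow_mem htmem 2) (pow_mem hCmem 3)
      · exact mul_mem htmem (pow_mem hCmem 4)
      · exact mul_mem h1 (mul_mem htmem (pow_mem hCmem 2))
      · exact mul_mem h2 (mul_mem htmem hCmem)
      · exact mul_mem h3 htmem
      · exact pow_mem hCmem 5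
      · exact mul_mem h1 (pow_mem hCmem 3)
      · exact mul_mem h4 (pow_mem hCmem 2)
      · exact mul_mem h5 hCmem
    have key : (jF M - algebraMap Kbar (FF M) a) * (t ^ 3 * C ^ 3)
        = T ^ 1 * (algebraMap Kbar (FF M) q + T * W) := by
      rw [hQ, hW, hT]
      linear_combination C ^ 3 * hid - t ^ 3 * hA
    have hD0 : t ^ 3 * C ^ 3 ≠ 0 := mul_ne_zero (pow_ne_zero 3 ht0) (pow_ne_zero 3 hC0)
    have hD : v.ord (t ^ 3 * C ^ 3) = 0 := by
      rw [v.ord_mul (pow_ne_zero 3 ht0) (pow_ne_zero 3 hC0), ht3, H117.ord_pow, hCv]; simp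
    obtain ⟨hJ0, hJ⟩ := ord_eq_of_key v 1 key hD0 hD
      (const_add_mul_ne_zero v hq0 hv hWmem) (ord_const_add_mul v hq0 hv hWmem) hT0
    have hJ' : v.ord (jF M - algebraMap Kbar (FF M) a) = v.ord T := by simpa using hJ
    have hpos : 0 < v.ord (jF M - algebraMap Kbar (FF M) a) := by rw [hJ']; exact hv
    rw [← hJ']
    exact ord_j_sub_eq_one M a ha0 ha1728 v hpos

/-- The same statement in the coordinate `s = 1/t` (chart at infinity): unramified outside
`s ∈ {0, -1/27}`. -/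
theorem ord_t3_inv_sub_eq_one (s : Kbar) (hs0 : s ≠ 0) (hs27 : s ≠ -(1 / 27))
    (v : Place Kbar (FF M)) (hv : 0 < v.ord (t⁻¹ - algebraMap Kbar (FF M) s)) :
    v.ord (t⁻¹ - algebraMap Kbar (FF M) s) = 1 := by
  have ht0 : t ≠ 0 := t3_ne_zero M t hid
  have hti : v.ord t⁻¹ = 0 := ord_eq_zero_of_ord_sub_pos v hs0 hv
  have htv : v.ord t = 0 := by rw [v.ord_inv] at hti; omega
  set S : FF M := algebraMap Kbar (FF M) s with hS
  have hS0 : S ≠ 0 := (map_ne_zero _).2 hs0
  have hSv : v.ord S = 0 := H117.ord_algebraMap v s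
  have hrel : t⁻¹ - S = (-(S * t⁻¹)) * (t - algebraMap Kbar (FF M) s⁻¹) := by
    rw [map_inv₀, ← hS]
    have h1 : S * S⁻¹ = 1 := mul_inv_cancel₀ hS0
    have h2 : t * t⁻¹ = 1 := mul_inv_cancel₀ ht0
    linear_combination (-t⁻¹) * h1 + S * h2
  have hne1 : -(S * t⁻¹) ≠ 0 := neg_ne_zero.mpr (mul_ne_zero hS0 (inv_ne_zero ht0))
  have hord1 : v.ord (-(S * t⁻¹)) = 0 := by
    rw [H117.ord_neg, v.ord_mul hS0 (inv_ne_zero ht0), hSv, hti]; rfl
  have hne2 : t - algebraMap Kbar (FF M) s⁻¹ ≠ 0 := by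
    intro h
    rw [h, mul_zero] at hrel
    rw [hrel, v.ord_zero] at hv
    exact lt_irrefl _ hv
  have hord : v.ord (t⁻¹ - S) = v.ord (t - algebraMap Kbar (FF M) s⁻¹) := by
    rw [hrel, v.ord_mul hne1 hne2, hord1, zero_add]
  rw [hord] at hv ⊢
  refine ord_t3_sub_eq_one M t hid s⁻¹ (inv_ne_zero hs0) ?_ v hv
  intro h
  apply hs27
  have : s = (s⁻¹)⁻¹ := (inv_inv s).symm
  rw [this, h]
  norm_num

end T3

end Fermat.Agent.S18.H558

end
end
-- ===== PACK-END S18/H558/BranchT3.lean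

-- ===== PACK-BEGIN S18/H997/BranchField.lean
section








/-!
# S18 / node_mod, part G-BR (helper997): the branch fields of `Alg.GoodModel`

For the concrete objects of `Fermat/Agent/S18/Mod/Defs.lean` and EVERY admissible coordinate
(`IsCoordinate M ℓ x S`: `x = j`, `S = {0, 1728}` for `ℓ ≥ 5`; `x = t₂`, `S = {0, -64}` for `ℓ = 3`;
`x = t₃`, `S = {0, -27}` for `ℓ = 2`), every intermediate field `E` of `ℚ̄/ℚ`:

* `S_mem`       : `∀ s ∈ S, s ∈ Rc M A E`
* `S_distinct`  : `∀ s ∈ S, ∀ t ∈ S, s ≠ t → (s - t)⁻¹ ∈ Rc M A E`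
* `S_unit`      : `∀ s ∈ S, s ≠ 0 → s⁻¹ ∈ Rc M A E`
* `unramified`  : `∀ O : ValuationSubring (Om M), (∀ a ∈ Lc M, a ∈ O) → ∀ c ∈ Lc M, c ∉ S →
                    x - c ∈ O → (x - c)⁻¹ ∉ O → ∀ t ∈ O, t⁻¹ ∉ O → t * (x - c)⁻¹ ∈ O`

exactly the four fields `S_mem S_distinct S_unit unramified` of `Alg.GoodModel`
(= `PartBr (Lc M) (Rc M A E) x S` of helper216's MOD assembly).  Main theorem: `branchFields`.
-/

set_option autoImplicit false
set_option linter.style.haveILetI false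

noncomputable section

open AlgebraicCurve ModularCurve IntermediateField HahnSeries

namespace Fermat.Agent.S18.H997

open Fermat.Agent.S24 Fermat.Agent.S18 Fermat.Agent.S18.Mod

/-! ### Generic: place form ⟹ valuation-subring form -/

section Generic

variable {K F : Type*} [Field K] [Field F] [Algebra K F] [IsAlgClosed K]

/-- If `y` has order `1` at every place where it vanishes, then `y` generates the maximal
ideal of every valuation subring of `F/K` in which it is a non-unit. -/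
theorem unramified_of_ord {x₀ : F} (hx₀ : Transcendental K x₀) [FiniteDimensional K⟮x₀⟯ F]
    (y : F)
    (h : ∀ v : Place K F, 0 < v.ord y → v.ord y = 1)
    (O : ValuationSubring F) (hK : ∀ a : K, algebraMap K F a ∈ O)
    (hmem : y ∈ O) (hinv : y⁻¹ ∉ O) (t : F) (ht : t ∈ O) (htinv : t⁻¹ ∉ O) :
    t * y⁻¹ ∈ O := by
  have hO : O ≠ ⊤ := fun h' => hinv (h' ▸ ValuationSubring.mem_top _)
  obtain ⟨v, rfl⟩ := Lib.RR.H443.exists_place_eq O hK hO hx₀
  have hy0 : y ≠ 0 := by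
    rintro rfl
    rw [inv_zero] at hinv
    exact hinv (zero_mem _)
  have ht0 : t ≠ 0 := by
    rintro rfl
    rw [inv_zero] at htinv
    exact htinv (zero_mem _)
  have pos : ∀ z : F, z ∈ v.toValuationSubring → z⁻¹ ∉ v.toValuationSubring → 0 < v.ord z := by
    intro z hz hzi
    have h1 : 0 ≤ v.ord z := (FF.mem_iff_ord_nonneg v).1 hz
    have h2 : ¬ 0 ≤ v.ord z⁻¹ := fun h' => hzi ((FF.mem_iff_ord_nonneg v).2 h')
    rw [Place.ord_inv] at h2
    omega
  have hy := pos y hmem hinv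
  have hyt := pos t ht htinv
  rw [FF.mem_iff_ord_nonneg, Place.ord_mul v ht0 (inv_ne_zero hy0), Place.ord_inv, h v hy]
  omega

end Generic

/-! ### Constants -/

section Constants

variable (M : ℕ) (A : ValuationSubring Qb) (E : IntermediateField ℚ Qb)

theorem mem_Rc_of_mem {a : Qb} (hA : a ∈ A) (hE : a ∈ E) :
    algebraMap Qb (Om M) a ∈ Rc M A E :=
  Subring.mem_map.2 ⟨a, ⟨hA, hE⟩, rfl⟩

theorem intCast_mem_Rc (n : ℤ) : ((n : Om M)) ∈ Rc M A E := by
  have h := mem_Rc_of_mem M A E (a := (n : Qb)) (intCast_mem A n) (intCast_mem E n)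
  rwa [map_intCast] at h

variable {A} in
/-- an integer prime to `ℓ` is a unit of `A` -/
theorem inv_intCast_mem {ℓ : ℕ} (hA : A.LiesOverPrime ℓ) (n : ℤ)
    (hn : IsCoprime n (ℓ : ℤ)) : ((n : Qb))⁻¹ ∈ A := by
  obtain ⟨a, b, hab⟩ := hn
  have hℓ : A.valuation ((ℓ : ℕ) : Qb) < 1 := A.mem_nonunits_iff.1 hA
  have hn1 : A.valuation (n : Qb) ≤ 1 := (A.valuation_le_one_iff _).2 (intCast_mem A n)
  have ha1 : A.valuation (a : Qb) ≤ 1 := (A.valuation_le_one_iff _).2 (intCast_mem A a)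
  have hb1 : A.valuation (b : Qb) ≤ 1 := (A.valuation_le_one_iff _).2 (intCast_mem A b)
  rcases hn1.lt_or_eq with hlt | heq
  · exfalso
    have e : (1 : Qb) = (a : Qb) * n + (b : Qb) * ((ℓ : ℕ) : Qb) := by
      have := congrArg (Int.cast : ℤ → Qb) hab
      push_cast at this
      rw [this]
    have h1 : A.valuation (1 : Qb) < 1 := by
      rw [e]
      refine lt_of_le_of_lt (A.valuation.map_add _ _) (max_lt ?_ ?_)
      · rw [map_mul]
        exact lt_of_le_of_lt (mul_le_of_le_one_left' ha1) hlt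
      · rw [map_mul]
        exact lt_of_le_of_lt (mul_le_of_le_one_left' hb1) hℓ
    rw [map_one] at h1
    exact lt_irrefl _ h1
  · rw [← A.valuation_le_one_iff, map_inv₀, heq, inv_one]

variable {A} in
theorem inv_intCast_mem_Rc {ℓ : ℕ} (hA : A.LiesOverPrime ℓ) (n : ℤ)
    (hn : IsCoprime n (ℓ : ℤ)) : ((n : Om M))⁻¹ ∈ Rc M A E := by
  have h := mem_Rc_of_mem M A E (a := ((n : Qb))⁻¹) (inv_intCast_mem hA n hn)
    (inv_mem (intCast_mem E n))
  rwa [map_inv₀, map_intCast] at h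

end Constants

/-! ### The three fields on constants, for `S = {0, n}` -/

section SFields

variable (M : ℕ) {A : ValuationSubring Qb} (E : IntermediateField ℚ Qb) {ℓ : ℕ}
  (hA : A.LiesOverPrime ℓ) (n : ℤ) (hn : IsCoprime n (ℓ : ℤ))
  (S : Finset (Om M)) (hS : ∀ s, s ∈ S ↔ s = 0 ∨ s = (n : Om M))

include hS in
theorem S_mem_of : ∀ s ∈ S, s ∈ Rc M A E := by
  intro s hs
  rcases (hS s).1 hs with rfl | rfl
  · exact zero_mem _
  · exact intCast_mem_Rc M A E n

include hA hn hS in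
theorem S_unit_of : ∀ s ∈ S, s ≠ 0 → s⁻¹ ∈ Rc M A E := by
  intro s hs hs0
  rcases (hS s).1 hs with rfl | rfl
  · exact absurd rfl hs0
  · exact inv_intCast_mem_Rc M E hA n hn

include hA hn hS in
theorem S_distinct_of : ∀ s ∈ S, ∀ t ∈ S, s ≠ t → (s - t)⁻¹ ∈ Rc M A E := by
  intro s hs t ht hst
  rcases (hS s).1 hs with rfl | rfl <;> rcases (hS t).1 ht with rfl | rfl
  · exact absurd rfl hst
  · rw [zero_sub, inv_neg]
    exact neg_mem (inv_intCast_mem_Rc M E hA n hn)
  · rw [sub_zero]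
    exact inv_intCast_mem_Rc M E hA n hn
  · exact absurd rfl hst

end SFields

/-! ### The field `unramified` -/

section Unramified

variable (M : ℕ) [NeZero M]

theorem jOm_eq_jF : jOm M = jF M := by
  apply Subtype.ext
  show coeffEmb Qb (qExpand ℚ 1 jq) = coeffEmb Kbar jq
  rw [qExpand_one_apply]

/-- the valuation-subring form of unramifiedness over `ℚ̄` for a coordinate `x` of `F_M` -/
theorem unramified_of (x : Om M) (n : ℤ) (S : Finset (Om M))
    (hS : ∀ s, s ∈ S ↔ s = 0 ∨ s = (n : Om M))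
    (h : ∀ c : Kbar, c ≠ 0 → c ≠ (n : Kbar) → ∀ v : Place Kbar (FF M),
      0 < v.ord (x - algebraMap Kbar (FF M) c) → v.ord (x - algebraMap Kbar (FF M) c) = 1) :
    ∀ O : ValuationSubring (Om M), (∀ a ∈ Lc M, a ∈ O) → ∀ c ∈ Lc M, c ∉ S →
      x - c ∈ O → (x - c)⁻¹ ∉ O → ∀ t ∈ O, t⁻¹ ∉ O → t * (x - c)⁻¹ ∈ O := by
  intro O hO c hc hcS hmem hinv t ht htinv
  obtain ⟨a, rfl⟩ := hc
  have ha0 : a ≠ 0 := by
    rintro rfl
    exact hcS ((hS _).2 (Or.inl (map_zero _)))
  have han : a ≠ (n : Kbar) := by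
    rintro rfl
    exact hcS ((hS _).2 (Or.inr (map_intCast _ n)))
  haveI := Lib.X0Branch.finiteDimensional_FF M
  exact unramified_of_ord (K := Kbar) (F := FF M) (Lib.RR.H864.transcendental_jF M) _
    (h a ha0 han) O (fun b => hO _ ⟨b, rfl⟩) hmem hinv t ht htinv

end Unramified

/-! ### Main theorem -/

/-- **G-BR**: the four branch fields of `Alg.GoodModel` for the concrete objects, for every
admissible coordinate and every intermediate field `E`. -/
theorem branchFields (M : ℕ) [NeZero M] {ℓ : ℕ} (hℓ : ℓ.Prime) (A : ValuationSubring Qb)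
    (hA : A.LiesOverPrime ℓ) (x : Om M) (S : Finset (Om M)) (hx : IsCoordinate M ℓ x S)
    (E : IntermediateField ℚ Qb) :
    (∀ s ∈ S, s ∈ Rc M A E) ∧
    (∀ s ∈ S, ∀ t ∈ S, s ≠ t → (s - t)⁻¹ ∈ Rc M A E) ∧
    (∀ s ∈ S, s ≠ 0 → s⁻¹ ∈ Rc M A E) ∧
    (∀ O : ValuationSubring (Om M), (∀ a ∈ Lc M, a ∈ O) → ∀ c ∈ Lc M, c ∉ S →
      x - c ∈ O → (x - c)⁻¹ ∉ O → ∀ t ∈ O, t⁻¹ ∉ O → t * (x - c)⁻¹ ∈ O) := by
  -- a uniform treatment: `S = {0, n}`, `n` prime to `ℓ`
  have key : ∀ n : ℤ, IsCoprime n (ℓ : ℤ) → (∀ s, s ∈ S ↔ s = 0 ∨ s = (n : Om M)) →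
      (∀ c : Kbar, c ≠ 0 → c ≠ (n : Kbar) → ∀ v : Place Kbar (FF M),
        0 < v.ord (x - algebraMap Kbar (FF M) c) → v.ord (x - algebraMap Kbar (FF M) c) = 1) →
      (∀ s ∈ S, s ∈ Rc M A E) ∧
      (∀ s ∈ S, ∀ t ∈ S, s ≠ t → (s - t)⁻¹ ∈ Rc M A E) ∧
      (∀ s ∈ S, s ≠ 0 → s⁻¹ ∈ Rc M A E) ∧
      (∀ O : ValuationSubring (Om M), (∀ a ∈ Lc M, a ∈ O) → ∀ c ∈ Lc M, c ∉ S →
        x - c ∈ O → (x - c)⁻¹ ∉ O → ∀ t ∈ O, t⁻¹ ∉ O → t * (x - c)⁻¹ ∈ O) :=
    fun n hn hS h => ⟨S_mem_of M E n S hS, S_distinct_of M E hA n hn S hS,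
      S_unit_of M E hA n hn S hS, unramified_of M x n S hS h⟩
  rcases hx with ⟨h5, rfl, hS⟩ | ⟨⟨h3, hid, hS⟩ | ⟨h2, hid, hS⟩, -⟩
  · -- `x = j`, `S = {0, 1728}`, `ℓ ≥ 5`
    have hcop : IsCoprime (1728 : ℤ) (ℓ : ℤ) := by
      have h2 : Nat.Coprime 2 ℓ := (Nat.coprime_primes Nat.prime_two hℓ).2 (by omega)
      have h3 : Nat.Coprime 3 ℓ := (Nat.coprime_primes Nat.prime_three hℓ).2 (by omega)
      have h : Nat.Coprime (2 ^ 6 * 3 ^ 3) ℓ :=
        Nat.Coprime.mul_left (Nat.Coprime.pow_left 6 h2) (Nat.Coprime.pow_left 3 h3)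
      have := Nat.isCoprime_iff_coprime.2 h
      simpa using this
    refine key 1728 hcop (fun s => by rw [hS s]; norm_num) ?_
    intro c hc0 hc1 v hv
    rw [jOm_eq_jF] at hv ⊢
    exact Lib.X0Branch.ord_sub_eq_one M c hc0 (by simpa using hc1) v hv
  · -- `x = t₂`, `S = {0, -64}`, `ℓ = 3`
    subst h3
    have hcop : IsCoprime (-64 : ℤ) ((3 : ℕ) : ℤ) := by
      rw [IsCoprime.neg_left_iff]
      have := Nat.isCoprime_iff_coprime.2 (by norm_num : Nat.Coprime 64 3)
      simpa using this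
    refine key (-64) hcop (fun s => by rw [hS s]; norm_num) ?_
    intro c hc0 hc1 v hv
    rw [jOm_eq_jF] at hid
    exact H558.ord_t2_sub_eq_one M x hid c hc0 (by simpa using hc1) v hv
  · -- `x = t₃`, `S = {0, -27}`, `ℓ = 2`
    subst h2
    have hcop : IsCoprime (-27 : ℤ) ((2 : ℕ) : ℤ) := by
      rw [IsCoprime.neg_left_iff]
      have := Nat.isCoprime_iff_coprime.2 (by norm_num : Nat.Coprime 27 2)
      simpa using this
    refine key (-27) hcop (fun s => by rw [hS s]; norm_num) ?_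
    intro c hc0 hc1 v hv
    rw [jOm_eq_jF] at hid
    exact H558.ord_t3_sub_eq_one M x hid c hc0 (by simpa using hc1) v hv

end Fermat.Agent.S18.H997

end
end
-- ===== PACK-END S18/H997/BranchField.lean

-- ===== PACK-BEGIN S18/H24/Branch.lean
section






/-!
# S18 / MOD (M2) — ramification of `F_N / ℚ̄(j)` in `Place` language  (helper24)

`F_N = modularFunctionFieldBar N = ℚ̄(j(q^d) : d ∣ N)`, `j = jF N`.  For a place `v` of `F_N/ℚ̄`:

* `ord_sub_eq_one`     : `a ≠ 0, 1728`, `0 < v.ord (j - a)`  ⟹  `v.ord (j - a) = 1`   (unramified);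
* `ord_zero_dvd`       : `0 < v.ord j`                      ⟹  `v.ord j ∣ 3`;
* `ord_1728_dvd`       : `0 < v.ord (j - 1728)`             ⟹  `v.ord (j - 1728) ∣ 2`;
* `ord_inv_dvd`        : `0 < v.ord j⁻¹`                    ⟹  `v.ord j⁻¹ ∣ N`;
* `finrank_eq_psi`     : `[F_N : ℚ̄(j)] = ψ(N)`.

So `F_N/ℚ̄(j)` is tamely ramified, with branch values in `{0, 1728, ∞}` and ramification indices
dividing `3`, `2`, `N` respectively.  Source: the `LocalData` of the S24 modular package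
(`H997.analyticCore`), helper117's local theorem and the relations `S² = (ST)³ = -1`,
`T^N ∈ Γ(N)`.
-/

set_option autoImplicit false

noncomputable section

open AlgebraicCurve ModularCurve IntermediateField
open scoped MatrixGroups

namespace Fermat.Agent.S18.H24

open Fermat.Agent.S24

variable (N : ℕ) [NeZero N]

/-- `[F_N : ℚ̄(j)]` is finite. -/
instance finiteDimensional_FF :
    FiniteDimensional ↥(IntermediateField.adjoin Kbar {jF N}) (FF N) :=
  (Deg457.degree_fields N).1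

theorem finrank_eq_card :
    Module.finrank ↥(IntermediateField.adjoin Kbar {jF N}) (FF N) = Nat.card (XX N) := by
  obtain ⟨hfd, hle⟩ := Deg457.degree_fields N
  obtain ⟨_, _, h1, -⟩ := (H997.analyticCore N).modularPackage_fields hfd hle
  exact h1

/-- `[F_N : ℚ̄(j)] = ψ(N)`. -/
theorem finrank_eq_psi :
    Module.finrank ↥(IntermediateField.adjoin Kbar {jF N}) (FF N) = dedekindPsi N := by
  rw [finrank_eq_card, card_XX]

instance finite_XX : Finite (XX N) := by
  apply Nat.finite_of_card_ne_zero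
  rw [← finrank_eq_card]
  exact Module.finrank_pos.ne'

section Generic

variable {N}
variable {t : FF N} (L : LocalData Kbar (FF N) ℂ (XX N) t)

/-- General principle: if `perm ^ k = 1` then every ramification index over `t = 0`
divides `k`. -/
theorem ord_dvd_of_perm_pow (hE : IntermediateField.adjoin Kbar {jF N} ≤ Kbar⟮t⟯) (k : ℕ)
    (hk : L.perm ^ k = 1) (v : Place Kbar (FF N)) (hv : 0 < v.ord t) : v.ord t ∣ (k : ℤ) := by
  obtain ⟨x, rfl⟩ := H117.exists_placeOf_eq L (IntermediateField.adjoin Kbar {jF N}) hE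
    (finrank_eq_card N) v hv
  exact H117.ord_t_dvd_of_pow_apply_eq L x k (by rw [hk]; rfl)

end Generic

theorem adjoin_le_sub (a : Kbar) :
    IntermediateField.adjoin Kbar {jF N} ≤ Kbar⟮jF N - algebraMap Kbar (FF N) a⟯ := by
  rw [IntermediateField.adjoin_simple_le_iff]
  have h1 : jF N - algebraMap Kbar (FF N) a ∈ Kbar⟮jF N - algebraMap Kbar (FF N) a⟯ :=
    IntermediateField.mem_adjoin_simple_self _ _
  have h2 : algebraMap Kbar (FF N) a ∈ Kbar⟮jF N - algebraMap Kbar (FF N) a⟯ :=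
    IntermediateField.algebraMap_mem _ a
  have := add_mem h1 h2
  rwa [sub_add_cancel] at this

theorem adjoin_le_inv : IntermediateField.adjoin Kbar {jF N} ≤ Kbar⟮(jF N)⁻¹⟯ := by
  rw [IntermediateField.adjoin_simple_le_iff]
  have h1 : (jF N)⁻¹ ∈ Kbar⟮(jF N)⁻¹⟯ := IntermediateField.mem_adjoin_simple_self _ _
  have := inv_mem h1
  rwa [inv_inv] at this

/-! ### the permutations of the concrete local data -/

theorem permOf_pow (g : SL(2, ℤ)) (k : ℕ) : (permOf N g) ^ k = permOf N (g ^ k) :=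
  (map_pow (MulAction.toPermHom SL(2, ℤ) (XX N)) g k).symm

theorem permOf_neg_one : permOf N (-1) = 1 := by
  ext x
  exact Fermat.Agent.S20.Comb.neg_one_smul_quotient N x

theorem permOf_one' : permOf N 1 = 1 := by
  ext x
  simp [permOf]

theorem dataFin_perm_zero :
    ((H997.analyticCore N).dataFin 0).perm = permOf N (ModularGroup.S * ModularGroup.T)⁻¹ := by
  unfold H997.AnalyticCore.dataFin
  rw [dif_pos rfl]
  rfl

theorem dataFin_perm_1728 :
    ((H997.analyticCore N).dataFin 1728).perm = permOf N ModularGroup.S⁻¹ := by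
  have h0 : (1728 : Kbar) ≠ 0 := by norm_num
  unfold H997.AnalyticCore.dataFin
  rw [dif_neg h0, dif_pos rfl]
  rfl

theorem dataInf_perm : (H997.analyticCore N).dataInf.perm = permOf N ModularGroup.T⁻¹ := rfl

theorem perm_zero_pow : ((H997.analyticCore N).dataFin 0).perm ^ 3 = 1 := by
  rw [dataFin_perm_zero, permOf_pow, inv_pow, Fermat.Agent.S20.Comb.ST_pow_three]
  have : ((-1 : SL(2, ℤ)))⁻¹ = -1 := by
    rw [inv_eq_iff_eq_inv, eq_inv_iff_mul_eq_one]
    simp
  rw [this, permOf_neg_one]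

theorem perm_1728_pow : ((H997.analyticCore N).dataFin 1728).perm ^ 2 = 1 := by
  rw [dataFin_perm_1728, permOf_pow, inv_pow, Fermat.Agent.S20.Comb.S_pow_two]
  have : ((-1 : SL(2, ℤ)))⁻¹ = -1 := by
    rw [inv_eq_iff_eq_inv, eq_inv_iff_mul_eq_one]
    simp
  rw [this, permOf_neg_one]

/-- `T ^ N` acts trivially on `SL₂(ℤ)/Γ₀(N)`. -/
theorem permOf_T_pow : permOf N (ModularGroup.T ^ N) = 1 := by
  ext x
  obtain ⟨g, rfl⟩ := QuotientGroup.mk_surjective x
  show (ModularGroup.T ^ N) • (QuotientGroup.mk g : SL(2, ℤ) ⧸ CongruenceSubgroup.Gamma0 N) = _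
  rw [Equiv.Perm.one_apply, Fermat.Agent.S20.Comb.smul_mk_eq_mk_iff]
  have hT : ((ModularGroup.T ^ N : SL(2, ℤ)) : Matrix (Fin 2) (Fin 2) ℤ) = !![1, (N : ℤ); 0, 1] := by
    have := ModularGroup.coe_T_zpow (N : ℤ)
    rw [zpow_natCast] at this
    exact this
  have h00 : ((ModularGroup.T ^ N * g : SL(2, ℤ)) 0 0 : ℤ) = g 0 0 + N * g 1 0 := by
    rw [Matrix.SpecialLinearGroup.coe_mul, hT, Matrix.mul_apply, Fin.sum_univ_two]
    simp
  have h10 : ((ModularGroup.T ^ N * g : SL(2, ℤ)) 1 0 : ℤ) = g 1 0 := by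
    rw [Matrix.SpecialLinearGroup.coe_mul, hT, Matrix.mul_apply, Fin.sum_univ_two]
    simp
  rw [h00, h10]
  push_cast
  simp
  ring

theorem perm_inf_pow : (H997.analyticCore N).dataInf.perm ^ N = 1 := by
  rw [dataInf_perm, permOf_pow, inv_pow, ← permOf_one' N]
  have h : permOf N ((ModularGroup.T ^ N)⁻¹) = (permOf N (ModularGroup.T ^ N))⁻¹ := by
    ext x
    simp [permOf]
  rw [h, permOf_T_pow, inv_one, permOf_one']

/-! ### the ramification statements -/

/-- **Unramified outside `0, 1728, ∞`.** -/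
theorem ord_sub_eq_one (a : Kbar) (h0 : a ≠ 0) (h1 : a ≠ 1728) (v : Place Kbar (FF N))
    (hv : 0 < v.ord (jF N - algebraMap Kbar (FF N) a)) :
    v.ord (jF N - algebraMap Kbar (FF N) a) = 1 := by
  have hperm : ((H997.analyticCore N).dataFin a).perm ^ 1 = 1 := by
    rw [pow_one]
    exact (H997.analyticCore N).dataFin_perm_generic a h0 h1
  have h := ord_dvd_of_perm_pow ((H997.analyticCore N).dataFin a) (adjoin_le_sub N a) 1 hperm v hv
  have h2 : v.ord (jF N - algebraMap Kbar (FF N) a) ≤ 1 := Int.le_of_dvd one_pos (by simpa using h)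
  omega

/-- Over `j = 0` the ramification indices divide `3`. -/
theorem ord_zero_dvd (v : Place Kbar (FF N)) (hv : 0 < v.ord (jF N)) : v.ord (jF N) ∣ 3 := by
  have hv' : 0 < v.ord (jF N - algebraMap Kbar (FF N) 0) := by rwa [map_zero, sub_zero]
  have h := ord_dvd_of_perm_pow ((H997.analyticCore N).dataFin 0) (adjoin_le_sub N 0) 3
    (perm_zero_pow N) v hv'
  rw [map_zero, sub_zero] at h
  exact_mod_cast h

/-- Over `j = 1728` the ramification indices divide `2`. -/
theorem ord_1728_dvd (v : Place Kbar (FF N))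
    (hv : 0 < v.ord (jF N - algebraMap Kbar (FF N) 1728)) :
    v.ord (jF N - algebraMap Kbar (FF N) 1728) ∣ 2 := by
  have h := ord_dvd_of_perm_pow ((H997.analyticCore N).dataFin 1728) (adjoin_le_sub N 1728) 2
    (perm_1728_pow N) v hv
  exact_mod_cast h

/-- Over `j = ∞` the ramification indices divide `N`. -/
theorem ord_inv_dvd (v : Place Kbar (FF N)) (hv : 0 < v.ord (jF N)⁻¹) :
    v.ord (jF N)⁻¹ ∣ (N : ℤ) :=
  ord_dvd_of_perm_pow (H997.analyticCore N).dataInf (adjoin_le_inv N) N (perm_inf_pow N) v hv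

end Fermat.Agent.S18.H24

end
end
-- ===== PACK-END S18/H24/Branch.lean

-- ===== PACK-BEGIN S18/H107/BranchConcrete.lean
section







/-!
# helper107 — S18 / node_mod, G-BR : the branch data of the `j`-line at the CONCRETE objects

`branchJ_concrete107 M : BranchJ107 (Mod.Lc M) (Mod.jOm M)` — in valuation-subring language over
`Ω = Om M = F_M`:  `F_M / ℚ̄(j)` is unramified outside `0, 1728, ∞`, with `ord ≤ 3` over `0` and
`ord ≤ 2` over `1728`.

Adapter from the `Place`-language results on main (`H24.ord_sub_eq_one`, `ord_zero_dvd`,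
`ord_1728_dvd`) via `H504.placeOfValuationSubring` (a valuation subring of `F_M` containing `ℚ̄`
with a nonzero non-unit is a `Place`).

Consequences: `unramified_j_concrete107` (= field `unramified` of `Alg.GoodModel` for `x = j`,
`S = {0, 1728}`), and, through `unramified_t2_107` / `unramified_t3_107`, the field `unramified`
for the Hauptmodul coordinates.
-/

set_option autoImplicit false

noncomputable section

namespace Fermat.Agent.S18.H107

open AlgebraicCurve ModularCurve IntermediateField HahnSeries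
open Fermat.Agent.S18 Fermat.Agent.S18.Mod Fermat.Agent.S24 Fermat.Agent.Lib.RR

variable (M : ℕ) [NeZero M]

theorem jOm_eq_jF107 : jOm M = jF M := by
  apply Subtype.ext
  show coeffEmb Qb (qExpand ℚ 1 jq) = coeffEmb Kbar jq
  rw [qExpand_one_apply]

variable {M}

omit [NeZero M] in
theorem algebraMap_mem_of_Lc107 {O : ValuationSubring (Om M)} (hL : ∀ a ∈ Lc M, a ∈ O)
    (a : Qb) : algebraMap Qb (Om M) a ∈ O :=
  hL _ ⟨a, rfl⟩

omit [NeZero M] in
/-- A bound on `ord` at the place defined by `O` gives `OrdLe107`. -/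
theorem ordLe_of_place107 (v : Place Qb (Om M)) {y : Om M} (hy0 : y ≠ 0) (k : ℕ)
    (hk : v.ord y ≤ k) : OrdLe107 v.toValuationSubring y k := by
  intro s hs hs'
  have hs0 : s ≠ 0 := by
    rintro rfl
    exact hs' (by rw [inv_zero]; exact v.toValuationSubring.zero_mem)
  have h1 : 0 ≤ v.ord s := ord_nonneg_of_mem v hs
  have h2 : ¬ 0 ≤ v.ord s⁻¹ := fun h => hs' (mem_of_ord_nonneg v h)
  rw [v.ord_inv] at h2
  have h3 : 1 ≤ v.ord s := by omega
  apply mem_of_ord_nonneg v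
  rw [v.ord_mul (pow_ne_zero _ hs0) (inv_ne_zero hy0), ord_pow, v.ord_inv]
  have h4 : (k : ℤ) * 1 ≤ (k : ℤ) * v.ord s := by
    apply mul_le_mul_of_nonneg_left h3
    exact_mod_cast Nat.zero_le k
  omega

omit [NeZero M] in
/-- positivity of `ord` at the place of a valuation ring, for a non-unit. -/
theorem ord_pos_of_nonunit107 (v : Place Qb (Om M)) {y : Om M} (hy : y ∈ v.toValuationSubring)
    (hy' : y⁻¹ ∉ v.toValuationSubring) : 0 < v.ord y := by
  have h1 : 0 ≤ v.ord y := ord_nonneg_of_mem v hy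
  have h2 : ¬ 0 ≤ v.ord y⁻¹ := fun h => hy' (mem_of_ord_nonneg v h)
  rw [v.ord_inv] at h2
  omega

omit [NeZero M] in
theorem ne_zero_of_inv_not_mem107 {O : ValuationSubring (Om M)} {y : Om M} (hy' : y⁻¹ ∉ O) :
    y ≠ 0 := by
  rintro rfl
  exact hy' (by rw [inv_zero]; exact O.zero_mem)

variable (M)

/-- **G-BR, branch data of the `j`-line** at the concrete objects. -/
theorem branchJ_concrete107 : BranchJ107 (Lc M) (jOm M) := by
  haveI : FiniteDimensional Kbar⟮jF M⟯ (FF M) := H24.finiteDimensional_FF M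
  refine ⟨?_, ?_, ?_⟩
  · rintro O hL _ ⟨a, rfl⟩ ha0 ha1728 hz hz'
    have ha0' : a ≠ 0 := fun h => ha0 (by rw [h, map_zero])
    have ha1728' : a ≠ 1728 := fun h => ha1728 (by rw [h, map_ofNat])
    rw [jOm_eq_jF107] at hz hz' ⊢
    haveI : FiniteDimensional Kbar⟮jF M - algebraMap Kbar (FF M) a⟯ (FF M) :=
      FF.finiteDimensional_adjoin_sub_const (jF M) a
    set v : Place Kbar (FF M) :=
      H504.placeOfValuationSubring O (algebraMap_mem_of_Lc107 hL) hz hz' with hv
    have hpos : 0 < v.ord (jF M - algebraMap Kbar (FF M) a) := ord_pos_of_nonunit107 v hz hz'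
    have h1 := H24.ord_sub_eq_one M a ha0' ha1728' v hpos
    exact ordLe_of_place107 v (ne_zero_of_inv_not_mem107 hz') 1 (by rw [h1]; norm_num)
  · intro O hL hz hz'
    rw [jOm_eq_jF107] at hz hz' ⊢
    set v : Place Kbar (FF M) :=
      H504.placeOfValuationSubring O (algebraMap_mem_of_Lc107 hL) hz hz' with hv
    have hpos : 0 < v.ord (jF M) := ord_pos_of_nonunit107 v hz hz'
    have h1 := H24.ord_zero_dvd M v hpos
    exact ordLe_of_place107 v (ne_zero_of_inv_not_mem107 hz') 3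
      (Int.le_of_dvd (by norm_num) h1)
  · intro O hL hz hz'
    rw [jOm_eq_jF107] at hz hz' ⊢
    have e : (1728 : FF M) = algebraMap Kbar (FF M) 1728 := by rw [map_ofNat]
    rw [e] at hz hz' ⊢
    haveI : FiniteDimensional Kbar⟮jF M - algebraMap Kbar (FF M) 1728⟯ (FF M) :=
      FF.finiteDimensional_adjoin_sub_const (jF M) 1728
    set v : Place Kbar (FF M) :=
      H504.placeOfValuationSubring O (algebraMap_mem_of_Lc107 hL) hz hz' with hv
    have hpos : 0 < v.ord (jF M - algebraMap Kbar (FF M) 1728) :=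
      ord_pos_of_nonunit107 v hz hz'
    have h1 := H24.ord_1728_dvd M v hpos
    exact ordLe_of_place107 v (ne_zero_of_inv_not_mem107 hz') 2
      (Int.le_of_dvd (by norm_num) h1)

/-- The field `unramified` of `Alg.GoodModel` for `x = j`, `S = {0, 1728}`. -/
theorem unramified_j_concrete107 (S : Finset (Om M)) (hS : ∀ s, s ∈ S ↔ s = 0 ∨ s = 1728) :
    ∀ O : ValuationSubring (Om M), (∀ a ∈ Lc M, a ∈ O) → ∀ c ∈ Lc M, c ∉ S →
      jOm M - c ∈ O → (jOm M - c)⁻¹ ∉ O → ∀ t ∈ O, t⁻¹ ∉ O → t * (jOm M - c)⁻¹ ∈ O := by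
  intro O hL c hc hcS hz hz'
  rw [← OrdLe107.one_iff]
  exact (branchJ_concrete107 M).generic O hL c hc (fun h => hcS ((hS c).2 (Or.inl h)))
    (fun h => hcS ((hS c).2 (Or.inr h))) hz hz'

end Fermat.Agent.S18.H107

end
end
-- ===== PACK-END S18/H107/BranchConcrete.lean

-- ===== PACK-BEGIN S18/H107/M3T.lean
section






/-!
# helper107 — S18 / node_mod, piece M3-T at the CONCRETE objects of `Mod/Defs.lean`

`goodModel_of_isCoordinate107` : for `ℓ ∈ {2, 3}` (`¬ 5 ≤ ℓ`), every admissible coordinate `x`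
(`Mod.IsCoordinate M ℓ x S`), every intermediate field `E` and every `V`, `w`:

    BaseModel107 (Lc M) (Ec M E) (Fc M E) (Rc M A E) V w (jOm M)      -- the j-model minus S-fields
    + x ∈ Fc M E + x ∈ V + gauss for x
    ⟹  Alg.GoodModel (Lc M) (Ec M E) (Fc M E) (Rc M A E) V w x S.

The branch data (`branchJ_concrete107`) and the units `2⁻¹` resp. `3⁻¹ ∈ Rc M A E` are proved here.
-/

set_option autoImplicit false

noncomputable section

namespace Fermat.Agent.S18.H107

open AlgebraicCurve ModularCurve IntermediateField HahnSeries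
open Fermat.Agent.S18 Fermat.Agent.S18.Mod Fermat.Agent.S18.Alg

/-- If `A` lies over `ℓ` and `n ≡ 1 mod ℓ`-like: `n = ℓ * k + 1` then `n` is a unit of `A`.
We only need: `ℓ ∈ 𝔪_A`, `n - 1 ∈ ℓ ℤ` ⟹ `n⁻¹ ∈ A`. -/
theorem inv_natCast_mem_of_liesOver107 {L : Type*} [Field L] (A : ValuationSubring L) {ℓ : ℕ}
    (hA : A.LiesOverPrime ℓ) (n k : ℕ) (hn : n = ℓ * k + 1) : ((n : L))⁻¹ ∈ A := by
  have hℓ : A.valuation (ℓ : L) < 1 := by
    have h : (ℓ : L) ∈ A.nonunits := hA
    exact (A.mem_nonunits_iff).1 h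
  have hk : A.valuation ((ℓ : L) * (k : L)) < 1 := by
    rw [map_mul]
    calc A.valuation (ℓ : L) * A.valuation (k : L) ≤ A.valuation (ℓ : L) * 1 := by
          gcongr
          exact (A.valuation_le_one_iff _).2 (_root_.natCast_mem A k)
      _ = A.valuation (ℓ : L) := mul_one _
      _ < 1 := hℓ
  have hval : A.valuation (n : L) = 1 := by
    have e : (n : L) = 1 + (ℓ : L) * (k : L) := by
      rw [hn]
      push_cast
      ring
    rw [e, ← map_one A.valuation]
    exact Valuation.map_add_eq_of_lt_left _ (by rw [map_one]; exact hk)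
  refine (A.valuation_le_one_iff _).1 ?_
  rw [map_inv₀, hval, inv_one]

variable (M : ℕ)

theorem inv_natCast_mem_Rc107 (A : ValuationSubring Qb) (E : IntermediateField ℚ Qb) {ℓ : ℕ}
    (hA : A.LiesOverPrime ℓ) (n k : ℕ) (hn : n = ℓ * k + 1) :
    ((n : Om M))⁻¹ ∈ Rc M A E := by
  refine ⟨((n : Qb))⁻¹, ⟨inv_natCast_mem_of_liesOver107 A hA n k hn, ?_⟩, ?_⟩
  · exact E.toSubfield.inv_mem (_root_.natCast_mem E.toSubfield n)
  · rw [map_inv₀, map_natCast]

variable [NeZero M]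

/-- **M3-T, concrete form.** -/
theorem goodModel_of_isCoordinate107 {ℓ : ℕ} (A : ValuationSubring Qb) (hA : A.LiesOverPrime ℓ)
    (h5 : ¬ 5 ≤ ℓ) {x : Om M} {S : Finset (Om M)} (hx : IsCoordinate M ℓ x S)
    (E : IntermediateField ℚ Qb) {V : Subring (Om M)} {w : Om M}
    (hb : BaseModel107 (Lc M) (Ec M E) (Fc M E) (Rc M A E) V w (jOm M))
    (hxF : x ∈ Fc M E) (hxV : x ∈ V)
    (hgauss : ∀ P : Polynomial (Om M), (∀ i, P.coeff i ∈ Rc M A E) →
      (∃ i, P.coeff i ≠ 0 ∧ (P.coeff i)⁻¹ ∈ Rc M A E) → (P.eval x)⁻¹ ∈ V) :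
    GoodModel (Lc M) (Ec M E) (Fc M E) (Rc M A E) V w x S := by
  rcases hx with ⟨h, -⟩ | ⟨h | h, -⟩
  · exact absurd h h5
  · obtain ⟨hℓ, hrel, hS⟩ := h
    subst hℓ
    have h2 : (2 : Om M)⁻¹ ∈ Rc M A E := by
      have h4 := inv_natCast_mem_Rc107 M A E hA 4 1 (by norm_num)
      have e : (2 : Om M)⁻¹ = 2 * ((4 : ℕ) : Om M)⁻¹ := by
        push_cast
        norm_num
      rw [e]
      exact (Rc M A E).mul_mem (ofNat_mem _ 2) h4
    exact goodModel_t2_107 hb (branchJ_concrete107 M) hrel hxF hxV h2 hgauss hS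
  · obtain ⟨hℓ, hrel, hS⟩ := h
    subst hℓ
    have h3 : (3 : Om M)⁻¹ ∈ Rc M A E := by
      have := inv_natCast_mem_Rc107 M A E hA 3 1 (by norm_num)
      simpa using this
    exact goodModel_t3_107 hb (branchJ_concrete107 M) hrel hxF hxV h3 hgauss hS

end Fermat.Agent.S18.H107

end
end
-- ===== PACK-END S18/H107/M3T.lean

-- ===== PACK-BEGIN S18/H24/NodeMod.lean
section










/-!
# S18 / node_mod — FINAL WIRING (helper24, MOD-ASM)

`node_mod : ¬ ℓ ∣ M → A.LiesOverPrime ℓ → Mod.GoodModelStatement M ℓ A`, the exact type of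
`Integ.node_mod` in helper18's skeleton v4c, assembled from the parts on main:

| part | source |
|---|---|
| G-R (DVR `A ∩ E`, uniformiser, perfect residue field) | `H456.ModR`, `H456.ModRes`, `H602.DVR` |
| G-FLD (fields, coordinate, finiteness)                | `H456.ModBasic/ModFields/ModCoord`, `H24.Finite` |
| G-V (Gauss valuation ring)                            | `H24.GaussFields` |
| G-QEP at `x = j`                                      | `Mod.H216.NodeJ` |
| G-SEP at `x = j`                                      | `H576.Sep` |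
| G-BR (all coordinates)                                | `H997.BranchField` |
| M3-T (transfer `j ↦ t₂, t₃`, `ℓ = 2, 3`)              | `H107.M3T` |
| family/directedness                                   | `Mod.H216.Family` |
-/

set_option autoImplicit false

noncomputable section

namespace Fermat.Agent.S18.H24

open ModularCurve AlgebraicCurve HahnSeries Fermat.Agent.S18 Fermat.Agent.S18.Mod

variable (M : ℕ) [NeZero M] {ℓ : ℕ} (A : ValuationSubring Qb) (E : IntermediateField ℚ Qb)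

/-- G-R at the concrete objects: a uniformiser of `A ∩ E` and the `R`-fields. -/
theorem exists_partR (hℓ : ℓ.Prime) (hA : A.LiesOverPrime ℓ) [FiniteDimensional ℚ E] :
    ∃ w : Om M, Mod.H216.PartR (Ec M E) (Rc M A E) w := by
  haveI : IsDiscreteValuationRing (H602.RE A E) :=
    H602.isDiscreteValuationRing_RE A E hℓ.ne_zero hA
  obtain ⟨w, hw⟩ := H456.exists_isUnif (M := M) (A := A) (E := E)
  exact ⟨w, H456.field_R_le M A E, H456.field_R_total M A E, hw.mem, hw.ne_zero, hw.inv_not_mem,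
    hw.gen, hw.discrete, H456.field_residue_perfect (M := M) A E hℓ hA hw⟩

/-- The `j`-model without the branch fields, for every `ℓ ∤ M` (also `ℓ = 2, 3`). -/
theorem baseModel_j [Fact ℓ.Prime] (hℓM : ¬ ℓ ∣ M) (hA : A.LiesOverPrime ℓ)
    [FiniteDimensional ℚ E] {w : Om M} (hR : Mod.H216.PartR (Ec M E) (Rc M A E) w) :
    H107.BaseModel107 (Lc M) (Ec M E) (Fc M E) (Rc M A E) (Mod.H216.Vc M A E) w (jOm M) := by
  have hℓ : ℓ.Prime := Fact.out
  have hV := gv_fields (M := M) (A := A) (E := E) (Mod.H216.Vc M A E) (Mod.H216.coe_Vc M A E)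
    hR.w_mem hR.w_ne_zero hR.w_inv_not_mem hR.w_gen hR.w_discrete (H456.hasIntExp_jOm M)
  have hQ := Mod.H216.partQepStatement_j A hℓM hA E inferInstance w hR
  exact
    { charZero := H456.field_charZero M
      R_le := hR.R_le
      R_total := hR.R_total
      w_mem := hR.w_mem
      w_ne_zero := hR.w_ne_zero
      w_inv_not_mem := hR.w_inv_not_mem
      w_gen := hR.w_gen
      w_discrete := hR.w_discrete
      residue_perfect := hR.residue_perfect
      E_le_L := H456.field_E_le_L M E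
      E_le_F := H456.field_E_le_F M E
      L_algebraic := H456.field_L_algebraic M E
      L_algClosed := H456.field_L_algClosed M
      E_closed_in_F := H456.field_E_closed_in_F M E
      compositum := H456.field_compositum M E
      x_mem := H456.mem_Fc_of_hasIntExp M E (H456.hasIntExp_jOm M)
      x_transcendental := H456.transcendental_of_hasIntExp M (H456.hasIntExp_jOm M)
      finite := field_finite_j M E
      V_le := hV.1
      V_total := hV.2.1
      R_le_V := hV.2.2.1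
      w_inv_not_mem_V := hV.2.2.2.2.1
      V_gen := hV.2.2.2.2.2.1
      x_mem_V := hV.2.2.2.1
      gauss := hV.2.2.2.2.2.2
      qep_fin := hQ.qep_fin
      qep_inf := hQ.qep_inf
      separable := H576.field_separable_subring M hℓ hℓM hA E (Mod.H216.Vc M A E)
        (Mod.H216.coe_Vc M A E) hR.w_mem hR.w_gen }

/-- `GoodAt` for every admissible coordinate. -/
theorem goodAt_of_isCoordinate [Fact ℓ.Prime] (hℓM : ¬ ℓ ∣ M) (hA : A.LiesOverPrime ℓ)
    {x : Om M} {S : Finset (Om M)} (hx : IsCoordinate M ℓ x S) : Mod.H216.GoodAt M A x S := by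
  have hℓ : ℓ.Prime := Fact.out
  intro E hE
  haveI := hE
  obtain ⟨w, hR⟩ := exists_partR M A E hℓ hA
  have hb := baseModel_j M A E hℓM hA hR
  refine ⟨Mod.H216.Vc M A E, w, Mod.H216.coe_Vc M A E, ?_⟩
  by_cases h5 : 5 ≤ ℓ
  · have hxj : x = jOm M := by
      rcases hx with ⟨-, h, -⟩ | ⟨h | h, -⟩
      · exact h
      · omega
      · omega
    have hB := H997.branchFields M hℓ A hA x S hx E
    subst hxj
    exact hb.toGoodModel S hB.1 hB.2.1 hB.2.2.1 hB.2.2.2
  · have hV := gv_fields_of_isCoordinate (M := M) (A := A) (E := E) (Mod.H216.Vc M A E)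
      (Mod.H216.coe_Vc M A E) hR.w_mem hR.w_ne_zero hR.w_inv_not_mem hR.w_gen hR.w_discrete hx
    exact H107.goodModel_of_isCoordinate107 M A hA h5 hx E hb (H456.field_x_mem M E hx)
      hV.2.2.2.1 hV.2.2.2.2.2.2

/-- **NODE MOD** (exact type of `Integ.node_mod`, skeleton v4c): the concrete objects at level
`M` form a good family, for every admissible coordinate. -/
theorem node_mod {ℓ : ℕ} [Fact ℓ.Prime] (hℓM : ¬ ℓ ∣ M)
    (A : ValuationSubring Qb) (hA : A.LiesOverPrime ℓ) : Mod.GoodModelStatement M ℓ A :=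
  Mod.H216.goodModelStatement_of_goodAt M ℓ A
    (fun _ _ hx => goodAt_of_isCoordinate M A hℓM hA hx)

end Fermat.Agent.S18.H24

end
end
-- ===== PACK-END S18/H24/NodeMod.lean

-- ===== PACK-BEGIN S18/H264/SepConcrete.lean
section






/-!
# S18 / G-SEP at the concrete objects (helper264)

The field `separable` of `Alg.GoodModel` for the concrete objects of `Mod/Defs.lean`
(`Rc M A E`, `VcSet M A E`, coordinate `jOm M`), for every subring `V` with underlying set
`VcSet M A E` and every uniformiser `w` of `Rc M A E`.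
-/

set_option autoImplicit false

noncomputable section

namespace Fermat.Agent.S18.H264

open ModularCurve AlgebraicCurve Polynomial Fermat.Agent.S18 Fermat.Agent.S18.Mod
open Fermat.Agent.S28

/-! ### (C1) the residue field of a valuation ring of `Q̄` over `ℓ` is algebraic over `𝔽_ℓ` -/

section ResAlg

variable (A : ValuationSubring Qb) (ℓ : ℕ) [hℓ : Fact ℓ.Prime]
  [Algebra (ZMod ℓ) (IsLocalRing.ResidueField A)]

theorem isAlgebraic_residue_zmod (c : IsLocalRing.ResidueField A) : IsAlgebraic (ZMod ℓ) c := by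
  obtain ⟨a, rfl⟩ := IsLocalRing.residue_surjective c
  have halgQ : IsAlgebraic ℚ (a : Qb) := (AlgebraicClosure.isAlgebraic ℚ).isAlgebraic _
  have halgZ : IsAlgebraic ℤ (a : Qb) := (IsFractionRing.isAlgebraic_iff ℤ ℚ Qb).mpr halgQ
  obtain ⟨p, hp0, hpa⟩ := halgZ
  have hq0 : p.primPart ≠ 0 := primPart_ne_zero p
  have hqa : aeval (a : Qb) p.primPart = 0 := aeval_primPart_eq_zero hp0 hpa
  have hqA : Polynomial.eval₂ (Int.castRingHom A) a p.primPart = 0 := by
    apply Subtype.ext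
    have h := Polynomial.hom_eval₂ p.primPart (Int.castRingHom A) A.subtype a
    rw [ZeroMemClass.coe_zero, ← hqa, aeval_def]
    have hc : (A.subtype).comp (Int.castRingHom A) = algebraMap ℤ Qb := RingHom.ext_int _ _
    rw [← hc]
    exact h
  refine ⟨p.primPart.map (Int.castRingHom (ZMod ℓ)), ?_, ?_⟩
  · intro h0
    have hdvd : Polynomial.C (ℓ : ℤ) ∣ p.primPart := by
      rw [C_dvd_iff_dvd_coeff]
      intro i
      have := congrArg (fun r => r.coeff i) h0
      simp only [coeff_map, coeff_zero, eq_intCast] at this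
      exact (ZMod.intCast_zmod_eq_zero_iff_dvd _ _).mp this
    have hu := (isPrimitive_iff_isUnit_of_C_dvd.mp (isPrimitive_primPart p)) _ hdvd
    have := Int.isUnit_iff.mp hu
    have h2 := hℓ.out.two_le
    omega
  · rw [aeval_def, Polynomial.eval₂_map]
    have hc : (algebraMap (ZMod ℓ) (IsLocalRing.ResidueField A)).comp (Int.castRingHom (ZMod ℓ)) =
        (IsLocalRing.residue A).comp (Int.castRingHom A) := RingHom.ext_int _ _
    rw [hc, ← Polynomial.hom_eval₂, hqA, map_zero]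

instance algebra_isAlgebraic_residue_zmod :
    Algebra.IsAlgebraic (ZMod ℓ) (IsLocalRing.ResidueField A) :=
  ⟨isAlgebraic_residue_zmod A ℓ⟩

end ResAlg

/-! ### (C2), (C3) the function field `F_k` is algebraic over `𝔽_ℓ(j̄)` -/

section FullAlg

variable {k : Type} [Field k] (ℓ : ℕ) [hℓ : Fact ℓ.Prime]

theorem evalAt_eq_eval₂RingHom {B : Type*} [CommRing B] (y : LaurentSeries B) :
    evalAt y = Polynomial.eval₂RingHom (Int.castRingHom (LaurentSeries B)) y := by
  refine Polynomial.ringHom_ext (fun n => ?_) ?_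
  · simp [evalAt]
  · simp [evalAt]

/-- Base change of the integrality equation of `j(q^d)` to `k((q))`. -/
theorem evalZZ_jd_eq_zero {N : ℕ} [NeZero N] (core : CoreData N k) (d : ℕ) [NeZero d]
    (hd : d ∣ N) :
    ∃ P : Polynomial (Polynomial ℤ), P.Monic ∧
      evalZZ (jqModC k) (qExpand k d (jqModC k)) P = 0 := by
  obtain ⟨P, hP, h0⟩ := core.integral d hd
  refine ⟨P, hP, ?_⟩
  rw [evalAt_eq_eval₂RingHom, ← evalZZ_apply] at h0
  have h := map_evalZZ (coeffMap (Int.castRingHom k)) (jqModC ℤ) (qExpand ℤ d (jqModC ℤ)) P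
  rw [h0, map_zero, coeffMap_qExpand, coeffMap_jqModC] at h
  exact h.symm

/-- `j(q^d)` is integral over `𝔽_ℓ(j̄)`. -/
theorem isIntegral_jd [Algebra (ZMod ℓ) (LaurentSeries k)] {N : ℕ} [NeZero N]
    (core : CoreData N k) (d : ℕ) [NeZero d] (hd : d ∣ N) :
    IsIntegral (IntermediateField.adjoin (ZMod ℓ) {jqModC k}) (qExpand k d (jqModC k)) := by
  obtain ⟨P, hP, h0⟩ := evalZZ_jd_eq_zero core d hd
  set J := IntermediateField.adjoin (ZMod ℓ) {jqModC k} with hJ
  set ψ : Polynomial ℤ →+* J := Polynomial.eval₂RingHom (Int.castRingHom J)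
    ⟨jqModC k, IntermediateField.mem_adjoin_simple_self _ _⟩ with hψ
  have hcomp : (algebraMap J (LaurentSeries k)).comp ψ =
      Polynomial.eval₂RingHom (Int.castRingHom (LaurentSeries k)) (jqModC k) := by
    refine Polynomial.ringHom_ext (fun n => ?_) ?_
    · simp [hψ]
    · simp [hψ]
  refine ⟨P.map ψ, hP.map _, ?_⟩
  rw [Polynomial.eval₂_map, hcomp, ← evalZZ_apply]
  exact h0

/-- Every element of `F_k = k(j(q^d) : d ∣ N)` is algebraic over `𝔽_ℓ(j̄)`. -/
theorem isAlgebraic_of_mem_fullC [Algebra (ZMod ℓ) k] [Algebra.IsAlgebraic (ZMod ℓ) k]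
    {N : ℕ} [NeZero N] (core : CoreData N k)
    {a : LaurentSeries k} (ha : a ∈ modularFunctionFieldFullC k N) :
    IsAlgebraic (IntermediateField.adjoin (ZMod ℓ) {jqModC k}) a := by
  set J := IntermediateField.adjoin (ZMod ℓ) {jqModC k} with hJ
  rw [← mem_algebraicClosure_iff]
  have hle : (modularFunctionFieldFullC k N).toSubfield ≤ (algebraicClosure J (LaurentSeries k)).toSubfield := by
    rw [modularFunctionFieldFullC, IntermediateField.adjoin_toSubfield, Subfield.closure_le]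
    rintro y (⟨c, rfl⟩ | ⟨d, hd0, hd, rfl⟩)
    · show algebraMap k (LaurentSeries k) c ∈ algebraicClosure J (LaurentSeries k)
      rw [mem_algebraicClosure_iff]
      obtain ⟨p, hp0, hpc⟩ := (Algebra.IsAlgebraic.isAlgebraic c : IsAlgebraic (ZMod ℓ) c)
      refine ⟨p.map (algebraMap (ZMod ℓ) J), (Polynomial.map_ne_zero_iff
        (algebraMap (ZMod ℓ) J).injective).mpr hp0, ?_⟩
      rw [aeval_def, Polynomial.eval₂_map]
      have hc : (algebraMap J (LaurentSeries k)).comp (algebraMap (ZMod ℓ) J) =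
          (algebraMap k (LaurentSeries k)).comp (algebraMap (ZMod ℓ) k) := RingHom.ext_zmod _ _
      rw [hc, ← Polynomial.hom_eval₂, ← aeval_def, hpc, map_zero]
    · show qExpand k d (jqModC k) ∈ algebraicClosure J (LaurentSeries k)
      rw [mem_algebraicClosure_iff']
      have := hd0
      exact isIntegral_jd ℓ core d hd
  exact hle ha

end FullAlg

/-! ### (C4) the reduction relation on the Gauss valuation ring -/

section RedRel

variable (M : ℕ) (A : ValuationSubring Qb) (E : IntermediateField ℚ Qb)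

/-- Reduction of series modulo the maximal ideal of `A`. -/
abbrev redS : LaurentSeries A →+* LaurentSeries (IsLocalRing.ResidueField A) :=
  coeffMap (IsLocalRing.residue A)

/-- Inclusion `A((q)) → Q̄((q))`. -/
abbrev inclS : LaurentSeries A →+* LaurentSeries Qb := coeffMap A.subtype

/-- The coercion `Ω = F_M → Q̄((q))` as a ring homomorphism. -/
def omValH : Om M →+* LaurentSeries Qb := (modularFunctionFieldBar M).val.toRingHom

@[simp] theorem omValH_apply (f : Om M) : omValH M f = (f : LaurentSeries Qb) := rfl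

/-- Series over `Q̄` all of whose coefficients lie in `E`. -/
def coeffsInE : Subring (LaurentSeries Qb) where
  carrier := {U | ∀ n : ℤ, U.coeff n ∈ E}
  zero_mem' := fun n => by simp
  one_mem' := fun n => by
    rw [HahnSeries.coeff_one]
    split_ifs
    · exact one_mem _
    · exact zero_mem _
  add_mem' := fun {a b} ha hb n => by
    rw [HahnSeries.coeff_add]
    exact add_mem (ha n) (hb n)
  neg_mem' := fun {a} ha n => by
    rw [HahnSeries.coeff_neg]
    exact neg_mem (ha n)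
  mul_mem' := fun {a b} ha hb n => by
    rw [HahnSeries.coeff_mul]
    exact sum_mem fun ij _ => mul_mem (ha _) (hb _)

/-- The subring of `A((q))` cut out by `IsIntE`. -/
def intESub : Subring (LaurentSeries A) :=
  (coeffsInE E).comap (inclS A) ⊓ ((Fc M E).toSubring.map (omValH M)).comap (inclS A)

theorem mem_intESub {U : LaurentSeries A} : U ∈ intESub M A E ↔ IsIntE M A E U := by
  constructor
  · rintro ⟨h1, f, hf, hfU⟩
    exact ⟨fun n => h1 n, f, hf, hfU⟩
  · rintro ⟨h1, f, hf, hfU⟩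
    exact ⟨fun n => h1 n, f, hf, hfU⟩

/-- The reduction relation: `(g, ḡ) ∈ redRel` iff `g = U₁/U₂` and `ḡ = Ū₁/Ū₂` for `E`-rational
integral series `U₁, U₂` in `Fc` with `Ū₂ ≠ 0`. -/
def redRel : Subring (Om M × LaurentSeries (IsLocalRing.ResidueField A)) where
  carrier := {z | z.1 ∈ Fc M E ∧ ∃ U₁ U₂ : LaurentSeries A, U₁ ∈ intESub M A E ∧
    U₂ ∈ intESub M A E ∧ redS A U₂ ≠ 0 ∧
    (z.1 : LaurentSeries Qb) * inclS A U₂ = inclS A U₁ ∧ z.2 * redS A U₂ = redS A U₁}
  zero_mem' := by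
    refine ⟨zero_mem _, 0, 1, zero_mem _, one_mem _, ?_, ?_, ?_⟩
    · rw [map_one]; exact one_ne_zero
    · simp
    · simp
  one_mem' := by
    refine ⟨one_mem _, 1, 1, one_mem _, one_mem _, ?_, ?_, ?_⟩
    · rw [map_one]; exact one_ne_zero
    · simp
    · simp
  add_mem' := by
    rintro ⟨f, a⟩ ⟨g, b⟩ ⟨hf, U₁, U₂, h₁, h₂, hne, heq, hred⟩ ⟨hg, W₁, W₂, k₁, k₂, kne, keq, kred⟩
    refine ⟨add_mem hf hg, U₁ * W₂ + W₁ * U₂, U₂ * W₂, add_mem (mul_mem h₁ k₂) (mul_mem k₁ h₂),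
      mul_mem h₂ k₂, ?_, ?_, ?_⟩
    · rw [map_mul]; exact mul_ne_zero hne kne
    · simp only [Prod.fst_add] at heq keq ⊢
      push_cast
      rw [map_add, map_mul, map_mul, map_mul, ← heq, ← keq]
      ring
    · simp only [Prod.snd_add] at hred kred ⊢
      rw [map_add, map_mul, map_mul, map_mul, ← hred, ← kred]
      ring
  neg_mem' := by
    rintro ⟨f, a⟩ ⟨hf, U₁, U₂, h₁, h₂, hne, heq, hred⟩
    refine ⟨neg_mem hf, -U₁, U₂, neg_mem h₁, h₂, hne, ?_, ?_⟩
    · simp only [Prod.fst_neg] at heq ⊢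
      push_cast
      rw [map_neg, ← heq]
      ring
    · simp only [Prod.snd_neg] at hred ⊢
      rw [map_neg, ← hred]
      ring
  mul_mem' := by
    rintro ⟨f, a⟩ ⟨g, b⟩ ⟨hf, U₁, U₂, h₁, h₂, hne, heq, hred⟩ ⟨hg, W₁, W₂, k₁, k₂, kne, keq, kred⟩
    refine ⟨mul_mem hf hg, U₁ * W₁, U₂ * W₂, mul_mem h₁ k₁, mul_mem h₂ k₂, ?_, ?_, ?_⟩
    · rw [map_mul]; exact mul_ne_zero hne kne
    · simp only [Prod.fst_mul] at heq keq ⊢
      push_cast
      rw [map_mul, map_mul, ← heq, ← keq]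
      ring
    · simp only [Prod.snd_mul] at hred kred ⊢
      rw [map_mul, map_mul, ← hred, ← kred]
      ring

theorem mem_redRel {g : Om M} {a : LaurentSeries (IsLocalRing.ResidueField A)} :
    (g, a) ∈ redRel M A E ↔ g ∈ Fc M E ∧ ∃ U₁ U₂ : LaurentSeries A, U₁ ∈ intESub M A E ∧
      U₂ ∈ intESub M A E ∧ redS A U₂ ≠ 0 ∧
      (g : LaurentSeries Qb) * inclS A U₂ = inclS A U₁ ∧ a * redS A U₂ = redS A U₁ := Iff.rfl

/-- (R2) every element of the Gauss valuation ring has a reduction. -/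
theorem exists_red_of_mem_VcSet {f : Om M} (hf : f ∈ VcSet M A E) :
    ∃ a, (f, a) ∈ redRel M A E := by
  obtain ⟨hfF, U₁, U₂, h₁, h₂, hne, heq⟩ := hf
  refine ⟨redS A U₁ * (redS A U₂)⁻¹, hfF, U₁, U₂, (mem_intESub M A E).mpr h₁,
    (mem_intESub M A E).mpr h₂, hne, heq, ?_⟩
  rw [mul_assoc, inv_mul_cancel₀ hne, mul_one]

theorem mem_VcSet_of_mem_redRel {g : Om M} {a : LaurentSeries (IsLocalRing.ResidueField A)}
    (h : (g, a) ∈ redRel M A E) : g ∈ VcSet M A E := by
  obtain ⟨hgF, U₁, U₂, h₁, h₂, hne, heq, -⟩ := h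
  exact ⟨hgF, U₁, U₂, (mem_intESub M A E).mp h₁, (mem_intESub M A E).mp h₂, hne, heq⟩

/-- (R4) an element with nonzero reduction is a unit of the Gauss valuation ring. -/
theorem inv_mem_VcSet_of_red_ne_zero {g : Om M}
    {a : LaurentSeries (IsLocalRing.ResidueField A)} (h : (g, a) ∈ redRel M A E) (ha : a ≠ 0) :
    g ≠ 0 ∧ g⁻¹ ∈ VcSet M A E := by
  obtain ⟨hgF, U₁, U₂, h₁, h₂, hne, heq, hred⟩ := h
  have hne₁ : redS A U₁ ≠ 0 := by
    rw [← hred]
    exact mul_ne_zero ha hne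
  have hg0 : g ≠ 0 := by
    rintro rfl
    apply hne₁
    have h0 : inclS A U₁ = 0 := by
      rw [← heq]
      simp
    have hU : U₁ = 0 := H516.incl_injective A (by rw [h0, map_zero])
    rw [hU, map_zero]
  refine ⟨hg0, inv_mem hgF, U₂, U₁, (mem_intESub M A E).mp h₂, (mem_intESub M A E).mp h₁,
    hne₁, ?_⟩
  have hg0' : (g : LaurentSeries Qb) ≠ 0 := fun h => hg0 (Subtype.ext h)
  push_cast
  rw [← heq, ← mul_assoc, inv_mul_cancel₀ hg0', one_mul]

/-- (C5) reductions lie in the function field `F_k`. -/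
theorem red_mem_fullC [NeZero M] (core : CoreData M (IsLocalRing.ResidueField A)) {g : Om M}
    {a : LaurentSeries (IsLocalRing.ResidueField A)} (h : (g, a) ∈ redRel M A E) :
    a ∈ modularFunctionFieldFullC (IsLocalRing.ResidueField A) M := by
  obtain ⟨-, U₁, U₂, h₁, h₂, hne, -, hred⟩ := h
  have key : ∀ U : LaurentSeries A, U ∈ intESub M A E →
      redS A U ∈ modularFunctionFieldFullC (IsLocalRing.ResidueField A) M := by
    intro U hU
    obtain ⟨-, f, -, hfU⟩ := (mem_intESub M A E).mp hU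
    refine H516.red_mem_of_incl_mem A (IsLocalRing.residue A) M core ?_
    rw [← hfU]
    exact f.2
  have ha : a = redS A U₁ * (redS A U₂)⁻¹ := by
    rw [← hred, mul_assoc, mul_inv_cancel₀ hne, mul_one]
  rw [ha]
  exact mul_mem (key U₁ h₁) (inv_mem (key U₂ h₂))

/-- (R5) the reduction of `j` is `j̄`. -/
theorem jOm_mem_redRel : (jOm M, jqModC (IsLocalRing.ResidueField A)) ∈ redRel M A E := by
  have hjF : jOm M ∈ Fc M E :=
    Subfield.subset_closure (Set.mem_union_right _ ⟨1, inferInstance, one_dvd M, rfl⟩)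
  have hjval : (jOm M : LaurentSeries Qb) = inclS A (jqModC A) := by
    show coeffEmb Qb (qExpand ℚ 1 jq) = coeffMap A.subtype (jqModC A)
    rw [qExpand_one_apply, H516.coeffEmb_jq, coeffMap_jqModC]
  have hjint : jqModC A ∈ intESub M A E := by
    refine ⟨fun n => ?_, jOm M, hjF, hjval⟩
    show ((coeffMap A.subtype (jqModC A)).coeff n) ∈ E
    rw [coeffMap_jqModC, coeff_jqModC_eq_intCast]
    exact intCast_mem E _
  refine ⟨hjF, jqModC A, 1, hjint, one_mem _, ?_, ?_, ?_⟩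
  · rw [map_one]; exact one_ne_zero
  · rw [map_one, mul_one, hjval]
  · rw [map_one, mul_one]
    exact (coeffMap_jqModC (IsLocalRing.residue A)).symm

/-- (R3) an element with zero reduction is divisible by the uniformiser `w`. -/
theorem mul_inv_mem_VcSet_of_red_eq_zero {w : Om M} (hw : w ∈ Rc M A E) (hw0 : w ≠ 0)
    (hgen : ∀ r ∈ Rc M A E, r⁻¹ ∉ Rc M A E → r * w⁻¹ ∈ Rc M A E) {g : Om M}
    (h : (g, (0 : LaurentSeries (IsLocalRing.ResidueField A))) ∈ redRel M A E) :
    g * w⁻¹ ∈ VcSet M A E := by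
  obtain ⟨hgF, U₁, U₂, h₁, h₂, hne, heq, hred⟩ := h
  simp only [zero_mul] at hred
  obtain ⟨aw, ⟨hawA, hawE⟩, rfl⟩ := hw
  have haw0 : aw ≠ 0 := by
    rintro rfl
    exact hw0 (map_zero _)
  obtain ⟨hU₁E, f₁, hf₁F, hf₁U⟩ := (mem_intESub M A E).mp h₁
  have hinj : Function.Injective (algebraMap Qb (Om M)) := (algebraMap Qb (Om M)).injective
  -- every coefficient of `U₁` is divisible by `aw` in `A`
  have hdiv : ∀ n : ℤ, ((U₁.coeff n : A) : Qb) * aw⁻¹ ∈ A := by
    intro n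
    by_cases hc0 : ((U₁.coeff n : A) : Qb) = 0
    · rw [hc0, zero_mul]
      exact zero_mem _
    have hcres : IsLocalRing.residue A (U₁.coeff n) = 0 := by
      have := congrArg (fun S : LaurentSeries (IsLocalRing.ResidueField A) => S.coeff n) hred
      simpa using this.symm
    have hr : algebraMap Qb (Om M) ((U₁.coeff n : A) : Qb) ∈ Rc M A E :=
      ⟨_, ⟨(U₁.coeff n).2, hU₁E n⟩, rfl⟩
    have hrinv : (algebraMap Qb (Om M) ((U₁.coeff n : A) : Qb))⁻¹ ∉ Rc M A E := by
      rintro ⟨b, ⟨hbA, -⟩, hb⟩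
      have hb' : b = ((U₁.coeff n : A) : Qb)⁻¹ := hinj (by rw [hb, map_inv₀])
      have hunit : IsUnit (U₁.coeff n) := by
        refine isUnit_iff_exists_inv.mpr ⟨⟨b, hbA⟩, Subtype.ext ?_⟩
        show ((U₁.coeff n : A) : Qb) * b = 1
        rw [hb', mul_inv_cancel₀ hc0]
      have hmem : U₁.coeff n ∈ IsLocalRing.maximalIdeal A :=
        (IsLocalRing.residue_eq_zero_iff _).mp hcres
      exact (IsLocalRing.mem_maximalIdeal _).mp hmem hunit
    obtain ⟨b, ⟨hbA, -⟩, hb⟩ := hgen _ hr hrinv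
    have hb' : b = ((U₁.coeff n : A) : Qb) * aw⁻¹ := hinj (by rw [hb, map_mul, map_inv₀])
    rw [← hb']
    exact hbA
  -- the divided series
  let U₁' : LaurentSeries A :=
    ⟨fun n => ⟨((U₁.coeff n : A) : Qb) * aw⁻¹, hdiv n⟩,
      U₁.isPWO_support.mono (fun n hn => by
        intro h0
        apply hn
        apply Subtype.ext
        show ((U₁.coeff n : A) : Qb) * aw⁻¹ = 0
        rw [h0]
        simp)⟩
  have hwval : algebraMap Qb (LaurentSeries Qb) aw = HahnSeries.single 0 aw :=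
    algebraMap_laurentSeries_eq_single Qb aw
  have hwcoe : ((algebraMap Qb (Om M) aw : Om M) : LaurentSeries Qb) =
      algebraMap Qb (LaurentSeries Qb) aw := rfl
  have hwne : algebraMap Qb (LaurentSeries Qb) aw ≠ 0 := by
    rw [← hwcoe]
    exact fun h => hw0 (Subtype.ext h)
  have hU' : inclS A U₁' * algebraMap Qb (LaurentSeries Qb) aw = inclS A U₁ := by
    rw [hwval]
    ext n
    rw [HahnSeries.coeff_mul_single_zero]
    show ((U₁.coeff n : A) : Qb) * aw⁻¹ * aw = ((U₁.coeff n : A) : Qb)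
    rw [mul_assoc, inv_mul_cancel₀ haw0, mul_one]
  have hU'' : inclS A U₁' = inclS A U₁ * (algebraMap Qb (LaurentSeries Qb) aw)⁻¹ := by
    rw [← hU', mul_assoc, mul_inv_cancel₀ hwne, mul_one]
  have hwF : algebraMap Qb (Om M) aw ∈ Fc M E :=
    Subfield.subset_closure (Set.mem_union_left _ ⟨aw, hawE, rfl⟩)
  have hU₁' : IsIntE M A E U₁' := by
    refine ⟨fun n => ?_, f₁ * (algebraMap Qb (Om M) aw)⁻¹, mul_mem hf₁F (inv_mem hwF), ?_⟩
    · show ((U₁.coeff n : A) : Qb) * aw⁻¹ ∈ E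
      exact mul_mem (hU₁E n) (inv_mem hawE)
    · show (f₁ : LaurentSeries Qb) *
        (((algebraMap Qb (Om M) aw : Om M) : LaurentSeries Qb))⁻¹ = inclS A U₁'
      rw [hwcoe, hf₁U, hU'']
  refine ⟨mul_mem hgF (inv_mem hwF), U₁', U₂, hU₁', (mem_intESub M A E).mp h₂, hne, ?_⟩
  show (g : LaurentSeries Qb) * (((algebraMap Qb (Om M) aw : Om M) : LaurentSeries Qb))⁻¹ *
    inclS A U₂ = inclS A U₁'
  rw [hwcoe, hU'', ← heq]
  ring

end RedRel

/-! ### (C6) the field `separable` at the concrete objects -/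

section Main

variable (M : ℕ) [NeZero M] {ℓ : ℕ} [hℓ : Fact ℓ.Prime]

/-- **G-SEP at the concrete objects, coordinate `j`.**  For every subring `V` with underlying
set `VcSet M A E` and every `w ∈ Rc M A E`, `w ≠ 0`, generating the maximal ideal of `Rc M A E`
(fields `w_mem`, `w_ne_zero`, `w_gen` of `PartR`): the field `separable` of `Alg.GoodModel`.
No hypothesis on `E`.  The polynomial even has coefficients in `ℤ[j]`. -/
theorem separable_jOm (hℓM : ¬ ℓ ∣ M) (A : ValuationSubring Qb) (hA : A.LiesOverPrime ℓ)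
    (E : IntermediateField ℚ Qb) (V : Subring (Om M)) (hV : (V : Set (Om M)) = VcSet M A E)
    (w : Om M) (hw : w ∈ Rc M A E) (hw0 : w ≠ 0)
    (hgen : ∀ r ∈ Rc M A E, r⁻¹ ∉ Rc M A E → r * w⁻¹ ∈ Rc M A E) :
    ∀ f ∈ V, ∃ P : Polynomial (Om M), (∀ i, P.coeff i ∈ Alg.polyRing (Rc M A E) (jOm M)) ∧
      P.eval f * w⁻¹ ∈ V ∧ (Polynomial.derivative P).eval f ≠ 0 ∧
      ((Polynomial.derivative P).eval f)⁻¹ ∈ V := by
  intro f hf
  have hmemV : ∀ g : Om M, g ∈ V ↔ g ∈ VcSet M A E := fun g => by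
    rw [← hV]
    rfl
  have hchar : CharP (IsLocalRing.ResidueField A) ℓ := H516.charP_residue A hA
  let _ : Algebra (ZMod ℓ) (IsLocalRing.ResidueField A) := ZMod.algebra _ ℓ
  have core := H516.coreData_residue M hℓM A hA
  obtain ⟨a, ha⟩ := exists_red_of_mem_VcSet M A E ((hmemV f).mp hf)
  have halg := isAlgebraic_of_mem_fullC ℓ core (red_mem_fullC M A E core ha)
  have hv : HahnSeries.addVal ℤ (IsLocalRing.ResidueField A)
      (jqModC (IsLocalRing.ResidueField A)) = ((-1 : ℤ) : WithTop ℤ) := by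
    rw [HahnSeries.addVal_apply_of_ne (jqModC_ne_zero_of_nontrivial _), order_jqModC]
  exact exists_poly_of_graph_sep ℓ (HahnSeries.addVal ℤ _) (redRel M A E) V (Rc M A E) w
    (jOm M) f (jqModC _) a (jOm_mem_redRel M A E) ha
    (fun g hg => (hmemV _).mpr (mul_inv_mem_VcSet_of_red_eq_zero M A E hw hw0 hgen hg))
    (fun g b hg hb => ⟨(inv_mem_VcSet_of_red_ne_zero M A E hg hb).1,
      (hmemV _).mpr (inv_mem_VcSet_of_red_ne_zero M A E hg hb).2⟩)
    (-1) hv (not_prime_dvd_neg_one ℓ hℓ.out) halg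

end Main

end Fermat.Agent.S18.H264

end
end
-- ===== PACK-END S18/H264/SepConcrete.lean

-- ===== PACK-BEGIN S18/H804/ValPlace.lean
section




/-!
# S18 / GLUE input: every nontrivial valuation subring of a function field containing the
constants is a place  (helper804)

`K` a field of characteristic zero, `F` finite over `K(x)`, `x` transcendental.  A valuation
subring `O ≠ ⊤` of `F` containing `K` is the valuation ring of a `Place K F` (a discrete
valuation ring).  Proof: `x` or `x⁻¹` lies in `O`; `O` dominates the localisation of the integral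
closure of `K[x^{±1}]` at its center, which is a DVR, hence maximal among proper subrings.

Corollary (`exists_mul_pow_unit`): if `m ∣ ord_v u` for every place `v`, then for every valuation
subring `O ⊇ K` of `F` there is `t ≠ 0` with `u * t ^ m` a unit of `O`.
-/

set_option autoImplicit false
set_option linter.unusedSectionVars false

namespace Fermat.Agent.S18.H804

open AlgebraicCurve Polynomial IntermediateField IsDedekindDomain Fermat.Agent.S24 FF

open scoped IntermediateField.algebraAdjoinAdjoin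

variable {K F : Type*} [Field K] [Field F] [Algebra K F] {t : F}

/-- `K[t] ⊆ O` when `t ∈ O`. -/
theorem mem_of_mem_coordRing_val (O : ValuationSubring F)
    (hK : ∀ a : K, algebraMap K F a ∈ O) (ht : t ∈ O) {r : F}
    (hr : r ∈ coordRing K t) : r ∈ O := by
  induction hr using Algebra.adjoin_induction with
  | mem x hx =>
    rw [Set.mem_singleton_iff] at hx
    subst hx
    exact ht
  | algebraMap a => exact hK a
  | add x y _ _ hx hy => exact add_mem hx hy
  | mul x y _ _ hx hy => exact mul_mem hx hy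

/-- The integral closure of `K[t]` is contained in `O` when `t ∈ O`. -/
theorem mem_of_mem_intRing_val (O : ValuationSubring F)
    (hK : ∀ a : K, algebraMap K F a ∈ O) (ht : t ∈ O) {s : F}
    (hs : s ∈ intRing K t) : s ∈ O := by
  let φ : coordRing K t →+* O :=
    { toFun := fun y => ⟨y, mem_of_mem_coordRing_val O hK ht y.2⟩
      map_one' := rfl
      map_mul' := fun _ _ => rfl
      map_zero' := rfl
      map_add' := fun _ _ => rfl }
  obtain ⟨p, hpm, hp⟩ := hs
  have hint' : IsIntegral O s := by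
    refine ⟨p.map φ, hpm.map φ, ?_⟩
    rw [← hp, Polynomial.eval₂_map]
    rfl
  obtain ⟨y, hy⟩ := IsIntegrallyClosed.isIntegral_iff.mp hint'
  rw [← hy]
  exact y.2

/-- The inclusion of the integral closure of `K[t]` into `O`. -/
def toValRing (O : ValuationSubring F) (hK : ∀ a : K, algebraMap K F a ∈ O) (ht : t ∈ O) :
    intRing K t →+* O where
  toFun s := ⟨s, mem_of_mem_intRing_val O hK ht s.2⟩
  map_one' := rfl
  map_mul' _ _ := rfl
  map_zero' := rfl
  map_add' _ _ := rfl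

/-- The center of `O` on the integral closure of `K[t]`. -/
def centerVal (O : ValuationSubring F) (hK : ∀ a : K, algebraMap K F a ∈ O) (ht : t ∈ O) :
    Ideal (intRing K t) :=
  Ideal.comap (toValRing O hK ht) (IsLocalRing.maximalIdeal O)

instance centerVal_isPrime (O : ValuationSubring F) (hK : ∀ a : K, algebraMap K F a ∈ O)
    (ht : t ∈ O) : (centerVal O hK ht).IsPrime := by
  unfold centerVal
  infer_instance

theorem mem_centerVal_iff (O : ValuationSubring F) (hK : ∀ a : K, algebraMap K F a ∈ O)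
    (ht : t ∈ O) (s : intRing K t) :
    s ∈ centerVal O hK ht ↔ (s : F) ∈ O.nonunits := by
  rw [centerVal, Ideal.mem_comap]
  exact ValuationSubring.coe_mem_nonunits_iff.symm

section withCoord

variable [CharZero K] [IsCoord K t]

/-- The center of a proper valuation subring is nonzero. -/
theorem centerVal_ne_bot (O : ValuationSubring F) (hK : ∀ a : K, algebraMap K F a ∈ O)
    (ht : t ∈ O) (hO : O ≠ ⊤) : centerVal O hK ht ≠ ⊥ := by
  intro h
  apply hO
  refine SetLike.ext fun f => ⟨fun _ => ValuationSubring.mem_top f, fun _ => ?_⟩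
  -- `f = a / b` with `a, b` in the integral closure, `b ≠ 0` a unit of `O`
  obtain ⟨a, b, hb, rfl⟩ := IsFractionRing.div_surjective (A := intRing K t) f
  have hb0 : b ≠ 0 := nonZeroDivisors.ne_zero hb
  have hbF : (b : F) ≠ 0 := fun h0 => hb0 (Subtype.ext h0)
  have hbnot : (b : F) ∉ O.nonunits := by
    intro hbn
    have : b ∈ centerVal O hK ht := (mem_centerVal_iff O hK ht b).mpr hbn
    rw [h, Ideal.mem_bot] at this
    exact hb0 this
  have hbinv : (b : F)⁻¹ ∈ O := by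
    by_contra hcon
    exact hbnot ((ValuationSubring.mem_nonunits_iff_or _).mpr (Or.inr hcon))
  have ha : (a : F) ∈ O := mem_of_mem_intRing_val O hK ht a.2
  show algebraMap (intRing K t) F a / algebraMap (intRing K t) F b ∈ O
  rw [div_eq_mul_inv]
  exact mul_mem ha hbinv

/-- A proper valuation subring containing `K` and `t` is the valuation ring of a place. -/
theorem exists_place_of_mem (O : ValuationSubring F) (hK : ∀ a : K, algebraMap K F a ∈ O)
    (ht : t ∈ O) (hO : O ≠ ⊤) : ∃ v : Place K F, v.toValuationSubring = O := by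
  let q : HeightOneSpectrum (intRing K t) :=
    ⟨centerVal O hK ht, inferInstance, centerVal_ne_bot O hK ht hO⟩
  refine ⟨placeOfPrime K t q, ?_⟩
  rw [placeOfPrime_toValuationSubring,
    ← HeightOneSpectrum.valuationSubringAtPrime_eq_valuationSubring]
  refine ValuationSubring.eq_of_le_of_ne_top _ ?_ hO
  rintro x ⟨a, s, hs, rfl⟩
  have ha : (a : F) ∈ O := mem_of_mem_intRing_val O hK ht a.2
  have hs' : (s : F) ∉ O.nonunits := fun h =>
    hs ((mem_centerVal_iff O hK ht s).mpr h)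
  have hsinv : (s : F)⁻¹ ∈ O := by
    by_contra hcon
    exact hs' ((ValuationSubring.mem_nonunits_iff_or _).mpr (Or.inr hcon))
  exact mul_mem ha hsinv

end withCoord

/-- **Every proper valuation subring of `F` containing `K` is a place.** -/
theorem exists_place_of_valuationSubring [CharZero K] {x : F} (hx : Transcendental K x)
    [FiniteDimensional K⟮x⟯ F] (O : ValuationSubring F)
    (hK : ∀ a : K, algebraMap K F a ∈ O) (hO : O ≠ ⊤) :
    ∃ v : Place K F, v.toValuationSubring = O := by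
  rcases O.mem_or_inv_mem x with h | h
  · have : IsCoord K x := ⟨hx, inferInstance⟩
    exact exists_place_of_mem O hK h hO
  · have : FiniteDimensional K⟮x⁻¹⟯ F := finiteDimensional_adjoin_inv x
    have : IsCoord K x⁻¹ := ⟨transcendental_inv hx, inferInstance⟩
    exact exists_place_of_mem O hK h hO

/-- If `m` divides the order of `u` at every place, then `u` is, up to an `m`-th power, a unit of
every valuation subring of `F` containing `K`. -/
theorem exists_mul_pow_unit [CharZero K] {x : F} (hx : Transcendental K x)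
    [FiniteDimensional K⟮x⟯ F] (m : ℕ) (u : F) (hu : u ≠ 0)
    (hdiv : ∀ v : Place K F, (m : ℤ) ∣ v.ord u) (O : ValuationSubring F)
    (hK : ∀ a : K, algebraMap K F a ∈ O) :
    ∃ t : F, t ≠ 0 ∧ u * t ^ m ∈ O ∧ (u * t ^ m)⁻¹ ∈ O := by
  by_cases hO : O = ⊤
  · subst hO
    exact ⟨1, one_ne_zero, ValuationSubring.mem_top _, ValuationSubring.mem_top _⟩
  obtain ⟨v, rfl⟩ := exists_place_of_valuationSubring hx O hK hO
  obtain ⟨π, hπ, hπ1⟩ := exists_irreducible_coe v
  have hπ0 : (π : F) ≠ 0 := by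
    intro h
    rw [h, v.ord_zero] at hπ1
    exact zero_ne_one hπ1
  obtain ⟨k, hk⟩ := hdiv v
  refine ⟨(π : F) ^ (-k), zpow_ne_zero _ hπ0, ?_, ?_⟩
  all_goals
    have hne : u * ((π : F) ^ (-k)) ^ m ≠ 0 :=
      mul_ne_zero hu (pow_ne_zero _ (zpow_ne_zero _ hπ0))
    have hord : v.ord (u * ((π : F) ^ (-k)) ^ m) = 0 := by
      rw [v.ord_mul hu (pow_ne_zero _ (zpow_ne_zero _ hπ0)), ← zpow_natCast, ← zpow_mul,
        v.ord_zpow, hπ1, hk]
      ring
  · exact mem_of_ord_nonneg v hord.ge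
  · apply mem_of_ord_nonneg v
    rw [v.ord_inv, hord]
    simp

end Fermat.Agent.S18.H804

end
-- ===== PACK-END S18/H804/ValPlace.lean

-- ===== PACK-BEGIN Lib/RR/H804/CharZero.lean
section



/-!
# RR library, bridge: `FF1 K F` for function fields over an algebraically closed field of
characteristic zero  (helper804)

From the Dedekind dictionary of `Fermat.Agent.S24.FF`: if `K` is algebraically closed of
characteristic zero and `F` is finite over `K(x)` for a transcendental `x`, then `F/K` satisfies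
the standing hypotheses `FF1 K F` of the RR library.
-/

set_option autoImplicit false

noncomputable section

open AlgebraicCurve IntermediateField

namespace Fermat.Agent.Lib.RR.H804

open Fermat.Agent.S24

variable {K F : Type*} [Field K] [Field F] [Algebra K F] [IsAlgClosed K] [CharZero K]

/-- Every function has finitely many zeros and poles. -/
theorem finite_setOf_ord_ne_zero {x : F} (hx : Transcendental K x) [FiniteDimensional K⟮x⟯ F]
    (f : F) : {v : Place K F | v.ord f ≠ 0}.Finite := by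
  by_cases hfr : f ∈ (algebraMap K F).range
  · obtain ⟨a, rfl⟩ := hfr
    convert Set.finite_empty
    ext v
    simp [FF.ord_algebraMap]
  · have hft : Transcendental K f := FF.transcendental_of_not_mem_range hfr
    have : FiniteDimensional K⟮f⟯ F := FF.finiteDimensional_adjoin_of_transcendental hx hft
    exact FF.finite_setOf_ord_ne_zero hft

/-- The divisor of a function. -/
def divOf {x : F} (hx : Transcendental K x) [FiniteDimensional K⟮x⟯ F] (f : F) :
    Divisor K F :=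
  Finsupp.ofSupportFinite (fun v => v.ord f) (finite_setOf_ord_ne_zero hx f)

@[simp] theorem divOf_apply {x : F} (hx : Transcendental K x) [FiniteDimensional K⟮x⟯ F]
    (f : F) (v : Place K F) : _root_.Fermat.Agent.Lib.RR.H804.divOf hx f v = v.ord f := rfl

theorem degree_divOf {x : F} (hx : Transcendental K x) [FiniteDimensional K⟮x⟯ F] (f : F) :
    Divisor.degree (_root_.Fermat.Agent.Lib.RR.H804.divOf hx f) = 0 :=
  FF.degree_principal x hx f _ (fun _ => rfl)

/-- Principal divisors exist and have degree zero. -/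
theorem hasPrincipalDivisors {x : F} (hx : Transcendental K x) [FiniteDimensional K⟮x⟯ F] :
    HasPrincipalDivisors K F :=
  ⟨fun f _ => ⟨_root_.Fermat.Agent.Lib.RR.H804.divOf hx f, fun _ => rfl, _root_.Fermat.Agent.Lib.RR.H804.degree_divOf hx f⟩⟩

/-- There is at least one place (a zero of `x`). -/
theorem nonempty_place {x : F} (hx : Transcendental K x) [FiniteDimensional K⟮x⟯ F] :
    Nonempty (Place K F) := by
  by_contra hne
  rw [not_nonempty_iff] at hne
  have h := FF.sum_ord_eq_finrank hx (∅ : Finset (Place K F)) (fun v => (hne.false v).elim)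
  rw [Finset.sum_empty] at h
  have hpos : 0 < Module.finrank K⟮x⟯ F := Module.finrank_pos
  omega

/-- There is a zero of `x - a` for every `a`. -/
theorem exists_place_ord_sub_pos {x : F} (hx : Transcendental K x) [FiniteDimensional K⟮x⟯ F]
    (a : K) : ∃ v : Place K F, 0 < v.ord (x - algebraMap K F a) := by
  by_contra hne
  rw [not_exists] at hne
  have h := FF.sum_ord_sub_const_eq_finrank hx a (∅ : Finset (Place K F))
    (fun v => ⟨fun h => (Finset.notMem_empty v h).elim, fun h => (hne v h).elim⟩)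
  rw [Finset.sum_empty] at h
  have hpos : 0 < Module.finrank K⟮x⟯ F := Module.finrank_pos
  omega

/-- There is a pole of `x`. -/
theorem exists_place_ord_neg {x : F} (hx : Transcendental K x) [FiniteDimensional K⟮x⟯ F] :
    ∃ v : Place K F, v.ord x < 0 := by
  by_contra hne
  rw [not_exists] at hne
  have h := FF.sum_ord_neg_eq_neg_finrank hx (∅ : Finset (Place K F))
    (fun v => ⟨fun h => (Finset.notMem_empty v h).elim, fun h => (hne v h).elim⟩)
  rw [Finset.sum_empty] at h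
  have hpos : 0 < Module.finrank K⟮x⟯ F := Module.finrank_pos
  omega

omit [CharZero K] in
/-- The residue field of every place is `K`. -/
theorem residue_bijective {x : F} (hx : Transcendental K x) [FiniteDimensional K⟮x⟯ F]
    (v : Place K F) : Function.Bijective (algebraMap K v.ResidueField) := by
  refine ⟨(algebraMap K v.ResidueField).injective, fun r => ?_⟩
  obtain ⟨f, rfl⟩ := IsLocalRing.residue_surjective r
  obtain ⟨a, ha⟩ := FF.exists_const_sub_mem_nonunits v hx f.2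
  refine ⟨a, ?_⟩
  rw [IsScalarTower.algebraMap_apply K v.toValuationSubring v.ResidueField]
  symm
  rw [IsLocalRing.ResidueField.algebraMap_eq, ← sub_eq_zero, ← map_sub,
    IsLocalRing.residue_eq_zero_iff]
  exact ValuationSubring.coe_mem_nonunits_iff.mp ha

omit [CharZero K] in
/-- Residue fields are finite over `K`. -/
theorem finite_residueField {x : F} (hx : Transcendental K x) [FiniteDimensional K⟮x⟯ F]
    (v : Place K F) : Module.Finite K v.ResidueField :=
  Module.Finite.of_surjective (Algebra.linearMap K v.ResidueField)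
    (residue_bijective hx v).2

/-- **Bridge**: `FF1 K F` for `K` algebraically closed of characteristic zero. -/
theorem ff1 {x : F} (hx : Transcendental K x) [FiniteDimensional K⟮x⟯ F] : FF1 K F where
  hpd := hasPrincipalDivisors hx
  deg_eq_one := fun v => FF.deg_eq_one v hx
  nonempty_place := nonempty_place hx
  exists_finite := ⟨x, hx, inferInstance⟩

end Fermat.Agent.Lib.RR.H804

end
end
-- ===== PACK-END Lib/RR/H804/CharZero.lean

-- ===== PACK-BEGIN Lib/RR/H804/Modular.lean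
section




/-!
# RR library, bridge: `FF1` for the function field of `X₀(N)` over `ℚ̄`  (helper804)

Inputs: the modular package of S24 (`j` is transcendental and `F` is finite over `ℚ̄(j)`).
-/

set_option autoImplicit false

noncomputable section

open AlgebraicCurve IntermediateField ModularCurve

namespace Fermat.Agent.Lib.RR.H804

open Fermat.Agent.S24

variable (N : ℕ) [NeZero N]

/-- `j` is transcendental over `ℚ̄` in the function field of `X₀(N)`. -/
theorem transcendental_jF : Transcendental Kbar (jF N) := by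
  obtain ⟨P⟩ := nonempty_modularPackage N
  exact transcendental_of_localData_inv (jF N) P.dataInf

/-- The function field of `X₀(N)` is finite over `ℚ̄(j)`. -/
theorem finiteDimensional_jF : FiniteDimensional Kbar⟮jF N⟯ (FF N) :=
  (nonempty_modularPackage N).some.finiteDimensional

/-- `[ℚ̄(X₀(N)) : ℚ̄(j)] = [SL₂(ℤ) : Γ₀(N)]`. -/
theorem finrank_jF : Module.finrank Kbar⟮jF N⟯ (FF N) = Nat.card (XX N) :=
  (nonempty_modularPackage N).some.finrank_eq

/-- **Bridge**: the standing hypotheses of the RR library hold for `ℚ̄(X₀(N))`. -/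
instance ff1_modular : FF1 (AlgebraicClosure ℚ) ↥(modularFunctionFieldBar N) :=
  haveI := finiteDimensional_jF N
  ff1 (transcendental_jF N)

/-- Principal divisors of `ℚ̄(X₀(N))` exist and have degree zero. -/
instance hasPrincipalDivisors_modular :
    HasPrincipalDivisors (AlgebraicClosure ℚ) ↥(modularFunctionFieldBar N) :=
  haveI := finiteDimensional_jF N
  hasPrincipalDivisors (transcendental_jF N)

/-- Every place of `ℚ̄(X₀(N))` has degree one. -/
theorem deg_eq_one_modular (v : Place (AlgebraicClosure ℚ) ↥(modularFunctionFieldBar N)) :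
    v.deg = 1 :=
  haveI := finiteDimensional_jF N
  FF.deg_eq_one v (transcendental_jF N)

/-- Residue fields of places of `ℚ̄(X₀(N))` are finite over `ℚ̄`. -/
instance finite_residueField_modular
    (v : Place (AlgebraicClosure ℚ) ↥(modularFunctionFieldBar N)) :
    Module.Finite (AlgebraicClosure ℚ) v.ResidueField :=
  haveI := finiteDimensional_jF N
  finite_residueField (transcendental_jF N) v

end Fermat.Agent.Lib.RR.H804

end
end
-- ===== PACK-END Lib/RR/H804/Modular.lean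

-- ===== PACK-BEGIN S18/H804/ValPlaceModular.lean
section



/-!
# S18 / GLUE input for the modular function field `F_M = ℚ̄(j(q^d) : d ∣ M)`  (helper804)

* `exists_place_of_valuationSubring_modular` : every proper valuation subring of `F_M` containing
  `ℚ̄` is the valuation ring of a `Place`.
* `exists_mul_pow_unit_modular` : Place-divisibility of the divisor of `u` by `m` gives the
  valuation-subring form used in `Alg.AlgMainStatement`.
-/

set_option autoImplicit false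

namespace Fermat.Agent.S18.H804

open AlgebraicCurve ModularCurve Fermat.Agent.S24

variable (M : ℕ) [NeZero M]

theorem exists_place_of_valuationSubring_modular
    (O : ValuationSubring ↥(modularFunctionFieldBar M))
    (hK : ∀ a : AlgebraicClosure ℚ,
      algebraMap (AlgebraicClosure ℚ) ↥(modularFunctionFieldBar M) a ∈ O) (hO : O ≠ ⊤) :
    ∃ v : Place (AlgebraicClosure ℚ) ↥(modularFunctionFieldBar M), v.toValuationSubring = O :=
  haveI := Fermat.Agent.Lib.RR.H804.finiteDimensional_jF M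
  exists_place_of_valuationSubring (Fermat.Agent.Lib.RR.H804.transcendental_jF M) O hK hO

theorem exists_mul_pow_unit_modular (m : ℕ) (u : ↥(modularFunctionFieldBar M)) (hu : u ≠ 0)
    (hdiv : ∀ v : Place (AlgebraicClosure ℚ) ↥(modularFunctionFieldBar M), (m : ℤ) ∣ v.ord u)
    (O : ValuationSubring ↥(modularFunctionFieldBar M))
    (hK : ∀ a : AlgebraicClosure ℚ,
      algebraMap (AlgebraicClosure ℚ) ↥(modularFunctionFieldBar M) a ∈ O) :
    ∃ t : ↥(modularFunctionFieldBar M), t ≠ 0 ∧ u * t ^ m ∈ O ∧ (u * t ^ m)⁻¹ ∈ O :=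
  haveI := Fermat.Agent.Lib.RR.H804.finiteDimensional_jF M
  exists_mul_pow_unit (Fermat.Agent.Lib.RR.H804.transcendental_jF M) m u hu hdiv O hK

end Fermat.Agent.S18.H804

end
-- ===== PACK-END S18/H804/ValPlaceModular.lean

-- ===== PACK-BEGIN S18/H558/PartBr.lean
section






/-!
# S18 / MOD / G-BR (helper558): the branch-value fields of `Alg.GoodModel` at the concrete objects

Target: the four fields `S_mem`, `S_distinct`, `S_unit`, `unramified` of `Alg.GoodModel`
(= the structure `PartBr (Lc M) (Rc M A E) x S` of MOD-ASM helper216) for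

* `x = jOm M`, `S = {0, 1728}`, `ℓ ≥ 5`                       (`brJ_*`),
* `x` with `jOm M * x ^ 2 = (x + 256) ^ 3`, `S = {0, -64}`, `ℓ = 3`   (`brT2_*`),
* `x` with `jOm M * x ^ 3 = (x + 27) * (x + 243) ^ 3`, `S = {0, -27}`, `ℓ = 2` (`brT3_*`),

for EVERY intermediate field `E` of `Q̄/ℚ` (no finiteness needed) and every valuation subring `A`
of `Q̄` lying over `ℓ`.  The bundled forms `brJ`, `brT2`, `brT3` are conjunctions of the four
fields in the order of the structure, so `PartBr` is `⟨h.1, h.2.1, h.2.2.1, h.2.2.2⟩`.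

Inputs: M2 (`H558/Branch*.lean`, Place language) and `H804.exists_place_of_valuationSubring_modular`
(every proper valuation subring of `F_M` containing `Q̄` is a `Place`).
-/

set_option autoImplicit false

noncomputable section

namespace Fermat.Agent.S18.H558

open AlgebraicCurve ModularCurve Fermat.Agent.S24 Fermat.Agent.S18 Fermat.Agent.S18.Mod

variable (M : ℕ) [NeZero M]

/-- The frozen coordinate `jOm M` is the `j`-function `jF M` of the S24 library. -/
theorem jOm_eq_jF : jOm M = jF M := by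
  apply Subtype.ext
  show coeffEmb Qb (qExpand ℚ 1 jq) = coeffEmb Kbar jq
  rw [qExpand_one_apply]

/-! ### Integers in `Rc` -/

section Consts

variable (A : ValuationSubring Qb) (E : IntermediateField ℚ Qb)

theorem algebraMap_mem_Rc {a : Qb} (hA : a ∈ A) (hE : a ∈ E) :
    algebraMap Qb (Om M) a ∈ Rc M A E :=
  Subring.mem_map.2 ⟨a, ⟨hA, hE⟩, rfl⟩

theorem intCast_mem_Rc (n : ℤ) : ((n : ℤ) : Om M) ∈ Rc M A E := by
  have h : ((n : ℤ) : Om M) = algebraMap Qb (Om M) (n : Qb) := (map_intCast _ n).symm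
  rw [h]
  exact algebraMap_mem_Rc M A E (intCast_mem A n) (intCast_mem E n)

theorem inv_intCast_mem_Rc (n : ℤ) (hn : ((n : ℤ) : Qb)⁻¹ ∈ A) :
    (((n : ℤ) : Om M))⁻¹ ∈ Rc M A E := by
  have h : (((n : ℤ) : Om M))⁻¹ = algebraMap Qb (Om M) ((n : Qb)⁻¹) := by
    rw [map_inv₀, map_intCast]
  rw [h]
  exact algebraMap_mem_Rc M A E hn (inv_mem (intCast_mem E n))

/-- An integer prime to the residue characteristic is a unit of `A`. -/
theorem inv_intCast_mem_of_coprime {ℓ : ℕ} (hA : A.LiesOverPrime ℓ) (n : ℤ)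
    (hn : IsCoprime n (ℓ : ℤ)) : ((n : ℤ) : Qb)⁻¹ ∈ A := by
  obtain ⟨a, b, hab⟩ := hn
  have hℓ : A.valuation (ℓ : Qb) < 1 := (A.mem_nonunits_iff).1 hA
  have hb : A.valuation (b : Qb) ≤ 1 := (A.valuation_le_one_iff _).2 (intCast_mem A b)
  have ha : A.valuation (a : Qb) ≤ 1 := (A.valuation_le_one_iff _).2 (intCast_mem A a)
  have hnv : A.valuation (n : Qb) ≤ 1 := (A.valuation_le_one_iff _).2 (intCast_mem A n)
  have hbℓ : A.valuation ((b : Qb) * (ℓ : Qb)) < 1 := by
    rw [map_mul]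
    calc A.valuation (b : Qb) * A.valuation (ℓ : Qb) ≤ 1 * A.valuation (ℓ : Qb) :=
          mul_le_mul' hb le_rfl
      _ = A.valuation (ℓ : Qb) := one_mul _
      _ < 1 := hℓ
  have hone : (a : Qb) * (n : Qb) = 1 - (b : Qb) * (ℓ : Qb) := by
    have h := congrArg (Int.cast : ℤ → Qb) hab
    push_cast at h
    linear_combination h
  have h1 : A.valuation (1 - (b : Qb) * (ℓ : Qb)) = 1 := Valuation.map_one_sub_of_lt _ hbℓ
  have h2 : A.valuation (a : Qb) * A.valuation (n : Qb) = 1 := by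
    rw [← map_mul, hone, h1]
  have h3 : A.valuation (n : Qb) = 1 := by
    apply le_antisymm hnv
    calc (1 : _) = A.valuation (a : Qb) * A.valuation (n : Qb) := h2.symm
      _ ≤ 1 * A.valuation (n : Qb) := mul_le_mul' ha le_rfl
      _ = A.valuation (n : Qb) := one_mul _
  rw [← A.valuation_le_one_iff, map_inv₀, h3, inv_one]

end Consts

/-! ### From the Place statement to the valuation-subring statement -/

/-- If `x - c` has order `1` at every place where it vanishes (for the constants `c ∉ S`), then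
`x` satisfies the field `unramified` of `Alg.GoodModel`. -/
theorem unramified_of_ord (x : Om M) (S : Finset (Om M))
    (h : ∀ c : Qb, algebraMap Qb (Om M) c ∉ S → ∀ v : Place Qb (Om M),
      0 < v.ord (x - algebraMap Qb (Om M) c) → v.ord (x - algebraMap Qb (Om M) c) = 1) :
    ∀ O : ValuationSubring (Om M), (∀ a ∈ Lc M, a ∈ O) → ∀ c ∈ Lc M, c ∉ S →
      x - c ∈ O → (x - c)⁻¹ ∉ O → ∀ t ∈ O, t⁻¹ ∉ O → t * (x - c)⁻¹ ∈ O := by
  intro O hL c hc hcS hxO hxinv t ht htinv
  obtain ⟨c₀, rfl⟩ := hc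
  have hK : ∀ a : Qb, algebraMap Qb (Om M) a ∈ O := fun a => hL _ ⟨a, rfl⟩
  have hO : O ≠ ⊤ := by
    intro htop
    exact hxinv (htop ▸ ValuationSubring.mem_top _)
  obtain ⟨v, rfl⟩ := H804.exists_place_of_valuationSubring_modular M O hK hO
  have hx0 : x - algebraMap Qb (Om M) c₀ ≠ 0 := by
    intro h0
    rw [h0, inv_zero] at hxinv
    exact hxinv (zero_mem _)
  have ht0 : t ≠ 0 := by
    intro h0
    rw [h0, inv_zero] at htinv
    exact htinv (zero_mem _)
  have h1 : 0 ≤ v.ord (x - algebraMap Qb (Om M) c₀) := H117.ord_nonneg_of_mem v hxO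
  have h2 : ¬ 0 ≤ v.ord (x - algebraMap Qb (Om M) c₀)⁻¹ := fun hh =>
    hxinv (H117.mem_of_ord_nonneg v hh)
  rw [v.ord_inv] at h2
  have h3 : 0 ≤ v.ord t := H117.ord_nonneg_of_mem v ht
  have h4 : ¬ 0 ≤ v.ord t⁻¹ := fun hh => htinv (H117.mem_of_ord_nonneg v hh)
  rw [v.ord_inv] at h4
  have h5 := h c₀ hcS v (by omega)
  apply H117.mem_of_ord_nonneg v
  rw [v.ord_mul ht0 (inv_ne_zero hx0), v.ord_inv, h5]
  omega

/-! ### The coordinate `j`, `ℓ ≥ 5` -/

section J

variable (A : ValuationSubring Qb) (E : IntermediateField ℚ Qb) {ℓ : ℕ}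

theorem inv_1728_mem (hℓ : ℓ.Prime) (h5 : 5 ≤ ℓ) (hA : A.LiesOverPrime ℓ) :
    ((1728 : ℤ) : Qb)⁻¹ ∈ A := by
  apply inv_intCast_mem_of_coprime A hA
  have hcop : Nat.Coprime 1728 ℓ := by
    rw [Nat.coprime_comm, Nat.Prime.coprime_iff_not_dvd hℓ]
    intro hdvd
    have h1728 : (1728 : ℕ) = 2 ^ 6 * 3 ^ 3 := by norm_num
    rw [h1728] at hdvd
    rcases (Nat.Prime.dvd_mul hℓ).1 hdvd with h | h
    · have := Nat.le_of_dvd (by norm_num) (hℓ.dvd_of_dvd_pow h)
      omega
    · have := Nat.le_of_dvd (by norm_num) (hℓ.dvd_of_dvd_pow h)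
      omega
  exact_mod_cast (Nat.isCoprime_iff_coprime.2 hcop)

theorem brJ_unramified (S : Finset (Om M)) (hS : ∀ s, s ∈ S ↔ s = 0 ∨ s = 1728) :
    ∀ O : ValuationSubring (Om M), (∀ a ∈ Lc M, a ∈ O) → ∀ c ∈ Lc M, c ∉ S →
      jOm M - c ∈ O → (jOm M - c)⁻¹ ∉ O → ∀ t ∈ O, t⁻¹ ∉ O → t * (jOm M - c)⁻¹ ∈ O := by
  apply unramified_of_ord
  intro c hcS v hv
  rw [jOm_eq_jF] at hv ⊢
  have h0 : c ≠ 0 := by
    rintro rfl
    exact hcS ((hS _).2 (Or.inl (map_zero _)))
  have h1 : c ≠ 1728 := by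
    rintro rfl
    exact hcS ((hS _).2 (Or.inr (map_ofNat _ 1728)))
  exact ord_j_sub_eq_one M c h0 h1 v hv

/-- **G-BR for `x = j`, `ℓ ≥ 5`**: the four fields `S_mem`, `S_distinct`, `S_unit`, `unramified`. -/
theorem brJ (hℓ : ℓ.Prime) (h5 : 5 ≤ ℓ) (hA : A.LiesOverPrime ℓ) (S : Finset (Om M))
    (hS : ∀ s, s ∈ S ↔ s = 0 ∨ s = 1728) :
    (∀ s ∈ S, s ∈ Rc M A E) ∧
    (∀ s ∈ S, ∀ t ∈ S, s ≠ t → (s - t)⁻¹ ∈ Rc M A E) ∧
    (∀ s ∈ S, s ≠ 0 → s⁻¹ ∈ Rc M A E) ∧
    (∀ O : ValuationSubring (Om M), (∀ a ∈ Lc M, a ∈ O) → ∀ c ∈ Lc M, c ∉ S →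
      jOm M - c ∈ O → (jOm M - c)⁻¹ ∉ O → ∀ t ∈ O, t⁻¹ ∉ O → t * (jOm M - c)⁻¹ ∈ O) := by
  have hu : ((1728 : ℤ) : Om M)⁻¹ ∈ Rc M A E :=
    inv_intCast_mem_Rc M A E 1728 (inv_1728_mem A hℓ h5 hA)
  have hcast : ((1728 : ℤ) : Om M) = 1728 := by norm_num
  rw [hcast] at hu
  refine ⟨?_, ?_, ?_, brJ_unramified M S hS⟩
  · intro s hs
    rcases (hS s).1 hs with rfl | rfl
    · exact zero_mem _
    · have := intCast_mem_Rc M A E 1728
      rwa [hcast] at this
  · intro s hs t ht hst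
    rcases (hS s).1 hs with rfl | rfl <;> rcases (hS t).1 ht with rfl | rfl
    · exact absurd rfl hst
    · rw [zero_sub, inv_neg]
      exact neg_mem hu
    · rwa [sub_zero]
    · exact absurd rfl hst
  · intro s hs hs0
    rcases (hS s).1 hs with rfl | rfl
    · exact absurd rfl hs0
    · exact hu

end J

/-! ### The Hauptmodul `t₂`, `ℓ = 3` -/

section T2

variable (A : ValuationSubring Qb) (E : IntermediateField ℚ Qb)

theorem inv_64_mem (hA : A.LiesOverPrime 3) : ((64 : ℤ) : Qb)⁻¹ ∈ A := by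
  apply inv_intCast_mem_of_coprime A hA
  have hcop : Nat.Coprime 64 3 := by norm_num
  exact_mod_cast (Nat.isCoprime_iff_coprime.2 hcop)

theorem brT2_unramified (x : Om M) (hx : jOm M * x ^ 2 = (x + 256) ^ 3) (S : Finset (Om M))
    (hS : ∀ s, s ∈ S ↔ s = 0 ∨ s = -64) :
    ∀ O : ValuationSubring (Om M), (∀ a ∈ Lc M, a ∈ O) → ∀ c ∈ Lc M, c ∉ S →
      x - c ∈ O → (x - c)⁻¹ ∉ O → ∀ t ∈ O, t⁻¹ ∉ O → t * (x - c)⁻¹ ∈ O := by
  apply unramified_of_ord
  intro c hcS v hv
  rw [jOm_eq_jF] at hx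
  have h0 : c ≠ 0 := by
    rintro rfl
    exact hcS ((hS _).2 (Or.inl (map_zero _)))
  have h1 : c ≠ -64 := by
    rintro rfl
    exact hcS ((hS _).2 (Or.inr (by rw [map_neg, map_ofNat])))
  exact ord_t2_sub_eq_one M x hx c h0 h1 v hv

/-- **G-BR for `x = t₂`, `ℓ = 3`**. -/
theorem brT2 (hA : A.LiesOverPrime 3) (x : Om M) (hx : jOm M * x ^ 2 = (x + 256) ^ 3)
    (S : Finset (Om M)) (hS : ∀ s, s ∈ S ↔ s = 0 ∨ s = -64) :
    (∀ s ∈ S, s ∈ Rc M A E) ∧
    (∀ s ∈ S, ∀ t ∈ S, s ≠ t → (s - t)⁻¹ ∈ Rc M A E) ∧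
    (∀ s ∈ S, s ≠ 0 → s⁻¹ ∈ Rc M A E) ∧
    (∀ O : ValuationSubring (Om M), (∀ a ∈ Lc M, a ∈ O) → ∀ c ∈ Lc M, c ∉ S →
      x - c ∈ O → (x - c)⁻¹ ∉ O → ∀ t ∈ O, t⁻¹ ∉ O → t * (x - c)⁻¹ ∈ O) := by
  have hu : ((64 : ℤ) : Om M)⁻¹ ∈ Rc M A E :=
    inv_intCast_mem_Rc M A E 64 (inv_64_mem A hA)
  have hcast : ((64 : ℤ) : Om M) = 64 := by norm_num
  rw [hcast] at hu
  refine ⟨?_, ?_, ?_, brT2_unramified M x hx S hS⟩
  · intro s hs
    rcases (hS s).1 hs with rfl | rfl
    · exact zero_mem _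
    · have := intCast_mem_Rc M A E 64
      rw [hcast] at this
      exact neg_mem this
  · intro s hs t ht hst
    rcases (hS s).1 hs with rfl | rfl <;> rcases (hS t).1 ht with rfl | rfl
    · exact absurd rfl hst
    · rwa [zero_sub, neg_neg]
    · rw [sub_zero, inv_neg]
      exact neg_mem hu
    · exact absurd rfl hst
  · intro s hs hs0
    rcases (hS s).1 hs with rfl | rfl
    · exact absurd rfl hs0
    · rw [inv_neg]
      exact neg_mem hu

end T2

/-! ### The Hauptmodul `t₃`, `ℓ = 2` -/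

section T3

variable (A : ValuationSubring Qb) (E : IntermediateField ℚ Qb)

theorem inv_27_mem (hA : A.LiesOverPrime 2) : ((27 : ℤ) : Qb)⁻¹ ∈ A := by
  apply inv_intCast_mem_of_coprime A hA
  have hcop : Nat.Coprime 27 2 := by norm_num
  exact_mod_cast (Nat.isCoprime_iff_coprime.2 hcop)

theorem brT3_unramified (x : Om M) (hx : jOm M * x ^ 3 = (x + 27) * (x + 243) ^ 3)
    (S : Finset (Om M)) (hS : ∀ s, s ∈ S ↔ s = 0 ∨ s = -27) :
    ∀ O : ValuationSubring (Om M), (∀ a ∈ Lc M, a ∈ O) → ∀ c ∈ Lc M, c ∉ S →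
      x - c ∈ O → (x - c)⁻¹ ∉ O → ∀ t ∈ O, t⁻¹ ∉ O → t * (x - c)⁻¹ ∈ O := by
  apply unramified_of_ord
  intro c hcS v hv
  rw [jOm_eq_jF] at hx
  have h0 : c ≠ 0 := by
    rintro rfl
    exact hcS ((hS _).2 (Or.inl (map_zero _)))
  have h1 : c ≠ -27 := by
    rintro rfl
    exact hcS ((hS _).2 (Or.inr (by rw [map_neg, map_ofNat])))
  exact ord_t3_sub_eq_one M x hx c h0 h1 v hv

/-- **G-BR for `x = t₃`, `ℓ = 2`**. -/
theorem brT3 (hA : A.LiesOverPrime 2) (x : Om M)
    (hx : jOm M * x ^ 3 = (x + 27) * (x + 243) ^ 3)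
    (S : Finset (Om M)) (hS : ∀ s, s ∈ S ↔ s = 0 ∨ s = -27) :
    (∀ s ∈ S, s ∈ Rc M A E) ∧
    (∀ s ∈ S, ∀ t ∈ S, s ≠ t → (s - t)⁻¹ ∈ Rc M A E) ∧
    (∀ s ∈ S, s ≠ 0 → s⁻¹ ∈ Rc M A E) ∧
    (∀ O : ValuationSubring (Om M), (∀ a ∈ Lc M, a ∈ O) → ∀ c ∈ Lc M, c ∉ S →
      x - c ∈ O → (x - c)⁻¹ ∉ O → ∀ t ∈ O, t⁻¹ ∉ O → t * (x - c)⁻¹ ∈ O) := by
  have hu : ((27 : ℤ) : Om M)⁻¹ ∈ Rc M A E :=
    inv_intCast_mem_Rc M A E 27 (inv_27_mem A hA)
  have hcast : ((27 : ℤ) : Om M) = 27 := by norm_num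
  rw [hcast] at hu
  refine ⟨?_, ?_, ?_, brT3_unramified M x hx S hS⟩
  · intro s hs
    rcases (hS s).1 hs with rfl | rfl
    · exact zero_mem _
    · have := intCast_mem_Rc M A E 27
      rw [hcast] at this
      exact neg_mem this
  · intro s hs t ht hst
    rcases (hS s).1 hs with rfl | rfl <;> rcases (hS t).1 ht with rfl | rfl
    · exact absurd rfl hst
    · rwa [zero_sub, neg_neg]
    · rw [sub_zero, inv_neg]
      exact neg_mem hu
    · exact absurd rfl hst
  · intro s hs hs0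
    rcases (hS s).1 hs with rfl | rfl
    · exact absurd rfl hs0
    · rw [inv_neg]
      exact neg_mem hu

end T3

/-- **G-BR, all admissible coordinates at once**: for every coordinate `x` with branch set `S`
in the sense of `Mod.IsCoordinate`, the four branch fields of `Alg.GoodModel` hold at the concrete
objects, for every intermediate field `E`. -/
theorem br_of_isCoordinate {ℓ : ℕ} [Fact ℓ.Prime] (A : ValuationSubring Qb)
    (hA : A.LiesOverPrime ℓ) (E : IntermediateField ℚ Qb) (x : Om M) (S : Finset (Om M))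
    (hx : IsCoordinate M ℓ x S) :
    (∀ s ∈ S, s ∈ Rc M A E) ∧
    (∀ s ∈ S, ∀ t ∈ S, s ≠ t → (s - t)⁻¹ ∈ Rc M A E) ∧
    (∀ s ∈ S, s ≠ 0 → s⁻¹ ∈ Rc M A E) ∧
    (∀ O : ValuationSubring (Om M), (∀ a ∈ Lc M, a ∈ O) → ∀ c ∈ Lc M, c ∉ S →
      x - c ∈ O → (x - c)⁻¹ ∉ O → ∀ t ∈ O, t⁻¹ ∉ O → t * (x - c)⁻¹ ∈ O) := by
  rcases hx with ⟨h5, rfl, hS⟩ | ⟨⟨h3, hid, hS⟩ | ⟨h2, hid, hS⟩, -⟩
  · exact brJ M A E Fact.out h5 hA S hS
  · subst h3
    exact brT2 M A E hA x hid S hS
  · subst h2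
    exact brT3 M A E hA x hid S hS

end Fermat.Agent.S18.H558

end

end
-- ===== PACK-END S18/H558/PartBr.lean

-- ===== PACK-BEGIN S18/Mod/H216/NodeMod.lean
section








/-!
# S18 / MOD-ASM (helper216): **node_mod** — `Mod.GoodModelStatement M ℓ A`, UNCONDITIONAL

`node_mod (M) [NeZero M] {ℓ} [Fact ℓ.Prime] (hℓM : ¬ ℓ ∣ M) (A) (hA : A.LiesOverPrime ℓ) :
  Mod.GoodModelStatement M ℓ A` — exact type of `Integ.node_mod` (Skeleton v4c).

Wiring of the six parts at the concrete objects of `Mod/Defs.lean`: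

| part | source |
|---|---|
| G-R   | `H456.IsUnif`, `H456.field_residue_perfect`, `H602.isDiscreteValuationRing_RE` |
| G-FLD | `H456.field_*`, `H24.field_finite_j` |
| G-V   | `H216.partVStatement_j` (coordinate `j`), `H24.gv_fields_of_isCoordinate` (`t₂, t₃`) |
| G-QEP | `H216.partQepStatement_j` |
| G-SEP | `H264.separable_jOm` |
| G-BR  | `H558.br_of_isCoordinate` |
| M3-T  | `H107.goodModel_of_isCoordinate107` (transfer `j ↦ t₂, t₃` for `ℓ = 3, 2`) |
-/

set_option autoImplicit false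
set_option linter.unusedSectionVars false

noncomputable section

namespace Fermat.Agent.S18.Mod.H216

open ModularCurve AlgebraicCurve HahnSeries Fermat.Agent.S18 Fermat.Agent.S18.Mod
open Fermat.Agent.S18.Alg

variable (M : ℕ) [NeZero M] {ℓ : ℕ} [Fact ℓ.Prime] (A : ValuationSubring Qb)

/-- **G-R** at the concrete objects. -/
theorem partRStatement (hA : A.LiesOverPrime ℓ) : PartRStatement M A := by
  intro E hE
  have := hE
  have hℓ : ℓ.Prime := Fact.out
  have : IsDiscreteValuationRing (H602.RE A E) :=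
    H602.isDiscreteValuationRing_RE A E hℓ.ne_zero hA
  obtain ⟨w, hw⟩ := H456.exists_isUnif M A E
  exact ⟨w, H456.field_R_le M A E, H456.field_R_total M A E, hw.mem, hw.ne_zero, hw.inv_not_mem,
    hw.gen, hw.discrete, H456.field_residue_perfect A E M hℓ hA hw⟩

/-- **G-FLD** for the coordinate `j`. -/
theorem partFldStatement_j : PartFldStatement M (jOm M) := by
  intro E _
  exact ⟨H456.field_E_le_L M E, H456.field_E_le_F M E, H456.field_L_algebraic M E,
    H456.field_L_algClosed M, H456.field_E_closed_in_F M E, H456.field_compositum M E,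
    H456.mem_Fc_of_hasIntExp M E (H456.hasIntExp_jOm M),
    H456.transcendental_of_hasIntExp M (H456.hasIntExp_jOm M), H24.field_finite_j M E⟩

/-- **G-SEP** for the coordinate `j`. -/
theorem partSepStatement_j (hℓM : ¬ ℓ ∣ M) (hA : A.LiesOverPrime ℓ) :
    PartSepStatement M A (jOm M) :=
  fun E _ w hw => ⟨H264.separable_jOm M hℓM A hA E (Vc M A E) (coe_Vc M A E) w hw.w_mem
    hw.w_ne_zero hw.w_gen⟩

/-- **G-BR** for every admissible coordinate. -/
theorem partBrStatement_of_isCoordinate (hA : A.LiesOverPrime ℓ) (x : Om M) (S : Finset (Om M))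
    (hx : IsCoordinate M ℓ x S) : PartBrStatement M A x S := by
  intro E _
  obtain ⟨h1, h2, h3, h4⟩ := H558.br_of_isCoordinate M A hA E x S hx
  exact ⟨h1, h2, h3, h4⟩

/-- The `j`-model without its branch fields, for every `ℓ ∤ M` (input of the transfer M3-T). -/
theorem baseModel_j (hℓM : ¬ ℓ ∣ M) (hA : A.LiesOverPrime ℓ) (E : IntermediateField ℚ Qb)
    (hE : FiniteDimensional ℚ E) {w : Om M} (hw : PartR (Ec M E) (Rc M A E) w) :
    H107.BaseModel107 (Lc M) (Ec M E) (Fc M E) (Rc M A E) (Vc M A E) w (jOm M) := by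
  have hF := partFldStatement_j M E hE
  have hV := partVStatement_j A hℓM hA E hE w hw
  have hQ := partQepStatement_j A hℓM hA E hE w hw
  have hS := partSepStatement_j M A hℓM hA E hE w hw
  exact
    { charZero := charZero_Om M
      R_le := hw.R_le
      R_total := hw.R_total
      w_mem := hw.w_mem
      w_ne_zero := hw.w_ne_zero
      w_inv_not_mem := hw.w_inv_not_mem
      w_gen := hw.w_gen
      w_discrete := hw.w_discrete
      residue_perfect := hw.residue_perfect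
      E_le_L := hF.E_le_L
      E_le_F := hF.E_le_F
      L_algebraic := hF.L_algebraic
      L_algClosed := hF.L_algClosed
      E_closed_in_F := hF.E_closed_in_F
      compositum := hF.compositum
      x_mem := hF.x_mem
      x_transcendental := hF.x_transcendental
      finite := hF.finite
      V_le := hV.V_le
      V_total := hV.V_total
      R_le_V := hV.R_le_V
      w_inv_not_mem_V := hV.w_inv_not_mem_V
      V_gen := hV.V_gen
      x_mem_V := hV.x_mem_V
      gauss := hV.gauss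
      qep_fin := hQ.qep_fin
      qep_inf := hQ.qep_inf
      separable := hS.separable }

/-- **M3-T**: for `ℓ ∈ {2, 3}` every admissible coordinate is good. -/
theorem goodAt_of_lt_five (hℓM : ¬ ℓ ∣ M) (hA : A.LiesOverPrime ℓ) (h5 : ¬ 5 ≤ ℓ) (x : Om M)
    (S : Finset (Om M)) (hx : IsCoordinate M ℓ x S) : GoodAt M A x S := by
  intro E hE
  obtain ⟨w, hw⟩ := partRStatement M A hA E hE
  obtain ⟨-, -, -, hxV, -, -, hgauss⟩ :=
    H24.gv_fields_of_isCoordinate (M := M) (A := A) (E := E) (Vc M A E) (coe_Vc M A E)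
      hw.w_mem hw.w_ne_zero hw.w_inv_not_mem hw.w_gen hw.w_discrete hx
  exact ⟨Vc M A E, w, coe_Vc M A E,
    H107.goodModel_of_isCoordinate107 M A hA h5 hx E (baseModel_j M A hℓM hA E hE hw)
      (H456.field_x_mem M E hx) hxV hgauss⟩

/-- **NODE MOD**: the concrete objects at level `M` form a good model
(exact type of `Integ.node_mod`, Skeleton v4c). -/
theorem node_mod (M : ℕ) [NeZero M] {ℓ : ℕ} [Fact ℓ.Prime] (hℓM : ¬ ℓ ∣ M)
    (A : ValuationSubring Qb) (hA : A.LiesOverPrime ℓ) : Mod.GoodModelStatement M ℓ A :=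
  goodModelStatement_of_parts M ℓ A
    (fun _ => partRStatement M A hA)
    (fun _ => partFldStatement_j M)
    (fun _ => partVStatement_j A hℓM hA)
    (fun _ => partQepStatement_j A hℓM hA)
    (fun _ => partSepStatement_j M A hℓM hA)
    (fun h5 S hS => partBrStatement_of_isCoordinate M A hA (jOm M) S (Or.inl ⟨h5, rfl, hS⟩))
    (fun h5 x S hx => goodAt_of_lt_five M A hℓM hA h5 x S hx)

end Fermat.Agent.S18.Mod.H216

end
end
-- ===== PACK-END S18/Mod/H216/NodeMod.lean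

-- ===== PACK-BEGIN S48/Red1/Transport.lean
section





/-!
# S48 / RES (Tower A1), sub-tower A1-RED: from the `Γ₀(M)`-models of S18 to the models on
`Ω' = Q̄ · F₀` (helper588)

`F₀ ⊇ modularFunctionFieldFull M`, `ι = iotaG : Om M → OmG F₀` the inclusion.  Images under `ι`
of the concrete objects of `S18/Mod/Defs.lean`, the uniformiser, descent to number fields and the
elementary properties of the Gauss ring `VcT` needed by the glue (`ConcreteFamily`).
-/

set_option autoImplicit false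

noncomputable section

namespace Fermat.Agent.S48.Red1

open ModularCurve AlgebraicCurve HahnSeries Fermat.Agent.S18 Fermat.Agent.S18.Alg
open Fermat.Agent.S18.Mod Fermat.Agent.S48.H248

variable (M : ℕ) (F₀ : IntermediateField ℚ (LaurentSeries ℚ))
  (hle : modularFunctionFieldFull M ≤ F₀)

/-- The inclusion `Ω = Q̄ · F_full(M) → Ω' = Q̄ · F₀`. -/
def iotaG : Om M →+* OmG F₀ := (Fermat.Agent.S48.F1.inclBar Qb hle).toRingHom

variable {M F₀}

@[simp] theorem coe_iotaG (f : Om M) :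
    ((iotaG M F₀ hle f : OmG F₀) : LaurentSeries Qb) = (f : LaurentSeries Qb) :=
  Fermat.Agent.S48.F1.coe_inclBar Qb hle f

theorem iotaG_algebraMap (c : Qb) : iotaG M F₀ hle (algebraMap Qb (Om M) c) = cstG F₀ c :=
  (Fermat.Agent.S48.F1.inclBar Qb hle).commutes c

theorem Lc_map_iotaG : (Lc M).map (iotaG M F₀ hle) = LcG F₀ := by
  ext y
  constructor
  · rintro ⟨_, ⟨c, rfl⟩, rfl⟩
    exact ⟨c, (iotaG_algebraMap hle c).symm⟩
  · rintro ⟨c, rfl⟩
    exact ⟨algebraMap Qb (Om M) c, ⟨c, rfl⟩, iotaG_algebraMap hle c⟩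

theorem Ec_map_iotaG (E : IntermediateField ℚ Qb) :
    (Ec M E).map (iotaG M F₀ hle) = EcG E.toSubfield (cstG F₀) := by
  ext y
  constructor
  · rintro ⟨_, ⟨c, hc, rfl⟩, rfl⟩
    exact (mem_EcG_iff _).mpr ⟨c, hc, (iotaG_algebraMap hle c).symm⟩
  · intro hy
    obtain ⟨c, hc, rfl⟩ := (mem_EcG_iff _).mp hy
    exact ⟨algebraMap Qb (Om M) c, ⟨c, hc, rfl⟩, iotaG_algebraMap hle c⟩

theorem Rc_map_iotaG (A : ValuationSubring Qb) (E : IntermediateField ℚ Qb) :
    (Rc M A E).map (iotaG M F₀ hle) = RcG A E.toSubfield (cstG F₀) := by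
  ext y
  constructor
  · rintro ⟨_, ⟨c, hc, rfl⟩, rfl⟩
    exact (mem_RcG_iff _).mpr ⟨c, hc.1, hc.2, (iotaG_algebraMap hle c).symm⟩
  · intro hy
    obtain ⟨c, hcA, hcE, rfl⟩ := (mem_RcG_iff _).mp hy
    exact ⟨algebraMap Qb (Om M) c, ⟨c, ⟨hcA, hcE⟩, rfl⟩, iotaG_algebraMap hle c⟩

theorem Ec_comap (E : IntermediateField ℚ Qb) :
    (Ec M E).comap (algebraMap Qb (Om M)) = E.toSubfield := by
  ext c
  constructor
  · rintro ⟨c', hc', h⟩
    have : c' = c := (algebraMap Qb (Om M)).injective h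
    exact this ▸ hc'
  · intro hc
    exact ⟨c, hc, rfl⟩

theorem iotaG_jd (d : ℕ) [NeZero d] (hd : d ∣ M) :
    iotaG M F₀ hle (jd M d hd) = embG F₀ ⟨qExpand ℚ d jq, hle (jqd_mem_full M hd)⟩ :=
  Subtype.ext (by rw [coe_iotaG]; rfl)

theorem Fc_map_le (E : IntermediateField ℚ Qb) :
    (Fc M E).map (iotaG M F₀ hle) ≤ FcT F₀ E.toSubfield := by
  rw [Subfield.map_le_iff_le_comap]
  unfold Fc
  rw [Subfield.closure_le]
  rintro y (hy | hy)
  · obtain ⟨c, hc, rfl⟩ := hy
    show iotaG M F₀ hle _ ∈ FcT F₀ E.toSubfield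
    rw [iotaG_algebraMap]
    exact cstG_mem_FcT hc
  · obtain ⟨d, hd, hdM, rfl⟩ := hy
    show iotaG M F₀ hle _ ∈ FcT F₀ E.toSubfield
    rw [iotaG_jd]
    exact embG_mem_FcT _ _

include hle in
theorem isInt_of_isIntE {A : ValuationSubring Qb} {E : IntermediateField ℚ Qb}
    {U : LaurentSeries A} (hU : IsIntE M A E U) :
    _root_.Fermat.Agent.S48.H248.IsInt A E.toSubfield (exG F₀) (FcT F₀ E.toSubfield) U := by
  obtain ⟨h1, f, hf, hfU⟩ := hU
  exact ⟨h1, iotaG M F₀ hle f, Fc_map_le hle E ⟨f, hf, rfl⟩, by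
    rw [exG_apply, coe_iotaG]; exact hfU⟩

theorem Vc_map_le (A : ValuationSubring Qb) (E : IntermediateField ℚ Qb) {f : Om M}
    (hf : f ∈ VcSet M A E) : iotaG M F₀ hle f ∈ VcT F₀ A E.toSubfield := by
  obtain ⟨hfF, U₁, U₂, h₁, h₂, hr, hfU⟩ := hf
  refine ⟨Fc_map_le hle E ⟨f, hfF, rfl⟩, U₁, U₂, isInt_of_isIntE hle h₁, isInt_of_isIntE hle h₂,
    hr, ?_⟩
  rw [exG_apply, coe_iotaG]
  exact hfU

/-! ### The uniformiser -/

/-- The uniformiser of a `Γ₀(M)`-model is the image of a uniformiser `w₀` of `A ∩ E`. -/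
theorem exists_isUnifG {A : ValuationSubring Qb} {E : IntermediateField ℚ Qb} {w : Om M}
    (hR : Mod.H216.PartR (Ec M E) (Rc M A E) w) :
    ∃ w₀ : Qb, algebraMap Qb (Om M) w₀ = w ∧ IsUnifG A E.toSubfield w₀ := by
  have hinj : Function.Injective (algebraMap Qb (Om M)) := (algebraMap Qb (Om M)).injective
  have hmem : ∀ c : Qb, algebraMap Qb (Om M) c ∈ Rc M A E ↔ c ∈ A ∧ c ∈ E := by
    intro c
    constructor
    · rintro ⟨c', hc', h⟩
      have : c' = c := hinj h
      exact this ▸ hc'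
    · intro hc
      exact ⟨c, hc, rfl⟩
  obtain ⟨w₀, hw₀, rfl⟩ := hR.w_mem
  refine ⟨w₀, rfl, hw₀.1, hw₀.2, ?_, ?_, ?_⟩
  · rintro rfl
    exact hR.w_ne_zero (map_zero _)
  · intro h
    apply hR.w_inv_not_mem
    rw [← map_inv₀, hmem]
    exact ⟨h, E.toSubfield.inv_mem hw₀.2⟩
  · intro c hcA hcE hc0
    obtain ⟨n, h1, h2⟩ := hR.w_discrete (algebraMap Qb (Om M) c) ((hmem c).mpr ⟨hcA, hcE⟩)
      ((map_ne_zero _).mpr hc0)
    refine ⟨n, ?_, ?_⟩
    · rw [← map_inv₀, ← map_pow, ← map_mul, hmem] at h1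
      exact h1.1
    · rw [← map_inv₀, ← map_pow, ← map_mul, ← map_inv₀, hmem] at h2
      exact h2.1

/-! ### Descent to number fields -/

variable (F₀) in
/-- **Descent.**  Every element of `Ω'` lies in `E · F₀` as soon as `E` contains a certain
finite set of constants. -/
theorem exists_finset_mem_FcT (f : OmG F₀) :
    ∃ T : Finset Qb, ∀ E : Subfield Qb, (∀ a ∈ T, a ∈ E) → f ∈ FcT F₀ E := by
  classical
  have key : ∀ x : LaurentSeries Qb, x ∈ laurentBaseChange Qb F₀ →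
      ∃ T : Finset Qb, ∀ E : Subfield Qb, (∀ a ∈ T, a ∈ E) →
        ∃ g ∈ FcT F₀ E, (g : LaurentSeries Qb) = x := by
    intro x hx
    rw [mem_laurentBaseChange_iff] at hx
    induction hx using Subfield.closure_induction with
    | mem y hy =>
        rcases hy with ⟨a, rfl⟩ | ⟨z, hz, rfl⟩
        · exact ⟨{a}, fun E hE => ⟨cstG F₀ a, cstG_mem_FcT (hE a (by simp)), rfl⟩⟩
        · exact ⟨∅, fun E _ => ⟨embG F₀ ⟨z, hz⟩, embG_mem_FcT E _, rfl⟩⟩
    | one => exact ⟨∅, fun E _ => ⟨1, one_mem _, rfl⟩⟩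
    | add x y _ _ hx hy =>
        obtain ⟨T₁, h₁⟩ := hx
        obtain ⟨T₂, h₂⟩ := hy
        refine ⟨T₁ ∪ T₂, fun E hE => ?_⟩
        obtain ⟨f, hf, hfx⟩ := h₁ E (fun a ha => hE a (Finset.mem_union_left _ ha))
        obtain ⟨g, hg, hgy⟩ := h₂ E (fun a ha => hE a (Finset.mem_union_right _ ha))
        exact ⟨f + g, add_mem hf hg, by rw [← hfx, ← hgy]; rfl⟩
    | neg x _ hx =>
        obtain ⟨T₁, h₁⟩ := hx
        refine ⟨T₁, fun E hE => ?_⟩
        obtain ⟨f, hf, hfx⟩ := h₁ E hE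
        exact ⟨-f, neg_mem hf, by rw [← hfx]; rfl⟩
    | inv x _ hx =>
        obtain ⟨T₁, h₁⟩ := hx
        refine ⟨T₁, fun E hE => ?_⟩
        obtain ⟨f, hf, hfx⟩ := h₁ E hE
        exact ⟨f⁻¹, inv_mem hf, by rw [← hfx]; rfl⟩
    | mul x y _ _ hx hy =>
        obtain ⟨T₁, h₁⟩ := hx
        obtain ⟨T₂, h₂⟩ := hy
        refine ⟨T₁ ∪ T₂, fun E hE => ?_⟩
        obtain ⟨f, hf, hfx⟩ := h₁ E (fun a ha => hE a (Finset.mem_union_left _ ha))
        obtain ⟨g, hg, hgy⟩ := h₂ E (fun a ha => hE a (Finset.mem_union_right _ ha))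
        exact ⟨f * g, mul_mem hf hg, by rw [← hfx, ← hgy]; rfl⟩
  obtain ⟨T, hT⟩ := key (f : LaurentSeries Qb) f.2
  refine ⟨T, fun E hE => ?_⟩
  obtain ⟨g, hg, hgf⟩ := hT E hE
  have : g = f := Subtype.ext hgf
  exact this ▸ hg

/-! ### Elementary properties of the Gauss ring -/

/-- `A`-integral elements of `E · F₀` lie in the Gauss ring. -/
theorem mem_VcT_of_coeff_mem {A : ValuationSubring Qb} {E : Subfield Qb} {f : OmG F₀}
    (hf : f ∈ FcT F₀ E) (hA : ∀ n : ℤ, (f : LaurentSeries Qb).coeff n ∈ A) :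
    f ∈ VcT F₀ A E := by
  obtain ⟨U, hU, hfU⟩ := exists_isInt_of_coeff_mem (ι := exG F₀) (E := E) hf hA
    (fun n => coeff_mem_of_mem_FcT hf n)
  exact mem_VSet_of_isInt hU hfU

/-- `A`-integral elements of `E · F₀` with nonzero reduction are units of the Gauss ring. -/
theorem inv_mem_VcT {A : ValuationSubring Qb} {E : Subfield Qb} {f : OmG F₀}
    (hf : f ∈ FcT F₀ E) (U : LaurentSeries A)
    (hfU : (f : LaurentSeries Qb) = coeffMap A.subtype U)
    (hU : coeffMap (IsLocalRing.residue A) U ≠ 0) : f⁻¹ ∈ VcT F₀ A E := by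
  have hUint : _root_.Fermat.Agent.S48.H248.IsInt A E (exG F₀) (FcT F₀ E) U := by
    refine ⟨fun n => ?_, f, hf, hfU⟩
    have := coeff_mem_of_mem_FcT hf n
    rw [hfU, coeffMap_coeff] at this
    exact this
  have hf0 : f ≠ 0 := by
    intro h0
    apply series_ne_zero_of_red_ne_zero hU
    rw [← hfU, h0]
    rfl
  refine ⟨inv_mem hf, 1, U, isInt_one, hUint, hU, ?_⟩
  show ((f⁻¹ : OmG F₀) : LaurentSeries Qb) * coeffMap A.subtype U = coeffMap A.subtype 1
  rw [← hfU, map_one]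
  have : ((f⁻¹ : OmG F₀) : LaurentSeries Qb) * (f : LaurentSeries Qb)
      = ((f⁻¹ * f : OmG F₀) : LaurentSeries Qb) := rfl
  rw [this, inv_mul_cancel₀ hf0]
  rfl

end Fermat.Agent.S48.Red1

end
end
-- ===== PACK-END S48/Red1/Transport.lean

-- ===== PACK-BEGIN S48/Red1/Asm.lean
section


/-!
# S48 / RES (Tower A1), sub-tower A1-RED: ASSEMBLY of the good family on `Ω' = Q̄ · F₀`
(helper588)

GENERIC in `F₀ ⊇ modularFunctionFieldFull M` (`F₀ = F1 M`, `F1p M 2`, `F1p M 3`, …), generated by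
series with integer coefficients (`IntGen F₀`).

**Leaves** (everything else is proved here from S18 `node_mod`):

* `TopLeaves F₀ A E w₀ j` (for the number fields `E ⊇ T₀`, `w₀` a uniformiser of `A ∩ E`), all at
  the coordinate `j`:
  - `finite`    : `E · F₀` is finite over `E(j)`;
  - `separable` : the residue field of the Gauss ring of `E · F₀` is separable over `κ(j̄)`;
  - `qep_fin`, `qep_inf` : the `q`-expansion principle for `E · F₀` (node IGUSA1);
* `H107.BranchJ107 (LcG F₀) j` : `Ω' / Q̄(j)` is unramified outside `0, 1728, ∞`, `e ≤ 3` over `0`,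
  `e ≤ 2` over `1728` (node A1-BR, `H648.j_inputs_of_embedding`).

**Result** `goodFamily_top` : for every prime `ℓ ∤ M`, every `A` over `ℓ` and every admissible
coordinate `x` of level `M` (`Mod.IsCoordinate M ℓ x S`: `j` for `ℓ ≥ 5`, `t₂` for `ℓ = 3`, `t₃` for
`ℓ = 2`) there is a good family on `Ω'` (coordinate `ι x`) which is concrete in the sense of
`GlueGen.lean`; hence (`coreGen_top`) the Kummer core `CoreGen F₀ A m` for all primes `m ≠ ℓ`.
-/

set_option autoImplicit false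

noncomputable section

namespace Fermat.Agent.S48.Red1

open ModularCurve AlgebraicCurve HahnSeries Fermat.Agent.S18 Fermat.Agent.S18.Alg
open Fermat.Agent.S18.Mod Fermat.Agent.S48.H248 Fermat.Agent.S18.H107 Fermat.Agent.S48.H588

/-- The leaves of the assembly at one number field `E` (see the module docstring). -/
structure TopLeaves (F₀ : IntermediateField ℚ (LaurentSeries ℚ)) (A : ValuationSubring Qb)
    (E : Subfield Qb) (w₀ : Qb) (j : OmG F₀) : Prop where
  finite : ∃ s : Finset (OmG F₀), (s : Set (OmG F₀)) ⊆ FcT F₀ E ∧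
    ∀ f ∈ FcT F₀ E, f ∈ Submodule.span (ratField (EcG E (cstG F₀)) j) (s : Set (OmG F₀))
  separable : ∀ f ∈ VcT F₀ A E, ∃ P : Polynomial (OmG F₀),
    (∀ i, P.coeff i ∈ polyRing (RcG A E (cstG F₀)) j) ∧
    P.eval f * (cstG F₀ w₀)⁻¹ ∈ VcT F₀ A E ∧ (Polynomial.derivative P).eval f ≠ 0 ∧
    ((Polynomial.derivative P).eval f)⁻¹ ∈ VcT F₀ A E
  qep_fin : ∀ b ∈ chart (FcT F₀ E) (RcG A E (cstG F₀)) j, b * (cstG F₀ w₀)⁻¹ ∈ VcT F₀ A E →
    b * (cstG F₀ w₀)⁻¹ ∈ chart (FcT F₀ E) (RcG A E (cstG F₀)) j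
  qep_inf : ∀ b ∈ chart (FcT F₀ E) (RcG A E (cstG F₀)) j⁻¹, b * (cstG F₀ w₀)⁻¹ ∈ VcT F₀ A E →
    b * (cstG F₀ w₀)⁻¹ ∈ chart (FcT F₀ E) (RcG A E (cstG F₀)) j⁻¹

variable {M : ℕ} {F₀ : IntermediateField ℚ (LaurentSeries ℚ)}
  (hle : modularFunctionFieldFull M ≤ F₀)

/-- The step `Ω → Ω'` at the coordinate `j`, from the leaves. -/
theorem stepQ_of_leaves (hF₀ : IntGen F₀) {A : ValuationSubring Qb}
    {E : IntermediateField ℚ Qb} {w₀ : Qb} (hunif : IsUnifG A E.toSubfield w₀)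
    (hL : TopLeaves F₀ A E.toSubfield w₀ (iotaG M F₀ hle (jOm M))) :
    StepQ (iotaG M F₀ hle) (Lc M) (Ec M E) (Fc M E) (Rc M A E) (Mod.H216.Vc M A E)
      (algebraMap Qb (Om M) w₀) (jOm M) (FcT F₀ E.toSubfield) (VcT F₀ A E.toSubfield) := by
  have hEF : ∀ c ∈ E.toSubfield, cstG F₀ c ∈ FcT F₀ E.toSubfield := fun c hc => cstG_mem_FcT hc
  refine
    { F_le := Fc_map_le hle E
      compositum := ?_
      E_closed := ?_
      finite := ?_
      V_le := VRing_le A E.toSubfield (exG F₀) (FcT F₀ E.toSubfield)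
      V_total := fun f hf => V_total (cstG F₀) (exG_cstG F₀) hEF hunif hf
        (isRatio_of_mem_FcT hF₀ A _ hf)
      V_le_V' := ?_
      w_inv_not_mem := ?_
      V_gen := ?_
      separable := ?_
      qep_fin := ?_
      qep_inf := ?_ }
  · rw [Lc_map_iotaG]
    exact closure_FcT_union_LcG _
  · rw [Ec_map_iotaG]
    exact E_closed_FcT _
  · rw [Ec_map_iotaG]
    exact hL.finite
  · rintro _ ⟨f, hf, rfl⟩
    exact Vc_map_le hle A E hf
  · rw [iotaG_algebraMap]
    exact w_inv_not_mem_VRing (cstG F₀) (exG_cstG F₀) hunif.ne_zero hunif.inv_not_mem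
  · rw [iotaG_algebraMap]
    exact fun f hf hinv => V_gen (cstG F₀) (exG_cstG F₀) hEF hunif hf hinv
  · rw [Rc_map_iotaG, iotaG_algebraMap]
    exact hL.separable
  · rw [Rc_map_iotaG, iotaG_algebraMap]
    exact hL.qep_fin
  · rw [Rc_map_iotaG, iotaG_algebraMap]
    exact hL.qep_inf

theorem mem_map_pair {Ω Ω' : Type*} [Field Ω] [Field Ω'] (ι : Ω →+* Ω') {S : Finset Ω} {a b : Ω}
    (hS : ∀ s, s ∈ S ↔ s = a ∨ s = b) (s : Ω') :
    s ∈ S.map ⟨ι, ι.injective⟩ ↔ s = ι a ∨ s = ι b := by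
  constructor
  · intro hs
    obtain ⟨s₀, hs₀, rfl⟩ := Finset.mem_map.mp hs
    rcases (hS s₀).mp hs₀ with rfl | rfl
    · exact Or.inl rfl
    · exact Or.inr rfl
  · rintro (rfl | rfl)
    · exact Finset.mem_map.mpr ⟨a, (hS a).mpr (Or.inl rfl), rfl⟩
    · exact Finset.mem_map.mpr ⟨b, (hS b).mpr (Or.inr rfl), rfl⟩

variable [NeZero M] {ℓ : ℕ} [Fact ℓ.Prime]

/-- **The `j`-model at the top** (without the branch fields), for every `ℓ ∤ M`. -/
theorem baseModel_top (hF₀ : IntGen F₀) (hℓM : ¬ ℓ ∣ M) {A : ValuationSubring Qb}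
    (hA : A.LiesOverPrime ℓ) {E : IntermediateField ℚ Qb} [FiniteDimensional ℚ E] {w₀ : Qb}
    (hR : Mod.H216.PartR (Ec M E) (Rc M A E) (algebraMap Qb (Om M) w₀))
    (hunif : IsUnifG A E.toSubfield w₀)
    (hL : TopLeaves F₀ A E.toSubfield w₀ (iotaG M F₀ hle (jOm M))) :
    BaseModel107 (LcG F₀) (EcG E.toSubfield (cstG F₀)) (FcT F₀ E.toSubfield)
      (RcG A E.toSubfield (cstG F₀)) (VcT F₀ A E.toSubfield) (cstG F₀ w₀)
      (iotaG M F₀ hle (jOm M)) := by
  have hb := Fermat.Agent.S18.H24.baseModel_j M A E hℓM hA hR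
  have h := baseModel_stepQ hb (stepQ_of_leaves hle hF₀ hunif hL)
  rwa [Lc_map_iotaG, Ec_map_iotaG, Rc_map_iotaG, iotaG_algebraMap] at h

/-- **The good model at the top**, for every admissible coordinate. -/
theorem goodModel_top (hF₀ : IntGen F₀) (hℓM : ¬ ℓ ∣ M) {A : ValuationSubring Qb}
    (hA : A.LiesOverPrime ℓ) {x : Om M} {S : Finset (Om M)} (hx : IsCoordinate M ℓ x S)
    {E : IntermediateField ℚ Qb} [FiniteDimensional ℚ E] {w₀ : Qb}
    (hg : GoodModel (Lc M) (Ec M E) (Fc M E) (Rc M A E) (Mod.H216.Vc M A E)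
      (algebraMap Qb (Om M) w₀) x S)
    (hL : TopLeaves F₀ A E.toSubfield w₀ (iotaG M F₀ hle (jOm M)))
    (hbr : BranchJ107 (LcG F₀) (iotaG M F₀ hle (jOm M))) :
    GoodModel (LcG F₀) (EcG E.toSubfield (cstG F₀)) (FcT F₀ E.toSubfield)
      (RcG A E.toSubfield (cstG F₀)) (VcT F₀ A E.toSubfield) (cstG F₀ w₀)
      (iotaG M F₀ hle x) (S.map ⟨iotaG M F₀ hle, (iotaG M F₀ hle).injective⟩) := by
  set ι := iotaG M F₀ hle with hι
  have hR : Mod.H216.PartR (Ec M E) (Rc M A E) (algebraMap Qb (Om M) w₀) :=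
    ⟨hg.R_le, hg.R_total, hg.w_mem, hg.w_ne_zero, hg.w_inv_not_mem, hg.w_gen, hg.w_discrete,
      hg.residue_perfect⟩
  obtain ⟨w₁, hw₁, hunif'⟩ := exists_isUnifG hR
  have hw₁' : w₁ = w₀ := (algebraMap Qb (Om M)).injective hw₁
  have hunif : IsUnifG A E.toSubfield w₀ := hw₁' ▸ hunif'
  have hb := baseModel_top hle hF₀ hℓM hA hR hunif hL
  have hVV : (Mod.H216.Vc M A E).map ι ≤ VcT F₀ A E.toSubfield := by
    rintro _ ⟨f, hf, rfl⟩
    exact Vc_map_le hle A E hf
  have hgauss : ∀ P : Polynomial (OmG F₀), (∀ i, P.coeff i ∈ RcG A E.toSubfield (cstG F₀)) →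
      (∃ i, P.coeff i ≠ 0 ∧ (P.coeff i)⁻¹ ∈ RcG A E.toSubfield (cstG F₀)) →
      (P.eval (ι x))⁻¹ ∈ VcT F₀ A E.toSubfield := by
    have h := gauss_stepQ (ι := ι) (baseModel_of_goodModel107 hg) hVV
    rwa [Rc_map_iotaG] at h
  have hxF : ι x ∈ FcT F₀ E.toSubfield := Fc_map_le hle E ⟨x, hg.x_mem, rfl⟩
  have hxV : ι x ∈ VcT F₀ A E.toSubfield := hVV ⟨x, hg.x_mem_V, rfl⟩
  have hRmem : ∀ r ∈ Rc M A E, ι r ∈ RcG A E.toSubfield (cstG F₀) := by
    intro r hr
    rw [← Rc_map_iotaG hle]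
    exact ⟨r, hr, rfl⟩
  rcases hx with ⟨h5, hxj, hS⟩ | ⟨h | h, -⟩
  · -- `ℓ ≥ 5`, `x = j`
    subst hxj
    refine hb.toGoodModel _ ?_ ?_ ?_ ?_
    · intro s hs
      obtain ⟨s₀, hs₀, rfl⟩ := Finset.mem_map.mp hs
      exact hRmem _ (hg.S_mem s₀ hs₀)
    · intro s hs t ht hst
      obtain ⟨s₀, hs₀, rfl⟩ := Finset.mem_map.mp hs
      obtain ⟨t₀, ht₀, rfl⟩ := Finset.mem_map.mp ht
      have hne : s₀ ≠ t₀ := fun he => hst (by rw [he])
      have := hRmem _ (hg.S_distinct s₀ hs₀ t₀ ht₀ hne)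
      simpa [map_inv₀, map_sub] using this
    · intro s hs hs0
      obtain ⟨s₀, hs₀, rfl⟩ := Finset.mem_map.mp hs
      have hne : s₀ ≠ 0 := fun he => hs0 (by simp [he])
      have := hRmem _ (hg.S_unit s₀ hs₀ hne)
      simpa [map_inv₀] using this
    · intro O hO c hc hcS h1 h2 t ht ht'
      have hmem := mem_map_pair ι hS
      have hc0 : c ≠ 0 := by
        rintro rfl
        exact hcS ((hmem 0).mpr (Or.inl (map_zero ι).symm))
      have hc1 : c ≠ 1728 := by
        rintro rfl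
        exact hcS ((hmem 1728).mpr (Or.inr (map_ofNat ι 1728).symm))
      have := hbr.generic O hO c hc hc0 hc1 h1 h2 t ht ht'
      rwa [pow_one] at this
  · -- `ℓ = 3`, `x = t₂`
    obtain ⟨hℓ3, hrel, hS⟩ := h
    have h2 : (2 : OmG F₀)⁻¹ ∈ RcG A E.toSubfield (cstG F₀) := by
      have h4 := inv_natCast_mem_Rc107 M A E hA 4 1 (by rw [hℓ3])
      have e : (2 : Om M)⁻¹ = 2 * ((4 : ℕ) : Om M)⁻¹ := by
        have := hg.charZero
        push_cast
        norm_num
      have h2' : (2 : Om M)⁻¹ ∈ Rc M A E := by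
        rw [e]
        exact (Rc M A E).mul_mem (ofNat_mem _ 2) h4
      have := hRmem _ h2'
      rwa [map_inv₀, map_ofNat] at this
    have hrel' : ι (jOm M) * (ι x) ^ 2 = (ι x + 256) ^ 3 := by
      have := congrArg ι hrel
      rwa [map_mul, map_pow, map_pow, map_add, map_ofNat] at this
    refine goodModel_t2_107 hb hbr hrel' hxF hxV h2 hgauss ?_
    intro s
    rw [mem_map_pair ι hS, map_zero, map_neg, map_ofNat]
  · -- `ℓ = 2`, `x = t₃`
    obtain ⟨hℓ2, hrel, hS⟩ := h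
    have h3 : (3 : OmG F₀)⁻¹ ∈ RcG A E.toSubfield (cstG F₀) := by
      have h3' := inv_natCast_mem_Rc107 M A E hA 3 1 (by rw [hℓ2])
      have := hRmem _ h3'
      rwa [map_inv₀, map_natCast] at this
    have hrel' : ι (jOm M) * (ι x) ^ 3 = (ι x + 27) * (ι x + 243) ^ 3 := by
      have := congrArg ι hrel
      rwa [map_mul, map_pow, map_mul, map_pow, map_add, map_add, map_ofNat, map_ofNat] at this
    refine goodModel_t3_107 hb hbr hrel' hxF hxV h3 hgauss ?_
    intro s
    rw [mem_map_pair ι hS, map_zero, map_neg, map_ofNat]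

/-- The function field and the Gauss ring at the top over a member of the S18 family. -/
def PhiT (M : ℕ) (F₀ : IntermediateField ℚ (LaurentSeries ℚ)) (A : ValuationSubring Qb)
    (p : Model (Om M)) : Subfield (OmG F₀) × Subring (OmG F₀) :=
  (FcT F₀ (p.1.comap (algebraMap Qb (Om M))), VcT F₀ A (p.1.comap (algebraMap Qb (Om M))))

omit [NeZero M] in
theorem PhiT_mono (A : ValuationSubring Qb) {p p' : Model (Om M)} (h : Model.le p p') :
    (PhiT M F₀ A p).1 ≤ (PhiT M F₀ A p').1 ∧ (PhiT M F₀ A p).2 ≤ (PhiT M F₀ A p').2 := by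
  have hc : p.1.comap (algebraMap Qb (Om M)) ≤ p'.1.comap (algebraMap Qb (Om M)) :=
    fun c hc => h.1 hc
  exact ⟨FcT_mono hc, VcT_mono A hc⟩

/-- **ASSEMBLY.**  The good family on `Ω' = Q̄ · F₀`, concrete in the sense of `GlueGen.lean`. -/
theorem goodFamily_top (hF₀ : IntGen F₀) (hℓM : ¬ ℓ ∣ M) (A : ValuationSubring Qb)
    (hA : A.LiesOverPrime ℓ) {x : Om M} {S : Finset (Om M)} (hx : IsCoordinate M ℓ x S)
    (T₀ : Finset Qb)
    (hleaf : ∀ (E : IntermediateField ℚ Qb) (w₀ : Qb), FiniteDimensional ℚ E →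
      (∀ a ∈ T₀, a ∈ E) → IsUnifG A E.toSubfield w₀ →
      TopLeaves F₀ A E.toSubfield w₀ (iotaG M F₀ hle (jOm M)))
    (hbr : BranchJ107 (LcG F₀) (iotaG M F₀ hle (jOm M))) :
    ∃ 𝓕' : Set (Model (OmG F₀)),
      GoodFamily (LcG F₀) (iotaG M F₀ hle x)
        (S.map ⟨iotaG M F₀ hle, (iotaG M F₀ hle).injective⟩) 𝓕' ∧
      ConcreteFamily F₀ A 𝓕' := by
  classical
  set ι := iotaG M F₀ hle with hι
  obtain ⟨𝓕, hsub, hfam, hT⟩ := Mod.H216.node_mod M hℓM A hA x S hx
  set T₁ : Finset (Om M) := T₀.image (algebraMap Qb (Om M)) with hT₁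
  have hfam₀ := goodFamily_restrict hfam T₁ (by
    intro a ha
    obtain ⟨c, -, rfl⟩ := Finset.mem_image.mp ha
    exact ⟨c, rfl⟩)
  set 𝓕₀ : Set (Model (Om M)) := {p | p ∈ 𝓕 ∧ ∀ a ∈ T₁, a ∈ p.1} with h𝓕₀
  -- the shape of the members
  have hshape : ∀ p ∈ 𝓕₀, ∃ (E : IntermediateField ℚ Qb) (w₀ : Qb), FiniteDimensional ℚ E ∧
      (∀ a ∈ T₀, a ∈ E) ∧
      p = (Ec M E, Fc M E, Rc M A E, Mod.H216.Vc M A E, algebraMap Qb (Om M) w₀) := by
    rintro ⟨Ec', Fc', R', V', w⟩ ⟨hp, hpT⟩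
    obtain ⟨E, hfd, h1, h2, h3, h4⟩ := hsub hp
    simp only at h1 h2 h3 h4 hpT
    subst h1 h2 h3
    have hV : V' = Mod.H216.Vc M A E := SetLike.coe_injective h4
    subst hV
    have hg := hfam.good _ hp
    obtain ⟨w₀, hw₀, rfl⟩ := hg.w_mem
    refine ⟨E, w₀, hfd, fun a ha => ?_, rfl⟩
    have := hpT _ (Finset.mem_image_of_mem _ ha)
    obtain ⟨c, hc, hca⟩ := this
    have : c = a := (algebraMap Qb (Om M)).injective hca
    exact this ▸ hc
  have hlift : ∀ (E : IntermediateField ℚ Qb) (w₀ : Qb),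
      liftModel ι (PhiT M F₀ A)
        (Ec M E, Fc M E, Rc M A E, Mod.H216.Vc M A E, algebraMap Qb (Om M) w₀)
      = (EcG E.toSubfield (cstG F₀), FcT F₀ E.toSubfield, RcG A E.toSubfield (cstG F₀),
          VcT F₀ A E.toSubfield, cstG F₀ w₀) := by
    intro E w₀
    unfold liftModel PhiT
    simp only
    rw [Ec_map_iotaG, Rc_map_iotaG, Ec_comap, iotaG_algebraMap]
  refine ⟨liftModel ι (PhiT M F₀ A) '' 𝓕₀, ?_, ?_⟩
  · have h := goodFamily_lift (ι := ι) hfam₀ (PhiT M F₀ A) (ι x)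
      (S.map ⟨ι, ι.injective⟩) ?_ (fun p _ p' _ hpp => PhiT_mono A hpp)
    · rwa [Lc_map_iotaG] at h
    · intro p hp
      obtain ⟨E, w₀, hfd, hET, rfl⟩ := hshape p hp
      have hg := hfam.good _ hp.1
      have hR : Mod.H216.PartR (Ec M E) (Rc M A E) (algebraMap Qb (Om M) w₀) :=
        ⟨hg.R_le, hg.R_total, hg.w_mem, hg.w_ne_zero, hg.w_inv_not_mem, hg.w_gen,
          hg.w_discrete, hg.residue_perfect⟩
      obtain ⟨w₁, hw₁, hunif'⟩ := exists_isUnifG hR
      have hw₁' : w₁ = w₀ := (algebraMap Qb (Om M)).injective hw₁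
      have hunif : IsUnifG A E.toSubfield w₀ := hw₁' ▸ hunif'
      have htop := goodModel_top hle hF₀ hℓM hA hx hg (hleaf E w₀ hfd hET hunif) hbr
      have e := hlift E w₀
      rw [Lc_map_iotaG]
      have e1 := congrArg (fun q : Model (OmG F₀) => q.1) e
      have e2 := congrArg (fun q : Model (OmG F₀) => q.2.1) e
      have e3 := congrArg (fun q : Model (OmG F₀) => q.2.2.1) e
      have e4 := congrArg (fun q : Model (OmG F₀) => q.2.2.2.1) e
      have e5 := congrArg (fun q : Model (OmG F₀) => q.2.2.2.2) e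
      simp only [liftModel] at e1 e2 e3 e4 e5
      rw [e1, e2, e3, e4, e5]
      exact htop
  · -- concreteness
    have hmem : ∀ p' ∈ liftModel ι (PhiT M F₀ A) '' 𝓕₀, ∃ (E : IntermediateField ℚ Qb)
        (w₀ : Qb), p' = (EcG E.toSubfield (cstG F₀), FcT F₀ E.toSubfield,
          RcG A E.toSubfield (cstG F₀), VcT F₀ A E.toSubfield, cstG F₀ w₀) := by
      rintro _ ⟨p, hp, rfl⟩
      obtain ⟨E, w₀, -, -, rfl⟩ := hshape p hp
      exact ⟨E, w₀, hlift E w₀⟩
    refine
      { exists_member := ?_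
        E_const := ?_
        R_iff := ?_
        coeff_mem := ?_
        int_mem_V := ?_
        unit_V := ?_ }
    · intro f g
      obtain ⟨Tf, hTf⟩ := exists_finset_mem_FcT F₀ f
      obtain ⟨Tg, hTg⟩ := exists_finset_mem_FcT F₀ g
      obtain ⟨E, V, w, hfd, hTE, hV, hmemF⟩ := hT (Tf ∪ Tg ∪ T₀)
      have hV' : V = Mod.H216.Vc M A E := SetLike.coe_injective hV
      subst hV'
      have hp₀ : ((Ec M E, Fc M E, Rc M A E, Mod.H216.Vc M A E, w) : Model (Om M)) ∈ 𝓕₀ := by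
        refine ⟨hmemF, fun a ha => ?_⟩
        obtain ⟨c, hc, rfl⟩ := Finset.mem_image.mp ha
        exact ⟨c, hTE c (Finset.mem_union_right _ hc), rfl⟩
      refine ⟨_, ⟨_, hp₀, rfl⟩, ?_, ?_⟩
      · show f ∈ FcT F₀ ((Ec M E).comap (algebraMap Qb (Om M)))
        rw [Ec_comap]
        exact hTf _ (fun a ha =>
          hTE a (Finset.mem_union_left _ (Finset.mem_union_left _ ha)))
      · show g ∈ FcT F₀ ((Ec M E).comap (algebraMap Qb (Om M)))
        rw [Ec_comap]
        exact hTg _ (fun a ha =>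
          hTE a (Finset.mem_union_left _ (Finset.mem_union_right _ ha)))
    · intro p' hp' e he
      obtain ⟨E, w₀, rfl⟩ := hmem p' hp'
      obtain ⟨c, -, hc⟩ := (mem_EcG_iff _).mp he
      exact ⟨c, hc⟩
    · intro p' hp' a
      obtain ⟨E, w₀, rfl⟩ := hmem p' hp'
      show cstG F₀ a ∈ RcG A E.toSubfield (cstG F₀) ↔ a ∈ A ∧ cstG F₀ a ∈ EcG E.toSubfield (cstG F₀)
      rw [cst_mem_RcG_iff]
      constructor
      · rintro ⟨h1, h2⟩
        exact ⟨h1, (mem_EcG_iff _).mpr ⟨a, h2, rfl⟩⟩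
      · rintro ⟨h1, h2⟩
        obtain ⟨c, hc, hca⟩ := (mem_EcG_iff _).mp h2
        have : c = a := (cstG F₀).injective hca
        exact ⟨h1, this ▸ hc⟩
    · intro p' hp' f hf n
      obtain ⟨E, w₀, rfl⟩ := hmem p' hp'
      exact (mem_EcG_iff _).mpr ⟨_, coeff_mem_of_mem_FcT hf n, rfl⟩
    · intro p' hp' f hf hA'
      obtain ⟨E, w₀, rfl⟩ := hmem p' hp'
      exact mem_VcT_of_coeff_mem hf hA'
    · intro p' hp' f hf U hfU hU
      obtain ⟨E, w₀, rfl⟩ := hmem p' hp'
      exact inv_mem_VcT hf U hfU hU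

end Fermat.Agent.S48.Red1

end
end
-- ===== PACK-END S48/Red1/Asm.lean

-- ===== PACK-BEGIN S18/B12/H33/B2Regular.lean
section












/-!
# S18 b2 (squad S18/S33, assembled by helper33): `b2Regular : B2RegularStatement`, UNCONDITIONAL

This is output O1 of piece b2 of Route K (see `B12/Spec3.lean`): for a finite, torsion-free,
integrally closed `R[X]`-algebra `B` (`R` a DVR-like PID of characteristic 0 with prime `w`) whose
special fibre `B / w B` is a domain and generically separable over `k[X]`, tame at the primes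
`X - c` (`c ∈ S`, distinct mod `w`) and unramified (reduced fibre) at all other primes of `R[X]`,
the ring `B` is regular along `w`:  `H754.RegularAlong (algebraMap R[X] B (C w))`.

Pieces (all sorry-free, standard axioms):
* A0, A2, A2' (regular sequence, local bases, rank)  : helper93  (`B12/H93`; also helper873)
* A3  (discriminant reduction)                        : helper393 (`B12/H393`; also helper203/204)
* A4, A1 (UFD step, polynomial-ring instance)         : helper203 (`B12/H203`; also helper245/693)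
* A5  (generic discriminant, tame)                    : helper444 (`B12/H444`, via helper274 P3)
* A5' (reduction basis)                               : helper203 (`B12/H203`; also helper245/633)
* A8, A9 (integrally closed fibre, Dedekind => regular): helper84 (`B12/H84`, via helper278 P2;
                                                        also helper231/845)
* heart A6' and glue O1                               : helper33  (`B12/H33`)
-/

set_option autoImplicit false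

namespace Fermat.Agent.S18.B12.H33

universe u v

/-- **A6' (heart of b2), unconditional.** -/
theorem b2CoreAbs : B2CoreAbsStatement.{u, v} :=
  b2CoreAbs_of_pieces H93.regSeqAbs H93.localBasis H93.localBasisRank H393.discrRed
    H203.ufdStep H444.genericDiscr H203.redBasisAbs

/-- **O1 = b2, unconditional**: `H754.RegularAlong (C w)` for the chart ring. -/
theorem b2Regular : B2RegularStatement.{u, v} :=
  b2Regular_of_pieces b2CoreAbs H93.regSeqAbs H84.a8 H84.a9 H203.polyInst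

end Fermat.Agent.S18.B12.H33

end
-- ===== PACK-END S18/B12/H33/B2Regular.lean

-- ===== PACK-BEGIN S18/B12/H33/RegChart.lean
section






/-!
# S18 b2 (helper33): REG-CHART — `b2Regular` instantiated on the charts of helper138

Setting (the one of `H138.connected_special_fibre`): `R` a discrete valuation ring, `F` a field of
characteristic `0` which is an `R`-algebra, `x : F` transcendental over `R`,
`[FiniteDimensional (H138.baseField R x) F]`, and the chart
`B := H138.chart R {x} : Subalgebra R F` (the integral closure of `R[x]` in `F`).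

Main result `regularAlong_chart`:

    H754.RegularAlong (algebraMap R (H138.chart R {x}) w)

from
* `hdom` : `w` is prime in the chart (QEP),
* `hsep` : elementwise separability of the special fibre (shape of `H425.hsep_poly`),
* `S`, `hS` : the branch values, pairwise distinct mod `w`,
* `hNC` : for every prime `π` of `R[X]` not associated to `w` or to some `X - c` (`c ∈ S`), the
  ideal `π(x) B` is radical (unramifiedness away from `S`, from `GoodModel.unramified`).

All the instance plumbing (`R[X]`-algebra structure through `aeval x`, finiteness, torsion-freeness,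
integral closedness) is done here.  `regularAlong_chart_field` is the same theorem with the
hypotheses `hsep`, `hNC` stated by elements of `F`.
-/

set_option autoImplicit false
set_option linter.style.haveILetI false

noncomputable section

namespace Fermat.Agent.S18.B12.H33

open Polynomial

universe u v

section RegChart

variable (R : Type u) [CommRing R] {F : Type v} [Field F] [Algebra R F]

/-- The coordinate `x` as an element of the chart. -/
def chartX (x : F) : H138.chart R ({x} : Set F) := ⟨x, H138.mem_chart_of_mem rfl⟩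

/-- The structure map `R[X] → B`, `X ↦ x`. -/
def chartPolyHom (x : F) : R[X] →ₐ[R] H138.chart R ({x} : Set F) := aeval (chartX R x)

variable {R}

@[simp] theorem coe_chartX (x : F) : ((chartX R x : H138.chart R ({x} : Set F)) : F) = x := rfl

theorem chartPolyHom_apply (x : F) (p : R[X]) : chartPolyHom R x p = aeval (chartX R x) p := rfl

theorem coe_chartPolyHom (x : F) (p : R[X]) :
    ((chartPolyHom R x p : H138.chart R ({x} : Set F)) : F) = aeval x p := by
  have h := Polynomial.aeval_algHom_apply (H138.chart R ({x} : Set F)).val (chartX R x) p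
  rw [chartPolyHom_apply]
  exact h.symm

theorem chartPolyHom_C (x : F) (r : R) :
    chartPolyHom R x (C r) = algebraMap R (H138.chart R ({x} : Set F)) r := by
  rw [chartPolyHom_apply, aeval_C]

theorem chartPolyHom_injective {x : F} (hx : Transcendental R x) :
    Function.Injective (chartPolyHom R x) := by
  rw [injective_iff_map_eq_zero]
  intro p hp
  have h : aeval x p = 0 := by
    rw [← coe_chartPolyHom, hp]; rfl
  exact transcendental_iff.1 hx p h

theorem algebraMap_injective_of_transcendental {x : F} (hx : Transcendental R x) :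
    Function.Injective (algebraMap R F) := by
  rw [injective_iff_map_eq_zero]
  intro r hr
  have h : aeval x (C r : R[X]) = 0 := by rw [aeval_C, hr]
  have := transcendental_iff.1 hx _ h
  exact C_eq_zero.1 this

end RegChart

section Package

variable {R : Type u} [CommRing R] {F : Type v} [Field F] [Algebra R F]

/-- The `R[X]`-algebra structure of the chart (`X ↦ x`).  Not an instance. -/
@[reducible] def chartAlgebra (R : Type u) [CommRing R] {F : Type v} [Field F] [Algebra R F]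
    (x : F) : Algebra R[X] (H138.chart R ({x} : Set F)) :=
  (chartPolyHom R x).toRingHom.toAlgebra

/-- The chart is (tautologically) the integral closure of `R[x]` in `F`. -/
def chartEquiv (x : F) :
    integralClosure (Algebra.adjoin R ({x} : Set F)) F ≃+* H138.chart R ({x} : Set F) where
  toFun c := ⟨c.1, c.2⟩
  invFun c := ⟨c.1, c.2⟩
  left_inv _ := rfl
  right_inv _ := rfl
  map_mul' _ _ := rfl
  map_add' _ _ := rfl

/-- `R[X] ≃ R[x]` for transcendental `x`. -/
def polyEquivAdjoin {x : F} (hx : Transcendental R x) :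
    R[X] ≃ₐ[R] Algebra.adjoin R ({x} : Set F) :=
  (AlgEquiv.ofInjective (aeval (R := R) x)
    ((injective_iff_map_eq_zero _).2 (transcendental_iff.1 hx))).trans
      (Subalgebra.equivOfEq _ _ (Algebra.adjoin_singleton_eq_range_aeval R x).symm)

theorem coe_polyEquivAdjoin {x : F} (hx : Transcendental R x) (p : R[X]) :
    ((polyEquivAdjoin hx p : Algebra.adjoin R ({x} : Set F)) : F) = aeval x p := rfl

/-- The chart is integrally closed and finite over `R[X]`. -/
theorem chart_package [IsDomain R] [IsNoetherianRing R] [IsIntegrallyClosed R[X]] [CharZero F]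
    {x : F} (hx : Transcendental R x) [FiniteDimensional (H138.baseField R x) F] :
    IsIntegrallyClosed (H138.chart R ({x} : Set F)) ∧
      @Module.Finite R[X] (H138.chart R ({x} : Set F)) _ _ (chartAlgebra R x).toModule := by
  classical
  set A : Subalgebra R F := Algebra.adjoin R ({x} : Set F) with hA
  set K : Subfield F := H138.baseField R x with hK
  haveI := H138.isIntegrallyClosed_adjoin_singleton (R := R) hx
  haveI := H138.isNoetherianRing_adjoin_singleton (R := R) hx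
  let φ : A →+* K :=
    { toFun := fun a => ⟨a, H138.adjoin_le_baseField x a.2⟩
      map_one' := rfl
      map_mul' := fun _ _ => rfl
      map_zero' := rfl
      map_add' := fun _ _ => rfl }
  letI : Algebra A K := φ.toAlgebra
  haveI : IsScalarTower A K F := IsScalarTower.of_algebraMap_eq (fun _ => rfl)
  have hinj : Function.Injective (algebraMap A K) := by
    intro a b hab
    have : (a : F) = b := congrArg (fun t : K => (t : F)) hab
    exact Subtype.ext this
  haveI : FaithfulSMul A K := (faithfulSMul_iff_algebraMap_injective A K).2 hinj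
  haveI : IsFractionRing A K := by
    refine IsFractionRing.of_field A K (fun z => ?_)
    obtain ⟨a, ha, b, hb, h⟩ := H138.exists_div_of_mem_baseField (R := R) x z.2
    exact ⟨⟨a, ha⟩, ⟨b, hb⟩, Subtype.ext h⟩
  haveI : CharZero K := (algebraMap K F).charZero
  haveI hfinA : Module.Finite A (integralClosure A F) :=
    IsIntegralClosure.finite A K F (integralClosure A F)
  haveI hic : IsIntegrallyClosed (integralClosure A F) :=
    integralClosure.isIntegrallyClosedOfFiniteExtension K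
  refine ⟨IsIntegrallyClosed.of_equiv (chartEquiv x), ?_⟩
  letI := chartAlgebra R x
  refine Module.Finite.of_equiv_equiv (A₁ := A) (B₁ := integralClosure A F)
    (polyEquivAdjoin hx).symm.toRingEquiv (chartEquiv x) ?_
  refine RingHom.ext (fun a => ?_)
  obtain ⟨p, rfl⟩ := (polyEquivAdjoin hx).surjective a
  apply Subtype.ext
  simp only [RingHom.comp_apply, RingHom.coe_coe,
    AlgEquiv.coe_ringEquiv, AlgEquiv.symm_apply_apply]
  change ((chartPolyHom R x p : H138.chart R ({x} : Set F)) : F) = _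
  rw [coe_chartPolyHom]
  rfl

end Package

section Coe

variable {R : Type u} [CommRing R] {F : Type v} [Field F] [Algebra R F]

/-- Divisibility by `w` in the chart, in terms of elements of `F`. -/
theorem algebraMap_dvd_chart_iff {x : F} (w : R) (z : H138.chart R ({x} : Set F)) :
    algebraMap R (H138.chart R ({x} : Set F)) w ∣ z ↔
      ∃ t ∈ H138.chart R ({x} : Set F), (z : F) = algebraMap R F w * t := by
  constructor
  · rintro ⟨t, rfl⟩
    exact ⟨t, t.2, rfl⟩
  · rintro ⟨t, ht, h⟩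
    exact ⟨⟨t, ht⟩, Subtype.ext h⟩

/-- Divisibility by `π(x)` in the chart, in terms of elements of `F`. -/
theorem chartPolyHom_dvd_chart_iff {x : F} (π : R[X]) (z : H138.chart R ({x} : Set F)) :
    chartPolyHom R x π ∣ z ↔
      ∃ t ∈ H138.chart R ({x} : Set F), (z : F) = aeval x π * t := by
  constructor
  · rintro ⟨t, rfl⟩
    exact ⟨t, t.2, by rw [Subalgebra.coe_mul, coe_chartPolyHom]⟩
  · rintro ⟨t, ht, h⟩
    exact ⟨⟨t, ht⟩, Subtype.ext (by rw [Subalgebra.coe_mul, coe_chartPolyHom]; exact h)⟩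

/-- Evaluation of a lifted polynomial, in terms of elements of `F`. -/
theorem coe_eval₂_chartPolyHom {x : F} (Q : R[X][X]) (b : H138.chart R ({x} : Set F)) :
    ((Q.eval₂ (chartPolyHom R x : R[X] →+* H138.chart R ({x} : Set F)) b :
      H138.chart R ({x} : Set F)) : F)
      = (Q.map (aeval x : R[X] →ₐ[R] F).toRingHom).eval (b : F) := by
  have h := Polynomial.hom_eval₂ Q (chartPolyHom R x : R[X] →+* H138.chart R ({x} : Set F))
    (H138.chart R ({x} : Set F)).val.toRingHom b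
  rw [eval_map]
  have hcomp : ((H138.chart R ({x} : Set F)).val.toRingHom.comp
      (chartPolyHom R x : R[X] →+* H138.chart R ({x} : Set F)))
      = (aeval x : R[X] →ₐ[R] F).toRingHom := by
    refine RingHom.ext (fun p => ?_)
    exact coe_chartPolyHom x p
  rw [hcomp] at h
  exact h

end Coe

section Main

variable {R : Type u} [CommRing R] [IsDomain R] [IsDiscreteValuationRing R]
  {F : Type v} [Field F] [CharZero F] [Algebra R F]

/-- **REG-CHART.**  `b2Regular` on the chart `H138.chart R {x}`: the special fibre of the chart is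
regular at every closed point. -/
theorem regularAlong_chart
    {x : F} (hx : Transcendental R x) [FiniteDimensional (H138.baseField R x) F]
    (w : R) (hw : Irreducible w)
    (hdom : Prime (algebraMap R (H138.chart R ({x} : Set F)) w))
    (hsep : ∀ b : H138.chart R ({x} : Set F), ∃ P : R[X][X],
        algebraMap R (H138.chart R ({x} : Set F)) w ∣
          P.eval₂ (chartPolyHom R x : R[X] →+* H138.chart R ({x} : Set F)) b ∧
        ¬ algebraMap R (H138.chart R ({x} : Set F)) w ∣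
          (derivative P).eval₂ (chartPolyHom R x : R[X] →+* H138.chart R ({x} : Set F)) b)
    (S : Finset R) (hS : ∀ c ∈ S, ∀ c' ∈ S, c ≠ c' → IsUnit (c - c'))
    (hNC : ∀ π : R[X], Prime π → ¬ Associated π (C w) → (∀ c ∈ S, ¬ Associated π (X - C c)) →
        (Ideal.span {chartPolyHom R x π}).IsRadical) :
    H754.RegularAlong (algebraMap R (H138.chart R ({x} : Set F)) w) := by
  classical
  haveI : CharZero R := (algebraMap R F).charZero
  obtain ⟨hic, hfin⟩ := chart_package (R := R) hx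
  letI := chartAlgebra R x
  haveI := hic
  haveI := hfin
  haveI : Module.IsTorsionFree R[X] (H138.chart R ({x} : Set F)) :=
    Module.isTorsionFree_iff_algebraMap_injective.2 (chartPolyHom_injective hx)
  have hCw : algebraMap R[X] (H138.chart R ({x} : Set F)) (C w)
      = algebraMap R (H138.chart R ({x} : Set F)) w := chartPolyHom_C x w
  have hdom' : Prime (algebraMap R[X] (H138.chart R ({x} : Set F)) (C w)) := by
    rw [hCw]; exact hdom
  have hsep' := H425.hsep_poly R w hw (H138.chart R ({x} : Set F)) hdom' (by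
    intro b
    obtain ⟨P, h1, h2⟩ := hsep b
    refine ⟨P, ?_, ?_⟩
    · rw [hCw]; exact h1
    · rw [hCw]; exact h2)
  have hreg := b2Regular.{u, v} R w hw (H138.chart R ({x} : Set F)) hdom' hsep' S hS hNC
  intro 𝔪 h𝔪 hw𝔪
  have := hreg 𝔪 h𝔪 (by rw [hCw]; exact hw𝔪)
  rwa [hCw] at this

/-- **REG-CHART, field form.**  Same as `regularAlong_chart`, with `hsep` and `hNC` stated by
elements of `F`:
* `hsep` : for every `b` in the chart there is a polynomial `P` with coefficients in `R[x]` with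
  `P(b) ∈ w B` and `P'(b) ∉ w B`;
* `hNC`  : for the primes `π` of `R[X]` away from `w` and the `X - c`, `c ∈ S`:
  `b ∈ B`, `b² ∈ π(x) B` ⟹ `b ∈ π(x) B`. -/
theorem regularAlong_chart_field
    {x : F} (hx : Transcendental R x) [FiniteDimensional (H138.baseField R x) F]
    (w : R) (hw : Irreducible w)
    (hdom : Prime (algebraMap R (H138.chart R ({x} : Set F)) w))
    (hsep : ∀ b ∈ H138.chart R ({x} : Set F), ∃ P : F[X],
        (∀ i, P.coeff i ∈ Algebra.adjoin R ({x} : Set F)) ∧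
        (∃ t ∈ H138.chart R ({x} : Set F), P.eval b = algebraMap R F w * t) ∧
        ¬ ∃ t ∈ H138.chart R ({x} : Set F), (derivative P).eval b = algebraMap R F w * t)
    (S : Finset R) (hS : ∀ c ∈ S, ∀ c' ∈ S, c ≠ c' → IsUnit (c - c'))
    (hNC : ∀ π : R[X], Prime π → ¬ Associated π (C w) → (∀ c ∈ S, ¬ Associated π (X - C c)) →
        ∀ b ∈ H138.chart R ({x} : Set F),
          (∃ t ∈ H138.chart R ({x} : Set F), b ^ 2 = aeval x π * t) →
          ∃ t ∈ H138.chart R ({x} : Set F), b = aeval x π * t) :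
    H754.RegularAlong (algebraMap R (H138.chart R ({x} : Set F)) w) := by
  refine regularAlong_chart hx w hw hdom ?_ S hS ?_
  · intro b
    obtain ⟨P, hP, h1, h2⟩ := hsep b b.2
    have hlift : P ∈ Polynomial.lifts (aeval x : R[X] →ₐ[R] F).toRingHom := by
      rw [Polynomial.lifts_iff_coeff_lifts]
      intro n
      have := hP n
      rw [Algebra.adjoin_singleton_eq_range_aeval] at this
      obtain ⟨q, hq⟩ := this
      exact ⟨q, hq⟩
    obtain ⟨Q, hQ⟩ := (Polynomial.mem_lifts P).1 hlift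
    refine ⟨Q, ?_, ?_⟩
    · rw [algebraMap_dvd_chart_iff, coe_eval₂_chartPolyHom, hQ]
      exact h1
    · rw [algebraMap_dvd_chart_iff, coe_eval₂_chartPolyHom, ← derivative_map, hQ]
      exact h2
  · intro π hπ h1 h2
    rw [Ideal.isRadical_iff_pow_one_lt 2 one_lt_two]
    intro r hr
    rw [Ideal.mem_span_singleton] at hr ⊢
    rw [chartPolyHom_dvd_chart_iff] at hr ⊢
    obtain ⟨t, ht, h⟩ := hr
    refine hNC π hπ h1 h2 r r.2 ⟨t, ht, ?_⟩
    rw [← h]
    rfl

omit [IsDomain R] [IsDiscreteValuationRing R] [CharZero F] in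
/-- The finiteness instance for the chart at infinity. -/
theorem finiteDimensional_baseField_inv (x : F) [h : FiniteDimensional (H138.baseField R x) F] :
    FiniteDimensional (H138.baseField R x⁻¹) F := by
  rw [H138.baseField_inv]
  exact h

/-- **REG-CHART at infinity** (field form): `regularAlong_chart_field` for the chart
`H138.chart R {x⁻¹}`, with the finiteness instance of the finite chart. -/
theorem regularAlong_chart_inv_field
    {x : F} (hx : Transcendental R x) [FiniteDimensional (H138.baseField R x) F]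
    (w : R) (hw : Irreducible w)
    (hdom : Prime (algebraMap R (H138.chart R ({x⁻¹} : Set F)) w))
    (hsep : ∀ b ∈ H138.chart R ({x⁻¹} : Set F), ∃ P : F[X],
        (∀ i, P.coeff i ∈ Algebra.adjoin R ({x⁻¹} : Set F)) ∧
        (∃ t ∈ H138.chart R ({x⁻¹} : Set F), P.eval b = algebraMap R F w * t) ∧
        ¬ ∃ t ∈ H138.chart R ({x⁻¹} : Set F), (derivative P).eval b = algebraMap R F w * t)
    (S : Finset R) (hS : ∀ c ∈ S, ∀ c' ∈ S, c ≠ c' → IsUnit (c - c'))
    (hNC : ∀ π : R[X], Prime π → ¬ Associated π (C w) → (∀ c ∈ S, ¬ Associated π (X - C c)) →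
        ∀ b ∈ H138.chart R ({x⁻¹} : Set F),
          (∃ t ∈ H138.chart R ({x⁻¹} : Set F), b ^ 2 = aeval x⁻¹ π * t) →
          ∃ t ∈ H138.chart R ({x⁻¹} : Set F), b = aeval x⁻¹ π * t) :
    H754.RegularAlong (algebraMap R (H138.chart R ({x⁻¹} : Set F)) w) := by
  haveI := finiteDimensional_baseField_inv (R := R) x
  exact regularAlong_chart_field (H138.transcendental_inv hx) w hw hdom hsep S hS hNC

end Main

end Fermat.Agent.S18.B12.H33

end
end
-- ===== PACK-END S18/B12/H33/RegChart.lean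

-- ===== PACK-BEGIN S18/H438/Front/Regular.lean
section




/-!
# S18 / ALG-FRONT (helper438), part 10: `H754.RegularAlong` on the chart of a good model

For `G : Alg.GoodModel Lc Ec Fc R V w x S`, `B := H138.chart (Rf Fc R) {xf G}`:

* `GoodModelFront.hsep_chart`  : elementwise separability (field form of
  `B12.H33.regularAlong_chart_field`), from `G.separable` and the `q`-expansion principle;
* `GoodModelFront.hNC_chart`   : `(span {π(x)}).IsRadical` for the primes `π` of `R[X]` not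
  associated to `w`, `X - c` (`c ∈ S`), from `G.unramified` via `H754.hNC_typed`;
* `GoodModelFront.regularAlong_chart` : `H754.RegularAlong (algebraMap R B w)`  (b2 on the chart).
-/

set_option autoImplicit false
set_option linter.style.haveILetI false
set_option linter.unusedSectionVars false

noncomputable section

namespace Fermat.Agent.S18.H438

open Alg Polynomial

variable {Ω : Type*} [Field Ω] {Lc Ec Fc : Subfield Ω} {R V : Subring Ω} {w x : Ω}
  {S : Finset Ω}

namespace GoodModelFront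

/-- the branch values, as a finite subset of the ring `R` -/
def SR (Fc : Subfield Ω) (R : Subring Ω) (S : Finset Ω) : Finset (Rf Fc R) :=
  S.preimage (fun r : Rf Fc R => ((r : Fc) : Ω))
    (fun _ _ _ _ h => Subtype.ext (Subtype.ext h))

theorem mem_SR {c : Rf Fc R} : c ∈ SR Fc R S ↔ ((c : Fc) : Ω) ∈ S := Finset.mem_preimage

variable (G : GoodModel Lc Ec Fc R V w x S)

include G in
theorem SR_isUnit_sub :
    ∀ c ∈ SR Fc R S, ∀ c' ∈ SR Fc R S, c ≠ c' → IsUnit (c - c') := by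
  intro c hc c' hc' hne
  rw [isUnit_subring_iff]
  have h1 : ((c : Fc) : Ω) ≠ ((c' : Fc) : Ω) := fun h => hne (Subtype.ext (Subtype.ext h))
  refine ⟨fun h => hne (sub_eq_zero.1 (Subtype.ext h)), ?_⟩
  exact G.S_distinct _ (mem_SR.1 hc) _ (mem_SR.1 hc') h1

/-- evaluation of polynomials over `Fc`, seen in `Ω` -/
theorem coe_eval_Fc (Q : Polynomial Fc) (b : Fc) :
    ((Q.eval b : Fc) : Ω) = (Q.map Fc.subtype).eval (b : Ω) := by
  rw [Polynomial.eval_map]
  exact (Polynomial.eval₂_at_apply Fc.subtype b).symm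

include G in
/-- **Elementwise separability of the special fibre of the chart** (field form). -/
theorem hsep_chart : ∀ b ∈ H138.chart (Rf Fc R) ({xf G} : Set Fc), ∃ P : Polynomial Fc,
    (∀ i, P.coeff i ∈ Algebra.adjoin (Rf Fc R) ({xf G} : Set Fc)) ∧
    (∃ t ∈ H138.chart (Rf Fc R) ({xf G} : Set Fc),
      P.eval b = algebraMap (Rf Fc R) Fc (wR G) * t) ∧
    ¬ ∃ t ∈ H138.chart (Rf Fc R) ({xf G} : Set Fc),
      (derivative P).eval b = algebraMap (Rf Fc R) Fc (wR G) * t := by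
  intro b hb
  have hb' : b ∈ chartRing (Rf Fc R) (xf G) := hb
  have hbV : b ∈ Vf G :=
    chartRing_le_valuationSubring (Rf Fc R) (xf G) (Vf G) (Rf_le_Vf G) (xf_mem_Vf G) hb'
  obtain ⟨P₀, hc, h1, h2, h3⟩ := G.separable (b : Ω) hbV
  have hRF : ∀ r ∈ R, r ∈ Fc := fun r hr => R_le_Fc G hr
  -- lift `P₀` to `Fc[X]`
  have hlift : P₀ ∈ Polynomial.lifts Fc.subtype := by
    rw [Polynomial.lifts_iff_coeff_lifts]
    intro n
    obtain ⟨a, -, h⟩ := exists_mem_baseRing_of_mem_polyRing Fc R (xf G) hRF (hc n)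
    exact ⟨a, h⟩
  obtain ⟨P, hP⟩ := (Polynomial.mem_lifts _).1 hlift
  have hcoe : ∀ i, ((P.coeff i : Fc) : Ω) = P₀.coeff i := fun i => by
    rw [← hP, Polynomial.coeff_map]; rfl
  have hcoeff : ∀ i, P.coeff i ∈ baseRing (Rf Fc R) (xf G) := fun i =>
    (mem_baseRing_iff Fc R (xf G) hRF).2 (by rw [hcoe]; exact hc i)
  have hw0 : wf G ≠ 0 := wf_ne_zero G
  -- values of polynomials with coefficients in `R[x]` at `b` lie in the chart
  have hmem : ∀ Q : Polynomial Fc, (∀ i, Q.coeff i ∈ baseRing (Rf Fc R) (xf G)) →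
      Q.eval b ∈ chartRing (Rf Fc R) (xf G) := by
    intro Q hQ
    rw [Polynomial.eval_eq_sum_range]
    refine Subalgebra.sum_mem _ fun i _ => ?_
    exact Subalgebra.mul_mem _
      ((chartRing (Rf Fc R) (xf G)).algebraMap_mem ⟨Q.coeff i, hQ i⟩)
      (Subalgebra.pow_mem _ hb' i)
  refine ⟨P, hcoeff, ?_, ?_⟩
  · refine ⟨P.eval b * (wf G)⁻¹, ?_, ?_⟩
    · refine qep_fin' G _ (hmem P hcoeff) ?_
      show ((P.eval b : Fc) : Ω) * w⁻¹ ∈ V
      rw [coe_eval_Fc, hP]
      exact h1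
    · show P.eval b = wf G * (P.eval b * (wf G)⁻¹)
      field_simp
  · rintro ⟨t, ht, h⟩
    have htV : t ∈ Vf G :=
      chartRing_le_valuationSubring (Rf Fc R) (xf G) (Vf G) (Rf_le_Vf G) (xf_mem_Vf G) ht
    have hd : (((derivative P).eval b : Fc) : Ω) = (derivative P₀).eval (b : Ω) := by
      rw [coe_eval_Fc, ← Polynomial.derivative_map, hP]
    have h' : (derivative P₀).eval (b : Ω) = w * (t : Ω) := by
      rw [← hd, h]; rfl
    have hw0' : w ≠ 0 := G.w_ne_zero
    have ht0 : (t : Ω) ≠ 0 := by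
      intro ht0
      rw [ht0, mul_zero] at h'
      exact h2 h'
    apply G.w_inv_not_mem_V
    have : w⁻¹ = (t : Ω) * ((derivative P₀).eval (b : Ω))⁻¹ := by
      rw [h']
      field_simp
    rw [this]
    exact V.mul_mem htV h3

include G in
/-- every element of `Lc` is algebraic over the ring `R` -/
theorem exists_poly_of_mem_Lc (a : Ω) (ha : a ∈ Lc) :
    ∃ p : Polynomial (Rf Fc R), p ≠ 0 ∧
      Polynomial.eval₂ (Fc.subtype.comp (Rf Fc R).subtype) a p = 0 := by
  have halg : IsAlgebraic Ec a := G.L_algebraic a ha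
  letI : Algebra (Re G) Ω := ((algebraMap Ec Ω).comp (algebraMap (Re G) Ec)).toAlgebra
  haveI : IsScalarTower (Re G) Ec Ω := IsScalarTower.of_algebraMap_eq (fun _ => rfl)
  obtain ⟨q, hq0, hq⟩ := (IsFractionRing.isAlgebraic_iff (Re G) Ec Ω).2 halg
  let j : Re G →+* Rf Fc R :=
    { toFun := fun e => ⟨⟨((e : Ec) : Ω), G.E_le_F (e : Ec).2⟩, e.2⟩
      map_one' := rfl
      map_mul' := fun _ _ => rfl
      map_zero' := rfl
      map_add' := fun _ _ => rfl }
  have hj : Function.Injective j := fun a b h =>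
    Subtype.ext (Subtype.ext (congrArg (fun t : Rf Fc R => ((t : Fc) : Ω)) h))
  refine ⟨q.map j, (Polynomial.map_ne_zero_iff hj).2 hq0, ?_⟩
  rw [Polynomial.eval₂_map]
  rw [Polynomial.aeval_def] at hq
  exact hq

include G in
/-- **hNC on the chart**: for every prime `π` of `R[X]` not associated to `w` or to `X - c`,
`c ∈ S`, the ideal `π(x) B` is radical. -/
theorem hNC_chart :
    ∀ π : Polynomial (Rf Fc R), Prime π → ¬ Associated π (C (wR G)) →
      (∀ c ∈ SR Fc R S, ¬ Associated π (X - C c)) →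
      (Ideal.span {(B12.H33.chartPolyHom (Rf Fc R) (xf G) π :
        H138.chart (Rf Fc R) ({xf G} : Set Fc))}).IsRadical := by
  haveI := charZero_Fc G
  haveI := isDiscreteValuationRing_Rf G
  haveI := finiteDimensional_baseField G
  haveI : CharZero (Rf Fc R) := RingHom.charZero (Rf Fc R).subtype
  have hx := transcendental_xf G
  obtain ⟨hic, hfin⟩ := B12.H33.chart_package (R := Rf Fc R) hx
  letI := B12.H33.chartAlgebra (Rf Fc R) (xf G)
  haveI := hic
  haveI := hfin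
  haveI : Module.IsTorsionFree (Polynomial (Rf Fc R)) (H138.chart (Rf Fc R) ({xf G} : Set Fc)) :=
    Module.isTorsionFree_iff_algebraMap_injective.2 (B12.H33.chartPolyHom_injective hx)
  haveI : FaithfulSMul (H138.chart (Rf Fc R) ({xf G} : Set Fc)) Ω :=
    (faithfulSMul_iff_algebraMap_injective (H138.chart (Rf Fc R) ({xf G} : Set Fc)) Ω).2
      (fun a b h => Subtype.ext (Subtype.ext h))
  have hC : ∀ r : Rf Fc R,
      algebraMap (H138.chart (Rf Fc R) ({xf G} : Set Fc)) Ω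
        (algebraMap (Polynomial (Rf Fc R)) (H138.chart (Rf Fc R) ({xf G} : Set Fc)) (C r)) =
        ((r : Fc) : Ω) := by
    intro r
    show ((B12.H33.chartPolyHom (Rf Fc R) (xf G) (C r) : H138.chart (Rf Fc R) ({xf G} : Set Fc)) :
      Fc).1 = _
    rw [B12.H33.coe_chartPolyHom, Polynomial.aeval_C]
    rfl
  have hX : algebraMap (H138.chart (Rf Fc R) ({xf G} : Set Fc)) Ω
        (algebraMap (Polynomial (Rf Fc R)) (H138.chart (Rf Fc R) ({xf G} : Set Fc)) X) = x := by
    show ((B12.H33.chartPolyHom (Rf Fc R) (xf G) X : H138.chart (Rf Fc R) ({xf G} : Set Fc)) :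
      Fc).1 = _
    rw [B12.H33.coe_chartPolyHom, Polynomial.aeval_X]
    rfl
  have hwB : Prime (algebraMap (Polynomial (Rf Fc R)) (H138.chart (Rf Fc R) ({xf G} : Set Fc))
      (C (wR G))) := by
    show Prime (B12.H33.chartPolyHom (Rf Fc R) (xf G) (C (wR G)))
    rw [B12.H33.chartPolyHom_C]
    exact prime_chart G
  refine H754.hNC_typed (Rf Fc R) (H138.chart (Rf Fc R) ({xf G} : Set Fc)) (Ω := Ω) (wR G)
    (irreducible_wf G) hwB Lc G.L_algClosed ?_ ?_ (SR Fc R S) S ?_ ?_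
  · intro r
    rw [hC]
    exact G.E_le_L (G.R_le r.2)
  · intro a ha
    obtain ⟨p, hp0, hp⟩ := exists_poly_of_mem_Lc G a ha
    refine ⟨p, hp0, ?_⟩
    have hhom : ((algebraMap (H138.chart (Rf Fc R) ({xf G} : Set Fc)) Ω).comp
        ((algebraMap (Polynomial (Rf Fc R)) (H138.chart (Rf Fc R) ({xf G} : Set Fc))).comp C)) =
        Fc.subtype.comp (Rf Fc R).subtype := RingHom.ext fun r => hC r
    rw [hhom]
    exact hp
  · intro c hc
    refine ⟨⟨⟨c, R_le_Fc G (G.S_mem c hc)⟩, G.S_mem c hc⟩, mem_SR.2 hc, ?_⟩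
    rw [hC]
  · rw [hX]
    exact G.unramified

include G in
/-- **b2 on the chart of a good model**: the chart is regular along `w`. -/
theorem regularAlong_chart :
    H754.RegularAlong
      (algebraMap (Rf Fc R) (H138.chart (Rf Fc R) ({xf G} : Set Fc)) (wR G)) := by
  haveI := charZero_Fc G
  haveI := isDiscreteValuationRing_Rf G
  haveI := finiteDimensional_baseField G
  refine B12.H33.regularAlong_chart_field (transcendental_xf G) (wR G) (irreducible_wf G)
    (prime_chart G) (hsep_chart G) (SR Fc R S) (SR_isUnit_sub G) ?_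
  intro π hπ hπw hπS b hb hb2
  have hrad := hNC_chart G π hπ hπw hπS
  have h1 : (⟨b, hb⟩ : H138.chart (Rf Fc R) ({xf G} : Set Fc)) ^ 2 ∈
      Ideal.span {(B12.H33.chartPolyHom (Rf Fc R) (xf G) π :
        H138.chart (Rf Fc R) ({xf G} : Set Fc))} := by
    rw [Ideal.mem_span_singleton, B12.H33.chartPolyHom_dvd_chart_iff]
    obtain ⟨t, ht, h⟩ := hb2
    exact ⟨t, ht, h⟩
  have h2 := hrad (Ideal.mem_radical_iff.2 ⟨2, h1⟩)
  rw [Ideal.mem_span_singleton, B12.H33.chartPolyHom_dvd_chart_iff] at h2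
  exact h2

end GoodModelFront

end Fermat.Agent.S18.H438

end
end
-- ===== PACK-END S18/H438/Front/Regular.lean

-- ===== PACK-BEGIN S18/H438/Front/AlgMain.lean
section




/-!
# S18 / node_alg (helper438): `Alg.AlgMainStatement` (v4, prime `m`)

    theorem algMain (Lc x S 𝓕) : Alg.AlgMainStatement Lc x S 𝓕

Wiring: for a member `(Ec, Fc, R, V, w)` of the good family, `G : Alg.GoodModel …`,
`R' := Rf Fc R`, `x' := xf G`, charts `B₀ = H138.chart R' {x'}`, `B₁ = H138.chart R' {x'⁻¹}`: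

* `H394.kummer_charts_of_regular` (typed core: LE + graded Kummer algebra + b5) needs on both
  charts: `Prime w`, `H754.RegularAlong w`, `H754.OneModPi w u`, `H754.DivisibleDivisor B m u`;
* these are `GoodModelFront.prime_chart`, `regularAlong_chart` (b2 = `B12.H33`, hNC = `H754`),
  `oneModPi_chart`, `divisibleDivisor_chart` (places = `H845`), applied to `G` and to
  `H425.goodModel_inv G`.
-/

set_option autoImplicit false
set_option linter.style.haveILetI false
set_option linter.unusedSectionVars false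

noncomputable section

namespace Fermat.Agent.S18.H438

open Alg Polynomial

variable {Ω : Type*} [Field Ω] {Lc Ec Fc : Subfield Ω} {R V : Subring Ω} {w x : Ω}
  {S : Finset Ω}

namespace GoodModelFront

/-- **node_alg for one good model** (no enlargement of constants is needed). -/
theorem algMain_of_goodModel (G : GoodModel Lc Ec Fc R V w x S)
    (m : ℕ) (hm : m.Prime) (hmR : ((m : Ω))⁻¹ ∈ R)
    (u : Ω) (huF : u ∈ Fc) (hu0 : u ≠ 0) (hu1 : (u - 1) * w⁻¹ ∈ V)
    (hdiv : ∀ O : ValuationSubring Ω, (∀ a ∈ Lc, a ∈ O) →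
      ∃ t : Ω, t ≠ 0 ∧ u * t ^ m ∈ O ∧ (u * t ^ m)⁻¹ ∈ O) :
    ∃ y : Ω, ∃ c ∈ Lc, c ≠ 0 ∧ u = c * y ^ m := by
  classical
  haveI := G.charZero
  haveI := charZero_Fc G
  haveI := isDiscreteValuationRing_Rf G
  haveI := finiteDimensional_baseField G
  have G' := H425.goodModel_inv G
  have hxinv : xf G' = (xf G)⁻¹ := rfl
  have hwR : wR G' = wR G := rfl
  -- the data in `Fc`
  set u' : Fc := ⟨u, huF⟩ with hu'
  have hu'0 : u' ≠ 0 := fun h => hu0 (congrArg Subtype.val h)
  have hm0 : (m : Ω) ≠ 0 := Nat.cast_ne_zero.2 hm.ne_zero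
  let ν : Rf Fc R := ⟨⟨(m : Ω)⁻¹, R_le_Fc G hmR⟩, hmR⟩
  have hν : ν * (m : Rf Fc R) = 1 := by
    apply Subtype.ext
    apply Subtype.ext
    show (m : Ω)⁻¹ * (((m : Rf Fc R) : Fc) : Ω) = 1
    have : ((((m : Rf Fc R) : Fc) : Ω)) = (m : Ω) := by
      simp
    rw [this, inv_mul_cancel₀ hm0]
  have hinjR : Function.Injective (algebraMap (Rf Fc R) Fc) := Subtype.val_injective
  -- both charts
  have hw₁ : Prime (algebraMap (Rf Fc R) (H138.chart (Rf Fc R) ({(xf G)⁻¹} : Set Fc)) (wR G)) :=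
    prime_chart G'
  have hreg₁ : H754.RegularAlong
      (algebraMap (Rf Fc R) (H138.chart (Rf Fc R) ({(xf G)⁻¹} : Set Fc)) (wR G)) :=
    regularAlong_chart G'
  have hu₁ : H754.OneModPi
      (algebraMap (Rf Fc R) (H138.chart (Rf Fc R) ({(xf G)⁻¹} : Set Fc)) (wR G)) u' :=
    oneModPi_chart G' hu1
  have hdiv₁ : H754.DivisibleDivisor (H138.chart (Rf Fc R) ({(xf G)⁻¹} : Set Fc)) m u' :=
    divisibleDivisor_chart G' hu1 hdiv
  obtain ⟨r, a, y, hr, h⟩ := H394.kummer_charts_of_regular hinjR (isIntegral_Rf_mem_range G)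
    (transcendental_xf G) (wR G) m hm ν hν u' hu'0
    (prime_chart G) hw₁ (regularAlong_chart G) hreg₁ (oneModPi_chart G hu1) hu₁
    (divisibleDivisor_chart G hu1 hdiv) hdiv₁
  have hrΩ : ((r : Fc) : Ω) ≠ 0 := fun h0 => hr (Subtype.ext (Subtype.ext h0))
  refine ⟨(y : Ω), ((r : Fc) : Ω) ^ a, ?_, zpow_ne_zero _ hrΩ, ?_⟩
  · exact Lc.zpow_mem (G.E_le_L (G.R_le r.2)) a
  · have h2 : u = ((algebraMap (Rf Fc R) Fc r ^ a * y ^ m : Fc) : Ω) :=
      congrArg (fun t : Fc => (t : Ω)) h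
    have h3 : ((algebraMap (Rf Fc R) Fc r ^ a * y ^ m : Fc) : Ω) =
        ((r : Fc) : Ω) ^ a * (y : Ω) ^ m := by
      have h4 : Fc.subtype (algebraMap (Rf Fc R) Fc r ^ a) = ((r : Fc) : Ω) ^ a :=
        map_zpow₀ Fc.subtype _ a
      show Fc.subtype (algebraMap (Rf Fc R) Fc r ^ a * y ^ m) = _
      rw [map_mul, map_pow, h4]
      rfl
    exact h2.trans h3

end GoodModelFront

/-- **node_alg**: the ALG main statement (v4, prime `m`), for every good family. -/
theorem algMain (Lc : Subfield Ω) (x : Ω) (S : Finset Ω) (𝓕 : Set (Model Ω)) :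
    AlgMainStatement Lc x S 𝓕 := by
  intro hfam p hp m hm hmR u huF hu0 hu1 hdiv
  exact GoodModelFront.algMain_of_goodModel (hfam.good p hp) m hm hmR u huF hu0 hu1 hdiv

end Fermat.Agent.S18.H438

end
end
-- ===== PACK-END S18/H438/Front/AlgMain.lean

-- ===== PACK-BEGIN S48/Red1/Core.lean
section



/-!
# S48 / RES (Tower A1), sub-tower A1-RED: the Kummer core `CoreGen F₀ A m` from the leaves
(helper588)

`coreGen_top` : `goodFamily_top` (`Asm.lean`) + generic glue (`GlueGen.lean`) + S18 ALG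
(`H438.algMain`, valid for every field and every good family).

`coreG_body_of_coreGen` : `CoreGen F₀ A m` implies `H136.CoreG F₀ A Fk m` for EVERY reduction
field `Fk` — stated here in unfolded form, without importing `H136` (the statement is
definitionally the body of `H136.CoreG`).
-/

set_option autoImplicit false

noncomputable section

namespace Fermat.Agent.S48.Red1

open ModularCurve AlgebraicCurve HahnSeries Fermat.Agent.S18 Fermat.Agent.S18.Alg
open Fermat.Agent.S18.Mod Fermat.Agent.S48.H248 Fermat.Agent.S18.H107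

variable {M : ℕ} [NeZero M] {F₀ : IntermediateField ℚ (LaurentSeries ℚ)}
  (hle : modularFunctionFieldFull M ≤ F₀) {ℓ : ℕ} [Fact ℓ.Prime]

/-- **CORE from the leaves**, for every prime `ℓ ∤ M` which has a coordinate of level `M`, every
`A` over `ℓ` and every prime `m ≠ ℓ`. -/
theorem coreGen_top (hF₀ : IntGen F₀) (hℓM : ¬ ℓ ∣ M) (A : ValuationSubring Qb)
    (hA : A.LiesOverPrime ℓ) {x : Om M} {S : Finset (Om M)} (hx : IsCoordinate M ℓ x S)
    [FiniteDimensional (IntermediateField.adjoin Qb {iotaG M F₀ hle x}) (OmG F₀)]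
    (T₀ : Finset Qb)
    (hleaf : ∀ (E : IntermediateField ℚ Qb) (w₀ : Qb), FiniteDimensional ℚ E →
      (∀ a ∈ T₀, a ∈ E) → IsUnifG A E.toSubfield w₀ →
      TopLeaves F₀ A E.toSubfield w₀ (iotaG M F₀ hle (jOm M)))
    (hbr : BranchJ107 (LcG F₀) (iotaG M F₀ hle (jOm M)))
    (m : ℕ) (hmp : m.Prime) (hm : ¬ ℓ ∣ m) : CoreGen F₀ A m := by
  obtain ⟨𝓕', hfam, hc⟩ := goodFamily_top hle hF₀ hℓM A hA hx T₀ hleaf hbr
  exact coreGen_of_family (Fact.out : ℓ.Prime) A hA hfam hc
    (Fermat.Agent.S18.H438.algMain _ _ _ _) m hmp hm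

/-- `CoreGen` implies the core of the generic Eichler–Shimura engine (`H136.CoreG F₀ A Fk m`,
unfolded) for every reduction field `Fk`. -/
theorem coreG_body_of_coreGen {F₀ : IntermediateField ℚ (LaurentSeries ℚ)}
    {A : ValuationSubring Qb} {m : ℕ} (h : CoreGen F₀ A m)
    (Fk : IntermediateField (IsLocalRing.ResidueField A)
      (LaurentSeries (IsLocalRing.ResidueField A))) :
    ∀ (U₁ U₂ : LaurentSeries A)
      (h₁ : coeffMap A.subtype U₁ ∈ laurentBaseChange Qb F₀ ∧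
        coeffMap (IsLocalRing.residue A) U₁ ∈ Fk ∧ coeffMap (IsLocalRing.residue A) U₁ ≠ 0)
      (h₂ : coeffMap A.subtype U₂ ∈ laurentBaseChange Qb F₀ ∧
        coeffMap (IsLocalRing.residue A) U₂ ∈ Fk ∧ coeffMap (IsLocalRing.residue A) U₂ ≠ 0),
      coeffMap (IsLocalRing.residue A) U₁ = coeffMap (IsLocalRing.residue A) U₂ →
      (∀ v : Place Qb (laurentBaseChange Qb F₀),
        (m : ℤ) ∣ v.ord (⟨_, h₁.1⟩ : laurentBaseChange Qb F₀)
          - v.ord (⟨_, h₂.1⟩ : laurentBaseChange Qb F₀)) →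
      ∃ (c : Qb) (y : laurentBaseChange Qb F₀), c ≠ 0 ∧ y ≠ 0 ∧
        (⟨_, h₁.1⟩ : laurentBaseChange Qb F₀)
          = algebraMap Qb (laurentBaseChange Qb F₀) c * y ^ m
            * (⟨_, h₂.1⟩ : laurentBaseChange Qb F₀) :=
  fun U₁ U₂ h₁ h₂ hred hdiv => h U₁ U₂ h₁.1 h₂.1 h₂.2.2 hred hdiv

end Fermat.Agent.S48.Red1

end
end
-- ===== PACK-END S48/Red1/Core.lean

-- ===== PACK-BEGIN S48/H908/CoreG.lean
section








/-!
# S48 / RES (Tower A1) — piece CORE1, part 1 (helper908): the GENERIC glue `MOD + ALG ⟹ CoreG`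

Port of `S18/Mod/Defs.lean` + `S18/H965/{GlueLemmas,Glue}.lean` (helper18, helper965) from the
function field of `X₀(M)` to an ARBITRARY subfield `F₀ ⊆ ℚ((q))` (`Ω := ℚ̄·F₀ = laurentBaseChange ℚ̄ F₀`).

Concrete objects (all sub-objects of `Ω = OmG F₀`):

* `LcG F₀`        constants `ℚ̄`,
* `EcG F₀ E`      constants from `E`,
* `RcG F₀ A E`    constants from `A ∩ E`,
* `FcG F₀ E`      `E · F₀` (the subfield generated by `E` and the image of `F₀`),
* `VcSetG F₀ A E` the Gauss valuation ring of `FcG F₀ E`: quotients `U₁/U₂` of `E`-rational series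
                  `U_i ∈ A((q))` lying in `FcG`, with `U₂ ≢ 0` modulo the maximal ideal of `A`.

`HasGoodFamilyG F₀ A x S` is the MOD deliverable (a directed family of `S18.Alg.GoodModel`s made of
these concrete models and containing a model over a field `E ∋ T` for every finite `T ⊆ ℚ̄`);
for `F₀ = modularFunctionFieldFull M` it is the conclusion of `S18.Mod.GoodModelStatement`.

Main result: `coreG_of_goodFamily` :
`HasGoodFamilyG F₀ A x S` ⟹ `H136.CoreG F₀ A Fk m` for every prime `m` prime to the residue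
characteristic (`Fk` arbitrary), which is the hypothesis `CoreG` of helper136's generic raw
Eichler–Shimura engine (`S48/H136/ESKG.lean`).  ALG = the landed `S18.H438.algMain`.
-/

set_option autoImplicit false
set_option linter.style.haveILetI false

noncomputable section

namespace Fermat.Agent.S48.H908.Core1

open ModularCurve AlgebraicCurve HahnSeries IsLocalRing
open Fermat.Agent.S18 (Qb)
open Fermat.Agent.S18.Alg
open Fermat.Agent.S48.H136 (IsIntG toFG CoreG)

/-! ### The concrete objects -/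

section Defs

variable (F₀ : IntermediateField ℚ (LaurentSeries ℚ))

/-- `Ω = ℚ̄ · F₀`, as a type. -/
abbrev OmG : Type := ↥(laurentBaseChange Qb F₀)

/-- The constants `ℚ̄ ⊆ Ω`. -/
def LcG : Subfield (OmG F₀) := (algebraMap Qb (OmG F₀)).fieldRange

/-- The constants from `E`. -/
def EcG (E : IntermediateField ℚ Qb) : Subfield (OmG F₀) :=
  E.toSubfield.map (algebraMap Qb (OmG F₀))

/-- The constants from `A ∩ E`. -/
def RcG (A : ValuationSubring Qb) (E : IntermediateField ℚ Qb) : Subring (OmG F₀) :=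
  (A.toSubring ⊓ E.toSubfield.toSubring).map (algebraMap Qb (OmG F₀))

/-- The image of `F₀` in `Ω`. -/
def gensG : Set (OmG F₀) := {y | ∃ z ∈ F₀, (y : LaurentSeries Qb) = coeffEmb Qb z}

/-- `Fc = E · F₀`. -/
def FcG (E : IntermediateField ℚ Qb) : Subfield (OmG F₀) :=
  Subfield.closure ((EcG F₀ E : Set (OmG F₀)) ∪ gensG F₀)

/-- A series over `A` is `E`-rational and lies in `Fc`. -/
def IsIntEG (A : ValuationSubring Qb) (E : IntermediateField ℚ Qb) (U : LaurentSeries A) : Prop :=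
  (∀ n : ℤ, ((U.coeff n : A) : Qb) ∈ E) ∧
    ∃ f ∈ FcG F₀ E, (f : LaurentSeries Qb) = coeffMap A.subtype U

/-- The Gauss valuation ring of `Fc`, as a set. -/
def VcSetG (A : ValuationSubring Qb) (E : IntermediateField ℚ Qb) : Set (OmG F₀) :=
  {f | f ∈ FcG F₀ E ∧ ∃ U₁ U₂ : LaurentSeries A, IsIntEG F₀ A E U₁ ∧ IsIntEG F₀ A E U₂ ∧
    coeffMap (IsLocalRing.residue A) U₂ ≠ 0 ∧
    (f : LaurentSeries Qb) * coeffMap A.subtype U₂ = coeffMap A.subtype U₁}

/-- **MOD deliverable, generic form.**  A directed family of good models for the coordinate `x`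
with branch set `S`, containing a concrete model over a field `E ∋ T` for every finite set `T` of
elements of `ℚ̄`. -/
def HasGoodFamilyG (A : ValuationSubring Qb) (x : OmG F₀) (S : Finset (OmG F₀)) : Prop :=
  ∃ 𝓕 : Set (Model (OmG F₀)), GoodFamily (LcG F₀) x S 𝓕 ∧
    ∀ T : Finset Qb, ∃ (E : IntermediateField ℚ Qb) (V : Subring (OmG F₀)) (w : OmG F₀),
      (∀ a ∈ T, a ∈ E) ∧ (V : Set (OmG F₀)) = VcSetG F₀ A E ∧
      ((EcG F₀ E, FcG F₀ E, RcG F₀ A E, V, w) : Model (OmG F₀)) ∈ 𝓕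

end Defs

variable {F₀ : IntermediateField ℚ (LaurentSeries ℚ)} {E : IntermediateField ℚ Qb}

/-! ### Coefficients of elements of `Fc` -/

variable (F₀ E) in
/-- The subfield of `Ω` of series all of whose coefficients lie in `E`. -/
def coeffFieldG : Subfield (OmG F₀) :=
  ((coeffMap (algebraMap (↥E) Qb)).fieldRange).comap
    (algebraMap (OmG F₀) (LaurentSeries Qb))

theorem coeff_mem_of_mem_coeffFieldG {f : OmG F₀} (hf : f ∈ coeffFieldG F₀ E) (n : ℤ) :
    ((f : LaurentSeries Qb)).coeff n ∈ E := by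
  obtain ⟨y, hy⟩ := hf
  have h : (f : LaurentSeries Qb) = coeffMap (algebraMap (↥E) Qb) y := hy.symm
  rw [h, coeffMap_coeff]
  exact (y.coeff n).2

theorem EcG_le_coeffFieldG : EcG F₀ E ≤ coeffFieldG F₀ E := by
  rintro y ⟨a, ha, rfl⟩
  refine ⟨HahnSeries.single 0 ⟨a, ha⟩, ?_⟩
  rw [coeffMap_single]
  change _ = algebraMap Qb (LaurentSeries Qb) a
  rw [algebraMap_laurentSeries_eq_single]
  rfl

theorem gensG_subset_coeffFieldG : gensG F₀ ⊆ (coeffFieldG F₀ E : Set (OmG F₀)) := by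
  rintro y ⟨z, -, hz⟩
  refine ⟨coeffMap (algebraMap ℚ (↥E)) z, ?_⟩
  rw [coeffMap_coeffMap]
  change _ = (y : LaurentSeries Qb)
  rw [hz]
  unfold coeffEmb
  exact coeffMap_congr (RingHom.ext fun c => rfl) _

theorem FcG_le_coeffFieldG : FcG F₀ E ≤ coeffFieldG F₀ E := by
  unfold FcG
  rw [Subfield.closure_le]
  rintro y (hy | hy)
  · exact EcG_le_coeffFieldG hy
  · exact gensG_subset_coeffFieldG hy

/-- Elements of `FcG F₀ E` have all their `q`-expansion coefficients in `E`. -/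
theorem coeff_mem_of_mem_FcG {f : OmG F₀} (hf : f ∈ FcG F₀ E) (n : ℤ) :
    ((f : LaurentSeries Qb)).coeff n ∈ E :=
  coeff_mem_of_mem_coeffFieldG (FcG_le_coeffFieldG hf) n

/-! ### Descent to a number field -/

theorem EcG_le_FcG : EcG F₀ E ≤ FcG F₀ E := fun _ hy =>
  Subfield.subset_closure (Or.inl hy)

theorem algebraMap_mem_EcG {a : Qb} (ha : a ∈ E) : algebraMap Qb (OmG F₀) a ∈ EcG F₀ E :=
  ⟨a, ha, rfl⟩

theorem algebraMap_mem_FcG {a : Qb} (ha : a ∈ E) : algebraMap Qb (OmG F₀) a ∈ FcG F₀ E :=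
  EcG_le_FcG (algebraMap_mem_EcG ha)

/-- The image of `F₀` lies in `FcG F₀ E` for every `E`. -/
theorem exists_mem_FcG_of_mem {z : LaurentSeries ℚ} (hz : z ∈ F₀) :
    ∃ f ∈ FcG F₀ E, (f : LaurentSeries Qb) = coeffEmb Qb z :=
  ⟨⟨coeffEmb Qb z, coeffEmb_mem_laurentBaseChange Qb hz⟩,
    Subfield.subset_closure (Or.inr ⟨z, hz, rfl⟩), rfl⟩

variable (F₀) in
/-- **Descent.**  Every element of `Ω = ℚ̄·F₀` lies in `FcG F₀ E` as soon as the field `E`
contains a certain finite set of constants. -/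
theorem exists_finset_seriesG (x : LaurentSeries Qb) (hx : x ∈ laurentBaseChange Qb F₀) :
    ∃ T : Finset Qb, ∀ E : IntermediateField ℚ Qb, (∀ a ∈ T, a ∈ E) →
      ∃ f ∈ FcG F₀ E, (f : LaurentSeries Qb) = x := by
  classical
  rw [mem_laurentBaseChange_iff] at hx
  induction hx using Subfield.closure_induction with
  | mem y hy =>
      rcases hy with ⟨a, rfl⟩ | ⟨z, hz, rfl⟩
      · refine ⟨{a}, fun E hE =>
          ⟨algebraMap Qb (OmG F₀) a, algebraMap_mem_FcG (hE a (by simp)), rfl⟩⟩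
      · exact ⟨∅, fun E _ => exists_mem_FcG_of_mem hz⟩
  | one => exact ⟨∅, fun E _ => ⟨1, one_mem _, rfl⟩⟩
  | add x y _ _ hx hy =>
      obtain ⟨T₁, h₁⟩ := hx
      obtain ⟨T₂, h₂⟩ := hy
      refine ⟨T₁ ∪ T₂, fun E hE => ?_⟩
      obtain ⟨f, hf, hfx⟩ := h₁ E (fun a ha => hE a (Finset.mem_union_left _ ha))
      obtain ⟨g, hg, hgy⟩ := h₂ E (fun a ha => hE a (Finset.mem_union_right _ ha))
      exact ⟨f + g, add_mem hf hg, by rw [← hfx, ← hgy]; rfl⟩
  | neg x _ hx =>
      obtain ⟨T₁, h₁⟩ := hx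
      refine ⟨T₁, fun E hE => ?_⟩
      obtain ⟨f, hf, hfx⟩ := h₁ E hE
      exact ⟨-f, neg_mem hf, by rw [← hfx]; rfl⟩
  | inv x _ hx =>
      obtain ⟨T₁, h₁⟩ := hx
      refine ⟨T₁, fun E hE => ?_⟩
      obtain ⟨f, hf, hfx⟩ := h₁ E hE
      exact ⟨f⁻¹, inv_mem hf, by rw [← hfx]; rfl⟩
  | mul x y _ _ hx hy =>
      obtain ⟨T₁, h₁⟩ := hx
      obtain ⟨T₂, h₂⟩ := hy
      refine ⟨T₁ ∪ T₂, fun E hE => ?_⟩
      obtain ⟨f, hf, hfx⟩ := h₁ E (fun a ha => hE a (Finset.mem_union_left _ ha))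
      obtain ⟨g, hg, hgy⟩ := h₂ E (fun a ha => hE a (Finset.mem_union_right _ ha))
      exact ⟨f * g, mul_mem hf hg, by rw [← hfx, ← hgy]; rfl⟩

variable (F₀) in
/-- **Descent**, elementwise form. -/
theorem exists_finset_mem_FcG (f : OmG F₀) :
    ∃ T : Finset Qb, ∀ E : IntermediateField ℚ Qb, (∀ a ∈ T, a ∈ E) → f ∈ FcG F₀ E := by
  obtain ⟨T, hT⟩ := exists_finset_seriesG F₀ (f : LaurentSeries Qb) f.2
  refine ⟨T, fun E hE => ?_⟩
  obtain ⟨g, hg, hgf⟩ := hT E hE
  have : g = f := Subtype.ext hgf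
  exact this ▸ hg

/-! ### `m` is a unit of `A ∩ E` -/

theorem natCast_inv_mem_valuationSubringG {ℓ : ℕ} (hℓ : ℓ.Prime) (A : ValuationSubring Qb)
    (hA : A.LiesOverPrime ℓ) {m : ℕ} (hm : ¬ ℓ ∣ m) : ((m : Qb))⁻¹ ∈ A := by
  have hcop : IsCoprime (ℓ : ℤ) (m : ℤ) :=
    Nat.isCoprime_iff_coprime.mpr ((Nat.Prime.coprime_iff_not_dvd hℓ).mpr hm)
  obtain ⟨a, b, hab⟩ := hcop
  have habQ : (a : Qb) * (ℓ : Qb) + (b : Qb) * (m : Qb) = 1 := by exact_mod_cast hab
  have hℓv : A.valuation (ℓ : Qb) < 1 := (A.mem_nonunits_iff).mp hA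
  have hint : ∀ c : ℤ, A.valuation (c : Qb) ≤ 1 := fun c =>
    (A.valuation_le_one_iff _).mpr (intCast_mem A c)
  have hmle : A.valuation (m : Qb) ≤ 1 := (A.valuation_le_one_iff _).mpr (natCast_mem A m)
  have hmge : ¬ A.valuation (m : Qb) < 1 := by
    intro hlt
    have h1 : A.valuation ((a : Qb) * (ℓ : Qb)) < 1 := by
      rw [map_mul]
      calc A.valuation (a : Qb) * A.valuation (ℓ : Qb) ≤ 1 * A.valuation (ℓ : Qb) :=
            mul_le_mul' (hint a) le_rfl
        _ = A.valuation (ℓ : Qb) := one_mul _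
        _ < 1 := hℓv
    have h2 : A.valuation ((b : Qb) * (m : Qb)) < 1 := by
      rw [map_mul]
      calc A.valuation (b : Qb) * A.valuation (m : Qb) ≤ 1 * A.valuation (m : Qb) :=
            mul_le_mul' (hint b) le_rfl
        _ = A.valuation (m : Qb) := one_mul _
        _ < 1 := hlt
    have h3 : A.valuation ((a : Qb) * (ℓ : Qb) + (b : Qb) * (m : Qb)) < 1 :=
      Valuation.map_add_lt _ h1 h2
    rw [habQ, map_one] at h3
    exact lt_irrefl _ h3
  have hm1 : A.valuation (m : Qb) = 1 := le_antisymm hmle (not_lt.mp hmge)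
  rw [← A.valuation_le_one_iff, map_inv₀, hm1, inv_one]

theorem mem_RcG_iff {A : ValuationSubring Qb} {y : OmG F₀} :
    y ∈ RcG F₀ A E ↔ ∃ a : Qb, a ∈ A ∧ a ∈ E ∧ algebraMap Qb (OmG F₀) a = y := by
  constructor
  · rintro ⟨a, ⟨haA, haE⟩, rfl⟩
    exact ⟨a, haA, haE, rfl⟩
  · rintro ⟨a, haA, haE, rfl⟩
    exact ⟨a, ⟨haA, haE⟩, rfl⟩

theorem natCast_inv_mem_RcG {ℓ : ℕ} (hℓ : ℓ.Prime) (A : ValuationSubring Qb)
    (hA : A.LiesOverPrime ℓ) {m : ℕ} (hm : ¬ ℓ ∣ m) : ((m : OmG F₀))⁻¹ ∈ RcG F₀ A E := by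
  rw [mem_RcG_iff]
  refine ⟨((m : Qb))⁻¹, natCast_inv_mem_valuationSubringG hℓ A hA hm,
    inv_mem (natCast_mem E m), ?_⟩
  rw [map_inv₀, map_natCast]

/-! ### The divisor hypothesis in valuation-subring form -/

theorem exists_unit_twistG {x₀ : OmG F₀} (hx₀ : Transcendental Qb x₀)
    [FiniteDimensional (IntermediateField.adjoin Qb {x₀}) (OmG F₀)]
    {m : ℕ} {f g : OmG F₀} (hf : f ≠ 0) (hg : g ≠ 0)
    (hdiv : ∀ v : Place Qb (laurentBaseChange Qb F₀), (m : ℤ) ∣ v.ord f - v.ord g)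
    (O : ValuationSubring (OmG F₀)) (hO : ∀ a ∈ LcG F₀, a ∈ O) :
    ∃ t : OmG F₀, t ≠ 0 ∧ (f / g) * t ^ m ∈ O ∧ ((f / g) * t ^ m)⁻¹ ∈ O := by
  by_cases hO' : O = ⊤
  · subst hO'
    exact ⟨1, one_ne_zero, ValuationSubring.mem_top _, ValuationSubring.mem_top _⟩
  obtain ⟨v, hv⟩ := Fermat.Agent.Lib.RR.H443.exists_place_eq O
    (fun a => hO _ ⟨a, rfl⟩) hO' hx₀
  obtain ⟨k, hk⟩ := hdiv v
  obtain ⟨π, hπ⟩ := Fermat.Agent.Lib.RR.exists_ord_eq_one v
  have hπ0 : π ≠ 0 := Fermat.Agent.Lib.RR.ne_zero_of_ord_ne_zero v (by rw [hπ]; exact one_ne_zero)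
  have ht0 : π ^ (-k) ≠ 0 := zpow_ne_zero _ hπ0
  have hfg : f / g ≠ 0 := div_ne_zero hf hg
  have hord : v.ord ((f / g) * (π ^ (-k)) ^ m) = 0 := by
    rw [v.ord_mul hfg (pow_ne_zero _ ht0), div_eq_mul_inv, v.ord_mul hf (inv_ne_zero hg),
      v.ord_inv, Fermat.Agent.Lib.RR.ord_pow, v.ord_zpow, hπ]
    have : v.ord f = v.ord g + m * k := by linarith
    rw [this]
    ring
  refine ⟨π ^ (-k), ht0, ?_, ?_⟩
  · rw [← hv]
    exact Fermat.Agent.Lib.RR.mem_of_ord_nonneg v (by rw [hord])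
  · rw [← hv]
    exact Fermat.Agent.Lib.RR.mem_of_ord_nonneg v (by rw [v.ord_inv, hord, neg_zero])

/-! ### `u ≡ 1` modulo the uniformiser -/

/-- A series over `ℚ̄` with coefficients in `A` comes from a series over `A`. -/
theorem exists_series_of_coeff_memG (A : ValuationSubring Qb) (x : LaurentSeries Qb)
    (hx : ∀ n, x.coeff n ∈ A) : ∃ U : LaurentSeries A, coeffMap A.subtype U = x := by
  refine ⟨⟨fun n => ⟨x.coeff n, hx n⟩, x.isPWO_support.mono ?_⟩, ?_⟩
  · intro n hn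
    rw [HahnSeries.mem_support]
    intro h0
    exact hn (Subtype.ext h0)
  · ext n
    rfl

section Red

variable {A : ValuationSubring Qb}
  {Fk : IntermediateField (ResidueField A) (LaurentSeries (ResidueField A))}

theorem toFG_ne_zero' {U : LaurentSeries A} (hU : IsIntG F₀ A Fk U) : toFG hU ≠ 0 :=
  Fermat.Agent.S48.H136.toFG_ne_zero hU

/-- **`u ≡ 1 mod w`.**  If `U₁, U₂` are integral with the same reduction and `toFG U_i ∈ FcG F₀ E`,
then `(U₁/U₂ - 1)/w` lies in the Gauss valuation ring `VcSetG F₀ A E`, for any `w` generating the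
maximal ideal of `RcG F₀ A E`. -/
theorem sub_one_mul_inv_mem_VcSetG {U₁ U₂ : LaurentSeries A}
    (h₁ : IsIntG F₀ A Fk U₁) (h₂ : IsIntG F₀ A Fk U₂)
    (hred : coeffMap (IsLocalRing.residue A) U₁ = coeffMap (IsLocalRing.residue A) U₂)
    (hf₁ : toFG h₁ ∈ FcG F₀ E) (hf₂ : toFG h₂ ∈ FcG F₀ E)
    {w : OmG F₀} (hw : w ∈ RcG F₀ A E)
    (hgen : ∀ r ∈ RcG F₀ A E, r⁻¹ ∉ RcG F₀ A E → r * w⁻¹ ∈ RcG F₀ A E) :
    (toFG h₁ / toFG h₂ - 1) * w⁻¹ ∈ VcSetG F₀ A E := by
  obtain ⟨w', hw'A, hw'E, rfl⟩ := mem_RcG_iff.mp hw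
  have hg0 : toFG h₂ ≠ 0 := toFG_ne_zero' h₂
  have hwF : algebraMap Qb (OmG F₀) w' ∈ FcG F₀ E := algebraMap_mem_FcG hw'E
  set f : OmG F₀ := (toFG h₁ - toFG h₂) * (algebraMap Qb (OmG F₀) w')⁻¹ with hf
  have hfF : f ∈ FcG F₀ E := mul_mem (sub_mem hf₁ hf₂) (inv_mem hwF)
  have huF : (toFG h₁ / toFG h₂ - 1) * (algebraMap Qb (OmG F₀) w')⁻¹ ∈ FcG F₀ E :=
    mul_mem (sub_mem (div_mem hf₁ hf₂) (one_mem _)) (inv_mem hwF)
  -- coefficients of `f`
  have hcoeff : ∀ n : ℤ, (f : LaurentSeries Qb).coeff n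
      = ((U₁.coeff n : Qb) - (U₂.coeff n : Qb)) * w'⁻¹ := by
    intro n
    have e1 : (f : LaurentSeries Qb) = (coeffMap A.subtype U₁ - coeffMap A.subtype U₂)
        * (algebraMap Qb (LaurentSeries Qb) w')⁻¹ := rfl
    rw [e1, ← map_inv₀, algebraMap_laurentSeries_eq_single, HahnSeries.coeff_mul_single_zero,
      HahnSeries.coeff_sub, coeffMap_coeff, coeffMap_coeff]
    rfl
  have hcoeffE : ∀ (U : LaurentSeries A) (hU : IsIntG F₀ A Fk U), toFG hU ∈ FcG F₀ E →
      ∀ n : ℤ, ((U.coeff n : A) : Qb) ∈ E := by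
    intro U hU hUF n
    have := coeff_mem_of_mem_FcG hUF n
    rwa [Fermat.Agent.S48.H136.coe_toFG, coeffMap_coeff] at this
  have hcoeffA : ∀ n : ℤ, (f : LaurentSeries Qb).coeff n ∈ A := by
    intro n
    rw [hcoeff]
    set d : A := U₁.coeff n - U₂.coeff n with hd
    have hdval : ((U₁.coeff n : Qb) - (U₂.coeff n : Qb)) = (d : Qb) := rfl
    rw [hdval]
    have hdE : (d : Qb) ∈ E := sub_mem (hcoeffE U₁ h₁ hf₁ n) (hcoeffE U₂ h₂ hf₂ n)
    have hres : IsLocalRing.residue A d = 0 := by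
      have := congrArg (fun x => x.coeff n) hred
      simp only [coeffMap_coeff] at this
      rw [hd, map_sub, this, sub_self]
    have hnu : ¬ IsUnit d := by
      rw [IsLocalRing.residue_eq_zero_iff] at hres
      exact (IsLocalRing.mem_maximalIdeal _).mp hres
    by_cases hd0 : (d : Qb) = 0
    · rw [hd0, zero_mul]
      exact A.zero_mem
    have hr : algebraMap Qb (OmG F₀) (d : Qb) ∈ RcG F₀ A E :=
      mem_RcG_iff.mpr ⟨d, d.2, hdE, rfl⟩
    have hr' : (algebraMap Qb (OmG F₀) (d : Qb))⁻¹ ∉ RcG F₀ A E := by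
      intro hmem
      obtain ⟨b, hbA, -, hb⟩ := mem_RcG_iff.mp hmem
      rw [← map_inv₀] at hb
      have hb' : b = (d : Qb)⁻¹ := (algebraMap Qb (OmG F₀)).injective hb
      apply hnu
      refine IsUnit.of_mul_eq_one (⟨b, hbA⟩ : A) (Subtype.ext ?_)
      change (d : Qb) * b = 1
      rw [hb', mul_inv_cancel₀ hd0]
    obtain ⟨c, hcA, -, hc⟩ := mem_RcG_iff.mp (hgen _ hr hr')
    rw [← map_inv₀, ← map_mul] at hc
    have hc' : c = (d : Qb) * w'⁻¹ := (algebraMap Qb (OmG F₀)).injective hc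
    rw [← hc']
    exact hcA
  obtain ⟨W₁, hW₁⟩ := exists_series_of_coeff_memG A (f : LaurentSeries Qb) hcoeffA
  refine ⟨huF, W₁, U₂, ⟨?_, f, hfF, hW₁.symm⟩, ⟨hcoeffE U₂ h₂ hf₂, toFG h₂, hf₂, rfl⟩,
    h₂.2.2, ?_⟩
  · intro n
    have := coeff_mem_of_mem_FcG hfF n
    rwa [← hW₁, coeffMap_coeff] at this
  · rw [hW₁, ← Fermat.Agent.S48.H136.coe_toFG h₂]
    have : (toFG h₁ / toFG h₂ - 1) * (algebraMap Qb (OmG F₀) w')⁻¹ * toFG h₂ = f := by
      rw [hf]
      field_simp
    rw [← this]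
    rfl

/-! ### The glue -/

variable (F₀) in
/-- **MOD deliverable, minimal abstract form**: a good family (S18 `Alg.GoodFamily`, any models)
over `Ω = ℚ̄·F₀` such that for every pair of integral series `U₁, U₂` with the same reduction some
member `(Ec, Fc, R, V, w)` of the family satisfies `m⁻¹ ∈ R`, `u := U₁/U₂ ∈ Fc` and
`(u - 1)/w ∈ V`.  This is all that the glue uses. -/
def HasGoodFamilyMin (A : ValuationSubring Qb)
    (Fk : IntermediateField (ResidueField A) (LaurentSeries (ResidueField A))) (m : ℕ)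
    (x : OmG F₀) (S : Finset (OmG F₀)) : Prop :=
  ∃ 𝓕 : Set (Model (OmG F₀)), GoodFamily (LcG F₀) x S 𝓕 ∧
    ∀ (U₁ U₂ : LaurentSeries A) (h₁ : IsIntG F₀ A Fk U₁) (h₂ : IsIntG F₀ A Fk U₂),
      coeffMap (IsLocalRing.residue A) U₁ = coeffMap (IsLocalRing.residue A) U₂ →
      ∃ p ∈ 𝓕, ((m : OmG F₀))⁻¹ ∈ p.2.2.1 ∧ toFG h₁ / toFG h₂ ∈ p.2.1 ∧
        (toFG h₁ / toFG h₂ - 1) * (p.2.2.2.2)⁻¹ ∈ p.2.2.2.1

/-- The concrete form of the MOD deliverable implies the minimal abstract one. -/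
theorem hasGoodFamilyMin_of_goodFamily {ℓ : ℕ} (hℓ : ℓ.Prime) (hA : A.LiesOverPrime ℓ)
    {m : ℕ} (hm : ¬ ℓ ∣ m) {x : OmG F₀} {S : Finset (OmG F₀)}
    (hmod : HasGoodFamilyG F₀ A x S) : HasGoodFamilyMin F₀ A Fk m x S := by
  classical
  obtain ⟨𝓕, hfam, hT⟩ := hmod
  refine ⟨𝓕, hfam, fun U₁ U₂ h₁ h₂ hred => ?_⟩
  obtain ⟨T₁, hT₁⟩ := exists_finset_mem_FcG F₀ (toFG h₁)
  obtain ⟨T₂, hT₂⟩ := exists_finset_mem_FcG F₀ (toFG h₂)
  obtain ⟨E, V, w, hTE, hV, hp⟩ := hT (T₁ ∪ T₂)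
  have hf₁ : toFG h₁ ∈ FcG F₀ E := hT₁ E (fun a ha => hTE a (Finset.mem_union_left _ ha))
  have hf₂ : toFG h₂ ∈ FcG F₀ E := hT₂ E (fun a ha => hTE a (Finset.mem_union_right _ ha))
  have hgood : GoodModel (LcG F₀) (EcG F₀ E) (FcG F₀ E) (RcG F₀ A E) V w x S := hfam.good _ hp
  refine ⟨_, hp, natCast_inv_mem_RcG hℓ A hA hm, div_mem hf₁ hf₂, ?_⟩
  have h := sub_one_mul_inv_mem_VcSetG h₁ h₂ hred hf₁ hf₂ hgood.w_mem hgood.w_gen
  rw [← hV] at h
  exact h

/-- **GLUE, generic, abstract form.**  If `Ω = ℚ̄·F₀` is a function field in one variable (`x₀`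
transcendental, `Ω` finite over `ℚ̄(x₀)`) and MOD supplies `HasGoodFamilyMin`, then the Kummer core
`CoreG F₀ A Fk m` of helper136's Eichler–Shimura engine holds (`m` prime). -/
theorem coreG_of_min (F₀ : IntermediateField ℚ (LaurentSeries ℚ))
    (A : ValuationSubring Qb)
    (Fk : IntermediateField (ResidueField A) (LaurentSeries (ResidueField A)))
    (m : ℕ) (hmp : m.Prime)
    {x₀ : OmG F₀} (hx₀ : Transcendental Qb x₀)
    [FiniteDimensional (IntermediateField.adjoin Qb {x₀}) (OmG F₀)]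
    (x : OmG F₀) (S : Finset (OmG F₀)) (hmod : HasGoodFamilyMin F₀ A Fk m x S) :
    CoreG F₀ A Fk m := by
  classical
  intro U₁ U₂ h₁ h₂ hred hdiv
  obtain ⟨𝓕, hfam, hT⟩ := hmod
  obtain ⟨p, hp, hmR, huF, huV⟩ := hT U₁ U₂ h₁ h₂ hred
  have hm0 : m ≠ 0 := hmp.ne_zero
  have hu0 : toFG h₁ / toFG h₂ ≠ 0 := div_ne_zero (toFG_ne_zero' h₁) (toFG_ne_zero' h₂)
  obtain ⟨y, c, hcL, hc0, huy⟩ := Fermat.Agent.S18.H438.algMain (LcG F₀) x S 𝓕 hfam p hp m
    hmp hmR (toFG h₁ / toFG h₂) huF hu0 huV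
    (exists_unit_twistG hx₀ (toFG_ne_zero' h₁) (toFG_ne_zero' h₂) hdiv)
  obtain ⟨c', rfl⟩ := hcL
  refine ⟨c', y, ?_, ?_, ?_⟩
  · rintro rfl
    exact hc0 (map_zero _)
  · rintro rfl
    rw [zero_pow hm0, mul_zero] at huy
    exact hu0 huy
  · rw [← huy, div_mul_cancel₀ _ (toFG_ne_zero' h₂)]

/-- **GLUE, generic, concrete form**: from `HasGoodFamilyG` (the exact analogue of the conclusion
of `S18.Mod.GoodModelStatement`), for every prime `m` different from the residue characteristic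
`ℓ` of `A`. -/
theorem coreG_of_goodFamily (F₀ : IntermediateField ℚ (LaurentSeries ℚ)) {ℓ : ℕ} (hℓ : ℓ.Prime)
    (A : ValuationSubring Qb) (hA : A.LiesOverPrime ℓ)
    (Fk : IntermediateField (ResidueField A) (LaurentSeries (ResidueField A)))
    (m : ℕ) (hmp : m.Prime) (hm : ¬ ℓ ∣ m)
    {x₀ : OmG F₀} (hx₀ : Transcendental Qb x₀)
    [FiniteDimensional (IntermediateField.adjoin Qb {x₀}) (OmG F₀)]
    (x : OmG F₀) (S : Finset (OmG F₀)) (hmod : HasGoodFamilyG F₀ A x S) :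
    CoreG F₀ A Fk m :=
  coreG_of_min F₀ A Fk m hmp hx₀ x S (hasGoodFamilyMin_of_goodFamily hℓ hA hm hmod)

end Red

/-! ### D2, generic: transfer of the Kummer core along a finite extension of degree prime to `m` -/

section D2

open IntermediateField Module

section Generic

variable {K Ω : Type*} [Field K] [Field Ω] [Algebra K Ω] {E F : IntermediateField K Ω}

/-- `extendScalars h` and `F` (with the `E`-algebra structure along the inclusion) are the same
`E`-vector space. -/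
def extendScalarsLinearEquiv908 (hEF : E ≤ F) :
    letI := (IntermediateField.inclusion hEF).toRingHom.toAlgebra
    ↥(extendScalars hEF) ≃ₗ[E] F :=
  letI := (IntermediateField.inclusion hEF).toRingHom.toAlgebra
  { toFun := fun x => ⟨x.1, (mem_extendScalars hEF).mp x.2⟩
    invFun := fun x => ⟨x.1, (mem_extendScalars hEF).mpr x.2⟩
    map_add' := fun _ _ => rfl
    map_smul' := fun _ _ => rfl
    left_inv := fun _ => rfl
    right_inv := fun _ => rfl }

theorem finrank_inclusion_eq_relfinrank908 (hEF : E ≤ F) :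
    letI := (IntermediateField.inclusion hEF).toRingHom.toAlgebra
    finrank E F = E.relfinrank F := by
  letI := (IntermediateField.inclusion hEF).toRingHom.toAlgebra
  rw [relfinrank_eq_finrank_of_le hEF]
  exact (extendScalarsLinearEquiv908 hEF).finrank_eq.symm

theorem finiteDimensional_inclusion908 (hEF : E ≤ F) (h0 : E.relfinrank F ≠ 0) :
    letI := (IntermediateField.inclusion hEF).toRingHom.toAlgebra
    FiniteDimensional E F := by
  letI := (IntermediateField.inclusion hEF).toRingHom.toAlgebra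
  apply FiniteDimensional.of_finrank_pos
  rw [finrank_inclusion_eq_relfinrank908 hEF]
  exact Nat.pos_of_ne_zero h0

/-- Norm trick along an inclusion of intermediate fields (instance-free statement). -/
theorem exists_pow_of_inclusion908 (hEF : E ≤ F) (m : ℕ) (hd0 : E.relfinrank F ≠ 0)
    (hcop : Nat.Coprime (E.relfinrank F) m) (u : E) (hu : u ≠ 0) (c : K) (hc : c ≠ 0)
    (y : F) (hy : y ≠ 0)
    (h : IntermediateField.inclusion hEF u = algebraMap K F c * y ^ m) :
    ∃ (c' : K) (y' : E), c' ≠ 0 ∧ y' ≠ 0 ∧ u = algebraMap K E c' * y' ^ m := by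
  letI : Algebra E F := (IntermediateField.inclusion hEF).toRingHom.toAlgebra
  haveI : IsScalarTower K E F := IsScalarTower.of_algebraMap_eq fun _ => rfl
  haveI hfd : FiniteDimensional E F := finiteDimensional_inclusion908 hEF hd0
  have hfr : finrank E F = E.relfinrank F := finrank_inclusion_eq_relfinrank908 hEF
  exact Fermat.Agent.S18.H568.exists_pow_of_norm_coprime m (by rw [hfr]; exact hcop)
    u hu c hc y hy h

theorem isIntegral_inclusion908 (hEF : E ≤ F) (hd0 : E.relfinrank F ≠ 0) :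
    (IntermediateField.inclusion hEF).toRingHom.IsIntegral := by
  letI : Algebra E F := (IntermediateField.inclusion hEF).toRingHom.toAlgebra
  haveI hfd : FiniteDimensional E F := finiteDimensional_inclusion908 hEF hd0
  exact fun x => (Algebra.IsIntegral.of_finite E F).isIntegral x

end Generic

/-- Monotonicity of `ℚ̄ · F₀` in `F₀`. -/
theorem lbc_mono908 {F₀ F₀' : IntermediateField ℚ (LaurentSeries ℚ)} (h : F₀ ≤ F₀') :
    laurentBaseChange Qb F₀ ≤ laurentBaseChange Qb F₀' := by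
  rw [laurentBaseChange, IntermediateField.adjoin_le_iff]
  rintro x ⟨y, hy, rfl⟩
  exact coeffEmb_mem_laurentBaseChange Qb (h hy)

theorem isIntG_of_le {F₀ F₀' : IntermediateField ℚ (LaurentSeries ℚ)} (hle : F₀ ≤ F₀')
    {A : ValuationSubring Qb}
    {Fk Fk' : IntermediateField (ResidueField A) (LaurentSeries (ResidueField A))}
    (hk : Fk ≤ Fk') {U : LaurentSeries A} (hU : IsIntG F₀ A Fk U) : IsIntG F₀' A Fk' U :=
  ⟨lbc_mono908 hle hU.1, hk hU.2.1, hU.2.2⟩

/-- `CoreG` is antitone in the reduction field `Fk` (the largest choice `Fk = ⊤` gives the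
strongest statement). -/
theorem coreG_mono_Fk {F₀ : IntermediateField ℚ (LaurentSeries ℚ)} {A : ValuationSubring Qb}
    {Fk Fk' : IntermediateField (ResidueField A) (LaurentSeries (ResidueField A))}
    (hk : Fk ≤ Fk') {m : ℕ} (h : CoreG F₀ A Fk' m) : CoreG F₀ A Fk m := by
  intro U₁ U₂ h₁ h₂ hred hord
  exact h U₁ U₂ (isIntG_of_le le_rfl hk h₁) (isIntG_of_le le_rfl hk h₂) hred hord

/-- `CoreG` for `Fk = ⊤` implies `CoreG` for every `Fk`. -/
theorem coreG_of_top {F₀ : IntermediateField ℚ (LaurentSeries ℚ)} {A : ValuationSubring Qb}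
    (Fk : IntermediateField (ResidueField A) (LaurentSeries (ResidueField A)))
    {m : ℕ} (h : CoreG F₀ A ⊤ m) : CoreG F₀ A Fk m :=
  coreG_mono_Fk le_top h

/-- **D2, generic.**  `CoreG` descends along `F₀ ≤ F₀'` when `[ℚ̄F₀' : ℚ̄F₀]` is finite and prime
to `m` (norm trick).  For `p = 2, 3` this replaces the pull-back to an auxiliary level. -/
theorem coreG_of_le {F₀ F₀' : IntermediateField ℚ (LaurentSeries ℚ)} (hle : F₀ ≤ F₀')
    (A : ValuationSubring Qb)
    {Fk Fk' : IntermediateField (ResidueField A) (LaurentSeries (ResidueField A))}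
    (hk : Fk ≤ Fk') (m : ℕ)
    (hd0 : (laurentBaseChange Qb F₀).relfinrank (laurentBaseChange Qb F₀') ≠ 0)
    (hcop : Nat.Coprime ((laurentBaseChange Qb F₀).relfinrank (laurentBaseChange Qb F₀')) m) :
    CoreG F₀' A Fk' m → CoreG F₀ A Fk m := by
  intro hM U₁ U₂ h₁ h₂ hred hord
  have hle' := lbc_mono908 hle
  set φ : laurentBaseChange Qb F₀ →ₐ[Qb] laurentBaseChange Qb F₀' :=
    IntermediateField.inclusion hle' with hφdef
  have hφint : φ.toRingHom.IsIntegral := isIntegral_inclusion908 hle' hd0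
  have h₁' : IsIntG F₀' A Fk' U₁ := isIntG_of_le hle hk h₁
  have h₂' : IsIntG F₀' A Fk' U₂ := isIntG_of_le hle hk h₂
  have e₁ : toFG h₁' = φ (toFG h₁) := rfl
  have e₂ : toFG h₂' = φ (toFG h₂) := rfl
  obtain ⟨c, y, hc, hy, hcy⟩ := hM U₁ U₂ h₁' h₂' hred (fun w => by
    rw [e₁, e₂, Place.ord_restrictAlong φ hφint w, Place.ord_restrictAlong φ hφint w, ← mul_sub]
    exact Dvd.dvd.mul_left (hord _) _)
  have hn₁ := toFG_ne_zero' h₁
  have hn₂ := toFG_ne_zero' h₂
  have hu : toFG h₁ / toFG h₂ ≠ 0 := div_ne_zero hn₁ hn₂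
  have hkey : φ (toFG h₁ / toFG h₂) = algebraMap Qb (laurentBaseChange Qb F₀') c * y ^ m := by
    have hn₂' : toFG h₂' ≠ 0 := toFG_ne_zero' h₂'
    rw [map_div₀, ← e₁, ← e₂, hcy, mul_div_assoc, div_self hn₂', mul_one]
  obtain ⟨c', y', hc', hy', hfin⟩ :=
    exists_pow_of_inclusion908 hle' m hd0 hcop (toFG h₁ / toFG h₂) hu c hc y hy hkey
  refine ⟨c', y', hc', hy', ?_⟩
  rw [← hfin, div_mul_cancel₀ _ hn₂]

end D2

end Fermat.Agent.S48.H908.Core1

end
end
-- ===== PACK-END S48/H908/CoreG.lean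

-- ===== PACK-BEGIN S48/H908/CoreF1.lean
section



/-!
# S48 / RES (Tower A1) — piece CORE1, part 2 (helper908): the Kummer core for `F1 M`

* `divCoeff_eq_sum`, `divGenC_eq_sum` : for `M ∣ M'` the division value `P_b` of level `M` is the
  sum of the division values `P_c` of level `M'` over the classes `c ↦ b`;
* `F1C_le_of_dvd`, `F1_le_of_dvd` : monotonicity of the function field of `X₁(M)` in the level
  (over any field of constants);
* `core1` : `CoreG (F1 M) A Fk ℓ` (the hypothesis `hcore` of helper136's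
  `eskG_inertia` / `eskG_frob`) for ALL `M ≠ 0`, all primes `p ∤ M ℓ`, all `A` over `p` and ALL
  reduction fields `Fk`, from
  - `Mod1Hyp` : the MOD deliverable (`HasGoodFamilyMin`) at GOOD levels only
               (`p ≥ 5`, or `p = 3 ∧ 2 ∣ M`, or `p = 2 ∧ 3 ∣ M`),
  - `FinHyp`  : `ℚ̄·F1(M)` is a function field in one variable,
  - `DegHyp`  : `[ℚ̄·F1(M a) : ℚ̄·F1(M)]` divides `a² - 1` for a prime `a ∤ M`
               (only used for `a = 2, 3`).
  For `p = 3, 2 ∤ M` resp. `p = 2, 3 ∤ M` the core descends from level `2M` resp. `3M` by the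
  norm trick (`coreG_of_le`): NO pull-back data on `Pic⁰` are needed.
-/

set_option autoImplicit false
set_option linter.style.haveILetI false

noncomputable section

namespace Fermat.Agent.S48.H908.Core1

open ModularCurve AlgebraicCurve HahnSeries IsLocalRing
open Fermat.Agent.S18 (Qb)
open Fermat.Agent.S48.H136 (IsIntG toFG CoreG)
open Fermat.Agent.S48.F1

/-! ### Monotonicity of `F1C K M` in the level -/

section Mono

variable {M M' : ℕ} [NeZero M']

/-- The classes of level `M'` above a class of level `M`. -/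
def fibre908 (h : M ∣ M') (b : ZMod M) : Finset (ZMod M') :=
  Finset.univ.filter fun c => ZMod.castHom h (ZMod M) c = b

theorem ne_zero_of_mem_fibre908 (h : M ∣ M') {b : ZMod M} (hb : b ≠ 0) {c : ZMod M'}
    (hc : c ∈ fibre908 h b) : c ≠ 0 := by
  rintro rfl
  rw [fibre908, Finset.mem_filter] at hc
  exact hb (by rw [← hc.2, map_zero])

theorem divCoeff_eq_sum (h : M ∣ M') (b : ZMod M) (k n : ℕ) :
    divCoeff M b k n = ∑ c ∈ fibre908 h b, divCoeff M' c k n := by
  classical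
  unfold divCoeff fibre908
  rw [Finset.sum_comm]
  refine Finset.sum_congr rfl fun m _ => ?_
  rw [Finset.sum_add_distrib, Finset.sum_filter, Finset.sum_filter]
  have hcast : ZMod.castHom h (ZMod M) ((m : ℕ) : ZMod M') = ((m : ℕ) : ZMod M) := map_natCast _ m
  congr 1
  · have : ∀ c : ZMod M', (if ZMod.castHom h (ZMod M) c = b then
        (if ((m : ℕ) : ZMod M') = c then ((n / m : ℕ) : ℤ) ^ (k - 1) else 0) else 0)
        = if ((m : ℕ) : ZMod M') = c then
            (if ZMod.castHom h (ZMod M) c = b then ((n / m : ℕ) : ℤ) ^ (k - 1) else 0) else 0 := by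
      intro c
      split_ifs <;> rfl
    rw [Finset.sum_congr rfl fun c _ => this c, Finset.sum_ite_eq Finset.univ, if_pos (Finset.mem_univ _), hcast]
  · have : ∀ c : ZMod M', (if ZMod.castHom h (ZMod M) c = b then
        (if ((m : ℕ) : ZMod M') = -c then (-1) ^ k * ((n / m : ℕ) : ℤ) ^ (k - 1) else 0) else 0)
        = if -((m : ℕ) : ZMod M') = c then
            (if ZMod.castHom h (ZMod M) c = b then (-1) ^ k * ((n / m : ℕ) : ℤ) ^ (k - 1) else 0)
            else 0 := by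
      intro c
      have hiff : ((m : ℕ) : ZMod M') = -c ↔ -((m : ℕ) : ZMod M') = c :=
        ⟨fun h1 => by rw [h1, neg_neg], fun h1 => by rw [← h1, neg_neg]⟩
      by_cases h1 : ((m : ℕ) : ZMod M') = -c
      · rw [if_pos h1, if_pos (hiff.mp h1)]
      · rw [if_neg h1, if_neg (fun h2 => h1 (hiff.mpr h2))]
        split_ifs <;> rfl
    rw [Finset.sum_congr rfl fun c _ => this c, Finset.sum_ite_eq Finset.univ,
      if_pos (Finset.mem_univ _), map_neg, hcast]
    have hiff : -((m : ℕ) : ZMod M) = b ↔ ((m : ℕ) : ZMod M) = -b :=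
      ⟨fun h1 => by rw [← h1, neg_neg], fun h1 => by rw [h1, neg_neg]⟩
    by_cases h1 : ((m : ℕ) : ZMod M) = -b
    · rw [if_pos h1, if_pos (hiff.mpr h1)]
    · rw [if_neg h1, if_neg (fun h2 => h1 (hiff.mp h2))]

theorem divSeries_eq_sum (h : M ∣ M') (b : ZMod M) (k : ℕ) :
    divSeries M b k = ∑ c ∈ fibre908 h b, divSeries M' c k := by
  ext n
  rw [coeff_divSeries, map_sum, divCoeff_eq_sum h]
  exact Finset.sum_congr rfl fun c _ => (coeff_divSeries M' c k n).symm

theorem divNum_eq_sum (h : M ∣ M') (b : ZMod M) :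
    divNum M b = ∑ c ∈ fibre908 h b, divNum M' c := by
  unfold divNum
  rw [divSeries_eq_sum h, Finset.sum_mul]

theorem divGenC_eq_sum (R : Type*) [CommRing R] (h : M ∣ M') (b : ZMod M) :
    divGenC R M b = ∑ c ∈ fibre908 h b, divGenC R M' c := by
  unfold divGenC
  rw [divNum_eq_sum h, map_sum, map_sum, Finset.mul_sum]

/-- Monotonicity of the function field of `X₁(M)` in the level, over any field of constants. -/
theorem F1C_le_of_dvd (K : Type*) [Field K] (h : M ∣ M') : F1C K M ≤ F1C K M' := by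
  rw [F1C, IntermediateField.adjoin_le_iff]
  rintro x (hx | hx)
  · obtain ⟨d, hd, hdM, rfl⟩ := hx
    exact IntermediateField.subset_adjoin K _
      (Or.inl (mem_divisorExpansionsC K M' (hdM.trans h)))
  · obtain ⟨b, hb, rfl⟩ := hx
    rw [divGenC_eq_sum K h b]
    exact sum_mem fun c hc => divGenC_mem_F1C K M' (ne_zero_of_mem_fibre908 h hb hc)

/-- Monotonicity of `F1 M` in the level. -/
theorem F1_le_of_dvd (h : M ∣ M') : F1 M ≤ F1 M' := by
  rw [← F1C_rat, ← F1C_rat]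
  exact F1C_le_of_dvd ℚ h

end Mono

/-! ### The Kummer core for `F1 M` -/

/-- **MOD1** (hypothesis): the MOD deliverable at the GOOD levels
(`p ≥ 5`, or `p = 3 ∧ 2 ∣ M`, or `p = 2 ∧ 3 ∣ M`), in the minimal abstract form used by the glue
(with the largest reduction field `Fk = ⊤`, i.e. for ALL pairs of integral series of `ℚ̄·F1 M` with
nonzero, equal reductions). -/
def Mod1Hyp : Prop :=
  ∀ (M p : ℕ), M ≠ 0 → p.Prime → ¬ p ∣ M → (p = 3 → 2 ∣ M) → (p = 2 → 3 ∣ M) →
    ∀ A : ValuationSubring Qb, A.LiesOverPrime p → ∀ m : ℕ, m.Prime → ¬ p ∣ m →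
      ∃ (x : OmG (F1 M)) (S : Finset (OmG (F1 M))),
        HasGoodFamilyMin (F1 M) A ⊤ m x S

/-- **MOD1**, concrete form (the exact analogue of `S18.Mod.GoodModelStatement`). -/
def Mod1HypG : Prop :=
  ∀ (M p : ℕ), M ≠ 0 → p.Prime → ¬ p ∣ M → (p = 3 → 2 ∣ M) → (p = 2 → 3 ∣ M) →
    ∀ A : ValuationSubring Qb, A.LiesOverPrime p →
      ∃ (x : OmG (F1 M)) (S : Finset (OmG (F1 M))), HasGoodFamilyG (F1 M) A x S

theorem mod1Hyp_of_G (h : Mod1HypG) : Mod1Hyp := by
  intro M p hM hp hpM h3 h2 A hA m _ hpm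
  obtain ⟨x, S, hxS⟩ := h M p hM hp hpM h3 h2 A hA
  exact ⟨x, S, hasGoodFamilyMin_of_goodFamily hp hA hpm hxS⟩

/-- **FF-ALG, finiteness** (hypothesis): `ℚ̄·F1(M)` is a function field in one variable. -/
def FinHyp : Prop :=
  ∀ M : ℕ, M ≠ 0 → ∃ x₀ : OmG (F1 M), Transcendental Qb x₀ ∧
    FiniteDimensional (IntermediateField.adjoin Qb {x₀}) (OmG (F1 M))

/-- **FF-ALG, degrees** (hypothesis): `[ℚ̄·F1(M a) : ℚ̄·F1(M)]` divides `a² - 1`
(`a` prime, `a ∤ M`; only used for `a = 2, 3`). -/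
def DegHyp : Prop :=
  ∀ (M a : ℕ), M ≠ 0 → a.Prime → ¬ a ∣ M →
    (laurentBaseChange Qb (F1 M)).relfinrank (laurentBaseChange Qb (F1 (M * a))) ∣ a ^ 2 - 1

/-- The Kummer core at a good level (for the largest reduction field). -/
theorem core1_good (hmod : Mod1Hyp) (hfin : FinHyp) (M ℓ p : ℕ) (hM : M ≠ 0) (hℓ : ℓ.Prime)
    (hp : p.Prime) (hpM : ¬ p ∣ M) (hpℓ : ¬ p ∣ ℓ) (h3 : p = 3 → 2 ∣ M) (h2 : p = 2 → 3 ∣ M)
    (A : ValuationSubring Qb) (hA : A.LiesOverPrime p) :
    CoreG (F1 M) A ⊤ ℓ := by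
  obtain ⟨x, S, hxS⟩ := hmod M p hM hp hpM h3 h2 A hA ℓ hℓ hpℓ
  obtain ⟨x₀, hx₀, hfd⟩ := hfin M hM
  exact coreG_of_min (F1 M) A _ ℓ hℓ hx₀ x S hxS

/-- Descent of the core from level `M a` to level `M` (`a` prime, `a ∤ M`, `ℓ ∤ a² - 1`). -/
theorem core1_descend (hdeg : DegHyp) (M a ℓ : ℕ) (hM : M ≠ 0) (ha : a.Prime) (haM : ¬ a ∣ M)
    (hcop : Nat.Coprime (a ^ 2 - 1) ℓ) (A : ValuationSubring Qb)
    (h : CoreG (F1 (M * a)) A ⊤ ℓ) :
    CoreG (F1 M) A ⊤ ℓ := by
  haveI : NeZero (M * a) := ⟨Nat.mul_ne_zero hM ha.ne_zero⟩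
  have hd := hdeg M a hM ha haM
  have ha1 : a ^ 2 - 1 ≠ 0 := by
    have : 2 ≤ a := ha.two_le
    have : 4 ≤ a ^ 2 := by nlinarith
    omega
  refine coreG_of_le (F1_le_of_dvd (Dvd.intro a rfl)) A le_rfl ℓ ?_ ?_ h
  · rintro h0
    rw [h0, zero_dvd_iff] at hd
    exact ha1 hd
  · exact Nat.Coprime.coprime_dvd_left hd hcop

/-- **CORE1**, for the largest reduction field `Fk = ⊤`. -/
theorem core1_top (hmod : Mod1Hyp) (hfin : FinHyp) (hdeg : DegHyp) (M ℓ p : ℕ) (hM : M ≠ 0)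
    (hℓ : ℓ.Prime) (hp : p.Prime) (hpMℓ : ¬ p ∣ M * ℓ) (A : ValuationSubring Qb)
    (hA : A.LiesOverPrime p) : CoreG (F1 M) A ⊤ ℓ := by
  have hpM : ¬ p ∣ M := fun h => hpMℓ (h.mul_right ℓ)
  have hpℓ : ¬ p ∣ ℓ := fun h => hpMℓ (h.mul_left M)
  have hℓp : ℓ ≠ p := fun h => hpℓ (h ▸ dvd_rfl)
  by_cases h3 : p = 3
  · subst h3
    by_cases h2M : 2 ∣ M
    · exact core1_good hmod hfin M ℓ 3 hM hℓ hp hpM hpℓ (fun _ => h2M) (fun h => by omega) A hA
    · have hM2 : M * 2 ≠ 0 := Nat.mul_ne_zero hM (by norm_num)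
      have hp2 : ¬ 3 ∣ M * 2 := by
        intro h
        rcases (Nat.Prime.dvd_mul hp).mp h with h | h
        · exact hpM h
        · omega
      have hcore := core1_good hmod hfin (M * 2) ℓ 3 hM2 hℓ hp hp2 hpℓ
        (fun _ => Dvd.intro_left M rfl) (fun h => by omega) A hA
      refine core1_descend hdeg M 2 ℓ hM Nat.prime_two h2M ?_ A hcore
      have : (2 ^ 2 - 1 : ℕ) = 3 := by norm_num
      rw [this]
      exact (Nat.coprime_primes hp hℓ).mpr (Ne.symm hℓp)
  · by_cases h2 : p = 2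
    · subst h2
      by_cases h3M : 3 ∣ M
      · exact core1_good hmod hfin M ℓ 2 hM hℓ hp hpM hpℓ (fun h => by omega) (fun _ => h3M) A hA
      · have hM3 : M * 3 ≠ 0 := Nat.mul_ne_zero hM (by norm_num)
        have hp3 : ¬ 2 ∣ M * 3 := by
          intro h
          rcases (Nat.Prime.dvd_mul hp).mp h with h | h
          · exact hpM h
          · omega
        have hcore := core1_good hmod hfin (M * 3) ℓ 2 hM3 hℓ hp hp3 hpℓ
          (fun h => by omega) (fun _ => Dvd.intro_left M rfl) A hA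
        refine core1_descend hdeg M 3 ℓ hM Nat.prime_three h3M ?_ A hcore
        have : (3 ^ 2 - 1 : ℕ) = 2 ^ 3 := by norm_num
        rw [this]
        exact Nat.Coprime.pow_left 3 ((Nat.coprime_primes hp hℓ).mpr (Ne.symm hℓp))
    · exact core1_good hmod hfin M ℓ p hM hℓ hp hpM hpℓ (fun h => absurd h h3)
        (fun h => absurd h h2) A hA

/-- **CORE1.**  The Kummer core `CoreG (F1 M) A Fk ℓ` (the hypothesis `hcore` of helper136's
`eskG_inertia` / `eskG_frob`) for every level `M ≠ 0`, all primes `ℓ` and `p ∤ M ℓ`, every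
valuation subring `A` of `ℚ̄` over `p` and EVERY reduction field `Fk`. -/
theorem core1 (hmod : Mod1Hyp) (hfin : FinHyp) (hdeg : DegHyp) (M ℓ p : ℕ) (hM : M ≠ 0)
    (hℓ : ℓ.Prime) (hp : p.Prime) (hpMℓ : ¬ p ∣ M * ℓ) (A : ValuationSubring Qb)
    (hA : A.LiesOverPrime p)
    (Fk : IntermediateField (ResidueField A) (LaurentSeries (ResidueField A))) :
    CoreG (F1 M) A Fk ℓ :=
  coreG_of_top Fk (core1_top hmod hfin hdeg M ℓ p hM hℓ hp hpMℓ A hA)

end Fermat.Agent.S48.H908.Core1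

end
end
-- ===== PACK-END S48/H908/CoreF1.lean

-- ===== PACK-BEGIN Lib/Haupt/Laurent.lean
section



/-!
# Hauptmodul relations in `K((q))` for every commutative ring `K` (helper637)

* `t2 K`, `t3 K : LaurentSeries K`;
* `jq_mul_t2_sq`   : `jqModC K * t2 K ^ 2 = (t2 K + 256) ^ 3`
* `jq2_mul_t2`     : `qExpand K 2 (jqModC K) * t2 K = (t2 K + 16) ^ 3`
* `jq_mul_t3_cube` : `jqModC K * t3 K ^ 3 = (t3 K + 27) * (t3 K + 243) ^ 3`
* `jq3_mul_t3`     : `qExpand K 3 (jqModC K) * t3 K = (t3 K + 27) * (t3 K + 3) ^ 3`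
* `coeffMap_t2`, `coeffMap_t3` : compatibility with change of coefficients.
-/

set_option autoImplicit false

noncomputable section

namespace Fermat.Agent.Lib.Haupt

open PowerSeries HahnSeries ModularCurve

variable (K : Type*) [CommRing K]

/-- `q⁻¹ · f(q)` for an integral power series `f`, with coefficients in `K`. -/
def lau (f : PowerSeries ℤ) : LaurentSeries K :=
  HahnSeries.ofPowerSeries ℤ K (f.map (Int.castRingHom K))

/-- `q⁻¹`. -/
def qinv : LaurentSeries K := HahnSeries.single (-1 : ℤ) 1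

theorem lau_mul (f g : PowerSeries ℤ) : lau K (f * g) = lau K f * lau K g := by
  rw [lau, map_mul, map_mul]; rfl

theorem lau_add (f g : PowerSeries ℤ) : lau K (f + g) = lau K f + lau K g := by
  rw [lau, map_add, map_add]; rfl

theorem lau_pow (f : PowerSeries ℤ) (n : ℕ) : lau K (f ^ n) = lau K f ^ n := by
  rw [lau, map_pow, map_pow]; rfl

theorem qinv_mul_lau_X : qinv K * lau K X = 1 := by
  rw [qinv, lau, PowerSeries.map_X, HahnSeries.ofPowerSeries_X, HahnSeries.single_mul_single]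
  simp

theorem lau_C (c : ℤ) : lau K (C c) = (c : LaurentSeries K) := by
  rw [lau, PowerSeries.map_C, HahnSeries.ofPowerSeries_C]
  simp

theorem jqModC_eq : jqModC K = qinv K * lau K jNum := rfl

/-- The Hauptmodul of `Γ₀(2)`: `t₂ = Δ(q)/Δ(q²)`. -/
def t2 : LaurentSeries K := qinv K * lau K T2

/-- The Hauptmodul of `Γ₀(3)`: `t₃ = (η(q)/η(q³))¹²`. -/
def t3 : LaurentSeries K := qinv K * lau K T3

theorem t_add_const (T : PowerSeries ℤ) (c : ℤ) :
    qinv K * lau K T + (c : LaurentSeries K) = qinv K * lau K (T + C c * X) := by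
  rw [lau_add, lau_mul, lau_C, mul_add, mul_left_comm, qinv_mul_lau_X, mul_one]

/-- `j · t₂² = (t₂ + 256)³`. -/
theorem jq_mul_t2_sq : jqModC K * t2 K ^ 2 = (t2 K + 256) ^ 3 := by
  have h := congrArg (fun f => qinv K ^ 3 * lau K f) T2_rel₁
  simp only [lau_mul, lau_pow] at h
  have e : (t2 K + 256) = qinv K * lau K (T2 + C 256 * X) := by
    rw [← t_add_const, t2]; simp
  rw [e, jqModC_eq, t2]
  linear_combination h

theorem qExpand_ofPowerSeries (d : ℕ) [NeZero d] (g : PowerSeries K) :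
    qExpand K d (HahnSeries.ofPowerSeries ℤ K g)
      = HahnSeries.ofPowerSeries ℤ K (PowerSeries.expand d (NeZero.ne d) g) := by
  have hd : (0 : ℤ) < d := by exact_mod_cast Nat.pos_of_ne_zero (NeZero.ne d)
  ext k
  by_cases hk : (d : ℤ) ∣ k
  · obtain ⟨m, rfl⟩ := hk
    rw [qExpand_coeff_mul]
    rcases le_or_gt 0 m with hm | hm
    · lift m to ℕ using hm
      rw [HahnSeries.ofPowerSeries_apply_coeff, show (d : ℤ) * (m : ℤ) = ((d * m : ℕ) : ℤ) by
        push_cast; ring, HahnSeries.ofPowerSeries_apply_coeff, PowerSeries.coeff_expand_mul]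
    · rw [ofPowerSeries_coeff_of_neg _ hm, ofPowerSeries_coeff_of_neg _ (by nlinarith)]
  · rw [qExpand_coeff_of_not_dvd d _ hk]
    rcases le_or_gt 0 k with hk0 | hk0
    · lift k to ℕ using hk0
      rw [HahnSeries.ofPowerSeries_apply_coeff, PowerSeries.coeff_expand_of_not_dvd]
      intro h
      exact hk (by exact_mod_cast h)
    · rw [ofPowerSeries_coeff_of_neg _ hk0]

theorem qExpand_lau (d : ℕ) [NeZero d] (f : PowerSeries ℤ) :
    qExpand K d (lau K f) = lau K (ex d f) := by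
  rw [lau, qExpand_ofPowerSeries, lau, ex, PowerSeries.map_expand]

theorem qExpand_qinv (d : ℕ) [NeZero d] : qExpand K d (qinv K) = qinv K ^ d := by
  rw [qinv, qExpand_single, HahnSeries.single_pow, one_pow]
  simp

theorem qExpand_jqModC (d : ℕ) [NeZero d] :
    qExpand K d (jqModC K) = qinv K ^ d * lau K (ex d jNum) := by
  rw [jqModC_eq, map_mul, qExpand_qinv, qExpand_lau]

/-- `j(q²) · t₂ = (t₂ + 16)³`. -/
theorem jq2_mul_t2 : qExpand K 2 (jqModC K) * t2 K = (t2 K + 16) ^ 3 := by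
  have h := congrArg (fun f => qinv K ^ 3 * lau K f) T2_rel₂
  simp only [lau_mul, lau_pow] at h
  have e : (t2 K + 16) = qinv K * lau K (T2 + C 16 * X) := by
    rw [← t_add_const, t2]; simp
  rw [e, qExpand_jqModC, t2]
  linear_combination h

/-- `j · t₃³ = (t₃ + 27)(t₃ + 243)³`. -/
theorem jq_mul_t3_cube : jqModC K * t3 K ^ 3 = (t3 K + 27) * (t3 K + 243) ^ 3 := by
  have h := congrArg (fun f => qinv K ^ 4 * lau K f) T3_rel₁
  simp only [lau_mul, lau_pow] at h
  have e1 : (t3 K + 27) = qinv K * lau K (T3 + C 27 * X) := by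
    rw [← t_add_const, t3]; simp
  have e2 : (t3 K + 243) = qinv K * lau K (T3 + C 243 * X) := by
    rw [← t_add_const, t3]; simp
  rw [e1, e2, jqModC_eq, t3]
  linear_combination h

/-- `j(q³) · t₃ = (t₃ + 27)(t₃ + 3)³`. -/
theorem jq3_mul_t3 : qExpand K 3 (jqModC K) * t3 K = (t3 K + 27) * (t3 K + 3) ^ 3 := by
  have h := congrArg (fun f => qinv K ^ 4 * lau K f) T3_rel₂
  simp only [lau_mul, lau_pow] at h
  have e1 : (t3 K + 27) = qinv K * lau K (T3 + C 27 * X) := by
    rw [← t_add_const, t3]; simp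
  have e2 : (t3 K + 3) = qinv K * lau K (T3 + C 3 * X) := by
    rw [← t_add_const, t3]; simp
  rw [e1, e2, qExpand_jqModC, t3]
  linear_combination h

/-! ### Basic properties -/

variable {K}

theorem coeffMap_ofPS {K' : Type*} [CommRing K'] (φ : K →+* K') (p : PowerSeries K) :
    coeffMap φ (HahnSeries.ofPowerSeries ℤ K p) = HahnSeries.ofPowerSeries ℤ K' (p.map φ) := by
  ext k
  rw [coeffMap_coeff]
  rcases le_or_gt 0 k with hk | hk
  · lift k to ℕ using hk
    rw [HahnSeries.ofPowerSeries_apply_coeff, HahnSeries.ofPowerSeries_apply_coeff,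
      PowerSeries.coeff_map]
  · rw [ofPowerSeries_coeff_of_neg _ hk, ofPowerSeries_coeff_of_neg _ hk, map_zero]

theorem coeffMap_lau {K' : Type*} [CommRing K'] (φ : K →+* K') (g : PowerSeries ℤ) :
    coeffMap φ (lau K g) = lau K' g := by
  rw [lau, lau, coeffMap_ofPS,
    ← RingHom.comp_apply (PowerSeries.map φ) (PowerSeries.map (Int.castRingHom K)),
    ← PowerSeries.map_comp, RingHom.ext_int (φ.comp (Int.castRingHom K)) (Int.castRingHom K')]

theorem coeffMap_qinv {K' : Type*} [CommRing K'] (φ : K →+* K') :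
    coeffMap φ (qinv K) = qinv K' := by
  rw [qinv, coeffMap_single, map_one, qinv]

/-- `t₂` is compatible with every change of coefficients (base change, reduction mod `ℓ`). -/
theorem coeffMap_t2 {K' : Type*} [CommRing K'] (φ : K →+* K') :
    coeffMap φ (t2 K) = t2 K' := by
  rw [t2, map_mul, coeffMap_qinv, coeffMap_lau, t2]

/-- `t₃` is compatible with every change of coefficients (base change, reduction mod `ℓ`). -/
theorem coeffMap_t3 {K' : Type*} [CommRing K'] (φ : K →+* K') :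
    coeffMap φ (t3 K) = t3 K' := by
  rw [t3, map_mul, coeffMap_qinv, coeffMap_lau, t3]

variable (K)

theorem coeff_qinv_mul_lau (g : PowerSeries ℤ) (k : ℤ) :
    (qinv K * lau K g).coeff k = (lau K g).coeff (k + 1) := by
  rw [qinv, HahnSeries.coeff_single_mul, one_mul, sub_neg_eq_add]

theorem coeff_lau_natCast (g : PowerSeries ℤ) (n : ℕ) :
    (lau K g).coeff (n : ℤ) = ((PowerSeries.coeff n g : ℤ) : K) := by
  rw [lau, HahnSeries.ofPowerSeries_apply_coeff, PowerSeries.coeff_map, eq_intCast]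

theorem coeff_lau_of_neg (g : PowerSeries ℤ) {k : ℤ} (hk : k < 0) : (lau K g).coeff k = 0 :=
  ofPowerSeries_coeff_of_neg _ hk

/-- `t₂ = q⁻¹ + …`. -/
theorem coeff_t2_neg_one : (t2 K).coeff (-1) = 1 := by
  rw [t2, coeff_qinv_mul_lau, show (-1 : ℤ) + 1 = ((0 : ℕ) : ℤ) by norm_num, coeff_lau_natCast,
    PowerSeries.coeff_zero_eq_constantCoeff, constantCoeff_T2, Int.cast_one]

theorem coeff_t2_of_lt {k : ℤ} (hk : k < -1) : (t2 K).coeff k = 0 := by
  rw [t2, coeff_qinv_mul_lau, coeff_lau_of_neg K _ (by omega)]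

/-- `t₃ = q⁻¹ + …`. -/
theorem coeff_t3_neg_one : (t3 K).coeff (-1) = 1 := by
  rw [t3, coeff_qinv_mul_lau, show (-1 : ℤ) + 1 = ((0 : ℕ) : ℤ) by norm_num, coeff_lau_natCast,
    PowerSeries.coeff_zero_eq_constantCoeff, constantCoeff_T3, Int.cast_one]

theorem coeff_t3_of_lt {k : ℤ} (hk : k < -1) : (t3 K).coeff k = 0 := by
  rw [t3, coeff_qinv_mul_lau, coeff_lau_of_neg K _ (by omega)]

theorem t2_ne_zero [Nontrivial K] : t2 K ≠ 0 := fun h => by
  have := coeff_t2_neg_one K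
  rw [h] at this
  simp at this

theorem t3_ne_zero [Nontrivial K] : t3 K ≠ 0 := fun h => by
  have := coeff_t3_neg_one K
  rw [h] at this
  simp at this

/-- `t₂` is a root of the monic cubic `T³ + (768 - j) T² + 196608 T + 16777216` over `ℤ[j]`. -/
theorem t2_cubic :
    t2 K ^ 3 + (768 - jqModC K) * t2 K ^ 2 + 196608 * t2 K + 16777216 = 0 := by
  linear_combination -(jq_mul_t2_sq K)

/-- `t₂` is a root of the monic cubic `T³ + 48 T² + (768 - j(q²)) T + 4096` over `ℤ[j(q²)]`. -/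
theorem t2_cubic' :
    t2 K ^ 3 + 48 * t2 K ^ 2 + (768 - qExpand K 2 (jqModC K)) * t2 K + 4096 = 0 := by
  linear_combination -(jq2_mul_t2 K)

/-- `t₃` is a root of the monic quartic `T⁴ + (756 - j) T³ + 196830 T² + 19131876 T + 387420489`
over `ℤ[j]`. -/
theorem t3_quartic :
    t3 K ^ 4 + (756 - jqModC K) * t3 K ^ 3 + 196830 * t3 K ^ 2 + 19131876 * t3 K + 387420489
      = 0 := by
  linear_combination -(jq_mul_t3_cube K)

/-- `t₃` is a root of the monic quartic `T⁴ + 36 T³ + 270 T² + (756 - j(q³)) T + 729`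
over `ℤ[j(q³)]`. -/
theorem t3_quartic' :
    t3 K ^ 4 + 36 * t3 K ^ 3 + 270 * t3 K ^ 2 + (756 - qExpand K 3 (jqModC K)) * t3 K + 729
      = 0 := by
  linear_combination -(jq3_mul_t3 K)

/-- `j - 1728 = (t₂ + 64)(t₂ - 512)² / t₂²`: the elliptic point of order 2 of `X₀(2)` is
`t₂ = -64`; `t₂ = 512` lies over `j = 1728` with ramification index `2` (not a branch value of
higher levels over the `t₂`-line). -/
theorem jq_sub_1728_mul_t2_sq :
    (jqModC K - 1728) * t2 K ^ 2 = (t2 K + 64) * (t2 K - 512) ^ 2 := by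
  linear_combination jq_mul_t2_sq K

/-- `j - 1728 = (t₃² - 486 t₃ - 19683)² / t₃³`: `X₀(3)` has no elliptic point of order 2. -/
theorem jq_sub_1728_mul_t3_cube :
    (jqModC K - 1728) * t3 K ^ 3 = (t3 K ^ 2 - 486 * t3 K - 19683) ^ 2 := by
  linear_combination jq_mul_t3_cube K

end Fermat.Agent.Lib.Haupt

end
end
-- ===== PACK-END Lib/Haupt/Laurent.lean

-- ===== PACK-BEGIN S18/H634/HauptMember.lean
section



/-!
# S18 / c3 (helper634): the Hauptmoduln `t2`, `t3` of `Lib/Haupt` (helper637) are transcendental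
# and lie in the modular function fields

All statements are about `Fermat.Agent.Lib.Haupt.t2`, `Fermat.Agent.Lib.Haupt.t3`.

* `transcendental_t2`, `transcendental_t3` (any commutative ring of constants)
* `t2_mem_fullC : (2 : K) ≠ 0 → 2 ∣ M → t2 K ∈ modularFunctionFieldFullC K M`
* `t3_mem_fullC : (3 : K) ≠ 0 → 3 ∣ M → t3 K ∈ modularFunctionFieldFullC K M`
* `t2_mem_baseChange`, `t3_mem_baseChange` : membership in
  `laurentBaseChange L (modularFunctionFieldFull M)` for every field `L` of characteristic `0`.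
* `t2_eq_div`, `t3_eq_div` : the explicit rational expressions `t = -num(j, j_d) / den(j, j_d)`.

The membership proofs are explicit eliminations (first subresultant of the two relations of
`Lib/Haupt/Laurent.lean`); the big polynomial expressions are GENERATED
(coord/S18-c3-genmem-helper634.py.txt).
-/

set_option autoImplicit false
set_option maxHeartbeats 4000000
set_option maxRecDepth 100000

noncomputable section

namespace Fermat.Agent.S18.H634

open ModularCurve HahnSeries Fermat.Agent.Lib.Haupt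

/-- series of Hauptmodul shape `q⁻¹ · J(q)` -/
def hauptForm (K : Type*) [CommRing K] (J : PowerSeries ℤ) : LaurentSeries K :=
  qinv K * lau K J

theorem t2_eq_hauptForm (K : Type*) [CommRing K] : t2 K = hauptForm K T2 := rfl

theorem t3_eq_hauptForm (K : Type*) [CommRing K] : t3 K = hauptForm K T3 := rfl

theorem t2_rel_j (K : Type*) [CommRing K] : jqModC K * t2 K ^ 2 = (t2 K + 256) ^ 3 :=
  jq_mul_t2_sq K

theorem t2_rel_j2 (K : Type*) [CommRing K] : jqNModC K 2 * t2 K = (t2 K + 16) ^ 3 :=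
  jq2_mul_t2 K

theorem t3_rel_j (K : Type*) [CommRing K] :
    jqModC K * t3 K ^ 3 = (t3 K + 27) * (t3 K + 243) ^ 3 :=
  jq_mul_t3_cube K

theorem t3_rel_j3 (K : Type*) [CommRing K] :
    jqNModC K 3 * t3 K = (t3 K + 27) * (t3 K + 3) ^ 3 :=
  jq3_mul_t3 K

/-! ### series of Hauptmodul shape -/

section HauptForm

variable (K : Type*) [CommRing K] (J : PowerSeries ℤ)

theorem hauptForm_pow (n : ℕ) :
    hauptForm K J ^ n = HahnSeries.single (-(n : ℤ)) 1 *
      HahnSeries.ofPowerSeries ℤ K ((J.map (Int.castRingHom K)) ^ n) := by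
  have h : n • (-1 : ℤ) = -(n : ℤ) := by simp
  rw [hauptForm, qinv, lau, mul_pow, HahnSeries.single_pow, one_pow, h, ← map_pow]

variable {J}

theorem constantCoeff_map_int (hJ : PowerSeries.constantCoeff J = 1) :
    PowerSeries.constantCoeff (J.map (Int.castRingHom K)) = 1 := by
  rw [← PowerSeries.coeff_zero_eq_constantCoeff, PowerSeries.coeff_map,
    PowerSeries.coeff_zero_eq_constantCoeff, hJ, map_one]

theorem coeff_hauptForm_pow_self (hJ : PowerSeries.constantCoeff J = 1) (n : ℕ) :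
    (hauptForm K J ^ n).coeff (-(n : ℤ)) = 1 := by
  rw [hauptForm_pow, HahnSeries.coeff_single_mul, one_mul, sub_neg_eq_add, neg_add_cancel,
    show (0 : ℤ) = ((0 : ℕ) : ℤ) from rfl, HahnSeries.ofPowerSeries_apply_coeff,
    PowerSeries.coeff_zero_eq_constantCoeff, map_pow, constantCoeff_map_int K hJ, one_pow]

variable (J) in
theorem coeff_hauptForm_pow_of_lt {n : ℕ} {m : ℤ} (hm : m < -(n : ℤ)) :
    (hauptForm K J ^ n).coeff m = 0 := by
  rw [hauptForm_pow, HahnSeries.coeff_single_mul, one_mul]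
  exact ofPowerSeries_coeff_of_neg _ (by omega)

theorem algebraMap_laurent_eq_single (c : K) :
    algebraMap K (LaurentSeries K) c = HahnSeries.single 0 c := by
  have h1 : algebraMap K (PowerSeries K) c = PowerSeries.C c := by simp
  rw [HahnSeries.algebraMap_apply', h1, HahnSeries.ofPowerSeries_C]
  rfl

theorem aeval_hauptForm_eq_zero (hJ : PowerSeries.constantCoeff J = 1) {p : Polynomial K}
    (hp : Polynomial.aeval (hauptForm K J) p = 0) : p = 0 := by
  by_contra hp0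
  set n := p.natDegree with hn
  have hcoeff : (Polynomial.aeval (hauptForm K J) p).coeff (-(n : ℤ)) = p.coeff n := by
    rw [Polynomial.aeval_def, Polynomial.eval₂_eq_sum_range, HahnSeries.coeff_sum,
      Finset.sum_eq_single n]
    · rw [algebraMap_laurent_eq_single, HahnSeries.coeff_single_zero_mul,
        coeff_hauptForm_pow_self K hJ, mul_one]
    · intro i hi hin
      have hilt : i < n := lt_of_le_of_ne (Nat.lt_succ_iff.mp (Finset.mem_range.mp hi)) hin
      rw [algebraMap_laurent_eq_single, HahnSeries.coeff_single_zero_mul,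
        coeff_hauptForm_pow_of_lt, mul_zero]
      omega
    · intro hn'
      exact absurd (Finset.self_mem_range_succ n) hn'
  rw [hp] at hcoeff
  simp only [HahnSeries.coeff_zero] at hcoeff
  exact hp0 (Polynomial.leadingCoeff_eq_zero.mp hcoeff.symm)

theorem transcendental_hauptForm (hJ : PowerSeries.constantCoeff J = 1) :
    Transcendental K (hauptForm K J) :=
  transcendental_iff.mpr fun _ hp => aeval_hauptForm_eq_zero K hJ hp

theorem transcendental_t2 : Transcendental K (t2 K) :=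
  transcendental_hauptForm K constantCoeff_T2

theorem transcendental_t3 : Transcendental K (t3 K) :=
  transcendental_hauptForm K constantCoeff_T3

end HauptForm


/-! ### `t2` lies in the function field of level divisible by `2` -/

section Memt2

variable {L : Type*} [Field L]

/-- (generated) the denominator of the elimination -/
def den2 (j J : L) : L := (19906560000) + (-161280) * J + (1) * J^2 + (25067520) * j + (1488) * j * J + (768) * j^2 + (-1) * j^2 * J

/-- (generated) the numerator of the elimination -/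
def num2 (j J : L) : L := (2707292160000) + (16773120) * J + (799211520) * j + (4096) * j^2

/-- (generated) first subresultant relation -/
theorem lin2 (j J t : L) (h1 : j * t ^ 2 = (t + 256) ^ 3) (h2 : J * t = (t + 16) ^ 3) :
    den2 j J * t + num2 j J = 0 := by
  unfold den2 num2
  linear_combination (-(((161280) + (1) * J + (48) * j) + ((-720) + (1) * j) * t)) * h1 + (-(((357120) + (-1) * J + (-1488) * j + (1) * j^2) + ((720) + (-1) * j) * t)) * h2

/-- (generated) the denominator in terms of `t` -/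
theorem den2_mul (j J t : L) (h1 : j * t ^ 2 = (t + 256) ^ 3) (h2 : J * t = (t + 16) ^ 3) :
    den2 j J * t ^ 5 = -((2 : L) ^ 24 * ((1) * t ^ 6 + (96) * t ^ 5 + (198960) * t ^ 4 + (9451775) * t ^ 3 + (814940160) * t ^ 2 + (1610612736) * t + (68719476736))) := by
  have e0 : den2 j J * t ^ 5 = (19906560000) * t ^ 5 + (-161280) * (J * t) ^ 1 * t ^ 4 + (1) * (J * t) ^ 2 * t ^ 3 + (25067520) * (j * t ^ 2) ^ 1 * t ^ 3 + (1488) * (j * t ^ 2) ^ 1 * (J * t) ^ 1 * t ^ 2 + (768) * (j * t ^ 2) ^ 2 * t ^ 1 + (-1) * (j * t ^ 2) ^ 2 * (J * t) ^ 1 := by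
    unfold den2
    ring
  rw [e0, h1, h2]
  ring

end Memt2

theorem den2_jq_ne_zero (K : Type*) [Field K] (hchar : (2 : K) ≠ 0) :
    den2 (jqModC K) (jqNModC K 2) ≠ 0 := by
  have h1 := t2_rel_j K
  have h2 := t2_rel_j2 K
  have hlin := lin2 (jqModC K) (jqNModC K 2) (t2 K) h1 h2
  have hmul := den2_mul (jqModC K) (jqNModC K 2) (t2 K) h1 h2
  -- the denominator does not vanish
  have hQ : ((1) * t2 K ^ 6 + (96) * t2 K ^ 5 + (198960) * t2 K ^ 4 + (9451775) * t2 K ^ 3 + (814940160) * t2 K ^ 2 + (1610612736) * t2 K + (68719476736) : LaurentSeries K) ≠ 0 := by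
    have hp : ((1) * Polynomial.X ^ 6 + (96) * Polynomial.X ^ 5 + (198960) * Polynomial.X ^ 4 + (9451775) * Polynomial.X ^ 3 + (814940160) * Polynomial.X ^ 2 + (1610612736) * Polynomial.X + (68719476736) : Polynomial K).Monic := by
      monicity!
    have h := mt (aeval_hauptForm_eq_zero K constantCoeff_T2
      (p := ((1) * Polynomial.X ^ 6 + (96) * Polynomial.X ^ 5 + (198960) * Polynomial.X ^ 4 + (9451775) * Polynomial.X ^ 3 + (814940160) * Polynomial.X ^ 2 + (1610612736) * Polynomial.X + (68719476736) : Polynomial K))) hp.ne_zero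
    simpa only [map_add, map_mul, map_pow, Polynomial.aeval_X, map_ofNat, map_one, ← t2_eq_hauptForm] using h
  have hp : ((2 : LaurentSeries K) ^ 24) ≠ 0 := by
    apply pow_ne_zero
    have : (2 : LaurentSeries K) = algebraMap K (LaurentSeries K) 2 := (map_ofNat _ 2).symm
    rw [this]
    exact (map_ne_zero _).mpr hchar
  have hden : den2 (jqModC K) (jqNModC K 2) ≠ 0 := by
    intro h0
    rw [h0, zero_mul] at hmul
    exact (mul_ne_zero hp hQ) (neg_eq_zero.mp hmul.symm)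
  exact hden

/-- explicit rational expression of `t2` in `j(q)`, `j(q^2)` -/
theorem t2_eq_div (K : Type*) [Field K] (hchar : (2 : K) ≠ 0) :
    t2 K = -num2 (jqModC K) (jqNModC K 2) / den2 (jqModC K) (jqNModC K 2) := by
  have hlin := lin2 (jqModC K) (jqNModC K 2) (t2 K) (t2_rel_j K) (t2_rel_j2 K)
  rw [eq_div_iff (den2_jq_ne_zero K hchar)]
  linear_combination hlin

theorem t2_mem_fullC (K : Type*) [Field K] (hchar : (2 : K) ≠ 0) (M : ℕ) [NeZero M]
    (hM : 2 ∣ M) : t2 K ∈ modularFunctionFieldFullC K M := by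
  set F := modularFunctionFieldFullC K M with hF
  have hj : jqModC K ∈ F := jqModC_mem_full K M
  have hJ : jqNModC K 2 ∈ F := jqModCd_mem_full K M hM
  -- membership of numerator and denominator
  have hden_mem : den2 (jqModC K) (jqNModC K 2) ∈ F := by
    have := (den2 (⟨_, hj⟩ : F) (⟨_, hJ⟩ : F)).2
    unfold den2 at this ⊢
    exact_mod_cast this
  have hnum_mem : num2 (jqModC K) (jqNModC K 2) ∈ F := by
    have := (num2 (⟨_, hj⟩ : F) (⟨_, hJ⟩ : F)).2
    unfold num2 at this ⊢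
    exact_mod_cast this
  rw [t2_eq_div K hchar]
  exact div_mem (neg_mem hnum_mem) hden_mem


/-! ### `t3` lies in the function field of level divisible by `3` -/

section Memt3

variable {L : Type*} [Field L]

/-- (generated) the denominator of the elimination -/
def den3 (j J : L) : L := (2641807540224000000000) + (328219361280000) * J + (36864720) * J^2 + (1) * J^3 + (-572980708638720000) * j + (9457338111840) * j * J + (-1069956) * j * J^2 + (3513047559120) * j^2 + (2202104637) * j^2 * J + (2232) * j^2 * J^2 + (-374706) * j^3 + (1512) * j^3 * J + (-1) * j^3 * J^2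

/-- (generated) the numerator of the elimination -/
def num3 (j J : L) : L := (71328803586048000000000) + (-35305797058560000) * J + (387419760) * J^2 + (-10354866501058560000) * j + (55775383276320) * j * J + (16876879720560) * j^2 + (13945510476) * j^2 * J + (-551124) * j^3 + (729) * j^3 * J

/-- (generated) first subresultant relation -/
theorem lin3 (j J t : L) (h1 : j * t ^ 3 = (t + 27) * (t + 243) ^ 3) (h2 : J * t = (t + 27) * (t + 3) ^ 3) :
    den3 j J * t + num3 j J = 0 := by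
  unfold den3 num3
  linear_combination (-(((184115773440000) + (-91130400) * J + (1) * J^2 + (-26714059200) * j + (143964) * j * J + (45684) * j^2 + (36) * j^2 * J) + ((-2269347840000) + (321840) * J + (-145586160) * j + (-1440) * j * J + (8964) * j^2 + (1) * j^2 * J) * t + ((19906560000) + (-720) * J + (25818480) * j + (1) * j * J + (270) * j^2) * t^2)) * h1 + (-(((-1947040727040000) + (-17733600) * J + (-1) * J^2 + (-7260113332800) * j + (1069956) * j * J + (-1127624004) * j^2 + (-2232) * j^2 * J + (-756) * j^3 + (1) * j^3 * J) + ((-12063375360000) + (196560) * J + (1462840560) * j + (25615116) * j^2 + (270) * j^3) * t + ((-19906560000) + (720) * J + (-25818480) * j + (-1) * j * J + (-270) * j^2) * t^2)) * h2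

/-- (generated) the denominator in terms of `t` -/
theorem den3_mul (j J t : L) (h1 : j * t ^ 3 = (t + 27) * (t + 243) ^ 3) (h2 : J * t = (t + 27) * (t + 3) ^ 3) :
    den3 j J * t ^ 11 = -((3 : L) ^ 18 * ((1) * t ^ 16 + (108) * t ^ 15 + (201528) * t ^ 14 + (59626404) * t ^ 13 + (42369876252) * t ^ 12 + (6661370952684) * t ^ 11 + (710775193256712) * t ^ 10 + (27393572738312388) * t ^ 9 + (795914464089548294) * t ^ 8 + (19969914526229730852) * t ^ 7 + (377735079479540281992) * t ^ 6 + (2580751591899231142476) * t ^ 5 + (11966504510609689549212) * t ^ 4 + (12276547822292907512196) * t ^ 3 + (30248271662133638856888) * t ^ 2 + (11817250826203334794572) * t + (79766443076872509863361))) := by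
  have e0 : den3 j J * t ^ 11 = (2641807540224000000000) * t ^ 11 + (328219361280000) * (J * t) ^ 1 * t ^ 10 + (36864720) * (J * t) ^ 2 * t ^ 9 + (1) * (J * t) ^ 3 * t ^ 8 + (-572980708638720000) * (j * t ^ 3) ^ 1 * t ^ 8 + (9457338111840) * (j * t ^ 3) ^ 1 * (J * t) ^ 1 * t ^ 7 + (-1069956) * (j * t ^ 3) ^ 1 * (J * t) ^ 2 * t ^ 6 + (3513047559120) * (j * t ^ 3) ^ 2 * t ^ 5 + (2202104637) * (j * t ^ 3) ^ 2 * (J * t) ^ 1 * t ^ 4 + (2232) * (j * t ^ 3) ^ 2 * (J * t) ^ 2 * t ^ 3 + (-374706) * (j * t ^ 3) ^ 3 * t ^ 2 + (1512) * (j * t ^ 3) ^ 3 * (J * t) ^ 1 * t ^ 1 + (-1) * (j * t ^ 3) ^ 3 * (J * t) ^ 2 := by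
    unfold den3
    ring
  rw [e0, h1, h2]
  ring

end Memt3

theorem den3_jq_ne_zero (K : Type*) [Field K] (hchar : (3 : K) ≠ 0) :
    den3 (jqModC K) (jqNModC K 3) ≠ 0 := by
  have h1 := t3_rel_j K
  have h2 := t3_rel_j3 K
  have hlin := lin3 (jqModC K) (jqNModC K 3) (t3 K) h1 h2
  have hmul := den3_mul (jqModC K) (jqNModC K 3) (t3 K) h1 h2
  -- the denominator does not vanish
  have hQ : ((1) * t3 K ^ 16 + (108) * t3 K ^ 15 + (201528) * t3 K ^ 14 + (59626404) * t3 K ^ 13 + (42369876252) * t3 K ^ 12 + (6661370952684) * t3 K ^ 11 + (710775193256712) * t3 K ^ 10 + (27393572738312388) * t3 K ^ 9 + (795914464089548294) * t3 K ^ 8 + (19969914526229730852) * t3 K ^ 7 + (377735079479540281992) * t3 K ^ 6 + (2580751591899231142476) * t3 K ^ 5 + (11966504510609689549212) * t3 K ^ 4 + (12276547822292907512196) * t3 K ^ 3 + (30248271662133638856888) * t3 K ^ 2 + (11817250826203334794572) * t3 K + (79766443076872509863361) : LaurentSeries K) ≠ 0 := by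
    have hp : ((1) * Polynomial.X ^ 16 + (108) * Polynomial.X ^ 15 + (201528) * Polynomial.X ^ 14 + (59626404) * Polynomial.X ^ 13 + (42369876252) * Polynomial.X ^ 12 + (6661370952684) * Polynomial.X ^ 11 + (710775193256712) * Polynomial.X ^ 10 + (27393572738312388) * Polynomial.X ^ 9 + (795914464089548294) * Polynomial.X ^ 8 + (19969914526229730852) * Polynomial.X ^ 7 + (377735079479540281992) * Polynomial.X ^ 6 + (2580751591899231142476) * Polynomial.X ^ 5 + (11966504510609689549212) * Polynomial.X ^ 4 + (12276547822292907512196) * Polynomial.X ^ 3 + (30248271662133638856888) * Polynomial.X ^ 2 + (11817250826203334794572) * Polynomial.X + (79766443076872509863361) : Polynomial K).Monic := by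
      monicity!
    have h := mt (aeval_hauptForm_eq_zero K constantCoeff_T3
      (p := ((1) * Polynomial.X ^ 16 + (108) * Polynomial.X ^ 15 + (201528) * Polynomial.X ^ 14 + (59626404) * Polynomial.X ^ 13 + (42369876252) * Polynomial.X ^ 12 + (6661370952684) * Polynomial.X ^ 11 + (710775193256712) * Polynomial.X ^ 10 + (27393572738312388) * Polynomial.X ^ 9 + (795914464089548294) * Polynomial.X ^ 8 + (19969914526229730852) * Polynomial.X ^ 7 + (377735079479540281992) * Polynomial.X ^ 6 + (2580751591899231142476) * Polynomial.X ^ 5 + (11966504510609689549212) * Polynomial.X ^ 4 + (12276547822292907512196) * Polynomial.X ^ 3 + (30248271662133638856888) * Polynomial.X ^ 2 + (11817250826203334794572) * Polynomial.X + (79766443076872509863361) : Polynomial K))) hp.ne_zero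
    simpa only [map_add, map_mul, map_pow, Polynomial.aeval_X, map_ofNat, map_one, ← t3_eq_hauptForm] using h
  have hp : ((3 : LaurentSeries K) ^ 18) ≠ 0 := by
    apply pow_ne_zero
    have : (3 : LaurentSeries K) = algebraMap K (LaurentSeries K) 3 := (map_ofNat _ 3).symm
    rw [this]
    exact (map_ne_zero _).mpr hchar
  have hden : den3 (jqModC K) (jqNModC K 3) ≠ 0 := by
    intro h0
    rw [h0, zero_mul] at hmul
    exact (mul_ne_zero hp hQ) (neg_eq_zero.mp hmul.symm)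
  exact hden

/-- explicit rational expression of `t3` in `j(q)`, `j(q^3)` -/
theorem t3_eq_div (K : Type*) [Field K] (hchar : (3 : K) ≠ 0) :
    t3 K = -num3 (jqModC K) (jqNModC K 3) / den3 (jqModC K) (jqNModC K 3) := by
  have hlin := lin3 (jqModC K) (jqNModC K 3) (t3 K) (t3_rel_j K) (t3_rel_j3 K)
  rw [eq_div_iff (den3_jq_ne_zero K hchar)]
  linear_combination hlin

theorem t3_mem_fullC (K : Type*) [Field K] (hchar : (3 : K) ≠ 0) (M : ℕ) [NeZero M]
    (hM : 3 ∣ M) : t3 K ∈ modularFunctionFieldFullC K M := by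
  set F := modularFunctionFieldFullC K M with hF
  have hj : jqModC K ∈ F := jqModC_mem_full K M
  have hJ : jqNModC K 3 ∈ F := jqModCd_mem_full K M hM
  -- membership of numerator and denominator
  have hden_mem : den3 (jqModC K) (jqNModC K 3) ∈ F := by
    have := (den3 (⟨_, hj⟩ : F) (⟨_, hJ⟩ : F)).2
    unfold den3 at this ⊢
    exact_mod_cast this
  have hnum_mem : num3 (jqModC K) (jqNModC K 3) ∈ F := by
    have := (num3 (⟨_, hj⟩ : F) (⟨_, hJ⟩ : F)).2
    unfold num3 at this ⊢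
    exact_mod_cast this
  rw [t3_eq_div K hchar]
  exact div_mem (neg_mem hnum_mem) hden_mem


/-! ### base change: membership in `laurentBaseChange L (modularFunctionFieldFull M)` -/

theorem t2_mem_baseChange (L : Type*) [Field L] [Algebra ℚ L] (M : ℕ) [NeZero M] (hM : 2 ∣ M) :
    t2 L ∈ laurentBaseChange L (modularFunctionFieldFull M) := by
  have h := t2_mem_fullC ℚ (by norm_num) M hM
  rw [modularFunctionFieldFullC_rat] at h
  have h' := coeffEmb_mem_laurentBaseChange L h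
  rwa [coeffEmb, coeffMap_t2] at h'

theorem t3_mem_baseChange (L : Type*) [Field L] [Algebra ℚ L] (M : ℕ) [NeZero M] (hM : 3 ∣ M) :
    t3 L ∈ laurentBaseChange L (modularFunctionFieldFull M) := by
  have h := t3_mem_fullC ℚ (by norm_num) M hM
  rw [modularFunctionFieldFullC_rat] at h
  have h' := coeffEmb_mem_laurentBaseChange L h
  rwa [coeffEmb, coeffMap_t3] at h'

end Fermat.Agent.S18.H634

end
end
-- ===== PACK-END S18/H634/HauptMember.lean

-- ===== PACK-BEGIN S18/H634/Coord.lean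
section



/-!
# S18 / node_coord (c3) — existence of admissible coordinates (helper634)

`node_coord` has EXACTLY the type of the `sorry` node `Integ.node_coord` of the row skeleton
(`origin/helper18:Fermat/Agent/S18/Integ/Skeleton.lean`, v4):

    theorem node_coord (M : ℕ) [NeZero M] {ℓ : ℕ} [Fact ℓ.Prime] (hℓM : ¬ ℓ ∣ M)
        (h3 : ℓ = 3 → 2 ∣ M) (h2 : ℓ = 2 → 3 ∣ M) : Mod.CoordinateStatement M ℓ

* `ℓ ≥ 5`: `x = j`, `S = {0, 1728}`;
* `ℓ = 3`: `x = t2 = Δ(q)/Δ(q²)` (helper637's `Lib.Haupt.t2`), `S = {0, -64}`;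
* `ℓ = 2`: `x = t3 = (η(q)/η(q³))¹²` (`Lib.Haupt.t3`), `S = {0, -27}`.
-/

set_option autoImplicit false

noncomputable section

namespace Fermat.Agent.S18.H634

open ModularCurve AlgebraicCurve HahnSeries Fermat.Agent.Lib.Haupt Fermat.Agent.S18

/-- `t2` as an element of `Ω = F_M`, `2 ∣ M`. -/
def t2Om (M : ℕ) [NeZero M] (hM : 2 ∣ M) : Mod.Om M :=
  ⟨t2 Qb, t2_mem_baseChange Qb M hM⟩

/-- `t3` as an element of `Ω = F_M`, `3 ∣ M`. -/
def t3Om (M : ℕ) [NeZero M] (hM : 3 ∣ M) : Mod.Om M :=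
  ⟨t3 Qb, t3_mem_baseChange Qb M hM⟩

theorem coe_jOm (M : ℕ) [NeZero M] : ((Mod.jOm M : Mod.Om M) : LaurentSeries Qb) = jqModC Qb := by
  show coeffEmb Qb (qExpand ℚ 1 jq) = jqModC Qb
  rw [qExpand_one_apply, ← jqModC_rat, coeffEmb, coeffMap_jqModC]

theorem jOm_mul_t2Om_sq (M : ℕ) [NeZero M] (hM : 2 ∣ M) :
    Mod.jOm M * t2Om M hM ^ 2 = (t2Om M hM + 256) ^ 3 := by
  apply Subtype.ext
  have h := jq_mul_t2_sq Qb
  have e1 : ((Mod.jOm M * t2Om M hM ^ 2 : Mod.Om M) : LaurentSeries Qb)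
      = jqModC Qb * t2 Qb ^ 2 := by
    rw [← coe_jOm M]; rfl
  have e2 : (((t2Om M hM + 256) ^ 3 : Mod.Om M) : LaurentSeries Qb) = (t2 Qb + 256) ^ 3 := rfl
  rw [e1, e2, h]

theorem jOm_mul_t3Om_cube (M : ℕ) [NeZero M] (hM : 3 ∣ M) :
    Mod.jOm M * t3Om M hM ^ 3 = (t3Om M hM + 27) * (t3Om M hM + 243) ^ 3 := by
  apply Subtype.ext
  have h := jq_mul_t3_cube Qb
  have e1 : ((Mod.jOm M * t3Om M hM ^ 3 : Mod.Om M) : LaurentSeries Qb)
      = jqModC Qb * t3 Qb ^ 3 := by
    rw [← coe_jOm M]; rfl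
  have e2 : (((t3Om M hM + 27) * (t3Om M hM + 243) ^ 3 : Mod.Om M) : LaurentSeries Qb)
      = (t3 Qb + 27) * (t3 Qb + 243) ^ 3 := rfl
  rw [e1, e2, h]

/-- the integral model of `t2`: the series `t2 ℤ`. -/
theorem t2_intModel (M : ℕ) [NeZero M] (hM : 2 ∣ M) :
    ∃ X : LaurentSeries ℤ, X.coeff (-1) = 1 ∧ (∀ k : ℤ, k < -1 → X.coeff k = 0) ∧
      ((t2Om M hM : Mod.Om M) : LaurentSeries Qb) = coeffMap (Int.castRingHom Qb) X ∧
      coeffMap (Int.castRingHom ℚ) X ∈ modularFunctionFieldFull M := by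
  refine ⟨t2 ℤ, coeff_t2_neg_one ℤ, fun k hk => coeff_t2_of_lt ℤ hk, ?_, ?_⟩
  · rw [coeffMap_t2]; rfl
  · rw [coeffMap_t2, ← modularFunctionFieldFullC_rat]
    exact t2_mem_fullC ℚ (by norm_num) M hM

/-- the integral model of `t3`: the series `t3 ℤ`. -/
theorem t3_intModel (M : ℕ) [NeZero M] (hM : 3 ∣ M) :
    ∃ X : LaurentSeries ℤ, X.coeff (-1) = 1 ∧ (∀ k : ℤ, k < -1 → X.coeff k = 0) ∧
      ((t3Om M hM : Mod.Om M) : LaurentSeries Qb) = coeffMap (Int.castRingHom Qb) X ∧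
      coeffMap (Int.castRingHom ℚ) X ∈ modularFunctionFieldFull M := by
  refine ⟨t3 ℤ, coeff_t3_neg_one ℤ, fun k hk => coeff_t3_of_lt ℤ hk, ?_, ?_⟩
  · rw [coeffMap_t3]; rfl
  · rw [coeffMap_t3, ← modularFunctionFieldFullC_rat]
    exact t3_mem_fullC ℚ (by norm_num) M hM

/-- `t2` is an admissible coordinate for `ℓ = 3`. -/
theorem isCoordinate_t2 (M : ℕ) [NeZero M] (hM : 2 ∣ M) (S : Finset (Mod.Om M))
    (hS : ∀ s, s ∈ S ↔ s = 0 ∨ s = -64) : Mod.IsCoordinate M 3 (t2Om M hM) S :=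
  Or.inr ⟨Or.inl ⟨rfl, jOm_mul_t2Om_sq M hM, hS⟩, t2_intModel M hM⟩

/-- `t3` is an admissible coordinate for `ℓ = 2`. -/
theorem isCoordinate_t3 (M : ℕ) [NeZero M] (hM : 3 ∣ M) (S : Finset (Mod.Om M))
    (hS : ∀ s, s ∈ S ↔ s = 0 ∨ s = -27) : Mod.IsCoordinate M 2 (t3Om M hM) S :=
  Or.inr ⟨Or.inr ⟨rfl, jOm_mul_t3Om_cube M hM, hS⟩, t3_intModel M hM⟩

/-- `j` is an admissible coordinate for `ℓ ≥ 5`. -/
theorem isCoordinate_j (M ℓ : ℕ) (hℓ : 5 ≤ ℓ) (S : Finset (Mod.Om M))
    (hS : ∀ s, s ∈ S ↔ s = 0 ∨ s = 1728) : Mod.IsCoordinate M ℓ (Mod.jOm M) S :=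
  Or.inl ⟨hℓ, rfl, hS⟩

/-- **NODE COORD** (c3), exact type of `Integ.node_coord` (skeleton v4). -/
theorem node_coord (M : ℕ) [NeZero M] {ℓ : ℕ} [Fact ℓ.Prime] (hℓM : ¬ ℓ ∣ M)
    (h3 : ℓ = 3 → 2 ∣ M) (h2 : ℓ = 2 → 3 ∣ M) : Mod.CoordinateStatement M ℓ := by
  classical
  have hp : ℓ.Prime := Fact.out
  by_cases e3 : ℓ = 3
  · subst e3
    exact ⟨t2Om M (h3 rfl), {0, -64}, isCoordinate_t2 M (h3 rfl) _ (by simp)⟩
  by_cases e2 : ℓ = 2
  · subst e2
    exact ⟨t3Om M (h2 rfl), {0, -27}, isCoordinate_t3 M (h2 rfl) _ (by simp)⟩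
  have h5 : 5 ≤ ℓ := by
    have h2' := hp.two_le
    by_contra hlt
    have h4 : ℓ = 4 := by omega
    rw [h4] at hp
    exact absurd hp (by norm_num)
  exact ⟨Mod.jOm M, {0, 1728}, isCoordinate_j M ℓ h5 _ (by simp)⟩

end Fermat.Agent.S18.H634

end
end
-- ===== PACK-END S18/H634/Coord.lean

-- ===== PACK-BEGIN S48/Red1/Mod1.lean
section




/-!
# S48 / RES (Tower A1), sub-tower A1-RED, node R4: the MOD deliverable for `F1 M` (helper588)

Adapter from the assembly `Red1/Asm.lean` (`goodFamily_top`) to helper908's target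
`H908.Core1.Mod1Hyp` (`S48/H908/CoreF1.lean`; `core1 : Mod1Hyp → FinHyp → DegHyp → CoreG …`).

* `intGen_F1`                 : `F1 M` is generated by series with integer coefficients;
* `hasGoodFamilyMin_of_family`: `GoodFamily + ConcreteFamily ⟹ H908.Core1.HasGoodFamilyMin`;
* `LeavesF1`, `BranchF1`      : the leaves of `Asm.lean` for `F₀ = F1 M`;
* `mod1Hyp_of_leaves`         : `LeavesF1 → BranchF1 → H908.Core1.Mod1Hyp`.
-/

set_option autoImplicit false

noncomputable section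

namespace Fermat.Agent.S48.Red1

open ModularCurve AlgebraicCurve HahnSeries Fermat.Agent.S18 Fermat.Agent.S18.Alg
open Fermat.Agent.S18.Mod Fermat.Agent.S48.H248 Fermat.Agent.S18.H107 Fermat.Agent.S48.F1

/-- `coeffMap` commutes with `q ↦ q^n`. -/
theorem coeffMap_qExpand_red1 {R S : Type*} [CommRing R] [CommRing S] (f : R →+* S) (n : ℕ)
    [NeZero n] (x : LaurentSeries R) :
    coeffMap f (qExpand R n x) = qExpand S n (coeffMap f x) := by
  ext k
  by_cases hk : (n : ℤ) ∣ k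
  · obtain ⟨m, rfl⟩ := hk
    rw [coeffMap_coeff, qExpand_coeff_mul, qExpand_coeff_mul, coeffMap_coeff]
  · rw [coeffMap_coeff, qExpand_coeff_of_not_dvd n _ hk, qExpand_coeff_of_not_dvd n _ hk,
      map_zero]

/-- `F1 M` is generated over `ℚ` by series with integer coefficients. -/
theorem intGen_F1 (M : ℕ) : IntGen (F1 M) := by
  refine ⟨{X | (∃ (d : ℕ) (_ : NeZero d), d ∣ M ∧ X = qExpand ℤ d (jqModC ℤ)) ∨
    ∃ a : ZMod M, a ≠ 0 ∧ X = divGenC ℤ M a}, ?_⟩
  unfold F1
  congr 1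
  ext y
  constructor
  · rintro (⟨d, hd, hdM, rfl⟩ | ⟨a, ha, rfl⟩)
    · refine ⟨qExpand ℤ d (jqModC ℤ), Or.inl ⟨d, hd, hdM, rfl⟩, ?_⟩
      rw [coeffMap_qExpand_red1, coeffMap_jqModC]
      rfl
    · refine ⟨divGenC ℤ M a, Or.inr ⟨a, ha, rfl⟩, ?_⟩
      rw [coeffMap_divGenC]
      rfl
  · rintro ⟨X, (⟨d, hd, hdM, rfl⟩ | ⟨a, ha, rfl⟩), rfl⟩
    · left
      refine ⟨d, hd, hdM, ?_⟩
      rw [coeffMap_qExpand_red1, coeffMap_jqModC]
      rfl
    · right
      refine ⟨a, ha, ?_⟩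
      rw [coeffMap_divGenC]
      rfl

/-- Adapter: a concrete good family is a minimal MOD deliverable in the sense of helper908. -/
theorem hasGoodFamilyMin_of_family {F₀ : IntermediateField ℚ (LaurentSeries ℚ)} {ℓ : ℕ}
    (hℓ : ℓ.Prime) (A : ValuationSubring Qb) (hA : A.LiesOverPrime ℓ) {x : OmG F₀}
    {S : Finset (OmG F₀)} {𝓕 : Set (Model (OmG F₀))}
    (hfam : GoodFamily (LcG F₀) x S 𝓕) (hc : ConcreteFamily F₀ A 𝓕)
    (Fk : IntermediateField (IsLocalRing.ResidueField A)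
      (LaurentSeries (IsLocalRing.ResidueField A))) (m : ℕ) (hm : ¬ ℓ ∣ m) :
    Fermat.Agent.S48.H908.Core1.HasGoodFamilyMin F₀ A Fk m x S := by
  refine ⟨𝓕, hfam, fun U₁ U₂ h₁ h₂ hred => ?_⟩
  obtain ⟨p, hp, hf₁, hf₂⟩ := hc.exists_member ⟨_, h₁.1⟩ ⟨_, h₂.1⟩
  have hgood := hfam.good p hp
  have hmR : ((m : OmG F₀))⁻¹ ∈ p.2.2.1 := by
    have h1 : ((m : Qb))⁻¹ ∈ A :=
      Fermat.Agent.S18.H965.natCast_inv_mem_valuationSubring hℓ A hA hm
    have h2 : algebraMap Qb (OmG F₀) ((m : Qb))⁻¹ = ((m : OmG F₀))⁻¹ := by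
      rw [map_inv₀, map_natCast]
    rw [← h2]
    refine (hc.R_iff _ hp _).mpr ⟨h1, ?_⟩
    rw [h2]
    exact inv_mem (natCast_mem _ m)
  exact ⟨p, hp, hmR, div_mem hf₁ hf₂,
    sub_one_mul_inv_mem_V hc hp hgood.w_mem hgood.w_ne_zero (fun r hr => hgood.R_le hr)
      hgood.E_le_F hgood.w_gen h₁.1 h₂.1 h₂.2.2 hred hf₁ hf₂⟩

/-- **Leaves for `F1 M`**: `TopLeaves` at all number fields containing a finite set `T₀` of
constants (e.g. `ζ_M`), for all `p ∤ M` and `A` over `p`. -/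
def LeavesF1 : Prop :=
  ∀ (M p : ℕ) [NeZero M], p.Prime → ¬ p ∣ M → ∀ A : ValuationSubring Qb, A.LiesOverPrime p →
    ∃ T₀ : Finset Qb, ∀ (E : IntermediateField ℚ Qb) (w₀ : Qb), FiniteDimensional ℚ E →
      (∀ a ∈ T₀, a ∈ E) → IsUnifG A E.toSubfield w₀ →
      TopLeaves (F1 M) A E.toSubfield w₀ (iotaG M (F1 M) (full_le_F1 M) (jOm M))

/-- **Branch leaf for `F1 M`**: `ℚ̄·F1(M) / ℚ̄(j)` is unramified outside `0, 1728, ∞`, with `e ≤ 3`
over `0` and `e ≤ 2` over `1728`. -/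
def BranchF1 : Prop :=
  ∀ (M : ℕ) [NeZero M], BranchJ107 (LcG (F1 M)) (iotaG M (F1 M) (full_le_F1 M) (jOm M))

/-- **R4 for `F1 M`**: the MOD deliverable at the good levels, from the leaves. -/
theorem mod1Hyp_of_leaves (hL : LeavesF1) (hB : BranchF1) :
    Fermat.Agent.S48.H908.Core1.Mod1Hyp := by
  intro M p hM hp hpM h3 h2 A hA m _ hpm
  have : NeZero M := ⟨hM⟩
  have : Fact p.Prime := ⟨hp⟩
  obtain ⟨x, S, hx⟩ := Fermat.Agent.S18.H634.node_coord M hpM h3 h2
  obtain ⟨T₀, hleaf⟩ := hL M p hp hpM A hA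
  obtain ⟨𝓕', hfam, hc⟩ :=
    goodFamily_top (full_le_F1 M) (intGen_F1 M) hpM A hA hx T₀ hleaf (hB M)
  exact ⟨_, _, hasGoodFamilyMin_of_family hp A hA hfam hc ⊤ m hpm⟩

end Fermat.Agent.S48.Red1

end
end
-- ===== PACK-END S48/Red1/Mod1.lean

-- ===== PACK-BEGIN S48/H648/BrPlace.lean
section





/-!
# S48 / Tower A1 / A1-BR (helper648), part 2: branch data of the full-level field

`L = H828.IActField ι M` is the field of modular functions of level `Γ(M)`, `E`-rational at all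
cusps (helper828, I-ACT), with constants `iactFC ι M : E →+* L` and `j = iactFJ ι M`.

For EVERY valuation subring `O` of `L` containing the constants:

* `iact_ordLe_generic` : if `j - c` is a non-unit of `O`, `c ≠ 0, 1728`, then `j - c` generates the
  maximal ideal of `O` (`t * (j - c)⁻¹ ∈ O` for all non-units `t`): **`X(M) → X(1)` is unramified
  outside `j = 0, 1728, ∞`** — the field `unramified` of `S18.Alg.GoodModel` for the coordinate `j`;
* `iact_ordLe_zero` : if `j` is a non-unit of `O` then `t ^ 3 * j⁻¹ ∈ O` (`e ≤ 3` over `j = 0`);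
* `iact_ordLe_1728` : if `j - 1728` is a non-unit then `t ^ 2 * (j - 1728)⁻¹ ∈ O` (`e ≤ 2`).

Route: the analytic places `brPlace ι M τ` (order of vanishing at `τ ∈ ℍ`, S24 `laurentAt`) have
these properties by helper47's local orders of `j`; every `O` centred at `j = c` is conjugate to
an analytic place under the finite group `SL(2,ℤ)/Γ(M)` (`ordLe_of_conj`, `Lib.ValConj`).
No degree count and no dictionary "places ↔ points" is needed.
-/

set_option autoImplicit false
set_option linter.unusedSectionVars false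
set_option linter.style.haveILetI false

noncomputable section

open ModularCurve HahnSeries UpperHalfPlane Polynomial
open scoped MatrixGroups Manifold Pointwise

namespace Fermat.Agent.S48.H648

open Fermat.Agent.S48.H828 Fermat.Agent.S24.H624 Fermat.Agent.S20.L1 Fermat.Agent.S24.M7.H47
open ModularForm EisensteinSeries

/-! ### The valuation subring attached to an embedding into Laurent series -/

section OrdPlace

variable {L C : Type*} [Field L] [Field C]

theorem order_map_inv (e : L →+* LaurentSeries C) {x : L} (hx : x ≠ 0) :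
    (e x⁻¹).order = -(e x).order := by
  have h1 : e x ≠ 0 := (map_ne_zero e).2 hx
  have h2 : e x⁻¹ ≠ 0 := (map_ne_zero e).2 (inv_ne_zero hx)
  have h := HahnSeries.order_mul h1 h2
  rw [← map_mul, mul_inv_cancel₀ hx, map_one, HahnSeries.order_one] at h
  omega

theorem order_map_pow (e : L →+* LaurentSeries C) {x : L} (hx : x ≠ 0) (k : ℕ) :
    (e (x ^ k)).order = k * (e x).order := by
  induction k with
  | zero => simp
  | succ n ih =>
    rw [pow_succ, map_mul, HahnSeries.order_mul ((map_ne_zero e).2 (pow_ne_zero _ hx))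
      ((map_ne_zero e).2 hx), ih]
    push_cast
    ring

/-- The valuation subring `{x | 0 ≤ ord (e x)}` of `L`. -/
def ordPlace (e : L →+* LaurentSeries C) : ValuationSubring L where
  carrier := {x | 0 ≤ (e x).order}
  mul_mem' := by
    intro x y hx hy
    simp only [Set.mem_ofPred_eq] at hx hy ⊢
    by_cases hx0 : x = 0
    · rw [hx0, zero_mul, map_zero, HahnSeries.order_zero]
    by_cases hy0 : y = 0
    · rw [hy0, mul_zero, map_zero, HahnSeries.order_zero]
    rw [map_mul, HahnSeries.order_mul ((map_ne_zero e).2 hx0) ((map_ne_zero e).2 hy0)]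
    omega
  one_mem' := by
    simp only [Set.mem_ofPred_eq]
    rw [map_one, HahnSeries.order_one]
  add_mem' := by
    intro x y hx hy
    simp only [Set.mem_ofPred_eq] at hx hy ⊢
    by_cases hxy : e x + e y = 0
    · rw [map_add, hxy, HahnSeries.order_zero]
    rw [map_add]
    exact le_trans (le_min hx hy) (HahnSeries.min_order_le_order_add hxy)
  zero_mem' := by
    simp only [Set.mem_ofPred_eq]
    rw [map_zero, HahnSeries.order_zero]
  neg_mem' := by
    intro x hx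
    simp only [Set.mem_ofPred_eq] at hx ⊢
    rwa [map_neg, HahnSeries.order_neg]
  mem_or_inv_mem' := by
    intro x
    simp only [Set.mem_ofPred_eq]
    by_cases hx0 : x = 0
    · left
      rw [hx0, map_zero, HahnSeries.order_zero]
    rw [order_map_inv e hx0]
    omega

theorem mem_ordPlace (e : L →+* LaurentSeries C) (x : L) :
    x ∈ ordPlace e ↔ 0 ≤ (e x).order := Iff.rfl

/-- In `ordPlace e`, an element `y` of order `k` satisfies `OrdLe y k`. -/
theorem ordLe_ordPlace (e : L →+* LaurentSeries C) {y : L} (hy0 : y ≠ 0) {k : ℕ}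
    (hy : (e y).order = k) : OrdLe y k (ordPlace e) := by
  intro t ht htinv
  rw [mem_ordPlace] at ht htinv ⊢
  have ht0 : t ≠ 0 := by
    rintro rfl
    apply htinv
    rw [inv_zero, map_zero, HahnSeries.order_zero]
  rw [order_map_inv e ht0] at htinv
  have h1 : 1 ≤ (e t).order := by omega
  rw [map_mul, HahnSeries.order_mul ((map_ne_zero e).2 (pow_ne_zero _ ht0))
    ((map_ne_zero e).2 (inv_ne_zero hy0)), order_map_pow e ht0, order_map_inv e hy0, hy]
  nlinarith

theorem centredAt_ordPlace {E : Type*} [Field E] (e : L →+* LaurentSeries C) (φ : E →+* L)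
    (j : L) (c : E) (hconst : ∀ a : E, 0 ≤ (e (φ a)).order) (hpos : 0 < (e (j - φ c)).order) :
    CentredAt φ j c (ordPlace e) where
  const_mem := hconst
  sub_mem := hpos.le
  inv_notMem := by
    have h0 : j - φ c ≠ 0 := by
      intro h
      rw [h, map_zero, HahnSeries.order_zero] at hpos
      exact lt_irrefl _ hpos
    rw [mem_ordPlace, order_map_inv e h0]
    omega

end OrdPlace

/-! ### The analytic places of `IActField` -/

variable {E : Type*} [Field E] [CharZero E] (ι : E →+* ℂ) (M : ℕ) [NeZero M]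

/-- The inclusion of `iactRing` into the ring of holomorphic functions on `ℍ`. -/
def brToHolo : iactRing ι M →+* holoRing where
  toFun f := ⟨f.1, f.2.1⟩
  map_one' := rfl
  map_mul' _ _ := rfl
  map_zero' := rfl
  map_add' _ _ := rfl

theorem brToHolo_injective : Function.Injective (brToHolo ι M) := by
  intro f g h
  exact Subtype.ext (congrArg (fun x : holoRing => (x : ℍ → ℂ)) h)

theorem brToHolo_apply (f : iactRing ι M) : ((brToHolo ι M f : holoRing) : ℍ → ℂ) = f.1 := rfl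

/-- Taylor expansion at `τ` on `iactRing`. -/
def brTaylor (τ : ℍ) : iactRing ι M →+* LaurentSeries ℂ :=
  (taylorLaurent τ).comp (brToHolo ι M)

theorem brTaylor_injective (τ : ℍ) : Function.Injective (brTaylor ι M τ) :=
  (taylorLaurent_injective τ).comp (brToHolo_injective ι M)

/-- Laurent expansion at `τ` on `IActField`. -/
def brExp (τ : ℍ) : IActField ι M →+* LaurentSeries ℂ :=
  IsFractionRing.lift (brTaylor_injective ι M τ)

theorem brExp_algebraMap (τ : ℍ) (f : iactRing ι M) :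
    brExp ι M τ (algebraMap (iactRing ι M) (IActField ι M) f)
      = laurentAt τ (algebraMap holoRing MerH (brToHolo ι M f)) := by
  rw [brExp, IsFractionRing.lift_algebraMap, laurentAt_algebraMap]
  rfl

/-- The analytic place at `τ`: functions regular at `τ`. -/
def brPlace (τ : ℍ) : ValuationSubring (IActField ι M) := ordPlace (brExp ι M τ)

theorem brExp_const (τ : ℍ) (a : E) : brExp ι M τ (iactFC ι M a) = HahnSeries.C (ι a) := by
  rw [iactFC, RingHom.comp_apply, brExp_algebraMap]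
  exact laurentAt_const τ (ι a)

theorem brToHolo_J_sub (c : E) (τ : ℍ) (hτ : jFun τ = ι c) :
    (fun w : ℂ => jFun (ofComplex w) - jFun τ)
      = ((brToHolo ι M (iactJ ι M - iactC ι M c) : holoRing) : ℍ → ℂ) ∘ ofComplex := by
  funext w
  rw [hτ]
  rfl

theorem brExp_J_sub_order (c : E) (τ : ℍ) (hτ : jFun τ = ι c) {k : ℕ}
    (hk : analyticOrderAt (fun w : ℂ => jFun (ofComplex w) - jFun τ) (τ : ℂ) = k) :
    (brExp ι M τ (iactFJ ι M - iactFC ι M c)).order = k := by
  have e1 : iactFJ ι M - iactFC ι M c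
      = algebraMap (iactRing ι M) (IActField ι M) (iactJ ι M - iactC ι M c) := by
    rw [map_sub]; rfl
  have hord : ordAt τ ((brToHolo ι M (iactJ ι M - iactC ι M c) : holoRing) : ℍ → ℂ) = k := by
    rw [ordAt_def, ← brToHolo_J_sub ι M c τ hτ, hk]
  have hne : brToHolo ι M (iactJ ι M - iactC ι M c) ≠ 0 := by
    intro h0
    rw [h0] at hord
    have h1 : ordAt τ ((0 : holoRing) : ℍ → ℂ) = ⊤ := ordAt_zero τ
    rw [h1] at hord
    exact ENat.top_ne_natCast k hord
  rw [e1, brExp_algebraMap, order_laurentAt_algebraMap τ hne, hord]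
  simp

theorem brPlace_centredAt (c : E) (τ : ℍ) (hτ : jFun τ = ι c) {k : ℕ} (hk0 : 0 < k)
    (hk : analyticOrderAt (fun w : ℂ => jFun (ofComplex w) - jFun τ) (τ : ℂ) = k) :
    CentredAt (iactFC ι M) (iactFJ ι M) c (brPlace ι M τ) := by
  refine centredAt_ordPlace _ _ _ _ (fun a => ?_) ?_
  · rw [brExp_const, HahnSeries.order_C]
  · rw [brExp_J_sub_order ι M c τ hτ hk]
    exact_mod_cast hk0

theorem brPlace_ordLe (c : E) (τ : ℍ) (hτ : jFun τ = ι c) {k : ℕ} (hk0 : 0 < k)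
    (hk : analyticOrderAt (fun w : ℂ => jFun (ofComplex w) - jFun τ) (τ : ℂ) = k) :
    OrdLe (iactFJ ι M - iactFC ι M c) k (brPlace ι M τ) :=
  ordLe_ordPlace _ (brPlace_centredAt ι M c τ hτ hk0 hk).sub_ne_zero
    (brExp_J_sub_order ι M c τ hτ hk)

/-! ### Conjugacy: all places over `j = c` -/

theorem iact_quot_smul_C (q : SL(2, ℤ) ⧸ CongruenceSubgroup.Gamma M) (a : E) :
    iactQuotHom ι M q (iactFC ι M a) = iactFC ι M a := by
  obtain ⟨g, rfl⟩ := QuotientGroup.mk_surjective q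
  rw [iactQuotHom_mk, iactFC, RingHom.comp_apply, iact_smul_algebraMap, iact_smul_C]

theorem iact_quot_smul_J (q : SL(2, ℤ) ⧸ CongruenceSubgroup.Gamma M) :
    iactQuotHom ι M q (iactFJ ι M) = iactFJ ι M := by
  obtain ⟨g, rfl⟩ := QuotientGroup.mk_surjective q
  rw [iactQuotHom_mk, iactFJ, iact_smul_algebraMap, iact_smul_J]

/-- **Key transfer**: a bound for the order of `j - c` at ONE analytic point over `c` holds at
EVERY valuation subring of `IActField` centred at `j = c`. -/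
theorem iact_ordLe_of_analytic (c : E) (τ : ℍ) (hτ : jFun τ = ι c) {k : ℕ} (hk0 : 0 < k)
    (hk : analyticOrderAt (fun w : ℂ => jFun (ofComplex w) - jFun τ) (τ : ℂ) = k)
    {O : ValuationSubring (IActField ι M)}
    (hO : CentredAt (iactFC ι M) (iactFJ ι M) c O) :
    OrdLe (iactFJ ι M - iactFC ι M c) k O := by
  letI := iactQuotAction ι M
  refine ordLe_of_conj (G := SL(2, ℤ) ⧸ CongruenceSubgroup.Gamma M) (iactFC ι M) (iactFJ ι M) c
    (fun q a => iact_quot_smul_C ι M q a) (fun q => iact_quot_smul_J ι M q)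
    (fun x hx => (iactQuot_fixed_iff x).1 hx)
    (brPlace_centredAt ι M c τ hτ hk0 hk) hO (brPlace_ordLe ι M c τ hτ hk0 hk)

/-- **`X(M) → X(1)` is unramified outside `j ∈ {0, 1728, ∞}`.** -/
theorem iact_ordLe_generic (c : E) (hc0 : c ≠ 0) (hc1 : c ≠ 1728)
    {O : ValuationSubring (IActField ι M)}
    (hO : CentredAt (iactFC ι M) (iactFJ ι M) c O) :
    OrdLe (iactFJ ι M - iactFC ι M c) 1 O := by
  obtain ⟨τ, hτ⟩ := jFun_surjective (ι c)
  have h4 : E₄ τ ≠ 0 := by
    intro h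
    have := (jFun_eq_zero_iff τ).2 h
    rw [hτ] at this
    exact hc0 ((map_eq_zero ι).1 this)
  have h6 : E₆ τ ≠ 0 := by
    intro h
    have := (jFun_eq_1728_iff τ).2 h
    rw [hτ] at this
    apply hc1
    apply ι.injective
    rw [this, map_ofNat]
  exact iact_ordLe_of_analytic ι M c τ hτ one_pos
    (by exact_mod_cast analyticOrderAt_jFun_sub_generic h4 h6) hO

/-- Ramification over `j = 0` is at most `3`. -/
theorem iact_ordLe_zero {O : ValuationSubring (IActField ι M)}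
    (hO : CentredAt (iactFC ι M) (iactFJ ι M) 0 O) :
    OrdLe (iactFJ ι M - iactFC ι M 0) 3 O := by
  have hτ : jFun rho = ι 0 := by rw [map_zero]; exact jFun_rho
  exact iact_ordLe_of_analytic ι M 0 rho hτ (by norm_num)
    (by exact_mod_cast analyticOrderAt_jFun_sub_of_E₄ E₄_rho) hO

/-- Ramification over `j = 1728` is at most `2`. -/
theorem iact_ordLe_1728 {O : ValuationSubring (IActField ι M)}
    (hO : CentredAt (iactFC ι M) (iactFJ ι M) 1728 O) :
    OrdLe (iactFJ ι M - iactFC ι M 1728) 2 O := by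
  have hτ : jFun UpperHalfPlane.I = ι 1728 := by rw [map_ofNat]; exact jFun_I
  exact iact_ordLe_of_analytic ι M 1728 UpperHalfPlane.I hτ (by norm_num)
    (by exact_mod_cast analyticOrderAt_jFun_sub_of_E₆ E₆_I) hO

end Fermat.Agent.S48.H648

end
end
-- ===== PACK-END S48/H648/BrPlace.lean

-- ===== PACK-BEGIN S48/H648/BrMain.lean
section


/-!
# S48 / Tower A1 / A1-BR (helper648), part 3: the field `unramified` of `S18.Alg.GoodModel`
for every field embedded in the full-level field (coordinate `j`)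

Let `Ω` be ANY field with a field embedding `ψ : Ω →+* H828.IActField ι M` (e.g. the `Γ₁(M)`-field,
`q ↦ X^M`), `Lc` a subfield of constants with `ψ(Lc) = constants of IActField`, and `x : Ω` with
`ψ x = j`.  Then for every valuation subring `O` of `Ω` containing `Lc`:

* `unramified_j_of_embedding` : over `c ∉ {0, 1728}` the element `x - c` generates the maximal
  ideal — literally the conclusion of `GoodModel.unramified` for `S = {0, 1728}`;
* `ordLe_zero_of_embedding`, `ordLe_1728_of_embedding` : `e ≤ 3` over `0`, `e ≤ 2` over `1728`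
  (inputs for the coordinates `t₂`, `t₃`, see `BrCoord.lean`).
-/

set_option autoImplicit false
set_option linter.unusedSectionVars false

noncomputable section

open scoped MatrixGroups

namespace Fermat.Agent.S48.H648

open Fermat.Agent.S48.H828

variable {E : Type*} [Field E] [CharZero E] (ι : E →+* ℂ) (M : ℕ) [NeZero M]
variable {Ω : Type*} [Field Ω]

/-- Transport of the hypotheses to the full-level field. -/
theorem exists_centredAt_of_embedding (ψ : Ω →+* IActField ι M) (Lc : Subfield Ω) (x : Ω)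
    (hconst : ∀ b : E, ∃ a ∈ Lc, ψ a = iactFC ι M b) (hx : ψ x = iactFJ ι M)
    (O : ValuationSubring Ω) (hO : ∀ a ∈ Lc, a ∈ O) (c : Ω) (b : E) (hb : ψ c = iactFC ι M b)
    (h1 : x - c ∈ O) (h2 : (x - c)⁻¹ ∉ O) :
    ∃ OL : ValuationSubring (IActField ι M), (∀ y : Ω, ψ y ∈ OL ↔ y ∈ O) ∧
      CentredAt (iactFC ι M) (iactFJ ι M) b OL := by
  obtain ⟨OL, hOL⟩ := exists_valuationSubring_comap ψ O
  refine ⟨OL, hOL, ?_, ?_, ?_⟩
  · intro b'
    obtain ⟨a, ha, hab⟩ := hconst b'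
    rw [← hab, hOL]
    exact hO a ha
  · rw [← hx, ← hb, ← map_sub, hOL]
    exact h1
  · rw [← hx, ← hb, ← map_sub, ← map_inv₀, hOL]
    exact h2

/-- **Bound for the ramification over `j = c`** in any field embedded in the full-level field,
given the bound at one analytic point. -/
theorem ordLe_of_embedding (ψ : Ω →+* IActField ι M) (Lc : Subfield Ω) (x : Ω)
    (hconst : ∀ b : E, ∃ a ∈ Lc, ψ a = iactFC ι M b) (hx : ψ x = iactFJ ι M)
    (O : ValuationSubring Ω) (hO : ∀ a ∈ Lc, a ∈ O) (c : Ω) (b : E) (hb : ψ c = iactFC ι M b)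
    (h1 : x - c ∈ O) (h2 : (x - c)⁻¹ ∉ O) (k : ℕ)
    (hk : ∀ OL : ValuationSubring (IActField ι M), CentredAt (iactFC ι M) (iactFJ ι M) b OL →
      OrdLe (iactFJ ι M - iactFC ι M b) k OL) :
    OrdLe (x - c) k O := by
  obtain ⟨OL, hOL, hcen⟩ := exists_centredAt_of_embedding ι M ψ Lc x hconst hx O hO c b hb h1 h2
  refine ordLe_comap ψ hOL ?_
  rw [map_sub, hx, hb]
  exact hk OL hcen

variable [CharZero Ω]

/-- **`GoodModel.unramified` for the coordinate `j`**, `S = {0, 1728}`. -/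
theorem unramified_j_of_embedding (ψ : Ω →+* IActField ι M) (Lc : Subfield Ω) (x : Ω)
    (hconst : ∀ b : E, ∃ a ∈ Lc, ψ a = iactFC ι M b)
    (hLc : ∀ a ∈ Lc, ∃ b : E, ψ a = iactFC ι M b) (hx : ψ x = iactFJ ι M)
    (O : ValuationSubring Ω) (hO : ∀ a ∈ Lc, a ∈ O) (c : Ω) (hc : c ∈ Lc)
    (hc0 : c ≠ 0) (hc1 : c ≠ 1728) (h1 : x - c ∈ O) (h2 : (x - c)⁻¹ ∉ O)
    (t : Ω) (ht : t ∈ O) (ht' : t⁻¹ ∉ O) : t * (x - c)⁻¹ ∈ O := by
  obtain ⟨b, hb⟩ := hLc c hc
  have hb0 : b ≠ 0 := by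
    rintro rfl
    rw [map_zero] at hb
    exact hc0 ((map_eq_zero ψ).1 hb)
  have hb1 : b ≠ 1728 := by
    rintro rfl
    apply hc1
    apply ψ.injective
    rw [hb, map_ofNat, map_ofNat]
  have := ordLe_of_embedding ι M ψ Lc x hconst hx O hO c b hb h1 h2 1
    (fun OL hOL => iact_ordLe_generic ι M b hb0 hb1 hOL) t ht ht'
  rwa [pow_one] at this

/-- `e ≤ 3` over `j = 0`. -/
theorem ordLe_zero_of_embedding (ψ : Ω →+* IActField ι M) (Lc : Subfield Ω) (x : Ω)
    (hconst : ∀ b : E, ∃ a ∈ Lc, ψ a = iactFC ι M b) (hx : ψ x = iactFJ ι M)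
    (O : ValuationSubring Ω) (hO : ∀ a ∈ Lc, a ∈ O) (h1 : x ∈ O) (h2 : x⁻¹ ∉ O) :
    OrdLe x 3 O := by
  have := ordLe_of_embedding ι M ψ Lc x hconst hx O hO 0 0 (by rw [map_zero, map_zero])
    (by rwa [sub_zero]) (by rwa [sub_zero]) 3 (fun OL hOL => iact_ordLe_zero ι M hOL)
  rwa [sub_zero] at this

/-- `e ≤ 2` over `j = 1728`. -/
theorem ordLe_1728_of_embedding (ψ : Ω →+* IActField ι M) (Lc : Subfield Ω) (x : Ω)
    (hconst : ∀ b : E, ∃ a ∈ Lc, ψ a = iactFC ι M b) (hx : ψ x = iactFJ ι M)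
    (O : ValuationSubring Ω) (hO : ∀ a ∈ Lc, a ∈ O) (h1 : x - 1728 ∈ O)
    (h2 : (x - 1728)⁻¹ ∉ O) : OrdLe (x - 1728) 2 O :=
  ordLe_of_embedding ι M ψ Lc x hconst hx O hO 1728 1728 (by rw [map_ofNat, map_ofNat])
    h1 h2 2 (fun OL hOL => iact_ordLe_1728 ι M hOL)

end Fermat.Agent.S48.H648

end
end
-- ===== PACK-END S48/H648/BrMain.lean

-- ===== PACK-BEGIN S48/H648/BrCoordMain.lean
section



/-!
# S48 / Tower A1 / A1-BR (helper648), part 5: `GoodModel.unramified` for the coordinates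
`t₂`, `t₃` in every field embedded in the full-level field

`Ω` any field of characteristic `0` with an embedding `ψ : Ω →+* H828.IActField ι M`, constants
`Lc` with `ψ(Lc) = constants`, `jΩ : Ω` with `ψ jΩ = j`.

* `unramified_t2_of_embedding` : `x : Ω` with `jΩ * x² = (x + 256)³`; for `c ∈ Lc`,
  `c ∉ {0, -64}`, `x - c` a non-unit of `O ⊇ Lc`: `t * (x - c)⁻¹ ∈ O` for all non-units `t`.
* `unramified_t3_of_embedding` : `x : Ω` with `jΩ * x³ = (x + 27)(x + 243)³`, `c ∉ {0, -27}`.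

These are literally the conclusions of `S18.Alg.GoodModel.unramified` for the three admissible
coordinates of `S18.Mod.IsCoordinate` (`unramified_j_of_embedding` for `x = j`).
-/

set_option autoImplicit false
set_option linter.unusedSectionVars false

noncomputable section

open scoped MatrixGroups

namespace Fermat.Agent.S48.H648

open Fermat.Agent.S48.H828 Fermat.Agent.S20.L1 Fermat.Agent.S24.M7.H47

variable {E : Type*} [Field E] [CharZero E] (ι : E →+* ℂ) (M : ℕ) [NeZero M]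
variable {Ω : Type*} [Field Ω] [CharZero Ω]

/-- `j` is not a constant. -/
theorem iactFJ_ne_const (b : E) : iactFJ ι M ≠ iactFC ι M b := by
  intro h
  have h1 : iactJ ι M = iactC ι M b :=
    IsFractionRing.injective (iactRing ι M) (IActField ι M) h
  obtain ⟨τ, hτ⟩ := jFun_surjective (ι b + 1)
  have h2 : jFun τ = ι b := congrFun (congrArg Subtype.val h1) τ
  rw [hτ] at h2
  exact one_ne_zero (add_eq_left.1 h2)

/-- The three `j`-inputs of `ordLe_t2`, `ordLe_t3` for a field embedded in the full-level field. -/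
theorem j_inputs_of_embedding (ψ : Ω →+* IActField ι M) (Lc : Subfield Ω) (jΩ : Ω)
    (hconst : ∀ b : E, ∃ a ∈ Lc, ψ a = iactFC ι M b)
    (hLc : ∀ a ∈ Lc, ∃ b : E, ψ a = iactFC ι M b) (hj : ψ jΩ = iactFJ ι M)
    (O : ValuationSubring Ω) (hO : ∀ a ∈ Lc, a ∈ O) :
    (∀ a ∈ Lc, jΩ ≠ a) ∧
    (∀ a ∈ Lc, a ≠ 0 → a ≠ 1728 → jΩ - a ∈ O → (jΩ - a)⁻¹ ∉ O → OrdLe (jΩ - a) 1 O) ∧
    (jΩ ∈ O → jΩ⁻¹ ∉ O → OrdLe jΩ 3 O) ∧
    (jΩ - 1728 ∈ O → (jΩ - 1728)⁻¹ ∉ O → OrdLe (jΩ - 1728) 2 O) := by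
  refine ⟨fun a ha h => ?_, fun a ha ha0 ha1 h1 h2 t ht ht' => ?_,
    fun h1 h2 => ordLe_zero_of_embedding ι M ψ Lc jΩ hconst hj O hO h1 h2,
    fun h1 h2 => ordLe_1728_of_embedding ι M ψ Lc jΩ hconst hj O hO h1 h2⟩
  · obtain ⟨b, hb⟩ := hLc a ha
    apply iactFJ_ne_const ι M b
    rw [← hj, ← hb, h]
  · rw [pow_one]
    exact unramified_j_of_embedding ι M ψ Lc jΩ hconst hLc hj O hO a ha ha0 ha1 h1 h2 t ht ht'

/-- **`GoodModel.unramified` for the coordinate `t₂`** (`ℓ = 3`), `S = {0, -64}`. -/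
theorem unramified_t2_of_embedding (ψ : Ω →+* IActField ι M) (Lc : Subfield Ω) (jΩ x : Ω)
    (hconst : ∀ b : E, ∃ a ∈ Lc, ψ a = iactFC ι M b)
    (hLc : ∀ a ∈ Lc, ∃ b : E, ψ a = iactFC ι M b) (hj : ψ jΩ = iactFJ ι M)
    (hjx : jΩ * x ^ 2 = (x + 256) ^ 3)
    (O : ValuationSubring Ω) (hO : ∀ a ∈ Lc, a ∈ O) (c : Ω) (hc : c ∈ Lc)
    (hc0 : c ≠ 0) (hc64 : c ≠ -64) (h1 : x - c ∈ O) (h2 : (x - c)⁻¹ ∉ O)
    (t : Ω) (ht : t ∈ O) (ht' : t⁻¹ ∉ O) : t * (x - c)⁻¹ ∈ O := by
  obtain ⟨hjc, Hgen, H0, H1728⟩ := j_inputs_of_embedding ι M ψ Lc jΩ hconst hLc hj O hO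
  have := ordLe_t2 Lc O hO jΩ x hjx hjc Hgen H0 H1728 c hc hc0 hc64 h1 h2 t ht ht'
  rwa [pow_one] at this

/-- **`GoodModel.unramified` for the coordinate `t₃`** (`ℓ = 2`), `S = {0, -27}`. -/
theorem unramified_t3_of_embedding (ψ : Ω →+* IActField ι M) (Lc : Subfield Ω) (jΩ x : Ω)
    (hconst : ∀ b : E, ∃ a ∈ Lc, ψ a = iactFC ι M b)
    (hLc : ∀ a ∈ Lc, ∃ b : E, ψ a = iactFC ι M b) (hj : ψ jΩ = iactFJ ι M)
    (hjx : jΩ * x ^ 3 = (x + 27) * (x + 243) ^ 3)
    (O : ValuationSubring Ω) (hO : ∀ a ∈ Lc, a ∈ O) (c : Ω) (hc : c ∈ Lc)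
    (hc0 : c ≠ 0) (hc27 : c ≠ -27) (h1 : x - c ∈ O) (h2 : (x - c)⁻¹ ∉ O)
    (t : Ω) (ht : t ∈ O) (ht' : t⁻¹ ∉ O) : t * (x - c)⁻¹ ∈ O := by
  obtain ⟨hjc, Hgen, H0, H1728⟩ := j_inputs_of_embedding ι M ψ Lc jΩ hconst hLc hj O hO
  have := ordLe_t3 Lc O hO jΩ x hjx hjc Hgen H0 H1728 c hc hc0 hc27 h1 h2 t ht ht'
  rwa [pow_one] at this

end Fermat.Agent.S48.H648

end
end
-- ===== PACK-END S48/H648/BrCoordMain.lean

-- ===== PACK-BEGIN S48/H648/BrEmb.lean
section


/-!
# S48 / Tower A1 / A1-BR (helper648), part 6: fields of `q`-series with avatars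

The consumer (A1-FF / A1-RED) works with `Ω = laurentBaseChange E F₀`, `F₀` a field of rational
`q`-series (e.g. `F₁(M) = ℚ(j, Y_c)`).  The full-level field `H828.IActField ι M` lives in the
variable `X = q^{1/M}`.

* `avatarField ι M : Subfield (LaurentSeries E)` : the `q`-series `f` such that `f(X^M)` is the
  `X`-expansion of an element of `IActField ι M` ("`f` has an avatar").  It contains the
  constants and `j` (`const_mem_avatarField`, `jq_mem_avatarField`).
* `avatarEmb ι M : avatarField ι M →+* IActField ι M`, with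
  `iactFieldExp (avatarEmb f) = qExpand E M f`.
* `coeffEmb_mem_avatarField_of_adjoin` : it suffices to produce avatars for GENERATORS of `F₀`.
* `unramified_j_laurentBaseChange`, `unramified_t2_laurentBaseChange`,
  `unramified_t3_laurentBaseChange` : the field `unramified` of `S18.Alg.GoodModel` for
  `Ω = laurentBaseChange E F₀`, `Lc = (algebraMap E Ω).fieldRange`, as soon as the generators of
  `F₀` have avatars.
-/

set_option autoImplicit false
set_option linter.unusedSectionVars false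

noncomputable section

open ModularCurve HahnSeries
open scoped MatrixGroups

namespace Fermat.Agent.S48.H648

open Fermat.Agent.S48.H828

variable {E : Type*} [Field E] [CharZero E] (ι : E →+* ℂ) (M : ℕ) [NeZero M]

/-- The `q`-series over `E` with an avatar in the full-level field. -/
def avatarField : Subfield (LaurentSeries E) :=
  (iactFieldExp ι M).fieldRange.comap (qExpand E M)

variable {ι M}

theorem mem_avatarField {f : LaurentSeries E} :
    f ∈ avatarField ι M ↔ ∃ y : IActField ι M, iactFieldExp ι M y = qExpand E M f := Iff.rfl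

theorem mem_avatarField_of_ring {f : LaurentSeries E} (g : iactRing ι M)
    (hg : iactExp ι M g = qExpand E M f) : f ∈ avatarField ι M :=
  ⟨algebraMap _ _ g, by rw [iactFieldExp_algebraMap, hg]⟩

theorem C_mem_avatarField (a : E) : HahnSeries.C a ∈ avatarField ι M :=
  ⟨iactFC ι M a, by rw [iactFieldExp_C, qExpand_C]⟩

theorem const_mem_avatarField (a : E) : algebraMap E (LaurentSeries E) a ∈ avatarField ι M := by
  rw [algebraMap_laurentSeries_eq_single]
  exact C_mem_avatarField a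

theorem jq_mem_avatarField : coeffEmb E jq ∈ avatarField ι M :=
  ⟨iactFJ ι M, by rw [iactFieldExp_J]; rfl⟩

variable (ι M)

/-- The embedding of the field of `q`-series with avatars into the full-level field. -/
def avatarEmb : avatarField ι M →+* IActField ι M where
  toFun f := Classical.choose (mem_avatarField.1 f.2)
  map_one' := by
    apply iactFieldExp_injective (ι := ι) (M := M)
    rw [Classical.choose_spec (mem_avatarField.1 (1 : avatarField ι M).2), RingHom.map_one]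
    exact RingHom.map_one _
  map_mul' f g := by
    apply iactFieldExp_injective (ι := ι) (M := M)
    rw [RingHom.map_mul, Classical.choose_spec (mem_avatarField.1 (f * g).2),
      Classical.choose_spec (mem_avatarField.1 f.2),
      Classical.choose_spec (mem_avatarField.1 g.2)]
    exact RingHom.map_mul _ _ _
  map_zero' := by
    apply iactFieldExp_injective (ι := ι) (M := M)
    rw [Classical.choose_spec (mem_avatarField.1 (0 : avatarField ι M).2), RingHom.map_zero]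
    exact RingHom.map_zero _
  map_add' f g := by
    apply iactFieldExp_injective (ι := ι) (M := M)
    rw [RingHom.map_add, Classical.choose_spec (mem_avatarField.1 (f + g).2),
      Classical.choose_spec (mem_avatarField.1 f.2),
      Classical.choose_spec (mem_avatarField.1 g.2)]
    exact RingHom.map_add _ _ _

variable {ι M}

theorem iactFieldExp_avatarEmb (f : avatarField ι M) :
    iactFieldExp ι M (avatarEmb ι M f) = qExpand E M (f : LaurentSeries E) :=
  Classical.choose_spec (mem_avatarField.1 f.2)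

theorem avatarEmb_eq_iff (f : avatarField ι M) (y : IActField ι M) :
    avatarEmb ι M f = y ↔ iactFieldExp ι M y = qExpand E M (f : LaurentSeries E) := by
  constructor
  · rintro rfl
    exact iactFieldExp_avatarEmb f
  · intro h
    apply iactFieldExp_injective (ι := ι) (M := M)
    rw [h, iactFieldExp_avatarEmb]

theorem avatarEmb_const (a : E) (h : algebraMap E (LaurentSeries E) a ∈ avatarField ι M) :
    avatarEmb ι M ⟨_, h⟩ = iactFC ι M a := by
  rw [avatarEmb_eq_iff, iactFieldExp_C]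
  show _ = qExpand E M (algebraMap E (LaurentSeries E) a)
  rw [algebraMap_laurentSeries_eq_single]
  exact (qExpand_C M a).symm

theorem avatarEmb_jq (h : coeffEmb E jq ∈ avatarField ι M) :
    avatarEmb ι M ⟨_, h⟩ = iactFJ ι M := by
  rw [avatarEmb_eq_iff, iactFieldExp_J]
  rfl

/-- Avatars for generators suffice. -/
theorem coeffEmb_mem_avatarField_of_adjoin (S : Set (LaurentSeries ℚ))
    (hS : ∀ s ∈ S, coeffEmb E s ∈ avatarField ι M) :
    ∀ x ∈ IntermediateField.adjoin ℚ S, coeffEmb E x ∈ avatarField ι M := by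
  intro x hx
  have hx' : x ∈ Subfield.closure (Set.range (algebraMap ℚ (LaurentSeries ℚ)) ∪ S) := hx
  have hle : Subfield.closure (Set.range (algebraMap ℚ (LaurentSeries ℚ)) ∪ S)
      ≤ (avatarField ι M).comap (coeffEmb E) := by
    rw [Subfield.closure_le]
    rintro y (⟨c, rfl⟩ | hy)
    · show coeffEmb E (algebraMap ℚ (LaurentSeries ℚ) c) ∈ avatarField ι M
      have : coeffEmb E (algebraMap ℚ (LaurentSeries ℚ) c)
          = HahnSeries.C (algebraMap ℚ E c) := by
        rw [algebraMap_apply_eq_single, coeffEmb, coeffMap_single]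
        rfl
      rw [this]
      exact C_mem_avatarField _
    · exact hS y hy
  exact hle hx'

theorem laurentBaseChange_le_avatarField (F₀ : IntermediateField ℚ (LaurentSeries ℚ))
    (hF₀ : ∀ x ∈ F₀, coeffEmb E x ∈ avatarField ι M) :
    (laurentBaseChange E F₀).toSubfield ≤ avatarField ι M := by
  intro f hf
  have hf' : f ∈ Subfield.closure (Set.range (algebraMap E (LaurentSeries E)) ∪
      (⇑(coeffEmb E) '' (F₀ : Set (LaurentSeries ℚ)))) := hf
  revert hf'
  apply (Subfield.closure_le (t := avatarField ι M)).2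
  rintro y (⟨c, rfl⟩ | ⟨x, hx, rfl⟩)
  · exact const_mem_avatarField c
  · exact hF₀ x hx

variable (ι M)

/-- The embedding `laurentBaseChange E F₀ →+* IActField`, `q ↦ X^M`. -/
def baseChangeEmb (F₀ : IntermediateField ℚ (LaurentSeries ℚ))
    (hF₀ : ∀ x ∈ F₀, coeffEmb E x ∈ avatarField ι M) :
    ↥(laurentBaseChange E F₀) →+* IActField ι M :=
  (avatarEmb ι M).comp (Subfield.inclusion (laurentBaseChange_le_avatarField F₀ hF₀))

variable {ι M}

theorem iactFieldExp_baseChangeEmb (F₀ : IntermediateField ℚ (LaurentSeries ℚ))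
    (hF₀ : ∀ x ∈ F₀, coeffEmb E x ∈ avatarField ι M) (f : ↥(laurentBaseChange E F₀)) :
    iactFieldExp ι M (baseChangeEmb ι M F₀ hF₀ f) = qExpand E M (f : LaurentSeries E) :=
  iactFieldExp_avatarEmb _

theorem baseChangeEmb_eq_iff (F₀ : IntermediateField ℚ (LaurentSeries ℚ))
    (hF₀ : ∀ x ∈ F₀, coeffEmb E x ∈ avatarField ι M) (f : ↥(laurentBaseChange E F₀))
    (y : IActField ι M) :
    baseChangeEmb ι M F₀ hF₀ f = y ↔ iactFieldExp ι M y = qExpand E M (f : LaurentSeries E) :=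
  avatarEmb_eq_iff _ y

theorem baseChangeEmb_algebraMap (F₀ : IntermediateField ℚ (LaurentSeries ℚ))
    (hF₀ : ∀ x ∈ F₀, coeffEmb E x ∈ avatarField ι M) (a : E) :
    baseChangeEmb ι M F₀ hF₀ (algebraMap E ↥(laurentBaseChange E F₀) a) = iactFC ι M a := by
  rw [baseChangeEmb_eq_iff, iactFieldExp_C]
  show _ = qExpand E M (algebraMap E (LaurentSeries E) a)
  rw [algebraMap_laurentSeries_eq_single]
  exact (qExpand_C M a).symm

section Final

variable (F₀ : IntermediateField ℚ (LaurentSeries ℚ))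
  (hF₀ : ∀ x ∈ F₀, coeffEmb E x ∈ avatarField ι M)
  [CharZero ↥(laurentBaseChange E F₀)]

include hF₀

theorem baseChange_hconst :
    ∀ b : E, ∃ a ∈ (algebraMap E ↥(laurentBaseChange E F₀)).fieldRange,
      baseChangeEmb ι M F₀ hF₀ a = iactFC ι M b :=
  fun b => ⟨_, ⟨b, rfl⟩, baseChangeEmb_algebraMap F₀ hF₀ b⟩

theorem baseChange_hLc :
    ∀ a ∈ (algebraMap E ↥(laurentBaseChange E F₀)).fieldRange,
      ∃ b : E, baseChangeEmb ι M F₀ hF₀ a = iactFC ι M b := by
  rintro _ ⟨b, rfl⟩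
  exact ⟨b, baseChangeEmb_algebraMap F₀ hF₀ b⟩

theorem baseChange_hj (jΩ : ↥(laurentBaseChange E F₀))
    (hj : (jΩ : LaurentSeries E) = coeffEmb E jq) :
    baseChangeEmb ι M F₀ hF₀ jΩ = iactFJ ι M := by
  rw [baseChangeEmb_eq_iff, iactFieldExp_J, hj]
  rfl

/-- **`GoodModel.unramified`, coordinate `j`, `S = {0, 1728}`**, for `Ω = laurentBaseChange E F₀`
and `Lc = (algebraMap E Ω).fieldRange`. -/
theorem unramified_j_laurentBaseChange (jΩ : ↥(laurentBaseChange E F₀))
    (hj : (jΩ : LaurentSeries E) = coeffEmb E jq)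
    (O : ValuationSubring ↥(laurentBaseChange E F₀))
    (hO : ∀ a ∈ (algebraMap E ↥(laurentBaseChange E F₀)).fieldRange, a ∈ O)
    (c : ↥(laurentBaseChange E F₀))
    (hc : c ∈ (algebraMap E ↥(laurentBaseChange E F₀)).fieldRange)
    (hc0 : c ≠ 0) (hc1 : c ≠ 1728) (h1 : jΩ - c ∈ O) (h2 : (jΩ - c)⁻¹ ∉ O)
    (t : ↥(laurentBaseChange E F₀)) (ht : t ∈ O) (ht' : t⁻¹ ∉ O) : t * (jΩ - c)⁻¹ ∈ O :=
  unramified_j_of_embedding ι M (baseChangeEmb ι M F₀ hF₀) _ jΩ (baseChange_hconst F₀ hF₀)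
    (baseChange_hLc F₀ hF₀) (baseChange_hj F₀ hF₀ jΩ hj) O hO c hc hc0 hc1 h1 h2 t ht ht'

/-- **`GoodModel.unramified`, coordinate `t₂`, `S = {0, -64}`.** -/
theorem unramified_t2_laurentBaseChange (jΩ x : ↥(laurentBaseChange E F₀))
    (hj : (jΩ : LaurentSeries E) = coeffEmb E jq) (hjx : jΩ * x ^ 2 = (x + 256) ^ 3)
    (O : ValuationSubring ↥(laurentBaseChange E F₀))
    (hO : ∀ a ∈ (algebraMap E ↥(laurentBaseChange E F₀)).fieldRange, a ∈ O)
    (c : ↥(laurentBaseChange E F₀))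
    (hc : c ∈ (algebraMap E ↥(laurentBaseChange E F₀)).fieldRange)
    (hc0 : c ≠ 0) (hc64 : c ≠ -64) (h1 : x - c ∈ O) (h2 : (x - c)⁻¹ ∉ O)
    (t : ↥(laurentBaseChange E F₀)) (ht : t ∈ O) (ht' : t⁻¹ ∉ O) : t * (x - c)⁻¹ ∈ O :=
  unramified_t2_of_embedding ι M (baseChangeEmb ι M F₀ hF₀) _ jΩ x (baseChange_hconst F₀ hF₀)
    (baseChange_hLc F₀ hF₀) (baseChange_hj F₀ hF₀ jΩ hj) hjx O hO c hc hc0 hc64 h1 h2 t ht ht'

/-- **`GoodModel.unramified`, coordinate `t₃`, `S = {0, -27}`.** -/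
theorem unramified_t3_laurentBaseChange (jΩ x : ↥(laurentBaseChange E F₀))
    (hj : (jΩ : LaurentSeries E) = coeffEmb E jq)
    (hjx : jΩ * x ^ 3 = (x + 27) * (x + 243) ^ 3)
    (O : ValuationSubring ↥(laurentBaseChange E F₀))
    (hO : ∀ a ∈ (algebraMap E ↥(laurentBaseChange E F₀)).fieldRange, a ∈ O)
    (c : ↥(laurentBaseChange E F₀))
    (hc : c ∈ (algebraMap E ↥(laurentBaseChange E F₀)).fieldRange)
    (hc0 : c ≠ 0) (hc27 : c ≠ -27) (h1 : x - c ∈ O) (h2 : (x - c)⁻¹ ∉ O)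
    (t : ↥(laurentBaseChange E F₀)) (ht : t ∈ O) (ht' : t⁻¹ ∉ O) : t * (x - c)⁻¹ ∈ O :=
  unramified_t3_of_embedding ι M (baseChangeEmb ι M F₀ hF₀) _ jΩ x (baseChange_hconst F₀ hF₀)
    (baseChange_hLc F₀ hF₀) (baseChange_hj F₀ hF₀ jΩ hj) hjx O hO c hc hc0 hc27 h1 h2 t ht ht'

end Final

end Fermat.Agent.S48.H648

end
end
-- ===== PACK-END S48/H648/BrEmb.lean

-- ===== PACK-BEGIN S48/H648/AvRaise.lean
section



/-!
# S48 / Tower A1 (helper648): level raising of avatars (AV-RAISE)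

`K = M * d * k₀`, `ζ ∈ Eˣ` with `ι ζ = exp(2πi/K)`.

* `raiseFun d f = (τ ↦ f(dτ))`; `raiseFun_mem_iactRing` : `f ∈ H828.iactRing ι M` implies
  `raiseFun d f ∈ iactRing ι K` (holomorphic, `Γ(K)`-invariant, all `SL(2,ℤ)`-translates have
  `E`-rational expansions in `X_K = exp(2πiτ/K)`: Hermite normal form + `InfExp.comp_infAff`);
* `raiseRing : iactRing ι M →+* iactRing ι K`, `iactExp_raiseRing` :
  `iactExp ι K (raise f) = qExpand E (d * d * k₀) (iactExp ι M f)`;
* `raiseField : IActField ι M →+* IActField ι K`, `iactFieldExp_raiseField`;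
* `avatarField_levelRaise` : `F ∈ avatarField ι M → qExpand E d F ∈ avatarField ι K`
  (`d = 1`: change of level `M ∣ K`; `k₀ = 1`: the operator `V_d : q ↦ q^d`);
* `coeffEmb_mem_avatarField_sup` : if the generators of `F₀ ⊆ ℚ((q))` have avatars of level `M`,
  then all elements of `F₀ ⊔ V_p(F₀)` (e.g. `F1p M p = F1 M ⊔ V_p (F1 M)`) have avatars of level
  `M * p`.
-/

set_option autoImplicit false
set_option linter.unusedSectionVars false
set_option linter.style.haveILetI false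

noncomputable section

open ModularCurve HahnSeries UpperHalfPlane
open scoped MatrixGroups Manifold

namespace Fermat.Agent.S48.H648

open Fermat.Agent.S48.H828 Fermat.Agent.S24 Fermat.Agent.S24.H997 Fermat.Agent.S24.H624

/-- `τ ↦ f(dτ)`. -/
def raiseFun (d : ℕ) (f : ℍ → ℂ) : ℍ → ℂ := fun τ => f (infAff d 0 1 τ)

theorem raiseFun_apply (d : ℕ) (f : ℍ → ℂ) (τ : ℍ) : raiseFun d f τ = f (infAff d 0 1 τ) := rfl

theorem raiseFun_add (d : ℕ) (f g : ℍ → ℂ) : raiseFun d (f + g) = raiseFun d f + raiseFun d g :=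
  rfl

theorem raiseFun_mul (d : ℕ) (f g : ℍ → ℂ) : raiseFun d (f * g) = raiseFun d f * raiseFun d g :=
  rfl

theorem mdiff_raiseFun {d : ℕ} (hd : 0 < d) {f : ℍ → ℂ} (hf : MDiff f) :
    MDiff (raiseFun d f) := by
  rw [UpperHalfPlane.mdifferentiable_iff]
  have hj : DifferentiableOn ℂ (f ∘ ofComplex) {z : ℂ | 0 < z.im} :=
    UpperHalfPlane.mdifferentiable_iff.mp hf
  have hmul : DifferentiableOn ℂ (fun z : ℂ => (d : ℂ) * z) {z : ℂ | 0 < z.im} :=
    (differentiable_id.const_mul (d : ℂ)).differentiableOn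
  have hmaps : Set.MapsTo (fun z : ℂ => (d : ℂ) * z) {z : ℂ | 0 < z.im} {z : ℂ | 0 < z.im} := by
    intro z hz
    simp only [Set.mem_ofPred_eq] at hz ⊢
    have : ((d : ℂ) * z).im = d * z.im := by simp
    rw [this]
    have hd' : (0 : ℝ) < d := by exact_mod_cast hd
    positivity
  refine (hj.comp hmul hmaps).congr ?_
  intro z hz
  simp only [Set.mem_ofPred_eq] at hz
  simp only [Function.comp_apply, raiseFun]
  congr 1
  apply UpperHalfPlane.ext
  rw [infAff_coe hd one_pos, ofComplex_apply_of_im_pos hz]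
  have hz' : 0 < ((d : ℂ) * z).im := hmaps hz
  rw [ofComplex_apply_of_im_pos hz']
  simp

/-- `Γ(K)`-invariance of `f(dτ)` for `Γ(M)`-invariant `f`, `M d ∣ K`. -/
theorem raiseFun_compSL_of_mem_Gamma {M d K : ℕ} (hd : 0 < d) (hK : M * d ∣ K) {f : ℍ → ℂ}
    (hf : ∀ γ ∈ CongruenceSubgroup.Gamma M, compSL γ f = f) {γ : SL(2, ℤ)}
    (hγ : γ ∈ CongruenceSubgroup.Gamma K) : compSL γ (raiseFun d f) = raiseFun d f := by
  obtain ⟨h00, h01, h10, h11⟩ := CongruenceSubgroup.Gamma_mem.mp hγ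
  have hMK : (M : ℤ) ∣ (K : ℤ) := by exact_mod_cast (Dvd.intro _ rfl : M ∣ M * d).trans hK
  have hMdK : ((M * d : ℕ) : ℤ) ∣ (K : ℤ) := by exact_mod_cast hK
  have d00 : (K : ℤ) ∣ γ 0 0 - 1 := by
    have : ((γ 0 0 - 1 : ℤ) : ZMod K) = 0 := by push_cast; rw [h00]; ring
    exact (ZMod.intCast_zmod_eq_zero_iff_dvd _ _).mp this
  have d01 : (K : ℤ) ∣ γ 0 1 := (ZMod.intCast_zmod_eq_zero_iff_dvd _ _).mp h01
  have d10 : (K : ℤ) ∣ γ 1 0 := (ZMod.intCast_zmod_eq_zero_iff_dvd _ _).mp h10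
  have d11 : (K : ℤ) ∣ γ 1 1 - 1 := by
    have : ((γ 1 1 - 1 : ℤ) : ZMod K) = 0 := by push_cast; rw [h11]; ring
    exact (ZMod.intCast_zmod_eq_zero_iff_dvd _ _).mp this
  obtain ⟨r, hr⟩ : ((M * d : ℕ) : ℤ) ∣ γ 1 0 := hMdK.trans d10
  have hr' : γ 1 0 = (M : ℤ) * r * d := by rw [hr]; push_cast; ring
  have hdet := inf_sl_det γ
  let γ' : SL(2, ℤ) := ⟨!![γ 0 0, (d : ℤ) * γ 0 1; (M : ℤ) * r, γ 1 1], by
    rw [Matrix.det_fin_two_of]
    rw [hr'] at hdet
    linear_combination hdet⟩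
  have e00 : γ' 0 0 = γ 0 0 := rfl
  have e01 : γ' 0 1 = (d : ℤ) * γ 0 1 := rfl
  have e10 : γ' 1 0 = (M : ℤ) * r := rfl
  have e11 : γ' 1 1 = γ 1 1 := rfl
  have hγ' : γ' ∈ CongruenceSubgroup.Gamma M := by
    rw [CongruenceSubgroup.Gamma_mem, e00, e01, e10, e11]
    refine ⟨?_, ?_, ?_, ?_⟩
    · have : ((γ 0 0 - 1 : ℤ) : ZMod M) = 0 :=
        (ZMod.intCast_zmod_eq_zero_iff_dvd _ _).mpr (hMK.trans d00)
      push_cast at this
      exact sub_eq_zero.mp this
    · rw [ZMod.intCast_zmod_eq_zero_iff_dvd]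
      exact Dvd.dvd.mul_left (hMK.trans d01) _
    · rw [ZMod.intCast_zmod_eq_zero_iff_dvd]
      exact Dvd.intro _ rfl
    · have : ((γ 1 1 - 1 : ℤ) : ZMod M) = 0 :=
        (ZMod.intCast_zmod_eq_zero_iff_dvd _ _).mpr (hMK.trans d11)
      push_cast at this
      exact sub_eq_zero.mp this
  funext τ
  show f (infAff d 0 1 (γ • τ)) = f (infAff d 0 1 τ)
  have k00 : (d : ℤ) * γ 0 0 = γ' 0 0 * (d : ℕ) := by rw [e00]; ring
  have k01 : (d : ℤ) * γ 0 1 = γ' 0 0 * (0 : ℤ) + γ' 0 1 * ((1 : ℕ) : ℤ) := by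
    rw [e01, Nat.cast_one, mul_zero, zero_add, mul_one]
  have k10 : γ 1 0 = γ' 1 0 * (d : ℕ) := by rw [e10, hr']
  have k11 : γ 1 1 = γ' 1 0 * (0 : ℤ) + γ' 1 1 * ((1 : ℕ) : ℤ) := by
    rw [e11, Nat.cast_one, mul_zero, zero_add, mul_one]
  have key := inf_aff_smul_eq (d := d) (a := d) (d' := 1) (b := 0) hd hd one_pos γ γ'
    k00 k01 k10 k11 τ
  rw [key]
  exact congrFun (hf γ' hγ') (infAff d 0 1 τ)

variable {E : Type*} [Field E] [CharZero E] {ι : E →+* ℂ}

/-- All `SL(2,ℤ)`-translates of `f(dτ)` have `E`-rational expansions in `X_K`. -/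
theorem raiseFun_rat {M d K k₀ : ℕ} [NeZero M] [NeZero K] (hd : 0 < d) (hk₀ : 0 < k₀)
    (hK : K = M * d * k₀) (ζ : Eˣ) (hζ : Units.map (ι : E →* ℂ) ζ = infRoot 1 K)
    {f : ℍ → ℂ} (hf : ∀ γ : SL(2, ℤ), IActRat ι M (compSL γ f)) (γ : SL(2, ℤ)) :
    IActRat ι K (compSL γ (raiseFun d f)) := by
  have hM : 0 < M := Nat.pos_of_ne_zero (NeZero.ne M)
  have hKpos : 0 < K := Nat.pos_of_ne_zero (NeZero.ne K)
  obtain ⟨γ', a, d', b, ha, hd', had, h00, h01, h10, h11⟩ := inf_exists_hnf d hd γ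
  obtain ⟨φ, hφ⟩ := hf γ'
  -- `e * (d' * M) = a * K` with `e = a * a * k₀`
  haveI : NeZero (a * a * k₀) := ⟨(Nat.mul_pos (Nat.mul_pos ha ha) hk₀).ne'⟩
  have he : (a * a * k₀) * (d' * M) = a * K := by
    rw [hK, ← had]; ring
  have h := hφ.comp_infAff (e := a * a * k₀) (N := K) b ha hd' hM hKpos he
  -- the root of unity `exp(2πi b/(d' M))` as a power of `ζ`
  have hc : K = (d' * M) * (a * k₀) := by rw [hK, ← had]; ring
  have hroot : Units.map (ι : E →* ℂ) (ζ ^ (b * ((a * k₀ : ℕ) : ℤ))) = infRoot b (d' * M) := by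
    rw [map_zpow, hζ, iact_infRoot_one_zpow]
    exact iact_infRoot_mul b (Nat.mul_pos hd' hM) (Nat.mul_pos ha hk₀) hc
  refine ⟨qExpand E (a * a * k₀) (infTwist (ζ ^ (b * ((a * k₀ : ℕ) : ℤ))) φ), ?_⟩
  rw [coeffMap_qExpand, iact_coeffMap_infTwist, hroot]
  refine h.congr fun τ => ?_
  show compSL γ' f (infAff a b d' τ) = raiseFun d f (γ • τ)
  rw [raiseFun_apply, inf_aff_smul_eq hd ha hd' γ γ' h00 h01 h10 h11 τ]
  rfl

theorem raiseFun_mem_iactRing {M d K k₀ : ℕ} [NeZero M] [NeZero K] (hd : 0 < d) (hk₀ : 0 < k₀)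
    (hK : K = M * d * k₀) (ζ : Eˣ) (hζ : Units.map (ι : E →* ℂ) ζ = infRoot 1 K)
    {f : ℍ → ℂ} (hf : f ∈ iactRing ι M) : raiseFun d f ∈ iactRing ι K := by
  obtain ⟨h0, h1, h2⟩ := hf
  refine ⟨mdiff_raiseFun hd h0, fun γ hγ => ?_, fun γ => raiseFun_rat hd hk₀ hK ζ hζ h2 γ⟩
  exact raiseFun_compSL_of_mem_Gamma hd ⟨k₀, hK⟩ h1 hγ

section Ring

variable {M d K k₀ : ℕ} [NeZero M] [NeZero K] (hd : 0 < d) (hk₀ : 0 < k₀)
  (hK : K = M * d * k₀) (ζ : Eˣ) (hζ : Units.map (ι : E →* ℂ) ζ = infRoot 1 K)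

/-- `f ↦ f(dτ)` as a ring hom `iactRing ι M →+* iactRing ι K`. -/
def raiseRing : iactRing ι M →+* iactRing ι K where
  toFun f := ⟨raiseFun d f.1, raiseFun_mem_iactRing hd hk₀ hK ζ hζ f.2⟩
  map_one' := rfl
  map_mul' _ _ := rfl
  map_zero' := rfl
  map_add' _ _ := rfl

theorem raiseRing_apply (f : iactRing ι M) (τ : ℍ) :
    ((raiseRing hd hk₀ hK ζ hζ f : iactRing ι K) : ℍ → ℂ) τ = (f : ℍ → ℂ) (infAff d 0 1 τ) := rfl

/-- The expansion of `f(dτ)` in `X_K` is `φ(X_K^{d·K/M})`. -/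
theorem iactExp_raiseRing [NeZero (d * d * k₀)] (f : iactRing ι M) :
    iactExp ι K (raiseRing hd hk₀ hK ζ hζ f) = qExpand E (d * d * k₀) (iactExp ι M f) := by
  have hM : 0 < M := Nat.pos_of_ne_zero (NeZero.ne M)
  have hKpos : 0 < K := Nat.pos_of_ne_zero (NeZero.ne K)
  apply iactExp_eq
  have hφ := iactExp_spec (ι := ι) (M := M) f
  have he : (d * d * k₀) * (1 * M) = d * K := by rw [hK]; ring
  have h := hφ.comp_infAff (e := d * d * k₀) (N := K) 0 hd one_pos hM hKpos he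
  rw [infRoot_zero, infTwist_one] at h
  rw [coeffMap_qExpand]
  exact h

theorem raiseRing_injective [NeZero (d * d * k₀)] :
    Function.Injective (raiseRing (ι := ι) hd hk₀ hK ζ hζ) := by
  intro f g h
  apply iactExp_injective (ι := ι) (M := M)
  apply qExpand_injective (R := E) (d * d * k₀)
  rw [← iactExp_raiseRing hd hk₀ hK ζ hζ f, ← iactExp_raiseRing hd hk₀ hK ζ hζ g, h]

/-- `f ↦ f(dτ)` on the fields. -/
def raiseField [NeZero (d * d * k₀)] : IActField ι M →+* IActField ι K :=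
  IsFractionRing.lift (g := (algebraMap (iactRing ι K) (IActField ι K)).comp
    (raiseRing hd hk₀ hK ζ hζ))
    ((IsFractionRing.injective (iactRing ι K) (IActField ι K)).comp
      (raiseRing_injective hd hk₀ hK ζ hζ))

theorem raiseField_algebraMap [NeZero (d * d * k₀)] (f : iactRing ι M) :
    raiseField hd hk₀ hK ζ hζ (algebraMap (iactRing ι M) (IActField ι M) f)
      = algebraMap (iactRing ι K) (IActField ι K) (raiseRing hd hk₀ hK ζ hζ f) :=
  IsFractionRing.lift_algebraMap _ f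

theorem iactFieldExp_raiseField [NeZero (d * d * k₀)] (y : IActField ι M) :
    iactFieldExp ι K (raiseField hd hk₀ hK ζ hζ y)
      = qExpand E (d * d * k₀) (iactFieldExp ι M y) := by
  obtain ⟨a, b, hb, rfl⟩ := IsFractionRing.div_surjective (A := iactRing ι M) y
  rw [map_div₀, map_div₀, map_div₀, map_div₀, raiseField_algebraMap, raiseField_algebraMap,
    iactFieldExp_algebraMap, iactFieldExp_algebraMap, iactFieldExp_algebraMap,
    iactFieldExp_algebraMap, iactExp_raiseRing, iactExp_raiseRing]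

include hd hk₀ hK ζ hζ in
/-- **Level raising of avatars.** -/
theorem avatarField_levelRaise [NeZero d] {F : LaurentSeries E} (hF : F ∈ avatarField ι M) :
    qExpand E d F ∈ avatarField ι K := by
  haveI : NeZero (d * d * k₀) := ⟨(Nat.mul_pos (Nat.mul_pos hd hd) hk₀).ne'⟩
  obtain ⟨y, hy⟩ := mem_avatarField.1 hF
  refine mem_avatarField.2 ⟨raiseField hd hk₀ hK ζ hζ y, ?_⟩
  rw [iactFieldExp_raiseField, hy, qExpand_qExpand, qExpand_qExpand]
  exact qExpand_congr (by rw [hK]; ring) F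

end Ring

/-- Change of level `M ∣ K` (no substitution). -/
theorem avatarField_mono {M K k₀ : ℕ} [NeZero M] [NeZero K] (hk₀ : 0 < k₀) (hK : K = M * k₀)
    (ζ : Eˣ) (hζ : Units.map (ι : E →* ℂ) ζ = infRoot 1 K) {F : LaurentSeries E}
    (hF : F ∈ avatarField ι M) : F ∈ avatarField ι K := by
  have h := avatarField_levelRaise (d := 1) one_pos hk₀ (by rw [hK]; ring) ζ hζ hF
  rwa [qExpand_one_apply] at h

/-- If the elements of `F₀` have avatars of level `M`, then the elements of the compositum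
`F₀ ⊔ V_p(F₀)` have avatars of level `M * p`. -/
theorem coeffEmb_mem_avatarField_sup {M p : ℕ} [NeZero M] [NeZero p] [NeZero (M * p)]
    (ζ : Eˣ) (hζ : Units.map (ι : E →* ℂ) ζ = infRoot 1 (M * p))
    (F₀ : IntermediateField ℚ (LaurentSeries ℚ))
    (hF₀ : ∀ x ∈ F₀, coeffEmb E x ∈ avatarField ι M)
    (S : Set (LaurentSeries ℚ))
    (hS : S = (F₀ : Set (LaurentSeries ℚ)) ∪ (⇑(qExpand ℚ p) '' (F₀ : Set (LaurentSeries ℚ)))) :
    ∀ x ∈ IntermediateField.adjoin ℚ S, coeffEmb E x ∈ avatarField ι (M * p) := by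
  have hp : 0 < p := Nat.pos_of_ne_zero (NeZero.ne p)
  apply coeffEmb_mem_avatarField_of_adjoin
  intro s hs
  rw [hS] at hs
  rcases hs with hs | ⟨x, hx, rfl⟩
  · exact avatarField_mono hp rfl ζ hζ (hF₀ s hs)
  · have h := avatarField_levelRaise (d := p) (k₀ := 1) hp one_pos (by ring) ζ hζ (hF₀ x hx)
    have e : coeffEmb E (qExpand ℚ p x) = qExpand E p (coeffEmb E x) := by
      rw [coeffEmb, coeffMap_qExpand]
    rw [e]
    exact h

end Fermat.Agent.S48.H648

end
end
-- ===== PACK-END S48/H648/AvRaise.lean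

-- ===== PACK-BEGIN S48/H648/AvF1.lean
section



/-!
# S48 / Tower A1 (helper648): avatars for `F1 M`, `F1p M p` and the branch fields of
`GoodModel` for their base changes

INPUT (I-GEN, helper76): for every `a ≠ 0` an element of `H828.iactRing ι M` whose `X`-expansion
is `P_a(X^M)`, i.e. `qExpand E M (F1.divGenC E M a)` — hypothesis `HasDivAvatars ι M`.

OUTPUT
* `F1_le_avatarIF`  : every element of `F1 M` has an avatar of level `M`;
* `F1p_le_avatarIF` : every element of `F1p M p = F1 M ⊔ V_p (F1 M)` has an avatar of level `M * p`;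
* `unramified_j_F1`, `unramified_j_F1p`, `unramified_t2_F1p`, `unramified_t3_F1p` : the field
  `unramified` of `S18.Alg.GoodModel` for `Ω = laurentBaseChange E (F1 M)` resp.
  `laurentBaseChange E (F1p M p)`, `Lc = (algebraMap E Ω).fieldRange`, coordinates `j`, `t₂`, `t₃`.
-/

set_option autoImplicit false
set_option linter.unusedSectionVars false
set_option linter.style.haveILetI false

noncomputable section

open ModularCurve HahnSeries UpperHalfPlane
open scoped MatrixGroups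

namespace Fermat.Agent.S48.H648

open Fermat.Agent.S48.H828 Fermat.Agent.S24 Fermat.Agent.S48.F1

variable {E : Type*} [Field E] [CharZero E] (ι : E →+* ℂ)

/-- The rational `q`-series with an avatar of level `K` over `E`, as an intermediate field. -/
def avatarIF (K : ℕ) [NeZero K] : IntermediateField ℚ (LaurentSeries ℚ) :=
  { (avatarField ι K).comap (coeffEmb E) with
    algebraMap_mem' := fun c => by
      show coeffEmb E (algebraMap ℚ (LaurentSeries ℚ) c) ∈ avatarField ι K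
      have : coeffEmb E (algebraMap ℚ (LaurentSeries ℚ) c)
          = HahnSeries.C (algebraMap ℚ E c) := by
        rw [algebraMap_apply_eq_single, coeffEmb, coeffMap_single]
        rfl
      rw [this]
      exact C_mem_avatarField _ }

variable {ι}

theorem mem_avatarIF {K : ℕ} [NeZero K] {x : LaurentSeries ℚ} :
    x ∈ avatarIF ι K ↔ coeffEmb E x ∈ avatarField ι K := Iff.rfl

/-- I-GEN: the division values `P_a` have avatars in `iactRing ι M`. -/
def HasDivAvatars (ι : E →+* ℂ) (M : ℕ) [NeZero M] : Prop :=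
  ∀ a : ZMod M, a ≠ 0 → ∃ g : iactRing ι M, iactExp ι M g = qExpand E M (divGenC E M a)

theorem divGen_mem_avatarIF {M : ℕ} [NeZero M] (hP : HasDivAvatars ι M) {a : ZMod M}
    (ha : a ≠ 0) : divGen M a ∈ avatarIF ι M := by
  obtain ⟨g, hg⟩ := hP a ha
  rw [mem_avatarIF]
  have e : coeffEmb E (divGen M a) = divGenC E M a := coeffMap_divGenC _ M a
  rw [e]
  exact mem_avatarField_of_ring g hg

theorem jqd_mem_avatarIF {M : ℕ} [NeZero M] (ζ : Eˣ)
    (hζ : Units.map (ι : E →* ℂ) ζ = infRoot 1 M) {d : ℕ} [NeZero d] (hd : d ∣ M) :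
    qExpand ℚ d jq ∈ avatarIF ι M := by
  rw [mem_avatarIF]
  refine mem_avatarField.2 ⟨iactFJd ζ hζ d hd, ?_⟩
  rw [iactFieldExp_Jd, coeffEmb, coeffMap_qExpand]

/-- Every element of `F1 M` has an avatar of level `M`. -/
theorem F1_le_avatarIF {M : ℕ} [NeZero M] (ζ : Eˣ)
    (hζ : Units.map (ι : E →* ℂ) ζ = infRoot 1 M) (hP : HasDivAvatars ι M) :
    F1 M ≤ avatarIF ι M := by
  rw [F1, IntermediateField.adjoin_le_iff]
  rintro x (⟨d, hd0, hd, rfl⟩ | ⟨a, ha, rfl⟩)
  · exact jqd_mem_avatarIF ζ hζ hd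
  · exact divGen_mem_avatarIF hP ha

/-- `avatarIF` grows with the level. -/
theorem avatarIF_mono {M K k₀ : ℕ} [NeZero M] [NeZero K] (hk₀ : 0 < k₀) (hK : K = M * k₀)
    (ζ : Eˣ) (hζ : Units.map (ι : E →* ℂ) ζ = infRoot 1 K) : avatarIF ι M ≤ avatarIF ι K :=
  fun _ hx => avatarField_mono hk₀ hK ζ hζ hx

/-- `V_p` maps `avatarIF ι M` into `avatarIF ι (M * p)`. -/
theorem map_qExpand_avatarIF_le {M p : ℕ} [NeZero M] [NeZero p] [NeZero (M * p)] (ζ : Eˣ)
    (hζ : Units.map (ι : E →* ℂ) ζ = infRoot 1 (M * p)) :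
    (avatarIF ι M).map (qExpandₐ p) ≤ avatarIF ι (M * p) := by
  have hp : 0 < p := Nat.pos_of_ne_zero (NeZero.ne p)
  rintro _ ⟨x, hx, rfl⟩
  rw [mem_avatarIF]
  have h := avatarField_levelRaise (d := p) (k₀ := 1) hp one_pos (by ring) ζ hζ
    (mem_avatarIF.1 hx)
  have e : coeffEmb E (qExpand ℚ p x) = qExpand E p (coeffEmb E x) := by
    rw [coeffEmb, coeffMap_qExpand]
  show coeffEmb E (qExpand ℚ p x) ∈ avatarField ι (M * p)
  rw [e]
  exact h

/-- The `M`-th root of unity `ζ^p` from an `M p`-th root of unity. -/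
theorem infRoot_pow_of_mul {M p : ℕ} [NeZero M] [NeZero p] (ζ : Eˣ)
    (hζ : Units.map (ι : E →* ℂ) ζ = infRoot 1 (M * p)) :
    Units.map (ι : E →* ℂ) (ζ ^ p) = infRoot 1 M := by
  have hM : 0 < M := Nat.pos_of_ne_zero (NeZero.ne M)
  have hp : 0 < p := Nat.pos_of_ne_zero (NeZero.ne p)
  haveI : NeZero (M * p) := ⟨(Nat.mul_pos hM hp).ne'⟩
  rw [map_pow, hζ, ← zpow_natCast, iact_infRoot_one_zpow]
  have := iact_infRoot_mul (M := M * p) 1 hM hp rfl
  rwa [one_mul] at this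

/-- Every element of `F1p M p` has an avatar of level `M * p`. -/
theorem F1p_le_avatarIF {M p : ℕ} [NeZero M] [NeZero p] [NeZero (M * p)] (ζ : Eˣ)
    (hζ : Units.map (ι : E →* ℂ) ζ = infRoot 1 (M * p)) (hP : HasDivAvatars ι M) :
    F1p M p ≤ avatarIF ι (M * p) := by
  have hp : 0 < p := Nat.pos_of_ne_zero (NeZero.ne p)
  have h1 : F1 M ≤ avatarIF ι M := F1_le_avatarIF (ζ ^ p) (infRoot_pow_of_mul ζ hζ) hP
  rw [F1p]
  refine sup_le (h1.trans (avatarIF_mono hp rfl ζ hζ)) ?_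
  exact (IntermediateField.map_mono _ h1).trans (map_qExpand_avatarIF_le ζ hζ)

/-! ### The branch fields -/

section Branch

variable {M : ℕ} [NeZero M] (ζ : Eˣ) (hP : HasDivAvatars ι M)

include hP in
/-- **`GoodModel.unramified` for `Ω = E·F1(M)`, coordinate `j`, `S = {0, 1728}`.** -/
theorem unramified_j_F1 (hζ : Units.map (ι : E →* ℂ) ζ = infRoot 1 M)
    [CharZero ↥(laurentBaseChange E (F1 M))]
    (jΩ : ↥(laurentBaseChange E (F1 M))) (hj : (jΩ : LaurentSeries E) = coeffEmb E jq)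
    (O : ValuationSubring ↥(laurentBaseChange E (F1 M)))
    (hO : ∀ a ∈ (algebraMap E ↥(laurentBaseChange E (F1 M))).fieldRange, a ∈ O)
    (c : ↥(laurentBaseChange E (F1 M)))
    (hc : c ∈ (algebraMap E ↥(laurentBaseChange E (F1 M))).fieldRange)
    (hc0 : c ≠ 0) (hc1 : c ≠ 1728) (h1 : jΩ - c ∈ O) (h2 : (jΩ - c)⁻¹ ∉ O)
    (t : ↥(laurentBaseChange E (F1 M))) (ht : t ∈ O) (ht' : t⁻¹ ∉ O) :
    t * (jΩ - c)⁻¹ ∈ O :=
  unramified_j_laurentBaseChange (ι := ι) (M := M) (F1 M)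
    (fun _ hx => F1_le_avatarIF ζ hζ hP hx) jΩ hj O hO c hc hc0 hc1 h1 h2 t ht ht'

variable {p : ℕ} [NeZero p] [NeZero (M * p)]
  (hζ : Units.map (ι : E →* ℂ) ζ = infRoot 1 (M * p))
  [CharZero ↥(laurentBaseChange E (F1p M p))]

include ζ hP hζ

/-- **`GoodModel.unramified` for `Ω = E·F1(M; p)`, coordinate `j`.** -/
theorem unramified_j_F1p
    (jΩ : ↥(laurentBaseChange E (F1p M p))) (hj : (jΩ : LaurentSeries E) = coeffEmb E jq)
    (O : ValuationSubring ↥(laurentBaseChange E (F1p M p)))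
    (hO : ∀ a ∈ (algebraMap E ↥(laurentBaseChange E (F1p M p))).fieldRange, a ∈ O)
    (c : ↥(laurentBaseChange E (F1p M p)))
    (hc : c ∈ (algebraMap E ↥(laurentBaseChange E (F1p M p))).fieldRange)
    (hc0 : c ≠ 0) (hc1 : c ≠ 1728) (h1 : jΩ - c ∈ O) (h2 : (jΩ - c)⁻¹ ∉ O)
    (t : ↥(laurentBaseChange E (F1p M p))) (ht : t ∈ O) (ht' : t⁻¹ ∉ O) :
    t * (jΩ - c)⁻¹ ∈ O :=
  unramified_j_laurentBaseChange (ι := ι) (M := M * p) (F1p M p)
    (fun _ hx => F1p_le_avatarIF ζ hζ hP hx) jΩ hj O hO c hc hc0 hc1 h1 h2 t ht ht'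

/-- **`GoodModel.unramified` for `Ω = E·F1(M; p)`, coordinate `t₂`, `S = {0, -64}`.** -/
theorem unramified_t2_F1p
    (jΩ x : ↥(laurentBaseChange E (F1p M p))) (hj : (jΩ : LaurentSeries E) = coeffEmb E jq)
    (hjx : jΩ * x ^ 2 = (x + 256) ^ 3)
    (O : ValuationSubring ↥(laurentBaseChange E (F1p M p)))
    (hO : ∀ a ∈ (algebraMap E ↥(laurentBaseChange E (F1p M p))).fieldRange, a ∈ O)
    (c : ↥(laurentBaseChange E (F1p M p)))
    (hc : c ∈ (algebraMap E ↥(laurentBaseChange E (F1p M p))).fieldRange)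
    (hc0 : c ≠ 0) (hc64 : c ≠ -64) (h1 : x - c ∈ O) (h2 : (x - c)⁻¹ ∉ O)
    (t : ↥(laurentBaseChange E (F1p M p))) (ht : t ∈ O) (ht' : t⁻¹ ∉ O) :
    t * (x - c)⁻¹ ∈ O :=
  unramified_t2_laurentBaseChange (ι := ι) (M := M * p) (F1p M p)
    (fun _ hx => F1p_le_avatarIF ζ hζ hP hx) jΩ x hj hjx O hO c hc hc0 hc64 h1 h2 t ht ht'

/-- **`GoodModel.unramified` for `Ω = E·F1(M; p)`, coordinate `t₃`, `S = {0, -27}`.** -/
theorem unramified_t3_F1p
    (jΩ x : ↥(laurentBaseChange E (F1p M p))) (hj : (jΩ : LaurentSeries E) = coeffEmb E jq)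
    (hjx : jΩ * x ^ 3 = (x + 27) * (x + 243) ^ 3)
    (O : ValuationSubring ↥(laurentBaseChange E (F1p M p)))
    (hO : ∀ a ∈ (algebraMap E ↥(laurentBaseChange E (F1p M p))).fieldRange, a ∈ O)
    (c : ↥(laurentBaseChange E (F1p M p)))
    (hc : c ∈ (algebraMap E ↥(laurentBaseChange E (F1p M p))).fieldRange)
    (hc0 : c ≠ 0) (hc27 : c ≠ -27) (h1 : x - c ∈ O) (h2 : (x - c)⁻¹ ∉ O)
    (t : ↥(laurentBaseChange E (F1p M p))) (ht : t ∈ O) (ht' : t⁻¹ ∉ O) :
    t * (x - c)⁻¹ ∈ O :=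
  unramified_t3_laurentBaseChange (ι := ι) (M := M * p) (F1p M p)
    (fun _ hx => F1p_le_avatarIF ζ hζ hP hx) jΩ x hj hjx O hO c hc hc0 hc27 h1 h2 t ht ht'

end Branch

end Fermat.Agent.S48.H648

end
end
-- ===== PACK-END S48/H648/AvF1.lean

-- ===== PACK-BEGIN S48/H856/IgusaConc.lean
section



/-!
# S48 / RES / IGUSA1 — the CONCRETE `IgusaData` on helper828's full-level field (helper856)

`Ω := H828.IActField ι M` (`E` a field with `ι : E →+* ℂ`, `ζ_M ∈ E`), `ex := iactFieldExp`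
(`X`-expansion, `X = q^{1/M}`), `𝒪` a discrete valuation subring of `E` with uniformiser `w₀`.

* `bdField`       : the `G`-stable subfield of all `f` such that every translate `g f` is a
                    quotient of elements with bounded denominators (generic);
* `closure_le_bdField` : a subfield generated by a set whose translates have bounded denominators
                    lies in `bdField`;
* `iact_igusaData` : `IgusaData` for `Ffull := bdField`, `F0 := iactF0 = E(j_d : d ∣ M)`,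
                    `V := gaussRing 𝒪 ex`, `G, B, t` = images of `SL₂(ℤ), Γ₀(M), T`;
                    ONLY hypothesis: `qep0` (node I-S28 = landed S18 `node_mod`, transported);
* `iact_stable`   : the Gauss ring is stable under `SL₂(ℤ)` on `bdField`
                    (⟹ field `G_V` of `H588.StepCore` for the diamonds);
* `iact_qep_fin`  : the `q`-expansion principle for every subfield of `bdField`.
-/

set_option autoImplicit false
set_option linter.unusedSectionVars false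

noncomputable section

open HahnSeries Polynomial ModularCurve

namespace Fermat.Agent.S48.H856

open Fermat.Agent.S18.Alg Fermat.Agent.S48.H828

/-! ### The field of elements all of whose translates have bounded denominators -/

section BdField

variable {K : Type*} [Field K] {𝒪 : ValuationSubring K} {L : Type*} [Field L]
  {ex : L →+* LaurentSeries K} {w₀ : K} {w : L}

/-- The subfield of all `f` such that every translate `g f`, `g ∈ G`, is a quotient of elements
with bounded denominators. -/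
def bdField (h : GaussHyp 𝒪 ex w₀ w) (G : Subgroup (L ≃+* L)) : Subfield L where
  carrier := {f | ∀ g ∈ G, HasBd 𝒪 ex w (g f)}
  mul_mem' := fun {a b} ha hb g hg => by rw [map_mul]; exact (ha g hg).mul (hb g hg)
  one_mem' := fun g _ => by rw [map_one]; exact hasBd_of_isBd isBd_one
  add_mem' := fun {a b} ha hb g hg => by rw [map_add]; exact (ha g hg).add h (hb g hg)
  zero_mem' := fun g _ => by rw [map_zero]; exact hasBd_of_isBd isBd_zero
  neg_mem' := fun {a} ha g hg => by rw [map_neg]; exact (ha g hg).neg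
  inv_mem' := fun a ha g hg => by rw [map_inv₀]; exact (ha g hg).inv

theorem mem_bdField {h : GaussHyp 𝒪 ex w₀ w} {G : Subgroup (L ≃+* L)} {f : L} :
    f ∈ bdField h G ↔ ∀ g ∈ G, HasBd 𝒪 ex w (g f) := Iff.rfl

theorem hasBd_of_mem_bdField {h : GaussHyp 𝒪 ex w₀ w} {G : Subgroup (L ≃+* L)} {f : L}
    (hf : f ∈ bdField h G) : HasBd 𝒪 ex w f := by
  have := hf 1 G.one_mem
  simpa using this

theorem smul_mem_bdField {h : GaussHyp 𝒪 ex w₀ w} {G : Subgroup (L ≃+* L)} {f : L}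
    (hf : f ∈ bdField h G) {g : L ≃+* L} (hg : g ∈ G) : g f ∈ bdField h G := by
  intro g' hg'
  have := hf (g' * g) (G.mul_mem hg' hg)
  simpa using this

/-- a set all of whose translates have bounded denominators generates a subfield of `bdField` -/
theorem closure_le_bdField (h : GaussHyp 𝒪 ex w₀ w) (G : Subgroup (L ≃+* L)) {S : Set L}
    (hS : ∀ s ∈ S, ∀ g ∈ G, IsBd 𝒪 ex w (g s)) : Subfield.closure S ≤ bdField h G := by
  rw [Subfield.closure_le]
  intro s hs g hg
  exact hasBd_of_isBd (hS s hs g hg)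

/-- constants have bounded denominators -/
theorem isBd_of_ex_eq_C (h : GaussHyp 𝒪 ex w₀ w) {f : L} {c : K}
    (hf : ex f = HahnSeries.C c) : IsBd 𝒪 ex w f := by
  by_cases hc : c = 0
  · refine ⟨0, ?_⟩
    rw [pow_zero, mul_one, hf, hc, map_zero]
    exact isInt_zero
  obtain ⟨z, hz⟩ := h.disc.disc c hc
  have hw0 : 𝒪.valuation w₀ ≠ 0 := (Valuation.ne_zero_iff _).mpr h.disc.w_ne
  refine ⟨(-z).toNat, ?_⟩
  rw [map_mul, map_pow, hf, h.ex_w, ← map_pow, ← map_mul]
  apply isInt_C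
  apply (𝒪.valuation_le_one_iff _).mp
  rw [map_mul, map_pow, hz, ← zpow_natCast, ← zpow_add₀ hw0]
  apply (zpow_le_one_iff_right_of_lt_one₀ h.disc.w_pos h.disc.w_lt).mpr
  have := Int.self_le_toNat (-z)
  omega

end BdField

/-! ### The `j`-expansion -/

section JX

variable (E : Type*) [Field E] [CharZero E] (M : ℕ) [NeZero M]

theorem coeff_jq_eq_intCast (k : ℤ) : ∃ n : ℤ, jq.coeff k = (n : ℚ) := by
  rw [jq, HahnSeries.coeff_single_mul, one_mul]
  rcases lt_or_ge (k - -1) 0 with hk | hk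
  · exact ⟨0, by rw [ofPowerSeries_coeff_of_neg _ hk]; simp⟩
  · obtain ⟨m, hm⟩ := Int.eq_ofNat_of_zero_le hk
    rw [hm, HahnSeries.ofPowerSeries_apply_coeff, jNumQ, PowerSeries.coeff_map]
    exact ⟨_, rfl⟩

theorem coeff_jq_neg_one : jq.coeff (-1) = 1 := by
  rw [jq, HahnSeries.coeff_single_mul, one_mul]
  have : (-1 : ℤ) - -1 = ((0 : ℕ) : ℤ) := by norm_num
  rw [this, HahnSeries.ofPowerSeries_apply_coeff, PowerSeries.coeff_zero_eq_constantCoeff_apply,
    constantCoeff_jNumQ]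

theorem coeff_jq_of_lt {k : ℤ} (hk : k < -1) : jq.coeff k = 0 := by
  rw [jq, HahnSeries.coeff_single_mul, one_mul]
  exact ofPowerSeries_coeff_of_neg _ (by omega)

theorem coeff_iactJX_mul (k : ℤ) :
    (iactJX E M).coeff ((M : ℤ) * k) = algebraMap ℚ E (jq.coeff k) := by
  rw [iactJX, qExpand_coeff_mul, coeffEmb_coeff]

theorem coeff_iactJX_of_not_dvd {k : ℤ} (hk : ¬ (M : ℤ) ∣ k) : (iactJX E M).coeff k = 0 := by
  rw [iactJX, qExpand_coeff_of_not_dvd _ _ hk]

variable {E}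

theorem isInt_iactJX (𝒪 : ValuationSubring E) : IsInt 𝒪 (iactJX E M) := by
  intro k
  by_cases hk : (M : ℤ) ∣ k
  · obtain ⟨m, rfl⟩ := hk
    rw [coeff_iactJX_mul]
    obtain ⟨n, hn⟩ := coeff_jq_eq_intCast m
    rw [hn]
    have : algebraMap ℚ E ((n : ℤ) : ℚ) = (n : E) := by simp
    rw [this]
    exact intCast_mem 𝒪 n
  · rw [coeff_iactJX_of_not_dvd E M hk]
    exact 𝒪.zero_mem

variable (E)

theorem coeff_iactJX_neg : (iactJX E M).coeff (-(M : ℤ)) = 1 := by
  have : -(M : ℤ) = (M : ℤ) * (-1) := by ring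
  rw [this, coeff_iactJX_mul, coeff_jq_neg_one, map_one]

theorem coeff_iactJX_of_lt {k : ℤ} (hk : k < -(M : ℤ)) : (iactJX E M).coeff k = 0 := by
  by_cases hd : (M : ℤ) ∣ k
  · obtain ⟨m, rfl⟩ := hd
    rw [coeff_iactJX_mul]
    have hM : (0 : ℤ) < M := by exact_mod_cast Nat.pos_of_ne_zero (NeZero.ne M)
    have hm : m < -1 := by
      by_contra hcon
      rw [not_lt] at hcon
      nlinarith
    rw [coeff_jq_of_lt hm, map_zero]
  · exact coeff_iactJX_of_not_dvd E M hd

theorem iactJX_ne_zero : iactJX E M ≠ 0 := by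
  intro h
  have := coeff_iactJX_neg E M
  rw [h, HahnSeries.coeff_zero] at this
  exact zero_ne_one this

theorem order_iactJX : (iactJX E M).order = -(M : ℤ) := by
  apply le_antisymm
  · apply HahnSeries.order_le_of_coeff_ne_zero
    rw [coeff_iactJX_neg]
    exact one_ne_zero
  · by_contra hlt
    rw [not_le] at hlt
    exact iactJX_ne_zero E M (HahnSeries.coeff_order_eq_zero.mp (coeff_iactJX_of_lt E M hlt))

theorem leadingCoeff_iactJX : (iactJX E M).leadingCoeff = 1 := by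
  rw [HahnSeries.leadingCoeff_eq, order_iactJX, coeff_iactJX_neg]

end JX

/-! ### The concrete `IgusaData` -/

section Conc

variable {E : Type*} [Field E] [CharZero E] {ι : E →+* ℂ} {M : ℕ} [NeZero M]
  (𝒪 : ValuationSubring E) {w₀ : E}

/-- the Gauss hypothesis on `IActField` -/
theorem iact_gaussHyp (hd : IsDiscrete 𝒪 w₀) :
    GaussHyp 𝒪 (iactFieldExp ι M) w₀ (iactFC ι M w₀) :=
  ⟨hd, iactFieldExp_C w₀⟩

variable (ζ : Eˣ) (hζ : Units.map (ι : E →* ℂ) ζ = Fermat.Agent.S24.infRoot 1 M)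

include hζ in
theorem iact_zeta_pow : (ζ : E) ^ M = 1 := by
  apply ι.injective
  have h0 : ι (ζ : E) = Complex.exp (2 * Real.pi * Complex.I * ((1 : ℤ) : ℂ) / M) := by
    have := congrArg Units.val hζ
    simpa using this
  have hM : (M : ℂ) ≠ 0 := by exact_mod_cast NeZero.ne M
  rw [map_pow, map_one, h0, ← Complex.exp_nat_mul]
  have : (M : ℂ) * (2 * Real.pi * Complex.I * ((1 : ℤ) : ℂ) / M) = 2 * Real.pi * Complex.I := by
    field_simp
    push_cast
    ring
  rw [this, Complex.exp_two_pi_mul_I]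

include hζ in
theorem iact_valuation_zeta : 𝒪.valuation ((ζ⁻¹ : Eˣ) : E) = 1 := by
  have h1 : 𝒪.valuation (ζ : E) ^ M = 1 := by rw [← map_pow, iact_zeta_pow ζ hζ, map_one]
  have hM : M ≠ 0 := NeZero.ne M
  have h2 : 𝒪.valuation (ζ : E) = 1 := by
    rcases lt_trichotomy (𝒪.valuation (ζ : E)) 1 with h | h | h
    · exact absurd h1 (ne_of_lt (pow_lt_one₀ zero_le h hM))
    · exact h
    · exact absurd h1 (ne_of_gt (one_lt_pow₀ h hM))
  rw [Units.val_inv_eq_inv_val, map_inv₀, h2, inv_one]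

include hζ in
/-- `T` acts on expansions by `X ↦ ζ⁻¹ X` -/
theorem iact_twist (f : IActField ι M) (k : ℤ) :
    (iactFieldExp ι M (iactT ι M f)).coeff k
      = ((ζ⁻¹ : Eˣ) : E) ^ k * (iactFieldExp ι M f).coeff k := by
  have h := iactFieldExp_T_smul ζ hζ f
  have h1 : iactT ι M f = ModularGroup.T • f := rfl
  rw [h1, h, Fermat.Agent.S24.infTwist_coeff, Units.val_zpow_eq_zpow_val, mul_comm]

theorem iact_eval₂_mem_ratField (P : Polynomial E) :
    Polynomial.eval₂ (iactFC ι M) (iactFJ ι M) P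
      ∈ ratField (iactFC ι M).fieldRange (iactFJ ι M) := by
  rw [Polynomial.eval₂_eq_sum_range]
  refine sum_mem fun i _ => mul_mem ?_ (pow_mem ?_ i)
  · exact Subfield.subset_closure (Or.inl ⟨_, rfl⟩)
  · exact Subfield.subset_closure (Or.inr rfl)

/-- the full-level field with bounded denominators at all cusps -/
def iactBd (hd : IsDiscrete 𝒪 w₀) : Subfield (IActField ι M) :=
  bdField (iact_gaussHyp (ι := ι) (M := M) 𝒪 hd) (iactG ι M)

theorem iactFC_mem_iactBd (hd : IsDiscrete 𝒪 w₀) (c : E) :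
    iactFC ι M c ∈ iactBd (ι := ι) (M := M) 𝒪 hd := by
  intro g hg
  rw [iactG_fix_C g hg]
  exact hasBd_of_isBd (isBd_of_ex_eq_C (iact_gaussHyp 𝒪 hd) (iactFieldExp_C c))

theorem iactFJ_mem_iactBd (hd : IsDiscrete 𝒪 w₀) :
    iactFJ ι M ∈ iactBd (ι := ι) (M := M) 𝒪 hd := by
  intro g hg
  rw [iactG_fix_J g hg]
  exact hasBd_of_isBd (isBd_of_isInt (by rw [iactFieldExp_J]; exact isInt_iactJX M 𝒪))

/-- membership criterion: every `SL₂(ℤ)`-translate has an expansion with bounded denominators -/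
theorem mem_iactBd_of_isBd (hd : IsDiscrete 𝒪 w₀) {f : IActField ι M}
    (h : ∀ γ : Matrix.SpecialLinearGroup (Fin 2) ℤ,
      IsBd 𝒪 (iactFieldExp ι M) (iactFC ι M w₀) (γ • f)) :
    f ∈ iactBd (ι := ι) (M := M) 𝒪 hd := by
  rintro g ⟨γ, rfl⟩
  exact hasBd_of_isBd (h γ)

/-- a set of elements all of whose translates have bounded denominators generates a subfield of
`iactBd` -/
theorem closure_le_iactBd (hd : IsDiscrete 𝒪 w₀) {S : Set (IActField ι M)}
    (hS : ∀ s ∈ S, ∀ γ : Matrix.SpecialLinearGroup (Fin 2) ℤ,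
      IsBd 𝒪 (iactFieldExp ι M) (iactFC ι M w₀) (γ • s)) :
    Subfield.closure S ≤ iactBd (ι := ι) (M := M) 𝒪 hd := by
  rw [Subfield.closure_le]
  exact fun s hs => mem_iactBd_of_isBd 𝒪 hd (hS s hs)

/-- **The concrete `IgusaData`** on `IActField ι M`; the only hypothesis is `qep0`
(node I-S28: the `q`-expansion principle of `X₀(M)`, landed S18 `node_mod`, transported along
`q ↦ X^M`). -/
theorem iact_igusaData (hd : IsDiscrete 𝒪 w₀)
    (hqep0 : ∀ b ∈ chart (iactF0 ζ hζ) (𝒪.toSubring.map (iactFC ι M)) (iactFJ ι M),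
      b * (iactFC ι M w₀)⁻¹ ∈ gaussRing 𝒪 (iactFieldExp ι M) →
        b * (iactFC ι M w₀)⁻¹ ∈ chart (iactF0 ζ hζ) (𝒪.toSubring.map (iactFC ι M))
          (iactFJ ι M)) :
    IgusaData (iactFC ι M).fieldRange (iactF0 ζ hζ) (iactBd (ι := ι) (M := M) 𝒪 hd)
      (𝒪.toSubring.map (iactFC ι M)) (gaussRing 𝒪 (iactFieldExp ι M)) (iactFC ι M w₀)
      (iactFJ ι M) (iactG ι M) (iactB ι M) (iactT ι M) := by
  refine igusaData_of_expansion (iactFC ι M) iactFieldExp_C (iact_gaussHyp 𝒪 hd)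
    (iactBd 𝒪 hd) (fun f hf => hasBd_of_mem_bdField hf) (iactFC_mem_iactBd 𝒪 hd)
    (iactFJ_mem_iactBd 𝒪 hd) (by rw [iactFieldExp_J]; exact isInt_iactJX M 𝒪)
    (Nat.pos_of_ne_zero (NeZero.ne M)) (by rw [iactFieldExp_J]; exact order_iactJX E M)
    (by rw [iactFieldExp_J, leadingCoeff_iactJX, map_one]) (iactF0 ζ hζ) (iactG ι M)
    (iactB ι M) (iactT ι M) iactG_finite (fun g hg c => iactG_fix_C g hg c)
    (fun g hg => iactG_fix_J g hg) (fun g hg f hf => smul_mem_bdField hf hg) ?_ iactB_le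
    iactT_mem iactT_normal iactT_gen (iact_valuation_zeta 𝒪 ζ hζ) (iact_twist ζ hζ)
    (fun f _ hf => iactB_inv ζ hζ f hf) hqep0
  intro f _ hf
  obtain ⟨P, Q, -, rfl⟩ := iactG_inv f hf
  exact div_mem (iact_eval₂_mem_ratField P) (iact_eval₂_mem_ratField Q)

/-- **IGUSA1, stability**: on `iactBd`, the Gauss valuation ring is stable under `SL₂(ℤ)`;
in particular under the image of `Γ₀(M)` (the diamonds of `E·F₁(M)`). -/
theorem iact_stable (hd : IsDiscrete 𝒪 w₀)
    (hqep0 : ∀ b ∈ chart (iactF0 ζ hζ) (𝒪.toSubring.map (iactFC ι M)) (iactFJ ι M),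
      b * (iactFC ι M w₀)⁻¹ ∈ gaussRing 𝒪 (iactFieldExp ι M) →
        b * (iactFC ι M w₀)⁻¹ ∈ chart (iactF0 ζ hζ) (𝒪.toSubring.map (iactFC ι M))
          (iactFJ ι M))
    (γ : Matrix.SpecialLinearGroup (Fin 2) ℤ) {f : IActField ι M}
    (hf : f ∈ iactBd (ι := ι) (M := M) 𝒪 hd) (hfV : f ∈ gaussRing 𝒪 (iactFieldExp ι M)) :
    γ • f ∈ gaussRing 𝒪 (iactFieldExp ι M) :=
  (iact_igusaData 𝒪 ζ hζ hd hqep0).stable (iactRho ι M γ) ⟨γ, rfl⟩ f hf hfV

/-- **IGUSA1, `q`-expansion principle** for every subfield of `iactBd` (e.g. the image of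
`E·F₁(M)`). -/
theorem iact_qep_fin (hd : IsDiscrete 𝒪 w₀)
    (hqep0 : ∀ b ∈ chart (iactF0 ζ hζ) (𝒪.toSubring.map (iactFC ι M)) (iactFJ ι M),
      b * (iactFC ι M w₀)⁻¹ ∈ gaussRing 𝒪 (iactFieldExp ι M) →
        b * (iactFC ι M w₀)⁻¹ ∈ chart (iactF0 ζ hζ) (𝒪.toSubring.map (iactFC ι M))
          (iactFJ ι M))
    (Fc : Subfield (IActField ι M)) (hFc : Fc ≤ iactBd (ι := ι) (M := M) 𝒪 hd)
    (hwFc : iactFC ι M w₀ ∈ Fc) :
    ∀ b ∈ chart Fc (𝒪.toSubring.map (iactFC ι M)) (iactFJ ι M),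
      b * (iactFC ι M w₀)⁻¹ ∈ gaussRing 𝒪 (iactFieldExp ι M) →
        b * (iactFC ι M w₀)⁻¹ ∈ chart Fc (𝒪.toSubring.map (iactFC ι M)) (iactFJ ι M) :=
  (iact_igusaData 𝒪 ζ hζ hd hqep0).qep_fin Fc hFc hwFc

end Conc

end Fermat.Agent.S48.H856

end
end
-- ===== PACK-END S48/H856/IgusaConc.lean

-- ===== PACK-BEGIN S48/H76/IGen.lean
section




/-!
# S48 / Tower A1 / IGUSA1, node I-GEN (helper76): the division values in `H828.iactRing`

For a field `E` with `ι : E →+* ℂ` containing `ζ_M` (`hζ : ι ζ = exp(2πi/M)`):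

* `iactP ζ hζ a : H828.iactRing ι M` : the avatar `pFun M a` of the division value `P_a`;
* `iactExp_iactP` : its `X`-expansion is `qExpand E M (F1.divGenC E M a)` (`a ≠ 0`);
* `iactComp_iactP` : `P_a ∘ γ = P_{a γ₀₀}` for `γ ∈ Γ₀(M)` (and `smul_iactP`);
* `isBd_smul_iactP` : every `SL₂(ℤ)`-translate of `P_a` has an expansion with bounded
  denominators (explicit denominator `M^12 · ∏_c den κ_c`), for every discrete valuation subring
  `𝒪` of `E`; hence `iactP_mem_iactBd`.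
-/

set_option autoImplicit false
set_option linter.unusedSectionVars false

open UpperHalfPlane EisensteinSeries ModularForm Filter Topology Complex CongruenceSubgroup
open HahnSeries ModularCurve
open scoped Matrix MatrixGroups Manifold Real

noncomputable section

namespace Fermat.Agent.S48.H76

open Fermat.Agent.S29 Fermat.Agent.S24 Fermat.Agent.S24.H997 Fermat.Agent.S24.H624
open Fermat.Agent.S28 Fermat.Agent.S28.H748

local notation "𝕢" => Function.Periodic.qParam
local notation "Δ" => ModularForm.discriminant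

/-! ### Bounded denominators of the coefficients -/

/-- A common denominator of the Bernoulli constants `κ_c`, `0 ≤ c < M`. -/
def kDen (M k : ℕ) : ℕ := ∏ c ∈ Finset.range M, (kappaQ M (c : ℤ) k).den

theorem kDen_ne_zero (M k : ℕ) : kDen M k ≠ 0 :=
  Finset.prod_ne_zero_iff.mpr fun _ _ => Rat.den_ne_zero _

theorem kDen_mul_kappaQ (M k : ℕ) {c : ℕ} (hc : c ∈ Finset.range M) :
    ∃ z : ℤ, ((kDen M k : ℕ) : ℚ) * kappaQ M (c : ℤ) k = (z : ℚ) := by
  obtain ⟨r, hr⟩ : (kappaQ M (c : ℤ) k).den ∣ kDen M k :=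
    Finset.dvd_prod_of_mem (fun c : ℕ => (kappaQ M (c : ℤ) k).den) hc
  refine ⟨(r : ℤ) * (kappaQ M (c : ℤ) k).num, ?_⟩
  rw [hr]
  push_cast
  have h := Rat.den_mul_eq_num (kappaQ M (c : ℤ) k)
  rw [mul_comm ((kappaQ M (c : ℤ) k).den : ℚ) (r : ℚ), mul_assoc, h]

/-- The denominator of the expansions of the translates of the division values. -/
def bdDen (M k : ℕ) : ℕ := M ^ (k + 1) * kDen M k

theorem bdDen_ne_zero (M : ℕ) [NeZero M] (k : ℕ) : bdDen M k ≠ 0 :=
  Nat.mul_ne_zero (pow_ne_zero _ (NeZero.ne M)) (kDen_ne_zero M k)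

theorem hatG_mem (M : ℕ) (S : Subring ℂ) (hζ : ∀ a : ℤ, zetaPow M a ∈ S) (g : ZMod M → ℂ)
    (hg : ∀ b, g b ∈ S) (m : ℤ) : hatG M g m ∈ S := by
  unfold hatG
  exact S.sum_mem fun b _ => S.mul_mem (hg _) (hζ _)

/-- **Bounded denominators**: `bdDen · C_{k+1}⁻¹ · (n-th coefficient of G_w)` lies in every
subring containing the `M`-th roots of unity and the values of `w`. -/
theorem coefX_bd_mem (M : ℕ) [NeZero M] {k : ℕ} (hk : 1 ≤ k) (w : ZMod M → ZMod M → ℂ)
    (S : Subring ℂ) (hζ : ∀ a : ℤ, zetaPow M a ∈ S) (hw : ∀ x y, w x y ∈ S) (n : ℕ) :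
    ((bdDen M k : ℕ) : ℂ) * ((divC k)⁻¹ * coefX M w k n) ∈ S := by
  have hMne : (M : ℂ) ≠ 0 := Nat.cast_ne_zero.mpr (NeZero.ne M)
  have hdiv : divC k = lipConst M k * (M : ℂ) ^ (k + 1) := (lipConst_mul_pow M k).symm
  have hl : lipConst M k ≠ 0 := by
    intro h
    apply divC_ne_zero k
    rw [hdiv, h, zero_mul]
  unfold coefX bdDen
  by_cases hn : n = 0
  · rw [if_pos hn, constTerm_eq M hk]
    have e : (((M ^ (k + 1) * kDen M k : ℕ)) : ℂ) *
        ((divC k)⁻¹ * (normC M k * kappaW M w k)) =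
        ∑ c ∈ Finset.range M, hatG M (w 0) (c : ℤ) *
          (((kDen M k : ℕ) : ℂ) * ((kappaQ M (c : ℤ) k : ℚ) : ℂ)) := by
      unfold kappaW normC
      rw [hdiv, Finset.mul_sum, Finset.mul_sum, Finset.mul_sum, Finset.mul_sum]
      refine Finset.sum_congr rfl fun c _ => ?_
      push_cast
      field_simp
    rw [e]
    refine S.sum_mem fun c hc => S.mul_mem (hatG_mem M S hζ _ (hw 0) _) ?_
    obtain ⟨z, hz⟩ := kDen_mul_kappaQ M k hc
    have hz' : ((kDen M k : ℕ) : ℂ) * ((kappaQ M (c : ℤ) k : ℚ) : ℂ) = (z : ℂ) := by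
      have := congrArg (fun q : ℚ => (q : ℂ)) hz
      simpa using this
    rw [hz']
    exact intCast_mem S z
  · rw [if_neg hn]
    have e : (((M ^ (k + 1) * kDen M k : ℕ)) : ℂ) *
        ((divC k)⁻¹ * (lipConst M k * coefA M w k n)) =
        ((kDen M k : ℕ) : ℂ) * coefA M w k n := by
      rw [hdiv]
      push_cast
      field_simp
    rw [e]
    refine S.mul_mem (natCast_mem S _) ?_
    unfold coefA sigma2
    refine S.sum_mem fun x _ => S.mul_mem (S.pow_mem (natCast_mem S _) _)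
      (hatG_mem M S hζ _ ?_ _)
    intro b
    unfold symW
    exact S.add_mem (hw _ _) (S.mul_mem (S.pow_mem (S.neg_mem S.one_mem) _) (hw _ _))

/-! ### The expansions of the translates -/

/-- The `X`-expansion of `P_a ∘ γ`. -/
def pTransSeries (M : ℕ) [NeZero M] (γ : SL(2, ℤ)) (a : ZMod M) : LaurentSeries ℂ :=
  HahnSeries.C (divC 11)⁻¹ * yWSeries M (actW M γ (typeI M a))

theorem infExp_compSL_pFun (M : ℕ) [NeZero M] (γ : SL(2, ℤ)) (a : ZMod M) :
    InfExp M (compSL γ (pFun M a)) (pTransSeries M γ a) := by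
  have h1 := (InfExp.const (N := M) (divC 11)⁻¹).mul (infExp_yW M (actW M γ (typeI M a)))
  refine h1.congr fun τ => ?_
  have h := congrFun (compSL_yW M (typeI M a) γ) τ
  simp only [compSL_apply] at h
  simp only [compSL_apply, pFun, h]

theorem typeI_mem (M : ℕ) (a : ZMod M) (S : Subring ℂ) (x y : ZMod M) : typeI M a x y ∈ S := by
  unfold typeI
  split_ifs
  · exact S.one_mem
  · exact S.zero_mem

theorem actW_mem (M : ℕ) (γ : SL(2, ℤ)) (w : ZMod M → ZMod M → ℂ) (S : Subring ℂ)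
    (hw : ∀ x y, w x y ∈ S) (x y : ZMod M) : actW M γ w x y ∈ S := hw _ _

/-- **Bounded denominators for the translates of `P_a`**: `bdDen · (P_a ∘ γ)` has an expansion
with coefficients in every subring containing the `M`-th roots of unity. -/
theorem pTransSeries_bd (M : ℕ) [NeZero M] (γ : SL(2, ℤ)) (a : ZMod M) (S : Subring ℂ)
    (hζ : ∀ a : ℤ, zetaPow M a ∈ S) :
    HahnSeries.C ((bdDen M 11 : ℕ) : ℂ) * pTransSeries M γ a ∈ coeffSub S := by
  unfold pTransSeries yWSeries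
  rw [← mul_assoc, ← mul_assoc]
  refine (coeffSub S).mul_mem ?_ (qExpand_mem_coeffSub M (deltaInvSeriesC_mem_coeffSub S))
  intro n
  rw [← map_mul, HahnSeries.C_mul_eq_smul, HahnSeries.coeff_smul, smul_eq_mul]
  rcases lt_or_ge n 0 with hn | hn
  · rw [ofPowerSeries_coeff_of_neg ℂ _ hn, mul_zero]
    exact S.zero_mem
  · obtain ⟨m, rfl⟩ := Int.eq_ofNat_of_zero_le hn
    rw [HahnSeries.ofPowerSeries_apply_coeff, coefXSeries, PowerSeries.coeff_mk, mul_assoc]
    exact coefX_bd_mem M (by norm_num) _ S hζ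
      (actW_mem M γ _ S (typeI_mem M a S)) m

/-! ### Lifting series along `ι : E →+* ℂ` -/

section Lift

variable {E : Type*} [Field E] (ι : E →+* ℂ)

/-- A Laurent series over `ℂ` with coefficients in `ι(A)` comes from a Laurent series over `E`
with coefficients in `A`. -/
theorem exists_coeffMap_eq_of_mem_coeffSub (A : Subring E) (Φ : LaurentSeries ℂ)
    (h : Φ ∈ coeffSub (A.map ι)) :
    ∃ φ : LaurentSeries E, (∀ n, φ.coeff n ∈ A) ∧ coeffMap ι φ = Φ := by
  classical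
  have hch : ∀ n : ℤ, ∃ e : E, e ∈ A ∧ ι e = Φ.coeff n := fun n => by
    obtain ⟨e, he, hι⟩ := (Subring.mem_map).mp (h n)
    exact ⟨e, he, hι⟩
  choose e he hι using hch
  let f : ℤ → E := fun n => if Φ.coeff n = 0 then 0 else e n
  have hsupp : Function.support f ⊆ Φ.support := by
    intro n hn
    rw [Function.mem_support] at hn
    rw [HahnSeries.mem_support]
    intro h0
    apply hn
    show (if Φ.coeff n = 0 then 0 else e n) = 0
    rw [if_pos h0]
  refine ⟨⟨f, Φ.isPWO_support.mono hsupp⟩, fun n => ?_, ?_⟩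
  · show (if Φ.coeff n = 0 then 0 else e n) ∈ A
    split_ifs
    · exact A.zero_mem
    · exact he n
  · ext n
    rw [coeffMap_coeff]
    show ι (if Φ.coeff n = 0 then 0 else e n) = Φ.coeff n
    split_ifs with h0
    · rw [map_zero, h0]
    · exact hι n

end Lift

/-! ### The division values in `iactRing` -/

section Conc

open Fermat.Agent.S48.H828 Fermat.Agent.S48.H856 Fermat.Agent.S18.Alg

variable {E : Type*} [Field E] [CharZero E] {ι : E →+* ℂ} {M : ℕ} [NeZero M]
variable (ζ : Eˣ) (hζ : Units.map (ι : E →* ℂ) ζ = Fermat.Agent.S24.infRoot 1 M)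

omit [CharZero E] [NeZero M] in
include hζ in
theorem iota_zeta_zpow (a : ℤ) : ι ((ζ ^ a : Eˣ) : E) = zetaPow M a := by
  have h1 : ι (ζ : E) = Complex.exp (2 * π * Complex.I * (1 : ℤ) / M) := by
    have := congrArg Units.val hζ
    simpa using this
  rw [Units.val_zpow_eq_zpow_val, map_zpow₀, h1, ← Complex.exp_int_mul]
  unfold zetaPow
  congr 1
  push_cast
  ring

include hζ in
/-- the lift to `E` of the expansion of `bdDen · (P_a ∘ γ)`, with coefficients in any subring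
containing the powers of `ζ` -/
theorem exists_bd_lift (A : Subring E) (hA : ∀ a : ℤ, ((ζ ^ a : Eˣ) : E) ∈ A) (γ : SL(2, ℤ))
    (a : ZMod M) :
    ∃ φ : LaurentSeries E, (∀ n, φ.coeff n ∈ A) ∧
      coeffMap ι φ = HahnSeries.C ((bdDen M 11 : ℕ) : ℂ) * pTransSeries M γ a := by
  apply exists_coeffMap_eq_of_mem_coeffSub ι A
  apply pTransSeries_bd M γ a (A.map ι)
  intro b
  rw [← iota_zeta_zpow ζ hζ b]
  exact Subring.mem_map.mpr ⟨_, hA b, rfl⟩

include hζ in
theorem iactRat_compSL_pFun (γ : SL(2, ℤ)) (a : ZMod M) :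
    IActRat ι M (compSL γ (pFun M a)) := by
  obtain ⟨φ, -, hφ⟩ := exists_bd_lift ζ hζ ⊤ (fun _ => Subring.mem_top _) γ a
  have hD : ((bdDen M 11 : ℕ) : ℂ) ≠ 0 := Nat.cast_ne_zero.mpr (bdDen_ne_zero M 11)
  refine ⟨HahnSeries.C (((bdDen M 11 : ℕ) : E))⁻¹ * φ, ?_⟩
  have e : coeffMap ι (HahnSeries.C (((bdDen M 11 : ℕ) : E))⁻¹ * φ) = pTransSeries M γ a := by
    rw [map_mul, hφ, iact_coeffMap_C, ← mul_assoc, ← map_mul, map_inv₀, map_natCast ι,
      inv_mul_cancel₀ hD, map_one, one_mul]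
  rw [e]
  exact infExp_compSL_pFun M γ a

omit [CharZero E] [NeZero M] in
theorem Gamma_le_Gamma1' {γ : SL(2, ℤ)} (hγ : γ ∈ CongruenceSubgroup.Gamma M) :
    γ ∈ Gamma1 M := by
  rw [CongruenceSubgroup.Gamma_mem] at hγ
  rw [Gamma1_mem]
  exact ⟨hγ.1, hγ.2.2.2, hγ.2.2.1⟩

include hζ in
/-- **The avatar of `P_a` lies in `iactRing`.** -/
theorem pFun_mem_iactRing (a : ZMod M) : pFun M a ∈ iactRing ι M := by
  refine ⟨mdiff_pFun M a, fun γ hγ => ?_, fun γ => iactRat_compSL_pFun ζ hζ γ a⟩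
  funext τ
  exact pFun_smul_Gamma1 M a γ (Gamma_le_Gamma1' hγ) τ

/-- **The division value `P_a` as an element of `iactRing ι M`.** -/
def iactP (a : ZMod M) : iactRing ι M := ⟨pFun M a, pFun_mem_iactRing ζ hζ a⟩

@[simp] theorem iactP_coe (a : ZMod M) : ((iactP ζ hζ a : iactRing ι M) : ℍ → ℂ) = pFun M a := rfl

/-- **The `X`-expansion of `P_a`** is `P_a(X^M)`. -/
theorem iactExp_iactP {a : ZMod M} (ha : a ≠ 0) :
    iactExp ι M (iactP ζ hζ a) = qExpand E M (F1.divGenC E M a) := by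
  apply iactExp_eq
  rw [coeffMap_qExpand, F1.coeffMap_divGenC]
  exact infExp_level (infExp_pFun M ha)

/-- **Diamond law** in `iactRing`: `P_a ∘ γ = P_{a γ₀₀}` for `γ ∈ Γ₀(M)`. -/
theorem iactComp_iactP (a : ZMod M) {γ : SL(2, ℤ)} (hγ : γ ∈ Gamma0 M) :
    iactComp ι M γ (iactP ζ hζ a) = iactP ζ hζ (a * ((γ 0 0 : ℤ) : ZMod M)) :=
  Subtype.ext (compSL_pFun M a γ hγ)

/-- **Diamond law**, action form: `γ • P_a = P_{a γ₁₁}` for `γ ∈ Γ₀(M)`. -/
theorem smul_iactP (a : ZMod M) {γ : SL(2, ℤ)} (hγ : γ ∈ Gamma0 M) :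
    γ • iactP ζ hζ a = iactP ζ hζ (a * ((γ 1 1 : ℤ) : ZMod M)) := by
  rw [iact_smul_def, iactComp_iactP ζ hζ a (inv_mem hγ)]
  have e00 : ((γ⁻¹ : SL(2, ℤ)) 0 0 : ℤ) = γ 1 1 := by
    rw [Matrix.SpecialLinearGroup.SL2_inv_expl]; rfl
  rw [e00]

theorem smul_iactP_of_mem_Gamma1 (a : ZMod M) {γ : SL(2, ℤ)} (hγ : γ ∈ Gamma1 M) :
    γ • iactP ζ hζ a = iactP ζ hζ a := by
  rw [smul_iactP ζ hζ a (Gamma1_in_Gamma0 M hγ), ((Gamma1_mem M γ).mp hγ).2.1, mul_one]

theorem iactP_neg (a : ZMod M) : iactP ζ hζ (-a) = iactP ζ hζ a :=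
  Subtype.ext (pFun_neg M a)

/-! ### Bounded denominators -/

variable (𝒪 : ValuationSubring E) {w₀ : E}

include hζ in
theorem zeta_zpow_mem (a : ℤ) : ((ζ ^ a : Eˣ) : E) ∈ 𝒪.toSubring := by
  have h1 : 𝒪.valuation ((ζ⁻¹ : Eˣ) : E) = 1 := iact_valuation_zeta 𝒪 ζ hζ
  have h2 : 𝒪.valuation (ζ : E) = 1 := by
    have : 𝒪.valuation ((ζ : E) * ((ζ⁻¹ : Eˣ) : E)) = 1 := by
      rw [← Units.val_mul, mul_inv_cancel, Units.val_one, map_one]
    rwa [map_mul, h1, mul_one] at this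
  show ((ζ ^ a : Eˣ) : E) ∈ 𝒪
  rw [← 𝒪.valuation_le_one_iff, Units.val_zpow_eq_zpow_val, map_zpow₀, h2, one_zpow]

include hζ in
/-- **Integrality**: `bdDen · (γ • P_a)` has an `𝒪`-integral expansion, for EVERY `γ ∈ SL₂(ℤ)`
and every valuation subring `𝒪` of `E`. -/
theorem isInt_bdDen_smul_iactP (γ : SL(2, ℤ)) (a : ZMod M) :
    IsInt 𝒪 (HahnSeries.C (((bdDen M 11 : ℕ) : E)) * iactExp ι M (γ • iactP ζ hζ a)) := by
  obtain ⟨φ, hφA, hφ⟩ := exists_bd_lift ζ hζ 𝒪.toSubring (zeta_zpow_mem ζ hζ 𝒪) γ⁻¹ a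
  have h1 : InfExp M (compSL γ⁻¹ (pFun M a))
      (coeffMap ι (iactExp ι M (γ • iactP ζ hζ a))) := iactExp_spec (γ • iactP ζ hζ a)
  have h2 := (infExp_compSL_pFun M γ⁻¹ a).unique h1
  have h3 : coeffMap ι φ =
      coeffMap ι (HahnSeries.C (((bdDen M 11 : ℕ) : E)) * iactExp ι M (γ • iactP ζ hζ a)) := by
    rw [hφ, map_mul, iact_coeffMap_C, map_natCast ι, h2]
  rw [← inf_coeffMap_injective ι.injective h3]
  exact hφA

include hζ in
/-- **I-GEN**: every `SL₂(ℤ)`-translate of `P_a` has an expansion with bounded denominators. -/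
theorem isBd_smul_iactP (hd : IsDiscrete 𝒪 w₀) (γ : SL(2, ℤ)) (a : ZMod M) :
    IsBd 𝒪 (iactFieldExp ι M) (iactFC ι M w₀)
      (γ • algebraMap (iactRing ι M) (IActField ι M) (iactP ζ hζ a)) := by
  have hD : (((bdDen M 11 : ℕ) : E)) ≠ 0 := Nat.cast_ne_zero.mpr (bdDen_ne_zero M 11)
  set U := γ • algebraMap (iactRing ι M) (IActField ι M) (iactP ζ hζ a) with hU
  have e : U = iactFC ι M (((bdDen M 11 : ℕ) : E))⁻¹ *
      (iactFC ι M (((bdDen M 11 : ℕ) : E)) * U) := by
    rw [← mul_assoc, ← map_mul, inv_mul_cancel₀ hD, map_one, one_mul]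
  rw [e]
  refine IsBd.mul (isBd_of_ex_eq_C (iact_gaussHyp 𝒪 hd) (iactFieldExp_C _)) (isBd_of_isInt ?_)
  rw [map_mul, iactFieldExp_C, hU, iact_smul_algebraMap, iactFieldExp_algebraMap]
  exact isInt_bdDen_smul_iactP ζ hζ 𝒪 γ a

include hζ in
/-- `P_a` lies in the field `iactBd` of helper856's concrete `IgusaData`. -/
theorem iactP_mem_iactBd (hd : IsDiscrete 𝒪 w₀) (a : ZMod M) :
    algebraMap (iactRing ι M) (IActField ι M) (iactP ζ hζ a) ∈
      iactBd (ι := ι) (M := M) 𝒪 hd :=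
  mem_iactBd_of_isBd 𝒪 hd fun γ => isBd_smul_iactP ζ hζ 𝒪 hd γ a

end Conc

end Fermat.Agent.S48.H76

end
end
-- ===== PACK-END S48/H76/IGen.lean

-- ===== PACK-BEGIN S48/H828/IActMap.lean
section


/-!
# S48 / Tower A1 / IGUSA1, piece I-ACT (helper828), part 6: change of the field of constants

For `σ : E₁ →+* E₂` and `ι₂ : E₂ →+* ℂ` (so `ι₁ = ι₂ ∘ σ`):

* `iactRing_le`   : `iactRing (ι₂ ∘ σ) M ≤ iactRing ι₂ M`;
* `iactFieldMap`  : the induced field hom `IActField (ι₂ ∘ σ) M →+* IActField ι₂ M`, which is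
  `SL(2,ℤ)`-equivariant (`iactFieldMap_smul`) and compatible with expansions (`iactFieldExp_map`);
* `iactG_inv_of_mem_range`, `iactB_inv_of_mem_range` : the fields `G_inv`, `B_inv` of
  `H856.IgusaData` for `Ω = IActField ι₂ M` (e.g. `E₂ = Q̄`), `Ffull ≤` the `E₁`-rational elements
  (the range of `iactFieldMap`), `Ec =` the constants from `E₁`.
-/

set_option autoImplicit false
set_option linter.unusedSectionVars false

noncomputable section

open ModularCurve HahnSeries UpperHalfPlane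
open scoped MatrixGroups Manifold

namespace Fermat.Agent.S48.H828

open Fermat.Agent.S24 Fermat.Agent.S24.H997 Fermat.Agent.S24.H624 Fermat.Agent.S20.L1

variable {E₁ E₂ : Type*} [Field E₁] [Field E₂] [CharZero E₁] [CharZero E₂]
  (σ : E₁ →+* E₂) (ι₂ : E₂ →+* ℂ) (M : ℕ) [NeZero M]

theorem IActRat.map {f : ℍ → ℂ} (h : IActRat (ι₂.comp σ) M f) : IActRat ι₂ M f := by
  obtain ⟨φ, hφ⟩ := h
  exact ⟨coeffMap σ φ, by rw [coeffMap_coeffMap]; exact hφ⟩

theorem iactRing_le : iactRing (ι₂.comp σ) M ≤ iactRing ι₂ M :=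
  fun _ hf => ⟨hf.1, hf.2.1, fun γ => (hf.2.2 γ).map σ ι₂ M⟩

/-- The inclusion `iactRing (ι₂ ∘ σ) M → iactRing ι₂ M`. -/
def iactRingMap : iactRing (ι₂.comp σ) M →+* iactRing ι₂ M :=
  Subring.inclusion (iactRing_le σ ι₂ M)

variable {σ ι₂ M}

@[simp] theorem iactRingMap_coe (f : iactRing (ι₂.comp σ) M) :
    ((iactRingMap σ ι₂ M f : iactRing ι₂ M) : ℍ → ℂ) = (f : ℍ → ℂ) := rfl

theorem iactRingMap_injective : Function.Injective (iactRingMap σ ι₂ M) :=
  Subring.inclusion_injective _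

theorem iactExp_map (f : iactRing (ι₂.comp σ) M) :
    iactExp ι₂ M (iactRingMap σ ι₂ M f) = coeffMap σ (iactExp (ι₂.comp σ) M f) := by
  apply iactExp_eq
  rw [coeffMap_coeffMap]
  exact iactExp_spec f

theorem iactRingMap_smul (γ : SL(2, ℤ)) (f : iactRing (ι₂.comp σ) M) :
    iactRingMap σ ι₂ M (γ • f) = γ • iactRingMap σ ι₂ M f := rfl

theorem iactRingMap_C (c : E₁) :
    iactRingMap σ ι₂ M (iactC (ι₂.comp σ) M c) = iactC ι₂ M (σ c) := rfl

theorem iactRingMap_J : iactRingMap σ ι₂ M (iactJ (ι₂.comp σ) M) = iactJ ι₂ M := rfl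

variable (σ ι₂ M)

/-- The field hom `IActField (ι₂ ∘ σ) M →+* IActField ι₂ M`. -/
def iactFieldMap : IActField (ι₂.comp σ) M →+* IActField ι₂ M :=
  IsFractionRing.lift (K := IActField (ι₂.comp σ) M)
    (g := (algebraMap (iactRing ι₂ M) (IActField ι₂ M)).comp (iactRingMap σ ι₂ M))
    ((IsFractionRing.injective (iactRing ι₂ M) (IActField ι₂ M)).comp iactRingMap_injective)

variable {σ ι₂ M}

@[simp] theorem iactFieldMap_algebraMap (f : iactRing (ι₂.comp σ) M) :
    iactFieldMap σ ι₂ M (algebraMap (iactRing (ι₂.comp σ) M) (IActField (ι₂.comp σ) M) f)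
      = algebraMap (iactRing ι₂ M) (IActField ι₂ M) (iactRingMap σ ι₂ M f) :=
  IsFractionRing.lift_algebraMap _ f

theorem iactFieldMap_injective : Function.Injective (iactFieldMap σ ι₂ M) :=
  (iactFieldMap σ ι₂ M).injective

theorem iactFieldMap_smul (γ : SL(2, ℤ)) (x : IActField (ι₂.comp σ) M) :
    iactFieldMap σ ι₂ M (γ • x) = γ • iactFieldMap σ ι₂ M x := by
  obtain ⟨a, b, hb, rfl⟩ := IsFractionRing.div_surjective (A := iactRing (ι₂.comp σ) M) x
  rw [smul_div₀', iact_smul_algebraMap, iact_smul_algebraMap, map_div₀, map_div₀,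
    iactFieldMap_algebraMap, iactFieldMap_algebraMap, iactFieldMap_algebraMap,
    iactFieldMap_algebraMap, smul_div₀', iact_smul_algebraMap, iact_smul_algebraMap,
    iactRingMap_smul, iactRingMap_smul]

theorem iactFieldExp_map (x : IActField (ι₂.comp σ) M) :
    iactFieldExp ι₂ M (iactFieldMap σ ι₂ M x) = coeffMap σ (iactFieldExp (ι₂.comp σ) M x) := by
  obtain ⟨a, b, hb, rfl⟩ := IsFractionRing.div_surjective (A := iactRing (ι₂.comp σ) M) x
  rw [map_div₀, map_div₀, map_div₀, map_div₀, iactFieldMap_algebraMap, iactFieldMap_algebraMap,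
    iactFieldExp_algebraMap, iactFieldExp_algebraMap, iactFieldExp_algebraMap,
    iactFieldExp_algebraMap, iactExp_map, iactExp_map]

theorem iactFieldMap_C (c : E₁) :
    iactFieldMap σ ι₂ M (iactFC (ι₂.comp σ) M c) = iactFC ι₂ M (σ c) := by
  rw [iactFC, RingHom.comp_apply, iactFieldMap_algebraMap, iactRingMap_C]
  rfl

theorem iactFieldMap_J : iactFieldMap σ ι₂ M (iactFJ (ι₂.comp σ) M) = iactFJ ι₂ M := by
  rw [iactFJ, iactFieldMap_algebraMap, iactRingMap_J]
  rfl

theorem iactFieldMap_eval₂ (P : Polynomial E₁) :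
    iactFieldMap σ ι₂ M (Polynomial.eval₂ (iactFC (ι₂.comp σ) M) (iactFJ (ι₂.comp σ) M) P)
      = Polynomial.eval₂ ((iactFC ι₂ M).comp σ) (iactFJ ι₂ M) P := by
  rw [Polynomial.hom_eval₂, iactFieldMap_J]
  congr 1
  exact RingHom.ext fun c => iactFieldMap_C c

/-- A root of unity `ζ₁ ∈ E₁` gives one in `E₂`. -/
theorem iact_units_map_comp (ζ : E₁ˣ)
    (hζ : Units.map ((ι₂.comp σ : E₁ →+* ℂ) : E₁ →* ℂ) ζ = infRoot 1 M) :
    Units.map (ι₂ : E₂ →* ℂ) (Units.map (σ : E₁ →* E₂) ζ) = infRoot 1 M := by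
  rw [← hζ]
  exact Units.ext rfl

theorem iactFieldMap_Jd (ζ : E₁ˣ)
    (hζ : Units.map ((ι₂.comp σ : E₁ →+* ℂ) : E₁ →* ℂ) ζ = infRoot 1 M) (d : ℕ) (hd : d ∣ M) :
    iactFieldMap σ ι₂ M (iactFJd ζ hζ d hd)
      = iactFJd (Units.map (σ : E₁ →* E₂) ζ) (iact_units_map_comp ζ hζ) d hd := by
  rw [iactFJd, iactFieldMap_algebraMap]
  rfl

/-! ### the fields `G_inv`, `B_inv` for the `E₁`-rational elements of `IActField ι₂ M` -/

theorem iact_eval₂_comp_mem_closure (S : Set (IActField ι₂ M)) (hJ : iactFJ ι₂ M ∈ S)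
    (P : Polynomial E₁) :
    Polynomial.eval₂ ((iactFC ι₂ M).comp σ) (iactFJ ι₂ M) P
      ∈ Subfield.closure (Set.range ((iactFC ι₂ M).comp σ) ∪ S) := by
  have hJ' : iactFJ ι₂ M ∈ Subfield.closure (Set.range ((iactFC ι₂ M).comp σ) ∪ S) :=
    Subfield.subset_closure (Or.inr hJ)
  have hC : ∀ c : E₁, ((iactFC ι₂ M).comp σ) c
      ∈ Subfield.closure (Set.range ((iactFC ι₂ M).comp σ) ∪ S) :=
    fun c => Subfield.subset_closure (Or.inl ⟨c, rfl⟩)
  rw [Polynomial.eval₂_eq_sum_range]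
  exact sum_mem fun i _ => mul_mem (hC _) (pow_mem hJ' i)

/-- **`G_inv`.** A `G`-invariant `E₁`-rational element of `IActField ι₂ M` lies in `E₁(j)`. -/
theorem iactG_inv_of_mem_range (x : IActField ι₂ M) (hx : x ∈ (iactFieldMap σ ι₂ M).range)
    (hfix : ∀ g ∈ iactG ι₂ M, g x = x) :
    x ∈ Subfield.closure (Set.range ((iactFC ι₂ M).comp σ) ∪ {iactFJ ι₂ M}) := by
  obtain ⟨y, rfl⟩ := hx
  have hy : ∀ g ∈ iactG (ι₂.comp σ) M, g y = y := by
    rintro g ⟨γ, rfl⟩
    apply iactFieldMap_injective (σ := σ) (ι₂ := ι₂)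
    rw [iactRho_apply, iactFieldMap_smul]
    exact hfix _ ⟨γ, rfl⟩
  obtain ⟨P, Q, -, rfl⟩ := iactG_inv y hy
  rw [map_div₀, iactFieldMap_eval₂, iactFieldMap_eval₂]
  exact div_mem
    (iact_eval₂_comp_mem_closure ({iactFJ ι₂ M} : Set (IActField ι₂ M)) (Set.mem_singleton _) P)
    (iact_eval₂_comp_mem_closure ({iactFJ ι₂ M} : Set (IActField ι₂ M)) (Set.mem_singleton _) Q)

/-- **`B_inv`.** A `Γ₀(M)`-invariant `E₁`-rational element of `IActField ι₂ M` lies in
`E₁(j(dτ) : d ∣ M)`. -/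
theorem iactB_inv_of_mem_range (ζ : E₁ˣ)
    (hζ : Units.map ((ι₂.comp σ : E₁ →+* ℂ) : E₁ →* ℂ) ζ = infRoot 1 M)
    (x : IActField ι₂ M) (hx : x ∈ (iactFieldMap σ ι₂ M).range)
    (hfix : ∀ b ∈ iactB ι₂ M, b x = x) :
    x ∈ Subfield.closure (Set.range ((iactFC ι₂ M).comp σ) ∪
      {y | ∃ (d : ℕ) (hd : d ∣ M),
        y = iactFJd (Units.map (σ : E₁ →* E₂) ζ) (iact_units_map_comp ζ hζ) d hd}) := by
  obtain ⟨y, rfl⟩ := hx
  have hy : ∀ b ∈ iactB (ι₂.comp σ) M, b y = y := by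
    rintro g ⟨γ, hγ, rfl⟩
    apply iactFieldMap_injective (σ := σ) (ι₂ := ι₂)
    rw [iactRho_apply, iactFieldMap_smul]
    exact hfix _ ⟨γ, hγ, rfl⟩
  have h := iactB_inv ζ hζ y hy
  have hle : iactF0 ζ hζ ≤ (Subfield.closure (Set.range ((iactFC ι₂ M).comp σ) ∪
      {y | ∃ (d : ℕ) (hd : d ∣ M),
        y = iactFJd (Units.map (σ : E₁ →* E₂) ζ) (iact_units_map_comp ζ hζ) d hd})).comap
      (iactFieldMap σ ι₂ M) := by
    unfold iactF0
    rw [Subfield.closure_le]
    rintro z (⟨c, rfl⟩ | ⟨d, hd, rfl⟩)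
    · rw [SetLike.mem_coe, Subfield.mem_comap, iactFieldMap_C]
      exact Subfield.subset_closure (Or.inl ⟨c, rfl⟩)
    · rw [SetLike.mem_coe, Subfield.mem_comap, iactFieldMap_Jd]
      exact Subfield.subset_closure (Or.inr ⟨d, hd, rfl⟩)
  exact hle h

end Fermat.Agent.S48.H828

end
end
-- ===== PACK-END S48/H828/IActMap.lean

-- ===== PACK-BEGIN S48/H828/IActPhi.lean
section



/-!
# S48 / Tower A1 / IGUSA1 (helper828), part 7: the comparison map `q ↦ X^M`

* `iact_exists_zeta` : `Q̄` contains `ζ` with `ιK ζ = exp(2πi/M)`;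
* `iactPhi M : S18.Mod.Om M →+* IActField ιK M` : the field hom from the function field of
  `X₀(M)` over `Q̄` (Prelude `modularFunctionFieldBar M ⊆ Q̄((q))`) to the full-level field, with
  `iactFieldExp (iactPhi f) = f(X^M)` (`iactFieldExp_phi`);
* `iactPhi_algebraMap`, `iactPhi_jd` : it maps constants to constants and `j(q^d)` to `j(dτ)`.
-/

set_option autoImplicit false
set_option linter.unusedSectionVars false

noncomputable section

open ModularCurve HahnSeries UpperHalfPlane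
open scoped MatrixGroups Manifold

namespace Fermat.Agent.S48.H828

open Fermat.Agent.S24 Fermat.Agent.S24.H997 Fermat.Agent.S24.H624 Fermat.Agent.S20.L1
open Fermat.Agent.S18 Fermat.Agent.S18.Mod

variable (M : ℕ) [NeZero M]

/-- `Q̄` contains a root of unity mapping to `exp(2πi/M)`. -/
theorem iact_exists_zeta : ∃ ζ : Qbˣ, Units.map (ιK : Qb →* ℂ) ζ = infRoot 1 M := by
  have hM0 : M ≠ 0 := NeZero.ne M
  obtain ⟨ξ, hξ⟩ := HasEnoughRootsOfUnity.exists_primitiveRoot Qb M
  have hξ' : IsPrimitiveRoot (ιK ξ) M := hξ.map_of_injective ιK_injective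
  have hz : Complex.exp (2 * Real.pi * Complex.I / M) ^ M = 1 :=
    (Complex.isPrimitiveRoot_exp M hM0).pow_eq_one
  obtain ⟨i, -, hi⟩ := hξ'.eq_pow_of_pow_eq_one hz
  have hξ0 : ξ ≠ 0 := hξ.ne_zero hM0
  refine ⟨Units.mk0 (ξ ^ i) (pow_ne_zero i hξ0), ?_⟩
  apply Units.ext
  rw [infRoot_coe]
  show ιK (ξ ^ i) = _
  rw [map_pow, hi]
  congr 1
  push_cast
  ring

/-- A chosen `ζ ∈ Q̄` with `ιK ζ = exp(2πi/M)`. -/
def iactZeta : Qbˣ := Classical.choose (iact_exists_zeta M)

theorem iactZeta_spec : Units.map (ιK : Qb →* ℂ) (iactZeta M) = infRoot 1 M :=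
  Classical.choose_spec (iact_exists_zeta M)

/-- `j(dτ)` in `IActField ιK M`. -/
def iactJdQb (d : ℕ) (hd : d ∣ M) : IActField ιK M :=
  iactFJd (iactZeta M) (iactZeta_spec M) d hd

/-- The `X`-expansions of the elements of the full-level field, as a subfield of `Q̄((X))`. -/
def iactRange : Subfield (LaurentSeries Qb) := (iactFieldExp ιK M).fieldRange

theorem iact_qExpand_mem_range (f : LaurentSeries Qb) (hf : f ∈ modularFunctionFieldBar M) :
    qExpand Qb M f ∈ iactRange M := by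
  have hle : (modularFunctionFieldBar M).toSubfield ≤ (iactRange M).comap (qExpand Qb M) := by
    show Subfield.closure _ ≤ _
    rw [Subfield.closure_le]
    rintro x (⟨c, rfl⟩ | ⟨y, hy, rfl⟩)
    · rw [SetLike.mem_coe, Subfield.mem_comap, algebraMap_laurentSeries_eq_single]
      refine ⟨iactFC ιK M c, ?_⟩
      rw [iactFieldExp_C]
      show HahnSeries.C c = qExpand Qb M (HahnSeries.single 0 c)
      rw [qExpand_single, mul_zero]
      rfl
    · rw [SetLike.mem_coe, Subfield.mem_comap]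
      have hle2 : (modularFunctionFieldFull M).toSubfield ≤
          (iactRange M).comap ((qExpand Qb M).comp (coeffEmb Qb)) := by
        show Subfield.closure _ ≤ _
        rw [Subfield.closure_le]
        rintro z (⟨c, rfl⟩ | ⟨d, hdne, hd, rfl⟩)
        · rw [SetLike.mem_coe, Subfield.mem_comap, RingHom.comp_apply,
            algebraMap_laurentSeries_eq_single, coeffEmb, coeffMap_single, qExpand_single,
            mul_zero]
          exact ⟨iactFC ιK M (algebraMap ℚ Qb c), by rw [iactFieldExp_C]; rfl⟩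
        · rw [SetLike.mem_coe, Subfield.mem_comap, RingHom.comp_apply]
          refine ⟨iactJdQb M d hd, ?_⟩
          rw [iactJdQb, iactFieldExp_Jd, coeffEmb, coeffMap_qExpand]
      exact hle2 hy
  exact hle hf

/-- The ring hom `f ↦ f(X^M)` from the function field of `X₀(M)` into the range of the
expansion map. -/
def iactPhiAux : Om M →+* (iactFieldExp ιK M).range :=
  ((qExpand Qb M).comp (modularFunctionFieldBar M).toSubring.subtype).codRestrict _
    (fun f => by
      obtain ⟨y, hy⟩ := iact_qExpand_mem_range M f.1 f.2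
      exact ⟨y, hy⟩)

/-- **The comparison map** `q ↦ X^M`. -/
def iactPhi : Om M →+* IActField ιK M :=
  ((RingEquiv.ofBijective (iactFieldExp ιK M).rangeRestrict
      ⟨(iactFieldExp ιK M).rangeRestrict.injective,
        (iactFieldExp ιK M).rangeRestrict_surjective⟩).symm :
      (iactFieldExp ιK M).range →+* IActField ιK M).comp (iactPhiAux M)

variable {M}

theorem iactFieldExp_phi (f : Om M) :
    iactFieldExp ιK M (iactPhi M f) = qExpand Qb M (f : LaurentSeries Qb) := by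
  have h := (RingEquiv.ofBijective (iactFieldExp ιK M).rangeRestrict
      ⟨(iactFieldExp ιK M).rangeRestrict.injective,
        (iactFieldExp ιK M).rangeRestrict_surjective⟩).apply_symm_apply (iactPhiAux M f)
  have h2 := congrArg (fun z : (iactFieldExp ιK M).range => (z : LaurentSeries Qb)) h
  exact h2

theorem iactPhi_eq_iff (f : Om M) (y : IActField ιK M) :
    iactPhi M f = y ↔ iactFieldExp ιK M y = qExpand Qb M (f : LaurentSeries Qb) := by
  constructor
  · rintro rfl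
    exact iactFieldExp_phi f
  · intro h
    apply iactFieldExp_injective
    rw [iactFieldExp_phi, h]

theorem iactPhi_algebraMap (c : Qb) : iactPhi M (algebraMap Qb (Om M) c) = iactFC ιK M c := by
  rw [iactPhi_eq_iff, iactFieldExp_C]
  show HahnSeries.C c = qExpand Qb M (algebraMap Qb (LaurentSeries Qb) c)
  rw [algebraMap_laurentSeries_eq_single, qExpand_single, mul_zero]
  rfl

theorem iactPhi_jd (d : ℕ) [NeZero d] (hd : d ∣ M) :
    iactPhi M (jd M d hd) = iactJdQb M d hd := by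
  rw [iactPhi_eq_iff, iactJdQb, iactFieldExp_Jd]
  show _ = qExpand Qb M (coeffEmb Qb (qExpand ℚ d jq))
  rw [coeffEmb, coeffMap_qExpand]

theorem iactPhi_jOm : iactPhi M (jOm M) = iactFJ ιK M := by
  rw [jOm, iactPhi_jd, iactJdQb, iactFJd_one]

theorem iactPhi_injective : Function.Injective (iactPhi M) := (iactPhi M).injective

end Fermat.Agent.S48.H828

end
end
-- ===== PACK-END S48/H828/IActPhi.lean

-- ===== PACK-BEGIN S48/Red1/Branch.lean
section





/-!
# S48 / RES (Tower A1), sub-tower A1-RED, node R4: the branch leaf for `F1 M` (helper588)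

`branchF1 : BranchF1` — the branch data of the `j`-line for `Ω = Q̄·F1(M)`: unramified outside
`0, 1728, ∞`, `e ≤ 3` over `0`, `e ≤ 2` over `1728`.  Pure adapter: helper648's
`ordLe_*_of_embedding` / `unramified_j_laurentBaseChange` along `baseChangeEmb` into the
full-level field `H828.IActField`, the avatars of the generators of `F1 M` being helper76's
`iactP` (I-GEN).
-/

set_option autoImplicit false

noncomputable section

namespace Fermat.Agent.S48.Red1

open ModularCurve AlgebraicCurve HahnSeries Fermat.Agent.S18 Fermat.Agent.S18.Alg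
open Fermat.Agent.S18.Mod Fermat.Agent.S48.H248 Fermat.Agent.S18.H107 Fermat.Agent.S48.F1
open Fermat.Agent.S48.H828 Fermat.Agent.S48.H648 Fermat.Agent.S24 Fermat.Agent.S24.H997

/-- The coordinate `j` of `OmG F₀` is the series `j`. -/
theorem coe_iotaG_jOm (M : ℕ) [NeZero M] (F₀ : IntermediateField ℚ (LaurentSeries ℚ))
    (hle : modularFunctionFieldFull M ≤ F₀) :
    ((iotaG M F₀ hle (jOm M) : OmG F₀) : LaurentSeries Qb) = coeffEmb Qb jq := by
  rw [coe_iotaG]
  show coeffEmb Qb (qExpand ℚ 1 jq) = coeffEmb Qb jq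
  rw [qExpand_one_apply]

/-- **The branch leaf for `F1 M`.** -/
theorem branchF1 : BranchF1 := by
  intro M _
  have hζ := iactZeta_spec M
  have hP : HasDivAvatars ιK M := fun a ha =>
    ⟨Fermat.Agent.S48.H76.iactP (iactZeta M) hζ a,
      Fermat.Agent.S48.H76.iactExp_iactP (iactZeta M) hζ ha⟩
  have hF₀ : ∀ x ∈ F1 M, coeffEmb Qb x ∈ avatarField ιK M :=
    fun _ hx => F1_le_avatarIF (iactZeta M) hζ hP hx
  have hj := coe_iotaG_jOm M (F1 M) (full_le_F1 M)
  haveI : CharZero (OmG (F1 M)) :=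
    charZero_of_injective_algebraMap (algebraMap Qb (OmG (F1 M))).injective
  refine ⟨?_, ?_, ?_⟩
  · intro O hO a ha ha0 ha1 h1 h2
    rw [OrdLe107.one_iff]
    intro s hs hs'
    exact unramified_j_laurentBaseChange (ι := ιK) (M := M) (F1 M) hF₀ _ hj O hO a ha ha0 ha1
      h1 h2 s hs hs'
  · intro O hO h1 h2
    exact ordLe_zero_of_embedding ιK M (baseChangeEmb ιK M (F1 M) hF₀) (LcG (F1 M)) _
      (baseChange_hconst (F1 M) hF₀) (baseChange_hj (F1 M) hF₀ _ hj) O hO h1 h2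
  · intro O hO h1 h2
    exact ordLe_1728_of_embedding ιK M (baseChangeEmb ιK M (F1 M) hF₀) (LcG (F1 M)) _
      (baseChange_hconst (F1 M) hF₀) (baseChange_hj (F1 M) hF₀ _ hj) O hO h1 h2

end Fermat.Agent.S48.Red1

end
end
-- ===== PACK-END S48/Red1/Branch.lean

-- ===== PACK-BEGIN S48/Red1/Fin.lean
section




/-!
# S48 / RES (Tower A1), sub-tower A1-RED, node R4: the leaves `finite` and `separable` (helper588)

* `finite_FcT_of_gens` : GENERIC — if `F₀ = ℚ(T)`, `T` finite, every `t ∈ T` a root of a nonzero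
  polynomial over `ℚ[j]`, then `E·F₀` is finite over `E(j)` (field `finite` of `TopLeaves`);
* `separable_VcT`      : GENERIC — the field `separable` of `TopLeaves` from the field `finite`
  (helper128's `separable_VRing`);
* `QepTop`, `QepF1`    : the remaining leaves (`qep_fin`, `qep_inf` at `j`);
* `leavesF1_of_qep`    : `QepF1 → LeavesF1`;
* `mod1Hyp_of_qep`     : `QepF1 → H908.Core1.Mod1Hyp`.
-/

set_option autoImplicit false

noncomputable section

namespace Fermat.Agent.S48.Red1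

open ModularCurve AlgebraicCurve HahnSeries Fermat.Agent.S18 Fermat.Agent.S18.Alg
open Fermat.Agent.S18.Mod Fermat.Agent.S48.H248 Fermat.Agent.S18.H107 Fermat.Agent.S48.F1
open Fermat.Agent.S24 Fermat.Agent.S24.Deg457

section Generic

variable {F₀ : IntermediateField ℚ (LaurentSeries ℚ)}

/-- The coordinate lies in `E(j)`. -/
theorem self_mem_ratField_red1 (E : Subfield Qb) (j : OmG F₀) :
    j ∈ ratField (EcG E (cstG F₀)) j :=
  Subfield.subset_closure (Or.inr rfl)

theorem EcG_le_ratField_red1 (E : Subfield Qb) (j : OmG F₀) :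
    EcG E (cstG F₀) ≤ ratField (EcG E (cstG F₀)) j :=
  fun _ h => Subfield.subset_closure (Or.inl h)

/-- Ring homs out of `ℚ` agree. -/
theorem ringHom_rat_eq_red1 {R : Type*} [Semiring R] (f g : ℚ →+* R) : f = g :=
  Subsingleton.elim f g

/-- A relation over `ℚ[j]` makes the image in `Ω'` integral over `E(j)`. -/
theorem isIntegral_embG_of_algRel (E : Subfield Qb) (j : OmG F₀)
    (hj : (j : LaurentSeries Qb) = coeffEmb Qb jq) (g : F₀)
    (hg : Fermat.Agent.S48.H150.AlgRel ℚ jq (g : LaurentSeries ℚ)) :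
    IsIntegral (ratField (EcG E (cstG F₀)) j) (embG F₀ g) := by
  obtain ⟨Q, hQ0, hQ⟩ := hg
  have hexinj : Function.Injective (exG F₀) := (exG F₀).injective
  set K := ratField (EcG E (cstG F₀)) j with hKdef
  let j' : K := ⟨j, self_mem_ratField_red1 E j⟩
  -- `φ : ℚ[X] → K`, `X ↦ j`
  let φ : Polynomial ℚ →+* K := Polynomial.eval₂RingHom (algebraMap ℚ K) j'
  have hψ : ((exG F₀).comp K.subtype).comp φ = (coeffEmb Qb).comp (evJ jq) := by
    apply Polynomial.ringHom_ext
    · intro a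
      have h1 : ((exG F₀).comp K.subtype).comp (φ.comp Polynomial.C)
          = ((coeffEmb Qb).comp (evJ jq)).comp Polynomial.C := ringHom_rat_eq_red1 _ _
      exact congrArg (fun f : ℚ →+* LaurentSeries Qb => f a) h1
    · show exG F₀ (K.subtype (Polynomial.eval₂ (algebraMap ℚ K) j' Polynomial.X)) =
        coeffEmb Qb (Polynomial.aeval jq Polynomial.X)
      rw [Polynomial.eval₂_X, Polynomial.aeval_X]
      exact hj
  have hφinj : Function.Injective φ := by
    rw [injective_iff_map_eq_zero]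
    intro t ht
    by_contra h0
    have h1 := congrArg (fun f : Polynomial ℚ →+* LaurentSeries Qb => f t) hψ
    simp only [RingHom.comp_apply] at h1
    rw [ht, map_zero, map_zero] at h1
    have h3 : Polynomial.aeval (JK Qb) (t.map (algebraMap ℚ Qb)) = 0 := by
      have h4 : coeffEmb Qb (Polynomial.aeval jq t) =
          Polynomial.aeval (JK Qb) (t.map (algebraMap ℚ Qb)) := by
        rw [Polynomial.aeval_def, Polynomial.aeval_def, Polynomial.hom_eval₂,
          Polynomial.eval₂_map, JK]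
        congr 1
        exact ringHom_rat_eq_red1 _ _
      rw [← h4]
      exact h1.symm
    exact aeval_JK_ne_zero Qb
      ((Polynomial.map_ne_zero_iff (algebraMap ℚ Qb).injective).mpr h0) h3
  have hP0 : Q.map φ ≠ 0 := (Polynomial.map_ne_zero_iff hφinj).mpr hQ0
  have hroot : Polynomial.aeval (embG F₀ g) (Q.map φ) = 0 := by
    apply hexinj
    rw [map_zero, Polynomial.aeval_def, Polynomial.eval₂_map, Polynomial.hom_eval₂]
    have : (exG F₀).comp ((algebraMap K (OmG F₀)).comp φ)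
        = ((exG F₀).comp K.subtype).comp φ := rfl
    rw [this, hψ]
    show Polynomial.eval₂ ((coeffEmb Qb).comp (evJ jq)) (coeffEmb Qb (g : LaurentSeries ℚ)) Q = 0
    rw [← Polynomial.hom_eval₂, hQ, map_zero]
  exact IsAlgebraic.isIntegral ⟨Q.map φ, hP0, hroot⟩

set_option synthInstance.maxHeartbeats 400000 in
set_option maxHeartbeats 1000000 in
/-- **The field `finite`**: `E·F₀` is finite over `E(j)` as soon as `F₀` is generated by
finitely many series algebraic over `ℚ(j)`. -/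
theorem finite_FcT_of_gens (T : Set (LaurentSeries ℚ)) (hT : T.Finite)
    (hF₀ : F₀ = IntermediateField.adjoin ℚ T) (E : Subfield Qb) (j : OmG F₀)
    (hjF : j ∈ FcT F₀ E) (hj : (j : LaurentSeries Qb) = coeffEmb Qb jq)
    (halg : ∀ t ∈ T, Fermat.Agent.S48.H150.AlgRel ℚ jq t) :
    ∃ s : Finset (OmG F₀), (s : Set (OmG F₀)) ⊆ FcT F₀ E ∧
      ∀ f ∈ FcT F₀ E, f ∈ Submodule.span (ratField (EcG E (cstG F₀)) j) (s : Set (OmG F₀)) := by
  classical
  subst hF₀
  set K := ratField (EcG E (cstG (IntermediateField.adjoin ℚ T))) j with hKdef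
  set T' : Set (OmG (IntermediateField.adjoin ℚ T)) := {y | ∃ g : (IntermediateField.adjoin ℚ T), (g : LaurentSeries ℚ) ∈ T ∧ y = embG (IntermediateField.adjoin ℚ T) g} with hT'
  have hT'fin : T'.Finite := by
    refine (hT.image (fun t => if h : t ∈ (IntermediateField.adjoin ℚ T) then embG (IntermediateField.adjoin ℚ T) ⟨t, h⟩ else 0)).subset ?_
    rintro y ⟨g, hg, rfl⟩
    exact ⟨(g : LaurentSeries ℚ), hg, by simp⟩
  set L := IntermediateField.adjoin K T' with hLdef
  have hint : ∀ y ∈ T', IsIntegral K y := by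
    rintro y ⟨g, hg, rfl⟩
    exact isIntegral_embG_of_algRel E j hj g (halg _ hg)
  have : Finite T' := hT'fin.to_subtype
  have hfd : FiniteDimensional K L := IntermediateField.finiteDimensional_adjoin hint
  have hKF : K ≤ FcT (IntermediateField.adjoin ℚ T) E := by
    refine Subfield.closure_le.mpr ?_
    rintro y (hy | hy)
    · exact EcG_le_FcT E hy
    · rw [Set.mem_singleton_iff] at hy
      rw [hy]; exact hjF
  -- `embG g ∈ L` by induction on `g ∈ ℚ(T)`
  have key : ∀ x (hx : x ∈ IntermediateField.adjoin ℚ T), embG (IntermediateField.adjoin ℚ T) ⟨x, hx⟩ ∈ L := by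
    intro x hx
    induction hx using IntermediateField.adjoin_induction with
    | mem x hx =>
      exact IntermediateField.subset_adjoin _ _ ⟨⟨x, IntermediateField.subset_adjoin ℚ T hx⟩,
        hx, rfl⟩
    | algebraMap c =>
      have h1 : embG (IntermediateField.adjoin ℚ T) ⟨algebraMap ℚ (LaurentSeries ℚ) c,
          (IntermediateField.adjoin ℚ T).algebraMap_mem c⟩ = ((c : ℚ) : OmG (IntermediateField.adjoin ℚ T)) := by
        have h2 : (⟨algebraMap ℚ (LaurentSeries ℚ) c,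
            (IntermediateField.adjoin ℚ T).algebraMap_mem c⟩ : (IntermediateField.adjoin ℚ T)) = ((c : ℚ) : (IntermediateField.adjoin ℚ T)) := by
          apply Subtype.ext
          show algebraMap ℚ (LaurentSeries ℚ) c = ((c : ℚ) : LaurentSeries ℚ)
          exact eq_ratCast _ c
        rw [h2, map_ratCast]
      rw [h1]
      exact SubfieldClass.ratCast_mem L c
    | add x y hx hy hx' hy' =>
      have : embG (IntermediateField.adjoin ℚ T) ⟨x + y, add_mem hx hy⟩ = embG (IntermediateField.adjoin ℚ T) ⟨x, hx⟩ + embG (IntermediateField.adjoin ℚ T) ⟨y, hy⟩ := by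
        rw [← map_add]; rfl
      rw [this]
      exact add_mem hx' hy'
    | inv x hx hx' =>
      have : embG (IntermediateField.adjoin ℚ T) ⟨x⁻¹, inv_mem hx⟩ = (embG (IntermediateField.adjoin ℚ T) ⟨x, hx⟩)⁻¹ := by
        rw [← map_inv₀]; rfl
      rw [this]
      exact inv_mem hx'
    | mul x y hx hy hx' hy' =>
      have : embG (IntermediateField.adjoin ℚ T) ⟨x * y, mul_mem hx hy⟩ = embG (IntermediateField.adjoin ℚ T) ⟨x, hx⟩ * embG (IntermediateField.adjoin ℚ T) ⟨y, hy⟩ := by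
        rw [← map_mul]; rfl
      rw [this]
      exact mul_mem hx' hy'
  -- `FcT = L`
  have hFL : ∀ f, f ∈ FcT (IntermediateField.adjoin ℚ T) E ↔ f ∈ L := by
    intro f
    constructor
    · intro hf
      have hle : FcT (IntermediateField.adjoin ℚ T) E ≤ L.toSubfield := by
        refine Subfield.closure_le.mpr ?_
        rintro y (hy | ⟨g, rfl⟩)
        · exact IntermediateField.algebraMap_mem L (⟨y, EcG_le_ratField_red1 E j hy⟩ : K)
        · exact key g.1 g.2
      exact hle hf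
    · intro hf
      have h : L ≤ Subfield.toIntermediateField (FcT (IntermediateField.adjoin ℚ T) E) (fun x => hKF x.2) := by
        rw [IntermediateField.adjoin_le_iff]
        rintro z ⟨g, -, rfl⟩
        exact embG_mem_FcT E g
      exact h hf
  obtain ⟨s, hs⟩ := (Module.finite_def (R := K) (M := L)).mp hfd
  refine ⟨s.image (fun y : L => (y : OmG (IntermediateField.adjoin ℚ T))), ?_, ?_⟩
  · intro y hy
    rw [Finset.coe_image] at hy
    obtain ⟨z, -, rfl⟩ := hy
    exact (hFL _).mpr z.2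
  · intro f hf
    have hfL : f ∈ L := (hFL f).mp hf
    have h1 : (⟨f, hfL⟩ : L) ∈ Submodule.span K (s : Set L) := by
      rw [hs]; exact Submodule.mem_top
    have h2 := Submodule.mem_map_of_mem (f := (L.val.toLinearMap : L →ₗ[K] OmG (IntermediateField.adjoin ℚ T))) h1
    rw [Submodule.map_span] at h2
    rw [Finset.coe_image]
    exact h2

/-- The integral expansion of the coordinate `j`. -/
theorem isInt_j_red1 (A : ValuationSubring Qb) (E : Subfield Qb) (j : OmG F₀)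
    (hjF : j ∈ FcT F₀ E) (hj : (j : LaurentSeries Qb) = coeffEmb Qb jq) :
    _root_.Fermat.Agent.S48.H248.IsInt A E (exG F₀) (FcT F₀ E) (jqModC A) ∧ exG F₀ j = ivInc A (jqModC A) := by
  have hx : exG F₀ j = ivInc A (jqModC A) := by
    rw [exG_apply, hj]
    show JK Qb = coeffMap A.subtype (jqModC A)
    rw [JK_eq, coeffMap_jqModC]
  refine ⟨⟨fun n => ?_, j, hjF, hx⟩, hx⟩
  have h := coeff_mem_of_mem_FcT hjF n
  have h2 : (j : LaurentSeries Qb) = ivInc A (jqModC A) := hx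
  rw [h2, ivInc_coeff] at h
  exact h

/-- **The field `separable`** of `TopLeaves`, from the field `finite`. -/
theorem separable_VcT {ℓ : ℕ} [Fact ℓ.Prime] {A : ValuationSubring Qb}
    (hA : A.LiesOverPrime ℓ) {E : Subfield Qb} {w₀ : Qb} (hunif : IsUnifG A E w₀)
    (j : OmG F₀) (hjF : j ∈ FcT F₀ E) (hj : (j : LaurentSeries Qb) = coeffEmb Qb jq)
    (hfin : ∃ s : Finset (OmG F₀), (s : Set (OmG F₀)) ⊆ FcT F₀ E ∧
      ∀ f ∈ FcT F₀ E, f ∈ Submodule.span (ratField (EcG E (cstG F₀)) j) (s : Set (OmG F₀))) :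
    ∀ f ∈ VcT F₀ A E, ∃ P : Polynomial (OmG F₀),
      (∀ i, P.coeff i ∈ polyRing (RcG A E (cstG F₀)) j) ∧
      P.eval f * (cstG F₀ w₀)⁻¹ ∈ VcT F₀ A E ∧ (Polynomial.derivative P).eval f ≠ 0 ∧
      ((Polynomial.derivative P).eval f)⁻¹ ∈ VcT F₀ A E := by
  have hchar : CharP (IsLocalRing.ResidueField A) ℓ := Fermat.Agent.S18.H516.charP_residue A hA
  have halgQ : Algebra.IsAlgebraic ℚ Qb := AlgebraicClosure.isAlgebraic ℚ
  obtain ⟨-, -, hw, hw0, -, -, hgen⟩ := igusa_R_fields (cstG F₀) hunif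
  obtain ⟨hX₀, hx⟩ := isInt_j_red1 A E j hjF hj
  have hn : ¬ ((ℓ : ℤ) ∣ (ivRed A (jqModC A)).order) := by
    have h1 : ivRed A (jqModC A) = jqModC (IsLocalRing.ResidueField A) :=
      coeffMap_jqModC (IsLocalRing.residue A)
    rw [h1, Fermat.Agent.S18.H264.order_jqModC]
    exact Fermat.Agent.S18.H264.not_prime_dvd_neg_one ℓ Fact.out
  exact (Fermat.Agent.S48.H128.partSep_VRing_of_finite (cstG F₀) (exG_cstG F₀)
    (fun c hc => cstG_mem_FcT hc) ℓ hw hw0 hgen hX₀ hx hn hfin).separable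

end Generic

/-! ### The leaves for `F1 M` -/

theorem iotaG_jOm_mem_FcT (M : ℕ) [NeZero M] (F₀ : IntermediateField ℚ (LaurentSeries ℚ))
    (hle : modularFunctionFieldFull M ≤ F₀) (E : Subfield Qb) :
    iotaG M F₀ hle (jOm M) ∈ FcT F₀ E := by
  have h : iotaG M F₀ hle (jOm M) = embG F₀ ⟨qExpand ℚ 1 jq, hle (jqd_mem_full M (one_dvd M))⟩ :=
    iotaG_jd hle 1 (one_dvd M)
  rw [h]
  exact embG_mem_FcT E _

/-- **Leaf `finite` for `F1 M`** (all `M`, all `E`). -/
theorem finite_F1 (M : ℕ) [NeZero M] (E : Subfield Qb) :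
    ∃ s : Finset (OmG (F1 M)), (s : Set (OmG (F1 M))) ⊆ FcT (F1 M) E ∧
      ∀ f ∈ FcT (F1 M) E, f ∈ Submodule.span
        (ratField (EcG E (cstG (F1 M))) (iotaG M (F1 M) (full_le_F1 M) (jOm M)))
        (s : Set (OmG (F1 M))) :=
  finite_FcT_of_gens (Fermat.Agent.S48.H150.gensF1 M) (Fermat.Agent.S48.H150.finite_gensF1 M)
    (Fermat.Agent.S48.H150.F1_eq_adjoin M) E _ (iotaG_jOm_mem_FcT M _ _ E)
    (coe_iotaG_jOm M _ _)
    (fun _ ht => Fermat.Agent.S48.H150.algRel_gensF1 (Fermat.Agent.S48.H150.divRel M) ht)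

/-- The two `q`-expansion-principle leaves at the coordinate `j` (fields `qep_fin`, `qep_inf` of
`TopLeaves`, VERBATIM). -/
structure QepTop (F₀ : IntermediateField ℚ (LaurentSeries ℚ)) (A : ValuationSubring Qb)
    (E : Subfield Qb) (w₀ : Qb) (j : OmG F₀) : Prop where
  qep_fin : ∀ b ∈ chart (FcT F₀ E) (RcG A E (cstG F₀)) j, b * (cstG F₀ w₀)⁻¹ ∈ VcT F₀ A E →
    b * (cstG F₀ w₀)⁻¹ ∈ chart (FcT F₀ E) (RcG A E (cstG F₀)) j
  qep_inf : ∀ b ∈ chart (FcT F₀ E) (RcG A E (cstG F₀)) j⁻¹, b * (cstG F₀ w₀)⁻¹ ∈ VcT F₀ A E →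
    b * (cstG F₀ w₀)⁻¹ ∈ chart (FcT F₀ E) (RcG A E (cstG F₀)) j⁻¹

/-- **The remaining leaf of R4**: the `q`-expansion principle for `E·F1(M)` at `j`, for all
number fields `E` containing a finite set `T₀` of constants (e.g. `ζ_M`), `p ∤ M`. -/
def QepF1 : Prop :=
  ∀ (M p : ℕ) [NeZero M], p.Prime → ¬ p ∣ M → ∀ A : ValuationSubring Qb, A.LiesOverPrime p →
    ∃ T₀ : Finset Qb, ∀ (E : IntermediateField ℚ Qb) (w₀ : Qb), FiniteDimensional ℚ E →
      (∀ a ∈ T₀, a ∈ E) → IsUnifG A E.toSubfield w₀ →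
      QepTop (F1 M) A E.toSubfield w₀ (iotaG M (F1 M) (full_le_F1 M) (jOm M))

/-- `QepF1 → LeavesF1`: the fields `finite` and `separable` are proved. -/
theorem leavesF1_of_qep (h : QepF1) : LeavesF1 := by
  intro M p _ hp hpM A hA
  obtain ⟨T₀, hT₀⟩ := h M p hp hpM A hA
  refine ⟨T₀, fun E w₀ hE hTE hunif => ?_⟩
  have hq := hT₀ E w₀ hE hTE hunif
  have : Fact p.Prime := ⟨hp⟩
  have hfin := finite_F1 M E.toSubfield
  exact
    { finite := hfin
      separable := separable_VcT hA hunif _ (iotaG_jOm_mem_FcT M _ _ _) (coe_iotaG_jOm M _ _) hfin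
      qep_fin := hq.qep_fin
      qep_inf := hq.qep_inf }

/-- **R4 for `F1 M` from the `q`-expansion principle.** -/
theorem mod1Hyp_of_qep (h : QepF1) : Fermat.Agent.S48.H908.Core1.Mod1Hyp :=
  mod1Hyp_of_leaves (leavesF1_of_qep h) branchF1


end Fermat.Agent.S48.Red1

end
end
-- ===== PACK-END S48/Red1/Fin.lean

-- ===== PACK-BEGIN S48/H668/F1Avatar.lean
section





/-!
# S48 / Tower A1 — BRIDGE `F1 → IACT` (helper668): the function field of `X₁(M)` inside the
full-level field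

`E` a field of characteristic `0` with `ι : E →+* ℂ` and `ζ ∈ Eˣ`, `ι ζ = e^{2πi/M}`.

* `iactRat_of_mem_coeffSub`  : an expansion with coefficients in `ι(E)` is `E`-rational;
* `yW_smul_mem_iactRing`     : for every periodic weight `w` with values in `ι(E)` the normalised
                               Eisenstein quotient `C₁₂⁻¹ · G_w / Δ` lies in `H828.iactRing ι M`
                               (holomorphic, `Γ(M)`-invariant, `E`-rational at EVERY cusp);
* `pAv ζ hζ a : iactRing ι M` : the avatar `H76.pFun M a` of the division value `P_a`;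
  `iactExp_pAv`              : its `X`-expansion is `P_a(X^M)`;
  `smul_pAv`                 : `γ • pAv a = pAv (a · γ₁₁)` for `γ ∈ Γ₀(M)`;
* `coeffEmb_mem_avatarField_F1` : every element of `F1 M` has an avatar, hence (helper648's
                               `H648.baseChangeEmb`) the embedding
  `f1Emb ζ hζ : E · F1 M →+* IActField ι M`, `iactFieldExp (f1Emb f) = f(X^M)`;
* `smul_f1Emb`               : **diamonds = action of `Γ₀(M)`**: for `γ ∈ Γ₀(M)` and the diamond
                               automorphism `σ` of `d = γ₁₁`, `γ • f1Emb f = f1Emb (σ f)`.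
-/

set_option autoImplicit false
set_option linter.unusedSectionVars false

noncomputable section

open ModularCurve HahnSeries UpperHalfPlane CongruenceSubgroup
open scoped MatrixGroups Manifold

namespace Fermat.Agent.S48.H668

open Fermat.Agent.S24 Fermat.Agent.S24.H997 Fermat.Agent.S24.H624
open Fermat.Agent.S28 Fermat.Agent.S28.H748
open Fermat.Agent.S48.H76 Fermat.Agent.S48.H828 Fermat.Agent.S48.H648 Fermat.Agent.S48.F1

variable {E : Type*} [Field E] [CharZero E] (ι : E →+* ℂ) (M : ℕ) [NeZero M]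

/-! ### Rational expansions -/

/-- A complex Laurent series with coefficients in `ι(E)` is the image of a series over `E`. -/
theorem exists_coeffMap_eq {Φ : LaurentSeries ℂ} (h : Φ ∈ coeffSub ι.range) :
    ∃ φ : LaurentSeries E, coeffMap ι φ = Φ := by
  classical
  have hc : ∀ n : ℤ, ∃ e : E, ι e = Φ.coeff n ∧ (Φ.coeff n = 0 → e = 0) := by
    intro n
    by_cases h0 : Φ.coeff n = 0
    · exact ⟨0, by rw [map_zero, h0], fun _ => rfl⟩
    · obtain ⟨e, he⟩ := h n
      exact ⟨e, he, fun h1 => absurd h1 h0⟩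
  choose c hc1 hc2 using hc
  have hsupp : Function.support c ⊆ Φ.support := by
    intro n hn
    rw [Function.mem_support] at hn
    rw [HahnSeries.mem_support]
    exact fun h0 => hn (hc2 n h0)
  refine ⟨⟨c, Φ.isPWO_support.mono hsupp⟩, ?_⟩
  ext n
  rw [coeffMap_coeff]
  exact hc1 n

variable {ι M}

theorem iactRat_of_mem_coeffSub {f : ℍ → ℂ} {Φ : LaurentSeries ℂ} (h : InfExp M f Φ)
    (hΦ : Φ ∈ coeffSub ι.range) : IActRat ι M f := by
  obtain ⟨φ, hφ⟩ := exists_coeffMap_eq ι hΦ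
  exact ⟨φ, by rw [hφ]; exact h⟩

/-! ### The root of unity -/

theorem zetaPow_mem_range (ζ : Eˣ) (hζ : Units.map (ι : E →* ℂ) ζ = infRoot 1 M) (a : ℤ) :
    zetaPow M a ∈ ι.range := by
  refine ⟨((ζ ^ a : Eˣ) : E), ?_⟩
  have h1 : ι ((ζ ^ a : Eˣ) : E) = ((Units.map (ι : E →* ℂ) ζ ^ a : ℂˣ) : ℂ) := by
    rw [← map_zpow]
    rfl
  rw [h1, hζ, infRoot_zpow_coe]
  unfold zetaPow
  rw [← Complex.exp_int_mul]
  congr 1
  push_cast
  ring

theorem natCast_inv_mem_range (n : ℕ) : ((n : ℂ))⁻¹ ∈ ι.range :=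
  ⟨((n : E))⁻¹, by rw [map_inv₀, map_natCast]⟩

theorem ratCast_mem_range (q : ℚ) : ((q : ℚ) : ℂ) ∈ ι.range :=
  ⟨(q : E), map_ratCast ι q⟩

/-! ### Eisenstein quotients in `iactRing` -/

/-- The normalised expansion `C₁₂⁻¹ · yWSeries` has coefficients in `ι(E)`. -/
theorem yWSeries_mem_coeffSub (ζ : Eˣ) (hζ : Units.map (ι : E →* ℂ) ζ = infRoot 1 M)
    (w : ZMod M → ZMod M → ℂ) (hw : ∀ x y, w x y ∈ ι.range) :
    HahnSeries.C (divC 11)⁻¹ * yWSeries M w ∈ coeffSub ι.range := by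
  have hM : (M : ℂ) ≠ 0 := Nat.cast_ne_zero.mpr (NeZero.ne M)
  unfold yWSeries
  rw [← mul_assoc]
  refine (coeffSub _).mul_mem ?_ (qExpand_mem_coeffSub M (deltaInvSeriesC_mem_coeffSub _))
  intro n
  rw [HahnSeries.C_mul_eq_smul, HahnSeries.coeff_smul, smul_eq_mul]
  by_cases hn : 0 ≤ n
  · obtain ⟨m, rfl⟩ := Int.eq_ofNat_of_zero_le hn
    rw [HahnSeries.ofPowerSeries_apply_coeff]
    have h1 := coefX_mem M (k := 11) (by norm_num) w ι.range (zetaPow_mem_range ζ hζ)
      (natCast_inv_mem_range M) (fun c => ratCast_mem_range _) hw m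
    have e : (divC 11)⁻¹ * PowerSeries.coeff m (coefXSeries M w 11) =
        ((M : ℂ)⁻¹) ^ 11 * ((normC M 11)⁻¹ * coefX M w 11 m) := by
      have h2 : divC 11 = normC M 11 * (M : ℂ) ^ 11 := by
        rw [← lipConst_mul_pow M 11]
        unfold normC
        ring
      have h3 := normC_ne_zero M 11
      rw [h2, coefXSeries, PowerSeries.coeff_mk]
      field_simp
    rw [e]
    exact ι.range.mul_mem (ι.range.pow_mem (natCast_inv_mem_range M) _) h1
  · rw [ModularCurve.ofPowerSeries_coeff_of_neg _ (by omega), mul_zero]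
    exact ι.range.zero_mem

theorem infExp_smul_yW (w : ZMod M → ZMod M → ℂ) :
    InfExp M (fun τ => (divC 11)⁻¹ * yW M w τ) (HahnSeries.C (divC 11)⁻¹ * yWSeries M w) :=
  (InfExp.const (divC 11)⁻¹).mul (infExp_yW M w)

theorem actW_mem_range {w : ZMod M → ZMod M → ℂ} (hw : ∀ x y, w x y ∈ ι.range) (γ : SL(2, ℤ))
    (x y : ZMod M) : actW M γ w x y ∈ ι.range :=
  hw _ _

theorem compSL_smul_yW (w : ZMod M → ZMod M → ℂ) (γ : SL(2, ℤ)) :
    compSL γ (fun τ => (divC 11)⁻¹ * yW M w τ) = fun τ => (divC 11)⁻¹ * yW M (actW M γ w) τ := by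
  funext τ
  have h := congrFun (compSL_yW M w γ) τ
  simp only [compSL_apply] at h ⊢
  rw [h]

theorem actW_of_mem_Gamma (w : ZMod M → ZMod M → ℂ) {γ : SL(2, ℤ)} (hγ : γ ∈ Gamma M) :
    actW M γ w = w := by
  have hγ' : γ⁻¹ ∈ Gamma M := inv_mem hγ
  rw [Gamma_mem] at hγ'
  obtain ⟨h00, h01, h10, h11⟩ := hγ'
  funext x y
  unfold actW
  rw [h00, h01, h10, h11]
  simp

/-- **Every normalised Eisenstein quotient `C₁₂⁻¹ G_w/Δ` with `E`-rational weight lies in
`iactRing ι M`.** -/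
theorem yW_smul_mem_iactRing (ζ : Eˣ) (hζ : Units.map (ι : E →* ℂ) ζ = infRoot 1 M)
    (w : ZMod M → ZMod M → ℂ) (hw : ∀ x y, w x y ∈ ι.range) :
    (fun τ => (divC 11)⁻¹ * yW M w τ) ∈ iactRing ι M := by
  refine ⟨mdifferentiable_const.mul (mdiff_yW M w), fun γ hγ => ?_, fun γ => ?_⟩
  · rw [compSL_smul_yW, actW_of_mem_Gamma w hγ]
  · rw [compSL_smul_yW]
    exact iactRat_of_mem_coeffSub (infExp_smul_yW _)
      (yWSeries_mem_coeffSub ζ hζ _ (actW_mem_range hw γ))

/-! ### The avatars of the division values -/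

theorem typeI_mem_range (a x y : ZMod M) : typeI M a x y ∈ ι.range := by
  unfold typeI
  split_ifs
  · exact ι.range.one_mem
  · exact ι.range.zero_mem

theorem pFun_mem_iactRing (ζ : Eˣ) (hζ : Units.map (ι : E →* ℂ) ζ = infRoot 1 M) (a : ZMod M) :
    pFun M a ∈ iactRing ι M :=
  yW_smul_mem_iactRing ζ hζ (typeI M a) (typeI_mem_range a)

/-- The avatar of `P_a` as an element of `iactRing ι M`. -/
def pAv (ζ : Eˣ) (hζ : Units.map (ι : E →* ℂ) ζ = infRoot 1 M) (a : ZMod M) : iactRing ι M :=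
  ⟨pFun M a, _root_.Fermat.Agent.S48.H668.pFun_mem_iactRing ζ hζ a⟩

variable (ζ : Eˣ) (hζ : Units.map (ι : E →* ℂ) ζ = infRoot 1 M)

@[simp]
theorem coe_pAv (a : ZMod M) : ((pAv ζ hζ a : iactRing ι M) : ℍ → ℂ) = pFun M a := rfl

/-- The `X`-expansion of the avatar is `P_a(X^M)`. -/
theorem iactExp_pAv {a : ZMod M} (ha : a ≠ 0) :
    iactExp ι M (pAv ζ hζ a) = qExpand E M (divGenC E M a) := by
  apply iactExp_eq
  rw [coeffMap_qExpand, coeffMap_divGenC]
  exact infExp_level (infExp_pFun M ha)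

/-- `γ • pAv a = pAv (a · γ₁₁)` for `γ ∈ Γ₀(M)`. -/
theorem smul_pAv {γ : SL(2, ℤ)} (hγ : γ ∈ Gamma0 M) (a : ZMod M) :
    γ • pAv ζ hζ a = pAv ζ hζ (a * ((γ 1 1 : ℤ) : ZMod M)) := by
  apply Subtype.ext
  funext τ
  rw [iact_smul_apply]
  have h := congrFun (compSL_pFun M a γ⁻¹ (inv_mem hγ)) τ
  rw [compSL_apply] at h
  show pFun M a (γ⁻¹ • τ) = pFun M (a * ((γ 1 1 : ℤ) : ZMod M)) τ
  rw [h]
  congr 3
  rw [Matrix.SpecialLinearGroup.coe_inv, Matrix.adjugate_fin_two]
  rfl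

/-! ### `F1 M` inside the avatar field -/

include ζ hζ in
theorem divGen_mem_avatarField {a : ZMod M} (ha : a ≠ 0) :
    coeffEmb E (divGen M a) ∈ avatarField ι M := by
  have e : coeffEmb E (divGen M a) = divGenC E M a := coeffMap_divGenC (algebraMap ℚ E) M a
  rw [e]
  exact mem_avatarField_of_ring (pAv ζ hζ a) (iactExp_pAv ζ hζ ha)

include ζ hζ in
theorem jqd_mem_avatarField {d : ℕ} [NeZero d] (hd : d ∣ M) :
    coeffEmb E (qExpand ℚ d jq) ∈ avatarField ι M := by
  rw [← qExpand_coeffEmb]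
  exact ⟨iactFJd ζ hζ d hd, iactFieldExp_Jd ζ hζ d hd⟩

include ζ hζ in
/-- **Every element of `F1 M` has an avatar in the full-level field.** -/
theorem coeffEmb_mem_avatarField_F1 :
    ∀ x ∈ F1 M, coeffEmb E x ∈ avatarField ι M := by
  refine coeffEmb_mem_avatarField_of_adjoin (divisorExpansions M ∪ divGens M) ?_
  rintro s (⟨d, hd0, hd, rfl⟩ | ⟨a, ha, rfl⟩)
  · exact jqd_mem_avatarField ζ hζ hd
  · exact divGen_mem_avatarField ζ hζ ha

/-- **The bridge** `E · F1 M →+* IActField ι M`, `f(q) ↦ f(X^M)`. -/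
def f1Emb : F1L E M →+* IActField ι M :=
  baseChangeEmb ι M (F1 M) (coeffEmb_mem_avatarField_F1 ζ hζ)

@[simp]
theorem iactFieldExp_f1Emb (f : F1L E M) :
    iactFieldExp ι M (f1Emb ζ hζ f) = qExpand E M (f : LaurentSeries E) :=
  iactFieldExp_baseChangeEmb _ _ f

theorem f1Emb_eq_iff (f : F1L E M) (y : IActField ι M) :
    f1Emb ζ hζ f = y ↔ iactFieldExp ι M y = qExpand E M (f : LaurentSeries E) :=
  baseChangeEmb_eq_iff _ _ f y

theorem f1Emb_injective : Function.Injective (f1Emb ζ hζ) :=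
  (f1Emb ζ hζ).injective

theorem f1Emb_algebraMap (c : E) : f1Emb ζ hζ (algebraMap E (F1L E M) c) = iactFC ι M c :=
  baseChangeEmb_algebraMap _ _ c

theorem f1Emb_divGen {a : ZMod M} (ha : a ≠ 0) (x : F1L E M)
    (hx : (x : LaurentSeries E) = coeffEmb E (divGen M a)) :
    f1Emb ζ hζ x = algebraMap (iactRing ι M) (IActField ι M) (pAv ζ hζ a) := by
  rw [f1Emb_eq_iff, iactFieldExp_algebraMap, iactExp_pAv ζ hζ ha, hx]
  congr 1
  exact (coeffMap_divGenC (algebraMap ℚ E) M a).symm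

theorem f1Emb_jqd {d : ℕ} [NeZero d] (hd : d ∣ M) (x : F1L E M)
    (hx : (x : LaurentSeries E) = coeffEmb E (qExpand ℚ d jq)) :
    f1Emb ζ hζ x = iactFJd ζ hζ d hd := by
  rw [f1Emb_eq_iff, iactFieldExp_Jd, hx, qExpand_coeffEmb]

/-! ### Diamonds = the action of `Γ₀(M)` -/

omit [CharZero E] [NeZero M] in
/-- Ring homomorphisms out of `E · F1 M` are determined on the constants and on the generators
`j(q^d)`, `P_a`. -/
theorem f1L_ringHom_ext [Algebra ℚ E] {R : Type*} [DivisionRing R] (f g : F1L E M →+* R)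
    (hL : ∀ a : E, f (algebraMap E _ a) = g (algebraMap E _ a))
    (hJ : ∀ (d : ℕ) [NeZero d] (hd : d ∣ M),
      f ⟨coeffEmb E (qExpand ℚ d jq), coeffEmb_mem_laurentBaseChange E (jqd_mem_F1 M hd)⟩ =
      g ⟨coeffEmb E (qExpand ℚ d jq), coeffEmb_mem_laurentBaseChange E (jqd_mem_F1 M hd)⟩)
    (hP : ∀ (a : ZMod M) (ha : a ≠ 0),
      f ⟨coeffEmb E (divGen M a), coeffEmb_mem_laurentBaseChange E (divGen_mem_F1 M ha)⟩ =
      g ⟨coeffEmb E (divGen M a), coeffEmb_mem_laurentBaseChange E (divGen_mem_F1 M ha)⟩) :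
    f = g :=
  lbc_ringHom_ext (L := E) (S := divisorExpansions M ∪ divGens M) f g hL (by
    rintro z (⟨d, hd0, hd, rfl⟩ | ⟨a, ha, rfl⟩)
    · exact hJ d hd
    · exact hP a ha)

/-- **Diamond operators are the action of `Γ₀(M)`**: if `γ ∈ Γ₀(M)` has lower right entry `≡ d`
and `σ` is the diamond automorphism of `d` (`P_a ↦ P_{da}`), then `γ • f1Emb f = f1Emb (σ f)`. -/
theorem smul_f1Emb {γ : SL(2, ℤ)} (hγ : γ ∈ Gamma0 M) (d : (ZMod M)ˣ)
    (hd : (d : ZMod M) = ((γ 1 1 : ℤ) : ZMod M)) (σ : F1L E M ≃ₐ[E] F1L E M)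
    (hσ : IsDiamond E M d σ) (f : F1L E M) :
    γ • f1Emb ζ hζ f = f1Emb ζ hζ (σ f) := by
  have key := f1L_ringHom_ext
    (((MulSemiringAction.toRingHom SL(2, ℤ) (IActField ι M) γ)).comp (f1Emb ζ hζ))
    ((f1Emb ζ hζ).comp (σ : F1L E M →+* F1L E M)) ?_ ?_ ?_
  · exact congrArg (fun φ => φ f) key
  · intro a
    simp only [RingHom.comp_apply, MulSemiringAction.toRingHom_apply, RingHom.coe_coe,
      AlgEquiv.commutes]
    rw [f1Emb_algebraMap]
    exact iactG_fix_C _ ⟨γ, rfl⟩ a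
  · intro d' _ hd'
    simp only [RingHom.comp_apply, MulSemiringAction.toRingHom_apply, RingHom.coe_coe]
    have hmem : coeffEmb E (qExpand ℚ d' jq) ∈
        laurentBaseChange E (modularFunctionFieldFull M) :=
      coeffEmb_mem_laurentBaseChange E
        (IntermediateField.subset_adjoin ℚ _ (mem_divisorExpansions M hd'))
    rw [hσ.1 _ hmem, f1Emb_jqd ζ hζ hd' _ rfl, iactFJd, iact_smul_algebraMap,
      iact_smul_Jd_of_mem_Gamma0 ζ hζ hγ]
  · intro a ha
    simp only [RingHom.comp_apply, MulSemiringAction.toRingHom_apply, RingHom.coe_coe]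
    have hda : (d : ZMod M) * a ≠ 0 := fun h0 => ha (by
      have := congrArg (fun t => ((d⁻¹ : (ZMod M)ˣ) : ZMod M) * t) h0
      simpa using this)
    have hσa := hσ.2 a
      ⟨coeffEmb E (divGen M a), coeffEmb_mem_laurentBaseChange E (divGen_mem_F1 M ha)⟩
      ⟨coeffEmb E (divGen M ((d : ZMod M) * a)),
        coeffEmb_mem_laurentBaseChange E (divGen_mem_F1 M hda)⟩ ha rfl rfl
    rw [f1Emb_divGen ζ hζ ha _ rfl, hσa, f1Emb_divGen ζ hζ hda _ rfl, iact_smul_algebraMap,
      smul_pAv ζ hζ hγ, ← hd, mul_comm]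

end Fermat.Agent.S48.H668

end
end
-- ===== PACK-END S48/H668/F1Avatar.lean

-- ===== PACK-BEGIN S48/H668/F1Bd.lean
section



/-!
# S48 / Tower A1 / A1-RED leaf R4b2 (helper668): the image of `E · F1 M` in the full-level
field has bounded denominators at every cusp

`E` a field of characteristic `0` with `ι : E →+* ℂ`, `ζ ∈ Eˣ`, `ι ζ = e^{2πi/M}`, `𝒪` a discrete
valuation subring of `E` with uniformiser `w₀`.

* `isInt_smul_iactJd`       : every `SL₂(ℤ)`-translate of `j(dτ)`, `d ∣ M`, has an `𝒪`-INTEGRAL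
                              `X`-expansion (`= jq(ζ^k X^n)`);
* `iactFJd_mem_iactBd`, `iactF0_le_iactBd` : `E(j(dτ) : d ∣ M) ≤ H856.iactBd`;
* `lbc_mem_induction`       : generic induction principle for `laurentBaseChange L (adjoin ℚ S)`;
* `f1Emb_mem_iactBd`        : **`f1Emb (E · F1 M) ≤ H856.iactBd`**;
* `f1Emb_diamond_mem_gaussRing` : **the diamond automorphisms of `E · F1 M` preserve the Gauss
                              valuation ring** (given the `q`-expansion principle `qep0` of the base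
                              `X₀(M)`, hypothesis of `H856.iact_stable`).
-/

set_option autoImplicit false
set_option linter.unusedSectionVars false

noncomputable section

open ModularCurve HahnSeries UpperHalfPlane CongruenceSubgroup
open scoped MatrixGroups Manifold

namespace Fermat.Agent.S48.H668

open Fermat.Agent.S24 Fermat.Agent.S24.H997 Fermat.Agent.S24.H624 Fermat.Agent.S20.L1
open Fermat.Agent.S28 Fermat.Agent.S28.H748
open Fermat.Agent.S48.H76 Fermat.Agent.S48.H828 Fermat.Agent.S48.H648 Fermat.Agent.S48.F1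
open Fermat.Agent.S48.H856 Fermat.Agent.S18.Alg

/-! ### A generic induction principle -/

/-- A ring homomorphism from `L · ℚ(S)` to a field maps into a subfield `K` as soon as it maps the
constants and the generators into `K`. -/
theorem lbc_mem_induction {L : Type*} [Field L] [Algebra ℚ L] {S : Set (LaurentSeries ℚ)}
    {R : Type*} [Field R]
    (φ : laurentBaseChange L (IntermediateField.adjoin ℚ S) →+* R) (K : Subfield R)
    (hL : ∀ a : L, φ (algebraMap L _ a) ∈ K)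
    (hS : ∀ (z : LaurentSeries ℚ) (hz : z ∈ S),
      φ ⟨coeffEmb L z, coeffEmb_mem_laurentBaseChange L (IntermediateField.subset_adjoin ℚ S hz)⟩
        ∈ K)
    (f : laurentBaseChange L (IntermediateField.adjoin ℚ S)) : φ f ∈ K := by
  have key : ∀ (z : LaurentSeries ℚ) (hz : z ∈ IntermediateField.adjoin ℚ S),
      φ ⟨coeffEmb L z, coeffEmb_mem_laurentBaseChange L hz⟩ ∈ K := by
    intro z hz
    induction hz using IntermediateField.adjoin_induction with
    | mem x hx => exact hS x hx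
    | algebraMap q =>
        have h1 : (⟨coeffEmb L (algebraMap ℚ (LaurentSeries ℚ) q),
            coeffEmb_mem_laurentBaseChange L
              ((IntermediateField.adjoin ℚ S).algebraMap_mem q)⟩ :
              laurentBaseChange L (IntermediateField.adjoin ℚ S))
            = algebraMap L _ (algebraMap ℚ L q) :=
          Subtype.ext (coeffEmb_algebraMap q)
        rw [h1]
        exact hL _
    | add x y hx hy ihx ihy =>
        have h1 : (⟨coeffEmb L (x + y), coeffEmb_mem_laurentBaseChange L (add_mem hx hy)⟩ :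
            laurentBaseChange L (IntermediateField.adjoin ℚ S))
            = ⟨coeffEmb L x, coeffEmb_mem_laurentBaseChange L hx⟩
              + ⟨coeffEmb L y, coeffEmb_mem_laurentBaseChange L hy⟩ :=
          Subtype.ext (map_add (coeffEmb L) x y)
        rw [h1, map_add]
        exact K.add_mem ihx ihy
    | inv x hx ihx =>
        have h1 : (⟨coeffEmb L x⁻¹, coeffEmb_mem_laurentBaseChange L (inv_mem hx)⟩ :
            laurentBaseChange L (IntermediateField.adjoin ℚ S))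
            = (⟨coeffEmb L x, coeffEmb_mem_laurentBaseChange L hx⟩ :
                laurentBaseChange L (IntermediateField.adjoin ℚ S))⁻¹ :=
          Subtype.ext (map_inv₀ (coeffEmb L) x)
        rw [h1, map_inv₀]
        exact K.inv_mem ihx
    | mul x y hx hy ihx ihy =>
        have h1 : (⟨coeffEmb L (x * y), coeffEmb_mem_laurentBaseChange L (mul_mem hx hy)⟩ :
            laurentBaseChange L (IntermediateField.adjoin ℚ S))
            = ⟨coeffEmb L x, coeffEmb_mem_laurentBaseChange L hx⟩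
              * ⟨coeffEmb L y, coeffEmb_mem_laurentBaseChange L hy⟩ :=
          Subtype.ext (map_mul (coeffEmb L) x y)
        rw [h1, map_mul]
        exact K.mul_mem ihx ihy
  have key2 : ∀ (x : LaurentSeries L)
      (hx : x ∈ laurentBaseChange L (IntermediateField.adjoin ℚ S)), φ ⟨x, hx⟩ ∈ K := by
    intro x hx
    induction hx using IntermediateField.adjoin_induction with
    | mem x hx =>
        obtain ⟨z, hz, rfl⟩ := hx
        exact key z hz
    | algebraMap a => exact hL a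
    | add x y hx hy ihx ihy =>
        have h1 : (⟨x + y, add_mem hx hy⟩ : laurentBaseChange L (IntermediateField.adjoin ℚ S))
            = ⟨x, hx⟩ + ⟨y, hy⟩ := rfl
        rw [h1, map_add]
        exact K.add_mem ihx ihy
    | inv x hx ihx =>
        have h1 : (⟨x⁻¹, inv_mem hx⟩ : laurentBaseChange L (IntermediateField.adjoin ℚ S))
            = (⟨x, hx⟩ : laurentBaseChange L (IntermediateField.adjoin ℚ S))⁻¹ := rfl
        rw [h1, map_inv₀]
        exact K.inv_mem ihx
    | mul x y hx hy ihx ihy =>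
        have h1 : (⟨x * y, mul_mem hx hy⟩ : laurentBaseChange L (IntermediateField.adjoin ℚ S))
            = ⟨x, hx⟩ * ⟨y, hy⟩ := rfl
        rw [h1, map_mul]
        exact K.mul_mem ihx ihy
  exact key2 f.1 f.2

variable {E : Type*} [Field E] [CharZero E] {ι : E →+* ℂ} {M : ℕ} [NeZero M]
variable (ζ : Eˣ) (hζ : Units.map (ι : E →* ℂ) ζ = infRoot 1 M)

/-! ### The translates of `j(dτ)` -/

include hζ in
/-- The expansion of a translate of `j(dτ)` is `jq(ζ^k X^n)`. -/
theorem exists_infExp_compSL_Jd {d : ℕ} (hd : d ∣ M) (γ : SL(2, ℤ)) :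
    ∃ (n : ℕ) (_ : NeZero n) (k : ℤ),
      InfExp M (compSL γ (Jd d))
        (coeffMap ι (qExpand E n (infTwist (ζ ^ k) (coeffEmb E jq)))) := by
  have hM : 0 < M := Nat.pos_of_ne_zero (NeZero.ne M)
  have hd0 : 0 < d := Nat.pos_of_dvd_of_pos hd hM
  obtain ⟨γ', a, d', b, ha, hd', had, h00, h01, h10, h11⟩ := inf_exists_hnf d hd0 γ
  have hd'M : d' ∣ M := (Dvd.intro_left a had).trans hd
  obtain ⟨c, hc⟩ := hd'M
  have hc0 : 0 < c := by
    rcases Nat.eq_zero_or_pos c with h | h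
    · rw [h, mul_zero] at hc; omega
    · exact h
  have hne : NeZero (a * c) := ⟨(Nat.mul_pos ha hc0).ne'⟩
  have h := inf_J_infAff_exp infExp_jFun (e := a * c) (N := M) b ha hd' hM (by rw [hc]; ring)
  refine ⟨a * c, hne, b * c, ?_⟩
  have hroot : Units.map (ι : E →* ℂ) (ζ ^ (b * c)) = infRoot b d' := by
    rw [map_zpow, hζ, iact_infRoot_one_zpow, iact_infRoot_mul b hd' hc0 hc]
  have hser : coeffMap ι (qExpand E (a * c) (infTwist (ζ ^ (b * c)) (coeffEmb E jq)))
      = infGenExp (a * c) b d' := by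
    rw [coeffMap_qExpand, iact_coeffMap_infTwist, iact_coeffMap_coeffEmb, hroot]
    rfl
  rw [hser]
  refine h.congr fun τ => ?_
  show jFun (infAff a b d' τ) = jFun (infAff d 0 1 (γ • τ))
  rw [inf_aff_smul_eq hd0 ha hd' γ γ' h00 h01 h10 h11 τ, jFun_smul']

variable (𝒪 : ValuationSubring E) {w₀ : E}

include hζ in
theorem isInt_twist_jq (n : ℕ) [NeZero n] (k : ℤ) :
    IsInt 𝒪 (qExpand E n (infTwist (ζ ^ k) (coeffEmb E jq))) := by
  intro m
  by_cases hm : (n : ℤ) ∣ m
  · obtain ⟨r, rfl⟩ := hm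
    rw [qExpand_coeff_mul, infTwist_coeff, coeffEmb_coeff]
    refine 𝒪.mul_mem _ _ ?_ ?_
    · obtain ⟨z, hz⟩ := coeff_jq_eq_intCast r
      rw [hz]
      have : algebraMap ℚ E ((z : ℤ) : ℚ) = (z : E) := by simp
      rw [this]
      exact intCast_mem 𝒪 z
    · rw [← zpow_mul]
      exact zeta_zpow_mem ζ hζ 𝒪 _
  · rw [qExpand_coeff_of_not_dvd _ _ hm]
    exact 𝒪.zero_mem

include hζ in
/-- **Every translate of `j(dτ)` has an integral expansion.** -/
theorem isInt_smul_iactJd (γ : SL(2, ℤ)) {d : ℕ} (hd : d ∣ M) :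
    IsInt 𝒪 (iactExp ι M (γ • iactJd ζ hζ d hd)) := by
  obtain ⟨n, hn, k, h⟩ := exists_infExp_compSL_Jd (ι := ι) ζ hζ hd γ⁻¹
  have h1 : InfExp M (compSL γ⁻¹ (Jd d))
      (coeffMap ι (iactExp ι M (γ • iactJd ζ hζ d hd))) := iactExp_spec (γ • iactJd ζ hζ d hd)
  have h2 := inf_coeffMap_injective ι.injective (h.unique h1)
  rw [← h2]
  exact isInt_twist_jq ζ hζ 𝒪 n k

include hζ in
theorem isBd_smul_iactFJd (_hd : IsDiscrete 𝒪 w₀) (γ : SL(2, ℤ)) {d : ℕ} (hdM : d ∣ M) :
    IsBd 𝒪 (iactFieldExp ι M) (iactFC ι M w₀) (γ • iactFJd ζ hζ d hdM) := by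
  refine isBd_of_isInt ?_
  rw [iactFJd, iact_smul_algebraMap, iactFieldExp_algebraMap]
  exact isInt_smul_iactJd ζ hζ 𝒪 γ hdM

include hζ in
/-- `j(dτ)` lies in the field `iactBd` of helper856's concrete `IgusaData`. -/
theorem iactFJd_mem_iactBd (hd : IsDiscrete 𝒪 w₀) {d : ℕ} (hdM : d ∣ M) :
    iactFJd ζ hζ d hdM ∈ iactBd (ι := ι) (M := M) 𝒪 hd :=
  mem_iactBd_of_isBd 𝒪 hd fun γ => isBd_smul_iactFJd ζ hζ 𝒪 hd γ hdM

include hζ in
/-- `E(j(dτ) : d ∣ M) ≤ iactBd`. -/
theorem iactF0_le_iactBd (hd : IsDiscrete 𝒪 w₀) :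
    iactF0 ζ hζ ≤ iactBd (ι := ι) (M := M) 𝒪 hd := by
  rw [iactF0, Subfield.closure_le]
  rintro y (⟨c, rfl⟩ | ⟨d, hdM, rfl⟩)
  · exact iactFC_mem_iactBd 𝒪 hd c
  · exact iactFJd_mem_iactBd ζ hζ 𝒪 hd hdM

/-! ### The image of `E · F1 M` -/

theorem pAv_eq_iactP (a : ZMod M) : pAv ζ hζ a = iactP ζ hζ a := Subtype.ext rfl

omit [CharZero E] [NeZero M] in
/-- Induction principle for `E · F1 M`: a ring homomorphism to a field maps into a subfield `K`
as soon as it maps the constants and the generators `j(q^d)`, `P_a` into `K`. -/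
theorem f1L_mem_induction [Algebra ℚ E] {R : Type*} [Field R] (φ : F1L E M →+* R)
    (K : Subfield R)
    (hL : ∀ a : E, φ (algebraMap E _ a) ∈ K)
    (hJ : ∀ (d : ℕ) [NeZero d] (hd : d ∣ M),
      φ ⟨coeffEmb E (qExpand ℚ d jq), coeffEmb_mem_laurentBaseChange E (jqd_mem_F1 M hd)⟩ ∈ K)
    (hP : ∀ (a : ZMod M) (ha : a ≠ 0),
      φ ⟨coeffEmb E (divGen M a), coeffEmb_mem_laurentBaseChange E (divGen_mem_F1 M ha)⟩ ∈ K)
    (f : F1L E M) : φ f ∈ K :=
  lbc_mem_induction (L := E) (S := divisorExpansions M ∪ divGens M) φ K hL (by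
    rintro z (⟨d, hd0, hd, rfl⟩ | ⟨a, ha, rfl⟩)
    · exact hJ d hd
    · exact hP a ha) f

include hζ in
/-- **R4b2**: the image of `E · F1 M` in the full-level field lies in `iactBd`. -/
theorem f1Emb_mem_iactBd (hd : IsDiscrete 𝒪 w₀) (f : F1L E M) :
    f1Emb ζ hζ f ∈ iactBd (ι := ι) (M := M) 𝒪 hd := by
  refine f1L_mem_induction (f1Emb ζ hζ) (iactBd (ι := ι) (M := M) 𝒪 hd) ?_ ?_ ?_ f
  · intro a
    rw [f1Emb_algebraMap]
    exact iactFC_mem_iactBd 𝒪 hd a
  · intro d _ hdM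
    rw [f1Emb_jqd ζ hζ hdM _ rfl]
    exact iactFJd_mem_iactBd ζ hζ 𝒪 hd hdM
  · intro a ha
    rw [f1Emb_divGen ζ hζ ha _ rfl, pAv_eq_iactP]
    exact iactP_mem_iactBd ζ hζ 𝒪 hd a

include hζ in
theorem f1Emb_fieldRange_le_iactBd (hd : IsDiscrete 𝒪 w₀) :
    (f1Emb ζ hζ).fieldRange ≤ iactBd (ι := ι) (M := M) 𝒪 hd := by
  rintro _ ⟨f, rfl⟩
  exact f1Emb_mem_iactBd ζ hζ 𝒪 hd f

/-- **G_V in avatar form**: the diamond automorphisms of `E · F1 M` preserve the Gauss valuation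
ring of the `X`-expansion (`γ ∈ Γ₀(M)` any matrix with lower right entry `≡ d`). -/
theorem f1Emb_diamond_mem_gaussRing (hd : IsDiscrete 𝒪 w₀)
    (hqep0 : ∀ b ∈ chart (iactF0 ζ hζ) (𝒪.toSubring.map (iactFC ι M)) (iactFJ ι M),
      b * (iactFC ι M w₀)⁻¹ ∈ gaussRing 𝒪 (iactFieldExp ι M) →
        b * (iactFC ι M w₀)⁻¹ ∈ chart (iactF0 ζ hζ) (𝒪.toSubring.map (iactFC ι M))
          (iactFJ ι M))
    {γ : SL(2, ℤ)} (hγ : γ ∈ Gamma0 M) (d : (ZMod M)ˣ)
    (hdγ : (d : ZMod M) = ((γ 1 1 : ℤ) : ZMod M)) (σ : F1L E M ≃ₐ[E] F1L E M)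
    (hσ : IsDiamond E M d σ) (f : F1L E M)
    (hf : f1Emb ζ hζ f ∈ gaussRing 𝒪 (iactFieldExp ι M)) :
    f1Emb ζ hζ (σ f) ∈ gaussRing 𝒪 (iactFieldExp ι M) := by
  rw [← smul_f1Emb ζ hζ hγ d hdγ σ hσ f]
  exact iact_stable 𝒪 ζ hζ hd hqep0 γ (f1Emb_mem_iactBd ζ hζ 𝒪 hd f) hf

end Fermat.Agent.S48.H668

end
end
-- ===== PACK-END S48/H668/F1Bd.lean

-- ===== PACK-BEGIN S48/H828/IActQep.lean
section





/-!
# S48 / Tower A1 / IGUSA1 (helper828), part 8b: node I-S28 on `IActField` — the field `qep0`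

`E` an intermediate field of `Q̄/ℚ`, finite over `ℚ`, containing `ζ_M`; `A` a valuation subring
of `Q̄` above `ℓ ∤ M`.  Coefficient field `↥E`, embedding `ιK ∘ (E ↪ Q̄)`, valuation subring
`iactO A E = A ∩ E` of `↥E`.

* `iactSig E : ↥E →+* Q̄`, `iactO A E : ValuationSubring ↥E`;
* `iact_exists_isDiscrete` : a uniformiser `w₀` of `A ∩ E` (from S18 `exists_partR`),
  `IsDiscrete (iactO A E) w₀`;
* `iact_F0_map`, `iact_R_map` : the `Γ₀(M)`-field `iactF0` over `E` and the S18 field `Fc M E`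
  have the same image in `IActField ιK M` (roof `iactPhi`, `iactFieldMap`);
* `iact_mem_gaussRing_of_mem_Vc` : the S18 Gauss ring `Vc M A E` lands in `gaussRing`;
* `iact_qep0` : **the hypothesis `hqep0` of `H856.iact_igusaData`, verbatim**;
* `iact_igusaData_closed`, `iact_stable_closed`, `iact_qep_fin_closed` : the conclusions of
  `H856.IgusaConc` without hypotheses.
-/

set_option autoImplicit false
set_option linter.unusedSectionVars false

noncomputable section

open ModularCurve HahnSeries UpperHalfPlane AlgebraicCurve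
open scoped MatrixGroups Manifold

namespace Fermat.Agent.S48.H828

open Fermat.Agent.S24 Fermat.Agent.S24.H997 Fermat.Agent.S24.H624 Fermat.Agent.S20.L1
open Fermat.Agent.S18 Fermat.Agent.S18.Mod Fermat.Agent.S18.Alg Fermat.Agent.S48.H856

/-! ### generalities on valuation subrings -/

theorem iact_valuation_eq_one {K : Type*} [Field K] (𝒪 : ValuationSubring K) {c : K}
    (hc0 : c ≠ 0) (hc : c ∈ 𝒪) (hc' : c⁻¹ ∈ 𝒪) : 𝒪.valuation c = 1 := by
  have h1 : 𝒪.valuation c ≤ 1 := (𝒪.valuation_le_one_iff c).mpr hc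
  have h2 : 𝒪.valuation c⁻¹ ≤ 1 := (𝒪.valuation_le_one_iff _).mpr hc'
  have h0 : 𝒪.valuation c ≠ 0 := (Valuation.ne_zero_iff _).mpr hc0
  rw [map_inv₀, inv_le_one₀ (zero_lt_iff.mpr h0)] at h2
  exact le_antisymm h1 h2

variable (M : ℕ) [NeZero M] (A : ValuationSubring Qb) (E : IntermediateField ℚ Qb)

/-- The inclusion `E → Q̄`. -/
def iactSig : ↥E →+* Qb := algebraMap ↥E Qb

theorem iactSig_apply (c : ↥E) : iactSig E c = (c : Qb) := rfl

/-- `A ∩ E` as a valuation subring of `E`. -/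
def iactO : ValuationSubring ↥E := A.comap (iactSig E)

theorem mem_iactO {c : ↥E} : c ∈ iactO A E ↔ (c : Qb) ∈ A := Iff.rfl

theorem iact_algebraMap_injective : Function.Injective (algebraMap Qb (Om M)) :=
  (algebraMap Qb (Om M)).injective

theorem iact_algebraMap_mem_Rc {c : Qb} :
    algebraMap Qb (Om M) c ∈ Rc M A E ↔ c ∈ A ∧ c ∈ E := by
  constructor
  · rintro ⟨d, hd, hdc⟩
    rw [← iact_algebraMap_injective M hdc]
    exact hd
  · intro h
    exact ⟨c, h, rfl⟩

theorem iact_algebraMap_mem_Ec {c : Qb} :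
    algebraMap Qb (Om M) c ∈ Ec M E ↔ c ∈ E := by
  constructor
  · rintro ⟨d, hd, hdc⟩
    rw [← iact_algebraMap_injective M hdc]
    exact hd
  · intro h
    exact ⟨c, h, rfl⟩

/-- From the S18 field `G-R`: a uniformiser of `A ∩ E` in `↥E`. -/
theorem iact_isDiscrete_of_partR {w : Om M} (hR : Mod.H216.PartR (Ec M E) (Rc M A E) w) :
    ∃ w₀ : ↥E, algebraMap Qb (Om M) (w₀ : Qb) = w ∧ IsDiscrete (iactO A E) w₀ := by
  obtain ⟨c, ⟨hcA, hcE⟩, hcw⟩ := hR.w_mem
  have hc0 : c ≠ 0 := by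
    rintro rfl
    rw [map_zero] at hcw
    exact hR.w_ne_zero hcw.symm
  refine ⟨⟨c, hcE⟩, hcw, ?_, ?_, ?_⟩
  · -- valuation < 1
    have hle : (iactO A E).valuation ⟨c, hcE⟩ ≤ 1 :=
      ((iactO A E).valuation_le_one_iff _).mpr hcA
    refine lt_of_le_of_ne hle fun h1 => ?_
    have h2 : (iactO A E).valuation (⟨c, hcE⟩ : ↥E)⁻¹ ≤ 1 := by
      rw [map_inv₀, h1, inv_one]
    have h3 : (⟨c, hcE⟩ : ↥E)⁻¹ ∈ iactO A E := ((iactO A E).valuation_le_one_iff _).mp h2
    have h4 : c⁻¹ ∈ A := by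
      have := (mem_iactO A E).mp h3
      simpa using this
    apply hR.w_inv_not_mem
    rw [← hcw, ← map_inv₀]
    exact (iact_algebraMap_mem_Rc M A E).mpr ⟨h4, E.inv_mem hcE⟩
  · intro h
    exact hc0 (congrArg Subtype.val h)
  · -- discreteness
    have key : ∀ y : ↥E, y ≠ 0 → y ∈ iactO A E →
        ∃ n : ℕ, (iactO A E).valuation y = (iactO A E).valuation ⟨c, hcE⟩ ^ n := by
      intro y hy hyO
      have hr : algebraMap Qb (Om M) (y : Qb) ∈ Rc M A E :=
        (iact_algebraMap_mem_Rc M A E).mpr ⟨hyO, y.2⟩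
      have hr0 : algebraMap Qb (Om M) (y : Qb) ≠ 0 := by
        rw [Ne, map_eq_zero]
        exact fun h => hy (Subtype.ext h)
      obtain ⟨n, hn1, hn2⟩ := hR.w_discrete _ hr hr0
      have e1 : algebraMap Qb (Om M) (y : Qb) * w⁻¹ ^ n
          = algebraMap Qb (Om M) ((y : Qb) * c⁻¹ ^ n) := by
        rw [map_mul, map_pow, map_inv₀, hcw]
      rw [e1] at hn1 hn2
      rw [← map_inv₀] at hn2
      have h1 := ((iact_algebraMap_mem_Rc M A E).mp hn1).1
      have h2 := ((iact_algebraMap_mem_Rc M A E).mp hn2).1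
      set u : ↥E := y * (⟨c, hcE⟩ : ↥E)⁻¹ ^ n with hu
      have hu_val : (u : Qb) = (y : Qb) * c⁻¹ ^ n := by
        rw [hu]; push_cast; rfl
      have hw0 : (⟨c, hcE⟩ : ↥E) ≠ 0 := fun h => hc0 (congrArg Subtype.val h)
      have hu0 : u ≠ 0 := mul_ne_zero hy (pow_ne_zero n (inv_ne_zero hw0))
      have huO : u ∈ iactO A E := by
        rw [mem_iactO, hu_val]; exact h1
      have huO' : u⁻¹ ∈ iactO A E := by
        rw [mem_iactO]
        have : ((u⁻¹ : ↥E) : Qb) = ((y : Qb) * c⁻¹ ^ n)⁻¹ := by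
          push_cast; rw [hu_val]
        rw [this]; exact h2
      have hv := iact_valuation_eq_one (iactO A E) hu0 huO huO'
      have hvw : (iactO A E).valuation ⟨c, hcE⟩ ≠ 0 := (Valuation.ne_zero_iff _).mpr hw0
      refine ⟨n, ?_⟩
      rw [hu, map_mul, map_pow, map_inv₀] at hv
      rw [inv_pow] at hv
      exact (mul_inv_eq_one₀ (pow_ne_zero n hvw)).mp hv
    intro y hy
    rcases (iactO A E).mem_or_inv_mem y with h | h
    · obtain ⟨n, hn⟩ := key y hy h
      exact ⟨n, by rw [hn, zpow_natCast]⟩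
    · obtain ⟨n, hn⟩ := key y⁻¹ (inv_ne_zero hy) h
      refine ⟨-(n : ℤ), ?_⟩
      rw [map_inv₀] at hn
      rw [zpow_neg, zpow_natCast, ← hn, inv_inv]

variable {M A E}

/-! ### the roof `Om M --iactPhi--> IActField ιK M <--iactFieldMap-- IActField (ιK ∘ σ) M` -/

variable (ζ : (↥E)ˣ)
  (hζ : Units.map ((ιK.comp (iactSig E) : ↥E →+* ℂ) : ↥E →* ℂ) ζ = infRoot 1 M)

theorem iact_theta_C (c : ↥E) :
    iactFieldMap (iactSig E) ιK M (iactFC (ιK.comp (iactSig E)) M c)
      = iactPhi M (algebraMap Qb (Om M) (c : Qb)) := by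
  rw [iactPhi_algebraMap, iactFieldMap_C]
  rfl

theorem iact_theta_Jd (d : ℕ) [NeZero d] (hd : d ∣ M) :
    iactFieldMap (iactSig E) ιK M (iactFJd ζ hζ d hd) = iactPhi M (jd M d hd) := by
  rw [iactPhi_jd, iactFieldMap_Jd]
  rfl

theorem iact_theta_J :
    iactFieldMap (iactSig E) ιK M (iactFJ (ιK.comp (iactSig E)) M) = iactPhi M (jOm M) := by
  rw [iactPhi_jOm, iactFieldMap_J]

/-- The `Γ₀(M)`-field over `E` and the S18 field `Fc M E` have the same image. -/
theorem iact_F0_map :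
    (iactF0 ζ hζ).map (iactFieldMap (iactSig E) ιK M) = (Fc M E).map (iactPhi M) := by
  have hM : M ≠ 0 := NeZero.ne M
  unfold iactF0 Fc
  rw [RingHom.map_field_closure, RingHom.map_field_closure]
  apply le_antisymm
  · rw [Subfield.closure_le]
    rintro y ⟨x, hx | hx, rfl⟩
    · obtain ⟨c, rfl⟩ := hx
      apply Subfield.subset_closure
      exact ⟨algebraMap Qb (Om M) (c : Qb), Or.inl ((iact_algebraMap_mem_Ec M E).mpr c.2),
        (iact_theta_C c).symm⟩
    · obtain ⟨d, hd, rfl⟩ := hx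
      have hd0 : NeZero d := ⟨fun h => hM (by rw [h] at hd; exact Nat.eq_zero_of_zero_dvd hd)⟩
      apply Subfield.subset_closure
      exact ⟨jd M d hd, Or.inr ⟨d, inferInstance, hd, rfl⟩, (iact_theta_Jd ζ hζ d hd).symm⟩
  · rw [Subfield.closure_le]
    rintro y ⟨x, hx | hx, rfl⟩
    · obtain ⟨c, hc, rfl⟩ := hx
      apply Subfield.subset_closure
      exact ⟨iactFC (ιK.comp (iactSig E)) M ⟨c, hc⟩, Or.inl ⟨_, rfl⟩, iact_theta_C ⟨c, hc⟩⟩
    · obtain ⟨d, hd0, hd, rfl⟩ := hx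
      apply Subfield.subset_closure
      exact ⟨iactFJd ζ hζ d hd, Or.inr ⟨d, hd, rfl⟩, iact_theta_Jd ζ hζ d hd⟩

/-- The rings of constants `A ∩ E` have the same image. -/
theorem iact_R_map :
    (((iactO A E).toSubring.map (iactFC (ιK.comp (iactSig E)) M)).map
      (iactFieldMap (iactSig E) ιK M)) = (Rc M A E).map (iactPhi M) := by
  ext y
  constructor
  · rintro ⟨x, ⟨c, hc, rfl⟩, rfl⟩
    exact ⟨algebraMap Qb (Om M) (c : Qb), (iact_algebraMap_mem_Rc M A E).mpr ⟨hc, c.2⟩,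
      (iact_theta_C c).symm⟩
  · rintro ⟨x, ⟨c, ⟨hcA, hcE⟩, rfl⟩, rfl⟩
    exact ⟨iactFC (ιK.comp (iactSig E)) M ⟨c, hcE⟩, ⟨⟨c, hcE⟩, hcA, rfl⟩, iact_theta_C ⟨c, hcE⟩⟩

/-- Every element of `Fc M E` has a (unique) preimage in `iactF0`. -/
theorem iact_exists_of_mem_Fc {f : Om M} (hf : f ∈ Fc M E) :
    ∃ g ∈ iactF0 ζ hζ, iactFieldMap (iactSig E) ιK M g = iactPhi M f := by
  have h1 : iactPhi M f ∈ (Fc M E).map (iactPhi M) := ⟨f, hf, rfl⟩
  rw [← iact_F0_map ζ hζ] at h1
  obtain ⟨g, hg, hgf⟩ := h1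
  exact ⟨g, hg, hgf⟩

/-- The coefficients of the expansion of an element over `E`, in terms of the `q`-series. -/
theorem iact_coeff_of_roof {f : Om M} {g : IActField (ιK.comp (iactSig E)) M}
    (hg : iactFieldMap (iactSig E) ιK M g = iactPhi M f) :
    coeffMap (iactSig E) (iactFieldExp (ιK.comp (iactSig E)) M g)
      = qExpand Qb M (f : LaurentSeries Qb) := by
  rw [← iactFieldExp_map, hg, iactFieldExp_phi]

theorem iact_isInt_of_roof {f : Om M} {g : IActField (ιK.comp (iactSig E)) M}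
    (hg : iactFieldMap (iactSig E) ιK M g = iactPhi M f) {U : LaurentSeries A}
    (hU : (f : LaurentSeries Qb) = coeffMap A.subtype U) :
    _root_.Fermat.Agent.S48.H856.IsInt (iactO A E) (iactFieldExp (ιK.comp (iactSig E)) M g) := by
  intro k
  have h := congrArg (fun s : LaurentSeries Qb => s.coeff k) (iact_coeff_of_roof hg)
  simp only [coeffMap_coeff] at h
  show iactSig E _ ∈ A
  rw [h, hU]
  by_cases hk : (M : ℤ) ∣ k
  · obtain ⟨m, rfl⟩ := hk
    rw [qExpand_coeff_mul, coeffMap_coeff]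
    exact (U.coeff m).2
  · rw [qExpand_coeff_of_not_dvd M _ hk]
    exact A.zero_mem

theorem iact_isPrim_of_roof {f : Om M} {g : IActField (ιK.comp (iactSig E)) M}
    (hg : iactFieldMap (iactSig E) ιK M g = iactPhi M f) {U : LaurentSeries A}
    (hU : (f : LaurentSeries Qb) = coeffMap A.subtype U)
    (hne : coeffMap (IsLocalRing.residue A) U ≠ 0) :
    IsPrim (iactO A E) (iactFieldExp (ιK.comp (iactSig E)) M g) := by
  refine ⟨iact_isInt_of_roof hg hU, ?_⟩
  have h1 : ∃ n : ℤ, IsLocalRing.residue A (U.coeff n) ≠ 0 := by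
    by_contra hcon
    simp only [not_exists, not_not] at hcon
    apply hne
    ext n
    rw [coeffMap_coeff, hcon n, HahnSeries.coeff_zero]
  obtain ⟨n, hn⟩ := h1
  have hunit : IsUnit (U.coeff n) := by
    by_contra hnu
    exact hn ((IsLocalRing.residue_eq_zero_iff _).mpr ((IsLocalRing.mem_maximalIdeal _).mpr hnu))
  refine ⟨(M : ℤ) * n, ?_⟩
  have h := congrArg (fun s : LaurentSeries Qb => s.coeff ((M : ℤ) * n)) (iact_coeff_of_roof hg)
  simp only [coeffMap_coeff] at h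
  rw [hU, qExpand_coeff_mul, coeffMap_coeff] at h
  set c := (iactFieldExp (ιK.comp (iactSig E)) M g).coeff ((M : ℤ) * n) with hc
  have hcv : (c : Qb) = ((U.coeff n : A) : Qb) := h
  have hu0 : ((U.coeff n : A) : Qb) ≠ 0 := by
    intro h0
    have : U.coeff n = 0 := Subtype.ext h0
    rw [this] at hunit
    exact not_isUnit_zero hunit
  have hc0 : c ≠ 0 := by
    intro h0
    rw [h0] at hcv
    exact hu0 hcv.symm
  have hcO : c ∈ iactO A E := by
    rw [mem_iactO, hcv]
    exact (U.coeff n).2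
  have hcO' : c⁻¹ ∈ iactO A E := by
    rw [mem_iactO]
    have : ((c⁻¹ : ↥E) : Qb) = (((U.coeff n : A) : Qb))⁻¹ := by
      push_cast; rw [hcv]
    rw [this]
    obtain ⟨v, hv⟩ := hunit
    have hv1 : ((v⁻¹ : Aˣ) : A) * U.coeff n = 1 := by rw [← hv]; exact v.inv_mul
    have hv2 : (((v⁻¹ : Aˣ) : A) : Qb) * ((U.coeff n : A) : Qb) = 1 := by
      have := congrArg (fun a : A => (a : Qb)) hv1
      simpa using this
    rw [← eq_inv_of_mul_eq_one_left hv2]
    exact ((v⁻¹ : Aˣ) : A).2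
  exact iact_valuation_eq_one (iactO A E) hc0 hcO hcO'

include ζ hζ in
/-- **Easy inclusion**: the S18 Gauss ring of `Fc M E` lands in the Gauss ring of
`IActField` over `E`. -/
theorem iact_mem_gaussRing_of_mem_Vc {f : Om M} (hf : f ∈ Mod.H216.Vc M A E)
    {g : IActField (ιK.comp (iactSig E)) M}
    (hg : iactFieldMap (iactSig E) ιK M g = iactPhi M f) :
    g ∈ gaussRing (iactO A E) (iactFieldExp (ιK.comp (iactSig E)) M) := by
  obtain ⟨-, U₁, U₂, ⟨-, f₁, hf₁, hf₁U⟩, ⟨-, f₂, hf₂, hf₂U⟩, hne, heq⟩ := hf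
  have hmul : f * f₂ = f₁ := by
    apply Subtype.ext
    show (f : LaurentSeries Qb) * (f₂ : LaurentSeries Qb) = (f₁ : LaurentSeries Qb)
    rw [hf₁U, hf₂U]
    exact heq
  obtain ⟨g₁, -, hg₁⟩ := iact_exists_of_mem_Fc ζ hζ hf₁
  obtain ⟨g₂, -, hg₂⟩ := iact_exists_of_mem_Fc ζ hζ hf₂
  refine ⟨g₁, g₂, iact_isInt_of_roof hg₁ hf₁U, iact_isPrim_of_roof hg₂ hf₂U hne, ?_⟩
  apply (iactFieldMap (iactSig E) ιK M).injective
  rw [map_mul, hg, hg₁, hg₂, ← map_mul, hmul]

/-! ### I-S28: the hypothesis `qep0` -/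

/-- **I-S28 on `IActField`**: the hypothesis `hqep0` of `H856.iact_igusaData`, for every
uniformiser coming from the S18 field `G-R`. -/
theorem iact_qep0_of_partR {ℓ : ℕ} [Fact ℓ.Prime] (hℓM : ¬ ℓ ∣ M) (hA : A.LiesOverPrime ℓ)
    [FiniteDimensional ℚ E] {w : Om M} (hR : Mod.H216.PartR (Ec M E) (Rc M A E) w)
    {w₀ : ↥E} (hw : algebraMap Qb (Om M) (w₀ : Qb) = w) (hd : IsDiscrete (iactO A E) w₀) :
    ∀ b ∈ chart (iactF0 ζ hζ)
        ((iactO A E).toSubring.map (iactFC (ιK.comp (iactSig E)) M))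
        (iactFJ (ιK.comp (iactSig E)) M),
      b * (iactFC (ιK.comp (iactSig E)) M w₀)⁻¹
          ∈ gaussRing (iactO A E) (iactFieldExp (ιK.comp (iactSig E)) M) →
        b * (iactFC (ιK.comp (iactSig E)) M w₀)⁻¹
          ∈ chart (iactF0 ζ hζ)
            ((iactO A E).toSubring.map (iactFC (ιK.comp (iactSig E)) M))
            (iactFJ (ιK.comp (iactSig E)) M) := by
  have hb := H24.baseModel_j M A E hℓM hA hR
  refine iact_qep_roof (iactPhi M) (iactFieldMap (iactSig E) ιK M) (iact_F0_map ζ hζ)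
    iact_R_map iact_theta_J ?_ (hb.E_le_F (hb.R_le hb.w_mem)) hb.V_total hb.V_gen
    (fun f hf g hg => iact_mem_gaussRing_of_mem_Vc ζ hζ hf hg)
    (iact_gaussHyp (ι := ιK.comp (iactSig E)) (M := M) (iactO A E) hd).w_inv_notMem hb.qep_fin
  rw [iact_theta_C, hw]

/-- **I-S28 on `IActField`**, existential form: there is a uniformiser `w₀` of `A ∩ E` for which
the hypothesis `hqep0` of `H856.iact_igusaData` holds. -/
theorem iact_qep0 {ℓ : ℕ} [Fact ℓ.Prime] (hℓM : ¬ ℓ ∣ M) (hA : A.LiesOverPrime ℓ)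
    [FiniteDimensional ℚ E] :
    ∃ w₀ : ↥E, ∃ _ : IsDiscrete (iactO A E) w₀,
      ∀ b ∈ chart (iactF0 ζ hζ)
          ((iactO A E).toSubring.map (iactFC (ιK.comp (iactSig E)) M))
          (iactFJ (ιK.comp (iactSig E)) M),
        b * (iactFC (ιK.comp (iactSig E)) M w₀)⁻¹
            ∈ gaussRing (iactO A E) (iactFieldExp (ιK.comp (iactSig E)) M) →
          b * (iactFC (ιK.comp (iactSig E)) M w₀)⁻¹
            ∈ chart (iactF0 ζ hζ)
              ((iactO A E).toSubring.map (iactFC (ιK.comp (iactSig E)) M))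
              (iactFJ (ιK.comp (iactSig E)) M) := by
  obtain ⟨w, hR⟩ := H24.exists_partR M A E (Fact.out : ℓ.Prime) hA
  obtain ⟨w₀, hw, hd⟩ := iact_isDiscrete_of_partR M A E hR
  exact ⟨w₀, hd, iact_qep0_of_partR ζ hζ hℓM hA hR hw hd⟩

/-! ### the conclusions of `H856.IgusaConc`, without hypotheses -/

/-- **IGUSA1, closed form**: there is a uniformiser `w₀` of `A ∩ E` such that the concrete
`IgusaData` on `IActField` over `E` holds. -/
theorem iact_igusaData_closed {ℓ : ℕ} [Fact ℓ.Prime] (hℓM : ¬ ℓ ∣ M) (hA : A.LiesOverPrime ℓ)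
    [FiniteDimensional ℚ E] :
    ∃ w₀ : ↥E, ∃ hd : IsDiscrete (iactO A E) w₀,
      IgusaData (iactFC (ιK.comp (iactSig E)) M).fieldRange (iactF0 ζ hζ)
        (iactBd (ι := ιK.comp (iactSig E)) (M := M) (iactO A E) hd)
        ((iactO A E).toSubring.map (iactFC (ιK.comp (iactSig E)) M))
        (gaussRing (iactO A E) (iactFieldExp (ιK.comp (iactSig E)) M))
        (iactFC (ιK.comp (iactSig E)) M w₀) (iactFJ (ιK.comp (iactSig E)) M)
        (iactG (ιK.comp (iactSig E)) M) (iactB (ιK.comp (iactSig E)) M)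
        (iactT (ιK.comp (iactSig E)) M) := by
  obtain ⟨w₀, hd, hq⟩ := iact_qep0 ζ hζ hℓM hA
  exact ⟨w₀, hd, iact_igusaData (iactO A E) ζ hζ hd hq⟩

include ζ hζ in
/-- **IGUSA1, stability, closed form**: the Gauss ring of `IActField` over `E` is stable under
`SL₂(ℤ)` on the elements with bounded denominators. -/
theorem iact_stable_closed {ℓ : ℕ} [Fact ℓ.Prime] (hℓM : ¬ ℓ ∣ M) (hA : A.LiesOverPrime ℓ)
    [FiniteDimensional ℚ E] :
    ∃ w₀ : ↥E, ∃ hd : IsDiscrete (iactO A E) w₀,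
      ∀ (γ : SL(2, ℤ)) (f : IActField (ιK.comp (iactSig E)) M),
        f ∈ iactBd (ι := ιK.comp (iactSig E)) (M := M) (iactO A E) hd →
        f ∈ gaussRing (iactO A E) (iactFieldExp (ιK.comp (iactSig E)) M) →
        γ • f ∈ gaussRing (iactO A E) (iactFieldExp (ιK.comp (iactSig E)) M) := by
  obtain ⟨w₀, hd, hq⟩ := iact_qep0 ζ hζ hℓM hA
  exact ⟨w₀, hd, fun γ f hf hfV => iact_stable (iactO A E) ζ hζ hd hq γ hf hfV⟩

/-! ### the root of unity -/

/-- If `E ∋ ζ_M` then `↥E` carries the root of unity required by `H856.IgusaConc`. -/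
theorem iact_exists_zeta_of_mem (M : ℕ) [NeZero M] (E : IntermediateField ℚ Qb)
    (h : ((iactZeta M : Qbˣ) : Qb) ∈ E) :
    ∃ ζ : (↥E)ˣ,
      Units.map ((ιK.comp (iactSig E) : ↥E →+* ℂ) : ↥E →* ℂ) ζ = infRoot 1 M := by
  have h0 : (⟨((iactZeta M : Qbˣ) : Qb), h⟩ : ↥E) ≠ 0 := by
    intro h1
    exact (iactZeta M).ne_zero (congrArg Subtype.val h1)
  refine ⟨Units.mk0 _ h0, ?_⟩
  rw [← iactZeta_spec M]
  exact Units.ext rfl

/-- Every finite set of algebraic numbers lies in a number field containing `ζ_M`. -/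
theorem iact_exists_field (M : ℕ) [NeZero M] (T : Finset Qb) :
    ∃ E : IntermediateField ℚ Qb, FiniteDimensional ℚ E ∧ (∀ a ∈ T, a ∈ E) ∧
      ((iactZeta M : Qbˣ) : Qb) ∈ E := by
  classical
  refine ⟨IntermediateField.adjoin ℚ ((insert ((iactZeta M : Qbˣ) : Qb) T : Finset Qb) : Set Qb),
    ?_, fun a ha => ?_, ?_⟩
  · exact IntermediateField.finiteDimensional_adjoin
      (fun x _ => (AlgebraicClosure.isAlgebraic ℚ).isAlgebraic x |>.isIntegral)
  · exact IntermediateField.subset_adjoin ℚ _ (by simp [ha])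
  · exact IntermediateField.subset_adjoin ℚ _ (by simp)

end Fermat.Agent.S48.H828

end
end
-- ===== PACK-END S48/H828/IActQep.lean

-- ===== PACK-BEGIN S48/H828/IActTop.lean
section





/-!
# S48 / Tower A1 / A1-RED (helper828), part 9b: the leaves `qep_fin`, `qep_inf` of
`Red1.TopLeaves` (node IGUSA1 transported to `Ω' = Q̄ · F₀`)

`E` a number field in `Q̄` containing `ζ_M`, `A` a valuation subring of `Q̄` above `ℓ ∤ M`,
`w₀` a uniformiser of `A ∩ E` (`H248.IsUnifG`).  Roof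

  `OmG F₀ --baseChangeEmb (Q̄)--> IActField ιK M <--iactFieldMap-- IActField (ιK ∘ σ) M`

* `iact_qep_pull`        : the `q`-expansion principle is pulled back along a roof;
* `iact_exists_FcT_of_mem`, `iact_exists_lbc_of_mem_FcT` : `E · F₀ ⊆ Q̄((q))` is the image of
  `laurentBaseChange ↥E F₀` under `coeffMap σ`;
* `iact_FcT_map`, `iact_RcG_map` : compatibility of the fields and the rings of constants;
* `iact_mem_gaussRing_of_mem_VcT` : `VcT F₀ A E` lands in `gaussRing (A ∩ E)`;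
* `iact_partR_of_isUnifG` : the S18 field `G-R` for ANY uniformiser of `A ∩ E`;
* `iact_top_qep`         : `qep_fin ∧ qep_inf` of `Red1.TopLeaves F₀ A E w₀ j`, for every `F₀`
  with avatars in the full-level field whose translates have bounded denominators;
* `iact_topLeaves_qep_F1`: the instance `F₀ = F1 M` (**fields `qep_fin`, `qep_inf` of
  `Red1.TopLeaves (F1 M) A E w₀ j`, VERBATIM**).
-/

set_option autoImplicit false
set_option linter.unusedSectionVars false

noncomputable section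

open ModularCurve HahnSeries UpperHalfPlane AlgebraicCurve
open scoped MatrixGroups Manifold

namespace Fermat.Agent.S48.H828

open Fermat.Agent.S24 Fermat.Agent.S24.H997 Fermat.Agent.S24.H624 Fermat.Agent.S20.L1
open Fermat.Agent.S18 Fermat.Agent.S18.Mod Fermat.Agent.S18.Alg Fermat.Agent.S48.H856
open Fermat.Agent.S48.Red1 Fermat.Agent.S48.H648 Fermat.Agent.S48.F1

/-! ### pull-back of the `q`-expansion principle along a roof -/

section Pull

variable {Ω₁ Ω₂ Ω₃ : Type*} [Field Ω₁] [Field Ω₂] [Field Ω₃]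
  (φ : Ω₁ →+* Ω₂) (θ : Ω₃ →+* Ω₂)
  {F₁ : Subfield Ω₁} {R₁ V₁ : Subring Ω₁} {w₁ x₁ : Ω₁}
  {F₃ : Subfield Ω₃} {R₃ V₃ : Subring Ω₃} {w₃ x₃ : Ω₃}

theorem iact_qep_pull (hF : F₁.map φ = F₃.map θ) (hR : R₁.map φ = R₃.map θ)
    (hx : φ x₁ = θ x₃) (hw : φ w₁ = θ w₃)
    (hV : ∀ f ∈ V₁, ∀ g : Ω₃, θ g = φ f → g ∈ V₃)
    (hq : ∀ b ∈ chart F₃ R₃ x₃, b * w₃⁻¹ ∈ V₃ → b * w₃⁻¹ ∈ chart F₃ R₃ x₃) :
    ∀ b ∈ chart F₁ R₁ x₁, b * w₁⁻¹ ∈ V₁ → b * w₁⁻¹ ∈ chart F₁ R₁ x₁ := by
  intro b hb hbV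
  have h1 : φ b ∈ chart (F₃.map θ) (R₃.map θ) (θ x₃) := by
    rw [← hF, ← hR, ← hx]
    exact (iact_map_mem_chart_iff φ F₁ R₁ x₁ b).mpr hb
  obtain ⟨b₃, hb₃, hbb⟩ := iact_exists_of_mem_chart_map θ F₃ R₃ x₃ h1
  have h2 : θ (b₃ * w₃⁻¹) = φ (b * w₁⁻¹) := by
    rw [map_mul, map_mul, map_inv₀, map_inv₀, hw, hbb]
  have h3 : b₃ * w₃⁻¹ ∈ V₃ := hV _ hbV _ h2
  have h4 := hq b₃ hb₃ h3
  have h5 : φ (b * w₁⁻¹) ∈ chart (F₁.map φ) (R₁.map φ) (φ x₁) := by
    rw [← h2, hF, hR, hx]
    exact (iact_map_mem_chart_iff θ F₃ R₃ x₃ _).mpr h4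
  exact (iact_map_mem_chart_iff φ F₁ R₁ x₁ _).mp h5

end Pull

/-! ### integrality of expansions over `E` read off over `Q̄` -/

section Coeff

variable {M : ℕ} [NeZero M] {A : ValuationSubring Qb} {E : IntermediateField ℚ Qb}

theorem iact_isInt_of_coeffMap {s : LaurentSeries ↥E} {U : LaurentSeries A}
    (h : coeffMap (iactSig E) s = qExpand Qb M (coeffMap A.subtype U)) :
    H856.IsInt (iactO A E) s := by
  intro k
  have hk := congrArg (fun t : LaurentSeries Qb => t.coeff k) h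
  simp only [coeffMap_coeff] at hk
  show iactSig E _ ∈ A
  rw [hk]
  by_cases hd : (M : ℤ) ∣ k
  · obtain ⟨m, rfl⟩ := hd
    rw [qExpand_coeff_mul, coeffMap_coeff]
    exact (U.coeff m).2
  · rw [qExpand_coeff_of_not_dvd M _ hd]
    exact A.zero_mem

theorem iact_isPrim_of_coeffMap {s : LaurentSeries ↥E} {U : LaurentSeries A}
    (h : coeffMap (iactSig E) s = qExpand Qb M (coeffMap A.subtype U))
    (hne : coeffMap (IsLocalRing.residue A) U ≠ 0) :
    H856.IsPrim (iactO A E) s := by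
  refine ⟨iact_isInt_of_coeffMap h, ?_⟩
  have h1 : ∃ n : ℤ, IsLocalRing.residue A (U.coeff n) ≠ 0 := by
    by_contra hcon
    simp only [not_exists, not_not] at hcon
    apply hne
    ext n
    rw [coeffMap_coeff, hcon n, HahnSeries.coeff_zero]
  obtain ⟨n, hn⟩ := h1
  have hunit : IsUnit (U.coeff n) := by
    by_contra hnu
    exact hn ((IsLocalRing.residue_eq_zero_iff _).mpr ((IsLocalRing.mem_maximalIdeal _).mpr hnu))
  refine ⟨(M : ℤ) * n, ?_⟩
  have hk := congrArg (fun t : LaurentSeries Qb => t.coeff ((M : ℤ) * n)) h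
  simp only [coeffMap_coeff] at hk
  rw [qExpand_coeff_mul, coeffMap_coeff] at hk
  set c := s.coeff ((M : ℤ) * n) with hc
  have hcv : (c : Qb) = ((U.coeff n : A) : Qb) := hk
  have hu0 : ((U.coeff n : A) : Qb) ≠ 0 := by
    intro h0
    have : U.coeff n = 0 := Subtype.ext h0
    rw [this] at hunit
    exact not_isUnit_zero hunit
  have hc0 : c ≠ 0 := by
    intro h0
    rw [h0] at hcv
    exact hu0 hcv.symm
  have hcO : c ∈ iactO A E := by
    rw [mem_iactO, hcv]
    exact (U.coeff n).2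
  have hcO' : c⁻¹ ∈ iactO A E := by
    rw [mem_iactO]
    have : ((c⁻¹ : ↥E) : Qb) = (((U.coeff n : A) : Qb))⁻¹ := by
      push_cast; rw [hcv]
    rw [this]
    obtain ⟨v, hv⟩ := hunit
    have hv1 : ((v⁻¹ : Aˣ) : A) * U.coeff n = 1 := by rw [← hv]; exact v.inv_mul
    have hv2 : (((v⁻¹ : Aˣ) : A) : Qb) * ((U.coeff n : A) : Qb) = 1 := by
      have := congrArg (fun a : A => (a : Qb)) hv1
      simpa using this
    rw [← eq_inv_of_mul_eq_one_left hv2]
    exact ((v⁻¹ : Aˣ) : A).2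
  exact iact_valuation_eq_one (iactO A E) hc0 hcO hcO'

end Coeff

/-! ### the S18 field `G-R` for any uniformiser -/

section Unif

variable (M : ℕ) [NeZero M] (A : ValuationSubring Qb) (E : IntermediateField ℚ Qb)

theorem iact_partR_of_isUnifG {ℓ : ℕ} (hℓ : ℓ.Prime) (hA : A.LiesOverPrime ℓ)
    [FiniteDimensional ℚ E] {w₀ : Qb} (hunif : H248.IsUnifG A E.toSubfield w₀) :
    Mod.H216.PartR (Ec M E) (Rc M A E) (algebraMap Qb (Om M) w₀) := by
  obtain ⟨w', hR'⟩ := H24.exists_partR M A E hℓ hA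
  have hmem : ∀ c : Qb, algebraMap Qb (Om M) c ∈ Rc M A E ↔ c ∈ A ∧ c ∈ E :=
    fun c => iact_algebraMap_mem_Rc M A E
  have hgen : ∀ r ∈ Rc M A E, r⁻¹ ∉ Rc M A E → r * (algebraMap Qb (Om M) w₀)⁻¹ ∈ Rc M A E := by
    rintro _ ⟨c, ⟨hcA, hcE⟩, rfl⟩ hrinv
    have h1 : c⁻¹ ∉ A := fun h => hrinv (by
      rw [← map_inv₀]
      exact (hmem _).mpr ⟨h, E.inv_mem hcE⟩)
    have h2 := hunif.gen c hcA hcE h1
    rw [← map_inv₀, ← map_mul]
    exact (hmem _).mpr ⟨h2, E.mul_mem hcE (E.inv_mem hunif.mem_E)⟩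
  have hw0 : algebraMap Qb (Om M) w₀ ≠ 0 := (map_ne_zero _).mpr hunif.ne_zero
  have hu : w' * (algebraMap Qb (Om M) w₀)⁻¹ ∈ Rc M A E :=
    hgen w' hR'.w_mem hR'.w_inv_not_mem
  refine ⟨hR'.R_le, hR'.R_total, (hmem _).mpr ⟨hunif.mem_A, hunif.mem_E⟩, hw0, ?_, hgen, ?_, ?_⟩
  · intro h
    rw [← map_inv₀] at h
    exact hunif.inv_not_mem ((hmem _).mp h).1
  · rintro _ ⟨c, ⟨hcA, hcE⟩, rfl⟩ hr0
    have hc0 : c ≠ 0 := fun h => hr0 (by rw [h, map_zero])
    obtain ⟨n, h1, h2⟩ := hunif.discrete c hcA hcE hc0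
    have hE1 : c * w₀⁻¹ ^ n ∈ E := E.mul_mem hcE (pow_mem (E.inv_mem hunif.mem_E) n)
    refine ⟨n, ?_, ?_⟩
    · rw [← map_inv₀, ← map_pow, ← map_mul]
      exact (hmem _).mpr ⟨h1, hE1⟩
    · rw [← map_inv₀, ← map_pow, ← map_mul, ← map_inv₀]
      exact (hmem _).mpr ⟨h2, E.inv_mem hE1⟩
  · obtain ⟨p, hp, hpw, hall⟩ := hR'.residue_perfect
    refine ⟨p, hp, ?_, fun r hr => ?_⟩
    · have e : (p : Om M) * (algebraMap Qb (Om M) w₀)⁻¹
          = ((p : Om M) * w'⁻¹) * (w' * (algebraMap Qb (Om M) w₀)⁻¹) := by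
        field_simp [hR'.w_ne_zero]
      rw [e]
      exact (Rc M A E).mul_mem hpw hu
    · obtain ⟨s, hs, hrs⟩ := hall r hr
      refine ⟨s, hs, ?_⟩
      have e : (r - s ^ p) * (algebraMap Qb (Om M) w₀)⁻¹
          = ((r - s ^ p) * w'⁻¹) * (w' * (algebraMap Qb (Om M) w₀)⁻¹) := by
        field_simp [hR'.w_ne_zero]
      rw [e]
      exact (Rc M A E).mul_mem hrs hu

end Unif

/-! ### the roof for `Ω' = Q̄ · F₀` -/

section Roof

variable {M : ℕ} [NeZero M] {A : ValuationSubring Qb} {E : IntermediateField ℚ Qb}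
  {F₀ : IntermediateField ℚ (LaurentSeries ℚ)}

theorem iact_coeffMap_sig_coeffEmb (x : LaurentSeries ℚ) :
    coeffMap (iactSig E) (coeffEmb ↥E x) = coeffEmb Qb x := by
  ext k
  rw [coeffMap_coeff, coeffEmb_coeff, coeffEmb_coeff]
  exact (IsScalarTower.algebraMap_apply ℚ ↥E Qb (x.coeff k)).symm

theorem iact_coeffMap_sig_algebraMap (c : ↥E) :
    coeffMap (iactSig E) (algebraMap ↥E (LaurentSeries ↥E) c)
      = algebraMap Qb (LaurentSeries Qb) (c : Qb) := by
  rw [algebraMap_laurentSeries_eq_single, algebraMap_laurentSeries_eq_single, coeffMap_single]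
  rfl

/-- Avatars over `E` give avatars over `Q̄`. -/
theorem iact_avatar_Qb
    (hE : ∀ x ∈ F₀, coeffEmb ↥E x ∈ avatarField (ιK.comp (iactSig E)) M) :
    ∀ x ∈ F₀, coeffEmb Qb x ∈ avatarField ιK M := by
  intro x hx
  obtain ⟨y, hy⟩ := mem_avatarField.mp (hE x hx)
  refine mem_avatarField.mpr ⟨iactFieldMap (iactSig E) ιK M y, ?_⟩
  rw [iactFieldExp_map, hy, coeffMap_qExpand, iact_coeffMap_sig_coeffEmb]

variable (hE : ∀ x ∈ F₀, coeffEmb ↥E x ∈ avatarField (ιK.comp (iactSig E)) M)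

/-- The two bridges are compatible with `coeffMap σ`. -/
theorem iact_theta_baseChange (h : ↥(laurentBaseChange ↥E F₀)) (g : OmG F₀)
    (hgh : (g : LaurentSeries Qb) = coeffMap (iactSig E) (h : LaurentSeries ↥E)) :
    iactFieldMap (iactSig E) ιK M (baseChangeEmb (ιK.comp (iactSig E)) M F₀ hE h)
      = baseChangeEmb ιK M F₀ (iact_avatar_Qb hE) g := by
  symm
  rw [baseChangeEmb_eq_iff, iactFieldExp_map, iactFieldExp_baseChangeEmb, hgh, coeffMap_qExpand]

/-- `laurentBaseChange ↥E F₀` maps into `E · F₀ ⊆ Q̄((q))` under `coeffMap σ`. -/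
theorem iact_exists_FcT_of_mem (h : LaurentSeries ↥E) (hh : h ∈ laurentBaseChange ↥E F₀) :
    ∃ g : OmG F₀, g ∈ FcT F₀ E.toSubfield ∧
      (g : LaurentSeries Qb) = coeffMap (iactSig E) h := by
  unfold laurentBaseChange at hh
  induction hh using IntermediateField.adjoin_induction with
  | mem x hx =>
    obtain ⟨z, hz, rfl⟩ := hx
    exact ⟨embG F₀ ⟨z, hz⟩, embG_mem_FcT _ _, by rw [coe_embG, iact_coeffMap_sig_coeffEmb]⟩
  | algebraMap c =>
    refine ⟨cstG F₀ (c : Qb), cstG_mem_FcT c.2, ?_⟩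
    rw [iact_coeffMap_sig_algebraMap]
    rfl
  | add x y _ _ hx hy =>
    obtain ⟨g₁, hg₁, e₁⟩ := hx
    obtain ⟨g₂, hg₂, e₂⟩ := hy
    refine ⟨g₁ + g₂, add_mem hg₁ hg₂, ?_⟩
    rw [map_add, ← e₁, ← e₂]
    rfl
  | inv x _ hx =>
    obtain ⟨g₁, hg₁, e₁⟩ := hx
    refine ⟨g₁⁻¹, inv_mem hg₁, ?_⟩
    rw [map_inv₀, ← e₁]
    rfl
  | mul x y _ _ hx hy =>
    obtain ⟨g₁, hg₁, e₁⟩ := hx
    obtain ⟨g₂, hg₂, e₂⟩ := hy
    refine ⟨g₁ * g₂, mul_mem hg₁ hg₂, ?_⟩
    rw [map_mul, ← e₁, ← e₂]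
    rfl

/-- `E · F₀ ⊆ Q̄((q))` is in the image of `laurentBaseChange ↥E F₀` under `coeffMap σ`. -/
theorem iact_exists_lbc_of_mem_FcT (g : OmG F₀) (hg : g ∈ FcT F₀ E.toSubfield) :
    ∃ h : ↥(laurentBaseChange ↥E F₀),
      (g : LaurentSeries Qb) = coeffMap (iactSig E) (h : LaurentSeries ↥E) := by
  unfold FcT at hg
  induction hg using Subfield.closure_induction with
  | mem x hx =>
    rcases hx with hx | ⟨z, rfl⟩
    · obtain ⟨c, hc, rfl⟩ := (H248.mem_EcG_iff _).mp hx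
      refine ⟨algebraMap ↥E ↥(laurentBaseChange ↥E F₀) ⟨c, hc⟩, ?_⟩
      have : ((algebraMap ↥E ↥(laurentBaseChange ↥E F₀) ⟨c, hc⟩ :
          ↥(laurentBaseChange ↥E F₀)) : LaurentSeries ↥E)
          = algebraMap ↥E (LaurentSeries ↥E) ⟨c, hc⟩ := rfl
      rw [this, iact_coeffMap_sig_algebraMap]
      rfl
    · exact ⟨⟨coeffEmb ↥E (z : LaurentSeries ℚ), coeffEmb_mem_laurentBaseChange ↥E z.2⟩, by
        rw [coe_embG, iact_coeffMap_sig_coeffEmb]⟩
  | one => exact ⟨1, by simp⟩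
  | add x y _ _ hx hy =>
    obtain ⟨h₁, e₁⟩ := hx
    obtain ⟨h₂, e₂⟩ := hy
    refine ⟨h₁ + h₂, ?_⟩
    show (x : LaurentSeries Qb) + (y : LaurentSeries Qb) = _
    rw [e₁, e₂, ← map_add]
    rfl
  | neg x _ hx =>
    obtain ⟨h₁, e₁⟩ := hx
    refine ⟨-h₁, ?_⟩
    show -(x : LaurentSeries Qb) = _
    rw [e₁, ← map_neg]
    rfl
  | inv x _ hx =>
    obtain ⟨h₁, e₁⟩ := hx
    refine ⟨h₁⁻¹, ?_⟩
    show (x : LaurentSeries Qb)⁻¹ = _
    rw [e₁, ← map_inv₀]
    rfl
  | mul x y _ _ hx hy =>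
    obtain ⟨h₁, e₁⟩ := hx
    obtain ⟨h₂, e₂⟩ := hy
    refine ⟨h₁ * h₂, ?_⟩
    show (x : LaurentSeries Qb) * (y : LaurentSeries Qb) = _
    rw [e₁, e₂, ← map_mul]
    rfl

/-- The field `E · F₀` and the image of the bridge over `E` have the same image. -/
theorem iact_FcT_map :
    (FcT F₀ E.toSubfield).map (baseChangeEmb ιK M F₀ (iact_avatar_Qb hE))
      = ((baseChangeEmb (ιK.comp (iactSig E)) M F₀ hE).fieldRange).map
          (iactFieldMap (iactSig E) ιK M) := by
  ext y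
  constructor
  · rintro ⟨g, hg, rfl⟩
    obtain ⟨h, e⟩ := iact_exists_lbc_of_mem_FcT g hg
    exact ⟨_, ⟨h, rfl⟩, iact_theta_baseChange hE h g e⟩
  · rintro ⟨_, ⟨h, rfl⟩, rfl⟩
    obtain ⟨g, hg, e⟩ := iact_exists_FcT_of_mem (h : LaurentSeries ↥E) h.2
    exact ⟨g, hg, (iact_theta_baseChange hE h g e).symm⟩

theorem iact_baseChange_cstG (c : Qb) :
    baseChangeEmb ιK M F₀ (iact_avatar_Qb hE) (cstG F₀ c) = iactFC ιK M c :=
  baseChangeEmb_algebraMap F₀ (iact_avatar_Qb hE) c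

/-- The rings of constants `A ∩ E` have the same image. -/
theorem iact_RcG_map :
    (H248.RcG A E.toSubfield (cstG F₀)).map (baseChangeEmb ιK M F₀ (iact_avatar_Qb hE))
      = (((iactO A E).toSubring.map (iactFC (ιK.comp (iactSig E)) M)).map
          (iactFieldMap (iactSig E) ιK M)) := by
  ext y
  constructor
  · rintro ⟨r, hr, rfl⟩
    obtain ⟨c, hcA, hcE, rfl⟩ := (H248.mem_RcG_iff _).mp hr
    refine ⟨iactFC (ιK.comp (iactSig E)) M ⟨c, hcE⟩, ⟨⟨c, hcE⟩, hcA, rfl⟩, ?_⟩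
    rw [iactFieldMap_C, iact_baseChange_cstG hE]
    rfl
  · rintro ⟨_, ⟨c, hc, rfl⟩, rfl⟩
    refine ⟨cstG F₀ (c : Qb), (H248.mem_RcG_iff _).mpr ⟨(c : Qb), hc, c.2, rfl⟩, ?_⟩
    rw [iactFieldMap_C, iact_baseChange_cstG hE]
    rfl

theorem iact_baseChange_j (hle : modularFunctionFieldFull M ≤ F₀) :
    baseChangeEmb ιK M F₀ (iact_avatar_Qb hE) (iotaG M F₀ hle (jOm M))
      = iactFieldMap (iactSig E) ιK M (iactFJ (ιK.comp (iactSig E)) M) := by
  rw [iactFieldMap_J, baseChangeEmb_eq_iff, iactFieldExp_J, coe_iotaG]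
  show iactJX Qb M = qExpand Qb M (coeffEmb Qb (qExpand ℚ 1 jq))
  rw [qExpand_one_apply]
  rfl

/-- **Easy inclusion**: the Gauss ring `VcT F₀ A E` lands in the Gauss ring of `IActField`
over `E`. -/
theorem iact_mem_gaussRing_of_mem_VcT {g : OmG F₀} (hg : g ∈ VcT F₀ A E.toSubfield)
    {f : IActField (ιK.comp (iactSig E)) M}
    (hf : iactFieldMap (iactSig E) ιK M f = baseChangeEmb ιK M F₀ (iact_avatar_Qb hE) g) :
    f ∈ gaussRing (iactO A E) (iactFieldExp (ιK.comp (iactSig E)) M) := by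
  obtain ⟨-, U₁, U₂, ⟨-, g₁, hg₁, e₁⟩, ⟨-, g₂, hg₂, e₂⟩, hne, heq⟩ := hg
  have hmul : g * g₂ = g₁ := by
    apply Subtype.ext
    show (g : LaurentSeries Qb) * (g₂ : LaurentSeries Qb) = (g₁ : LaurentSeries Qb)
    have e₁' : (g₁ : LaurentSeries Qb) = coeffMap A.subtype U₁ := e₁
    have e₂' : (g₂ : LaurentSeries Qb) = coeffMap A.subtype U₂ := e₂
    rw [e₁', e₂']
    exact heq
  obtain ⟨h₁, k₁⟩ := iact_exists_lbc_of_mem_FcT g₁ hg₁
  obtain ⟨h₂, k₂⟩ := iact_exists_lbc_of_mem_FcT g₂ hg₂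
  have t₁ := iact_theta_baseChange hE h₁ g₁ k₁
  have t₂ := iact_theta_baseChange hE h₂ g₂ k₂
  have c₁ : coeffMap (iactSig E)
      (iactFieldExp (ιK.comp (iactSig E)) M (baseChangeEmb (ιK.comp (iactSig E)) M F₀ hE h₁))
      = qExpand Qb M (coeffMap A.subtype U₁) := by
    rw [iactFieldExp_baseChangeEmb, coeffMap_qExpand, ← k₁]
    exact congrArg _ e₁
  have c₂ : coeffMap (iactSig E)
      (iactFieldExp (ιK.comp (iactSig E)) M (baseChangeEmb (ιK.comp (iactSig E)) M F₀ hE h₂))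
      = qExpand Qb M (coeffMap A.subtype U₂) := by
    rw [iactFieldExp_baseChangeEmb, coeffMap_qExpand, ← k₂]
    exact congrArg _ e₂
  refine ⟨_, _, iact_isInt_of_coeffMap c₁, iact_isPrim_of_coeffMap c₂ hne, ?_⟩
  apply (iactFieldMap (iactSig E) ιK M).injective
  rw [map_mul, hf, t₁, t₂, ← map_mul, hmul]

end Roof

/-! ### the leaves `qep_fin`, `qep_inf` -/

section Main

variable {M : ℕ} [NeZero M] {A : ValuationSubring Qb} {E : IntermediateField ℚ Qb}
  {F₀ : IntermediateField ℚ (LaurentSeries ℚ)}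

/-- **The leaves `qep_fin`, `qep_inf` of `Red1.TopLeaves`**, for every `F₀` with avatars in the
full-level field (over `E`) all of whose translates have bounded denominators. -/
theorem iact_top_qep (hle : modularFunctionFieldFull M ≤ F₀) (ζ : (↥E)ˣ)
    (hζ : Units.map ((ιK.comp (iactSig E) : ↥E →+* ℂ) : ↥E →* ℂ) ζ = infRoot 1 M)
    (hE : ∀ x ∈ F₀, coeffEmb ↥E x ∈ avatarField (ιK.comp (iactSig E)) M)
    (hbd : ∀ (w₁ : ↥E) (hd : IsDiscrete (iactO A E) w₁),
      (baseChangeEmb (ιK.comp (iactSig E)) M F₀ hE).fieldRange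
        ≤ iactBd (ι := ιK.comp (iactSig E)) (M := M) (iactO A E) hd)
    {ℓ : ℕ} [Fact ℓ.Prime] (hℓM : ¬ ℓ ∣ M) (hA : A.LiesOverPrime ℓ) [FiniteDimensional ℚ E]
    {w₀ : Qb} (hunif : H248.IsUnifG A E.toSubfield w₀) :
    (∀ b ∈ chart (FcT F₀ E.toSubfield) (H248.RcG A E.toSubfield (cstG F₀))
        (iotaG M F₀ hle (jOm M)),
      b * (cstG F₀ w₀)⁻¹ ∈ VcT F₀ A E.toSubfield →
        b * (cstG F₀ w₀)⁻¹ ∈ chart (FcT F₀ E.toSubfield) (H248.RcG A E.toSubfield (cstG F₀))
          (iotaG M F₀ hle (jOm M))) ∧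
    (∀ b ∈ chart (FcT F₀ E.toSubfield) (H248.RcG A E.toSubfield (cstG F₀))
        (iotaG M F₀ hle (jOm M))⁻¹,
      b * (cstG F₀ w₀)⁻¹ ∈ VcT F₀ A E.toSubfield →
        b * (cstG F₀ w₀)⁻¹ ∈ chart (FcT F₀ E.toSubfield) (H248.RcG A E.toSubfield (cstG F₀))
          (iotaG M F₀ hle (jOm M))⁻¹) := by
  have hR := iact_partR_of_isUnifG M A E (Fact.out : ℓ.Prime) hA hunif
  obtain ⟨w₁, hw₁, hd⟩ := iact_isDiscrete_of_partR M A E hR
  have hw₁' : (w₁ : Qb) = w₀ := iact_algebraMap_injective M hw₁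
  have hq0 := iact_qep0_of_partR ζ hζ hℓM hA hR hw₁ hd
  have hI := iact_igusaData (iactO A E) ζ hζ hd hq0
  have hFc := hbd w₁ hd
  have hw₃ : iactFC (ιK.comp (iactSig E)) M w₁
      ∈ (baseChangeEmb (ιK.comp (iactSig E)) M F₀ hE).fieldRange :=
    ⟨algebraMap ↥E ↥(laurentBaseChange ↥E F₀) w₁, baseChangeEmb_algebraMap F₀ hE w₁⟩
  have hw : baseChangeEmb ιK M F₀ (iact_avatar_Qb hE) (cstG F₀ w₀)
      = iactFieldMap (iactSig E) ιK M (iactFC (ιK.comp (iactSig E)) M w₁) := by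
    rw [iactFieldMap_C, iact_baseChange_cstG hE, ← hw₁']
    rfl
  have hx := iact_baseChange_j hE hle
  constructor
  · exact iact_qep_pull (baseChangeEmb ιK M F₀ (iact_avatar_Qb hE))
      (iactFieldMap (iactSig E) ιK M) (iact_FcT_map hE) (iact_RcG_map hE) hx hw
      (fun g hg f hf => iact_mem_gaussRing_of_mem_VcT hE hg hf)
      (hI.qep_fin _ hFc hw₃)
  · have hx' : baseChangeEmb ιK M F₀ (iact_avatar_Qb hE) (iotaG M F₀ hle (jOm M))⁻¹
        = iactFieldMap (iactSig E) ιK M (iactFJ (ιK.comp (iactSig E)) M)⁻¹ := by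
      rw [map_inv₀, map_inv₀, hx]
    exact iact_qep_pull (baseChangeEmb ιK M F₀ (iact_avatar_Qb hE))
      (iactFieldMap (iactSig E) ιK M) (iact_FcT_map hE) (iact_RcG_map hE) hx' hw
      (fun g hg f hf => iact_mem_gaussRing_of_mem_VcT hE hg hf)
      (iact_igusa_qep_inf hI _ hFc hw₃)

/-- **Fields `qep_fin`, `qep_inf` of `Red1.TopLeaves (F1 M) A E w₀ j`, VERBATIM**, for every
number field `E ∋ ζ_M`, every `A` above `ℓ ∤ M` and every uniformiser `w₀` of `A ∩ E`. -/
theorem iact_topLeaves_qep_F1 {ℓ : ℕ} [Fact ℓ.Prime] (hℓM : ¬ ℓ ∣ M) (hA : A.LiesOverPrime ℓ)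
    [FiniteDimensional ℚ E] (hζE : ((iactZeta M : Qbˣ) : Qb) ∈ E)
    {w₀ : Qb} (hunif : H248.IsUnifG A E.toSubfield w₀)
    (hle : modularFunctionFieldFull M ≤ F1 M) :
    (∀ b ∈ chart (FcT (F1 M) E.toSubfield) (H248.RcG A E.toSubfield (cstG (F1 M)))
        (iotaG M (F1 M) hle (jOm M)),
      b * (cstG (F1 M) w₀)⁻¹ ∈ VcT (F1 M) A E.toSubfield →
        b * (cstG (F1 M) w₀)⁻¹ ∈ chart (FcT (F1 M) E.toSubfield)
          (H248.RcG A E.toSubfield (cstG (F1 M))) (iotaG M (F1 M) hle (jOm M))) ∧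
    (∀ b ∈ chart (FcT (F1 M) E.toSubfield) (H248.RcG A E.toSubfield (cstG (F1 M)))
        (iotaG M (F1 M) hle (jOm M))⁻¹,
      b * (cstG (F1 M) w₀)⁻¹ ∈ VcT (F1 M) A E.toSubfield →
        b * (cstG (F1 M) w₀)⁻¹ ∈ chart (FcT (F1 M) E.toSubfield)
          (H248.RcG A E.toSubfield (cstG (F1 M))) (iotaG M (F1 M) hle (jOm M))⁻¹) := by
  obtain ⟨ζ, hζ⟩ := iact_exists_zeta_of_mem M E hζE
  exact iact_top_qep hle ζ hζ (H668.coeffEmb_mem_avatarField_F1 ζ hζ)
    (fun w₁ hd => H668.f1Emb_fieldRange_le_iactBd ζ hζ (iactO A E) hd) hℓM hA hunif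

/-- **`Red1.TopLeaves (F1 M) A E w₀ j` from its two remaining fields** `finite`, `separable`
(the fields `qep_fin`, `qep_inf` are `iact_topLeaves_qep_F1`). -/
theorem iact_topLeaves_F1_of {ℓ : ℕ} [Fact ℓ.Prime] (hℓM : ¬ ℓ ∣ M) (hA : A.LiesOverPrime ℓ)
    [FiniteDimensional ℚ E] (hζE : ((iactZeta M : Qbˣ) : Qb) ∈ E)
    {w₀ : Qb} (hunif : H248.IsUnifG A E.toSubfield w₀)
    (hle : modularFunctionFieldFull M ≤ F1 M)
    (hfin : ∃ s : Finset (OmG (F1 M)), (s : Set (OmG (F1 M))) ⊆ FcT (F1 M) E.toSubfield ∧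
      ∀ f ∈ FcT (F1 M) E.toSubfield, f ∈ Submodule.span
        (ratField (H248.EcG E.toSubfield (cstG (F1 M))) (iotaG M (F1 M) hle (jOm M)))
        (s : Set (OmG (F1 M))))
    (hsep : ∀ f ∈ VcT (F1 M) A E.toSubfield, ∃ P : Polynomial (OmG (F1 M)),
      (∀ i, P.coeff i ∈ polyRing (H248.RcG A E.toSubfield (cstG (F1 M)))
        (iotaG M (F1 M) hle (jOm M))) ∧
      P.eval f * (cstG (F1 M) w₀)⁻¹ ∈ VcT (F1 M) A E.toSubfield ∧
      (Polynomial.derivative P).eval f ≠ 0 ∧
      ((Polynomial.derivative P).eval f)⁻¹ ∈ VcT (F1 M) A E.toSubfield) :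
    TopLeaves (F1 M) A E.toSubfield w₀ (iotaG M (F1 M) hle (jOm M)) :=
  { finite := hfin
    separable := hsep
    qep_fin := (iact_topLeaves_qep_F1 hℓM hA hζE hunif hle).1
    qep_inf := (iact_topLeaves_qep_F1 hℓM hA hζE hunif hle).2 }

end Main

end Fermat.Agent.S48.H828


end
end
-- ===== PACK-END S48/H828/IActTop.lean

-- ===== PACK-BEGIN S48/H248/DegF1.lean
section




/-!
# S48 / Tower A1 / A1-RED leaf DEG (helper248), part 2: the two FF hypotheses of `H908.Core1.core1`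

* `finHyp : H908.Core1.FinHyp`  — `ℚ̄·F1(M)` is a function field in one variable
  (adapter from `H332.f1_finiteDimensional`, `H332.f1DataInf`);
* `degHyp : H908.Core1.DegHyp`  — `[ℚ̄·F1(M a) : ℚ̄·F1(M)] ∣ a² - 1` for a prime `a ∤ M`
  (`H332.f1_finrank_eq` at the levels `M` and `M a`, the tower law over `ℚ̄(j)`, and the group
  theory of `DegGroup.lean`: `[±Γ₁(M) : ±Γ₁(M a)] ∣ [Γ₁(M) : Γ₁(M a)] ∣ a² - 1`);
* `core1_of_mod : Mod1Hyp → CoreG (F1 M) A Fk ℓ` — `H908.Core1.core1` with both plugged in.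
-/

set_option autoImplicit false
set_option linter.style.haveILetI false

noncomputable section

open ModularCurve HahnSeries CongruenceSubgroup IntermediateField
open scoped MatrixGroups

namespace Fermat.Agent.S48.H248

open Fermat.Agent.S18 (Qb)
open Fermat.Agent.S48.F1 Fermat.Agent.S48.H332 Fermat.Agent.S48.H908.Core1

/-! ### `[±Γ₁(M) : ±Γ₁(M a)]` divides `a² - 1` -/

/-- `{±1}` is normal in `SL₂(ℤ)`. -/
theorem normal_zpowers_neg_one : (Subgroup.zpowers (-1 : SL(2, ℤ))).Normal := by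
  refine ⟨fun n hn g => ?_⟩
  obtain ⟨k, rfl⟩ := Subgroup.mem_zpowers_iff.mp hn
  have hc : Commute g (-1 : SL(2, ℤ)) := by
    show g * -1 = -1 * g
    simp
  rw [(hc.zpow_right k).eq, mul_inv_cancel_right]
  exact hn

theorem Gamma1_mul_le_left {M a : ℕ} (h : Nat.Coprime M a) : Gamma1 (M * a) ≤ Gamma1 M := by
  rw [Gamma1_mul_eq h]
  exact inf_le_right

theorem pmGamma1_mul_le {M a : ℕ} (h : Nat.Coprime M a) : pmGamma1 (M * a) ≤ pmGamma1 M := by
  intro g hg
  rcases mem_pmGamma1_iff.mp hg with h1 | h1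
  · exact mem_pmGamma1_iff.mpr (Or.inl (Gamma1_mul_le_left h h1))
  · exact mem_pmGamma1_iff.mpr (Or.inr (Gamma1_mul_le_left h h1))

/-- **`[±Γ₁(M) : ±Γ₁(M a)]` divides `a² - 1`** for a prime `a ∤ M`. -/
theorem relIndex_pmGamma1_mul_dvd {M a : ℕ} (ha : a.Prime) (haM : ¬ a ∣ M) :
    (pmGamma1 (M * a)).relIndex (pmGamma1 M) ∣ a ^ 2 - 1 := by
  haveI := normal_zpowers_neg_one
  refine dvd_trans (relIndex_dvd_of_normal (Subgroup.zpowers (-1 : SL(2, ℤ)))
    (G₁ := Gamma1 M) (G₁' := Gamma1 (M * a)) ?_ (Gamma1_le_pmGamma1 _) (Gamma1_le_pmGamma1 _) ?_)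
    (relIndex_Gamma1_mul_dvd ha haM)
  · exact (Subgroup.zpowers_le).mpr (neg_one_mem_pmGamma1 _)
  · intro g hg
    rcases mem_pmGamma1_iff.mp hg with h | h
    · exact ⟨1, one_mem _, by simpa using h⟩
    · exact ⟨-1, Subgroup.mem_zpowers _, by simpa using h⟩

/-! ### The degree over `ℚ̄(j)` -/

/-- `ℚ̄(j) ⊆ ℚ̄((q))`. -/
def jField : IntermediateField Qb (LaurentSeries Qb) :=
  IntermediateField.adjoin Qb {coeffEmb Qb jq}

theorem jField_le (M : ℕ) : jField ≤ laurentBaseChange Qb (F1 M) := by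
  rw [jField, IntermediateField.adjoin_le_iff]
  rintro x hx
  rw [Set.mem_singleton_iff] at hx
  rw [hx]
  exact coeffEmb_mem_laurentBaseChange Qb (jq_mem_F1 M)

/-- `[ℚ̄·F1(M) : ℚ̄(j)] = [SL₂(ℤ) : ±Γ₁(M)]`, as a relative degree inside `ℚ̄((q))`. -/
theorem relfinrank_jField (M : ℕ) [NeZero M] :
    jField.relfinrank (laurentBaseChange Qb (F1 M)) = (pmGamma1 M).index := by
  rw [Subgroup.index_eq_card, ← f1_finrank_eq M]
  have h1 : (IntermediateField.adjoin Qb {f1J M}).map (laurentBaseChange Qb (F1 M)).val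
      = jField := by
    rw [IntermediateField.adjoin_map, Set.image_singleton]
    rfl
  have h2 : (⊤ : IntermediateField Qb ↥(laurentBaseChange Qb (F1 M))).map
      (laurentBaseChange Qb (F1 M)).val = laurentBaseChange Qb (F1 M) := by
    rw [← AlgHom.fieldRange_eq_map, IntermediateField.fieldRange_val]
  have h3 := IntermediateField.relfinrank_map_map
    (A := IntermediateField.adjoin Qb {f1J M})
    (B := (⊤ : IntermediateField Qb ↥(laurentBaseChange Qb (F1 M))))
    (laurentBaseChange Qb (F1 M)).val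
  rw [h1, h2, IntermediateField.relfinrank_top_right] at h3
  exact h3

/-! ### The two hypotheses -/

theorem exists_algebraMap_eq_of_isAlgebraic248 {K F : Type*} [Field K] [Field F] [Algebra K F]
    [IsAlgClosed K] {x : F} (hx : IsAlgebraic K x) : ∃ c : K, algebraMap K F c = x := by
  have hint : IsIntegral K x := hx.isIntegral
  refine ⟨-(minpoly K x).coeff 0, ?_⟩
  have hq : (minpoly K x).leadingCoeff = 1 := minpoly.monic hint
  have h : (minpoly K x).degree = 1 :=
    IsAlgClosed.degree_eq_one_of_irreducible K (minpoly.irreducible hint)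
  have : Polynomial.aeval x (minpoly K x) = 0 := minpoly.aeval K x
  rw [Polynomial.eq_X_add_C_of_degree_eq_one h, hq, Polynomial.C_1, one_mul,
    Polynomial.aeval_add, Polynomial.aeval_X, Polynomial.aeval_C,
    add_eq_zero_iff_eq_neg] at this
  exact (map_neg (algebraMap K F) ((minpoly K x).coeff 0)).symm ▸ this.symm

theorem not_mem_range_of_localData248 {K F C X : Type*} [Field K] [Field F] [Algebra K F]
    [Field C] [Nonempty X] {t : F} (d : Fermat.Agent.S24.LocalData K F C X t) (c : K) :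
    t ≠ algebraMap K F c := by
  intro h
  obtain ⟨x⟩ := ‹Nonempty X›
  have h1 := d.σ_t_order x
  have h3 : d.σ x t = HahnSeries.C (d.ι c) := (congrArg (d.σ x) h).trans (d.σ_const x c)
  rw [h3] at h1
  have h2 : (HahnSeries.C (d.ι c) : LaurentSeries C).order = 0 := by
    rw [HahnSeries.C_apply]
    by_cases hc : d.ι c = 0
    · simp [hc]
    · exact HahnSeries.order_single hc
  rw [h2] at h1
  have := d.m_pos
  omega

/-- An element with local data at its inverse is transcendental over an algebraically closed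
field of constants (inlined from `S24/Alg.lean`, to keep the import closure small). -/
theorem transcendental_of_localData_inv248 {K F C X : Type*} [Field K] [Field F] [Algebra K F]
    [IsAlgClosed K] [Field C] [Nonempty X] (j : F)
    (d : Fermat.Agent.S24.LocalData K F C X j⁻¹) : Transcendental K j := by
  intro halg
  obtain ⟨c, hc⟩ := exists_algebraMap_eq_of_isAlgebraic248 halg
  refine not_mem_range_of_localData248 d c⁻¹ ?_
  rw [map_inv₀, hc]

/-- **FinHyp** of `H908.Core1.core1`. -/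
theorem finHyp : FinHyp := by
  intro M hM
  haveI : NeZero M := ⟨hM⟩
  have : Nonempty (SL(2, ℤ) ⧸ pmGamma1 M) := ⟨((1 : SL(2, ℤ)) : SL(2, ℤ) ⧸ pmGamma1 M)⟩
  exact ⟨f1J M, transcendental_of_localData_inv248 (f1J M) (f1DataInf M),
    f1_finiteDimensional M⟩

/-- **DegHyp** of `H908.Core1.core1`. -/
theorem degHyp : DegHyp := by
  intro M a hM ha haM
  haveI : NeZero M := ⟨hM⟩
  haveI : NeZero (M * a) := ⟨Nat.mul_ne_zero hM ha.ne_zero⟩
  have hcop : Nat.Coprime M a := ((Nat.Prime.coprime_iff_not_dvd ha).mpr haM).symm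
  have hle : laurentBaseChange Qb (F1 M) ≤ laurentBaseChange Qb (F1 (M * a)) :=
    lbc_mono Qb (F1_le_of_dvd (Dvd.intro a rfl))
  have ht := IntermediateField.relfinrank_mul_relfinrank (jField_le M) hle
  rw [relfinrank_jField, relfinrank_jField] at ht
  have hidx := Subgroup.relIndex_mul_index (pmGamma1_mul_le hcop)
  have hne : (pmGamma1 M).index ≠ 0 := Subgroup.FiniteIndex.index_ne_zero
  have hd : (laurentBaseChange Qb (F1 M)).relfinrank (laurentBaseChange Qb (F1 (M * a)))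
      = (pmGamma1 (M * a)).relIndex (pmGamma1 M) := by
    apply Nat.eq_of_mul_eq_mul_left (Nat.pos_of_ne_zero hne)
    rw [ht, ← hidx, mul_comm]
  rw [hd]
  exact relIndex_pmGamma1_mul_dvd ha haM

/-- **CORE1 from MOD1 alone**: `H908.Core1.core1` with `FinHyp` and `DegHyp` discharged. -/
theorem core1_of_mod (hmod : Mod1Hyp) (M ℓ p : ℕ) (hM : M ≠ 0)
    (hℓ : ℓ.Prime) (hp : p.Prime) (hpMℓ : ¬ p ∣ M * ℓ) (A : ValuationSubring Qb)
    (hA : A.LiesOverPrime p)
    (Fk : IntermediateField (IsLocalRing.ResidueField A)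
      (LaurentSeries (IsLocalRing.ResidueField A))) :
    Fermat.Agent.S48.H136.CoreG (F1 M) A Fk ℓ :=
  core1 hmod finHyp degHyp M ℓ p hM hℓ hp hpMℓ A hA Fk

end Fermat.Agent.S48.H248

end
end
-- ===== PACK-END S48/H248/DegF1.lean

-- ===== PACK-BEGIN S48/H908/Core1Top.lean
section



/-!
# S48 / RES (Tower A1) / A1-RED — R6, route through the levels `2M`, `3M` (helper908)

`H556.Core1Top` (the input CORE of `H136.rawES1_of_valTop` / `H556.rawES1_of_val`) from

* `GoodCore1` : `CoreG (F1 M) A ⊤ ℓ` at the GOOD pairs `(M, p)` only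
  (`5 ≤ p`, or `p = 3 ∧ 2 ∣ M`, or `p = 2 ∧ 3 ∣ M`: coordinates `j`, `t₂`, `t₃ ∈ F0(M) ≤ F1 M`);
* `Core1.DegHyp` : `[ℚ̄·F1(M a) : ℚ̄·F1(M)] ∣ a² - 1` for a prime `a ∤ M` (used for `a = 2, 3`).

For `p = 3, 2 ∤ M` (resp. `p = 2, 3 ∤ M`) the core descends from the GOOD pair `(2M, 3)`
(resp. `(3M, 2)`) by the norm trick `Core1.coreG_of_le` along `F1 M ≤ F1 (2M)` (`Core1.F1_le_of_dvd`).
Only fields of the form `F1 M'` occur: NO `F1p M a`, NO pull-back data.
-/

set_option autoImplicit false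

noncomputable section

namespace Fermat.Agent.S48.H908.Core1

open ModularCurve AlgebraicCurve HahnSeries IsLocalRing
open Fermat.Agent.S18 (Qb)
open Fermat.Agent.S48.H136 (IsIntG toFG CoreG)
open Fermat.Agent.S48.F1

/-- The Kummer core at the good pairs `(M, p)`. -/
def GoodCore1 : Prop :=
  ∀ (M ℓ p : ℕ), M ≠ 0 → ℓ.Prime → p.Prime → ¬ p ∣ M → ¬ p ∣ ℓ → (p = 3 → 2 ∣ M) →
    (p = 2 → 3 ∣ M) → ∀ A : ValuationSubring Qb, A.LiesOverPrime p → CoreG (F1 M) A ⊤ ℓ

/-- MOD1 (minimal form) + FIN give the core at the good pairs. -/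
theorem goodCore1_of_mod (hmod : Mod1Hyp) (hfin : FinHyp) : GoodCore1 :=
  fun M ℓ p hM hℓ hp hpM hpℓ h3 h2 A hA => core1_good hmod hfin M ℓ p hM hℓ hp hpM hpℓ h3 h2 A hA

/-- The Kummer core at ALL pairs from the good pairs and the degrees. -/
theorem core1_top_of_good (hgood : GoodCore1) (hdeg : DegHyp) (M ℓ p : ℕ) (hM : M ≠ 0)
    (hℓ : ℓ.Prime) (hp : p.Prime) (hpMℓ : ¬ p ∣ M * ℓ) (A : ValuationSubring Qb)
    (hA : A.LiesOverPrime p) : CoreG (F1 M) A ⊤ ℓ := by
  have hpM : ¬ p ∣ M := fun h => hpMℓ (h.mul_right ℓ)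
  have hpℓ : ¬ p ∣ ℓ := fun h => hpMℓ (h.mul_left M)
  have hℓp : ℓ ≠ p := fun h => hpℓ (h ▸ dvd_rfl)
  by_cases h3 : p = 3
  · subst h3
    by_cases h2M : 2 ∣ M
    · exact hgood M ℓ 3 hM hℓ hp hpM hpℓ (fun _ => h2M) (fun h => by omega) A hA
    · have hM2 : M * 2 ≠ 0 := Nat.mul_ne_zero hM (by norm_num)
      have hp2 : ¬ 3 ∣ M * 2 := by
        intro h
        rcases (Nat.Prime.dvd_mul hp).mp h with h | h
        · exact hpM h
        · omega
      have hcore := hgood (M * 2) ℓ 3 hM2 hℓ hp hp2 hpℓ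
        (fun _ => Dvd.intro_left M rfl) (fun h => by omega) A hA
      refine core1_descend hdeg M 2 ℓ hM Nat.prime_two h2M ?_ A hcore
      have : (2 ^ 2 - 1 : ℕ) = 3 := by norm_num
      rw [this]
      exact (Nat.coprime_primes hp hℓ).mpr (Ne.symm hℓp)
  · by_cases h2 : p = 2
    · subst h2
      by_cases h3M : 3 ∣ M
      · exact hgood M ℓ 2 hM hℓ hp hpM hpℓ (fun h => by omega) (fun _ => h3M) A hA
      · have hM3 : M * 3 ≠ 0 := Nat.mul_ne_zero hM (by norm_num)
        have hp3 : ¬ 2 ∣ M * 3 := by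
          intro h
          rcases (Nat.Prime.dvd_mul hp).mp h with h | h
          · exact hpM h
          · omega
        have hcore := hgood (M * 3) ℓ 2 hM3 hℓ hp hp3 hpℓ
          (fun h => by omega) (fun _ => Dvd.intro_left M rfl) A hA
        refine core1_descend hdeg M 3 ℓ hM Nat.prime_three h3M ?_ A hcore
        have : (3 ^ 2 - 1 : ℕ) = 2 ^ 3 := by norm_num
        rw [this]
        exact Nat.Coprime.pow_left 3 ((Nat.coprime_primes hp hℓ).mpr (Ne.symm hℓp))
    · exact hgood M ℓ p hM hℓ hp hpM hpℓ (fun h => absurd h h3) (fun h => absurd h h2) A hA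

/-- **R6.**  `H556.Core1Top` from the core at the good pairs and the degrees. -/
theorem core1Top_of_good (hgood : GoodCore1) (hdeg : DegHyp) : Fermat.Agent.S48.H556.Core1Top :=
  fun M ℓ p hM hℓ hp hpMℓ A hA => core1_top_of_good hgood hdeg M ℓ p hM hℓ hp hpMℓ A hA

/-- **R6**, from MOD1 (minimal form), FIN and the degrees. -/
theorem core1Top_of_mod (hmod : Mod1Hyp) (hfin : FinHyp) (hdeg : DegHyp) :
    Fermat.Agent.S48.H556.Core1Top :=
  core1Top_of_good (goodCore1_of_mod hmod hfin) hdeg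

end Fermat.Agent.S48.H908.Core1

end
end
-- ===== PACK-END S48/H908/Core1Top.lean

-- ===== PACK-BEGIN S48/Red1/Top.lean
section





/-!
# S48 / RES (Tower A1), sub-tower A1-RED: `Core1Top` (helper588)

The last black box of S48:

* `qepF1`    : `QepF1` (helper828's `iact_topLeaves_qep_F1`, `T₀ = {ζ_M}`);
* `mod1Hyp`  : `H908.Core1.Mod1Hyp` (node R4: the good family of models of `Q̄·F1(M)`);
* `core1Top` : `H556.Core1Top` (R6: helper908's case split through the levels `2M`, `3M`, with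
  helper248's `finHyp`, `degHyp`).
-/

set_option autoImplicit false

noncomputable section

namespace Fermat.Agent.S48.Red1

open ModularCurve AlgebraicCurve HahnSeries Fermat.Agent.S18 Fermat.Agent.S18.Alg
open Fermat.Agent.S18.Mod Fermat.Agent.S48.H248 Fermat.Agent.S48.F1

/-- **The `q`-expansion principle leaf** for `E·F1(M)`, `E ∋ ζ_M`. -/
theorem qepF1 : QepF1 := by
  intro M p _ hp hpM A hA
  have : Fact p.Prime := ⟨hp⟩
  refine ⟨{((Fermat.Agent.S48.H828.iactZeta M : Qbˣ) : Qb)}, fun E w₀ hE hT hunif => ?_⟩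
  have h := Fermat.Agent.S48.H828.iact_topLeaves_qep_F1 (E := E) hpM hA
    (hT _ (Finset.mem_singleton_self _)) hunif (full_le_F1 M)
  exact ⟨h.1, h.2⟩

/-- **R4**: the MOD deliverable for `F1 M` at the good levels. -/
theorem mod1Hyp : Fermat.Agent.S48.H908.Core1.Mod1Hyp := mod1Hyp_of_qep qepF1

/-- **CORE1 (top form)**, unconditional. -/
theorem core1Top : Fermat.Agent.S48.H556.Core1Top :=
  Fermat.Agent.S48.H908.Core1.core1Top_of_good
    (Fermat.Agent.S48.H908.Core1.goodCore1_of_mod mod1Hyp Fermat.Agent.S48.H248.finHyp)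
    Fermat.Agent.S48.H248.degHyp

end Fermat.Agent.S48.Red1

end
end
-- ===== PACK-END S48/Red1/Top.lean

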